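import Fermat.Agent.S37.Defs

/-!
# S36, block (D) DESCENT: frozen interface of the block (helper53, sub-architect DESC)

`I` is ANY subgroup of `G_ℚ` (in use: the inertia group `A.inertiaSubgroupIn ℚ`),
`K0 = ℚ̄^I` (for inertia: `h81a_K0 A` of `S36/H81Base.lean`), `F = FF N`,
`F0 = F^I = h53d_F0 N I` the subfield of `I`-invariant functions.

The descent core (an `I`-fixed torsion class has an `I`-invariant Kummer function) is landed
(`S36/H17Desc.lean`, `S36/H36Descent.lean`, `S36/H79Desc.lean`, ...).  This file freezes the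
remaining deliverables of the block; every declaration is a definition or a frozen `Prop`.

* `DescCoeff`  : `f ∈ F0` iff all `q`-expansion coefficients of `f` are fixed by `I`.
* `DescPow`    : `w ∈ F0`, `w = c g ^ m` in `F`  ⟹  `w = c' g' ^ m` with `c' ∈ K0`, `g' ∈ F0`.
* `DescUnram`  : every place of `F` has a uniformiser in `F0` (the constant field extension
  `F / F0` is unramified).
* `DescExt`    : a valuation subring `O ≠ ⊤` of `F0` containing the constants `K0` is the
  restriction to `F0` of a place of `F`.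
* `DescLoc`    : the local datum at the closed points of the generic fibre of any model over
  `O0`: for `O` as in `DescExt` and `w ∈ F0` with `m ∣ div w` (over `ℚ̄`), `w = g ^ m ·` unit
  of `O` with `g ∈ F0`.
* `DescGen`    : `F0` is spanned over `K0` by the functions with rational `q`-expansion.
-/

set_option autoImplicit false

open AlgebraicCurve ModularCurve

noncomputable section

namespace Fermat.Agent.S36

open Fermat.Agent.S37 (Kbar GQ FF cst gal IsRat)

/-- `F0 = F^I`: the subfield of `FF N` of the functions fixed by the subgroup `I` of `G_ℚ`. -/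
def h53d_F0 (N : ℕ) (I : Subgroup GQ) : Subfield (FF N) where
  carrier := {f | ∀ σ ∈ I, gal N σ • f = f}
  mul_mem' := by
    intro a b ha hb σ hσ
    rw [smul_mul', ha σ hσ, hb σ hσ]
  one_mem' := by
    intro σ _
    rw [smul_one]
  add_mem' := by
    intro a b ha hb σ hσ
    rw [smul_add, ha σ hσ, hb σ hσ]
  zero_mem' := by
    intro σ _
    rw [smul_zero]
  neg_mem' := by
    intro a ha σ hσ
    rw [smul_neg, ha σ hσ]
  inv_mem' := by
    intro a ha σ hσ
    rw [smul_inv'', ha σ hσ]

theorem h53d_mem_F0 {N : ℕ} {I : Subgroup GQ} {f : FF N} :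
    f ∈ h53d_F0 N I ↔ ∀ σ ∈ I, gal N σ • f = f := Iff.rfl

/-- **D-COEFF.**  A function is `I`-invariant iff its `q`-expansion coefficients are. -/
def DescCoeff : Prop :=
  ∀ (N : ℕ) [NeZero N] (I : Subgroup GQ) (f : FF N),
    f ∈ h53d_F0 N I ↔ ∀ (n : ℤ) (σ : GQ), σ ∈ I → σ ((f : LaurentSeries Kbar).coeff n) =
      (f : LaurentSeries Kbar).coeff n

/-- **D-POW.**  An `I`-invariant function which is a constant times an `m`-th power in `F` is
a constant of `K0` times an `m`-th power in `F0`. -/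
def DescPow : Prop :=
  ∀ (N : ℕ) [NeZero N] (I : Subgroup GQ) (m : ℕ) (w g : FF N) (c : Kbar), w ≠ 0 →
    w ∈ h53d_F0 N I → w = cst N c * g ^ m →
    ∃ (c' : Kbar) (g' : FF N), (∀ σ ∈ I, σ c' = c') ∧ g' ∈ h53d_F0 N I ∧
      w = cst N c' * g' ^ m

/-- **D-UNRAM.**  Every place of `F` has a uniformiser in `F0`. -/
def DescUnram : Prop :=
  ∀ (N : ℕ) [NeZero N] (I : Subgroup GQ) (v : Place Kbar (FF N)),
    ∃ t : FF N, t ∈ h53d_F0 N I ∧ v.ord t = 1

/-- **D-EXT.**  A non-trivial valuation subring of `F0` containing the constants of `K0` is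
the restriction of a place of `F`. -/
def DescExt : Prop :=
  ∀ (N : ℕ) [NeZero N] (I : Subgroup GQ) (O : ValuationSubring (h53d_F0 N I)), O ≠ ⊤ →
    (∀ (c : Kbar) (hc : cst N c ∈ h53d_F0 N I), (⟨cst N c, hc⟩ : h53d_F0 N I) ∈ O) →
    ∃ v : Place Kbar (FF N), ∀ f : h53d_F0 N I, f ∈ O ↔ (f : FF N) ∈ v.toValuationSubring

/-- **D-LOC.**  The local datum at a closed point of the generic fibre: if `m ∣ ord_v w` at
all places `v` of `F` (over `ℚ̄`), then at every non-trivial valuation subring `O` of `F0`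
over `K0` the function `w ∈ F0` is an `m`-th power of an element of `F0` times a unit
of `O`. -/
def DescLoc : Prop :=
  ∀ (N : ℕ) [NeZero N] (I : Subgroup GQ) (O : ValuationSubring (h53d_F0 N I)), O ≠ ⊤ →
    (∀ (c : Kbar) (hc : cst N c ∈ h53d_F0 N I), (⟨cst N c, hc⟩ : h53d_F0 N I) ∈ O) →
    ∀ (m : ℕ) (w : h53d_F0 N I), w ≠ 0 →
      (∀ v : Place Kbar (FF N), (m : ℤ) ∣ v.ord (w : FF N)) →
      ∃ g : h53d_F0 N I, g ≠ 0 ∧ w / g ^ m ∈ O ∧ g ^ m / w ∈ O

/-- **D-GEN.**  `F0` is spanned over `K0` by the functions with rational `q`-expansion. -/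
def DescGen : Prop :=
  ∀ (N : ℕ) [NeZero N] (I : Subgroup GQ) (f : FF N), f ∈ h53d_F0 N I →
    ∃ (n : ℕ) (c : Fin n → Kbar) (e : Fin n → FF N),
      (∀ i, ∀ σ ∈ I, σ (c i) = c i) ∧ (∀ i, IsRat (e i)) ∧
      f = ∑ i, cst N (c i) * e i

end Fermat.Agent.S36
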