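import Mathlib
import Fermat.Agent.S36.H53DescIface

/-!
# S36, block REG (sub-architect helper62): frozen interface

Valuation-free and localisation-free vocabulary (only elements and ideals of the chart).

* `H62RegAt 𝔫 π` : the chart `B` is *regular with normal crossings* at the closed point `𝔫` of
  the fibre `π = 0`:
  * `two_gen`  : `𝔫 = (x, y)` locally at `𝔫`  (so `B_𝔫` is regular, hence factorial:
    landed `h80u_ufd_of_two_gen`, `h16r_ufd`, `h16r_lp_of_two_gen`);
  * `branch`   : for every prime `π ∈ P ≤ 𝔫`, `P ≠ 𝔫` (a component of the fibre through `𝔫`):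
    `𝔫 = P + (t)` locally  (the branch `B_𝔫 / P` is a discrete valuation ring);
  * `transversal` : for two distinct such primes `P ≠ P'`: `𝔫 = P + P'` locally.
* `h62r_regAt_of_branches` : **the criterion** (proved here, Mathlib only): if there are
  finitely many `f i ∈ 𝔫` with `𝔫 = (f i, t i)` locally, `𝔫 = (f i, f j)` locally for `i ≠ j`,
  and every prime `π ∈ P ≤ 𝔫` contains some `f i`, then `H62RegAt 𝔫 π`.
  (One-branch points: `ι = Unit`, `f = z` with `z ^ e ∈ π B` locally; `e = 1`, `z = π` at the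
  ordinary points of `C₂₀`, `C₀₂` and the cusps; `e = q - 1` on `C₁₁`.  Supersingular points:
  `f = (Z - X ^ q², X - Z, X - Z ^ q²)`, `t = (X, X, Z)`, `𝔫 = (X, Z)` locally.)
* `h62r_prime_loc_eq` : under `𝔫 = (f, t)` locally, a prime `f ∈ P ≤ 𝔫`, `P ≠ 𝔫` is `(f)` locally.
* `h62rChart A N t` : the chart over the inertia ring `A₀`: the functions of `FF N` fixed by the
  inertia group of `A` and integral over `A[t]`.
* `H62RegStatement` : **REG (output of the block)**: for the good levels `M q²`, both charts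
  `t = j, j⁻¹` over `A₀` are noetherian and `H62RegAt 𝔫 q` holds at every closed point `𝔫 ∋ q`.

Every declaration is a definition or a theorem of commutative algebra; nothing is assumed.
-/

set_option autoImplicit false

open AlgebraicCurve ModularCurve IsLocalRing

noncomputable section

namespace Fermat.Agent.S36

/-! ## The abstract predicate -/

section Abstract

variable {B : Type*} [CommRing B]

/-- **regular with normal crossings** at the point `𝔫` of the fibre `π = 0`. -/
structure H62RegAt (𝔫 : Ideal B) (π : B) : Prop where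
  two_gen : ∃ x ∈ 𝔫, ∃ y ∈ 𝔫, ∀ z ∈ 𝔫, ∃ s, s ∉ 𝔫 ∧ s * z ∈ Ideal.span {x, y}
  branch : ∀ P : Ideal B, P.IsPrime → π ∈ P → P ≤ 𝔫 → P ≠ 𝔫 →
    ∃ t ∈ 𝔫, ∀ z ∈ 𝔫, ∃ s, s ∉ 𝔫 ∧ s * z ∈ P ⊔ Ideal.span {t}
  transversal : ∀ P P' : Ideal B, P.IsPrime → P'.IsPrime → π ∈ P → π ∈ P' →
    P ≤ 𝔫 → P' ≤ 𝔫 → P ≠ 𝔫 → P' ≠ 𝔫 → P ≠ P' →
    ∀ z ∈ 𝔫, ∃ s, s ∉ 𝔫 ∧ s * z ∈ P ⊔ P'

/-- a prime `f ∈ P ≤ 𝔫`, `P ≠ 𝔫`, is `(f)` locally at `𝔫` as soon as `𝔫 = (f, t)` locally
(Nakayama in the local ring). -/
theorem h62r_prime_loc_eq [IsNoetherianRing B] (𝔫 : Ideal B) [h𝔫 : 𝔫.IsPrime] (f t : B)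
    (ht : t ∈ 𝔫)
    (hgen : ∀ z ∈ 𝔫, ∃ s, s ∉ 𝔫 ∧ s * z ∈ Ideal.span {f, t})
    (P : Ideal B) [hP : P.IsPrime] (hf : f ∈ P) (hP𝔫 : P ≤ 𝔫) (hne : P ≠ 𝔫) :
    ∀ b ∈ P, ∃ s, s ∉ 𝔫 ∧ s * b ∈ Ideal.span {f} := by
  classical
  -- `t ∉ P`
  have htP : t ∉ P := by
    intro ht
    apply hne
    refine le_antisymm hP𝔫 fun z hz => ?_
    obtain ⟨s, hs, hsz⟩ := hgen z hz
    have h1 : s * z ∈ P := by
      have hle : Ideal.span {f, t} ≤ P := by
        rw [Ideal.span_le]
        intro w hw
        rcases hw with rfl | rfl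
        · exact hf
        · exact ht
      exact hle hsz
    rcases hP.mem_or_mem h1 with h | h
    · exact absurd (hP𝔫 h) hs
    · exact h
  let O := Localization.AtPrime 𝔫
  have hdisj : Disjoint (𝔫.primeCompl : Set B) (P : Set B) := by
    rw [Set.disjoint_left]
    intro b hb hb'
    exact hb (hP𝔫 hb')
  have hPprime : (P.map (algebraMap B O)).IsPrime :=
    IsLocalization.isPrime_of_isPrime_disjoint 𝔫.primeCompl O P hP hdisj
  have hcomap : (P.map (algebraMap B O)).comap (algebraMap B O) = P :=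
    IsLocalization.under_map_of_isPrime_disjoint 𝔫.primeCompl O hP hdisj
  have htP' : algebraMap B O t ∉ P.map (algebraMap B O) := by
    intro h
    have h1 : t ∈ (P.map (algebraMap B O)).comap (algebraMap B O) := Ideal.mem_comap.mpr h
    rw [hcomap] at h1
    exact htP h1
  -- every element of `P O` is in `(f) + t • P O`
  have hstep : P.map (algebraMap B O) ≤
      Ideal.span {algebraMap B O f} ⊔
        Ideal.span {algebraMap B O t} • P.map (algebraMap B O) := by
    have hgenO : ∀ w ∈ P.map (algebraMap B O), ∃ a c : O,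
        w = a * algebraMap B O f + c * algebraMap B O t := by
      intro w hw
      obtain ⟨b, s, rfl⟩ := IsLocalization.exists_mk'_eq 𝔫.primeCompl w
      have hb : b ∈ P := by
        have h1 : algebraMap B O b ∈ P.map (algebraMap B O) := by
          have h2 : algebraMap B O b = IsLocalization.mk' O b s * algebraMap B O (s : B) := by
            rw [IsLocalization.mk'_spec]
          rw [h2]
          exact Ideal.mul_mem_right _ _ hw
        rw [← hcomap]
        exact Ideal.mem_comap.mpr h1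
      obtain ⟨s', hs', hsb⟩ := hgen b (hP𝔫 hb)
      obtain ⟨a, c, hac⟩ := Ideal.mem_span_pair.mp hsb
      have hu : IsUnit (algebraMap B O s') :=
        IsLocalization.map_units O (⟨s', hs'⟩ : 𝔫.primeCompl)
      have hu2 : IsUnit (algebraMap B O (s : B)) := IsLocalization.map_units O s
      refine ⟨↑(hu.unit⁻¹) * ↑(hu2.unit⁻¹) * algebraMap B O a,
        ↑(hu.unit⁻¹) * ↑(hu2.unit⁻¹) * algebraMap B O c, ?_⟩
      have h3 : algebraMap B O a * algebraMap B O f + algebraMap B O c * algebraMap B O t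
          = algebraMap B O s' * algebraMap B O b := by
        rw [← map_mul, ← map_mul, ← map_add, hac, map_mul]
      have h4 : IsLocalization.mk' O b s * algebraMap B O (s : B) = algebraMap B O b :=
        IsLocalization.mk'_spec _ _ _
      calc IsLocalization.mk' O b s
          = ↑(hu.unit⁻¹) * ↑(hu2.unit⁻¹) *
              (algebraMap B O s' * (IsLocalization.mk' O b s * algebraMap B O (s : B))) := by
            have e1 : (↑(hu.unit⁻¹) : O) * algebraMap B O s' = 1 := IsUnit.val_inv_mul hu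
            have e2 : (↑(hu2.unit⁻¹) : O) * algebraMap B O (s : B) = 1 := IsUnit.val_inv_mul hu2
            calc IsLocalization.mk' O b s
                = ((↑(hu.unit⁻¹) : O) * algebraMap B O s') *
                    ((↑(hu2.unit⁻¹) : O) * algebraMap B O (s : B)) *
                    IsLocalization.mk' O b s := by rw [e1, e2]; ring
              _ = _ := by ring
        _ = _ := by rw [h4, ← h3]; ring
    intro w hw
    obtain ⟨a, c, rfl⟩ := hgenO w hw
    have hfP : algebraMap B O f ∈ P.map (algebraMap B O) := Ideal.mem_map_of_mem _ hf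
    have hct : c * algebraMap B O t ∈ P.map (algebraMap B O) := by
      have h1 : c * algebraMap B O t = (a * algebraMap B O f + c * algebraMap B O t)
          - a * algebraMap B O f := by ring
      rw [h1]
      exact Ideal.sub_mem _ hw (Ideal.mul_mem_left _ _ hfP)
    have hc : c ∈ P.map (algebraMap B O) := by
      rcases hPprime.mem_or_mem hct with h | h
      · exact h
      · exact absurd h htP'
    refine Ideal.add_mem _ (Ideal.mem_sup_left (Ideal.mul_mem_left _ _
      (Ideal.mem_span_singleton_self _))) (Ideal.mem_sup_right ?_)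
    rw [mul_comm]
    exact Ideal.mul_mem_mul (Ideal.mem_span_singleton_self _) hc
  have ht𝔪 : Ideal.span {algebraMap B O t} ≤ (⊥ : Ideal O).jacobson := by
    rw [IsLocalRing.jacobson_eq_maximalIdeal (⊥ : Ideal O) bot_ne_top,
      Ideal.span_singleton_le_iff_mem, ← Localization.AtPrime.map_eq_maximalIdeal]
    refine Ideal.mem_map_of_mem _ ?_
    exact ht
  have hle : P.map (algebraMap B O) ≤ Ideal.span {algebraMap B O f} :=
    Submodule.le_of_le_smul_of_le_jacobson_bot (IsNoetherian.noetherian _) ht𝔪 hstep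
  intro b hb
  have h1 : algebraMap B O b ∈ Ideal.span {algebraMap B O f} := hle (Ideal.mem_map_of_mem _ hb)
  obtain ⟨c, hc⟩ := Ideal.mem_span_singleton'.mp h1
  obtain ⟨c₀, s, hcs⟩ := IsLocalization.exists_mk'_eq 𝔫.primeCompl c
  have h2 : algebraMap B O ((s : B) * b) = algebraMap B O (c₀ * f) := by
    rw [map_mul, map_mul, ← hc, ← hcs, ← mul_assoc, mul_comm (algebraMap B O (s : B)),
      IsLocalization.mk'_spec]
  obtain ⟨s', hs'⟩ := (IsLocalization.eq_iff_exists 𝔫.primeCompl O).mp h2
  refine ⟨(s' : B) * (s : B), fun h => (h𝔫.mem_or_mem h).elim s'.2 s.2, ?_⟩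
  rw [mul_assoc, hs']
  exact Ideal.mul_mem_left _ _ (Ideal.mul_mem_left _ _ (Ideal.mem_span_singleton_self _))

/-- **the criterion**: finitely many branches `f i` with parameters `t i`, pairwise
transversal, covering the fibre `π = 0` at `𝔫`. -/
theorem h62r_regAt_of_branches [IsNoetherianRing B] (𝔫 : Ideal B) [h𝔫 : 𝔫.IsPrime] (π : B)
    {ι : Type*} [Nonempty ι] (f t : ι → B) (hf : ∀ i, f i ∈ 𝔫) (ht : ∀ i, t i ∈ 𝔫)
    (hpar : ∀ i, ∀ z ∈ 𝔫, ∃ s, s ∉ 𝔫 ∧ s * z ∈ Ideal.span {f i, t i})
    (hpair : ∀ i j, i ≠ j → ∀ z ∈ 𝔫, ∃ s, s ∉ 𝔫 ∧ s * z ∈ Ideal.span {f i, f j})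
    (hcov : ∀ P : Ideal B, P.IsPrime → π ∈ P → P ≤ 𝔫 → ∃ i, f i ∈ P) :
    H62RegAt 𝔫 π := by
  classical
  refine ⟨?_, ?_, ?_⟩
  · obtain ⟨i⟩ := (inferInstance : Nonempty ι)
    exact ⟨f i, hf i, t i, ht i, hpar i⟩
  · intro P hP hπ hle _
    obtain ⟨i, hi⟩ := hcov P hP hπ hle
    refine ⟨t i, ht i, fun z hz => ?_⟩
    obtain ⟨s, hs, hsz⟩ := hpar i z hz
    refine ⟨s, hs, ?_⟩
    have hle' : Ideal.span {f i, t i} ≤ P ⊔ Ideal.span {t i} := by
      rw [Ideal.span_le]
      intro w hw
      rcases hw with rfl | rfl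
      · exact Ideal.mem_sup_left hi
      · exact Ideal.mem_sup_right (Ideal.mem_span_singleton_self _)
    exact hle' hsz
  · intro P P' hP hP' hπ hπ' hle hle' hne hne' hPP' z hz
    obtain ⟨i, hi⟩ := hcov P hP hπ hle
    obtain ⟨j, hj⟩ := hcov P' hP' hπ' hle'
    by_cases hij : i = j
    · exfalso
      subst hij
      apply hPP'
      have h1 := h62r_prime_loc_eq 𝔫 (f i) (t i) (ht i) (hpar i) P hi hle hne
      have h2 := h62r_prime_loc_eq 𝔫 (f i) (t i) (ht i) (hpar i) P' hj hle' hne'
      apply le_antisymm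
      · intro b hb
        obtain ⟨s, hs, hsb⟩ := h1 b hb
        have h3 : s * b ∈ P' := by
          obtain ⟨c, hc⟩ := Ideal.mem_span_singleton'.mp hsb
          rw [← hc]
          exact Ideal.mul_mem_left _ _ hj
        rcases hP'.mem_or_mem h3 with h | h
        · exact absurd (hle' h) hs
        · exact h
      · intro b hb
        obtain ⟨s, hs, hsb⟩ := h2 b hb
        have h3 : s * b ∈ P := by
          obtain ⟨c, hc⟩ := Ideal.mem_span_singleton'.mp hsb
          rw [← hc]
          exact Ideal.mul_mem_left _ _ hi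
        rcases hP.mem_or_mem h3 with h | h
        · exact absurd (hle h) hs
        · exact h
    · obtain ⟨s, hs, hsz⟩ := hpair i j hij z hz
      refine ⟨s, hs, ?_⟩
      have hle'' : Ideal.span {f i, f j} ≤ P ⊔ P' := by
        rw [Ideal.span_le]
        intro w hw
        rcases hw with rfl | rfl
        · exact Ideal.mem_sup_left hi
        · exact Ideal.mem_sup_right hj
      exact hle'' hsz

end Abstract

/-! ## The modular statement -/

open Fermat.Agent.S37 (Kbar GQ FF jB modelAt auxLevel)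

/-- the chart over the inertia ring `A₀ = A ∩ ℚ̄ ^ I`: the functions of `FF N` fixed by the
inertia group `I` of `A` which are integral over `A[t]`. -/
def h62rChart (A : ValuationSubring Kbar) (N : ℕ) (t : FF N) : Subring (FF N) :=
  modelAt N A t ⊓ (h53d_F0 N (A.inertiaSubgroupIn ℚ)).toSubring

theorem h62r_mem_chart {A : ValuationSubring Kbar} {N : ℕ} {t u : FF N} :
    u ∈ h62rChart A N t ↔
      u ∈ modelAt N A t ∧ ∀ σ ∈ A.inertiaSubgroupIn ℚ, Fermat.Agent.S37.gal N σ • u = u :=
  Iff.rfl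

/-- **REG** at the chart `t` of level `N` over `A₀`, fibre `q = 0`. -/
def H62RegChart (A : ValuationSubring Kbar) (N : ℕ) (q : ℕ) (t : FF N) : Prop :=
  IsNoetherianRing (h62rChart A N t) ∧
    ∀ 𝔫 : Ideal (h62rChart A N t), 𝔫.IsMaximal → (q : h62rChart A N t) ∈ 𝔫 →
      H62RegAt 𝔫 (q : h62rChart A N t)

/-- **REG (output of the block).**  At the good levels `M q²` both charts of the normal model
over `A₀` are noetherian, regular with normal crossings at every closed point of the special
fibre. -/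
def H62RegStatement : Prop :=
  ∀ (q : ℕ) (hq : q.Prime) (M : ℕ) [NeZero M], ¬ q ∣ M → auxLevel q ∣ M →
    haveI : NeZero q := ⟨hq.ne_zero⟩
    ∀ A : ValuationSubring Kbar, A.LiesOverPrime q →
      H62RegChart A (M * q * q) q (jB (M * q * q)) ∧
      H62RegChart A (M * q * q) q (jB (M * q * q))⁻¹

end Fermat.Agent.S36
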