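import Mathlib
import Fermat.Agent.Bridge.H47Inertia

/-!
# S36, block BASE (helper59): the inertia group is closed; `A` is integral over `A ∩ ℚ̄^I`

Let `A` be a valuation subring of `ℚ̄` and `I = A.inertiaSubgroupIn ℚ`, `K₀ = ℚ̄^I`.

* `h59c_isClosed_decomposition`, `h59c_isClosed_inertia` : the decomposition group and the
  inertia group are closed in the Krull topology.
* `h59c_fixingSubgroup_fixedField` : `Gal(ℚ̄ / K₀) = I`.
* `h59c_mem_inertia_of_fixes` : an automorphism fixing every `I`-fixed element lies in `I`;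
  `h59c_map_mem` : it maps `A` into `A`.
* `h59c_minpoly_coeff_mem` : for `x ∈ A` the minimal polynomial of `x` over `K₀` has its
  coefficients in `A`; `h59c_exists_monic` : `x` is a root of a monic polynomial whose
  coefficients are `I`-fixed elements of `A` (**`A` is integral over `A₀ = A ∩ K₀`**).
-/

set_option autoImplicit false

namespace Fermat.Agent.S36

open scoped Pointwise

noncomputable section

/-- the algebraic closure of `ℚ` (local abbreviation). -/
abbrev H59Kb : Type := AlgebraicClosure ℚ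

/-- the absolute Galois group of `ℚ` (local abbreviation). -/
abbrev H59G : Type := H59Kb ≃ₐ[ℚ] H59Kb

/-- the evaluation at `x` is locally constant on the Galois group. -/
theorem h59c_isOpen_eval (x y : H59Kb) : IsOpen {σ : H59G | σ x = y} := by
  rw [isOpen_iff_mem_nhds]
  intro σ₀ hσ₀
  have : Algebra.IsAlgebraic ℚ H59Kb := AlgebraicClosure.isAlgebraic ℚ
  have : Algebra.IsIntegral ℚ H59Kb := Algebra.IsAlgebraic.isIntegral
  have hopen : IsOpen (MulAction.stabilizer H59G x : Set H59G) :=
    stabilizer_isOpen_of_isIntegral x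
  have h1 : (fun τ : H59G => σ₀⁻¹ * τ) ⁻¹' (MulAction.stabilizer H59G x : Set H59G) ∈ nhds σ₀ := by
    apply (hopen.preimage (continuous_const_mul σ₀⁻¹)).mem_nhds
    show σ₀⁻¹ * σ₀ ∈ MulAction.stabilizer H59G x
    rw [inv_mul_cancel]
    exact one_mem _
  refine Filter.mem_of_superset h1 ?_
  intro τ hτ
  have h2 : (σ₀⁻¹ * τ) • x = x := hτ
  have h3 : σ₀ ((σ₀⁻¹ * τ) x) = σ₀ x := by
    have : (σ₀⁻¹ * τ) x = x := h2
    rw [this]
  have h4 : σ₀ ((σ₀⁻¹ * τ) x) = τ x := by
    show σ₀ (σ₀⁻¹ (τ x)) = τ x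
    exact σ₀.apply_symm_apply (τ x)
  show τ x = y
  rw [← h4, h3]
  exact hσ₀

/-- a condition on `σ x` is clopen. -/
theorem h59c_isClosed_eval (x : H59Kb) (P : H59Kb → Prop) : IsClosed {σ : H59G | P (σ x)} := by
  rw [← isOpen_compl_iff]
  have h : {σ : H59G | P (σ x)}ᶜ = ⋃ y ∈ {y : H59Kb | ¬ P y}, {σ : H59G | σ x = y} := by
    ext σ
    simp
  rw [h]
  exact isOpen_biUnion fun y _ => h59c_isOpen_eval x y

/-- a condition on `σ⁻¹ x` is closed. -/
theorem h59c_isClosed_eval_inv (x : H59Kb) (P : H59Kb → Prop) :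
    IsClosed {σ : H59G | P (σ⁻¹ x)} :=
  (h59c_isClosed_eval x P).preimage continuous_inv

/-- **the decomposition group is closed.** -/
theorem h59c_isClosed_decomposition (A : ValuationSubring H59Kb) :
    IsClosed ((A.decompositionSubgroup ℚ : Subgroup H59G) : Set H59G) := by
  have h : ((A.decompositionSubgroup ℚ : Subgroup H59G) : Set H59G)
      = ⋂ x : H59Kb, {σ : H59G | (σ⁻¹ x ∈ A ↔ x ∈ A)} := by
    ext σ
    simp only [SetLike.mem_coe, Set.mem_iInter, Set.mem_ofPred_eq]
    constructor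
    · intro hσ x
      have h1 : σ • A = A := hσ
      have h2 : x ∈ σ • A ↔ σ⁻¹ • x ∈ A :=
        ValuationSubring.mem_pointwise_smul_iff_inv_smul_mem
      rw [h1] at h2
      exact h2.symm
    · intro hσ
      show σ • A = A
      apply SetLike.ext
      intro x
      rw [ValuationSubring.mem_pointwise_smul_iff_inv_smul_mem]
      exact hσ x
  rw [h]
  exact isClosed_iInter fun x => h59c_isClosed_eval_inv x (fun y => (y ∈ A ↔ x ∈ A))

/-- **the inertia group is closed.** -/
theorem h59c_isClosed_inertia (A : ValuationSubring H59Kb) :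
    IsClosed ((A.inertiaSubgroupIn ℚ : Subgroup H59G) : Set H59G) := by
  have h : ((A.inertiaSubgroupIn ℚ : Subgroup H59G) : Set H59G)
      = ((A.decompositionSubgroup ℚ : Subgroup H59G) : Set H59G) ∩
        ⋂ z : H59Kb, {σ : H59G | (z ∈ A → σ z - z ∈ A.nonunits)} := by
    ext σ
    simp only [SetLike.mem_coe, Set.mem_inter_iff, Set.mem_iInter, Set.mem_ofPred_eq]
    exact Fermat.Agent.Bridge.H47.mem_inertiaSubgroupIn_iff A
  rw [h]
  exact (h59c_isClosed_decomposition A).inter
    (isClosed_iInter fun z => h59c_isClosed_eval z (fun y => (z ∈ A → y - z ∈ A.nonunits)))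

/-- **`Gal(ℚ̄ / ℚ̄^I) = I`.** -/
theorem h59c_fixingSubgroup_fixedField (A : ValuationSubring H59Kb) :
    (IntermediateField.fixedField (A.inertiaSubgroupIn ℚ)).fixingSubgroup
      = A.inertiaSubgroupIn ℚ := by
  have hAC : IsAlgClosure ℚ H59Kb := ⟨inferInstance, AlgebraicClosure.isAlgebraic ℚ⟩
  have hG : IsGalois ℚ H59Kb := IsAlgClosure.isGalois ℚ H59Kb
  exact InfiniteGalois.fixingSubgroup_fixedField
    (⟨A.inertiaSubgroupIn ℚ, h59c_isClosed_inertia A⟩ : ClosedSubgroup H59G)

/-- an automorphism fixing every inertia-fixed element lies in the inertia group. -/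
theorem h59c_mem_inertia_of_fixes (A : ValuationSubring H59Kb) (σ : H59G)
    (hσ : ∀ x : H59Kb, (∀ τ ∈ A.inertiaSubgroupIn ℚ, τ x = x) → σ x = x) :
    σ ∈ A.inertiaSubgroupIn ℚ := by
  rw [← h59c_fixingSubgroup_fixedField A, IntermediateField.mem_fixingSubgroup_iff]
  intro x hx
  exact hσ x ((IntermediateField.mem_fixedField_iff _ _).mp hx)

/-- an automorphism fixing every inertia-fixed element maps `A` into `A`. -/
theorem h59c_map_mem (A : ValuationSubring H59Kb) (σ : H59G)
    (hσ : ∀ x : H59Kb, (∀ τ ∈ A.inertiaSubgroupIn ℚ, τ x = x) → σ x = x)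
    {x : H59Kb} (hx : x ∈ A) : σ x ∈ A := by
  have h1 := h59c_mem_inertia_of_fixes A σ hσ
  have h2 := ((Fermat.Agent.Bridge.H47.mem_inertiaSubgroupIn_iff A).mp h1).2 x hx
  have h3 : σ x = (σ x - x) + x := by ring
  rw [h3]
  exact A.add_mem _ _ (A.nonunits_le h2) hx

/-! ### `A` is integral over `A ∩ K₀` -/

open Polynomial in
/-- a monic split polynomial whose roots lie in a subring has its coefficients in the subring. -/
theorem h59c_coeff_mem_of_roots {L : Type*} [Field L] (S : Subring L) (p : L[X])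
    (hm : p.Monic) (hs : p.Splits) (hr : ∀ r ∈ p.roots, r ∈ S) (i : ℕ) : p.coeff i ∈ S := by
  have hp : p = (p.roots.map (X - C ·)).prod := hs.eq_prod_roots_of_monic hm
  have hlift : p ∈ Polynomial.lifts S.subtype := by
    rw [hp]
    apply Subsemiring.multiset_prod_mem
    intro f hf
    obtain ⟨r, hr', rfl⟩ := Multiset.mem_map.mp hf
    rw [Polynomial.lifts_iff_liftsRing]
    refine sub_mem ?_ ?_
    · rw [← Polynomial.lifts_iff_liftsRing]
      exact Polynomial.X_mem_lifts _
    · rw [← Polynomial.lifts_iff_liftsRing]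
      exact Polynomial.C_mem_lifts S.subtype ⟨r, hr r hr'⟩
  obtain ⟨a, ha⟩ := (Polynomial.lifts_iff_coeff_lifts p).mp hlift i
  rw [← ha]
  exact a.2

open Polynomial in
/-- **for `x ∈ A`, the minimal polynomial of `x` over the inertia field has coefficients in
`A`.** -/
theorem h59c_minpoly_coeff_mem (A : ValuationSubring H59Kb) {x : H59Kb} (hx : x ∈ A) (i : ℕ) :
    (((minpoly (IntermediateField.fixedField (A.inertiaSubgroupIn ℚ)) x).coeff i :
      IntermediateField.fixedField (A.inertiaSubgroupIn ℚ)) : H59Kb) ∈ A := by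
  set K0 : IntermediateField ℚ H59Kb := IntermediateField.fixedField (A.inertiaSubgroupIn ℚ)
    with hK0
  have halgQ : Algebra.IsAlgebraic ℚ H59Kb := AlgebraicClosure.isAlgebraic ℚ
  have halg : Algebra.IsAlgebraic K0 H59Kb := Algebra.IsAlgebraic.tower_top (K := ℚ) K0
  have hAC : IsAlgClosure K0 H59Kb := ⟨inferInstance, halg⟩
  have hint : IsIntegral K0 x := (halg.isAlgebraic x).isIntegral
  set p : H59Kb[X] := (minpoly K0 x).map (algebraMap K0 H59Kb) with hp
  have hmonic : p.Monic := (minpoly.monic hint).map _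
  have hsplit : p.Splits := IsAlgClosed.splits p
  have hroots : ∀ r ∈ p.roots, r ∈ A.toSubring := by
    intro r hr
    have h_ev : aeval r (minpoly K0 x) = 0 := by
      have h1 := (Polynomial.mem_roots hmonic.ne_zero).mp hr
      rw [hp, IsRoot.def, eval_map] at h1
      exact h1
    obtain ⟨σ, hσ⟩ := minpoly.exists_algEquiv_of_root' (halg.isAlgebraic x) h_ev
    have h2 := h59c_map_mem A (σ.restrictScalars ℚ) (fun y hy => by
      have hy' : y ∈ K0 := (IntermediateField.mem_fixedField_iff _ _).mpr hy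
      exact σ.commutes ⟨y, hy'⟩) hx
    rw [← hσ]
    exact h2
  have h3 := h59c_coeff_mem_of_roots A.toSubring p hmonic hsplit hroots i
  rw [hp, coeff_map] at h3
  exact h3

open Polynomial in
/-- **`A` is integral over `A ∩ K₀`**: every `x ∈ A` is a root of a monic polynomial whose
coefficients are inertia-fixed elements of `A`. -/
theorem h59c_exists_monic (A : ValuationSubring H59Kb) {x : H59Kb} (hx : x ∈ A) :
    ∃ p : H59Kb[X], p.Monic ∧ p.eval x = 0 ∧
      ∀ i, p.coeff i ∈ A ∧ ∀ τ ∈ A.inertiaSubgroupIn ℚ, τ (p.coeff i) = p.coeff i := by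
  set K0 : IntermediateField ℚ H59Kb := IntermediateField.fixedField (A.inertiaSubgroupIn ℚ)
    with hK0
  have halgQ : Algebra.IsAlgebraic ℚ H59Kb := AlgebraicClosure.isAlgebraic ℚ
  have halg : Algebra.IsAlgebraic K0 H59Kb := Algebra.IsAlgebraic.tower_top (K := ℚ) K0
  have hint : IsIntegral K0 x := (halg.isAlgebraic x).isIntegral
  refine ⟨(minpoly K0 x).map (algebraMap K0 H59Kb), (minpoly.monic hint).map _, ?_, fun i => ?_⟩
  · rw [eval_map]
    exact minpoly.aeval K0 x
  · rw [coeff_map]
    exact ⟨h59c_minpoly_coeff_mem A hx i,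
      fun τ hτ => (IntermediateField.mem_fixedField_iff _ _).mp ((minpoly K0 x).coeff i).2 τ hτ⟩

end

end Fermat.Agent.S36
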