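import Mathlib
import Fermat.Agent.S37.Defs
import Fermat.Agent.S36.H59Closed

/-!
# S36, block BASE (helper59): the charts are integral over `A₀[t]`

`A` a valuation subring of `ℚ̄`, `I` its inertia group, `A₀ = A ∩ ℚ̄^I` (as a subring of `ℚ̄`:
`h59cA0 A`).  Since `A` is integral over `A₀` (`h59c_exists_monic`), the chart
`modelAt M A t` (elements of `FF M` integral over `A[t]`) is the integral closure of
`A₀[t] = h59cRingAdj0 M A t`:

* `h59c_adj_isIntegral_iff` : the abstract statement (`S₀ ⊆ S ⊆ K` subrings, `S` integral over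
  `S₀`, `F` a `K`-algebra, `x : F`: integral over `S[x]` iff integral over `S₀[x]`).
* `h59c_mem_modelAt_iff : y ∈ modelAt M A t ↔ IsIntegral (h59cRingAdj0 M A t) y`.
-/

set_option autoImplicit false

open Polynomial

namespace Fermat.Agent.S36

noncomputable section

section Abstract

variable {K F : Type*} [Field K] [CommRing F] [Algebra K F]

/-- the subring `S[x] ⊆ F` generated by the constants of `S ⊆ K` and `x`. -/
def h59cAdj (S : Set K) (x : F) : Subring F :=
  Subring.closure ((fun a : K => algebraMap K F a) '' S ∪ {x})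

theorem h59c_self_mem_adj (S : Set K) (x : F) : x ∈ h59cAdj S x :=
  Subring.subset_closure (Or.inr rfl)

theorem h59c_cst_mem_adj (S : Set K) (x : F) {a : K} (ha : a ∈ S) :
    algebraMap K F a ∈ h59cAdj S x :=
  Subring.subset_closure (Or.inl ⟨a, ha, rfl⟩)

theorem h59c_adj_mono {S₀ S : Set K} (h : S₀ ⊆ S) (x : F) : h59cAdj S₀ x ≤ h59cAdj S x := by
  apply Subring.closure_mono
  rintro y (⟨a, ha, rfl⟩ | hy)
  · exact Or.inl ⟨a, h ha, rfl⟩
  · exact Or.inr hy

/-- a constant which is a root of a monic polynomial with coefficients in `S₀` is integral over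
`S₀[x]`. -/
theorem h59c_cst_isIntegral_adj (S₀ : Set K) (x : F) {a : K} (p : K[X]) (hm : p.Monic)
    (hroot : p.eval a = 0) (hcoeff : ∀ i, p.coeff i ∈ S₀) :
    IsIntegral (h59cAdj S₀ x) (algebraMap K F a) := by
  set P : F[X] := p.map (algebraMap K F) with hP
  have hPm : P.Monic := hm.map _
  have hPc : (↑P.coeffs : Set F) ⊆ (h59cAdj S₀ x : Set F) := by
    intro c hc
    rw [Finset.mem_coe, Polynomial.mem_coeffs_iff] at hc
    obtain ⟨n, -, rfl⟩ := hc
    rw [hP, coeff_map]
    exact h59c_cst_mem_adj S₀ x (hcoeff n)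
  refine ⟨P.toSubring (h59cAdj S₀ x) hPc, (Polynomial.monic_toSubring P _ hPc).mpr hPm, ?_⟩
  have h1 : eval₂ (algebraMap (h59cAdj S₀ x) F) (algebraMap K F a)
      (P.toSubring (h59cAdj S₀ x) hPc)
      = eval (algebraMap K F a) ((P.toSubring (h59cAdj S₀ x) hPc).map
          (h59cAdj S₀ x).subtype) := by
    rw [eval_map]
    rfl
  rw [h1, Polynomial.map_toSubring, hP, eval_map, eval₂_at_apply, hroot, map_zero]

/-- `S[x]` is integral over `S₀[x]` if `S` is integral over `S₀`. -/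
theorem h59c_adj_isIntegral {S₀ S : Set K} (x : F)
    (hint : ∀ a ∈ S, ∃ p : K[X], p.Monic ∧ p.eval a = 0 ∧ ∀ i, p.coeff i ∈ S₀)
    {y : F} (hy : y ∈ h59cAdj S x) : IsIntegral (h59cAdj S₀ x) y := by
  have hle : h59cAdj S x ≤ (integralClosure (h59cAdj S₀ x) F).toSubring := by
    apply Subring.closure_le.mpr
    rintro z (⟨a, ha, rfl⟩ | hz)
    · obtain ⟨p, hm, hroot, hcoeff⟩ := hint a ha
      exact h59c_cst_isIntegral_adj S₀ x p hm hroot hcoeff
    · rw [Set.mem_singleton_iff] at hz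
      rw [hz]
      show IsIntegral (h59cAdj S₀ x) x
      have h1 : x = algebraMap (h59cAdj S₀ x) F ⟨x, h59c_self_mem_adj S₀ x⟩ := rfl
      rw [h1]
      exact isIntegral_algebraMap
  exact hle hy

/-- **integral over `S[x]` iff integral over `S₀[x]`** (`S₀ ⊆ S`, `S` integral over `S₀`). -/
theorem h59c_adj_isIntegral_iff {S₀ S : Set K} (hS : S₀ ⊆ S) (x : F)
    (hint : ∀ a ∈ S, ∃ p : K[X], p.Monic ∧ p.eval a = 0 ∧ ∀ i, p.coeff i ∈ S₀) (y : F) :
    IsIntegral (h59cAdj S x) y ↔ IsIntegral (h59cAdj S₀ x) y := by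
  constructor
  · rintro ⟨p, hpm, hp⟩
    set T := integralClosure (h59cAdj S₀ x) F with hT
    let ι : h59cAdj S x →+* T :=
      { toFun := fun r => ⟨(r : F), h59c_adj_isIntegral x hint r.2⟩
        map_one' := rfl
        map_mul' := fun _ _ => rfl
        map_zero' := rfl
        map_add' := fun _ _ => rfl }
    have hyT : IsIntegral T y := by
      refine ⟨p.map ι, hpm.map ι, ?_⟩
      rw [eval₂_map]
      exact hp
    exact isIntegral_trans (R := h59cAdj S₀ x) (A := T) y hyT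
  · rintro ⟨p, hpm, hp⟩
    let ι : h59cAdj S₀ x →+* h59cAdj S x := Subring.inclusion (h59c_adj_mono hS x)
    refine ⟨p.map ι, hpm.map ι, ?_⟩
    rw [eval₂_map]
    exact hp

end Abstract

/-! ### The charts of `X₀(M)` -/

open Fermat.Agent.S37

/-- `A₀ = A ∩ ℚ̄^I` as a set. -/
def h59cA0 (A : ValuationSubring Kbar) : Set Kbar :=
  {a | a ∈ A ∧ ∀ τ ∈ A.inertiaSubgroupIn ℚ, τ a = a}

theorem h59c_mem_A0_iff (A : ValuationSubring Kbar) (a : Kbar) :
    a ∈ h59cA0 A ↔ a ∈ A ∧ ∀ τ ∈ A.inertiaSubgroupIn ℚ, τ a = a := Iff.rfl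

theorem h59c_A0_subset (A : ValuationSubring Kbar) : h59cA0 A ⊆ (A : Set Kbar) :=
  fun _ ha => ha.1

/-- `A` is integral over `A₀`. -/
theorem h59c_A_integral (A : ValuationSubring Kbar) :
    ∀ a ∈ (A : Set Kbar), ∃ p : Kbar[X], p.Monic ∧ p.eval a = 0 ∧ ∀ i, p.coeff i ∈ h59cA0 A := by
  intro a ha
  obtain ⟨p, hm, hroot, hcoeff⟩ := h59c_exists_monic A ha
  exact ⟨p, hm, hroot, fun i => ⟨(hcoeff i).1, (hcoeff i).2⟩⟩

/-- the subring `A₀[x] ⊆ FF M`. -/
def h59cRingAdj0 (M : ℕ) (A : ValuationSubring Kbar) (x : FF M) : Subring (FF M) :=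
  h59cAdj (h59cA0 A) x

theorem h59c_ringAdj_eq (M : ℕ) (A : ValuationSubring Kbar) (x : FF M) :
    ringAdj M A x = h59cAdj (A : Set Kbar) x := rfl

theorem h59c_ringAdj0_le (M : ℕ) (A : ValuationSubring Kbar) (x : FF M) :
    h59cRingAdj0 M A x ≤ ringAdj M A x :=
  h59c_adj_mono (h59c_A0_subset A) x

set_option synthInstance.maxHeartbeats 400000 in
/-- **the chart `modelAt M A x` is the integral closure of `A₀[x]` in `FF M`.** -/
theorem h59c_mem_modelAt_iff (M : ℕ) (A : ValuationSubring Kbar) (x y : FF M) :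
    y ∈ modelAt M A x ↔ IsIntegral (h59cRingAdj0 M A x) y := by
  have h := h59c_adj_isIntegral_iff (F := FF M) (h59c_A0_subset A) x (h59c_A_integral A) y
  exact h

open AlgebraicCurve ModularCurve in
/-- if `x` is inertia-fixed, so is every element of `A₀[x]`. -/
theorem h59c_ringAdj0_fixed (M : ℕ) (A : ValuationSubring Kbar) (x : FF M)
    (hx : ∀ σ ∈ A.inertiaSubgroupIn ℚ, gal M σ • x = x) {y : FF M}
    (hy : y ∈ h59cRingAdj0 M A x) : ∀ σ ∈ A.inertiaSubgroupIn ℚ, gal M σ • y = y := by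
  intro σ hσ
  induction hy using Subring.closure_induction with
  | mem z hz =>
    rcases hz with ⟨a, ha, rfl⟩ | hz
    · show gal M σ • cst M a = cst M a
      rw [SemilinearAut.smul_algebraMap, baseAut_arithmeticGalois]
      show cst M (σ a) = cst M a
      rw [ha.2 σ hσ]
    · rw [Set.mem_singleton_iff] at hz
      rw [hz]
      exact hx σ hσ
  | zero => exact smul_zero _
  | one => exact smul_one _
  | add a b _ _ ha hb => rw [smul_add, ha, hb]
  | neg a _ ha => rw [smul_neg, ha]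
  | mul a b _ _ ha hb => rw [smul_mul', ha, hb]

end

end Fermat.Agent.S36
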