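/-
S36 (Carayol), no-regret leaf K0-BASE (helper69): the inertia field `K₀ = ℚ̄^{I_A}` of a valuation
subring `A` of `ℚ̄` over a prime `q`, and its valuation ring `A₀ = A ∩ K₀`.

* `h69b_K0 A`            : the fixed field of the inertia group `I_A` (a `ℚ`-subfield of `ℚ̄`);
* `h69b_A0 A`            : `A ∩ K₀`, a valuation subring of `K₀`;
* `h69b_unif`            : every `x ≠ 0` of `K₀` is `q ^ j * u`, `u` a unit of `A₀`;
* `h69b_irreducible`, `h69b_maximalIdeal`, `h69b_isDVR` : `A₀` is a discrete valuation ring with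
  uniformiser `q`;
* `h69b_harch`           : the archimedean hypothesis `harch` of the landed abstract gates.
-/
import Mathlib
import Fermat.Agent.PT.Glob.H55InertVal

set_option autoImplicit false
set_option linter.style.haveILetI false

noncomputable section

namespace Fermat.Agent.S36

open IsLocalRing

/-- `ℚ̄`. -/
abbrev h69b_Kb : Type := AlgebraicClosure ℚ

/-- the inertia field `K₀ = ℚ̄^{I_A}`. -/
def h69b_K0 (A : ValuationSubring h69b_Kb) : IntermediateField ℚ h69b_Kb :=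
  IntermediateField.fixedField (A.inertiaSubgroupIn ℚ)

theorem h69b_mem_K0 {A : ValuationSubring h69b_Kb} {x : h69b_Kb} :
    x ∈ h69b_K0 A ↔ ∀ σ ∈ A.inertiaSubgroupIn ℚ, σ x = x := by
  unfold h69b_K0
  rw [IntermediateField.mem_fixedField_iff]

/-- `A₀ = A ∩ K₀`, a valuation subring of `K₀`. -/
def h69b_A0 (A : ValuationSubring h69b_Kb) : ValuationSubring (h69b_K0 A) :=
  A.comap (algebraMap (h69b_K0 A) h69b_Kb)

theorem h69b_mem_A0 {A : ValuationSubring h69b_Kb} {x : h69b_K0 A} :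
    x ∈ h69b_A0 A ↔ (x : h69b_Kb) ∈ A :=
  ValuationSubring.mem_comap

/-- the prime `q` as an element of `A₀`. -/
def h69b_q (A : ValuationSubring h69b_Kb) (q : ℕ) : h69b_A0 A := (q : h69b_A0 A)

@[simp] theorem h69b_q_coe (A : ValuationSubring h69b_Kb) (q : ℕ) :
    (((h69b_q A q : h69b_A0 A) : h69b_K0 A) : h69b_Kb) = (q : h69b_Kb) := by
  simp [h69b_q]

/-- **K0-BASE (1).** Every non-zero element of the inertia field is `q ^ j` times a unit
of `A₀`. -/
theorem h69b_unif {q : ℕ} (hq : q.Prime) {A : ValuationSubring h69b_Kb}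
    (hA : A.LiesOverPrime q) (x : h69b_K0 A) (hx : x ≠ 0) :
    ∃ (j : ℤ) (u : h69b_K0 A), u ∈ h69b_A0 A ∧ u⁻¹ ∈ h69b_A0 A ∧ x = (q : h69b_K0 A) ^ j * u := by
  have hx' : (x : h69b_Kb) ≠ 0 := by
    intro h
    exact hx (Subtype.ext h)
  obtain ⟨j, u, hu, hu', hxu⟩ := Fermat.Agent.PT.Glob.h55v_kInertVal q hq A hA (x : h69b_Kb) hx'
    (fun ι hι => h69b_mem_K0.mp x.2 ι hι)
  have hq0 : (q : h69b_Kb) ≠ 0 := by exact_mod_cast hq.ne_zero
  have hq0' : (q : h69b_K0 A) ≠ 0 := by exact_mod_cast hq.ne_zero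
  have hcast : (((q : h69b_K0 A) ^ j : h69b_K0 A) : h69b_Kb) = (q : h69b_Kb) ^ j := by
    have h1 := map_zpow₀ (algebraMap (h69b_K0 A) h69b_Kb) (q : h69b_K0 A) j
    rw [map_natCast] at h1
    exact h1
  have hqj : (q : h69b_Kb) ^ j ≠ 0 := zpow_ne_zero _ hq0
  have hu0 : u ≠ 0 := by
    rintro rfl
    rw [mul_zero] at hxu
    exact hx' hxu
  have hval : ((x * ((q : h69b_K0 A) ^ j)⁻¹ : h69b_K0 A) : h69b_Kb) = u := by
    push_cast
    rw [hcast, hxu]
    field_simp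
  refine ⟨j, x * ((q : h69b_K0 A) ^ j)⁻¹, ?_, ?_, ?_⟩
  · rw [h69b_mem_A0, hval]; exact hu
  · rw [h69b_mem_A0]
    have : (((x * ((q : h69b_K0 A) ^ j)⁻¹)⁻¹ : h69b_K0 A) : h69b_Kb) = u⁻¹ := by
      rw [← hval]
      push_cast
      rfl
    rw [this]; exact hu'
  · field_simp

theorem h69b_mem_nonunits_A0 {A : ValuationSubring h69b_Kb} {x : h69b_K0 A} :
    x ∈ (h69b_A0 A).nonunits ↔ (x : h69b_Kb) ∈ A.nonunits := by
  rw [ValuationSubring.mem_nonunits_iff_or, ValuationSubring.mem_nonunits_iff_or, h69b_mem_A0]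
  constructor
  · rintro (h | h)
    · left; rw [h]; rfl
    · right; simpa using h
  · rintro (h | h)
    · left; exact Subtype.ext h
    · right; simpa using h

theorem h69b_mem_maximalIdeal_A0 {A : ValuationSubring h69b_Kb} {x : h69b_A0 A} :
    x ∈ maximalIdeal (h69b_A0 A) ↔ ((x : h69b_K0 A) : h69b_Kb) ∈ A.nonunits := by
  rw [← ValuationSubring.coe_mem_nonunits_iff, h69b_mem_nonunits_A0]

theorem h69b_q_mem_maximalIdeal {q : ℕ} {A : ValuationSubring h69b_Kb}
    (hA : A.LiesOverPrime q) : h69b_q A q ∈ maximalIdeal (h69b_A0 A) := by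
  rw [h69b_mem_maximalIdeal_A0, h69b_q_coe]
  exact hA

theorem h69b_q_ne_zero {q : ℕ} (hq : q.Prime) (A : ValuationSubring h69b_Kb) :
    h69b_q A q ≠ 0 := by
  intro h
  have h1 := congrArg (fun z : h69b_A0 A => ((z : h69b_K0 A) : h69b_Kb)) h
  simp only [h69b_q_coe] at h1
  have h2 : (q : h69b_Kb) ≠ 0 := by exact_mod_cast hq.ne_zero
  exact h2 (by simpa using h1)

/-- **K0-BASE (2a).** Every non-zero element of `A₀` is associated to a power of `q`. -/
theorem h69b_associated {q : ℕ} (hq : q.Prime) {A : ValuationSubring h69b_Kb}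
    (hA : A.LiesOverPrime q) (x : h69b_A0 A) (hx : x ≠ 0) :
    ∃ n : ℕ, Associated (h69b_q A q ^ n) x := by
  have hx' : (x : h69b_K0 A) ≠ 0 := fun h => hx (Subtype.ext h)
  obtain ⟨j, u, hu, hu', hxu⟩ := h69b_unif hq hA (x : h69b_K0 A) hx'
  have hq0 : (q : h69b_K0 A) ≠ 0 := by exact_mod_cast hq.ne_zero
  have hu0 : u ≠ 0 := by
    rintro rfl
    rw [mul_zero] at hxu
    exact hx' hxu
  let U : (h69b_A0 A)ˣ := ⟨⟨u, hu⟩, ⟨u⁻¹, hu'⟩, Subtype.ext (mul_inv_cancel₀ hu0),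
    Subtype.ext (inv_mul_cancel₀ hu0)⟩
  have hj : 0 ≤ j := by
    by_contra hneg
    rw [not_le] at hneg
    obtain ⟨k, hk⟩ : ∃ k : ℕ, -j = (k : ℤ) + 1 := ⟨(-j - 1).toNat, by omega⟩
    have hj' : j = -((k : ℤ) + 1) := by omega
    -- `q ^ (k+1) * x = u`
    have h1 : (h69b_q A q) ^ (k + 1) * x = (U : h69b_A0 A) := by
      apply Subtype.ext
      show ((h69b_q A q : h69b_A0 A) : h69b_K0 A) ^ (k + 1) * (x : h69b_K0 A) = u
      have hqc : ((h69b_q A q : h69b_A0 A) : h69b_K0 A) = (q : h69b_K0 A) := by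
        simp [h69b_q]
      rw [hqc, hxu, hj', zpow_neg, ← mul_assoc]
      have : (q : h69b_K0 A) ^ (k + 1) * ((q : h69b_K0 A) ^ ((k : ℤ) + 1))⁻¹ = 1 := by
        have h2 : (q : h69b_K0 A) ^ ((k : ℤ) + 1) = (q : h69b_K0 A) ^ (k + 1) := by
          exact_mod_cast zpow_natCast (q : h69b_K0 A) (k + 1)
        rw [h2]
        exact mul_inv_cancel₀ (pow_ne_zero _ hq0)
      rw [this, one_mul]
    have h3 : IsUnit ((h69b_q A q) ^ (k + 1) * x) := by rw [h1]; exact U.isUnit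
    have h4 : IsUnit ((h69b_q A q) ^ (k + 1)) := isUnit_of_mul_isUnit_left h3
    have h5 : IsUnit (h69b_q A q) := (isUnit_pow_iff (Nat.succ_ne_zero k)).mp h4
    exact (IsLocalRing.mem_maximalIdeal _).mp (h69b_q_mem_maximalIdeal hA) h5
  obtain ⟨n, rfl⟩ := Int.eq_ofNat_of_zero_le hj
  refine ⟨n, U, ?_⟩
  apply Subtype.ext
  show ((h69b_q A q : h69b_A0 A) : h69b_K0 A) ^ n * u = (x : h69b_K0 A)
  have hqc : ((h69b_q A q : h69b_A0 A) : h69b_K0 A) = (q : h69b_K0 A) := by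
    simp [h69b_q]
  rw [hqc, hxu, zpow_natCast]

/-- **K0-BASE (2b).** `q` is irreducible in `A₀`. -/
theorem h69b_irreducible {q : ℕ} (hq : q.Prime) {A : ValuationSubring h69b_Kb}
    (hA : A.LiesOverPrime q) : Irreducible (h69b_q A q) := by
  have hnu : ¬ IsUnit (h69b_q A q) :=
    (IsLocalRing.mem_maximalIdeal _).mp (h69b_q_mem_maximalIdeal hA)
  refine ⟨hnu, ?_⟩
  intro a b hab
  by_contra hcon
  rw [not_or] at hcon
  obtain ⟨ha, hb⟩ := hcon
  have ha0 : a ≠ 0 := by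
    rintro rfl
    rw [zero_mul] at hab
    exact h69b_q_ne_zero hq A hab
  have hb0 : b ≠ 0 := by
    rintro rfl
    rw [mul_zero] at hab
    exact h69b_q_ne_zero hq A hab
  obtain ⟨n, u, hn⟩ := h69b_associated hq hA a ha0
  obtain ⟨m, v, hm⟩ := h69b_associated hq hA b hb0
  have hn1 : 1 ≤ n := by
    rcases Nat.eq_zero_or_pos n with h | h
    · exfalso
      apply ha
      rw [← hn, h, pow_zero, one_mul]
      exact u.isUnit
    · exact h
  have hm1 : 1 ≤ m := by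
    rcases Nat.eq_zero_or_pos m with h | h
    · exfalso
      apply hb
      rw [← hm, h, pow_zero, one_mul]
      exact v.isUnit
    · exact h
  -- `q = q ^ (n + m) * (u v)`
  have h1 : h69b_q A q * 1 = h69b_q A q * (h69b_q A q ^ (n + m - 1) * (u * v : (h69b_A0 A)ˣ)) := by
    rw [mul_one, ← mul_assoc, ← pow_succ']
    have : n + m - 1 + 1 = n + m := by omega
    rw [this]
    conv_lhs => rw [hab, ← hn, ← hm]
    push_cast
    ring
  have h2 := mul_left_cancel₀ (h69b_q_ne_zero hq A) h1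
  have h3 : IsUnit (h69b_q A q ^ (n + m - 1)) := by
    exact IsUnit.of_mul_eq_one ((u * v : (h69b_A0 A)ˣ) : h69b_A0 A) h2.symm
  exact hnu ((isUnit_pow_iff (by omega)).mp h3)

/-- **K0-BASE (2c).** `A₀` is a discrete valuation ring. -/
theorem h69b_isDVR {q : ℕ} (hq : q.Prime) {A : ValuationSubring h69b_Kb}
    (hA : A.LiesOverPrime q) : IsDiscreteValuationRing (h69b_A0 A) :=
  IsDiscreteValuationRing.ofHasUnitMulPowIrreducibleFactorization
    ⟨h69b_q A q, h69b_irreducible hq hA, fun {x} hx => h69b_associated hq hA x hx⟩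

/-- **K0-BASE (2d).** The maximal ideal of `A₀` is generated by `q`. -/
theorem h69b_maximalIdeal {q : ℕ} (hq : q.Prime) {A : ValuationSubring h69b_Kb}
    (hA : A.LiesOverPrime q) : maximalIdeal (h69b_A0 A) = Ideal.span {h69b_q A q} := by
  haveI := h69b_isDVR hq hA
  exact (IsDiscreteValuationRing.irreducible_iff_uniformizer _).mp (h69b_irreducible hq hA)

/-- **K0-BASE (2e).** The archimedean hypothesis `harch` of the landed abstract gates
(`h63_gate_asm_loc`) for `A₀`. -/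
theorem h69b_harch {q : ℕ} (hq : q.Prime) {A : ValuationSubring h69b_Kb}
    (hA : A.LiesOverPrime q) :
    ∀ c ∈ maximalIdeal (h69b_A0 A), c ≠ 0 → ∀ a : h69b_A0 A, a ≠ 0 → ∃ k : ℕ, a ∣ c ^ k := by
  intro c hc hc0 a ha0
  obtain ⟨n, u, hn⟩ := h69b_associated hq hA c hc0
  obtain ⟨m, v, hm⟩ := h69b_associated hq hA a ha0
  have hn1 : 1 ≤ n := by
    rcases Nat.eq_zero_or_pos n with h | h
    · exfalso
      apply (IsLocalRing.mem_maximalIdeal _).mp hc
      rw [← hn, h, pow_zero, one_mul]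
      exact u.isUnit
    · exact h
  refine ⟨m, ?_⟩
  -- `c ^ m = q ^ (n m) u ^ m`, `a = q ^ m v`
  have h1 : c ^ m = a * (h69b_q A q ^ (n * m - m) * ((u ^ m * v⁻¹ : (h69b_A0 A)ˣ) : h69b_A0 A)) := by
    rw [← hn, ← hm]
    have hnm : n * m = m + (n * m - m) := by
      have : m ≤ n * m := Nat.le_mul_of_pos_left m hn1
      omega
    rw [mul_pow, ← pow_mul, hnm, pow_add]
    have : m + (n * m - m) - m = n * m - m := by omega
    rw [this]
    push_cast
    have hv : (v : h69b_A0 A) * ((v⁻¹ : (h69b_A0 A)ˣ) : h69b_A0 A) = 1 := v.mul_inv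
    calc h69b_q A q ^ m * h69b_q A q ^ (n * m - m) * (u : h69b_A0 A) ^ m
        = h69b_q A q ^ m * h69b_q A q ^ (n * m - m) * (u : h69b_A0 A) ^ m *
            ((v : h69b_A0 A) * ((v⁻¹ : (h69b_A0 A)ˣ) : h69b_A0 A)) := by rw [hv, mul_one]
      _ = _ := by ring
  exact ⟨_, h1⟩

end Fermat.Agent.S36
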