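/-
S36 (Carayol), no-regret leaf K0-BASE, part 3 (helper69): the residue field of the inertia field.

`A₀ = A ∩ K₀` (`K₀ = ℚ̄^{I_A}`, see `H69Base.lean`) has the same residue field as `A`:

* `h69b_exists_A0_congr` : every `a ∈ A` is congruent modulo `𝔪_A` to an element of `A₀`;
* `h69b_incl`            : the inclusion `A₀ →+* A` (a local homomorphism);
* `h69b_resMap`          : the induced map of residue fields, `h69b_resMap_bijective`;
* `h69b_resEquiv`        : the isomorphism `A₀ / 𝔪 ≃+* A / 𝔪_A`;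
* `h69b_residue_isAlgClosed` : the residue field of `A₀` is algebraically closed;
* `h69b_charP_residue`   : it has characteristic `q`.
-/
import Mathlib
import Fermat.Agent.S36.H69Base
import Fermat.Agent.LGC.H57Teich
import Fermat.Agent.S18.ResAlgClosed

set_option autoImplicit false
set_option linter.style.haveILetI false

noncomputable section

namespace Fermat.Agent.S36

open IsLocalRing

/-- **K0-BASE (3a).** Every element of `A` is congruent modulo `𝔪_A` to an element of
`A₀ = A ∩ K₀`. -/
theorem h69b_exists_A0_congr {q : ℕ} (hq : q.Prime) {A : ValuationSubring h69b_Kb}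
    (hA : A.LiesOverPrime q) {a : h69b_Kb} (ha : a ∈ A) :
    ∃ b : h69b_A0 A, a - ((b : h69b_K0 A) : h69b_Kb) ∈ A.nonunits := by
  obtain ⟨a', ha', hfix, hcong⟩ := Fermat.Agent.LGC.h57_exists_inertia_fixed (k := ℚ)
    (fun x => Fermat.Agent.LGC.h57_isAlgebraic_int x) A hq hA ha
  exact ⟨⟨⟨a', h69b_mem_K0.mpr hfix⟩, h69b_mem_A0.mpr ha'⟩, hcong⟩

/-- the inclusion `A₀ → A`. -/
def h69b_incl (A : ValuationSubring h69b_Kb) : h69b_A0 A →+* A where
  toFun x := ⟨((x : h69b_K0 A) : h69b_Kb), h69b_mem_A0.mp x.2⟩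
  map_one' := rfl
  map_mul' _ _ := rfl
  map_zero' := rfl
  map_add' _ _ := rfl

@[simp] theorem h69b_incl_coe (A : ValuationSubring h69b_Kb) (x : h69b_A0 A) :
    ((h69b_incl A x : A) : h69b_Kb) = ((x : h69b_K0 A) : h69b_Kb) := rfl

theorem h69b_incl_injective (A : ValuationSubring h69b_Kb) :
    Function.Injective (h69b_incl A) := by
  intro x y h
  have h1 := congrArg (fun z : A => (z : h69b_Kb)) h
  exact Subtype.ext (Subtype.ext h1)

instance h69b_incl_isLocalHom (A : ValuationSubring h69b_Kb) : IsLocalHom (h69b_incl A) := by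
  constructor
  intro x hx
  by_contra hnu
  have h1 : x ∈ maximalIdeal (h69b_A0 A) := (IsLocalRing.mem_maximalIdeal _).mpr hnu
  rw [h69b_mem_maximalIdeal_A0] at h1
  have h2 : (h69b_incl A x) ∈ maximalIdeal A := by
    rw [← ValuationSubring.coe_mem_nonunits_iff]
    exact h1
  exact (IsLocalRing.mem_maximalIdeal _).mp h2 hx

/-- the map of residue fields `A₀ / 𝔪 → A / 𝔪_A`. -/
def h69b_resMap (A : ValuationSubring h69b_Kb) :
    ResidueField (h69b_A0 A) →+* ResidueField A :=
  ResidueField.map (h69b_incl A)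

@[simp] theorem h69b_resMap_residue (A : ValuationSubring h69b_Kb) (x : h69b_A0 A) :
    h69b_resMap A (residue _ x) = residue A (h69b_incl A x) :=
  ResidueField.map_residue _ _

/-- **K0-BASE (3b).** The residue fields of `A₀` and `A` coincide. -/
theorem h69b_resMap_bijective {q : ℕ} (hq : q.Prime) {A : ValuationSubring h69b_Kb}
    (hA : A.LiesOverPrime q) : Function.Bijective (h69b_resMap A) := by
  refine ⟨(h69b_resMap A).injective, ?_⟩
  intro y
  obtain ⟨a, rfl⟩ := residue_surjective y
  obtain ⟨b, hb⟩ := h69b_exists_A0_congr hq hA a.2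
  refine ⟨residue _ b, ?_⟩
  rw [h69b_resMap_residue]
  have h1 : a - h69b_incl A b ∈ maximalIdeal A := by
    rw [← ValuationSubring.coe_mem_nonunits_iff]
    exact hb
  have h2 := (residue_eq_zero_iff _).mpr h1
  rw [map_sub, sub_eq_zero] at h2
  exact h2.symm

/-- the isomorphism of residue fields `A₀ / 𝔪 ≃ A / 𝔪_A`. -/
def h69b_resEquiv {q : ℕ} (hq : q.Prime) {A : ValuationSubring h69b_Kb}
    (hA : A.LiesOverPrime q) : ResidueField (h69b_A0 A) ≃+* ResidueField A :=
  RingEquiv.ofBijective (h69b_resMap A) (h69b_resMap_bijective hq hA)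

/-- **K0-BASE (3c).** The residue field of `A₀` is algebraically closed. -/
theorem h69b_residue_isAlgClosed {q : ℕ} (hq : q.Prime) {A : ValuationSubring h69b_Kb}
    (hA : A.LiesOverPrime q) : IsAlgClosed (ResidueField (h69b_A0 A)) := by
  haveI : IsAlgClosed (ResidueField A) := Fermat.Agent.S18.h72_residueField_isAlgClosed A
  exact IsAlgClosed.of_ringEquiv _ _ (h69b_resEquiv hq hA).symm

/-- **K0-BASE (3d).** The residue field of `A₀` has characteristic `q`. -/
theorem h69b_charP_residue {q : ℕ} (hq : q.Prime) {A : ValuationSubring h69b_Kb}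
    (hA : A.LiesOverPrime q) : CharP (ResidueField (h69b_A0 A)) q := by
  haveI : Fact q.Prime := ⟨hq⟩
  have h0 : ((q : ℕ) : ResidueField (h69b_A0 A)) = 0 := by
    have h1 : residue (h69b_A0 A) (h69b_q A q) = 0 :=
      (residue_eq_zero_iff _).mpr (h69b_q_mem_maximalIdeal hA)
    have h2 : residue (h69b_A0 A) (h69b_q A q) = ((q : ℕ) : ResidueField (h69b_A0 A)) := by
      simp [h69b_q]
    rw [← h2, h1]
  exact (CharP.charP_iff_prime_eq_zero hq).mpr h0

end Fermat.Agent.S36
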