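import Fermat.Agent.S36.H70OverlapRes
import Fermat.Agent.S36.H62RegIface
import Fermat.Agent.S36.H59ChartInt
import Fermat.Agent.S36.H69BaseRes
import Fermat.Agent.Red.ModelO.Mid
import Fermat.Agent.S37.Inertia

/-!
# S36, block REG (helper70): the residue field at a closed point of a chart over `A₀`

`A` a valuation subring of `ℚ̄` over `q`, `I` its inertia group, `h62rChart A N x` the chart
over `A₀ = A ∩ ℚ̄^I` (functions of `FF N` fixed by `I` and integral over `A[x]`), `x` fixed
by `I`.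

* `h70o_cstHom A N x : h69b_A0 A →+* h62rChart A N x` : the constants.
* `h70o_chart_res` : **every element of the chart is congruent modulo a maximal ideal `𝔫 ∋ q`
  to a constant of `A₀`** (the residue field of a closed point of the special fibre is the
  residue field of `A₀`, which is algebraically closed).
* `h70o_chart_res_elt` : the same, elementwise in `FF N`.
-/

set_option autoImplicit false
set_option linter.style.haveILetI false

open AlgebraicCurve ModularCurve IsLocalRing Polynomial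

noncomputable section

namespace Fermat.Agent.S36

open Fermat.Agent.S37 (Kbar GQ FF cst gal jB modelAt ringAdj auxLevel)
open Fermat.Agent.S37.GalI (gal_smul_cst gal_smul_jB)
open Fermat.Agent.Red.ModelO

section Gen

variable (A : ValuationSubring Kbar) (N : ℕ) (t : FF N)

/-- the constants of `A₀` lie in every chart over `A₀`. -/
theorem h70o_cst_mem_chart {a : Kbar} (ha : a ∈ h59cA0 A) : cst N a ∈ h62rChart A N t := by
  refine h62r_mem_chart.2 ⟨h85_cst_mem_modelAt N A t ha.1, ?_⟩
  intro σ hσ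
  rw [gal_smul_cst, ha.2 σ hσ]

/-- an `I`-fixed `t` lies in its chart. -/
theorem h70o_self_mem_chart (htfix : ∀ σ ∈ A.inertiaSubgroupIn ℚ, gal N σ • t = t) :
    t ∈ h62rChart A N t :=
  h62r_mem_chart.2 ⟨h85_self_mem_modelAt N A t, htfix⟩

/-- `A₀[t]` lies in the chart of `t` over `A₀`. -/
theorem h70o_ringAdj0_le_chart (htfix : ∀ σ ∈ A.inertiaSubgroupIn ℚ, gal N σ • t = t) :
    h59cRingAdj0 N A t ≤ h62rChart A N t := by
  intro y hy
  refine h62r_mem_chart.2 ⟨?_, h59c_ringAdj0_fixed N A t htfix hy⟩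
  have hle : h59cRingAdj0 N A t ≤ modelAt N A t := by
    unfold h59cRingAdj0 h59cAdj
    rw [Subring.closure_le]
    rintro z (⟨a, ha, rfl⟩ | hz)
    · exact h85_cst_mem_modelAt N A t ha.1
    · rw [Set.mem_singleton_iff] at hz
      rw [hz]
      exact h85_self_mem_modelAt N A t
  exact hle hy

end Gen

section Res

variable {q : ℕ} (hq : q.Prime) (A : ValuationSubring Kbar) (hA : A.LiesOverPrime q)
  (N : ℕ) (x : FF N)

/-- the constants: `A₀ → chart`. -/
def h70o_cstHom (A : ValuationSubring Kbar) (N : ℕ) (x : FF N) :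
    h69b_A0 A →+* h62rChart A N x where
  toFun a := ⟨cst N ((a : h69b_K0 A) : Kbar),
    h70o_cst_mem_chart A N x ⟨h69b_mem_A0.1 a.2, fun σ hσ => h69b_mem_K0.1 (a : h69b_K0 A).2 σ hσ⟩⟩
  map_one' := by
    apply Subtype.ext
    simp
  map_mul' a b := by
    apply Subtype.ext
    simp
  map_zero' := by
    apply Subtype.ext
    simp
  map_add' a b := by
    apply Subtype.ext
    simp

theorem h70o_cstHom_coe (a : h69b_A0 A) :
    ((h70o_cstHom A N x a : h62rChart A N x) : FF N) = cst N ((a : h69b_K0 A) : Kbar) := rfl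

/-- the image of `A₀[x]` in the chart lies in the subring generated by the constants and
`x`. -/
theorem h70o_adj0_mem_closure (hxfix : ∀ σ ∈ A.inertiaSubgroupIn ℚ, gal N σ • x = x)
    {z : FF N} (hz : z ∈ h59cRingAdj0 N A x) :
    ∃ w : h62rChart A N x, w ∈ Subring.closure (Set.range (h70o_cstHom A N x) ∪
        {(⟨x, h70o_self_mem_chart A N x hxfix⟩ : h62rChart A N x)}) ∧ (w : FF N) = z := by
  induction hz using Subring.closure_induction with
  | mem z hz =>
    rcases hz with ⟨a, ha, rfl⟩ | hz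
    · refine ⟨h70o_cstHom A N x ⟨⟨a, h69b_mem_K0.2 ha.2⟩, h69b_mem_A0.2 ha.1⟩,
        Subring.subset_closure (Or.inl ⟨_, rfl⟩), ?_⟩
      rw [h70o_cstHom_coe]
    · rw [Set.mem_singleton_iff] at hz
      exact ⟨⟨x, h70o_self_mem_chart A N x hxfix⟩, Subring.subset_closure (Or.inr rfl), hz.symm⟩
  | zero => exact ⟨0, Subring.zero_mem _, Subring.coe_zero _⟩
  | one => exact ⟨1, Subring.one_mem _, Subring.coe_one _⟩
  | add a b _ _ iha ihb =>
    obtain ⟨wa, hwa, ea⟩ := iha
    obtain ⟨wb, hwb, eb⟩ := ihb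
    exact ⟨wa + wb, Subring.add_mem _ hwa hwb, by rw [Subring.coe_add, ea, eb]⟩
  | neg a _ iha =>
    obtain ⟨wa, hwa, ea⟩ := iha
    exact ⟨-wa, Subring.neg_mem _ hwa, by rw [Subring.coe_neg, ea]⟩
  | mul a b _ _ iha ihb =>
    obtain ⟨wa, hwa, ea⟩ := iha
    obtain ⟨wb, hwb, eb⟩ := ihb
    exact ⟨wa * wb, Subring.mul_mem _ hwa hwb, by rw [Subring.coe_mul, ea, eb]⟩

set_option synthInstance.maxHeartbeats 400000 in
/-- the chart is integral over `A₀[x]`, in the form of `RingHom.IsIntegralElem`. -/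
theorem h70o_chart_integral (hle : h59cRingAdj0 N A x ≤ h62rChart A N x)
    (s : h62rChart A N x) : (Subring.inclusion hle).IsIntegralElem s := by
  have hs : IsIntegral (h59cRingAdj0 N A x) (s : FF N) :=
    (h59c_mem_modelAt_iff N A x (s : FF N)).1 (h62r_mem_chart.1 s.2).1
  obtain ⟨p, hp, hps⟩ := hs
  refine ⟨p, hp, ?_⟩
  apply (h62rChart A N x).subtype_injective
  rw [Polynomial.hom_eval₂, map_zero]
  exact hps

include hq hA in
/-- **the residue field of a closed point of the special fibre of a chart over `A₀` is the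
residue field of `A₀`**: every element of the chart is congruent modulo `𝔫` to a constant. -/
theorem h70o_chart_res (hxfix : ∀ σ ∈ A.inertiaSubgroupIn ℚ, gal N σ • x = x)
    (𝔫 : Ideal (h62rChart A N x)) [h𝔫 : 𝔫.IsMaximal] (hq𝔫 : (q : h62rChart A N x) ∈ 𝔫)
    (y : h62rChart A N x) :
    ∃ a : h69b_A0 A, y - h70o_cstHom A N x a ∈ 𝔫 := by
  classical
  haveI : IsAlgClosed (ResidueField (h69b_A0 A)) := h69b_residue_isAlgClosed hq hA
  have hle := h70o_ringAdj0_le_chart A N x hxfix
  refine h70o_res_surj (residue (h69b_A0 A)) residue_surjective (h70o_cstHom A N x)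
    (⟨x, h70o_self_mem_chart A N x hxfix⟩ : h62rChart A N x)
    (Subring.inclusion hle) ?_ (h70o_chart_integral A N x hle) 𝔫 ?_ y
  · -- the image of `A₀[x]`
    rintro ⟨d, hd⟩
    obtain ⟨w, hw, e⟩ := h70o_adj0_mem_closure A N x hxfix hd
    have h1 : Subring.inclusion hle ⟨d, hd⟩ = w := Subtype.ext e.symm
    rw [h1]
    exact hw
  · -- the kernel
    intro a ha
    have h1 : a ∈ maximalIdeal (h69b_A0 A) := (residue_eq_zero_iff a).1 ha
    rw [h69b_maximalIdeal hq hA, Ideal.mem_span_singleton'] at h1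
    obtain ⟨b, rfl⟩ := h1
    rw [map_mul]
    refine 𝔫.mul_mem_left _ ?_
    have h2 : h70o_cstHom A N x (h69b_q A q) = (q : h62rChart A N x) := by
      apply Subtype.ext
      rw [h70o_cstHom_coe, h69b_q_coe]
      simp
    rw [h2]
    exact hq𝔫

end Res

section Elt

variable {q : ℕ} (hq : q.Prime) (A : ValuationSubring Kbar) (hA : A.LiesOverPrime q)
  (N : ℕ) (x : FF N)

include hq hA in
/-- elementwise form: every `y` of the chart is congruent modulo `𝔫` to `cst a`, `a ∈ A`
fixed by the inertia group. -/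
theorem h70o_chart_res_elt (hxfix : ∀ σ ∈ A.inertiaSubgroupIn ℚ, gal N σ • x = x)
    (𝔫 : Ideal (h62rChart A N x)) [h𝔫 : 𝔫.IsMaximal] (hq𝔫 : (q : h62rChart A N x) ∈ 𝔫)
    (y : h62rChart A N x) :
    ∃ (a : Kbar) (ha : a ∈ h59cA0 A),
      y - (⟨cst N a, h70o_cst_mem_chart A N x ha⟩ : h62rChart A N x) ∈ 𝔫 := by
  obtain ⟨a, ha⟩ := h70o_chart_res hq A hA N x hxfix 𝔫 hq𝔫 y
  exact ⟨((a : h69b_K0 A) : Kbar),
    ⟨h69b_mem_A0.1 a.2, fun σ hσ => h69b_mem_K0.1 (a : h69b_K0 A).2 σ hσ⟩, ha⟩

end Elt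

end Fermat.Agent.S36
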