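import Mathlib

/-!
# S36, block REG (helper62): descent of local generators along a reduction isomorphism

Abstract setting of **R-REDISO**: `ι : B₀ → B` a ring homomorphism (the chart over the inertia
ring `A₀` inside the chart over `A`), `𝔪` an ideal of `B` (`= 𝔪_A B`), `π ∈ B₀` (`= q`) with
* `hπ   : ι π ∈ 𝔪`,
* `surj : ∀ b, ∃ b₀, b - ι b₀ ∈ 𝔪`            (`B = B₀ + 𝔪_A B`),
* `inj  : ∀ x, ι x ∈ 𝔪 → ∃ y, x = π * y`       (`𝔪_A B ∩ B₀ = q B₀`),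
i.e. `B₀ / π B₀ ≅ B / 𝔪`.

* `h62d_exists_max` : every maximal ideal `𝔫₀ ∋ π` of `B₀` is the contraction of a maximal
  ideal `𝔫 ⊇ 𝔪` of `B`.
* `h62d_comap_isMaximal` : the contraction of a maximal ideal `𝔫 ⊇ 𝔪` is maximal.
* `h62d_gen` : **descent of local generators**: if `𝔫 = (ι S) + 𝔪` locally at `𝔫`, then
  `𝔫₀ = (S) + (π)` locally at `𝔫₀ = ι⁻¹ 𝔫` (`S ⊆ B₀` any set).
* `h62d_gen_pair`, `h62d_gen_single` : the cases `S = {X, Y}`, `S = {t}` in the vocabulary of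
  `H62RegIface` (`Ideal.span {X, Y}`, `Ideal.span {π, t}`), with the Kronecker relation
  `ρ * π ∈ (X, Y)`, `ρ ∉ 𝔫₀`, in the first case.

Mathlib only.
-/

set_option autoImplicit false

namespace Fermat.Agent.S36

variable {B₀ B : Type*} [CommRing B₀] [CommRing B] (ι : B₀ →+* B) (𝔪 : Ideal B) (π : B₀)

/-- approximation of an element of `(ι S) B` by an element of `(S) B₀`, modulo `𝔪`. -/
theorem h62d_approx_span (surj : ∀ b : B, ∃ b₀ : B₀, b - ι b₀ ∈ 𝔪) (S : Set B₀) (w : B)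
    (hw : w ∈ Ideal.span (ι '' S)) : ∃ w₀ ∈ Ideal.span S, w - ι w₀ ∈ 𝔪 := by
  induction hw using Submodule.span_induction with
  | mem x hx =>
    obtain ⟨x₀, hx₀, rfl⟩ := hx
    exact ⟨x₀, Ideal.subset_span hx₀, by simp⟩
  | zero => exact ⟨0, Ideal.zero_mem _, by simp⟩
  | add x y _ _ hx hy =>
    obtain ⟨x₀, hx₀, hx'⟩ := hx
    obtain ⟨y₀, hy₀, hy'⟩ := hy
    refine ⟨x₀ + y₀, Ideal.add_mem _ hx₀ hy₀, ?_⟩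
    have h1 : x + y - ι (x₀ + y₀) = (x - ι x₀) + (y - ι y₀) := by rw [map_add]; ring
    rw [h1]
    exact 𝔪.add_mem hx' hy'
  | smul a x _ hx =>
    obtain ⟨x₀, hx₀, hx'⟩ := hx
    obtain ⟨a₀, ha₀⟩ := surj a
    refine ⟨a₀ * x₀, Ideal.mul_mem_left _ _ hx₀, ?_⟩
    have h1 : a • x - ι (a₀ * x₀) = a * (x - ι x₀) + (a - ι a₀) * ι x₀ := by
      rw [map_mul, smul_eq_mul]; ring
    rw [h1]
    exact 𝔪.add_mem (𝔪.mul_mem_left _ hx') (𝔪.mul_mem_right _ ha₀)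

/-- **descent of local generators.** -/
theorem h62d_gen (surj : ∀ b : B, ∃ b₀ : B₀, b - ι b₀ ∈ 𝔪)
    (inj : ∀ x : B₀, ι x ∈ 𝔪 → ∃ y, x = π * y)
    (𝔫 : Ideal B) (h𝔪𝔫 : 𝔪 ≤ 𝔫) (S : Set B₀)
    (hgen : ∀ z ∈ 𝔫, ∃ s, s ∉ 𝔫 ∧ s * z ∈ Ideal.span (ι '' S) ⊔ 𝔪) :
    ∀ z ∈ 𝔫.comap ι, ∃ s, s ∉ 𝔫.comap ι ∧ s * z ∈ Ideal.span S ⊔ Ideal.span {π} := by
  intro z hz
  obtain ⟨s, hs, hsz⟩ := hgen (ι z) (Ideal.mem_comap.mp hz)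
  obtain ⟨w, hw, m, hm, hsum⟩ := Submodule.mem_sup.mp hsz
  obtain ⟨w₀, hw₀, hww⟩ := h62d_approx_span ι 𝔪 surj S w hw
  obtain ⟨s₀, hs₀⟩ := surj s
  have hs₀𝔫 : s₀ ∉ 𝔫.comap ι := by
    intro h
    apply hs
    have h1 : s = (s - ι s₀) + ι s₀ := by ring
    rw [h1]
    exact 𝔫.add_mem (h𝔪𝔫 hs₀) (Ideal.mem_comap.mp h)
  have hdiff : ι (s₀ * z - w₀) ∈ 𝔪 := by
    have h1 : ι (s₀ * z - w₀) = (w - ι w₀) + m - (s - ι s₀) * ι z := by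
      rw [map_sub, map_mul]
      have h2 : s * ι z = w + m := hsum.symm
      linear_combination h2
    rw [h1]
    exact 𝔪.sub_mem (𝔪.add_mem hww hm) (𝔪.mul_mem_right _ hs₀)
  obtain ⟨y, hy⟩ := inj _ hdiff
  refine ⟨s₀, hs₀𝔫, ?_⟩
  have h3 : s₀ * z = w₀ + y * π := by
    have : s₀ * z - w₀ = π * y := hy
    linear_combination this
  rw [h3]
  exact Submodule.add_mem_sup hw₀ (Ideal.mem_span_singleton'.mpr ⟨y, rfl⟩)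

/-- the node case: `𝔫 = (X, Y) + 𝔪` locally and `ρ π ∈ (X, Y)`, `ρ ∉ 𝔫₀` ⟹ `𝔫₀ = (X, Y)`
locally. -/
theorem h62d_gen_pair (surj : ∀ b : B, ∃ b₀ : B₀, b - ι b₀ ∈ 𝔪)
    (inj : ∀ x : B₀, ι x ∈ 𝔪 → ∃ y, x = π * y)
    (𝔫 : Ideal B) [h𝔫 : 𝔫.IsPrime] (h𝔪𝔫 : 𝔪 ≤ 𝔫) (X Y ρ : B₀)
    (hgen : ∀ z ∈ 𝔫, ∃ s, s ∉ 𝔫 ∧ s * z ∈ Ideal.span {ι X, ι Y} ⊔ 𝔪)
    (hρ : ρ ∉ 𝔫.comap ι) (hρπ : ρ * π ∈ Ideal.span {X, Y}) :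
    ∀ z ∈ 𝔫.comap ι, ∃ s, s ∉ 𝔫.comap ι ∧ s * z ∈ Ideal.span {X, Y} := by
  have himg : ι '' ({X, Y} : Set B₀) = {ι X, ι Y} := by
    rw [Set.image_pair]
  have h1 := h62d_gen ι 𝔪 π surj inj 𝔫 h𝔪𝔫 {X, Y} (by rw [himg]; exact hgen)
  intro z hz
  obtain ⟨s, hs, hsz⟩ := h1 z hz
  obtain ⟨w, hw, m, hm, hsum⟩ := Submodule.mem_sup.mp hsz
  obtain ⟨y, rfl⟩ := Ideal.mem_span_singleton'.mp hm
  have hprime : (𝔫.comap ι).IsPrime := Ideal.comap_isPrime ι 𝔫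
  refine ⟨ρ * s, fun h => ((hprime.mem_or_mem h).elim hρ hs), ?_⟩
  have h2 : ρ * s * z = ρ * w + y * (ρ * π) := by
    rw [mul_assoc, ← hsum]; ring
  rw [h2]
  exact Ideal.add_mem _ (Ideal.mul_mem_left _ _ hw) (Ideal.mul_mem_left _ _ hρπ)

/-- the smooth case: `𝔫 = (t) + 𝔪` locally ⟹ `𝔫₀ = (π, t)` locally. -/
theorem h62d_gen_single (surj : ∀ b : B, ∃ b₀ : B₀, b - ι b₀ ∈ 𝔪)
    (inj : ∀ x : B₀, ι x ∈ 𝔪 → ∃ y, x = π * y)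
    (𝔫 : Ideal B) (h𝔪𝔫 : 𝔪 ≤ 𝔫) (t : B₀)
    (hgen : ∀ z ∈ 𝔫, ∃ s, s ∉ 𝔫 ∧ s * z ∈ Ideal.span {ι t} ⊔ 𝔪) :
    ∀ z ∈ 𝔫.comap ι, ∃ s, s ∉ 𝔫.comap ι ∧ s * z ∈ Ideal.span {π, t} := by
  have himg : ι '' ({t} : Set B₀) = {ι t} := Set.image_singleton
  have h1 := h62d_gen ι 𝔪 π surj inj 𝔫 h𝔪𝔫 {t} (by rw [himg]; exact hgen)
  intro z hz
  obtain ⟨s, hs, hsz⟩ := h1 z hz
  refine ⟨s, hs, ?_⟩
  have hle : Ideal.span ({t} : Set B₀) ⊔ Ideal.span {π} ≤ Ideal.span {π, t} := by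
    rw [sup_le_iff]
    constructor
    · exact Ideal.span_mono (by simp)
    · exact Ideal.span_mono (by simp)
  exact hle hsz

/-- the contraction of a maximal ideal containing `𝔪` is maximal. -/
theorem h62d_comap_isMaximal (surj : ∀ b : B, ∃ b₀ : B₀, b - ι b₀ ∈ 𝔪)
    (𝔫 : Ideal B) [h𝔫 : 𝔫.IsMaximal] (h𝔪𝔫 : 𝔪 ≤ 𝔫) : (𝔫.comap ι).IsMaximal := by
  rw [Ideal.isMaximal_iff]
  refine ⟨fun h => h𝔫.ne_top ((Ideal.eq_top_iff_one _).mpr (by simpa using h)), ?_⟩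
  intro J x hle hx hxJ
  -- `ι x ∉ 𝔫`, so `ι x` is invertible modulo `𝔫`
  have hx' : ι x ∉ 𝔫 := fun h => hx (Ideal.mem_comap.mpr h)
  obtain ⟨y, hy⟩ := Ideal.IsMaximal.exists_inv h𝔫 hx'
  obtain ⟨i, hi, hyi⟩ := hy
  obtain ⟨y₀, hy₀⟩ := surj y
  have h1 : ι (1 - y₀ * x) ∈ 𝔫 := by
    have h2 : ι (1 - y₀ * x) = (y - ι y₀) * ι x + i := by
      rw [map_sub, map_one, map_mul]
      linear_combination -hyi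
    rw [h2]
    exact 𝔫.add_mem (𝔫.mul_mem_right _ (h𝔪𝔫 hy₀)) hi
  have h3 : (1 : B₀) = (1 - y₀ * x) + y₀ * x := by ring
  rw [h3]
  exact J.add_mem (hle (Ideal.mem_comap.mpr h1)) (J.mul_mem_left _ hxJ)

/-- every maximal ideal `𝔫₀ ∋ π` of `B₀` is the contraction of a maximal ideal `𝔫 ⊇ 𝔪`. -/
theorem h62d_exists_max (surj : ∀ b : B, ∃ b₀ : B₀, b - ι b₀ ∈ 𝔪)
    (inj : ∀ x : B₀, ι x ∈ 𝔪 → ∃ y, x = π * y)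
    (𝔫₀ : Ideal B₀) [h𝔫₀ : 𝔫₀.IsMaximal] (hπ : π ∈ 𝔫₀) :
    ∃ 𝔫 : Ideal B, 𝔫.IsMaximal ∧ 𝔪 ≤ 𝔫 ∧ 𝔫.comap ι = 𝔫₀ := by
  -- the ideal `ι 𝔫₀ B + 𝔪`
  set J : Ideal B := 𝔫₀.map ι ⊔ 𝔪 with hJ
  have hcontr : ∀ x : B₀, ι x ∈ J → x ∈ 𝔫₀ := by
    intro x hx
    obtain ⟨w, hw, m, hm, hsum⟩ := Submodule.mem_sup.mp hx
    have hw' : w ∈ Ideal.span (ι '' (𝔫₀ : Set B₀)) := by
      rwa [Ideal.map] at hw
    obtain ⟨w₀, hw₀, hww⟩ := h62d_approx_span ι 𝔪 surj _ w hw'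
    rw [Ideal.span_eq] at hw₀
    have h1 : ι (x - w₀) ∈ 𝔪 := by
      have h2 : ι (x - w₀) = (w - ι w₀) + m := by
        rw [map_sub, ← hsum]; ring
      rw [h2]
      exact 𝔪.add_mem hww hm
    obtain ⟨y, hy⟩ := inj _ h1
    have h3 : x = w₀ + π * y := by linear_combination hy
    rw [h3]
    exact 𝔫₀.add_mem hw₀ (𝔫₀.mul_mem_right _ hπ)
  have hJne : J ≠ ⊤ := by
    intro h
    apply h𝔫₀.ne_top
    rw [Ideal.eq_top_iff_one]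
    apply hcontr
    rw [map_one, h]
    exact Submodule.mem_top
  obtain ⟨𝔫, h𝔫, hJ𝔫⟩ := Ideal.exists_le_maximal J hJne
  refine ⟨𝔫, h𝔫, le_trans le_sup_right hJ𝔫, ?_⟩
  have hle : 𝔫₀ ≤ 𝔫.comap ι := fun x hx =>
    Ideal.mem_comap.mpr (hJ𝔫 (Ideal.mem_sup_left (Ideal.mem_map_of_mem ι hx)))
  have hne : 𝔫.comap ι ≠ ⊤ := by
    intro h
    apply h𝔫.ne_top
    rw [Ideal.eq_top_iff_one]
    have : (1 : B₀) ∈ 𝔫.comap ι := by rw [h]; exact Submodule.mem_top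
    simpa using this
  exact (h𝔫₀.eq_of_le hne hle).symm

end Fermat.Agent.S36
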