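import Fermat.Agent.S36.H20NormSkel

/-!
# S36, block (N), row N-GAL: Galois equivariance of the embeddings `E11^ζ`, `E02`

Author: helper83.  `h83g_embGal : H20EmbUnique → H20EmbGal`:
`E11^{σ ζ} (σ u) = σ (E11^ζ u)` and `E02 (σ u) = σ (E02 u)` (coefficientwise action of
`σ ∈ G_ℚ` on `ℚ̄((t))`).

Proof: both sides are ring homomorphisms `F₂ → ℚ̄((t))` of `u`; by `H20EmbUnique` it suffices to
compare them on `α x` and `β x`, where it follows from the intertwining of `α`, `β` with the
Galois action, `kFricke_gal`, `coeffMap_twistK` and `coeffMap_qExpand_comm`.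
-/

set_option autoImplicit false

open AlgebraicCurve ModularCurve

noncomputable section

namespace Fermat.Agent.S36

open Fermat.Agent.S37 (Kbar GQ FF cst gal)
open Fermat.Agent.Red.Kron (kFricke twistK kFricke_gal coeffMap_twistK)
open Fermat.Agent.Red.HKGal (intertwines_heckeAlphaBar intertwines_heckeBetaBar
  coeffMap_qExpand_comm)

/-- the Galois action of `σ` on `FF N` as a ring homomorphism. -/
def h83g_galHom (N : ℕ) (σ : GQ) : FF N →+* FF N :=
  (SemilinearAut.toRingAut (gal N σ)).toRingHom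

theorem h83g_galHom_apply (N : ℕ) (σ : GQ) (x : FF N) : h83g_galHom N σ x = gal N σ • x := rfl

theorem h83g_coe_gal (N : ℕ) (σ : GQ) (x : FF N) :
    ((gal N σ • x : FF N) : LaurentSeries Kbar) =
      coeffMap (σ : Kbar →+* Kbar) (x : LaurentSeries Kbar) :=
  coe_arithmeticGalois_smul (modularFunctionFieldFull N) σ x

theorem h83g_gal_alpha (N ℓ : ℕ) [NeZero N] [NeZero ℓ] (σ : GQ) (x : FF N) :
    gal (N * ℓ) σ • heckeAlphaBar Kbar N ℓ x = heckeAlphaBar Kbar N ℓ (gal N σ • x) := by
  have h := intertwines_heckeAlphaBar N ℓ σ x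
  exact h

theorem h83g_gal_beta (N ℓ : ℕ) [NeZero N] [NeZero ℓ] (σ : GQ) (x : FF N) :
    gal (N * ℓ) σ • heckeBetaBar Kbar N ℓ x = heckeBetaBar Kbar N ℓ (gal N σ • x) := by
  have h := intertwines_heckeBetaBar N ℓ σ x
  exact h

/-- **N-GAL.** -/
theorem h83g_embGal (hU : H20EmbUnique) : H20EmbGal := by
  intro q hq M _ hqM
  have : NeZero q := ⟨hq.ne_zero⟩
  intro σ
  refine ⟨?_, ?_⟩
  · intro ζ E E' hE hE' u
    have key : E'.comp (h83g_galHom (M * q * q) σ) =
        (coeffMap (σ : Kbar →+* Kbar)).comp E := by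
      refine hU q hq M _ _ (fun x => ?_) (fun x => ?_)
      · show E' (gal (M * q * q) σ • heckeAlphaBar Kbar (M * q) q x) =
          coeffMap (σ : Kbar →+* Kbar) (E (heckeAlphaBar Kbar (M * q) q x))
        rw [h83g_gal_alpha, hE'.1, hE.1, h83g_coe_gal]
      · show E' (gal (M * q * q) σ • heckeBetaBar Kbar (M * q) q x) =
          coeffMap (σ : Kbar →+* Kbar) (E (heckeBetaBar Kbar (M * q) q x))
        rw [h83g_gal_beta, hE'.2, hE.2, coeffMap_twistK]
        congr 1
        have h1 : kFricke M q hq hqM (gal (M * q) σ • x) =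
            gal (M * q) σ • kFricke M q hq hqM x := kFricke_gal M q hq hqM σ x
        rw [h1, h83g_coe_gal]
    exact DFunLike.congr_fun key u
  · intro E hE u
    have key : E.comp (h83g_galHom (M * q * q) σ) =
        (coeffMap (σ : Kbar →+* Kbar)).comp E := by
      refine hU q hq M _ _ (fun x => ?_) (fun x => ?_)
      · show E (gal (M * q * q) σ • heckeAlphaBar Kbar (M * q) q x) =
          coeffMap (σ : Kbar →+* Kbar) (E (heckeAlphaBar Kbar (M * q) q x))
        rw [h83g_gal_alpha, hE.1, hE.1, coeffMap_qExpand_comm]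
        congr 1
        have h1 : kFricke M q hq hqM (gal (M * q) σ • x) =
            gal (M * q) σ • kFricke M q hq hqM x := kFricke_gal M q hq hqM σ x
        rw [h1, h83g_coe_gal]
      · show E (gal (M * q * q) σ • heckeBetaBar Kbar (M * q) q x) =
          coeffMap (σ : Kbar →+* Kbar) (E (heckeBetaBar Kbar (M * q) q x))
        rw [h83g_gal_beta, hE.2, hE.2]
        have h1 : kFricke M q hq hqM (gal (M * q) σ • x) =
            gal (M * q) σ • kFricke M q hq hqM x := kFricke_gal M q hq hqM σ x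
        rw [h1, h83g_coe_gal]
    exact DFunLike.congr_fun key u

end Fermat.Agent.S36
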