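import Fermat.Agent.S36.H62RegLeaves
import Fermat.Agent.S36.H62RedIsoAbs
import Fermat.Agent.S36.H83EmbGal
import Fermat.Agent.LGC.H62Inst

/-!
# S36, block REG (helper62): frozen interface of the rows R-REDISO and R-L1

Levels `M` (`q ∤ M`) and `M q`; `Λ₀ = h62rChart A M (jB M)`, `B₁ = h62rChart A (M q) (jSS M q)`
(the finite charts over the inertia ring `A₀`; `jSS M q = jB (M q)`: `h85s_jSS_eq`).

* `h62rIncl A N t : h62rChart A N t →+* chart N A t` : chart over `A₀` ⊆ chart over `A`.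
* `h62rAlpha`, `h62rBeta : Λ₀ →+* B₁` : the two degeneracy maps on the charts over `A₀`.
* `H62RedIso A N t q` (**R-REDISO**): `chart = chart₀ + 𝔪_A chart` and
  `𝔪_A chart ∩ chart₀ = q chart₀` — exactly the hypotheses `surj`, `inj` of
  `S36/H62RedIsoAbs.lean` for `ι = h62rIncl`, `𝔪 = h62rM`, `π = q`.
  `H62RedIsoStatement` : at the good levels, for `N = M, M q` and both charts.
* `h62rLocGen 𝔫 I` : "`𝔫 = I` locally at `𝔫`".
* `H62L0` (**R-L0**): level `M` is smooth over `A₀` with a RATIONAL local parameter at every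
  closed point of the special fibre.
* `H62NodeDatum`, `H62InfDatum`, `H62ZeroDatum`, `H62L1` (**R-L1**): every closed point
  `𝔫₁ ∋ q` of `B₁` is
  * a node: `𝔫₁ = (X, Y)` locally, `X = α u`, `Y = β u`, `u` rational,
    `(Y - X ^ q) (Y ^ q - X) + q ρ = 0` with `ρ ∉ 𝔫₁`; or
  * smooth on `C_∞`: Frobenius congruence `β u ≡ (α u) ^ q` modulo `q` locally for all rational
    `u`, and transport of local parameters along `α`; or
  * smooth on `C_0`: the same with `α`, `β` exchanged.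

Every declaration is a definition; nothing is assumed.
-/

set_option autoImplicit false
set_option linter.unusedSectionVars false

open AlgebraicCurve ModularCurve IsLocalRing

noncomputable section

namespace Fermat.Agent.S36

open Fermat.Agent.S37 Fermat.Agent.Red.GG Fermat.Agent.LGC

/-! ## R-REDISO -/

/-- the chart over `A₀` inside the chart over `A`. -/
def h62rIncl (A : ValuationSubring Kbar) (N : ℕ) (t : FF N) :
    h62rChart A N t →+* chart N A t where
  toFun x := ⟨(x : FF N), (h62r_mem_chart.mp x.2).1⟩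
  map_one' := rfl
  map_mul' _ _ := rfl
  map_zero' := rfl
  map_add' _ _ := rfl

@[simp]
theorem h62r_coe_incl (A : ValuationSubring Kbar) (N : ℕ) (t : FF N) (x : h62rChart A N t) :
    ((h62rIncl A N t x : chart N A t) : FF N) = (x : FF N) := rfl

/-- the ideal `𝔪_A · chart`. -/
def h62rM (A : ValuationSubring Kbar) (N : ℕ) (t : FF N) : Ideal (chart N A t) :=
  (maximalIdeal A).map (algebraMap A (chart N A t))

/-- **R-REDISO** for one chart. -/
def H62RedIso (A : ValuationSubring Kbar) (N : ℕ) (t : FF N) (q : ℕ) : Prop :=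
  (∀ b : chart N A t, ∃ b₀ : h62rChart A N t, b - h62rIncl A N t b₀ ∈ h62rM A N t) ∧
  (∀ x : h62rChart A N t, h62rIncl A N t x ∈ h62rM A N t →
    ∃ y : h62rChart A N t, x = (q : h62rChart A N t) * y)

/-- **R-REDISO.** -/
def H62RedIsoStatement : Prop :=
  ∀ (q : ℕ) (hq : q.Prime) (M : ℕ) [NeZero M], ¬ q ∣ M → auxLevel q ∣ M →
    haveI : NeZero q := ⟨hq.ne_zero⟩
    ∀ A : ValuationSubring Kbar, A.LiesOverPrime q →
      H62RedIso A M (jB M) q ∧ H62RedIso A M (jB M)⁻¹ q ∧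
      H62RedIso A (M * q) (jSS M q) q ∧ H62RedIso A (M * q) (jSS M q)⁻¹ q

/-! ## The degeneracy maps over `A₀` -/

section Maps

variable (A : ValuationSubring Kbar) (M : ℕ) {q : ℕ} [NeZero M] [NeZero q]

/-- `α` on the finite charts over `A₀`. -/
def h62rAlpha : h62rChart A M (jB M) →+* h62rChart A (M * q) (jSS M q) where
  toFun x := ⟨heckeAlphaBar Kbar M q (x : FF M), h62r_mem_chart.mpr
    ⟨(h62i_α A M q ⟨(x : FF M), (h62r_mem_chart.mp x.2).1⟩).2, fun σ hσ => by
      rw [h83g_gal_alpha, (h62r_mem_chart.mp x.2).2 σ hσ]⟩⟩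
  map_one' := Subtype.ext (map_one _)
  map_mul' _ _ := Subtype.ext (map_mul _ _ _)
  map_zero' := Subtype.ext (map_zero _)
  map_add' _ _ := Subtype.ext (map_add _ _ _)

@[simp]
theorem h62r_coe_alpha (x : h62rChart A M (jB M)) :
    ((h62rAlpha A M (q := q) x : h62rChart A (M * q) (jSS M q)) : FF (M * q)) =
      heckeAlphaBar Kbar M q (x : FF M) := rfl

/-- `β` on the finite charts over `A₀`. -/
def h62rBeta (hq : q.Prime) (hM : ¬ q ∣ M) (hA : A.LiesOverPrime q) :
    h62rChart A M (jB M) →+* h62rChart A (M * q) (jSS M q) where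
  toFun x := ⟨heckeBetaBar Kbar M q (x : FF M), h62r_mem_chart.mpr
    ⟨(h62i_β A M hq hM hA ⟨(x : FF M), (h62r_mem_chart.mp x.2).1⟩).2, fun σ hσ => by
      rw [h83g_gal_beta, (h62r_mem_chart.mp x.2).2 σ hσ]⟩⟩
  map_one' := Subtype.ext (map_one _)
  map_mul' _ _ := Subtype.ext (map_mul _ _ _)
  map_zero' := Subtype.ext (map_zero _)
  map_add' _ _ := Subtype.ext (map_add _ _ _)

@[simp]
theorem h62r_coe_beta (hq : q.Prime) (hM : ¬ q ∣ M) (hA : A.LiesOverPrime q)
    (x : h62rChart A M (jB M)) :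
    ((h62rBeta A M hq hM hA x : h62rChart A (M * q) (jSS M q)) : FF (M * q)) =
      heckeBetaBar Kbar M q (x : FF M) := rfl

end Maps

/-! ## R-L0, R-L1 -/

/-- "`𝔫 = I` locally at `𝔫`". -/
def h62rLocGen {B : Type*} [CommRing B] (𝔫 I : Ideal B) : Prop :=
  ∀ z ∈ 𝔫, ∃ s, s ∉ 𝔫 ∧ s * z ∈ I

/-- **R-L0**: the level `M` is smooth over `A₀`, with a rational local parameter at every
closed point of the special fibre. -/
def H62L0 : Prop :=
  ∀ (q : ℕ) (hq : q.Prime) (M : ℕ) [NeZero M], ¬ q ∣ M → auxLevel q ∣ M →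
    ∀ A : ValuationSubring Kbar, A.LiesOverPrime q →
      ∀ 𝔰 : Ideal (h62rChart A M (jB M)), 𝔰.IsMaximal → (q : h62rChart A M (jB M)) ∈ 𝔰 →
        ∃ u : h62rChart A M (jB M), IsRat (u : FF M) ∧ u ∈ 𝔰 ∧
          h62rLocGen 𝔰 (Ideal.span {(q : h62rChart A M (jB M)), u})

section Data

variable (A : ValuationSubring Kbar) (M : ℕ) {q : ℕ} [NeZero M] [NeZero q]
  (hq : q.Prime) (hM : ¬ q ∣ M) (hA : A.LiesOverPrime q)
  (𝔫₁ : Ideal (h62rChart A (M * q) (jSS M q)))

/-- the datum at a node of the level `M q`. -/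
def H62NodeDatum : Prop :=
  ∃ u : h62rChart A M (jB M), IsRat (u : FF M) ∧
    h62rAlpha A M u ∈ 𝔫₁ ∧ h62rBeta A M hq hM hA u ∈ 𝔫₁ ∧
    (∃ ρ : h62rChart A (M * q) (jSS M q), ρ ∉ 𝔫₁ ∧
      (h62rBeta A M hq hM hA u - h62rAlpha A M u ^ q) *
        (h62rBeta A M hq hM hA u ^ q - h62rAlpha A M u)
        + (q : h62rChart A (M * q) (jSS M q)) * ρ = 0) ∧
    h62rLocGen 𝔫₁ (Ideal.span {h62rAlpha A M u, h62rBeta A M hq hM hA u})

/-- the datum at a smooth point of the component `C_∞` of the level `M q`. -/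
def H62InfDatum : Prop :=
  (∀ u : h62rChart A M (jB M), IsRat (u : FF M) →
    ∃ s, s ∉ 𝔫₁ ∧ s * (h62rBeta A M hq hM hA u - h62rAlpha A M u ^ q)
      ∈ Ideal.span {(q : h62rChart A (M * q) (jSS M q))}) ∧
  (∀ t : h62rChart A M (jB M), t ∈ 𝔫₁.comap (h62rAlpha A M) →
    h62rLocGen (𝔫₁.comap (h62rAlpha A M)) (Ideal.span {(q : h62rChart A M (jB M)), t}) →
    h62rLocGen 𝔫₁ (Ideal.span {(q : h62rChart A (M * q) (jSS M q)), h62rAlpha A M t}))

/-- the datum at a smooth point of the component `C_0` of the level `M q`. -/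
def H62ZeroDatum : Prop :=
  (∀ u : h62rChart A M (jB M), IsRat (u : FF M) →
    ∃ s, s ∉ 𝔫₁ ∧ s * (h62rAlpha A M u - h62rBeta A M hq hM hA u ^ q)
      ∈ Ideal.span {(q : h62rChart A (M * q) (jSS M q))}) ∧
  (∀ t : h62rChart A M (jB M), t ∈ 𝔫₁.comap (h62rBeta A M hq hM hA) →
    h62rLocGen (𝔫₁.comap (h62rBeta A M hq hM hA))
      (Ideal.span {(q : h62rChart A M (jB M)), t}) →
    h62rLocGen 𝔫₁
      (Ideal.span {(q : h62rChart A (M * q) (jSS M q)), h62rBeta A M hq hM hA t}))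

end Data

/-- **R-L1**: the closed points of the special fibre of the finite chart of level `M q` over
`A₀`. -/
def H62L1 : Prop :=
  ∀ (q : ℕ) (hq : q.Prime) (M : ℕ) [NeZero M] (hM : ¬ q ∣ M), auxLevel q ∣ M →
    haveI : NeZero q := ⟨hq.ne_zero⟩
    ∀ (A : ValuationSubring Kbar) (hA : A.LiesOverPrime q),
      ∀ 𝔫₁ : Ideal (h62rChart A (M * q) (jSS M q)), 𝔫₁.IsMaximal →
        (q : h62rChart A (M * q) (jSS M q)) ∈ 𝔫₁ →
          H62NodeDatum A M hq hM hA 𝔫₁ ∨ H62InfDatum A M hq hM hA 𝔫₁ ∨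
            H62ZeroDatum A M hq hM hA 𝔫₁

end Fermat.Agent.S36
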