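import Fermat.Agent.S36.H25RedIso
import Fermat.Agent.S36.H62L1Iface

/-!
# S36, block REG, row R-REDISO (helper25): the frozen Prop `H62RedIsoStatement`

`h25i_redIsoStatement : H62RedIsoStatement` — for the levels `M` (`q ∤ M`) and `M q`, both
charts: `chart = chart₀ + 𝔪_A chart` and `𝔪_A chart ∩ chart₀ = q chart₀`, in the vocabulary of
`S36/H62L1Iface.lean` (`ι = h62rIncl`, `𝔪 = h62rM`, `π = q`), i.e. exactly the hypotheses
`surj`, `inj` of `S36/H62RedIsoAbs.lean`.

* `h25i_mem_h62rM_iff` : bridge `h62rM A N t` (ideal of the chart) `↔ h25i_mExt A N t`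
  (additive subgroup of `FF N`).
* `h25i_redIso_of` : `H62RedIso` from the elementwise statements.
* `h25i_redIso_M_fin`, `h25i_redIso_M_inf`, `h25i_redIso_Mq_fin`, `h25i_redIso_Mq_inf`.
-/

set_option autoImplicit false
set_option linter.unusedSectionVars false
set_option linter.style.haveILetI false

open AlgebraicCurve ModularCurve IsLocalRing

noncomputable section

namespace Fermat.Agent.S36

open Fermat.Agent.S37 (Kbar GQ FF cst gal jB modelAt modelFin modelInf IsRat)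
open Fermat.Agent.Red.GG (chart)
open Fermat.Agent.LGC (jSS)

section Bridge

variable {A : ValuationSubring Kbar} {N : ℕ} {t : FF N}

/-- `𝔪_A B` (elementwise) is contained in the ideal `h62rM`. -/
theorem h25i_mem_h62rM_of_mExt {y : FF N} (hy : y ∈ h25i_mExt A N t)
    (h : y ∈ chart N A t) : (⟨y, h⟩ : chart N A t) ∈ h62rM A N t := by
  have key : ∀ y, y ∈ h25i_mExt A N t → ∃ h : y ∈ chart N A t,
      (⟨y, h⟩ : chart N A t) ∈ h62rM A N t := by
    intro y hy
    refine AddSubgroup.closure_induction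
      (p := fun y _ => ∃ h : y ∈ chart N A t, (⟨y, h⟩ : chart N A t) ∈ h62rM A N t)
      ?_ ?_ ?_ ?_ hy
    · rintro _ ⟨a, b, ha, hb, rfl⟩
      have hmem : cst N a * b ∈ chart N A t :=
        mul_mem (Fermat.Agent.Red.ModelO.h85_cst_mem_modelAt N A t (A.nonunits_subset ha)) hb
      refine ⟨hmem, ?_⟩
      have ha' : (⟨a, A.nonunits_subset ha⟩ : A) ∈ maximalIdeal A := by
        rw [IsLocalRing.mem_maximalIdeal, mem_nonunits_iff]
        intro hu
        exact (ValuationSubring.mem_nonunits_iff_exists_mem_maximalIdeal.mp ha).elim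
          (fun ha0 h1 => (IsLocalRing.mem_maximalIdeal _).mp h1 hu)
      have e : (⟨cst N a * b, hmem⟩ : chart N A t) =
          algebraMap A (chart N A t) ⟨a, A.nonunits_subset ha⟩ * ⟨b, hb⟩ := rfl
      rw [e]
      exact Ideal.mul_mem_right _ _ (Ideal.mem_map_of_mem _ ha')
    · exact ⟨zero_mem _, zero_mem _⟩
    · rintro x y _ _ ⟨hx, hx'⟩ ⟨hy, hy'⟩
      exact ⟨add_mem hx hy, add_mem hx' hy'⟩
    · rintro x _ ⟨hx, hx'⟩
      exact ⟨neg_mem hx, neg_mem hx'⟩
  exact (key y hy).2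

/-- the ideal `h62rM` is contained in `𝔪_A B` (elementwise). -/
theorem h25i_mExt_of_mem_h62rM {z : chart N A t} (hz : z ∈ h62rM A N t) :
    (z : FF N) ∈ h25i_mExt A N t := by
  unfold h62rM at hz
  rw [Ideal.map] at hz
  induction hz using Submodule.span_induction with
  | mem x hx =>
    obtain ⟨a, ha, rfl⟩ := hx
    have ha' : (a : Kbar) ∈ A.nonunits := by
      rw [ValuationSubring.mem_nonunits_iff_exists_mem_maximalIdeal]
      exact ⟨a.2, ha⟩
    exact h25i_cst_mem ha'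
  | zero => exact zero_mem _
  | add x y _ _ hx hy => exact add_mem hx hy
  | smul c x _ hx =>
    exact h25i_mul_mem c.2 hx

theorem h25i_mem_h62rM_iff {z : chart N A t} :
    z ∈ h62rM A N t ↔ (z : FF N) ∈ h25i_mExt A N t :=
  ⟨h25i_mExt_of_mem_h62rM, fun h => h25i_mem_h62rM_of_mExt h z.2⟩

/-- `H62RedIso` from the elementwise statements. -/
theorem h25i_redIso_of {q : ℕ} (hq : q.Prime)
    (hcongr : ∀ x : FF N, x ∈ modelAt N A t →
      ∃ x₀ : FF N, x₀ ∈ h62rChart A N t ∧ x - x₀ ∈ h25i_mExt A N t)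
    (hinter : ∀ x : FF N, x ∈ h62rChart A N t → x ∈ h25i_mExt A N t →
      cst N ((q : ℕ) : Kbar)⁻¹ * x ∈ h62rChart A N t) :
    H62RedIso A N t q := by
  have hq0 : ((q : ℕ) : Kbar) ≠ 0 := Nat.cast_ne_zero.mpr hq.ne_zero
  refine ⟨fun b => ?_, fun x hx => ?_⟩
  · obtain ⟨x₀, hx₀, hd⟩ := hcongr (b : FF N) b.2
    refine ⟨⟨x₀, hx₀⟩, ?_⟩
    rw [h25i_mem_h62rM_iff]
    exact hd
  · have hx' : (x : FF N) ∈ h25i_mExt A N t := by
      have := h25i_mExt_of_mem_h62rM hx
      exact this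
    refine ⟨⟨_, hinter (x : FF N) x.2 hx'⟩, ?_⟩
    apply Subtype.ext
    show (x : FF N) = ((q : h62rChart A N t) : FF N) * (cst N ((q : ℕ) : Kbar)⁻¹ * (x : FF N))
    have e1 : ((q : h62rChart A N t) : FF N) = cst N ((q : ℕ) : Kbar) := by
      rw [cst, map_natCast]
      rfl
    rw [e1, ← mul_assoc, ← map_mul, mul_inv_cancel₀ hq0, map_one, one_mul]

end Bridge

section Levels

variable {A : ValuationSubring Kbar} {M q : ℕ} [NeZero M]

theorem h25i_redIso_M_fin (hq : q.Prime) (hM : ¬ q ∣ M) (hA : A.LiesOverPrime q) :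
    H62RedIso A M (jB M) q :=
  h25i_redIso_of hq (fun _ hx => h25i_congr_M_fin hq hM hA hx)
    (fun _ hx hxm => h25i_inter_M_fin hq hM hA hx hxm)

theorem h25i_redIso_M_inf (hq : q.Prime) (hM : ¬ q ∣ M) (hA : A.LiesOverPrime q) :
    H62RedIso A M (jB M)⁻¹ q :=
  h25i_redIso_of hq (fun _ hx => h25i_congr_M_inf hq hM hA hx)
    (fun _ hx hxm => h25i_inter_M_inf hq hM hA hx hxm)

variable [NeZero q]

theorem h25i_redIso_Mq_fin (hq : q.Prime) (hM : ¬ q ∣ M) (hA : A.LiesOverPrime q) :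
    H62RedIso A (M * q) (jSS M q) q := by
  rw [Fermat.Agent.LGC.h71i_jSS_eq]
  exact h25i_redIso_of hq (fun _ hx => h25i_congr_Mq_fin hq hM hA hx)
    (fun _ hx hxm => h25i_inter_Mq_fin hq hM hA hx hxm)

theorem h25i_redIso_Mq_inf (hq : q.Prime) (hM : ¬ q ∣ M) (hA : A.LiesOverPrime q) :
    H62RedIso A (M * q) (jSS M q)⁻¹ q := by
  rw [Fermat.Agent.LGC.h71i_jSS_eq]
  exact h25i_redIso_of hq (fun _ hx => h25i_congr_Mq_inf hq hM hA hx)
    (fun _ hx hxm => h25i_inter_Mq_inf hq hM hA hx hxm)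

end Levels

/-- **R-REDISO.** -/
theorem h25i_redIsoStatement : H62RedIsoStatement := by
  intro q hq M _ hM _ A hA
  haveI : NeZero q := ⟨hq.ne_zero⟩
  exact ⟨h25i_redIso_M_fin hq hM hA, h25i_redIso_M_inf hq hM hA,
    h25i_redIso_Mq_fin hq hM hA, h25i_redIso_Mq_inf hq hM hA⟩

end Fermat.Agent.S36
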