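/-
S36 (wave 4), Bridge leaf INERTIA FIELD (helper23).

For a valuation subring `A` of `ℚ̄` lying over the prime `q`, with inertia group
`I = A.inertiaSubgroupIn ℚ`, the inertia field `K₀ = ℚ̄^I` is *unramified* over `q`:

* `h23u_exists_zpow` : an `I`-fixed `a ≠ 0` is `q ^ n` times a unit of `A` (value group `ℤ`);
* `h23u_unif` : an `I`-fixed element of the maximal ideal of `A` is divisible by `q` in `A`
  (`q` is a uniformiser);
* `h23u_residue` : every element of `A` is congruent modulo the maximal ideal to an `I`-fixed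
  element of `A` (same residue field; this is helper57's `h57_exists_inertia_fixed`).

Route: every `A` over `q` is a translate of `padicPlace q` (`h23b_exists_smul_padicPlace`), the
inertia group corresponds to `Gal(ℚ̄_q/ℚ_q^{ur})` (`h23b_mem_inertia_conj_iff`), and the value
group of `ℚ_q^{ur} = ⋃ ℚ_q(μ_{q^n-1})` is that of `ℚ_q` (PT-LOC `URVal`).
-/
import Mathlib
import Fermat.Agent.PT.Bridge.Unram
import Fermat.Agent.PT.Loc.H66URVal
import Fermat.Agent.PT.Loc.H96RDBase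
import Fermat.Agent.LGC.H57Teich

set_option autoImplicit false
set_option linter.style.haveILetI false

open ExtCitation groupCohomology
open scoped Pointwise

namespace Fermat.Agent.S36

open Fermat.Agent.PT Fermat.Agent.PT.Bridge

/-! ## The local statement -/

section Local

variable (q : ℕ) [Fact q.Prime]

/-- The value group of `ℚ_q^{ur}` is `q ^ ℤ`. -/
theorem h23u_norm_eq_zpow_of_mem_Qur {y : PadicAlgCl q} (hy : y ∈ h23b_Qur q) (hy0 : y ≠ 0) :
    ∃ n : ℤ, ‖y‖ = (q : ℝ) ^ n := by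
  have hq : q.Prime := Fact.out
  -- `ℚ_q(y)` is a finite subextension of `ℚ_q^{ur}`
  have hyint : IsIntegral ℚ_[q] y := Algebra.IsIntegral.isIntegral y
  haveI : FiniteDimensional ℚ_[q] (IntermediateField.adjoin ℚ_[q] {y}) :=
    IntermediateField.adjoin.finiteDimensional hyint
  have hle : IntermediateField.adjoin ℚ_[q] {y} ≤ h23b_Qur q := by
    rw [IntermediateField.adjoin_le_iff]
    intro z hz
    rw [Set.mem_singleton_iff] at hz
    subst hz
    exact hy
  obtain ⟨n, hn, hn2⟩ := h23b_le_QurFin_of_le_Qur q _ hle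
  have hyn : y ∈ h23b_QurFin q n :=
    hn2 (IntermediateField.subset_adjoin ℚ_[q] {y} (Set.mem_singleton y))
  rw [← h23b_Kur_bot_eq q (Loc.h96b_resCard_bot q) n] at hyn
  obtain ⟨-, hval, -⟩ := Loc.h66v_urVal Loc.h34lf_lfTeich q (⊥ : Loc.LF q) n hn
  obtain ⟨z, hz, hyz⟩ := hval y hyn
  obtain ⟨z', rfl⟩ := IntermediateField.mem_bot.mp hz
  rw [norm_algebraMap'] at hyz
  have hz0 : z' ≠ 0 := by
    rintro rfl
    rw [norm_zero, norm_eq_zero] at hyz
    exact hy0 hyz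
  exact ⟨-z'.valuation, by rw [hyz, Padic.norm_eq_zpow_neg_valuation hz0]⟩

/-- `ι (x a)` lies in `ℚ_q^{ur}` when `a` is fixed by the inertia group of `x⁻¹ • padicPlace q`. -/
theorem h23u_mem_Qur_of_fixed (x : AlgebraicClosure ℚ ≃ₐ[ℚ] AlgebraicClosure ℚ)
    {a : AlgebraicClosure ℚ}
    (hfix : ∀ σ ∈ (x⁻¹ • padicPlace q).inertiaSubgroupIn ℚ, σ a = a) :
    padicEmbedding q (x a) ∈ h23b_Qur q := by
  haveI := h23b_isGalois_padicAlgCl q
  rw [← InfiniteGalois.fixedField_fixingSubgroup (h23b_Qur q), IntermediateField.mem_fixedField_iff]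
  intro h hh
  have hinert := (h23b_mem_fixingSubgroup_Qur_iff q h).mp hh
  have hσ : x⁻¹ * localGaloisToGlobal q h * x ∈ (x⁻¹ • padicPlace q).inertiaSubgroupIn ℚ :=
    (h23b_mem_inertia_conj_iff q x _).mpr ⟨h, hinert, rfl⟩
  have h1 := hfix _ hσ
  have h2 : localGaloisToGlobal q h (x a) = x a := by
    have h3 : x⁻¹ (localGaloisToGlobal q h (x a)) = a := h1
    have h4 := congrArg x h3
    have h5 : x (x⁻¹ (localGaloisToGlobal q h (x a))) = localGaloisToGlobal q h (x a) :=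
      x.apply_symm_apply _
    rw [h5] at h4
    exact h4
  rw [← padicEmbedding_localGaloisToGlobal, h2]

/-- The norm of `ι (x a)` for inertia-fixed `a ≠ 0` is a power of `q`. -/
theorem h23u_norm_eq_zpow_of_fixed (x : AlgebraicClosure ℚ ≃ₐ[ℚ] AlgebraicClosure ℚ)
    {a : AlgebraicClosure ℚ} (ha0 : a ≠ 0)
    (hfix : ∀ σ ∈ (x⁻¹ • padicPlace q).inertiaSubgroupIn ℚ, σ a = a) :
    ∃ n : ℤ, ‖padicEmbedding q (x a)‖ = (q : ℝ) ^ n := by
  refine h23u_norm_eq_zpow_of_mem_Qur q (h23u_mem_Qur_of_fixed q x hfix) ?_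
  intro h0
  apply ha0
  have h1 : x a = 0 := h23b_padicEmbedding_injective q (by rw [h0, map_zero])
  exact (map_eq_zero x).mp h1

/-- The norm of `ι (x (a / q ^ n))`. -/
theorem h23u_norm_div_zpow (x : AlgebraicClosure ℚ ≃ₐ[ℚ] AlgebraicClosure ℚ)
    (a : AlgebraicClosure ℚ) (n : ℤ) :
    ‖padicEmbedding q (x (a / ((q : ℕ) : AlgebraicClosure ℚ) ^ n))‖ =
      ‖padicEmbedding q (x a)‖ * (q : ℝ) ^ n := by
  have hq : q.Prime := Fact.out
  have hq0 : (q : ℝ) ≠ 0 := by exact_mod_cast hq.ne_zero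
  rw [map_div₀, map_div₀, map_zpow₀, map_zpow₀, map_natCast, map_natCast, norm_div, norm_zpow,
    Loc.h96b_norm_q, inv_zpow, div_eq_mul_inv, inv_inv]

end Local

/-! ## The global statements -/

section Global

variable {q : ℕ} (hq : q.Prime) (A : ValuationSubring (AlgebraicClosure ℚ))
  (hA : A.LiesOverPrime q)

include hq hA

/-- **Value group.** An element `a ≠ 0` of `ℚ̄` fixed by the inertia group of `A` is `q ^ n`
times a unit of `A`, for a unique `n : ℤ`. -/
theorem h23u_exists_zpow {a : AlgebraicClosure ℚ} (ha0 : a ≠ 0)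
    (hfix : ∀ σ ∈ A.inertiaSubgroupIn ℚ, σ a = a) :
    ∃ n : ℤ, a / ((q : ℕ) : AlgebraicClosure ℚ) ^ n ∈ A ∧
      (a / ((q : ℕ) : AlgebraicClosure ℚ) ^ n)⁻¹ ∈ A := by
  haveI : Fact q.Prime := ⟨hq⟩
  obtain ⟨g, rfl⟩ := h23b_exists_smul_padicPlace q hA
  obtain ⟨n, hn⟩ := h23u_norm_eq_zpow_of_fixed q g ha0 hfix
  have hq0 : (q : ℝ) ≠ 0 := by exact_mod_cast hq.ne_zero
  have hqQ : ((q : ℕ) : AlgebraicClosure ℚ) ≠ 0 := by exact_mod_cast hq.ne_zero
  have hne : a / ((q : ℕ) : AlgebraicClosure ℚ) ^ (-n) ≠ 0 :=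
    div_ne_zero ha0 (zpow_ne_zero _ hqQ)
  refine ⟨-n, ?_⟩
  rw [h23b_isUnit_conj_iff q g _ hne, h23u_norm_div_zpow, hn, ← zpow_add₀ hq0, add_neg_cancel,
    zpow_zero]

/-- **Uniformiser.** An element of the maximal ideal of `A` fixed by the inertia group of `A` is
divisible by `q` in `A`. -/
theorem h23u_unif {a : AlgebraicClosure ℚ} (hfix : ∀ σ ∈ A.inertiaSubgroupIn ℚ, σ a = a)
    (ha : a ∈ A.nonunits) : a / ((q : ℕ) : AlgebraicClosure ℚ) ∈ A := by
  haveI : Fact q.Prime := ⟨hq⟩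
  by_cases ha0 : a = 0
  · subst ha0
    rw [zero_div]
    exact A.zero_mem
  obtain ⟨g, rfl⟩ := h23b_exists_smul_padicPlace q hA
  obtain ⟨n, hn⟩ := h23u_norm_eq_zpow_of_fixed q g ha0 hfix
  have hq1 : (1 : ℝ) < q := by exact_mod_cast hq.one_lt
  have hq0 : (q : ℝ) ≠ 0 := by exact_mod_cast hq.ne_zero
  have hlt := (h23b_mem_nonunits_conj_iff q g a).mp ha
  rw [hn] at hlt
  have hn1 : n ≤ -1 := by
    by_contra hcon
    have h0 : 0 ≤ n := by omega
    have := one_le_zpow₀ hq1.le h0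
    linarith
  have e := h23u_norm_div_zpow q g a 1
  rw [zpow_one, zpow_one] at e
  rw [h23b_mem_conj_iff, e, hn]
  calc (q : ℝ) ^ n * q = (q : ℝ) ^ (n + 1) := by rw [zpow_add₀ hq0, zpow_one]
    _ ≤ (q : ℝ) ^ (0 : ℤ) := zpow_le_zpow_right₀ hq1.le (by omega)
    _ = 1 := zpow_zero _

omit hq hA in
/-- The quotient `a / q` of an inertia-fixed element is inertia-fixed. -/
theorem h23u_fixed_div {a : AlgebraicClosure ℚ} (hfix : ∀ σ ∈ A.inertiaSubgroupIn ℚ, σ a = a)
    (n : ℤ) : ∀ σ ∈ A.inertiaSubgroupIn ℚ,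
      σ (a / ((q : ℕ) : AlgebraicClosure ℚ) ^ n) = a / ((q : ℕ) : AlgebraicClosure ℚ) ^ n := by
  intro σ hσ
  rw [map_div₀, map_zpow₀, map_natCast, hfix σ hσ]

/-- **Residue field.** Every element of `A` is congruent modulo the maximal ideal to an element
of `A` fixed by the inertia group (helper57). -/
theorem h23u_residue {a : AlgebraicClosure ℚ} (ha : a ∈ A) :
    ∃ a' : AlgebraicClosure ℚ, a' ∈ A ∧ (∀ σ ∈ A.inertiaSubgroupIn ℚ, σ a' = a') ∧
      a - a' ∈ A.nonunits :=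
  Fermat.Agent.LGC.h57_exists_inertia_fixed Fermat.Agent.LGC.h57_isAlgebraic_int A hq hA ha

end Global

end Fermat.Agent.S36
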