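/-
S36 (wave 4), Bridge leaf INERTIA FIELD, packaged form (helper23).

For a valuation subring `A` of `ℚ̄` over the prime `q`:

* `h23u_K0 A`  : the inertia field `K₀ = ℚ̄^I`, `I = A.inertiaSubgroupIn ℚ`;
* `h23u_A0 A`  : the valuation subring `A₀ = A ∩ K₀` of `K₀`;
* `h23u_irreducible_q`, `h23u_isDVR` : `A₀` is a discrete valuation ring with uniformiser `q`;
* `h23u_maximalIdeal_eq` : `𝔪(A₀) = (q)`;
* `h23u_arch` : the archimedean hypothesis `harch` of the abstract gates holds for `A₀`;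
* `h23u_residue_A0` : `A₀ → A / 𝔪(A)` is surjective;
* `h23u_rootOfUnity_mem_K0` : roots of unity of order prime to `q` lie in `K₀`;
* `h23u_le_fixingSubgroup` : `I ≤ Gal(ℚ̄/K₀)`.
-/
import Mathlib
import Fermat.Agent.S36.H23InertiaField

set_option autoImplicit false
set_option linter.style.haveILetI false

open scoped Pointwise

namespace Fermat.Agent.S36

/-- The inertia field of `A`. -/
noncomputable def h23u_K0 (A : ValuationSubring (AlgebraicClosure ℚ)) :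
    IntermediateField ℚ (AlgebraicClosure ℚ) :=
  IntermediateField.fixedField (A.inertiaSubgroupIn ℚ)

theorem h23u_mem_K0_iff (A : ValuationSubring (AlgebraicClosure ℚ)) (a : AlgebraicClosure ℚ) :
    a ∈ h23u_K0 A ↔ ∀ σ ∈ A.inertiaSubgroupIn ℚ, σ a = a := by
  unfold h23u_K0
  rw [IntermediateField.mem_fixedField_iff]

/-- The inertia group fixes the inertia field. -/
theorem h23u_le_fixingSubgroup (A : ValuationSubring (AlgebraicClosure ℚ)) :
    A.inertiaSubgroupIn ℚ ≤ (h23u_K0 A).fixingSubgroup := by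
  intro σ hσ
  rw [IntermediateField.mem_fixingSubgroup_iff]
  intro x hx
  exact (h23u_mem_K0_iff A x).mp hx σ hσ

/-- The valuation ring `A₀ = A ∩ K₀` of the inertia field. -/
noncomputable def h23u_A0 (A : ValuationSubring (AlgebraicClosure ℚ)) :
    ValuationSubring (h23u_K0 A) :=
  A.comap (algebraMap (h23u_K0 A) (AlgebraicClosure ℚ))

theorem h23u_mem_A0_iff (A : ValuationSubring (AlgebraicClosure ℚ)) (x : h23u_K0 A) :
    x ∈ h23u_A0 A ↔ (x : AlgebraicClosure ℚ) ∈ A := Iff.rfl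

theorem h23u_mem_nonunits_A0_iff (A : ValuationSubring (AlgebraicClosure ℚ)) (x : h23u_K0 A) :
    x ∈ (h23u_A0 A).nonunits ↔ (x : AlgebraicClosure ℚ) ∈ A.nonunits := by
  rw [Fermat.Agent.Bridge.mem_nonunits_iff_inv, Fermat.Agent.Bridge.mem_nonunits_iff_inv,
    h23u_mem_A0_iff]
  have e1 : x = 0 ↔ (x : AlgebraicClosure ℚ) = 0 := by
    constructor
    · rintro rfl; rfl
    · intro h; exact Subtype.ext h
  have e2 : ((x⁻¹ : h23u_K0 A) : AlgebraicClosure ℚ) = (x : AlgebraicClosure ℚ)⁻¹ := rfl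
  rw [e1, e2]

theorem h23u_isUnit_iff (A : ValuationSubring (AlgebraicClosure ℚ)) (x : h23u_A0 A) :
    IsUnit x ↔ ((x : h23u_K0 A) : AlgebraicClosure ℚ) ∉ A.nonunits := by
  rw [← h23u_mem_nonunits_A0_iff, ValuationSubring.coe_mem_nonunits_iff,
    IsLocalRing.mem_maximalIdeal, mem_nonunits_iff, not_not]

section

variable {q : ℕ} (hq : q.Prime) (A : ValuationSubring (AlgebraicClosure ℚ))
  (hA : A.LiesOverPrime q)

/-- `q` as an element of `A₀`. -/
noncomputable def h23u_q (q : ℕ) (A : ValuationSubring (AlgebraicClosure ℚ)) : h23u_A0 A :=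
  ((q : ℕ) : h23u_A0 A)

omit hq in
theorem h23u_coe_q : (((h23u_q q A : h23u_A0 A) : h23u_K0 A) : AlgebraicClosure ℚ) =
    ((q : ℕ) : AlgebraicClosure ℚ) := by
  unfold h23u_q
  push_cast
  rfl

include hq hA

omit hq in
theorem h23u_q_not_isUnit : ¬ IsUnit (h23u_q q A) := by
  rw [h23u_isUnit_iff, not_not, h23u_coe_q]
  exact hA

omit hA in
theorem h23u_q_ne_zero : h23u_q q A ≠ 0 := by
  intro h
  have h1 := congrArg (fun x : h23u_A0 A => ((x : h23u_K0 A) : AlgebraicClosure ℚ)) h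
  simp only [h23u_coe_q] at h1
  have h2 : ((q : ℕ) : AlgebraicClosure ℚ) ≠ 0 := by exact_mod_cast hq.ne_zero
  exact h2 (by simpa using h1)

/-- An element of the maximal ideal of `A₀` is divisible by `q`. -/
theorem h23u_dvd_of_not_isUnit {x : h23u_A0 A} (hx : ¬ IsUnit x) : h23u_q q A ∣ x := by
  rw [h23u_isUnit_iff, not_not] at hx
  have hfix := (h23u_mem_K0_iff A _).mp (x : h23u_K0 A).2
  have h1 := h23u_unif hq A hA hfix hx
  have hq0 : ((q : ℕ) : AlgebraicClosure ℚ) ≠ 0 := by exact_mod_cast hq.ne_zero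
  have h2 : ((x : h23u_K0 A) : AlgebraicClosure ℚ) / ((q : ℕ) : AlgebraicClosure ℚ) ∈ h23u_K0 A :=
    (h23u_K0 A).div_mem (x : h23u_K0 A).2 (natCast_mem _ q)
  refine ⟨⟨⟨_, h2⟩, h1⟩, ?_⟩
  apply Subtype.ext
  apply Subtype.ext
  show ((x : h23u_K0 A) : AlgebraicClosure ℚ) =
    (((h23u_q q A : h23u_A0 A) : h23u_K0 A) : AlgebraicClosure ℚ) *
      (((x : h23u_K0 A) : AlgebraicClosure ℚ) / ((q : ℕ) : AlgebraicClosure ℚ))
  rw [h23u_coe_q]
  field_simp

/-- `q` is irreducible in `A₀`. -/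
theorem h23u_irreducible_q : Irreducible (h23u_q q A) := by
  rw [irreducible_iff]
  refine ⟨h23u_q_not_isUnit A hA, ?_⟩
  intro a b hab
  by_contra hcon
  obtain ⟨ha, hb⟩ := not_or.mp hcon
  obtain ⟨c, rfl⟩ := h23u_dvd_of_not_isUnit hq A hA ha
  have h0 := h23u_q_ne_zero hq A
  have h1 : h23u_q q A * 1 = h23u_q q A * (c * b) := by
    rw [mul_one, ← mul_assoc]
    exact hab
  have h2 := mul_left_cancel₀ h0 h1
  exact hb (IsUnit.of_mul_eq_one c (by rw [mul_comm]; exact h2.symm))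

/-- Every nonzero element of `A₀` is a unit times a power of `q`. -/
theorem h23u_associated_pow {x : h23u_A0 A} (hx : x ≠ 0) :
    ∃ n : ℕ, Associated (h23u_q q A ^ n) x := by
  have hx0 : ((x : h23u_K0 A) : AlgebraicClosure ℚ) ≠ 0 := by
    intro h
    apply hx
    apply Subtype.ext
    apply Subtype.ext
    exact h
  have hfix := (h23u_mem_K0_iff A _).mp (x : h23u_K0 A).2
  obtain ⟨n, hu, hu'⟩ := h23u_exists_zpow hq A hA hx0 hfix
  have hq0 : ((q : ℕ) : AlgebraicClosure ℚ) ≠ 0 := by exact_mod_cast hq.ne_zero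
  -- `n ≥ 0`
  have hn : 0 ≤ n := by
    by_contra hcon
    have hcon' : n < 0 := not_le.mp hcon
    obtain ⟨m, hm⟩ : ∃ m : ℕ, n = -((m : ℤ) + 1) := ⟨(-n - 1).toNat, by omega⟩
    -- then `(q^(m+1))⁻¹ = x * u⁻¹ ∈ A`
    have h1 : (((q : ℕ) : AlgebraicClosure ℚ) ^ (m + 1))⁻¹ ∈ A := by
      have e : (((q : ℕ) : AlgebraicClosure ℚ) ^ (m + 1))⁻¹ =
          ((x : h23u_K0 A) : AlgebraicClosure ℚ) *
            (((x : h23u_K0 A) : AlgebraicClosure ℚ) / ((q : ℕ) : AlgebraicClosure ℚ) ^ n)⁻¹ := by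
        rw [hm, zpow_neg, ← Nat.cast_succ, zpow_natCast]
        field_simp
      rw [e]
      exact A.mul_mem _ _ x.2 hu'
    have h2 : ((q : ℕ) : AlgebraicClosure ℚ) ^ (m + 1) ∈ A.nonunits := by
      rw [pow_succ]
      have h3 : ((q : ℕ) : AlgebraicClosure ℚ) ^ m ∈ A := A.pow_mem (natCast_mem _ q) m
      rw [ValuationSubring.mem_nonunits_iff, map_mul]
      have h4 : A.valuation (((q : ℕ) : AlgebraicClosure ℚ) ^ m) ≤ 1 :=
        (A.valuation_le_one_iff _).mpr h3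
      have h5 : A.valuation ((q : ℕ) : AlgebraicClosure ℚ) < 1 :=
        (ValuationSubring.mem_nonunits_iff A).mp hA
      exact mul_lt_one_of_nonneg_of_lt_one_right h4 zero_le h5
    rw [Fermat.Agent.Bridge.mem_nonunits_iff_inv] at h2
    rcases h2 with h2 | h2
    · exact pow_ne_zero _ hq0 h2
    · exact h2 h1
  obtain ⟨m, rfl⟩ := Int.eq_ofNat_of_zero_le hn
  rw [zpow_natCast] at hu hu'
  -- the unit
  have hK : ((x : h23u_K0 A) : AlgebraicClosure ℚ) / ((q : ℕ) : AlgebraicClosure ℚ) ^ m ∈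
      h23u_K0 A := (h23u_K0 A).div_mem (x : h23u_K0 A).2 (pow_mem (natCast_mem _ q) m)
  have hK' : (((x : h23u_K0 A) : AlgebraicClosure ℚ) / ((q : ℕ) : AlgebraicClosure ℚ) ^ m)⁻¹ ∈
      h23u_K0 A := (h23u_K0 A).inv_mem hK
  let u : h23u_A0 A := ⟨⟨_, hK⟩, hu⟩
  let u' : h23u_A0 A := ⟨⟨_, hK'⟩, hu'⟩
  have hne : ((x : h23u_K0 A) : AlgebraicClosure ℚ) / ((q : ℕ) : AlgebraicClosure ℚ) ^ m ≠ 0 :=
    div_ne_zero hx0 (pow_ne_zero _ hq0)
  have huu' : u * u' = 1 := by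
    apply Subtype.ext
    apply Subtype.ext
    show ((x : h23u_K0 A) : AlgebraicClosure ℚ) / ((q : ℕ) : AlgebraicClosure ℚ) ^ m *
      (((x : h23u_K0 A) : AlgebraicClosure ℚ) / ((q : ℕ) : AlgebraicClosure ℚ) ^ m)⁻¹ = 1
    exact mul_inv_cancel₀ hne
  refine ⟨m, ⟨Units.mkOfMulEqOne u u' huu', ?_⟩⟩
  apply Subtype.ext
  apply Subtype.ext
  show (((h23u_q q A ^ m : h23u_A0 A) : h23u_K0 A) : AlgebraicClosure ℚ) *
      (((x : h23u_K0 A) : AlgebraicClosure ℚ) / ((q : ℕ) : AlgebraicClosure ℚ) ^ m) =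
    ((x : h23u_K0 A) : AlgebraicClosure ℚ)
  have e : (((h23u_q q A ^ m : h23u_A0 A) : h23u_K0 A) : AlgebraicClosure ℚ) =
      ((q : ℕ) : AlgebraicClosure ℚ) ^ m := by
    push_cast
    rw [h23u_coe_q]
  rw [e]
  field_simp

/-- **`A₀` is a discrete valuation ring.** -/
theorem h23u_isDVR : IsDiscreteValuationRing (h23u_A0 A) :=
  IsDiscreteValuationRing.ofHasUnitMulPowIrreducibleFactorization
    ⟨h23u_q q A, h23u_irreducible_q hq A hA, fun hx => h23u_associated_pow hq A hA hx⟩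

/-- The maximal ideal of `A₀` is generated by `q`. -/
theorem h23u_maximalIdeal_eq :
    IsLocalRing.maximalIdeal (h23u_A0 A) = Ideal.span {h23u_q q A} := by
  apply le_antisymm
  · intro x hx
    rw [IsLocalRing.mem_maximalIdeal, mem_nonunits_iff] at hx
    exact Ideal.mem_span_singleton.mpr (h23u_dvd_of_not_isUnit hq A hA hx)
  · rw [Ideal.span_singleton_le_iff_mem, IsLocalRing.mem_maximalIdeal, mem_nonunits_iff]
    exact h23u_q_not_isUnit A hA

/-- The archimedean hypothesis of the abstract gates for `A₀`. -/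
theorem h23u_arch : ∀ c ∈ IsLocalRing.maximalIdeal (h23u_A0 A), c ≠ 0 →
    ∀ a : h23u_A0 A, a ≠ 0 → ∃ k : ℕ, a ∣ c ^ k := by
  intro c hc hc0 a ha0
  obtain ⟨n, hn⟩ := h23u_associated_pow hq A hA ha0
  rw [IsLocalRing.mem_maximalIdeal, mem_nonunits_iff] at hc
  obtain ⟨d, rfl⟩ := h23u_dvd_of_not_isUnit hq A hA hc
  refine ⟨n, ?_⟩
  rw [mul_pow]
  exact Dvd.dvd.mul_right hn.symm.dvd _

/-- The residue field of `A₀` is the residue field of `A`. -/
theorem h23u_residue_A0 {a : AlgebraicClosure ℚ} (ha : a ∈ A) :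
    ∃ a₀ : h23u_A0 A, a - ((a₀ : h23u_K0 A) : AlgebraicClosure ℚ) ∈ A.nonunits := by
  obtain ⟨a', ha', hfix, hsub⟩ := h23u_residue hq A hA ha
  exact ⟨⟨⟨a', (h23u_mem_K0_iff A a').mpr hfix⟩, ha'⟩, hsub⟩

omit hq hA in
/-- Roots of unity of order prime to `q` lie in the inertia field. -/
theorem h23u_rootOfUnity_mem_K0 (hq : q.Prime) (hA : A.LiesOverPrime q) {m : ℕ} (hm : 0 < m)
    (hnd : ¬ q ∣ m) {y : AlgebraicClosure ℚ} (hy : y ^ m = 1) : y ∈ h23u_K0 A := by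
  rw [h23u_mem_K0_iff]
  intro σ hσ
  exact Fermat.Agent.LGC.h57_inertia_fix_root A hm hq hnd hA hσ hy

end

end Fermat.Agent.S36
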