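import Fermat.Agent.S36.H62L1Iface
import Fermat.Agent.LGC.H62Done

/-!
# S36, block REG, row R-L0 (helper62): level `M` is smooth over `A₀`

`h62r_L0_of : H62RedIsoStatement → H62L0`: at the good levels, every closed point `𝔰 ∋ q` of
the finite chart of level `M` over the inertia ring `A₀` has a RATIONAL local parameter:
`u ∈ 𝔰`, `IsRat u`, `𝔰 = (q, u)` locally.

Proof: over `A` this is landed (`h13l_hded_fin`, `h3_exists_local_uniformizer`,
`h62l_exists_LP_mem`); descent by `h62d_exists_max` and `h62d_gen_single`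
(`S36/H62RedIsoAbs.lean`) along the reduction isomorphism R-REDISO.
-/

set_option autoImplicit false
set_option linter.unusedSectionVars false
set_option linter.style.haveILetI false

open AlgebraicCurve ModularCurve IsLocalRing

noncomputable section

namespace Fermat.Agent.S36

open Fermat.Agent.S37 Fermat.Agent.Red Fermat.Agent.Red.GG Fermat.Agent.LGC

/-- a rational function of the chart over `A` is in the chart over `A₀`. -/
def h62rOfRat (A : ValuationSubring Kbar) (N : ℕ) (t : FF N) (u : chart N A t)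
    (hu : IsRat (u : FF N)) : h62rChart A N t :=
  ⟨(u : FF N), h62r_mem_chart.mpr
    ⟨u.2, fun σ _ => (Fermat.Agent.Red.GV.Soft.isRat_iff_gal_fixed N (u : FF N)).mp hu σ⟩⟩

@[simp]
theorem h62r_incl_ofRat (A : ValuationSubring Kbar) (N : ℕ) (t : FF N) (u : chart N A t)
    (hu : IsRat (u : FF N)) : h62rIncl A N t (h62rOfRat A N t u hu) = u := rfl

/-- **R-L0** from R-REDISO. -/
theorem h62r_L0_of (hR : H62RedIsoStatement) : H62L0 := by
  intro q hq M _ hM haux A hA 𝔰₀ h𝔰₀ hq𝔰₀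
  haveI : NeZero q := ⟨hq.ne_zero⟩
  obtain ⟨⟨surj, inj⟩, -, -, -⟩ := hR q hq M hM haux A hA
  obtain ⟨𝔰, h𝔰max, h𝔪𝔰, hcomap⟩ := h62d_exists_max (h62rIncl A M (jB M)) (h62rM A M (jB M))
    (q : h62rChart A M (jB M)) surj inj 𝔰₀ hq𝔰₀
  haveI h𝔰p : 𝔰.IsPrime := h𝔰max.isPrime
  haveI hded : IsDedekindDomain (chart M A (jB M) ⧸ h62rM A M (jB M)) :=
    h13l_hded_fin M A hq hM haux hA
  have hnf : ¬ IsField (chart M A (jB M) ⧸ h62rM A M (jB M)) := h13l_hnf_fin M A hq hM hA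
  haveI h𝔪prime : (h62rM A M (jB M)).IsPrime :=
    (Ideal.Quotient.isDomain_iff_prime _).mp hded.toIsDomain
  obtain ⟨t, ht, -, s, hs, hall⟩ := h3_exists_local_uniformizer (h62rM A M (jB M)) hnf 𝔰 h𝔪𝔰
  have ht₁ : h62l_LP (h62rM A M (jB M)) 𝔰 t := ⟨ht, fun y hy => ⟨s, hs, hall y hy⟩⟩
  have hne : ¬ 𝔰 ≤ h62rM A M (jB M) := by
    intro hle'
    have h1 : h62rM A M (jB M) = 𝔰 := le_antisymm h𝔪𝔰 hle'
    apply hnf
    have h2 : (h62rM A M (jB M)).IsMaximal := h1 ▸ h𝔰max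
    exact (Ideal.Quotient.maximal_ideal_iff_isField_quotient _).mp h2
  have h𝔪A : ∀ a ∈ maximalIdeal A, algebraMap A (chart M A (jB M)) a ∈ h62rM A M (jB M) :=
    fun a ha => Ideal.mem_map_of_mem _ ha
  obtain ⟨u, huR, hu⟩ := h62l_exists_LP_mem (h62rM A M (jB M)) 𝔰 h𝔪𝔰 hne h𝔪A (h62i_R A M)
    (h62d_span A M hq hM hA) (h62d_res A M 𝔰 h𝔰max h𝔪𝔰) (h62d_sep A hq hA) ht₁
  have hrat : IsRat (u : FF M) := (h62i_mem_R A M u).mp huR
  refine ⟨h62rOfRat A M (jB M) u hrat, hrat, ?_, ?_⟩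
  · rw [← hcomap]
    exact Ideal.mem_comap.mpr hu.1
  · have h3 := h62d_gen_single (h62rIncl A M (jB M)) (h62rM A M (jB M))
      (q : h62rChart A M (jB M)) surj inj 𝔰 h𝔪𝔰 (h62rOfRat A M (jB M) u hrat) hu.2
    rw [hcomap] at h3
    exact h3

end Fermat.Agent.S36
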