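/-
S36 (wave 4), block (V) leaf TAME (helper23).

`A` a valuation subring of `ℚ̄` over the prime `q`, `I = A.inertiaSubgroupIn ℚ`, `ζ` a primitive
`q`-th root of unity, `π = 1 - ζ`.  The field `K₀(ζ)` (`K₀ = ℚ̄^I` the inertia field) is totally
and tamely ramified of degree `q - 1` over `K₀`, with uniformiser `π`:

* `h23t_val_inertia`      : `v (σ x) = v x` for `σ ∈ I` (`v = A.valuation`);
* `h23t_one_sub_nonunit`  : `1 - ζ` is in the maximal ideal of `A`;
* `h23t_cyc`              : `I` acts transitively on the primitive `q`-th roots of unity;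
* `h23t_val_q`            : `v q = v (1 - ζ) ^ (q - 1)`;
* `h23t_val_fixed`        : `x ≠ 0` fixed by `I`  ⟹  `v x = v q ^ n` for some `n : ℤ`;
* `h23t_val_tame`         : `x ≠ 0` fixed by the stabiliser of `ζ` in `I`
                            ⟹  `v x = v (1 - ζ) ^ n` for some `n : ℤ`;
* `h23t_exists_zpow`      : the same in the "unit" form `x / (1 - ζ) ^ n ∈ A ∧ (…)⁻¹ ∈ A`.
-/
import Mathlib
import Fermat.Agent.S36.H23InertiaField
import Fermat.Agent.Bridge.H47Inertia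
import Fermat.Agent.Bridge.Main

set_option autoImplicit false
set_option linter.style.haveILetI false

open scoped Pointwise

namespace Fermat.Agent.S36

open Fermat.Agent.PT Fermat.Agent.PT.Bridge

section

variable (A : ValuationSubring (AlgebraicClosure ℚ))

/-- units of `A` in terms of the valuation. -/
theorem h23t_unit_iff {x : AlgebraicClosure ℚ} (hx : x ≠ 0) :
    (x ∈ A ∧ x⁻¹ ∈ A) ↔ A.valuation x = 1 := by
  rw [← A.valuation_le_one_iff, ← A.valuation_le_one_iff, map_inv₀]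
  have hv : A.valuation x ≠ 0 := (Valuation.ne_zero_iff _).mpr hx
  constructor
  · rintro ⟨h1, h2⟩
    refine le_antisymm h1 ?_
    rwa [inv_le_one₀ (zero_lt_iff.mpr hv)] at h2
  · intro h
    rw [h, inv_one]
    exact ⟨le_rfl, le_rfl⟩

end

section Global

variable {q : ℕ} (hq : q.Prime) (A : ValuationSubring (AlgebraicClosure ℚ))
  (hA : A.LiesOverPrime q)

include hq hA

/-- Elements of the decomposition group preserve the valuation. -/
theorem h23t_val_decomp {σ : AlgebraicClosure ℚ ≃ₐ[ℚ] AlgebraicClosure ℚ}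
    (hσ : σ ∈ A.decompositionSubgroup ℚ) (x : AlgebraicClosure ℚ) :
    A.valuation (σ x) = A.valuation x := by
  haveI : Fact q.Prime := ⟨hq⟩
  by_cases hx : x = 0
  · subst hx
    rw [map_zero]
  have hσx : σ x ≠ 0 := (map_ne_zero σ).mpr hx
  have hne : σ x / x ≠ 0 := div_ne_zero hσx hx
  have key : A.valuation (σ x / x) = 1 := by
    rw [← h23t_unit_iff A hne]
    obtain ⟨g, rfl⟩ := h23b_exists_smul_padicPlace q hA
    rw [h23b_isUnit_conj_iff q g _ hne, map_div₀, map_div₀, norm_div]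
    have hτ : g * σ * g⁻¹ ∈ (padicPlace q).decompositionSubgroup ℚ := by
      have := (Fermat.Agent.Bridge.mem_decompositionSubgroup_smul_iff g⁻¹ σ (padicPlace q)).mp hσ
      simpa using this
    have h1 := h23b_norm_padicEmbedding_of_mem_decomp q hτ (g x)
    have h2 : (g * σ * g⁻¹) (g x) = g (σ x) := by
      show g (σ (g⁻¹ (g x))) = g (σ x)
      congr 2
      show (g⁻¹ * g) x = x
      rw [inv_mul_cancel]
      rfl
    rw [h2] at h1
    rw [h1]
    exact div_self (norm_ne_zero_iff.mpr (fun h0 => hx (by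
      have := (h23b_padicEmbedding_injective q) (by rw [h0, map_zero] :
        padicEmbedding q (g x) = padicEmbedding q 0)
      exact (map_eq_zero g).mp this)))
  rw [map_div₀] at key
  have hv : A.valuation x ≠ 0 := (Valuation.ne_zero_iff _).mpr hx
  exact (div_eq_one_iff_eq hv).mp key

/-- Elements of the inertia group preserve the valuation. -/
theorem h23t_val_inertia {σ : AlgebraicClosure ℚ ≃ₐ[ℚ] AlgebraicClosure ℚ}
    (hσ : σ ∈ A.inertiaSubgroupIn ℚ) (x : AlgebraicClosure ℚ) :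
    A.valuation (σ x) = A.valuation x :=
  h23t_val_decomp hq A hA ((Fermat.Agent.Bridge.H47.mem_inertiaSubgroupIn_iff A).mp hσ).1 x

omit hA in
/-- `∏ (1 - η) = q` over the primitive `q`-th roots of unity. -/
theorem h23t_prod_one_sub {ζ : AlgebraicClosure ℚ} (hζ : IsPrimitiveRoot ζ q) :
    ∏ η ∈ primitiveRoots q (AlgebraicClosure ℚ), (1 - η) = (q : AlgebraicClosure ℚ) := by
  haveI : Fact q.Prime := ⟨hq⟩
  have h1 := Polynomial.cyclotomic_eq_prod_X_sub_primitiveRoots hζ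
  have h2 := Polynomial.eval_one_cyclotomic_prime (R := AlgebraicClosure ℚ) (p := q)
  rw [h1, Polynomial.eval_prod] at h2
  simpa using h2

omit hq hA in
/-- `v (1 - ζ ^ b) ≤ v (1 - ζ)` for `ζ ∈ A`. -/
theorem h23t_val_one_sub_pow_le {ζ : AlgebraicClosure ℚ} (hζA : ζ ∈ A) (b : ℕ) :
    A.valuation (1 - ζ ^ b) ≤ A.valuation (1 - ζ) := by
  have h : 1 - ζ ^ b = (1 - ζ) * ∑ i ∈ Finset.range b, ζ ^ i := by
    have := mul_geom_sum ζ b
    linear_combination this
  rw [h, map_mul]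
  have hs : A.valuation (∑ i ∈ Finset.range b, ζ ^ i) ≤ 1 :=
    (A.valuation_le_one_iff _).mpr (sum_mem fun i _ => pow_mem hζA i)
  calc A.valuation (1 - ζ) * A.valuation (∑ i ∈ Finset.range b, ζ ^ i)
      ≤ A.valuation (1 - ζ) * 1 := by gcongr
    _ = A.valuation (1 - ζ) := mul_one _

omit hA in
/-- roots of unity lie in `A`. -/
theorem h23t_root_mem {ζ : AlgebraicClosure ℚ} (hζ : IsPrimitiveRoot ζ q) : ζ ∈ A :=
  Fermat.Agent.S54.mem_valuationSubring_of_isIntegral A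
    ⟨Polynomial.X ^ q - 1, Polynomial.monic_X_pow_sub_C (1 : ℤ) hq.ne_zero, by
      simp [hζ.pow_eq_one]⟩

omit hA in
/-- all `1 - η`, `η` a primitive `q`-th root of unity, have the same valuation. -/
theorem h23t_val_one_sub_eq {ζ η : AlgebraicClosure ℚ} (hζ : IsPrimitiveRoot ζ q)
    (hη : IsPrimitiveRoot η q) : A.valuation (1 - η) = A.valuation (1 - ζ) := by
  haveI : NeZero q := ⟨hq.ne_zero⟩
  obtain ⟨i, -, hi⟩ := hζ.eq_pow_of_pow_eq_one hη.pow_eq_one
  obtain ⟨j, -, hj⟩ := hη.eq_pow_of_pow_eq_one hζ.pow_eq_one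
  refine le_antisymm ?_ ?_
  · rw [← hi]
    exact h23t_val_one_sub_pow_le A (h23t_root_mem hq A hζ) i
  · rw [← hj]
    exact h23t_val_one_sub_pow_le A (h23t_root_mem hq A hη) j

omit hA in
/-- `v q = v (1 - ζ) ^ (q - 1)`. -/
theorem h23t_val_q {ζ : AlgebraicClosure ℚ} (hζ : IsPrimitiveRoot ζ q) :
    A.valuation (q : AlgebraicClosure ℚ) = A.valuation (1 - ζ) ^ (q - 1) := by
  rw [← h23t_prod_one_sub hq hζ, map_prod,
    Finset.prod_congr rfl (fun η hη => h23t_val_one_sub_eq hq A hζ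
      ((mem_primitiveRoots hq.pos).mp hη)),
    Finset.prod_const, hζ.card_primitiveRoots, Nat.totient_prime hq]

/-- `1 - ζ` lies in the maximal ideal of `A`. -/
theorem h23t_val_one_sub_lt {ζ : AlgebraicClosure ℚ} (hζ : IsPrimitiveRoot ζ q) :
    A.valuation (1 - ζ) < 1 := by
  have h1 : A.valuation (q : AlgebraicClosure ℚ) < 1 :=
    (ValuationSubring.mem_nonunits_iff A).mp hA
  rw [h23t_val_q hq A hζ] at h1
  have h2 : A.valuation (1 - ζ) ≤ 1 :=
    (A.valuation_le_one_iff _).mpr (sub_mem A.one_mem (h23t_root_mem hq A hζ))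
  rcases lt_or_eq_of_le h2 with h | h
  · exact h
  · rw [h, one_pow] at h1
    exact absurd h1 (lt_irrefl _)

/-- `1 - ζ` lies in the maximal ideal of `A`. -/
theorem h23t_one_sub_nonunit {ζ : AlgebraicClosure ℚ} (hζ : IsPrimitiveRoot ζ q) :
    1 - ζ ∈ A.nonunits :=
  (ValuationSubring.mem_nonunits_iff A).mpr (h23t_val_one_sub_lt hq A hA hζ)

/-- **Transitivity.** The inertia group of `A` acts transitively on the primitive `q`-th roots
of unity. -/
theorem h23t_cyc {ζ ζ' : AlgebraicClosure ℚ} (hζ : IsPrimitiveRoot ζ q)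
    (hζ' : IsPrimitiveRoot ζ' q) : ∃ σ ∈ A.inertiaSubgroupIn ℚ, σ ζ = ζ' := by
  classical
  by_contra hcon
  have hmemA : ∀ η ∈ primitiveRoots q (AlgebraicClosure ℚ), A.valuation (1 - η) ≤ 1 :=
    fun η hη => (A.valuation_le_one_iff _).mpr
      (sub_mem A.one_mem (h23t_root_mem hq A ((mem_primitiveRoots hq.pos).mp hη)))
  set O := (primitiveRoots q (AlgebraicClosure ℚ)).filter
    (fun η => ∃ σ ∈ A.inertiaSubgroupIn ℚ, σ ζ = η) with hO
  have hOS : O ⊆ primitiveRoots q (AlgebraicClosure ℚ) := Finset.filter_subset _ _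
  have hζO : ζ ∈ O :=
    Finset.mem_filter.mpr ⟨(mem_primitiveRoots hq.pos).mpr hζ, 1, one_mem _, rfl⟩
  have hζ'O : ζ' ∈ primitiveRoots q (AlgebraicClosure ℚ) \ O :=
    Finset.mem_sdiff.mpr ⟨(mem_primitiveRoots hq.pos).mpr hζ',
      fun h => hcon (Finset.mem_filter.mp h).2⟩
  have hPP' : (∏ η ∈ primitiveRoots q (AlgebraicClosure ℚ) \ O, (1 - η)) * ∏ η ∈ O, (1 - η) =
      (q : AlgebraicClosure ℚ) := by
    rw [Finset.prod_sdiff hOS]
    exact h23t_prod_one_sub hq hζ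
  -- a product containing a factor in the maximal ideal is in the maximal ideal
  have hlt : ∀ (T : Finset (AlgebraicClosure ℚ)), T ⊆ primitiveRoots q (AlgebraicClosure ℚ) →
      ∀ η₀ ∈ T, A.valuation (∏ η ∈ T, (1 - η)) < 1 := by
    intro T hT η₀ hη₀
    rw [← Finset.mul_prod_erase T _ hη₀, map_mul]
    have h1 : A.valuation (∏ η ∈ T.erase η₀, (1 - η)) ≤ 1 := by
      rw [map_prod]
      exact Finset.prod_le_one' (fun η hη => hmemA η (hT (Finset.mem_of_mem_erase hη)))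
    have h2 : A.valuation (1 - η₀) < 1 :=
      h23t_val_one_sub_lt hq A hA ((mem_primitiveRoots hq.pos).mp (hT hη₀))
    calc A.valuation (1 - η₀) * A.valuation (∏ η ∈ T.erase η₀, (1 - η))
        ≤ A.valuation (1 - η₀) * 1 := by gcongr
      _ = A.valuation (1 - η₀) := mul_one _
      _ < 1 := h2
  have hvP := hlt O hOS ζ hζO
  have hvP' := hlt _ Finset.sdiff_subset ζ' hζ'O
  -- `P` is fixed by inertia
  have hfix : ∀ τ ∈ A.inertiaSubgroupIn ℚ, τ (∏ η ∈ O, (1 - η)) = ∏ η ∈ O, (1 - η) := by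
    intro τ hτ
    rw [map_prod]
    refine Finset.prod_bij' (fun η _ => τ η) (fun η _ => τ⁻¹ η) ?_ ?_ ?_ ?_ ?_
    · intro η hη
      obtain ⟨hη1, σ, hσ, hση⟩ := Finset.mem_filter.mp hη
      refine Finset.mem_filter.mpr ⟨?_, τ * σ, mul_mem hτ hσ, ?_⟩
      · exact (mem_primitiveRoots hq.pos).mpr
          (((mem_primitiveRoots hq.pos).mp hη1).map_of_injective τ.injective)
      · show τ (σ ζ) = τ η
        rw [hση]
    · intro η hη
      obtain ⟨hη1, σ, hσ, hση⟩ := Finset.mem_filter.mp hη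
      refine Finset.mem_filter.mpr ⟨?_, τ⁻¹ * σ, mul_mem (inv_mem hτ) hσ, ?_⟩
      · exact (mem_primitiveRoots hq.pos).mpr
          (((mem_primitiveRoots hq.pos).mp hη1).map_of_injective (τ⁻¹).injective)
      · show τ⁻¹ (σ ζ) = τ⁻¹ η
        rw [hση]
    · intro η _
      exact τ.symm_apply_apply η
    · intro η _
      exact τ.apply_symm_apply η
    · intro η _
      rw [map_sub, map_one]
  have hdiv := h23u_unif hq A hA hfix ((ValuationSubring.mem_nonunits_iff A).mpr hvP)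
  rw [← A.valuation_le_one_iff, map_div₀, ← hPP', map_mul] at hdiv
  have hP0 : A.valuation (∏ η ∈ O, (1 - η)) ≠ 0 := by
    rw [Valuation.ne_zero_iff, Finset.prod_ne_zero_iff]
    intro η hη h0
    have h1 : η = 1 := (sub_eq_zero.mp h0).symm
    have h2 := (mem_primitiveRoots hq.pos).mp (hOS hη)
    rw [h1] at h2
    exact hq.one_lt.ne' (h2.unique IsPrimitiveRoot.one)
  have hP'0 : A.valuation (∏ η ∈ primitiveRoots q (AlgebraicClosure ℚ) \ O, (1 - η)) ≠ 0 := by
    rw [Valuation.ne_zero_iff, Finset.prod_ne_zero_iff]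
    intro η hη h0
    have h1 : η = 1 := (sub_eq_zero.mp h0).symm
    have h2 := (mem_primitiveRoots hq.pos).mp (Finset.sdiff_subset hη)
    rw [h1] at h2
    exact hq.one_lt.ne' (h2.unique IsPrimitiveRoot.one)
  rw [div_le_one₀ (zero_lt_iff.mpr (mul_ne_zero hP'0 hP0))] at hdiv
  have h3 : A.valuation (∏ η ∈ primitiveRoots q (AlgebraicClosure ℚ) \ O, (1 - η)) *
      A.valuation (∏ η ∈ O, (1 - η)) < 1 * A.valuation (∏ η ∈ O, (1 - η)) :=
    mul_lt_mul_of_pos_right hvP' (zero_lt_iff.mpr hP0)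
  rw [one_mul] at h3
  exact absurd (lt_of_le_of_lt hdiv h3) (lt_irrefl _)

/-- **Value group of the inertia field.** `x ≠ 0` fixed by inertia has valuation `v q ^ n`. -/
theorem h23t_val_fixed {x : AlgebraicClosure ℚ} (hx0 : x ≠ 0)
    (hfix : ∀ σ ∈ A.inertiaSubgroupIn ℚ, σ x = x) :
    ∃ n : ℤ, A.valuation x = A.valuation (q : AlgebraicClosure ℚ) ^ n := by
  obtain ⟨n, hn⟩ := h23u_exists_zpow hq A hA hx0 hfix
  have hqQ : ((q : ℕ) : AlgebraicClosure ℚ) ≠ 0 := by exact_mod_cast hq.ne_zero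
  have hne : x / ((q : ℕ) : AlgebraicClosure ℚ) ^ n ≠ 0 := div_ne_zero hx0 (zpow_ne_zero _ hqQ)
  rw [h23t_unit_iff A hne, map_div₀, map_zpow₀] at hn
  have hv : A.valuation (q : AlgebraicClosure ℚ) ^ n ≠ 0 :=
    zpow_ne_zero _ ((Valuation.ne_zero_iff _).mpr hqQ)
  exact ⟨n, (div_eq_one_iff_eq hv).mp hn⟩

/-- **Value group of `K₀(ζ_q)`.** If `x ≠ 0` is fixed by every element of the inertia group
fixing the primitive `q`-th root of unity `ζ`, then `v x = v (1 - ζ) ^ n` for some `n : ℤ`. -/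
theorem h23t_val_tame {ζ : AlgebraicClosure ℚ} (hζ : IsPrimitiveRoot ζ q)
    {x : AlgebraicClosure ℚ} (hx0 : x ≠ 0)
    (hfix : ∀ σ ∈ A.inertiaSubgroupIn ℚ, σ ζ = ζ → σ x = x) :
    ∃ n : ℤ, A.valuation x = A.valuation (1 - ζ) ^ n := by
  classical
  -- the conjugates of `x` indexed by the primitive roots
  let y : AlgebraicClosure ℚ → AlgebraicClosure ℚ := fun η =>
    if h : ∃ σ ∈ A.inertiaSubgroupIn ℚ, σ ζ = η then (Classical.choose h) x else 1
  have hy : ∀ η, ∀ σ ∈ A.inertiaSubgroupIn ℚ, σ ζ = η → y η = σ x := by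
    intro η σ hσ hση
    have h : ∃ σ ∈ A.inertiaSubgroupIn ℚ, σ ζ = η := ⟨σ, hσ, hση⟩
    have hyη : y η = (Classical.choose h) x := dif_pos h
    obtain ⟨h1, h2⟩ := Classical.choose_spec h
    have h3 : (σ⁻¹ * Classical.choose h) ζ = ζ := by
      show σ⁻¹ (Classical.choose h ζ) = ζ
      rw [h2, ← hση]
      exact σ.symm_apply_apply ζ
    have h4 := hfix _ (mul_mem (inv_mem hσ) h1) h3
    have h5 : σ ((σ⁻¹ * Classical.choose h) x) = σ x := by rw [h4]
    rw [hyη, ← h5]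
    show Classical.choose h x = σ (σ⁻¹ (Classical.choose h x))
    exact (σ.apply_symm_apply _).symm
  have hex : ∀ η ∈ primitiveRoots q (AlgebraicClosure ℚ),
      ∃ σ ∈ A.inertiaSubgroupIn ℚ, σ ζ = η :=
    fun η hη => h23t_cyc hq A hA hζ ((mem_primitiveRoots hq.pos).mp hη)
  -- the norm
  have hNfix : ∀ τ ∈ A.inertiaSubgroupIn ℚ,
      τ (∏ η ∈ primitiveRoots q (AlgebraicClosure ℚ), y η) =
        ∏ η ∈ primitiveRoots q (AlgebraicClosure ℚ), y η := by
    intro τ hτ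
    rw [map_prod]
    refine Finset.prod_bij' (fun η _ => τ η) (fun η _ => τ⁻¹ η) ?_ ?_ ?_ ?_ ?_
    · intro η hη
      exact (mem_primitiveRoots hq.pos).mpr
        (((mem_primitiveRoots hq.pos).mp hη).map_of_injective τ.injective)
    · intro η hη
      exact (mem_primitiveRoots hq.pos).mpr
        (((mem_primitiveRoots hq.pos).mp hη).map_of_injective (τ⁻¹).injective)
    · intro η _
      exact τ.symm_apply_apply η
    · intro η _
      exact τ.apply_symm_apply η
    · intro η hη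
      obtain ⟨σ, hσ, hση⟩ := hex η hη
      rw [hy η σ hσ hση, hy (τ η) (τ * σ) (mul_mem hτ hσ) (by
        show τ (σ ζ) = τ η
        rw [hση])]
      rfl
  have hvy : ∀ η ∈ primitiveRoots q (AlgebraicClosure ℚ),
      A.valuation (y η) = A.valuation x := by
    intro η hη
    obtain ⟨σ, hσ, hση⟩ := hex η hη
    rw [hy η σ hσ hση]
    exact h23t_val_inertia hq A hA hσ x
  have hN0 : ∏ η ∈ primitiveRoots q (AlgebraicClosure ℚ), y η ≠ 0 := by
    rw [← Valuation.ne_zero_iff A.valuation, map_prod, Finset.prod_congr rfl hvy,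
      Finset.prod_const]
    exact pow_ne_zero _ ((Valuation.ne_zero_iff _).mpr hx0)
  obtain ⟨n, hn⟩ := h23t_val_fixed hq A hA hN0 hNfix
  rw [map_prod, Finset.prod_congr rfl hvy, Finset.prod_const, hζ.card_primitiveRoots,
    Nat.totient_prime hq, h23t_val_q hq A hζ] at hn
  refine ⟨n, ?_⟩
  have hq1 : q - 1 ≠ 0 := by have := hq.two_le; omega
  have h6 : A.valuation x ^ (q - 1) = (A.valuation (1 - ζ) ^ n) ^ (q - 1) := by
    rw [hn, ← zpow_natCast (A.valuation (1 - ζ)), ← zpow_natCast (A.valuation (1 - ζ) ^ n),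
      ← zpow_mul, ← zpow_mul, mul_comm]
  exact (pow_left_inj₀ zero_le zero_le hq1).mp h6

/-- **Value group of `K₀(ζ_q)`, unit form.** -/
theorem h23t_exists_zpow {ζ : AlgebraicClosure ℚ} (hζ : IsPrimitiveRoot ζ q)
    {x : AlgebraicClosure ℚ} (hx0 : x ≠ 0)
    (hfix : ∀ σ ∈ A.inertiaSubgroupIn ℚ, σ ζ = ζ → σ x = x) :
    ∃ n : ℤ, x / (1 - ζ) ^ n ∈ A ∧ (x / (1 - ζ) ^ n)⁻¹ ∈ A := by
  obtain ⟨n, hn⟩ := h23t_val_tame hq A hA hζ hx0 hfix
  have hπ : (1 - ζ) ≠ 0 := by
    intro h0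
    have h1 : ζ = 1 := (sub_eq_zero.mp h0).symm
    rw [h1] at hζ
    exact hq.one_lt.ne' (hζ.unique IsPrimitiveRoot.one)
  have hne : x / (1 - ζ) ^ n ≠ 0 := div_ne_zero hx0 (zpow_ne_zero _ hπ)
  refine ⟨n, ?_⟩
  rw [h23t_unit_iff A hne, map_div₀, map_zpow₀, hn]
  exact div_self (zpow_ne_zero _ ((Valuation.ne_zero_iff _).mpr hπ))

/-- A nonunit fixed by the stabiliser of `ζ` in the inertia group is divisible by `1 - ζ`. -/
theorem h23t_unif {ζ : AlgebraicClosure ℚ} (hζ : IsPrimitiveRoot ζ q)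
    {x : AlgebraicClosure ℚ} (hfix : ∀ σ ∈ A.inertiaSubgroupIn ℚ, σ ζ = ζ → σ x = x)
    (hx : x ∈ A.nonunits) : x / (1 - ζ) ∈ A := by
  by_cases hx0 : x = 0
  · subst hx0
    rw [zero_div]
    exact A.zero_mem
  obtain ⟨n, hn⟩ := h23t_val_tame hq A hA hζ hx0 hfix
  have hπ : (1 - ζ) ≠ 0 := by
    intro h0
    have h1 : ζ = 1 := (sub_eq_zero.mp h0).symm
    rw [h1] at hζ
    exact hq.one_lt.ne' (hζ.unique IsPrimitiveRoot.one)
  have hvπ : A.valuation (1 - ζ) ≠ 0 := (Valuation.ne_zero_iff _).mpr hπ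
  have hlt := h23t_val_one_sub_lt hq A hA hζ
  have hxlt : A.valuation x < 1 := (ValuationSubring.mem_nonunits_iff A).mp hx
  rw [← A.valuation_le_one_iff, map_div₀, hn, div_le_one₀ (zero_lt_iff.mpr hvπ)]
  -- `n ≥ 1`
  have hn1 : 1 ≤ n := by
    by_contra hcon
    have hn0 : n ≤ 0 := by omega
    rw [hn] at hxlt
    have h1 : (1 : ValuationSubring.ValueGroup A) ≤ A.valuation (1 - ζ) ^ n := by
      obtain ⟨k, rfl⟩ : ∃ k : ℕ, n = -(k : ℤ) := ⟨n.natAbs, by omega⟩
      rw [zpow_neg, zpow_natCast]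
      exact (one_le_inv₀ (zero_lt_iff.mpr (pow_ne_zero _ hvπ))).mpr (pow_le_one' hlt.le k)
    exact absurd (lt_of_le_of_lt h1 hxlt) (lt_irrefl _)
  obtain ⟨k, rfl⟩ : ∃ k : ℕ, n = (k : ℤ) + 1 := ⟨(n - 1).toNat, by omega⟩
  rw [zpow_add₀ hvπ, zpow_one, zpow_natCast]
  calc A.valuation (1 - ζ) ^ k * A.valuation (1 - ζ) ≤ 1 * A.valuation (1 - ζ) := by
        gcongr
        exact pow_le_one' hlt.le k
    _ = A.valuation (1 - ζ) := one_mul _

end Global

end Fermat.Agent.S36
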