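import Fermat.Agent.S36.H20NormSkel

/-!
# S36, block (N), leaf N-DF: the embeddings `E11^ζ`, `E02` take values in `dfField`

`h12e_embDF : H20EmbDF` (frozen Prop of `S36/H20NormSkel.lean`).

Ingredients: `kFF_induction_ab` (the field `FF (M q q)` is generated by `α (FF (M q))` and
`β (FF (M q))`), `FF_le_dfField`, and the stability of discrete series under the twist
`t ↦ ζ t` (`ζ` a root of unity) and under `t ↦ t ^ q`.

Author: helper12.
-/

set_option autoImplicit false
set_option linter.unusedSectionVars false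
set_option linter.style.haveILetI false

open AlgebraicCurve ModularCurve

noncomputable section

namespace Fermat.Agent.S36

open Fermat.Agent.S37 (Kbar GQ FF cst gal)
open Fermat.Agent.Red.Kron (kFricke twistK)
open Fermat.Agent.Red.GV.Soft

section General

variable {K : Type} [Field K] [CharZero K] [Algebra ℚ K]

/-- twisting by a root of unity preserves discrete series. -/
theorem h12e_isDisc_twistK {ζ : K} {q : ℕ} (hq : 0 < q) (hζ : ζ ^ q = 1)
    {x : LaurentSeries K} (hx : IsDisc x) : IsDisc (twistK ζ x) := by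
  classical
  obtain ⟨s, hs⟩ := hx
  refine ⟨(s ×ˢ Finset.range q).image (fun p : K × ℕ => p.1 * ζ ^ p.2), fun n => ?_⟩
  rw [Fermat.Agent.Red.Kron.coeff_twistK]
  -- `ζ ^ n = ζ ^ (n mod q)`
  have hqz : (q : ℤ) ≠ 0 := by exact_mod_cast hq.ne'
  have hqpos : (0 : ℤ) < q := by exact_mod_cast hq
  have hpow : ζ ^ n = ζ ^ (n % (q : ℤ)).toNat := by
    have h1 : n = (n % (q : ℤ)) + (q : ℤ) * (n / (q : ℤ)) := (Int.emod_add_mul_ediv n q).symm
    have h2 : 0 ≤ n % (q : ℤ) := Int.emod_nonneg n hqz
    have hζ0 : ζ ≠ 0 := by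
      rintro rfl
      rw [zero_pow hq.ne'] at hζ
      exact zero_ne_one hζ
    conv_lhs => rw [h1]
    rw [zpow_add₀ hζ0, zpow_mul, zpow_natCast, hζ, one_zpow, mul_one]
    conv_lhs => rw [← Int.toNat_of_nonneg h2]
    rw [zpow_natCast]
  have hlt : (n % (q : ℤ)).toNat < q := by
    have h2 : 0 ≤ n % (q : ℤ) := Int.emod_nonneg n hqz
    have h3 : n % (q : ℤ) < q := Int.emod_lt_of_pos n hqpos
    omega
  rw [hpow]
  set r : ℕ := (n % (q : ℤ)).toNat with hr
  -- the map `y ↦ y * ζ ^ r` sends the span of `s` into the span of the image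
  have hmap : ∀ y ∈ Submodule.span ℤ (s : Set K),
      y * ζ ^ r ∈ Submodule.span ℤ
        (((s ×ˢ Finset.range q).image (fun p : K × ℕ => p.1 * ζ ^ p.2) : Finset K) : Set K) := by
    intro y hy
    induction hy using Submodule.span_induction with
    | mem y hy =>
        refine Submodule.subset_span ?_
        rw [Finset.mem_coe, Finset.mem_image]
        exact ⟨(y, r), Finset.mem_product.mpr ⟨hy, Finset.mem_range.mpr hlt⟩, rfl⟩
    | zero => rw [zero_mul]; exact zero_mem _
    | add y z _ _ hy hz => rw [add_mul]; exact add_mem hy hz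
    | smul a y _ hy => rw [smul_mul_assoc]; exact Submodule.smul_mem _ a hy
  exact hmap _ (hs n)

/-- `t ↦ t ^ N` preserves discrete series. -/
theorem h12e_isDisc_qExpand (N : ℕ) [NeZero N] {x : LaurentSeries K} (hx : IsDisc x) :
    IsDisc (qExpand K N x) := by
  obtain ⟨s, hs⟩ := hx
  refine ⟨s, fun n => ?_⟩
  by_cases hn : (N : ℤ) ∣ n
  · obtain ⟨k, rfl⟩ := hn
    rw [qExpand_coeff_mul]
    exact hs k
  · rw [qExpand_coeff_of_not_dvd N x hn]
    exact zero_mem _

/-- twisting by a root of unity preserves `dfField`. -/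
theorem h12e_twistK_mem_dfField {ζ : K} {q : ℕ} (hq : 0 < q) (hζ : ζ ^ q = 1)
    {x : LaurentSeries K} (hx : x ∈ dfField (K := K)) : twistK ζ x ∈ dfField (K := K) := by
  have hζ0 : ζ ≠ 0 := by
    rintro rfl
    rw [zero_pow hq.ne'] at hζ
    exact zero_ne_one hζ
  obtain ⟨a, b, hb, ha, hbd, hab⟩ := hx
  refine ⟨twistK ζ a, twistK ζ b, ?_, h12e_isDisc_twistK hq hζ ha, h12e_isDisc_twistK hq hζ hbd, ?_⟩
  · intro h0
    apply hb
    apply Fermat.Agent.Red.Kron.twistK_injective hζ0
    rw [h0, Fermat.Agent.Red.Kron.twistK_zero]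
  · rw [← Fermat.Agent.Red.Kron.twistK_mul hζ0, hab]

/-- `t ↦ t ^ N` preserves `dfField`. -/
theorem h12e_qExpand_mem_dfField (N : ℕ) [NeZero N]
    {x : LaurentSeries K} (hx : x ∈ dfField (K := K)) : qExpand K N x ∈ dfField (K := K) := by
  obtain ⟨a, b, hb, ha, hbd, hab⟩ := hx
  refine ⟨qExpand K N a, qExpand K N b, ?_, h12e_isDisc_qExpand N ha, h12e_isDisc_qExpand N hbd, ?_⟩
  · intro h0
    apply hb
    apply qExpand_injective (R := K) N
    rw [h0, map_zero]
  · rw [← map_mul, hab]

end General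

/-- a ring homomorphism out of `FF (N q)` whose values on `α (FF N)` and `β (FF N)` lie in
`dfField` takes all its values in `dfField`. -/
theorem h12e_mem_dfField_of_ab (N q : ℕ) [NeZero N] [NeZero q] (hq : q.Prime)
    (E : FF (N * q) →+* LaurentSeries Kbar)
    (ha : ∀ x : FF N, E (heckeAlphaBar Kbar N q x) ∈ dfField (K := Kbar))
    (hb : ∀ x : FF N, E (heckeBetaBar Kbar N q x) ∈ dfField (K := Kbar))
    (u : FF (N * q)) : E u ∈ dfField (K := Kbar) := by
  refine Fermat.Agent.Red.Kron.kFF_induction_ab N q hq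
    (P := fun u => E u ∈ dfField (K := Kbar)) ?_ ha hb ?_ ?_ ?_ u
  · intro a
    have h := ha (cst N a)
    have h2 : heckeAlphaBar Kbar N q (cst N a) = cst (N * q) a :=
      (heckeAlphaBar Kbar N q).commutes a
    rwa [h2] at h
  · intro x y hx hy
    rw [map_add]
    exact add_mem hx hy
  · intro x hx
    rw [map_inv₀]
    exact inv_mem hx
  · intro x y hx hy
    rw [map_mul]
    exact mul_mem hx hy

/-- **N-DF.** -/
theorem h12e_embDF : H20EmbDF := by
  intro q hq M _ hqM
  haveI : NeZero q := ⟨hq.ne_zero⟩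
  intro E hE u
  rcases hE with ⟨ζ, hζ, hα, hβ⟩ | ⟨hα, hβ⟩
  · refine h12e_mem_dfField_of_ab (M * q) q hq E ?_ ?_ u
    · intro x
      rw [hα x]
      exact FF_le_dfField (M * q) x
    · intro x
      rw [hβ x]
      exact h12e_twistK_mem_dfField hq.pos hζ (FF_le_dfField (M * q) _)
  · refine h12e_mem_dfField_of_ab (M * q) q hq E ?_ ?_ u
    · intro x
      rw [hα x]
      exact h12e_qExpand_mem_dfField q (FF_le_dfField (M * q) _)
    · intro x
      rw [hβ x]
      exact FF_le_dfField (M * q) _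

end Fermat.Agent.S36
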