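import Fermat.Agent.S36.H20NormSkel
import Fermat.Agent.Red.GV.SoftGal

/-!
# S36, block (N): the Gauss lemmas `H20Root`, `H20Twist`, `H20Inert` (helper1)

`A` a valuation subring of `ℚ̄` over the prime `q`, `k` its residue field, `≡` the Gauss
congruence `h20n_CongOneS` of `S36/H20NormSkel.lean`.

* `h1g_ratio` : a ring endomorphism `Φ` of `ℚ̄((t))` which preserves `A((t))` and is the identity
  modulo `𝔪_A` satisfies `c · Φ s / s ≡ 1` for every nonzero `s ∈ dfField`;
* `h1g_twist : H20Twist` (`Φ = twistK ω`, `ω ^ (q ^ k) = 1`);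
* `h1g_inert : H20Inert` (`Φ = σ` coefficientwise, `σ` in the inertia group);
* `h1g_root : H20Root` (`s ^ q ≡ 1 ⟹ s ≡ 1`: Frobenius is injective on `k((t))`).
-/

set_option autoImplicit false

open ModularCurve

noncomputable section

namespace Fermat.Agent.S36

open Fermat.Agent.S37 (Kbar GQ)
open Fermat.Agent.Red.GV (embA redA embA_injective)
open Fermat.Agent.Red.GV.Soft (dfField exists_scale)
open Fermat.Agent.Red.Kron (twistK)

/-! ### Generalities -/

theorem h1g_charP (q : ℕ) (hq : q.Prime) (A : ValuationSubring Kbar)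
    (hA : A.LiesOverPrime q) : CharP (IsLocalRing.ResidueField A) q :=
  haveI : Fact q.Prime := ⟨hq⟩
  Fermat.Agent.Red.GV.Base.h80_charP A (IsLocalRing.residue A) q
    (Fermat.Agent.Red.GV.isResidueMap_residue A q hA)

theorem h1g_charP_laurent (q : ℕ) (hq : q.Prime) (A : ValuationSubring Kbar)
    (hA : A.LiesOverPrime q) : CharP (LaurentSeries (IsLocalRing.ResidueField A)) q :=
  haveI := h1g_charP q hq A hA
  charP_of_injective_ringHom
    (f := (HahnSeries.C : IsLocalRing.ResidueField A →+*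
      LaurentSeries (IsLocalRing.ResidueField A)))
    HahnSeries.C_injective q

theorem h1g_embA_C (A : ValuationSubring Kbar) (c : A) :
    embA A (HahnSeries.C c) = HahnSeries.C (c : Kbar) := by
  simp only [embA, HahnSeries.C_apply, coeffMap_single]
  rfl

theorem h1g_redA_C (A : ValuationSubring Kbar) (c : A) :
    redA (IsLocalRing.residue A) (HahnSeries.C c) = HahnSeries.C (IsLocalRing.residue A c) := by
  simp only [redA, HahnSeries.C_apply, coeffMap_single]

theorem h1g_embA_ne_zero (A : ValuationSubring Kbar) {a : LaurentSeries A}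
    (ha : redA (IsLocalRing.residue A) a ≠ 0) : embA A a ≠ 0 := by
  intro h0
  have : a = 0 := embA_injective A (by rw [h0, map_zero])
  exact ha (by rw [this, map_zero])

/-- existence of the scaling for elements of `dfField`. -/
theorem h1g_exists_scale (q : ℕ) (hq : q.Prime) (A : ValuationSubring Kbar)
    (hA : A.LiesOverPrime q) {s : LaurentSeries Kbar} (hs : s ∈ dfField (K := Kbar))
    (hs0 : s ≠ 0) :
    ∃ (c : Kbar) (a b : LaurentSeries A), c ≠ 0 ∧ redA (IsLocalRing.residue A) a ≠ 0 ∧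
      redA (IsLocalRing.residue A) b ≠ 0 ∧ embA A a = (HahnSeries.C c * s) * embA A b := by
  obtain ⟨ord, hord⟩ :=
    @Fermat.Agent.S05.RO.exists_isOrd _ _ A _ Fermat.Agent.S05.RO.isAlgebraic_int_Qbar q hq hA
  have : Algebra.IsAlgebraic ℚ Kbar := AlgebraicClosure.isAlgebraic ℚ
  exact exists_scale (IsLocalRing.residue A) hord hq hs hs0

/-! ### The ratio lemma -/

/-- **the ratio lemma.**  If `Φ` preserves `A((t))` (through `ΦA`), is the identity modulo
`𝔪_A`, and maps the constant `c` to the constant `φ c`, then `(φ c₀ / c₀) · Φ s / s ≡ 1` for a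
suitable `c₀ ≠ 0`. -/
theorem h1g_ratio (q : ℕ) (hq : q.Prime) (A : ValuationSubring Kbar) (hA : A.LiesOverPrime q)
    (Φ : LaurentSeries Kbar →+* LaurentSeries Kbar) (ΦA : LaurentSeries A → LaurentSeries A)
    (φ : Kbar → Kbar)
    (hemb : ∀ y, embA A (ΦA y) = Φ (embA A y))
    (hred : ∀ y, redA (IsLocalRing.residue A) (ΦA y) = redA (IsLocalRing.residue A) y)
    (hC : ∀ c : Kbar, Φ (HahnSeries.C c) = HahnSeries.C (φ c))
    {s : LaurentSeries Kbar} (hs : s ∈ dfField (K := Kbar)) (hs0 : s ≠ 0) :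
    ∃ c₀ : Kbar, c₀ ≠ 0 ∧
      h20n_CongOneS A (HahnSeries.C (φ c₀ * c₀⁻¹) * Φ s * s⁻¹) := by
  obtain ⟨c₀, a, b, hc₀, ha, hb, hab⟩ := h1g_exists_scale q hq A hA hs hs0
  refine ⟨c₀, hc₀, ΦA a * b, a * ΦA b, ?_, ?_, ?_⟩
  · show redA (IsLocalRing.residue A) (a * ΦA b) ≠ 0
    rw [map_mul, hred]
    exact mul_ne_zero ha hb
  · show embA A (ΦA a * b) = _ * embA A (a * ΦA b)
    have hΦ : embA A (ΦA a) = HahnSeries.C (φ c₀) * Φ s * embA A (ΦA b) := by
      rw [hemb, hab, map_mul, map_mul, hC, hemb]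
    have hCc : (HahnSeries.C c₀ : LaurentSeries Kbar) ≠ 0 := by
      intro h0
      exact hc₀ (HahnSeries.C_injective (by rw [h0, map_zero]))
    have hCmul : (HahnSeries.C (φ c₀ * c₀⁻¹) : LaurentSeries Kbar) * HahnSeries.C c₀
        = HahnSeries.C (φ c₀) := by
      rw [← map_mul, mul_assoc, inv_mul_cancel₀ hc₀, mul_one]
    have e1 : embA A (ΦA a * b)
        = HahnSeries.C (φ c₀) * Φ s * embA A (ΦA b) * embA A b := by
      rw [map_mul, hΦ]
    have e2 : embA A (a * ΦA b) = HahnSeries.C c₀ * s * embA A b * embA A (ΦA b) := by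
      rw [map_mul, hab]
    rw [e1, e2, ← hCmul]
    field_simp
  · show redA (IsLocalRing.residue A) (ΦA a * b) = redA (IsLocalRing.residue A) (a * ΦA b)
    rw [map_mul, map_mul, hred, hred]

/-! ### N-INERT -/

/-- **N-INERT.** -/
theorem h1g_inert : H20Inert := by
  intro q hq A hA σ hσ s hs hs0
  have hσd := Fermat.Agent.Red.GV.mem_decomp_of_mem_inertia A hσ
  obtain ⟨c₀, hc₀, h⟩ := h1g_ratio q hq A hA (coeffMap (σ : Kbar →+* Kbar))
    (coeffMap (Fermat.Agent.Red.GV.decompA A σ hσd)) (fun c => σ c)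
    (fun y => Fermat.Agent.Red.GV.Soft.soft_embA_coeffMap (σ : Kbar →+* Kbar)
      (Fermat.Agent.Red.GV.decompA A σ hσd) (Fermat.Agent.Red.GV.coe_decompA A σ hσd) y)
    (fun y => by
      rw [Fermat.Agent.Red.GV.Soft.soft_redA_coeffMap (Fermat.Agent.Red.GV.decompA A σ hσd)
        (Fermat.Agent.Red.GV.decompK A σ hσd) (Fermat.Agent.Red.GV.residue_decompA A σ hσd) y,
        Fermat.Agent.Red.GV.decompK_of_inertia A hσ, coeffMap_id])
    (fun c => by
      simp only [HahnSeries.C_apply, coeffMap_single]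
      rfl)
    hs hs0
  have hσc : σ c₀ ≠ 0 := fun h0 => hc₀ ((map_eq_zero σ).mp h0)
  exact ⟨σ c₀ * c₀⁻¹, mul_ne_zero hσc (inv_ne_zero hc₀), h⟩

/-! ### N-TWIST -/

/-- the twist `y(ω t)` of a series over `A` by a unit `ω` of `A`. -/
def h1g_twA (A : ValuationSubring Kbar) (ωu : Aˣ) (y : LaurentSeries A) : LaurentSeries A where
  coeff n := y.coeff n * ((ωu ^ n : Aˣ) : A)
  isPWO_support' := y.isPWO_support.mono (fun n hn => by
    simp only [Function.mem_support, ne_eq] at hn ⊢
    exact fun h0 => hn (by rw [h0, zero_mul]))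

theorem h1g_twA_coeff (A : ValuationSubring Kbar) (ωu : Aˣ) (y : LaurentSeries A) (n : ℤ) :
    (h1g_twA A ωu y).coeff n = y.coeff n * ((ωu ^ n : Aˣ) : A) := rfl

theorem h1g_coe_zpow (A : ValuationSubring Kbar) (ωu : Aˣ) (n : ℤ) :
    (((ωu ^ n : Aˣ) : A) : Kbar) = (((ωu : Aˣ) : A) : Kbar) ^ n := by
  have h := Units.val_zpow_eq_zpow_val (Units.map (A.subtype : A →* Kbar) ωu) n
  rw [← map_zpow] at h
  exact h

theorem h1g_residue_zpow (A : ValuationSubring Kbar) (ωu : Aˣ)
    (h1 : IsLocalRing.residue A (ωu : A) = 1) (n : ℤ) :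
    IsLocalRing.residue A ((ωu ^ n : Aˣ) : A) = 1 := by
  have hu : Units.map (IsLocalRing.residue A : A →* IsLocalRing.ResidueField A) ωu = 1 :=
    Units.ext h1
  have h := congrArg (fun u : (IsLocalRing.ResidueField A)ˣ => (u : IsLocalRing.ResidueField A))
    (map_zpow (Units.map (IsLocalRing.residue A : A →* IsLocalRing.ResidueField A)) ωu n)
  simp only [hu, one_zpow, Units.val_one] at h
  exact h

theorem h1g_embA_twA (A : ValuationSubring Kbar) (ωu : Aˣ) (y : LaurentSeries A) :
    embA A (h1g_twA A ωu y) = twistK (((ωu : Aˣ) : A) : Kbar) (embA A y) := by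
  ext n
  rw [Fermat.Agent.Red.GV.h36_embA_coeff, h1g_twA_coeff, Fermat.Agent.Red.Kron.coeff_twistK,
    Fermat.Agent.Red.GV.h36_embA_coeff, ← h1g_coe_zpow]
  rfl

theorem h1g_redA_twA (A : ValuationSubring Kbar) (ωu : Aˣ)
    (h1 : IsLocalRing.residue A (ωu : A) = 1) (y : LaurentSeries A) :
    redA (IsLocalRing.residue A) (h1g_twA A ωu y) = redA (IsLocalRing.residue A) y := by
  ext n
  rw [Fermat.Agent.Red.GV.h36_redA_coeff, h1g_twA_coeff, Fermat.Agent.Red.GV.h36_redA_coeff,
    map_mul, h1g_residue_zpow A ωu h1, mul_one]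

/-- a root of unity of `q`-power order is a unit of `A`, congruent to `1`. -/
theorem h1g_exists_unit (q : ℕ) (hq : q.Prime) (A : ValuationSubring Kbar)
    (hA : A.LiesOverPrime q) (ω : Kbar) (k : ℕ) (hω : ω ^ (q ^ k) = 1) :
    ∃ ωu : Aˣ, (((ωu : Aˣ) : A) : Kbar) = ω ∧ IsLocalRing.residue A (ωu : A) = 1 := by
  have hn : 0 < q ^ k := pow_pos hq.pos k
  obtain ⟨n, hn'⟩ : ∃ n, q ^ k = n + 1 := ⟨q ^ k - 1, by omega⟩
  have hω0 : ω ≠ 0 := by
    rintro rfl
    rw [zero_pow hn.ne'] at hω
    exact zero_ne_one hω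
  have hinv : ω⁻¹ = ω ^ n := by
    rw [hn', pow_succ] at hω
    exact (eq_inv_of_mul_eq_one_left hω).symm
  have hωA : ω ∈ A := by
    rcases A.mem_or_inv_mem ω with h | h
    · exact h
    · have : ω = (ω⁻¹) ^ n := by
        rw [inv_pow, ← hinv, inv_inv]
      rw [this]
      exact pow_mem h n
  have hωA' : ω⁻¹ ∈ A := by
    rw [hinv]
    exact pow_mem hωA n
  let ωu : Aˣ :=
    { val := ⟨ω, hωA⟩
      inv := ⟨ω⁻¹, hωA'⟩
      val_inv := Subtype.ext (mul_inv_cancel₀ hω0)
      inv_val := Subtype.ext (inv_mul_cancel₀ hω0) }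
  refine ⟨ωu, rfl, ?_⟩
  have := h1g_charP q hq A hA
  have : Fact q.Prime := ⟨hq⟩
  have h1 : (IsLocalRing.residue A (ωu : A)) ^ (q ^ k) = 1 := by
    rw [← map_pow]
    have : ((ωu : A)) ^ (q ^ k) = 1 := Subtype.ext (by
      show ω ^ (q ^ k) = 1
      exact hω)
    rw [this, map_one]
  have h2 : (IsLocalRing.residue A (ωu : A) - 1) ^ (q ^ k) = 0 := by
    rw [sub_pow_char_pow, h1, one_pow, sub_self]
  exact sub_eq_zero.mp (pow_eq_zero_iff hn.ne' |>.mp h2)

/-- **N-TWIST.** -/
theorem h1g_twist : H20Twist := by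
  intro q hq A hA ω k hω s hs hs0
  obtain ⟨ωu, hωu, hres⟩ := h1g_exists_unit q hq A hA ω k hω
  have hω0 : ω ≠ 0 := by
    rintro rfl
    rw [zero_pow (pow_pos hq.pos k).ne'] at hω
    exact zero_ne_one hω
  obtain ⟨c₀, hc₀, h⟩ := h1g_ratio q hq A hA (Fermat.Agent.Red.Kron.twistHom ω hω0)
    (h1g_twA A ωu) (fun c => c)
    (fun y => by
      rw [Fermat.Agent.Red.Kron.twistHom_apply, h1g_embA_twA, hωu])
    (fun y => h1g_redA_twA A ωu hres y)
    (fun c => by
      rw [Fermat.Agent.Red.Kron.twistHom_apply, Fermat.Agent.Red.Kron.twistK_C])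
    hs hs0
  rw [mul_inv_cancel₀ hc₀, map_one, one_mul, Fermat.Agent.Red.Kron.twistHom_apply] at h
  exact h

/-! ### N-ROOT -/

/-- **N-ROOT.** -/
theorem h1g_root : H20Root := by
  intro q hq A hA s hs hcong
  obtain ⟨a, b, hb, hab, hred⟩ := hcong
  change redA (IsLocalRing.residue A) b ≠ 0 at hb
  change embA A a = s ^ q * embA A b at hab
  change redA (IsLocalRing.residue A) a = redA (IsLocalRing.residue A) b at hred
  have hq0 : 0 < q := hq.pos
  have hs0 : s ≠ 0 := by
    rintro rfl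
    rw [zero_pow hq0.ne', zero_mul] at hab
    have : a = 0 := embA_injective A (by rw [hab, map_zero])
    rw [this, map_zero] at hred
    exact hb hred.symm
  obtain ⟨c, a', b', hc, ha', hb', hab'⟩ := h1g_exists_scale q hq A hA hs hs0
  have key : embA A (a' ^ q * b) = (HahnSeries.C c) ^ q * embA A (a * b' ^ q) := by
    simp only [map_mul, map_pow, hab', hab]
    ring
  have := h1g_charP_laurent q hq A hA
  have : Fact q.Prime := ⟨hq⟩
  by_cases hcA : c ∈ A
  · set cA : A := ⟨c, hcA⟩ with hcAdef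
    have key' : a' ^ q * b = (HahnSeries.C cA) ^ q * (a * b' ^ q) := by
      apply embA_injective A
      have e : embA A ((HahnSeries.C cA) ^ q * (a * b' ^ q))
          = (HahnSeries.C c) ^ q * embA A (a * b' ^ q) := by
        rw [map_mul (embA A) ((HahnSeries.C cA) ^ q), map_pow, h1g_embA_C]
      rw [key, e]
    have hk : redA (IsLocalRing.residue A) a' ^ q * redA (IsLocalRing.residue A) b
        = (HahnSeries.C (IsLocalRing.residue A cA)) ^ q *
          (redA (IsLocalRing.residue A) b * redA (IsLocalRing.residue A) b' ^ q) := by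
      have h0 := congrArg (redA (IsLocalRing.residue A)) key'
      rw [map_mul (redA (IsLocalRing.residue A)) (a' ^ q), map_pow,
        map_mul (redA (IsLocalRing.residue A)) ((HahnSeries.C cA) ^ q), map_pow, h1g_redA_C,
        map_mul (redA (IsLocalRing.residue A)) a, map_pow, hred] at h0
      exact h0
    have hk2 : (redA (IsLocalRing.residue A) a') ^ q
        = (HahnSeries.C (IsLocalRing.residue A cA) * redA (IsLocalRing.residue A) b') ^ q := by
      apply mul_right_cancel₀ hb
      rw [hk, mul_pow]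
      ring
    have hk3 : redA (IsLocalRing.residue A) a'
        = HahnSeries.C (IsLocalRing.residue A cA) * redA (IsLocalRing.residue A) b' :=
      frobenius_inj _ q hk2
    have hπc : IsLocalRing.residue A cA ≠ 0 := by
      intro h0
      rw [h0, map_zero, zero_mul] at hk3
      exact ha' hk3
    have hcu : IsUnit cA := by
      by_contra hnu
      exact hπc ((IsLocalRing.residue_eq_zero_iff cA).mpr
        ((IsLocalRing.mem_maximalIdeal cA).mpr hnu))
    obtain ⟨u, hu⟩ := hcu
    have hinv : ((↑u⁻¹ : A) : A) * cA = 1 := by rw [← hu]; exact u.inv_mul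
    refine ⟨HahnSeries.C (↑u⁻¹ : A) * a', b', hb', ?_, ?_⟩
    · show embA A (HahnSeries.C (↑u⁻¹ : A) * a') = s * embA A b'
      have h1 : (((↑u⁻¹ : A) : A) : Kbar) * c = 1 := by
        have := congrArg (fun x : A => (x : Kbar)) hinv
        exact this
      rw [map_mul, h1g_embA_C, hab', ← mul_assoc, ← mul_assoc, ← map_mul, h1, map_one, one_mul]
    · show redA (IsLocalRing.residue A) (HahnSeries.C (↑u⁻¹ : A) * a')
          = redA (IsLocalRing.residue A) b'
      rw [map_mul, h1g_redA_C, hk3, ← mul_assoc, ← map_mul, ← map_mul, hinv, map_one, map_one,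
        one_mul]
  · exfalso
    have hdA : c⁻¹ ∈ A := (A.mem_or_inv_mem c).resolve_left hcA
    set dA : A := ⟨c⁻¹, hdA⟩ with hdAdef
    have hπd : IsLocalRing.residue A dA = 0 := by
      by_contra hne
      have hdu : IsUnit dA := by
        by_contra hnu
        exact hne ((IsLocalRing.residue_eq_zero_iff dA).mpr
          ((IsLocalRing.mem_maximalIdeal dA).mpr hnu))
      obtain ⟨u, hu⟩ := hdu
      apply hcA
      have h1 : ((↑u⁻¹ : A) : Kbar) * c⁻¹ = 1 := by
        have h2 : ((↑u⁻¹ : A) : A) * dA = 1 := by rw [← hu]; exact u.inv_mul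
        exact congrArg (fun x : A => (x : Kbar)) h2
      have h3 : c = ((↑u⁻¹ : A) : Kbar) := by
        field_simp at h1
        exact h1.symm
      rw [h3]
      exact (↑u⁻¹ : A).2
    have key' : (HahnSeries.C dA) ^ q * (a' ^ q * b) = a * b' ^ q := by
      apply embA_injective A
      have e : embA A ((HahnSeries.C dA) ^ q * (a' ^ q * b))
          = (HahnSeries.C c⁻¹) ^ q * embA A (a' ^ q * b) := by
        rw [map_mul (embA A) ((HahnSeries.C dA) ^ q), map_pow, h1g_embA_C]
      have e2 : (HahnSeries.C c⁻¹ : LaurentSeries Kbar) ^ q * (HahnSeries.C c) ^ q = 1 := by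
        rw [← mul_pow, ← map_mul, inv_mul_cancel₀ hc, map_one, one_pow]
      rw [e, key, ← mul_assoc, e2, one_mul]
    have hk : (0 : LaurentSeries (IsLocalRing.ResidueField A))
        = redA (IsLocalRing.residue A) b * redA (IsLocalRing.residue A) b' ^ q := by
      have h0 := congrArg (redA (IsLocalRing.residue A)) key'
      rw [map_mul (redA (IsLocalRing.residue A)) ((HahnSeries.C dA) ^ q), map_pow, h1g_redA_C,
        hπd, map_zero, zero_pow hq0.ne', zero_mul,
        map_mul (redA (IsLocalRing.residue A)) a, map_pow, hred] at h0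
      exact h0
    exact mul_ne_zero hb (pow_ne_zero q hb') hk.symm

end Fermat.Agent.S36
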