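import Fermat.Agent.S36.H6VExactFinal
import Fermat.Agent.S36.H1Gauss
import Fermat.Agent.S36.H12EmbDF
import Fermat.Agent.LGC.Red63

/-!
# S36, block (V): the converse of V-EXACT and the valuation rings of the embeddings (helper6)

* `h6v_softOT_or_inv` : a nonzero fraction of discrete series `s` (`s ∈ dfField`) or its inverse
  is Gauss-integral.
* `h6v_W A E hDF` : the valuation subring `{x | E x ∈ softOT A}` of `FF N` attached to an
  embedding `E : FF N → ℚ̄((t))` with values in `dfField`.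
* `h6v_conv` : a function of level `M q²` which is integral over the semistable Gauss ring
  `ssV A M q` of level `M q` is Gauss-integral at `E20`, at every `E11^ζ` and at `E02`.
* `h6v_vExact_iff` : `x` is integral over `α(ssV A M q)` iff it is Gauss-integral at the three
  kinds of embeddings: the integral closure of the Gauss ring in `FF (M q q)` is
  `W₂₀ ∩ ⋂_ζ W₁₁^ζ ∩ W₀₂`.
-/

set_option autoImplicit false
set_option linter.style.haveILetI false
set_option linter.unusedSectionVars false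

open AlgebraicCurve ModularCurve Polynomial

noncomputable section

namespace Fermat.Agent.S36

open Fermat.Agent.S37 (Kbar GQ FF cst gal)
open Fermat.Agent.Red.GV (embA redA)
open Fermat.Agent.Red.GV.Soft (softOT softV dfField IsWit IsSoft)
open Fermat.Agent.LGC (h44g_IsFrac ssV)
open Fermat.Agent.Red.Kron (kFricke twistK)

/-- a nonzero fraction of discrete series or its inverse is Gauss-integral. -/
theorem h6v_softOT_or_inv (q : ℕ) (hq : q.Prime) (A : ValuationSubring Kbar)
    (hA : A.LiesOverPrime q) {s : LaurentSeries Kbar} (hs : s ∈ dfField (K := Kbar)) :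
    s ∈ softOT A (IsLocalRing.residue A) ∨ s⁻¹ ∈ softOT A (IsLocalRing.residue A) := by
  rcases eq_or_ne s 0 with rfl | hs0
  · exact Or.inl (zero_mem _)
  obtain ⟨c, a, b, hc, ha, hb, hab⟩ := h1g_exists_scale q hq A hA hs hs0
  have hw : IsWit A (IsLocalRing.residue A) (HahnSeries.C c * s) a b := ⟨hb, hab⟩
  have h1 : HahnSeries.C c * s ∈ softOT A (IsLocalRing.residue A) := ⟨a, b, hw⟩
  have h2 : (HahnSeries.C c * s)⁻¹ ∈ softOT A (IsLocalRing.residue A) := ⟨b, a, hw.inv ha⟩
  have hC : (HahnSeries.C c : LaurentSeries Kbar) ≠ 0 := by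
    rw [Ne, map_eq_zero_iff _ HahnSeries.C_injective]
    exact hc
  rcases A.mem_or_inv_mem c with hcA | hcA
  · right
    have h3 : s⁻¹ = HahnSeries.C c * (HahnSeries.C c * s)⁻¹ := by
      rw [mul_inv, ← mul_assoc, mul_inv_cancel₀ hC, one_mul]
    rw [h3]
    exact mul_mem (Fermat.Agent.Red.GV.Soft.C_mem_softOT A _ ⟨c, hcA⟩) h2
  · left
    have h3 : s = HahnSeries.C c⁻¹ * (HahnSeries.C c * s) := by
      rw [← mul_assoc, ← map_mul, inv_mul_cancel₀ hc, map_one, one_mul]
    rw [h3]
    exact mul_mem (Fermat.Agent.Red.GV.Soft.C_mem_softOT A _ ⟨c⁻¹, hcA⟩) h1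

/-- the valuation subring of `FF N` attached to an embedding with values in `dfField`. -/
def h6v_W (q : ℕ) (hq : q.Prime) (A : ValuationSubring Kbar) (hA : A.LiesOverPrime q)
    {N : ℕ} (E : FF N →+* LaurentSeries Kbar)
    (hDF : ∀ x : FF N, E x ∈ dfField (K := Kbar)) : ValuationSubring (FF N) where
  toSubring := (softOT A (IsLocalRing.residue A)).comap E
  mem_or_inv_mem' := fun x => by
    have h := h6v_softOT_or_inv q hq A hA (hDF x)
    rw [← map_inv₀] at h
    exact h

theorem h6v_mem_W (q : ℕ) (hq : q.Prime) (A : ValuationSubring Kbar) (hA : A.LiesOverPrime q)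
    {N : ℕ} (E : FF N →+* LaurentSeries Kbar)
    (hDF : ∀ x : FF N, E x ∈ dfField (K := Kbar)) (x : FF N) :
    x ∈ h6v_W q hq A hA E hDF ↔ E x ∈ softOT A (IsLocalRing.residue A) := Iff.rfl

/-- an element which is integral along `f : R → FF N` lies in every valuation subring
containing the image of `f`. -/
theorem h6v_mem_of_isIntegralElem {N : ℕ} {R : Type*} [CommRing R] (f : R →+* FF N)
    (W : ValuationSubring (FF N)) (hf : ∀ r : R, f r ∈ W) {x : FF N}
    (hx : f.IsIntegralElem x) : x ∈ W := by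
  letI : Algebra R (FF N) := f.toAlgebra
  have hb : IsIntegral R x := hx
  let φ : R →+* W := f.codRestrict W.toSubring hf
  letI : Algebra R W := φ.toAlgebra
  haveI : IsScalarTower R W (FF N) := IsScalarTower.of_algebraMap_eq fun _ => rfl
  have hb' : IsIntegral W x := hb.tower_top
  obtain ⟨z, hz⟩ := (IsIntegrallyClosed.isIntegral_iff (R := W) (K := FF N)).mp hb'
  rw [← hz]
  exact z.2

section Level

variable {q : ℕ} {M : ℕ} [NeZero M]

/-- **the converse of V-EXACT.** -/
theorem h6v_conv (hq : q.Prime) (hqM : ¬ q ∣ M)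
    (A : ValuationSubring Kbar) (hA : A.LiesOverPrime q) :
    haveI : NeZero q := ⟨hq.ne_zero⟩
    ∀ x : FF (M * q * q),
      ((heckeAlphaBar Kbar (M * q) q).toRingHom.comp (ssV A M q).subtype).IsIntegralElem x →
      x ∈ softV A (M * q * q) ∧
      (∀ (ζ : Kbar) (E : FF (M * q * q) →+* LaurentSeries Kbar), ζ ^ q = 1 →
        h20n_IsE11 M q hq hqM ζ E → h74w_Int A E x) ∧
      (∀ E0 : FF (M * q * q) →+* LaurentSeries Kbar, h20n_IsE02 M q hq hqM E0 →
        h74w_Int A E0 x) := by
  haveI : NeZero q := ⟨hq.ne_zero⟩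
  intro x hx
  have hsoft : ∀ c : ssV A M q, (c : FF (M * q)) ∈ softV A (M * q) := fun c =>
    Fermat.Agent.LGC.h63r_ssV_le_soft hq hA c.2
  have hwsoft : ∀ c : ssV A M q, kFricke M q hq hqM (c : FF (M * q)) ∈ softV A (M * q) :=
    fun c => Fermat.Agent.LGC.h63r_w_ssV_le_soft hq hqM hA c.2
  refine ⟨?_, ?_, ?_⟩
  · -- `E20`
    refine h6v_mem_of_isIntegralElem _
      (Fermat.Agent.Red.GV.Soft.softRing A (M * q * q) hq hA) (fun c => ?_) hx
    rw [Fermat.Agent.Red.GV.Soft.mem_softRing_iff]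
    exact (Fermat.Agent.Red.GV.Soft.alpha_mem_softV_iff A q (c : FF (M * q))).2 (hsoft c)
  · -- `E11`
    intro ζ E hζ hE
    have hDF : ∀ u : FF (M * q * q), E u ∈ dfField (K := Kbar) :=
      h12e_embDF q hq M hqM E (Or.inl ⟨ζ, hζ, hE⟩)
    refine (h6v_mem_W q hq A hA E hDF x).1
      (h6v_mem_of_isIntegralElem _ (h6v_W q hq A hA E hDF) (fun c => ?_) hx)
    rw [h6v_mem_W]
    show E (heckeAlphaBar Kbar (M * q) q (c : FF (M * q))) ∈ _
    rw [hE.1]
    exact hsoft c
  · -- `E02`
    intro E0 hE0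
    have hDF : ∀ u : FF (M * q * q), E0 u ∈ dfField (K := Kbar) :=
      h12e_embDF q hq M hqM E0 (Or.inr hE0)
    refine (h6v_mem_W q hq A hA E0 hDF x).1
      (h6v_mem_of_isIntegralElem _ (h6v_W q hq A hA E0 hDF) (fun c => ?_) hx)
    rw [h6v_mem_W]
    show E0 (heckeAlphaBar Kbar (M * q) q (c : FF (M * q))) ∈ _
    rw [hE0.1]
    exact Fermat.Agent.Red.GV.Soft.mem_softOT_qExpand A _ q (hwsoft c)

/-- **V-EXACT, both directions**: integrality over the semistable Gauss ring of level `M q` is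
Gauss-integrality at the three kinds of cusp embeddings. -/
theorem h6v_vExact_iff (hq : q.Prime) (hqM : ¬ q ∣ M)
    (A : ValuationSubring Kbar) (hA : A.LiesOverPrime q) :
    haveI : NeZero q := ⟨hq.ne_zero⟩
    ∀ x : FF (M * q * q),
      ((heckeAlphaBar Kbar (M * q) q).toRingHom.comp (ssV A M q).subtype).IsIntegralElem x ↔
      (x ∈ softV A (M * q * q) ∧
      (∀ (ζ : Kbar) (E : FF (M * q * q) →+* LaurentSeries Kbar), IsPrimitiveRoot ζ q →
        h20n_IsE11 M q hq hqM ζ E → h74w_Int A E x) ∧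
      (∀ E0 : FF (M * q * q) →+* LaurentSeries Kbar, h20n_IsE02 M q hq hqM E0 →
        h74w_Int A E0 x)) := by
  haveI : NeZero q := ⟨hq.ne_zero⟩
  intro x
  constructor
  · intro hx
    obtain ⟨h1, h2, h3⟩ := h6v_conv hq hqM A hA x hx
    exact ⟨h1, fun ζ E hζ hE => h2 ζ E hζ.pow_eq_one hE, h3⟩
  · rintro ⟨h1, h2, h3⟩
    exact h6v_vExact q hq M hqM A hA x h1 h2 h3

end Level

end Fermat.Agent.S36
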