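import Fermat.Agent.S36.V28Mid
import Fermat.Agent.S36.H12EmbDF

/-!
# S36 (V), leaf V-DISC: the three valuations are discrete on the functions fixed by inertia

Vocabulary of `S36/H20NormSkel.lean` (helper20): `E20 = coe`, `h20n_IsE11 ζ E`,
`h20n_IsE02 E`; `W = softOT.comap E`.  `u ≠ 0` a function of level `M q²` fixed by the
inertia group of `A` (`h28v_IFixed`).

* `h28d_W20_exists_zpow` : `q ^ n · u` is a unit of `W₂₀` for some `n : ℤ`.
* `h28d_W02_exists_zpow` : `q ^ n · u` is a unit of `W₀₂`.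
* `h28d_W11_exists_zpow` : `(1 - ζ) ^ n · u` is a unit of `W₁₁`.
* `h28d_zMid` : the function `z = j(t^{q²}) - j(t)`; `h28d_zMid_fixed`; `h28d_W11_zMid` :
  `z / (1 - ζ)` is a unit of `W₁₁`; `h28d_W11_exists_zpow_zMid` : `z ^ n · u` is a unit of
  `W₁₁`; `h28d_W11_q` : `z ^ (q - 1) / q` is a unit of `W₁₁` (`e(W₁₁) = q - 1`).
-/

set_option autoImplicit false
set_option linter.unusedSectionVars false
set_option linter.style.haveILetI false

open ModularCurve AlgebraicCurve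

noncomputable section

namespace Fermat.Agent.S36.V28

open Fermat.Agent.S05 Fermat.Agent.S37 Fermat.Agent.Red.GV Fermat.Agent.Red.GV.Soft
open Fermat.Agent.S36 (h23u_K0 h23u_A0 h23u_mem_K0_iff h23u_exists_zpow)
open Fermat.Agent.Red.Kron (kFricke twistK kFricke_alpha kFricke_beta)

/-! ### Rational series -/

section Rat

variable (K₁ : IntermediateField ℚ Kbar)

theorem h28d_bc_coeffEmb (f : LaurentSeries ℚ) :
    h28m_bc K₁ (coeffEmb K₁ f) = coeffEmb Kbar f := by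
  rw [h28m_bc, coeffEmb, coeffEmb, coeffMap_coeffMap]
  exact coeffMap_congr (RingHom.ext fun r => rfl) f

/-- rational modular functions lie in `T`. -/
theorem h28d_rat_mem_T (N' : ℕ) (f : LaurentSeries ℚ) (hf : f ∈ modularFunctionFieldFull N') :
    coeffEmb Kbar f ∈ h28m_T K₁ :=
  ⟨coeffEmb K₁ f, coeffEmb_mem_dfField_of_mem_full N' f hf, h28d_bc_coeffEmb K₁ f⟩

/-- twisted rational modular functions lie in `T` if the root of unity lies in `K₁`. -/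
theorem h28d_twist_rat_mem_T {ζ : Kbar} (hζK : ζ ∈ K₁) {q : ℕ} (hq : 0 < q) (hζ : ζ ^ q = 1)
    (N' : ℕ) (f : LaurentSeries ℚ) (hf : f ∈ modularFunctionFieldFull N') :
    twistK ζ (coeffEmb Kbar f) ∈ h28m_T K₁ := by
  have hζ' : (⟨ζ, hζK⟩ : K₁) ^ q = 1 := Subtype.ext (by simpa using hζ)
  refine ⟨twistK (⟨ζ, hζK⟩ : K₁) (coeffEmb K₁ f),
    Fermat.Agent.S36.h12e_twistK_mem_dfField hq hζ'
      (coeffEmb_mem_dfField_of_mem_full N' f hf), ?_⟩
  rw [h28m_bc, Fermat.Agent.Red.Kron.coeffMap_twistK]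
  congr 1

end Rat

/-! ### The generators of level `M q²` -/

section Gen

variable (M q : ℕ) [NeZero M] [NeZero q]

/-- a divisor of `M q²` which does not divide `M q` is `e q²` with `e ∣ M`. -/
theorem h28d_dvd_cases (hq : q.Prime) {d : ℕ} (hd : d ∣ M * q * q) (hd' : ¬ d ∣ M * q) :
    ∃ e, e ∣ M ∧ d = e * q * q := by
  obtain ⟨d₁, d₂, h1, h2, rfl⟩ := exists_dvd_and_dvd_of_dvd_mul hd
  rcases (Nat.dvd_prime hq).mp h2 with rfl | rfl
  · rw [mul_one] at hd'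
    exact absurd h1 hd'
  obtain ⟨e₁, e₂, h3, h4, rfl⟩ := exists_dvd_and_dvd_of_dvd_mul h1
  rcases (Nat.dvd_prime hq).mp h4 with rfl | rfl
  · exfalso
    apply hd'
    rw [mul_one]
    exact Nat.mul_dvd_mul h3 dvd_rfl
  · exact ⟨e₁, h3, rfl⟩

/-- the generator `j(t^d)` of level `N`. -/
def h28d_jd (N d : ℕ) [NeZero d] (hd : d ∣ N) : FF N :=
  ⟨coeffEmb Kbar (qExpand ℚ d jq), coeffEmb_mem_laurentBaseChange Kbar (jqd_mem_full N hd)⟩

@[simp]
theorem h28d_coe_jd (N d : ℕ) [NeZero d] (hd : d ∣ N) :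
    ((h28d_jd N d hd : FF N) : LaurentSeries Kbar) = coeffEmb Kbar (qExpand ℚ d jq) :=
  rfl

theorem h28d_qExpand_coeffEmb (n d : ℕ) [NeZero n] [NeZero d] :
    qExpand Kbar n (coeffEmb Kbar (qExpand ℚ d jq)) = coeffEmb Kbar (qExpand ℚ (n * d) jq) := by
  rw [coeffEmb, ← ModularCurve.coeffMap_qExpand, qExpand_qExpand]

/-- `α (j_d) = j_d`. -/
theorem h28d_alpha_jd (N ℓ d : ℕ) [NeZero N] [NeZero ℓ] [NeZero d] (hd : d ∣ N) :
    heckeAlphaBar Kbar N ℓ (h28d_jd N d hd) = h28d_jd (N * ℓ) d (hd.trans (dvd_mul_right N ℓ)) :=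
  Subtype.ext (coe_heckeAlphaBar N ℓ _)

/-- `β (j_d) = j_{ℓ d}`. -/
theorem h28d_beta_jd (N ℓ d : ℕ) [NeZero N] [NeZero ℓ] [NeZero d] (hd : d ∣ N) :
    heckeBetaBar Kbar N ℓ (h28d_jd N d hd) =
      h28d_jd (N * ℓ) (ℓ * d) (by rw [mul_comm N ℓ]; exact Nat.mul_dvd_mul dvd_rfl hd) := by
  apply Subtype.ext
  rw [coe_heckeBetaBar, h28d_coe_jd, h28d_coe_jd, h28d_qExpand_coeffEmb]

theorem h28d_jd_congr (N : ℕ) {d d' : ℕ} [NeZero d] [NeZero d'] (h : d = d') (hd : d ∣ N)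
    (hd' : d' ∣ N) : h28d_jd N d hd = h28d_jd N d' hd' := by
  subst h
  rfl

variable {M q}

/-- the values of an embedding `E11^ζ` on the generators lie in `T(K₁)` if `ζ ∈ K₁`. -/
theorem h28d_E11_gen (hq : q.Prime) (hqM : ¬ q ∣ M) (ζ : Kbar) (hζ : ζ ^ q = 1)
    (E : FF (M * q * q) →+* LaurentSeries Kbar)
    (hE : Fermat.Agent.S36.h20n_IsE11 M q hq hqM ζ E)
    (K₁ : IntermediateField ℚ Kbar) (hζK : ζ ∈ K₁)
    (d : ℕ) (hd0 : NeZero d) (hd : d ∣ M * q * q)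
    (h : coeffEmb Kbar (qExpand ℚ d jq) ∈ modularFunctionFieldBar (M * q * q)) :
    E ⟨coeffEmb Kbar (qExpand ℚ d jq), h⟩ ∈ h28m_T K₁ := by
  obtain ⟨hα, hβ⟩ := hE
  by_cases hd1 : d ∣ M * q
  · have h1 : (⟨coeffEmb Kbar (qExpand ℚ d jq), h⟩ : FF (M * q * q)) =
        heckeAlphaBar Kbar (M * q) q (h28d_jd (M * q) d hd1) := by
      rw [h28d_alpha_jd]
      rfl
    rw [h1, hα, h28d_coe_jd]
    exact h28d_rat_mem_T K₁ (M * q) _ (jqd_mem_full (M * q) hd1)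
  · obtain ⟨e, he, rfl⟩ := h28d_dvd_cases M q hq hd hd1
    haveI : NeZero e := ⟨fun h0 => NeZero.ne M (by rw [h0] at he; exact Nat.eq_zero_of_zero_dvd he)⟩
    have h1 : (⟨coeffEmb Kbar (qExpand ℚ (e * q * q) jq), h⟩ : FF (M * q * q)) =
        heckeBetaBar Kbar (M * q) q (heckeBetaBar Kbar M q (h28d_jd M e he)) := by
      apply Subtype.ext
      rw [coe_heckeBetaBar, coe_heckeBetaBar, h28d_coe_jd, h28d_qExpand_coeffEmb,
        h28d_qExpand_coeffEmb]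
      show coeffEmb Kbar (qExpand ℚ (e * q * q) jq) = coeffEmb Kbar (qExpand ℚ (q * (q * e)) jq)
      rw [qExpand_congr (M := e * q * q) (K := q * (q * e)) (by ring) jq]
    rw [h1, hβ, kFricke_beta, coe_heckeAlphaBar, h28d_coe_jd]
    exact h28d_twist_rat_mem_T K₁ hζK hq.pos hζ M _ (jqd_mem_full M he)

/-- the values of an embedding `E02` on the generators lie in `T(K₁)` (any `K₁`). -/
theorem h28d_E02_gen (hq : q.Prime) (hqM : ¬ q ∣ M)
    (E : FF (M * q * q) →+* LaurentSeries Kbar)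
    (hE : Fermat.Agent.S36.h20n_IsE02 M q hq hqM E)
    (K₁ : IntermediateField ℚ Kbar)
    (d : ℕ) (hd0 : NeZero d) (hd : d ∣ M * q * q)
    (h : coeffEmb Kbar (qExpand ℚ d jq) ∈ modularFunctionFieldBar (M * q * q)) :
    E ⟨coeffEmb Kbar (qExpand ℚ d jq), h⟩ ∈ h28m_T K₁ := by
  obtain ⟨hα, hβ⟩ := hE
  by_cases hd1 : d ∣ M * q
  · have h1 : (⟨coeffEmb Kbar (qExpand ℚ d jq), h⟩ : FF (M * q * q)) =
        heckeAlphaBar Kbar (M * q) q (h28d_jd (M * q) d hd1) := by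
      rw [h28d_alpha_jd]
      rfl
    rw [h1, hα]
    -- `w (j_d)` is a rational function of level `M q`
    by_cases hd2 : d ∣ M
    · have h2 : h28d_jd (M * q) d hd1 = heckeAlphaBar Kbar M q (h28d_jd M d hd2) := by
        rw [h28d_alpha_jd]
      rw [h2, kFricke_alpha, coe_heckeBetaBar, h28d_coe_jd, h28d_qExpand_coeffEmb,
        h28d_qExpand_coeffEmb]
      refine h28d_rat_mem_T K₁ (M * q * q) _ (jqd_mem_full (M * q * q) ?_)
      rw [← mul_assoc, mul_comm (q * q) d, mul_assoc]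
      exact Nat.mul_dvd_mul hd2 dvd_rfl
    · -- `d = e q`, `e ∣ M`
      obtain ⟨d₁, d₂, h3, h4, rfl⟩ := exists_dvd_and_dvd_of_dvd_mul hd1
      rcases (Nat.dvd_prime hq).mp h4 with rfl | rfl
      · rw [mul_one] at hd2
        exact absurd h3 hd2
      haveI : NeZero d₁ :=
        ⟨fun h0 => NeZero.ne M (by rw [h0] at h3; exact Nat.eq_zero_of_zero_dvd h3)⟩
      have h2 : h28d_jd (M * d₂) (d₁ * d₂) hd1 = heckeBetaBar Kbar M d₂ (h28d_jd M d₁ h3) := by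
        rw [h28d_beta_jd]
        exact h28d_jd_congr _ (mul_comm _ _) _ _
      rw [h2, kFricke_beta, coe_heckeAlphaBar, h28d_coe_jd, h28d_qExpand_coeffEmb]
      refine h28d_rat_mem_T K₁ (M * d₂ * d₂) _ (jqd_mem_full (M * d₂ * d₂) ?_)
      rw [mul_comm d₂ d₁]
      exact (Nat.mul_dvd_mul h3 dvd_rfl).trans (dvd_mul_right _ _)
  · obtain ⟨e, he, rfl⟩ := h28d_dvd_cases M q hq hd hd1
    haveI : NeZero e := ⟨fun h0 => NeZero.ne M (by rw [h0] at he; exact Nat.eq_zero_of_zero_dvd he)⟩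
    have h1 : (⟨coeffEmb Kbar (qExpand ℚ (e * q * q) jq), h⟩ : FF (M * q * q)) =
        heckeBetaBar Kbar (M * q) q (heckeBetaBar Kbar M q (h28d_jd M e he)) := by
      apply Subtype.ext
      rw [coe_heckeBetaBar, coe_heckeBetaBar, h28d_coe_jd, h28d_qExpand_coeffEmb,
        h28d_qExpand_coeffEmb]
      show coeffEmb Kbar (qExpand ℚ (e * q * q) jq) = coeffEmb Kbar (qExpand ℚ (q * (q * e)) jq)
      rw [qExpand_congr (M := e * q * q) (K := q * (q * e)) (by ring) jq]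
    rw [h1, hβ, kFricke_beta, coe_heckeAlphaBar, h28d_coe_jd]
    exact h28d_rat_mem_T K₁ M _ (jqd_mem_full M he)

end Gen

/-! ### Units of the Gauss ring -/

section SU

variable (A : ValuationSubring Kbar)

/-- units of the Gauss ring `softOT A`. -/
def h28d_IsSU (y : LaurentSeries Kbar) : Prop :=
  y ∈ softOT A (IsLocalRing.residue A) ∧ y⁻¹ ∈ softOT A (IsLocalRing.residue A)

variable {A}

theorem h28d_IsSU.mul {x y : LaurentSeries Kbar} (hx : h28d_IsSU A x) (hy : h28d_IsSU A y) :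
    h28d_IsSU A (x * y) :=
  ⟨mul_mem hx.1 hy.1, by rw [mul_inv]; exact mul_mem hx.2 hy.2⟩

theorem h28d_IsSU.inv {x : LaurentSeries Kbar} (hx : h28d_IsSU A x) : h28d_IsSU A x⁻¹ :=
  ⟨hx.2, by rw [inv_inv]; exact hx.1⟩

theorem h28d_zpow_mem {F : Type*} [Field F] (V : Subring F) {x : F} (hx : x ∈ V)
    (hx' : x⁻¹ ∈ V) (z : ℤ) : x ^ z ∈ V := by
  obtain ⟨n, rfl | rfl⟩ := z.eq_nat_or_neg
  · rw [zpow_natCast]; exact pow_mem hx n
  · rw [zpow_neg, zpow_natCast, ← inv_pow]; exact pow_mem hx' n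

theorem h28d_IsSU.zpow {x : LaurentSeries Kbar} (hx : h28d_IsSU A x) (n : ℤ) :
    h28d_IsSU A (x ^ n) :=
  ⟨h28d_zpow_mem _ hx.1 hx.2 n, by
    rw [← inv_zpow]
    exact h28d_zpow_mem _ hx.2 (by rw [inv_inv]; exact hx.1) n⟩

theorem h28d_IsSU.pow {x : LaurentSeries Kbar} (hx : h28d_IsSU A x) (n : ℕ) :
    h28d_IsSU A (x ^ n) := by
  have := hx.zpow (n : ℤ)
  rwa [zpow_natCast] at this

/-- a constant which is a unit of `A` is a unit of the Gauss ring. -/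
theorem h28d_isSU_C {c : Kbar} (hc : c ∈ A) (hc' : c⁻¹ ∈ A) :
    h28d_IsSU A (HahnSeries.C c) :=
  ⟨C_mem_softOT A _ ⟨c, hc⟩, by
    rw [← map_inv₀]
    exact C_mem_softOT A _ ⟨c⁻¹, hc'⟩⟩

/-- a series over `A` with nonzero reduction is a unit of the Gauss ring. -/
theorem h28d_isSU_embA (a : LaurentSeries A) (ha : redA (IsLocalRing.residue A) a ≠ 0) :
    h28d_IsSU A (embA A a) :=
  ⟨embA_mem_softOT A _ a, ⟨1, a, (isWit_of_embA A (IsLocalRing.residue A) a).inv ha⟩⟩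

end SU

/-! ### The main statements -/

section Main

variable {M q : ℕ} [NeZero M] [NeZero q] (A : ValuationSubring Kbar)

theorem h28d_E11_cst (hq : q.Prime) (hqM : ¬ q ∣ M) (ζ : Kbar)
    (E : FF (M * q * q) →+* LaurentSeries Kbar)
    (hE : Fermat.Agent.S36.h20n_IsE11 M q hq hqM ζ E) (c : Kbar) :
    E (cst (M * q * q) c) = HahnSeries.C c := by
  have h2 : heckeAlphaBar Kbar (M * q) q (cst (M * q) c) = cst (M * q * q) c :=
    (heckeAlphaBar Kbar (M * q) q).commutes c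
  rw [← h2, hE.1, soft_coe_cst]

theorem h28d_E02_cst (hq : q.Prime) (hqM : ¬ q ∣ M)
    (E : FF (M * q * q) →+* LaurentSeries Kbar)
    (hE : Fermat.Agent.S36.h20n_IsE02 M q hq hqM E) (c : Kbar) :
    E (cst (M * q * q) c) = HahnSeries.C c := by
  have h2 : heckeBetaBar Kbar (M * q) q (cst (M * q) c) = cst (M * q * q) c :=
    (heckeBetaBar Kbar (M * q) q).commutes c
  have h3 : kFricke M q hq hqM (cst (M * q) c) = cst (M * q) c :=
    (kFricke M q hq hqM).commutes c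
  rw [← h2, hE.2, h3, soft_coe_cst]

/-- **V-DISC at `W₂₀`.** -/
theorem h28d_W20_exists_zpow (hq : q.Prime) (hA : A.LiesOverPrime q)
    (u : FF (M * q * q)) (hu : h28v_IFixed A (M * q * q) u) (hu0 : u ≠ 0) :
    ∃ n : ℤ, h28d_IsSU A ((cst (M * q * q) (((q : ℕ) : Kbar) ^ n) * u : FF (M * q * q)) :
      LaurentSeries Kbar) := by
  obtain ⟨n, h1, h2⟩ := h28v_exists_zpow A (M * q * q) hq hA u hu0 hu
  exact ⟨n, h1, h2⟩

/-- **V-DISC at `W₀₂`.** -/
theorem h28d_W02_exists_zpow (hq : q.Prime) (hqM : ¬ q ∣ M) (hA : A.LiesOverPrime q)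
    (E : FF (M * q * q) →+* LaurentSeries Kbar)
    (hE : Fermat.Agent.S36.h20n_IsE02 M q hq hqM E)
    (u : FF (M * q * q)) (hu : h28v_IFixed A (M * q * q) u) (hu0 : u ≠ 0) :
    ∃ n : ℤ, h28d_IsSU A (E (cst (M * q * q) (((q : ℕ) : Kbar) ^ n) * u)) :=
  h28m_iota_exists_zpow (K₁ := h23u_K0 A) E hq hA le_rfl ((q : ℕ) : Kbar)
    (Nat.cast_ne_zero.mpr hq.ne_zero)
    (fun c hc hc0 => h23u_exists_zpow hq A hA hc0 ((h23u_mem_K0_iff A c).mp hc))
    (h28d_E02_cst hq hqM E hE)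
    (fun d hd0 hd h => h28d_E02_gen hq hqM E hE _ d hd0 hd h) u hu hu0

/-- **V-DISC at `W₁₁`**, constant uniformiser `1 - ζ`. -/
theorem h28d_W11_exists_zpow (hq : q.Prime) (hqM : ¬ q ∣ M) (hA : A.LiesOverPrime q)
    (ζ : Kbar) (hζ : IsPrimitiveRoot ζ q)
    (E : FF (M * q * q) →+* LaurentSeries Kbar)
    (hE : Fermat.Agent.S36.h20n_IsE11 M q hq hqM ζ E)
    (u : FF (M * q * q)) (hu : h28v_IFixed A (M * q * q) u) (hu0 : u ≠ 0) :
    ∃ n : ℤ, h28d_IsSU A (E (cst (M * q * q) ((1 - ζ) ^ n) * u)) :=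
  h28m_mid_exists_zpow ζ E hq hA hζ (h28d_E11_cst hq hqM ζ E hE)
    (fun d hd0 hd h => h28d_E11_gen hq hqM ζ hζ.pow_eq_one E hE _
      (h28m_zeta_mem_K1 ζ) d hd0 hd h) u hu hu0

end Main

end Fermat.Agent.S36.V28
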