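import Fermat.Agent.S36.H11TorSkel
import Fermat.Agent.S36.H6VConv
import Fermat.Agent.S36.H12EmbDF
import Fermat.Agent.S36.V28Disc
import Fermat.Agent.S36.H83EmbGal
import Fermat.Agent.S36.H23InertiaField
import Fermat.Agent.LGC.H57Teich
import Fermat.Agent.LGC.H60CompInf
import Fermat.Agent.LGC.Res44

/-!
# S36, row T-BASIC: `H11TorBasic` (helper78, second seat)

`h78b_torBasic : H11TorBasic`: the six base facts of the block (T).

1. constants of `A₀` lie in the charts `j` of the levels `M q`, `M q q`;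
2. the chart `j` of level `M q q` is Gauss-integral at `E20`, `E11^ζ`, `E02` (the pull-back of
   the Gauss ring along an embedding with values in `dfField` is a valuation ring, hence
   integrally closed, and it contains `A` and `j`);
3. the chart `j` of level `M q` is Gauss-integral at `∞` and at `0` (`⊆ ssV = W_∞ ∩ W_0`);
4. a non-unit of `A₀` is divisible by `q` (the value group of `A₀` is `ℤ v(q)`);
5. roots of unity of order prime to `q` are units of `A₀`;
6. the norms along `α`, `β` of a function fixed by inertia are fixed by inertia.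
-/

set_option autoImplicit false
set_option linter.unusedSectionVars false
set_option linter.style.haveILetI false

open AlgebraicCurve ModularCurve

noncomputable section

namespace Fermat.Agent.S36

open Fermat.Agent.S37 (Kbar GQ FF cst jB gal modelAt ringAdj degen auxLevel)
open Fermat.Agent.Red.KR (normAlong)
open Fermat.Agent.Red.GV Fermat.Agent.Red.GV.Soft
open Fermat.Agent.Red.Kron (kFricke kFricke_alpha)

/-! ## (4), (5): the ring `A₀` -/

section A0

variable {q : ℕ} (A : ValuationSubring Kbar)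

/-- (4) a non-unit of `A₀` is divisible by `q` in `A₀`. -/
theorem h78b_nonunit (hq : q.Prime) (hA : A.LiesOverPrime q) {a : Kbar} (ha : a ∈ A)
    (hna : a⁻¹ ∉ A) (hfix : ∀ σ ∈ A.inertiaSubgroupIn ℚ, σ a = a) :
    ∃ a' : Kbar, a' ∈ A ∧ (∀ σ ∈ A.inertiaSubgroupIn ℚ, σ a' = a') ∧ a = (q : Kbar) * a' := by
  have hq0 : ((q : ℕ) : Kbar) ≠ 0 := Nat.cast_ne_zero.mpr hq.ne_zero
  have hqA : ((q : ℕ) : Kbar) ∈ A := natCast_mem A q
  have ha0 : a ≠ 0 := by
    rintro rfl
    rw [inv_zero] at hna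
    exact hna (zero_mem A)
  obtain ⟨n, h1, h2⟩ := h23u_exists_zpow hq A hA ha0 hfix
  have hz0 : ((q : ℕ) : Kbar) ^ n ≠ 0 := zpow_ne_zero _ hq0
  -- `n ≥ 1`
  have hn : 1 ≤ n := by
    by_contra hn
    have hn' : n ≤ 0 := by omega
    obtain ⟨k, hk⟩ : ∃ k : ℕ, -n = (k : ℤ) := ⟨(-n).toNat, (Int.toNat_of_nonneg (by omega)).symm⟩
    apply hna
    have e : a⁻¹ = (a / ((q : ℕ) : Kbar) ^ n)⁻¹ * ((q : ℕ) : Kbar) ^ k := by
      have e1 : ((q : ℕ) : Kbar) ^ k = (((q : ℕ) : Kbar) ^ n)⁻¹ := by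
        rw [← zpow_natCast, ← hk, zpow_neg]
      rw [e1]
      field_simp
    rw [e]
    exact mul_mem h2 (pow_mem hqA k)
  obtain ⟨k, hk⟩ : ∃ k : ℕ, n - 1 = (k : ℤ) := ⟨(n - 1).toNat, (Int.toNat_of_nonneg (by omega)).symm⟩
  refine ⟨a / (q : Kbar), ?_, ?_, ?_⟩
  · have e : a / ((q : ℕ) : Kbar) = a / ((q : ℕ) : Kbar) ^ n * ((q : ℕ) : Kbar) ^ k := by
      have e1 : ((q : ℕ) : Kbar) ^ k = ((q : ℕ) : Kbar) ^ n / ((q : ℕ) : Kbar) := by
        rw [← zpow_natCast, ← hk, zpow_sub₀ hq0, zpow_one]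
      rw [e1]
      field_simp
    rw [e]
    exact mul_mem h1 (pow_mem hqA k)
  · intro σ hσ
    rw [map_div₀, hfix σ hσ, map_natCast]
  · field_simp

/-- (5) roots of unity of order prime to `q` are units of `A₀`. -/
theorem h78b_root (hq : q.Prime) (hA : A.LiesOverPrime q) {m : ℕ} (hm : ¬ q ∣ m) {ξ : Kbar}
    (hξ : ξ ^ m = 1) : h11t_IsC A ξ := by
  have hm0 : 0 < m := Nat.pos_of_ne_zero (fun h => hm (h ▸ dvd_zero q))
  have hξ0 : ξ ≠ 0 := by
    rintro rfl
    rw [zero_pow hm0.ne'] at hξ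
    exact zero_ne_one hξ
  have hint : IsIntegral ℤ ξ := IsIntegral.of_pow hm0 (by rw [hξ]; exact isIntegral_one)
  have hmem : ξ ∈ A := Fermat.Agent.S54.mem_valuationSubring_of_isIntegral A hint
  have hinv : ξ⁻¹ = ξ ^ (m - 1) := by
    have h1 : ξ ^ (m - 1) * ξ = 1 := by rw [← pow_succ, Nat.sub_add_cancel hm0, hξ]
    exact (eq_inv_of_mul_eq_one_left h1).symm
  refine ⟨hξ0, hmem, by rw [hinv]; exact pow_mem hmem _, fun σ hσ => ?_⟩
  exact Fermat.Agent.LGC.h57_inertia_fix_root A hm0 hq hm hA hσ hξ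

end A0

/-! ## (6): norms of functions fixed by inertia -/

section Norm

/-- the norm along `α` commutes with the Galois action. -/
theorem h78b_gal_norm_alpha (N ℓ : ℕ) [NeZero N] [NeZero ℓ] (σ : GQ) (y : FF (N * ℓ)) :
    gal N σ • normAlong (heckeAlphaBar Kbar N ℓ) y =
      normAlong (heckeAlphaBar Kbar N ℓ) (gal (N * ℓ) σ • y) := by
  letI := algebraAlong (heckeAlphaBar Kbar N ℓ)
  have he : RingHom.comp (algebraMap (FF N) (FF (N * ℓ)))
      (SemilinearAut.toRingAut (gal N σ) : FF N →+* FF N) =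
      RingHom.comp (SemilinearAut.toRingAut (gal (N * ℓ) σ) : FF (N * ℓ) →+* FF (N * ℓ))
        (algebraMap (FF N) (FF (N * ℓ))) := by
    refine RingHom.ext fun x => ?_
    exact (h83g_gal_alpha N ℓ σ x).symm
  have h := Algebra.norm_eq_of_equiv_equiv (SemilinearAut.toRingAut (gal N σ))
    (SemilinearAut.toRingAut (gal (N * ℓ) σ)) he y
  have h2 := congrArg (SemilinearAut.toRingAut (gal N σ)) h
  rw [RingEquiv.apply_symm_apply] at h2
  exact h2

/-- the norm along `β` commutes with the Galois action. -/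
theorem h78b_gal_norm_beta (N ℓ : ℕ) [NeZero N] [NeZero ℓ] (σ : GQ) (y : FF (N * ℓ)) :
    gal N σ • normAlong (heckeBetaBar Kbar N ℓ) y =
      normAlong (heckeBetaBar Kbar N ℓ) (gal (N * ℓ) σ • y) := by
  letI := algebraAlong (heckeBetaBar Kbar N ℓ)
  have he : RingHom.comp (algebraMap (FF N) (FF (N * ℓ)))
      (SemilinearAut.toRingAut (gal N σ) : FF N →+* FF N) =
      RingHom.comp (SemilinearAut.toRingAut (gal (N * ℓ) σ) : FF (N * ℓ) →+* FF (N * ℓ))
        (algebraMap (FF N) (FF (N * ℓ))) := by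
    refine RingHom.ext fun x => ?_
    exact (h83g_gal_beta N ℓ σ x).symm
  have h := Algebra.norm_eq_of_equiv_equiv (SemilinearAut.toRingAut (gal N σ))
    (SemilinearAut.toRingAut (gal (N * ℓ) σ)) he y
  have h2 := congrArg (SemilinearAut.toRingAut (gal N σ)) h
  rw [RingEquiv.apply_symm_apply] at h2
  exact h2

end Norm

/-! ## (1): constants in the charts -/

section Cst

variable (A : ValuationSubring Kbar)

/-- (1) the constants of `A₀` lie in the chart. -/
theorem h78b_cst_mem_chart (N : ℕ) [NeZero N] (t : FF N) {a : Kbar} (ha : a ∈ A)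
    (hfix : ∀ σ ∈ A.inertiaSubgroupIn ℚ, σ a = a) : cst N a ∈ h92c_Chart A N t := by
  refine ⟨Fermat.Agent.Red.Match.cst_mem_modelAt N A t ha, ?_⟩
  intro σ hσ
  rw [Fermat.Agent.S37.GalI.gal_smul_cst, hfix σ hσ]

end Cst

/-! ## (2), (3): the charts are Gauss-integral -/

section Int

variable {M q : ℕ} [NeZero M] [NeZero q] (A : ValuationSubring Kbar)

/-- an element of a chart lies in every valuation subring which contains the constants of `A`
and the coordinate. -/
theorem h78b_modelAt_le (N : ℕ) (t : FF N) (W : ValuationSubring (FF N))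
    (hc : ∀ a ∈ A, cst N a ∈ W) (ht : t ∈ W) {b : FF N} (hb : b ∈ modelAt N A t) : b ∈ W := by
  have hle : ringAdj N A t ≤ W.toSubring := by
    refine Subring.closure_le.2 ?_
    rintro z (⟨a, ha, rfl⟩ | rfl)
    · exact hc a ha
    · exact ht
  exact h6v_mem_of_isIntegralElem (ringAdj N A t).subtype W (fun r => hle r.2) hb

/-- `j` of level `M q` is `α j`. -/
theorem h78b_jB_one : jB (M * q) = heckeAlphaBar Kbar M q (jB M) :=
  (Fermat.Agent.Red.HKMod.heckeAlphaBar_jBar M q).symm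

/-- `j` of level `M q q` is `α j`. -/
theorem h78b_jB_two : jB (M * q * q) = heckeAlphaBar Kbar (M * q) q (jB (M * q)) :=
  (Fermat.Agent.Red.HKMod.heckeAlphaBar_jBar (M * q) q).symm

/-- (3) the chart of level `M q` is Gauss-integral at `∞` and at `0`. -/
theorem h78b_int_one (hq : q.Prime) (hqM : ¬ q ∣ M) (hA : A.LiesOverPrime q) {b : FF (M * q)}
    (hb : b ∈ h92c_Chart A (M * q) (jB (M * q))) :
    h11t_Einf M q b ∈ softOT A (IsLocalRing.residue A) ∧
      h11t_Ezero M q hq hqM b ∈ softOT A (IsLocalRing.residue A) := by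
  have hb1 : b ∈ modelAt (M * q) A (heckeAlphaBar Kbar M q (jB M)) := by
    rw [← h78b_jB_one]
    exact hb.1
  have hss : b ∈ Fermat.Agent.LGC.ssV A M q :=
    Fermat.Agent.LGC.h44v_modelAt_le_ssV A M q hA (jB M)
      (Fermat.Agent.LGC.h44v_jB_mem_gaussV A M q hq hqM hA) hb1
  have h := (Fermat.Agent.LGC.h44r_mem_ssV_iff A M q hq hqM hA b).1 hss
  exact ⟨h.1, h.2⟩

/-- (2) the chart of level `M q q` is Gauss-integral at the vertical embeddings. -/
theorem h78b_int_two (hq : q.Prime) (hqM : ¬ q ∣ M) (hA : A.LiesOverPrime q)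
    {b : FF (M * q * q)} (hb : b ∈ h92c_Chart A (M * q * q) (jB (M * q * q)))
    {E : FF (M * q * q) →+* LaurentSeries Kbar} (hE : h11l_IsVE M q hq hqM E) :
    E b ∈ softOT A (IsLocalRing.residue A) := by
  have hj0 : jB M ∈ softV A M := gaussV_le_softV A M (jB_mem_gaussV A M)
  have hj1 : jB (M * q) ∈ softV A (M * q) := by
    rw [h78b_jB_one]
    exact (alpha_mem_softV_iff A q _).mpr hj0
  rcases hE with rfl | ⟨ζ, hζ, hE⟩ | hE
  · -- `E20`
    have hj2 : jB (M * q * q) ∈ softV A (M * q * q) := by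
      rw [h78b_jB_two]
      exact (alpha_mem_softV_iff A q _).mpr hj1
    exact Fermat.Agent.LGC.h60i_modelAt_le_softV hq hA (M * q * q) ⟨_, hj2⟩ hb.1
  · -- `E11`
    have hDF : ∀ x : FF (M * q * q), E x ∈ dfField (K := Kbar) := fun x =>
      h12e_embDF q hq M hqM E (Or.inl ⟨ζ, hζ.pow_eq_one, hE⟩) x
    refine (h6v_mem_W q hq A hA E hDF b).1
      (h78b_modelAt_le A (M * q * q) (jB (M * q * q)) _ (fun a ha => ?_) ?_ hb.1)
    · rw [h6v_mem_W, Fermat.Agent.S36.V28.h28d_E11_cst hq hqM ζ E hE]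
      exact C_mem_softOT A _ ⟨a, ha⟩
    · rw [h6v_mem_W, h78b_jB_two, hE.1]
      exact hj1
  · -- `E02`
    have hDF : ∀ x : FF (M * q * q), E x ∈ dfField (K := Kbar) := fun x =>
      h12e_embDF q hq M hqM E (Or.inr hE) x
    refine (h6v_mem_W q hq A hA E hDF b).1
      (h78b_modelAt_le A (M * q * q) (jB (M * q * q)) _ (fun a ha => ?_) ?_ hb.1)
    · rw [h6v_mem_W, Fermat.Agent.S36.V28.h28d_E02_cst hq hqM E hE]
      exact C_mem_softOT A _ ⟨a, ha⟩
    · rw [h6v_mem_W, h78b_jB_two, hE.1, h78b_jB_one, kFricke_alpha]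
      exact mem_softOT_qExpand A _ q (beta_mem_softV A q _ hj0)

end Int

/-! ## The leaf -/

/-- **T-BASIC.** -/
theorem h78b_torBasic : H11TorBasic := by
  intro q hq M _ hqM _
  haveI : NeZero q := ⟨hq.ne_zero⟩
  intro A hA
  refine ⟨fun a ha hfix => ⟨h78b_cst_mem_chart A _ _ ha hfix, h78b_cst_mem_chart A _ _ ha hfix⟩,
    fun b hb E hE => h78b_int_two A hq hqM hA hb hE,
    fun b hb => h78b_int_one A hq hqM hA hb,
    fun a ha hna hfix => h78b_nonunit A hq hA ha hna hfix,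
    fun m ξ hm hξ => h78b_root A hq hA hm hξ, fun x hx => ⟨?_, ?_⟩⟩
  · intro σ hσ
    rw [h78b_gal_norm_alpha, hx σ hσ]
  · intro σ hσ
    rw [h78b_gal_norm_beta, hx σ hσ]

end Fermat.Agent.S36
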