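/-
S36 (Carayol), leaf BASE-A0 (helper81): the inertia field `K0 = ℚ̄^{I_A}` of a valuation subring
`A` of `ℚ̄` lying over a prime `q`, and its valuation ring `A0 = A ∩ K0`.

* `h81a_K0 A`  : the fixed field of the inertia group of `A` (an intermediate field of `ℚ̄/ℚ`);
* `h81a_A0 A`  : the valuation subring `A ∩ K0` of `K0`;
* `h81a_exists_pow` : every non-zero element of `K0` is `q ^ j` times a unit of `A0`;
* `h81a_mem_nonunits_iff_dvd` : the non-units of `A0` are the multiples of `q`;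
* `h81a_maximalIdeal_eq` : `𝔪_{A0} = (q)`;
* `h81a_irreducible` : `q` is irreducible in `A0`;
* `h81a_isDVR` : `A0` is a discrete valuation ring (hence noetherian, a PID and a UFD);
* `h81a_residue_surj` : every element of `A` is congruent modulo `𝔪_A` to an element of `A0`
  (the residue fields of `A0` and `A` agree);
* `h81a_root_of_unity_mem` : roots of unity of order prime to `q` lie in `K0`.

Inputs: the landed `h55v_kInertVal` (an inertia-fixed element is `q ^ j` times a unit of `A`) and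
the landed Teichmüller lemma `h23b_teichmuller`.
-/
import Mathlib
import Fermat.Agent.PT.Glob.H55InertVal
import Fermat.Agent.PT.Bridge.Inertia
import Fermat.Agent.Bridge.H47Inertia
import Fermat.Agent.S54.FrobProfinite

set_option autoImplicit false

namespace Fermat.Agent.S36

local notation "h81a_Qb" => AlgebraicClosure ℚ

/-- For a valuation subring `B` of a field, `x` is a non-unit iff `x = 0` or `x⁻¹ ∉ B`. -/
theorem h81a_mem_nonunits_iff_inv {K : Type*} [Field K] (B : ValuationSubring K) (x : K) :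
    x ∈ B.nonunits ↔ (x = 0 ∨ x⁻¹ ∉ B) := by
  rw [ValuationSubring.mem_nonunits_iff]
  by_cases hx : x = 0
  · subst hx
    simp
  · have hv : B.valuation x ≠ 0 := (map_ne_zero _).mpr hx
    rw [← ValuationSubring.valuation_le_one_iff, map_inv₀, inv_le_one₀ (zero_lt_iff.mpr hv),
      not_le]
    simp [hx]

/-- The inertia field `K0 = ℚ̄^{I_A}`. -/
noncomputable def h81a_K0 (A : ValuationSubring h81a_Qb) : IntermediateField ℚ h81a_Qb :=
  IntermediateField.fixedField (A.inertiaSubgroupIn ℚ)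

theorem h81a_mem_K0 (A : ValuationSubring h81a_Qb) (x : h81a_Qb) :
    x ∈ h81a_K0 A ↔ ∀ σ ∈ A.inertiaSubgroupIn ℚ, σ x = x := by
  unfold h81a_K0
  rw [IntermediateField.mem_fixedField_iff]

/-- The valuation ring `A0 = A ∩ K0` of the inertia field. -/
noncomputable def h81a_A0 (A : ValuationSubring h81a_Qb) : ValuationSubring (h81a_K0 A) :=
  A.comap (algebraMap (h81a_K0 A) h81a_Qb)

theorem h81a_mem_A0 (A : ValuationSubring h81a_Qb) (x : h81a_K0 A) :
    x ∈ h81a_A0 A ↔ (x : h81a_Qb) ∈ A := Iff.rfl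

theorem h81a_mem_nonunits_A0 (A : ValuationSubring h81a_Qb) (x : h81a_K0 A) :
    x ∈ (h81a_A0 A).nonunits ↔ (x : h81a_Qb) ∈ A.nonunits := by
  rw [h81a_mem_nonunits_iff_inv, h81a_mem_nonunits_iff_inv, h81a_mem_A0]
  simp

theorem h81a_natCast_mem_nonunits {q : ℕ} {A : ValuationSubring h81a_Qb}
    (hA : A.LiesOverPrime q) : ((q : ℕ) : h81a_K0 A) ∈ (h81a_A0 A).nonunits := by
  rw [h81a_mem_nonunits_A0]
  have h : ((q : ℕ) : h81a_Qb) ∈ A.nonunits := hA
  simpa using h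

theorem h81a_natCast_mem_A0 (q : ℕ) (A : ValuationSubring h81a_Qb) :
    ((q : ℕ) : h81a_K0 A) ∈ h81a_A0 A := natCast_mem _ q

/-- Every non-zero element of the inertia field is `q ^ j` times a unit of `A0`. -/
theorem h81a_exists_pow {q : ℕ} (hq : q.Prime) {A : ValuationSubring h81a_Qb}
    (hA : A.LiesOverPrime q) (x : h81a_K0 A) (hx : x ≠ 0) :
    ∃ (j : ℤ) (u : h81a_K0 A), u ∈ h81a_A0 A ∧ u⁻¹ ∈ h81a_A0 A ∧
      x = ((q : ℕ) : h81a_K0 A) ^ j * u := by
  have hx0 : (x : h81a_Qb) ≠ 0 := by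
    intro h
    exact hx (Subtype.ext h)
  obtain ⟨j, u, hu, hu', hxu⟩ := Fermat.Agent.PT.Glob.h55v_kInertVal q hq A hA (x : h81a_Qb) hx0
    (fun σ hσ => (h81a_mem_K0 A _).mp x.2 σ hσ)
  have hq0 : ((q : ℕ) : h81a_Qb) ≠ 0 := by exact_mod_cast hq.ne_zero
  have hqK : ((q : ℕ) : h81a_Qb) ∈ h81a_K0 A := natCast_mem _ q
  have hu_eq : u = (x : h81a_Qb) * (((q : ℕ) : h81a_Qb) ^ j)⁻¹ := by
    rw [hxu]
    field_simp
  have huK : u ∈ h81a_K0 A := by
    rw [hu_eq]
    exact mul_mem x.2 (inv_mem (zpow_mem hqK j))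
  refine ⟨j, ⟨u, huK⟩, hu, ?_, ?_⟩
  · rw [h81a_mem_A0]
    simpa using hu'
  · apply Subtype.ext
    have h1 : (((((q : ℕ) : h81a_K0 A) ^ j * (⟨u, huK⟩ : h81a_K0 A) : h81a_K0 A)) : h81a_Qb) =
        ((q : ℕ) : h81a_Qb) ^ j * u := by
      push_cast
      rfl
    rw [h1]
    exact hxu

/-- In `A0`, a non-unit is a multiple of `q`. -/
theorem h81a_mem_nonunits_iff_dvd {q : ℕ} (hq : q.Prime) {A : ValuationSubring h81a_Qb}
    (hA : A.LiesOverPrime q) (x : h81a_K0 A) :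
    x ∈ (h81a_A0 A).nonunits ↔ ∃ y ∈ h81a_A0 A, x = ((q : ℕ) : h81a_K0 A) * y := by
  have hqn := h81a_natCast_mem_nonunits (q := q) hA
  have hq0 : ((q : ℕ) : h81a_K0 A) ≠ 0 := by exact_mod_cast hq.ne_zero
  have hvq : (h81a_A0 A).valuation ((q : ℕ) : h81a_K0 A) < 1 :=
    (ValuationSubring.mem_nonunits_iff _).mp hqn
  constructor
  · intro hx
    by_cases hx0 : x = 0
    · exact ⟨0, zero_mem _, by rw [hx0, mul_zero]⟩
    obtain ⟨j, u, hu, hu', rfl⟩ := h81a_exists_pow hq hA x hx0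
    have hvu : (h81a_A0 A).valuation u = 1 := by
      have h1 : (h81a_A0 A).valuation u ≤ 1 := (ValuationSubring.valuation_le_one_iff _ _).mpr hu
      have h2 : (h81a_A0 A).valuation u⁻¹ ≤ 1 :=
        (ValuationSubring.valuation_le_one_iff _ _).mpr hu'
      have hu0 : (h81a_A0 A).valuation u ≠ 0 := by
        rw [map_ne_zero]
        rintro rfl
        simp at hx0
      rw [map_inv₀, inv_le_one₀ (zero_lt_iff.mpr hu0)] at h2
      exact le_antisymm h1 h2
    have hj : 1 ≤ j := by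
      by_contra hj
      have hj' : j ≤ 0 := by omega
      rw [ValuationSubring.mem_nonunits_iff, map_mul, hvu, mul_one, map_zpow₀] at hx
      obtain ⟨n, rfl⟩ : ∃ n : ℕ, j = -n := ⟨(-j).toNat, by omega⟩
      rw [zpow_neg, zpow_natCast] at hx
      have h3 : (h81a_A0 A).valuation ((q : ℕ) : h81a_K0 A) ^ n ≤ 1 := pow_le_one' hvq.le n
      have h4 : (h81a_A0 A).valuation ((q : ℕ) : h81a_K0 A) ^ n ≠ 0 :=
        pow_ne_zero _ ((map_ne_zero _).mpr hq0)
      have h5 := (one_le_inv₀ (zero_lt_iff.mpr h4)).mpr h3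
      exact absurd hx (not_lt.mpr h5)
    obtain ⟨n, rfl⟩ : ∃ n : ℕ, j = (n : ℤ) + 1 := ⟨(j - 1).toNat, by omega⟩
    refine ⟨((q : ℕ) : h81a_K0 A) ^ n * u, mul_mem (pow_mem (h81a_natCast_mem_A0 q A) n) hu, ?_⟩
    rw [zpow_add_one₀ hq0, zpow_natCast]
    ring
  · rintro ⟨y, hy, rfl⟩
    rw [ValuationSubring.mem_nonunits_iff, map_mul]
    have hvy : (h81a_A0 A).valuation y ≤ 1 := (ValuationSubring.valuation_le_one_iff _ _).mpr hy
    exact mul_lt_one_of_nonneg_of_lt_one_left zero_le hvq hvy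

/-- `𝔪_{A0} = (q)`. -/
theorem h81a_maximalIdeal_eq {q : ℕ} (hq : q.Prime) {A : ValuationSubring h81a_Qb}
    (hA : A.LiesOverPrime q) :
    IsLocalRing.maximalIdeal (h81a_A0 A) = Ideal.span {((q : ℕ) : h81a_A0 A)} := by
  ext x
  rw [← ValuationSubring.coe_mem_nonunits_iff, h81a_mem_nonunits_iff_dvd hq hA,
    Ideal.mem_span_singleton]
  constructor
  · rintro ⟨y, hy, hxy⟩
    refine ⟨⟨y, hy⟩, ?_⟩
    apply Subtype.ext
    rw [hxy]
    rfl
  · rintro ⟨y, rfl⟩
    exact ⟨(y : h81a_K0 A), y.2, rfl⟩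

theorem h81a_not_isUnit {q : ℕ} {A : ValuationSubring h81a_Qb}
    (hA : A.LiesOverPrime q) : ¬ IsUnit ((q : ℕ) : h81a_A0 A) := by
  have h := h81a_natCast_mem_nonunits (q := q) hA
  have h2 : (((q : ℕ) : h81a_A0 A) : h81a_K0 A) ∈ (h81a_A0 A).nonunits := by
    simpa using h
  rw [ValuationSubring.coe_mem_nonunits_iff, IsLocalRing.mem_maximalIdeal, mem_nonunits_iff] at h2
  exact h2

/-- A non-unit of `A0` is divisible by `q`. -/
theorem h81a_dvd_of_not_isUnit {q : ℕ} (hq : q.Prime) {A : ValuationSubring h81a_Qb}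
    (hA : A.LiesOverPrime q) {x : h81a_A0 A} (hx : ¬ IsUnit x) :
    ((q : ℕ) : h81a_A0 A) ∣ x := by
  rw [← Ideal.mem_span_singleton, ← h81a_maximalIdeal_eq hq hA, IsLocalRing.mem_maximalIdeal,
    mem_nonunits_iff]
  exact hx

/-- `q` is irreducible in `A0`. -/
theorem h81a_irreducible {q : ℕ} (hq : q.Prime) {A : ValuationSubring h81a_Qb}
    (hA : A.LiesOverPrime q) : Irreducible ((q : ℕ) : h81a_A0 A) := by
  have hq0 : ((q : ℕ) : h81a_A0 A) ≠ 0 := by exact_mod_cast hq.ne_zero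
  rw [irreducible_iff]
  refine ⟨h81a_not_isUnit hA, fun a b hab => ?_⟩
  by_contra hcon
  rw [not_or] at hcon
  obtain ⟨a', rfl⟩ := h81a_dvd_of_not_isUnit hq hA hcon.1
  obtain ⟨b', rfl⟩ := h81a_dvd_of_not_isUnit hq hA hcon.2
  have h1 : ((q : ℕ) : h81a_A0 A) * 1 =
      ((q : ℕ) : h81a_A0 A) * (((q : ℕ) : h81a_A0 A) * (a' * b')) := by
    rw [mul_one]
    calc ((q : ℕ) : h81a_A0 A) = ((q : ℕ) : h81a_A0 A) * a' * (((q : ℕ) : h81a_A0 A) * b') := hab
      _ = _ := by ring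
  have h2 := mul_left_cancel₀ hq0 h1
  exact h81a_not_isUnit hA (IsUnit.of_mul_eq_one _ h2.symm)

/-- Every non-zero element of `A0` is associated to a power of `q`. -/
theorem h81a_associated_pow {q : ℕ} (hq : q.Prime) {A : ValuationSubring h81a_Qb}
    (hA : A.LiesOverPrime q) {x : h81a_A0 A} (hx : x ≠ 0) :
    ∃ n : ℕ, Associated (((q : ℕ) : h81a_A0 A) ^ n) x := by
  have hx0 : (x : h81a_K0 A) ≠ 0 := by
    intro h
    exact hx (Subtype.ext h)
  have hq0 : ((q : ℕ) : h81a_K0 A) ≠ 0 := by exact_mod_cast hq.ne_zero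
  obtain ⟨j, u, hu, hu', hxu⟩ := h81a_exists_pow hq hA (x : h81a_K0 A) hx0
  have hu0 : u ≠ 0 := by
    rintro rfl
    rw [mul_zero] at hxu
    exact hx0 hxu
  have hj : 0 ≤ j := by
    by_contra hj
    obtain ⟨n, rfl⟩ : ∃ n : ℕ, j = -((n : ℤ) + 1) := ⟨(-j - 1).toNat, by omega⟩
    have hinv : (x : h81a_K0 A)⁻¹ ∈ (h81a_A0 A).nonunits := by
      rw [h81a_mem_nonunits_iff_dvd hq hA]
      refine ⟨((q : ℕ) : h81a_K0 A) ^ n * u⁻¹,
        mul_mem (pow_mem (h81a_natCast_mem_A0 q A) n) hu', ?_⟩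
      rw [hxu, zpow_neg, mul_inv, inv_inv, zpow_add_one₀ hq0, zpow_natCast]
      ring
    rw [h81a_mem_nonunits_iff_inv, inv_inv] at hinv
    rcases hinv with h | h
    · exact hx0 (inv_eq_zero.mp h)
    · exact h x.2
  obtain ⟨n, rfl⟩ : ∃ n : ℕ, j = (n : ℤ) := ⟨j.toNat, by omega⟩
  refine ⟨n, ?_⟩
  have hunit : IsUnit (⟨u, hu⟩ : h81a_A0 A) := by
    refine IsUnit.of_mul_eq_one (⟨u⁻¹, hu'⟩ : h81a_A0 A) ?_
    apply Subtype.ext
    show u * u⁻¹ = 1
    exact mul_inv_cancel₀ hu0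
  obtain ⟨v, hv⟩ := hunit
  refine ⟨v, ?_⟩
  apply Subtype.ext
  rw [hv, hxu, zpow_natCast]
  rfl

/-- **`A0` is a discrete valuation ring** (with uniformiser `q`). -/
theorem h81a_isDVR {q : ℕ} (hq : q.Prime) {A : ValuationSubring h81a_Qb}
    (hA : A.LiesOverPrime q) : IsDiscreteValuationRing (h81a_A0 A) :=
  IsDiscreteValuationRing.ofHasUnitMulPowIrreducibleFactorization
    ⟨((q : ℕ) : h81a_A0 A), h81a_irreducible hq hA, fun hx => h81a_associated_pow hq hA hx⟩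

/-- Roots of unity of order prime to `q` lie in the inertia field. -/
theorem h81a_root_of_unity_mem {q : ℕ} (hq : q.Prime) {A : ValuationSubring h81a_Qb}
    (hA : A.LiesOverPrime q) {y : h81a_Qb} {m : ℕ} (hm : 0 < m) (hqm : ¬ q ∣ m)
    (hy : y ^ m = 1) : y ∈ h81a_K0 A := by
  rw [h81a_mem_K0]
  intro σ hσ
  have hyint : IsIntegral ℤ y :=
    ⟨Polynomial.X ^ m - 1, Polynomial.monic_X_pow_sub_C (1 : ℤ) hm.ne', by simp [hy]⟩
  have hyA : y ∈ A := Fermat.Agent.S54.mem_valuationSubring_of_isIntegral A hyint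
  have h := ((Fermat.Agent.Bridge.H47.mem_inertiaSubgroupIn_iff A).mp hσ).2 y hyA
  exact Fermat.Agent.PT.Bridge.h23b_eq_of_sub_mem_nonunits_of_not_dvd A hm hq hqm hA
    (by rw [← map_pow, hy, map_one]) hy h

/-- **The residue fields of `A0` and `A` agree**: every element of `A` is congruent modulo the
maximal ideal of `A` to an element of `A0 = A ∩ K0`. -/
theorem h81a_residue_surj {q : ℕ} (hq : q.Prime) {A : ValuationSubring h81a_Qb}
    (hA : A.LiesOverPrime q) {a : h81a_Qb} (ha : a ∈ A) :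
    ∃ b : h81a_K0 A, b ∈ h81a_A0 A ∧ a - (b : h81a_Qb) ∈ A.nonunits := by
  have halg : IsAlgebraic ℤ a := Fermat.Agent.S54.isAlgebraic_int_Qbar a
  obtain ⟨b, s, hb, hs, hsn, hxs⟩ := Fermat.Agent.S54.exists_integral_frac A hq hA halg ha
  have hbA : b ∈ A := Fermat.Agent.S54.mem_valuationSubring_of_isIntegral A hb
  have hsA : s ∈ A := Fermat.Agent.S54.mem_valuationSubring_of_isIntegral A hs
  have hvs : A.valuation s = 1 :=
    le_antisymm ((A.valuation_le_one_iff _).mpr hsA)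
      (not_lt.mp (fun h => hsn ((ValuationSubring.mem_nonunits_iff A).mpr h)))
  rcases Fermat.Agent.PT.Bridge.h23b_teichmuller A hq hA hs with hs' | ⟨y, m, hm, hqm, hy, hsy⟩
  · exact absurd hs' hsn
  have hy0 : y ≠ 0 := by
    rintro rfl
    rw [zero_pow hm.ne'] at hy
    exact zero_ne_one hy
  have hyK : y ∈ h81a_K0 A := h81a_root_of_unity_mem hq hA hm hqm hy
  have hyint : IsIntegral ℤ y :=
    ⟨Polynomial.X ^ m - 1, Polynomial.monic_X_pow_sub_C (1 : ℤ) hm.ne', by simp [hy]⟩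
  have hyA : y ∈ A := Fermat.Agent.S54.mem_valuationSubring_of_isIntegral A hyint
  have hyinv : y⁻¹ = y ^ (m - 1) := by
    apply inv_eq_of_mul_eq_one_right
    rw [← pow_succ', Nat.sub_add_cancel hm]
    exact hy
  have hyinvA : y⁻¹ ∈ A := by
    rw [hyinv]
    exact pow_mem hyA _
  have hvyinv : A.valuation y⁻¹ ≤ 1 := (A.valuation_le_one_iff _).mpr hyinvA
  have hva : A.valuation a ≤ 1 := (A.valuation_le_one_iff _).mpr ha
  rcases Fermat.Agent.PT.Bridge.h23b_teichmuller A hq hA hb with hb' | ⟨y', m', hm', hqm', hy', hby⟩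
  · refine ⟨0, zero_mem _, ?_⟩
    rw [ZeroMemClass.coe_zero, sub_zero]
    rw [ValuationSubring.mem_nonunits_iff] at hb' ⊢
    rw [← hxs, map_mul, hvs, mul_one] at hb'
    exact hb'
  have hy'K : y' ∈ h81a_K0 A := h81a_root_of_unity_mem hq hA hm' hqm' hy'
  have hy'int : IsIntegral ℤ y' :=
    ⟨Polynomial.X ^ m' - 1, Polynomial.monic_X_pow_sub_C (1 : ℤ) hm'.ne', by simp [hy']⟩
  have hy'A : y' ∈ A := Fermat.Agent.S54.mem_valuationSubring_of_isIntegral A hy'int
  refine ⟨⟨y' * y⁻¹, mul_mem hy'K (inv_mem hyK)⟩, ?_, ?_⟩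
  · rw [h81a_mem_A0]
    exact mul_mem hy'A hyinvA
  · show a - y' * y⁻¹ ∈ A.nonunits
    have hid : a - y' * y⁻¹ = y⁻¹ * ((b - y') - a * (s - y)) := by
      rw [← hxs]
      field_simp
      ring
    rw [hid]
    have h1 : (b - y') - a * (s - y) ∈ A.nonunits := by
      refine A.nonunits.sub_mem hby ?_
      rw [ValuationSubring.mem_nonunits_iff] at hsy ⊢
      rw [map_mul, mul_comm]
      exact mul_lt_one_of_nonneg_of_lt_one_left zero_le hsy hva
    rw [ValuationSubring.mem_nonunits_iff] at h1 ⊢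
    rw [map_mul, mul_comm]
    exact mul_lt_one_of_nonneg_of_lt_one_left zero_le h1 hvyinv

end Fermat.Agent.S36
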