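/-
S36 (Carayol), leaf V-K1 (helper81): ramification of `K0(ζ_q)` over the inertia field `K0`.

`A` a valuation subring of `ℚ̄` over the prime `q`, `I` its inertia group, `K0 = ℚ̄^I`
(`h81a_K0 A`), `ζ` a primitive `q`-th root of unity.

* `h81c_valuation_one_sub_pow` : `v(1 - ζ^b) = v(1 - ζ)` for `q ∤ b`;
* `h81c_valuation_q`           : `v(q) = v(1 - ζ)^(q-1)`;
* `h81c_card_orbit`            : the `I`-orbit of `ζ` has `q - 1` elements;
* `h81c_transitive`            : `I` is transitive on the primitive `q`-th roots of unity;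
* `h81c_exists_zpow_aeval`     : for `P ∈ K0[X]` with `P(ζ) ≠ 0`: `P(ζ) = (1 - ζ)^n · u`, `u ∈ Aˣ`;
* `h81c_exists_zpow`           : the same for every non-zero `x ∈ K0(ζ)`
  (the value group of `A` on `K0(ζ)` is generated by `v(1 - ζ)`: `e = q - 1`).
-/
import Mathlib
import Fermat.Agent.S36.H81Base
import Fermat.Agent.S13.L2Frey

set_option autoImplicit false

namespace Fermat.Agent.S36

local notation "h81c_Qb" => AlgebraicClosure ℚ

open Polynomial

section Basic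

variable {q : ℕ} {A : ValuationSubring h81c_Qb} {ζ : h81c_Qb}

theorem h81c_mem_of_pow_eq_one {m : ℕ} (hm : 0 < m) {y : h81c_Qb} (hy : y ^ m = 1) : y ∈ A :=
  Fermat.Agent.S54.mem_valuationSubring_of_isIntegral A
    ⟨Polynomial.X ^ m - 1, Polynomial.monic_X_pow_sub_C (1 : ℤ) hm.ne', by simp [hy]⟩

theorem h81c_geom_mem {y : h81c_Qb} (hy : y ∈ A) (b : ℕ) :
    ∑ i ∈ Finset.range b, y ^ i ∈ A :=
  sum_mem fun i _ => pow_mem hy i

theorem h81c_valuation_one_sub_pow_le {y : h81c_Qb} (hy : y ∈ A) (b : ℕ) :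
    A.valuation (1 - y ^ b) ≤ A.valuation (1 - y) := by
  rw [← mul_neg_geom_sum y b, map_mul]
  exact mul_le_of_le_one_right' ((A.valuation_le_one_iff _).mpr (h81c_geom_mem hy b))

/-- `v(1 - ζ^b) = v(1 - ζ)` for `q ∤ b`. -/
theorem h81c_valuation_one_sub_pow (hq : q.Prime) (hζ : IsPrimitiveRoot ζ q) {b : ℕ}
    (hb : ¬ q ∣ b) : A.valuation (1 - ζ ^ b) = A.valuation (1 - ζ) := by
  have hζA : ζ ∈ A := h81c_mem_of_pow_eq_one hq.pos hζ.pow_eq_one
  apply le_antisymm (h81c_valuation_one_sub_pow_le hζA b)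
  have hcop : Nat.Coprime b q := ((Nat.Prime.coprime_iff_not_dvd hq).mpr hb).symm
  obtain ⟨c, -, hc⟩ := Nat.exists_mul_mod_eq_one_of_coprime hcop hq.one_lt
  have h1 : (ζ ^ b) ^ c = ζ := by
    rw [← pow_mul, pow_eq_pow_mod (b * c) hζ.pow_eq_one, hc, pow_one]
  have h2 := h81c_valuation_one_sub_pow_le (A := A) (pow_mem hζA b) c
  rwa [h1] at h2

/-- `v(q) = v(1 - ζ)^(q-1)`. -/
theorem h81c_valuation_q (hq : q.Prime) (hζ : IsPrimitiveRoot ζ q) :
    A.valuation ((q : ℕ) : h81c_Qb) = A.valuation (1 - ζ) ^ (q - 1) := by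
  obtain ⟨n, rfl⟩ : ∃ n, q = n + 1 := ⟨q - 1, (Nat.sub_add_cancel hq.pos).symm⟩
  have h := IsPrimitiveRoot.prod_one_sub_pow_eq_order hζ
  have h2 : ((n + 1 : ℕ) : h81c_Qb) = ∏ k ∈ Finset.range n, (1 - ζ ^ (k + 1)) := by
    rw [h]
    push_cast
    rfl
  rw [h2, map_prod, Nat.add_sub_cancel]
  rw [Finset.prod_congr rfl (fun k hk => h81c_valuation_one_sub_pow (A := A) hq hζ
    (b := k + 1) (by
      intro hdvd
      have hk' := Finset.mem_range.mp hk
      have := Nat.le_of_dvd (Nat.succ_pos k) hdvd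
      omega))]
  rw [Finset.prod_const, Finset.card_range]

theorem h81c_one_sub_ne_zero (hq : q.Prime) (hζ : IsPrimitiveRoot ζ q) : 1 - ζ ≠ 0 := by
  intro h
  exact hζ.ne_one hq.one_lt (sub_eq_zero.mp h).symm

/-- an element with `u, u⁻¹ ∈ A` has valuation one. -/
theorem h81c_valuation_unit {u : h81c_Qb} (hu : u ∈ A) (hu' : u⁻¹ ∈ A) (hu0 : u ≠ 0) :
    A.valuation u = 1 := by
  have h1 : A.valuation u ≤ 1 := (A.valuation_le_one_iff _).mpr hu
  have h2 : A.valuation u⁻¹ ≤ 1 := (A.valuation_le_one_iff _).mpr hu'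
  have hv0 : A.valuation u ≠ 0 := (_root_.map_ne_zero _).mpr hu0
  rw [map_inv₀, inv_le_one₀ (zero_lt_iff.mpr hv0)] at h2
  exact le_antisymm h1 h2

/-- an inertia-fixed non-zero element has valuation `v(q)^j`. -/
theorem h81c_valuation_fixed (hq : q.Prime) (hA : A.LiesOverPrime q) {x : h81c_Qb}
    (hx0 : x ≠ 0) (hfix : ∀ σ ∈ A.inertiaSubgroupIn ℚ, σ x = x) :
    ∃ j : ℤ, A.valuation x = A.valuation ((q : ℕ) : h81c_Qb) ^ j := by
  obtain ⟨j, u, hu, hu', hxu⟩ := Fermat.Agent.PT.Glob.h55v_kInertVal q hq A hA x hx0 hfix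
  have hu0 : u ≠ 0 := by
    rintro rfl
    rw [mul_zero] at hxu
    exact hx0 hxu
  refine ⟨j, ?_⟩
  rw [hxu, map_mul, h81c_valuation_unit hu hu' hu0, mul_one, map_zpow₀]

end Basic

section Orbit

variable {q : ℕ} (A : ValuationSubring h81c_Qb) (ζ : h81c_Qb)

open Classical in
/-- The orbit of `ζ` under the inertia group (inside the powers of `ζ`). -/
noncomputable def h81c_orbit (q : ℕ) : Finset h81c_Qb :=
  ((Finset.range q).image (fun a => ζ ^ a)).filter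
    (fun z => ∃ σ ∈ A.inertiaSubgroupIn ℚ, σ ζ = z)

variable {A ζ}

theorem h81c_mem_orbit (hζ : IsPrimitiveRoot ζ q) (hq : q.Prime) {z : h81c_Qb} :
    z ∈ h81c_orbit A ζ q ↔ ∃ σ ∈ A.inertiaSubgroupIn ℚ, σ ζ = z := by
  classical
  unfold h81c_orbit
  rw [Finset.mem_filter, Finset.mem_image]
  constructor
  · exact fun h => h.2
  · rintro ⟨σ, hσ, rfl⟩
    refine ⟨?_, σ, hσ, rfl⟩
    have h1 : (σ ζ) ^ q = 1 := by rw [← map_pow, hζ.pow_eq_one, map_one]
    have : NeZero q := ⟨hq.ne_zero⟩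
    obtain ⟨i, hi, hiz⟩ := hζ.eq_pow_of_pow_eq_one h1
    exact ⟨i, Finset.mem_range.mpr hi, hiz⟩

theorem h81c_self_mem_orbit (hζ : IsPrimitiveRoot ζ q) (hq : q.Prime) :
    ζ ∈ h81c_orbit A ζ q :=
  (h81c_mem_orbit hζ hq).mpr ⟨1, one_mem _, rfl⟩

theorem h81c_orbit_image (hζ : IsPrimitiveRoot ζ q) (hq : q.Prime)
    {σ : h81c_Qb ≃ₐ[ℚ] h81c_Qb} (hσ : σ ∈ A.inertiaSubgroupIn ℚ) :
    (h81c_orbit A ζ q).image σ = h81c_orbit A ζ q := by
  classical
  apply Finset.eq_of_subset_of_card_le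
  · intro z hz
    obtain ⟨y, hy, rfl⟩ := Finset.mem_image.mp hz
    obtain ⟨τ, hτ, rfl⟩ := (h81c_mem_orbit hζ hq).mp hy
    exact (h81c_mem_orbit hζ hq).mpr ⟨σ * τ, mul_mem hσ hτ, rfl⟩
  · rw [Finset.card_image_of_injective _ σ.injective]

/-- The product over the orbit of an `I`-equivariant function is `I`-fixed. -/
theorem h81c_prod_fixed (hζ : IsPrimitiveRoot ζ q) (hq : q.Prime) (g : h81c_Qb → h81c_Qb)
    (hg : ∀ σ ∈ A.inertiaSubgroupIn ℚ, ∀ z, σ (g z) = g (σ z))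
    {σ : h81c_Qb ≃ₐ[ℚ] h81c_Qb} (hσ : σ ∈ A.inertiaSubgroupIn ℚ) :
    σ (∏ z ∈ h81c_orbit A ζ q, g z) = ∏ z ∈ h81c_orbit A ζ q, g z := by
  classical
  rw [map_prod]
  conv_rhs => rw [← h81c_orbit_image hζ hq hσ]
  rw [Finset.prod_image (fun x _ y _ h => σ.injective h)]
  exact Finset.prod_congr rfl fun z _ => hg σ hσ z

/-- The valuation of the orbit product of an equivariant function. -/
theorem h81c_valuation_prod (hζ : IsPrimitiveRoot ζ q) (hq : q.Prime) (hA : A.LiesOverPrime q)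
    (g : h81c_Qb → h81c_Qb)
    (hg : ∀ σ ∈ A.inertiaSubgroupIn ℚ, ∀ z, σ (g z) = g (σ z)) :
    A.valuation (∏ z ∈ h81c_orbit A ζ q, g z) =
      A.valuation (g ζ) ^ (h81c_orbit A ζ q).card := by
  classical
  rw [map_prod, Finset.prod_congr rfl (fun z hz => ?_), Finset.prod_const]
  obtain ⟨σ, hσ, rfl⟩ := (h81c_mem_orbit hζ hq).mp hz
  rw [← hg σ hσ ζ]
  exact Fermat.Agent.S13.L2.inertia_valuation_eq A hq hA hσ (g ζ)

theorem h81c_valuation_one_sub_lt (hζ : IsPrimitiveRoot ζ q) (hq : q.Prime)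
    (hA : A.LiesOverPrime q) : A.valuation (1 - ζ) < 1 := by
  by_contra hcon
  have h1 : A.valuation (1 - ζ) = 1 := by
    apply le_antisymm _ (not_lt.mp hcon)
    exact (A.valuation_le_one_iff _).mpr
      (sub_mem (one_mem _) (h81c_mem_of_pow_eq_one hq.pos hζ.pow_eq_one))
  have h2 := h81c_valuation_q (A := A) hq hζ
  rw [h1, one_pow] at h2
  have h3 : ((q : ℕ) : h81c_Qb) ∈ A.nonunits := hA
  rw [ValuationSubring.mem_nonunits_iff, h2] at h3
  exact lt_irrefl _ h3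

theorem h81c_valuation_one_sub_ne_zero (hζ : IsPrimitiveRoot ζ q) (hq : q.Prime) :
    A.valuation (1 - ζ) ≠ 0 :=
  (_root_.map_ne_zero _).mpr (h81c_one_sub_ne_zero hq hζ)

theorem h81c_orbit_subset (hζ : IsPrimitiveRoot ζ q) (hq : q.Prime) :
    h81c_orbit A ζ q ⊆ ((Finset.range q).erase 0).image (fun a => ζ ^ a) := by
  classical
  intro z hz
  have hz' := hz
  unfold h81c_orbit at hz'
  rw [Finset.mem_filter, Finset.mem_image] at hz'
  obtain ⟨⟨a, ha, rfl⟩, σ, hσ, hσz⟩ := hz'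
  refine Finset.mem_image.mpr ⟨a, Finset.mem_erase.mpr ⟨?_, ha⟩, rfl⟩
  rintro rfl
  rw [pow_zero] at hσz
  have : ζ = 1 := by
    have h := congrArg σ.symm hσz
    rwa [σ.symm_apply_apply, map_one] at h
  exact hζ.ne_one hq.one_lt this

theorem h81c_card_orbit_le (hζ : IsPrimitiveRoot ζ q) (hq : q.Prime) :
    (h81c_orbit A ζ q).card ≤ q - 1 := by
  classical
  calc (h81c_orbit A ζ q).card
      ≤ (((Finset.range q).erase 0).image (fun a => ζ ^ a)).card :=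
        Finset.card_le_card (h81c_orbit_subset hζ hq)
    _ ≤ ((Finset.range q).erase 0).card := Finset.card_image_le
    _ = q - 1 := by
        rw [Finset.card_erase_of_mem (Finset.mem_range.mpr hq.pos), Finset.card_range]

/-- powers of an element `0 < x < 1` of the value group are strictly decreasing. -/
theorem h81c_pow_inj {Γ : Type*} [LinearOrderedCommGroupWithZero Γ] {x : Γ} (hx0 : x ≠ 0)
    (hx1 : x < 1) {m n : ℕ} (h : x ^ m = x ^ n) : m = n := by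
  rcases lt_trichotomy m n with hlt | heq | hgt
  · exact absurd h (ne_of_gt (pow_lt_pow_right_of_lt_one₀ (zero_lt_iff.mpr hx0) hx1 hlt))
  · exact heq
  · exact absurd h.symm (ne_of_gt (pow_lt_pow_right_of_lt_one₀ (zero_lt_iff.mpr hx0) hx1 hgt))

/-- **The inertia orbit of `ζ` has `q - 1` elements.** -/
theorem h81c_card_orbit (hζ : IsPrimitiveRoot ζ q) (hq : q.Prime) (hA : A.LiesOverPrime q) :
    (h81c_orbit A ζ q).card = q - 1 := by
  classical
  set x := A.valuation (1 - ζ) with hx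
  have hx0 : x ≠ 0 := h81c_valuation_one_sub_ne_zero hζ hq
  have hx1 : x < 1 := h81c_valuation_one_sub_lt hζ hq hA
  have hg : ∀ σ ∈ A.inertiaSubgroupIn ℚ, ∀ z : h81c_Qb, σ (1 - z) = 1 - σ z := by
    intro σ _ z
    rw [map_sub, map_one]
  have hprod := h81c_valuation_prod hζ hq hA (fun z => 1 - z) hg
  have hN0 : (∏ z ∈ h81c_orbit A ζ q, (1 - z)) ≠ 0 := by
    intro h0
    have := congrArg A.valuation h0
    rw [hprod, map_zero] at this
    exact pow_ne_zero _ hx0 this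
  obtain ⟨j, hj⟩ := h81c_valuation_fixed hq hA hN0
    (fun σ hσ => h81c_prod_fixed hζ hq (fun z => 1 - z) hg hσ)
  rw [hprod, h81c_valuation_q hq hζ] at hj
  have hcard_pos : 0 < (h81c_orbit A ζ q).card :=
    Finset.card_pos.mpr ⟨ζ, h81c_self_mem_orbit hζ hq⟩
  have hq1 : 0 < q - 1 := Nat.sub_pos_of_lt hq.one_lt
  -- `j ≥ 1`
  have hj1 : 1 ≤ j := by
    by_contra hneg
    obtain ⟨n, rfl⟩ : ∃ n : ℕ, j = -n := ⟨(-j).toNat, by omega⟩
    have hlt : x ^ (h81c_orbit A ζ q).card < 1 := pow_lt_one₀ zero_le hx1 hcard_pos.ne'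
    rw [hj, zpow_neg, zpow_natCast, ← pow_mul] at hlt
    have hle : x ^ ((q - 1) * n) ≤ 1 := pow_le_one₀ zero_le hx1.le
    have hne : x ^ ((q - 1) * n) ≠ 0 := pow_ne_zero _ hx0
    exact absurd hlt (not_lt.mpr ((one_le_inv₀ (zero_lt_iff.mpr hne)).mpr hle))
  obtain ⟨n, rfl⟩ : ∃ n : ℕ, j = (n : ℤ) + 1 := ⟨(j - 1).toNat, by omega⟩
  have hj' : x ^ (h81c_orbit A ζ q).card = x ^ ((q - 1) * (n + 1)) := by
    rw [hj, pow_mul]
    norm_cast
  have heq := h81c_pow_inj hx0 hx1 hj'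
  have hle := h81c_card_orbit_le (A := A) hζ hq
  have hn : n = 0 := by
    by_contra hn
    have : (q - 1) * 2 ≤ (q - 1) * (n + 1) := Nat.mul_le_mul_left _ (by omega)
    omega
  rw [heq, hn]
  simp

/-- **Inertia is transitive on the primitive `q`-th roots of unity.** -/
theorem h81c_transitive (hζ : IsPrimitiveRoot ζ q) (hq : q.Prime) (hA : A.LiesOverPrime q)
    {b : ℕ} (hb : ¬ q ∣ b) : ∃ σ ∈ A.inertiaSubgroupIn ℚ, σ ζ = ζ ^ b := by
  classical
  have hsub := h81c_orbit_subset (A := A) hζ hq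
  have hcard : (((Finset.range q).erase 0).image (fun a => ζ ^ a)).card ≤
      (h81c_orbit A ζ q).card := by
    rw [h81c_card_orbit hζ hq hA]
    calc (((Finset.range q).erase 0).image (fun a => ζ ^ a)).card
        ≤ ((Finset.range q).erase 0).card := Finset.card_image_le
      _ = q - 1 := by
          rw [Finset.card_erase_of_mem (Finset.mem_range.mpr hq.pos), Finset.card_range]
  have heq := Finset.eq_of_subset_of_card_le hsub hcard
  have hmem : ζ ^ b ∈ ((Finset.range q).erase 0).image (fun a => ζ ^ a) := by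
    refine Finset.mem_image.mpr ⟨b % q, Finset.mem_erase.mpr ⟨?_, ?_⟩, ?_⟩
    · intro h0
      exact hb (Nat.dvd_of_mod_eq_zero h0)
    · exact Finset.mem_range.mpr (Nat.mod_lt _ hq.pos)
    · exact (pow_eq_pow_mod b hζ.pow_eq_one).symm
  rw [← heq] at hmem
  exact (h81c_mem_orbit hζ hq).mp hmem

end Orbit

section VK1

variable {q : ℕ} {A : ValuationSubring h81c_Qb} {ζ : h81c_Qb}

/-- Evaluation of a polynomial with coefficients in `K0` commutes with inertia. -/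
theorem h81c_aeval_equivariant (P : (h81a_K0 A)[X]) {σ : h81c_Qb ≃ₐ[ℚ] h81c_Qb}
    (hσ : σ ∈ A.inertiaSubgroupIn ℚ) (z : h81c_Qb) :
    σ (Polynomial.aeval z P) = Polynomial.aeval (σ z) P := by
  rw [Polynomial.aeval_def, Polynomial.aeval_def]
  have h := Polynomial.hom_eval₂ P (algebraMap (h81a_K0 A) h81c_Qb)
    (σ : h81c_Qb →+* h81c_Qb) z
  have hcomp : (σ : h81c_Qb →+* h81c_Qb).comp (algebraMap (h81a_K0 A) h81c_Qb) =
      algebraMap (h81a_K0 A) h81c_Qb := by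
    ext c
    exact (h81a_mem_K0 A _).mp c.2 σ hσ
  rw [hcomp] at h
  exact h

/-- an element of valuation one is a unit of `A`. -/
theorem h81c_unit_of_valuation {u : h81c_Qb} (hu : A.valuation u = 1) : u ∈ A ∧ u⁻¹ ∈ A := by
  constructor
  · exact (A.valuation_le_one_iff _).mp hu.le
  · apply (A.valuation_le_one_iff _).mp
    rw [map_inv₀, hu, inv_one]

/-- **V-K1, polynomial form.** For `P ∈ K0[X]` with `P(ζ) ≠ 0`:
`P(ζ) = (1 - ζ)^n · u` with `u` a unit of `A`. -/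
theorem h81c_exists_zpow_aeval (hζ : IsPrimitiveRoot ζ q) (hq : q.Prime)
    (hA : A.LiesOverPrime q) (P : (h81a_K0 A)[X]) (hP : Polynomial.aeval ζ P ≠ 0) :
    ∃ (n : ℤ) (u : h81c_Qb), u ∈ A ∧ u⁻¹ ∈ A ∧ Polynomial.aeval ζ P = (1 - ζ) ^ n * u := by
  classical
  set x := A.valuation (1 - ζ) with hx
  have hx0 : x ≠ 0 := h81c_valuation_one_sub_ne_zero hζ hq
  set y := Polynomial.aeval ζ P with hy
  have hvy0 : A.valuation y ≠ 0 := (_root_.map_ne_zero _).mpr hP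
  have hg : ∀ σ ∈ A.inertiaSubgroupIn ℚ, ∀ z : h81c_Qb,
      σ (Polynomial.aeval z P) = Polynomial.aeval (σ z) P :=
    fun σ hσ z => h81c_aeval_equivariant P hσ z
  have hprod := h81c_valuation_prod hζ hq hA (fun z => Polynomial.aeval z P) hg
  rw [h81c_card_orbit hζ hq hA] at hprod
  have hN0 : (∏ z ∈ h81c_orbit A ζ q, Polynomial.aeval z P) ≠ 0 := by
    intro h0
    have := congrArg A.valuation h0
    rw [hprod, map_zero] at this
    exact pow_ne_zero _ hvy0 this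
  obtain ⟨j, hj⟩ := h81c_valuation_fixed hq hA hN0
    (fun σ hσ => h81c_prod_fixed hζ hq (fun z => Polynomial.aeval z P) hg hσ)
  rw [hprod, h81c_valuation_q hq hζ] at hj
  have hq1 : q - 1 ≠ 0 := (Nat.sub_pos_of_lt hq.one_lt).ne'
  -- `v(y)^(q-1) = (x^j)^(q-1)`
  have hj' : A.valuation y ^ (q - 1) = (x ^ j) ^ (q - 1) := by
    rw [hj, ← zpow_natCast (x ^ j), ← zpow_natCast x, ← zpow_mul, ← zpow_mul, mul_comm]
  have hvy : A.valuation y = x ^ j := by
    have hxj0 : x ^ j ≠ 0 := zpow_ne_zero _ hx0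
    rcases lt_trichotomy (A.valuation y) (x ^ j) with hlt | heq | hgt
    · exact absurd hj' (ne_of_lt (pow_lt_pow_left₀ hlt zero_le hq1))
    · exact heq
    · exact absurd hj'.symm (ne_of_lt (pow_lt_pow_left₀ hgt zero_le hq1))
  have h1z : (1 - ζ) ^ j ≠ 0 := zpow_ne_zero _ (h81c_one_sub_ne_zero hq hζ)
  have hu : A.valuation (y * ((1 - ζ) ^ j)⁻¹) = 1 := by
    rw [map_mul, map_inv₀, map_zpow₀, hvy]
    exact mul_inv_cancel₀ (zpow_ne_zero _ hx0)
  obtain ⟨hu1, hu2⟩ := h81c_unit_of_valuation hu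
  refine ⟨j, y * ((1 - ζ) ^ j)⁻¹, hu1, hu2, ?_⟩
  field_simp

/-- **V-K1.** Every non-zero element of `K0(ζ)` is `(1 - ζ)^n` times a unit of `A`: the value
group of `A` on `K0(ζ)` is generated by `v(1 - ζ)`, and `v(q) = v(1 - ζ)^(q-1)`. -/
theorem h81c_exists_zpow (hζ : IsPrimitiveRoot ζ q) (hq : q.Prime)
    (hA : A.LiesOverPrime q) {x : h81c_Qb}
    (hx : x ∈ IntermediateField.adjoin (h81a_K0 A) {ζ}) (hx0 : x ≠ 0) :
    ∃ (n : ℤ) (u : h81c_Qb), u ∈ A ∧ u⁻¹ ∈ A ∧ x = (1 - ζ) ^ n * u := by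
  obtain ⟨r, s, hrs⟩ := (IntermediateField.mem_adjoin_simple_iff _ _).mp hx
  have hr0 : Polynomial.aeval ζ r ≠ 0 := by
    intro h
    rw [h, zero_div] at hrs
    exact hx0 hrs
  have hs0 : Polynomial.aeval ζ s ≠ 0 := by
    intro h
    rw [h, div_zero] at hrs
    exact hx0 hrs
  obtain ⟨n₁, u₁, hu₁, hu₁', h₁⟩ := h81c_exists_zpow_aeval hζ hq hA r hr0
  obtain ⟨n₂, u₂, hu₂, hu₂', h₂⟩ := h81c_exists_zpow_aeval hζ hq hA s hs0
  have hz0 : (1 - ζ) ≠ 0 := h81c_one_sub_ne_zero hq hζ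
  have hu₂0 : u₂ ≠ 0 := by
    rintro rfl
    rw [mul_zero] at h₂
    exact hs0 h₂
  refine ⟨n₁ - n₂, u₁ * u₂⁻¹, mul_mem hu₁ hu₂', ?_, ?_⟩
  · rw [mul_inv, inv_inv]
    exact mul_mem hu₁' hu₂
  · rw [hrs, h₁, h₂, zpow_sub₀ hz0]
    field_simp

end VK1

end Fermat.Agent.S36
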