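import Fermat.Agent.S36.H83Orbit
import Fermat.Agent.S36.H83EmbGal
import Fermat.Agent.Red.GV.SoftGal
import Fermat.Agent.Jac.OS
import Fermat.Agent.LGC.H57Teich

/-!
# S36, glue G1 (TOR-DESC): descent of the toric data of block (N) to the inertia-fixed functions

Author: helper83.  `A` a valuation subring of `ℚ̄` over `q`, `I = I_A` its inertia group,
`E : FF N → ℚ̄((t))` an embedding which is `I`-equivariant (`E20 = coe` at every level; `E02` by
`H20EmbGal`).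

* `h83t_resPow`  : if `E x` is a Gauss unit, there are `a` and an `I`-FIXED `y` with
  `E (y / x ^ (q ^ a)) ≡ 1` (the residue field of `softV ∩ F^I` is that of `softV` up to a purely
  inseparable extension).  No ramification theory: orbit polynomial (`h83o_orbit`).
* `h83t_torDesc` : **G1**.  For `u ≠ 0` fixed by `I`, `q ∤ m`: if `E (c · u / h ^ m) ≡ 1` for
  some `c ∈ ℚ̄ˣ`, `h ∈ (FF N)ˣ`, then the same holds with `c` fixed by `I` (`c ∈ K₀`) and `h`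
  fixed by `I` (`h ∈ F₀`).  NO exponent is lost: the `q`-power is undone since `gcd (q, m) = 1`.
-/

set_option autoImplicit false

open ModularCurve AlgebraicCurve

noncomputable section

namespace Fermat.Agent.S36

open Fermat.Agent.S37 (Kbar GQ FF cst gal)
open Fermat.Agent.S05 Fermat.Agent.Red.GV Fermat.Agent.Red.GV.Soft

variable (A : ValuationSubring Kbar)

/-! ### `≡ 1` on series -/

/-- `h20n_CongOneS A s` is `s ∈ softOT` and `red s = 1`. -/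
theorem h83t_cong_iff (s : LaurentSeries Kbar) :
    h20n_CongOneS A s ↔
      ∃ h : s ∈ softOT A (IsLocalRing.residue A), softRedT A (IsLocalRing.residue A) ⟨s, h⟩ = 1 := by
  constructor
  · rintro ⟨a, b, hb, hab, hred⟩
    have hw : IsWit A (IsLocalRing.residue A) s a b := ⟨hb, hab⟩
    refine ⟨⟨a, b, hw⟩, ?_⟩
    have h1 := softRedT_apply (⟨s, ⟨a, b, hw⟩⟩ : softOT A (IsLocalRing.residue A)) hw
    have hred' : redA (IsLocalRing.residue A) a = redA (IsLocalRing.residue A) b := hred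
    rw [h1, hred']
    exact div_self hw.1
  · rintro ⟨⟨a, b, hw⟩, hred⟩
    refine ⟨a, b, hw.1, hw.2, ?_⟩
    have h1 := softRedT_apply (⟨s, ⟨a, b, hw⟩⟩ : softOT A (IsLocalRing.residue A)) hw
    rw [h1] at hred
    exact (div_eq_one_iff_eq hw.1).1 hred

theorem h83t_cong_one : h20n_CongOneS A (1 : LaurentSeries Kbar) := by
  rw [h83t_cong_iff]
  exact ⟨Subring.one_mem _, map_one _⟩

theorem h83t_cong_mul {s t : LaurentSeries Kbar} (hs : h20n_CongOneS A s)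
    (ht : h20n_CongOneS A t) : h20n_CongOneS A (s * t) := by
  rw [h83t_cong_iff] at hs ht ⊢
  obtain ⟨hs, hs1⟩ := hs
  obtain ⟨ht, ht1⟩ := ht
  refine ⟨Subring.mul_mem _ hs ht, ?_⟩
  have h1 : (⟨s * t, Subring.mul_mem _ hs ht⟩ : softOT A (IsLocalRing.residue A)) =
      ⟨s, hs⟩ * ⟨t, ht⟩ := rfl
  rw [h1, map_mul, hs1, ht1, one_mul]

theorem h83t_cong_inv {s : LaurentSeries Kbar} (hs : h20n_CongOneS A s) :
    h20n_CongOneS A s⁻¹ := by
  rw [h83t_cong_iff] at hs ⊢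
  obtain ⟨hs, hs1⟩ := hs
  have hne : softRedT A (IsLocalRing.residue A) ⟨s, hs⟩ ≠ 0 := by
    rw [hs1]; exact one_ne_zero
  obtain ⟨hs0, hinv⟩ := (softRedT_ne_zero_iff ⟨s, hs⟩).1 hne
  refine ⟨hinv, ?_⟩
  have h1 : (⟨s, hs⟩ : softOT A (IsLocalRing.residue A)) * ⟨s⁻¹, hinv⟩ = 1 :=
    Subtype.ext (mul_inv_cancel₀ hs0)
  have h2 := congrArg (softRedT A (IsLocalRing.residue A)) h1
  rw [map_mul, hs1, one_mul, map_one] at h2
  exact h2

theorem h83t_cong_pow {s : LaurentSeries Kbar} (hs : h20n_CongOneS A s) (n : ℕ) :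
    h20n_CongOneS A (s ^ n) := by
  induction n with
  | zero => rw [pow_zero]; exact h83t_cong_one A
  | succ n ih => rw [pow_succ]; exact h83t_cong_mul A ih hs

theorem h83t_cong_div {s t : LaurentSeries Kbar} (hs : h20n_CongOneS A s)
    (ht : h20n_CongOneS A t) : h20n_CongOneS A (s / t) := by
  rw [div_eq_mul_inv]
  exact h83t_cong_mul A hs (h83t_cong_inv A ht)

theorem h83t_cong_ne_zero {s : LaurentSeries Kbar} (hs : h20n_CongOneS A s) : s ≠ 0 := by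
  rw [h83t_cong_iff] at hs
  obtain ⟨hs, hs1⟩ := hs
  rintro rfl
  have h0 : (⟨0, hs⟩ : softOT A (IsLocalRing.residue A)) = 0 := rfl
  rw [h0, map_zero] at hs1
  exact zero_ne_one hs1

/-! ### Inertia acts trivially on reductions -/

/-- for `σ` in the inertia group, `σ s ∈ softOT` and `red (σ s) = red s`. -/
theorem h83t_inertia_red {σ : GQ} (hσ : σ ∈ A.inertiaSubgroupIn ℚ) (s : LaurentSeries Kbar)
    (hs : s ∈ softOT A (IsLocalRing.residue A)) :
    ∃ h : coeffMap (σ : Kbar →+* Kbar) s ∈ softOT A (IsLocalRing.residue A),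
      softRedT A (IsLocalRing.residue A) ⟨_, h⟩ = softRedT A (IsLocalRing.residue A) ⟨s, hs⟩ := by
  have hd := mem_decomp_of_mem_inertia A hσ
  have h1 : coeffMap (σ : Kbar →+* Kbar) s ∈ softOT A (IsLocalRing.residue A) :=
    mem_softOT_coeffMap (σ : Kbar →+* Kbar) (decompA A σ hd) (coe_decompA A σ hd)
      (decompK A σ hd) (residue_decompA A σ hd) hs
  refine ⟨h1, ?_⟩
  have h2 := softRedT_coeffMap (σ : Kbar →+* Kbar) (decompA A σ hd) (coe_decompA A σ hd)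
    (decompK A σ hd) (residue_decompA A σ hd) ⟨s, hs⟩ h1
  rw [h2, decompK_of_inertia A hσ, coeffMap_id]

theorem h83t_inertia_cong {σ : GQ} (hσ : σ ∈ A.inertiaSubgroupIn ℚ) {s : LaurentSeries Kbar}
    (hs : h20n_CongOneS A s) : h20n_CongOneS A (coeffMap (σ : Kbar →+* Kbar) s) := by
  rw [h83t_cong_iff] at hs ⊢
  obtain ⟨hs, hs1⟩ := hs
  obtain ⟨h, hred⟩ := h83t_inertia_red A hσ s hs
  exact ⟨h, hred.trans hs1⟩

/-- for a Gauss unit `s` and `σ` in the inertia group, `σ s / s ≡ 1`. -/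
theorem h83t_inertia_unit {σ : GQ} (hσ : σ ∈ A.inertiaSubgroupIn ℚ) {s : LaurentSeries Kbar}
    (hs : s ∈ softOT A (IsLocalRing.residue A)) (hs0 : s ≠ 0)
    (hsi : s⁻¹ ∈ softOT A (IsLocalRing.residue A)) :
    h20n_CongOneS A (coeffMap (σ : Kbar →+* Kbar) s / s) := by
  obtain ⟨h, hred⟩ := h83t_inertia_red A hσ s hs
  rw [h83t_cong_iff]
  have hmem : coeffMap (σ : Kbar →+* Kbar) s / s ∈ softOT A (IsLocalRing.residue A) := by
    rw [div_eq_mul_inv]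
    exact Subring.mul_mem _ h hsi
  refine ⟨hmem, ?_⟩
  have h1 : (⟨coeffMap (σ : Kbar →+* Kbar) s / s, hmem⟩ : softOT A (IsLocalRing.residue A)) *
      ⟨s, hs⟩ = ⟨coeffMap (σ : Kbar →+* Kbar) s, h⟩ :=
    Subtype.ext (div_mul_cancel₀ _ hs0)
  have h2 := congrArg (softRedT A (IsLocalRing.residue A)) h1
  rw [map_mul, hred] at h2
  have hne : softRedT A (IsLocalRing.residue A) ⟨s, hs⟩ ≠ 0 :=
    (softRedT_ne_zero_iff ⟨s, hs⟩).2 ⟨hs0, hsi⟩
  exact mul_right_cancel₀ hne (h2.trans (one_mul _).symm)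

/-! ### Constants -/

theorem h83t_cong_C_iff (c : Kbar) :
    h20n_CongOneS A (HahnSeries.C c) ↔
      ∃ h : c ∈ A, IsLocalRing.residue A ⟨c, h⟩ = 1 := by
  rw [h83t_cong_iff]
  constructor
  · rintro ⟨h, hred⟩
    have hc : c ∈ A := (C_mem_softOT_iff A _ (residue_eq_zero_of_nonunit A) c).1 h
    refine ⟨hc, ?_⟩
    have h1 := softRedT_C A (IsLocalRing.residue A) ⟨c, hc⟩ h
    rw [hred] at h1
    have h2 : (HahnSeries.C (1 : IsLocalRing.ResidueField A) : LaurentSeries _) =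
        HahnSeries.C (IsLocalRing.residue A ⟨c, hc⟩) := by
      rw [map_one]; exact h1
    exact (HahnSeries.C_injective h2).symm
  · rintro ⟨hc, hred⟩
    have h : HahnSeries.C c ∈ softOT A (IsLocalRing.residue A) :=
      C_mem_softOT A (IsLocalRing.residue A) ⟨c, hc⟩
    refine ⟨h, ?_⟩
    rw [softRedT_C A (IsLocalRing.residue A) ⟨c, hc⟩ h, hred, map_one]

/-- the residue characteristic. -/
theorem h83t_char {q : ℕ} (hA : A.LiesOverPrime q) :
    ((q : ℕ) : LaurentSeries (IsLocalRing.ResidueField A)) = 0 := by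
  have hq : (q : Kbar) ∈ A := A.nonunits_subset hA
  have h1 : IsLocalRing.residue A ⟨(q : Kbar), hq⟩ = 0 :=
    residue_eq_zero_of_nonunit A ⟨(q : Kbar), hq⟩ hA
  have h2 : (⟨(q : Kbar), hq⟩ : A) = ((q : ℕ) : A) := Subtype.ext (by push_cast; rfl)
  rw [h2, map_natCast] at h1
  have h3 : ((q : ℕ) : LaurentSeries (IsLocalRing.ResidueField A)) =
      HahnSeries.C ((q : ℕ) : IsLocalRing.ResidueField A) := by
    rw [map_natCast]
  rw [h3, h1, map_zero]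

/-! ### Finiteness of Galois orbits -/

theorem h83t_gal_mul (N : ℕ) (σ τ : GQ) (x : FF N) :
    gal N (σ * τ) • x = gal N σ • gal N τ • x := by
  have hmul : gal N (σ * τ) = gal N σ * gal N τ := map_mul _ σ τ
  rw [hmul, mul_smul]

theorem h83t_gal_one (N : ℕ) (x : FF N) : gal N 1 • x = x := by
  have h1 : gal N 1 = 1 := map_one _
  rw [h1, one_smul]

theorem h83t_gal_cst (N : ℕ) (σ : GQ) (c : Kbar) : gal N σ • cst N c = cst N (σ c) :=
  SemilinearAut.smul_algebraMap _ c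

theorem h83t_cst_mul (N : ℕ) (x y : Kbar) : cst N (x * y) = cst N x * cst N y :=
  map_mul (algebraMap Kbar (FF N)) x y

theorem h83t_cst_pow (N : ℕ) (x : Kbar) (n : ℕ) : cst N (x ^ n) = cst N x ^ n :=
  map_pow (algebraMap Kbar (FF N)) x n

theorem h83t_cst_zero (N : ℕ) : cst N (0 : Kbar) = 0 :=
  map_zero (algebraMap Kbar (FF N))

/-- the Galois orbit of a function is finite. -/
theorem h83t_orbit_finite (N : ℕ) (x : FF N) :
    {z : FF N | ∃ σ : GQ, z = gal N σ • x}.Finite := by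
  classical
  obtain ⟨L, hL, hfix⟩ := Fermat.Agent.Jac.h18_exists_fixing_field N x
  let res : GQ → (L →ₐ[ℚ] Kbar) := fun σ => (σ : Kbar →ₐ[ℚ] Kbar).comp L.val
  let f : (L →ₐ[ℚ] Kbar) → FF N := fun e =>
    if h : ∃ σ : GQ, res σ = e then gal N (Classical.choose h) • x else x
  refine (Set.finite_range f).subset ?_
  rintro z ⟨σ, rfl⟩
  refine ⟨res σ, ?_⟩
  have h : ∃ σ' : GQ, res σ' = res σ := ⟨σ, rfl⟩
  show (if h : ∃ σ' : GQ, res σ' = res σ then gal N (Classical.choose h) • x else x) = _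
  rw [dif_pos h]
  have hspec : res (Classical.choose h) = res σ := Classical.choose_spec h
  set σ' := Classical.choose h
  have h1 : gal N (σ⁻¹ * σ') • x = x := by
    apply hfix
    intro y hy
    have h2 : σ' y = σ y := DFunLike.congr_fun hspec ⟨y, hy⟩
    show σ⁻¹ (σ' y) = y
    rw [h2]
    exact σ.symm_apply_apply y
  have h3 : σ' = σ * (σ⁻¹ * σ') := by rw [mul_inv_cancel_left]
  rw [h3, h83t_gal_mul, h1]

/-! ### The residue field of the inertia-fixed functions (up to `q`-powers) -/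

section ResPow

variable {A}
variable {q : ℕ} (hq : q.Prime) (hA : A.LiesOverPrime q) (N : ℕ)
  (E : FF N →+* LaurentSeries Kbar)
  (hEgal : ∀ σ ∈ A.inertiaSubgroupIn ℚ, ∀ x : FF N,
    E (gal N σ • x) = coeffMap (σ : Kbar →+* Kbar) (E x))

include hq hA in
/-- **orbit polynomial, general form.**  If `E (σ x / x) ≡ 1` for all `σ ∈ I`, then some
`I`-fixed `y` (in any subring `T` containing the conjugates of `x`) satisfies
`E (y / x ^ (q ^ a)) ≡ 1`. -/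
theorem h83t_resPow_gen (T : Subring (FF N)) (x : FF N) (hx0 : x ≠ 0)
    (hT : ∀ σ : GQ, gal N σ • x ∈ T)
    (hcong : ∀ σ ∈ A.inertiaSubgroupIn ℚ, h20n_CongOneS A (E (gal N σ • x / x))) :
    ∃ (a : ℕ) (y : FF N), y ∈ T ∧ (∀ σ ∈ A.inertiaSubgroupIn ℚ, gal N σ • y = y) ∧
      h20n_CongOneS A (E (y / x ^ (q ^ a))) := by
  classical
  let I := A.inertiaSubgroupIn ℚ
  have hfin : {z : FF N | ∃ σ ∈ I, z = gal N σ • x}.Finite :=
    (h83t_orbit_finite N x).subset (fun z ⟨σ, _, hz⟩ => ⟨σ, hz⟩)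
  let R : Subring (FF N) := (softOT A (IsLocalRing.residue A)).comap E
  let red : R →+* LaurentSeries (IsLocalRing.ResidueField A) :=
    (softRedT A (IsLocalRing.residue A)).comp
      (E.restrict R (softOT A (IsLocalRing.residue A)) (fun _ hx => hx))
  have hred : ∀ (z : FF N) (hz : z ∈ R), red ⟨z, hz⟩ =
      softRedT A (IsLocalRing.residue A) ⟨E z, hz⟩ := fun _ _ => rfl
  let S : Set (FF N →+* FF N) := {g | ∃ σ ∈ I, g = h83g_galHom N σ}
  have hx₀ : x ∈ hfin.toFinset := by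
    rw [Set.Finite.mem_toFinset]
    exact ⟨1, I.one_mem, (h83t_gal_one N x).symm⟩
  obtain ⟨a, y, hyT, hyS, hyR, hyred⟩ := h83o_orbit q hq (h83t_char A hA) R red T S
    hfin.toFinset x hx₀ hx0
    (by
      intro z hz
      rw [Set.Finite.mem_toFinset] at hz
      obtain ⟨σ, -, rfl⟩ := hz
      exact hT σ)
    (by
      rintro g ⟨σ, hσ, rfl⟩ z hz
      rw [Set.Finite.mem_toFinset] at hz ⊢
      obtain ⟨τ, hτ, rfl⟩ := hz
      exact ⟨σ * τ, I.mul_mem hσ hτ, (h83t_gal_mul N σ τ x).symm⟩)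
    (by
      intro z hz
      rw [Set.Finite.mem_toFinset] at hz
      obtain ⟨σ, hσ, rfl⟩ := hz
      obtain ⟨h1, h2⟩ := (h83t_cong_iff A _).1 (hcong σ hσ)
      exact ⟨h1, h2⟩)
  refine ⟨a, y, hyT, fun σ hσ => hyS _ ⟨σ, hσ, rfl⟩, ?_⟩
  rw [h83t_cong_iff]
  exact ⟨hyR, hyred⟩

include hq hA hEgal in
/-- **the residue field of `softV ∩ F^I`**: a Gauss unit `E x` is congruent, after raising to
a `q`-power, to `E y` with `y` fixed by inertia. -/
theorem h83t_resPow (x : FF N) (hx0 : x ≠ 0)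
    (hx : E x ∈ softOT A (IsLocalRing.residue A))
    (hxi : (E x)⁻¹ ∈ softOT A (IsLocalRing.residue A)) :
    ∃ (a : ℕ) (y : FF N), y ≠ 0 ∧ (∀ σ ∈ A.inertiaSubgroupIn ℚ, gal N σ • y = y) ∧
      h20n_CongOneS A (E (y / x ^ (q ^ a))) := by
  have hEx0 : E x ≠ 0 := (map_ne_zero E).2 hx0
  obtain ⟨a, y, -, hy, hcong⟩ := h83t_resPow_gen hq hA N E ⊤ x hx0 (fun _ => Subring.mem_top _)
    (by
      intro σ hσ
      rw [map_div₀, hEgal σ hσ]
      exact h83t_inertia_unit A hσ hx hEx0 hxi)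
  refine ⟨a, y, ?_, hy, hcong⟩
  rintro rfl
  rw [zero_div, map_zero] at hcong
  exact h83t_cong_ne_zero A hcong rfl

end ResPow

/-! ### G1: descent of the toric data -/

/-- Bezout for `q ^ a` and `m`, `q ∤ m`, with natural numbers. -/
theorem h83t_exists_bezout {q : ℕ} (hq : q.Prime) (m : ℕ) (hm : ¬ q ∣ m) (a : ℕ) :
    ∃ b n : ℕ, q ^ a * b = n * m + 1 := by
  have hm0 : m ≠ 0 := fun h0 => hm (h0 ▸ dvd_zero q)
  rcases Nat.lt_or_ge 1 m with h1 | h1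
  · have hcop : Nat.Coprime (q ^ a) m :=
      Nat.Coprime.pow_left a ((Nat.Prime.coprime_iff_not_dvd hq).2 hm)
    obtain ⟨b, -, hb⟩ := Nat.exists_mul_mod_eq_one_of_coprime hcop h1
    refine ⟨b, q ^ a * b / m, ?_⟩
    have := Nat.div_add_mod (q ^ a * b) m
    rw [hb] at this
    rw [mul_comm (q ^ a * b / m) m]
    exact this.symm
  · have hm1 : m = 1 := le_antisymm h1 (Nat.one_le_iff_ne_zero.2 hm0)
    refine ⟨1, q ^ a - 1, ?_⟩
    rw [hm1, mul_one, mul_one]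
    exact (Nat.sub_add_cancel (Nat.one_le_pow _ _ hq.pos)).symm

section TorDesc

variable {A}
variable {q : ℕ} (hq : q.Prime) (hA : A.LiesOverPrime q) (N : ℕ)
  (E : FF N →+* LaurentSeries Kbar)
  (hEc : ∀ c : Kbar, E (cst N c) = HahnSeries.C c)
  (hEgal : ∀ σ ∈ A.inertiaSubgroupIn ℚ, ∀ x : FF N,
    E (gal N σ • x) = coeffMap (σ : Kbar →+* Kbar) (E x))
  (hEdf : ∀ x : FF N, E x ∈ dfField (K := Kbar))

include hq hA hEc hEdf in
/-- **scaling**: every nonzero function is a constant times a function whose `E`-expansion is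
a Gauss unit. -/
theorem h83t_exists_scale (x : FF N) (hx0 : x ≠ 0) :
    ∃ π : Kbar, π ≠ 0 ∧ E (cst N π * x) ∈ softOT A (IsLocalRing.residue A) ∧
      (E (cst N π * x))⁻¹ ∈ softOT A (IsLocalRing.residue A) := by
  obtain ⟨ord, hord⟩ := @RO.exists_isOrd _ _ A _ RO.isAlgebraic_int_Qbar q hq hA
  have : Algebra.IsAlgebraic ℚ Kbar := AlgebraicClosure.isAlgebraic ℚ
  have hEx0 : E x ≠ 0 := (map_ne_zero E).2 hx0
  obtain ⟨c, a, b, hc, ha, hb, hab⟩ :=
    exists_scale (IsLocalRing.residue A) hord hq (hEdf x) hEx0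
  have he : E (cst N c * x) = HahnSeries.C c * E x := by rw [map_mul, hEc]
  have hw : IsWit A (IsLocalRing.residue A) (E (cst N c * x)) a b := by
    rw [he]; exact ⟨hb, hab⟩
  exact ⟨c, hc, ⟨a, b, hw⟩, ⟨b, a, hw.inv ha⟩⟩

include hq hA hEc hEgal hEdf in
/-- **G1 (TOR-DESC).**  Descent of the toric datum `(c, h)` of an inertia-fixed function `u`
at an inertia-equivariant embedding `E` to an inertia-fixed datum.  No exponent is lost. -/
theorem h83t_torDesc (m : ℕ) (hm : ¬ q ∣ m) (u : FF N) (hu0 : u ≠ 0)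
    (hfix : ∀ σ ∈ A.inertiaSubgroupIn ℚ, gal N σ • u = u)
    (hTor : ∃ (c : Kbar) (h : FF N), c ≠ 0 ∧ h ≠ 0 ∧
      h20n_CongOneS A (E (cst N c * u * (h ^ m)⁻¹))) :
    ∃ (c : Kbar) (h : FF N), c ≠ 0 ∧ h ≠ 0 ∧ (∀ σ ∈ A.inertiaSubgroupIn ℚ, σ c = c) ∧
      (∀ σ ∈ A.inertiaSubgroupIn ℚ, gal N σ • h = h) ∧
      h20n_CongOneS A (E (cst N c * u * (h ^ m)⁻¹)) := by
  obtain ⟨c, h, hc, hh, hcong⟩ := hTor
  have hcst0 : ∀ {x : Kbar}, x ≠ 0 → cst N x ≠ 0 := fun hx h0 =>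
    hx ((map_eq_zero (algebraMap Kbar (FF N))).1 h0)
  -- 1. scale `h`
  obtain ⟨π, hπ, hs, hsi⟩ := h83t_exists_scale hq hA N E hEc hEdf h hh
  have hh₁0 : cst N π * h ≠ 0 := mul_ne_zero (hcst0 hπ) hh
  have hw₀ : cst N (c * π ^ m) * u * ((cst N π * h) ^ m)⁻¹ = cst N c * u * (h ^ m)⁻¹ := by
    have h1 : cst N (c * π ^ m) = cst N c * cst N π ^ m := by
      rw [h83t_cst_mul, h83t_cst_pow]
    rw [h1]
    exact h83o_alg1 (cst N c) u h (cst N π) m (hcst0 hπ) hh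
  -- 2. the orbit polynomial of `h₁`
  obtain ⟨a, y, hy0, hyfix, hycong⟩ := h83t_resPow hq hA N E hEgal (cst N π * h) hh₁0 hs hsi
  -- 3.
  have hz₁0 : u ^ (q ^ a) * (y ^ m)⁻¹ ≠ 0 :=
    mul_ne_zero (pow_ne_zero _ hu0) (inv_ne_zero (pow_ne_zero _ hy0))
  have hz₁fix : ∀ σ ∈ A.inertiaSubgroupIn ℚ,
      gal N σ • (u ^ (q ^ a) * (y ^ m)⁻¹) = u ^ (q ^ a) * (y ^ m)⁻¹ := by
    intro σ hσ
    rw [smul_mul', smul_inv'', smul_pow', smul_pow', hfix σ hσ, hyfix σ hσ]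
  have h3 : h20n_CongOneS A
      (E (cst N ((c * π ^ m) ^ (q ^ a)) * (u ^ (q ^ a) * (y ^ m)⁻¹))) := by
    have e : cst N ((c * π ^ m) ^ (q ^ a)) * (u ^ (q ^ a) * (y ^ m)⁻¹) =
        (cst N c * u * (h ^ m)⁻¹) ^ (q ^ a) * ((y / (cst N π * h) ^ (q ^ a)) ^ m)⁻¹ := by
      rw [← hw₀, h83t_cst_pow]
      exact h83o_alg2 (cst N (c * π ^ m)) u (cst N π * h) y m (q ^ a) hh₁0 hy0
    rw [e, map_mul, map_pow, map_inv₀, map_pow]
    exact h83t_cong_mul A (h83t_cong_pow A hcong _) (h83t_cong_inv A (h83t_cong_pow A hycong _))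
  -- 4. the constant is inertia-invariant modulo `1 + 𝔪`
  have hd₁0 : (c * π ^ m) ^ (q ^ a) ≠ 0 := pow_ne_zero _ (mul_ne_zero hc (pow_ne_zero _ hπ))
  have h4 : ∀ σ ∈ A.inertiaSubgroupIn ℚ, h20n_CongOneS A
      (E (gal N σ • cst N ((c * π ^ m) ^ (q ^ a)) / cst N ((c * π ^ m) ^ (q ^ a)))) := by
    intro σ hσ
    have e1 : gal N σ • (cst N ((c * π ^ m) ^ (q ^ a)) * (u ^ (q ^ a) * (y ^ m)⁻¹)) =
        (gal N σ • cst N ((c * π ^ m) ^ (q ^ a))) * (u ^ (q ^ a) * (y ^ m)⁻¹) := by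
      rw [smul_mul', hz₁fix σ hσ]
    have e2 : gal N σ • cst N ((c * π ^ m) ^ (q ^ a)) / cst N ((c * π ^ m) ^ (q ^ a)) =
        gal N σ • (cst N ((c * π ^ m) ^ (q ^ a)) * (u ^ (q ^ a) * (y ^ m)⁻¹)) /
          (cst N ((c * π ^ m) ^ (q ^ a)) * (u ^ (q ^ a) * (y ^ m)⁻¹)) := by
      rw [e1, mul_div_mul_right _ _ hz₁0]
    rw [e2, map_div₀, hEgal σ hσ]
    exact h83t_cong_div A (h83t_inertia_cong A hσ h3) h3
  -- 5. the orbit polynomial of the constant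
  obtain ⟨a', y', hy'T, hy'fix, hy'cong⟩ := h83t_resPow_gen hq hA N E
    (algebraMap Kbar (FF N)).range (cst N ((c * π ^ m) ^ (q ^ a))) (hcst0 hd₁0)
    (fun σ => by rw [h83t_gal_cst]; exact ⟨_, rfl⟩) h4
  obtain ⟨d, rfl⟩ := hy'T
  have hd0 : d ≠ 0 := by
    rintro rfl
    rw [map_zero, zero_div, map_zero] at hy'cong
    exact h83t_cong_ne_zero A hy'cong rfl
  have hdfix : ∀ σ ∈ A.inertiaSubgroupIn ℚ, σ d = d := by
    intro σ hσ
    have h1 := hy'fix σ hσ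
    have h2 : gal N σ • cst N d = cst N (σ d) := h83t_gal_cst N σ d
    rw [h2] at h1
    exact (algebraMap Kbar (FF N)).injective h1
  -- 6.
  have h6 : h20n_CongOneS A (E (cst N d * (u ^ (q ^ a) * (y ^ m)⁻¹) ^ (q ^ a'))) := by
    have e : cst N d * (u ^ (q ^ a) * (y ^ m)⁻¹) ^ (q ^ a') =
        (cst N d / cst N ((c * π ^ m) ^ (q ^ a)) ^ (q ^ a')) *
          (cst N ((c * π ^ m) ^ (q ^ a)) * (u ^ (q ^ a) * (y ^ m)⁻¹)) ^ (q ^ a') := by
      exact h83o_alg3 (cst N d) (cst N ((c * π ^ m) ^ (q ^ a))) _ (q ^ a') (hcst0 hd₁0)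
    rw [e, map_mul, map_pow]
    exact h83t_cong_mul A hy'cong (h83t_cong_pow A h3 _)
  -- 7. undo the `q`-power
  obtain ⟨b, n, hbn⟩ := h83t_exists_bezout hq m hm (a + a')
  refine ⟨d ^ b, y ^ (q ^ a' * b) * (u ^ n)⁻¹, pow_ne_zero _ hd0,
    mul_ne_zero (pow_ne_zero _ hy0) (inv_ne_zero (pow_ne_zero _ hu0)), ?_, ?_, ?_⟩
  · intro σ hσ
    rw [map_pow, hdfix σ hσ]
  · intro σ hσ
    rw [smul_mul', smul_inv'', smul_pow', smul_pow', hfix σ hσ, hyfix σ hσ]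
  · have h1 : q ^ a * (q ^ a' * b) = n * m + 1 := by
      rw [← mul_assoc, ← pow_add, hbn]
    have e : cst N (d ^ b) * u * ((y ^ (q ^ a' * b) * (u ^ n)⁻¹) ^ m)⁻¹ =
        (cst N d * (u ^ (q ^ a) * (y ^ m)⁻¹) ^ (q ^ a')) ^ b := by
      rw [h83t_cst_pow]
      exact h83o_alg4 (cst N d) u y m (q ^ a) (q ^ a') b n h1
    rw [e, map_pow]
    exact h83t_cong_pow A h6 b

include hq hA hEc in
/-- **descent of the constant** when the Gauss value of `E w` is a power of `q`: if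
`E (c · w) ≡ 1` and `E (q ^ j · w)` is a Gauss unit, then `c` can be replaced by a constant
fixed by inertia. -/
theorem h83t_constDesc (c : Kbar) (w : FF N) (hcong : h20n_CongOneS A (E (cst N c * w)))
    (j : ℤ) (hj : E (cst N (((q : ℕ) : Kbar) ^ j) * w) ∈ softOT A (IsLocalRing.residue A))
    (hji : (E (cst N (((q : ℕ) : Kbar) ^ j) * w))⁻¹ ∈ softOT A (IsLocalRing.residue A)) :
    ∃ c' : Kbar, c' ≠ 0 ∧ (∀ σ ∈ A.inertiaSubgroupIn ℚ, σ c' = c') ∧
      h20n_CongOneS A (E (cst N c' * w)) := by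
  have hq0 : ((q : ℕ) : Kbar) ≠ 0 := by exact_mod_cast hq.ne_zero
  have hqj : ((q : ℕ) : Kbar) ^ j ≠ 0 := zpow_ne_zero _ hq0
  have hEw0 : E (cst N c * w) ≠ 0 := h83t_cong_ne_zero A hcong
  have hw0 : w ≠ 0 := by
    rintro rfl
    rw [mul_zero, map_zero] at hEw0
    exact hEw0 rfl
  have hEw : E w ≠ 0 := (map_ne_zero E).2 hw0
  have hc0 : c ≠ 0 := by
    rintro rfl
    rw [h83t_cst_zero, zero_mul, map_zero] at hEw0
    exact hEw0 rfl
  -- `ε = c / q ^ j` is a unit of `A`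
  obtain ⟨hcs, -⟩ := (h83t_cong_iff A _).1 hcong
  obtain ⟨hcsi, -⟩ := (h83t_cong_iff A _).1 (h83t_cong_inv A hcong)
  have e1 : (HahnSeries.C (c / ((q : ℕ) : Kbar) ^ j) : LaurentSeries Kbar) =
      E (cst N c * w) * (E (cst N (((q : ℕ) : Kbar) ^ j) * w))⁻¹ := by
    rw [map_mul, map_mul, hEc, hEc, div_eq_mul_inv, map_mul, map_inv₀]
    field_simp
  have e2 : (HahnSeries.C ((c / ((q : ℕ) : Kbar) ^ j)⁻¹) : LaurentSeries Kbar) =
      (E (cst N c * w))⁻¹ * E (cst N (((q : ℕ) : Kbar) ^ j) * w) := by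
    rw [map_inv₀, e1, mul_inv, inv_inv, mul_comm]
  have hε : c / ((q : ℕ) : Kbar) ^ j ∈ A := by
    rw [← C_mem_softOT_iff A _ (residue_eq_zero_of_nonunit A), e1]
    exact Subring.mul_mem _ hcs hji
  have hεi : (c / ((q : ℕ) : Kbar) ^ j)⁻¹ ∈ A := by
    rw [← C_mem_softOT_iff A _ (residue_eq_zero_of_nonunit A), e2]
    exact Subring.mul_mem _ hcsi hj
  have hε0 : c / ((q : ℕ) : Kbar) ^ j ≠ 0 := div_ne_zero hc0 hqj
  -- an inertia-fixed lift of its residue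
  obtain ⟨ε₀, hε₀A, hε₀fix, hsub⟩ :=
    Fermat.Agent.LGC.h57_exists_inertia_fixed (k := ℚ) Fermat.Agent.LGC.h57_isAlgebraic_int A
      hq hA hε
  -- `ε₀ / ε ∈ 1 + 𝔪`
  have hratio : ε₀ / (c / ((q : ℕ) : Kbar) ^ j) - 1 ∈ A.nonunits := by
    have h1 : ε₀ / (c / ((q : ℕ) : Kbar) ^ j) - 1 =
        -((c / ((q : ℕ) : Kbar) ^ j - ε₀) * (c / ((q : ℕ) : Kbar) ^ j)⁻¹) := by
      field_simp
      ring
    rw [h1]
    have h2 : (c / ((q : ℕ) : Kbar) ^ j - ε₀) * (c / ((q : ℕ) : Kbar) ^ j)⁻¹ ∈ A.nonunits := by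
      rw [ValuationSubring.mem_nonunits_iff] at hsub ⊢
      rw [map_mul]
      exact lt_of_le_of_lt (mul_le_of_le_one_right' ((A.valuation_le_one_iff _).2 hεi)) hsub
    rw [ValuationSubring.mem_nonunits_iff] at h2 ⊢
    rwa [Valuation.map_neg]
  have hratioA : ε₀ / (c / ((q : ℕ) : Kbar) ^ j) ∈ A := by
    rw [div_eq_mul_inv]
    exact A.mul_mem _ _ hε₀A hεi
  have hres : IsLocalRing.residue A ⟨ε₀ / (c / ((q : ℕ) : Kbar) ^ j), hratioA⟩ = 1 := by
    have h1 : (⟨ε₀ / (c / ((q : ℕ) : Kbar) ^ j), hratioA⟩ : A) - 1 ∈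
        IsLocalRing.maximalIdeal A := by
      rw [← ValuationSubring.coe_mem_nonunits_iff]
      exact hratio
    have h2 := (IsLocalRing.residue_eq_zero_iff _).2 h1
    rw [map_sub, map_one, sub_eq_zero] at h2
    exact h2
  have hε₀0 : ε₀ ≠ 0 := by
    rintro rfl
    rw [zero_div, zero_sub] at hratio
    have h1 : (1 : Kbar) ∈ A.nonunits := by
      rw [ValuationSubring.mem_nonunits_iff] at hratio ⊢
      rwa [Valuation.map_neg] at hratio
    rw [ValuationSubring.mem_nonunits_iff, map_one] at h1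
    exact lt_irrefl _ h1
  refine ⟨ε₀ * ((q : ℕ) : Kbar) ^ j, mul_ne_zero hε₀0 hqj, ?_, ?_⟩
  · intro σ hσ
    rw [map_mul, hε₀fix σ hσ, map_zpow₀, map_natCast]
  · have e3 : cst N (ε₀ * ((q : ℕ) : Kbar) ^ j) * w =
        cst N (ε₀ / (c / ((q : ℕ) : Kbar) ^ j)) * (cst N c * w) := by
      rw [← mul_assoc, ← h83t_cst_mul]
      congr 2
      field_simp
    rw [e3, map_mul, hEc]
    exact h83t_cong_mul A ((h83t_cong_C_iff A _).2 ⟨hratioA, hres⟩) hcong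

end TorDesc

/-! ### The three embeddings of `FF (M q q)` -/

section Instances

open Fermat.Agent.Red.Kron (kFricke twistK)

variable {A}
variable {q : ℕ} (hq : q.Prime) (hA : A.LiesOverPrime q) (M : ℕ) [NeZero M] [NeZero q]

theorem h83t_cst_alpha (N ℓ : ℕ) [NeZero N] [NeZero ℓ] (c : Kbar) :
    heckeAlphaBar Kbar N ℓ (cst N c) = cst (N * ℓ) c :=
  (heckeAlphaBar Kbar N ℓ).commutes c

theorem h83t_E_cst_of_alpha (E : FF (M * q * q) →+* LaurentSeries Kbar)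
    (hEα : ∀ x : FF (M * q), E (heckeAlphaBar Kbar (M * q) q x) = (x : LaurentSeries Kbar))
    (c : Kbar) : E (cst (M * q * q) c) = HahnSeries.C c := by
  rw [← h83t_cst_alpha (M * q) q c, hEα, soft_coe_cst]

omit [NeZero q] in
include hq hA in
/-- **G1 at `E20`** (the standard embedding, any level `N`). -/
theorem h83t_torDesc_std (N : ℕ) (m : ℕ) (hm : ¬ q ∣ m) (u : FF N) (hu0 : u ≠ 0)
    (hfix : ∀ σ ∈ A.inertiaSubgroupIn ℚ, gal N σ • u = u)
    (hTor : ∃ (c : Kbar) (h : FF N), c ≠ 0 ∧ h ≠ 0 ∧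
      h20n_CongOneS A (algebraMap (FF N) (LaurentSeries Kbar) (cst N c * u * (h ^ m)⁻¹))) :
    ∃ (c : Kbar) (h : FF N), c ≠ 0 ∧ h ≠ 0 ∧ (∀ σ ∈ A.inertiaSubgroupIn ℚ, σ c = c) ∧
      (∀ σ ∈ A.inertiaSubgroupIn ℚ, gal N σ • h = h) ∧
      h20n_CongOneS A (algebraMap (FF N) (LaurentSeries Kbar) (cst N c * u * (h ^ m)⁻¹)) :=
  h83t_torDesc hq hA N (algebraMap (FF N) (LaurentSeries Kbar)) (fun c => soft_coe_cst N c)
    (fun σ _ x => coe_gal_smul N σ x) (fun x => FF_le_dfField N x) m hm u hu0 hfix hTor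

theorem h83t_E_cst_of_isE02 (hqM : ¬ q ∣ M) (E : FF (M * q * q) →+* LaurentSeries Kbar)
    (hE : h20n_IsE02 M q hq hqM E) (c : Kbar) : E (cst (M * q * q) c) = HahnSeries.C c := by
  rw [← h83t_cst_alpha (M * q) q c, hE.1, Fermat.Agent.Red.Kron.kFricke_cst M q hq hqM c,
    soft_coe_cst, qExpand_C]

omit [NeZero M] [NeZero q] in
include hq hA in
/-- **G1 at `E20`** in the vocabulary of `H20NormSkel`. -/
theorem h83t_torDesc20 (m : ℕ) (hm : ¬ q ∣ m) (u : FF (M * q * q)) (hu0 : u ≠ 0)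
    (hfix : ∀ σ ∈ A.inertiaSubgroupIn ℚ, gal (M * q * q) σ • u = u)
    (hTor : h20n_Tor M q A m (h20n_E20 M q) u) :
    ∃ (c : Kbar) (h : FF (M * q * q)), c ≠ 0 ∧ h ≠ 0 ∧
      (∀ σ ∈ A.inertiaSubgroupIn ℚ, σ c = c) ∧
      (∀ σ ∈ A.inertiaSubgroupIn ℚ, gal (M * q * q) σ • h = h) ∧
      h20n_CongOneS A (h20n_E20 M q (cst (M * q * q) c * u * (h ^ m)⁻¹)) :=
  h83t_torDesc_std hq hA (M * q * q) m hm u hu0 hfix hTor

include hA in
/-- **G1 at `E02`** (from `H20EmbGal`, `H20EmbDF`). -/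
theorem h83t_torDesc02 (hGal : H20EmbGal) (hDF : H20EmbDF) (hqM : ¬ q ∣ M)
    (E : FF (M * q * q) →+* LaurentSeries Kbar) (hE : h20n_IsE02 M q hq hqM E)
    (m : ℕ) (hm : ¬ q ∣ m) (u : FF (M * q * q)) (hu0 : u ≠ 0)
    (hfix : ∀ σ ∈ A.inertiaSubgroupIn ℚ, gal (M * q * q) σ • u = u)
    (hTor : h20n_Tor M q A m E u) :
    ∃ (c : Kbar) (h : FF (M * q * q)), c ≠ 0 ∧ h ≠ 0 ∧
      (∀ σ ∈ A.inertiaSubgroupIn ℚ, σ c = c) ∧
      (∀ σ ∈ A.inertiaSubgroupIn ℚ, gal (M * q * q) σ • h = h) ∧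
      h20n_CongOneS A (E (cst (M * q * q) c * u * (h ^ m)⁻¹)) :=
  h83t_torDesc hq hA (M * q * q) E (h83t_E_cst_of_isE02 hq M hqM E hE)
    (fun σ _ x => (hGal q hq M hqM σ).2 E hE x)
    (fun x => hDF q hq M hqM E (Or.inr hE) x) m hm u hu0 hfix hTor

include hq hA in
/-- **G1 at `E11`** (only the first half `E ∘ α = coe` of `h20n_IsE11` is used).  The toric
datum must be given in the STRONG form `h = α h₄`, `h₄ ∈ FF (M q)` (over `ℚ̄` the residue field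
of `W11` is an Igusa field; the descent of a general `h` is false).  Output: `h` fixed by
inertia (the constant is treated by `h83t_constDesc`). -/
theorem h83t_torDesc11 (E : FF (M * q * q) →+* LaurentSeries Kbar)
    (hEα : ∀ x : FF (M * q), E (heckeAlphaBar Kbar (M * q) q x) = (x : LaurentSeries Kbar))
    (m : ℕ) (hm : ¬ q ∣ m) (u : FF (M * q * q))
    (hfix : ∀ σ ∈ A.inertiaSubgroupIn ℚ, gal (M * q * q) σ • u = u)
    (hTor : ∃ (c : Kbar) (h₄ : FF (M * q)), c ≠ 0 ∧ h₄ ≠ 0 ∧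
      h20n_CongOneS A
        (E (cst (M * q * q) c * u * ((heckeAlphaBar Kbar (M * q) q h₄) ^ m)⁻¹))) :
    ∃ (c : Kbar) (h : FF (M * q * q)), c ≠ 0 ∧ h ≠ 0 ∧
      (∀ σ ∈ A.inertiaSubgroupIn ℚ, gal (M * q * q) σ • h = h) ∧
      h20n_CongOneS A (E (cst (M * q * q) c * u * (h ^ m)⁻¹)) := by
  obtain ⟨c, h₄, hc, hh₄, hcong⟩ := hTor
  have hEc : ∀ c : Kbar, E (cst (M * q * q) c) = HahnSeries.C c :=
    h83t_E_cst_of_alpha M E hEα
  have hu0 : u ≠ 0 := by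
    rintro rfl
    rw [mul_zero, zero_mul, map_zero] at hcong
    exact h83t_cong_ne_zero A hcong rfl
  have hcst0 : ∀ {N : ℕ} {x : Kbar}, x ≠ 0 → cst N x ≠ 0 := fun hx h0 =>
    hx ((map_eq_zero (algebraMap Kbar (FF _))).1 h0)
  -- 1. scale `h₄` at the level `M q`
  obtain ⟨π, hπ, hs, hsi⟩ := h83t_exists_scale hq hA (M * q)
    (algebraMap (FF (M * q)) (LaurentSeries Kbar)) (fun c => soft_coe_cst (M * q) c)
    (fun x => FF_le_dfField (M * q) x) h₄ hh₄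
  have hh₅0 : cst (M * q) π * h₄ ≠ 0 := mul_ne_zero (hcst0 hπ) hh₄
  -- 2. the orbit polynomial at the level `M q`
  obtain ⟨a, y, hy0, hyfix, hycong⟩ := h83t_resPow hq hA (M * q)
    (algebraMap (FF (M * q)) (LaurentSeries Kbar)) (fun σ _ x => coe_gal_smul (M * q) σ x)
    (cst (M * q) π * h₄) hh₅0 hs hsi
  have hαh₅ : heckeAlphaBar Kbar (M * q) q (cst (M * q) π * h₄) =
      cst (M * q * q) π * heckeAlphaBar Kbar (M * q) q h₄ := by
    rw [map_mul, h83t_cst_alpha]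
  have hαh₄0 : heckeAlphaBar Kbar (M * q) q h₄ ≠ 0 :=
    (map_ne_zero (heckeAlphaBar Kbar (M * q) q)).2 hh₄
  have hαy0 : heckeAlphaBar Kbar (M * q) q y ≠ 0 :=
    (map_ne_zero (heckeAlphaBar Kbar (M * q) q)).2 hy0
  have hαh₅0 : cst (M * q * q) π * heckeAlphaBar Kbar (M * q) q h₄ ≠ 0 :=
    mul_ne_zero (hcst0 hπ) hαh₄0
  have hycong' : h20n_CongOneS A (E (heckeAlphaBar Kbar (M * q) q y /
      (cst (M * q * q) π * heckeAlphaBar Kbar (M * q) q h₄) ^ (q ^ a))) := by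
    have e : heckeAlphaBar Kbar (M * q) q y /
        (cst (M * q * q) π * heckeAlphaBar Kbar (M * q) q h₄) ^ (q ^ a) =
        heckeAlphaBar Kbar (M * q) q (y / (cst (M * q) π * h₄) ^ (q ^ a)) := by
      rw [map_div₀, map_pow, hαh₅]
    rw [e, hEα]
    exact hycong
  -- 3.
  have hw₀ : cst (M * q * q) (c * π ^ m) * u *
      ((cst (M * q * q) π * heckeAlphaBar Kbar (M * q) q h₄) ^ m)⁻¹ =
      cst (M * q * q) c * u * ((heckeAlphaBar Kbar (M * q) q h₄) ^ m)⁻¹ := by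
    have h1 : cst (M * q * q) (c * π ^ m) = cst (M * q * q) c * cst (M * q * q) π ^ m := by
      rw [h83t_cst_mul, h83t_cst_pow]
    rw [h1]
    exact h83o_alg1 (cst (M * q * q) c) u _ (cst (M * q * q) π) m (hcst0 hπ) hαh₄0
  have h3 : h20n_CongOneS A (E (cst (M * q * q) ((c * π ^ m) ^ (q ^ a)) *
      (u ^ (q ^ a) * ((heckeAlphaBar Kbar (M * q) q y) ^ m)⁻¹))) := by
    have e : cst (M * q * q) ((c * π ^ m) ^ (q ^ a)) *
        (u ^ (q ^ a) * ((heckeAlphaBar Kbar (M * q) q y) ^ m)⁻¹) =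
        (cst (M * q * q) c * u * ((heckeAlphaBar Kbar (M * q) q h₄) ^ m)⁻¹) ^ (q ^ a) *
          ((heckeAlphaBar Kbar (M * q) q y /
            (cst (M * q * q) π * heckeAlphaBar Kbar (M * q) q h₄) ^ (q ^ a)) ^ m)⁻¹ := by
      rw [← hw₀, h83t_cst_pow]
      exact h83o_alg2 (cst (M * q * q) (c * π ^ m)) u _ _ m (q ^ a) hαh₅0 hαy0
    rw [e, map_mul, map_pow, map_inv₀, map_pow]
    exact h83t_cong_mul A (h83t_cong_pow A hcong _)
      (h83t_cong_inv A (h83t_cong_pow A hycong' _))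
  -- 4. undo the `q`-power
  obtain ⟨b, n, hbn⟩ := h83t_exists_bezout hq m hm a
  have hαyfix : ∀ σ ∈ A.inertiaSubgroupIn ℚ,
      gal (M * q * q) σ • heckeAlphaBar Kbar (M * q) q y = heckeAlphaBar Kbar (M * q) q y := by
    intro σ hσ
    rw [h83g_gal_alpha, hyfix σ hσ]
  have hd₁0 : (c * π ^ m) ^ (q ^ a) ≠ 0 := pow_ne_zero _ (mul_ne_zero hc (pow_ne_zero _ hπ))
  refine ⟨((c * π ^ m) ^ (q ^ a)) ^ b,
    (heckeAlphaBar Kbar (M * q) q y) ^ (1 * b) * (u ^ n)⁻¹, pow_ne_zero _ hd₁0,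
    mul_ne_zero (pow_ne_zero _ hαy0) (inv_ne_zero (pow_ne_zero _ hu0)), ?_, ?_⟩
  · intro σ hσ
    rw [smul_mul', smul_inv'', smul_pow', smul_pow', hfix σ hσ, hαyfix σ hσ]
  · have h1 : q ^ a * (1 * b) = n * m + 1 := by rw [one_mul, hbn]
    have e : cst (M * q * q) (((c * π ^ m) ^ (q ^ a)) ^ b) * u *
        (((heckeAlphaBar Kbar (M * q) q y) ^ (1 * b) * (u ^ n)⁻¹) ^ m)⁻¹ =
        (cst (M * q * q) ((c * π ^ m) ^ (q ^ a)) *
          (u ^ (q ^ a) * ((heckeAlphaBar Kbar (M * q) q y) ^ m)⁻¹)) ^ b := by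
      rw [h83t_cst_pow _ _ b]
      have h2 := h83o_alg4 (cst (M * q * q) ((c * π ^ m) ^ (q ^ a))) u
        (heckeAlphaBar Kbar (M * q) q y) m (q ^ a) 1 b n h1
      rw [pow_one] at h2
      exact h2
    rw [e, map_pow]
    exact h83t_cong_pow A h3 b

end Instances

end Fermat.Agent.S36
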