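import Fermat.Agent.S36.H74AbsVal
import Fermat.Agent.S36.V28Disc
import Fermat.Agent.S36.H83EmbGal
import Fermat.Agent.LGC.Res44

/-!
# S36, block (V), leaf V-VAL (helper74): the packaged vertical valuations

`h74v_valAssembly : H74ValAssembly` : the three vertical valuations
`Wv : Fin 3 → Valuation F₀ ℤᵐ⁰` of `F₀ = FF(M q q)^I` from the leaves of `H74VIface`.
-/

set_option autoImplicit false
set_option linter.unusedSectionVars false
set_option linter.style.haveILetI false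

open AlgebraicCurve ModularCurve WithZero

noncomputable section

namespace Fermat.Agent.S36

open Fermat.Agent.S37 (Kbar GQ FF cst gal jB)
open Fermat.Agent.Red.GV Fermat.Agent.Red.GV.Soft
open Fermat.Agent.Red.Kron (kFricke twistK kFricke_alpha kFricke_beta kFricke_kFricke
  kFricke_gal)
open Fermat.Agent.S36.V28 (h28v_F0 h28v_IFixed h28v_mem_F0_iff h28d_IsSU h28d_E11_cst
  h28d_E02_cst h28d_W20_exists_zpow)

/-! ## Generic lemmas -/

section Generic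

variable {F₀ : Type} [Field F₀] (A : ValuationSubring Kbar) (φ : F₀ →+* LaurentSeries Kbar)

/-- the Gauss ring. -/
abbrev h74v_G : Subring (LaurentSeries Kbar) := softOT A (IsLocalRing.residue A)

variable {A φ}

/-- packaging of a discrete Gauss pull-back as a `ℤᵐ⁰`-valued valuation. -/
theorem h74v_exists_val (habs : H74AbsVal) (z : F₀) (hz : φ z ∈ h74v_G A)
    (hz' : (φ z)⁻¹ ∉ h74v_G A)
    (hd : ∀ x : F₀, x ≠ 0 → ∃ n : ℤ, φ (z ^ n * x) ∈ h74v_G A ∧ (φ (z ^ n * x))⁻¹ ∈ h74v_G A) :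
    ∃ v : Valuation F₀ ℤᵐ⁰, (∀ x, v x ≤ 1 ↔ φ x ∈ h74v_G A) ∧ v z = exp (-1 : ℤ) := by
  obtain ⟨v, hv, hvz⟩ := habs F₀ ((h74v_G A).comap φ) z hz
    (by rw [Subring.mem_comap, map_inv₀]; exact hz')
    (fun x hx => by
      obtain ⟨n, h1, h2⟩ := hd x hx
      refine ⟨n, h1, ?_⟩
      rw [Subring.mem_comap, map_inv₀]
      exact h2)
  exact ⟨v, fun x => (hv x).trans Subring.mem_comap, hvz⟩

theorem h74v_val_eq_one {v : Valuation F₀ ℤᵐ⁰} (hv : ∀ x, v x ≤ 1 ↔ φ x ∈ h74v_G A) {x : F₀}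
    (hx : x ≠ 0) (h1 : φ x ∈ h74v_G A) (h2 : (φ x)⁻¹ ∈ h74v_G A) : v x = 1 := by
  have a := (hv x).mpr h1
  have b := (hv x⁻¹).mpr (by rw [map_inv₀]; exact h2)
  rw [map_inv₀] at b
  have hvx : v x ≠ 0 := (Valuation.ne_zero_iff v).mpr hx
  refine le_antisymm a ?_
  by_contra hlt
  have hlt' : v x < 1 := lt_of_not_ge hlt
  have h3 : (1 : ℤᵐ⁰) < (v x)⁻¹ := by
    have h4 : v x * (v x)⁻¹ = 1 := mul_inv_cancel₀ hvx
    by_contra h5
    have h6 : (v x)⁻¹ ≤ 1 := le_of_not_gt h5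
    have h7 : v x * (v x)⁻¹ < 1 := by
      calc v x * (v x)⁻¹ ≤ v x * 1 := by gcongr
        _ = v x := mul_one _
        _ < 1 := hlt'
    rw [h4] at h7
    exact lt_irrefl _ h7
  exact absurd b (not_le.mpr h3)

theorem h74v_val_lt_one {v : Valuation F₀ ℤᵐ⁰} (hv : ∀ x, v x ≤ 1 ↔ φ x ∈ h74v_G A) {x : F₀}
    (h1 : φ x ∈ h74v_G A) (h2 : (φ x)⁻¹ ∉ h74v_G A) : v x < 1 := by
  rcases lt_or_eq_of_le ((hv x).mpr h1) with h | h
  · exact h
  · exfalso
    apply h2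
    have h3 : v x⁻¹ ≤ 1 := by rw [map_inv₀, h, inv_one]
    have h4 := (hv x⁻¹).mp h3
    rwa [map_inv₀] at h4

end Generic

/-! ## Constants -/

section Const

variable (A : ValuationSubring Kbar) {q : ℕ}

theorem h74v_natCast_mem (n : ℕ) : ((n : ℕ) : LaurentSeries Kbar) ∈ h74v_G A :=
  natCast_mem _ n

theorem h74v_C_inv_not_mem {c : Kbar} (hc0 : c ≠ 0) (hc : c ∈ A.nonunits) :
    (HahnSeries.C c : LaurentSeries Kbar)⁻¹ ∉ h74v_G A := by
  intro h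
  rw [← map_inv₀] at h
  have h1 : c⁻¹ ∈ A := (C_mem_softOT_iff A _ (residue_eq_zero_of_nonunit A) _).mp h
  have hv : A.valuation c < 1 := (ValuationSubring.mem_nonunits_iff A).mp hc
  have hv' : A.valuation c⁻¹ ≤ 1 := (A.valuation_le_one_iff _).mpr h1
  rw [map_inv₀] at hv'
  have hvc : A.valuation c ≠ 0 := (Valuation.ne_zero_iff _).mpr hc0
  have h2 : (1 : A.ValueGroup) < (A.valuation c)⁻¹ := by
    by_contra h5
    have h6 : (A.valuation c)⁻¹ ≤ 1 := le_of_not_gt h5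
    have h4 : A.valuation c * (A.valuation c)⁻¹ = 1 := mul_inv_cancel₀ hvc
    have h7 : A.valuation c * (A.valuation c)⁻¹ < 1 := by
      calc A.valuation c * (A.valuation c)⁻¹ ≤ A.valuation c * 1 := by gcongr
        _ = A.valuation c := mul_one _
        _ < 1 := hv
    rw [h4] at h7
    exact lt_irrefl _ h7
  exact absurd hv' (not_le.mpr h2)

theorem h74v_natCast_eq_C (n : ℕ) :
    ((n : ℕ) : LaurentSeries Kbar) = HahnSeries.C ((n : ℕ) : Kbar) :=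
  (map_natCast (HahnSeries.C : Kbar →+* LaurentSeries Kbar) n).symm

theorem h74v_natCast_inv_not_mem (hq : q.Prime) (hA : A.LiesOverPrime q) :
    (((q : ℕ) : LaurentSeries Kbar))⁻¹ ∉ h74v_G A := by
  rw [h74v_natCast_eq_C]
  exact h74v_C_inv_not_mem A (Nat.cast_ne_zero.mpr hq.ne_zero) hA

end Const

/-! ## Fixed functions -/

section Fixed

variable (M q : ℕ) [NeZero M] [NeZero q]

/-- `z = j(t^(q²)) - j(t)` is fixed by the Galois group. -/
theorem h74v_z_fixed (σ : GQ) : gal (M * q * q) σ • h74w_z M q = h74w_z M q := by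
  have h := map_sub (h83g_galHom (M * q * q) σ)
    (heckeBetaBar Kbar (M * q) q (heckeBetaBar Kbar M q (jB M)))
    (heckeAlphaBar Kbar (M * q) q (heckeAlphaBar Kbar M q (jB M)))
  rw [h83g_galHom_apply, h83g_galHom_apply, h83g_galHom_apply, h83g_gal_beta, h83g_gal_beta,
    h83g_gal_alpha, h83g_gal_alpha, Fermat.Agent.S37.GalI.gal_smul_jB] at h
  exact h

/-- `z ≠ 0` (coefficient of `t⁻¹`). -/
theorem h74v_z_ne_zero (hq : q.Prime) : h74w_z M q ≠ 0 := by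
  intro h0
  have h1 : ((h74w_z M q : FF (M * q * q)) : LaurentSeries Kbar).coeff (-1) = 0 := by
    rw [h0]
    rfl
  have hJ : ((jB M : FF M) : LaurentSeries Kbar).coeff (-1) = 1 := by
    have h := Fermat.Agent.Red.Kron.coeff_embC_jBar_neg_one (N := M)
    rw [coeffMap_coeff] at h
    have h2 : Fermat.Agent.S24.embC (((jB M : FF M) : LaurentSeries Kbar).coeff (-1)) =
        Fermat.Agent.S24.embC 1 := by
      rw [map_one]
      exact h
    exact Fermat.Agent.S24.embC.injective h2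
  have hnd : ¬ ((q : ℕ) : ℤ) ∣ (-1 : ℤ) := by
    intro hd
    have h3 : ((q : ℕ) : ℤ) ∣ 1 := (dvd_neg.mp hd)
    have h4 : (q : ℕ) ∣ 1 := Int.natCast_dvd_natCast.mp (by simpa using h3)
    exact hq.one_lt.ne' (Nat.dvd_one.mp h4)
  have e : ((h74w_z M q : FF (M * q * q)) : LaurentSeries Kbar) =
      qExpand Kbar q (qExpand Kbar q ((jB M : FF M) : LaurentSeries Kbar)) -
        ((jB M : FF M) : LaurentSeries Kbar) := rfl
  rw [e, HahnSeries.coeff_sub, qExpand_coeff_of_not_dvd q _ hnd, hJ] at h1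
  norm_num at h1

/-- the separating element of level `M q` is fixed by the Galois group. -/
theorem h74v_e_fixed (σ : GQ) :
    gal (M * q) σ • Fermat.Agent.LGC.h44r_e M q = Fermat.Agent.LGC.h44r_e M q := by
  have h1 : h83g_galHom (M * q) σ (heckeAlphaBar Kbar M q (jB M)) =
      heckeAlphaBar Kbar M q (jB M) := by
    rw [h83g_galHom_apply, h83g_gal_alpha, Fermat.Agent.S37.GalI.gal_smul_jB]
  have h2 : h83g_galHom (M * q) σ (heckeBetaBar Kbar M q (jB M)) =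
      heckeBetaBar Kbar M q (jB M) := by
    rw [h83g_galHom_apply, h83g_gal_beta, Fermat.Agent.S37.GalI.gal_smul_jB]
  have h3 : h83g_galHom (M * q) σ (heckeAlphaBar Kbar M q (jB M - jB M ^ (q ^ 2))) =
      heckeAlphaBar Kbar M q (jB M - jB M ^ (q ^ 2)) := by
    rw [h83g_galHom_apply, h83g_gal_alpha]
    congr 1
    have h4 := map_sub (h83g_galHom M σ) (jB M) (jB M ^ (q ^ 2))
    rw [map_pow, h83g_galHom_apply, h83g_galHom_apply, Fermat.Agent.S37.GalI.gal_smul_jB] at h4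
    exact h4
  rw [← h83g_galHom_apply, Fermat.Agent.LGC.h44r_e, map_mul, map_sub, map_pow, map_inv₀,
    h1, h2, h3]

end Fixed

/-! ## The assembly -/

section Main

variable {M q : ℕ} [NeZero M] [NeZero q] (A : ValuationSubring Kbar)

omit [NeZero M] [NeZero q] in
theorem h74v_E20_apply (x : FF (M * q * q)) :
    h20n_E20 M q x = ((x : FF (M * q * q)) : LaurentSeries Kbar) := rfl

theorem h74v_E20_alpha (e : FF (M * q)) :
    h20n_E20 M q (heckeAlphaBar Kbar (M * q) q e) = ((e : FF (M * q)) : LaurentSeries Kbar) := by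
  rw [h74v_E20_apply]
  exact coe_heckeAlphaBar (M * q) q e

omit [NeZero M] [NeZero q] in
theorem h74v_comp_subtype_mk (S : Subfield (FF (M * q * q)))
    (E : FF (M * q * q) →+* LaurentSeries Kbar) (x : FF (M * q * q)) (hx : x ∈ S) :
    (E.comp S.subtype) ⟨x, hx⟩ = E x := rfl

/-- an embedding which is the identity on constants sends `cst (c ^ n) * x` to
`C c ^ n * E x`. -/
theorem h74v_E_cst_zpow (E : FF (M * q * q) →+* LaurentSeries Kbar)
    (hE : ∀ c : Kbar, E (cst (M * q * q) c) = HahnSeries.C c) (c : Kbar) (n : ℤ)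
    (x : FF (M * q * q)) :
    E (cst (M * q * q) (c ^ n) * x) = (HahnSeries.C c : LaurentSeries Kbar) ^ n * E x := by
  rw [map_mul, hE, map_zpow₀]

theorem h74v_unit_iff (E : FF (M * q * q) →+* LaurentSeries Kbar) (x : FF (M * q * q)) :
    h74w_Unit A E x ↔ E x ∈ h74v_G A ∧ (E x)⁻¹ ∈ h74v_G A := by
  unfold h74w_Unit h74w_Int
  rw [map_inv₀]

set_option maxHeartbeats 800000 in
/-- **V-ASM.** -/
theorem h74v_valAssembly : H74ValAssembly := by
  intro habs _ hZeta hD02 hD11 hU11 hZU q hq M _ hqM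
  haveI : NeZero q := ⟨hq.ne_zero⟩
  intro A hA ζ hζ E hE E0 hE0
  have hq0 : ((q : ℕ) : Kbar) ≠ 0 := Nat.cast_ne_zero.mpr hq.ne_zero
  -- the three embeddings restricted to `F₀`
  set F₀ := h28v_F0 A (M * q * q) with hF₀
  let φ₀ : F₀ →+* LaurentSeries Kbar := (h20n_E20 M q).comp F₀.subtype
  let φ₁ : F₀ →+* LaurentSeries Kbar := E.comp F₀.subtype
  let φ₂ : F₀ →+* LaurentSeries Kbar := E0.comp F₀.subtype
  have hE20c : ∀ c : Kbar, h20n_E20 M q (cst (M * q * q) c) = HahnSeries.C c :=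
    fun c => soft_coe_cst (M * q * q) c
  have hEc : ∀ c : Kbar, E (cst (M * q * q) c) = HahnSeries.C c :=
    h28d_E11_cst hq hqM ζ E hE
  have hE0c : ∀ c : Kbar, E0 (cst (M * q * q) c) = HahnSeries.C c :=
    h28d_E02_cst hq hqM E0 hE0
  have hfix : ∀ x : F₀, h28v_IFixed A (M * q * q) (x : FF (M * q * q)) :=
    fun x => (h28v_mem_F0_iff A _ _).mp x.2
  have hcoe0 : ∀ x : F₀, x ≠ 0 → (x : FF (M * q * q)) ≠ 0 := fun x hx h => hx (Subtype.ext h)
  -- the uniformiser `q` of `F₀`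
  have hφq : ∀ φ : F₀ →+* LaurentSeries Kbar,
      φ ((q : ℕ) : F₀) = HahnSeries.C ((q : ℕ) : Kbar) := by
    intro φ
    rw [map_natCast, h74v_natCast_eq_C]
  -- `W₂₀`
  obtain ⟨v₀, hv₀, hv₀q⟩ : ∃ v : Valuation F₀ ℤᵐ⁰,
      (∀ x, v x ≤ 1 ↔ φ₀ x ∈ h74v_G A) ∧ v ((q : ℕ) : F₀) = exp (-1 : ℤ) := by
    refine h74v_exists_val habs _ ?_ ?_ ?_
    · rw [map_natCast]; exact h74v_natCast_mem A q
    · rw [map_natCast]; exact h74v_natCast_inv_not_mem A hq hA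
    · intro x hx
      obtain ⟨n, h1, h2⟩ := h28d_W20_exists_zpow A hq hA (x : FF (M * q * q)) (hfix x)
        (hcoe0 x hx)
      have e : φ₀ (((q : ℕ) : F₀) ^ n * x) =
          ((cst (M * q * q) (((q : ℕ) : Kbar) ^ n) * (x : FF (M * q * q)) : FF (M * q * q)) :
            LaurentSeries Kbar) := by
        rw [map_mul, map_zpow₀, hφq]
        have := h74v_E_cst_zpow (h20n_E20 M q) hE20c ((q : ℕ) : Kbar) n (x : FF (M * q * q))
        exact this.symm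
      refine ⟨n, ?_⟩
      rw [e]
      exact ⟨h1, h2⟩
  -- `W₀₂`
  obtain ⟨v₂, hv₂, hv₂q⟩ : ∃ v : Valuation F₀ ℤᵐ⁰,
      (∀ x, v x ≤ 1 ↔ φ₂ x ∈ h74v_G A) ∧ v ((q : ℕ) : F₀) = exp (-1 : ℤ) := by
    refine h74v_exists_val habs _ ?_ ?_ ?_
    · rw [map_natCast]; exact h74v_natCast_mem A q
    · rw [map_natCast]; exact h74v_natCast_inv_not_mem A hq hA
    · intro x hx
      obtain ⟨n, hn⟩ := hD02 q hq M hqM A hA E0 hE0 (x : FF (M * q * q)) (hcoe0 x hx) (hfix x)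
      rw [h74v_unit_iff] at hn
      have e : φ₂ (((q : ℕ) : F₀) ^ n * x) =
          E0 (cst (M * q * q) (((q : ℕ) : Kbar) ^ n) * (x : FF (M * q * q))) := by
        rw [map_mul, map_zpow₀, hφq]
        exact (h74v_E_cst_zpow E0 hE0c ((q : ℕ) : Kbar) n (x : FF (M * q * q))).symm
      refine ⟨n, ?_⟩
      rw [e]
      exact hn
  -- the constant `1 - ζ`
  obtain ⟨hζ1, hζ2⟩ := hZeta q hq A hA ζ hζ
  have hπ0 : (1 - ζ) ≠ 0 := sub_ne_zero.mpr (Ne.symm (hζ.ne_one hq.one_lt))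
  have hπp0 : (1 - ζ) ^ (q - 1) ≠ 0 := pow_ne_zero _ hπ0
  have hπ : (1 - ζ) ∈ A.nonunits := by
    rw [ValuationSubring.mem_nonunits_iff]
    have hvq : A.valuation ((q : ℕ) : Kbar) < 1 := (ValuationSubring.mem_nonunits_iff A).mp hA
    have hvu : A.valuation (((q : ℕ) : Kbar) * ((1 - ζ) ^ (q - 1))⁻¹)⁻¹ ≤ 1 :=
      (A.valuation_le_one_iff _).mpr hζ2
    have e : (1 - ζ) ^ (q - 1) =
        ((q : ℕ) : Kbar) * (((q : ℕ) : Kbar) * ((1 - ζ) ^ (q - 1))⁻¹)⁻¹ := by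
      field_simp
    have hvp : A.valuation ((1 - ζ) ^ (q - 1)) < 1 := by
      rw [e, map_mul]
      calc A.valuation ((q : ℕ) : Kbar) *
            A.valuation (((q : ℕ) : Kbar) * ((1 - ζ) ^ (q - 1))⁻¹)⁻¹
          ≤ A.valuation ((q : ℕ) : Kbar) * 1 := by gcongr
        _ = A.valuation ((q : ℕ) : Kbar) := mul_one _
        _ < 1 := hvq
    by_contra hge
    have hge' : 1 ≤ A.valuation (1 - ζ) := le_of_not_gt hge
    have : 1 ≤ A.valuation ((1 - ζ) ^ (q - 1)) := by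
      rw [map_pow]
      exact one_le_pow₀ hge'
    exact absurd hvp (not_lt.mpr this)
  have hπA : (1 - ζ) ∈ A := A.nonunits_le hπ
  -- the uniformiser `z` of `W₁₁`
  have hz0 : h74w_z M q ≠ 0 := h74v_z_ne_zero M q hq
  have hzF : h74w_z M q ∈ F₀ :=
    (h28v_mem_F0_iff A _ _).mpr (fun σ _ => h74v_z_fixed M q σ)
  have hU := hU11 q hq M hqM A hA ζ hζ E hE
  rw [h74v_unit_iff] at hU
  have hs : E (cst (M * q * q) (1 - ζ)⁻¹ * h74w_z M q) =
      HahnSeries.C (1 - ζ)⁻¹ * E (h74w_z M q) := by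
    rw [map_mul, hEc]
  have hEz0 : E (h74w_z M q) ≠ 0 := (map_ne_zero E).mpr hz0
  have hC0 : (HahnSeries.C (1 - ζ) : LaurentSeries Kbar) ≠ 0 :=
    (map_ne_zero (HahnSeries.C : Kbar →+* LaurentSeries Kbar)).mpr hπ0
  have hEz : E (h74w_z M q) =
      HahnSeries.C (1 - ζ) * E (cst (M * q * q) (1 - ζ)⁻¹ * h74w_z M q) := by
    rw [hs, ← mul_assoc, ← map_mul, mul_inv_cancel₀ hπ0, map_one, one_mul]
  have hz_mem : E (h74w_z M q) ∈ h74v_G A := by
    rw [hEz]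
    exact mul_mem (C_mem_softOT A _ ⟨1 - ζ, hπA⟩) hU.1
  have hz_inv : (E (h74w_z M q))⁻¹ ∉ h74v_G A := by
    intro h
    apply h74v_C_inv_not_mem A hπ0 hπ
    have e : (HahnSeries.C (1 - ζ) : LaurentSeries Kbar)⁻¹ =
        (E (h74w_z M q))⁻¹ * E (cst (M * q * q) (1 - ζ)⁻¹ * h74w_z M q) := by
      rw [hs, map_inv₀]
      field_simp
    rw [e]
    exact mul_mem h hU.1
  obtain ⟨v₁, hv₁, hv₁z⟩ : ∃ v : Valuation F₀ ℤᵐ⁰,
      (∀ x, v x ≤ 1 ↔ φ₁ x ∈ h74v_G A) ∧ v ⟨h74w_z M q, hzF⟩ = exp (-1 : ℤ) := by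
    refine h74v_exists_val habs _ hz_mem hz_inv ?_
    intro x hx
    obtain ⟨n, hn⟩ := hD11 q hq M hqM A hA ζ hζ E hE (x : FF (M * q * q)) (hcoe0 x hx) (hfix x)
    rw [h74v_unit_iff] at hn
    refine ⟨n, ?_⟩
    have e : φ₁ ((⟨h74w_z M q, hzF⟩ : F₀) ^ n * x) =
        E (h74w_z M q ^ n * (x : FF (M * q * q))) := by
      show E (F₀.subtype ((⟨h74w_z M q, hzF⟩ : F₀) ^ n * x)) = _
      rw [map_mul, map_zpow₀]
      rfl
    rw [e]
    exact hn
  -- value of `q` at `W₁₁`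
  obtain ⟨z₀, hz₀⟩ : ∃ z₀ : F₀, z₀ = ⟨h74w_z M q, hzF⟩ := ⟨_, rfl⟩
  rw [← hz₀] at hv₁z
  have hz₀c : (z₀ : FF (M * q * q)) = h74w_z M q := by rw [hz₀]
  have hz₀0 : z₀ ≠ 0 := fun h => hz0 (by rw [← hz₀c, h]; rfl)
  have hφ₁z : φ₁ z₀ = E (h74w_z M q) := by
    show E (z₀ : FF (M * q * q)) = _
    rw [hz₀c]
  have hv₁q : v₁ ((q : ℕ) : F₀) = exp (-((q : ℤ) - 1)) := by
    obtain ⟨U, hUdef⟩ : ∃ U : LaurentSeries Kbar,
        U = E (cst (M * q * q) (1 - ζ)⁻¹ * h74w_z M q) := ⟨_, rfl⟩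
    rw [← hUdef] at hU hEz
    obtain ⟨u, hu⟩ : ∃ u : F₀, u = ((q : ℕ) : F₀) * (z₀ ^ (q - 1))⁻¹ := ⟨_, rfl⟩
    have hφu : φ₁ u =
        HahnSeries.C (((q : ℕ) : Kbar) * ((1 - ζ) ^ (q - 1))⁻¹) * (U⁻¹) ^ (q - 1) := by
      rw [hu, map_mul, map_inv₀, map_pow, hφq, hφ₁z, hEz, mul_pow, map_mul, map_inv₀, map_pow,
        mul_inv, inv_pow]
      ring
    have hu0 : u ≠ 0 := by
      rw [hu]
      exact mul_ne_zero (Nat.cast_ne_zero.mpr hq.ne_zero) (inv_ne_zero (pow_ne_zero _ hz₀0))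
    have h1 : φ₁ u ∈ h74v_G A := by
      rw [hφu]
      exact mul_mem (C_mem_softOT A _ ⟨_, hζ1⟩) (pow_mem hU.2 _)
    have h2 : (φ₁ u)⁻¹ ∈ h74v_G A := by
      have e : (φ₁ u)⁻¹ =
          HahnSeries.C ((((q : ℕ) : Kbar) * ((1 - ζ) ^ (q - 1))⁻¹)⁻¹) * U ^ (q - 1) := by
        rw [hφu, mul_inv, ← map_inv₀, inv_pow, inv_inv]
      rw [e]
      exact mul_mem (C_mem_softOT A _ ⟨_, hζ2⟩) (pow_mem hU.1 _)
    have hvu := h74v_val_eq_one hv₁ hu0 h1 h2
    have e : ((q : ℕ) : F₀) = u * z₀ ^ (q - 1) := by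
      rw [hu, inv_mul_cancel_right₀ (pow_ne_zero _ hz₀0)]
    rw [e, map_mul, hvu, one_mul, map_pow, hv₁z, ← exp_nsmul]
    congr 1
    rw [nsmul_eq_mul, Nat.cast_sub hq.one_lt.le]
    push_cast
    ring
  -- `z` is a unit at `W₂₀` and `W₀₂`
  obtain ⟨hZ0, hZ2⟩ := hZU q hq M hqM A hA
  have hZ2' := hZ2 E0 hE0
  rw [h74v_unit_iff] at hZ0 hZ2'
  have hv₀z : v₀ z₀ = 1 := by
    refine h74v_val_eq_one hv₀ hz₀0 ?_ ?_
    · show h20n_E20 M q (z₀ : FF (M * q * q)) ∈ _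
      rw [hz₀c]; exact hZ0.1
    · show (h20n_E20 M q (z₀ : FF (M * q * q)))⁻¹ ∈ _
      rw [hz₀c]; exact hZ0.2
  have hv₂z : v₂ z₀ = 1 := by
    refine h74v_val_eq_one hv₂ hz₀0 ?_ ?_
    · show E0 (z₀ : FF (M * q * q)) ∈ _
      rw [hz₀c]; exact hZ2'.1
    · show (E0 (z₀ : FF (M * q * q)))⁻¹ ∈ _
      rw [hz₀c]; exact hZ2'.2
  -- the separating elements
  obtain ⟨e, hefix, he, hwe, hre, hrwe⟩ : ∃ e : FF (M * q),
      (∀ σ : GQ, gal (M * q) σ • e = e) ∧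
      ∃ (he : e ∈ softV A (M * q)) (hwe : kFricke M q hq hqM e ∈ softV A (M * q)),
        softR A (M * q) ⟨e, he⟩ = 1 ∧ softR A (M * q) ⟨_, hwe⟩ = 0 :=
    ⟨Fermat.Agent.LGC.h44r_e M q, h74v_e_fixed M q,
      Fermat.Agent.LGC.h44r_sep A M q hq hqM hA⟩
  obtain ⟨he0, hei⟩ := (softR_ne_zero_iff A (M * q) ⟨e, he⟩).mp (by rw [hre]; exact one_ne_zero)
  have hwe0 : kFricke M q hq hqM e ≠ 0 := (map_ne_zero _).mpr he0
  have hwei : (kFricke M q hq hqM e)⁻¹ ∉ softV A (M * q) :=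
    ((softR_eq_zero_iff A (M * q) ⟨_, hwe⟩).mp hrwe).resolve_left hwe0
  -- Gauss facts about the expansions of `e` and `w e`
  have hGe : ((e : FF (M * q)) : LaurentSeries Kbar) ∈ h74v_G A := he
  have hGei : (((e : FF (M * q)) : LaurentSeries Kbar))⁻¹ ∈ h74v_G A := by
    have h := hei
    rw [mem_softV_iff] at h
    have e1 : (((e⁻¹ : FF (M * q)) : FF (M * q)) : LaurentSeries Kbar) =
        (((e : FF (M * q)) : LaurentSeries Kbar))⁻¹ :=
      map_inv₀ (algebraMap (FF (M * q)) (LaurentSeries Kbar)) e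
    rw [← e1]
    exact h
  have hGw : ((kFricke M q hq hqM e : FF (M * q)) : LaurentSeries Kbar) ∈ h74v_G A := hwe
  have hGwi : (((kFricke M q hq hqM e : FF (M * q)) : LaurentSeries Kbar))⁻¹ ∉ h74v_G A := by
    intro h
    apply hwei
    rw [mem_softV_iff]
    have e1 : ((((kFricke M q hq hqM e)⁻¹ : FF (M * q)) : FF (M * q)) : LaurentSeries Kbar) =
        (((kFricke M q hq hqM e : FF (M * q)) : LaurentSeries Kbar))⁻¹ :=
      map_inv₀ (algebraMap (FF (M * q)) (LaurentSeries Kbar)) _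
    rw [e1]
    exact h
  have hQe : qExpand Kbar q ((e : FF (M * q)) : LaurentSeries Kbar) ∈ h74v_G A :=
    mem_softOT_qExpand A _ q hGe
  have hQei : (qExpand Kbar q ((e : FF (M * q)) : LaurentSeries Kbar))⁻¹ ∈ h74v_G A := by
    rw [← map_inv₀]
    exact mem_softOT_qExpand A _ q hGei
  have hQw : qExpand Kbar q ((kFricke M q hq hqM e : FF (M * q)) : LaurentSeries Kbar) ∈
      h74v_G A := mem_softOT_qExpand A _ q hGw
  have hQwi : (qExpand Kbar q ((kFricke M q hq hqM e : FF (M * q)) : LaurentSeries Kbar))⁻¹ ∉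
      h74v_G A := by
    have hred : softRedT A (IsLocalRing.residue A)
        ⟨qExpand Kbar q ((kFricke M q hq hqM e : FF (M * q)) : LaurentSeries Kbar), hQw⟩ = 0 := by
      refine (softRedT_qExpand A (IsLocalRing.residue A) q
        (softIncl A (M * q) ⟨_, hwe⟩) hQw).trans ?_
      have h2 : softRedT A (IsLocalRing.residue A) (softIncl A (M * q) ⟨_, hwe⟩) = 0 := hrwe
      rw [h2, map_zero]
    rcases (softRedT_eq_zero_iff _).mp hred with h | h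
    · exfalso
      have h3 : ((kFricke M q hq hqM e : FF (M * q)) : LaurentSeries Kbar) = 0 :=
        (map_eq_zero (qExpand Kbar q)).mp h
      exact hwe0 ((map_eq_zero (algebraMap (FF (M * q)) (LaurentSeries Kbar))).mp h3)
    · exact h
  -- the two elements of `F₀`
  have hya : heckeAlphaBar Kbar (M * q) q e ∈ F₀ :=
    (h28v_mem_F0_iff A _ _).mpr (fun σ _ => by rw [h83g_gal_alpha, hefix])
  have hyb : heckeAlphaBar Kbar (M * q) q (kFricke M q hq hqM e) ∈ F₀ :=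
    (h28v_mem_F0_iff A _ _).mpr (fun σ _ => by
      rw [h83g_gal_alpha]
      congr 1
      have h := kFricke_gal M q hq hqM σ e
      rw [← h]
      congr 1
      exact hefix σ)
  have hya0 : (⟨_, hya⟩ : F₀) ≠ 0 := fun h =>
    he0 ((map_eq_zero (heckeAlphaBar Kbar (M * q) q)).mp (congrArg Subtype.val h))
  have hyb0 : (⟨_, hyb⟩ : F₀) ≠ 0 := fun h =>
    hwe0 ((map_eq_zero (heckeAlphaBar Kbar (M * q) q)).mp (congrArg Subtype.val h))
  have hφ₀a : φ₀ ⟨_, hya⟩ = ((e : FF (M * q)) : LaurentSeries Kbar) :=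
    (h74v_comp_subtype_mk F₀ (h20n_E20 M q) _ hya).trans (h74v_E20_alpha e)
  have hφ₀b : φ₀ ⟨_, hyb⟩ = ((kFricke M q hq hqM e : FF (M * q)) : LaurentSeries Kbar) :=
    (h74v_comp_subtype_mk F₀ (h20n_E20 M q) _ hyb).trans (h74v_E20_alpha _)
  have hφ₂a : φ₂ ⟨_, hya⟩ =
      qExpand Kbar q ((kFricke M q hq hqM e : FF (M * q)) : LaurentSeries Kbar) :=
    (h74v_comp_subtype_mk F₀ E0 _ hya).trans (hE0.1 e)
  have hφ₂b : φ₂ ⟨_, hyb⟩ = qExpand Kbar q ((e : FF (M * q)) : LaurentSeries Kbar) := by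
    have h := hE0.1 (kFricke M q hq hqM e)
    rw [kFricke_kFricke] at h
    exact (h74v_comp_subtype_mk F₀ E0 _ hyb).trans h
  -- assembly
  refine ⟨![v₀, v₁, v₂], ?_, ?_, ?_, ?_, ?_, ?_, ?_, ?_, ?_⟩
  · intro x
    exact hv₀ x
  · intro x
    exact hv₁ x
  · intro x
    exact hv₂ x
  · exact hv₀q
  · exact hv₁q
  · exact hv₂q
  · intro z0 hz0c
    have e1 : z0 = z₀ := Subtype.ext (hz0c.trans hz₀c.symm)
    rw [e1]
    exact ⟨hv₀z, hv₁z, hv₂z⟩
  · refine ⟨⟨_, hyb⟩, ?_, ?_⟩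
    · refine h74v_val_lt_one hv₀ ?_ ?_
      · rw [hφ₀b]; exact hGw
      · rw [hφ₀b]; exact hGwi
    · refine h74v_val_eq_one hv₂ hyb0 ?_ ?_
      · rw [hφ₂b]; exact hQe
      · rw [hφ₂b]; exact hQei
  · refine ⟨⟨_, hya⟩, ?_, ?_⟩
    · refine h74v_val_lt_one hv₂ ?_ ?_
      · rw [hφ₂a]; exact hQw
      · rw [hφ₂a]; exact hQwi
    · refine h74v_val_eq_one hv₀ hya0 ?_ ?_
      · rw [hφ₀a]; exact hGe
      · rw [hφ₀a]; exact hGei

end Main

end Fermat.Agent.S36
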