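import Fermat.Agent.Jac.OS
import Fermat.Agent.Jac.HKM.Const
import Fermat.Agent.Jac.Kummer
import Fermat.Agent.S37.Defs

/-!
# S36, block (D): descent of invariant classes (helper17)

Let `H` be a subgroup of `G_ℚ` (for instance an inertia group) and `x ∈ J₀(N)` a class fixed by
`H`.  Then `x` is the class of an `H`-invariant divisor `D` of degree zero, and if `n • x = 0`
then `n D = div u` for an `H`-invariant function `u` (with leading `q`-coefficient `1`).

Proof: for `σ ∈ H` let `h σ` be the function with divisor `σ D₀ - D₀` and leading coefficient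
`1` (`h17d_IsCoc`).  It is a cocycle, `h (σ τ) = h σ * σ (h τ)`, which factors through a finite
quotient (open stabilisers, `Fermat.Agent.Jac.openStab`, `h18_exists_fixing_field_finset`).
Hilbert 90 in the form of a Poincaré sum `b = ∑ h τ * τ a` (`a` a constant; `b ≠ 0` for a
suitable `a` by Dedekind's independence of characters): `σ b = b / h σ`.  Then
`D = D₀ + div b` is `H`-invariant.
-/

set_option autoImplicit false
set_option linter.unusedSectionVars false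

open AlgebraicCurve ModularCurve

noncomputable section

namespace Fermat.Agent.S36

open Fermat.Agent.S37 (Kbar GQ FF cst gal)
open Fermat.Agent.Jac

variable {N : ℕ} [NeZero N]

/-! ## The leading coefficient -/

/-- the leading coefficient of the `q`-expansion. -/
def h17d_lc (f : FF N) : Kbar := (f : LaurentSeries Kbar).leadingCoeff

theorem h17d_lc_mul (f g : FF N) : h17d_lc (f * g) = h17d_lc f * h17d_lc g :=
  HahnSeries.leadingCoeff_mul _ _

theorem h17d_lc_one : h17d_lc (1 : FF N) = 1 :=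
  HahnSeries.leadingCoeff_one

theorem h17d_lc_ne_zero {f : FF N} (hf : f ≠ 0) : h17d_lc f ≠ 0 := by
  apply HahnSeries.leadingCoeff_ne_zero.mpr
  intro h
  exact hf (Subtype.ext h)

theorem h17d_lc_inv {f : FF N} (hf : f ≠ 0) : h17d_lc f⁻¹ = (h17d_lc f)⁻¹ := by
  have h := h17d_lc_mul f f⁻¹
  rw [mul_inv_cancel₀ hf, h17d_lc_one] at h
  exact eq_inv_of_mul_eq_one_right h.symm

theorem h17d_lc_cst (c : Kbar) : h17d_lc (cst N c) = c := by
  unfold h17d_lc
  have h : ((cst N c : FF N) : LaurentSeries Kbar) = HahnSeries.single 0 c := by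
    rw [← algebraMap_laurentSeries_eq_single]
    rfl
  rw [h, HahnSeries.leadingCoeff_of_single]

theorem h17d_order_coeffMap (σ : Kbar →+* Kbar) (x : LaurentSeries Kbar) :
    (coeffMap σ x).order = x.order := by
  rcases eq_or_ne x 0 with rfl | hx
  · simp
  have hx' : coeffMap σ x ≠ 0 := by
    intro h
    apply hx
    ext k
    have := congrArg (fun s : LaurentSeries Kbar => s.coeff k) h
    simp only [coeffMap_coeff, HahnSeries.coeff_zero] at this
    simpa using (map_eq_zero_iff σ σ.injective).mp this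
  apply le_antisymm
  · apply HahnSeries.order_le_of_coeff_ne_zero
    rw [coeffMap_coeff]
    intro h
    have h2 := (map_eq_zero_iff σ σ.injective).mp h
    exact hx (HahnSeries.coeff_order_eq_zero.mp h2)
  · rw [HahnSeries.le_order_iff_forall hx']
    intro j hj
    rw [coeffMap_coeff, HahnSeries.coeff_eq_zero_of_lt_order hj, map_zero]

theorem h17d_lc_gal (σ : GQ) (f : FF N) : h17d_lc (gal N σ • f) = σ (h17d_lc f) := by
  unfold h17d_lc
  rw [coe_arithmeticGalois_smul, HahnSeries.leadingCoeff_eq, HahnSeries.leadingCoeff_eq,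
    h17d_order_coeffMap, coeffMap_coeff]
  rfl

theorem h17d_gal_cst (σ : GQ) (c : Kbar) : gal N σ • cst N c = cst N (σ c) :=
  SemilinearAut.smul_algebraMap (gal N σ) c

theorem h17d_gal_ne_zero (σ : GQ) {f : FF N} (hf : f ≠ 0) : gal N σ • f ≠ 0 := by
  intro h
  apply hf
  have := congrArg (fun y => (gal N σ)⁻¹ • y) h
  simpa using this

/-- orders of a Galois translate. -/
theorem h17d_ord_gal (σ : GQ) (f : FF N) (v : Place Kbar (FF N)) :
    v.ord (gal N σ • f) = ((gal N σ)⁻¹ • v).ord f := by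
  have h := SemilinearAut.ord_smul (gal N σ) ((gal N σ)⁻¹ • v) f
  rw [smul_inv_smul] at h
  exact h

/-- a function is determined by its divisor and its leading coefficient. -/
theorem h17d_eq_of_ord_eq {f g : FF N} (hf : f ≠ 0) (hg : g ≠ 0)
    (hord : ∀ v : Place Kbar (FF N), v.ord f = v.ord g) (hlc : h17d_lc f = h17d_lc g) :
    f = g := by
  have hu : ∀ v : Place Kbar (FF N), v.ord (f * g⁻¹) = 0 := by
    intro v
    rw [Place.ord_mul v hf (inv_ne_zero hg), Place.ord_inv, hord v]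
    ring
  obtain ⟨c, hc⟩ := HKM.h57_const_of_ord_zero N _ hu
  have h1 : h17d_lc (f * g⁻¹) = 1 := by
    rw [h17d_lc_mul, h17d_lc_inv hg, hlc, mul_inv_cancel₀ (h17d_lc_ne_zero hg)]
  have h2 : c = 1 := by
    have := h17d_lc_cst (N := N) c
    rw [show cst N c = f * g⁻¹ from hc, h1] at this
    exact this.symm
  rw [h2, map_one] at hc
  have h3 : f * g⁻¹ * g = 1 * g := by rw [← hc]
  rw [mul_assoc, inv_mul_cancel₀ hg, mul_one, one_mul] at h3
  exact h3

/-- normalisation of the leading coefficient. -/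
theorem h17d_exists_norm {f : FF N} (hf : f ≠ 0) :
    ∃ g : FF N, g ≠ 0 ∧ h17d_lc g = 1 ∧ ∀ v : Place Kbar (FF N), v.ord g = v.ord f := by
  have hc : h17d_lc f ≠ 0 := h17d_lc_ne_zero hf
  have hc' : cst N (h17d_lc f)⁻¹ ≠ 0 := by
    intro h
    have := h17d_lc_cst (N := N) (h17d_lc f)⁻¹
    rw [h] at this
    have h0 : h17d_lc (0 : FF N) = 0 := by
      unfold h17d_lc
      simp
    rw [h0] at this
    exact inv_ne_zero hc this.symm
  refine ⟨cst N (h17d_lc f)⁻¹ * f, mul_ne_zero hc' hf, ?_, fun v => ?_⟩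
  · rw [h17d_lc_mul, h17d_lc_cst, inv_mul_cancel₀ hc]
  · rw [Place.ord_mul v hc' hf, K1.ord_algebraMap v (inv_ne_zero hc), zero_add]

/-! ## The cocycle -/

/-- `f` is the normalised function with divisor `σ D₀ - D₀`. -/
def h17d_IsCoc (D₀ : Divisor Kbar (FF N)) (σ : GQ) (f : FF N) : Prop :=
  f ≠ 0 ∧ h17d_lc f = 1 ∧ ∀ v : Place Kbar (FF N), v.ord f = (gal N σ • D₀) v - D₀ v

theorem h17d_isCoc_unique {D₀ : Divisor Kbar (FF N)} {σ : GQ} {f g : FF N}
    (hf : h17d_IsCoc D₀ σ f) (hg : h17d_IsCoc D₀ σ g) : f = g :=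
  h17d_eq_of_ord_eq hf.1 hg.1 (fun v => by rw [hf.2.2 v, hg.2.2 v]) (by rw [hf.2.1, hg.2.1])

theorem h17d_isCoc_congr {D₀ : Divisor Kbar (FF N)} {σ τ : GQ}
    (h : gal N σ • D₀ = gal N τ • D₀) {f : FF N} (hf : h17d_IsCoc D₀ σ f) :
    h17d_IsCoc D₀ τ f :=
  ⟨hf.1, hf.2.1, fun v => by rw [hf.2.2 v, h]⟩

theorem h17d_isCoc_of_fix {D₀ : Divisor Kbar (FF N)} {σ : GQ} (h : gal N σ • D₀ = D₀) :
    h17d_IsCoc D₀ σ 1 :=
  ⟨one_ne_zero, h17d_lc_one, fun v => by rw [h, sub_self]; simp⟩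

theorem h17d_gal_mul (σ τ : GQ) : gal N (σ * τ) = gal N σ * gal N τ :=
  map_mul (arithmeticGalois (modularFunctionFieldFull N)) σ τ

theorem h17d_isCoc_mul {D₀ : Divisor Kbar (FF N)} {σ τ : GQ} {f g : FF N}
    (hf : h17d_IsCoc D₀ σ f) (hg : h17d_IsCoc D₀ τ g) :
    h17d_IsCoc D₀ (σ * τ) (f * gal N σ • g) := by
  have hg' : gal N σ • g ≠ 0 := h17d_gal_ne_zero σ hg.1
  refine ⟨mul_ne_zero hf.1 hg', ?_, fun v => ?_⟩
  · rw [h17d_lc_mul, hf.2.1, h17d_lc_gal, hg.2.1, map_one, one_mul]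
  · rw [Place.ord_mul v hf.1 hg', hf.2.2 v, h17d_ord_gal, hg.2.2, h17d_gal_mul, mul_smul,
      SemilinearAut.divisor_smul_apply (gal N σ) (gal N τ • D₀) v,
      SemilinearAut.divisor_smul_apply (gal N σ) D₀ v]
    ring

/-- an invariant class gives a cocycle. -/
theorem h17d_exists_isCoc (D₀ : Divisor.degZero (K := Kbar) (F := FF N)) (σ : GQ)
    (h : σ • Pic0.mk D₀ = Pic0.mk D₀) :
    ∃ f : FF N, h17d_IsCoc (D₀ : Divisor Kbar (FF N)) σ f := by
  rw [galois_smul_pic0_def, SemilinearAut.pic0_smul_mk] at h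
  have h1 : Pic0.mk (SemilinearAut.degZeroSMulHom (gal N σ) D₀ - D₀) = 0 := by
    have e : Pic0.mk (SemilinearAut.degZeroSMulHom (gal N σ) D₀ - D₀)
        = Pic0.mk (SemilinearAut.degZeroSMulHom (gal N σ) D₀) - Pic0.mk D₀ := rfl
    rw [e, h, sub_self]
  obtain ⟨f, hf, hord⟩ := (K1.pic0_mk_eq_zero_iff _).mp h1
  obtain ⟨g, hg, hlc, hgord⟩ := h17d_exists_norm hf
  refine ⟨g, hg, hlc, fun v => ?_⟩
  rw [hgord v, ← hord v]
  rfl

/-! ## Finite level -/

/-- a divisor is fixed by a semilinear automorphism which fixes its support. -/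
theorem h17d_smul_divisor_eq {K F : Type*} [Field K] [Field F] [Algebra K F]
    (g : SemilinearAut K F) (D : Divisor K F) (h : ∀ v ∈ D.support, g • v = v) :
    g • D = D := by
  classical
  rw [SemilinearAut.divisor_smul_def]
  conv_rhs => rw [← Finsupp.mapDomain_id (v := D)]
  exact Finsupp.mapDomain_congr h

/-- a finite extension of `ℚ` whose absolute Galois group fixes the divisor `D₀`. -/
theorem h17d_exists_field_divisor (D₀ : Divisor Kbar (FF N)) :
    ∃ L : IntermediateField ℚ Kbar, FiniteDimensional ℚ L ∧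
      ∀ σ : GQ, (∀ y ∈ L, σ y = y) → gal N σ • D₀ = D₀ := by
  classical
  choose Lof hLfin hLfix using openStab N
  refine ⟨⨆ v ∈ D₀.support, Lof v,
    IntermediateField.finiteDimensional_iSup_of_finset' fun v _ => hLfin v, fun σ hσ => ?_⟩
  apply h17d_smul_divisor_eq
  intro v hv
  refine hLfix v σ fun y hy => hσ y ?_
  have hle : Lof v ≤ ⨆ v ∈ D₀.support, Lof v := le_iSup₂_of_le v hv le_rfl
  exact hle hy

/-- two automorphisms which agree on `L` act in the same way on `D₀`. -/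
theorem h17d_agree {D₀ : Divisor Kbar (FF N)} {L : IntermediateField ℚ Kbar}
    (hL : ∀ σ : GQ, (∀ y ∈ L, σ y = y) → gal N σ • D₀ = D₀) (σ τ : GQ)
    (hστ : ∀ y ∈ L, σ y = τ y) : gal N σ • D₀ = gal N τ • D₀ := by
  have h1 : gal N (τ⁻¹ * σ) • D₀ = D₀ := by
    apply hL
    intro y hy
    show τ⁻¹ (σ y) = y
    rw [hστ y hy]
    exact τ.symm_apply_apply y
  have h2 : gal N σ • D₀ = gal N τ • (gal N (τ⁻¹ * σ) • D₀) := by
    rw [← mul_smul, ← h17d_gal_mul, mul_inv_cancel_left]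
  rw [h2, h1]

/-- restriction of an automorphism to an intermediate field. -/
def h17d_res (E : IntermediateField ℚ Kbar) (σ : GQ) : E →ₐ[ℚ] Kbar :=
  (σ : Kbar →ₐ[ℚ] Kbar).comp E.val

theorem h17d_res_apply (E : IntermediateField ℚ Kbar) (σ : GQ) (a : E) :
    h17d_res E σ a = σ (a : Kbar) := rfl

theorem h17d_res_mul (E : IntermediateField ℚ Kbar) (σ τ : GQ) :
    h17d_res E (σ * τ) = (σ : Kbar →ₐ[ℚ] Kbar).comp (h17d_res E τ) := rfl

/-- the character `a ↦ e a` (as a constant function) of the multiplicative monoid of `E`. -/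
def h17d_chi (N : ℕ) (E : IntermediateField ℚ Kbar) (e : E →ₐ[ℚ] Kbar) : E →* FF N :=
  ((algebraMap Kbar (FF N) : Kbar →+* FF N) : Kbar →* FF N).comp
    ((e : E →+* Kbar) : E →* Kbar)

theorem h17d_chi_apply (E : IntermediateField ℚ Kbar) (e : E →ₐ[ℚ] Kbar) (a : E) :
    h17d_chi N E e a = cst N (e a) := rfl

theorem h17d_chi_injective (E : IntermediateField ℚ Kbar) :
    Function.Injective (h17d_chi N E) := by
  intro e e' h
  ext a
  have h1 := DFunLike.congr_fun h a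
  rw [h17d_chi_apply, h17d_chi_apply] at h1
  exact (algebraMap Kbar (FF N)).injective h1

/-- **Hilbert 90** for the cocycle of an invariant class. -/
theorem h17d_hilbert90 (H : Subgroup GQ) (D₀ : Divisor Kbar (FF N)) (h : GQ → FF N)
    (hcoc : ∀ σ ∈ H, h17d_IsCoc D₀ σ (h σ)) :
    ∃ b : FF N, b ≠ 0 ∧ ∀ σ ∈ H, gal N σ • b = (h σ)⁻¹ * b := by
  classical
  obtain ⟨L₁, hL₁fin, hL₁⟩ := h17d_exists_field_divisor D₀
  have hagree := h17d_agree hL₁
  -- the values of the cocycle form a finite set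
  have hhval : ∀ σ ∈ H, ∀ τ ∈ H, (∀ y ∈ L₁, σ y = τ y) → h σ = h τ := by
    intro σ hσ τ hτ hστ
    exact h17d_isCoc_unique (h17d_isCoc_congr (hagree σ τ hστ) (hcoc σ hσ)) (hcoc τ hτ)
  let c₁ : (L₁ →ₐ[ℚ] Kbar) → FF N := fun r =>
    if hr : ∃ τ ∈ H, h17d_res L₁ τ = r then h hr.choose else 1
  have hc₁ : ∀ τ ∈ H, h τ = c₁ (h17d_res L₁ τ) := by
    intro τ hτ
    have hr : ∃ τ' ∈ H, h17d_res L₁ τ' = h17d_res L₁ τ := ⟨τ, hτ, rfl⟩
    show h τ = if hr : ∃ τ' ∈ H, h17d_res L₁ τ' = h17d_res L₁ τ then h hr.choose else 1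
    rw [dif_pos hr]
    refine hhval τ hτ _ hr.choose_spec.1 fun y hy => ?_
    have := DFunLike.congr_fun hr.choose_spec.2 (⟨y, hy⟩ : L₁)
    exact this.symm
  have hfinr : (Set.range c₁).Finite := Set.finite_range c₁
  obtain ⟨L₂, hL₂fin, hL₂⟩ := h18_exists_fixing_field_finset N hfinr.toFinset
  have hfixh : ∀ σ : GQ, (∀ y ∈ L₂, σ y = y) → ∀ τ ∈ H, gal N σ • h τ = h τ := by
    intro σ hσ τ hτ
    apply hL₂ σ hσ
    rw [Set.Finite.mem_toFinset, hc₁ τ hτ]
    exact Set.mem_range_self _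
  -- the field `E`
  let E : IntermediateField ℚ Kbar := L₁ ⊔ L₂
  have hEfin : FiniteDimensional ℚ E := IntermediateField.finiteDimensional_sup L₁ L₂
  have hL₁E : L₁ ≤ E := le_sup_left
  have hL₂E : L₂ ≤ E := le_sup_right
  have hhE : ∀ σ ∈ H, ∀ τ ∈ H, h17d_res E σ = h17d_res E τ → h σ = h τ := by
    intro σ hσ τ hτ hστ
    refine hhval σ hσ τ hτ fun y hy => ?_
    exact DFunLike.congr_fun hστ (⟨y, hL₁E hy⟩ : E)
  -- the coefficients of the Poincaré sum
  let cE : (E →ₐ[ℚ] Kbar) → FF N := fun e =>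
    if he : ∃ τ ∈ H, h17d_res E τ = e then h he.choose else 0
  have hcE : ∀ τ ∈ H, cE (h17d_res E τ) = h τ := by
    intro τ hτ
    have he : ∃ τ' ∈ H, h17d_res E τ' = h17d_res E τ := ⟨τ, hτ, rfl⟩
    show (if he : ∃ τ' ∈ H, h17d_res E τ' = h17d_res E τ then h he.choose else 0) = h τ
    rw [dif_pos he]
    exact hhE _ he.choose_spec.1 τ hτ he.choose_spec.2
  let 𝓔 : Finset (E →ₐ[ℚ] Kbar) := Finset.univ.filter fun e => ∃ τ ∈ H, h17d_res E τ = e
  have hmem𝓔 : ∀ e, e ∈ 𝓔 ↔ ∃ τ ∈ H, h17d_res E τ = e := by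
    intro e
    simp [𝓔]
  let b : E → FF N := fun a => ∑ e ∈ 𝓔, cE e * cst N (e a)
  -- the transformation rule
  have hrule : ∀ σ ∈ H, ∀ a : E, gal N σ • b a = (h σ)⁻¹ * b a := by
    intro σ hσ a
    have hσ0 : h σ ≠ 0 := (hcoc σ hσ).1
    have hterm : ∀ e ∈ 𝓔, gal N σ • (cE e * cst N (e a))
        = (h σ)⁻¹ * (cE ((σ : Kbar →ₐ[ℚ] Kbar).comp e)
            * cst N (((σ : Kbar →ₐ[ℚ] Kbar).comp e) a)) := by
      intro e he
      obtain ⟨τ, hτ, rfl⟩ := (hmem𝓔 e).mp he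
      have hστ : σ * τ ∈ H := H.mul_mem hσ hτ
      rw [hcE τ hτ, ← h17d_res_mul, hcE (σ * τ) hστ, smul_mul', h17d_gal_cst]
      have hc := h17d_isCoc_unique (hcoc (σ * τ) hστ) (h17d_isCoc_mul (hcoc σ hσ) (hcoc τ hτ))
      rw [hc, mul_assoc (h σ), inv_mul_cancel_left₀ hσ0]
      rfl
    show gal N σ • (∑ e ∈ 𝓔, cE e * cst N (e a)) = (h σ)⁻¹ * ∑ e ∈ 𝓔, cE e * cst N (e a)
    rw [Finset.smul_sum, Finset.sum_congr rfl hterm, ← Finset.mul_sum]
    congr 1
    refine Finset.sum_nbij' (fun e => (σ : Kbar →ₐ[ℚ] Kbar).comp e)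
      (fun e => ((σ⁻¹ : GQ) : Kbar →ₐ[ℚ] Kbar).comp e) ?_ ?_ ?_ ?_ ?_
    · intro e he
      obtain ⟨τ, hτ, rfl⟩ := (hmem𝓔 e).mp he
      exact (hmem𝓔 _).mpr ⟨σ * τ, H.mul_mem hσ hτ, rfl⟩
    · intro e he
      obtain ⟨τ, hτ, rfl⟩ := (hmem𝓔 e).mp he
      exact (hmem𝓔 _).mpr ⟨σ⁻¹ * τ, H.mul_mem (H.inv_mem hσ) hτ, rfl⟩
    · intro e _
      ext a
      show σ⁻¹ (σ (e a)) = e a
      exact σ.symm_apply_apply (e a)
    · intro e _
      ext a
      show σ (σ⁻¹ (e a)) = e a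
      exact σ.apply_symm_apply (e a)
    · intro e _
      rfl
  -- non-vanishing
  have hne : ∃ a : E, b a ≠ 0 := by
    by_contra hcon
    push Not at hcon
    have hli : LinearIndependent (FF N) (fun e : E →ₐ[ℚ] Kbar => (h17d_chi N E e : E → FF N)) :=
      (linearIndependent_monoidHom E (FF N)).comp _ (h17d_chi_injective E)
    have hsum : ∑ e ∈ 𝓔, cE e • (h17d_chi N E e : E → FF N) = 0 := by
      funext a
      rw [Finset.sum_apply]
      exact hcon a
    have h1 := linearIndependent_iff'.mp hli 𝓔 cE hsum (h17d_res E 1)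
      ((hmem𝓔 _).mpr ⟨1, H.one_mem, rfl⟩)
    rw [hcE 1 H.one_mem] at h1
    exact (hcoc 1 H.one_mem).1 h1
  obtain ⟨a, ha⟩ := hne
  exact ⟨b a, ha, fun σ hσ => hrule σ hσ a⟩

/-! ## The descent -/

/-- **(D), divisors.**  A class which is fixed by the subgroup `H` of `G_ℚ` is the class of an
`H`-invariant divisor. -/
theorem h17d_desc (H : Subgroup GQ) (x : JZero N) (hfix : ∀ σ ∈ H, σ • x = x) :
    ∃ D : Divisor.degZero (K := Kbar) (F := FF N), Pic0.mk D = x ∧
      ∀ σ ∈ H, gal N σ • (D : Divisor Kbar (FF N)) = D := by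
  classical
  obtain ⟨D₀, rfl⟩ := Pic0.mk_surjective x
  have hex : ∀ σ : GQ, ∃ f : FF N, σ ∈ H → h17d_IsCoc (D₀ : Divisor Kbar (FF N)) σ f := by
    intro σ
    by_cases hσ : σ ∈ H
    · obtain ⟨f, hf⟩ := h17d_exists_isCoc D₀ σ (hfix σ hσ)
      exact ⟨f, fun _ => hf⟩
    · exact ⟨1, fun h => absurd h hσ⟩
  choose h hh using hex
  obtain ⟨b, hb, hbσ⟩ := h17d_hilbert90 H (D₀ : Divisor Kbar (FF N)) h hh
  have : HasPrincipalDivisors Kbar (FF N) := pd N
  obtain ⟨Db, hDb, hdeg⟩ := HasPrincipalDivisors.exists_divisor (K := Kbar) b hb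
  refine ⟨D₀ + ⟨Db, hdeg⟩, ?_, fun σ hσ => ?_⟩
  · rw [Pic0.mk_add]
    have h0 : Pic0.mk (⟨Db, hdeg⟩ : Divisor.degZero (K := Kbar) (F := FF N)) = 0 :=
      (K1.pic0_mk_eq_zero_iff _).mpr ⟨b, hb, hDb⟩
    rw [h0, add_zero]
  · have hσ0 : h σ ≠ 0 := (hh σ hσ).1
    ext v
    rw [AddSubgroup.coe_add, SemilinearAut.divisor_smul_apply, Finsupp.add_apply,
      Finsupp.add_apply]
    show (D₀ : Divisor Kbar (FF N)) ((gal N σ)⁻¹ • v) + Db ((gal N σ)⁻¹ • v)
      = (D₀ : Divisor Kbar (FF N)) v + Db v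
    have h1 : Db ((gal N σ)⁻¹ • v) = v.ord (gal N σ • b) := by
      rw [hDb, h17d_ord_gal]
    have h2 : v.ord (gal N σ • b) = - v.ord (h σ) + Db v := by
      rw [hbσ σ hσ, Place.ord_mul v (inv_ne_zero hσ0) hb, Place.ord_inv, hDb]
    have h3 := (hh σ hσ).2.2 v
    rw [SemilinearAut.divisor_smul_apply] at h3
    rw [h1, h2, h3]
    ring

/-- **(D), functions.**  A torsion class which is fixed by the subgroup `H` of `G_ℚ` is the class
of an `H`-invariant divisor `D` with `n D = div u` for an `H`-invariant function `u`. -/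
theorem h17d_desc_tors (H : Subgroup GQ) (x : JZero N) (hfix : ∀ σ ∈ H, σ • x = x) (n : ℕ)
    (hx : n • x = 0) :
    ∃ (D : Divisor.degZero (K := Kbar) (F := FF N)) (u : FF N), Pic0.mk D = x ∧
      (∀ σ ∈ H, gal N σ • (D : Divisor Kbar (FF N)) = D) ∧ u ≠ 0 ∧ h17d_lc u = 1 ∧
      (∀ v : Place Kbar (FF N), v.ord u = n * (D : Divisor Kbar (FF N)) v) ∧
      ∀ σ ∈ H, gal N σ • u = u := by
  obtain ⟨D, rfl, hD⟩ := h17d_desc H x hfix
  have h1 : Pic0.mk ((n : ℤ) • D) = 0 := by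
    rw [← K1.pic0_mk_zsmul, natCast_zsmul]
    exact hx
  obtain ⟨f, hf, hord⟩ := (K1.pic0_mk_eq_zero_iff _).mp h1
  obtain ⟨u, hu, hlc, huord⟩ := h17d_exists_norm hf
  have hu' : ∀ v : Place Kbar (FF N), v.ord u = n * (D : Divisor Kbar (FF N)) v := by
    intro v
    rw [huord v, ← hord v]
    simp
  refine ⟨D, u, rfl, hD, hu, hlc, hu', fun σ hσ => ?_⟩
  apply h17d_eq_of_ord_eq (h17d_gal_ne_zero σ hu) hu
  · intro v
    rw [h17d_ord_gal, hu', hu']
    have := congrArg (fun E : Divisor Kbar (FF N) => E v) (hD σ hσ)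
    simp only [SemilinearAut.divisor_smul_apply] at this
    rw [this]
  · rw [h17d_lc_gal, hlc, map_one]

end Fermat.Agent.S36
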