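import Mathlib.FieldTheory.PrimitiveElement
import Mathlib.FieldTheory.IsAlgClosed.AlgebraicClosure
import Mathlib.FieldTheory.Perfect

/-!
# S36, block (N), abstract half of N-EMB (helper20): existence of embeddings by counting

`F₀ → F₁ → F₂` fields of characteristic zero, `α₀, β₀ : F₀ → F₁`, `α, β : F₁ → F₂` with
`α ∘ β₀ = β ∘ α₀`, `[F₁ : α₀ F₀] = n + 1`, `[F₂ : α F₁] = n`, `F₂` generated by `α F₁` and
`β F₁`, `ι₁ : F₁ → T` an embedding into a field `T`.

The embeddings `e` of `F₂` (into an algebraic closure of `T`) with `e ∘ α = ι₁` inject, by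
`e ↦ e ∘ β`, into the `n + 1` embeddings `e'` of `F₁` with `e' ∘ α₀ = ι₁ ∘ β₀`.  If one of
these, `e'₀`, is not of the form `e ∘ β`, then all the others are (`h20n_exists_emb_abs`), and
if they take values in `T` then so does `e`.
-/

set_option autoImplicit false
set_option linter.style.haveILetI false
set_option linter.unusedSectionVars false
set_option maxHeartbeats 400000

noncomputable section

namespace Fermat.Agent.S36

section Abs

variable {F₀ F₁ F₂ T : Type*} [Field F₀] [Field F₁] [Field F₂] [Field T] [CharZero F₀]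

/-- two ring homomorphisms from `F₂` which agree on `α F₁` and on `β F₁` are equal. -/
theorem h20n_ringHom_ext_of_gen {S : Type*} [Semiring S] (α β : F₁ →+* F₂)
    (hgen : Subfield.closure (Set.range α ∪ Set.range β) = ⊤)
    (e e' : F₂ →+* S) (hα : e.comp α = e'.comp α) (hβ : e.comp β = e'.comp β) : e = e' := by
  have hle : Subfield.closure (Set.range α ∪ Set.range β) ≤ RingHom.eqLocusField e e' := by
    rw [Subfield.closure_le]
    rintro x (⟨y, rfl⟩ | ⟨y, rfl⟩)
    · exact RingHom.congr_fun hα y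
    · exact RingHom.congr_fun hβ y
  rw [hgen] at hle
  ext x
  exact hle (Subfield.mem_top x)

/-- **existence of embeddings by counting.** -/
theorem h20n_exists_emb_abs (α₀ β₀ : F₀ →+* F₁) (α β : F₁ →+* F₂)
    (hsq : α.comp β₀ = β.comp α₀) (n : ℕ) (hn : 0 < n)
    (h1 : letI := α₀.toAlgebra; Module.finrank F₀ F₁ = n + 1)
    (h2 : letI := α.toAlgebra; Module.finrank F₁ F₂ = n)
    (hgen : Subfield.closure (Set.range α ∪ Set.range β) = ⊤)
    (ι₁ e'₀ e' : F₁ →+* T) (h0 : e'₀.comp α₀ = ι₁.comp β₀) (h' : e'.comp α₀ = ι₁.comp β₀)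
    (hne : e' ≠ e'₀) (hex : ∃ a b : F₁, e'₀ b = ι₁ a ∧ α a ≠ β b) :
    ∃ E : F₂ →+* T, E.comp α = ι₁ ∧ E.comp β = e' := by
  classical
  let Ω := AlgebraicClosure T
  let j : T →+* Ω := algebraMap T Ω
  have hj : Function.Injective j := (algebraMap T Ω).injective
  letI a3 : Algebra F₀ F₁ := α₀.toAlgebra
  letI a1 : Algebra F₁ F₂ := α.toAlgebra
  letI a2 : Algebra F₁ Ω := (j.comp ι₁).toAlgebra
  letI a4 : Algebra F₀ Ω := (j.comp (ι₁.comp β₀)).toAlgebra
  haveI : CharZero F₁ := charZero_of_injective_ringHom α₀.injective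
  haveI fd1 : FiniteDimensional F₀ F₁ :=
    Module.finite_of_finrank_pos (by rw [h1]; exact Nat.succ_pos n)
  haveI fd2 : FiniteDimensional F₁ F₂ := Module.finite_of_finrank_pos (by rw [h2]; exact hn)
  haveI : Algebra.IsSeparable F₀ F₁ := inferInstance
  haveI : Algebra.IsSeparable F₁ F₂ := inferInstance
  -- the map `e ↦ e ∘ β`
  let Φ : (F₂ →ₐ[F₁] Ω) → (F₁ →ₐ[F₀] Ω) := fun e =>
    { (e : F₂ →+* Ω).comp β with
      commutes' := fun x => by
        show e (β (α₀ x)) = j (ι₁ (β₀ x))
        have h3 : β (α₀ x) = α (β₀ x) := (RingHom.congr_fun hsq x).symm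
        rw [h3]
        exact e.commutes (β₀ x) }
  have hΦ : Function.Injective Φ := by
    intro e e₂ hee
    have hβ : (e : F₂ →+* Ω).comp β = (e₂ : F₂ →+* Ω).comp β := by
      ext x
      exact DFunLike.congr_fun hee x
    have hα : (e : F₂ →+* Ω).comp α = (e₂ : F₂ →+* Ω).comp α := by
      ext x
      show e (algebraMap F₁ F₂ x) = e₂ (algebraMap F₁ F₂ x)
      rw [e.commutes, e₂.commutes]
    have := h20n_ringHom_ext_of_gen α β hgen (e : F₂ →+* Ω) (e₂ : F₂ →+* Ω) hα hβ
    ext x
    exact RingHom.congr_fun this x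
  -- the two distinguished embeddings of `F₁`
  let f0 : F₁ →ₐ[F₀] Ω :=
    { j.comp e'₀ with
      commutes' := fun x => by
        show j (e'₀ (α₀ x)) = j (ι₁ (β₀ x))
        rw [show e'₀ (α₀ x) = ι₁ (β₀ x) from RingHom.congr_fun h0 x] }
  let f1 : F₁ →ₐ[F₀] Ω :=
    { j.comp e' with
      commutes' := fun x => by
        show j (e' (α₀ x)) = j (ι₁ (β₀ x))
        rw [show e' (α₀ x) = ι₁ (β₀ x) from RingHom.congr_fun h' x] }
  have hf01 : f1 ≠ f0 := by
    intro h
    apply hne
    ext x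
    have : f1 x = f0 x := by rw [h]
    exact hj this
  have hf0 : ∀ e, Φ e ≠ f0 := by
    intro e he
    obtain ⟨a, b, hab, hne'⟩ := hex
    apply hne'
    apply e.toRingHom.injective
    show e (α a) = e (β b)
    have h3 : e (β b) = j (e'₀ b) := DFunLike.congr_fun he b
    have h4 : e (α a) = j (ι₁ a) := e.commutes a
    rw [h3, h4, hab]
  -- counting
  have hc2 : Fintype.card (F₂ →ₐ[F₁] Ω) = n := (AlgHom.card F₁ F₂ Ω).trans h2
  have hc1 : Fintype.card (F₁ →ₐ[F₀] Ω) = n + 1 := (AlgHom.card F₀ F₁ Ω).trans h1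
  have himg : (Finset.univ.image Φ).card = n := by
    rw [Finset.card_image_of_injective _ hΦ, Finset.card_univ, hc2]
  have hsub : Finset.univ.image Φ ⊆ Finset.univ.erase f0 := by
    intro f hf
    obtain ⟨e, -, rfl⟩ := Finset.mem_image.mp hf
    exact Finset.mem_erase.mpr ⟨hf0 e, Finset.mem_univ _⟩
  have hcard : (Finset.univ.erase f0).card = n := by
    rw [Finset.card_erase_of_mem (Finset.mem_univ _), Finset.card_univ, hc1]
    rfl
  have heq : Finset.univ.image Φ = Finset.univ.erase f0 :=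
    Finset.eq_of_subset_of_card_le hsub (by rw [hcard, himg])
  have hf1 : f1 ∈ Finset.univ.image Φ := by
    rw [heq]
    exact Finset.mem_erase.mpr ⟨hf01, Finset.mem_univ _⟩
  obtain ⟨e, -, he⟩ := Finset.mem_image.mp hf1
  -- `e` takes values in `T`
  have heα : ∀ x, e (α x) = j (ι₁ x) := fun x => e.commutes x
  have heβ : ∀ x, e (β x) = j (e' x) := fun x => DFunLike.congr_fun he x
  have hrange : ∀ x : F₂, (e : F₂ →+* Ω) x ∈ j.fieldRange := by
    have hle : Subfield.closure (Set.range α ∪ Set.range β) ≤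
        (j.fieldRange).comap (e : F₂ →+* Ω) := by
      rw [Subfield.closure_le]
      rintro x (⟨y, rfl⟩ | ⟨y, rfl⟩)
      · exact ⟨ι₁ y, (heα y).symm⟩
      · exact ⟨e' y, (heβ y).symm⟩
    rw [hgen] at hle
    exact fun x => hle (Subfield.mem_top x)
  let jE : T ≃+* j.fieldRange :=
    RingEquiv.ofBijective j.rangeRestrictField
      ⟨fun a b hab => hj (congrArg Subtype.val hab), j.rangeRestrictField_bijective.2⟩
  let e₀ : F₂ →+* j.fieldRange := (e : F₂ →+* Ω).codRestrict j.fieldRange hrange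
  let E : F₂ →+* T := (jE.symm : j.fieldRange →+* T).comp e₀
  have hE : ∀ x, j (E x) = e x := by
    intro x
    have h3 : jE (E x) = e₀ x := jE.apply_symm_apply (e₀ x)
    exact congrArg Subtype.val h3
  refine ⟨E, ?_, ?_⟩
  · ext x
    apply hj
    rw [RingHom.comp_apply, hE, heα]
  · ext x
    apply hj
    rw [RingHom.comp_apply, hE, heβ]

end Abs

end Fermat.Agent.S36
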