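import Fermat.Agent.S36.H20NormSkel
import Fermat.Agent.S36.H20EmbAbs
import Fermat.Agent.Red.Kron.Fricke
import Fermat.Agent.S35.HK.H41PushCommAll

/-!
# S36, block (N): N-UNIQ, N-EMB and the degrees (helper20)

* `h20n_embUnique : H20EmbUnique`
* `h20n_finrank_alpha`, `h20n_finrank_beta` : `[F₂ : α F₁] = [F₂ : β F₁] = q`
* `h20n_embExists : H20EmbExists`
-/

set_option autoImplicit false
set_option linter.style.haveILetI false
set_option linter.unusedSectionVars false
set_option maxHeartbeats 400000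

open AlgebraicCurve ModularCurve IntermediateField

noncomputable section

namespace Fermat.Agent.S36

open Fermat.Agent.S24 (Kbar FF jBar jdBar cst)
open Fermat.Agent.Red.HKMod
open Fermat.Agent.Red.HKComm
open Fermat.Agent.Red.Kron

section Level

variable (M q : ℕ) [NeZero M] [NeZero q]

/-! ## generation -/

theorem h20n_gen (N : ℕ) [NeZero N] (hq : q.Prime) :
    Subfield.closure
      (Set.range ((heckeAlphaBar Kbar N q : FF N →ₐ[Kbar] FF (N * q)) : FF N →+* FF (N * q)) ∪
        Set.range ((heckeBetaBar Kbar N q : FF N →ₐ[Kbar] FF (N * q)) : FF N →+* FF (N * q)))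
      = ⊤ := by
  rw [eq_top_iff]
  intro f hf
  clear hf
  induction f using kFF_induction_ab N q hq with
  | hc a =>
    apply Subfield.subset_closure
    left
    exact ⟨cst N a, (heckeAlphaBar Kbar N q).commutes a⟩
  | ha x => exact Subfield.subset_closure (Or.inl ⟨x, rfl⟩)
  | hb x => exact Subfield.subset_closure (Or.inr ⟨x, rfl⟩)
  | hadd x y hx hy => exact add_mem hx hy
  | hinv x hx => exact inv_mem hx
  | hmul x y hx hy => exact mul_mem hx hy

/-- **N-UNIQ.** -/
theorem h20n_embUnique : H20EmbUnique := by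
  intro q hq M _ E E' hα hβ
  haveI : NeZero q := ⟨hq.ne_zero⟩
  exact h20n_ringHom_ext_of_gen _ _ (h20n_gen q (M * q) hq) E E'
    (RingHom.ext hα) (RingHom.ext hβ)

/-! ## degrees -/

theorem h20n_psi (hq : q.Prime) (hqM : ¬ q ∣ M) :
    dedekindPsi (M * q * q) = dedekindPsi (M * q) * q := by
  have hcop : M.Coprime q := ((Nat.Prime.coprime_iff_not_dvd hq).mpr hqM).symm
  have hcop2 : M.Coprime (q ^ 2) := Nat.Coprime.pow_right 2 hcop
  have h1 : M * q * q = M * q ^ 2 := by ring
  rw [h1, Fermat.Agent.S21.C1.dedekindPsi_mul hcop2, Fermat.Agent.S21.C1.dedekindPsi_mul hcop,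
    Fermat.Agent.S21.C1.dedekindPsi_prime_pow hq (k := 2) (by norm_num)]
  have h3 := Fermat.Agent.S21.C1.dedekindPsi_prime_pow hq (k := 1) one_pos
  simp only [pow_one, Nat.sub_self, pow_zero] at h3
  rw [h3]
  have : 2 - 1 = 1 := rfl
  rw [this, pow_one]
  ring

theorem h20n_psi_ne (N : ℕ) [NeZero N] : dedekindPsi N ≠ 0 :=
  hksq_dedekindPsi_ne_zero N (NeZero.ne N)

/-- `[F₂ : α F₁] = q`. -/
theorem h20n_finrank_alpha (hq : q.Prime) (hqM : ¬ q ∣ M) :
    letI := algebraAlong (heckeAlphaBar Kbar (M * q) q)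
    Module.finrank (FF (M * q)) (FF (M * q * q)) = q := by
  have h1 := h52deg_deg (M * q) (M * q * q)
    (show M * q * 1 ∣ M * q * q by rw [mul_one]; exact dvd_mul_right _ _)
  rw [← heckeAlphaBar_eq_degenE (M * q) q, h20n_psi M q hq hqM, mul_comm] at h1
  exact Nat.eq_of_mul_eq_mul_left (Nat.pos_of_ne_zero (h20n_psi_ne (M * q))) h1

/-- `[F₂ : β F₁] = q`. -/
theorem h20n_finrank_beta (hq : q.Prime) (hqM : ¬ q ∣ M) :
    letI := algebraAlong (heckeBetaBar Kbar (M * q) q)
    Module.finrank (FF (M * q)) (FF (M * q * q)) = q := by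
  have h1 := Fermat.Agent.S35.h41g_deg (N := M * q) (L := M * q * q) q hq (dvd_refl _)
  rw [← heckeBetaBar_eq_degenE (M * q) q, h20n_psi M q hq hqM, mul_comm] at h1
  exact Nat.eq_of_mul_eq_mul_left (Nat.pos_of_ne_zero (h20n_psi_ne (M * q))) h1

/-! ## the square and the `j`-function -/

/-- `α ∘ β₀ = β ∘ α₀` (both are `x ↦ x(t^q)`). -/
theorem h20n_square (x : FF M) :
    heckeAlphaBar Kbar (M * q) q (heckeBetaBar Kbar M q x) =
      heckeBetaBar Kbar (M * q) q (heckeAlphaBar Kbar M q x) :=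
  Subtype.ext (by
    rw [coe_heckeAlphaBar, coe_heckeBetaBar, coe_heckeBetaBar, coe_heckeAlphaBar])

theorem h20n_coe_j_coeff (N : ℕ) [NeZero N] :
    ((jBar N : FF N) : LaurentSeries Kbar).coeff (-1) = 1 := by
  rw [Fermat.Agent.S24.coe_jBar, coeffEmb_coeff, coeff_jq_neg_one, map_one]

theorem h20n_not_dvd_neg_one (hq : q.Prime) : ¬ (q : ℤ) ∣ (-1 : ℤ) := by
  intro h
  have h1 : (q : ℤ) ∣ 1 := (Int.dvd_neg).mp h
  have h2 : (q : ℤ) ≤ 1 := Int.le_of_dvd one_pos h1
  have h3 : 1 < q := hq.one_lt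
  omega

/-- `j(t^(q²)) ≠ j(t)` in `F₂`. -/
theorem h20n_aa_ne_bb (hq : q.Prime) :
    heckeAlphaBar Kbar (M * q) q (heckeAlphaBar Kbar M q (jBar M)) ≠
      heckeBetaBar Kbar (M * q) q (heckeBetaBar Kbar M q (jBar M)) := by
  intro h
  have h1 := congrArg (fun f : FF (M * q * q) => (f : LaurentSeries Kbar).coeff (-1)) h
  simp only [coe_heckeAlphaBar, coe_heckeBetaBar] at h1
  rw [h20n_coe_j_coeff, qExpand_coeff_of_not_dvd q _ (h20n_not_dvd_neg_one q hq)] at h1
  exact one_ne_zero h1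

/-! ## N-EMB -/

/-- the standard embedding of `F₁`. -/
abbrev h20n_c1 : FF (M * q) →+* LaurentSeries Kbar :=
  algebraMap (FF (M * q)) (LaurentSeries Kbar)

/-- the Fricke involution of `F₁` as a ring homomorphism. -/
abbrev h20n_w (hq : q.Prime) (hqM : ¬ q ∣ M) : FF (M * q) →+* FF (M * q) :=
  ((kFricke M q hq hqM : FF (M * q) ≃ₐ[Kbar] FF (M * q)) : FF (M * q) →+* FF (M * q))

theorem h20n_exists_E11 (hq : q.Prime) (hqM : ¬ q ∣ M) (ζ : Kbar) (hζ : ζ ^ q = 1)
    (hζ1 : ζ ≠ 1) : ∃ E, h20n_IsE11 M q hq hqM ζ E := by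
  have hζ0 : ζ ≠ 0 := by
    rintro rfl
    rw [zero_pow hq.ne_zero] at hζ
    exact zero_ne_one hζ
  obtain ⟨E, hEα, hEβ⟩ := h20n_exists_emb_abs
    (heckeAlphaBar Kbar M q).toRingHom (heckeBetaBar Kbar M q).toRingHom
    (heckeAlphaBar Kbar (M * q) q).toRingHom (heckeBetaBar Kbar (M * q) q).toRingHom
    (RingHom.ext (h20n_square M q)) q hq.pos
    (finrank_heckeAlphaBar M q hq hqM) (h20n_finrank_alpha M q hq hqM)
    (h20n_gen q (M * q) hq)
    (h20n_c1 M q) ((h20n_c1 M q).comp (h20n_w M q hq hqM))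
    ((twistHom ζ hζ0).comp ((h20n_c1 M q).comp (h20n_w M q hq hqM)))
    (RingHom.ext fun x => by
      show (((kFricke M q hq hqM (heckeAlphaBar Kbar M q x)) : FF (M * q)) :
        LaurentSeries Kbar) = ((heckeBetaBar Kbar M q x : FF (M * q)) : LaurentSeries Kbar)
      rw [kFricke_alpha])
    (RingHom.ext fun x => by
      show twistK ζ (((kFricke M q hq hqM (heckeAlphaBar Kbar M q x)) : FF (M * q)) :
        LaurentSeries Kbar) = ((heckeBetaBar Kbar M q x : FF (M * q)) : LaurentSeries Kbar)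
      rw [kFricke_alpha, coe_heckeBetaBar, twistK_qExpand q hζ])
    (by
      intro h
      have h1 := RingHom.congr_fun h (heckeBetaBar Kbar M q (jBar M))
      have h2 : twistK ζ (((kFricke M q hq hqM (heckeBetaBar Kbar M q (jBar M))) : FF (M * q)) :
          LaurentSeries Kbar) =
          (((kFricke M q hq hqM (heckeBetaBar Kbar M q (jBar M))) : FF (M * q)) :
          LaurentSeries Kbar) := h1
      rw [kFricke_beta, coe_heckeAlphaBar] at h2
      have h3 := congrArg (fun s : LaurentSeries Kbar => s.coeff (-1)) h2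
      simp only [coeff_twistK] at h3
      rw [h20n_coe_j_coeff, one_mul, zpow_neg_one] at h3
      exact hζ1 (inv_eq_one.mp h3))
    ⟨heckeAlphaBar Kbar M q (jBar M), heckeBetaBar Kbar M q (jBar M), by
      show (((kFricke M q hq hqM (heckeBetaBar Kbar M q (jBar M))) : FF (M * q)) :
        LaurentSeries Kbar) = ((heckeAlphaBar Kbar M q (jBar M) : FF (M * q)) :
        LaurentSeries Kbar)
      rw [kFricke_beta], h20n_aa_ne_bb M q hq⟩
  exact ⟨E, fun x => RingHom.congr_fun hEα x, fun x => RingHom.congr_fun hEβ x⟩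

theorem h20n_exists_E02 (hq : q.Prime) (hqM : ¬ q ∣ M) : ∃ E, h20n_IsE02 M q hq hqM E := by
  have hgen : Subfield.closure
      (Set.range (heckeBetaBar Kbar (M * q) q).toRingHom ∪
        Set.range (heckeAlphaBar Kbar (M * q) q).toRingHom) = ⊤ := by
    rw [Set.union_comm]
    exact h20n_gen q (M * q) hq
  obtain ⟨E, hEβ, hEα⟩ := h20n_exists_emb_abs
    (heckeBetaBar Kbar M q).toRingHom (heckeAlphaBar Kbar M q).toRingHom
    (heckeBetaBar Kbar (M * q) q).toRingHom (heckeAlphaBar Kbar (M * q) q).toRingHom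
    (RingHom.ext fun x => (h20n_square M q x).symm) q hq.pos
    (finrank_heckeBetaBar M q hq hqM) (h20n_finrank_beta M q hq hqM)
    hgen
    ((h20n_c1 M q).comp (h20n_w M q hq hqM)) (h20n_c1 M q)
    ((qExpand Kbar q : LaurentSeries Kbar →+* LaurentSeries Kbar).comp
      ((h20n_c1 M q).comp (h20n_w M q hq hqM)))
    (RingHom.ext fun x => by
      show ((heckeBetaBar Kbar M q x : FF (M * q)) : LaurentSeries Kbar) =
        (((kFricke M q hq hqM (heckeAlphaBar Kbar M q x)) : FF (M * q)) : LaurentSeries Kbar)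
      rw [kFricke_alpha])
    (RingHom.ext fun x => by
      show qExpand Kbar q (((kFricke M q hq hqM (heckeBetaBar Kbar M q x)) : FF (M * q)) :
          LaurentSeries Kbar) =
        (((kFricke M q hq hqM (heckeAlphaBar Kbar M q x)) : FF (M * q)) : LaurentSeries Kbar)
      rw [kFricke_alpha, kFricke_beta, coe_heckeBetaBar, coe_heckeAlphaBar])
    (by
      intro h
      have h1 := RingHom.congr_fun h (heckeAlphaBar Kbar M q (jBar M))
      have h2 : qExpand Kbar q (((kFricke M q hq hqM (heckeAlphaBar Kbar M q (jBar M))) :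
          FF (M * q)) : LaurentSeries Kbar) =
          ((heckeAlphaBar Kbar M q (jBar M) : FF (M * q)) : LaurentSeries Kbar) := h1
      rw [kFricke_alpha, coe_heckeAlphaBar] at h2
      have h3 : (qExpand Kbar q ((heckeBetaBar Kbar M q (jBar M) : FF (M * q)) :
          LaurentSeries Kbar)).coeff (-1) = ((jBar M : FF M) : LaurentSeries Kbar).coeff (-1) :=
        congrArg (fun s : LaurentSeries Kbar => s.coeff (-1)) h2
      rw [h20n_coe_j_coeff, qExpand_coeff_of_not_dvd q _ (h20n_not_dvd_neg_one q hq)] at h3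
      exact zero_ne_one h3)
    ⟨heckeBetaBar Kbar M q (jBar M), heckeAlphaBar Kbar M q (jBar M), by
      show ((heckeAlphaBar Kbar M q (jBar M) : FF (M * q)) : LaurentSeries Kbar) =
        (((kFricke M q hq hqM (heckeBetaBar Kbar M q (jBar M))) : FF (M * q)) :
        LaurentSeries Kbar)
      rw [kFricke_beta], fun h => h20n_aa_ne_bb M q hq h.symm⟩
  exact ⟨E, fun x => RingHom.congr_fun hEα x, fun x => RingHom.congr_fun hEβ x⟩

end Level

/-- **N-EMB.** -/
theorem h20n_embExists : H20EmbExists := by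
  intro q hq M _ hqM
  haveI : NeZero q := ⟨hq.ne_zero⟩
  exact ⟨fun ζ hζ hζ1 => h20n_exists_E11 M q hq hqM ζ hζ hζ1, h20n_exists_E02 M q hq hqM⟩

end Fermat.Agent.S36
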