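import Fermat.Agent.S36.H20NormSkel
import Fermat.Agent.Red.Kron.NormAbs
import Fermat.Agent.Red.Kron.Emb
import Fermat.Agent.Red.HKComm.Deg
import Fermat.Agent.Red.HKComm.Square
import Fermat.Agent.Red.HKMod

/-!
# S36, block (N) NORMS, leaf N-NORM-A (helper40, prefix `h40na_`)

`h40na_normA : H20NormA` (the exact frozen `Prop` of `S36/H20NormSkel.lean`):
for a prime `q ∤ M`, a primitive `q`-th root of unity `ζ` and embeddings `E b` of
`F₂ = FF (M q q)` of type `E11^{ζ^b}` (`0 < b < q`),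

  `Nm_α u (t) = u(t) · ∏_{0 < b < q} E b u`.

Proof: `[F₂ : α F₁] = q` (`DegStatement` + `ψ(N q) = q ψ(N)` for `q ∣ N`), the `q` embeddings
`E20 = coe`, `E 1, …, E (q-1)` all restrict to `coe` on `α F₁` and are pairwise distinct
(look at the coefficient of `t⁻¹` of the image of `β (w j)`), so the norm is their product
(`norm_eq_prod_of_embeddings`).
-/

set_option autoImplicit false
set_option linter.style.haveILetI false
set_option linter.unusedSectionVars false

open AlgebraicCurve ModularCurve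

noncomputable section

namespace Fermat.Agent.S36

open Fermat.Agent.S24 (jBar embC)
open Fermat.Agent.S37 (Kbar GQ FF cst gal)
open Fermat.Agent.Red.KR (normAlong)
open Fermat.Agent.Red.Kron
open Fermat.Agent.Red.HKComm

/-- the coefficient of `t⁻¹` of `j` is `1`. -/
theorem h40na_coeff_jBar_neg_one (N : ℕ) [NeZero N] :
    ((jBar N : FF N) : LaurentSeries Kbar).coeff (-1) = 1 := by
  have h := coeff_embC_jBar_neg_one (N := N)
  rw [coeffMap_coeff] at h
  have h1 : embC (((jBar N : FF N) : LaurentSeries Kbar).coeff (-1)) = embC 1 := by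
    rw [h, map_one]
  exact embC.injective h1

/-- **degree along `α` at `q ∣ N`.** -/
theorem h40na_finrank_alpha (N q : ℕ) [NeZero N] [NeZero q] (hq : q.Prime) (hqN : q ∣ N) :
    letI := algebraAlong (heckeAlphaBar Kbar N q)
    Module.finrank (FF N) (FF (N * q)) = q := by
  have h1 : N * 1 ∣ N * q := by rw [mul_one]; exact dvd_mul_right N q
  have h := deg N (N * q) h1
  rw [hkdeg_psi_mul_prime N q (Nat.pos_of_ne_zero (NeZero.ne N)) hq, if_pos hqN, mul_comm] at h
  have hN : dedekindPsi N ≠ 0 := hksq_dedekindPsi_ne_zero N (NeZero.ne N)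
  have h2 := Nat.eq_of_mul_eq_mul_left (Nat.pos_of_ne_zero hN) h
  rw [← heckeAlphaBar_eq_degenE] at h2
  exact h2

section Family

variable (M q : ℕ) [NeZero M] [NeZero q]

/-- the family of the `q` embeddings over `α`: `E20` at `0`, `E b` at `b > 0`. -/
def h40naFam (E : ℕ → (FF (M * q * q) →+* LaurentSeries Kbar)) (b : ℕ) :
    FF (M * q * q) →+* LaurentSeries Kbar :=
  if b = 0 then algebraMap (FF (M * q * q)) (LaurentSeries Kbar) else E b

theorem h40naFam_zero (E : ℕ → (FF (M * q * q) →+* LaurentSeries Kbar)) :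
    h40naFam M q E 0 = algebraMap (FF (M * q * q)) (LaurentSeries Kbar) := if_pos rfl

theorem h40naFam_pos (E : ℕ → (FF (M * q * q) →+* LaurentSeries Kbar)) {b : ℕ} (hb : 0 < b) :
    h40naFam M q E b = E b := if_neg hb.ne'

/-- the test element `β (w j)`. -/
def h40naTest (hq : q.Prime) (hqM : ¬ q ∣ M) : FF (M * q * q) :=
  heckeBetaBar Kbar (M * q) q (kFricke M q hq hqM (jBar (M * q)))

theorem h40na_test_E20 (hq : q.Prime) (hqM : ¬ q ∣ M) :
    ((h40naTest M q hq hqM : FF (M * q * q)) : LaurentSeries Kbar).coeff (-1) = 0 := by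
  rw [h40naTest, coe_heckeBetaBar]
  apply qExpand_coeff_of_not_dvd
  intro h
  have h1 : ((q : ℤ)) ∣ 1 := (dvd_neg.mp h)
  have h2 : (q : ℤ) = 1 := by
    have := Int.eq_one_of_dvd_one (by positivity) h1
    exact this
  have h3 : q = 1 := by exact_mod_cast h2
  exact hq.one_lt.ne' h3

theorem h40na_test_E11 (hq : q.Prime) (hqM : ¬ q ∣ M) (ω : Kbar)
    (E : FF (M * q * q) →+* LaurentSeries Kbar) (hE : h20n_IsE11 M q hq hqM ω E) :
    (E (h40naTest M q hq hqM)).coeff (-1) = ω⁻¹ := by
  rw [h40naTest, hE.2, kFricke_kFricke, coeff_twistK, h40na_coeff_jBar_neg_one, zpow_neg_one,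
    one_mul]

theorem h40naFam_injective (hq : q.Prime) (hqM : ¬ q ∣ M) (ζ : Kbar) (hζ : IsPrimitiveRoot ζ q)
    (E : ℕ → (FF (M * q * q) →+* LaurentSeries Kbar))
    (hE : ∀ b : ℕ, 0 < b → b < q → h20n_IsE11 M q hq hqM (ζ ^ b) (E b)) :
    Function.Injective (fun b : Fin q => h40naFam M q E (b : ℕ)) := by
  have hζ0 : ζ ≠ 0 := hζ.ne_zero (NeZero.ne q)
  intro a b hab
  have h1 : (h40naFam M q E (a : ℕ) (h40naTest M q hq hqM)).coeff (-1) =
      (h40naFam M q E (b : ℕ) (h40naTest M q hq hqM)).coeff (-1) := by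
    have := congrArg (fun e : FF (M * q * q) →+* LaurentSeries Kbar =>
      (e (h40naTest M q hq hqM)).coeff (-1)) hab
    exact this
  rcases Nat.eq_zero_or_pos (a : ℕ) with ha | ha <;> rcases Nat.eq_zero_or_pos (b : ℕ) with hb | hb
  · exact Fin.ext (ha.trans hb.symm)
  · exfalso
    rw [ha, h40naFam_zero, h40naFam_pos M q E hb] at h1
    rw [h40na_test_E11 M q hq hqM _ _ (hE b hb b.2)] at h1
    have h2 : (algebraMap (FF (M * q * q)) (LaurentSeries Kbar) (h40naTest M q hq hqM)).coeff (-1)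
        = 0 := h40na_test_E20 M q hq hqM
    rw [h2] at h1
    exact inv_ne_zero (pow_ne_zero _ hζ0) h1.symm
  · exfalso
    rw [hb, h40naFam_zero, h40naFam_pos M q E ha] at h1
    rw [h40na_test_E11 M q hq hqM _ _ (hE a ha a.2)] at h1
    have h2 : (algebraMap (FF (M * q * q)) (LaurentSeries Kbar) (h40naTest M q hq hqM)).coeff (-1)
        = 0 := h40na_test_E20 M q hq hqM
    rw [h2] at h1
    exact inv_ne_zero (pow_ne_zero _ hζ0) h1
  · rw [h40naFam_pos M q E ha, h40naFam_pos M q E hb,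
      h40na_test_E11 M q hq hqM _ _ (hE a ha a.2),
      h40na_test_E11 M q hq hqM _ _ (hE b hb b.2)] at h1
    exact Fin.ext (hζ.pow_inj a.2 b.2 (inv_injective h1))

theorem h40naFam_alpha (hq : q.Prime) (hqM : ¬ q ∣ M) (ζ : Kbar)
    (E : ℕ → (FF (M * q * q) →+* LaurentSeries Kbar))
    (hE : ∀ b : ℕ, 0 < b → b < q → h20n_IsE11 M q hq hqM (ζ ^ b) (E b))
    (b : Fin q) (x : FF (M * q)) :
    h40naFam M q E (b : ℕ) (heckeAlphaBar Kbar (M * q) q x) =
      algebraMap (FF (M * q)) (LaurentSeries Kbar) x := by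
  rcases Nat.eq_zero_or_pos (b : ℕ) with hb | hb
  · rw [hb, h40naFam_zero, IntermediateField.algebraMap_apply,
      IntermediateField.algebraMap_apply]
    exact coe_heckeAlphaBar (L := Kbar) (N := M * q) (ℓ := q) x
  · rw [h40naFam_pos M q E hb]
    exact (hE b hb b.2).1 x

end Family

/-- **N-NORM (a).**  `Nm_α u = E20 u · ∏_{0 < b < q} E11^{ζ^b} u`. -/
theorem h40na_normA : H20NormA := by
  intro q hq M _ hqM
  haveI : NeZero q := ⟨hq.ne_zero⟩
  intro ζ hζ E hE u
  letI := algebraAlong (heckeAlphaBar Kbar (M * q) q)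
  haveI : FiniteDimensional (FF (M * q)) (FF (M * q * q)) :=
    Fermat.Agent.Red.HKMod.finiteAlong_heckeAlphaBar (M * q) q
  haveI : Algebra.IsSeparable (FF (M * q)) (FF (M * q * q)) := inferInstance
  have key := norm_eq_prod_of_embeddings (K := FF (M * q)) (L := FF (M * q * q))
    (algebraMap (FF (M * q)) (LaurentSeries Kbar))
    (fun b : Fin q => h40naFam M q E (b : ℕ))
    (h40naFam_injective M q hq hqM ζ hζ E hE)
    (fun b x => h40naFam_alpha M q hq hqM ζ E hE b x)
    (by rw [Fintype.card_fin]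
        exact (h40na_finrank_alpha (M * q) q hq (dvd_mul_left q M)).symm) u
  have h1 : (∏ b : Fin q, h40naFam M q E (b : ℕ) u) =
      ∏ b ∈ Finset.range q, h40naFam M q E b u :=
    Fin.prod_univ_eq_prod_range (fun b : ℕ => h40naFam M q E b u) q
  have h2 : Finset.range q = insert 0 (Finset.Ioo 0 q) := by
    ext b
    simp only [Finset.mem_range, Finset.mem_insert, Finset.mem_Ioo]
    have := hq.pos
    omega
  have h3 : (0 : ℕ) ∉ Finset.Ioo 0 q := by simp
  show algebraMap (FF (M * q)) (LaurentSeries Kbar) (Algebra.norm (FF (M * q)) u) = _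
  rw [key, h1, h2, Finset.prod_insert h3, h40naFam_zero]
  congr 1
  refine Finset.prod_congr rfl (fun b hb => ?_)
  rw [h40naFam_pos M q E (Finset.mem_Ioo.mp hb).1]

end Fermat.Agent.S36
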