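import Fermat.Agent.S36.H62RegIface
import Fermat.Agent.S36.H59ChartInt
import Fermat.Agent.S36.H40NormA
import Fermat.Agent.S36.H20Emb
import Fermat.Agent.Red.SM.HAlg
import Fermat.Agent.Red.GGChart
import Fermat.Agent.Red.Match
import Fermat.Agent.Red.HKGal
import Fermat.Agent.S37.Inertia

/-!
# S36, block (R) REG, leaf R-GEN (helper40, prefix `h40g_`)

`q` a prime, `q ∣ N` (in use: `N = M q`), `α : F_N → F_{Nq}` the degeneracy map `x ↦ x(t)`,
`I` the inertia group of `A`, `F₀(N) = h53d_F0 N I` the `I`-invariant functions,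
`chart₀(N, t) = h62rChart A N t` the chart over `A₀`.

* `h40g_exists_poly`, `h40g_poly_unique` (Mathlib only): in an extension `L / K` of prime
  degree `q`, every `Z ∉ K` gives the power basis `1, Z, …, Z^(q-1)`.
* `h40g_field` : **`F₀(N q) = F₀(N)(Z)`**: for `Z ∈ F₀(N q)`, `Z ∉ α(F_N)`, every
  `x ∈ F₀(N q)` is `P(Z)` with `P ∈ F₀(N)[T]`, `deg P < q` (coefficients pushed by `α`).
* `h40g_den` : **denominators**: `F₀(N)` is the fraction field of `chart₀(N, t)` (`t` an
  `I`-invariant coordinate over which `F_N` is algebraic, e.g. `t = j, 1/j`): for `a ∈ F₀(N)`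
  there is `s ≠ 0` in `A₀[t] ⊆ chart₀` with `s a ∈ chart₀`.
* `h40g_gen` : **R-GEN**: every `x ∈ F₀(N q)` (in particular every `x ∈ chart₀(N q)`) is
  `P(Z) / α(s)` with `P ∈ chart₀(N, t)[T]`, `deg P < q`, `0 ≠ s ∈ chart₀(N, t)`.
* `h40g_Z_fixed`, `h40g_Z_not_mem_range` : the generator `Z = β β v = v(t^(q²))` of the tower
  (`v ∈ F_M` non-constant, `q ∤ M`) is `I`-invariant if `v` is, and `Z ∉ α(F_{Mq})`.
* `h40g_gen_jB`, `h40g_gen_jB_inv` : R-GEN for the two charts `t = j`, `t = 1/j` of level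
  `M q` and `Z = v(t^(q²))`.
-/

set_option autoImplicit false
set_option linter.style.haveILetI false
set_option linter.unusedSectionVars false

open AlgebraicCurve ModularCurve Polynomial IntermediateField

noncomputable section

namespace Fermat.Agent.S36

open Fermat.Agent.S37 (Kbar GQ FF cst jB gal modelAt ringAdj)
open Fermat.Agent.Red.Kron

/-! ## The power basis of an extension of prime degree (Mathlib only) -/

section Abstract

variable {K L : Type*} [Field K] [Field L] [Algebra K L]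

/-- in an extension of prime degree an element outside the base field is a primitive
element. -/
theorem h40g_adjoin_eq_top {q : ℕ} (hq : q.Prime) (hdeg : Module.finrank K L = q)
    {Z : L} (hZ : Z ∉ Set.range (algebraMap K L)) : K⟮Z⟯ = ⊤ := by
  haveI := IntermediateField.isSimpleOrder_of_finrank_prime K L (by rw [hdeg]; exact hq)
  rcases eq_bot_or_eq_top K⟮Z⟯ with h | h
  · exfalso
    apply hZ
    have h1 : Z ∈ K⟮Z⟯ := IntermediateField.mem_adjoin_simple_self K Z
    rw [h] at h1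
    exact IntermediateField.mem_bot.mp h1
  · exact h

theorem h40g_finite {q : ℕ} (hq : q.Prime) (hdeg : Module.finrank K L = q) :
    FiniteDimensional K L :=
  Module.finite_of_finrank_pos (by rw [hdeg]; exact hq.pos)

theorem h40g_natDegree_minpoly {q : ℕ} (hq : q.Prime) (hdeg : Module.finrank K L = q)
    {Z : L} (hZ : Z ∉ Set.range (algebraMap K L)) : (minpoly K Z).natDegree = q := by
  haveI := h40g_finite hq hdeg
  have hint : IsIntegral K Z := IsIntegral.of_finite K Z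
  have h1 := IntermediateField.adjoin.finrank hint
  rw [← h1, h40g_adjoin_eq_top hq hdeg hZ, IntermediateField.finrank_top', hdeg]

/-- existence of the expansion in the power basis. -/
theorem h40g_exists_poly {q : ℕ} (hq : q.Prime) (hdeg : Module.finrank K L = q)
    {Z : L} (hZ : Z ∉ Set.range (algebraMap K L)) (x : L) :
    ∃ P : K[X], P.natDegree < q ∧ aeval Z P = x := by
  haveI := h40g_finite hq hdeg
  have hint : IsIntegral K Z := IsIntegral.of_finite K Z
  have htop := h40g_adjoin_eq_top hq hdeg hZ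
  have hx : x ∈ K⟮Z⟯ := by rw [htop]; exact IntermediateField.mem_top
  have hx' : x ∈ (K⟮Z⟯).toSubalgebra := hx
  rw [IntermediateField.adjoin_simple_toSubalgebra_of_isAlgebraic hint.isAlgebraic,
    Algebra.adjoin_singleton_eq_range_aeval] at hx'
  obtain ⟨P₀, hP₀⟩ := hx'
  have hmonic : (minpoly K Z).Monic := minpoly.monic hint
  refine ⟨P₀ %ₘ minpoly K Z, ?_, ?_⟩
  · have h1 : (P₀ %ₘ minpoly K Z).natDegree < (minpoly K Z).natDegree :=
      Polynomial.natDegree_modByMonic_lt _ hmonic (minpoly.ne_one K Z)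
    rwa [h40g_natDegree_minpoly hq hdeg hZ] at h1
  · have h1 := Polynomial.modByMonic_add_div P₀ (minpoly K Z)
    have h2 := congrArg (aeval Z) h1
    rw [map_add, map_mul, minpoly.aeval, zero_mul, add_zero] at h2
    rw [h2]
    exact hP₀

/-- uniqueness of the expansion in the power basis. -/
theorem h40g_poly_unique {q : ℕ} (hq : q.Prime) (hdeg : Module.finrank K L = q)
    {Z : L} (hZ : Z ∉ Set.range (algebraMap K L)) {P P' : K[X]} (hP : P.natDegree < q)
    (hP' : P'.natDegree < q) (h : aeval Z P = aeval Z P') : P = P' := by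
  haveI := h40g_finite hq hdeg
  by_contra hne
  have h0 : P - P' ≠ 0 := sub_ne_zero.mpr hne
  have h1 : aeval Z (P - P') = 0 := by rw [map_sub, h, sub_self]
  have h2' := minpoly.degree_le_of_ne_zero K Z h0 h1
  have h2 : (minpoly K Z).natDegree ≤ (P - P').natDegree :=
    Polynomial.natDegree_le_natDegree h2'
  rw [h40g_natDegree_minpoly hq hdeg hZ] at h2
  have h3 : (P - P').natDegree ≤ max P.natDegree P'.natDegree := natDegree_sub_le P P'
  have h4 : max P.natDegree P'.natDegree < q := max_lt hP hP'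
  omega

end Abstract

/-! ## The Galois action as a ring homomorphism -/

/-- the action of `σ` on `FF N` as a ring homomorphism. -/
def h40gGal (N : ℕ) (σ : GQ) : FF N →+* FF N :=
  (SemilinearAut.toRingAut (gal N σ)).toRingHom

theorem h40gGal_apply (N : ℕ) (σ : GQ) (x : FF N) : h40gGal N σ x = gal N σ • x := rfl

theorem h40g_gal_alpha (N ℓ : ℕ) [NeZero N] [NeZero ℓ] (σ : GQ) (x : FF N) :
    gal (N * ℓ) σ • heckeAlphaBar Kbar N ℓ x = heckeAlphaBar Kbar N ℓ (gal N σ • x) := by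
  have h := Fermat.Agent.Red.HKGal.intertwines_heckeAlphaBar N ℓ σ x
  exact h

theorem h40g_gal_beta (N ℓ : ℕ) [NeZero N] [NeZero ℓ] (σ : GQ) (x : FF N) :
    gal (N * ℓ) σ • heckeBetaBar Kbar N ℓ x = heckeBetaBar Kbar N ℓ (gal N σ • x) := by
  have h := Fermat.Agent.Red.HKGal.intertwines_heckeBetaBar N ℓ σ x
  exact h

/-! ## `F₀(N q) = F₀(N)(Z)` -/

section Field

variable (N q : ℕ) [NeZero N] [NeZero q]

/-- the degeneracy map `α` as a ring homomorphism. -/
abbrev h40gA : FF N →+* FF (N * q) :=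
  ((heckeAlphaBar Kbar N q : FF N →ₐ[Kbar] FF (N * q)) : FF N →+* FF (N * q))

/-- existence and uniqueness of the expansion `x = P(Z)`, `deg P < q`, over `α(F_N)`. -/
theorem h40g_exists_unique (hq : q.Prime) (hqN : q ∣ N) (Z : FF (N * q))
    (hZ : Z ∉ Set.range (heckeAlphaBar Kbar N q)) :
    (∀ x : FF (N * q), ∃ P : (FF N)[X], P.natDegree < q ∧ P.eval₂ (h40gA N q) Z = x) ∧
    (∀ P P' : (FF N)[X], P.natDegree < q → P'.natDegree < q →
      P.eval₂ (h40gA N q) Z = P'.eval₂ (h40gA N q) Z → P = P') := by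
  letI := algebraAlong (heckeAlphaBar Kbar N q)
  have hdeg : Module.finrank (FF N) (FF (N * q)) = q := h40na_finrank_alpha N q hq hqN
  have hZ' : Z ∉ Set.range (algebraMap (FF N) (FF (N * q))) := hZ
  refine ⟨fun x => ?_, fun P P' hP hP' h => ?_⟩
  · obtain ⟨P, hP, hPx⟩ := h40g_exists_poly hq hdeg hZ' x
    exact ⟨P, hP, hPx⟩
  · exact h40g_poly_unique hq hdeg hZ' hP hP' h

/-- **`F₀(N q) = F₀(N)(Z)`.**  For an `I`-invariant `Z ∉ α(F_N)`, every `I`-invariant function
of level `N q` is a polynomial of degree `< q` in `Z` with `I`-invariant coefficients of level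
`N`. -/
theorem h40g_field (hq : q.Prime) (hqN : q ∣ N) (I : Subgroup GQ) (Z : FF (N * q))
    (hZI : Z ∈ h53d_F0 (N * q) I) (hZ : Z ∉ Set.range (heckeAlphaBar Kbar N q))
    (x : FF (N * q)) (hx : x ∈ h53d_F0 (N * q) I) :
    ∃ P : (FF N)[X], P.natDegree < q ∧ (∀ i, P.coeff i ∈ h53d_F0 N I) ∧
      P.eval₂ (h40gA N q) Z = x := by
  obtain ⟨hex, huniq⟩ := h40g_exists_unique N q hq hqN Z hZ
  obtain ⟨P, hP, hPx⟩ := hex x
  refine ⟨P, hP, fun i σ hσ => ?_, hPx⟩
  have hcomm : (h40gA N q).comp (h40gGal N σ) = (h40gGal (N * q) σ).comp (h40gA N q) := by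
    refine RingHom.ext fun y => ?_
    show heckeAlphaBar Kbar N q (gal N σ • y) = gal (N * q) σ • heckeAlphaBar Kbar N q y
    rw [h40g_gal_alpha]
  have h1 : (P.map (h40gGal N σ)).eval₂ (h40gA N q) Z = P.eval₂ (h40gA N q) Z := by
    rw [Polynomial.eval₂_map, hcomm]
    have hZσ : h40gGal (N * q) σ Z = Z := hZI σ hσ
    have h2 := Polynomial.hom_eval₂ P (h40gA N q) (h40gGal (N * q) σ) Z
    rw [hZσ] at h2
    rw [← h2, hPx]
    exact hx σ hσ
  have h3 : P.map (h40gGal N σ) = P :=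
    huniq _ _ (lt_of_le_of_lt (Polynomial.natDegree_map_le) hP) hP h1
  have h4 := congrArg (fun p : (FF N)[X] => p.coeff i) h3
  simp only [Polynomial.coeff_map] at h4
  exact h4

end Field

/-! ## Denominators: `F₀(N)` is the fraction field of `chart₀(N, t)` -/

section Den

variable (A : ValuationSubring Kbar) (N : ℕ) [NeZero N]

theorem h40g_ringAdj0_le_chart (t : FF N)
    (ht : ∀ σ ∈ A.inertiaSubgroupIn ℚ, gal N σ • t = t) :
    h59cRingAdj0 N A t ≤ h62rChart A N t := by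
  intro y hy
  refine ⟨?_, ?_⟩
  · exact Fermat.Agent.Red.Match.ringAdj_le_modelAt N A t (h59c_ringAdj0_le N A t hy)
  · exact h59c_ringAdj0_fixed N A t ht hy

set_option synthInstance.maxHeartbeats 400000 in
/-- every function of level `N` is algebraic over `A₀[t]`. -/
theorem h40g_isAlgebraic (t : FF N)
    (halg : ∀ y : FF N, IsAlgebraic (Algebra.adjoin Kbar {t}) y) (a : FF N) :
    IsAlgebraic (h59cRingAdj0 N A t) a := by
  obtain ⟨d₀, hd₀, hint⟩ := (halg a).exists_integral_multiple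
  have hd₀' : ((d₀ : Algebra.adjoin Kbar {t}) : FF N) ≠ 0 := fun h => hd₀ (Subtype.ext h)
  have hint' : IsIntegral (Algebra.adjoin Kbar {t}) ((d₀ : FF N) * a) := hint
  obtain ⟨a₁, ha₁, h1⟩ := Fermat.Agent.Red.GG.GGC97_clear A t _ hint'
  have hd₀int : IsIntegral (Algebra.adjoin Kbar {t}) (d₀ : FF N) := by
    have : (d₀ : FF N) = algebraMap (Algebra.adjoin Kbar {t}) (FF N) d₀ := rfl
    rw [this]
    exact isIntegral_algebraMap
  obtain ⟨a₂, ha₂, h2⟩ := Fermat.Agent.Red.GG.GGC97_clear A t _ hd₀int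
  have hc1 : cst N (a₁ : Kbar) ≠ 0 := fun h =>
    ha₁ ((algebraMap Kbar (FF N)).injective (h.trans (map_zero _).symm))
  have hc2 : cst N (a₂ : Kbar) ≠ 0 := fun h =>
    ha₂ ((algebraMap Kbar (FF N)).injective (h.trans (map_zero _).symm))
  -- the two integral elements
  have hx1 : IsIntegral (h59cRingAdj0 N A t) (cst N (a₁ : Kbar) * ((d₀ : FF N) * a)) :=
    (h59c_mem_modelAt_iff N A t _).mp h1
  have hx2 : IsIntegral (h59cRingAdj0 N A t) (cst N (a₂ : Kbar) * (d₀ : FF N)) :=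
    (h59c_mem_modelAt_iff N A t _).mp h2
  have hx3 : IsIntegral (h59cRingAdj0 N A t) (cst N (a₁ : Kbar)) :=
    (h59c_mem_modelAt_iff N A t _).mp
      (Fermat.Agent.Red.Match.cst_mem_modelAt N A t a₁.2)
  have hx4 : IsIntegral (h59cRingAdj0 N A t) (cst N (a₂ : Kbar)) :=
    (h59c_mem_modelAt_iff N A t _).mp
      (Fermat.Agent.Red.Match.cst_mem_modelAt N A t a₂.2)
  have e : a = (cst N (a₁ : Kbar) * ((d₀ : FF N) * a)) * cst N (a₂ : Kbar) *
      ((cst N (a₂ : Kbar) * (d₀ : FF N)) * cst N (a₁ : Kbar))⁻¹ := by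
    field_simp
  rw [e]
  exact ((hx1.isAlgebraic).mul (hx4.isAlgebraic)).mul ((hx2.isAlgebraic).mul
    (hx3.isAlgebraic)).inv

set_option synthInstance.maxHeartbeats 400000 in
/-- **denominators.**  For an `I`-invariant function `a` of level `N` there is `s ≠ 0` in
`A₀[t]` with `s a` in the chart over `A₀`. -/
theorem h40g_den (t : FF N)
    (halg : ∀ y : FF N, IsAlgebraic (Algebra.adjoin Kbar {t}) y)
    (ht : ∀ σ ∈ A.inertiaSubgroupIn ℚ, gal N σ • t = t)
    (a : FF N) (ha : a ∈ h53d_F0 N (A.inertiaSubgroupIn ℚ)) :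
    ∃ s : FF N, s ∈ h59cRingAdj0 N A t ∧ s ≠ 0 ∧ s ∈ h62rChart A N t ∧
      s * a ∈ h62rChart A N t := by
  obtain ⟨y, hy0, hyint⟩ := (h40g_isAlgebraic A N t halg a).exists_integral_multiple
  have hy0' : (y : FF N) ≠ 0 := fun h => hy0 (Subtype.ext h)
  have hyint' : IsIntegral (h59cRingAdj0 N A t) ((y : FF N) * a) := hyint
  have hyc : (y : FF N) ∈ h62rChart A N t := h40g_ringAdj0_le_chart A N t ht y.2
  refine ⟨(y : FF N), y.2, hy0', hyc, ?_, ?_⟩
  · exact (h59c_mem_modelAt_iff N A t _).mpr hyint'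
  · exact mul_mem (s := (h53d_F0 N (A.inertiaSubgroupIn ℚ))) hyc.2 ha

/-- common denominators for finitely many `I`-invariant functions. -/
theorem h40g_den_finset (t : FF N)
    (halg : ∀ y : FF N, IsAlgebraic (Algebra.adjoin Kbar {t}) y)
    (ht : ∀ σ ∈ A.inertiaSubgroupIn ℚ, gal N σ • t = t)
    (S : Finset (FF N)) (hS : ∀ a ∈ S, a ∈ h53d_F0 N (A.inertiaSubgroupIn ℚ)) :
    ∃ s : FF N, s ≠ 0 ∧ s ∈ h62rChart A N t ∧ ∀ a ∈ S, s * a ∈ h62rChart A N t := by
  classical
  induction S using Finset.induction_on with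
  | empty => exact ⟨1, one_ne_zero, one_mem _, fun a ha => absurd ha (Finset.notMem_empty a)⟩
  | insert b S _ ih =>
    obtain ⟨s, hs0, hs, hsa⟩ := ih (fun a ha => hS a (Finset.mem_insert_of_mem ha))
    obtain ⟨s', -, hs'0, hs', hs'b⟩ := h40g_den A N t halg ht b (hS b (Finset.mem_insert_self b S))
    refine ⟨s * s', mul_ne_zero hs0 hs'0, mul_mem hs hs', fun a ha => ?_⟩
    rcases Finset.mem_insert.mp ha with rfl | ha
    · rw [mul_assoc]
      exact mul_mem hs hs'b
    · rw [mul_right_comm]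
      exact mul_mem (hsa a ha) hs'

end Den

/-! ## R-GEN -/

section Gen

variable (A : ValuationSubring Kbar) (N q : ℕ) [NeZero N] [NeZero q]

/-- **R-GEN.**  `q ∣ N` a prime, `t` an `I`-invariant coordinate of level `N`, `Z` an
`I`-invariant function of level `N q` outside `α(F_N)`.  Every `I`-invariant function `x` of
level `N q` (in particular every element of the chart over `A₀`) is `P(Z) / α(s)` with
`P ∈ chart₀(N, t)[T]`, `deg P < q`, and `0 ≠ s ∈ chart₀(N, t)`. -/
theorem h40g_gen (hq : q.Prime) (hqN : q ∣ N) (t : FF N)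
    (halg : ∀ y : FF N, IsAlgebraic (Algebra.adjoin Kbar {t}) y)
    (ht : ∀ σ ∈ A.inertiaSubgroupIn ℚ, gal N σ • t = t)
    (Z : FF (N * q)) (hZI : Z ∈ h53d_F0 (N * q) (A.inertiaSubgroupIn ℚ))
    (hZ : Z ∉ Set.range (heckeAlphaBar Kbar N q))
    (x : FF (N * q)) (hx : x ∈ h53d_F0 (N * q) (A.inertiaSubgroupIn ℚ)) :
    ∃ (P : (FF N)[X]) (s : FF N), s ≠ 0 ∧ s ∈ h62rChart A N t ∧
      (∀ i, P.coeff i ∈ h62rChart A N t) ∧ P.natDegree < q ∧
      heckeAlphaBar Kbar N q s * x = P.eval₂ (h40gA N q) Z := by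
  classical
  obtain ⟨P₀, hdeg, hcoeff, hPx⟩ := h40g_field N q hq hqN _ Z hZI hZ x hx
  obtain ⟨s, hs0, hs, hsa⟩ := h40g_den_finset A N t halg ht
    ((Finset.range q).image fun i => P₀.coeff i) (fun a ha => by
      obtain ⟨i, -, rfl⟩ := Finset.mem_image.mp ha
      exact hcoeff i)
  refine ⟨C s * P₀, s, hs0, hs, fun i => ?_, ?_, ?_⟩
  · rw [Polynomial.coeff_C_mul]
    by_cases hi : i < q
    · exact hsa _ (Finset.mem_image.mpr ⟨i, Finset.mem_range.mpr hi, rfl⟩)
    · rw [Polynomial.coeff_eq_zero_of_natDegree_lt (lt_of_lt_of_le hdeg (not_lt.mp hi)),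
        mul_zero]
      exact zero_mem _
  · exact lt_of_le_of_lt (Polynomial.natDegree_C_mul_le s P₀) hdeg
  · rw [Polynomial.eval₂_mul, Polynomial.eval₂_C, hPx]
    rfl

end Gen

/-! ## The generator `Z = v(t^(q²))` -/

section Z

variable (M q : ℕ) [NeZero M] [NeZero q]

/-- `Z = β β v = v(t^(q²))`. -/
def h40gZ (v : FF M) : FF (M * q * q) :=
  heckeBetaBar Kbar (M * q) q (heckeBetaBar Kbar M q v)

theorem h40g_Z_fixed (I : Subgroup GQ) (v : FF M) (hv : v ∈ h53d_F0 M I) :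
    h40gZ M q v ∈ h53d_F0 (M * q * q) I := by
  intro σ hσ
  rw [h40gZ, h40g_gal_beta, h40g_gal_beta, hv σ hσ]

/-- a series `s` with `s(ζ t) = s(t^e)`, `e ≥ 2`, `ζ ≠ 0`, is constant. -/
theorem h40g_coeff_eq_zero (e : ℕ) [NeZero e] (he : 1 < e) (ζ : Kbar) (hζ : ζ ≠ 0)
    (s : LaurentSeries Kbar) (h : twistK ζ s = qExpand Kbar e s) :
    ∀ n : ℤ, n ≠ 0 → s.coeff n = 0 := by
  have key : ∀ k : ℕ, ∀ n : ℤ, n.natAbs = k → n ≠ 0 → s.coeff n = 0 := by
    intro k
    induction k using Nat.strong_induction_on with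
    | _ k ih =>
      intro n hnk hn0
      have h1 := congrArg (fun f : LaurentSeries Kbar => f.coeff n) h
      simp only [coeff_twistK] at h1
      have hz : ζ ^ n ≠ 0 := zpow_ne_zero _ hζ
      by_cases hdvd : (e : ℤ) ∣ n
      · obtain ⟨n₁, rfl⟩ := hdvd
        rw [qExpand_coeff_mul] at h1
        have hn1 : n₁ ≠ 0 := by
          rintro rfl
          simp at hn0
        have hlt : n₁.natAbs < k := by
          rw [← hnk, Int.natAbs_mul, Int.natAbs_natCast]
          exact (Nat.lt_mul_iff_one_lt_left (Int.natAbs_pos.mpr hn1)).mpr he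
        rw [ih _ hlt n₁ rfl hn1] at h1
        rcases mul_eq_zero.mp h1 with h4 | h4
        · exact h4
        · exact absurd h4 hz
      · rw [qExpand_coeff_of_not_dvd e _ hdvd] at h1
        rcases mul_eq_zero.mp h1 with h4 | h4
        · exact h4
        · exact absurd h4 hz
  intro n hn
  exact key _ n rfl hn

/-- a function of level `M` all of whose `q`-expansion coefficients of index `≠ 0` vanish is a
constant. -/
theorem h40g_eq_cst_of_coeff (v : FF M)
    (h : ∀ n : ℤ, n ≠ 0 → ((v : FF M) : LaurentSeries Kbar).coeff n = 0) :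
    v = cst M (((v : FF M) : LaurentSeries Kbar).coeff 0) := by
  apply Subtype.ext
  have h1 : ((cst M (((v : FF M) : LaurentSeries Kbar).coeff 0) : FF M) : LaurentSeries Kbar) =
      HahnSeries.C (((v : FF M) : LaurentSeries Kbar).coeff 0) := by
    change algebraMap Kbar (LaurentSeries Kbar) _ = HahnSeries.C _
    rw [algebraMap_laurentSeries_eq_single]
    rfl
  rw [h1]
  ext n
  by_cases hn : n = 0
  · subst hn
    rw [HahnSeries.C_apply, HahnSeries.coeff_single_same]
  · rw [h n hn, HahnSeries.C_apply, HahnSeries.coeff_single_of_ne hn]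

/-- **the generator of the tower is not of level `M q`**: for a non-constant `v ∈ F_M`
(`q ∤ M`), `Z = v(t^(q²)) ∉ α(F_{Mq})`. -/
theorem h40g_Z_not_mem_range (hq : q.Prime) (hqM : ¬ q ∣ M) (v : FF M)
    (hv : v ∉ Set.range (cst M)) :
    h40gZ M q v ∉ Set.range (heckeAlphaBar Kbar (M * q) q) := by
  rintro ⟨y, hy⟩
  apply hv
  haveI : NeZero ((q : ℕ) : Kbar) := ⟨by exact_mod_cast NeZero.ne q⟩
  obtain ⟨ζ, hζ⟩ := HasEnoughRootsOfUnity.exists_primitiveRoot Kbar q
  have hζ0 : ζ ≠ 0 := hζ.ne_zero (NeZero.ne q)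
  have hζ1 : ζ ≠ 1 := fun h => hq.one_lt.ne' (by
    have := hζ.unique (h ▸ IsPrimitiveRoot.one)
    exact this)
  obtain ⟨E, hE⟩ := h20n_exists_E11 M q hq hqM ζ hζ.pow_eq_one hζ1
  -- `E Z` computed in two ways
  have h1 : E (h40gZ M q v) = twistK ζ ((v : FF M) : LaurentSeries Kbar) := by
    rw [h40gZ, hE.2, kFricke_beta, coe_heckeAlphaBar]
  have h2 : E (h40gZ M q v) = ((y : FF (M * q)) : LaurentSeries Kbar) := by
    rw [← hy, hE.1]
  have h3 : ((y : FF (M * q)) : LaurentSeries Kbar) =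
      qExpand Kbar (q * q) ((v : FF M) : LaurentSeries Kbar) := by
    have h4 := congrArg (fun f : FF (M * q * q) => (f : LaurentSeries Kbar)) hy
    simp only [coe_heckeAlphaBar] at h4
    rw [h4, h40gZ, coe_heckeBetaBar, coe_heckeBetaBar, qExpand_qExpand]
  have h5 : twistK ζ ((v : FF M) : LaurentSeries Kbar) =
      qExpand Kbar (q * q) ((v : FF M) : LaurentSeries Kbar) := by
    rw [← h1, h2, h3]
  have hqq : 1 < q * q := by
    have := hq.one_lt
    nlinarith
  have h6 := h40g_coeff_eq_zero (q * q) hqq ζ hζ0 _ h5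
  exact ⟨_, (h40g_eq_cst_of_coeff M v h6).symm⟩

/-- `j` is not constant. -/
theorem h40g_jB_not_cst : jB M ∉ Set.range (cst M) := by
  rintro ⟨c, hc⟩
  have h1 : ((cst M c : FF M) : LaurentSeries Kbar).coeff (-1) =
      ((jB M : FF M) : LaurentSeries Kbar).coeff (-1) := by rw [hc]
  have h2 : ((cst M c : FF M) : LaurentSeries Kbar) = HahnSeries.C c := by
    change algebraMap Kbar (LaurentSeries Kbar) c = HahnSeries.C c
    rw [algebraMap_laurentSeries_eq_single]
    rfl
  have h3 : ((jB M : FF M) : LaurentSeries Kbar).coeff (-1) = 1 := h40na_coeff_jBar_neg_one M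
  rw [h2, h3, HahnSeries.C_apply, HahnSeries.coeff_single_of_ne (by norm_num)] at h1
  exact zero_ne_one h1

/-- **R-GEN for the finite chart of level `M q`** and `Z = v(t^(q²))`, `v ∈ F₀(M)` non-constant:
every `I`-invariant function `x` of level `M q²` is `P(Z) / α(s)` with
`P ∈ chart₀(M q, j)[T]`, `deg P < q`, `0 ≠ s ∈ chart₀(M q, j)`. -/
theorem h40g_gen_jB (A : ValuationSubring Kbar) (hq : q.Prime) (hqM : ¬ q ∣ M) (v : FF M)
    (hvI : v ∈ h53d_F0 M (A.inertiaSubgroupIn ℚ)) (hv : v ∉ Set.range (cst M))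
    (x : FF (M * q * q)) (hx : x ∈ h53d_F0 (M * q * q) (A.inertiaSubgroupIn ℚ)) :
    ∃ (P : (FF (M * q))[X]) (s : FF (M * q)), s ≠ 0 ∧ s ∈ h62rChart A (M * q) (jB (M * q)) ∧
      (∀ i, P.coeff i ∈ h62rChart A (M * q) (jB (M * q))) ∧ P.natDegree < q ∧
      heckeAlphaBar Kbar (M * q) q s * x = P.eval₂ (h40gA (M * q) q) (h40gZ M q v) :=
  h40g_gen A (M * q) q hq (dvd_mul_left q M) (jB (M * q))
    (Fermat.Agent.Red.SM.HAlg.h81a_halg_jB (M * q))
    (fun σ _ => Fermat.Agent.S37.GalI.gal_smul_jB (N := M * q) σ)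
    (h40gZ M q v) (h40g_Z_fixed M q _ v hvI) (h40g_Z_not_mem_range M q hq hqM v hv) x hx

/-- **R-GEN for the chart at infinity of level `M q`** and `Z = v(t^(q²))`. -/
theorem h40g_gen_jB_inv (A : ValuationSubring Kbar) (hq : q.Prime) (hqM : ¬ q ∣ M) (v : FF M)
    (hvI : v ∈ h53d_F0 M (A.inertiaSubgroupIn ℚ)) (hv : v ∉ Set.range (cst M))
    (x : FF (M * q * q)) (hx : x ∈ h53d_F0 (M * q * q) (A.inertiaSubgroupIn ℚ)) :
    ∃ (P : (FF (M * q))[X]) (s : FF (M * q)), s ≠ 0 ∧ s ∈ h62rChart A (M * q) (jB (M * q))⁻¹ ∧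
      (∀ i, P.coeff i ∈ h62rChart A (M * q) (jB (M * q))⁻¹) ∧ P.natDegree < q ∧
      heckeAlphaBar Kbar (M * q) q s * x = P.eval₂ (h40gA (M * q) q) (h40gZ M q v) :=
  h40g_gen A (M * q) q hq (dvd_mul_left q M) (jB (M * q))⁻¹
    (Fermat.Agent.Red.SM.HAlg.h81a_halg_jB_inv (M * q))
    (fun σ _ => Fermat.Agent.S37.GalI.gal_smul_jB_inv (N := M * q) σ)
    (h40gZ M q v) (h40g_Z_fixed M q _ v hvI) (h40g_Z_not_mem_range M q hq hqM v hv) x hx

end Z


end Fermat.Agent.S36
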