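import Fermat.Agent.S36.H53DescIface

/-!
# S36, block (D), leaf D-COEFF (helper27)

`h27k_descCoeff : DescCoeff`: a function of `FF N` is invariant under the subgroup `I` of `G_ℚ`
iff all its `q`-expansion coefficients are fixed by `I` (the Galois action is coefficientwise).
-/

set_option autoImplicit false

open AlgebraicCurve ModularCurve

noncomputable section

namespace Fermat.Agent.S36

open Fermat.Agent.S37 (Kbar GQ FF cst gal IsRat)

/-- the `q`-expansion coefficients of `σ • f` are the `σ`-conjugates of those of `f`. -/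
theorem h27k_coeff_gal_smul (N : ℕ) (σ : GQ) (f : FF N) (n : ℤ) :
    ((gal N σ • f : FF N) : LaurentSeries Kbar).coeff n = σ ((f : LaurentSeries Kbar).coeff n) := by
  rw [coe_arithmeticGalois_smul, coeffMap_coeff]
  rfl

/-- `σ • f = f` iff `σ` fixes all `q`-expansion coefficients of `f`. -/
theorem h27k_gal_smul_eq_iff (N : ℕ) (σ : GQ) (f : FF N) :
    gal N σ • f = f ↔ ∀ n : ℤ, σ ((f : LaurentSeries Kbar).coeff n) =
      (f : LaurentSeries Kbar).coeff n := by
  constructor
  · intro h n
    rw [← h27k_coeff_gal_smul, h]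
  · intro h
    apply Subtype.ext
    apply HahnSeries.ext
    funext n
    rw [h27k_coeff_gal_smul, h n]

/-- **D-COEFF.** -/
theorem h27k_descCoeff : DescCoeff := by
  intro N _ I f
  rw [h53d_mem_F0]
  constructor
  · intro h n σ hσ
    exact (h27k_gal_smul_eq_iff N σ f).mp (h σ hσ) n
  · intro h σ hσ
    exact (h27k_gal_smul_eq_iff N σ f).mpr (fun n => h n σ hσ)

end Fermat.Agent.S36
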