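import Mathlib
import Fermat.Agent.PT.Glob.H55InertVal
import Fermat.Agent.LGC.H57Teich

/-!
# S36, block BASE (helper59): the inertia field `K₀ = ℚ̄^I` and its discrete valuation ring `A₀`

Let `A` be a valuation subring of `ℚ̄` over the prime `q` and `I = A.inertiaSubgroupIn ℚ`.

* `h59bK0 A` : the inertia field, `IntermediateField.fixedField I`.
* `h59bA0 A` : the valuation subring `A ∩ K₀` of `K₀`.
* `h59b_exists_zpow_mul_unit` : every non-zero element of `K₀` is `q ^ j * u`, `u ∈ A₀ˣ`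
  (from the landed `h55v_kInertVal`).
* `h59b_isDVR` : `A₀` is a discrete valuation ring; `h59b_irreducible` : `q` is a uniformiser;
  `h59b_maximalIdeal` : `𝔪_{A₀} = (q)`.
* `h59bIncl A : A₀ →+* A`, local, injective; `h59b_incl_mem_maximalIdeal_iff`;
  `h59b_residue_surjective` : `A₀ → A / 𝔪_A` is surjective (the residue field of `A₀` is the
  residue field of `A`; from the landed `h57_exists_inertia_fixed`).
-/

set_option autoImplicit false

namespace Fermat.Agent.S36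

open IsLocalRing

noncomputable section

/-- the algebraic closure of `ℚ` (local abbreviation). -/
abbrev H59Qb : Type := AlgebraicClosure ℚ

/-- the inertia field of `A`. -/
def h59bK0 (A : ValuationSubring H59Qb) : IntermediateField ℚ H59Qb :=
  IntermediateField.fixedField (A.inertiaSubgroupIn ℚ)

theorem h59b_mem_K0_iff (A : ValuationSubring H59Qb) (x : H59Qb) :
    x ∈ h59bK0 A ↔ ∀ σ ∈ A.inertiaSubgroupIn ℚ, σ x = x :=
  IntermediateField.mem_fixedField_iff _ _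

/-- the valuation subring `A ∩ K₀` of the inertia field. -/
def h59bA0 (A : ValuationSubring H59Qb) : ValuationSubring (h59bK0 A) :=
  A.comap (algebraMap (h59bK0 A) H59Qb)

theorem h59b_mem_A0_iff (A : ValuationSubring H59Qb) (x : h59bK0 A) :
    x ∈ h59bA0 A ↔ (x : H59Qb) ∈ A := Iff.rfl

/-- membership in the non-units of a valuation subring, in terms of the inverse. -/
theorem h59b_mem_nonunits_aux {F : Type*} [Field F] (S : ValuationSubring F) (x : F) :
    x ∈ S.nonunits ↔ x = 0 ∨ x⁻¹ ∉ S := by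
  rcases eq_or_ne x 0 with rfl | hx
  · simp
  · rw [ValuationSubring.mem_nonunits_iff, ← ValuationSubring.valuation_le_one_iff, map_inv₀,
      not_le]
    have hv : S.valuation x ≠ 0 := (Valuation.ne_zero_iff _).mpr hx
    constructor
    · intro h
      exact Or.inr ((one_lt_inv₀ (zero_lt_iff.mpr hv)).mpr h)
    · rintro (h | h)
      · exact absurd h hx
      · exact (one_lt_inv₀ (zero_lt_iff.mpr hv)).mp h

theorem h59b_mem_nonunits_A0_iff (A : ValuationSubring H59Qb) (x : h59bK0 A) :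
    x ∈ (h59bA0 A).nonunits ↔ (x : H59Qb) ∈ A.nonunits := by
  rw [h59b_mem_nonunits_aux, h59b_mem_nonunits_aux, h59b_mem_A0_iff]
  simp

theorem h59b_q_mem_nonunits (A : ValuationSubring H59Qb) {q : ℕ} (hA : A.LiesOverPrime q) :
    ((q : ℕ) : h59bK0 A) ∈ (h59bA0 A).nonunits := by
  rw [h59b_mem_nonunits_A0_iff]
  have h : ((q : ℕ) : H59Qb) ∈ A.nonunits := hA
  simpa using h

theorem h59b_q_ne_zero (A : ValuationSubring H59Qb) {q : ℕ} (hq : q.Prime) :
    ((q : ℕ) : h59bK0 A) ≠ 0 := by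
  exact_mod_cast hq.ne_zero

theorem h59b_q_inv_not_mem (A : ValuationSubring H59Qb) {q : ℕ} (hq : q.Prime)
    (hA : A.LiesOverPrime q) : ((q : ℕ) : h59bK0 A)⁻¹ ∉ h59bA0 A := by
  rcases (h59b_mem_nonunits_aux _ _).mp (h59b_q_mem_nonunits A hA) with h | h
  · exact absurd h (h59b_q_ne_zero A hq)
  · exact h

theorem h59b_coe_q_zpow (A : ValuationSubring H59Qb) (q : ℕ) (j : ℤ) :
    (((((q : ℕ) : h59bK0 A) ^ j : h59bK0 A)) : H59Qb) = ((q : ℕ) : H59Qb) ^ j := by
  have h := map_zpow₀ (algebraMap (h59bK0 A) H59Qb) ((q : ℕ) : h59bK0 A) j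
  rw [map_natCast] at h
  exact h

/-- **Every non-zero element of the inertia field is `q ^ j` times a unit of `A₀`.** -/
theorem h59b_exists_zpow_mul_unit (A : ValuationSubring H59Qb) {q : ℕ} (hq : q.Prime)
    (hA : A.LiesOverPrime q) (x : h59bK0 A) (hx : x ≠ 0) :
    ∃ (j : ℤ) (u : h59bK0 A), u ∈ h59bA0 A ∧ u⁻¹ ∈ h59bA0 A ∧
      x = ((q : ℕ) : h59bK0 A) ^ j * u := by
  have hx0 : (x : H59Qb) ≠ 0 := fun h => hx (Subtype.ext h)
  obtain ⟨j, u, hu, hu', hxu⟩ := Fermat.Agent.PT.Glob.h55v_kInertVal q hq A hA (x : H59Qb) hx0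
    (fun ι hι => (h59b_mem_K0_iff A _).mp x.2 ι hι)
  have hq0 : ((q : ℕ) : H59Qb) ≠ 0 := by exact_mod_cast hq.ne_zero
  have hqj : ((q : ℕ) : H59Qb) ^ j ≠ 0 := zpow_ne_zero _ hq0
  have hu0 : u ≠ 0 := by
    rintro rfl
    rw [mul_zero] at hxu
    exact hx0 hxu
  set u0 : h59bK0 A := x * (((q : ℕ) : h59bK0 A) ^ j)⁻¹ with hu0def
  have hcoe : (u0 : H59Qb) = u := by
    rw [hu0def, IntermediateField.coe_mul, IntermediateField.coe_inv, h59b_coe_q_zpow, hxu]
    field_simp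
  refine ⟨j, u0, ?_, ?_, ?_⟩
  · rw [h59b_mem_A0_iff, hcoe]
    exact hu
  · rw [h59b_mem_A0_iff, IntermediateField.coe_inv, hcoe]
    exact hu'
  · apply Subtype.ext
    rw [IntermediateField.coe_mul, h59b_coe_q_zpow, hcoe]
    exact hxu

/-- `q ^ j ∈ A₀` iff `0 ≤ j`. -/
theorem h59b_q_zpow_mem_iff (A : ValuationSubring H59Qb) {q : ℕ} (hq : q.Prime)
    (hA : A.LiesOverPrime q) (j : ℤ) :
    ((q : ℕ) : h59bK0 A) ^ j ∈ h59bA0 A ↔ 0 ≤ j := by
  have hqA : ((q : ℕ) : h59bK0 A) ∈ h59bA0 A :=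
    (h59bA0 A).nonunits_le (h59b_q_mem_nonunits A hA)
  have hq0 := h59b_q_ne_zero A hq
  constructor
  · intro h
    by_contra hj
    rw [not_le] at hj
    obtain ⟨n, hn⟩ : ∃ n : ℕ, j = -((n : ℤ) + 1) := ⟨(-j - 1).toNat, by omega⟩
    apply h59b_q_inv_not_mem A hq hA
    have h1 : ((q : ℕ) : h59bK0 A)⁻¹ = ((q : ℕ) : h59bK0 A) ^ n * ((q : ℕ) : h59bK0 A) ^ j := by
      rw [hn, zpow_neg, ← zpow_natCast, ← zpow_neg, ← zpow_add₀ hq0, ← zpow_neg_one]
      congr 1
      ring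
    rw [h1]
    exact (h59bA0 A).mul_mem _ _ ((h59bA0 A).pow_mem hqA n) h
  · intro hj
    obtain ⟨n, rfl⟩ := Int.eq_ofNat_of_zero_le hj
    rw [zpow_natCast]
    exact (h59bA0 A).pow_mem hqA n

/-- an element of `A₀` whose inverse lies in `A₀` is a unit of `A₀`. -/
theorem h59b_isUnit_of_mem (A : ValuationSubring H59Qb) {u : h59bK0 A} (hu : u ∈ h59bA0 A)
    (hu' : u⁻¹ ∈ h59bA0 A) (hu0 : u ≠ 0) : IsUnit (⟨u, hu⟩ : h59bA0 A) := by
  refine isUnit_iff_exists_inv.mpr ⟨⟨u⁻¹, hu'⟩, ?_⟩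
  apply Subtype.ext
  show u * u⁻¹ = 1
  exact mul_inv_cancel₀ hu0

/-- the normal form of the non-zero elements of `A₀`: `x = q ^ n * u`, `u` a unit. -/
theorem h59b_exists_pow_mul_unit (A : ValuationSubring H59Qb) {q : ℕ} (hq : q.Prime)
    (hA : A.LiesOverPrime q) (x : h59bA0 A) (hx : x ≠ 0) :
    ∃ (n : ℕ) (u : h59bA0 A), IsUnit u ∧ x = ((q : ℕ) : h59bA0 A) ^ n * u := by
  have hx0 : (x : h59bK0 A) ≠ 0 := fun h => hx (Subtype.ext h)
  obtain ⟨j, u, hu, hu', hxu⟩ := h59b_exists_zpow_mul_unit A hq hA (x : h59bK0 A) hx0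
  have hu0 : u ≠ 0 := by
    rintro rfl
    rw [mul_zero] at hxu
    exact hx0 hxu
  have hj : 0 ≤ j := by
    rw [← h59b_q_zpow_mem_iff A hq hA]
    have h1 : ((q : ℕ) : h59bK0 A) ^ j = (x : h59bK0 A) * u⁻¹ := by
      rw [hxu, mul_assoc, mul_inv_cancel₀ hu0, mul_one]
    rw [h1]
    exact (h59bA0 A).mul_mem _ _ x.2 hu'
  obtain ⟨n, rfl⟩ := Int.eq_ofNat_of_zero_le hj
  refine ⟨n, ⟨u, hu⟩, h59b_isUnit_of_mem A hu hu' hu0, ?_⟩
  apply Subtype.ext
  rw [hxu, zpow_natCast]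
  push_cast
  rfl

theorem h59b_q_not_isUnit (A : ValuationSubring H59Qb) {q : ℕ} (hq : q.Prime)
    (hA : A.LiesOverPrime q) : ¬ IsUnit ((q : ℕ) : h59bA0 A) := by
  intro h
  obtain ⟨b, hb⟩ := isUnit_iff_exists_inv.mp h
  apply h59b_q_inv_not_mem A hq hA
  have h1 : ((q : ℕ) : h59bK0 A) * (b : h59bK0 A) = 1 := by
    have := congrArg (fun z : h59bA0 A => (z : h59bK0 A)) hb
    simpa using this
  rw [← eq_inv_of_mul_eq_one_right h1]
  exact b.2

/-- a power `q ^ n` is a unit of `A₀` only for `n = 0`. -/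
theorem h59b_q_pow_isUnit_iff (A : ValuationSubring H59Qb) {q : ℕ} (hq : q.Prime)
    (hA : A.LiesOverPrime q) (n : ℕ) : IsUnit (((q : ℕ) : h59bA0 A) ^ n) ↔ n = 0 := by
  constructor
  · intro h
    by_contra hn
    exact h59b_q_not_isUnit A hq hA ((isUnit_pow_iff hn).mp h)
  · rintro rfl
    simp

/-- **`q` is irreducible in `A₀`.** -/
theorem h59b_irreducible (A : ValuationSubring H59Qb) {q : ℕ} (hq : q.Prime)
    (hA : A.LiesOverPrime q) : Irreducible ((q : ℕ) : h59bA0 A) := by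
  have hq0 : ((q : ℕ) : h59bA0 A) ≠ 0 := by exact_mod_cast hq.ne_zero
  refine irreducible_iff.mpr ⟨h59b_q_not_isUnit A hq hA, fun a b hab => ?_⟩
  have ha0 : a ≠ 0 := by
    rintro rfl
    rw [zero_mul] at hab
    exact hq0 hab
  have hb0 : b ≠ 0 := by
    rintro rfl
    rw [mul_zero] at hab
    exact hq0 hab
  obtain ⟨i, u, hu, rfl⟩ := h59b_exists_pow_mul_unit A hq hA a ha0
  obtain ⟨k, u', hu', rfl⟩ := h59b_exists_pow_mul_unit A hq hA b hb0
  rcases Nat.eq_zero_or_pos i with rfl | hi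
  · left
    simpa using hu
  rcases Nat.eq_zero_or_pos k with rfl | hk
  · right
    simpa using hu'
  exfalso
  -- `q = q ^ (i + k) * (u u')` with `i + k ≥ 2`
  obtain ⟨m, hm⟩ : ∃ m : ℕ, i + k = m + 2 := ⟨i + k - 2, by omega⟩
  have h1 : ((q : ℕ) : h59bA0 A) * 1
      = ((q : ℕ) : h59bA0 A) * (((q : ℕ) : h59bA0 A) * (((q : ℕ) : h59bA0 A) ^ m * (u * u'))) := by
    rw [mul_one]
    calc ((q : ℕ) : h59bA0 A) = ((q : ℕ) : h59bA0 A) ^ i * u * (((q : ℕ) : h59bA0 A) ^ k * u') := hab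
      _ = ((q : ℕ) : h59bA0 A) ^ (i + k) * (u * u') := by rw [pow_add]; ring
      _ = _ := by rw [hm]; ring
  have h2 := mul_left_cancel₀ hq0 h1
  exact h59b_q_not_isUnit A hq hA (isUnit_iff_exists_inv.mpr ⟨_, h2.symm⟩)

/-- **`A₀` is a discrete valuation ring.** -/
theorem h59b_isDVR (A : ValuationSubring H59Qb) {q : ℕ} (hq : q.Prime)
    (hA : A.LiesOverPrime q) : IsDiscreteValuationRing (h59bA0 A) := by
  apply IsDiscreteValuationRing.ofHasUnitMulPowIrreducibleFactorization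
  refine ⟨((q : ℕ) : h59bA0 A), h59b_irreducible A hq hA, fun {x} hx => ?_⟩
  obtain ⟨n, u, hu, rfl⟩ := h59b_exists_pow_mul_unit A hq hA x hx
  exact ⟨n, hu.unit, rfl⟩

/-- **The maximal ideal of `A₀` is generated by `q`.** -/
theorem h59b_maximalIdeal (A : ValuationSubring H59Qb) {q : ℕ} (hq : q.Prime)
    (hA : A.LiesOverPrime q) :
    maximalIdeal (h59bA0 A) = Ideal.span {((q : ℕ) : h59bA0 A)} := by
  have := h59b_isDVR A hq hA
  exact (h59b_irreducible A hq hA).maximalIdeal_eq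

/-! ### The inclusion `A₀ → A` and the residue fields -/

/-- the inclusion `A₀ → A`. -/
def h59bIncl (A : ValuationSubring H59Qb) : h59bA0 A →+* A :=
  (algebraMap (h59bK0 A) H59Qb).restrict (h59bA0 A) A (fun _ hx => hx)

theorem h59bIncl_coe (A : ValuationSubring H59Qb) (x : h59bA0 A) :
    ((h59bIncl A x : A) : H59Qb) = ((x : h59bK0 A) : H59Qb) := rfl

theorem h59bIncl_injective (A : ValuationSubring H59Qb) : Function.Injective (h59bIncl A) := by
  intro x y h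
  apply Subtype.ext
  apply Subtype.ext
  have := congrArg (fun z : A => (z : H59Qb)) h
  simpa [h59bIncl_coe] using this

theorem h59bIncl_mem_maximalIdeal_iff (A : ValuationSubring H59Qb) (x : h59bA0 A) :
    h59bIncl A x ∈ maximalIdeal A ↔ x ∈ maximalIdeal (h59bA0 A) := by
  rw [← ValuationSubring.coe_mem_nonunits_iff, ← ValuationSubring.coe_mem_nonunits_iff,
    h59b_mem_nonunits_A0_iff, h59bIncl_coe]

theorem h59bIncl_isLocalHom (A : ValuationSubring H59Qb) : IsLocalHom (h59bIncl A) := by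
  refine ⟨fun x hx => ?_⟩
  by_contra h
  have h1 : x ∈ maximalIdeal (h59bA0 A) := (mem_maximalIdeal x).mpr h
  have h2 := (h59bIncl_mem_maximalIdeal_iff A x).mpr h1
  exact (mem_maximalIdeal _).mp h2 hx

/-- the image of `A₀` in `A` consists of the inertia-fixed elements. -/
theorem h59bIncl_range (A : ValuationSubring H59Qb) (a : A) :
    a ∈ (h59bIncl A).range ↔ ∀ σ ∈ A.inertiaSubgroupIn ℚ, σ (a : H59Qb) = a := by
  constructor
  · rintro ⟨x, rfl⟩ σ hσ
    rw [h59bIncl_coe]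
    exact (h59b_mem_K0_iff A _).mp (x : h59bK0 A).2 σ hσ
  · intro h
    exact ⟨⟨⟨(a : H59Qb), (h59b_mem_K0_iff A _).mpr h⟩, a.2⟩, Subtype.ext rfl⟩

/-- **The residue field of `A₀` is the residue field of `A`**: every element of `A` is congruent
modulo `𝔪_A` to an element of `A₀`. -/
theorem h59b_residue_surjective (A : ValuationSubring H59Qb) {q : ℕ} (hq : q.Prime)
    (hA : A.LiesOverPrime q) (a : A) :
    ∃ a0 : h59bA0 A, a - h59bIncl A a0 ∈ maximalIdeal A := by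
  obtain ⟨a', ha', hfix, hcong⟩ := Fermat.Agent.LGC.h57_exists_inertia_fixed (k := ℚ)
    Fermat.Agent.LGC.h57_isAlgebraic_int A hq hA a.2
  refine ⟨⟨⟨a', (h59b_mem_K0_iff A _).mpr hfix⟩, ha'⟩, ?_⟩
  rw [← ValuationSubring.coe_mem_nonunits_iff]
  exact hcong

/-- `𝔪_A ∩ A₀ = q A₀`. -/
theorem h59b_comap_maximalIdeal (A : ValuationSubring H59Qb) {q : ℕ} (hq : q.Prime)
    (hA : A.LiesOverPrime q) :
    (maximalIdeal A).comap (h59bIncl A) = Ideal.span {((q : ℕ) : h59bA0 A)} := by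
  rw [← h59b_maximalIdeal A hq hA]
  ext x
  rw [Ideal.mem_comap, h59bIncl_mem_maximalIdeal_iff]

/-- the map of residue fields `A₀ / q → A / 𝔪_A` is bijective. -/
theorem h59b_residueField_bijective (A : ValuationSubring H59Qb) {q : ℕ} (hq : q.Prime)
    (hA : A.LiesOverPrime q) :
    haveI := h59bIncl_isLocalHom A
    Function.Bijective (IsLocalRing.ResidueField.map (h59bIncl A)) := by
  have := h59bIncl_isLocalHom A
  refine ⟨(IsLocalRing.ResidueField.map (h59bIncl A)).injective, fun y => ?_⟩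
  obtain ⟨a, rfl⟩ := IsLocalRing.residue_surjective y
  obtain ⟨a0, ha0⟩ := h59b_residue_surjective A hq hA a
  refine ⟨IsLocalRing.residue _ a0, ?_⟩
  rw [IsLocalRing.ResidueField.map_residue]
  symm
  rw [← sub_eq_zero, ← map_sub, IsLocalRing.residue_eq_zero_iff]
  exact ha0

end

end Fermat.Agent.S36
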