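import Mathlib
import Fermat.Agent.Jac.OS
import Fermat.Agent.S37.Defs

/-!
# S36, step (D) (helper79): descent of invariant Kummer classes to invariant functions

Let `H ≤ G_ℚ` be any subgroup (for S36: the inertia group `I_A` at a place `A ∣ q` of `ℚ̄`),
`F = FF N = ℚ̄(X₀(N)) ⊆ ℚ̄((q))` with the coefficientwise Galois action `gal N`.

* `h79d_hilbert90` : Hilbert 90 for a cocycle with values in a field which is trivial on a
  subgroup of finite index (Dedekind's independence of characters over coset representatives;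
  abstract, Mathlib only).
* `h79d_descent` : if the class of `u` modulo constants and `m`-th powers is fixed by `H`
  (`σ u = c_σ · u · h_σ ^ m` for all `σ ∈ H`), then the class contains a function
  `u' = c · u · g ^ m` which is fixed by `H`: `σ u' = u'` for all `σ ∈ H`.
* `h79d_coeff_fixed` : the `q`-expansion coefficients of an `H`-fixed function are fixed by `H`.

Proof of `h79d_descent`: normalise `h_σ` to leading `q`-coefficient `1`; then `σ ↦ h_σ` is a
cocycle, trivial on the open subgroup fixing `u`; Hilbert 90 gives `b` with `h_σ · σ b = b`, so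
`σ (u b ^ m) = c_σ · u b ^ m`; finally normalise the leading coefficient of `u b ^ m`.
-/

set_option autoImplicit false

open ModularCurve AlgebraicCurve IntermediateField

noncomputable section

namespace Fermat.Agent.S36

section Abs

variable {Γ E : Type*} [Group Γ] [Field E] [MulSemiringAction Γ E]

/-- **Hilbert 90 for a cocycle which is trivial on a subgroup of finite index** (Dedekind's
independence of characters; no normality is needed).  `M` is a multiplicative submonoid of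
`K`-fixed elements which separates the cosets of `K`. -/
theorem h79d_hilbert90 (K : Subgroup Γ) [K.FiniteIndex] (M : Submonoid E)
    (hM : ∀ x ∈ M, ∀ τ ∈ K, τ • x = x)
    (hsep : ∀ σ : Γ, (∀ x ∈ M, σ • x = x) → σ ∈ K)
    (h : Γ → E) (h0 : ∀ σ, h σ ≠ 0)
    (hcoc : ∀ σ τ, h (σ * τ) = h σ * σ • h τ)
    (hK : ∀ τ ∈ K, h τ = 1) :
    ∃ b : E, b ≠ 0 ∧ ∀ σ, h σ * σ • b = b := by
  classical
  have : Fintype (Γ ⧸ K) := Fintype.ofFinite _
  -- right invariance
  have hinv : ∀ (c : E), c ∈ M → ∀ σ τ : Γ, τ ∈ K → h (σ * τ) * (σ * τ) • c = h σ * σ • c := by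
    intro c hc σ τ hτ
    rw [hcoc, hK τ hτ, smul_one, mul_one, mul_smul, hM c hc τ hτ]
  -- the characters
  let f : Γ ⧸ K → (M →* E) := fun q =>
    { toFun := fun x => (Quotient.out q : Γ) • (x : E)
      map_one' := by simp
      map_mul' := fun x y => by simp [smul_mul'] }
  have hf_inj : Function.Injective f := by
    intro q q' hqq
    have h1 : ∀ x ∈ M, ((Quotient.out q : Γ)⁻¹ * Quotient.out q') • x = x := by
      intro x hx
      have h2 := DFunLike.congr_fun hqq ⟨x, hx⟩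
      simp only [f, MonoidHom.coe_mk, OneHom.coe_mk] at h2
      rw [mul_smul, ← h2, inv_smul_smul]
    have h3 := hsep _ h1
    have h4 : (QuotientGroup.mk (Quotient.out q) : Γ ⧸ K) = QuotientGroup.mk (Quotient.out q') :=
      QuotientGroup.eq.mpr h3
    rw [QuotientGroup.out_eq', QuotientGroup.out_eq'] at h4
    exact h4
  have hli : LinearIndependent E (fun q : Γ ⧸ K => (f q : M → E)) :=
    (linearIndependent_monoidHom M E).comp f hf_inj
  -- a nonvanishing point
  have hex : ∃ c : M, ∑ q : Γ ⧸ K, h (Quotient.out q) * f q c ≠ 0 := by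
    by_contra hcon
    have hcon' : ∀ c : M, ∑ q : Γ ⧸ K, h (Quotient.out q) * f q c = 0 := by
      intro c
      by_contra hc
      exact hcon ⟨c, hc⟩
    have h1 : ∑ q : Γ ⧸ K, h (Quotient.out q) • (f q : M → E) = 0 := by
      funext c
      simp only [Finset.sum_apply, Pi.smul_apply, smul_eq_mul, Pi.zero_apply]
      exact hcon' c
    have h2 := (Fintype.linearIndependent_iff.mp hli) (fun q => h (Quotient.out q)) h1
      (QuotientGroup.mk 1)
    exact h0 _ h2
  obtain ⟨c, hc⟩ := hex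
  refine ⟨∑ q : Γ ⧸ K, h (Quotient.out q) * f q c, hc, fun σ => ?_⟩
  -- the function on the quotient
  set F : Γ ⧸ K → E := fun q => h (Quotient.out q) * (Quotient.out q : Γ) • (c : E) with hF
  have hFmk : ∀ a : Γ, F (QuotientGroup.mk a) = h a * a • (c : E) := by
    intro a
    have h1 : (a⁻¹ * Quotient.out (QuotientGroup.mk a : Γ ⧸ K)) ∈ K := by
      have := QuotientGroup.out_eq' (QuotientGroup.mk a : Γ ⧸ K)
      exact QuotientGroup.eq.mp this.symm
    have h2 := hinv c c.2 a _ h1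
    rw [mul_inv_cancel_left] at h2
    exact h2
  have hsum : ∑ q : Γ ⧸ K, h (Quotient.out q) * f q c = ∑ q : Γ ⧸ K, F q := rfl
  rw [hsum, Finset.smul_sum, Finset.mul_sum]
  have h1 : ∀ q : Γ ⧸ K, h σ * σ • F q = F (σ • q) := by
    intro q
    induction q using QuotientGroup.induction_on with
    | H a =>
      rw [hFmk, MulAction.Quotient.smul_mk, smul_eq_mul, hFmk, hcoc, smul_mul', mul_smul]
      ring
  rw [Finset.sum_congr rfl fun q _ => h1 q]
  exact Equiv.sum_comp (MulAction.toPerm σ) F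

end Abs

section App

open Fermat.Agent.S37 (Kbar GQ FF cst gal)

/-- the leading coefficient of the `q`-expansion. -/
def h79d_lc {N : ℕ} (f : FF N) : Kbar := ((f : LaurentSeries Kbar)).leadingCoeff

variable {N : ℕ}

theorem h79d_lc_ne_zero {f : FF N} (hf : f ≠ 0) : h79d_lc f ≠ 0 := by
  unfold h79d_lc
  rw [HahnSeries.leadingCoeff_ne_zero]
  intro h
  exact hf (Subtype.ext h)

theorem h79d_lc_mul (f g : FF N) : h79d_lc (f * g) = h79d_lc f * h79d_lc g := by
  unfold h79d_lc
  exact HahnSeries.leadingCoeff_mul _ _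

theorem h79d_lc_one : h79d_lc (1 : FF N) = 1 := by
  unfold h79d_lc
  exact HahnSeries.leadingCoeff_one

theorem h79d_lc_pow (f : FF N) (k : ℕ) : h79d_lc (f ^ k) = h79d_lc f ^ k := by
  induction k with
  | zero => simp [h79d_lc_one]
  | succ k ih => rw [pow_succ, h79d_lc_mul, ih, pow_succ]

theorem h79d_coe_cst (c : Kbar) :
    ((cst N c : FF N) : LaurentSeries Kbar) = HahnSeries.single 0 c := by
  have h1 : ((cst N c : FF N) : LaurentSeries Kbar) = algebraMap Kbar (LaurentSeries Kbar) c :=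
    rfl
  rw [h1]
  have h2 : algebraMap Kbar (PowerSeries Kbar) c = PowerSeries.C c := by simp
  rw [HahnSeries.algebraMap_apply', h2, HahnSeries.ofPowerSeries_C]
  rfl

theorem h79d_lc_cst (c : Kbar) : h79d_lc (cst N c) = c := by
  unfold h79d_lc
  rw [h79d_coe_cst, HahnSeries.leadingCoeff_of_single]

theorem h79d_coeffMap_eq_zero (σ : GQ) (x : LaurentSeries Kbar) :
    coeffMap (σ : Kbar →+* Kbar) x = 0 ↔ x = 0 := by
  constructor
  · intro h
    ext k
    have := congrArg (fun s : LaurentSeries Kbar => s.coeff k) h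
    simp only [coeffMap_coeff, HahnSeries.coeff_zero] at this
    simpa using this
  · rintro rfl
    exact map_zero _

theorem h79d_order_coeffMap (σ : GQ) (x : LaurentSeries Kbar) :
    (coeffMap (σ : Kbar →+* Kbar) x).order = x.order := by
  rcases eq_or_ne x 0 with rfl | hx
  · simp
  have hx' : coeffMap (σ : Kbar →+* Kbar) x ≠ 0 :=
    fun h => hx ((h79d_coeffMap_eq_zero σ x).mp h)
  apply le_antisymm
  · apply HahnSeries.order_le_of_coeff_ne_zero
    rw [coeffMap_coeff]
    intro h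
    have h2 : x.coeff x.order = 0 := by simpa using h
    exact hx (HahnSeries.coeff_order_eq_zero.mp h2)
  · rw [HahnSeries.le_order_iff_forall hx']
    intro j hj
    rw [coeffMap_coeff, HahnSeries.coeff_eq_zero_of_lt_order hj, map_zero]

theorem h79d_lc_gal (σ : GQ) (f : FF N) : h79d_lc (gal N σ • f) = σ (h79d_lc f) := by
  unfold h79d_lc
  rw [coe_arithmeticGalois_smul, HahnSeries.leadingCoeff_eq, HahnSeries.leadingCoeff_eq,
    h79d_order_coeffMap, coeffMap_coeff]
  rfl

theorem h79d_gal_cst (σ : GQ) (c : Kbar) : gal N σ • cst N c = cst N (σ c) := by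
  apply Subtype.ext
  rw [coe_arithmeticGalois_smul, h79d_coe_cst, h79d_coe_cst, coeffMap_single]
  rfl

theorem h79d_cst_injective : Function.Injective (cst N : Kbar → FF N) :=
  (algebraMap Kbar (FF N)).injective

theorem h79d_cst_zero : cst N (0 : Kbar) = 0 := map_zero (algebraMap Kbar (FF N))

theorem h79d_cst_one : cst N (1 : Kbar) = 1 := map_one (algebraMap Kbar (FF N))

theorem h79d_cst_mul (a b : Kbar) : cst N (a * b) = cst N a * cst N b :=
  map_mul (algebraMap Kbar (FF N)) a b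

theorem h79d_cst_div (a b : Kbar) : cst N (a / b) = cst N a / cst N b :=
  map_div₀ (algebraMap Kbar (FF N)) a b

theorem h79d_cst_inv (a : Kbar) : cst N a⁻¹ = (cst N a)⁻¹ :=
  map_inv₀ (algebraMap Kbar (FF N)) a

theorem h79d_cst_pow (a : Kbar) (k : ℕ) : cst N (a ^ k) = cst N a ^ k :=
  map_pow (algebraMap Kbar (FF N)) a k

theorem h79d_gal_mul (σ τ : GQ) (x : FF N) : gal N (σ * τ) • x = gal N σ • gal N τ • x := by
  have h : gal N (σ * τ) = gal N σ * gal N τ :=
    map_mul (arithmeticGalois (modularFunctionFieldFull N)) σ τ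
  rw [h, mul_smul]

theorem h79d_cst_ne_zero {c : Kbar} (hc : c ≠ 0) : cst N c ≠ 0 := by
  intro h
  apply hc
  apply h79d_cst_injective (N := N)
  rw [h, h79d_cst_zero]

/-- an element of `F` a power of which is a constant is a constant (`ℚ̄` is algebraically
closed). -/
theorem h79d_const_of_pow {m : ℕ} (hm : 0 < m) (g : FF N) (a : Kbar)
    (h : g ^ m = cst N a) : ∃ z : Kbar, g = cst N z := by
  have hint : IsIntegral Kbar g := by
    refine ⟨Polynomial.X ^ m - Polynomial.C a, Polynomial.monic_X_pow_sub_C a hm.ne', ?_⟩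
    simp [h]
  have hdeg := IsAlgClosed.degree_eq_one_of_irreducible Kbar (minpoly.irreducible hint)
  obtain ⟨z, hz⟩ := minpoly.mem_range_of_degree_eq_one Kbar g hdeg
  exact ⟨z, hz.symm⟩

/-- uniqueness of the normalised root. -/
theorem h79d_unique {m : ℕ} (hm : 0 < m) (u g₁ g₂ : FF N) (hu : u ≠ 0)
    (hg₂ : g₂ ≠ 0) (c₁ c₂ : Kbar) (hc₁ : c₁ ≠ 0)
    (h : cst N c₁ * u * g₁ ^ m = cst N c₂ * u * g₂ ^ m)
    (hl₁ : h79d_lc g₁ = 1) (hl₂ : h79d_lc g₂ = 1) : g₁ = g₂ := by
  have hc₁' : cst N c₁ ≠ 0 := h79d_cst_ne_zero hc₁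
  have hg₂m : g₂ ^ m ≠ 0 := pow_ne_zero m hg₂
  have h1 : (g₁ / g₂) ^ m = cst N (c₂ / c₁) := by
    rw [div_pow, h79d_cst_div, div_eq_div_iff hg₂m hc₁']
    have h2 : u * (g₁ ^ m * cst N c₁) = u * (cst N c₂ * g₂ ^ m) := by
      calc u * (g₁ ^ m * cst N c₁) = cst N c₁ * u * g₁ ^ m := by ring
        _ = cst N c₂ * u * g₂ ^ m := h
        _ = u * (cst N c₂ * g₂ ^ m) := by ring
    exact mul_left_cancel₀ hu h2
  obtain ⟨z, hz⟩ := h79d_const_of_pow hm _ _ h1
  have h3 : g₁ = cst N z * g₂ := by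
    rw [← hz, div_mul_cancel₀ _ hg₂]
  have h4 : z = 1 := by
    have := congrArg h79d_lc h3
    rw [h79d_lc_mul, h79d_lc_cst, hl₁, hl₂, mul_one] at this
    exact this.symm
  rw [h3, h4, h79d_cst_one, one_mul]

/-- normalisation of the leading coefficient: a function which is fixed by `H` up to constants
becomes fixed after scaling. -/
theorem h79d_normalise (H : Subgroup GQ) (w : FF N) (hw : w ≠ 0)
    (h : ∀ σ ∈ H, ∃ c : Kbar, gal N σ • w = cst N c * w) :
    ∀ σ ∈ H, gal N σ • (cst N (h79d_lc w)⁻¹ * w) = cst N (h79d_lc w)⁻¹ * w := by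
  intro σ hσ
  obtain ⟨c, hc⟩ := h σ hσ
  have hlc : h79d_lc w ≠ 0 := h79d_lc_ne_zero hw
  have h1 : σ (h79d_lc w) = c * h79d_lc w := by
    rw [← h79d_lc_gal, hc, h79d_lc_mul, h79d_lc_cst]
  have hc0 : c ≠ 0 := by
    rintro rfl
    rw [zero_mul] at h1
    exact hlc (by simpa using h1)
  rw [smul_mul', h79d_gal_cst, hc, map_inv₀, h1, ← mul_assoc, ← h79d_cst_mul]
  congr 2
  field_simp

/-- the action of a subgroup of `G_ℚ` on `F`. -/
@[reducible] def h79d_act (N : ℕ) (H : Subgroup GQ) : MulSemiringAction H (FF N) :=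
  MulSemiringAction.compHom (FF N)
    ((arithmeticGalois (modularFunctionFieldFull N)).comp H.subtype)

theorem h79d_finiteIndex (L : IntermediateField ℚ Kbar) [FiniteDimensional ℚ L] :
    L.fixingSubgroup.FiniteIndex := by
  have hA : IsAlgClosure ℚ Kbar := ⟨inferInstance, AlgebraicClosure.isAlgebraic ℚ⟩
  have hG : IsGalois ℚ Kbar := IsAlgClosure.isGalois ℚ Kbar
  have : Finite (GQ ⧸ L.fixingSubgroup) :=
    Subgroup.quotient_finite_of_isOpen _ (IntermediateField.fixingSubgroup_isOpen L)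
  exact Subgroup.finiteIndex_of_finite_quotient

/-- **(D) Descent.**  If the class of `u` modulo constants and `m`-th powers is fixed by the
subgroup `H` of `G_ℚ`, then it contains an `H`-fixed function. -/
theorem h79d_descent (N : ℕ) [NeZero N] (H : Subgroup GQ) (m : ℕ) (u : FF N) (hu : u ≠ 0)
    (hinv : ∀ σ ∈ H, ∃ (c : Kbar) (h : FF N), c ≠ 0 ∧ h ≠ 0 ∧
      gal N σ • u = cst N c * u * h ^ m) :
    ∃ (c : Kbar) (g : FF N), c ≠ 0 ∧ g ≠ 0 ∧
      ∀ σ ∈ H, gal N σ • (cst N c * u * g ^ m) = cst N c * u * g ^ m := by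
  rcases Nat.eq_zero_or_pos m with rfl | hm
  · -- `m = 0`
    refine ⟨(h79d_lc u)⁻¹, 1, inv_ne_zero (h79d_lc_ne_zero hu), one_ne_zero, ?_⟩
    have h1 := h79d_normalise H u hu (fun σ hσ => by
      obtain ⟨c, h, -, -, hc⟩ := hinv σ hσ
      exact ⟨c, by simpa using hc⟩)
    intro σ hσ
    simpa using h1 σ hσ
  classical
  let _ : MulSemiringAction H (FF N) := h79d_act N H
  have hact : ∀ (σ : H) (x : FF N), σ • x = gal N (σ : GQ) • x := fun _ _ => rfl
  -- normalised roots
  have hex : ∀ σ : H, ∃ g : FF N, g ≠ 0 ∧ h79d_lc g = 1 ∧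
      ∃ c : Kbar, c ≠ 0 ∧ gal N (σ : GQ) • u = cst N c * u * g ^ m := by
    intro σ
    obtain ⟨c, h, hc, hh, hσ⟩ := hinv σ σ.2
    have hl := h79d_lc_ne_zero hh
    have hl' : cst N (h79d_lc h) ≠ 0 := h79d_cst_ne_zero hl
    refine ⟨cst N (h79d_lc h)⁻¹ * h, mul_ne_zero (h79d_cst_ne_zero (inv_ne_zero hl)) hh, ?_,
      c * h79d_lc h ^ m, mul_ne_zero hc (pow_ne_zero m hl), ?_⟩
    · rw [h79d_lc_mul, h79d_lc_cst, inv_mul_cancel₀ hl]
    · rw [hσ, h79d_cst_mul, h79d_cst_pow, h79d_cst_inv, mul_pow, inv_pow]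
      field_simp
  choose hn hn0 hnl hnc using hex
  -- the cocycle relation
  have hcoc : ∀ σ τ : H, hn (σ * τ) = hn σ * σ • hn τ := by
    intro σ τ
    obtain ⟨c1, hc1, h1⟩ := hnc (σ * τ)
    obtain ⟨c2, hc2, h2⟩ := hnc σ
    obtain ⟨c3, hc3, h3⟩ := hnc τ
    have h4 : gal N ((σ * τ : H) : GQ) • u
        = cst N ((σ : GQ) c3 * c2) * u * (hn σ * σ • hn τ) ^ m := by
      rw [Subgroup.coe_mul, h79d_gal_mul, h3, smul_mul', smul_mul', smul_pow', h79d_gal_cst, h2,
        hact, h79d_cst_mul, mul_pow]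
      ring
    have hne : hn σ * σ • hn τ ≠ 0 :=
      mul_ne_zero (hn0 σ) ((smul_ne_zero_iff_ne σ).mpr (hn0 τ))
    refine h79d_unique hm u _ _ hu hne c1 ((σ : GQ) c3 * c2) hc1 (h1.symm.trans h4) (hnl _) ?_
    rw [h79d_lc_mul, hnl, hact, h79d_lc_gal, hnl, map_one, mul_one]
  -- the open subgroup fixing `u`
  obtain ⟨L, hLfd, hL⟩ := Fermat.Agent.Jac.h18_exists_fixing_field N u
  have := hLfd
  have hLfi : L.fixingSubgroup.FiniteIndex := h79d_finiteIndex L
  set K : Subgroup H := L.fixingSubgroup.subgroupOf H with hKdef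
  have hKfi : K.FiniteIndex := Subgroup.instFiniteIndex_subgroupOf _ _
  have hmemK : ∀ τ : H, τ ∈ K ↔ ∀ y ∈ L, (τ : GQ) y = y := by
    intro τ
    rw [hKdef, Subgroup.mem_subgroupOf, IntermediateField.mem_fixingSubgroup_iff]
  -- the separating monoid: constants from `L`
  let M : Submonoid (FF N) :=
    { carrier := {x | ∃ c ∈ L, x = cst N c}
      one_mem' := ⟨1, L.one_mem, h79d_cst_one.symm⟩
      mul_mem' := by
        rintro _ _ ⟨a, ha, rfl⟩ ⟨b, hb, rfl⟩
        exact ⟨a * b, L.mul_mem ha hb, (h79d_cst_mul a b).symm⟩ }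
  have hM : ∀ x ∈ M, ∀ τ ∈ K, τ • x = x := by
    rintro _ ⟨c, hc, rfl⟩ τ hτ
    rw [hact, h79d_gal_cst, (hmemK τ).mp hτ c hc]
  have hsep : ∀ σ : H, (∀ x ∈ M, σ • x = x) → σ ∈ K := by
    intro σ hσ
    rw [hmemK]
    intro c hc
    have h1 := hσ (cst N c) ⟨c, hc, rfl⟩
    rw [hact, h79d_gal_cst] at h1
    exact h79d_cst_injective h1
  have hK : ∀ τ ∈ K, hn τ = 1 := by
    intro τ hτ
    obtain ⟨c, hc, h1⟩ := hnc τ
    have h2 : gal N (τ : GQ) • u = u := hL τ ((hmemK τ).mp hτ)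
    refine h79d_unique hm u _ _ hu one_ne_zero c 1 hc ?_ (hnl τ) h79d_lc_one
    rw [← h1, h2, h79d_cst_one, one_pow, one_mul, mul_one]
  obtain ⟨b, hb, hbσ⟩ := h79d_hilbert90 K M hM hsep hn hn0 hcoc hK
  -- the function `u * b ^ m`
  have hw : ∀ σ ∈ H, ∃ c : Kbar, gal N σ • (u * b ^ m) = cst N c * (u * b ^ m) := by
    intro σ hσ
    obtain ⟨c, hc, h1⟩ := hnc ⟨σ, hσ⟩
    refine ⟨c, ?_⟩
    have h2 := hbσ ⟨σ, hσ⟩
    rw [hact] at h2
    have h3 : cst N c * u * hn ⟨σ, hσ⟩ ^ m * (gal N σ • b) ^ m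
        = cst N c * (u * (hn ⟨σ, hσ⟩ * gal N σ • b) ^ m) := by ring
    rw [smul_mul', smul_pow', h1, h3, h2]
  have hub : u * b ^ m ≠ 0 := mul_ne_zero hu (pow_ne_zero m hb)
  have hfin := h79d_normalise H (u * b ^ m) hub hw
  refine ⟨(h79d_lc (u * b ^ m))⁻¹, b, inv_ne_zero (h79d_lc_ne_zero hub), hb, fun σ hσ => ?_⟩
  have h5 := hfin σ hσ
  rw [← mul_assoc] at h5
  exact h5

/-- the `q`-expansion coefficients of an `H`-fixed function are fixed by `H`. -/
theorem h79d_coeff_fixed (N : ℕ) (H : Subgroup GQ) (u : FF N)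
    (hu : ∀ σ ∈ H, gal N σ • u = u) (σ : GQ) (hσ : σ ∈ H) (k : ℤ) :
    σ ((u : LaurentSeries Kbar).coeff k) = (u : LaurentSeries Kbar).coeff k := by
  have h1 := congrArg (fun x : FF N => (x : LaurentSeries Kbar).coeff k) (hu σ hσ)
  simp only [coe_arithmeticGalois_smul, coeffMap_coeff] at h1
  exact h1

end App

end Fermat.Agent.S36
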