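import Mathlib
import Fermat.Agent.S36.H62RegIface
import Fermat.Agent.S36.H59ChartInt
import Fermat.Agent.S36.H59Base
import Fermat.Agent.S36.H27DescCoeff
import Fermat.Agent.S36.H79Desc
import Fermat.Agent.S37.Inertia
import Fermat.Agent.Red.GGChart
import Fermat.Agent.Red.HKMod

/-!
# S36, block REG, row R-BASE0 (helper79): the charts over the inertia ring are noetherian

`A` a valuation subring of `ℚ̄` over the prime `q`, `I` its inertia group, `K₀ = ℚ̄^I`,
`A₀ = A ∩ K₀` (a discrete valuation ring: `h59b_isDVR`), `F₀ = (FF N)^I`, `t ∈ F₀`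
transcendental over `ℚ̄` with `FF N` finite over `ℚ̄(t)` (`t = j`, `1 / j`).

* `h79n_functional` : the functional trick (Mathlib only): a linear relation with coefficients in
  `ℚ̄` between elements with `q`-expansion coefficients in `K₀` gives, for every `K₀`-linear
  functional `φ : ℚ̄ → K₀`, a relation with coefficients in `K₀`.
* `h79n_linearIndependent` : LINEAR DISJOINTNESS: a family of `F₀` which is linearly independent
  over `Frac (A₀[t])` is linearly independent over `ℚ̄(t)`.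
* `h79n_finiteDimensional` : `[F₀ : K₀(t)] ≤ [FF N : ℚ̄(t)] < ∞`.
* `h79n_isNoetherianRing` : **the chart `h62rChart A N t` (`= h92c_Chart A N t`, the integral
  closure of `A₀[t]` in `F₀`) is a noetherian ring**
  (Mathlib `integralClosure.isNoetherianRing`: `A₀[t] ≅ A₀[X]` is noetherian and integrally
  closed, `F₀ / K₀(t)` is finite separable).
* `h79n_isNoetherianRing_fin`, `h79n_isNoetherianRing_inf` : the two charts `t = j`, `t = 1 / j`.
* `h79n_finite` : the chart is a finite `A₀[t]`-module.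
-/

set_option autoImplicit false
set_option linter.style.haveILetI false
set_option linter.unusedSectionVars false

open Polynomial AlgebraicCurve ModularCurve IntermediateField

noncomputable section

namespace Fermat.Agent.S36

open Fermat.Agent.S37 (Kbar GQ FF cst gal jB modelAt)

/-! ## The functional trick (Mathlib only) -/

section Functional

variable {Kb : Type*} [Field Kb] {K0 : Type*} [Field K0] [Algebra K0 Kb]
  {F : Type*} [AddCommGroup F] [Module Kb F]
  {ι : Type*} (co : ι → F →ₗ[Kb] Kb)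

/-- **the functional trick.**  If `∑ a_s • y_s = 0` with `a_s ∈ Kb` and all coefficients of the
`y_s` in `K0`, then `∑ φ(a_s) • y_s = 0` for every `K0`-linear functional `φ : Kb → K0`. -/
theorem h79n_functional (hco : ∀ f : F, (∀ n, co n f = 0) → f = 0)
    (φ : Kb →ₗ[K0] K0) {σ : Type*} (S : Finset σ) (a : σ → Kb) (y : σ → F)
    (hy : ∀ s ∈ S, ∀ n, ∃ b : K0, algebraMap K0 Kb b = co n (y s))
    (h : ∑ s ∈ S, a s • y s = 0) :
    ∑ s ∈ S, (algebraMap K0 Kb (φ (a s))) • y s = 0 := by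
  classical
  apply hco
  intro n
  rw [map_sum]
  have h1 : co n (∑ s ∈ S, a s • y s) = 0 := by rw [h, map_zero]
  rw [map_sum] at h1
  simp only [map_smul, smul_eq_mul] at h1 ⊢
  choose! b hb using fun s hs => hy s hs n
  have h2 : ∑ s ∈ S, a s * co n (y s) = ∑ s ∈ S, b s • a s := by
    refine Finset.sum_congr rfl fun s hs => ?_
    rw [← hb s hs, Algebra.smul_def, mul_comm]
  rw [h2] at h1
  have h3 := congrArg φ h1
  rw [map_sum, map_zero] at h3
  simp only [map_smul, smul_eq_mul] at h3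
  have h4 := congrArg (algebraMap K0 Kb) h3
  rw [map_sum, map_zero] at h4
  rw [← h4]
  refine Finset.sum_congr rfl fun s hs => ?_
  rw [map_mul, ← hb s hs, mul_comm]

end Functional

/-! ## Coefficients -/

section Coeff

variable (A : ValuationSubring Kbar) (N : ℕ)

/-- the `n`-th `q`-expansion coefficient, as a `ℚ̄`-linear functional on `FF N`. -/
def h79nCo (n : ℤ) : FF N →ₗ[Kbar] Kbar where
  toFun f := (f : LaurentSeries Kbar).coeff n
  map_add' f g := by
    show ((f + g : FF N) : LaurentSeries Kbar).coeff n = _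
    rw [IntermediateField.coe_add, HahnSeries.coeff_add]
  map_smul' c f := by
    show ((c • f : FF N) : LaurentSeries Kbar).coeff n = _
    rw [Algebra.smul_def, IntermediateField.coe_mul, h79d_coe_cst,
      HahnSeries.single_zero_mul_eq_smul, HahnSeries.coeff_smul]
    rfl

theorem h79n_co_apply (n : ℤ) (f : FF N) :
    h79nCo N n f = (f : LaurentSeries Kbar).coeff n := rfl

theorem h79n_co_inj (f : FF N) (h : ∀ n, h79nCo N n f = 0) : f = 0 := by
  apply Subtype.ext
  apply HahnSeries.ext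
  funext n
  exact h n

/-- the coefficients of an inertia-fixed function lie in the inertia field. -/
theorem h79n_co_mem {f : FF N} (hf : f ∈ h53d_F0 N (A.inertiaSubgroupIn ℚ)) (n : ℤ) :
    ∃ b : h59bK0 A, algebraMap (h59bK0 A) Kbar b = h79nCo N n f := by
  refine ⟨⟨h79nCo N n f, ?_⟩, rfl⟩
  rw [h59b_mem_K0_iff]
  intro σ hσ
  exact (h27k_gal_smul_eq_iff N σ f).mp (hf σ hσ) n

end Coeff

/-! ## Linear disjointness -/

section Disjoint

variable (A : ValuationSubring Kbar) (N : ℕ)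

/-- a `K₀`-linear functional applied to the coefficients of a polynomial. -/
def h79nMap (φ : Kbar →ₗ[h59bK0 A] h59bK0 A) (p : Kbar[X]) : Kbar[X] :=
  ∑ k ∈ p.support, monomial k (algebraMap (h59bK0 A) Kbar (φ (p.coeff k)))

theorem h79n_map_coeff (φ : Kbar →ₗ[h59bK0 A] h59bK0 A) (p : Kbar[X]) (k : ℕ) :
    (h79nMap A φ p).coeff k = algebraMap (h59bK0 A) Kbar (φ (p.coeff k)) := by
  unfold h79nMap
  rw [finsetSum_coeff]
  simp only [coeff_monomial]
  rw [Finset.sum_ite_eq']
  split_ifs with h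
  · rfl
  · rw [notMem_support_iff.mp h, map_zero, map_zero]

theorem h79n_aeval_eq_sum (t : FF N) (p : Kbar[X]) :
    aeval t p = ∑ k ∈ p.support, p.coeff k • t ^ k := by
  rw [aeval_def, eval₂_eq_sum, Polynomial.sum_def]
  refine Finset.sum_congr rfl fun k _ => ?_
  rw [Algebra.smul_def]

theorem h79n_aeval_map (φ : Kbar →ₗ[h59bK0 A] h59bK0 A) (t : FF N) (p : Kbar[X]) :
    aeval t (h79nMap A φ p) =
      ∑ k ∈ p.support, (algebraMap (h59bK0 A) Kbar (φ (p.coeff k))) • t ^ k := by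
  unfold h79nMap
  rw [map_sum]
  refine Finset.sum_congr rfl fun k _ => ?_
  rw [aeval_monomial, Algebra.smul_def]

/-- **the functional trick for polynomial relations.**  If `∑ P_i(t) x_i = 0` with
`t, x_i ∈ F₀` and `P_i ∈ ℚ̄[X]`, then `∑ (φ P_i)(t) x_i = 0` for every `K₀`-linear functional
`φ : ℚ̄ → K₀`. -/
theorem h79n_relation {t : FF N} (ht : t ∈ h53d_F0 N (A.inertiaSubgroupIn ℚ))
    {ι : Type*} [Fintype ι] (x : ι → FF N)
    (hx : ∀ i, x i ∈ h53d_F0 N (A.inertiaSubgroupIn ℚ))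
    (P : ι → Kbar[X]) (h : ∑ i, aeval t (P i) * x i = 0)
    (φ : Kbar →ₗ[h59bK0 A] h59bK0 A) :
    ∑ i, aeval t (h79nMap A φ (P i)) * x i = 0 := by
  classical
  have key := h79n_functional (K0 := h59bK0 A) (h79nCo N) (h79n_co_inj N) φ
    (Finset.univ.sigma fun i : ι => (P i).support)
    (fun s => (P s.1).coeff s.2) (fun s => t ^ s.2 * x s.1)
    (fun s _ n => h79n_co_mem A N (mul_mem (pow_mem ht _) (hx _)) n)
  rw [Finset.sum_sigma, Finset.sum_sigma] at key
  have e1 : ∀ i, aeval t (P i) * x i = ∑ k ∈ (P i).support, (P i).coeff k • (t ^ k * x i) := by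
    intro i
    rw [h79n_aeval_eq_sum, Finset.sum_mul]
    refine Finset.sum_congr rfl fun k _ => ?_
    rw [smul_mul_assoc]
  have e2 : ∀ i, aeval t (h79nMap A φ (P i)) * x i =
      ∑ k ∈ (P i).support, (algebraMap (h59bK0 A) Kbar (φ ((P i).coeff k))) • (t ^ k * x i) := by
    intro i
    rw [h79n_aeval_map, Finset.sum_mul]
    refine Finset.sum_congr rfl fun k _ => ?_
    rw [smul_mul_assoc]
  simp only [e2]
  apply key
  simp only [← e1]
  exact h

end Disjoint

/-! ## The base ring `A₀[t]` -/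

section Base

variable (A : ValuationSubring Kbar) (N : ℕ) (t : FF N)

/-- the inclusion `A₀ → ℚ̄`. -/
def h79nκ : h59bA0 A →+* Kbar :=
  (algebraMap (h59bK0 A) Kbar).comp (h59bA0 A).subtype

theorem h79n_κ_injective : Function.Injective (h79nκ A) := by
  intro a b h
  apply Subtype.ext
  apply Subtype.ext
  exact h

theorem h79n_κ_mem (a : h59bA0 A) : h79nκ A a ∈ h59cA0 A := by
  refine ⟨(h59b_mem_A0_iff A a.1).mp a.2, ?_⟩
  exact (h59b_mem_K0_iff A _).mp a.1.2

theorem h79n_exists_κ {a : Kbar} (ha : a ∈ h59cA0 A) : ∃ b : h59bA0 A, h79nκ A b = a :=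
  ⟨⟨⟨a, (h59b_mem_K0_iff A a).mpr ha.2⟩, (h59b_mem_A0_iff A _).mpr ha.1⟩, rfl⟩

/-- `A₀[X] → FF N`, `X ↦ t`. -/
def h79nψ : Polynomial (h59bA0 A) →+* FF N :=
  eval₂RingHom ((algebraMap Kbar (FF N)).comp (h79nκ A)) t

theorem h79n_ψ_apply (p : Polynomial (h59bA0 A)) :
    h79nψ A N t p = aeval t (p.map (h79nκ A)) := by
  show eval₂ _ t p = _
  rw [aeval_def, eval₂_map]

theorem h79n_ψ_C (a : h59bA0 A) : h79nψ A N t (C a) = cst N (h79nκ A a) := by
  show eval₂ _ t (C a) = _
  rw [eval₂_C]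
  rfl

theorem h79n_ψ_X : h79nψ A N t X = t := by
  show eval₂ _ t X = _
  rw [eval₂_X]

theorem h79n_ψ_injective (htr : Transcendental Kbar t) :
    Function.Injective (h79nψ A N t) := by
  rw [injective_iff_map_eq_zero]
  intro p hp
  rw [h79n_ψ_apply] at hp
  have h1 := (transcendental_iff.mp htr) _ hp
  exact (Polynomial.map_eq_zero_iff (h79n_κ_injective A)).mp h1

theorem h79n_ψ_range : (h79nψ A N t).range = h59cRingAdj0 N A t := by
  apply le_antisymm
  · rintro _ ⟨p, rfl⟩
    induction p using Polynomial.induction_on' with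
    | add p q hp hq =>
      rw [map_add]
      exact add_mem hp hq
    | monomial n a =>
      rw [← C_mul_X_pow_eq_monomial, map_mul, map_pow, h79n_ψ_C, h79n_ψ_X]
      exact mul_mem (h59c_cst_mem_adj _ _ (h79n_κ_mem A a))
        (pow_mem (h59c_self_mem_adj _ _) n)
  · unfold h59cRingAdj0 h59cAdj
    rw [Subring.closure_le]
    rintro y (⟨a, ha, rfl⟩ | hy)
    · obtain ⟨b, rfl⟩ := h79n_exists_κ A ha
      exact ⟨C b, h79n_ψ_C A N t b⟩
    · rw [Set.mem_singleton_iff] at hy
      subst hy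
      exact ⟨X, h79n_ψ_X A N y⟩

/-- `A₀[X] ≃ A₀[t]` for `t` transcendental. -/
def h79nEquiv (htr : Transcendental Kbar t) :
    Polynomial (h59bA0 A) ≃+* h59cRingAdj0 N A t :=
  (RingEquiv.ofBijective (h79nψ A N t).rangeRestrict
    ⟨fun _ _ h => h79n_ψ_injective A N t htr (congrArg Subtype.val h),
      (h79nψ A N t).rangeRestrict_surjective⟩).trans
    (RingEquiv.subringCongr (h79n_ψ_range A N t))

theorem h79n_base_noeth {q : ℕ} (hq : q.Prime) (hA : A.LiesOverPrime q)
    (htr : Transcendental Kbar t) : IsNoetherianRing (h59cRingAdj0 N A t) := by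
  have := h59b_isDVR A hq hA
  exact isNoetherianRing_of_ringEquiv _ (h79nEquiv A N t htr)

theorem h79n_base_closed (htr : Transcendental Kbar t) :
    IsIntegrallyClosed (h59cRingAdj0 N A t) :=
  IsIntegrallyClosed.of_equiv (h79nEquiv A N t htr)

end Base

/-! ## Relations over `A₀[t]` -/

section Relation

open scoped IntermediateField.algebraAdjoinAdjoin

variable (A : ValuationSubring Kbar) (N : ℕ) (t : FF N)

theorem h79n_map_mem (φ : Kbar →ₗ[h59bK0 A] h59bK0 A) (p : Kbar[X])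
    (hφ : ∀ k ∈ p.support, ∃ a : h59bA0 A, algebraMap (h59bA0 A) (h59bK0 A) a = φ (p.coeff k)) :
    aeval t (h79nMap A φ p) ∈ h59cRingAdj0 N A t := by
  rw [h79n_aeval_map]
  refine sum_mem fun k hk => ?_
  obtain ⟨a, ha⟩ := hφ k hk
  rw [Algebra.smul_def]
  refine mul_mem ?_ (pow_mem (h59c_self_mem_adj _ _) k)
  have h1 : algebraMap (h59bK0 A) Kbar (φ (p.coeff k)) = h79nκ A a := by
    rw [← ha]
    rfl
  rw [h1]
  exact h59c_cst_mem_adj _ _ (h79n_κ_mem A a)

/-- **a relation over `ℚ̄(t)` between elements of `F₀` gives a relation over `A₀[t]`.** -/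
theorem h79n_exists_relation (ht : t ∈ h53d_F0 N (A.inertiaSubgroupIn ℚ))
    (htr : Transcendental Kbar t)
    {ι : Type*} [Fintype ι] (x : ι → FF N)
    (hx : ∀ i, x i ∈ h53d_F0 N (A.inertiaSubgroupIn ℚ))
    (g : ι → Kbar⟮t⟯) (hg : ∑ i, g i • x i = 0) (i₀ : ι) (hi₀ : g i₀ ≠ 0) :
    ∃ r : ι → FF N, (∀ i, r i ∈ h59cRingAdj0 N A t) ∧ r i₀ ≠ 0 ∧ ∑ i, r i * x i = 0 := by
  classical
  -- (a) clear the denominators of the `g i`
  obtain ⟨b, hb⟩ := IsLocalization.exist_integer_multiples_of_finite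
    (nonZeroDivisors (Algebra.adjoin Kbar {t})) g
  choose c hc using hb
  have hcP : ∀ i, ∃ P : Kbar[X], aeval t P = ((c i : Algebra.adjoin Kbar {t}) : FF N) := by
    intro i
    have h1 : ((c i : Algebra.adjoin Kbar {t}) : FF N) ∈ (aeval (R := Kbar) t).range := by
      rw [← Algebra.adjoin_singleton_eq_range_aeval]
      exact (c i).2
    exact h1
  choose P hP using hcP
  have hb0 : ((b : Algebra.adjoin Kbar {t}) : FF N) ≠ 0 := by
    intro h
    have h1 : (b : Algebra.adjoin Kbar {t}) = 0 := Subtype.ext h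
    exact nonZeroDivisors.coe_ne_zero b h1
  have hPg : ∀ i, aeval t (P i) = ((b : Algebra.adjoin Kbar {t}) : FF N) * ((g i : Kbar⟮t⟯) : FF N) := by
    intro i
    rw [hP i]
    have h1 := congrArg (fun z : Kbar⟮t⟯ => (z : FF N)) (hc i)
    simp only [Algebra.smul_def] at h1
    exact h1
  have hrel : ∑ i, aeval t (P i) * x i = 0 := by
    have h1 : ∑ i, aeval t (P i) * x i =
        ((b : Algebra.adjoin Kbar {t}) : FF N) * ∑ i, g i • x i := by
      rw [Finset.mul_sum]
      refine Finset.sum_congr rfl fun i _ => ?_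
      rw [hPg i, mul_assoc]
      rfl
    rw [h1, hg, mul_zero]
  -- (b) a nonzero coefficient
  have hP0 : P i₀ ≠ 0 := by
    intro h
    have h1 := hPg i₀
    rw [h, map_zero] at h1
    rcases mul_eq_zero.mp h1.symm with h2 | h2
    · exact hb0 h2
    · exact hi₀ (Subtype.ext h2)
  obtain ⟨k₀, hk₀⟩ : ∃ k, (P i₀).coeff k ≠ 0 := by
    by_contra hcon
    refine hP0 (Polynomial.ext fun k => ?_)
    rw [coeff_zero]
    by_contra hk
    exact hcon ⟨k, hk⟩
  -- (c) the functional
  obtain ⟨φ₀, hφ₀⟩ := Module.Projective.exists_dual_ne_zero (h59bK0 A) hk₀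
  -- (d) the common denominator
  let T : Finset (h59bK0 A) :=
    Finset.univ.biUnion fun i : ι => (P i).support.image fun k => φ₀ ((P i).coeff k)
  obtain ⟨d, hd⟩ := IsLocalization.exist_integer_multiples_of_finset
    (nonZeroDivisors (h59bA0 A)) T
  have hd0 : algebraMap (h59bA0 A) (h59bK0 A) (d : h59bA0 A) ≠ 0 := by
    intro h
    have h1 : (d : h59bA0 A) = 0 :=
      (IsFractionRing.injective (h59bA0 A) (h59bK0 A)) (by rw [h, map_zero])
    exact nonZeroDivisors.coe_ne_zero d h1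
  let φ : Kbar →ₗ[h59bK0 A] h59bK0 A := (algebraMap (h59bA0 A) (h59bK0 A) (d : h59bA0 A)) • φ₀
  have hφ : ∀ a : Kbar, φ a = algebraMap (h59bA0 A) (h59bK0 A) (d : h59bA0 A) * φ₀ a := by
    intro a
    rfl
  have hint : ∀ i, ∀ k ∈ (P i).support,
      ∃ a : h59bA0 A, algebraMap (h59bA0 A) (h59bK0 A) a = φ ((P i).coeff k) := by
    intro i k hk
    have hmem : φ₀ ((P i).coeff k) ∈ T :=
      Finset.mem_biUnion.mpr ⟨i, Finset.mem_univ i, Finset.mem_image.mpr ⟨k, hk, rfl⟩⟩
    obtain ⟨a, ha⟩ := hd _ hmem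
    refine ⟨a, ?_⟩
    rw [hφ, ha, Algebra.smul_def]
  refine ⟨fun i => aeval t (h79nMap A φ (P i)), fun i => h79n_map_mem A N t φ (P i) (hint i),
    ?_, h79n_relation A N ht x hx P hrel φ⟩
  intro h
  have h1 := (transcendental_iff.mp htr) _ h
  have h2 := congrArg (fun p : Kbar[X] => p.coeff k₀) h1
  simp only [h79n_map_coeff, coeff_zero] at h2
  rw [hφ, map_mul] at h2
  rcases mul_eq_zero.mp h2 with h3 | h3
  · exact hd0 ((map_eq_zero _).mp h3)
  · exact hφ₀ ((map_eq_zero _).mp h3)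

end Relation

/-! ## Finiteness and noetherianity -/

section Main

variable (A : ValuationSubring Kbar) (N : ℕ) (t : FF N)

theorem h79n_base_le (ht : t ∈ h53d_F0 N (A.inertiaSubgroupIn ℚ)) {y : FF N}
    (hy : y ∈ h59cRingAdj0 N A t) : y ∈ h53d_F0 N (A.inertiaSubgroupIn ℚ) :=
  fun σ hσ => h59c_ringAdj0_fixed N A t ht hy σ hσ

/-- the inclusion `A₀[t] → F₀`. -/
def h79nIncl (ht : t ∈ h53d_F0 N (A.inertiaSubgroupIn ℚ)) :
    h59cRingAdj0 N A t →+* h53d_F0 N (A.inertiaSubgroupIn ℚ) :=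
  RingHom.codRestrict (h59cRingAdj0 N A t).subtype (h53d_F0 N (A.inertiaSubgroupIn ℚ))
    (fun r => h79n_base_le A N t ht r.2)

theorem h79n_incl_injective (ht : t ∈ h53d_F0 N (A.inertiaSubgroupIn ℚ)) :
    Function.Injective (h79nIncl A N t ht) := by
  intro a b h
  apply Subtype.ext
  exact congrArg (fun z : h53d_F0 N (A.inertiaSubgroupIn ℚ) => (z : FF N)) h

/-- `F₀` as an `A₀[t]`-algebra. -/
@[reducible] def h79nAlg (ht : t ∈ h53d_F0 N (A.inertiaSubgroupIn ℚ)) :
    Algebra (h59cRingAdj0 N A t) (h53d_F0 N (A.inertiaSubgroupIn ℚ)) :=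
  (h79nIncl A N t ht).toAlgebra

theorem h79n_faithful (ht : t ∈ h53d_F0 N (A.inertiaSubgroupIn ℚ)) :
    letI := h79nAlg A N t ht
    FaithfulSMul (h59cRingAdj0 N A t) (h53d_F0 N (A.inertiaSubgroupIn ℚ)) := by
  letI := h79nAlg A N t ht
  exact (faithfulSMul_iff_algebraMap_injective _ _).mpr (h79n_incl_injective A N t ht)

/-- **`[F₀ : K₀(t)] < ∞`.** -/
theorem h79n_finiteDimensional (ht : t ∈ h53d_F0 N (A.inertiaSubgroupIn ℚ))
    (htr : Transcendental Kbar t) [hfd : FiniteDimensional Kbar⟮t⟯ (FF N)] :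
    letI := h79nAlg A N t ht
    haveI := h79n_faithful A N t ht
    letI := FractionRing.liftAlgebra (h59cRingAdj0 N A t) (h53d_F0 N (A.inertiaSubgroupIn ℚ))
    FiniteDimensional (FractionRing (h59cRingAdj0 N A t)) (h53d_F0 N (A.inertiaSubgroupIn ℚ)) := by
  letI := h79nAlg A N t ht
  haveI := h79n_faithful A N t ht
  letI := FractionRing.liftAlgebra (h59cRingAdj0 N A t) (h53d_F0 N (A.inertiaSubgroupIn ℚ))
  haveI : IsScalarTower (h59cRingAdj0 N A t) (FractionRing (h59cRingAdj0 N A t))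
      (h53d_F0 N (A.inertiaSubgroupIn ℚ)) := FractionRing.isScalarTower_liftAlgebra _ _
  have hrank : Module.rank (FractionRing (h59cRingAdj0 N A t))
      (h53d_F0 N (A.inertiaSubgroupIn ℚ)) ≤ (Module.finrank Kbar⟮t⟯ (FF N) : ℕ) := by
    apply rank_le
    intro s hli
    have hli' : LinearIndependent Kbar⟮t⟯
        (fun i : s => ((i : h53d_F0 N (A.inertiaSubgroupIn ℚ)) : FF N)) := by
      rw [Fintype.linearIndependent_iff]
      intro g hg i₀
      by_contra hi₀
      obtain ⟨r, hr, hr0, hrel⟩ := h79n_exists_relation A N t ht htr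
        (fun i : s => ((i : h53d_F0 N (A.inertiaSubgroupIn ℚ)) : FF N))
        (fun i => (i : h53d_F0 N (A.inertiaSubgroupIn ℚ)).2) g hg i₀ hi₀
      have h1 := Fintype.linearIndependent_iff.mp hli
        (fun i => algebraMap (h59cRingAdj0 N A t) (FractionRing (h59cRingAdj0 N A t))
          ⟨r i, hr i⟩) ?_ i₀
      · have h2 : (⟨r i₀, hr i₀⟩ : h59cRingAdj0 N A t) = 0 :=
          (IsFractionRing.injective (h59cRingAdj0 N A t)
            (FractionRing (h59cRingAdj0 N A t))) (by rw [h1, map_zero])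
        exact hr0 (congrArg Subtype.val h2)
      · apply Subtype.ext
        rw [AddSubmonoidClass.coe_finsetSum]
        rw [ZeroMemClass.coe_zero, ← hrel]
        refine Finset.sum_congr rfl fun i _ => ?_
        rw [algebraMap_smul, Algebra.smul_def]
        rfl
    calc s.card = Fintype.card s := (Fintype.card_coe s).symm
      _ ≤ Module.finrank Kbar⟮t⟯ (FF N) := hli'.fintype_card_le_finrank
  exact Module.rank_lt_aleph0_iff.mp (lt_of_le_of_lt hrank Cardinal.natCast_lt_aleph0)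

/-- the chart `h62rChart A N t` is the set of the elements of `F₀` integral over `A₀[t]`. -/
theorem h79n_mem_chart_iff (y : FF N) :
    y ∈ h62rChart A N t ↔
      y ∈ h53d_F0 N (A.inertiaSubgroupIn ℚ) ∧ IsIntegral (h59cRingAdj0 N A t) y := by
  unfold h62rChart
  rw [Subring.mem_inf, h59c_mem_modelAt_iff]
  exact and_comm

/-- **the core**: the chart over the inertia ring is noetherian and a finite `A₀[t]`-module. -/
theorem h79n_core {q : ℕ} (hq : q.Prime) (hA : A.LiesOverPrime q)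
    (ht : t ∈ h53d_F0 N (A.inertiaSubgroupIn ℚ))
    (htr : Transcendental Kbar t) [hfd : FiniteDimensional Kbar⟮t⟯ (FF N)] :
    IsNoetherianRing (h62rChart A N t) ∧
    ∃ S : Finset (FF N), (∀ s ∈ S, s ∈ h62rChart A N t) ∧
      ∀ x ∈ h62rChart A N t, ∃ r : FF N → FF N,
        (∀ s, r s ∈ h59cRingAdj0 N A t) ∧ x = ∑ s ∈ S, r s * s := by
  classical
  letI := h79nAlg A N t ht
  haveI := h79n_faithful A N t ht
  letI := FractionRing.liftAlgebra (h59cRingAdj0 N A t) (h53d_F0 N (A.inertiaSubgroupIn ℚ))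
  haveI : IsScalarTower (h59cRingAdj0 N A t) (FractionRing (h59cRingAdj0 N A t))
      (h53d_F0 N (A.inertiaSubgroupIn ℚ)) := FractionRing.isScalarTower_liftAlgebra _ _
  haveI : IsNoetherianRing (h59cRingAdj0 N A t) := h79n_base_noeth A N t hq hA htr
  haveI : IsIntegrallyClosed (h59cRingAdj0 N A t) := h79n_base_closed A N t htr
  haveI : FiniteDimensional (FractionRing (h59cRingAdj0 N A t))
      (h53d_F0 N (A.inertiaSubgroupIn ℚ)) := h79n_finiteDimensional A N t ht htr
  haveI : CharZero (FF N) := charZero_of_injective_algebraMap (algebraMap Kbar (FF N)).injective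
  haveI : CharZero (h53d_F0 N (A.inertiaSubgroupIn ℚ)) :=
    (h53d_F0 N (A.inertiaSubgroupIn ℚ)).subtype.charZero
  haveI : CharZero (FractionRing (h59cRingAdj0 N A t)) :=
    (algebraMap (FractionRing (h59cRingAdj0 N A t))
      (h53d_F0 N (A.inertiaSubgroupIn ℚ))).charZero
  haveI : IsNoetherianRing (integralClosure (h59cRingAdj0 N A t)
      (h53d_F0 N (A.inertiaSubgroupIn ℚ))) :=
    integralClosure.isNoetherianRing (A := h59cRingAdj0 N A t)
      (K := FractionRing (h59cRingAdj0 N A t)) (h53d_F0 N (A.inertiaSubgroupIn ℚ))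
  haveI : Module.Finite (h59cRingAdj0 N A t) (integralClosure (h59cRingAdj0 N A t)
      (h53d_F0 N (A.inertiaSubgroupIn ℚ))) :=
    IsIntegralClosure.finite (h59cRingAdj0 N A t) (FractionRing (h59cRingAdj0 N A t))
      (h53d_F0 N (A.inertiaSubgroupIn ℚ)) _
  -- the comparison
  let fAlg : h53d_F0 N (A.inertiaSubgroupIn ℚ) →ₐ[h59cRingAdj0 N A t] FF N :=
    { (h53d_F0 N (A.inertiaSubgroupIn ℚ)).subtype with commutes' := fun _ => rfl }
  have hfAlg : Function.Injective fAlg := Subtype.val_injective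
  let g : integralClosure (h59cRingAdj0 N A t) (h53d_F0 N (A.inertiaSubgroupIn ℚ)) →+* FF N :=
    (fAlg : h53d_F0 N (A.inertiaSubgroupIn ℚ) →+* FF N).comp
      (integralClosure (h59cRingAdj0 N A t) (h53d_F0 N (A.inertiaSubgroupIn ℚ))).val.toRingHom
  have hg : Function.Injective g := hfAlg.comp Subtype.val_injective
  have hmem : ∀ c, g c ∈ h62rChart A N t := by
    intro c
    rw [h79n_mem_chart_iff]
    exact ⟨(c : h53d_F0 N (A.inertiaSubgroupIn ℚ)).2,
      (isIntegral_algHom_iff fAlg hfAlg).mpr c.2⟩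
  have hsurj : ∀ y ∈ h62rChart A N t, ∃ c, g c = y := by
    intro y hy
    rw [h79n_mem_chart_iff] at hy
    obtain ⟨hy0, hyi⟩ := hy
    have h1 : IsIntegral (h59cRingAdj0 N A t)
        (⟨y, hy0⟩ : h53d_F0 N (A.inertiaSubgroupIn ℚ)) :=
      (isIntegral_algHom_iff fAlg hfAlg).mp hyi
    exact ⟨⟨⟨y, hy0⟩, h1⟩, rfl⟩
  have hrange : g.range = h62rChart A N t := by
    ext y
    constructor
    · rintro ⟨c, rfl⟩
      exact hmem c
    · intro hy
      exact hsurj y hy
  have e : integralClosure (h59cRingAdj0 N A t) (h53d_F0 N (A.inertiaSubgroupIn ℚ)) ≃+*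
      h62rChart A N t :=
    (RingEquiv.ofBijective g.rangeRestrict
      ⟨fun a b h => hg (show g a = g b from congrArg (fun z : g.range => (z : FF N)) h),
        g.rangeRestrict_surjective⟩).trans
      (RingEquiv.subringCongr hrange)
  refine ⟨isNoetherianRing_of_ringEquiv _ e, ?_⟩
  -- finiteness
  obtain ⟨S, hS⟩ := (Module.finite_def.mp (inferInstance : Module.Finite (h59cRingAdj0 N A t)
    (integralClosure (h59cRingAdj0 N A t) (h53d_F0 N (A.inertiaSubgroupIn ℚ)))))
  refine ⟨S.image g, ?_, ?_⟩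
  · intro s hs
    obtain ⟨c, _, rfl⟩ := Finset.mem_image.mp hs
    exact hmem c
  · intro x hx
    obtain ⟨c, rfl⟩ := hsurj x hx
    have hc : c ∈ Submodule.span (h59cRingAdj0 N A t) (S : Set _) := by
      rw [hS]
      exact Submodule.mem_top
    obtain ⟨f, hf⟩ := Submodule.mem_span_finset'.mp hc
    -- `c = ∑ a : S, f a • a`
    refine ⟨fun y => ∑ a : S, if g a.1 = y then ((f a : h59cRingAdj0 N A t) : FF N) else 0,
      fun y => sum_mem fun a _ => ?_, ?_⟩
    · split_ifs
      · exact (f a).2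
      · exact zero_mem _
    · rw [← hf, map_sum, Finset.sum_image (fun a _ b _ h => hg h)]
      rw [← Finset.sum_attach S]
      refine Finset.sum_congr rfl fun a _ => ?_
      have h1 : g (f a • (a : integralClosure (h59cRingAdj0 N A t)
          (h53d_F0 N (A.inertiaSubgroupIn ℚ)))) = ((f a : h59cRingAdj0 N A t) : FF N) * g a := by
        rfl
      rw [h1]
      congr 1
      show _ = ∑ b : S, if g b.1 = g a.1 then ((f b : h59cRingAdj0 N A t) : FF N) else 0
      rw [Finset.sum_eq_single a]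
      · rw [if_pos rfl]
      · intro b _ hb
        rw [if_neg]
        intro h
        exact hb (Subtype.ext (hg h))
      · intro h
        exact absurd (Finset.mem_univ a) h

/-- **the chart over the inertia ring is noetherian.** -/
theorem h79n_isNoetherianRing {q : ℕ} (hq : q.Prime) (hA : A.LiesOverPrime q)
    (ht : t ∈ h53d_F0 N (A.inertiaSubgroupIn ℚ))
    (htr : Transcendental Kbar t) [hfd : FiniteDimensional Kbar⟮t⟯ (FF N)] :
    IsNoetherianRing (h62rChart A N t) :=
  (h79n_core A N t hq hA ht htr).1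

/-- **the chart over the inertia ring is a finite `A₀[t]`-module.** -/
theorem h79n_finite {q : ℕ} (hq : q.Prime) (hA : A.LiesOverPrime q)
    (ht : t ∈ h53d_F0 N (A.inertiaSubgroupIn ℚ))
    (htr : Transcendental Kbar t) [hfd : FiniteDimensional Kbar⟮t⟯ (FF N)] :
    ∃ S : Finset (FF N), (∀ s ∈ S, s ∈ h62rChart A N t) ∧
      ∀ x ∈ h62rChart A N t, ∃ r : FF N → FF N,
        (∀ s, r s ∈ h59cRingAdj0 N A t) ∧ x = ∑ s ∈ S, r s * s :=
  (h79n_core A N t hq hA ht htr).2

/-- the elements of `A₀[t]` are the polynomials in `t` with coefficients in `A₀`. -/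
theorem h79n_mem_base_iff (y : FF N) :
    y ∈ h59cRingAdj0 N A t ↔ ∃ p : Polynomial (h59bA0 A), y = aeval t (p.map (h79nκ A)) := by
  rw [← h79n_ψ_range]
  constructor
  · rintro ⟨p, rfl⟩
    exact ⟨p, h79n_ψ_apply A N t p⟩
  · rintro ⟨p, rfl⟩
    exact ⟨p, h79n_ψ_apply A N t p⟩

end Main

/-! ## The two charts `t = j`, `t = 1 / j` -/

section Charts

variable (A : ValuationSubring Kbar) (N : ℕ) [NeZero N]

theorem h79n_jB_mem : jB N ∈ h53d_F0 N (A.inertiaSubgroupIn ℚ) :=
  fun σ _ => Fermat.Agent.S37.GalI.gal_smul_jB σ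

theorem h79n_jB_inv_mem : (jB N)⁻¹ ∈ h53d_F0 N (A.inertiaSubgroupIn ℚ) :=
  fun σ _ => Fermat.Agent.S37.GalI.gal_smul_jB_inv σ

theorem h79n_adjoin_inv : Kbar⟮(jB N)⁻¹⟯ = Kbar⟮jB N⟯ := by
  apply le_antisymm
  · rw [IntermediateField.adjoin_simple_le_iff]
    exact inv_mem (IntermediateField.mem_adjoin_simple_self Kbar (jB N))
  · rw [IntermediateField.adjoin_simple_le_iff]
    have h := inv_mem (IntermediateField.mem_adjoin_simple_self Kbar (jB N)⁻¹)
    rwa [inv_inv] at h

theorem h79n_finiteDimensional_inv : FiniteDimensional Kbar⟮(jB N)⁻¹⟯ (FF N) := by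
  rw [h79n_adjoin_inv]
  exact Fermat.Agent.Red.HKMod.finiteDimensional_jBar N

/-- **the finite chart over the inertia ring is noetherian.** -/
theorem h79n_isNoetherianRing_fin {q : ℕ} (hq : q.Prime) (hA : A.LiesOverPrime q) :
    IsNoetherianRing (h62rChart A N (jB N)) := by
  haveI : FiniteDimensional Kbar⟮jB N⟯ (FF N) := Fermat.Agent.Red.HKMod.finiteDimensional_jBar N
  exact h79n_isNoetherianRing A N (jB N) hq hA (h79n_jB_mem A N)
    (Fermat.Agent.Red.GG.GGC97_transcendental_jB N)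

/-- **the chart at infinity over the inertia ring is noetherian.** -/
theorem h79n_isNoetherianRing_inf {q : ℕ} (hq : q.Prime) (hA : A.LiesOverPrime q) :
    IsNoetherianRing (h62rChart A N (jB N)⁻¹) := by
  haveI : FiniteDimensional Kbar⟮(jB N)⁻¹⟯ (FF N) := h79n_finiteDimensional_inv N
  exact h79n_isNoetherianRing A N (jB N)⁻¹ hq hA (h79n_jB_inv_mem A N)
    (Fermat.Agent.Red.GG.GGC97_transcendental_jB_inv N)

/-- **the finite chart over the inertia ring is a finite `A₀[j]`-module.** -/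
theorem h79n_finite_fin {q : ℕ} (hq : q.Prime) (hA : A.LiesOverPrime q) :
    ∃ S : Finset (FF N), (∀ s ∈ S, s ∈ h62rChart A N (jB N)) ∧
      ∀ x ∈ h62rChart A N (jB N), ∃ r : FF N → FF N,
        (∀ s, r s ∈ h59cRingAdj0 N A (jB N)) ∧ x = ∑ s ∈ S, r s * s := by
  haveI : FiniteDimensional Kbar⟮jB N⟯ (FF N) := Fermat.Agent.Red.HKMod.finiteDimensional_jBar N
  exact h79n_finite A N (jB N) hq hA (h79n_jB_mem A N)
    (Fermat.Agent.Red.GG.GGC97_transcendental_jB N)

/-- **the chart at infinity over the inertia ring is a finite `A₀[1/j]`-module.** -/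
theorem h79n_finite_inf {q : ℕ} (hq : q.Prime) (hA : A.LiesOverPrime q) :
    ∃ S : Finset (FF N), (∀ s ∈ S, s ∈ h62rChart A N (jB N)⁻¹) ∧
      ∀ x ∈ h62rChart A N (jB N)⁻¹, ∃ r : FF N → FF N,
        (∀ s, r s ∈ h59cRingAdj0 N A (jB N)⁻¹) ∧ x = ∑ s ∈ S, r s * s := by
  haveI : FiniteDimensional Kbar⟮(jB N)⁻¹⟯ (FF N) := h79n_finiteDimensional_inv N
  exact h79n_finite A N (jB N)⁻¹ hq hA (h79n_jB_inv_mem A N)
    (Fermat.Agent.Red.GG.GGC97_transcendental_jB_inv N)

end Charts

end Fermat.Agent.S36
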