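import Mathlib
import Fermat.Agent.S36.H79Noeth
import Fermat.Agent.S36.H40Gen

/-!
# S36, blocks REG / LOC (helper40, prefix `h40h_`): the vertical prime below a closed point

`A` a valuation subring of `ℚ̄` over the prime `q`, `A₀ = A ∩ ℚ̄^I` (a discrete valuation ring),
`t ∈ F₀` an inertia-fixed transcendental coordinate, `B = h62rChart A N t` the chart over `A₀`
(the integral closure of `A₀[t]` in `F₀`).

* `h40h_span_C_lt` (Mathlib only): for a non-unit `π` of `R` the ideal `(π)` of `R[X]` is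
  strictly contained in every maximal ideal which contains it.
* `h40h_exists_vert_abs` (Mathlib only): **going down**: `B` a domain, integral over `R[X]`
  (`R[X]` integrally closed), `π` a prime element of `R`, `𝔫` a maximal ideal of `B` which
  contains `π`: there is a prime `P ∋ π` of `B` with `P ≤ 𝔫`, `P ≠ 𝔫`.
* `h40h_exists_vert` : the same for the chart `h62rChart A N t` and `π = q`
  (any inertia-fixed transcendental `t`).
* `h40h_exists_vert_fin`, `h40h_exists_vert_inf` : the two charts `t = j`, `t = 1 / j` of ANY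
  level `N`: **every closed point `𝔫 ∋ q` of the chart has a prime `P ∋ q`, `P ≤ 𝔫`, `P ≠ 𝔫`
  below it** (the "vertical prime", `hex` of `H86LocVComp`; the dimension witness of the tower
  argument).
-/

set_option autoImplicit false
set_option linter.style.haveILetI false
set_option linter.unusedSectionVars false

open Polynomial

noncomputable section

namespace Fermat.Agent.S36

open Fermat.Agent.S37 (Kbar GQ FF cst jB gal modelAt)

/-! ## The abstract part (Mathlib only) -/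

section Abstract

/-- for a non-unit `π` of `R`, the ideal `(π)` of `R[X]` is strictly contained in every maximal
ideal which contains it. -/
theorem h40h_span_C_lt {R : Type*} [CommRing R] (π : R) (hπ : ¬ IsUnit π)
    (𝔮 : Ideal R[X]) (h𝔮 : 𝔮.IsMaximal) (h : C π ∈ 𝔮) :
    Ideal.span {C π} < 𝔮 := by
  have hle : Ideal.span {C π} ≤ 𝔮 := by
    rw [Ideal.span_le]
    intro x hx
    rw [Set.mem_singleton_iff] at hx
    subst hx
    exact h
  refine lt_of_le_of_ne hle ?_
  intro heq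
  have hX : (X : R[X]) ∉ 𝔮 := by
    intro hX
    rw [← heq, Ideal.mem_span_singleton, C_dvd_iff_dvd_coeff] at hX
    have h1 := hX 1
    rw [coeff_X_one] at h1
    exact hπ (isUnit_of_dvd_one h1)
  obtain ⟨y, i, hi, hyi⟩ := h𝔮.exists_inv hX
  rw [← heq, Ideal.mem_span_singleton, C_dvd_iff_dvd_coeff] at hi
  have h0 := congrArg (fun p : R[X] => p.coeff 0) hyi
  simp only [coeff_add, coeff_one_zero, mul_coeff_zero, coeff_X_zero, mul_zero, zero_add] at h0
  have h1 := hi 0
  rw [h0] at h1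
  exact hπ (isUnit_of_dvd_one h1)

/-- **going down to the vertical prime.** -/
theorem h40h_exists_vert_abs {R B : Type*} [CommRing R] [IsDomain R] [IsIntegrallyClosed R[X]]
    [CommRing B] [IsDomain B] [Algebra R[X] B] [FaithfulSMul R[X] B]
    [Algebra.IsIntegral R[X] B]
    (π : R) (hπ : Prime π) (𝔫 : Ideal B) (h𝔫 : 𝔫.IsMaximal)
    (hπ𝔫 : algebraMap R[X] B (C π) ∈ 𝔫) :
    ∃ P : Ideal B, P.IsPrime ∧ algebraMap R[X] B (C π) ∈ P ∧ P ≤ 𝔫 ∧ P ≠ 𝔫 := by
  haveI := h𝔫
  haveI hp : (Ideal.span {C π} : Ideal R[X]).IsPrime :=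
    (Ideal.span_singleton_prime (C_ne_zero.mpr hπ.ne_zero)).mpr (prime_C_iff.mpr hπ)
  haveI hq : (𝔫.under R[X]).IsMaximal :=
    Ideal.isMaximal_comap_of_isIntegral_of_isMaximal 𝔫
  have hlt : Ideal.span {C π} < 𝔫.under R[X] :=
    h40h_span_C_lt π hπ.not_isUnit _ hq hπ𝔫
  haveI : 𝔫.LiesOver (𝔫.under R[X]) := ⟨rfl⟩
  obtain ⟨P, hPlt, hPprime, hPover⟩ :=
    Ideal.exists_ideal_lt_liesOver_of_lt (p := Ideal.span {C π}) (q := 𝔫.under R[X]) 𝔫 hlt
  refine ⟨P, hPprime, ?_, hPlt.le, hPlt.ne⟩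
  have h1 : C π ∈ P.under R[X] := by
    rw [← hPover.over]
    exact Ideal.mem_span_singleton_self _
  exact h1

end Abstract

/-! ## The charts -/

section Chart

variable (A : ValuationSubring Kbar) (N : ℕ) [NeZero N] (t : FF N)

/-- `A₀[X] → chart₀`, `X ↦ t`. -/
def h40hE (ht : t ∈ h53d_F0 N (A.inertiaSubgroupIn ℚ)) :
    Polynomial (h59bA0 A) →+* h62rChart A N t :=
  RingHom.codRestrict (h79nψ A N t) (h62rChart A N t) (fun p =>
    h40g_ringAdj0_le_chart (A := A) (N := N) t ht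
      (by rw [← h79n_ψ_range]; exact ⟨p, rfl⟩))

theorem h40hE_coe (ht : t ∈ h53d_F0 N (A.inertiaSubgroupIn ℚ)) (p : Polynomial (h59bA0 A)) :
    ((h40hE A N t ht p : h62rChart A N t) : FF N) = h79nψ A N t p := rfl

theorem h40hE_injective (ht : t ∈ h53d_F0 N (A.inertiaSubgroupIn ℚ))
    (htr : Transcendental Kbar t) : Function.Injective (h40hE A N t ht) := by
  intro a b h
  exact h79n_ψ_injective A N t htr (congrArg (fun z : h62rChart A N t => (z : FF N)) h)

theorem h40hE_natCast (ht : t ∈ h53d_F0 N (A.inertiaSubgroupIn ℚ)) (q : ℕ) :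
    h40hE A N t ht (C ((q : ℕ) : h59bA0 A)) = ((q : ℕ) : h62rChart A N t) := by
  rw [Polynomial.C_eq_natCast, map_natCast]

set_option synthInstance.maxHeartbeats 400000 in
theorem h40hE_isIntegral (ht : t ∈ h53d_F0 N (A.inertiaSubgroupIn ℚ))
    (b : h62rChart A N t) : (h40hE A N t ht).IsIntegralElem b := by
  have h1 : IsIntegral (h59cRingAdj0 N A t) (b : FF N) :=
    ((h79n_mem_chart_iff A N t (b : FF N)).mp b.2).2
  rw [← h79n_ψ_range, Fermat.Agent.Red.ModelO.h85_isIntegral_range_iff] at h1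
  obtain ⟨p, hp, hroot⟩ := h1
  refine ⟨p, hp, ?_⟩
  apply Subtype.ext
  have h2 : (h62rChart A N t).subtype (eval₂ (h40hE A N t ht) b p) =
      eval₂ ((h62rChart A N t).subtype.comp (h40hE A N t ht)) ((h62rChart A N t).subtype b) p :=
    hom_eval₂ p (h40hE A N t ht) (h62rChart A N t).subtype b
  exact h2.trans hroot

/-- **the vertical prime below a closed point of the chart** (general coordinate). -/
theorem h40h_exists_vert {q : ℕ} (hq : q.Prime) (hA : A.LiesOverPrime q)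
    (ht : t ∈ h53d_F0 N (A.inertiaSubgroupIn ℚ)) (htr : Transcendental Kbar t)
    (𝔫 : Ideal (h62rChart A N t)) (h𝔫 : 𝔫.IsMaximal)
    (hq𝔫 : ((q : ℕ) : h62rChart A N t) ∈ 𝔫) :
    ∃ P : Ideal (h62rChart A N t),
      P.IsPrime ∧ ((q : ℕ) : h62rChart A N t) ∈ P ∧ P ≤ 𝔫 ∧ P ≠ 𝔫 := by
  haveI := h59b_isDVR A hq hA
  letI : Algebra (Polynomial (h59bA0 A)) (h62rChart A N t) := (h40hE A N t ht).toAlgebra
  haveI : FaithfulSMul (Polynomial (h59bA0 A)) (h62rChart A N t) :=
    (faithfulSMul_iff_algebraMap_injective _ _).mpr (h40hE_injective A N t ht htr)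
  haveI : Algebra.IsIntegral (Polynomial (h59bA0 A)) (h62rChart A N t) :=
    ⟨fun b => h40hE_isIntegral A N t ht b⟩
  have hprime : Prime ((q : ℕ) : h59bA0 A) := (h59b_irreducible A hq hA).prime
  have h1 := h40h_exists_vert_abs (R := h59bA0 A) (B := h62rChart A N t)
    ((q : ℕ) : h59bA0 A) hprime 𝔫 h𝔫
    (by
      show h40hE A N t ht (C ((q : ℕ) : h59bA0 A)) ∈ 𝔫
      rw [h40hE_natCast]
      exact hq𝔫)
  obtain ⟨P, hP, hqP, hle, hne⟩ := h1
  refine ⟨P, hP, ?_, hle, hne⟩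
  have h2 : h40hE A N t ht (C ((q : ℕ) : h59bA0 A)) ∈ P := hqP
  rwa [h40hE_natCast] at h2

end Chart

section Charts

variable (A : ValuationSubring Kbar) (N : ℕ) [NeZero N]

/-- **the vertical prime below a closed point of the finite chart** (any level). -/
theorem h40h_exists_vert_fin {q : ℕ} (hq : q.Prime) (hA : A.LiesOverPrime q)
    (𝔫 : Ideal (h62rChart A N (jB N))) (h𝔫 : 𝔫.IsMaximal)
    (hq𝔫 : ((q : ℕ) : h62rChart A N (jB N)) ∈ 𝔫) :
    ∃ P : Ideal (h62rChart A N (jB N)),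
      P.IsPrime ∧ ((q : ℕ) : h62rChart A N (jB N)) ∈ P ∧ P ≤ 𝔫 ∧ P ≠ 𝔫 :=
  h40h_exists_vert A N (jB N) hq hA (h79n_jB_mem A N)
    (Fermat.Agent.Red.GG.GGC97_transcendental_jB N) 𝔫 h𝔫 hq𝔫

/-- **the vertical prime below a closed point of the chart at infinity** (any level). -/
theorem h40h_exists_vert_inf {q : ℕ} (hq : q.Prime) (hA : A.LiesOverPrime q)
    (𝔫 : Ideal (h62rChart A N (jB N)⁻¹)) (h𝔫 : 𝔫.IsMaximal)
    (hq𝔫 : ((q : ℕ) : h62rChart A N (jB N)⁻¹) ∈ 𝔫) :
    ∃ P : Ideal (h62rChart A N (jB N)⁻¹),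
      P.IsPrime ∧ ((q : ℕ) : h62rChart A N (jB N)⁻¹) ∈ P ∧ P ≤ 𝔫 ∧ P ≠ 𝔫 :=
  h40h_exists_vert A N (jB N)⁻¹ hq hA (h79n_jB_inv_mem A N)
    (Fermat.Agent.Red.GG.GGC97_transcendental_jB_inv N) 𝔫 h𝔫 hq𝔫

/-- the vertical prime is not zero. -/
theorem h40h_vert_ne_bot {q : ℕ} (hq : q.Prime) (t : FF N) (P : Ideal (h62rChart A N t))
    (hqP : ((q : ℕ) : h62rChart A N t) ∈ P) : P ≠ ⊥ := by
  intro h
  rw [h, Ideal.mem_bot] at hqP
  have h1 : ((q : ℕ) : FF N) = 0 := by
    have := congrArg (fun z : h62rChart A N t => (z : FF N)) hqP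
    simpa using this
  exact hq.ne_zero (by exact_mod_cast h1)

end Charts

end Fermat.Agent.S36
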