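import Fermat.Agent.S36.H62L1Iface
import Fermat.Agent.LGC.Fin71Inst

/-!
# S36, block REG (helper62): the finite chart of level `M q²` — frozen case leaves and assembly

`B₁ = h62rChart A (M q) (jSS M q)`, `B₂ = h62rChart A (M q²) (jB (M q²))` (charts over `A₀`).

* `h62rA2 : B₁ →+* B₂` : the degeneracy map `α₂` on the charts over `A₀`.
* `H62FinContr` : the contraction `α₂⁻¹ 𝔫₂` of a closed point `𝔫₂ ∋ q` of `B₂` is a maximal ideal
  of `B₁` (R-BASE2).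
* `H62FinNode`, `H62FinInf`, `H62FinZero` : `H62Datum 𝔫₂ q` at the closed points `𝔫₂ ∋ q` of `B₂`
  over a node (R-TOWER-SS), over a smooth point of `C_∞`, over a smooth point of `C_0` (R-ORD)
  of the level `M q`, in the vocabulary of `H62L1Iface` (`H62NodeDatum`, `H62InfDatum`,
  `H62ZeroDatum` at `α₂⁻¹ 𝔫₂`).
* `h62r_leafFin_of` : **R-FIN**: `H62L1 → H62FinContr → H62FinNode → H62FinInf → H62FinZero →
  H62LeafFin` (proved).
-/

set_option autoImplicit false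
set_option linter.unusedSectionVars false
set_option linter.style.haveILetI false

open AlgebraicCurve ModularCurve IsLocalRing

noncomputable section

namespace Fermat.Agent.S36

open Fermat.Agent.S37 Fermat.Agent.Red.GG Fermat.Agent.LGC

section Maps

variable (A : ValuationSubring Kbar) (M : ℕ) {q : ℕ} [NeZero M] [NeZero q]

theorem h62r_alpha2_jSS :
    heckeAlphaBar Kbar (M * q) q (jSS M q) = jB (M * q * q) := by
  rw [h71i_jSS_eq, ← h71i_jB_eq]

/-- `α₂` on the finite charts over `A₀`. -/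
def h62rA2 : h62rChart A (M * q) (jSS M q) →+* h62rChart A (M * q * q) (jB (M * q * q)) where
  toFun x := ⟨heckeAlphaBar Kbar (M * q) q (x : FF (M * q)), h62r_mem_chart.mpr
    ⟨by
      have h := Fermat.Agent.Red.KR.map_mem_modelAt (heckeAlphaBar Kbar (M * q) q) A
        (h62r_mem_chart.mp x.2).1
      rwa [h62r_alpha2_jSS] at h,
     fun σ hσ => by rw [h83g_gal_alpha, (h62r_mem_chart.mp x.2).2 σ hσ]⟩⟩
  map_one' := Subtype.ext (map_one _)
  map_mul' _ _ := Subtype.ext (map_mul _ _ _)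
  map_zero' := Subtype.ext (map_zero _)
  map_add' _ _ := Subtype.ext (map_add _ _ _)

@[simp]
theorem h62r_coe_A2 (x : h62rChart A (M * q) (jSS M q)) :
    ((h62rA2 A M (q := q) x : h62rChart A (M * q * q) (jB (M * q * q))) : FF (M * q * q)) =
      heckeAlphaBar Kbar (M * q) q (x : FF (M * q)) := rfl

end Maps

/-- **R-BASE2 (contraction)**. -/
def H62FinContr : Prop :=
  ∀ (q : ℕ) (hq : q.Prime) (M : ℕ) [NeZero M], ¬ q ∣ M → auxLevel q ∣ M →
    haveI : NeZero q := ⟨hq.ne_zero⟩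
    ∀ A : ValuationSubring Kbar, A.LiesOverPrime q →
      ∀ 𝔫₂ : Ideal (h62rChart A (M * q * q) (jB (M * q * q))), 𝔫₂.IsMaximal →
        (q : h62rChart A (M * q * q) (jB (M * q * q))) ∈ 𝔫₂ →
          (𝔫₂.comap (h62rA2 A M)).IsMaximal

/-- **R-TOWER-SS**: the closed points over a node. -/
def H62FinNode : Prop :=
  ∀ (q : ℕ) (hq : q.Prime) (M : ℕ) [NeZero M] (hM : ¬ q ∣ M), auxLevel q ∣ M →
    haveI : NeZero q := ⟨hq.ne_zero⟩
    ∀ (A : ValuationSubring Kbar) (hA : A.LiesOverPrime q),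
      ∀ 𝔫₂ : Ideal (h62rChart A (M * q * q) (jB (M * q * q))), 𝔫₂.IsMaximal →
        (q : h62rChart A (M * q * q) (jB (M * q * q))) ∈ 𝔫₂ →
        H62NodeDatum A M hq hM hA (𝔫₂.comap (h62rA2 A M)) → H62Datum 𝔫₂ q

/-- **R-ORD (∞)**: the closed points over a smooth point of `C_∞`. -/
def H62FinInf : Prop :=
  ∀ (q : ℕ) (hq : q.Prime) (M : ℕ) [NeZero M] (hM : ¬ q ∣ M), auxLevel q ∣ M →
    haveI : NeZero q := ⟨hq.ne_zero⟩
    ∀ (A : ValuationSubring Kbar) (hA : A.LiesOverPrime q),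
      ∀ 𝔫₂ : Ideal (h62rChart A (M * q * q) (jB (M * q * q))), 𝔫₂.IsMaximal →
        (q : h62rChart A (M * q * q) (jB (M * q * q))) ∈ 𝔫₂ →
        H62InfDatum A M hq hM hA (𝔫₂.comap (h62rA2 A M)) → H62Datum 𝔫₂ q

/-- **R-ORD (0)**: the closed points over a smooth point of `C_0`. -/
def H62FinZero : Prop :=
  ∀ (q : ℕ) (hq : q.Prime) (M : ℕ) [NeZero M] (hM : ¬ q ∣ M), auxLevel q ∣ M →
    haveI : NeZero q := ⟨hq.ne_zero⟩
    ∀ (A : ValuationSubring Kbar) (hA : A.LiesOverPrime q),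
      ∀ 𝔫₂ : Ideal (h62rChart A (M * q * q) (jB (M * q * q))), 𝔫₂.IsMaximal →
        (q : h62rChart A (M * q * q) (jB (M * q * q))) ∈ 𝔫₂ →
        H62ZeroDatum A M hq hM hA (𝔫₂.comap (h62rA2 A M)) → H62Datum 𝔫₂ q

/-- **R-FIN.** -/
theorem h62r_leafFin_of (h1 : H62L1) (hc : H62FinContr) (hn : H62FinNode) (hi : H62FinInf)
    (hz : H62FinZero) : H62LeafFin := by
  intro q hq M _ hqM haux
  haveI : NeZero q := ⟨hq.ne_zero⟩
  intro A hA 𝔫₂ h𝔫₂ hq𝔫₂
  have hmax := hc q hq M hqM haux A hA 𝔫₂ h𝔫₂ hq𝔫₂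
  have hq₁ : (q : h62rChart A (M * q) (jSS M q)) ∈ 𝔫₂.comap (h62rA2 A M) := by
    rw [Ideal.mem_comap, map_natCast]
    exact hq𝔫₂
  rcases h1 q hq M hqM haux A hA _ hmax hq₁ with h | h | h
  · exact hn q hq M hqM haux A hA 𝔫₂ h𝔫₂ hq𝔫₂ h
  · exact hi q hq M hqM haux A hA 𝔫₂ h𝔫₂ hq𝔫₂ h
  · exact hz q hq M hqM haux A hA 𝔫₂ h𝔫₂ hq𝔫₂ h

end Fermat.Agent.S36
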