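import Mathlib
import Fermat.Agent.S36.H40Vert
import Fermat.Agent.S36.H40Gen
import Fermat.Agent.S36.H62FinIface

/-!
# S36, block REG, row R-TOWER-SS (helper40, prefix `h40x_`): inputs of the tower argument

`B₁ = h62rChart A (M q) (jSS M q)`, `Bc = h62rChart A (M q²) (jB (M q²))` (charts over `A₀`),
`ι = h62rA2 A M : B₁ →+* Bc`.

* `h40x_hfrac` : **R-GEN in the shape of `h67t_tower`**: for `u ∈ chart₀(M)` non-constant and
  `Z ∈ Bc` with `Z = β β u`, every `b ∈ Bc` is `p(Z) / ι d` with `p ∈ B₁[X]`, `0 ≠ d ∈ B₁`.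
* `h40x_dim` : **the dimension witness**: every closed point `𝔫₁ ∋ q` of `B₁` has a prime
  `P ≠ ⊥`, `P ≤ 𝔫₁`, `P ≠ 𝔫₁` (unconditional: going down over `A₀[j]`); `h40x_dim'` the same
  with `q ∈ P`.
* `h40x_cst_mem_chart` : a constant of the chart over `A₀` is a constant of `A₀`.
* `h40x_not_cst` : **the rational function `u` of a node datum is not constant.**
-/

set_option autoImplicit false
set_option linter.style.haveILetI false
set_option linter.unusedSectionVars false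

open AlgebraicCurve ModularCurve Polynomial

noncomputable section

namespace Fermat.Agent.S36

open Fermat.Agent.S37 Fermat.Agent.Red.GG Fermat.Agent.LGC

section Dim

variable (A : ValuationSubring Kbar) (M : ℕ) {q : ℕ} [NeZero M] [NeZero q]

theorem h40x_jSS_mem : jSS M q ∈ h53d_F0 (M * q) (A.inertiaSubgroupIn ℚ) := by
  rw [h71i_jSS_eq]
  exact h79n_jB_mem A (M * q)

theorem h40x_jSS_transcendental : Transcendental Kbar (jSS M q) := by
  rw [h71i_jSS_eq]
  exact Fermat.Agent.Red.GG.GGC97_transcendental_jB (M * q)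

/-- **the dimension witness** (with `q ∈ P`). -/
theorem h40x_dim' (hq : q.Prime) (hA : A.LiesOverPrime q)
    (𝔫₁ : Ideal (h62rChart A (M * q) (jSS M q))) (hmax : 𝔫₁.IsMaximal)
    (hq𝔫 : ((q : ℕ) : h62rChart A (M * q) (jSS M q)) ∈ 𝔫₁) :
    ∃ P : Ideal (h62rChart A (M * q) (jSS M q)),
      P.IsPrime ∧ ((q : ℕ) : h62rChart A (M * q) (jSS M q)) ∈ P ∧ P ≤ 𝔫₁ ∧ P ≠ 𝔫₁ :=
  h40h_exists_vert A (M * q) (jSS M q) hq hA (h40x_jSS_mem A M)
    (h40x_jSS_transcendental M) 𝔫₁ hmax hq𝔫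

/-- **the dimension witness.** -/
theorem h40x_dim (hq : q.Prime) (hA : A.LiesOverPrime q)
    (𝔫₁ : Ideal (h62rChart A (M * q) (jSS M q))) (hmax : 𝔫₁.IsMaximal)
    (hq𝔫 : ((q : ℕ) : h62rChart A (M * q) (jSS M q)) ∈ 𝔫₁) :
    ∃ P : Ideal (h62rChart A (M * q) (jSS M q)), P.IsPrime ∧ P ≠ ⊥ ∧ P ≤ 𝔫₁ ∧ P ≠ 𝔫₁ := by
  obtain ⟨P, hP, hqP, hle, hne⟩ := h40x_dim' A M hq hA 𝔫₁ hmax hq𝔫
  exact ⟨P, hP, h40h_vert_ne_bot A (M * q) hq (jSS M q) P hqP, hle, hne⟩

theorem h40x_natCast_mem_comap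
    (𝔫₂ : Ideal (h62rChart A (M * q * q) (jB (M * q * q))))
    (hq𝔫 : ((q : ℕ) : h62rChart A (M * q * q) (jB (M * q * q))) ∈ 𝔫₂) :
    ((q : ℕ) : h62rChart A (M * q) (jSS M q)) ∈ 𝔫₂.comap (h62rA2 A M) := by
  have h : h62rA2 A M ((q : ℕ) : h62rChart A (M * q) (jSS M q)) =
      ((q : ℕ) : h62rChart A (M * q * q) (jB (M * q * q))) := map_natCast (h62rA2 A M) q
  apply Ideal.mem_comap.mpr
  rw [h]
  exact hq𝔫

/-- **the dimension witness in the shape of the tower argument** (`𝔫₁ = α₂⁻¹ 𝔫₂`). -/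
theorem h40x_dim_tower (hq : q.Prime) (hA : A.LiesOverPrime q)
    (𝔫₂ : Ideal (h62rChart A (M * q * q) (jB (M * q * q))))
    (hmax : (𝔫₂.comap (h62rA2 A M)).IsMaximal)
    (hq₁ : ((q : ℕ) : h62rChart A (M * q) (jSS M q)) ∈ 𝔫₂.comap (h62rA2 A M)) :
    ∃ P : Ideal (h62rChart A (M * q) (jSS M q)), P.IsPrime ∧ P ≠ ⊥ ∧
      (∀ b ∈ P, h62rA2 A M b ∈ 𝔫₂) ∧ ∃ b, h62rA2 A M b ∈ 𝔫₂ ∧ b ∉ P := by
  obtain ⟨P, hP, hP0, hle, hne⟩ := h40x_dim A M hq hA _ hmax hq₁
  refine ⟨P, hP, hP0, fun b hb => Ideal.mem_comap.mp (hle hb), ?_⟩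
  by_contra hcon
  apply hne
  apply le_antisymm hle
  intro b hb
  by_contra hbP
  exact hcon ⟨b, Ideal.mem_comap.mp hb, hbP⟩

end Dim

section Frac

variable (A : ValuationSubring Kbar) (M : ℕ) {q : ℕ} [NeZero M] [NeZero q]

/-- **R-GEN in the shape of the tower argument.** -/
theorem h40x_hfrac (hq : q.Prime) (hqM : ¬ q ∣ M)
    (u : h62rChart A M (jB M)) (hu : (u : FF M) ∉ Set.range (cst M))
    (Z : h62rChart A (M * q * q) (jB (M * q * q)))
    (hZ : (Z : FF (M * q * q)) = h40gZ M q (u : FF M)) :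
    ∀ b : h62rChart A (M * q * q) (jB (M * q * q)),
      ∃ (p : Polynomial (h62rChart A (M * q) (jSS M q))) (d : h62rChart A (M * q) (jSS M q)),
        d ≠ 0 ∧ h62rA2 A M d * b = (p.map (h62rA2 A M)).eval Z := by
  intro b
  obtain ⟨P, s, hs0, hs, hP, -, hrel⟩ := h40g_gen_jB (M := M) (q := q) A hq hqM (u : FF M)
    (h62r_mem_chart.mp u.2).2 hu (b : FF (M * q * q)) (h62r_mem_chart.mp b.2).2
  have hEq : h62rChart A (M * q) (jB (M * q)) = h62rChart A (M * q) (jSS M q) := by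
    rw [h71i_jSS_eq]
  rw [hEq] at hs
  have hP' : (↑P.coeffs : Set (FF (M * q))) ⊆ h62rChart A (M * q) (jSS M q) := by
    intro c hc
    obtain ⟨i, -, rfl⟩ := Polynomial.mem_coeffs_iff.mp hc
    have := hP i
    rw [hEq] at this
    exact this
  refine ⟨P.toSubring _ hP', ⟨s, hs⟩, ?_, ?_⟩
  · intro h
    exact hs0 (congrArg Subtype.val h)
  · apply Subtype.ext
    have h1 : (((P.toSubring _ hP').map (h62rA2 A M)).eval Z :
          h62rChart A (M * q * q) (jB (M * q * q))) =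
        eval₂ (h62rA2 A M) Z (P.toSubring _ hP') := eval_map _ _
    have h2 : (h62rChart A (M * q * q) (jB (M * q * q))).subtype
          (eval₂ (h62rA2 A M) Z (P.toSubring _ hP')) =
        eval₂ ((h62rChart A (M * q * q) (jB (M * q * q))).subtype.comp (h62rA2 A M))
          ((h62rChart A (M * q * q) (jB (M * q * q))).subtype Z) (P.toSubring _ hP') :=
      hom_eval₂ _ _ _ _
    have h3 : (h62rChart A (M * q * q) (jB (M * q * q))).subtype.comp (h62rA2 A M) =
        (h40gA (M * q) q).comp (h62rChart A (M * q) (jSS M q)).subtype := by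
      ext x
      rfl
    have h4 : eval₂ ((h40gA (M * q) q).comp (h62rChart A (M * q) (jSS M q)).subtype)
          (Z : FF (M * q * q)) (P.toSubring _ hP') =
        eval₂ (h40gA (M * q) q) (Z : FF (M * q * q)) P := by
      rw [← eval₂_map, Polynomial.map_toSubring]
    rw [h1]
    show heckeAlphaBar Kbar (M * q) q s * (b : FF (M * q * q)) =
      (h62rChart A (M * q * q) (jB (M * q * q))).subtype
        (eval₂ (h62rA2 A M) Z (P.toSubring _ hP'))
    rw [h2, h3]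
    show _ = eval₂ ((h40gA (M * q) q).comp (h62rChart A (M * q) (jSS M q)).subtype)
          (Z : FF (M * q * q)) (P.toSubring _ hP')
    rw [h4, hZ]
    exact hrel

end Frac

/-! ## Constants of the charts -/

section Cst

variable (A : ValuationSubring Kbar) (N : ℕ) [NeZero N]

/-- a constant of `FF N` which is integral over `A[t]`, `t` transcendental, lies in `A`. -/
theorem h40x_cst_mem_modelAt (t : FF N) (htr : Transcendental Kbar t) (c : Kbar)
    (hc : cst N c ∈ modelAt N A t) : c ∈ A := by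
  rw [Fermat.Agent.Red.ModelO.h85_mem_modelAt_iff_isIntegralElem] at hc
  obtain ⟨p, hp, hroot⟩ := hc
  -- `h85ev = ε ∘ map`, `ε = aeval t : ℚ̄[X] → FF N` injective
  let ε : Kbar[X] →+* FF N := (aeval t : Kbar[X] →ₐ[Kbar] FF N).toRingHom
  have hε : Function.Injective ε := transcendental_iff_injective.mp htr
  let m : Polynomial A →+* Kbar[X] := mapRingHom (algebraMap A Kbar)
  have h1 : Fermat.Agent.Red.ModelO.h85ev N A t = ε.comp m := by
    ext P
    · simp [ε, m, Fermat.Agent.Red.ModelO.h85ev, Fermat.Agent.Red.ModelO.h85cstHom]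
    · simp [ε, m, Fermat.Agent.Red.ModelO.h85ev]
  have h2 : cst N c = ε (C c) := by
    simp [ε]
  rw [h1, h2, ← hom_eval₂] at hroot
  have h3 : eval₂ m (C c) p = 0 := hε (hroot.trans (map_zero ε).symm)
  have h4 := congrArg (evalRingHom (0 : Kbar)) h3
  rw [hom_eval₂, map_zero] at h4
  have h5 : (evalRingHom (0 : Kbar)).comp m =
      (algebraMap A Kbar).comp (evalRingHom (0 : A)) := by
    ext P
    · simp [m]
    · simp [m]
  rw [h5] at h4
  have h6 : (evalRingHom (0 : Kbar)) (C c) = c := by simp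
  rw [h6, ← eval₂_map] at h4
  have hint : IsIntegral A c := ⟨p.map (evalRingHom (0 : A)), hp.map _, h4⟩
  obtain ⟨y, hy⟩ := (IsIntegrallyClosed.isIntegral_iff (R := A) (K := Kbar)).mp hint
  rw [← hy]
  exact y.2

/-- **a constant of the chart over `A₀` is a constant of `A₀`.** -/
theorem h40x_cst_mem_chart (t : FF N) (htr : Transcendental Kbar t) (c : Kbar)
    (hc : cst N c ∈ h62rChart A N t) : ∃ a : h59bA0 A, h79nκ A a = c := by
  apply h79n_exists_κ
  refine ⟨h40x_cst_mem_modelAt A N t htr c (h62r_mem_chart.mp hc).1, fun σ hσ => ?_⟩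
  have h1 := (h62r_mem_chart.mp hc).2 σ hσ
  rw [Fermat.Agent.S37.GalI.gal_smul_cst] at h1
  exact (algebraMap Kbar (FF N)).injective h1

end Cst

section NotCst

variable (A : ValuationSubring Kbar) (M : ℕ) {q : ℕ} [NeZero M] [NeZero q]

/-- the constants `A₀ → B₁`. -/
def h40xCst : h59bA0 A →+* h62rChart A (M * q) (jSS M q) :=
  (h40hE A (M * q) (jSS M q) (h40x_jSS_mem A M)).comp C

theorem h40xCst_coe (a : h59bA0 A) :
    ((h40xCst A M (q := q) a : h62rChart A (M * q) (jSS M q)) : FF (M * q)) =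
      cst (M * q) (h79nκ A a) :=
  h79n_ψ_C A (M * q) (jSS M q) a

theorem h40x_natCast_ne_zero (hq : q.Prime) :
    ((q : ℕ) : h62rChart A (M * q) (jSS M q)) ≠ 0 := by
  intro h
  have h1 : ((q : ℕ) : FF (M * q)) = 0 := by
    have := congrArg (fun z : h62rChart A (M * q) (jSS M q) => (z : FF (M * q))) h
    simpa using this
  exact hq.ne_zero (by exact_mod_cast h1)

/-- **the function `u` of a node datum is not constant.** -/
theorem h40x_not_cst (hq : q.Prime) (hM : ¬ q ∣ M) (hA : A.LiesOverPrime q)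
    (𝔫₁ : Ideal (h62rChart A (M * q) (jSS M q))) (h𝔫₁ : 𝔫₁.IsPrime)
    (u : h62rChart A M (jB M)) (hX : h62rAlpha A M u ∈ 𝔫₁)
    (ρ : h62rChart A (M * q) (jSS M q)) (hρ : ρ ∉ 𝔫₁)
    (hrel : (h62rBeta A M hq hM hA u - h62rAlpha A M u ^ q) *
        (h62rBeta A M hq hM hA u ^ q - h62rAlpha A M u)
        + (q : h62rChart A (M * q) (jSS M q)) * ρ = 0) :
    (u : FF M) ∉ Set.range (cst M) := by
  rintro ⟨c, hc⟩
  have hc' : cst M c = (u : FF M) := hc
  obtain ⟨a, ha⟩ := h40x_cst_mem_chart A M (jB M)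
    (Fermat.Agent.Red.GG.GGC97_transcendental_jB M) c (by rw [hc']; exact u.2)
  -- `α u = β u =` the constant `a`
  have hXa : h62rAlpha A M (q := q) u = h40xCst A M a := by
    apply Subtype.ext
    rw [h62r_coe_alpha, h40xCst_coe, ← hc', ha]
    exact (heckeAlphaBar Kbar M q).commutes c
  have hYa : h62rBeta A M hq hM hA u = h40xCst A M a := by
    apply Subtype.ext
    rw [h62r_coe_beta, h40xCst_coe, ← hc', ha]
    exact (heckeBetaBar Kbar M q).commutes c
  rw [hXa] at hX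
  rw [hXa, hYa] at hrel
  -- `a` is not a unit
  have hau : ¬ IsUnit a := by
    intro h
    exact h𝔫₁.ne_top (Ideal.eq_top_of_isUnit_mem _ hX (h.map (h40xCst A M)))
  haveI := h59b_isDVR A hq hA
  have ham : a ∈ IsLocalRing.maximalIdeal (h59bA0 A) :=
    (IsLocalRing.mem_maximalIdeal a).mpr hau
  rw [h59b_maximalIdeal A hq hA, Ideal.mem_span_singleton] at ham
  obtain ⟨a', rfl⟩ := ham
  -- `q ∈ 𝔫₁`
  have hq𝔫 : ((q : ℕ) : h62rChart A (M * q) (jSS M q)) ∈ 𝔫₁ := by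
    have h1 : ((q : ℕ) : h62rChart A (M * q) (jSS M q)) * ρ ∈ 𝔫₁ := by
      have h2 : ((q : ℕ) : h62rChart A (M * q) (jSS M q)) * ρ =
          -((h40xCst A M (↑q * a') - h40xCst A M (↑q * a') ^ q) *
            (h40xCst A M (↑q * a') ^ q - h40xCst A M (↑q * a'))) := by
        linear_combination hrel
      rw [h2]
      refine 𝔫₁.neg_mem (𝔫₁.mul_mem_right _ (𝔫₁.sub_mem hX (𝔫₁.pow_mem_of_mem hX q hq.pos)))
    exact (h𝔫₁.mem_or_mem h1).resolve_right hρ
  -- the relation, divided by `q`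
  set x' : h62rChart A (M * q) (jSS M q) := h40xCst A M a' with hx'
  have hqx : h40xCst A M (↑q * a') = ((q : ℕ) : h62rChart A (M * q) (jSS M q)) * x' := by
    rw [map_mul, map_natCast]
  obtain ⟨k, hk⟩ : ∃ k, q = k + 1 := ⟨q - 1, (Nat.succ_pred_eq_of_pos hq.pos).symm⟩
  set w : h62rChart A (M * q) (jSS M q) :=
    ((q : ℕ) : h62rChart A (M * q) (jSS M q)) ^ k * x' ^ q with hw
  have hpow : (((q : ℕ) : h62rChart A (M * q) (jSS M q)) * x') ^ q =
      ((q : ℕ) : h62rChart A (M * q) (jSS M q)) * w := by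
    have hQ : ∀ Q : h62rChart A (M * q) (jSS M q), Q ^ q = Q * Q ^ k := fun Q => by
      rw [← pow_succ']
      exact congrArg (fun n => Q ^ n) hk
    rw [hw, mul_pow, hQ, mul_assoc]
  rw [hqx, hpow] at hrel
  have h3 : ((q : ℕ) : h62rChart A (M * q) (jSS M q)) *
      (ρ - ((q : ℕ) : h62rChart A (M * q) (jSS M q)) * (x' - w) ^ 2) = 0 := by
    linear_combination hrel
  rcases mul_eq_zero.mp h3 with h4 | h4
  · exact h40x_natCast_ne_zero A M hq h4
  · apply hρ
    rw [sub_eq_zero.mp h4]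
    exact 𝔫₁.mul_mem_right _ hq𝔫

/-- **the function `u` of a node datum is not constant** (packaged). -/
theorem h40x_node_not_cst (hq : q.Prime) (hM : ¬ q ∣ M) (hA : A.LiesOverPrime q)
    (𝔫₁ : Ideal (h62rChart A (M * q) (jSS M q))) (h𝔫₁ : 𝔫₁.IsPrime)
    (hnode : H62NodeDatum A M hq hM hA 𝔫₁) :
    ∃ u : h62rChart A M (jB M), IsRat (u : FF M) ∧ (u : FF M) ∉ Set.range (cst M) ∧
      h62rAlpha A M u ∈ 𝔫₁ ∧ h62rBeta A M hq hM hA u ∈ 𝔫₁ ∧
      (∃ ρ : h62rChart A (M * q) (jSS M q), ρ ∉ 𝔫₁ ∧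
        (h62rBeta A M hq hM hA u - h62rAlpha A M u ^ q) *
          (h62rBeta A M hq hM hA u ^ q - h62rAlpha A M u)
          + (q : h62rChart A (M * q) (jSS M q)) * ρ = 0) ∧
      h62rLocGen 𝔫₁ (Ideal.span {h62rAlpha A M u, h62rBeta A M hq hM hA u}) := by
  obtain ⟨u, hrat, hX, hY, ⟨ρ, hρ, hrel⟩, hgen⟩ := hnode
  exact ⟨u, hrat, h40x_not_cst A M hq hM hA 𝔫₁ h𝔫₁ u hX ρ hρ hrel, hX, hY,
    ⟨ρ, hρ, hrel⟩, hgen⟩

end NotCst

end Fermat.Agent.S36
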