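import Fermat.Agent.S36.H50KappaLoc
import Fermat.Agent.LGC.H62Done

/-!
# S36, block REG, row R-ORD (helper50): the different at the smooth points of level `M ℓ`

Modular instantiation of `h50k_local_unit` (good levels: `ℓ ∤ M` prime, `auxLevel ℓ ∣ M`, `A` a
valuation subring of `ℚ̄` over `ℓ`), wiring copied from `h67u_unit_fin_of` (helper67) /
`h62i_ifaceSSLocal_fin` (helper62).  `B = chart (M ℓ) A j`, `Λ = chart M A j`, `α`, `β` the two
degeneracy maps, `R ⊆ Λ` the functions with rational `q`-expansion.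

* `h50k_unit_fin` : at every closed point `𝔫 ⊇ P₀` of the special fibre of `B`, for rational
  `u ∈ R` and `c₀ ∈ A` with `u - c₀` a local parameter of the special fibre of `Λ` at `β⁻¹ 𝔫`
  and `β u - (α u) ^ ℓ ∉ 𝔫`, and every Kronecker remainder `r` of `u`:
  `S = - r^α(β u) + (β u - (α u)^ℓ)² (β u)^(ℓ-1) + (β u - (α u)^ℓ) (r')^α(β u) ∉ 𝔫`.
* `h50k_unit_fin_inf` : the Fricke mirror at the closed points `𝔫 ⊇ P∞`:
  for `u - c₀` a local parameter at `α⁻¹ 𝔫` and `α u - (β u) ^ ℓ ∉ 𝔫`: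
  `κ = - r^β(α u) + (α u - (β u)^ℓ)² (α u)^(ℓ-1) + (α u - (β u)^ℓ) (r')^β(α u) ∉ 𝔫`,
  where `(α u - (β u) ^ ℓ) G'(α u) = ℓ κ` for `G = (T - (β u)^ℓ)(T^ℓ - β u) + ℓ r^β`
  (`h50k_mul_z`): **`G'(X) = ℓ * unit` at the non-exceptional ordinary points of `C∞`**.
-/

set_option autoImplicit false
set_option linter.unusedSectionVars false
set_option linter.unusedVariables false

open AlgebraicCurve ModularCurve WithZero IsLocalRing Polynomial

noncomputable section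

namespace Fermat.Agent.S36

open Fermat.Agent.S37 Fermat.Agent.Red Fermat.Agent.Red.GG Fermat.Agent.Red.GV
  Fermat.Agent.Red.GV.Soft Fermat.Agent.Red.Kron Fermat.Agent.Red.KR Fermat.Agent.Red.ModelO
  Fermat.Agent.LGC

/-- transport of the element `S` by an involution exchanging `α` and `β`. -/
theorem h50k_map_S {Λ B : Type*} [CommRing Λ] [CommRing B] (w : B →+* B) (α β : Λ →+* B)
    (hwα : ∀ x, w (α x) = β x) (hwβ : ∀ x, w (β x) = α x) (ℓ : ℕ) (u : Λ) (r : Λ[X]) :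
    w (-(r.eval₂ α (β u)) + (β u - α (u ^ ℓ)) ^ 2 * β u ^ (ℓ - 1)
        + (β u - α (u ^ ℓ)) * (derivative r).eval₂ α (β u))
      = -(r.eval₂ β (α u)) + (α u - β (u ^ ℓ)) ^ 2 * α u ^ (ℓ - 1)
        + (α u - β (u ^ ℓ)) * (derivative r).eval₂ β (α u) := by
  have hcomp : w.comp α = β := RingHom.ext hwα
  rw [map_add, map_add, map_neg, map_mul, map_mul, Polynomial.hom_eval₂,
    Polynomial.hom_eval₂, hcomp, hwβ, map_pow w, map_pow w, map_sub, hwβ, hwα]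

variable (A : ValuationSubring Kbar) (M : ℕ) {ℓ : ℕ} [NeZero M] [NeZero ℓ]

/-- **the different at the separated smooth points of `C₀`**, from the leaves. -/
theorem h50k_unit_fin_of (hℓ : ℓ.Prime) (hM : ¬ ℓ ∣ M) (haux : auxLevel ℓ ∣ M)
    (hA : A.LiesOverPrime ℓ)
    (hComp : H62Comp A M hℓ hM hA)
    (hded : IsDedekindDomain (chart M A (jB M) ⧸ h62i_mΛ A M))
    (hnf : ¬ IsField (chart M A (jB M) ⧸ h62i_mΛ A M))
    (hRes : H62Res A M) (hKer : H62Ker A M hℓ hM hA) (hSurj : H62Surj A M hℓ hM hA)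
    (hSpan : H62Span A M) (hFrob : H62Frob A M hℓ hM hA) :
    ∀ 𝔫 : Ideal (chart (M * ℓ) A (jSS M ℓ)), 𝔫.IsMaximal →
      h62i_P0 A M hℓ hM hA ≤ 𝔫 →
      ∀ u ∈ h62i_R A M, ∀ c₀ : A,
        h62l_LP (h62i_mΛ A M) (𝔫.comap
          ((h62i_β A M hℓ hM hA : chart M A (jB M) →ₐ[A] chart (M * ℓ) A (jSS M ℓ)) :
            chart M A (jB M) →+* chart (M * ℓ) A (jSS M ℓ)))
          (u - algebraMap A (chart M A (jB M)) c₀) →
        h62i_β A M hℓ hM hA u - h62i_α A M ℓ u ^ ℓ ∉ 𝔫 →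
        ∀ r : (chart M A (jB M))[X], r.natDegree ≤ ℓ →
          (h62n_poly ℓ (u ^ ℓ) u r).eval₂
            ((h62i_α A M ℓ : chart M A (jB M) →ₐ[A] chart (M * ℓ) A (jSS M ℓ)) :
              chart M A (jB M) →+* chart (M * ℓ) A (jSS M ℓ))
            (h62i_β A M hℓ hM hA u) = 0 →
          -(r.eval₂
              ((h62i_α A M ℓ : chart M A (jB M) →ₐ[A] chart (M * ℓ) A (jSS M ℓ)) :
                chart M A (jB M) →+* chart (M * ℓ) A (jSS M ℓ))
              (h62i_β A M hℓ hM hA u))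
            + (h62i_β A M hℓ hM hA u - h62i_α A M ℓ (u ^ ℓ)) ^ 2
                * h62i_β A M hℓ hM hA u ^ (ℓ - 1)
            + (h62i_β A M hℓ hM hA u - h62i_α A M ℓ (u ^ ℓ))
                * (derivative r).eval₂
                  ((h62i_α A M ℓ : chart M A (jB M) →ₐ[A] chart (M * ℓ) A (jSS M ℓ)) :
                    chart M A (jB M) →+* chart (M * ℓ) A (jSS M ℓ))
                  (h62i_β A M hℓ hM hA u) ∉ 𝔫 := by
  have _ := hded
  have hC : IfaceSSChart A M ℓ (jSS M ℓ) := h85s_ifaceSSChart_fin A M ℓ hℓ hM hA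
  refine h50k_local_unit (A := A) (F := FF (M * ℓ)) (B := chart (M * ℓ) A (jSS M ℓ))
    (V := ssV A M ℓ) (v := chartVal (M * ℓ) (jSS M ℓ)) hC
    (softV A (M * ℓ))
    ((softV A (M * ℓ)).comap (kFricke M ℓ hℓ hM : FF (M * ℓ) →+* FF (M * ℓ)))
    (fun x hx hwx => h63r_mem_ssV_of_soft hℓ hM hA hx hwx)
    (fun b => h62i_mem_soft A M hℓ hM hA b)
    (fun b => h62i_mem_soft A M hℓ hM hA (h62i_w A M hℓ hM hA b))
    (h62i_Pinf A M hℓ hM hA) (h62i_P0 A M hℓ hM hA)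
    hComp (h62i_m_le_Pinf A M hℓ hM hA) (h62i_m_le_P0 A M hℓ hM hA)
    (fun b hb => h62i_inv_mem_soft A M hℓ hM hA b hb)
    (fun b hb => ?_)
    (h62i_α A M ℓ) (h62i_β A M hℓ hM hA)
    (h4f_finite_of_ifaceFinite A M ℓ (h71_ssFinite hℓ hM hA) _ (fun _ => rfl))
    hnf hRes hKer.1 (fun x hx => ?_) (fun x hx => ?_)
    hSurj (fun b => ?_)
    (h62i_R A M) hSpan ℓ hℓ (h62i_natCast_mem A hA) (h62i_natCast_ne_zero A M)
    hFrob (fun u hu => ?_)
    (h62i_perf A ℓ)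
    (K := Kbar)
    (fun 𝔫 _ _ i _ => ?_)
  · -- hW0
    have h1 : h62i_w A M hℓ hM hA b ∉ h62i_Pinf A M hℓ hM hA := hb
    have h2 := h62i_inv_mem_soft A M hℓ hM hA _ h1
    show kFricke M ℓ hℓ hM ((b : FF (M * ℓ)))⁻¹ ∈ softV A (M * ℓ)
    rw [map_inv₀]
    exact h2
  · -- hαP0
    apply hKer.2 x
    have h1 : h62i_w A M hℓ hM hA (h62i_α A M ℓ x) ∈ h62i_Pinf A M hℓ hM hA := hx
    rwa [h62i_w_α] at h1
  · -- hβP0
    apply hKer.1 x
    have h1 : h62i_w A M hℓ hM hA (h62i_β A M hℓ hM hA x) ∈ h62i_Pinf A M hℓ hM hA := hx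
    rwa [h62i_w_β] at h1
  · -- hsurj0
    obtain ⟨x, hx⟩ := hSurj (h62i_w A M hℓ hM hA b)
    refine ⟨x, ?_⟩
    rw [h62i_mem_P0_iff_w, map_sub, h62i_w_β]
    exact hx
  · -- hRβ
    rw [h62i_mem_P0_iff_w, map_sub, map_pow, h62i_w_α, h62i_w_β]
    exact hFrob u hu
  · -- hpl
    obtain ⟨T, φ, φ', hiT, hcard, hzero, hag⟩ := h18l_hpl M ℓ A hℓ hM haux i
    exact ⟨T, φ, φ', hiT, hcard, hzero, fun k hk x => hag k hk (h62i_α A M ℓ x) x rfl⟩

/-- **The different at the separated smooth points of `C₀`** of the finite chart of level `M ℓ`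
(good levels, unconditional). -/
theorem h50k_unit_fin (hℓ : ℓ.Prime) (hM : ¬ ℓ ∣ M) (haux : auxLevel ℓ ∣ M)
    (hA : A.LiesOverPrime ℓ) :
    ∀ 𝔫 : Ideal (chart (M * ℓ) A (jSS M ℓ)), 𝔫.IsMaximal →
      h62i_P0 A M hℓ hM hA ≤ 𝔫 →
      ∀ u ∈ h62i_R A M, ∀ c₀ : A,
        h62l_LP (h62i_mΛ A M) (𝔫.comap
          ((h62i_β A M hℓ hM hA : chart M A (jB M) →ₐ[A] chart (M * ℓ) A (jSS M ℓ)) :
            chart M A (jB M) →+* chart (M * ℓ) A (jSS M ℓ)))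
          (u - algebraMap A (chart M A (jB M)) c₀) →
        h62i_β A M hℓ hM hA u - h62i_α A M ℓ u ^ ℓ ∉ 𝔫 →
        ∀ r : (chart M A (jB M))[X], r.natDegree ≤ ℓ →
          (h62n_poly ℓ (u ^ ℓ) u r).eval₂
            ((h62i_α A M ℓ : chart M A (jB M) →ₐ[A] chart (M * ℓ) A (jSS M ℓ)) :
              chart M A (jB M) →+* chart (M * ℓ) A (jSS M ℓ))
            (h62i_β A M hℓ hM hA u) = 0 →
          -(r.eval₂
              ((h62i_α A M ℓ : chart M A (jB M) →ₐ[A] chart (M * ℓ) A (jSS M ℓ)) :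
                chart M A (jB M) →+* chart (M * ℓ) A (jSS M ℓ))
              (h62i_β A M hℓ hM hA u))
            + (h62i_β A M hℓ hM hA u - h62i_α A M ℓ (u ^ ℓ)) ^ 2
                * h62i_β A M hℓ hM hA u ^ (ℓ - 1)
            + (h62i_β A M hℓ hM hA u - h62i_α A M ℓ (u ^ ℓ))
                * (derivative r).eval₂
                  ((h62i_α A M ℓ : chart M A (jB M) →ₐ[A] chart (M * ℓ) A (jSS M ℓ)) :
                    chart M A (jB M) →+* chart (M * ℓ) A (jSS M ℓ))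
                  (h62i_β A M hℓ hM hA u) ∉ 𝔫 :=
  h50k_unit_fin_of A M hℓ hM haux hA (h62c_comp A M hℓ hM hA)
    (h13l_hded_fin M A hℓ hM haux hA) (h13l_hnf_fin M A hℓ hM hA)
    (h62d_res A M) (h62d_ker A M hℓ hM hA) (h62d_surj A M hℓ hM haux hA)
    (h62d_span A M hℓ hM hA) (h62d_frob A M hℓ hM hA)

/-- **`G'(X) = ℓ * unit` at the separated smooth points of `C∞`** (Fricke mirror of
`h50k_unit_fin`): at every closed point `𝔫 ⊇ P∞` of the special fibre of the finite chart of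
level `M ℓ`, for rational `u` and `c₀ ∈ A` with `u - c₀` a local parameter of the special fibre of
`Λ` at `α⁻¹ 𝔫` and `α u - (β u) ^ ℓ ∉ 𝔫`, the element `κ` with
`(α u - (β u) ^ ℓ) G'(α u) = ℓ κ`, `G = (T - (β u)^ℓ)(T^ℓ - β u) + ℓ r^β`, is a unit at `𝔫`. -/
theorem h50k_unit_fin_inf (hℓ : ℓ.Prime) (hM : ¬ ℓ ∣ M) (haux : auxLevel ℓ ∣ M)
    (hA : A.LiesOverPrime ℓ) :
    ∀ 𝔫 : Ideal (chart (M * ℓ) A (jSS M ℓ)), 𝔫.IsMaximal →
      h62i_Pinf A M hℓ hM hA ≤ 𝔫 →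
      ∀ u ∈ h62i_R A M, ∀ c₀ : A,
        h62l_LP (h62i_mΛ A M) (𝔫.comap
          ((h62i_α A M ℓ : chart M A (jB M) →ₐ[A] chart (M * ℓ) A (jSS M ℓ)) :
            chart M A (jB M) →+* chart (M * ℓ) A (jSS M ℓ)))
          (u - algebraMap A (chart M A (jB M)) c₀) →
        h62i_α A M ℓ u - h62i_β A M hℓ hM hA u ^ ℓ ∉ 𝔫 →
        ∀ r : (chart M A (jB M))[X], r.natDegree ≤ ℓ →
          (h62n_poly ℓ (u ^ ℓ) u r).eval₂
            ((h62i_α A M ℓ : chart M A (jB M) →ₐ[A] chart (M * ℓ) A (jSS M ℓ)) :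
              chart M A (jB M) →+* chart (M * ℓ) A (jSS M ℓ))
            (h62i_β A M hℓ hM hA u) = 0 →
          -(r.eval₂
              ((h62i_β A M hℓ hM hA : chart M A (jB M) →ₐ[A] chart (M * ℓ) A (jSS M ℓ)) :
                chart M A (jB M) →+* chart (M * ℓ) A (jSS M ℓ))
              (h62i_α A M ℓ u))
            + (h62i_α A M ℓ u - h62i_β A M hℓ hM hA (u ^ ℓ)) ^ 2
                * h62i_α A M ℓ u ^ (ℓ - 1)
            + (h62i_α A M ℓ u - h62i_β A M hℓ hM hA (u ^ ℓ))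
                * (derivative r).eval₂
                  ((h62i_β A M hℓ hM hA : chart M A (jB M) →ₐ[A] chart (M * ℓ) A (jSS M ℓ)) :
                    chart M A (jB M) →+* chart (M * ℓ) A (jSS M ℓ))
                  (h62i_α A M ℓ u) ∉ 𝔫 := by
  intro 𝔫 h𝔫 hPinf𝔫 u hu c₀ hLP hsep r hr hf
  set w := h62i_w A M hℓ hM hA with hw
  set αr : chart M A (jB M) →+* chart (M * ℓ) A (jSS M ℓ) :=
    ((h62i_α A M ℓ : chart M A (jB M) →ₐ[A] chart (M * ℓ) A (jSS M ℓ)) :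
      chart M A (jB M) →+* chart (M * ℓ) A (jSS M ℓ)) with hαr
  set βr : chart M A (jB M) →+* chart (M * ℓ) A (jSS M ℓ) :=
    ((h62i_β A M hℓ hM hA : chart M A (jB M) →ₐ[A] chart (M * ℓ) A (jSS M ℓ)) :
      chart M A (jB M) →+* chart (M * ℓ) A (jSS M ℓ)) with hβr
  have hwsurj : Function.Surjective w := fun b => ⟨w b, h62i_w_w A M hℓ hM hA b⟩
  have h𝔫' : (𝔫.comap w).IsMaximal := Ideal.comap_isMaximal_of_surjective w hwsurj
  have hP0 : h62i_P0 A M hℓ hM hA ≤ 𝔫.comap w := Ideal.comap_mono hPinf𝔫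
  have hwα : w.comp αr = βr := RingHom.ext fun x => h62i_w_α A M hℓ hM hA x
  have hwα' : ∀ x, w (h62i_α A M ℓ x) = h62i_β A M hℓ hM hA x := h62i_w_α A M hℓ hM hA
  have hwβ' : ∀ x, w (h62i_β A M hℓ hM hA x) = h62i_α A M ℓ x := h62i_w_β A M hℓ hM hA
  have hcomap : (𝔫.comap w).comap βr = 𝔫.comap αr := by
    ext x
    rw [Ideal.mem_comap, Ideal.mem_comap, Ideal.mem_comap]
    show w (h62i_β A M hℓ hM hA x) ∈ 𝔫 ↔ h62i_α A M ℓ x ∈ 𝔫
    rw [hwβ']
  have hLP' : h62l_LP (h62i_mΛ A M) ((𝔫.comap w).comap βr)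
      (u - algebraMap A (chart M A (jB M)) c₀) := by
    rw [hcomap]
    exact hLP
  have hsep' : h62i_β A M hℓ hM hA u - h62i_α A M ℓ u ^ ℓ ∉ 𝔫.comap w := by
    rw [Ideal.mem_comap, map_sub, map_pow, hwβ', hwα']
    exact hsep
  have key := h50k_unit_fin A M hℓ hM haux hA (𝔫.comap w) h𝔫' hP0 u hu c₀ hLP' hsep' r hr hf
  rw [Ideal.mem_comap] at key
  have e := h50k_map_S w αr βr hwα' hwβ' ℓ u r
  intro hmem
  apply key
  exact (congrArg (· ∈ 𝔫) e).mpr hmem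

end Fermat.Agent.S36
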