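import Fermat.Agent.S36.H50ExcLoc
import Fermat.Agent.S36.H50KappaFin

/-!
# S36, block REG, row R-ORD (helper50): the different in a general coordinate, level `M ℓ`

Modular instantiation (good levels, chart over `A`) of `S36/H50ExcLoc.lean`, wiring copied from
`h50k_unit_fin_of`.  `B = chart (M ℓ) A j`, `Λ = chart M A j`.

* `h50e_unit_fin` : at every closed point `𝔫 ⊇ P₀`, for rational `u`, `u - c₀` a local parameter
  at `β⁻¹ 𝔫`, `ε ∈ P₀`, `ψ = β u + ε`, `ψ - α a ∈ P∞`, `ψ - α a ∉ 𝔫`,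
  `f = (T - a)(T ^ ℓ - u) + ℓ r`, `f^α(ψ) = 0`:
  `S = - r^α(ψ) + (ψ - α a)² ψ^(ℓ-1) + (ψ - α a) (r')^α(ψ) ∉ 𝔫`.
* `h50e_LI_fin` : linear independence of the powers of `β u` over `α Λ` modulo `P₀`.
* `h50e_unique_fin` : the point of `P₀` over `α⁻¹ 𝔫` is unique.
-/

set_option autoImplicit false
set_option linter.unusedSectionVars false
set_option linter.unusedVariables false
set_option linter.style.haveILetI false

open AlgebraicCurve ModularCurve WithZero IsLocalRing Polynomial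

noncomputable section

namespace Fermat.Agent.S36

open Fermat.Agent.S37 Fermat.Agent.Red Fermat.Agent.Red.GG Fermat.Agent.Red.GV
  Fermat.Agent.Red.GV.Soft Fermat.Agent.Red.Kron Fermat.Agent.Red.KR Fermat.Agent.Red.ModelO
  Fermat.Agent.LGC

variable (A : ValuationSubring Kbar) (M : ℕ) {ℓ : ℕ} [NeZero M] [NeZero ℓ]

/-- **the different in a general coordinate at the smooth points of `C₀`**, from the leaves. -/
theorem h50e_unit_fin_of (hℓ : ℓ.Prime) (hM : ¬ ℓ ∣ M) (haux : auxLevel ℓ ∣ M)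
    (hA : A.LiesOverPrime ℓ)
    (hComp : H62Comp A M hℓ hM hA)
    (hded : IsDedekindDomain (chart M A (jB M) ⧸ h62i_mΛ A M))
    (hnf : ¬ IsField (chart M A (jB M) ⧸ h62i_mΛ A M))
    (hRes : H62Res A M) (hKer : H62Ker A M hℓ hM hA) (hSurj : H62Surj A M hℓ hM hA)
    (hSpan : H62Span A M) (hFrob : H62Frob A M hℓ hM hA) :
    ∀ 𝔫 : Ideal (chart (M * ℓ) A (jSS M ℓ)), 𝔫.IsMaximal →
      h62i_P0 A M hℓ hM hA ≤ 𝔫 →
      ∀ u ∈ h62i_R A M, ∀ c₀ : A,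
        h62l_LP (h62i_mΛ A M) (𝔫.comap
          ((h62i_β A M hℓ hM hA : chart M A (jB M) →ₐ[A] chart (M * ℓ) A (jSS M ℓ)) :
            chart M A (jB M) →+* chart (M * ℓ) A (jSS M ℓ)))
          (u - algebraMap A (chart M A (jB M)) c₀) →
        ∀ ε ∈ h62i_P0 A M hℓ hM hA, ∀ a : chart M A (jB M),
          h62i_β A M hℓ hM hA u + ε - h62i_α A M ℓ a ∈ h62i_Pinf A M hℓ hM hA →
          h62i_β A M hℓ hM hA u + ε - h62i_α A M ℓ a ∉ 𝔫 →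
        ∀ r : (chart M A (jB M))[X], r.natDegree ≤ ℓ →
          (h62n_poly ℓ a u r).eval₂
            ((h62i_α A M ℓ : chart M A (jB M) →ₐ[A] chart (M * ℓ) A (jSS M ℓ)) :
              chart M A (jB M) →+* chart (M * ℓ) A (jSS M ℓ))
            (h62i_β A M hℓ hM hA u + ε) = 0 →
          -(r.eval₂
              ((h62i_α A M ℓ : chart M A (jB M) →ₐ[A] chart (M * ℓ) A (jSS M ℓ)) :
                chart M A (jB M) →+* chart (M * ℓ) A (jSS M ℓ))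
              (h62i_β A M hℓ hM hA u + ε))
            + (h62i_β A M hℓ hM hA u + ε - h62i_α A M ℓ a) ^ 2
                * (h62i_β A M hℓ hM hA u + ε) ^ (ℓ - 1)
            + (h62i_β A M hℓ hM hA u + ε - h62i_α A M ℓ a)
                * (derivative r).eval₂
                  ((h62i_α A M ℓ : chart M A (jB M) →ₐ[A] chart (M * ℓ) A (jSS M ℓ)) :
                    chart M A (jB M) →+* chart (M * ℓ) A (jSS M ℓ))
                  (h62i_β A M hℓ hM hA u + ε) ∉ 𝔫 := by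
  have _ := hded
  have hC : IfaceSSChart A M ℓ (jSS M ℓ) := h85s_ifaceSSChart_fin A M ℓ hℓ hM hA
  refine h50e_local_unit (A := A) (F := FF (M * ℓ)) (B := chart (M * ℓ) A (jSS M ℓ))
    (V := ssV A M ℓ) (v := chartVal (M * ℓ) (jSS M ℓ)) hC
    (softV A (M * ℓ))
    ((softV A (M * ℓ)).comap (kFricke M ℓ hℓ hM : FF (M * ℓ) →+* FF (M * ℓ)))
    (fun x hx hwx => h63r_mem_ssV_of_soft hℓ hM hA hx hwx)
    (fun b => h62i_mem_soft A M hℓ hM hA b)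
    (fun b => h62i_mem_soft A M hℓ hM hA (h62i_w A M hℓ hM hA b))
    (h62i_Pinf A M hℓ hM hA) (h62i_P0 A M hℓ hM hA)
    hComp (h62i_m_le_Pinf A M hℓ hM hA) (h62i_m_le_P0 A M hℓ hM hA)
    (fun b hb => h62i_inv_mem_soft A M hℓ hM hA b hb)
    (fun b hb => ?_)
    (h62i_α A M ℓ) (h62i_β A M hℓ hM hA)
    (h4f_finite_of_ifaceFinite A M ℓ (h71_ssFinite hℓ hM hA) _ (fun _ => rfl))
    hnf hRes hKer.1 (fun x hx => ?_) (fun x hx => ?_)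
    hSurj (fun b => ?_)
    (h62i_R A M) hSpan ℓ hℓ (h62i_natCast_mem A hA) (h62i_natCast_ne_zero A M)
    hFrob (fun u hu => ?_)
    (h62i_perf A ℓ)
    (K := Kbar)
    (fun 𝔫 _ _ i _ => ?_)
  · -- hW0
    have h1 : h62i_w A M hℓ hM hA b ∉ h62i_Pinf A M hℓ hM hA := hb
    have h2 := h62i_inv_mem_soft A M hℓ hM hA _ h1
    show kFricke M ℓ hℓ hM ((b : FF (M * ℓ)))⁻¹ ∈ softV A (M * ℓ)
    rw [map_inv₀]
    exact h2
  · -- hαP0
    apply hKer.2 x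
    have h1 : h62i_w A M hℓ hM hA (h62i_α A M ℓ x) ∈ h62i_Pinf A M hℓ hM hA := hx
    rwa [h62i_w_α] at h1
  · -- hβP0
    apply hKer.1 x
    have h1 : h62i_w A M hℓ hM hA (h62i_β A M hℓ hM hA x) ∈ h62i_Pinf A M hℓ hM hA := hx
    rwa [h62i_w_β] at h1
  · -- hsurj0
    obtain ⟨x, hx⟩ := hSurj (h62i_w A M hℓ hM hA b)
    refine ⟨x, ?_⟩
    rw [h62i_mem_P0_iff_w, map_sub, h62i_w_β]
    exact hx
  · -- hRβ
    rw [h62i_mem_P0_iff_w, map_sub, map_pow, h62i_w_α, h62i_w_β]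
    exact hFrob u hu
  · -- hpl
    obtain ⟨T, φ, φ', hiT, hcard, hzero, hag⟩ := h18l_hpl M ℓ A hℓ hM haux i
    exact ⟨T, φ, φ', hiT, hcard, hzero, fun k hk x => hag k hk (h62i_α A M ℓ x) x rfl⟩

/-- **The different in a general coordinate at the smooth points of `C₀`** of the finite chart of
level `M ℓ` (good levels, unconditional). -/
theorem h50e_unit_fin (hℓ : ℓ.Prime) (hM : ¬ ℓ ∣ M) (haux : auxLevel ℓ ∣ M)
    (hA : A.LiesOverPrime ℓ) :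
    ∀ 𝔫 : Ideal (chart (M * ℓ) A (jSS M ℓ)), 𝔫.IsMaximal →
      h62i_P0 A M hℓ hM hA ≤ 𝔫 →
      ∀ u ∈ h62i_R A M, ∀ c₀ : A,
        h62l_LP (h62i_mΛ A M) (𝔫.comap
          ((h62i_β A M hℓ hM hA : chart M A (jB M) →ₐ[A] chart (M * ℓ) A (jSS M ℓ)) :
            chart M A (jB M) →+* chart (M * ℓ) A (jSS M ℓ)))
          (u - algebraMap A (chart M A (jB M)) c₀) →
        ∀ ε ∈ h62i_P0 A M hℓ hM hA, ∀ a : chart M A (jB M),
          h62i_β A M hℓ hM hA u + ε - h62i_α A M ℓ a ∈ h62i_Pinf A M hℓ hM hA →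
          h62i_β A M hℓ hM hA u + ε - h62i_α A M ℓ a ∉ 𝔫 →
        ∀ r : (chart M A (jB M))[X], r.natDegree ≤ ℓ →
          (h62n_poly ℓ a u r).eval₂
            ((h62i_α A M ℓ : chart M A (jB M) →ₐ[A] chart (M * ℓ) A (jSS M ℓ)) :
              chart M A (jB M) →+* chart (M * ℓ) A (jSS M ℓ))
            (h62i_β A M hℓ hM hA u + ε) = 0 →
          -(r.eval₂
              ((h62i_α A M ℓ : chart M A (jB M) →ₐ[A] chart (M * ℓ) A (jSS M ℓ)) :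
                chart M A (jB M) →+* chart (M * ℓ) A (jSS M ℓ))
              (h62i_β A M hℓ hM hA u + ε))
            + (h62i_β A M hℓ hM hA u + ε - h62i_α A M ℓ a) ^ 2
                * (h62i_β A M hℓ hM hA u + ε) ^ (ℓ - 1)
            + (h62i_β A M hℓ hM hA u + ε - h62i_α A M ℓ a)
                * (derivative r).eval₂
                  ((h62i_α A M ℓ : chart M A (jB M) →ₐ[A] chart (M * ℓ) A (jSS M ℓ)) :
                    chart M A (jB M) →+* chart (M * ℓ) A (jSS M ℓ))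
                  (h62i_β A M hℓ hM hA u + ε) ∉ 𝔫 :=
  h50e_unit_fin_of A M hℓ hM haux hA (h62c_comp A M hℓ hM hA)
    (h13l_hded_fin M A hℓ hM haux hA) (h13l_hnf_fin M A hℓ hM hA)
    (h62d_res A M) (h62d_ker A M hℓ hM hA) (h62d_surj A M hℓ hM haux hA)
    (h62d_span A M hℓ hM hA) (h62d_frob A M hℓ hM hA)

/-- `w` exchanges `P∞` and `P₀`: the surjectivity of `β` modulo `P₀`. -/
theorem h50e_surj0 (hℓ : ℓ.Prime) (hM : ¬ ℓ ∣ M) (haux : auxLevel ℓ ∣ M)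
    (hA : A.LiesOverPrime ℓ) (b : chart (M * ℓ) A (jSS M ℓ)) :
    ∃ x : chart M A (jB M), b - h62i_β A M hℓ hM hA x ∈ h62i_P0 A M hℓ hM hA := by
  obtain ⟨x, hx⟩ := h62d_surj A M hℓ hM haux hA (h62i_w A M hℓ hM hA b)
  refine ⟨x, ?_⟩
  rw [h62i_mem_P0_iff_w, map_sub, h62i_w_β]
  exact hx

/-- the Frobenius congruence on `P₀`. -/
theorem h50e_frob0 (hℓ : ℓ.Prime) (hM : ¬ ℓ ∣ M) (hA : A.LiesOverPrime ℓ)
    (u : chart M A (jB M)) (hu : u ∈ h62i_R A M) :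
    h62i_α A M ℓ u - h62i_β A M hℓ hM hA u ^ ℓ ∈ h62i_P0 A M hℓ hM hA := by
  rw [h62i_mem_P0_iff_w, map_sub, map_pow, h62i_w_α, h62i_w_β]
  exact h62d_frob A M hℓ hM hA u hu

/-- **linear independence of the powers of `β u` over `α Λ` modulo `P₀`** (level `M ℓ`). -/
theorem h50e_LI_fin (hℓ : ℓ.Prime) (hM : ¬ ℓ ∣ M) (haux : auxLevel ℓ ∣ M)
    (hA : A.LiesOverPrime ℓ)
    (𝔫 : Ideal (chart (M * ℓ) A (jSS M ℓ))) (h𝔫 : 𝔫.IsMaximal)
    (hP0𝔫 : h62i_P0 A M hℓ hM hA ≤ 𝔫) (u : chart M A (jB M)) (c₀ : A)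
    (hLP : h62l_LP (h62i_mΛ A M) (𝔫.comap
      ((h62i_β A M hℓ hM hA : chart M A (jB M) →ₐ[A] chart (M * ℓ) A (jSS M ℓ)) :
        chart M A (jB M) →+* chart (M * ℓ) A (jSS M ℓ)))
      (u - algebraMap A (chart M A (jB M)) c₀)) :
    ∀ g : (chart M A (jB M))[X], g.natDegree < ℓ →
      g.eval₂ ((h62i_α A M ℓ : chart M A (jB M) →ₐ[A] chart (M * ℓ) A (jSS M ℓ)) :
        chart M A (jB M) →+* chart (M * ℓ) A (jSS M ℓ)) (h62i_β A M hℓ hM hA u)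
        ∈ h62i_P0 A M hℓ hM hA →
      ∀ i, h62i_α A M ℓ (g.coeff i) ∈ h62i_P0 A M hℓ hM hA := by
  haveI := h13l_hded_fin M A hℓ hM haux hA
  have hKer := h62d_ker A M hℓ hM hA
  refine h50e_LI (h62i_P0 A M hℓ hM hA) (h62i_m_le_P0 A M hℓ hM hA)
    (h62i_α A M ℓ) (h62i_β A M hℓ hM hA) (h13l_hnf_fin M A hℓ hM hA)
    (fun x hx => ?_) (fun x hx => ?_) (h50e_surj0 A M hℓ hM haux hA)
    (h62i_R A M) (h62d_span A M hℓ hM hA) ℓ hℓ (h62i_natCast_mem A hA)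
    (h50e_frob0 A M hℓ hM hA) (h62i_perf A ℓ) 𝔫 h𝔫 hP0𝔫 u c₀ hLP
  · apply hKer.2 x
    have h1 : h62i_w A M hℓ hM hA (h62i_α A M ℓ x) ∈ h62i_Pinf A M hℓ hM hA := hx
    rwa [h62i_w_α] at h1
  · apply hKer.1 x
    have h1 : h62i_w A M hℓ hM hA (h62i_β A M hℓ hM hA x) ∈ h62i_Pinf A M hℓ hM hA := hx
    rwa [h62i_w_β] at h1

/-- **the point of `P₀` over `α⁻¹ 𝔫` is unique** (level `M ℓ`). -/
theorem h50e_unique_fin (hℓ : ℓ.Prime) (hM : ¬ ℓ ∣ M) (haux : auxLevel ℓ ∣ M)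
    (hA : A.LiesOverPrime ℓ)
    (𝔫 : Ideal (chart (M * ℓ) A (jSS M ℓ))) (h𝔫 : 𝔫.IsMaximal)
    (hP0𝔫 : h62i_P0 A M hℓ hM hA ≤ 𝔫)
    (𝔑 : Ideal (chart (M * ℓ) A (jSS M ℓ))) (h𝔑 : 𝔑.IsMaximal)
    (hJ𝔑 : ∀ x : chart M A (jB M), h62i_α A M ℓ x ∈ 𝔫 → h62i_α A M ℓ x ∈ 𝔑)
    (hP𝔑 : h62i_P0 A M hℓ hM hA ≤ 𝔑) : 𝔑 = 𝔫 := by
  have hℓP0 : ((ℓ : ℕ) : chart (M * ℓ) A (jSS M ℓ)) ∈ h62i_P0 A M hℓ hM hA := by
    apply h62i_m_le_P0 A M hℓ hM hA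
    have h1 : ((ℓ : ℕ) : chart (M * ℓ) A (jSS M ℓ)) =
        algebraMap A (chart (M * ℓ) A (jSS M ℓ)) (ℓ : A) := (map_natCast _ ℓ).symm
    rw [h1]
    exact Ideal.mem_map_of_mem _ (h62i_natCast_mem A hA)
  exact h50e_unique (h62i_α A M ℓ) (h62i_β A M hℓ hM hA) (h62i_P0 A M hℓ hM hA)
    (h50e_surj0 A M hℓ hM haux hA) (h62i_R A M) (h62d_span A M hℓ hM hA) ℓ hℓ hℓP0
    (h50e_frob0 A M hℓ hM hA) 𝔫 h𝔫 hP0𝔫 𝔑 h𝔑 hJ𝔑 hP𝔑

end Fermat.Agent.S36
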