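import Mathlib

/-!
# S36, block REG, leaf R-L1 (helper60): abstract descent of local data to the inertia chart

`ι : B₀ → B` a ring homomorphism (the inclusion of the chart `B₀` over the inertia ring `A₀` into
the chart `B` over `A`), `𝔪` an ideal of `B` (`= 𝔪_A B`), `q ∈ B₀`, with the two statements of
R-REDISO:

* `hcongr : ∀ x : B, ∃ x₀ : B₀, x - ι x₀ ∈ 𝔪`            (`B = B₀ + 𝔪_A B`);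
* `hinter : ∀ x₀ : B₀, ι x₀ ∈ 𝔪 → x₀ ∈ (q)`              (`𝔪_A B ∩ B₀ = q B₀`).

Then (`B₀ / q ≅ B / 𝔪`) for an ideal `𝔫₁ ∋ q` of `B₀` and its lift `𝔫 = ι 𝔫₁ B + 𝔪`:

* `h60r_comap_lift` : `ι⁻¹ 𝔫 = 𝔫₁`;
* `h60r_lift_isMaximal` : `𝔫` is maximal if `𝔫₁` is;
* `h60r_descend` : `𝔫 = J₀ B + 𝔪` locally at `𝔫`  ⟹  `𝔫₁ = J₀ + (q)` locally at `𝔫₁`;
* `h60r_descend_mem` : `z ∈ 𝔪` locally at `𝔫`  ⟹  `z₀ ∈ (q)` locally at `𝔫₁` (`z = ι z₀`).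

"locally at `𝔫`" always means: `∃ s ∉ 𝔫, s * z ∈ …`.  Mathlib only.
-/

set_option autoImplicit false

namespace Fermat.Agent.S36

section Abs

variable {B₀ B : Type*} [CommRing B₀] [CommRing B] (ι : B₀ →+* B) (𝔪 : Ideal B)

/-- the lift `ι 𝔫₁ B + 𝔪` of an ideal of `B₀`. -/
def h60rLift (𝔫₁ : Ideal B₀) : Ideal B := 𝔫₁.map ι ⊔ 𝔪

theorem h60r_le_lift (𝔫₁ : Ideal B₀) : 𝔪 ≤ h60rLift ι 𝔪 𝔫₁ := le_sup_right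

theorem h60r_map_mem_lift (𝔫₁ : Ideal B₀) {x : B₀} (hx : x ∈ 𝔫₁) : ι x ∈ h60rLift ι 𝔪 𝔫₁ :=
  Ideal.mem_sup_left (Ideal.mem_map_of_mem ι hx)

variable {ι 𝔪}

/-- every element of `J₀ B + 𝔪` is `ι g₀ + m` with `g₀ ∈ J₀`, `m ∈ 𝔪`. -/
theorem h60r_exists_of_mem_lift (hcongr : ∀ x : B, ∃ x₀ : B₀, x - ι x₀ ∈ 𝔪) (J₀ : Ideal B₀)
    {x : B} (hx : x ∈ h60rLift ι 𝔪 J₀) : ∃ g₀ ∈ J₀, x - ι g₀ ∈ 𝔪 := by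
  obtain ⟨g, hg, m, hm, rfl⟩ := Submodule.mem_sup.mp hx
  suffices h : ∃ g₀ ∈ J₀, g - ι g₀ ∈ 𝔪 by
    obtain ⟨g₀, hg₀, h1⟩ := h
    refine ⟨g₀, hg₀, ?_⟩
    have : g + m - ι g₀ = (g - ι g₀) + m := by ring
    rw [this]
    exact 𝔪.add_mem h1 hm
  have hg' : g ∈ Ideal.span (ι '' (J₀ : Set B₀)) := hg
  refine Submodule.span_induction (p := fun g _ => ∃ g₀ ∈ J₀, g - ι g₀ ∈ 𝔪) ?_ ?_ ?_ ?_ hg'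
  · rintro _ ⟨y, hy, rfl⟩
    exact ⟨y, hy, by rw [sub_self]; exact 𝔪.zero_mem⟩
  · exact ⟨0, J₀.zero_mem, by rw [map_zero, sub_self]; exact 𝔪.zero_mem⟩
  · rintro a b _ _ ⟨a₀, ha₀, ha⟩ ⟨b₀, hb₀, hb⟩
    refine ⟨a₀ + b₀, J₀.add_mem ha₀ hb₀, ?_⟩
    have : a + b - ι (a₀ + b₀) = (a - ι a₀) + (b - ι b₀) := by rw [map_add]; ring
    rw [this]
    exact 𝔪.add_mem ha hb
  · rintro c a _ ⟨a₀, ha₀, ha⟩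
    obtain ⟨c₀, hc₀⟩ := hcongr c
    refine ⟨c₀ * a₀, J₀.mul_mem_left _ ha₀, ?_⟩
    have : c • a - ι (c₀ * a₀) = c * (a - ι a₀) + (c - ι c₀) * ι a₀ := by
      rw [map_mul, smul_eq_mul]; ring
    rw [this]
    exact 𝔪.add_mem (𝔪.mul_mem_left _ ha) (𝔪.mul_mem_right _ hc₀)

variable {q : B₀}

/-- `ι⁻¹ (ι 𝔫₁ B + 𝔪) = 𝔫₁` for `q ∈ 𝔫₁`. -/
theorem h60r_comap_lift (hcongr : ∀ x : B, ∃ x₀ : B₀, x - ι x₀ ∈ 𝔪)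
    (hinter : ∀ x₀ : B₀, ι x₀ ∈ 𝔪 → x₀ ∈ Ideal.span {q}) (𝔫₁ : Ideal B₀) (hq : q ∈ 𝔫₁) :
    (h60rLift ι 𝔪 𝔫₁).comap ι = 𝔫₁ := by
  apply le_antisymm
  · intro x hx
    obtain ⟨g₀, hg₀, h1⟩ := h60r_exists_of_mem_lift hcongr 𝔫₁ (Ideal.mem_comap.mp hx)
    have h2 : x - g₀ ∈ Ideal.span {q} := hinter _ (by rw [map_sub]; exact h1)
    have h3 : x - g₀ ∈ 𝔫₁ := (Ideal.span_singleton_le_iff_mem 𝔫₁).mpr hq h2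
    have := 𝔫₁.add_mem h3 hg₀
    simpa using this
  · intro x hx
    exact Ideal.mem_comap.mpr (h60r_map_mem_lift ι 𝔪 𝔫₁ hx)

theorem h60r_mem_lift_iff (hcongr : ∀ x : B, ∃ x₀ : B₀, x - ι x₀ ∈ 𝔪)
    (hinter : ∀ x₀ : B₀, ι x₀ ∈ 𝔪 → x₀ ∈ Ideal.span {q}) (𝔫₁ : Ideal B₀) (hq : q ∈ 𝔫₁)
    (x₀ : B₀) : ι x₀ ∈ h60rLift ι 𝔪 𝔫₁ ↔ x₀ ∈ 𝔫₁ := by
  rw [← Ideal.mem_comap, h60r_comap_lift hcongr hinter 𝔫₁ hq]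

/-- an element of `B` congruent to `ι x₀` modulo `𝔪` lies in the lift iff `x₀ ∈ 𝔫₁`. -/
theorem h60r_mem_lift_iff_of_congr (hcongr : ∀ x : B, ∃ x₀ : B₀, x - ι x₀ ∈ 𝔪)
    (hinter : ∀ x₀ : B₀, ι x₀ ∈ 𝔪 → x₀ ∈ Ideal.span {q}) (𝔫₁ : Ideal B₀) (hq : q ∈ 𝔫₁)
    {x : B} {x₀ : B₀} (h : x - ι x₀ ∈ 𝔪) : x ∈ h60rLift ι 𝔪 𝔫₁ ↔ x₀ ∈ 𝔫₁ := by
  rw [← h60r_mem_lift_iff hcongr hinter 𝔫₁ hq]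
  constructor
  · intro hx
    have := (h60rLift ι 𝔪 𝔫₁).sub_mem hx (h60r_le_lift ι 𝔪 𝔫₁ h)
    simpa using this
  · intro hx
    have := (h60rLift ι 𝔪 𝔫₁).add_mem hx (h60r_le_lift ι 𝔪 𝔫₁ h)
    simpa using this

/-- the lift of a maximal ideal containing `q` is maximal. -/
theorem h60r_lift_isMaximal (hcongr : ∀ x : B, ∃ x₀ : B₀, x - ι x₀ ∈ 𝔪)
    (hinter : ∀ x₀ : B₀, ι x₀ ∈ 𝔪 → x₀ ∈ Ideal.span {q}) (𝔫₁ : Ideal B₀) (hq : q ∈ 𝔫₁)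
    (h𝔫₁ : 𝔫₁.IsMaximal) : (h60rLift ι 𝔪 𝔫₁).IsMaximal := by
  rw [Ideal.isMaximal_iff]
  refine ⟨?_, ?_⟩
  · intro h1
    have h2 : (1 : B₀) ∈ 𝔫₁ := by
      rw [← h60r_mem_lift_iff hcongr hinter 𝔫₁ hq, map_one]
      exact h1
    exact h𝔫₁.ne_top ((Ideal.eq_top_iff_one _).mpr h2)
  · intro J x hle hx hxJ
    obtain ⟨x₀, hx₀⟩ := hcongr x
    have hx₀𝔫 : x₀ ∉ 𝔫₁ := fun h =>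
      hx ((h60r_mem_lift_iff_of_congr hcongr hinter 𝔫₁ hq hx₀).mpr h)
    obtain ⟨y₀, n, hn, hy⟩ := h𝔫₁.exists_inv hx₀𝔫
    -- `y₀ * x₀ + n = 1`
    have h1 : (1 : B) = ι y₀ * x - ι y₀ * (x - ι x₀) + ι n := by
      have := congrArg ι hy
      rw [map_add, map_mul, map_one] at this
      rw [← this]; ring
    rw [h1]
    refine J.add_mem (J.sub_mem (J.mul_mem_left _ hxJ) (J.mul_mem_left _ ?_)) ?_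
    · exact hle (h60r_le_lift ι 𝔪 𝔫₁ hx₀)
    · exact hle (h60r_map_mem_lift ι 𝔪 𝔫₁ hn)

/-- **descent of local generators**: if the lift `𝔫` of `𝔫₁ ∋ q` is `J₀ B + 𝔪` locally at `𝔫`,
then `𝔫₁ = J₀ + (q)` locally at `𝔫₁`. -/
theorem h60r_descend (hcongr : ∀ x : B, ∃ x₀ : B₀, x - ι x₀ ∈ 𝔪)
    (hinter : ∀ x₀ : B₀, ι x₀ ∈ 𝔪 → x₀ ∈ Ideal.span {q}) (𝔫₁ : Ideal B₀) (hq : q ∈ 𝔫₁)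
    (J₀ : Ideal B₀)
    (hgen : ∀ z ∈ h60rLift ι 𝔪 𝔫₁, ∃ s, s ∉ h60rLift ι 𝔪 𝔫₁ ∧ s * z ∈ J₀.map ι ⊔ 𝔪) :
    ∀ z₀ ∈ 𝔫₁, ∃ s₀, s₀ ∉ 𝔫₁ ∧ s₀ * z₀ ∈ J₀ ⊔ Ideal.span {q} := by
  intro z₀ hz₀
  obtain ⟨s, hs, hsz⟩ := hgen (ι z₀) (h60r_map_mem_lift ι 𝔪 𝔫₁ hz₀)
  obtain ⟨g₀, hg₀, hg⟩ := h60r_exists_of_mem_lift hcongr J₀ hsz
  obtain ⟨s₀, hs₀⟩ := hcongr s
  refine ⟨s₀, fun h => hs ((h60r_mem_lift_iff_of_congr hcongr hinter 𝔫₁ hq hs₀).mpr h), ?_⟩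
  have h1 : ι (s₀ * z₀ - g₀) ∈ 𝔪 := by
    have : ι (s₀ * z₀ - g₀) = (s * ι z₀ - ι g₀) - (s - ι s₀) * ι z₀ := by
      rw [map_sub, map_mul]; ring
    rw [this]
    exact 𝔪.sub_mem hg (𝔪.mul_mem_right _ hs₀)
  have h2 := hinter _ h1
  have h3 : s₀ * z₀ = g₀ + (s₀ * z₀ - g₀) := by ring
  rw [h3]
  exact Submodule.add_mem_sup hg₀ h2

/-- **descent of a local congruence**: if `ι z₀ ∈ 𝔪` locally at the lift of `𝔫₁`, then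
`z₀ ∈ (q)` locally at `𝔫₁`. -/
theorem h60r_descend_mem (hcongr : ∀ x : B, ∃ x₀ : B₀, x - ι x₀ ∈ 𝔪)
    (hinter : ∀ x₀ : B₀, ι x₀ ∈ 𝔪 → x₀ ∈ Ideal.span {q}) (𝔫₁ : Ideal B₀) (hq : q ∈ 𝔫₁)
    (z₀ : B₀) (h : ∃ s, s ∉ h60rLift ι 𝔪 𝔫₁ ∧ s * ι z₀ ∈ 𝔪) :
    ∃ s₀, s₀ ∉ 𝔫₁ ∧ s₀ * z₀ ∈ Ideal.span {q} := by
  obtain ⟨s, hs, hsz⟩ := h
  obtain ⟨s₀, hs₀⟩ := hcongr s
  refine ⟨s₀, fun h => hs ((h60r_mem_lift_iff_of_congr hcongr hinter 𝔫₁ hq hs₀).mpr h), ?_⟩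
  apply hinter
  have : ι (s₀ * z₀) = s * ι z₀ - (s - ι s₀) * ι z₀ := by rw [map_mul]; ring
  rw [this]
  exact 𝔪.sub_mem hsz (𝔪.mul_mem_right _ hs₀)

/-- the lift of a proper ideal `𝔫₁ ∋ q` is the unique maximal ideal `𝔫 ⊇ 𝔪` of `B` with
`ι⁻¹ 𝔫 = 𝔫₁`: any ideal `𝔫 ⊇ 𝔪` with `ι⁻¹ 𝔫 = 𝔫₁` is the lift. -/
theorem h60r_eq_lift (hcongr : ∀ x : B, ∃ x₀ : B₀, x - ι x₀ ∈ 𝔪) (𝔫₁ : Ideal B₀)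
    (𝔫 : Ideal B) (h𝔪 : 𝔪 ≤ 𝔫) (hcomap : 𝔫.comap ι = 𝔫₁) : 𝔫 = h60rLift ι 𝔪 𝔫₁ := by
  apply le_antisymm
  · intro x hx
    obtain ⟨x₀, hx₀⟩ := hcongr x
    have h1 : ι x₀ ∈ 𝔫 := by
      have := 𝔫.sub_mem hx (h𝔪 hx₀)
      simpa using this
    have h2 : x₀ ∈ 𝔫₁ := by rw [← hcomap]; exact Ideal.mem_comap.mpr h1
    have h3 : x = ι x₀ + (x - ι x₀) := by ring
    rw [h3]
    exact (h60rLift ι 𝔪 𝔫₁).add_mem (h60r_map_mem_lift ι 𝔪 𝔫₁ h2) (h60r_le_lift ι 𝔪 𝔫₁ hx₀)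
  · refine sup_le ?_ h𝔪
    rw [Ideal.map_le_iff_le_comap, hcomap]

end Abs

end Fermat.Agent.S36
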