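import Mathlib
import Fermat.Agent.LGC.H62LP
import Fermat.Agent.LGC.H62TwoComp

/-!
# S36, block REG, leaf R-L1 (helper60): `𝔫 = (α u, β u) + 𝔪_A B` at a crossing point

Abstract setting of `LGC/H62BranchLocal.lean`: `B` the chart of level `M ℓ` over `A`,
`Λ` the chart of level `M`, `α, β : Λ → B`, `P∞`, `P₀` the two components of the special fibre
(`P∞ ∩ P₀ ⊆ 𝔪_A B`, `B = α Λ + P∞ = β Λ + P₀`), `𝔫 ⊇ P∞ + P₀` a crossing point, and `u ∈ Λ` a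
local parameter modulo `𝔪_A Λ` at `α⁻¹ 𝔫` and at `β⁻¹ 𝔫` with the Frobenius congruences
`β u ≡ (α u)^ℓ` mod `P∞`, `α u ≡ (β u)^ℓ` mod `P₀`.

* `h60r_P_loc` : `P∞ ⊆ (β u - (α u)^ℓ) + 𝔪_A B` locally at `𝔫`;
* `h60r_gen_of_LP` : `𝔫 = (α u, β u) + 𝔪_A B` locally at `𝔫`.
-/

set_option autoImplicit false

open IsLocalRing

namespace Fermat.Agent.S36

open Fermat.Agent.LGC

section Abs

variable {A : Type*} [CommRing A] [IsLocalRing A] {Λ B : Type*} [CommRing Λ] [CommRing B]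
  [Algebra A Λ] [Algebra A B]

/-- the image under `φ` of `(u) + 𝔪_A Λ` lies in `(φ u) + 𝔪_A B`. -/
theorem h60r_map_span_sup (φ : Λ →ₐ[A] B) (u x : Λ)
    (hx : x ∈ Ideal.span {u} ⊔ (maximalIdeal A).map (algebraMap A Λ)) :
    φ x ∈ Ideal.span {φ u} ⊔ (maximalIdeal A).map (algebraMap A B) := by
  obtain ⟨g, hg, m, hm, rfl⟩ := Submodule.mem_sup.mp hx
  obtain ⟨c, rfl⟩ := Ideal.mem_span_singleton'.mp hg
  rw [map_add, map_mul]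
  exact Submodule.add_mem_sup (Ideal.mem_span_singleton'.mpr ⟨φ c, rfl⟩)
    (h62l_map_mem _ φ hm)

/-- `𝔫 = (φ u) + P` locally at `𝔫`, if `B = φ Λ + P`, `𝔪_A B ⊆ P ⊆ 𝔫` and `u` is a local
parameter modulo `𝔪_A Λ` at `φ⁻¹ 𝔫`. -/
theorem h60r_LP_branch (φ : Λ →ₐ[A] B) (𝔫 P : Ideal B) (hP𝔫 : P ≤ 𝔫)
    (hmP : (maximalIdeal A).map (algebraMap A B) ≤ P)
    (hsurj : ∀ b : B, ∃ x : Λ, b - φ x ∈ P) (u : Λ)
    (hLP : h62l_LP ((maximalIdeal A).map (algebraMap A Λ)) (𝔫.comap (φ : Λ →+* B)) u) :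
    ∀ b ∈ 𝔫, ∃ s, s ∉ 𝔫 ∧ ∃ c : B, ∃ p ∈ P, s * b = c * φ u + p := by
  intro b hb
  obtain ⟨x, hx⟩ := hsurj b
  have hx𝔫 : x ∈ 𝔫.comap (φ : Λ →+* B) := by
    rw [Ideal.mem_comap]
    have := 𝔫.sub_mem hb (hP𝔫 hx)
    simpa using this
  obtain ⟨s, hs, hsx⟩ := hLP.2 x hx𝔫
  have h1 := h60r_map_span_sup φ u (s * x) hsx
  obtain ⟨g, hg, m, hm, hsum⟩ := Submodule.mem_sup.mp h1
  obtain ⟨c, rfl⟩ := Ideal.mem_span_singleton'.mp hg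
  refine ⟨φ s, fun h => hs (Ideal.mem_comap.mpr h), c, m + φ s * (b - φ x),
    P.add_mem (hmP hm) (P.mul_mem_left _ hx), ?_⟩
  rw [map_mul] at hsum
  have : φ s * b = φ s * φ x + φ s * (b - φ x) := by ring
  rw [this, ← hsum]
  ring

variable (α β : Λ →ₐ[A] B) (𝔫 Pinf P0 : Ideal B) [h𝔫 : 𝔫.IsPrime]

include h𝔫 in
/-- `P∞ ⊆ (β u - (α u)^ℓ) + 𝔪_A B` locally at a crossing point `𝔫`. -/
theorem h60r_P_loc (hPinf𝔫 : Pinf ≤ 𝔫) (hP0𝔫 : P0 ≤ 𝔫)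
    (hSF : Pinf ⊓ P0 ≤ (maximalIdeal A).map (algebraMap A B))
    (hmP0 : (maximalIdeal A).map (algebraMap A B) ≤ P0)
    (hsurj0 : ∀ b : B, ∃ x : Λ, b - β x ∈ P0)
    (u : Λ) (ℓ : ℕ) (hℓ : 2 ≤ ℓ)
    (hRα : β u - (α u) ^ ℓ ∈ Pinf) (hRβ : α u - (β u) ^ ℓ ∈ P0)
    (hLPβ : h62l_LP ((maximalIdeal A).map (algebraMap A Λ)) (𝔫.comap (β : Λ →+* B)) u) :
    ∀ p ∈ Pinf, ∃ s, s ∉ 𝔫 ∧
      s * p ∈ Ideal.span {β u - (α u) ^ ℓ} ⊔ (maximalIdeal A).map (algebraMap A B) := by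
  intro p hp
  have hY𝔫 : β u ∈ 𝔫 := Ideal.mem_comap.mp hLPβ.1
  obtain ⟨t, ht, c, p₂, hp₂, hsum⟩ := h60r_LP_branch β 𝔫 P0 hP0𝔫 hmP0 hsurj0 u hLPβ p (hPinf𝔫 hp)
  -- `e = 1 - Y^(ℓ²-1)` is a unit at `𝔫`
  set Y := β u with hY
  set X := α u with hX
  set e : B := 1 - Y ^ (ℓ * ℓ - 1) with he
  have hℓℓ : 1 ≤ ℓ * ℓ - 1 := by
    have : 4 ≤ ℓ * ℓ := by nlinarith
    omega
  have he𝔫 : e ∉ 𝔫 := by
    intro h
    have h1 : Y ^ (ℓ * ℓ - 1) ∈ 𝔫 := 𝔫.pow_mem_of_mem hY𝔫 _ (by omega)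
    have h2 : (1 : B) ∈ 𝔫 := by
      have := 𝔫.add_mem h h1
      simpa [he] using this
    exact h𝔫.ne_top ((Ideal.eq_top_iff_one _).mpr h2)
  -- `Y e = y + p₀'`, `p₀' ∈ P₀`
  obtain ⟨d, hd⟩ := sub_dvd_pow_sub_pow X (Y ^ ℓ) ℓ
  have hYe : Y * e = (Y - X ^ ℓ) + (X - Y ^ ℓ) * d := by
    have h1 : Y * Y ^ (ℓ * ℓ - 1) = (Y ^ ℓ) ^ ℓ := by
      rw [← pow_succ', ← pow_mul]
      congr 1
      omega
    rw [← hd, he, mul_sub, mul_one, h1]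
    ring
  refine ⟨e * t, fun h => (h𝔫.mem_or_mem h).elim he𝔫 ht, ?_⟩
  -- `e t p = c y + p₃`, `p₃ ∈ P∞ ∩ P₀`
  set p₃ : B := c * ((X - Y ^ ℓ) * d) + e * p₂ with hp₃
  have h3 : e * t * p = c * (Y - X ^ ℓ) + p₃ := by
    have : e * t * p = e * (t * p) := by ring
    rw [this, hsum, hp₃]
    have : e * (c * Y + p₂) = c * (Y * e) + e * p₂ := by ring
    rw [this, hYe]
    ring
  have hp₃0 : p₃ ∈ P0 :=
    P0.add_mem (P0.mul_mem_left _ (P0.mul_mem_right _ hRβ)) (P0.mul_mem_left _ hp₂)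
  have hp₃inf : p₃ ∈ Pinf := by
    have : p₃ = e * t * p - c * (Y - X ^ ℓ) := by rw [h3]; ring
    rw [this]
    exact Pinf.sub_mem (Pinf.mul_mem_left _ hp) (Pinf.mul_mem_left _ hRα)
  rw [h3]
  exact Submodule.add_mem_sup (Ideal.mem_span_singleton'.mpr ⟨c, rfl⟩) (hSF ⟨hp₃inf, hp₃0⟩)

include h𝔫 in
/-- **`𝔫 = (α u, β u) + 𝔪_A B` locally at a crossing point `𝔫`.** -/
theorem h60r_gen_of_LP (hPinf𝔫 : Pinf ≤ 𝔫) (hP0𝔫 : P0 ≤ 𝔫)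
    (hSF : Pinf ⊓ P0 ≤ (maximalIdeal A).map (algebraMap A B))
    (hmPinf : (maximalIdeal A).map (algebraMap A B) ≤ Pinf)
    (hmP0 : (maximalIdeal A).map (algebraMap A B) ≤ P0)
    (hsurjinf : ∀ b : B, ∃ x : Λ, b - α x ∈ Pinf)
    (hsurj0 : ∀ b : B, ∃ x : Λ, b - β x ∈ P0)
    (u : Λ) (ℓ : ℕ) (hℓ : 2 ≤ ℓ)
    (hRα : β u - (α u) ^ ℓ ∈ Pinf) (hRβ : α u - (β u) ^ ℓ ∈ P0)
    (hLPα : h62l_LP ((maximalIdeal A).map (algebraMap A Λ)) (𝔫.comap (α : Λ →+* B)) u)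
    (hLPβ : h62l_LP ((maximalIdeal A).map (algebraMap A Λ)) (𝔫.comap (β : Λ →+* B)) u) :
    ∀ b ∈ 𝔫, ∃ s, s ∉ 𝔫 ∧
      s * b ∈ Ideal.span {α u, β u} ⊔ (maximalIdeal A).map (algebraMap A B) := by
  intro b hb
  obtain ⟨s, hs, c, p, hp, hsum⟩ :=
    h60r_LP_branch α 𝔫 Pinf hPinf𝔫 hmPinf hsurjinf u hLPα b hb
  obtain ⟨t, ht, htp⟩ := h60r_P_loc α β 𝔫 Pinf P0 hPinf𝔫 hP0𝔫 hSF hmP0 hsurj0 u ℓ hℓ hRα hRβ
    hLPβ p hp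
  refine ⟨t * s, fun h => (h𝔫.mem_or_mem h).elim ht hs, ?_⟩
  have h1 : t * s * b = (t * c) * α u + t * p := by
    have : t * s * b = t * (s * b) := by ring
    rw [this, hsum]
    ring
  rw [h1]
  have hXm : α u ∈ Ideal.span {α u, β u} := Ideal.subset_span (by simp)
  have hYm : β u ∈ Ideal.span {α u, β u} := Ideal.subset_span (by simp)
  have hle : Ideal.span {β u - (α u) ^ ℓ} ⊔ (maximalIdeal A).map (algebraMap A B) ≤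
      Ideal.span {α u, β u} ⊔ (maximalIdeal A).map (algebraMap A B) := by
    refine sup_le_sup_right ?_ _
    rw [Ideal.span_singleton_le_iff_mem]
    exact Ideal.sub_mem _ hYm (Ideal.pow_mem_of_mem _ hXm ℓ (by omega))
  exact Ideal.add_mem _ (Ideal.mem_sup_left (Ideal.mul_mem_left _ _ hXm)) (hle htp)

end Abs

end Fermat.Agent.S36
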