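import Fermat.Agent.S36.H67Unit
import Fermat.Agent.LGC.H62Done

/-!
# S36 (R): the Kronecker remainder is a unit at the supersingular points of level `M ℓ`
(helper67)

`h67u_unit_fin` : at a good level (`ℓ ∤ M` prime, `auxLevel ℓ ∣ M`, `A` over `ℓ`), for every
closed point `𝔫` of the special fibre of the finite chart of level `M ℓ` lying on both components
there is `u ∈ Λ = chart M A j` with **rational** `q`-expansion, a local parameter of the special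
fibre of `Λ` at `α⁻¹ 𝔫` and at `β⁻¹ 𝔫`, such that for every `r ∈ Λ[T]` of degree `≤ ℓ` with
`(β u - (α u) ^ ℓ) ((β u) ^ ℓ - α u) + ℓ r(β u) = 0` (Kronecker), `r(β u) ∉ 𝔫`.

Proof: the wiring of the landed `h62i_ifaceSSLocal_fin` / `h62d_ifaceSSLocal_fin` (helper62),
with `h67u_local_unit` in place of `h62l_local`.
-/

set_option autoImplicit false
set_option linter.unusedSectionVars false

open AlgebraicCurve ModularCurve WithZero IsLocalRing Polynomial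

noncomputable section

namespace Fermat.Agent.S36

open Fermat.Agent.S37 Fermat.Agent.Red Fermat.Agent.Red.GG Fermat.Agent.Red.GV
  Fermat.Agent.Red.GV.Soft Fermat.Agent.Red.Kron Fermat.Agent.Red.KR Fermat.Agent.Red.ModelO
  Fermat.Agent.LGC

variable (A : ValuationSubring Kbar) (M : ℕ) {ℓ : ℕ} [NeZero M] [NeZero ℓ]

/-- **the Kronecker remainder is a unit at the crossing points**, from the leaves. -/
theorem h67u_unit_fin_of (hℓ : ℓ.Prime) (hM : ¬ ℓ ∣ M) (haux : auxLevel ℓ ∣ M)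
    (hA : A.LiesOverPrime ℓ)
    (hComp : H62Comp A M hℓ hM hA)
    (hded : IsDedekindDomain (chart M A (jB M) ⧸ h62i_mΛ A M))
    (hnf : ¬ IsField (chart M A (jB M) ⧸ h62i_mΛ A M))
    (hRes : H62Res A M) (hKer : H62Ker A M hℓ hM hA) (hSurj : H62Surj A M hℓ hM hA)
    (hSpan : H62Span A M) (hFrob : H62Frob A M hℓ hM hA) (hSep : H62Sep A) :
    ∀ 𝔫 : Ideal (chart (M * ℓ) A (jSS M ℓ)), 𝔫.IsMaximal →
      h62i_Pinf A M hℓ hM hA ≤ 𝔫 → h62i_P0 A M hℓ hM hA ≤ 𝔫 →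
      ∃ u ∈ h62i_R A M,
        h62l_LP (h62i_mΛ A M) (𝔫.comap
          ((h62i_α A M ℓ : chart M A (jB M) →ₐ[A] chart (M * ℓ) A (jSS M ℓ)) :
            chart M A (jB M) →+* chart (M * ℓ) A (jSS M ℓ))) u ∧
        h62l_LP (h62i_mΛ A M) (𝔫.comap
          ((h62i_β A M hℓ hM hA : chart M A (jB M) →ₐ[A] chart (M * ℓ) A (jSS M ℓ)) :
            chart M A (jB M) →+* chart (M * ℓ) A (jSS M ℓ))) u ∧
        h62i_α A M ℓ u ∈ 𝔫 ∧ h62i_β A M hℓ hM hA u ∈ 𝔫 ∧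
        ∀ r : (chart M A (jB M))[X], r.natDegree ≤ ℓ →
          (h62n_poly ℓ (u ^ ℓ) u r).eval₂
            ((h62i_α A M ℓ : chart M A (jB M) →ₐ[A] chart (M * ℓ) A (jSS M ℓ)) :
              chart M A (jB M) →+* chart (M * ℓ) A (jSS M ℓ))
            (h62i_β A M hℓ hM hA u) = 0 →
          r.eval₂
            ((h62i_α A M ℓ : chart M A (jB M) →ₐ[A] chart (M * ℓ) A (jSS M ℓ)) :
              chart M A (jB M) →+* chart (M * ℓ) A (jSS M ℓ))
            (h62i_β A M hℓ hM hA u) ∉ 𝔫 := by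
  have _ := hded
  have hC : IfaceSSChart A M ℓ (jSS M ℓ) := h85s_ifaceSSChart_fin A M ℓ hℓ hM hA
  refine h67u_local_unit (A := A) (F := FF (M * ℓ)) (B := chart (M * ℓ) A (jSS M ℓ))
    (V := ssV A M ℓ) (v := chartVal (M * ℓ) (jSS M ℓ)) hC
    (softV A (M * ℓ))
    ((softV A (M * ℓ)).comap (kFricke M ℓ hℓ hM : FF (M * ℓ) →+* FF (M * ℓ)))
    (fun x hx hwx => h63r_mem_ssV_of_soft hℓ hM hA hx hwx)
    (fun b => h62i_mem_soft A M hℓ hM hA b)
    (fun b => h62i_mem_soft A M hℓ hM hA (h62i_w A M hℓ hM hA b))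
    (h62i_Pinf A M hℓ hM hA) (h62i_P0 A M hℓ hM hA)
    hComp (h62i_m_le_Pinf A M hℓ hM hA) (h62i_m_le_P0 A M hℓ hM hA)
    (fun b hb => h62i_inv_mem_soft A M hℓ hM hA b hb)
    (fun b hb => ?_)
    (h62i_α A M ℓ) (h62i_β A M hℓ hM hA)
    (h4f_finite_of_ifaceFinite A M ℓ (h71_ssFinite hℓ hM hA) _ (fun _ => rfl))
    hnf hRes hKer.1 (fun x hx => ?_) (fun x hx => ?_)
    hSurj (fun b => ?_)
    (h62i_R A M) hSpan ℓ hℓ (h62i_natCast_mem A hA) (h62i_natCast_ne_zero A M)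
    hFrob (fun u hu => ?_)
    (h62i_perf A ℓ) hSep
    (K := Kbar)
    (fun 𝔫 _ _ _ i _ => ?_)
  · -- hW0
    have h1 : h62i_w A M hℓ hM hA b ∉ h62i_Pinf A M hℓ hM hA := hb
    have h2 := h62i_inv_mem_soft A M hℓ hM hA _ h1
    show kFricke M ℓ hℓ hM ((b : FF (M * ℓ)))⁻¹ ∈ softV A (M * ℓ)
    rw [map_inv₀]
    exact h2
  · -- hαP0
    apply hKer.2 x
    have h1 : h62i_w A M hℓ hM hA (h62i_α A M ℓ x) ∈ h62i_Pinf A M hℓ hM hA := hx
    rwa [h62i_w_α] at h1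
  · -- hβP0
    apply hKer.1 x
    have h1 : h62i_w A M hℓ hM hA (h62i_β A M hℓ hM hA x) ∈ h62i_Pinf A M hℓ hM hA := hx
    rwa [h62i_w_β] at h1
  · -- hsurj0
    obtain ⟨x, hx⟩ := hSurj (h62i_w A M hℓ hM hA b)
    refine ⟨x, ?_⟩
    rw [h62i_mem_P0_iff_w, map_sub, h62i_w_β]
    exact hx
  · -- hRβ
    rw [h62i_mem_P0_iff_w, map_sub, map_pow, h62i_w_α, h62i_w_β]
    exact hFrob u hu
  · -- hpl
    obtain ⟨T, φ, φ', hiT, hcard, hzero, hag⟩ := h18l_hpl M ℓ A hℓ hM haux i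
    exact ⟨T, φ, φ', hiT, hcard, hzero, fun k hk x => hag k hk (h62i_α A M ℓ x) x rfl⟩

/-- **The Kronecker remainder is a unit at the supersingular points of the finite chart of level
`M ℓ`** (good levels, unconditional). -/
theorem h67u_unit_fin (hℓ : ℓ.Prime) (hM : ¬ ℓ ∣ M) (haux : auxLevel ℓ ∣ M)
    (hA : A.LiesOverPrime ℓ) :
    ∀ 𝔫 : Ideal (chart (M * ℓ) A (jSS M ℓ)), 𝔫.IsMaximal →
      h62i_Pinf A M hℓ hM hA ≤ 𝔫 → h62i_P0 A M hℓ hM hA ≤ 𝔫 →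
      ∃ u ∈ h62i_R A M,
        h62l_LP (h62i_mΛ A M) (𝔫.comap
          ((h62i_α A M ℓ : chart M A (jB M) →ₐ[A] chart (M * ℓ) A (jSS M ℓ)) :
            chart M A (jB M) →+* chart (M * ℓ) A (jSS M ℓ))) u ∧
        h62l_LP (h62i_mΛ A M) (𝔫.comap
          ((h62i_β A M hℓ hM hA : chart M A (jB M) →ₐ[A] chart (M * ℓ) A (jSS M ℓ)) :
            chart M A (jB M) →+* chart (M * ℓ) A (jSS M ℓ))) u ∧
        h62i_α A M ℓ u ∈ 𝔫 ∧ h62i_β A M hℓ hM hA u ∈ 𝔫 ∧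
        ∀ r : (chart M A (jB M))[X], r.natDegree ≤ ℓ →
          (h62n_poly ℓ (u ^ ℓ) u r).eval₂
            ((h62i_α A M ℓ : chart M A (jB M) →ₐ[A] chart (M * ℓ) A (jSS M ℓ)) :
              chart M A (jB M) →+* chart (M * ℓ) A (jSS M ℓ))
            (h62i_β A M hℓ hM hA u) = 0 →
          r.eval₂
            ((h62i_α A M ℓ : chart M A (jB M) →ₐ[A] chart (M * ℓ) A (jSS M ℓ)) :
              chart M A (jB M) →+* chart (M * ℓ) A (jSS M ℓ))
            (h62i_β A M hℓ hM hA u) ∉ 𝔫 :=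
  h67u_unit_fin_of A M hℓ hM haux hA (h62c_comp A M hℓ hM hA)
    (h13l_hded_fin M A hℓ hM haux hA) (h13l_hnf_fin M A hℓ hM hA)
    (h62d_res A M) (h62d_ker A M hℓ hM hA) (h62d_surj A M hℓ hM haux hA)
    (h62d_span A M hℓ hM hA) (h62d_frob A M hℓ hM hA) (h62d_sep A hℓ hA)

end Fermat.Agent.S36
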