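import Fermat.Agent.S35.H62Node
import Fermat.Agent.S36.H62RegIface
import Fermat.Agent.S36.H67UnitFin
import Fermat.Agent.S36.H60L1Abs
import Fermat.Agent.S36.H60L1Gen

/-!
# S36, block REG, leaf R-L1 (helper60): the closed points of the special fibre of the chart of
level `M q` over the inertia ring `A₀`

`B₀ = h62rChart A (M q) j` (the `I_A`-fixed functions of the finite chart of level `M q`),
`ι : B₀ → B = chart (M q) A j` the inclusion, `q ∤ M`, `auxLevel q ∣ M`, `A` over `q`.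

* `H60RedIso A N q t` : R-REDISO in the shape consumed here: `B = B₀ + 𝔪_A B` and
  `𝔪_A B ∩ B₀ = q B₀`.
* `H60L1Node / H60L1Inf / H60L1Zero 𝔫₁ q X Y` : the three local data at a closed point `𝔫₁ ∋ q`
  of `B₀`, `X = α u`, `Y = β u`, `u` a function of level `M` with RATIONAL `q`-expansion in the
  finite chart of level `M` (vanishing at the image point; no Teichmüller shift):
  * node: `X, Y ∈ 𝔫₁`, `𝔫₁ = (X, Y)` locally, `(Y - X^q)(Y^q - X) = q ρ` with `ρ ∉ 𝔫₁`;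
  * on `C∞` only: `X ∈ 𝔫₁`, `𝔫₁ = (q, X)` locally, `Y ≡ X^q` modulo `q` locally;
  * on `C₀` only: `Y ∈ 𝔫₁`, `𝔫₁ = (q, Y)` locally, `X ≡ Y^q` modulo `q` locally.
* `h60r_L1 : H60RedIso A (M q) q j → ∀ 𝔫₁ maximal, q ∈ 𝔫₁ → H60L1At A M q 𝔫₁` (**R-L1**).

Inputs: landed `h67u_unit_fin` (helper67, R-L1A), `h62x_smooth_inf`, `h62x_smooth_zero`,
`h62x_kron`, `h62d_frob`, `h62c_comp`, `h62d_surj` (helper62 and the W3-LGC team).
-/

set_option autoImplicit false
set_option linter.unusedSectionVars false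

open AlgebraicCurve ModularCurve IsLocalRing Polynomial

noncomputable section

namespace Fermat.Agent.S36

open Fermat.Agent.S37 Fermat.Agent.Red Fermat.Agent.Red.GG Fermat.Agent.Red.GV
  Fermat.Agent.Red.GV.Soft Fermat.Agent.Red.Kron Fermat.Agent.Red.KR Fermat.Agent.Red.ModelO
  Fermat.Agent.LGC Fermat.Agent.S35

/-! ## The three local data (abstract vocabulary) -/

section Data

variable {B₀ : Type*} [CommRing B₀]

/-- the local datum at a crossing point of the two components. -/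
structure H60L1Node (𝔫₁ : Ideal B₀) (q : ℕ) (X Y : B₀) : Prop where
  hX : X ∈ 𝔫₁
  hY : Y ∈ 𝔫₁
  hgen : ∀ z ∈ 𝔫₁, ∃ s, s ∉ 𝔫₁ ∧ s * z ∈ Ideal.span {X, Y}
  hkron : ∃ ρ, ρ ∉ 𝔫₁ ∧ (Y - X ^ q) * (Y ^ q - X) = (q : B₀) * ρ

/-- the local datum at a point lying on the component `C∞` only. -/
structure H60L1Inf (𝔫₁ : Ideal B₀) (q : ℕ) (X Y : B₀) : Prop where
  hX : X ∈ 𝔫₁
  hgen : ∀ z ∈ 𝔫₁, ∃ s, s ∉ 𝔫₁ ∧ s * z ∈ Ideal.span {(q : B₀), X}
  hfrob : ∃ s, s ∉ 𝔫₁ ∧ s * (Y - X ^ q) ∈ Ideal.span {(q : B₀)}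

/-- the local datum at a point lying on the component `C₀` only. -/
structure H60L1Zero (𝔫₁ : Ideal B₀) (q : ℕ) (X Y : B₀) : Prop where
  hY : Y ∈ 𝔫₁
  hgen : ∀ z ∈ 𝔫₁, ∃ s, s ∉ 𝔫₁ ∧ s * z ∈ Ideal.span {(q : B₀), Y}
  hfrob : ∃ s, s ∉ 𝔫₁ ∧ s * (X - Y ^ q) ∈ Ideal.span {(q : B₀)}

end Data

/-! ## The concrete objects -/

section Incl

variable (A : ValuationSubring Kbar) (N : ℕ) (t : FF N)

/-- the inclusion of the chart over `A₀` into the chart over `A`. -/
def h60rIncl : h62rChart A N t →+* chart N A t where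
  toFun x := ⟨(x : FF N), (Subring.mem_inf.mp x.2).1⟩
  map_one' := rfl
  map_mul' _ _ := rfl
  map_zero' := rfl
  map_add' _ _ := rfl

@[simp]
theorem h60r_coe_incl (x : h62rChart A N t) :
    ((h60rIncl A N t x : chart N A t) : FF N) = (x : FF N) := rfl

theorem h60r_incl_injective : Function.Injective (h60rIncl A N t) := fun _ _ h =>
  Subtype.ext (congrArg (fun z : chart N A t => (z : FF N)) h)

/-- an element of the chart over `A` which is fixed by the inertia group is in the image of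
the chart over `A₀`. -/
theorem h60r_exists_incl (b : chart N A t)
    (hb : ∀ σ ∈ A.inertiaSubgroupIn ℚ, gal N σ • (b : FF N) = b) :
    ∃ b₀ : h62rChart A N t, h60rIncl A N t b₀ = b :=
  ⟨⟨(b : FF N), Subring.mem_inf.mpr ⟨b.2, hb⟩⟩, rfl⟩

/-- **R-REDISO** (shape consumed by R-L1): `B = B₀ + 𝔪_A B` and `𝔪_A B ∩ B₀ = q B₀`. -/
def H60RedIso (q : ℕ) : Prop :=
  (∀ x : chart N A t, ∃ x₀ : h62rChart A N t,
    x - h60rIncl A N t x₀ ∈ (maximalIdeal A).map (algebraMap A (chart N A t))) ∧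
  (∀ x₀ : h62rChart A N t,
    h60rIncl A N t x₀ ∈ (maximalIdeal A).map (algebraMap A (chart N A t)) →
      x₀ ∈ Ideal.span {(q : h62rChart A N t)})

end Incl

section Level

variable (A : ValuationSubring Kbar) (M q : ℕ) [NeZero M] [NeZero q]

/-- **the local datum of level `M q` over `A₀`** at a closed point `𝔫₁` of the special fibre:
`X = α u`, `Y = β u` for a function `u` of the finite chart of level `M` with rational
`q`-expansion, and one of the three data. -/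
def H60L1At (𝔫₁ : Ideal (h62rChart A (M * q) (jSS M q))) : Prop :=
  ∃ u : FF M, IsRat u ∧ u ∈ modelAt M A (jB M) ∧
    ∃ X Y : h62rChart A (M * q) (jSS M q),
      (X : FF (M * q)) = heckeAlphaBar Kbar M q u ∧
      (Y : FF (M * q)) = heckeBetaBar Kbar M q u ∧
      (H60L1Node 𝔫₁ q X Y ∨ H60L1Inf 𝔫₁ q X Y ∨ H60L1Zero 𝔫₁ q X Y)

/-- **R-L1 (frozen statement).** -/
def H60L1Statement : Prop :=
  ∀ (q : ℕ) (hq : q.Prime) (M : ℕ) [NeZero M], ¬ q ∣ M → auxLevel q ∣ M →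
    haveI : NeZero q := ⟨hq.ne_zero⟩
    ∀ A : ValuationSubring Kbar, A.LiesOverPrime q →
      ∀ 𝔫₁ : Ideal (h62rChart A (M * q) (jSS M q)), 𝔫₁.IsMaximal →
        (q : h62rChart A (M * q) (jSS M q)) ∈ 𝔫₁ → H60L1At A M q 𝔫₁

variable {q}

/-- `α u` as an element of the chart over `A₀` (`u` rational). -/
def h60rX (u : chart M A (jB M)) (hu : u ∈ h62i_R A M) : h62rChart A (M * q) (jSS M q) :=
  ⟨((h62i_α A M q u : chart (M * q) A (jSS M q)) : FF (M * q)),
    Subring.mem_inf.mpr ⟨(h62i_α A M q u).2, fun σ _ => h62x_α_mem_fixedB A M u hu σ⟩⟩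

/-- `β u` as an element of the chart over `A₀` (`u` rational). -/
def h60rY (hq : q.Prime) (hM : ¬ q ∣ M) (hA : A.LiesOverPrime q)
    (u : chart M A (jB M)) (hu : u ∈ h62i_R A M) : h62rChart A (M * q) (jSS M q) :=
  ⟨((h62i_β A M hq hM hA u : chart (M * q) A (jSS M q)) : FF (M * q)),
    Subring.mem_inf.mpr ⟨(h62i_β A M hq hM hA u).2,
      fun σ _ => h62x_β_mem_fixedB A M hq hM hA u hu σ⟩⟩

theorem h60r_incl_X (u : chart M A (jB M)) (hu : u ∈ h62i_R A M) :
    h60rIncl A (M * q) (jSS M q) (h60rX A M u hu) = h62i_α A M q u := rfl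

theorem h60r_incl_Y (hq : q.Prime) (hM : ¬ q ∣ M) (hA : A.LiesOverPrime q)
    (u : chart M A (jB M)) (hu : u ∈ h62i_R A M) :
    h60rIncl A (M * q) (jSS M q) (h60rY A M hq hM hA u hu) = h62i_β A M hq hM hA u := rfl

theorem h60r_incl_natCast (n : ℕ) :
    h60rIncl A (M * q) (jSS M q) (n : h62rChart A (M * q) (jSS M q)) =
      (n : chart (M * q) A (jSS M q)) := map_natCast _ n

/-- `q ∈ 𝔪_A B`. -/
theorem h60r_q_mem (hA : A.LiesOverPrime q) :
    ((q : ℕ) : chart (M * q) A (jSS M q)) ∈ mExt A M q (jSS M q) := by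
  have h1 : algebraMap A (chart (M * q) A (jSS M q)) ((q : ℕ) : A) ∈ mExt A M q (jSS M q) :=
    Ideal.mem_map_of_mem _ (h62i_natCast_mem A hA)
  rwa [map_natCast] at h1

end Level

end Fermat.Agent.S36
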