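import Fermat.Agent.S36.H25RedIsoInst
import Fermat.Agent.S36.H60L1

/-!
# S36, block REG, row R-REDISO (helper25): adapter to the shape `H60RedIso` of R-L1 (helper60)

`h25i_h60RedIso_of : H62RedIso A N t q → H60RedIso A N t q` and the four instances
`h25i_h60RedIso_M_fin`, `h25i_h60RedIso_M_inf`, `h25i_h60RedIso_Mq_fin`, `h25i_h60RedIso_Mq_inf`.
-/

set_option autoImplicit false
set_option linter.unusedSectionVars false

open AlgebraicCurve ModularCurve IsLocalRing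

noncomputable section

namespace Fermat.Agent.S36

open Fermat.Agent.S37 (Kbar GQ FF cst gal jB modelAt)
open Fermat.Agent.Red.GG (chart)
open Fermat.Agent.LGC (jSS)

theorem h25i_h60RedIso_of {A : ValuationSubring Kbar} {N : ℕ} {t : FF N} {q : ℕ}
    (h : H62RedIso A N t q) : H60RedIso A N t q := by
  refine ⟨fun x => ?_, fun x₀ hx₀ => ?_⟩
  · obtain ⟨x₀, hx₀⟩ := h.1 x
    exact ⟨x₀, hx₀⟩
  · obtain ⟨y, hy⟩ := h.2 x₀ hx₀
    rw [Ideal.mem_span_singleton']
    exact ⟨y, by rw [hy, mul_comm]⟩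

variable {A : ValuationSubring Kbar} {M q : ℕ} [NeZero M]

theorem h25i_h60RedIso_M_fin (hq : q.Prime) (hM : ¬ q ∣ M) (hA : A.LiesOverPrime q) :
    H60RedIso A M (jB M) q :=
  h25i_h60RedIso_of (h25i_redIso_M_fin hq hM hA)

theorem h25i_h60RedIso_M_inf (hq : q.Prime) (hM : ¬ q ∣ M) (hA : A.LiesOverPrime q) :
    H60RedIso A M (jB M)⁻¹ q :=
  h25i_h60RedIso_of (h25i_redIso_M_inf hq hM hA)

variable [NeZero q]

theorem h25i_h60RedIso_Mq_fin (hq : q.Prime) (hM : ¬ q ∣ M) (hA : A.LiesOverPrime q) :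
    H60RedIso A (M * q) (jSS M q) q :=
  h25i_h60RedIso_of (h25i_redIso_Mq_fin hq hM hA)

theorem h25i_h60RedIso_Mq_inf (hq : q.Prime) (hM : ¬ q ∣ M) (hA : A.LiesOverPrime q) :
    H60RedIso A (M * q) (jSS M q)⁻¹ q :=
  h25i_h60RedIso_of (h25i_redIso_Mq_inf hq hM hA)

end Fermat.Agent.S36
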