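import Fermat.Agent.S36.H60L1Proof
import Fermat.Agent.S36.H62L0
import Fermat.Agent.S36.H25RedIsoH60

/-!
# S36, block REG, row R-L1 (helper60): `H62L1`

`h60r_H62L1 : H62L1` (the frozen Prop of `S36/H62L1Iface.lean`, unconditional): every closed
point `𝔫₁ ∋ q` of the finite chart of level `M q` over the inertia ring `A₀` carries a
`H62NodeDatum`, a `H62InfDatum` or a `H62ZeroDatum`.

* `h60r_nodeDatum` : the node datum at the points of `C∞ ∩ C₀` (from `h60r_L1_node`).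
* `h60r_frob_inf`, `h60r_frob_zero` : the Frobenius congruences locally at the points of one
  component only, for ALL rational `u`.
* `h60r_transport` (abstract): if `𝔫₁ = (π, α u)` locally for one `u`, then local parameters
  are transported along `α`.
* `h60r_infDatum`, `h60r_zeroDatum`.

The case distinction is on the closed point `𝔫 = 𝔫₁ B + 𝔪_A B` of the chart over `A`:
`P∞ ≤ 𝔫` and `P₀ ≤ 𝔫` (node), `P∞ ≤ 𝔫` only, `P₀ ≤ 𝔫` only (`h62x_dichotomy`).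
R-REDISO is taken from helper25 (`h25i_h60RedIso_Mq_fin`).
-/

set_option autoImplicit false
set_option linter.unusedSectionVars false
set_option linter.style.haveILetI false

open AlgebraicCurve ModularCurve IsLocalRing Polynomial

noncomputable section

namespace Fermat.Agent.S36

open Fermat.Agent.S37 Fermat.Agent.Red Fermat.Agent.Red.GG Fermat.Agent.Red.GV
  Fermat.Agent.Red.GV.Soft Fermat.Agent.Red.Kron Fermat.Agent.Red.KR Fermat.Agent.Red.ModelO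
  Fermat.Agent.LGC Fermat.Agent.S35

/-! ## Transport of local parameters (abstract) -/

section Abs

variable {Λ B : Type*} [CommRing Λ] [CommRing B]

/-- if `𝔫₁ = (α π, α u)` locally for one `u`, then `𝔫₁ = (α π, α t)` locally for every `t`
with `α⁻¹ 𝔫₁ = (π, t)` locally. -/
theorem h60r_transport (α : Λ →+* B) (𝔫₁ : Ideal B) [𝔫₁.IsPrime] (π u : Λ)
    (hu : α u ∈ 𝔫₁)
    (hgen : ∀ z ∈ 𝔫₁, ∃ s, s ∉ 𝔫₁ ∧ s * z ∈ Ideal.span {α π, α u})
    (t : Λ)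
    (hloc : ∀ z ∈ 𝔫₁.comap α, ∃ s, s ∉ 𝔫₁.comap α ∧ s * z ∈ Ideal.span {π, t}) :
    ∀ z ∈ 𝔫₁, ∃ s, s ∉ 𝔫₁ ∧ s * z ∈ Ideal.span {α π, α t} := by
  obtain ⟨s, hs, hsu⟩ := hloc u (Ideal.mem_comap.mpr hu)
  obtain ⟨a, b, hab⟩ := Ideal.mem_span_pair.mp hsu
  intro z hz
  obtain ⟨s', hs', hsz⟩ := hgen z hz
  obtain ⟨c, d, hcd⟩ := Ideal.mem_span_pair.mp hsz
  refine ⟨α s * s', fun h => ?_, ?_⟩
  · rcases Ideal.IsPrime.mem_or_mem inferInstance h with h | h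
    · exact hs (Ideal.mem_comap.mpr h)
    · exact hs' h
  · rw [Ideal.mem_span_pair]
    refine ⟨α s * c + d * α a, d * α b, ?_⟩
    have h1 : α s * α u = α a * α π + α b * α t := by
      rw [← map_mul, ← hab, map_add, map_mul, map_mul]
    calc (α s * c + d * α a) * α π + d * α b * α t
        = α s * (c * α π) + d * (α a * α π + α b * α t) := by ring
      _ = α s * (c * α π) + d * (α s * α u) := by rw [h1]
      _ = α s * (c * α π + d * α u) := by ring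
      _ = α s * s' * z := by rw [hcd]; ring

end Abs

variable (A : ValuationSubring Kbar) (M : ℕ) {q : ℕ} [NeZero M] [NeZero q]

/-! ## Comparison of the two vocabularies -/

theorem h60r_alpha_eq (u : chart M A (jB M)) (hu : u ∈ h62i_R A M) :
    h62rAlpha A M (q := q) (h62rOfRat A M (jB M) u ((h62i_mem_R A M u).mp hu)) =
      h60rX A M u hu := rfl

theorem h60r_beta_eq (hq : q.Prime) (hM : ¬ q ∣ M) (hA : A.LiesOverPrime q)
    (u : chart M A (jB M)) (hu : u ∈ h62i_R A M) :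
    h62rBeta A M hq hM hA (h62rOfRat A M (jB M) u ((h62i_mem_R A M u).mp hu)) =
      h60rY A M hq hM hA u hu := rfl

/-- a rational function of the chart over `A₀`, in the chart over `A`. -/
theorem h60r_incl_mem_R (v : h62rChart A M (jB M)) (hv : IsRat (v : FF M)) :
    h62rIncl A M (jB M) v ∈ h62i_R A M :=
  (h62i_mem_R A M (h62rIncl A M (jB M) v)).mpr hv

theorem h60r_alpha_eq' (v : h62rChart A M (jB M)) (hv : IsRat (v : FF M)) :
    h62rAlpha A M (q := q) v =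
      h60rX A M (h62rIncl A M (jB M) v) (h60r_incl_mem_R A M v hv) := rfl

theorem h60r_beta_eq' (hq : q.Prime) (hM : ¬ q ∣ M) (hA : A.LiesOverPrime q)
    (v : h62rChart A M (jB M)) (hv : IsRat (v : FF M)) :
    h62rBeta A M hq hM hA v =
      h60rY A M hq hM hA (h62rIncl A M (jB M) v) (h60r_incl_mem_R A M v hv) := rfl

/-! ## The Frobenius congruences -/

/-- `β u ≡ (α u)^q` modulo `q`, locally at a point outside `C₀`, for every rational `u`. -/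
theorem h60r_frob_inf (hq : q.Prime) (hM : ¬ q ∣ M) (hA : A.LiesOverPrime q)
    (hiso : H60RedIso A (M * q) (jSS M q) q)
    (𝔫₁ : Ideal (h62rChart A (M * q) (jSS M q)))
    (hq𝔫₁ : (q : h62rChart A (M * q) (jSS M q)) ∈ 𝔫₁)
    (hP0 : ¬ h62i_P0 A M hq hM hA ≤
      h60rLift (h60rIncl A (M * q) (jSS M q)) (mExt A M q (jSS M q)) 𝔫₁)
    (u : chart M A (jB M)) (huR : u ∈ h62i_R A M) :
    ∃ s, s ∉ 𝔫₁ ∧ s * (h60rY A M hq hM hA u huR - h60rX A M u huR ^ q) ∈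
      Ideal.span {(q : h62rChart A (M * q) (jSS M q))} := by
  obtain ⟨p, hp0, hp𝔫⟩ := SetLike.not_le_iff_exists.mp hP0
  have hcomp : h62i_Pinf A M hq hM hA ⊓ h62i_P0 A M hq hM hA ≤ mExt A M q (jSS M q) :=
    h62c_comp A M hq hM hA
  have h1 : p * (h62i_β A M hq hM hA u - (h62i_α A M q u) ^ q) ∈ mExt A M q (jSS M q) :=
    hcomp ⟨Ideal.mul_mem_left _ _ (h62d_frob A M hq hM hA u huR),
      Ideal.mul_mem_right _ _ hp0⟩
  refine h60r_descend_mem hiso.1 hiso.2 𝔫₁ hq𝔫₁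
    (h60rY A M hq hM hA u huR - h60rX A M u huR ^ q) ⟨p, hp𝔫, ?_⟩
  rw [map_sub, map_pow, h60r_incl_X, h60r_incl_Y]
  exact h1

/-- `α u ≡ (β u)^q` modulo `q`, locally at a point outside `C∞`, for every rational `u`. -/
theorem h60r_frob_zero (hq : q.Prime) (hM : ¬ q ∣ M) (hA : A.LiesOverPrime q)
    (hiso : H60RedIso A (M * q) (jSS M q) q)
    (𝔫₁ : Ideal (h62rChart A (M * q) (jSS M q)))
    (hq𝔫₁ : (q : h62rChart A (M * q) (jSS M q)) ∈ 𝔫₁)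
    (hPinf : ¬ h62i_Pinf A M hq hM hA ≤
      h60rLift (h60rIncl A (M * q) (jSS M q)) (mExt A M q (jSS M q)) 𝔫₁)
    (u : chart M A (jB M)) (huR : u ∈ h62i_R A M) :
    ∃ s, s ∉ 𝔫₁ ∧ s * (h60rX A M u huR - h60rY A M hq hM hA u huR ^ q) ∈
      Ideal.span {(q : h62rChart A (M * q) (jSS M q))} := by
  obtain ⟨p, hpinf, hp𝔫⟩ := SetLike.not_le_iff_exists.mp hPinf
  have hcomp : h62i_Pinf A M hq hM hA ⊓ h62i_P0 A M hq hM hA ≤ mExt A M q (jSS M q) :=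
    h62c_comp A M hq hM hA
  have h1 : p * (h62i_α A M q u - (h62i_β A M hq hM hA u) ^ q) ∈ mExt A M q (jSS M q) :=
    hcomp ⟨Ideal.mul_mem_right _ _ hpinf,
      Ideal.mul_mem_left _ _ (h60r_frob0 A M hq hM hA u huR)⟩
  refine h60r_descend_mem hiso.1 hiso.2 𝔫₁ hq𝔫₁
    (h60rX A M u huR - h60rY A M hq hM hA u huR ^ q) ⟨p, hp𝔫, ?_⟩
  rw [map_sub, map_pow, h60r_incl_X, h60r_incl_Y]
  exact h1

/-! ## The three data -/

/-- the node datum. -/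
theorem h60r_nodeDatum (hq : q.Prime) (hM : ¬ q ∣ M) (haux : auxLevel q ∣ M)
    (hA : A.LiesOverPrime q) (hiso : H60RedIso A (M * q) (jSS M q) q)
    (𝔫₁ : Ideal (h62rChart A (M * q) (jSS M q))) (h𝔫₁ : 𝔫₁.IsMaximal)
    (hq𝔫₁ : (q : h62rChart A (M * q) (jSS M q)) ∈ 𝔫₁)
    (hPinf : h62i_Pinf A M hq hM hA ≤
      h60rLift (h60rIncl A (M * q) (jSS M q)) (mExt A M q (jSS M q)) 𝔫₁)
    (hP0 : h62i_P0 A M hq hM hA ≤
      h60rLift (h60rIncl A (M * q) (jSS M q)) (mExt A M q (jSS M q)) 𝔫₁) :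
    H62NodeDatum A M hq hM hA 𝔫₁ := by
  obtain ⟨u, hu, h⟩ := h60r_L1_node A M hq hM haux hA hiso 𝔫₁ h𝔫₁ hq𝔫₁ hPinf hP0
  obtain ⟨ρ, hρ, hrel⟩ := h.hkron
  refine ⟨h62rOfRat A M (jB M) u ((h62i_mem_R A M u).mp hu), (h62i_mem_R A M u).mp hu, ?_, ?_,
    ⟨-ρ, fun h' => hρ ((Ideal.neg_mem_iff 𝔫₁).mp h'), ?_⟩, ?_⟩
  · rw [h60r_alpha_eq A M u hu]
    exact h.hX
  · rw [h60r_beta_eq A M hq hM hA u hu]
    exact h.hY
  · rw [h60r_alpha_eq A M u hu, h60r_beta_eq A M hq hM hA u hu, hrel]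
    ring
  · rw [h60r_alpha_eq A M u hu, h60r_beta_eq A M hq hM hA u hu]
    exact h.hgen

/-- the datum at the points of `C∞` only. -/
theorem h60r_infDatum (hq : q.Prime) (hM : ¬ q ∣ M) (haux : auxLevel q ∣ M)
    (hA : A.LiesOverPrime q) (hiso : H60RedIso A (M * q) (jSS M q) q)
    (𝔫₁ : Ideal (h62rChart A (M * q) (jSS M q))) (h𝔫₁ : 𝔫₁.IsMaximal)
    (hq𝔫₁ : (q : h62rChart A (M * q) (jSS M q)) ∈ 𝔫₁)
    (hPinf : h62i_Pinf A M hq hM hA ≤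
      h60rLift (h60rIncl A (M * q) (jSS M q)) (mExt A M q (jSS M q)) 𝔫₁)
    (hP0 : ¬ h62i_P0 A M hq hM hA ≤
      h60rLift (h60rIncl A (M * q) (jSS M q)) (mExt A M q (jSS M q)) 𝔫₁) :
    H62InfDatum A M hq hM hA 𝔫₁ := by
  haveI h𝔫₁p : 𝔫₁.IsPrime := h𝔫₁.isPrime
  obtain ⟨u, hu, h⟩ := h60r_L1_inf A M hq hM haux hA hiso 𝔫₁ h𝔫₁ hq𝔫₁ hPinf hP0
  refine ⟨fun v hv => ?_, fun t _ hloc => ?_⟩
  · rw [h60r_alpha_eq' A M v hv, h60r_beta_eq' A M hq hM hA v hv]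
    exact h60r_frob_inf A M hq hM hA hiso 𝔫₁ hq𝔫₁ hP0 _ _
  · have hX : h62rAlpha A M (q := q) (h62rOfRat A M (jB M) u ((h62i_mem_R A M u).mp hu)) ∈ 𝔫₁ := by
      rw [h60r_alpha_eq]
      exact h.hX
    have hgen : ∀ z ∈ 𝔫₁, ∃ s, s ∉ 𝔫₁ ∧ s * z ∈ Ideal.span
        {h62rAlpha A M (q := q) (q : h62rChart A M (jB M)),
          h62rAlpha A M (q := q) (h62rOfRat A M (jB M) u ((h62i_mem_R A M u).mp hu))} := by
      rw [map_natCast, h60r_alpha_eq A M u hu]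
      exact h.hgen
    have h3 := h60r_transport (h62rAlpha A M (q := q)) 𝔫₁ (q : h62rChart A M (jB M))
      (h62rOfRat A M (jB M) u ((h62i_mem_R A M u).mp hu)) hX hgen t hloc
    rw [map_natCast] at h3
    exact h3

/-- the datum at the points of `C₀` only. -/
theorem h60r_zeroDatum (hq : q.Prime) (hM : ¬ q ∣ M) (haux : auxLevel q ∣ M)
    (hA : A.LiesOverPrime q) (hiso : H60RedIso A (M * q) (jSS M q) q)
    (𝔫₁ : Ideal (h62rChart A (M * q) (jSS M q))) (h𝔫₁ : 𝔫₁.IsMaximal)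
    (hq𝔫₁ : (q : h62rChart A (M * q) (jSS M q)) ∈ 𝔫₁)
    (hP0 : h62i_P0 A M hq hM hA ≤
      h60rLift (h60rIncl A (M * q) (jSS M q)) (mExt A M q (jSS M q)) 𝔫₁)
    (hPinf : ¬ h62i_Pinf A M hq hM hA ≤
      h60rLift (h60rIncl A (M * q) (jSS M q)) (mExt A M q (jSS M q)) 𝔫₁) :
    H62ZeroDatum A M hq hM hA 𝔫₁ := by
  haveI h𝔫₁p : 𝔫₁.IsPrime := h𝔫₁.isPrime
  obtain ⟨u, hu, h⟩ := h60r_L1_zero A M hq hM haux hA hiso 𝔫₁ h𝔫₁ hq𝔫₁ hP0 hPinf
  refine ⟨fun v hv => ?_, fun t _ hloc => ?_⟩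
  · rw [h60r_alpha_eq' A M v hv, h60r_beta_eq' A M hq hM hA v hv]
    exact h60r_frob_zero A M hq hM hA hiso 𝔫₁ hq𝔫₁ hPinf _ _
  · have hY : h62rBeta A M hq hM hA (h62rOfRat A M (jB M) u ((h62i_mem_R A M u).mp hu)) ∈ 𝔫₁ := by
      rw [h60r_beta_eq]
      exact h.hY
    have hgen : ∀ z ∈ 𝔫₁, ∃ s, s ∉ 𝔫₁ ∧ s * z ∈ Ideal.span
        {h62rBeta A M hq hM hA (q : h62rChart A M (jB M)),
          h62rBeta A M hq hM hA (h62rOfRat A M (jB M) u ((h62i_mem_R A M u).mp hu))} := by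
      rw [map_natCast, h60r_beta_eq A M hq hM hA u hu]
      exact h.hgen
    have h3 := h60r_transport (h62rBeta A M hq hM hA) 𝔫₁ (q : h62rChart A M (jB M))
      (h62rOfRat A M (jB M) u ((h62i_mem_R A M u).mp hu)) hY hgen t hloc
    rw [map_natCast] at h3
    exact h3

/-! ## R-L1 -/

/-- **R-L1** at one closed point, from R-REDISO. -/
theorem h60r_L1_datum (hq : q.Prime) (hM : ¬ q ∣ M) (haux : auxLevel q ∣ M)
    (hA : A.LiesOverPrime q) (hiso : H60RedIso A (M * q) (jSS M q) q)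
    (𝔫₁ : Ideal (h62rChart A (M * q) (jSS M q))) (h𝔫₁ : 𝔫₁.IsMaximal)
    (hq𝔫₁ : (q : h62rChart A (M * q) (jSS M q)) ∈ 𝔫₁) :
    H62NodeDatum A M hq hM hA 𝔫₁ ∨ H62InfDatum A M hq hM hA 𝔫₁ ∨
      H62ZeroDatum A M hq hM hA 𝔫₁ := by
  classical
  have h𝔫 : (h60rLift (h60rIncl A (M * q) (jSS M q)) (mExt A M q (jSS M q)) 𝔫₁).IsMaximal :=
    h60r_lift_isMaximal hiso.1 hiso.2 𝔫₁ hq𝔫₁ h𝔫₁
  have hm : mExt A M q (jSS M q) ≤
      h60rLift (h60rIncl A (M * q) (jSS M q)) (mExt A M q (jSS M q)) 𝔫₁ :=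
    h60r_le_lift _ _ 𝔫₁
  by_cases hPinf : h62i_Pinf A M hq hM hA ≤
      h60rLift (h60rIncl A (M * q) (jSS M q)) (mExt A M q (jSS M q)) 𝔫₁
  · by_cases hP0 : h62i_P0 A M hq hM hA ≤
        h60rLift (h60rIncl A (M * q) (jSS M q)) (mExt A M q (jSS M q)) 𝔫₁
    · exact Or.inl (h60r_nodeDatum A M hq hM haux hA hiso 𝔫₁ h𝔫₁ hq𝔫₁ hPinf hP0)
    · exact Or.inr (Or.inl (h60r_infDatum A M hq hM haux hA hiso 𝔫₁ h𝔫₁ hq𝔫₁ hPinf hP0))
  · have hP0 := (h62x_dichotomy A M hq hM hA _ h𝔫 hm).resolve_left hPinf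
    exact Or.inr (Or.inr (h60r_zeroDatum A M hq hM haux hA hiso 𝔫₁ h𝔫₁ hq𝔫₁ hP0 hPinf))

/-- **R-L1** (the frozen Prop `H62L1`, unconditional). -/
theorem h60r_H62L1 : H62L1 := by
  intro q hq M _ hM haux
  haveI : NeZero q := ⟨hq.ne_zero⟩
  intro A hA 𝔫₁ h𝔫₁ hq𝔫₁
  exact h60r_L1_datum A M hq hM haux hA (h25i_h60RedIso_Mq_fin hq hM hA) 𝔫₁ h𝔫₁ hq𝔫₁

/-- **R-L1** in the vocabulary of `S36/H60L1.lean`, unconditional. -/
theorem h60r_L1_unconditional : H60L1Statement := by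
  refine h60r_L1_statement ?_
  intro q hq M _ hM _
  haveI : NeZero q := ⟨hq.ne_zero⟩
  intro A hA
  exact h25i_h60RedIso_Mq_fin hq hM hA

end Fermat.Agent.S36
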