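import Mathlib

/-!
# S36, block REG, row R-ORD-11 (helper60): separation at a smooth point of `C₀`, abstract part

`Λ₀ → Λ`, `B₀ → B` (charts over `A₀` inside charts over `A`, levels `M` and `M q`),
`α, β : Λ → B`, `P∞, P₀ ⊆ B` the two components, `𝔫 ⊇ P₀`, `𝔫 ⊉ P∞` a smooth point of `C₀`.

`n* = {b | ∃ x ∈ α⁻¹ 𝔫, b - α x ∈ P∞}` is the point of `C∞` over `α⁻¹ 𝔫`.  If the point of
`C₀` over `α⁻¹ 𝔫` is unique, then `P₀ ⊄ n*`; an `ε ∈ P₀ \ n*` separates: for `δ ≡ 1 (q)` the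
coordinate `β u + δ ε` is congruent modulo `P∞` to `α a`, and `α a ∉ 𝔫`.

Pure commutative algebra (Mathlib only).
-/

set_option autoImplicit false

namespace Fermat.Agent.S36

section Abs

variable {Λ₀ Λ B₀ B : Type*} [CommRing Λ₀] [CommRing Λ] [CommRing B₀] [CommRing B]

/-- **separation at a smooth point of `C₀`** (abstract form). -/
theorem h60k_sep_abs (ιΛ : Λ₀ →+* Λ) (ι : B₀ →+* B) (α₀ β₀ : Λ₀ →+* B₀) (α β : Λ →+* B)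
    (hα : ∀ x, ι (α₀ x) = α (ιΛ x)) (hβ : ∀ x, ι (β₀ x) = β (ιΛ x))
    (𝔪Λ : Ideal Λ) (𝔪 Pinf P0 : Ideal B)
    (hmPinf : 𝔪 ≤ Pinf) (hmP0 : 𝔪 ≤ P0)
    (hαm : ∀ x ∈ 𝔪Λ, α x ∈ 𝔪)
    (q : ℕ) (hqpos : 0 < q) (hq𝔪 : (q : B) ∈ 𝔪)
    (hcongr : ∀ x : B, ∃ x₀ : B₀, x - ι x₀ ∈ 𝔪)
    (hcongrΛ : ∀ x : Λ, ∃ x₀ : Λ₀, x - ιΛ x₀ ∈ 𝔪Λ)
    (hsurj : ∀ b : B, ∃ x : Λ, b - α x ∈ Pinf)
    (hker : ∀ x : Λ, α x ∈ Pinf → x ∈ 𝔪Λ)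
    (𝔫 : Ideal B) (h𝔫 : 𝔫.IsPrime)
    (𝔫' : Ideal B₀) (hlift : ∀ x₀ : B₀, x₀ ∈ 𝔫' → ι x₀ ∈ 𝔫)
    (hP0 : P0 ≤ 𝔫) (hPinf : ¬ Pinf ≤ 𝔫)
    (huniq : ∀ 𝔑 : Ideal B, 𝔑.IsMaximal → (∀ x : Λ, α x ∈ 𝔫 → α x ∈ 𝔑) → P0 ≤ 𝔑 → 𝔑 = 𝔫)
    (u₀ : Λ₀) (hu : β (ιΛ u₀) ∈ 𝔫)
    (hfinf : β (ιΛ u₀) - α (ιΛ u₀) ^ q ∈ Pinf)
    (hf0 : α (ιΛ u₀) - β (ιΛ u₀) ^ q ∈ P0) :
    ∃ ε : B₀, ι ε ∈ P0 ∧ ∀ δ : B₀, δ - 1 ∈ Ideal.span {(q : B₀)} →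
      ∃ a : Λ₀, ι (β₀ u₀ + δ * ε - α₀ a) ∈ Pinf ∧ β₀ u₀ + δ * ε - α₀ a ∉ 𝔫' := by
  classical
  -- the ideal `n*`
  have hπα : Function.Surjective ((Ideal.Quotient.mk Pinf).comp α) := by
    intro y
    obtain ⟨b, rfl⟩ := Ideal.Quotient.mk_surjective y
    obtain ⟨x, hx⟩ := hsurj b
    refine ⟨x, ?_⟩
    rw [RingHom.comp_apply]
    exact (Ideal.Quotient.eq.mpr hx).symm
  have hmΛ : 𝔪Λ ≤ 𝔫.comap α := fun x hx => Ideal.mem_comap.mpr (hP0 (hmP0 (hαm x hx)))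
  have hmem : ∀ b : B, b ∈ ((𝔫.comap α).map ((Ideal.Quotient.mk Pinf).comp α)).comap
      (Ideal.Quotient.mk Pinf) ↔ ∃ x : Λ, α x ∈ 𝔫 ∧ b - α x ∈ Pinf := by
    intro b
    rw [Ideal.mem_comap, Ideal.mem_map_iff_of_surjective _ hπα]
    constructor
    · rintro ⟨x, hx, h⟩
      exact ⟨x, Ideal.mem_comap.mp hx, Ideal.Quotient.eq.mp h.symm⟩
    · rintro ⟨x, hx, h⟩
      exact ⟨x, Ideal.mem_comap.mpr hx, (Ideal.Quotient.eq.mpr h).symm⟩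
  set nstar : Ideal B := ((𝔫.comap α).map ((Ideal.Quotient.mk Pinf).comp α)).comap
      (Ideal.Quotient.mk Pinf) with hnstar
  have hPinf_le : Pinf ≤ nstar := fun p hp =>
    (hmem p).mpr ⟨0, by rw [map_zero]; exact 𝔫.zero_mem, by rw [map_zero, sub_zero]; exact hp⟩
  have hne : nstar ≠ ⊤ := by
    intro h
    have h1 : (1 : B) ∈ nstar := by rw [h]; exact Submodule.mem_top
    obtain ⟨x, hx, hx1⟩ := (hmem 1).mp h1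
    have h2 : 1 - x ∈ 𝔪Λ := hker _ (by rw [map_sub, map_one]; exact hx1)
    have h3 : α (1 - x) ∈ 𝔫 := Ideal.mem_comap.mp (hmΛ h2)
    have h4 : (1 : B) ∈ 𝔫 := by
      have h5 := 𝔫.add_mem h3 hx
      rw [map_sub, map_one, sub_add_cancel] at h5
      exact h5
    exact h𝔫.ne_top ((Ideal.eq_top_iff_one _).mpr h4)
  have hnot : ¬ P0 ≤ nstar := by
    intro hle
    obtain ⟨𝔑, h𝔑, hle𝔑⟩ := Ideal.exists_le_maximal nstar hne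
    have h1 : 𝔑 = 𝔫 := huniq 𝔑 h𝔑
      (fun x hx => hle𝔑 ((hmem _).mpr ⟨x, hx, by rw [sub_self]; exact Pinf.zero_mem⟩))
      (hle.trans hle𝔑)
    apply hPinf
    rw [← h1]
    exact hPinf_le.trans hle𝔑
  obtain ⟨e, heP0, hen⟩ := SetLike.not_le_iff_exists.mp hnot
  obtain ⟨ε, hε⟩ := hcongr e
  have hιεP0 : ι ε ∈ P0 := by
    have h1 : ι ε = e - (e - ι ε) := by ring
    rw [h1]
    exact P0.sub_mem heP0 (hmP0 hε)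
  have hιεn : ι ε ∉ nstar := by
    intro h
    apply hen
    have h1 : e = ι ε + (e - ι ε) := by ring
    rw [h1]
    exact nstar.add_mem h (hPinf_le (hmPinf hε))
  refine ⟨ε, hιεP0, fun δ hδ => ?_⟩
  -- `ι δ - 1 ∈ 𝔪`
  have hδm : ι δ - 1 ∈ 𝔪 := by
    obtain ⟨c, hc⟩ := Ideal.mem_span_singleton'.mp hδ
    have h1 : ι δ - 1 = ι c * (q : B) := by
      rw [← map_natCast ι q, ← map_mul, hc, map_sub, map_one]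
    rw [h1]
    exact 𝔪.mul_mem_left _ hq𝔪
  have hδεn : ι (δ * ε) ∉ nstar := by
    intro h
    apply hιεn
    have h1 : ι ε = ι (δ * ε) - (ι δ - 1) * ι ε := by rw [map_mul]; ring
    rw [h1]
    exact nstar.sub_mem h (nstar.mul_mem_right _ (hPinf_le (hmPinf hδm)))
  obtain ⟨x, hx⟩ := hsurj (ι (δ * ε))
  have hx𝔫 : α x ∉ 𝔫 := fun h => hδεn ((hmem _).mpr ⟨x, h, hx⟩)
  obtain ⟨a₀, ha₀⟩ := hcongrΛ x
  have hαa₀ : α (ιΛ a₀) ∉ 𝔫 := by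
    intro h
    apply hx𝔫
    have h1 : α x = α (ιΛ a₀) + α (x - ιΛ a₀) := by rw [map_sub]; ring
    rw [h1]
    exact 𝔫.add_mem h (hP0 (hmP0 (hαm _ ha₀)))
  have hαu𝔫 : α (ιΛ u₀) ∈ 𝔫 := by
    have h1 : α (ιΛ u₀) = (α (ιΛ u₀) - β (ιΛ u₀) ^ q) + β (ιΛ u₀) ^ q := by ring
    rw [h1]
    exact 𝔫.add_mem (hP0 hf0) (𝔫.pow_mem_of_mem hu q hqpos)
  refine ⟨a₀ + u₀ ^ q, ?_, fun h => ?_⟩
  · have h1 : ι (β₀ u₀ + δ * ε - α₀ (a₀ + u₀ ^ q)) =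
        (β (ιΛ u₀) - α (ιΛ u₀) ^ q) + (ι (δ * ε) - α x) + α (x - ιΛ a₀) := by
      simp only [map_sub, map_add, map_pow, hα, hβ]
      ring
    rw [h1]
    exact Pinf.add_mem (Pinf.add_mem hfinf hx) (hmPinf (hαm _ ha₀))
  · have h1 := hlift _ h
    apply hαa₀
    have h2 : α (ιΛ a₀) = β (ιΛ u₀) + ι δ * ι ε - α (ιΛ u₀) ^ q -
        ι (β₀ u₀ + δ * ε - α₀ (a₀ + u₀ ^ q)) := by
      simp only [map_sub, map_add, map_mul, map_pow, hα, hβ]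
      ring
    rw [h2]
    exact 𝔫.sub_mem (𝔫.sub_mem (𝔫.add_mem hu (𝔫.mul_mem_left _ (hP0 hιεP0)))
      (𝔫.pow_mem_of_mem hαu𝔫 q hqpos)) h1

end Abs

end Fermat.Agent.S36
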