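import Fermat.Agent.S36.H50ExcIface2
import Fermat.Agent.S36.H50ExcFin
import Fermat.Agent.S36.H60SepAbs
import Fermat.Agent.S36.H60L1Final
import Fermat.Agent.S36.H40FinNode

/-!
# S36, block REG, row R-ORD-11 (helper60): `H50eSep`, separation at a smooth point of `C₀`

`h60k_sep : H50eSep` (the frozen Prop of `S36/H50ExcIface2.lean`, unconditional).

* `u` : the rational local parameter of `h62x_smooth_zero` at `β⁻¹ (lift 𝔫')`; it is not
  constant (`h60k_not_cst`: a constant local parameter would make `𝔪_A Λ` maximal).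
* `ε`, `a` : from the abstract `h60k_sep_abs` (`S36/H60SepAbs.lean`), with the landed inputs
  `h50e_unique_fin` (uniqueness of the point of `C₀` over `α⁻¹ 𝔫`), `h62d_surj`, `h62d_ker`,
  `h62d_frob`, `h60r_frob0` and R-REDISO at the levels `M` and `M q` (helper25).
-/

set_option autoImplicit false
set_option linter.unusedSectionVars false
set_option linter.style.haveILetI false

open AlgebraicCurve ModularCurve IsLocalRing Polynomial

noncomputable section

namespace Fermat.Agent.S36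

open Fermat.Agent.S37 Fermat.Agent.Red Fermat.Agent.Red.GG Fermat.Agent.Red.GV
  Fermat.Agent.Red.GV.Soft Fermat.Agent.Red.Kron Fermat.Agent.Red.KR Fermat.Agent.Red.ModelO
  Fermat.Agent.LGC Fermat.Agent.S35

variable (A : ValuationSubring Kbar) (M : ℕ) {q : ℕ} [NeZero M] [NeZero q]

/-- **a local parameter (modulo `𝔪_A Λ`) at a closed point of the special fibre of the finite
chart of level `M` is not constant.** -/
theorem h60k_not_cst (hq : q.Prime) (hM : ¬ q ∣ M) (haux : auxLevel q ∣ M)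
    (hA : A.LiesOverPrime q)
    (𝔰 : Ideal (chart M A (jB M))) (h𝔰 : 𝔰.IsMaximal) (hm𝔰 : h62i_mΛ A M ≤ 𝔰)
    (u : chart M A (jB M)) (hLP : h62l_LP (h62i_mΛ A M) 𝔰 u) :
    (u : FF M) ∉ Set.range (cst M) := by
  rintro ⟨c, hc⟩
  have hc' : cst M c = (u : FF M) := hc
  have hcA : c ∈ A := h40x_cst_mem_modelAt A M (jB M)
    (Fermat.Agent.Red.GG.GGC97_transcendental_jB M) c (by rw [hc']; exact u.2)
  have hu : u = algebraMap A (chart M A (jB M)) ⟨c, hcA⟩ := Subtype.ext hc'.symm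
  -- `c` is not a unit of `A`
  have hcm : (⟨c, hcA⟩ : A) ∈ maximalIdeal A := by
    rw [IsLocalRing.mem_maximalIdeal]
    intro h
    have h1 : IsUnit u := by rw [hu]; exact h.map _
    exact h𝔰.ne_top (Ideal.eq_top_of_isUnit_mem _ hLP.1 h1)
  have hum : u ∈ h62i_mΛ A M := by
    rw [hu]
    exact Ideal.mem_map_of_mem _ hcm
  -- `𝔪_A Λ` is prime
  have hded : IsDedekindDomain (chart M A (jB M) ⧸ h62i_mΛ A M) :=
    h13l_hded_fin M A hq hM haux hA
  have hdom : IsDomain (chart M A (jB M) ⧸ h62i_mΛ A M) := hded.toIsDomain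
  have hprime : (h62i_mΛ A M).IsPrime := (Ideal.Quotient.isDomain_iff_prime _).mp hdom
  -- `𝔰 = 𝔪_A Λ`
  have hle : 𝔰 ≤ h62i_mΛ A M := by
    intro y hy
    obtain ⟨s, hs, hsy⟩ := hLP.2 y hy
    have h1 : Ideal.span {u} ⊔ h62i_mΛ A M ≤ h62i_mΛ A M :=
      sup_le ((Ideal.span_singleton_le_iff_mem _).mpr hum) le_rfl
    rcases hprime.mem_or_mem (h1 hsy) with h | h
    · exact absurd (hm𝔰 h) hs
    · exact h
  have heq : h62i_mΛ A M = 𝔰 := le_antisymm hm𝔰 hle
  have hmax : (h62i_mΛ A M).IsMaximal := by rw [heq]; exact h𝔰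
  exact h13l_hnf_fin M A hq hM hA
    ((Ideal.Quotient.maximal_ideal_iff_isField_quotient _).mp hmax)

/-- **separation at a smooth point of `C₀`** (R-ORD-11, leaf `H50eSep`). -/
theorem h60k_sep : H50eSep := by
  intro q hq M _ hM haux
  haveI : NeZero q := ⟨hq.ne_zero⟩
  intro A hA 𝔫' h𝔫' hq𝔫' hP0 hPinf
  have hiso := h25i_h60RedIso_Mq_fin (A := A) (M := M) hq hM hA
  have hisoM := h25i_h60RedIso_M_fin (A := A) (M := M) hq hM hA
  have h𝔫 : (h60rLift (h60rIncl A (M * q) (jSS M q)) (mExt A M q (jSS M q)) 𝔫').IsMaximal :=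
    h60r_lift_isMaximal hiso.1 hiso.2 𝔫' hq𝔫' h𝔫'
  obtain ⟨u, hrat, hLP, -, -⟩ := h62x_smooth_zero A M hq hM haux hA _ h𝔫 hP0 hPinf
  have huR : u ∈ h62i_R A M := (h62i_mem_R A M u).mpr hrat
  have h𝔰max : ((h60rLift (h60rIncl A (M * q) (jSS M q)) (mExt A M q (jSS M q)) 𝔫').comap
      ((h62i_β A M hq hM hA : chart M A (jB M) →ₐ[A] chart (M * q) A (jSS M q)) :
        chart M A (jB M) →+* chart (M * q) A (jSS M q))).IsMaximal :=
    haveI := h𝔫
    h62l_comap_isMaximal _ _ (h62i_P0 A M hq hM hA) hP0 (h60r_surj0 A M hq hM haux hA)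
  have hm𝔰 : h62i_mΛ A M ≤
      (h60rLift (h60rIncl A (M * q) (jSS M q)) (mExt A M q (jSS M q)) 𝔫').comap
        ((h62i_β A M hq hM hA : chart M A (jB M) →ₐ[A] chart (M * q) A (jSS M q)) :
          chart M A (jB M) →+* chart (M * q) A (jSS M q)) := fun x hx =>
    Ideal.mem_comap.mpr (h60r_le_lift _ _ 𝔫' (h62l_map_mem _ (h62i_β A M hq hM hA) hx))
  obtain ⟨ε, hεP0, hsep⟩ := h60k_sep_abs (h60rIncl A M (jB M))
    (h60rIncl A (M * q) (jSS M q)) (h62rAlpha A M (q := q)) (h62rBeta A M hq hM hA)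
    ((h62i_α A M q : chart M A (jB M) →ₐ[A] chart (M * q) A (jSS M q)) :
      chart M A (jB M) →+* chart (M * q) A (jSS M q))
    ((h62i_β A M hq hM hA : chart M A (jB M) →ₐ[A] chart (M * q) A (jSS M q)) :
      chart M A (jB M) →+* chart (M * q) A (jSS M q))
    (fun _ => rfl) (fun _ => rfl)
    (h62i_mΛ A M) (mExt A M q (jSS M q)) (h62i_Pinf A M hq hM hA) (h62i_P0 A M hq hM hA)
    (h62i_m_le_Pinf A M hq hM hA) (h62i_m_le_P0 A M hq hM hA)
    (fun x hx => h62l_map_mem _ (h62i_α A M q) hx)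
    q hq.pos (h60r_q_mem A M hA) hiso.1 hisoM.1
    (h62d_surj A M hq hM haux hA) (h62d_ker A M hq hM hA).1
    (h60rLift (h60rIncl A (M * q) (jSS M q)) (mExt A M q (jSS M q)) 𝔫') h𝔫.isPrime
    𝔫' (fun x hx => h60r_map_mem_lift _ _ 𝔫' hx) hP0 hPinf
    (fun 𝔑 h𝔑 hJ hP => h50e_unique_fin A M hq hM haux hA _ h𝔫 hP0 𝔑 h𝔑 hJ hP)
    (h62rOfRat A M (jB M) u hrat) (Ideal.mem_comap.mp hLP.1)
    (h62d_frob A M hq hM hA u huR) (h60r_frob0 A M hq hM hA u huR)
  exact ⟨h62rOfRat A M (jB M) u hrat, ε, hrat,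
    h60k_not_cst A M hq hM haux hA _ h𝔰max hm𝔰 u hLP, hLP, hεP0, hsep⟩

end Fermat.Agent.S36
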