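import Fermat.Agent.S36.H50ExcFinal
import Fermat.Agent.S36.H60Sep

/-!
# S36, block REG, row R-ORD-11 (helper50): the frozen leaf `H80OrdC11`, unconditional

`h50e_ordC11 : H80OrdC11` — the one-branch datum at the points of `C₁₁` of the finite chart of
level `M q²` over the inertia ring:

  `h60k_sep : H50eSep` (helper60), `h2c_charpoly : H50eCharpoly` (helper2),
  `h27x_shape` (helper27), `h50e_pkg_of` (helper50, with `h50e_unit_fin`),
  `h80g_gen`, `h80t_tower` (helper80, with `h94w_ord11` of helper94), `h60x_ordC11_of_geo`.
-/

set_option autoImplicit false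

namespace Fermat.Agent.S36

/-- **the level-`M q` package, unconditional.** -/
theorem h50e_pkg : H50ePkg := h50e_pkg_of_sep h60k_sep

/-- **R-ORD-11 in geometric form, unconditional.** -/
theorem h50e_kind11Geo : H60Kind11Geo := h50e_kind11Geo_of_sep h60k_sep

/-- **R-ORD-11: the frozen leaf `H80OrdC11`, unconditional.** -/
theorem h50e_ordC11 : H80OrdC11 := h50e_ordC11_of_sep h60k_sep

end Fermat.Agent.S36
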