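import Mathlib
import Fermat.Agent.S36.H62RegIface

/-!
# S36, block REG (helper62): the two abstract criteria for `H62RegAt`

"`𝔫 = I` locally" means: `∀ z ∈ 𝔫, ∃ s ∉ 𝔫, s * z ∈ I`.

* `h62r_regAt_one` (**R-CRIT-1**, one-branch points): `𝔫 = (z, t)` locally and
  `s * z ^ e = c * π` with `s ∉ 𝔫`  ⟹  `H62RegAt 𝔫 π`.
  (`z = π`, `e = 1` at the ordinary points and the cusps of `C₂₀`, `C₀₂`; `e = q - 1` on `C₁₁`.)
* `h62r_regAt_triple` (**R-CRIT-SS**, supersingular points): `𝔫 = (X, Z)` locally and the two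
  Kronecker relations `(Y - X ^ q) (Y ^ q - X) ∈ (q)`, `(Z - Y ^ q) (Z ^ q - Y) ∈ (q)`
  ⟹  `H62RegAt 𝔫 q`, with the three branches `Z - X ^ (q²)`, `X - Z`, `X - Z ^ (q²)`.
* `h62r_triple_cover` : the covering statement alone (every prime containing `q` contains one of
  the three branch functions).

Mathlib + `H62RegIface` only.
-/

set_option autoImplicit false

namespace Fermat.Agent.S36

variable {B : Type*} [CommRing B]

/-- **R-CRIT-1.** -/
theorem h62r_regAt_one [IsNoetherianRing B] (𝔫 : Ideal B) [h𝔫 : 𝔫.IsPrime] (π z t : B)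
    (hz : z ∈ 𝔫) (ht : t ∈ 𝔫)
    (hgen : ∀ w ∈ 𝔫, ∃ s, s ∉ 𝔫 ∧ s * w ∈ Ideal.span {z, t})
    (hram : ∃ (e : ℕ) (s c : B), s ∉ 𝔫 ∧ s * z ^ e = c * π) :
    H62RegAt 𝔫 π := by
  refine h62r_regAt_of_branches 𝔫 π (ι := Unit) (fun _ => z) (fun _ => t) (fun _ => hz)
    (fun _ => ht) (fun _ => hgen) (fun i j hij => absurd (Subsingleton.elim i j) hij) ?_
  intro P hP hπ hle
  obtain ⟨e, s, c, hs, hsz⟩ := hram
  refine ⟨(), ?_⟩
  have h1 : s * z ^ e ∈ P := by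
    rw [hsz]
    exact Ideal.mul_mem_left _ _ hπ
  rcases hP.mem_or_mem h1 with h | h
  · exact absurd (hle h) hs
  · exact hP.mem_of_pow_mem e h

/-- the covering statement at a supersingular point: a prime containing `q` contains one of the
three branch functions. -/
theorem h62r_triple_cover (q : ℕ) (hq : q.Prime) (X Y Z : B)
    (h1 : (Y - X ^ q) * (Y ^ q - X) ∈ Ideal.span {(q : B)})
    (h2 : (Z - Y ^ q) * (Z ^ q - Y) ∈ Ideal.span {(q : B)})
    (P : Ideal B) (hP : P.IsPrime) (hqP : (q : B) ∈ P) :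
    Z - X ^ (q * q) ∈ P ∨ X - Z ∈ P ∨ X - Z ^ (q * q) ∈ P := by
  have hle : Ideal.span {(q : B)} ≤ P := (Ideal.span_singleton_le_iff_mem P).mpr hqP
  rcases hP.mem_or_mem (hle h1) with ha | hb
  · rcases hP.mem_or_mem (hle h2) with hc | hd
    · left
      obtain ⟨d, hd⟩ := sub_dvd_pow_sub_pow Y (X ^ q) q
      have h3 : Z - X ^ (q * q) = (Z - Y ^ q) + (Y - X ^ q) * d := by
        rw [← hd, pow_mul]; ring
      rw [h3]
      exact P.add_mem hc (P.mul_mem_right _ ha)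
    · right; left
      have h3 : X ^ q - Z ^ q ∈ P := by
        have h4 : X ^ q - Z ^ q = -((Z ^ q - Y) + (Y - X ^ q)) := by ring
        rw [h4]
        exact P.neg_mem (P.add_mem hd ha)
      obtain ⟨r, hr⟩ := exists_add_pow_prime_eq hq (X - Z) Z
      have h5 : (X - Z) ^ q = (X ^ q - Z ^ q) - (q : B) * ((X - Z) * Z * r) := by
        have h6 : X - Z + Z = X := by ring
        rw [h6] at hr
        rw [hr]; ring
      have h7 : (X - Z) ^ q ∈ P := by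
        rw [h5]
        exact P.sub_mem h3 (P.mul_mem_right _ hqP)
      exact hP.mem_of_pow_mem q h7
  · rcases hP.mem_or_mem (hle h2) with hc | hd
    · right; left
      have h3 : X - Z = -((Z - Y ^ q) + (Y ^ q - X)) := by ring
      rw [h3]
      exact P.neg_mem (P.add_mem hc hb)
    · right; right
      obtain ⟨d, hd'⟩ := sub_dvd_pow_sub_pow (Z ^ q) Y q
      have h3 : X - Z ^ (q * q) = -((Y ^ q - X) + (Z ^ q - Y) * d) := by
        rw [← hd', pow_mul]; ring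
      rw [h3]
      exact P.neg_mem (P.add_mem hb (P.mul_mem_right _ hd))

/-- `1 - x ^ n ∉ 𝔫` for `x ∈ 𝔫`, `0 < n`. -/
theorem h62r_one_sub_pow_not_mem (𝔫 : Ideal B) [h𝔫 : 𝔫.IsPrime] {x : B} (hx : x ∈ 𝔫) {n : ℕ}
    (hn : 0 < n) : 1 - x ^ n ∉ 𝔫 := by
  intro h
  apply h𝔫.ne_top
  rw [Ideal.eq_top_iff_one]
  have h1 : (1 : B) = (1 - x ^ n) + x ^ n := by ring
  rw [h1]
  exact 𝔫.add_mem h (𝔫.pow_mem_of_mem hx n hn)

/-- **R-CRIT-SS.** -/
theorem h62r_regAt_triple [IsNoetherianRing B] (𝔫 : Ideal B) [h𝔫 : 𝔫.IsPrime]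
    (q : ℕ) (hq : q.Prime) (X Y Z : B) (hX : X ∈ 𝔫) (hZ : Z ∈ 𝔫)
    (hgen : ∀ w ∈ 𝔫, ∃ s, s ∉ 𝔫 ∧ s * w ∈ Ideal.span {X, Z})
    (h1 : (Y - X ^ q) * (Y ^ q - X) ∈ Ideal.span {(q : B)})
    (h2 : (Z - Y ^ q) * (Z ^ q - Y) ∈ Ideal.span {(q : B)}) :
    H62RegAt 𝔫 (q : B) := by
  classical
  have hqq : 0 < q * q := Nat.mul_pos hq.pos hq.pos
  have hqq1 : 0 < q * q - 1 := by
    have := hq.two_le
    have h7 : 2 * 2 ≤ q * q := Nat.mul_le_mul this this
    omega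
  have hq4 : 0 < q * q * (q * q) - 1 := by
    have := hq.two_le
    have h7 : 2 * 2 ≤ q * q := Nat.mul_le_mul this this
    have h8 : 4 * 4 ≤ q * q * (q * q) := Nat.mul_le_mul h7 h7
    omega
  set f0 : B := Z - X ^ (q * q) with hf0
  set f1 : B := X - Z with hf1
  set f2 : B := X - Z ^ (q * q) with hf2
  have hf0𝔫 : f0 ∈ 𝔫 := 𝔫.sub_mem hZ (𝔫.pow_mem_of_mem hX _ hqq)
  have hf1𝔫 : f1 ∈ 𝔫 := 𝔫.sub_mem hX hZ
  have hf2𝔫 : f2 ∈ 𝔫 := 𝔫.sub_mem hX (𝔫.pow_mem_of_mem hZ _ hqq)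
  -- a local generation statement from: `s * X, s * Z ∈ J`, `s ∉ 𝔫`
  have key : ∀ (J : Ideal B) (s : B), s ∉ 𝔫 → s * X ∈ J → s * Z ∈ J →
      ∀ w ∈ 𝔫, ∃ s', s' ∉ 𝔫 ∧ s' * w ∈ J := by
    intro J s hs hsX hsZ w hw
    obtain ⟨s₁, hs₁, hw₁⟩ := hgen w hw
    obtain ⟨a, b, hab⟩ := Ideal.mem_span_pair.mp hw₁
    refine ⟨s * s₁, fun h => (h𝔫.mem_or_mem h).elim hs hs₁, ?_⟩
    have h3 : s * s₁ * w = a * (s * X) + b * (s * Z) := by
      rw [mul_assoc, ← hab]; ring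
    rw [h3]
    exact J.add_mem (J.mul_mem_left _ hsX) (J.mul_mem_left _ hsZ)
  have one_not : (1 : B) ∉ 𝔫 := fun h => h𝔫.ne_top ((Ideal.eq_top_iff_one _).mpr h)
  -- the three pairs
  have p01 : ∀ w ∈ 𝔫, ∃ s, s ∉ 𝔫 ∧ s * w ∈ Ideal.span {f0, f1} := by
    have hsX : (1 - X ^ (q * q - 1)) * X ∈ Ideal.span {f0, f1} := by
      have h3 : (1 - X ^ (q * q - 1)) * X = 1 * f0 + 1 * f1 := by
        have h4 : X ^ (q * q) = X ^ (q * q - 1) * X := by
          rw [← pow_succ, Nat.sub_add_cancel hqq]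
        rw [hf0, hf1, h4]; ring
      rw [h3]
      exact Ideal.mem_span_pair.mpr ⟨1, 1, rfl⟩
    refine key _ (1 - X ^ (q * q - 1)) (h62r_one_sub_pow_not_mem 𝔫 hX hqq1) hsX ?_
    have h3 : (1 - X ^ (q * q - 1)) * Z
        = (1 - X ^ (q * q - 1)) * X - (1 - X ^ (q * q - 1)) * f1 := by
      rw [hf1]; ring
    rw [h3]
    exact Ideal.sub_mem _ hsX (Ideal.mul_mem_left _ _ (Ideal.subset_span (by simp)))
  have p12 : ∀ w ∈ 𝔫, ∃ s, s ∉ 𝔫 ∧ s * w ∈ Ideal.span {f1, f2} := by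
    have hsZ : (1 - Z ^ (q * q - 1)) * Z ∈ Ideal.span {f1, f2} := by
      have h3 : (1 - Z ^ (q * q - 1)) * Z = (-1) * f1 + 1 * f2 := by
        have h4 : Z ^ (q * q) = Z ^ (q * q - 1) * Z := by
          rw [← pow_succ, Nat.sub_add_cancel hqq]
        rw [hf1, hf2, h4]; ring
      rw [h3]
      exact Ideal.mem_span_pair.mpr ⟨-1, 1, rfl⟩
    refine key _ (1 - Z ^ (q * q - 1)) (h62r_one_sub_pow_not_mem 𝔫 hZ hqq1) ?_ hsZ
    have h3 : (1 - Z ^ (q * q - 1)) * X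
        = (1 - Z ^ (q * q - 1)) * Z + (1 - Z ^ (q * q - 1)) * f1 := by
      rw [hf1]; ring
    rw [h3]
    exact Ideal.add_mem _ hsZ (Ideal.mul_mem_left _ _ (Ideal.subset_span (by simp)))
  have p02 : ∀ w ∈ 𝔫, ∃ s, s ∉ 𝔫 ∧ s * w ∈ Ideal.span {f0, f2} := by
    obtain ⟨d, hd⟩ := sub_dvd_pow_sub_pow Z (X ^ (q * q)) (q * q)
    have hsX : (1 - X ^ (q * q * (q * q) - 1)) * X ∈ Ideal.span {f0, f2} := by
      have h3 : (1 - X ^ (q * q * (q * q) - 1)) * X = d * f0 + 1 * f2 := by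
        have h4 : X ^ (q * q * (q * q)) = X ^ (q * q * (q * q) - 1) * X := by
          rw [← pow_succ, Nat.sub_add_cancel (Nat.mul_pos hqq hqq)]
        have h5 : (X ^ (q * q)) ^ (q * q) = X ^ (q * q * (q * q)) := by rw [← pow_mul]
        rw [h5] at hd
        have h6 : d * f0 = Z ^ (q * q) - X ^ (q * q * (q * q)) := by
          rw [hd, hf0]; ring
        rw [h6, hf2, h4]; ring
      rw [h3]
      exact Ideal.mem_span_pair.mpr ⟨d, 1, rfl⟩
    refine key _ (1 - X ^ (q * q * (q * q) - 1))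
      (h62r_one_sub_pow_not_mem 𝔫 hX hq4) hsX ?_
    have h3 : (1 - X ^ (q * q * (q * q) - 1)) * Z
        = (1 - X ^ (q * q * (q * q) - 1)) * f0
          + X ^ (q * q - 1) * ((1 - X ^ (q * q * (q * q) - 1)) * X) := by
      have h4 : X ^ (q * q) = X ^ (q * q - 1) * X := by
        rw [← pow_succ, Nat.sub_add_cancel hqq]
      rw [hf0, h4]; ring
    rw [h3]
    exact Ideal.add_mem _ (Ideal.mul_mem_left _ _ (Ideal.subset_span (by simp)))
      (Ideal.mul_mem_left _ _ hsX)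
  have hswap : ∀ a b : B, Ideal.span ({a, b} : Set B) = Ideal.span {b, a} := by
    intro a b
    rw [Set.pair_comm]
  let f : Fin 3 → B := ![f0, f1, f2]
  let t : Fin 3 → B := ![X, X, Z]
  refine h62r_regAt_of_branches 𝔫 (q : B) f t ?_ ?_ ?_ ?_ ?_
  · intro i
    fin_cases i
    · exact hf0𝔫
    · exact hf1𝔫
    · exact hf2𝔫
  · intro i
    fin_cases i
    · exact hX
    · exact hX
    · exact hZ
  · intro i
    fin_cases i
    · -- `(f0, X)`
      refine key _ 1 one_not ?_ ?_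
      · rw [one_mul]; exact Ideal.subset_span (by simp [t])
      · rw [one_mul]
        have h3 : Z = 1 * f0 + X ^ (q * q - 1) * X := by
          have h4 : X ^ (q * q) = X ^ (q * q - 1) * X := by
            rw [← pow_succ, Nat.sub_add_cancel hqq]
          rw [hf0, h4]; ring
        rw [h3]
        exact Ideal.mem_span_pair.mpr ⟨1, X ^ (q * q - 1), rfl⟩
    · -- `(f1, X)`
      refine key _ 1 one_not ?_ ?_
      · rw [one_mul]; exact Ideal.subset_span (by simp [t])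
      · rw [one_mul]
        have h3 : Z = (-1) * f1 + 1 * X := by rw [hf1]; ring
        rw [h3]
        exact Ideal.mem_span_pair.mpr ⟨-1, 1, rfl⟩
    · -- `(f2, Z)`
      refine key _ 1 one_not ?_ ?_
      · rw [one_mul]
        have h3 : X = 1 * f2 + Z ^ (q * q - 1) * Z := by
          have h4 : Z ^ (q * q) = Z ^ (q * q - 1) * Z := by
            rw [← pow_succ, Nat.sub_add_cancel hqq]
          rw [hf2, h4]; ring
        rw [h3]
        exact Ideal.mem_span_pair.mpr ⟨1, Z ^ (q * q - 1), rfl⟩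
      · rw [one_mul]; exact Ideal.subset_span (by simp [t])
  · intro i j hij
    fin_cases i <;> fin_cases j
    · exact absurd rfl hij
    · exact p01
    · exact p02
    · show ∀ w ∈ 𝔫, ∃ s, s ∉ 𝔫 ∧ s * w ∈ Ideal.span {f1, f0}
      rw [hswap]; exact p01
    · exact absurd rfl hij
    · exact p12
    · show ∀ w ∈ 𝔫, ∃ s, s ∉ 𝔫 ∧ s * w ∈ Ideal.span {f2, f0}
      rw [hswap]; exact p02
    · show ∀ w ∈ 𝔫, ∃ s, s ∉ 𝔫 ∧ s * w ∈ Ideal.span {f2, f1}
      rw [hswap]; exact p12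
    · exact absurd rfl hij
  · intro P hP hqP _
    rcases h62r_triple_cover q hq X Y Z h1 h2 P hP hqP with h | h | h
    · exact ⟨0, h⟩
    · exact ⟨1, h⟩
    · exact ⟨2, h⟩

end Fermat.Agent.S36
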