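import Fermat.Agent.Red.GV.SoftGal
import Fermat.Agent.Red.GV.SoftRat
import Fermat.Agent.Jac.Desc0Core
import Fermat.Agent.S37.Inertia
import Fermat.Agent.S36.H23InertiaDVR

/-!
# S36 (V), part 1: functions fixed by inertia = the function field over the inertia field

`A` a valuation subring of `ℚ̄`, `I = A.inertiaSubgroupIn ℚ`, `K₀ = ℚ̄^I` (`h23u_K0`),
`A₀ = A ∩ K₀` (`h23u_A0`, helper23), `F = FF N ⊆ ℚ̄((q))`.

* `h28v_IFixed A N x` : `x ∈ FF N` is fixed by every inertia element.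
* `h28v_iFixed_iff_coeff` : `x` is fixed iff all its `q`-expansion coefficients lie in `K₀`.
* `h28v_exists_series` : a fixed `x` is the image of an element of the function field
  `FK K₀ N ⊆ K₀((q))` over the inertia field (descent).
* `h28v_F0` : the subfield of fixed functions.
* `h28v_exists_scale` : a nonzero fixed function is `c⁻¹ · a / b` with `c ∈ K₀` and
  `a, b ∈ A((q))` of nonzero reduction (the Gauss norm of a fixed function lies in `|K₀ˣ|`).
* `h28v_exists_zpow` : a nonzero fixed function is `ℓ ^ n` times a unit of the Gauss valuation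
  ring `softV A N` (the Gauss valuation is DISCRETE on the fixed functions, uniformiser `ℓ`).
* `h28v_div_mem_softV` : a fixed function with zero reduction is divisible by `ℓ` in `softV`.
-/

set_option autoImplicit false
set_option linter.unusedSectionVars false
set_option linter.style.haveILetI false

open ModularCurve AlgebraicCurve

noncomputable section

namespace Fermat.Agent.S36.V28

open Fermat.Agent.S05 Fermat.Agent.S37 Fermat.Agent.Red.GV Fermat.Agent.Red.GV.Soft
open Fermat.Agent.S36 (h23u_K0 h23u_A0 h23u_mem_K0_iff h23u_exists_zpow)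

variable (A : ValuationSubring Kbar) (N : ℕ)

/-- the inertia field `K₀ = ℚ̄^{I_A}` (helper23's `h23u_K0`). -/
abbrev h28v_K0 : IntermediateField ℚ Kbar := h23u_K0 A

theorem h28v_mem_K0_iff (c : Kbar) :
    c ∈ h28v_K0 A ↔ ∀ σ ∈ A.inertiaSubgroupIn ℚ, σ c = c :=
  h23u_mem_K0_iff A c

/-- the valuation ring `A₀ = A ∩ K₀` of the inertia field (helper23's `h23u_A0`). -/
abbrev h28v_A0 : ValuationSubring (h28v_K0 A) := h23u_A0 A

theorem h28v_mem_A0_iff (c : h28v_K0 A) : c ∈ h28v_A0 A ↔ (c : Kbar) ∈ A :=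
  Iff.rfl

/-- `x` is fixed by every inertia element. -/
def h28v_IFixed (x : FF N) : Prop :=
  ∀ σ ∈ A.inertiaSubgroupIn ℚ, gal N σ • x = x

theorem h28v_iFixed_iff_coeff (x : FF N) :
    h28v_IFixed A N x ↔ ∀ n : ℤ, (x : LaurentSeries Kbar).coeff n ∈ h28v_K0 A := by
  constructor
  · intro h n
    rw [h28v_mem_K0_iff]
    intro σ hσ
    have h2 := congrArg (fun y : FF N => (y : LaurentSeries Kbar).coeff n) (h σ hσ)
    simp only [coe_gal_smul, coeffMap_coeff] at h2
    exact h2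
  · intro h σ hσ
    apply Subtype.ext
    rw [coe_gal_smul]
    ext n
    rw [coeffMap_coeff]
    exact (h28v_mem_K0_iff A _).mp (h n) σ hσ

/-- the subfield of functions fixed by inertia. -/
def h28v_F0 : Subfield (FF N) where
  carrier := {x | h28v_IFixed A N x}
  mul_mem' := fun {x y} hx hy σ hσ => by
    rw [smul_mul', hx σ hσ, hy σ hσ]
  one_mem' := fun σ _ => smul_one _
  add_mem' := fun {x y} hx hy σ hσ => by
    rw [smul_add, hx σ hσ, hy σ hσ]
  zero_mem' := fun σ _ => smul_zero _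
  neg_mem' := fun {x} hx σ hσ => by
    rw [smul_neg, hx σ hσ]
  inv_mem' := fun x hx σ hσ => by
    rw [smul_inv'', hx σ hσ]

theorem h28v_mem_F0_iff (x : FF N) : x ∈ h28v_F0 A N ↔ h28v_IFixed A N x :=
  Iff.rfl

theorem h28v_cst_mem_F0 (c : Kbar) (hc : c ∈ h28v_K0 A) : cst N c ∈ h28v_F0 A N := by
  intro σ hσ
  rw [Fermat.Agent.S37.GalI.gal_smul_cst, (h28v_mem_K0_iff A c).mp hc σ hσ]

/-- the function field of level `N` over the inertia field, inside `K₀((q))`. -/
abbrev h28v_FK0 : IntermediateField (h28v_K0 A) (LaurentSeries (h28v_K0 A)) :=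
  Asm.FK (h28v_K0 A) N

/-- base change of series from the inertia field to `ℚ̄`. -/
abbrev h28v_bc : LaurentSeries (h28v_K0 A) →+* LaurentSeries Kbar :=
  coeffMap (algebraMap (h28v_K0 A) Kbar)

theorem h28v_bc_coeffEmb (f : LaurentSeries ℚ) :
    h28v_bc A (coeffEmb (h28v_K0 A) f) = coeffEmb Kbar f := by
  rw [h28v_bc, coeffEmb, coeffEmb, coeffMap_coeffMap]
  exact coeffMap_congr (RingHom.ext fun r => rfl) f

/-- the image of the function field over the inertia field lies in `FF N`. -/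
theorem h28v_bc_mem (g : LaurentSeries (h28v_K0 A)) (hg : g ∈ h28v_FK0 A N) :
    h28v_bc A g ∈ modularFunctionFieldBar N := by
  let T : Subfield (LaurentSeries (h28v_K0 A)) :=
    (modularFunctionFieldBar N).toSubfield.comap (h28v_bc A)
  have hle : (h28v_FK0 A N).toSubfield ≤ T := by
    intro y hy
    have hy' : y ∈ laurentBaseChange (h28v_K0 A) (modularFunctionFieldFull N) := hy
    rw [mem_laurentBaseChange_iff] at hy'
    refine Subfield.closure_le.mpr ?_ hy'
    rintro z (⟨c, rfl⟩ | ⟨f, hf, rfl⟩)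
    · show h28v_bc A (algebraMap (h28v_K0 A) (LaurentSeries (h28v_K0 A)) c) ∈
        modularFunctionFieldBar N
      have h1 : h28v_bc A (algebraMap (h28v_K0 A) (LaurentSeries (h28v_K0 A)) c) =
          algebraMap Kbar (LaurentSeries Kbar) (c : Kbar) := by
        rw [algebraMap_laurentSeries_eq_single, algebraMap_laurentSeries_eq_single, h28v_bc,
          coeffMap_single]
        rfl
      rw [h1]
      exact (modularFunctionFieldBar N).algebraMap_mem _
    · show h28v_bc A (coeffEmb (h28v_K0 A) f) ∈ modularFunctionFieldBar N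
      rw [h28v_bc_coeffEmb]
      exact coeffEmb_mem_laurentBaseChange Kbar hf
  exact hle hg

/-- **Descent.**  A function fixed by inertia comes from the function field over the inertia
field. -/
theorem h28v_exists_series (x : FF N) (hx : h28v_IFixed A N x) :
    ∃ g ∈ h28v_FK0 A N, h28v_bc A g = (x : LaurentSeries Kbar) := by
  have hc := (h28v_iFixed_iff_coeff A N x).mp hx
  obtain ⟨ψ, hψ⟩ := LinearMap.exists_leftInverse_of_injective
    (Algebra.linearMap (h28v_K0 A) Kbar)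
    (LinearMap.ker_eq_bot.mpr (algebraMap (h28v_K0 A) Kbar).injective)
  have hψ' : ∀ r : h28v_K0 A, ψ (algebraMap (h28v_K0 A) Kbar r) = r := fun r => by
    have := LinearMap.congr_fun hψ r
    simpa using this
  set g : LaurentSeries (h28v_K0 A) := HahnSeries.map (x : LaurentSeries Kbar) ψ with hg
  have hgx : h28v_bc A g = (x : LaurentSeries Kbar) := by
    ext n
    rw [h28v_bc, coeffMap_coeff, hg, HahnSeries.map_coeff]
    have h1 := hψ' ⟨_, hc n⟩
    have h2 : algebraMap (h28v_K0 A) Kbar ⟨_, hc n⟩ = (x : LaurentSeries Kbar).coeff n := rfl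
    rw [h2] at h1
    rw [h1]
    rfl
  refine ⟨g, ?_, hgx⟩
  refine Fermat.Agent.Jac.h49_mem_of_coeffMap_mem_adjoin (K := h28v_K0 A) (L := Kbar)
    (h28v_FK0 A N) g ?_
  have h3 : coeffMap (algebraMap (h28v_K0 A) Kbar) g = (x : LaurentSeries Kbar) := hgx
  rw [h3]
  have hx2 : (x : LaurentSeries Kbar) ∈ laurentBaseChange Kbar (modularFunctionFieldFull N) :=
    x.2
  have hmono : laurentBaseChange Kbar (modularFunctionFieldFull N) ≤
      IntermediateField.adjoin Kbar
        (⇑(coeffMap (algebraMap (h28v_K0 A) Kbar)) '' ((h28v_FK0 A N : Set _))) := by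
    apply IntermediateField.adjoin.mono
    rintro z ⟨f, hf, rfl⟩
    exact ⟨coeffEmb (h28v_K0 A) f, coeffEmb_mem_laurentBaseChange (h28v_K0 A) hf,
      h28v_bc_coeffEmb A f⟩
  exact hmono hx2

/-- conversely, the image of an element of the function field over the inertia field is
fixed by inertia. -/
theorem h28v_iFixed_of_series (x : FF N) (g : LaurentSeries (h28v_K0 A))
    (hg : h28v_bc A g = (x : LaurentSeries Kbar)) : h28v_IFixed A N x := by
  rw [h28v_iFixed_iff_coeff]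
  intro n
  rw [← hg, h28v_bc, coeffMap_coeff]
  exact (g.coeff n).2

/-! ### Scaling by constants of the inertia field -/

/-- the inclusion `A₀ → A`. -/
def h28v_incl : h28v_A0 A →+* A where
  toFun a := ⟨((a : h28v_K0 A) : Kbar), a.2⟩
  map_one' := rfl
  map_mul' _ _ := rfl
  map_zero' := rfl
  map_add' _ _ := rfl

@[simp]
theorem h28v_coe_incl (a : h28v_A0 A) : ((h28v_incl A a : A) : Kbar) = ((a : h28v_K0 A) : Kbar) :=
  rfl

/-- the residue map of `A₀` with values in the residue field of `A`. -/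
def h28v_res0 : h28v_A0 A →+* IsLocalRing.ResidueField A :=
  (IsLocalRing.residue A).comp (h28v_incl A)

theorem h28v_isAlgebraic_int_K0 :
    @Algebra.IsAlgebraic ℤ (h28v_K0 A) _ _ (Ring.toIntAlgebra _) := by
  refine @Algebra.IsAlgebraic.mk ℤ (h28v_K0 A) _ _ (Ring.toIntAlgebra _) (fun c => ?_)
  have h1 : IsAlgebraic ℤ ((c : h28v_K0 A) : Kbar) :=
    (RO.isAlgebraic_int_Qbar).isAlgebraic _
  obtain ⟨P, hP0, hP⟩ := h1
  refine ⟨P, hP0, ?_⟩
  apply (algebraMap (h28v_K0 A) Kbar).injective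
  rw [map_zero, ← hP, Polynomial.aeval_def, Polynomial.aeval_def, Polynomial.hom_eval₂]
  congr 1

theorem h28v_mem_nonunits_iff_aux {L : Type*} [Field L] (B : ValuationSubring L) (x : L) :
    x ∈ B.nonunits ↔ x = 0 ∨ x⁻¹ ∉ B := by
  rw [ValuationSubring.mem_nonunits_iff]
  by_cases hx : x = 0
  · subst hx
    simp
  · have hpos : 0 < B.valuation x := zero_lt_iff.mpr ((Valuation.ne_zero_iff _).mpr hx)
    rw [← ValuationSubring.valuation_le_one_iff, map_inv₀, not_le, one_lt_inv₀ hpos]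
    simp [hx]

theorem h28v_mem_nonunits_A0_iff (c : h28v_K0 A) :
    c ∈ (h28v_A0 A).nonunits ↔ (c : Kbar) ∈ A.nonunits := by
  rw [h28v_mem_nonunits_iff_aux, h28v_mem_nonunits_iff_aux, h28v_mem_A0_iff]
  simp

variable {ℓ : ℕ}

/-- **Scaling over the inertia field.**  A nonzero function fixed by inertia is
`c⁻¹ · a / b` with `c ∈ K₀` and `a, b ∈ A((q))` of nonzero reduction. -/
theorem h28v_exists_scale (hℓ : ℓ.Prime) (hA : A.LiesOverPrime ℓ) (x : FF N) (hx : x ≠ 0)
    (hfix : h28v_IFixed A N x) :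
    ∃ (c : Kbar) (a b : LaurentSeries A), c ∈ h28v_K0 A ∧ c ≠ 0 ∧
      redA (IsLocalRing.residue A) a ≠ 0 ∧ redA (IsLocalRing.residue A) b ≠ 0 ∧
      embA A a = ((cst N c * x : FF N) : LaurentSeries Kbar) * embA A b := by
  obtain ⟨g, hg, hgx⟩ := h28v_exists_series A N x hfix
  have : Algebra.IsAlgebraic ℚ Kbar := AlgebraicClosure.isAlgebraic ℚ
  have : Algebra.IsAlgebraic ℚ (h28v_K0 A) := IntermediateField.isAlgebraic_tower_bot
  have hA0 : ((ℓ : ℕ) : h28v_K0 A) ∈ (h28v_A0 A).nonunits := by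
    rw [h28v_mem_nonunits_A0_iff]
    exact hA
  obtain ⟨ord, hord⟩ := @RO.exists_isOrd _ _ (h28v_A0 A) _ (h28v_isAlgebraic_int_K0 A) ℓ hℓ hA0
  have hg0 : g ≠ 0 := by
    rintro rfl
    apply hx
    apply Subtype.ext
    rw [← hgx, map_zero]
    rfl
  have hdf : g ∈ dfField (K := h28v_K0 A) :=
    laurentBaseChange_le_dfField (modularFunctionFieldFull N)
      (coeffEmb_mem_dfField_of_mem_full N) hg
  obtain ⟨c, a, b, hc, ha, hb, hab⟩ := exists_scale (h28v_res0 A) hord hℓ hdf hg0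
  have hemb : ∀ y : LaurentSeries (h28v_A0 A),
      embA A (coeffMap (h28v_incl A) y) = h28v_bc A (embA (h28v_A0 A) y) :=
    soft_embA_coeffMap (algebraMap (h28v_K0 A) Kbar) (h28v_incl A) (fun _ => rfl)
  have hred : ∀ y : LaurentSeries (h28v_A0 A),
      redA (IsLocalRing.residue A) (coeffMap (h28v_incl A) y) = redA (h28v_res0 A) y := by
    intro y
    have h1 := soft_redA_coeffMap (π := h28v_res0 A) (π' := IsLocalRing.residue A)
      (h28v_incl A) (RingHom.id _) (fun _ => rfl) y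
    rw [h1, coeffMap_id]
  refine ⟨(c : Kbar), coeffMap (h28v_incl A) a, coeffMap (h28v_incl A) b, c.2, ?_, ?_, ?_, ?_⟩
  · intro h0
    exact hc (Subtype.ext h0)
  · rw [hred]; exact ha
  · rw [hred]; exact hb
  · rw [hemb, hemb, hab, map_mul, map_mul, hgx]
    congr 1
    show _ = ((cst N (c : Kbar) : FF N) : LaurentSeries Kbar) * (x : LaurentSeries Kbar)
    rw [soft_coe_cst]
    congr 1
    rw [h28v_bc]
    exact coeffMap_single _ 0 c

/-- **Discreteness.**  A nonzero function fixed by inertia is `ℓ ^ n` times a unit of the Gauss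
valuation ring. -/
theorem h28v_exists_zpow (hℓ : ℓ.Prime) (hA : A.LiesOverPrime ℓ) (x : FF N) (hx : x ≠ 0)
    (hfix : h28v_IFixed A N x) :
    ∃ n : ℤ, cst N (((ℓ : ℕ) : Kbar) ^ n) * x ∈ softV A N ∧
      (cst N (((ℓ : ℕ) : Kbar) ^ n) * x)⁻¹ ∈ softV A N := by
  obtain ⟨c, a, b, hcK, hc, ha, hb, hab⟩ := h28v_exists_scale A N hℓ hA x hx hfix
  have hw : IsWit A (IsLocalRing.residue A) ((cst N c * x : FF N) : LaurentSeries Kbar) a b :=
    ⟨hb, hab⟩
  have hu : cst N c * x ∈ softV A N := ⟨a, b, hw⟩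
  have hui : (cst N c * x)⁻¹ ∈ softV A N := ⟨b, a, hw.inv ha⟩
  obtain ⟨n, hn1, hn2⟩ := h23u_exists_zpow hℓ A hA hc ((h28v_mem_K0_iff A c).mp hcK)
  have hℓ0 : ((ℓ : ℕ) : Kbar) ≠ 0 := Nat.cast_ne_zero.mpr hℓ.ne_zero
  have hz0 : ((ℓ : ℕ) : Kbar) ^ n ≠ 0 := zpow_ne_zero _ hℓ0
  -- `ℓ ^ n = (c / ℓ ^ n)⁻¹ · c`
  have e : cst N (((ℓ : ℕ) : Kbar) ^ n) * x =
      cst N ((c / ((ℓ : ℕ) : Kbar) ^ n)⁻¹) * (cst N c * x) := by
    rw [← mul_assoc, ← map_mul]
    congr 2
    field_simp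
  refine ⟨n, ?_, ?_⟩
  · rw [e]
    exact mul_mem ((cst_mem_softV_iff A N _).mpr hn2) hu
  · have e' : (cst N (((ℓ : ℕ) : Kbar) ^ n) * x)⁻¹ =
        cst N (c / ((ℓ : ℕ) : Kbar) ^ n) * (cst N c * x)⁻¹ := by
      rw [e, mul_inv, ← map_inv₀ (algebraMap Kbar (FF N)), inv_inv]
    rw [e']
    exact mul_mem ((cst_mem_softV_iff A N _).mpr hn1) hui

/-- **Uniformiser.**  A function fixed by inertia, Gauss-integral and with zero reduction is
divisible by `ℓ` in the Gauss valuation ring. -/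
theorem h28v_div_mem_softV (hℓ : ℓ.Prime) (hA : A.LiesOverPrime ℓ) (x : FF N)
    (hfix : h28v_IFixed A N x) (hx : x ∈ softV A N) (hred : softR A N ⟨x, hx⟩ = 0) :
    cst N (((ℓ : ℕ) : Kbar))⁻¹ * x ∈ softV A N := by
  have hℓ0 : ((ℓ : ℕ) : Kbar) ≠ 0 := Nat.cast_ne_zero.mpr hℓ.ne_zero
  by_cases hx0 : x = 0
  · subst hx0
    rw [mul_zero]
    exact zero_mem _
  obtain ⟨n, hu, hui⟩ := h28v_exists_zpow A N hℓ hA x hx0 hfix
  have hcn0 : cst N (((ℓ : ℕ) : Kbar) ^ n) ≠ 0 := by
    rw [Ne, map_eq_zero_iff _ (algebraMap Kbar (FF N)).injective]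
    exact zpow_ne_zero _ hℓ0
  by_cases hn : n < 0
  · -- `x / ℓ = ℓ ^ (-n - 1) · (ℓ ^ n x)`
    have h1 : cst N (((ℓ : ℕ) : Kbar))⁻¹ * x =
        cst N (((ℓ : ℕ) : Kbar) ^ (-n - 1)) * (cst N (((ℓ : ℕ) : Kbar) ^ n) * x) := by
      rw [← mul_assoc, ← map_mul, ← zpow_add₀ hℓ0]
      have : -n - 1 + n = -1 := by ring
      rw [this, zpow_neg_one]
    rw [h1]
    exact mul_mem ((cst_mem_softV_iff A N _).mpr (natCast_zpow_mem A ℓ (by omega))) hu
  · -- impossible: `x⁻¹ = ℓ ^ n · (ℓ ^ n x)⁻¹` is Gauss-integral, so `x` is a unit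
    exfalso
    have hn0 : 0 ≤ n := by omega
    have hxinv : x⁻¹ = cst N (((ℓ : ℕ) : Kbar) ^ n) * (cst N (((ℓ : ℕ) : Kbar) ^ n) * x)⁻¹ := by
      rw [mul_inv, ← mul_assoc, mul_inv_cancel₀ hcn0, one_mul]
    have hcn : cst N (((ℓ : ℕ) : Kbar) ^ n) ∈ softV A N :=
      (cst_mem_softV_iff A N _).mpr (natCast_zpow_mem A ℓ hn0)
    have hxinvmem : x⁻¹ ∈ softV A N := by
      rw [hxinv]
      exact mul_mem hcn hui
    rcases (softR_eq_zero_iff A N ⟨x, hx⟩).mp hred with h1 | h1
    · exact hx0 h1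
    · exact h1 hxinvmem

end Fermat.Agent.S36.V28
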