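import Fermat.Agent.S36.H20NormSkel
import Fermat.Agent.S36.V28Fix

/-!
# S36, block (V) VERT: frozen interfaces (sub-architect: helper74, prefix `h74w_` / `H74`)

Every declaration is a definition or a frozen interface `Prop`; nothing is assumed.

Setting (as in `H20NormSkel`): `q` prime, `q ∤ M`, `F₂ = FF (M q q)`, `A` a valuation subring of
`ℚ̄` over `q`, `I = I_A`, `F₀ = F₂^I` (`V28.h28v_F0 A (M q q)`, helper28), and the three kinds of
`q`-expansion embeddings of helper20: `E20 = coe`, `E11^ζ` (`h20n_IsE11`), `E02` (`h20n_IsE02`).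

The three vertical valuation rings are the pull-backs of the Gauss ring `softOT A`:

* `W20 = softV A (M q q)`;  `W11 = {x | E11^ζ x ∈ softOT A}`;  `W02 = {x | E02 x ∈ softOT A}`.

On `F₀` they are DISCRETE: uniformiser `q` for `W20`, `W02` and `z = j(t^(q²)) - j(t)` for `W11`,
with `q = unit · z^(q-1)` (`e = q - 1`), because the coefficients of `E11^ζ x`, `x ∈ F₀`, lie in
`K₀(ζ)`, whose value group is generated by `v(1 - ζ) = v(q) / (q - 1)`.

* `H74K1`, `H74Zeta` : the value group of `K₀(ζ_q)`.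
* `H74Disc02`, `H74Disc11`, `H74Unif11`, `H74ZUnit` : discreteness on `F₀` and the uniformiser.
* `H74MidAll` : on `F₀` all `E11^ζ` define the same valuation ring.
* `H74AbsVal` : (Mathlib only) a subring with a "uniformiser" is the valuation ring of a
  `ℤᵐ⁰`-valued valuation.
* `H74Val` : the packaged valuations `Wv : Fin 3 → Valuation F₀ ℤᵐ⁰` (the data of the gate).
* `H74Int` : COMPLETENESS in integrality form: a function which is Gauss-integral at `W20`, at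
  all `W11^ζ` and at `W02` is integral over the Gauss ring `softV A M` of the good level `M`
  (so there is no further vertical valuation; this gives `hQEP` of the charts).
-/

set_option autoImplicit false

open AlgebraicCurve ModularCurve WithZero

noncomputable section

namespace Fermat.Agent.S36

open Fermat.Agent.S37 (Kbar GQ FF cst gal jB)
open Fermat.Agent.Red.GV.Soft (softOT softV)
open Fermat.Agent.S36.V28 (h28v_F0 h28v_IFixed)

/-! ## Definitions -/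

/-- `x` is Gauss-integral at the embedding `E`. -/
def h74w_Int (A : ValuationSubring Kbar) {N : ℕ} (E : FF N →+* LaurentSeries Kbar)
    (x : FF N) : Prop :=
  E x ∈ softOT A (IsLocalRing.residue A)

/-- `x` is a Gauss unit at the embedding `E`. -/
def h74w_Unit (A : ValuationSubring Kbar) {N : ℕ} (E : FF N →+* LaurentSeries Kbar)
    (x : FF N) : Prop :=
  h74w_Int A E x ∧ h74w_Int A E x⁻¹

/-- the function `z = j(t^(q²)) - j(t)` of level `M q q` (the uniformiser of `W11`). -/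
def h74w_z (M q : ℕ) [NeZero M] [NeZero q] : FF (M * q * q) :=
  heckeBetaBar Kbar (M * q) q (heckeBetaBar Kbar M q (jB M)) -
    heckeAlphaBar Kbar (M * q) q (heckeAlphaBar Kbar M q (jB M))

/-- the inclusion `α ∘ α : FF M → FF (M q q)`. -/
def h74w_aa (M q : ℕ) [NeZero M] [NeZero q] : FF M →+* FF (M * q * q) :=
  (heckeAlphaBar Kbar (M * q) q : FF (M * q) →+* FF (M * q * q)).comp
    (heckeAlphaBar Kbar M q : FF M →+* FF (M * q))

/-! ## Frozen interfaces -/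

/-- **V-K1.**  The value group of `A` on `K₀(ζ_q)` is generated by the value of `1 - ζ`. -/
def H74K1 : Prop :=
  ∀ (q : ℕ), q.Prime → ∀ A : ValuationSubring Kbar, A.LiesOverPrime q →
    ∀ ζ : Kbar, IsPrimitiveRoot ζ q → ∀ x : Kbar, x ≠ 0 →
      (∀ σ ∈ A.inertiaSubgroupIn ℚ, σ ζ = ζ → σ x = x) →
      ∃ n : ℤ, x * (1 - ζ) ^ n ∈ A ∧ (x * (1 - ζ) ^ n)⁻¹ ∈ A

/-- **V-ZETA.**  `q = unit · (1 - ζ)^(q-1)`. -/
def H74Zeta : Prop :=
  ∀ (q : ℕ), q.Prime → ∀ A : ValuationSubring Kbar, A.LiesOverPrime q →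
    ∀ ζ : Kbar, IsPrimitiveRoot ζ q →
      (q : Kbar) * ((1 - ζ) ^ (q - 1))⁻¹ ∈ A ∧ ((q : Kbar) * ((1 - ζ) ^ (q - 1))⁻¹)⁻¹ ∈ A

/-- **V-DISC02.**  On `F₀` the valuation `W02` is discrete with uniformiser `q`. -/
def H74Disc02 : Prop :=
  ∀ (q : ℕ) (hq : q.Prime) (M : ℕ) [NeZero M] (hqM : ¬ q ∣ M),
    haveI : NeZero q := ⟨hq.ne_zero⟩
    ∀ A : ValuationSubring Kbar, A.LiesOverPrime q →
    ∀ E0 : FF (M * q * q) →+* LaurentSeries Kbar, h20n_IsE02 M q hq hqM E0 →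
    ∀ x : FF (M * q * q), x ≠ 0 → h28v_IFixed A (M * q * q) x →
      ∃ n : ℤ, h74w_Unit A E0 (cst (M * q * q) ((q : Kbar) ^ n) * x)

/-- **V-UNIF11.**  `z / (1 - ζ)` is a Gauss unit at `E11^ζ`. -/
def H74Unif11 : Prop :=
  ∀ (q : ℕ) (hq : q.Prime) (M : ℕ) [NeZero M] (hqM : ¬ q ∣ M),
    haveI : NeZero q := ⟨hq.ne_zero⟩
    ∀ A : ValuationSubring Kbar, A.LiesOverPrime q →
    ∀ ζ : Kbar, IsPrimitiveRoot ζ q →
    ∀ E : FF (M * q * q) →+* LaurentSeries Kbar, h20n_IsE11 M q hq hqM ζ E →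
      h74w_Unit A E (cst (M * q * q) (1 - ζ)⁻¹ * h74w_z M q)

/-- **V-ZUNIT.**  `z` is a Gauss unit at `E20` and at `E02`. -/
def H74ZUnit : Prop :=
  ∀ (q : ℕ) (hq : q.Prime) (M : ℕ) [NeZero M] (hqM : ¬ q ∣ M),
    haveI : NeZero q := ⟨hq.ne_zero⟩
    ∀ A : ValuationSubring Kbar, A.LiesOverPrime q →
      h74w_Unit A (h20n_E20 M q) (h74w_z M q) ∧
      ∀ E0 : FF (M * q * q) →+* LaurentSeries Kbar, h20n_IsE02 M q hq hqM E0 →
        h74w_Unit A E0 (h74w_z M q)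

/-- **V-DISC11.**  On `F₀` the valuation `W11` is discrete with uniformiser `z`. -/
def H74Disc11 : Prop :=
  ∀ (q : ℕ) (hq : q.Prime) (M : ℕ) [NeZero M] (hqM : ¬ q ∣ M),
    haveI : NeZero q := ⟨hq.ne_zero⟩
    ∀ A : ValuationSubring Kbar, A.LiesOverPrime q →
    ∀ ζ : Kbar, IsPrimitiveRoot ζ q →
    ∀ E : FF (M * q * q) →+* LaurentSeries Kbar, h20n_IsE11 M q hq hqM ζ E →
    ∀ x : FF (M * q * q), x ≠ 0 → h28v_IFixed A (M * q * q) x →
      ∃ n : ℤ, h74w_Unit A E (h74w_z M q ^ n * x)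

/-- **V-MIDALL.**  On `F₀` all the `E11^ζ` define the same valuation ring. -/
def H74MidAll : Prop :=
  ∀ (q : ℕ) (hq : q.Prime) (M : ℕ) [NeZero M] (hqM : ¬ q ∣ M),
    haveI : NeZero q := ⟨hq.ne_zero⟩
    ∀ A : ValuationSubring Kbar, A.LiesOverPrime q →
    ∀ (ζ ζ' : Kbar), IsPrimitiveRoot ζ q → IsPrimitiveRoot ζ' q →
    ∀ E E' : FF (M * q * q) →+* LaurentSeries Kbar,
      h20n_IsE11 M q hq hqM ζ E → h20n_IsE11 M q hq hqM ζ' E' →
    ∀ x : FF (M * q * q), h28v_IFixed A (M * q * q) x → h74w_Int A E x → h74w_Int A E' x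

/-- **V-ABS-VAL** (Mathlib only).  A subring `W` of a field with a "uniformiser" `z` is the
valuation ring of a `ℤᵐ⁰`-valued valuation `v` with `v z = exp (-1)`. -/
def H74AbsVal : Prop :=
  ∀ (F : Type) [Field F] (W : Subring F) (z : F), z ∈ W → z⁻¹ ∉ W →
    (∀ x : F, x ≠ 0 → ∃ n : ℤ, z ^ n * x ∈ W ∧ (z ^ n * x)⁻¹ ∈ W) →
    ∃ v : Valuation F ℤᵐ⁰, (∀ x : F, v x ≤ 1 ↔ x ∈ W) ∧ v z = exp (-1 : ℤ)

/-- **V-VAL (output of block (V)).**  The three vertical valuations of `F₀ = FF(M q q)^I`: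
`Wv 0 = W20`, `Wv 1 = W11`, `Wv 2 = W02`, with values in `ℤᵐ⁰`; `q` has value `exp (-1)`,
`exp (-(q-1))`, `exp (-1)`; `z` is a uniformiser of `W11` and a unit at `W20`, `W02`; `W20` and
`W02` are separated. -/
def H74Val : Prop :=
  ∀ (q : ℕ) (hq : q.Prime) (M : ℕ) [NeZero M] (hqM : ¬ q ∣ M),
    haveI : NeZero q := ⟨hq.ne_zero⟩
    ∀ A : ValuationSubring Kbar, A.LiesOverPrime q →
    ∀ ζ : Kbar, IsPrimitiveRoot ζ q →
    ∀ E : FF (M * q * q) →+* LaurentSeries Kbar, h20n_IsE11 M q hq hqM ζ E →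
    ∀ E0 : FF (M * q * q) →+* LaurentSeries Kbar, h20n_IsE02 M q hq hqM E0 →
    ∃ Wv : Fin 3 → Valuation (h28v_F0 A (M * q * q)) ℤᵐ⁰,
      (∀ x : h28v_F0 A (M * q * q), Wv 0 x ≤ 1 ↔ (x : FF (M * q * q)) ∈ softV A (M * q * q)) ∧
      (∀ x : h28v_F0 A (M * q * q), Wv 1 x ≤ 1 ↔ h74w_Int A E (x : FF (M * q * q))) ∧
      (∀ x : h28v_F0 A (M * q * q), Wv 2 x ≤ 1 ↔ h74w_Int A E0 (x : FF (M * q * q))) ∧
      Wv 0 (q : h28v_F0 A (M * q * q)) = exp (-1 : ℤ) ∧
      Wv 1 (q : h28v_F0 A (M * q * q)) = exp (-((q : ℤ) - 1)) ∧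
      Wv 2 (q : h28v_F0 A (M * q * q)) = exp (-1 : ℤ) ∧
      (∀ z0 : h28v_F0 A (M * q * q), (z0 : FF (M * q * q)) = h74w_z M q →
        Wv 0 z0 = 1 ∧ Wv 1 z0 = exp (-1 : ℤ) ∧ Wv 2 z0 = 1) ∧
      (∃ y : h28v_F0 A (M * q * q), Wv 0 y < 1 ∧ Wv 2 y = 1) ∧
      (∃ y : h28v_F0 A (M * q * q), Wv 2 y < 1 ∧ Wv 0 y = 1)

/-- **V-INT (completeness).**  A function of level `M q q` which is Gauss-integral at `W20`, at
every `W11^ζ` and at `W02` is integral over the Gauss ring `softV A M` of the level `M` (along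
`α ∘ α`); the equation can be taken with inertia-fixed coefficients if the function is fixed by
inertia. -/
def H74Int : Prop :=
  ∀ (q : ℕ) (hq : q.Prime) (M : ℕ) [NeZero M] (hqM : ¬ q ∣ M),
    haveI : NeZero q := ⟨hq.ne_zero⟩
    ∀ A : ValuationSubring Kbar, A.LiesOverPrime q →
    ∀ x : FF (M * q * q), x ∈ softV A (M * q * q) →
      (∀ (ζ : Kbar) (E : FF (M * q * q) →+* LaurentSeries Kbar), IsPrimitiveRoot ζ q →
        h20n_IsE11 M q hq hqM ζ E → h74w_Int A E x) →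
      (∀ E0 : FF (M * q * q) →+* LaurentSeries Kbar, h20n_IsE02 M q hq hqM E0 →
        h74w_Int A E0 x) →
      ∃ p : Polynomial (FF M), p.Monic ∧ (∀ i : ℕ, p.coeff i ∈ softV A M) ∧
        Polynomial.eval₂ (h74w_aa M q) x p = 0 ∧
        (h28v_IFixed A (M * q * q) x → ∀ i : ℕ, h28v_IFixed A M (p.coeff i))

/-- **V-ASM.**  Assembly of the packaged valuations from the leaves (`W20` is landed:
`V28.h28v_exists_zpow`). -/
def H74ValAssembly : Prop :=
  H74AbsVal → H20EmbDF → H74Zeta → H74Disc02 → H74Disc11 → H74Unif11 → H74ZUnit → H74Val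

end Fermat.Agent.S36
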