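import Fermat.Agent.S36.H20VertSkel
import Fermat.Agent.S36.H74VIface
import Fermat.Agent.S36.H62RegCrit

/-!
# S36, block REG, row R-CUSP (helper18): frozen leaves of the cusp case

Target `H18cCusp`: at every closed point `𝔫` of the special fibre of the chart at infinity
`B₀ = h62rChart A (M q²) (1/j)` over the inertia ring with `1/j ∈ 𝔫` (a cusp), the one-branch
datum of `h62r_regAt_one`: `z, t ∈ 𝔫`, `𝔫 = (z, t)` locally at `𝔫`, `s · z ^ e = c · q`, `s ∉ 𝔫`.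
Every declaration is a definition or a frozen interface `Prop`; nothing is assumed.

Language: the three embeddings `E20`, `E11 = E11^ζ`, `E02` of `FF (M q q)` (helper20), the Gauss
ring `G = h20v_G A`; `h18c_Small A s`: `s` is in the maximal ideal of `G`.  The three components
through the cusps: `C₂₀` (`e = 1`, uniformiser `q`, `B₀ = αα (Λ₀) + 𝔪(W₂₀)`), `C₁₁` (`e = q - 1`,
`B₀ = αα (Λ₀) + 𝔪(W₁₁)`), `C₀₂` (`e = 1`, `B₀ = ββ (Λ₀) + 𝔪(W₀₂)`), `Λ₀ = h62rChart A M (1/j)` the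
chart at infinity of the good level `M`.

## Leaves (all TRUE; proofs sketched in the finding `R-CUSP plan`)

* `H18cInt`   : `B₀` is Gauss-integral at the three embeddings.
* `H18cPart`  : partition of unity at the cusps: `u₂₀, u₁₁, u₀₂ ∈ B₀`, `u_i` small at the two
  other embeddings, and at every cusp one of them is a unit.
  (`u₂₀ = σ (y₂^q - t₁^(q²-1))`, `u₁₁ = σ (1 - y₂)(y₁^q - t₀^(q²-1))`, `u₀₂ = 1 - y₁`,
  `y₁ = j₁/j₀^q = α y`, `y₂ = j₂/j₁^q = β y`, `t_i = 1/j_i`, `σ = s(t₀)^E`, `s(0) = 1`, a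
  denominator: `β (chart) ⊆ B₀[1/s(t₀)]`; `y`, `t`, `U` = `h21c_y`, `h21c_t`, `h21c_U` of the
  level `M q`.)
* `H18cRes20/11/02` : residue degree one, localised form: for `x, u ∈ B₀`, `u` small at the two
  other embeddings, `u x ≡ αα l` (resp. `ββ l`) modulo `𝔪(W)` with `l ∈ Λ₀`.
  (`l = ± Tr_{αα} (u x)`; at `E11`: the `q - 1` conjugates `E11^{ζ^b} (u x)` are congruent.)
* `H18cUnit11` : the certificate of regularity at the middle cusps: `S · S' = q · p` in `B₀`,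
  `S ^ (q-1) / q` a Gauss unit at `E11`, `p` a unit at every cusp.
  (`S = σ z₂ + (1 - y₁)²`, `z₂ = (t₀ - t₂) t₀^(q-1) / t₁`, `σ` a denominator as above;
  `q p = Nm (S)` to the level `1`, `p = P (1/j)`, `P (0) = ± 1`: the `q² + q` conjugate
  expansions of `S` have constant terms `1` (`E20`), `ζ^(-b) - 1` (`E11^(ζ^b)`), `1` (`E02`).)
* `H18cLPM`   : the cusps of the good level `M` over the inertia ring have a local parameter.
* `H18cBeta`  : `ββ (Λ₀) ⊆ B₀[1/s]`, `s` a unit at every cusp; `1/j₂` lies in every cusp;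
  `αα (Λ₀) ⊆ B₀`.
* (others') `H74Val` (helper74), `H20VComplete` (helper20), landed `h27v_qep_q_inf` (helper27).
-/

set_option autoImplicit false
set_option linter.unusedVariables false

open AlgebraicCurve ModularCurve WithZero

noncomputable section

namespace Fermat.Agent.S36

open Fermat.Agent.S37 (Kbar GQ FF cst gal jB auxLevel)

/-! ## Definitions -/

/-- `s` lies in the maximal ideal of the Gauss ring. -/
def h18c_Small (A : ValuationSubring Kbar) (s : LaurentSeries Kbar) : Prop :=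
  s ∈ h20v_G A ∧ (s = 0 ∨ s⁻¹ ∉ h20v_G A)

/-- `𝔫` is a cusp of the special fibre of the chart at infinity of level `N` over the inertia
ring: a maximal ideal containing `q` and `1/j`. -/
def h18c_IsCusp (A : ValuationSubring Kbar) (N : ℕ) [NeZero N] (q : ℕ)
    (𝔫 : Ideal (h62rChart A N (jB N)⁻¹)) : Prop :=
  𝔫.IsMaximal ∧ (q : h62rChart A N (jB N)⁻¹) ∈ 𝔫 ∧
    ∀ b : h62rChart A N (jB N)⁻¹, (b : FF N) = (jB N)⁻¹ → b ∈ 𝔫

section Level

variable (M q : ℕ) [NeZero M] [NeZero q]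

/-- `α ∘ α : FF M → FF (M q q)`. -/
def h18c_aa : FF M →+* FF (M * q * q) :=
  (heckeAlphaBar Kbar (M * q) q : FF (M * q) →+* FF (M * q * q)).comp
    (heckeAlphaBar Kbar M q : FF M →+* FF (M * q))

/-- `β ∘ β : FF M → FF (M q q)`. -/
def h18c_bb : FF M →+* FF (M * q * q) :=
  (heckeBetaBar Kbar (M * q) q : FF (M * q) →+* FF (M * q * q)).comp
    (heckeBetaBar Kbar M q : FF M →+* FF (M * q))

end Level

/-! ## The target -/

/-- **R-CUSP (output).**  The one-branch datum at every cusp of the chart at infinity of the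
level `M q²` over the inertia ring. -/
def H18cCusp : Prop :=
  ∀ (q : ℕ) (hq : q.Prime) (M : ℕ) [NeZero M], ¬ q ∣ M → auxLevel q ∣ M →
    haveI : NeZero q := ⟨hq.ne_zero⟩
    ∀ A : ValuationSubring Kbar, A.LiesOverPrime q →
    ∀ 𝔫 : Ideal (h62rChart A (M * q * q) (jB (M * q * q))⁻¹),
      h18c_IsCusp A (M * q * q) q 𝔫 →
      ∃ z t : h62rChart A (M * q * q) (jB (M * q * q))⁻¹, z ∈ 𝔫 ∧ t ∈ 𝔫 ∧
        (∀ w ∈ 𝔫, ∃ s, s ∉ 𝔫 ∧ s * w ∈ Ideal.span {z, t}) ∧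
        ∃ (e : ℕ) (s c : h62rChart A (M * q * q) (jB (M * q * q))⁻¹),
          s ∉ 𝔫 ∧ s * z ^ e = c * (q : h62rChart A (M * q * q) (jB (M * q * q))⁻¹)

/-! ## The leaves -/

/-- **CUSP-INT.**  The chart at infinity is Gauss-integral at the three embeddings. -/
def H18cInt : Prop :=
  ∀ (q : ℕ) (hq : q.Prime) (M : ℕ) [NeZero M] (hqM : ¬ q ∣ M), auxLevel q ∣ M →
    haveI : NeZero q := ⟨hq.ne_zero⟩
    ∀ A : ValuationSubring Kbar, A.LiesOverPrime q →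
    ∀ (ζ : Kbar) (E11 E02 : FF (M * q * q) →+* LaurentSeries Kbar),
      h20v_Triple M q hq hqM ζ E11 E02 →
      ∀ x : FF (M * q * q), x ∈ h62rChart A (M * q * q) (jB (M * q * q))⁻¹ →
        h20v_Int M q A E11 E02 x

/-- **CUSP-PART.**  Partition of unity at the cusps. -/
def H18cPart : Prop :=
  ∀ (q : ℕ) (hq : q.Prime) (M : ℕ) [NeZero M] (hqM : ¬ q ∣ M), auxLevel q ∣ M →
    haveI : NeZero q := ⟨hq.ne_zero⟩
    ∀ A : ValuationSubring Kbar, A.LiesOverPrime q →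
    ∀ (ζ : Kbar) (E11 E02 : FF (M * q * q) →+* LaurentSeries Kbar),
      h20v_Triple M q hq hqM ζ E11 E02 →
      ∃ u₂₀ u₁₁ u₀₂ : h62rChart A (M * q * q) (jB (M * q * q))⁻¹,
        h18c_Small A (E11 (u₂₀ : FF (M * q * q))) ∧ h18c_Small A (E02 (u₂₀ : FF (M * q * q))) ∧
        h18c_Small A (h20n_E20 M q (u₁₁ : FF (M * q * q))) ∧
        h18c_Small A (E02 (u₁₁ : FF (M * q * q))) ∧
        h18c_Small A (h20n_E20 M q (u₀₂ : FF (M * q * q))) ∧
        h18c_Small A (E11 (u₀₂ : FF (M * q * q))) ∧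
        ∀ 𝔫 : Ideal (h62rChart A (M * q * q) (jB (M * q * q))⁻¹),
          h18c_IsCusp A (M * q * q) q 𝔫 → u₂₀ ∉ 𝔫 ∨ u₁₁ ∉ 𝔫 ∨ u₀₂ ∉ 𝔫

/-- **CUSP-RES20.**  `B₀ = αα (Λ₀) + 𝔪(W₂₀)`, localised form. -/
def H18cRes20 : Prop :=
  ∀ (q : ℕ) (hq : q.Prime) (M : ℕ) [NeZero M] (hqM : ¬ q ∣ M), auxLevel q ∣ M →
    haveI : NeZero q := ⟨hq.ne_zero⟩
    ∀ A : ValuationSubring Kbar, A.LiesOverPrime q →
    ∀ (ζ : Kbar) (E11 E02 : FF (M * q * q) →+* LaurentSeries Kbar),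
      h20v_Triple M q hq hqM ζ E11 E02 →
      ∀ x u : FF (M * q * q), x ∈ h62rChart A (M * q * q) (jB (M * q * q))⁻¹ →
        u ∈ h62rChart A (M * q * q) (jB (M * q * q))⁻¹ →
        h18c_Small A (E11 u) → h18c_Small A (E02 u) →
        ∃ l : FF M, l ∈ h62rChart A M (jB M)⁻¹ ∧
          h18c_Small A (h20n_E20 M q (u * x - h18c_aa M q l))

/-- **CUSP-RES11.**  `B₀ = αα (Λ₀) + 𝔪(W₁₁)`, localised form. -/
def H18cRes11 : Prop :=
  ∀ (q : ℕ) (hq : q.Prime) (M : ℕ) [NeZero M] (hqM : ¬ q ∣ M), auxLevel q ∣ M →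
    haveI : NeZero q := ⟨hq.ne_zero⟩
    ∀ A : ValuationSubring Kbar, A.LiesOverPrime q →
    ∀ (ζ : Kbar) (E11 E02 : FF (M * q * q) →+* LaurentSeries Kbar),
      h20v_Triple M q hq hqM ζ E11 E02 →
      ∀ x u : FF (M * q * q), x ∈ h62rChart A (M * q * q) (jB (M * q * q))⁻¹ →
        u ∈ h62rChart A (M * q * q) (jB (M * q * q))⁻¹ →
        h18c_Small A (h20n_E20 M q u) → h18c_Small A (E02 u) →
        ∃ l : FF M, l ∈ h62rChart A M (jB M)⁻¹ ∧
          h18c_Small A (E11 (u * x - h18c_aa M q l))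

/-- **CUSP-RES02.**  `B₀ = ββ (Λ₀) + 𝔪(W₀₂)`, localised form. -/
def H18cRes02 : Prop :=
  ∀ (q : ℕ) (hq : q.Prime) (M : ℕ) [NeZero M] (hqM : ¬ q ∣ M), auxLevel q ∣ M →
    haveI : NeZero q := ⟨hq.ne_zero⟩
    ∀ A : ValuationSubring Kbar, A.LiesOverPrime q →
    ∀ (ζ : Kbar) (E11 E02 : FF (M * q * q) →+* LaurentSeries Kbar),
      h20v_Triple M q hq hqM ζ E11 E02 →
      ∀ x u : FF (M * q * q), x ∈ h62rChart A (M * q * q) (jB (M * q * q))⁻¹ →
        u ∈ h62rChart A (M * q * q) (jB (M * q * q))⁻¹ →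
        h18c_Small A (h20n_E20 M q u) → h18c_Small A (E11 u) →
        ∃ l : FF M, l ∈ h62rChart A M (jB M)⁻¹ ∧
          h18c_Small A (E02 (u * x - h18c_bb M q l))

/-- **CUSP-UNIT11.**  The certificate of regularity at the middle cusps. -/
def H18cUnit11 : Prop :=
  ∀ (q : ℕ) (hq : q.Prime) (M : ℕ) [NeZero M] (hqM : ¬ q ∣ M), auxLevel q ∣ M →
    haveI : NeZero q := ⟨hq.ne_zero⟩
    ∀ A : ValuationSubring Kbar, A.LiesOverPrime q →
    ∀ (ζ : Kbar) (E11 E02 : FF (M * q * q) →+* LaurentSeries Kbar),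
      h20v_Triple M q hq hqM ζ E11 E02 →
      ∃ S S' p : h62rChart A (M * q * q) (jB (M * q * q))⁻¹,
        S * S' = (q : h62rChart A (M * q * q) (jB (M * q * q))⁻¹) * p ∧
        h20v_Unit A (E11 ((S : FF (M * q * q)) ^ (q - 1) * ((q : ℕ) : FF (M * q * q))⁻¹)) ∧
        ∀ 𝔫 : Ideal (h62rChart A (M * q * q) (jB (M * q * q))⁻¹),
          h18c_IsCusp A (M * q * q) q 𝔫 → p ∉ 𝔫

/-- **CUSP-LPM.**  The cusps of the chart at infinity of the good level `M` over the inertia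
ring have a local parameter. -/
def H18cLPM : Prop :=
  ∀ (q : ℕ) (hq : q.Prime) (M : ℕ) [NeZero M], ¬ q ∣ M → auxLevel q ∣ M →
    ∀ A : ValuationSubring Kbar, A.LiesOverPrime q →
    ∀ 𝔰 : Ideal (h62rChart A M (jB M)⁻¹), 𝔰.IsPrime →
      (q : h62rChart A M (jB M)⁻¹) ∈ 𝔰 →
      (∀ b : h62rChart A M (jB M)⁻¹, (b : FF M) = (jB M)⁻¹ → b ∈ 𝔰) →
      ∃ t₁ ∈ 𝔰, ∀ y ∈ 𝔰, ∃ σ, σ ∉ 𝔰 ∧
        σ * y ∈ Ideal.span {t₁, (q : h62rChart A M (jB M)⁻¹)}

/-- **CUSP-BETA.**  `αα (Λ₀) ⊆ B₀`; `ββ (Λ₀) ⊆ B₀[1/s]` with `s` a unit at every cusp; `1/j₂`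
lies in every cusp (localised: `1/j₂` need not be in `B₀`). -/
def H18cBeta : Prop :=
  ∀ (q : ℕ) (hq : q.Prime) (M : ℕ) [NeZero M], ¬ q ∣ M → auxLevel q ∣ M →
    haveI : NeZero q := ⟨hq.ne_zero⟩
    ∀ A : ValuationSubring Kbar, A.LiesOverPrime q →
    (∀ l : FF M, l ∈ h62rChart A M (jB M)⁻¹ →
      h18c_aa M q l ∈ h62rChart A (M * q * q) (jB (M * q * q))⁻¹) ∧
    (∀ l : FF M, l ∈ h62rChart A M (jB M)⁻¹ →
      ∃ s : h62rChart A (M * q * q) (jB (M * q * q))⁻¹,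
        (s : FF (M * q * q)) * h18c_bb M q l ∈ h62rChart A (M * q * q) (jB (M * q * q))⁻¹ ∧
        ∀ 𝔫 : Ideal (h62rChart A (M * q * q) (jB (M * q * q))⁻¹),
          h18c_IsCusp A (M * q * q) q 𝔫 → s ∉ 𝔫) ∧
    (∃ s b : h62rChart A (M * q * q) (jB (M * q * q))⁻¹,
      (b : FF (M * q * q)) = (s : FF (M * q * q)) * h18c_bb M q (jB M)⁻¹ ∧
      ∀ 𝔫 : Ideal (h62rChart A (M * q * q) (jB (M * q * q))⁻¹),
        h18c_IsCusp A (M * q * q) q 𝔫 → s ∉ 𝔫 ∧ b ∈ 𝔫)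

/-- **CUSP-ASM.**  The cusp case of REG from the leaves. -/
def H18cCuspAssembly : Prop :=
  H20EmbExists → H74Val → H20VComplete → H18cInt → H18cPart → H18cRes20 → H18cRes11 →
    H18cRes02 → H18cUnit11 → H18cLPM → H18cBeta → H18cCusp

end Fermat.Agent.S36
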