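import Fermat.Agent.S35.H71Norm
import Fermat.Agent.S35.HK.H41PushCommAll
import Fermat.Agent.Red.HKComm.Deg

/-!
# S36, block (N) NORMS (helper71): the norm along `β` when `q ∣ M`

For a prime `q` **dividing** `M` the extension `F_{Mq} / β(F_M)` (`β : f(t) ↦ f(t^q)`) has
degree `q`, and the `q` conjugates of `x ∈ F_{Mq}` are the translates `x(ζ^b t)`, `b < q`
(`ζ` a primitive `q`-th root of unity).  Hence

* `h71m_finrank_beta`     : `[F_{Mq} : β(F_M)] = q`;
* `h71m_norm_beta_series` : `Nm_β(x)(t^q) = ∏_{b < q} x(ζ^b t)` for every `x ∈ F_{Mq}`;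
* `h71m_norm_beta_red_pow`, `h71m_norm_beta_red` : for `A` over `q` and `x` Gauss-integral
  (`x ∈ softV A (M q)`), `Nm_β x` is Gauss-integral of level `M` and
  `red (Nm_β x) = φ (red x)`, `φ` the coefficientwise Frobenius
  (in the language of the level-`q²` fibre: `r'_∞ (Nm_β u) = F (r_{20} u)`);
* `h71m_norm_beta_mem_softV`, `h71m_norm_beta_unit` : integrality / units.

No valuation theory beyond the landed Gauss ring `softV` is used.
-/

set_option autoImplicit false
set_option linter.style.haveILetI false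
set_option linter.unusedSectionVars false

open AlgebraicCurve ModularCurve IsLocalRing Polynomial

noncomputable section

namespace Fermat.Agent.S36

section Series

open Fermat.Agent.S24 Fermat.Agent.Red.Kron Fermat.Agent.Red.TRK Fermat.Agent.LGC
  Fermat.Agent.Red.HKComm

variable (M q : ℕ) [NeZero M] [NeZero q]

/-- **degree along `β` at `q ∣ M`.** -/
theorem h71m_finrank_beta (hq : q.Prime) (hqM : q ∣ M) :
    letI := algebraAlong (heckeBetaBar Kbar M q)
    Module.finrank (FF M) (FF (M * q)) = q := by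
  have h := Fermat.Agent.S35.h41g_deg (N := M) (L := M * q) q hq (dvd_refl _)
  rw [hkdeg_psi_mul_prime M q (Nat.pos_of_ne_zero (NeZero.ne M)) hq, if_pos hqM, mul_comm] at h
  have hM : dedekindPsi M ≠ 0 := hksq_dedekindPsi_ne_zero M (NeZero.ne M)
  have h2 := Nat.eq_of_mul_eq_mul_left (Nat.pos_of_ne_zero hM) h
  rw [← heckeBetaBar_eq_degenE] at h2
  exact h2

/-- the embedding `x ↦ x(ω t)` of `F_{Mq}` into `ℚ̄((t))`. -/
def h71mTw (ω : Kbar) (hω : ω ≠ 0) : FF (M * q) →+* LaurentSeries Kbar :=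
  (twistHom ω hω).comp (algebraMap (FF (M * q)) (LaurentSeries Kbar))

theorem h71mTw_apply (ω : Kbar) (hω : ω ≠ 0) (x : FF (M * q)) :
    h71mTw M q ω hω x = twistK ω (x : LaurentSeries Kbar) := rfl

/-- the common restriction `z ↦ z(t^q)`. -/
def h71mIota : FF M →+* LaurentSeries Kbar :=
  (qExpand Kbar q).comp (algebraMap (FF M) (LaurentSeries Kbar))

theorem h71mIota_apply (z : FF M) :
    h71mIota M q z = qExpand Kbar q (z : LaurentSeries Kbar) := rfl

theorem h71mTw_beta (ω : Kbar) (hω : ω ≠ 0) (hωq : ω ^ q = 1) (z : FF M) :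
    h71mTw M q ω hω (heckeBetaBar Kbar M q z) = h71mIota M q z := by
  rw [h71mTw_apply, coe_heckeBetaBar, h71mIota_apply, twistK_qExpand q hωq]

theorem h71m_coeff_jBar_neg_one (N : ℕ) [NeZero N] :
    ((jBar N : FF N) : LaurentSeries Kbar).coeff (-1) = 1 := by
  have h := coeff_embC_jBar_neg_one (N := N)
  rw [coeffMap_coeff] at h
  have h1 : embC (((jBar N : FF N) : LaurentSeries Kbar).coeff (-1)) = embC 1 := by
    rw [h, map_one]
  exact embC.injective h1

theorem h71mTw_injective (ζ : Kbar) (hζ : IsPrimitiveRoot ζ q) :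
    Function.Injective (fun b : Fin q =>
      h71mTw M q (ζ ^ (b : ℕ)) (pow_ne_zero _ (hζ.ne_zero (NeZero.ne q)))) := by
  intro a b hab
  have h1 := congrArg (fun e : FF (M * q) →+* LaurentSeries Kbar =>
    (e (jBar (M * q))).coeff (-1)) hab
  simp only [h71mTw_apply, coeff_twistK, h71m_coeff_jBar_neg_one, one_mul, zpow_neg_one] at h1
  have h2 : ζ ^ (a : ℕ) = ζ ^ (b : ℕ) := inv_injective h1
  exact Fin.ext (hζ.pow_inj a.2 b.2 h2)

/-- **the norm along `β` of a general `x ∈ F_{Mq}`, `q ∣ M`**: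
`Nm_β(x)(t^q) = ∏_{b < q} x(ζ^b t)`. -/
theorem h71m_norm_beta_series (hq : q.Prime) (hqM : q ∣ M) (ζ : Kbar)
    (hζ : IsPrimitiveRoot ζ q) (x : FF (M * q)) :
    letI := algebraAlong (heckeBetaBar Kbar M q)
    qExpand Kbar q ((Algebra.norm (FF M) x : FF M) : LaurentSeries Kbar) =
      ∏ b ∈ Finset.range q, twistK (ζ ^ b) (x : LaurentSeries Kbar) := by
  letI := algebraAlong (heckeBetaBar Kbar M q)
  haveI : FiniteDimensional (FF M) (FF (M * q)) :=
    Fermat.Agent.Red.HKMod.finiteAlong_heckeBetaBar M q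
  haveI : Algebra.IsSeparable (FF M) (FF (M * q)) := inferInstance
  have hroot : ∀ b : ℕ, (ζ ^ b) ^ q = 1 := by
    intro b
    rw [← pow_mul, mul_comm, pow_mul, hζ.pow_eq_one, one_pow]
  have key := norm_eq_prod_of_embeddings (K := FF M) (L := FF (M * q)) (h71mIota M q)
    (fun b : Fin q => h71mTw M q (ζ ^ (b : ℕ)) (pow_ne_zero _ (hζ.ne_zero (NeZero.ne q))))
    (h71mTw_injective M q ζ hζ)
    (fun b z => h71mTw_beta M q _ _ (hroot b) z)
    (by rw [Fintype.card_fin]; exact (h71m_finrank_beta M q hq hqM).symm) x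
  rw [h71mIota_apply] at key
  rw [key]
  simp only [h71mTw_apply]
  exact Fin.prod_univ_eq_prod_range
    (fun b : ℕ => twistK (ζ ^ b) (x : LaurentSeries Kbar)) q

end Series

section Soft

open Fermat.Agent.S37 Fermat.Agent.Red Fermat.Agent.Red.GV
  Fermat.Agent.Red.GV.Soft Fermat.Agent.Red.TRK Fermat.Agent.Red.Kron Fermat.Agent.LGC

variable (A : ValuationSubring Kbar) (M q : ℕ) [NeZero M] [NeZero q]

/-- **NORM along `β`, `q ∣ M`, power form.**  For `x ∈ W_∞` (Gauss ring of level `M q`),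
`Nm_β(x)` is Gauss-integral of level `M` and `\overline{Nm_β x}(t^q) = x̄ ^ q`. -/
theorem h71m_norm_beta_red_pow (hq : q.Prime) (hqM : q ∣ M) (hA : A.LiesOverPrime q)
    (x : FF (M * q)) (hx : x ∈ softV A (M * q)) :
    letI := algebraAlong (heckeBetaBar Kbar M q)
    ∃ hn : Algebra.norm (FF M) x ∈ softV A M,
      qExpand (ResidueField A) q (softR A M ⟨_, hn⟩) = (softR A (M * q) ⟨x, hx⟩) ^ q := by
  letI := algebraAlong (heckeBetaBar Kbar M q)
  haveI : NeZero ((q : ℕ) : Kbar) := ⟨by exact_mod_cast NeZero.ne q⟩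
  obtain ⟨ζ, hζ⟩ := HasEnoughRootsOfUnity.exists_primitiveRoot Kbar q
  have hser := h71m_norm_beta_series M q hq hqM ζ hζ x
  obtain ⟨n, hn_def⟩ : ∃ n : FF M, n = Algebra.norm (FF M) x := ⟨_, rfl⟩
  rw [← hn_def] at hser
  have hroot : ∀ b : ℕ, (ζ ^ b) ^ q = 1 := by
    intro b
    rw [← pow_mul, mul_comm, pow_mul, hζ.pow_eq_one, one_pow]
  have hT : ∀ b : ℕ, ∃ h : twistK (ζ ^ b) (x : LaurentSeries Kbar) ∈ softOT A (residue A),
      softRedT A (residue A) ⟨_, h⟩ = softR A (M * q) ⟨x, hx⟩ := by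
    intro b
    exact h55k_twist_root A hq hA (hroot b) (softIncl A (M * q) ⟨x, hx⟩)
  choose hTm hTr using hT
  obtain ⟨Q, hQ⟩ : ∃ Q : softOT A (residue A),
      Q = ∏ b ∈ Finset.range q, ⟨_, hTm b⟩ := ⟨_, rfl⟩
  have hQcoe : (Q : LaurentSeries Kbar) = qExpand Kbar q ((n : FF M) : LaurentSeries Kbar) := by
    rw [hser, hQ, ← Subring.coe_subtype, map_prod]
    rfl
  have hQred : softRedT A (residue A) Q = (softR A (M * q) ⟨x, hx⟩) ^ q := by
    rw [hQ, map_prod, Finset.prod_congr rfl (fun b _ => hTr b), Finset.prod_const,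
      Finset.card_range]
  have hβn : heckeBetaBar Kbar M q n ∈ softV A (M * q) := by
    rw [mem_softV_iff, coe_heckeBetaBar, ← hQcoe]
    exact Q.2
  have hn : n ∈ softV A M := (beta_mem_softV_iff A hq hA q n).mp hβn
  have hn' : Algebra.norm (FF M) x ∈ softV A M := by rw [← hn_def]; exact hn
  refine ⟨hn', ?_⟩
  have e1 : (⟨_, hn'⟩ : softV A M) = ⟨n, hn⟩ := Subtype.ext hn_def.symm
  rw [e1, ← softR_beta A q ⟨n, hn⟩ hβn, ← hQred]
  show softRedT A _ (softIncl A (M * q) ⟨heckeBetaBar Kbar M q n, hβn⟩) = softRedT A _ Q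
  congr 1
  apply Subtype.ext
  rw [coe_softIncl, hQcoe, coe_heckeBetaBar]

/-- **NORM along `β`, `q ∣ M`.**  For `x ∈ W_∞` (Gauss ring of level `M q`):
`red (Nm_β x) = φ (red x)`, `φ` the coefficientwise Frobenius. -/
theorem h71m_norm_beta_red (hq : q.Prime) (hqM : q ∣ M) (hA : A.LiesOverPrime q)
    [ExpChar (ResidueField A) q]
    (x : FF (M * q)) (hx : x ∈ softV A (M * q)) :
    letI := algebraAlong (heckeBetaBar Kbar M q)
    ∃ hn : Algebra.norm (FF M) x ∈ softV A M,
      softR A M ⟨_, hn⟩ = coeffMap (frobenius (ResidueField A) q) (softR A (M * q) ⟨x, hx⟩) := by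
  letI := algebraAlong (heckeBetaBar Kbar M q)
  obtain ⟨hn, h⟩ := h71m_norm_beta_red_pow A M q hq hqM hA x hx
  refine ⟨hn, ?_⟩
  apply qExpand_injective (R := ResidueField A) q
  rw [h, ← Fermat.Agent.Red.ESTF.h76_pow_char_eq_qExpand q]

/-- the norm along `β` of a constant multiple: `Nm_β(c x) = c^q Nm_β(x)` (`q ∣ M`). -/
theorem h71m_norm_beta_cst_mul (hq : q.Prime) (hqM : q ∣ M) (c : Kbar) (x : FF (M * q)) :
    letI := algebraAlong (heckeBetaBar Kbar M q)
    Algebra.norm (FF M) (cst (M * q) c * x) = cst M (c ^ q) * Algebra.norm (FF M) x := by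
  letI := algebraAlong (heckeBetaBar Kbar M q)
  haveI : FiniteDimensional (FF M) (FF (M * q)) :=
    Fermat.Agent.Red.HKMod.finiteAlong_heckeBetaBar M q
  haveI : Module.Free (FF M) (FF (M * q)) := Module.Free.of_divisionRing (FF M) (FF (M * q))
  have h1 : cst (M * q) c = algebraMap (FF M) (FF (M * q)) (cst M c) :=
    ((heckeBetaBar Kbar M q).commutes c).symm
  rw [map_mul, h1, Algebra.norm_algebraMap, h71m_finrank_beta M q hq hqM, ← map_pow]

/-- **NORM along `β`, `q ∣ M`, scaled form.**  If `c · x ∈ W_∞` then `c^q · Nm_β(x)` is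
Gauss-integral of level `M` and `red (c^q Nm_β x) = φ (red (c x))`. -/
theorem h71m_norm_beta_red_scaled (hq : q.Prime) (hqM : q ∣ M) (hA : A.LiesOverPrime q)
    [ExpChar (ResidueField A) q]
    (x : FF (M * q)) (c : Kbar) (hx : cst (M * q) c * x ∈ softV A (M * q)) :
    letI := algebraAlong (heckeBetaBar Kbar M q)
    ∃ hn : cst M (c ^ q) * Algebra.norm (FF M) x ∈ softV A M,
      softR A M ⟨_, hn⟩ =
        coeffMap (frobenius (ResidueField A) q) (softR A (M * q) ⟨_, hx⟩) := by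
  letI := algebraAlong (heckeBetaBar Kbar M q)
  obtain ⟨hn, h⟩ := h71m_norm_beta_red A M q hq hqM hA (cst (M * q) c * x) hx
  have e := h71m_norm_beta_cst_mul M q hq hqM c x
  have hn' : cst M (c ^ q) * Algebra.norm (FF M) x ∈ softV A M := by rw [← e]; exact hn
  refine ⟨hn', ?_⟩
  have e1 : (⟨_, hn'⟩ : softV A M) = ⟨_, hn⟩ := Subtype.ext e.symm
  rw [e1]
  exact h

/-- **units.**  If `x` is a unit of the Gauss ring of level `M q` (`q ∣ M`), then `Nm_β x` is a
unit of the Gauss ring of level `M`. -/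
theorem h71m_norm_beta_unit (hq : q.Prime) (hqM : q ∣ M) (hA : A.LiesOverPrime q)
    (x : FF (M * q)) (hx0 : x ≠ 0) (hx : x ∈ softV A (M * q))
    (hx' : x⁻¹ ∈ softV A (M * q)) :
    letI := algebraAlong (heckeBetaBar Kbar M q)
    Algebra.norm (FF M) x ∈ softV A M ∧ (Algebra.norm (FF M) x)⁻¹ ∈ softV A M := by
  letI := algebraAlong (heckeBetaBar Kbar M q)
  obtain ⟨h1, -⟩ := h71m_norm_beta_red_pow A M q hq hqM hA x hx
  obtain ⟨h2, -⟩ := h71m_norm_beta_red_pow A M q hq hqM hA x⁻¹ hx'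
  refine ⟨h1, ?_⟩
  have h3 : Algebra.norm (FF M) x * Algebra.norm (FF M) x⁻¹ = 1 := by
    rw [← map_mul, mul_inv_cancel₀ hx0, map_one]
  rw [← eq_inv_of_mul_eq_one_right h3]
  exact h2

end Soft

end Fermat.Agent.S36
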