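import Fermat.Agent.S36.H20NormSkel
import Fermat.Agent.S36.H71NormBeta
import Fermat.Agent.Red.HKComm.Deg
import Fermat.Agent.Red.Kron.NormAbs

/-!
# S36, block (N) NORMS, leaf N-NORM-D (helper93): `H20NormD`

For a prime `q ∤ M`, `F₁ = FF (M q)`, `F₂ = FF (M q q)`, `α : F₁ → F₂` (`x ↦ x(t)`), `w` the
Fricke involution of `F₁` and `E0` the embedding of `F₂` at the cusp `0`
(`E0 (α x) = (w x)(t^q)`, `E0 (β x) = (w x)(t)`):

  `(w (Nm_α u))(t^q) = ∏_{b < q} (E0 u)(ζ^b t)`.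

Proof: `[F₂ : α F₁] = q` (`h93n_finrank_alpha`, from the degree formula `deg` and
`ψ(N q) = q ψ(N)` for `q ∣ N`), and the `q` ring homomorphisms `u ↦ (E0 u)(ζ^b t)`, `b < q`,
are pairwise distinct (look at the coefficient of `t⁻¹` of `E (β (w j))`) and all restrict to
`x ↦ (w x)(t^q)` along `α`.  So the norm is the product over these embeddings
(`norm_eq_prod_of_embeddings`).
-/

set_option autoImplicit false
set_option linter.style.haveILetI false
set_option linter.unusedSectionVars false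

open AlgebraicCurve ModularCurve

noncomputable section

namespace Fermat.Agent.S36

open Fermat.Agent.S24 Fermat.Agent.Red.Kron Fermat.Agent.Red.TRK Fermat.Agent.LGC
  Fermat.Agent.Red.HKComm
open Fermat.Agent.Red.KR (normAlong)

/-- **degree along `α` at `q ∣ N`**: `[F_{Nq} : α(F_N)] = q`. -/
theorem h93n_finrank_alpha (N q : ℕ) [NeZero N] [NeZero q] (hq : q.Prime) (hqN : q ∣ N) :
    letI := algebraAlong (heckeAlphaBar Kbar N q)
    Module.finrank (FF N) (FF (N * q)) = q := by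
  have hdvd : N * 1 ∣ N * q := by rw [mul_one]; exact dvd_mul_right N q
  have h := Fermat.Agent.Red.HKComm.deg N (N * q) hdvd
  rw [hkdeg_psi_mul_prime N q (Nat.pos_of_ne_zero (NeZero.ne N)) hq, if_pos hqN, mul_comm] at h
  have hN : dedekindPsi N ≠ 0 := hksq_dedekindPsi_ne_zero N (NeZero.ne N)
  have h2 := Nat.eq_of_mul_eq_mul_left (Nat.pos_of_ne_zero hN) h
  rw [← heckeAlphaBar_eq_degenE] at h2
  exact h2

section Level

variable (M q : ℕ) [NeZero M] [NeZero q]

/-- the common restriction along `α`: `x ↦ (w x)(t^q)`. -/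
def h93nIota (hq : q.Prime) (hqM : ¬ q ∣ M) : FF (M * q) →+* LaurentSeries Kbar :=
  ((qExpand Kbar q : LaurentSeries Kbar →+* LaurentSeries Kbar).comp
    (algebraMap (FF (M * q)) (LaurentSeries Kbar))).comp
      ((kFricke M q hq hqM : FF (M * q) ≃ₐ[Kbar] FF (M * q)) : FF (M * q) →+* FF (M * q))

theorem h93nIota_apply (hq : q.Prime) (hqM : ¬ q ∣ M) (x : FF (M * q)) :
    h93nIota M q hq hqM x =
      qExpand Kbar q ((kFricke M q hq hqM x : FF (M * q)) : LaurentSeries Kbar) := rfl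

/-- the twisted embeddings `u ↦ (E0 u)(ω t)`. -/
def h93nTw (E0 : FF (M * q * q) →+* LaurentSeries Kbar) (ω : Kbar) (hω : ω ≠ 0) :
    FF (M * q * q) →+* LaurentSeries Kbar :=
  (twistHom ω hω).comp E0

theorem h93nTw_apply (E0 : FF (M * q * q) →+* LaurentSeries Kbar) (ω : Kbar) (hω : ω ≠ 0)
    (u : FF (M * q * q)) : h93nTw M q E0 ω hω u = twistK ω (E0 u) := rfl

theorem h93nTw_alpha (hq : q.Prime) (hqM : ¬ q ∣ M)
    (E0 : FF (M * q * q) →+* LaurentSeries Kbar) (hE0 : h20n_IsE02 M q hq hqM E0)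
    (ω : Kbar) (hω : ω ≠ 0) (hωq : ω ^ q = 1) (x : FF (M * q)) :
    h93nTw M q E0 ω hω (heckeAlphaBar Kbar (M * q) q x) = h93nIota M q hq hqM x := by
  rw [h93nTw_apply, hE0.1 x, h93nIota_apply, twistK_qExpand q hωq]

theorem h93nTw_injective (hq : q.Prime) (hqM : ¬ q ∣ M)
    (E0 : FF (M * q * q) →+* LaurentSeries Kbar) (hE0 : h20n_IsE02 M q hq hqM E0)
    (ζ : Kbar) (hζ : IsPrimitiveRoot ζ q) :
    Function.Injective (fun b : Fin q =>
      h93nTw M q E0 (ζ ^ (b : ℕ)) (pow_ne_zero _ (hζ.ne_zero (NeZero.ne q)))) := by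
  intro a b hab
  have h1 := congrArg (fun e : FF (M * q * q) →+* LaurentSeries Kbar =>
    (e (heckeBetaBar Kbar (M * q) q (kFricke M q hq hqM (jBar (M * q))))).coeff (-1)) hab
  simp only [h93nTw_apply, hE0.2, kFricke_kFricke, coeff_twistK, h71m_coeff_jBar_neg_one,
    one_mul, zpow_neg_one] at h1
  have h2 : ζ ^ (a : ℕ) = ζ ^ (b : ℕ) := inv_injective h1
  exact Fin.ext (hζ.pow_inj a.2 b.2 h2)

end Level

/-- **N-NORM (d).**  `(w (Nm_α u))(t^q) = ∏_{b < q} (E02 u)(ζ^b t)`. -/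
theorem h93n_normD : H20NormD := by
  intro q hq M _ hqM
  haveI : NeZero q := ⟨hq.ne_zero⟩
  intro ζ hζ E0 hE0 u
  letI := algebraAlong (heckeAlphaBar Kbar (M * q) q)
  haveI : FiniteDimensional (FF (M * q)) (FF (M * q * q)) :=
    Fermat.Agent.Red.HKMod.finiteAlong_heckeAlphaBar (M * q) q
  haveI : Algebra.IsSeparable (FF (M * q)) (FF (M * q * q)) := inferInstance
  have hroot : ∀ b : ℕ, (ζ ^ b) ^ q = 1 := by
    intro b
    rw [← pow_mul, mul_comm, pow_mul, hζ.pow_eq_one, one_pow]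
  have key := norm_eq_prod_of_embeddings (K := FF (M * q)) (L := FF (M * q * q))
    (h93nIota M q hq hqM)
    (fun b : Fin q => h93nTw M q E0 (ζ ^ (b : ℕ)) (pow_ne_zero _ (hζ.ne_zero (NeZero.ne q))))
    (h93nTw_injective M q hq hqM E0 hE0 ζ hζ)
    (fun b z => h93nTw_alpha M q hq hqM E0 hE0 _ _ (hroot b) z)
    (by rw [Fintype.card_fin]
        exact (h93n_finrank_alpha (M * q) q hq (dvd_mul_left q M)).symm) u
  rw [h93nIota_apply] at key
  have hnorm : (normAlong (heckeAlphaBar Kbar (M * q) q) u : FF (M * q)) =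
      Algebra.norm (FF (M * q)) u := rfl
  rw [hnorm, key]
  simp only [h93nTw_apply]
  exact Fin.prod_univ_eq_prod_range (fun b : ℕ => twistK (ζ ^ b) (E0 u)) q

end Fermat.Agent.S36
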