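import Fermat.Agent.S36.H20Gauss
import Fermat.Agent.S36.H40NormA
import Fermat.Agent.S36.H93NormD
import Fermat.Agent.S35.H71Norm

/-!
# S36, REG, row R-CUSP-UNIT11 (helper20, third seat): the total norm `F_{Mq²} → F_M`

`q` prime, `q ∤ M`, `α₁ : F_M → F_{Mq}`, `α₂ : F_{Mq} → F_{Mq²}` the degeneracy maps
(`x ↦ x(t)`), `ξ` a primitive `q²`-th root of unity, `ζ = ξ^q`, `E_b = E11^{ζ^b}` (`0 < b < q`),
`E0 = E02`.

* `h20u_norm_total` : composing the landed norm formulas `h40na_normA`, `h93n_normD` (along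
  `α₂`) and `h71n_norm_series` (along `α₁`):
  `Nm_{α₁} (Nm_{α₂} u) (t^{q²}) = (u · ∏_{0<b<q} E_b u)(t^{q²}) · ∏_{b,c<q} (E0 u)(ξ^b ζ^c t)`.
* `h20u_iota A : A⟦t⟧ → ℚ̄((t))`, the integral power series; `h20u_UPS A s`: `s` is a unit of
  `A⟦t⟧` (integral power series with unit constant term); closed under products, twists by
  elements of `A`, `t ↦ t^e` and its inverse (`h20u_ups_of_qExpand`).
* `h20u_norm_gauss` : if `E20 u`, `E02 u` are units of `A⟦t⟧` and `E_b u = (1 - ζ^b) · unit`, then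
  `Nm u = q · unit` (as series).
-/

set_option autoImplicit false
set_option linter.style.haveILetI false
set_option linter.unusedSectionVars false
set_option linter.unusedVariables false

open AlgebraicCurve ModularCurve

noncomputable section

namespace Fermat.Agent.S36

open Fermat.Agent.S37 (Kbar GQ FF cst gal)
open Fermat.Agent.Red.KR (normAlong)
open Fermat.Agent.Red.Kron (kFricke twistK twistK_twistK twistK_mul twistK_one coeff_twistK)

/-! ## Series lemmas -/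

/-- `(s(ω^e t))(t^e) = (s(t^e))(ω t)`. -/
theorem h20u_qExpand_twistK (e : ℕ) [NeZero e] (ω : Kbar) (s : LaurentSeries Kbar) :
    qExpand Kbar e (twistK (ω ^ e) s) = twistK ω (qExpand Kbar e s) := by
  ext n
  rw [coeff_twistK]
  by_cases hn : (e : ℤ) ∣ n
  · obtain ⟨k, rfl⟩ := hn
    rw [qExpand_coeff_mul, qExpand_coeff_mul, coeff_twistK, zpow_mul, zpow_natCast]
  · rw [qExpand_coeff_of_not_dvd e _ hn, qExpand_coeff_of_not_dvd e _ hn, zero_mul]

theorem h20u_twistK_prod {ι : Type*} (ω : Kbar) (hω : ω ≠ 0) (s : Finset ι)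
    (f : ι → LaurentSeries Kbar) :
    twistK ω (∏ i ∈ s, f i) = ∏ i ∈ s, twistK ω (f i) :=
  map_prod (Fermat.Agent.Red.Kron.twistHom ω hω) f s

/-! ## The total norm formula -/

/-- **the total norm `F_{Mq²} → F_M` as a product over the `q² + q` conjugate expansions.** -/
theorem h20u_norm_total (q : ℕ) (hq : q.Prime) (M : ℕ) [NeZero M] (hqM : ¬ q ∣ M)
    (ξ : Kbar) (hξ : IsPrimitiveRoot ξ (q * q))
    (E0 : haveI : NeZero q := ⟨hq.ne_zero⟩; FF (M * q * q) →+* LaurentSeries Kbar)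
    (hE0 : haveI : NeZero q := ⟨hq.ne_zero⟩; h20n_IsE02 M q hq hqM E0)
    (E : haveI : NeZero q := ⟨hq.ne_zero⟩; ℕ → (FF (M * q * q) →+* LaurentSeries Kbar))
    (hE : haveI : NeZero q := ⟨hq.ne_zero⟩;
      ∀ b : ℕ, 0 < b → b < q → h20n_IsE11 M q hq hqM ((ξ ^ q) ^ b) (E b))
    (u : haveI : NeZero q := ⟨hq.ne_zero⟩; FF (M * q * q)) :
    haveI : NeZero q := ⟨hq.ne_zero⟩
    qExpand Kbar (q * q)
        ((normAlong (heckeAlphaBar Kbar M q)
          (normAlong (heckeAlphaBar Kbar (M * q) q) u) : FF M) : LaurentSeries Kbar) =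
      qExpand Kbar (q * q) ((u : LaurentSeries Kbar) * ∏ b ∈ Finset.Ioo 0 q, E b u) *
        ∏ b ∈ Finset.range q, ∏ c ∈ Finset.range q, twistK ((ξ ^ q) ^ c * ξ ^ b) (E0 u) := by
  haveI : NeZero q := ⟨hq.ne_zero⟩
  have hζ : IsPrimitiveRoot (ξ ^ q) q := by
    have := hξ.pow (Nat.mul_pos hq.pos hq.pos) (rfl : q * q = q * q)
    exact this
  have hξ0 : ξ ≠ 0 := hξ.ne_zero (Nat.mul_pos hq.pos hq.pos).ne'
  set v : FF (M * q) := normAlong (heckeAlphaBar Kbar (M * q) q) u with hv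
  have h1 := Fermat.Agent.S35.h71n_norm_series M q hq hqM (ξ ^ q) hζ v
  have hA := h40na_normA q hq M hqM (ξ ^ q) hζ E hE u
  have hD := h93n_normD q hq M hqM (ξ ^ q) hζ E0 hE0 u
  have h2 : qExpand Kbar (q * q)
      ((normAlong (heckeAlphaBar Kbar M q) v : FF M) : LaurentSeries Kbar) =
      qExpand Kbar q (qExpand Kbar q
        ((normAlong (heckeAlphaBar Kbar M q) v : FF M) : LaurentSeries Kbar)) :=
    (qExpand_qExpand q q _).symm
  rw [h2]
  unfold normAlong at h1 ⊢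
  rw [h1, map_mul, qExpand_qExpand, map_prod]
  congr 1
  · exact congrArg _ hA
  · refine Finset.prod_congr rfl (fun b _ => ?_)
    rw [← pow_mul, mul_comm q b, pow_mul, h20u_qExpand_twistK]
    have hD' : qExpand Kbar q
        ((kFricke M q hq hqM v : FF (M * q)) : LaurentSeries Kbar) =
        ∏ c ∈ Finset.range q, twistK ((ξ ^ q) ^ c) (E0 u) := hD
    rw [hD', h20u_twistK_prod _ (pow_ne_zero b hξ0)]
    refine Finset.prod_congr rfl (fun c _ => ?_)
    rw [twistK_twistK]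

/-! ## Integral power series -/

section PS

variable (A : ValuationSubring Kbar)

/-- the integral power series `A⟦t⟧ → ℚ̄((t))`. -/
def h20u_iota : PowerSeries A →+* LaurentSeries Kbar :=
  (coeffMap A.subtype).comp (HahnSeries.ofPowerSeries ℤ A)

/-- `s` is a unit of `A⟦t⟧`: an integral power series with unit constant term. -/
def h20u_UPS (s : LaurentSeries Kbar) : Prop :=
  ∃ f : PowerSeries A, IsUnit f ∧ h20u_iota A f = s

variable {A}

theorem h20u_iota_coeff (f : PowerSeries A) (n : ℤ) :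
    (h20u_iota A f).coeff n = if n < 0 then 0 else ((PowerSeries.coeff n.natAbs f : A) : Kbar) := by
  rw [h20u_iota, RingHom.comp_apply, coeffMap_coeff]
  have h := PowerSeries.coeff_coe (R := A) f n
  change ((f : LaurentSeries A)).coeff n = _ at h
  change A.subtype (((f : LaurentSeries A)).coeff n) = _
  rw [h]
  split_ifs <;> simp

theorem h20u_isUnit_iff (a : A) : IsUnit a ↔ (a : Kbar) ≠ 0 ∧ (a : Kbar)⁻¹ ∈ A := by
  constructor
  · intro h
    obtain ⟨b, hb⟩ := isUnit_iff_exists_inv.mp h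
    have hb' : (a : Kbar) * (b : Kbar) = 1 := by exact_mod_cast congrArg Subtype.val hb
    have ha0 : (a : Kbar) ≠ 0 := left_ne_zero_of_mul_eq_one hb'
    refine ⟨ha0, ?_⟩
    have h1 : (a : Kbar)⁻¹ = b := inv_eq_of_mul_eq_one_right hb'
    rw [h1]
    exact b.2
  · rintro ⟨h0, hi⟩
    exact IsUnit.of_mul_eq_one (⟨(a : Kbar)⁻¹, hi⟩ : A) (Subtype.ext (by
      change (a : Kbar) * (a : Kbar)⁻¹ = 1
      exact mul_inv_cancel₀ h0))

/-- coefficient criterion. -/
theorem h20u_ups_iff (s : LaurentSeries Kbar) :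
    h20u_UPS A s ↔ (∀ n, s.coeff n ∈ A) ∧ (∀ n < 0, s.coeff n = 0) ∧
      s.coeff 0 ≠ 0 ∧ (s.coeff 0)⁻¹ ∈ A := by
  constructor
  · rintro ⟨f, hf, rfl⟩
    refine ⟨fun n => ?_, fun n hn => ?_, ?_⟩
    · rw [h20u_iota_coeff]
      split_ifs
      · exact A.zero_mem
      · exact (PowerSeries.coeff n.natAbs f).2
    · rw [h20u_iota_coeff, if_pos hn]
    · have h0 : (h20u_iota A f).coeff 0 = ((PowerSeries.constantCoeff f : A) : Kbar) := by
        rw [h20u_iota_coeff, if_neg (lt_irrefl 0)]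
        simp
      rw [h0]
      exact (h20u_isUnit_iff _).mp (PowerSeries.isUnit_iff_constantCoeff.mp hf)
  · rintro ⟨h1, h2, h3, h4⟩
    refine ⟨PowerSeries.mk (fun n => ⟨s.coeff (n : ℤ), h1 n⟩), ?_, ?_⟩
    · rw [PowerSeries.isUnit_iff_constantCoeff, h20u_isUnit_iff]
      simp only [← PowerSeries.coeff_zero_eq_constantCoeff_apply, PowerSeries.coeff_mk]
      exact ⟨by simpa using h3, by simpa using h4⟩
    · ext n
      rw [h20u_iota_coeff]
      split_ifs with hn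
      · exact (h2 n hn).symm
      · rw [PowerSeries.coeff_mk]
        change s.coeff ((n.natAbs : ℕ) : ℤ) = s.coeff n
        rw [Int.natAbs_of_nonneg (not_lt.mp hn)]

theorem h20u_ups_one : h20u_UPS A (1 : LaurentSeries Kbar) :=
  ⟨1, isUnit_one, map_one _⟩

theorem h20u_ups_mul {s t : LaurentSeries Kbar} (hs : h20u_UPS A s) (ht : h20u_UPS A t) :
    h20u_UPS A (s * t) := by
  obtain ⟨f, hf, rfl⟩ := hs
  obtain ⟨g, hg, rfl⟩ := ht
  exact ⟨f * g, hf.mul hg, map_mul _ _ _⟩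

theorem h20u_ups_prod {ι : Type*} (S : Finset ι) (f : ι → LaurentSeries Kbar)
    (h : ∀ i ∈ S, h20u_UPS A (f i)) : h20u_UPS A (∏ i ∈ S, f i) := by
  classical
  induction S using Finset.induction_on with
  | empty => rw [Finset.prod_empty]; exact h20u_ups_one
  | insert a S ha ih =>
    rw [Finset.prod_insert ha]
    exact h20u_ups_mul (h a (Finset.mem_insert_self a S))
      (ih (fun i hi => h i (Finset.mem_insert_of_mem hi)))

theorem h20u_ups_pow {s : LaurentSeries Kbar} (hs : h20u_UPS A s) (n : ℕ) :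
    h20u_UPS A (s ^ n) := by
  obtain ⟨f, hf, rfl⟩ := hs
  exact ⟨f ^ n, hf.pow n, map_pow _ _ _⟩

theorem h20u_ups_inv {s : LaurentSeries Kbar} (hs : h20u_UPS A s) : h20u_UPS A s⁻¹ := by
  obtain ⟨f, hf, rfl⟩ := hs
  obtain ⟨g, hg⟩ := isUnit_iff_exists_inv.mp hf
  refine ⟨g, IsUnit.of_mul_eq_one f (by rw [mul_comm]; exact hg), ?_⟩
  have h1 : h20u_iota A f * h20u_iota A g = 1 := by rw [← map_mul, hg, map_one]
  exact (inv_eq_of_mul_eq_one_right h1).symm

theorem h20u_ups_twist {s : LaurentSeries Kbar} (hs : h20u_UPS A s) {ω : Kbar} (hω : ω ∈ A) :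
    h20u_UPS A (twistK ω s) := by
  rw [h20u_ups_iff] at hs ⊢
  obtain ⟨h1, h2, h3, h4⟩ := hs
  refine ⟨fun n => ?_, fun n hn => ?_, ?_, ?_⟩
  · rw [coeff_twistK]
    rcases lt_or_ge n 0 with hn | hn
    · rw [h2 n hn, zero_mul]; exact A.zero_mem
    · obtain ⟨k, rfl⟩ := Int.eq_ofNat_of_zero_le hn
      rw [zpow_natCast]
      exact A.mul_mem _ _ (h1 _) (pow_mem hω k)
  · rw [coeff_twistK, h2 n hn, zero_mul]
  · rw [coeff_twistK, zpow_zero, mul_one]; exact h3
  · rw [coeff_twistK, zpow_zero, mul_one]; exact h4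

theorem h20u_ups_qExpand (e : ℕ) [NeZero e] {s : LaurentSeries Kbar} (hs : h20u_UPS A s) :
    h20u_UPS A (qExpand Kbar e s) := by
  rw [h20u_ups_iff] at hs ⊢
  obtain ⟨h1, h2, h3, h4⟩ := hs
  have he : (0 : ℤ) < (e : ℤ) := by exact_mod_cast Nat.pos_of_ne_zero (NeZero.ne e)
  have h0 : (qExpand Kbar e s).coeff 0 = s.coeff 0 := by
    have := qExpand_coeff_mul (R := Kbar) e s 0
    rwa [mul_zero] at this
  refine ⟨fun n => ?_, fun n hn => ?_, ?_, ?_⟩
  · by_cases hd : (e : ℤ) ∣ n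
    · obtain ⟨k, rfl⟩ := hd
      rw [qExpand_coeff_mul]; exact h1 k
    · rw [qExpand_coeff_of_not_dvd e _ hd]; exact A.zero_mem
  · by_cases hd : (e : ℤ) ∣ n
    · obtain ⟨k, rfl⟩ := hd
      rw [qExpand_coeff_mul]
      refine h2 k ?_
      by_contra hk
      exact absurd hn (not_lt.mpr (mul_nonneg he.le (not_lt.mp hk)))
    · exact qExpand_coeff_of_not_dvd e _ hd
  · rw [h0]; exact h3
  · rw [h0]; exact h4

/-- descent along `t ↦ t^e`. -/
theorem h20u_ups_of_qExpand (e : ℕ) [NeZero e] {s : LaurentSeries Kbar}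
    (hs : h20u_UPS A (qExpand Kbar e s)) : h20u_UPS A s := by
  rw [h20u_ups_iff] at hs ⊢
  obtain ⟨h1, h2, h3, h4⟩ := hs
  have he : (0 : ℤ) < (e : ℤ) := by exact_mod_cast Nat.pos_of_ne_zero (NeZero.ne e)
  have h0 : (qExpand Kbar e s).coeff 0 = s.coeff 0 := by
    have := qExpand_coeff_mul (R := Kbar) e s 0
    rwa [mul_zero] at this
  refine ⟨fun n => ?_, fun n hn => ?_, ?_, ?_⟩
  · rw [← qExpand_coeff_mul e s n]; exact h1 _
  · rw [← qExpand_coeff_mul e s n]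
    exact h2 _ (mul_neg_of_pos_of_neg he hn)
  · rw [← h0]; exact h3
  · rw [← h0]; exact h4

/-- units of `A⟦t⟧` are Gauss units. -/
theorem h20u_ups_unit {s : LaurentSeries Kbar} (hs : h20u_UPS A s) : h20v_Unit A s := by
  have hmem : ∀ {s : LaurentSeries Kbar}, h20u_UPS A s → s ∈ h20v_G A := by
    rintro _ ⟨f, hf, rfl⟩
    exact Fermat.Agent.Red.GV.Soft.embA_mem_softOT A (IsLocalRing.residue A)
      (HahnSeries.ofPowerSeries ℤ A f)
  refine ⟨?_, hmem hs, hmem (h20u_ups_inv hs)⟩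
  rintro rfl
  have := ((h20u_ups_iff _).mp hs).2.2.1
  simp at this

theorem h20u_root_mem {ω : Kbar} {n : ℕ} (hn : 0 < n) (hω : ω ^ n = 1) : ω ∈ A := by
  rcases A.mem_or_inv_mem ω with h | h
  · exact h
  · have h1 : ω = ω⁻¹ ^ (n - 1) := by
      have hω0 : ω ≠ 0 := by
        rintro rfl
        rw [zero_pow hn.ne'] at hω
        exact zero_ne_one hω
      have h2 : ω ^ (n - 1) * ω = 1 := by rw [← pow_succ, Nat.sub_add_cancel hn, hω]
      rw [inv_pow]
      exact eq_inv_of_mul_eq_one_right h2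
    rw [h1]
    exact pow_mem h _

end PS

/-! ## The Gauss corollary -/

/-- **the norm of a certificate is `q · unit`.**  If `E20 u` and `E02 u` are units of `A⟦t⟧` and
`E11^{ζ^b} u = (1 - ζ^b) · unit` for `0 < b < q`, then `Nm_{α₁} (Nm_{α₂} u) = q · unit`. -/
theorem h20u_norm_gauss (q : ℕ) (hq : q.Prime) (M : ℕ) [NeZero M] (hqM : ¬ q ∣ M)
    (A : ValuationSubring Kbar)
    (ξ : Kbar) (hξ : IsPrimitiveRoot ξ (q * q))
    (E0 : haveI : NeZero q := ⟨hq.ne_zero⟩; FF (M * q * q) →+* LaurentSeries Kbar)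
    (hE0 : haveI : NeZero q := ⟨hq.ne_zero⟩; h20n_IsE02 M q hq hqM E0)
    (E : haveI : NeZero q := ⟨hq.ne_zero⟩; ℕ → (FF (M * q * q) →+* LaurentSeries Kbar))
    (hE : haveI : NeZero q := ⟨hq.ne_zero⟩;
      ∀ b : ℕ, 0 < b → b < q → h20n_IsE11 M q hq hqM ((ξ ^ q) ^ b) (E b))
    (u : haveI : NeZero q := ⟨hq.ne_zero⟩; FF (M * q * q))
    (h20 : haveI : NeZero q := ⟨hq.ne_zero⟩; h20u_UPS A (u : LaurentSeries Kbar))
    (h11 : ∀ b : ℕ, 0 < b → b < q →
      ∃ w, h20u_UPS A w ∧ E b u = HahnSeries.C (1 - (ξ ^ q) ^ b) * w)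
    (h02 : h20u_UPS A (E0 u)) :
    haveI : NeZero q := ⟨hq.ne_zero⟩
    ∃ W, h20u_UPS A W ∧
      ((normAlong (heckeAlphaBar Kbar M q)
          (normAlong (heckeAlphaBar Kbar (M * q) q) u) : FF M) : LaurentSeries Kbar) =
        HahnSeries.C ((q : ℕ) : Kbar) * W := by
  haveI : NeZero q := ⟨hq.ne_zero⟩
  have hqq : 0 < q * q := Nat.mul_pos hq.pos hq.pos
  have hζ : IsPrimitiveRoot (ξ ^ q) q := hξ.pow hqq rfl
  have hξA : ξ ∈ A := h20u_root_mem hqq hξ.pow_eq_one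
  have hq0 : ((q : ℕ) : Kbar) ≠ 0 := by exact_mod_cast hq.ne_zero
  have hT := h20u_norm_total q hq M hqM ξ hξ E0 hE0 E hE u
  set Nm : FF M := normAlong (heckeAlphaBar Kbar M q)
    (normAlong (heckeAlphaBar Kbar (M * q) q) u) with hNm
  choose! w hw1 hw2 using h11
  -- the middle product
  have hmid : ∏ b ∈ Finset.Ioo 0 q, E b u =
      HahnSeries.C ((q : ℕ) : Kbar) * ∏ b ∈ Finset.Ioo 0 q, w b := by
    have h1 : ∏ b ∈ Finset.Ioo 0 q, E b u =
        ∏ b ∈ Finset.Ioo 0 q, (HahnSeries.C (1 - (ξ ^ q) ^ b) * w b) :=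
      Finset.prod_congr rfl (fun b hb => hw2 b (Finset.mem_Ioo.mp hb).1 (Finset.mem_Ioo.mp hb).2)
    rw [h1, Finset.prod_mul_distrib, ← map_prod]
    congr 2
    obtain ⟨n, rfl⟩ : ∃ n, q = n + 1 := ⟨q - 1, (Nat.sub_add_cancel hq.pos).symm⟩
    have h2 := hζ.prod_one_sub_pow_eq_order
    have h3 : Finset.Ioo 0 (n + 1) = (Finset.range n).map ⟨fun k => k + 1, add_left_injective 1⟩ := by
      ext b
      simp only [Finset.mem_Ioo, Finset.mem_map, Finset.mem_range, Function.Embedding.coeFn_mk]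
      constructor
      · rintro ⟨h0, h1⟩
        exact ⟨b - 1, by omega, by omega⟩
      · rintro ⟨k, hk, rfl⟩
        exact ⟨by omega, by omega⟩
    rw [h3, Finset.prod_map]
    simp only [Function.Embedding.coeFn_mk]
    rw [h2]
    push_cast
    rfl
  have hW' : h20u_UPS A (qExpand Kbar (q * q) ((u : LaurentSeries Kbar) *
      ∏ b ∈ Finset.Ioo 0 q, w b) *
      ∏ b ∈ Finset.range q, ∏ c ∈ Finset.range q, twistK ((ξ ^ q) ^ c * ξ ^ b) (E0 u)) := by
    refine h20u_ups_mul (h20u_ups_qExpand _ (h20u_ups_mul h20 (h20u_ups_prod _ _ ?_)))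
      (h20u_ups_prod _ _ (fun b _ => h20u_ups_prod _ _ (fun c _ => h20u_ups_twist h02 ?_)))
    · intro b hb
      exact hw1 b (Finset.mem_Ioo.mp hb).1 (Finset.mem_Ioo.mp hb).2
    · exact A.mul_mem _ _ (pow_mem (pow_mem hξA _) _) (pow_mem hξA _)
  refine ⟨HahnSeries.C (((q : ℕ) : Kbar)⁻¹) * (Nm : LaurentSeries Kbar), ?_, ?_⟩
  · apply h20u_ups_of_qExpand (q * q)
    rw [map_mul, qExpand_C, hT, hmid]
    have : HahnSeries.C (((q : ℕ) : Kbar)⁻¹) *
        (qExpand Kbar (q * q) ((u : LaurentSeries Kbar) *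
          (HahnSeries.C ((q : ℕ) : Kbar) * ∏ b ∈ Finset.Ioo 0 q, w b)) *
        ∏ b ∈ Finset.range q, ∏ c ∈ Finset.range q, twistK ((ξ ^ q) ^ c * ξ ^ b) (E0 u)) =
        qExpand Kbar (q * q) ((u : LaurentSeries Kbar) * ∏ b ∈ Finset.Ioo 0 q, w b) *
        ∏ b ∈ Finset.range q, ∏ c ∈ Finset.range q, twistK ((ξ ^ q) ^ c * ξ ^ b) (E0 u) := by
      rw [show (u : LaurentSeries Kbar) * (HahnSeries.C ((q : ℕ) : Kbar) *
          ∏ b ∈ Finset.Ioo 0 q, w b) = HahnSeries.C ((q : ℕ) : Kbar) *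
          ((u : LaurentSeries Kbar) * ∏ b ∈ Finset.Ioo 0 q, w b) by ring, map_mul, qExpand_C,
        ← mul_assoc, ← mul_assoc, ← map_mul, inv_mul_cancel₀ hq0, map_one, one_mul]
    rw [this]
    exact hW'
  · rw [← mul_assoc, ← map_mul, mul_inv_cancel₀ hq0, map_one, one_mul]

end Fermat.Agent.S36
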