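import Fermat.Agent.S36.Skeleton
import Fermat.Agent.Red.GV.SoftBar
import Fermat.Agent.Red.Kron.FrickeGal

/-!
# S36, block (N) NORMS: frozen interfaces (sub-architect: helper20, prefix `h20n_`)

Every declaration is a definition or a frozen interface `Prop`; nothing is assumed.

Setting: `q` prime, `q ∤ M`, `F₀ = FF M`, `F₁ = FF (M q)`, `F₂ = FF (M q q)`,
`α₀, β₀ : F₀ → F₁`, `α, β : F₁ → F₂` the degeneracy maps (`α x = x(t)`, `β x = x(t^q)`),
`w = kFricke M q` the Fricke involution of `F₁`, `A` a valuation subring of `ℚ̄` over `q`,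
`I = I_A` its inertia group.

## The three valuations are Gauss valuations of three `q`-expansion embeddings

Every embedding `E : F₂ → ℚ̄((t))` is determined by `E ∘ α` and `E ∘ β` (`h20n_EmbUnique`).

* `E20` = the standard expansion: `E ∘ α = coe`, `E ∘ β = (x ↦ x(t^q))`.       cusp `∞`
* `E11^ζ`, `ζ ≠ 1` a `q`-th root of unity: `E ∘ α = coe`, `E ∘ β = (x ↦ (w x)(ζ t))`.
                                                          the `q - 1` cusps `1/(M q k)`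
* `E02`: `E ∘ α = (x ↦ (w x)(t^q))`, `E ∘ β = (x ↦ (w x)(t))`.                  cusp `0`

`W20, W11, W02` are the pull-backs of the Gauss valuation ring (`softOT A`) under `E20`,
`E11^ζ`, `E02`; over the inertia field `K₀` all `E11^ζ` induce the same valuation (they are
conjugate under `I`), with `e = q - 1`.

## The norms are products over conjugate embeddings  (`[F₂ : α F₁] = [F₂ : β F₁] = q`)

* (a) `Nm_α u (t) = E20 u · ∏_{ζ ≠ 1} E11^ζ u`
* (b) `Nm_β u (t^q) = ∏_{b < q} (E20 u)(ζ^b t)`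
* (c) `(w Nm_β u)(t) = E02 u · ∏_{0 < b < q} (E11^{ζ^{-b}} u)(ζ^b t)`
* (d) `(w Nm_α u)(t^q) = ∏_{b < q} (E02 u)(ζ^b t)`

## Reductions (`≡` = Gauss congruence `h20n_CongOneS`, constants allowed)

* `s(ζ t) ≡ s(t)`, `σ s ≡ s` for `σ ∈ I`, `(σ y)(t^q) ≡ y(t)^q` for a Frobenius `σ`;
* (b) gives `u^q ≡ β (Nm_β u)` at `W20`; (d) gives `u^q ≡ α (Nm_α u)` at `W02`;
  (a) gives `α (Nm_α u) ≡ E20 u · (E11 u)^(q-1)` for `u` fixed by `I` up to constants.
* OUTPUT `H20NewGate36`: if `Nm_α u = h^m`, `Nm_β u = h'^m`, then `u` is toric at `W20` and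
  `W02`, and `u^(q-1)` is toric at `W11` if `u` is `I`-invariant up to constants.
  (`Tor20`: `u^q ≡ β(h')^m ≡ c α(σ⁻¹ h')^(q m)`, so `u ≡ c' α(σ⁻¹ h')^m`; etc.)
-/

set_option autoImplicit false

open AlgebraicCurve ModularCurve

noncomputable section

namespace Fermat.Agent.S36

open Fermat.Agent.S37 (Kbar GQ FF cst gal)
open Fermat.Agent.Red.KR (normAlong)
open Fermat.Agent.Red.Kron (kFricke twistK)

/-! ## Definitions -/

/-- Gauss congruence `s ≡ 1` for a series `s ∈ ℚ̄((t))`: `s = a / b` with `a, b ∈ A((t))`,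
`b̄ ≠ 0`, `ā = b̄`.  (`S37.CongOne A w` is `h20n_CongOneS A w`.) -/
def h20n_CongOneS (A : ValuationSubring Kbar) (s : LaurentSeries Kbar) : Prop :=
  ∃ a b : LaurentSeries A,
    coeffMap (IsLocalRing.residue A) b ≠ 0 ∧
    coeffMap A.subtype a = s * coeffMap A.subtype b ∧
    coeffMap (IsLocalRing.residue A) a = coeffMap (IsLocalRing.residue A) b

section Level

variable (M q : ℕ) [NeZero M] [NeZero q]

/-- the standard embedding `E20 : F₂ → ℚ̄((t))`. -/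
def h20n_E20 : FF (M * q * q) →+* LaurentSeries Kbar :=
  algebraMap (FF (M * q * q)) (LaurentSeries Kbar)

/-- `E` is the embedding of `F₂` at the middle cusps with twist `ζ`:
`E (α x) = x(t)`, `E (β x) = (w x)(ζ t)`. -/
def h20n_IsE11 (hq : q.Prime) (hqM : ¬ q ∣ M) (ζ : Kbar)
    (E : FF (M * q * q) →+* LaurentSeries Kbar) : Prop :=
  (∀ x : FF (M * q), E (heckeAlphaBar Kbar (M * q) q x) = (x : LaurentSeries Kbar)) ∧
  (∀ x : FF (M * q), E (heckeBetaBar Kbar (M * q) q x) =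
    twistK ζ ((kFricke M q hq hqM x : FF (M * q)) : LaurentSeries Kbar))

/-- `E` is the embedding of `F₂` at the cusp `0`:
`E (α x) = (w x)(t^q)`, `E (β x) = (w x)(t)`. -/
def h20n_IsE02 (hq : q.Prime) (hqM : ¬ q ∣ M)
    (E : FF (M * q * q) →+* LaurentSeries Kbar) : Prop :=
  (∀ x : FF (M * q), E (heckeAlphaBar Kbar (M * q) q x) =
    qExpand Kbar q ((kFricke M q hq hqM x : FF (M * q)) : LaurentSeries Kbar)) ∧
  (∀ x : FF (M * q), E (heckeBetaBar Kbar (M * q) q x) =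
    ((kFricke M q hq hqM x : FF (M * q)) : LaurentSeries Kbar))

/-- `u` is toric at the valuation of the embedding `E`: `E (c · u / h ^ m) ≡ 1`. -/
def h20n_Tor (A : ValuationSubring Kbar) (m : ℕ)
    (E : FF (M * q * q) →+* LaurentSeries Kbar) (u : FF (M * q * q)) : Prop :=
  ∃ (c : Kbar) (h : FF (M * q * q)), c ≠ 0 ∧ h ≠ 0 ∧
    h20n_CongOneS A (E (cst (M * q * q) c * u * (h ^ m)⁻¹))

end Level

/-! ## Frozen interfaces -/

/-- **N-UNIQ.**  An embedding of `F₂` is determined by its restrictions along `α` and `β`. -/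
def H20EmbUnique : Prop :=
  ∀ (q : ℕ) (_ : q.Prime) (M : ℕ) [NeZero M],
    haveI : NeZero q := ⟨‹q.Prime›.ne_zero⟩
    ∀ E E' : FF (M * q * q) →+* LaurentSeries Kbar,
      (∀ x : FF (M * q), E (heckeAlphaBar Kbar (M * q) q x) =
        E' (heckeAlphaBar Kbar (M * q) q x)) →
      (∀ x : FF (M * q), E (heckeBetaBar Kbar (M * q) q x) =
        E' (heckeBetaBar Kbar (M * q) q x)) → E = E'

/-- **N-EMB.**  The embeddings `E11^ζ` (`ζ ≠ 1`, `ζ ^ q = 1`) and `E02` exist. -/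
def H20EmbExists : Prop :=
  ∀ (q : ℕ) (hq : q.Prime) (M : ℕ) [NeZero M] (hqM : ¬ q ∣ M),
    haveI : NeZero q := ⟨hq.ne_zero⟩
    (∀ ζ : Kbar, ζ ^ q = 1 → ζ ≠ 1 → ∃ E, h20n_IsE11 M q hq hqM ζ E) ∧
    (∃ E, h20n_IsE02 M q hq hqM E)

/-- **N-GAL.**  Galois equivariance: `E11^{σ ζ} (σ u) = σ (E11^ζ u)`, `E02 (σ u) = σ (E02 u)`. -/
def H20EmbGal : Prop :=
  ∀ (q : ℕ) (hq : q.Prime) (M : ℕ) [NeZero M] (hqM : ¬ q ∣ M),
    haveI : NeZero q := ⟨hq.ne_zero⟩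
    ∀ σ : GQ,
    (∀ (ζ : Kbar) (E E' : FF (M * q * q) →+* LaurentSeries Kbar),
      h20n_IsE11 M q hq hqM ζ E → h20n_IsE11 M q hq hqM (σ ζ) E' →
      ∀ u : FF (M * q * q),
        E' (gal (M * q * q) σ • u) = coeffMap (σ : Kbar →+* Kbar) (E u)) ∧
    (∀ E : FF (M * q * q) →+* LaurentSeries Kbar, h20n_IsE02 M q hq hqM E →
      ∀ u : FF (M * q * q),
        E (gal (M * q * q) σ • u) = coeffMap (σ : Kbar →+* Kbar) (E u))

/-- **N-NORM (a).**  `Nm_α u = E20 u · ∏_{0 < b < q} E11^{ζ^b} u`. -/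
def H20NormA : Prop :=
  ∀ (q : ℕ) (hq : q.Prime) (M : ℕ) [NeZero M] (hqM : ¬ q ∣ M),
    haveI : NeZero q := ⟨hq.ne_zero⟩
    ∀ (ζ : Kbar), IsPrimitiveRoot ζ q →
    ∀ E : ℕ → (FF (M * q * q) →+* LaurentSeries Kbar),
      (∀ b : ℕ, 0 < b → b < q → h20n_IsE11 M q hq hqM (ζ ^ b) (E b)) →
      ∀ u : FF (M * q * q),
        ((normAlong (heckeAlphaBar Kbar (M * q) q) u : FF (M * q)) : LaurentSeries Kbar) =
          (u : LaurentSeries Kbar) * ∏ b ∈ Finset.Ioo 0 q, E b u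

/-- **N-NORM (b).**  `Nm_β u (t^q) = ∏_{b < q} u(ζ^b t)`. -/
def H20NormB : Prop :=
  ∀ (q : ℕ) (hq : q.Prime) (N : ℕ) [NeZero N], q ∣ N →
    haveI : NeZero q := ⟨hq.ne_zero⟩
    ∀ (ζ : Kbar), IsPrimitiveRoot ζ q → ∀ u : FF (N * q),
      qExpand Kbar q ((normAlong (heckeBetaBar Kbar N q) u : FF N) : LaurentSeries Kbar) =
        ∏ b ∈ Finset.range q, twistK (ζ ^ b) (u : LaurentSeries Kbar)

/-- **N-NORM (c).**  `w (Nm_β u) = E02 u · ∏_{0 < b < q} (E11^{ζ^(q-b)} u)(ζ^b t)`. -/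
def H20NormC : Prop :=
  ∀ (q : ℕ) (hq : q.Prime) (M : ℕ) [NeZero M] (hqM : ¬ q ∣ M),
    haveI : NeZero q := ⟨hq.ne_zero⟩
    ∀ (ζ : Kbar), IsPrimitiveRoot ζ q →
    ∀ (E0 : FF (M * q * q) →+* LaurentSeries Kbar), h20n_IsE02 M q hq hqM E0 →
    ∀ E : ℕ → (FF (M * q * q) →+* LaurentSeries Kbar),
      (∀ b : ℕ, 0 < b → b < q → h20n_IsE11 M q hq hqM (ζ ^ b) (E b)) →
      ∀ u : FF (M * q * q),
        ((kFricke M q hq hqM (normAlong (heckeBetaBar Kbar (M * q) q) u) : FF (M * q)) :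
            LaurentSeries Kbar) =
          E0 u * ∏ b ∈ Finset.Ioo 0 q, twistK (ζ ^ b) (E (q - b) u)

/-- **N-NORM (d).**  `(w (Nm_α u))(t^q) = ∏_{b < q} (E02 u)(ζ^b t)`. -/
def H20NormD : Prop :=
  ∀ (q : ℕ) (hq : q.Prime) (M : ℕ) [NeZero M] (hqM : ¬ q ∣ M),
    haveI : NeZero q := ⟨hq.ne_zero⟩
    ∀ (ζ : Kbar), IsPrimitiveRoot ζ q →
    ∀ (E0 : FF (M * q * q) →+* LaurentSeries Kbar), h20n_IsE02 M q hq hqM E0 →
      ∀ u : FF (M * q * q),
        qExpand Kbar q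
          ((kFricke M q hq hqM (normAlong (heckeAlphaBar Kbar (M * q) q) u) : FF (M * q)) :
            LaurentSeries Kbar) =
          ∏ b ∈ Finset.range q, twistK (ζ ^ b) (E0 u)

/-- **N-CYC.**  The inertia group at `q` acts transitively on the primitive `q`-th roots of
unity (from the landed inertia field `H23InertiaField`: `∏ (1 - ζ^b) = q`). -/
def H20Cyc : Prop :=
  ∀ (q : ℕ), q.Prime → ∀ A : ValuationSubring Kbar, A.LiesOverPrime q →
    ∀ ζ ζ' : Kbar, IsPrimitiveRoot ζ q → IsPrimitiveRoot ζ' q →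
      ∃ σ ∈ A.inertiaSubgroupIn ℚ, σ ζ = ζ'

/-- **N-DF.**  The images of the embeddings `E11^ζ`, `E02` lie in the field `dfField` of
fractions of discrete series (so that Gauss norms are attained: `exists_scale`). -/
def H20EmbDF : Prop :=
  ∀ (q : ℕ) (hq : q.Prime) (M : ℕ) [NeZero M] (hqM : ¬ q ∣ M),
    haveI : NeZero q := ⟨hq.ne_zero⟩
    ∀ E : FF (M * q * q) →+* LaurentSeries Kbar,
      ((∃ ζ : Kbar, ζ ^ q = 1 ∧ h20n_IsE11 M q hq hqM ζ E) ∨ h20n_IsE02 M q hq hqM E) →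
      ∀ u : FF (M * q * q), E u ∈ Fermat.Agent.Red.GV.Soft.dfField (K := Kbar)

/-- **N-TWIST.**  `s(ω t) ≡ s(t)` for `ω ^ (q ^ k) = 1` and `0 ≠ s ∈ dfField`. -/
def H20Twist : Prop :=
  ∀ (q : ℕ), q.Prime → ∀ A : ValuationSubring Kbar, A.LiesOverPrime q →
    ∀ (ω : Kbar) (k : ℕ), ω ^ (q ^ k) = 1 →
    ∀ s : LaurentSeries Kbar, s ∈ Fermat.Agent.Red.GV.Soft.dfField (K := Kbar) → s ≠ 0 →
      h20n_CongOneS A (twistK ω s * s⁻¹)

/-- **N-INERT.**  `σ s ≡ c · s` for `σ ∈ I_A` and `0 ≠ s ∈ dfField`. -/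
def H20Inert : Prop :=
  ∀ (q : ℕ), q.Prime → ∀ A : ValuationSubring Kbar, A.LiesOverPrime q →
    ∀ σ ∈ A.inertiaSubgroupIn ℚ,
    ∀ s : LaurentSeries Kbar, s ∈ Fermat.Agent.Red.GV.Soft.dfField (K := Kbar) → s ≠ 0 →
      ∃ c : Kbar, c ≠ 0 ∧
        h20n_CongOneS A (HahnSeries.C c * coeffMap (σ : Kbar →+* Kbar) s * s⁻¹)

/-- **N-ROOT.**  `s ^ q ≡ 1 ⟹ s ≡ 1` (the residue ring has characteristic `q`), for
`s ∈ dfField`. -/
def H20Root : Prop :=
  ∀ (q : ℕ), q.Prime → ∀ A : ValuationSubring Kbar, A.LiesOverPrime q →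
    ∀ s : LaurentSeries Kbar, s ∈ Fermat.Agent.Red.GV.Soft.dfField (K := Kbar) →
      h20n_CongOneS A (s ^ q) → h20n_CongOneS A s

/-- **N-FROB.**  `(σ y)(t^q) ≡ c · y(t)^q` for a Frobenius `σ` at `A` and `y ∈ FF N`. -/
def H20Frob : Prop :=
  ∀ (q : ℕ) (hq : q.Prime), ∀ A : ValuationSubring Kbar, A.LiesOverPrime q →
    ∀ σ : GQ, A.IsFrobeniusAt σ q →
    haveI : NeZero q := ⟨hq.ne_zero⟩
    ∀ (N : ℕ) [NeZero N] (y : FF N), y ≠ 0 →
      ∃ c : Kbar, c ≠ 0 ∧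
        h20n_CongOneS A
          (HahnSeries.C c * qExpand Kbar q ((gal N σ • y : FF N) : LaurentSeries Kbar) *
            ((y : LaurentSeries Kbar) ^ q)⁻¹)

/-- **N-RED (b).**  `β (Nm_β u) ≡ u ^ q` at `W20`, for every `u ≠ 0`. -/
def H20RedB : Prop :=
  ∀ (q : ℕ) (hq : q.Prime) (N : ℕ) [NeZero N], q ∣ N →
    haveI : NeZero q := ⟨hq.ne_zero⟩
    ∀ A : ValuationSubring Kbar, A.LiesOverPrime q → ∀ u : FF (N * q), u ≠ 0 →
      h20n_CongOneS A
        (qExpand Kbar q ((normAlong (heckeBetaBar Kbar N q) u : FF N) : LaurentSeries Kbar) *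
          ((u : LaurentSeries Kbar) ^ q)⁻¹)

/-- **N-RED (d).**  `α (Nm_α u) ≡ u ^ q` at `W02`, for every `u ≠ 0`. -/
def H20RedD : Prop :=
  ∀ (q : ℕ) (hq : q.Prime) (M : ℕ) [NeZero M] (hqM : ¬ q ∣ M),
    haveI : NeZero q := ⟨hq.ne_zero⟩
    ∀ A : ValuationSubring Kbar, A.LiesOverPrime q →
    ∀ (E0 : FF (M * q * q) →+* LaurentSeries Kbar), h20n_IsE02 M q hq hqM E0 →
    ∀ u : FF (M * q * q), u ≠ 0 →
      h20n_CongOneS A
        (E0 (heckeAlphaBar Kbar (M * q) q (normAlong (heckeAlphaBar Kbar (M * q) q) u)) *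
          (E0 u ^ q)⁻¹)

/-- **N-RED (a).**  `α (Nm_α u) ≡ c · E20 u · (E11 u)^(q-1)` for `u` invariant under inertia up
to constants. -/
def H20RedA : Prop :=
  ∀ (q : ℕ) (hq : q.Prime) (M : ℕ) [NeZero M] (hqM : ¬ q ∣ M),
    haveI : NeZero q := ⟨hq.ne_zero⟩
    ∀ A : ValuationSubring Kbar, A.LiesOverPrime q →
    ∀ (ζ : Kbar), IsPrimitiveRoot ζ q →
    ∀ (E : FF (M * q * q) →+* LaurentSeries Kbar), h20n_IsE11 M q hq hqM ζ E →
    ∀ u : FF (M * q * q), u ≠ 0 →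
      (∀ σ ∈ A.inertiaSubgroupIn ℚ, ∃ c : Kbar, c ≠ 0 ∧
        gal (M * q * q) σ • u = cst (M * q * q) c * u) →
      ∃ c : Kbar, c ≠ 0 ∧
        h20n_CongOneS A
          (HahnSeries.C c *
            ((normAlong (heckeAlphaBar Kbar (M * q) q) u : FF (M * q)) : LaurentSeries Kbar) *
            ((u : LaurentSeries Kbar) * E u ^ (q - 1))⁻¹)

/-- **N-GATE (output of block (N)).**  If both norms of `u` to the level `M q` are `m`-th
powers, then `u` is toric at `W20` and at `W02`; if moreover `u` is invariant under inertia up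
to constants, then `u ^ (q - 1)` is toric at `W11`. -/
def H20NewGate36 : Prop :=
  ∀ (q : ℕ) (hq : q.Prime) (M : ℕ) [NeZero M] (hqM : ¬ q ∣ M),
    haveI : NeZero q := ⟨hq.ne_zero⟩
    ∀ A : ValuationSubring Kbar, A.LiesOverPrime q →
    ∀ m : ℕ, ¬ q ∣ m → ∀ u : FF (M * q * q), u ≠ 0 →
      (∃ h : FF (M * q), normAlong (heckeAlphaBar Kbar (M * q) q) u = h ^ m) →
      (∃ h : FF (M * q), normAlong (heckeBetaBar Kbar (M * q) q) u = h ^ m) →
        h20n_Tor M q A m (h20n_E20 M q) u ∧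
        (∀ E0, h20n_IsE02 M q hq hqM E0 → h20n_Tor M q A m E0 u) ∧
        ((∀ σ ∈ A.inertiaSubgroupIn ℚ, ∃ c : Kbar, c ≠ 0 ∧
            gal (M * q * q) σ • u = cst (M * q * q) c * u) →
          ∀ (ζ : Kbar) (E : FF (M * q * q) →+* LaurentSeries Kbar), IsPrimitiveRoot ζ q →
            h20n_IsE11 M q hq hqM ζ E → h20n_Tor M q A m E (u ^ (q - 1)))

/-- **N-ASM.**  Assembly of the output from the leaves. -/
def H20NewGateAssembly : Prop :=
  H20EmbDF → H20Root → H20Frob → H20RedB → H20RedD → H20RedA → H20NewGate36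

/-- **N-RED-ASM (b).** -/
def H20RedBAssembly : Prop := H20NormB → H20Twist → H20RedB

/-- **N-RED-ASM (d).** -/
def H20RedDAssembly : Prop := H20NormD → H20EmbDF → H20Twist → H20RedD

/-- **N-RED-ASM (a).** -/
def H20RedAAssembly : Prop :=
  H20EmbExists → H20EmbGal → H20EmbDF → H20NormA → H20Cyc → H20Inert → H20RedA

end Fermat.Agent.S36
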