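import Mathlib
import Fermat.Agent.S36.H20NormSkel
import Fermat.Agent.S36.H23InertiaField
import Fermat.Agent.S54.FrobValuation

/-!
# S36, block (N), leaf N-CYC (helper34): `H20Cyc`

The inertia group `I_A` of a valuation subring `A` of `ℚ̄` over a prime `q` acts transitively on
the primitive `q`-th roots of unity (`ℚ(ζ_q)/ℚ` is totally ramified at `q`).

Proof.  Let `π = 1 - ζ`, `v = A.valuation`.  For every primitive `q`-th root of unity `z` one has
`v (1 - z) = v π` (`(1 - z) / (1 - ζ)` is a sum of powers of `ζ`, and symmetrically), and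
`∏_z (1 - z) = Φ_q(1) = q`, so `v q = (v π) ^ (q - 1)` and `v π < 1`.  Let `O` be the orbit of `ζ`
under `I_A` and `a = ∏_{z ∈ O} (1 - z)`; then `a` is fixed by `I_A`, so `v a = (v q) ^ n` for
some `n : ℤ` (the inertia field is unramified: `h23u_exists_zpow`), and `v a = (v π) ^ #O`.
Hence `#O = (q - 1) n`, and `1 ≤ #O ≤ q - 1` forces `#O = q - 1`: the orbit is everything.

Main result: `h34y_cyc : H20Cyc`.
-/

set_option autoImplicit false

open scoped Classical

noncomputable section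

namespace Fermat.Agent.S36

open Fermat.Agent.S37 (Kbar GQ)

section

variable (A : ValuationSubring Kbar) {q : ℕ}

theorem h34y_val_one_sub_le (hq : q.Prime) {ζ z : Kbar} (hζ : IsPrimitiveRoot ζ q)
    (hz : IsPrimitiveRoot z q) : A.valuation (1 - z) ≤ A.valuation (1 - ζ) := by
  have : NeZero q := ⟨hq.ne_zero⟩
  obtain ⟨b, -, rfl⟩ := hζ.eq_pow_of_pow_eq_one hz.pow_eq_one
  have h : (1 : Kbar) - ζ ^ b = (∑ i ∈ Finset.range b, ζ ^ i) * (1 - ζ) :=
    (geom_sum_mul_neg ζ b).symm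
  have hint : (∑ i ∈ Finset.range b, ζ ^ i) ∈ A :=
    Fermat.Agent.S54.mem_valuationSubring_of_isIntegral A
      (IsIntegral.sum _ (fun i _ => (hζ.isIntegral hq.pos).pow i))
  rw [h, map_mul]
  exact mul_le_of_le_one_left' ((A.valuation_le_one_iff _).2 hint)

theorem h34y_val_one_sub (hq : q.Prime) {ζ z : Kbar} (hζ : IsPrimitiveRoot ζ q)
    (hz : IsPrimitiveRoot z q) : A.valuation (1 - z) = A.valuation (1 - ζ) :=
  le_antisymm (h34y_val_one_sub_le A hq hζ hz) (h34y_val_one_sub_le A hq hz hζ)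

theorem h34y_prod_one_sub (hq : q.Prime) {ζ : Kbar} (hζ : IsPrimitiveRoot ζ q) :
    ∏ z ∈ primitiveRoots q Kbar, (1 - z) = (q : Kbar) := by
  have : Fact q.Prime := ⟨hq⟩
  have h := congrArg (Polynomial.eval 1) (Polynomial.cyclotomic_eq_prod_X_sub_primitiveRoots hζ)
  rw [Polynomial.eval_one_cyclotomic_prime, Polynomial.eval_prod] at h
  rw [h]
  refine Finset.prod_congr rfl (fun z _ => ?_)
  simp

theorem h34y_val_q (hq : q.Prime) {ζ : Kbar} (hζ : IsPrimitiveRoot ζ q) :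
    A.valuation (q : Kbar) = A.valuation (1 - ζ) ^ (q - 1) := by
  rw [← h34y_prod_one_sub hq hζ, map_prod]
  rw [Finset.prod_congr rfl (fun z hz => h34y_val_one_sub A hq hζ
    ((mem_primitiveRoots hq.pos).1 hz)), Finset.prod_const, hζ.card_primitiveRoots,
    Nat.totient_prime hq]

theorem h34y_val_pi_lt_one (hq : q.Prime) (hA : A.LiesOverPrime q) {ζ : Kbar}
    (hζ : IsPrimitiveRoot ζ q) : A.valuation (1 - ζ) < 1 := by
  have hle : A.valuation (1 - ζ) ≤ 1 :=
    (A.valuation_le_one_iff _).2 (Fermat.Agent.S54.mem_valuationSubring_of_isIntegral A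
      ((isIntegral_one).sub (hζ.isIntegral hq.pos)))
  refine lt_of_le_of_ne hle (fun h1 => ?_)
  have hqv : A.valuation (q : Kbar) < 1 := (ValuationSubring.mem_nonunits_iff A).1 hA
  rw [h34y_val_q A hq hζ, h1, one_pow] at hqv
  exact lt_irrefl _ hqv

end

/-- **N-CYC.** -/
theorem h34y_cyc : H20Cyc := by
  intro q hq A hA ζ ζ' hζ hζ'
  have hq1 : 1 < q := hq.one_lt
  -- the orbit of `ζ`
  set O : Finset Kbar :=
    (primitiveRoots q Kbar).filter (fun z => ∃ σ ∈ A.inertiaSubgroupIn ℚ, σ ζ = z) with hO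
  have hmemO : ∀ z, z ∈ O ↔ ∃ σ ∈ A.inertiaSubgroupIn ℚ, σ ζ = z := by
    intro z
    rw [hO, Finset.mem_filter]
    refine ⟨fun h => h.2, fun h => ⟨?_, h⟩⟩
    obtain ⟨σ, -, rfl⟩ := h
    exact (mem_primitiveRoots hq.pos).2 (hζ.map_of_injective (f := σ) σ.injective)
  have hprim : ∀ z ∈ O, IsPrimitiveRoot z q := fun z hz =>
    (mem_primitiveRoots hq.pos).1 (Finset.mem_filter.1 hz).1
  have hζO : ζ ∈ O := (hmemO ζ).2 ⟨1, Subgroup.one_mem _, rfl⟩
  -- the product over the orbit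
  have ha0 : (∏ z ∈ O, (1 - z)) ≠ 0 := by
    rw [Finset.prod_ne_zero_iff]
    intro z hz h0
    exact (hprim z hz).ne_one hq1 (sub_eq_zero.1 h0).symm
  have hfix : ∀ σ ∈ A.inertiaSubgroupIn ℚ, σ (∏ z ∈ O, (1 - z)) = ∏ z ∈ O, (1 - z) := by
    intro σ hσ
    rw [map_prod]
    refine Finset.prod_bij (fun z _ => σ z) ?_ ?_ ?_ ?_
    · intro z hz
      obtain ⟨τ, hτ, rfl⟩ := (hmemO z).1 hz
      exact (hmemO _).2 ⟨σ * τ, Subgroup.mul_mem _ hσ hτ, rfl⟩
    · intro z _ z' _ h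
      exact σ.injective h
    · intro z hz
      obtain ⟨τ, hτ, rfl⟩ := (hmemO z).1 hz
      refine ⟨σ⁻¹ (τ ζ), (hmemO _).2 ⟨σ⁻¹ * τ, Subgroup.mul_mem _ (Subgroup.inv_mem _ hσ) hτ, rfl⟩,
        ?_⟩
      show σ (σ⁻¹ (τ ζ)) = τ ζ
      exact AlgEquiv.apply_symm_apply σ (τ ζ)
    · intro z _
      rw [map_sub, map_one]
  obtain ⟨n, hn1, hn2⟩ := h23u_exists_zpow hq A hA ha0 hfix
  have hq0 : ((q : ℕ) : Kbar) ≠ 0 := by exact_mod_cast hq.ne_zero
  -- valuations
  have hπ1 : A.valuation (1 - ζ) < 1 := h34y_val_pi_lt_one A hq hA hζ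
  have hπ0 : 0 < A.valuation (1 - ζ) := by
    rw [zero_lt_iff, ne_eq, map_eq_zero]
    exact fun h0 => hζ.ne_one hq1 (sub_eq_zero.1 h0).symm
  have hva : A.valuation (∏ z ∈ O, (1 - z)) = A.valuation (1 - ζ) ^ O.card := by
    rw [map_prod, Finset.prod_congr rfl (fun z hz => h34y_val_one_sub A hq hζ (hprim z hz)),
      Finset.prod_const]
  have hvn : A.valuation (∏ z ∈ O, (1 - z)) = A.valuation ((q : ℕ) : Kbar) ^ n := by
    have h1 : A.valuation ((∏ z ∈ O, (1 - z)) / ((q : ℕ) : Kbar) ^ n) = 1 := by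
      refine le_antisymm ((A.valuation_le_one_iff _).2 hn1) ?_
      have h2 := (A.valuation_le_one_iff _).2 hn2
      rw [map_inv₀] at h2
      have hne : A.valuation ((∏ z ∈ O, (1 - z)) / ((q : ℕ) : Kbar) ^ n) ≠ 0 := by
        rw [ne_eq, map_eq_zero]
        exact div_ne_zero ha0 (zpow_ne_zero _ hq0)
      exact (inv_le_one₀ (zero_lt_iff.2 hne)).1 h2
    rw [map_div₀, map_zpow₀] at h1
    have hne : A.valuation ((q : ℕ) : Kbar) ^ n ≠ 0 := by
      apply zpow_ne_zero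
      rw [ne_eq, map_eq_zero]
      exact hq0
    exact (div_eq_one_iff_eq hne).1 h1
  have hkey : A.valuation (1 - ζ) ^ ((O.card : ℕ) : ℤ)
      = A.valuation (1 - ζ) ^ (((q - 1 : ℕ) : ℤ) * n) := by
    rw [zpow_natCast, ← hva, hvn, h34y_val_q A hq hζ, zpow_mul, zpow_natCast]
  have hcard : ((O.card : ℕ) : ℤ) = ((q - 1 : ℕ) : ℤ) * n :=
    zpow_right_injective₀ hπ0 (ne_of_lt hπ1) hkey
  -- `#O = q - 1`
  have hOpos : 0 < O.card := Finset.card_pos.2 ⟨ζ, hζO⟩
  have hOle : O.card ≤ q - 1 := by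
    have h := Finset.card_le_card (Finset.filter_subset
      (fun z => ∃ σ ∈ A.inertiaSubgroupIn ℚ, σ ζ = z) (primitiveRoots q Kbar))
    rw [hζ.card_primitiveRoots, Nat.totient_prime hq] at h
    exact h
  have hq1' : (0 : ℤ) < ((q - 1 : ℕ) : ℤ) := by
    have : 0 < q - 1 := Nat.sub_pos_of_lt hq1
    exact_mod_cast this
  have hn : n = 1 := by
    have hnpos : 0 < n := by
      rcases le_or_gt n 0 with hneg | hpos
      · have h3 : ((q - 1 : ℕ) : ℤ) * n ≤ 0 := mul_nonpos_of_nonneg_of_nonpos hq1'.le hneg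
        have h2 : (0 : ℤ) < (O.card : ℤ) := by exact_mod_cast hOpos
        linarith
      · exact hpos
    have hle : ((q - 1 : ℕ) : ℤ) * n ≤ ((q - 1 : ℕ) : ℤ) * 1 := by
      rw [mul_one, ← hcard]
      exact_mod_cast hOle
    have := le_of_mul_le_mul_left hle hq1'
    omega
  have hOcard : O.card = q - 1 := by
    rw [hn, mul_one] at hcard
    exact_mod_cast hcard
  have hOeq : O = primitiveRoots q Kbar := by
    refine Finset.eq_of_subset_of_card_le (Finset.filter_subset _ _) ?_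
    rw [hζ.card_primitiveRoots, Nat.totient_prime hq, hOcard]
  have hζ'O : ζ' ∈ O := by
    rw [hOeq]
    exact (mem_primitiveRoots hq.pos).2 hζ'
  exact (hmemO ζ').1 hζ'O

end Fermat.Agent.S36
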