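import Fermat.Agent.S36.H40NormA
import Fermat.Agent.S36.H93NormD

/-!
# S36, block REG, row R-CUSP-UNIT11 (helper58, second seat): the `q² + q` conjugates over level `M`

`q` prime, `q ∤ M`, `F₀ = FF M`, `F₂ = FF (M q q)`, `inc = α ∘ α : F₀ → F₂` the inclusion.
The `q² + q` embeddings of `F₂` into `ℚ̄((s))` over `ι : F₀ → ℚ̄((s))`, `ι x = x(s^(q²))`:

* `inl c`, `c < q` : `u ↦ (E_c u)(s^(q²))`, `E_0 = E20` the standard expansion, `E_c = E11^(ζ^c)`;
* `inr b`, `b < q²` : `u ↦ (E02 u)(ξ^b s)`, `ξ` a primitive `q²`-th root of unity.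

* `h58k_fam_inc` : all of them restrict to `ι` on `inc (F₀)`;
* `h58k_fam_injective` : they are pairwise distinct;
* `h58k_finrank` : `[F₂ : inc F₀] = q² + q`;
* `h58k_charpoly`, `h58k_norm`, `h58k_trace` : the characteristic polynomial, the norm and the
  trace of `u ∈ F₂` over `F₀` are the product/sum over the family.
-/

set_option autoImplicit false
set_option linter.style.haveILetI false
set_option linter.unusedSectionVars false
set_option synthInstance.maxHeartbeats 400000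

open AlgebraicCurve ModularCurve Polynomial

noncomputable section

namespace Fermat.Agent.S36

open Fermat.Agent.S24 Fermat.Agent.Red.Kron Fermat.Agent.Red.TRK Fermat.Agent.LGC
  Fermat.Agent.Red.HKComm

section Level

variable (M q : ℕ) [NeZero M] [NeZero q]

theorem h58k_dvd : M * 1 ∣ M * q * q := by
  rw [mul_one, mul_assoc]
  exact dvd_mul_right M (q * q)

/-- the inclusion `F_M → F_{M q²}` (`= α ∘ α`). -/
def h58k_inc : FF M →ₐ[Kbar] FF (M * q * q) := degenE 1 (h58k_dvd M q)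

theorem h58k_coe_inc (x : FF M) :
    ((h58k_inc M q x : FF (M * q * q)) : LaurentSeries Kbar) = (x : LaurentSeries Kbar) := by
  rw [h58k_inc, coe_degenE, qExpand_one_apply]

theorem h58k_inc_eq (x : FF M) :
    h58k_inc M q x = heckeAlphaBar Kbar (M * q) q (heckeAlphaBar Kbar M q x) := by
  apply Subtype.ext
  rw [h58k_coe_inc, coe_heckeAlphaBar, coe_heckeAlphaBar]

/-- the common restriction: `x ↦ x(s^(q²))`. -/
def h58k_iota : FF M →+* LaurentSeries Kbar :=
  (qExpand Kbar (q * q) : LaurentSeries Kbar →+* LaurentSeries Kbar).comp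
    (algebraMap (FF M) (LaurentSeries Kbar))

theorem h58k_iota_apply (x : FF M) :
    h58k_iota M q x = qExpand Kbar (q * q) (x : LaurentSeries Kbar) := rfl

/-- the family of the `q² + q` embeddings over `inc`. -/
def h58k_fam (E : ℕ → (FF (M * q * q) →+* LaurentSeries Kbar))
    (E0 : FF (M * q * q) →+* LaurentSeries Kbar) (ξ : Kbar) (hξ : ξ ≠ 0) :
    Fin q ⊕ Fin (q * q) → (FF (M * q * q) →+* LaurentSeries Kbar)
  | Sum.inl c => (qExpand Kbar (q * q) : LaurentSeries Kbar →+* LaurentSeries Kbar).comp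
      (h40naFam M q E (c : ℕ))
  | Sum.inr b => h93nTw M q E0 (ξ ^ (b : ℕ)) (pow_ne_zero _ hξ)

theorem h58k_fam_inl (E : ℕ → (FF (M * q * q) →+* LaurentSeries Kbar))
    (E0 : FF (M * q * q) →+* LaurentSeries Kbar) (ξ : Kbar) (hξ : ξ ≠ 0) (c : Fin q)
    (u : FF (M * q * q)) :
    h58k_fam M q E E0 ξ hξ (Sum.inl c) u = qExpand Kbar (q * q) (h40naFam M q E (c : ℕ) u) := rfl

theorem h58k_fam_inr (E : ℕ → (FF (M * q * q) →+* LaurentSeries Kbar))
    (E0 : FF (M * q * q) →+* LaurentSeries Kbar) (ξ : Kbar) (hξ : ξ ≠ 0) (b : Fin (q * q))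
    (u : FF (M * q * q)) :
    h58k_fam M q E E0 ξ hξ (Sum.inr b) u = twistK (ξ ^ (b : ℕ)) (E0 u) := rfl

/-- all members restrict to `ι` on `inc (F_M)`. -/
theorem h58k_fam_inc (hq : q.Prime) (hqM : ¬ q ∣ M) (ζ : Kbar)
    (E : ℕ → (FF (M * q * q) →+* LaurentSeries Kbar))
    (hE : ∀ b : ℕ, 0 < b → b < q → h20n_IsE11 M q hq hqM (ζ ^ b) (E b))
    (E0 : FF (M * q * q) →+* LaurentSeries Kbar) (hE0 : h20n_IsE02 M q hq hqM E0)
    (ξ : Kbar) (hξ : ξ ≠ 0) (hξq : ξ ^ (q * q) = 1)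
    (i : Fin q ⊕ Fin (q * q)) (x : FF M) :
    h58k_fam M q E E0 ξ hξ i (h58k_inc M q x) = h58k_iota M q x := by
  rw [h58k_inc_eq, h58k_iota_apply]
  rcases i with c | b
  · rw [h58k_fam_inl, h40naFam_alpha M q hq hqM ζ E hE c, IntermediateField.algebraMap_apply,
      coe_heckeAlphaBar]
  · rw [h58k_fam_inr, hE0.1, kFricke_alpha, coe_heckeBetaBar, qExpand_qExpand]
    apply twistK_qExpand
    rw [← pow_mul, mul_comm, pow_mul, hξq, one_pow]

/-- the test element `β (w j)` of helper40 / helper93. -/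
theorem h58k_test_inr (hq : q.Prime) (hqM : ¬ q ∣ M)
    (E : ℕ → (FF (M * q * q) →+* LaurentSeries Kbar))
    (E0 : FF (M * q * q) →+* LaurentSeries Kbar) (hE0 : h20n_IsE02 M q hq hqM E0)
    (ξ : Kbar) (hξ : ξ ≠ 0) (b : Fin (q * q)) :
    (h58k_fam M q E E0 ξ hξ (Sum.inr b) (h40naTest M q hq hqM)).coeff (-1) =
      (ξ ^ (b : ℕ))⁻¹ := by
  rw [h58k_fam_inr, h40naTest, hE0.2, kFricke_kFricke, coeff_twistK, h40na_coeff_jBar_neg_one,
    one_mul, zpow_neg_one]

theorem h58k_test_inl (hq : q.Prime) (hqM : ¬ q ∣ M)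
    (E : ℕ → (FF (M * q * q) →+* LaurentSeries Kbar))
    (E0 : FF (M * q * q) →+* LaurentSeries Kbar)
    (ξ : Kbar) (hξ : ξ ≠ 0) (c : Fin q) (u : FF (M * q * q)) :
    (h58k_fam M q E E0 ξ hξ (Sum.inl c) u).coeff (-1) = 0 := by
  rw [h58k_fam_inl]
  apply qExpand_coeff_of_not_dvd
  intro h
  have h1 : (((q * q : ℕ) : ℤ)) ∣ 1 := (dvd_neg.mp h)
  have h2 : ((q * q : ℕ) : ℤ) ≤ 1 := Int.le_of_dvd one_pos h1
  have h3 : 1 < q := hq.one_lt
  have h4 : 1 < q * q := by nlinarith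
  omega

/-- the members are pairwise distinct. -/
theorem h58k_fam_injective (hq : q.Prime) (hqM : ¬ q ∣ M) (ζ : Kbar) (hζ : IsPrimitiveRoot ζ q)
    (E : ℕ → (FF (M * q * q) →+* LaurentSeries Kbar))
    (hE : ∀ b : ℕ, 0 < b → b < q → h20n_IsE11 M q hq hqM (ζ ^ b) (E b))
    (E0 : FF (M * q * q) →+* LaurentSeries Kbar) (hE0 : h20n_IsE02 M q hq hqM E0)
    (ξ : Kbar) (hξ : IsPrimitiveRoot ξ (q * q)) :
    Function.Injective (h58k_fam M q E E0 ξ (hξ.ne_zero (NeZero.ne (q * q)))) := by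
  have hξ0 : ξ ≠ 0 := hξ.ne_zero (NeZero.ne (q * q))
  intro i j hij
  have h1 : (h58k_fam M q E E0 ξ hξ0 i (h40naTest M q hq hqM)).coeff (-1) =
      (h58k_fam M q E E0 ξ hξ0 j (h40naTest M q hq hqM)).coeff (-1) := by rw [hij]
  rcases i with c | b <;> rcases j with c' | b'
  · congr 1
    apply h40naFam_injective M q hq hqM ζ hζ E hE
    apply RingHom.ext
    intro u
    have h2 := congrArg (fun e : FF (M * q * q) →+* LaurentSeries Kbar => e u) hij
    simp only [h58k_fam_inl] at h2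
    exact qExpand_injective (q * q) h2
  · exfalso
    rw [h58k_test_inl M q hq hqM, h58k_test_inr M q hq hqM E E0 hE0] at h1
    exact inv_ne_zero (pow_ne_zero _ hξ0) h1.symm
  · exfalso
    rw [h58k_test_inl M q hq hqM, h58k_test_inr M q hq hqM E E0 hE0] at h1
    exact inv_ne_zero (pow_ne_zero _ hξ0) h1
  · rw [h58k_test_inr M q hq hqM E E0 hE0, h58k_test_inr M q hq hqM E E0 hE0] at h1
    congr 1
    exact Fin.ext (hξ.pow_inj b.2 b'.2 (inv_injective h1))

/-- `[F_{M q²} : F_M] = q² + q`. -/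
theorem h58k_finrank (hq : q.Prime) (hqM : ¬ q ∣ M) :
    letI := algebraAlong (h58k_inc M q)
    Module.finrank (FF M) (FF (M * q * q)) = q + q * q := by
  have h := deg M (M * q * q) (h58k_dvd M q)
  have hM : dedekindPsi M ≠ 0 := hksq_dedekindPsi_ne_zero M (NeZero.ne M)
  have h1 : dedekindPsi (M * q * q) = dedekindPsi (M * q) * q := by
    rw [hkdeg_psi_mul_prime (M * q) q (Nat.pos_of_ne_zero (NeZero.ne (M * q))) hq,
      if_pos (dvd_mul_left q M)]
  have h2 : dedekindPsi (M * q) = dedekindPsi M * (q + 1) := by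
    rw [hkdeg_psi_mul_prime M q (Nat.pos_of_ne_zero (NeZero.ne M)) hq, if_neg hqM]
  rw [h1, h2] at h
  have h3 : finrankAlong Kbar (degenE 1 (h58k_dvd M q)) * dedekindPsi M =
      dedekindPsi M * (q + q * q) := by rw [h]; ring
  rw [mul_comm] at h3
  exact Nat.eq_of_mul_eq_mul_left (Nat.pos_of_ne_zero hM) h3

theorem h58k_card (hq : q.Prime) (hqM : ¬ q ∣ M) :
    letI := algebraAlong (h58k_inc M q)
    Fintype.card (Fin q ⊕ Fin (q * q)) = Module.finrank (FF M) (FF (M * q * q)) := by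
  rw [h58k_finrank M q hq hqM, Fintype.card_sum, Fintype.card_fin, Fintype.card_fin]

/-- **the characteristic polynomial of `u ∈ F_{M q²}` over `F_M`**, in `ℚ̄((s))[X]`: the product
over the `q² + q` conjugate expansions. -/
theorem h58k_charpoly (hq : q.Prime) (hqM : ¬ q ∣ M) (ζ : Kbar) (hζ : IsPrimitiveRoot ζ q)
    (E : ℕ → (FF (M * q * q) →+* LaurentSeries Kbar))
    (hE : ∀ b : ℕ, 0 < b → b < q → h20n_IsE11 M q hq hqM (ζ ^ b) (E b))
    (E0 : FF (M * q * q) →+* LaurentSeries Kbar) (hE0 : h20n_IsE02 M q hq hqM E0)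
    (ξ : Kbar) (hξ : IsPrimitiveRoot ξ (q * q)) (u : FF (M * q * q)) :
    (charpolyAlong (h58k_inc M q) (hkdeg_finiteAlong_degenE_one (h58k_dvd M q)) u).map
        (h58k_iota M q) =
      ∏ i, (X - C (h58k_fam M q E E0 ξ (hξ.ne_zero (NeZero.ne (q * q))) i u)) := by
  letI := algebraAlong (h58k_inc M q)
  haveI : FiniteDimensional (FF M) (FF (M * q * q)) :=
    hkdeg_finiteAlong_degenE_one (h58k_dvd M q)
  haveI : Algebra.IsSeparable (FF M) (FF (M * q * q)) := inferInstance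
  haveI : Infinite (FF M) := inferInstance
  exact charpoly_map_eq_prod_of_embeddings (K := FF M) (L := FF (M * q * q))
    (h58k_iota M q) (h58k_fam M q E E0 ξ (hξ.ne_zero (NeZero.ne (q * q))))
    (h58k_fam_injective M q hq hqM ζ hζ E hE E0 hE0 ξ hξ)
    (fun i x => h58k_fam_inc M q hq hqM ζ E hE E0 hE0 ξ (hξ.ne_zero (NeZero.ne (q * q)))
      (hξ.pow_eq_one) i x)
    (h58k_card M q hq hqM) u

/-- **the norm of `u ∈ F_{M q²}` to `F_M`**: `Nm(u)(s^(q²)) = ∏ (conjugate expansions)`. -/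
theorem h58k_norm (hq : q.Prime) (hqM : ¬ q ∣ M) (ζ : Kbar) (hζ : IsPrimitiveRoot ζ q)
    (E : ℕ → (FF (M * q * q) →+* LaurentSeries Kbar))
    (hE : ∀ b : ℕ, 0 < b → b < q → h20n_IsE11 M q hq hqM (ζ ^ b) (E b))
    (E0 : FF (M * q * q) →+* LaurentSeries Kbar) (hE0 : h20n_IsE02 M q hq hqM E0)
    (ξ : Kbar) (hξ : IsPrimitiveRoot ξ (q * q)) (u : FF (M * q * q)) :
    qExpand Kbar (q * q) ((Fermat.Agent.Red.KR.normAlong (h58k_inc M q) u : FF M) : LaurentSeries Kbar) =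
      ∏ i, h58k_fam M q E E0 ξ (hξ.ne_zero (NeZero.ne (q * q))) i u := by
  letI := algebraAlong (h58k_inc M q)
  haveI : FiniteDimensional (FF M) (FF (M * q * q)) :=
    hkdeg_finiteAlong_degenE_one (h58k_dvd M q)
  haveI : Algebra.IsSeparable (FF M) (FF (M * q * q)) := inferInstance
  exact norm_eq_prod_of_embeddings (K := FF M) (L := FF (M * q * q))
    (h58k_iota M q) (h58k_fam M q E E0 ξ (hξ.ne_zero (NeZero.ne (q * q))))
    (h58k_fam_injective M q hq hqM ζ hζ E hE E0 hE0 ξ hξ)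
    (fun i x => h58k_fam_inc M q hq hqM ζ E hE E0 hE0 ξ (hξ.ne_zero (NeZero.ne (q * q)))
      (hξ.pow_eq_one) i x)
    (h58k_card M q hq hqM) u

/-- the product over the family, split into the three types of cusps. -/
theorem h58k_prod_split (E : ℕ → (FF (M * q * q) →+* LaurentSeries Kbar))
    (E0 : FF (M * q * q) →+* LaurentSeries Kbar) (ξ : Kbar) (hξ : ξ ≠ 0)
    (u : FF (M * q * q)) :
    ∏ i, h58k_fam M q E E0 ξ hξ i u =
      (∏ c ∈ Finset.range q, qExpand Kbar (q * q) (h40naFam M q E c u)) *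
        ∏ b ∈ Finset.range (q * q), twistK (ξ ^ b) (E0 u) := by
  rw [Fintype.prod_sum_type]
  congr 1
  · exact Fin.prod_univ_eq_prod_range
      (fun c : ℕ => qExpand Kbar (q * q) (h40naFam M q E c u)) q
  · exact Fin.prod_univ_eq_prod_range (fun b : ℕ => twistK (ξ ^ b) (E0 u)) (q * q)

end Level

end Fermat.Agent.S36
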