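import Mathlib

/-!
# S36, row T-UNIT, abstract part (helper12, prefix `h12u_`)

Mathlib only.

`φ : F → F'` a homomorphism of fields, `Nm : F' → F` a multiplicative map with
`Nm (φ a) = a ^ d` (the norm), `B ⊆ F`, `B' ⊆ F'` subrings with `φ B ⊆ B'`, `B'` integral over
`φ B`, `Nm B' ⊆ B`.  Let `𝔫` be a maximal ideal of `B'` which is the ONLY maximal ideal of `B'`
containing `φ 𝔫a`, `𝔫a` a maximal ideal of `B`.

* `h12u_exists_dvd` : every `s ∈ B' ∖ 𝔫` divides `φ r` in `B'` for some `r ∈ B ∖ 𝔫a`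
  (going-up).
* `h12u_unit_norm_abs` : if `u ∈ F'` is a unit of the local ring `B'_𝔫`
  (`s u, s u⁻¹ ∈ B'` for some `s ∈ B' ∖ 𝔫`) then `Nm u` is a unit of the local ring `B_𝔫a`
  (`r Nm u, r (Nm u)⁻¹ ∈ B` for some `r ∈ B ∖ 𝔫a`).
-/

set_option autoImplicit false
set_option linter.style.haveILetI false

open Polynomial

namespace Fermat.Agent.S36

section Abs

variable {F F' : Type*} [Field F] [Field F'] (φ : F →+* F') (B : Subring F) (B' : Subring F')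

/-- the restriction of `φ` to the subrings. -/
def h12uRes (hφB : ∀ b ∈ B, φ b ∈ B') : B →+* B' where
  toFun b := ⟨φ (b : F), hφB _ b.2⟩
  map_one' := Subtype.ext (by simp)
  map_mul' _ _ := Subtype.ext (by simp)
  map_zero' := Subtype.ext (by simp)
  map_add' _ _ := Subtype.ext (by simp)

@[simp]
theorem h12u_coe_res (hφB : ∀ b ∈ B, φ b ∈ B') (b : B) :
    ((h12uRes φ B B' hφB b : B') : F') = φ (b : F) := rfl

/-- integrality over the restriction. -/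
theorem h12u_res_isIntegral (hφB : ∀ b ∈ B, φ b ∈ B')
    (hint : ∀ y ∈ B', ∃ p : F[X], p.Monic ∧ (∀ i, p.coeff i ∈ B) ∧ p.eval₂ φ y = 0) :
    (h12uRes φ B B' hφB).IsIntegral := by
  intro y
  obtain ⟨p, hp, hc, hpy⟩ := hint (y : F') y.2
  have hsub : (↑p.coeffs : Set F) ⊆ B := by
    intro c hc'
    rw [Finset.mem_coe, Polynomial.mem_coeffs_iff] at hc'
    obtain ⟨n, -, rfl⟩ := hc'
    exact hc n
  refine ⟨p.toSubring B hsub, (Polynomial.monic_toSubring p B hsub).mpr hp, ?_⟩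
  apply Subtype.ext
  have h1 : (B'.subtype).comp (h12uRes φ B B' hφB) = φ.comp B.subtype := RingHom.ext fun _ => rfl
  have h2 : B'.subtype (eval₂ (h12uRes φ B B' hφB) y (p.toSubring B hsub)) =
      eval₂ φ (y : F') p := by
    rw [Polynomial.hom_eval₂, h1, ← Polynomial.eval₂_map, Polynomial.map_toSubring]
    rfl
  have h3 : ((eval₂ (h12uRes φ B B' hφB) y (p.toSubring B hsub) : B') : F') =
      eval₂ φ (y : F') p := h2
  rw [h3, hpy]
  rfl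

/-- **going-up**: an element outside the only maximal ideal over `𝔫a` divides the image of an
element outside `𝔫a`. -/
theorem h12u_exists_dvd (hφB : ∀ b ∈ B, φ b ∈ B')
    (hint : ∀ y ∈ B', ∃ p : F[X], p.Monic ∧ (∀ i, p.coeff i ∈ B) ∧ p.eval₂ φ y = 0)
    (𝔫a : Ideal B) (h𝔫a : 𝔫a.IsMaximal) (𝔫 : Ideal B')
    (huniq : ∀ 𝔫' : Ideal B', 𝔫'.IsMaximal →
      (∀ b : B, b ∈ 𝔫a → ∀ b' : B', (b' : F') = φ (b : F) → b' ∈ 𝔫') → 𝔫' = 𝔫)
    (s : B') (hs : s ∉ 𝔫) :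
    ∃ (r : B) (y : B'), r ∉ 𝔫a ∧ (φ (r : F) : F') = (y : F') * (s : F') := by
  classical
  by_contra hcon
  simp only [not_exists, not_and] at hcon
  let _ : Algebra B B' := (h12uRes φ B B' hφB).toAlgebra
  haveI : Algebra.IsIntegral B B' := ⟨h12u_res_isIntegral φ B B' hφB hint⟩
  haveI : 𝔫a.IsPrime := h𝔫a.isPrime
  have hle : (Ideal.span {s}).comap (algebraMap B B') ≤ 𝔫a := by
    intro r hr
    by_contra hr'
    rw [Ideal.mem_comap, Ideal.mem_span_singleton'] at hr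
    obtain ⟨y, hy⟩ := hr
    refine hcon r y hr' ?_
    have h1 := congrArg (fun z : B' => (z : F')) hy
    simp only [Subring.coe_mul] at h1
    rw [h1]
    rfl
  obtain ⟨Q, hQs, hQp, hQ⟩ := Ideal.exists_ideal_over_prime_of_isIntegral 𝔫a (Ideal.span {s}) hle
  haveI := hQp
  have hQmax : Q.IsMaximal :=
    Ideal.isMaximal_of_isIntegral_of_isMaximal_comap Q (by rw [hQ]; exact h𝔫a)
  have hQ𝔫 : Q = 𝔫 := by
    refine huniq Q hQmax fun b hb b' hb' => ?_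
    have h1 : b ∈ Q.comap (algebraMap B B') := by rw [hQ]; exact hb
    have h2 : b' = algebraMap B B' b := Subtype.ext hb'
    rw [h2]
    exact h1
  exact hs (hQ𝔫 ▸ hQs (Ideal.mem_span_singleton_self s))

/-- **T-UNIT (abstract).**  The norm of a unit of the local ring at the only point over `𝔫a`
is a unit of the local ring at `𝔫a`. -/
theorem h12u_unit_norm_abs (Nm : F' → F) (hNmul : ∀ x y, Nm (x * y) = Nm x * Nm y) (d : ℕ)
    (hNφ : ∀ a : F, Nm (φ a) = a ^ d)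
    (hφB : ∀ b ∈ B, φ b ∈ B')
    (hint : ∀ y ∈ B', ∃ p : F[X], p.Monic ∧ (∀ i, p.coeff i ∈ B) ∧ p.eval₂ φ y = 0)
    (hNB : ∀ y ∈ B', Nm y ∈ B)
    (𝔫a : Ideal B) (h𝔫a : 𝔫a.IsMaximal) (𝔫 : Ideal B')
    (huniq : ∀ 𝔫' : Ideal B', 𝔫'.IsMaximal →
      (∀ b : B, b ∈ 𝔫a → ∀ b' : B', (b' : F') = φ (b : F) → b' ∈ 𝔫') → 𝔫' = 𝔫)
    (u : F') (hu0 : u ≠ 0) (s : B') (hs : s ∉ 𝔫) (hsu : (s : F') * u ∈ B')
    (hsu' : (s : F') * u⁻¹ ∈ B') :
    Nm u ≠ 0 ∧ ∃ r : B, r ∉ 𝔫a ∧ (r : F) * Nm u ∈ B ∧ (r : F) * (Nm u)⁻¹ ∈ B := by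
  have hN1 : Nm 1 = 1 := by
    have h := hNφ 1
    rwa [map_one, one_pow] at h
  have hNu : Nm u * Nm u⁻¹ = 1 := by rw [← hNmul, mul_inv_cancel₀ hu0, hN1]
  have hNu0 : Nm u ≠ 0 := left_ne_zero_of_mul_eq_one hNu
  have hNinv : Nm u⁻¹ = (Nm u)⁻¹ := eq_inv_of_mul_eq_one_right hNu
  obtain ⟨r, y, hr, hry⟩ := h12u_exists_dvd φ B B' hφB hint 𝔫a h𝔫a 𝔫 huniq s hs
  haveI : 𝔫a.IsPrime := h𝔫a.isPrime
  refine ⟨hNu0, r ^ d, fun h => hr (Ideal.IsPrime.mem_of_pow_mem inferInstance d h), ?_, ?_⟩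
  · have h1 : φ (r : F) * u ∈ B' := by
      rw [hry, mul_assoc]
      exact B'.mul_mem y.2 hsu
    have h2 := hNB _ h1
    rwa [hNmul, hNφ] at h2
  · have h1 : φ (r : F) * u⁻¹ ∈ B' := by
      rw [hry, mul_assoc]
      exact B'.mul_mem y.2 hsu'
    have h2 := hNB _ h1
    rwa [hNmul, hNφ, hNinv] at h2

end Abs

end Fermat.Agent.S36
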