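import Fermat.Agent.S36.H44Fricke2
import Fermat.Agent.LGC.FrickeChart

/-!
# S36 / (R): the Fricke involution `W_{q²}` preserves the finite chart of level `M q q`

For a prime `q ∤ M` and a valuation subring `A` of `ℚ̄` over `q`, the Fricke involution
`w₂ = h44s_fricke2 M q` maps `modelFin (M * q * q) A` (the integral closure of `A[j]` in
`F_{Mqq}`) onto itself (`h44s_fricke2_mem_modelFin`, `h44s_fricke2_mem_modelFin_iff`), because
`j(t^q)` and `j(t^(q²))` are integral over `A[j]` (`h44s_ab_jB_mem_modelFin`,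
`h44s_bb_jB_mem_modelFin`).

The image of the chart at infinity is the integral closure of `A[1 / j(t^(q²))]`
(`h44s_fricke2_mem_modelInf`).
-/

set_option autoImplicit false
set_option linter.unusedSectionVars false

open ModularCurve AlgebraicCurve

noncomputable section

namespace Fermat.Agent.S36

open Fermat.Agent.S37 Fermat.Agent.Red.Kron Fermat.Agent.Red.KR

variable (M q : ℕ) [NeZero M] [NeZero q]

theorem h44s_aa_jB : h44s_aa M q (jB M) = jB (M * q * q) := by
  rw [h44s_aa_apply]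
  have e1 : heckeAlphaBar Kbar M q (jB M) = jB (M * q) :=
    Fermat.Agent.Red.HKMod.heckeAlphaBar_jBar M q
  have e2 : heckeAlphaBar Kbar (M * q) q (jB (M * q)) = jB (M * q * q) :=
    Fermat.Agent.Red.HKMod.heckeAlphaBar_jBar (M * q) q
  rw [e1, e2]

/-- `j(t^q)` is integral over `A[j]` in `F_{Mqq}`. -/
theorem h44s_ab_jB_mem_modelFin (hq : q.Prime) (hM : ¬ q ∣ M) (A : ValuationSubring Kbar)
    (hA : A.LiesOverPrime q) : h44s_ab M q (jB M) ∈ modelFin (M * q * q) A := by
  have h1 : heckeBetaBar Kbar M q (jB M) ∈ modelAt (M * q) A (jB (M * q)) :=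
    meAlpha M q hq hM A hA
  have h2 := map_mem_modelAt (heckeAlphaBar Kbar (M * q) q) A h1
  have e2 : heckeAlphaBar Kbar (M * q) q (jB (M * q)) = jB (M * q * q) :=
    Fermat.Agent.Red.HKMod.heckeAlphaBar_jBar (M * q) q
  rw [e2] at h2
  exact h2

/-- `j(t^(q²))` is integral over `A[j]` in `F_{Mqq}`. -/
theorem h44s_bb_jB_mem_modelFin (hq : q.Prime) (hM : ¬ q ∣ M) (A : ValuationSubring Kbar)
    (hA : A.LiesOverPrime q) : h44s_bb M q (jB M) ∈ modelFin (M * q * q) A := by
  have h1 : heckeBetaBar Kbar M q (jB M) ∈ modelAt (M * q) A (jB (M * q)) :=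
    meAlpha M q hq hM A hA
  have h2 := map_mem_modelAt (heckeBetaBar Kbar (M * q) q) A h1
  have e1 : heckeAlphaBar Kbar M q (jB M) = jB (M * q) :=
    Fermat.Agent.Red.HKMod.heckeAlphaBar_jBar M q
  have e2 : heckeBetaBar Kbar (M * q) q (jB (M * q)) = h44s_ab M q (jB M) := by
    rw [← e1]
    exact h44s_beta_alpha M q (jB M)
  rw [e2] at h2
  exact h66_modelAt_le_of_mem (M * q * q) A (h44s_ab_jB_mem_modelFin M q hq hM A hA) h2

theorem h44s_fricke2_jB (hq : q.Prime) (hM : ¬ q ∣ M) :
    h44s_fricke2 M q hq hM (jB (M * q * q)) = h44s_bb M q (jB M) := by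
  rw [← h44s_aa_jB, h44s_fricke2_aa]

/-- `w₂` maps the chart `A[t]`-integral closure to the `A[w₂ t]`-integral closure. -/
theorem h44s_fricke2_mem_modelAt (hq : q.Prime) (hM : ¬ q ∣ M) (A : ValuationSubring Kbar)
    {t x : FF (M * q * q)} (hx : x ∈ modelAt (M * q * q) A t) :
    h44s_fricke2 M q hq hM x ∈ modelAt (M * q * q) A (h44s_fricke2 M q hq hM t) :=
  map_mem_modelAt ((h44s_fricke2 M q hq hM : FF (M * q * q) ≃ₐ[Kbar] FF (M * q * q)) :
    FF (M * q * q) →ₐ[Kbar] FF (M * q * q)) A hx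

/-- **the Fricke involution `W_{q²}` preserves the finite chart.** -/
theorem h44s_fricke2_mem_modelFin (hq : q.Prime) (hM : ¬ q ∣ M) (A : ValuationSubring Kbar)
    (hA : A.LiesOverPrime q) {x : FF (M * q * q)} (hx : x ∈ modelFin (M * q * q) A) :
    h44s_fricke2 M q hq hM x ∈ modelFin (M * q * q) A := by
  have h1 := h44s_fricke2_mem_modelAt M q hq hM A hx
  rw [h44s_fricke2_jB] at h1
  exact h66_modelAt_le_of_mem (M * q * q) A (h44s_bb_jB_mem_modelFin M q hq hM A hA) h1

theorem h44s_fricke2_mem_modelFin_iff (hq : q.Prime) (hM : ¬ q ∣ M)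
    (A : ValuationSubring Kbar) (hA : A.LiesOverPrime q) (x : FF (M * q * q)) :
    h44s_fricke2 M q hq hM x ∈ modelFin (M * q * q) A ↔ x ∈ modelFin (M * q * q) A := by
  constructor
  · intro h
    have h1 := h44s_fricke2_mem_modelFin M q hq hM A hA h
    rwa [h44s_fricke2_fricke2] at h1
  · exact h44s_fricke2_mem_modelFin M q hq hM A hA

/-- the image of the chart at infinity: `w₂ (modelInf)` is contained in the integral closure of
`A[1 / j(t^(q²))]`. -/
theorem h44s_fricke2_mem_modelInf (hq : q.Prime) (hM : ¬ q ∣ M) (A : ValuationSubring Kbar)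
    {x : FF (M * q * q)} (hx : x ∈ modelInf (M * q * q) A) :
    h44s_fricke2 M q hq hM x ∈ modelAt (M * q * q) A (h44s_bb M q (jB M))⁻¹ := by
  have h1 := h44s_fricke2_mem_modelAt M q hq hM A hx
  rwa [map_inv₀, h44s_fricke2_jB] at h1

/-- `w₂` preserves the functions fixed by a subgroup of the Galois group. -/
theorem h44s_fricke2_fixed (hq : q.Prime) (hM : ¬ q ∣ M) (σ : GQ) {x : FF (M * q * q)}
    (hx : gal (M * q * q) σ • x = x) :
    gal (M * q * q) σ • h44s_fricke2 M q hq hM x = h44s_fricke2 M q hq hM x := by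
  have h := h44s_fricke2_gal M q hq hM σ x
  have hx' : arithmeticGalois (modularFunctionFieldFull (M * q * q)) σ • x = x := hx
  rw [hx'] at h
  exact h.symm

end Fermat.Agent.S36
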