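import Mathlib
import Fermat.Agent.Red.ModelO.FiniteNoeth
import Fermat.Agent.Red.ModelO.ValCrit
import Fermat.Agent.S36.H59ChartInt

/-!
# S36, block REG, leaf R-NOETH (helper59): abstract part

* `h59n_exists_span` : `k' ≤ F'` subfields of `L`, `F'` contained in the subfield generated by
  `k'` and a finite set `S` of elements algebraic over `k'`: then `F'` is spanned over `k'` by
  a finite subset `T ⊆ F'`.
* `h59n_isNoetherianRing_of_fg` : a subring `C ⊆ L` which contains the image of
  `ρ : O[X] → L` and is generated as a `ρ(O[X])`-module by finitely many of its elements is a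
  noetherian ring (`O` noetherian).
-/

set_option autoImplicit false
set_option linter.style.haveILetI false

open Polynomial

namespace Fermat.Agent.S36

/-- **finite spanning set.** -/
theorem h59n_exists_span {L : Type*} [Field L] (k' F' : Subfield L) (hk : k' ≤ F')
    (S : Finset L)
    (hS : ∀ s ∈ S, ∃ p : Polynomial k', p ≠ 0 ∧ Polynomial.eval₂ k'.subtype s p = 0)
    (hF : F' ≤ Subfield.closure ((k' : Set L) ∪ (S : Set L))) :
    ∃ T : Finset L, (∀ u ∈ T, u ∈ F') ∧
      ∀ x ∈ F', ∃ c : L → L, (∀ u, c u ∈ k') ∧ x = ∑ u ∈ T, c u * u := by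
  classical
  have hint : ∀ s ∈ (S : Set L), IsIntegral k' s := by
    intro s hs
    obtain ⟨p, hp0, hp⟩ := hS s hs
    have halg : IsAlgebraic k' s := ⟨p, hp0, hp⟩
    exact halg.isIntegral
  haveI : Finite (S : Set L) := Finset.finite_toSet S |>.to_subtype
  have hfd : FiniteDimensional k' (IntermediateField.adjoin k' (S : Set L)) :=
    IntermediateField.finiteDimensional_adjoin hint
  -- `F'` as a `k'`-submodule of `L`
  let W : Submodule k' L :=
    { carrier := F'
      add_mem' := fun {a b} ha hb => F'.add_mem ha hb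
      zero_mem' := F'.zero_mem
      smul_mem' := fun c x hx => by
        show c • x ∈ F'
        rw [Algebra.smul_def]
        exact F'.mul_mem (hk c.2) hx }
  have hWE : W ≤ (IntermediateField.adjoin k' (S : Set L)).toSubalgebra.toSubmodule := by
    intro x hx
    have h1 : x ∈ Subfield.closure ((k' : Set L) ∪ (S : Set L)) := hF hx
    have h2 : Subfield.closure ((k' : Set L) ∪ (S : Set L)) ≤
        (IntermediateField.adjoin k' (S : Set L)).toSubfield := by
      apply Subfield.closure_le.mpr
      rintro y (hy | hy)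
      · exact (IntermediateField.adjoin k' (S : Set L)).algebraMap_mem ⟨y, hy⟩
      · exact IntermediateField.subset_adjoin k' _ hy
    exact h2 h1
  haveI : FiniteDimensional k' (IntermediateField.adjoin k' (S : Set L)).toSubalgebra.toSubmodule :=
    hfd
  have hWfd : FiniteDimensional k' W := Submodule.finiteDimensional_of_le hWE
  have hWfg : W.FG := (Submodule.fg_top W).mp (Module.finite_def.mp hWfd)
  obtain ⟨T, hT⟩ := hWfg
  refine ⟨T, fun u hu => ?_, fun x hx => ?_⟩
  · have : u ∈ W := hT ▸ Submodule.subset_span hu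
    exact this
  · have hx' : x ∈ Submodule.span k' (T : Set L) := by
      rw [hT]
      exact hx
    obtain ⟨f, -, hf⟩ := (Submodule.mem_span_finset).mp hx'
    refine ⟨fun u => (f u : L), fun u => (f u).2, ?_⟩
    rw [← hf]
    refine Finset.sum_congr rfl fun u _ => ?_
    rw [Algebra.smul_def]
    rfl

/-- **a module-finite subring over a noetherian polynomial ring is noetherian.** -/
theorem h59n_isNoetherianRing_of_fg {O L : Type*} [CommRing O] [IsNoetherianRing O]
    [CommRing L] (ρ : Polynomial O →+* L) (C : Subring L) (hρ : ∀ P, ρ P ∈ C)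
    (G : Finset L) (hG : ∀ g ∈ G, g ∈ C)
    (hgen : ∀ x ∈ C, ∃ c : L → Polynomial O, x = ∑ g ∈ G, ρ (c g) * g) :
    IsNoetherianRing C := by
  classical
  let ρ' : Polynomial O →+* C := ρ.codRestrict C hρ
  letI : Algebra (Polynomial O) C := ρ'.toAlgebra
  have hfin : Module.Finite (Polynomial O) C := by
    refine ⟨⟨G.attach.image (fun g => (⟨g.1, hG g.1 g.2⟩ : C)), ?_⟩⟩
    rw [eq_top_iff]
    rintro x -
    obtain ⟨c, hc⟩ := hgen x.1 x.2
    have hx : x = ∑ g ∈ G.attach, c g.1 • (⟨g.1, hG g.1 g.2⟩ : C) := by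
      apply Subtype.ext
      rw [hc, ← Finset.sum_attach G]
      push_cast
      refine Finset.sum_congr rfl fun g _ => ?_
      rw [Algebra.smul_def]
      rfl
    rw [hx]
    refine Submodule.sum_mem _ fun g _ => Submodule.smul_mem _ _ (Submodule.subset_span ?_)
    rw [Finset.coe_image]
    exact ⟨g, Finset.mem_coe.mpr (Finset.mem_attach _ _), rfl⟩
  exact IsNoetherianRing.of_finite (Polynomial O) C

/-- **the integral closure of `O[t]` in a finitely generated algebraic extension `F'` of
`Frac(O)(t)` is a noetherian ring** (`O` noetherian integrally closed, characteristic zero). -/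
theorem h59n_isNoetherianRing_abs {O L : Type*} [CommRing O] [IsDomain O]
    [IsIntegrallyClosed O] [IsNoetherianRing O] [Field L] [CharZero L]
    (ψ : O →+* L) (t : L) (ht : Function.Injective (eval₂RingHom ψ t))
    (F' : Subfield L) (hF' : ∀ P, eval₂RingHom ψ t P ∈ F')
    (S₀ : Finset L)
    (hS₀ : ∀ s ∈ S₀, ∃ p : Polynomial (Subfield.closure (Set.range (eval₂RingHom ψ t))),
      p ≠ 0 ∧ Polynomial.eval₂ (Subfield.closure (Set.range (eval₂RingHom ψ t))).subtype s p = 0)
    (hF : F' ≤ Subfield.closure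
      (((Subfield.closure (Set.range (eval₂RingHom ψ t)) : Subfield L) : Set L) ∪ (S₀ : Set L)))
    (B : Subring L) (hB : ∀ x, x ∈ B ↔ x ∈ F' ∧ (eval₂RingHom ψ t).IsIntegralElem x) :
    IsNoetherianRing B := by
  classical
  set k' : Subfield L := Subfield.closure (Set.range (eval₂RingHom ψ t)) with hk'
  have hk : k' ≤ F' := by
    apply Subfield.closure_le.mpr
    rintro x ⟨P, rfl⟩
    exact hF' P
  obtain ⟨T, hTF, hTspan⟩ := h59n_exists_span k' F' hk S₀ hS₀ hF
  -- the data in the field `F'`
  have hψF : ∀ a, ψ a ∈ F' := by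
    intro a
    have := hF' (C a)
    rwa [coe_eval₂RingHom, eval₂_C] at this
  have htF : t ∈ F' := by
    have := hF' X
    rwa [coe_eval₂RingHom, eval₂_X] at this
  let φ' : O →+* F' := ψ.codRestrict F' hψF
  let t' : F' := ⟨t, htF⟩
  have hval : ∀ P : Polynomial O, ((eval₂RingHom φ' t' P : F') : L) = eval₂RingHom ψ t P := by
    intro P
    have h1 := Polynomial.hom_eval₂ P φ' F'.subtype t'
    have h2 : F'.subtype.comp φ' = ψ := rfl
    rw [h2] at h1
    exact h1
  have ht' : Function.Injective (eval₂RingHom φ' t') := by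
    intro P Q hPQ
    apply ht
    rw [← hval P, ← hval Q, hPQ]
  haveI : CharZero F' := RingHom.charZero F'.subtype
  -- the coefficient set
  let E₀ : Set F' := {x | (x : L) ∈ k'}
  have hE₀ : E₀ ⊆ Subfield.closure (Set.range (eval₂RingHom φ' t')) := by
    intro x hx
    have h1 : (Subfield.closure (Set.range (eval₂RingHom φ' t'))).map F'.subtype = k' := by
      rw [RingHom.map_field_closure, hk']
      congr 1
      ext y
      constructor
      · rintro ⟨z, ⟨P, rfl⟩, rfl⟩
        exact ⟨P, (hval P).symm⟩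
      · rintro ⟨P, rfl⟩
        exact ⟨eval₂RingHom φ' t' P, ⟨P, rfl⟩, hval P⟩
    have h2 : (x : L) ∈ (Subfield.closure (Set.range (eval₂RingHom φ' t'))).map F'.subtype := by
      rw [h1]
      exact hx
    obtain ⟨z, hz, hzx⟩ := h2
    have : z = x := Subtype.ext hzx
    rwa [this] at hz
  -- the spanning set
  let T' : Finset F' := T.subtype (· ∈ F')
  have hT' : ∀ x : F', ∃ c : F' → F', (∀ u, c u ∈ E₀) ∧ x = ∑ u ∈ T', c u * u := by
    intro x
    obtain ⟨c, hc, hx⟩ := hTspan x.1 x.2
    refine ⟨fun u => ⟨c u.1, hk (hc u.1)⟩, fun u => hc u.1, ?_⟩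
    apply Subtype.ext
    have h1 : ((∑ u ∈ T', (⟨c u.1, hk (hc u.1)⟩ : F') * u : F') : L)
        = ∑ u ∈ T', c u.1 * (u : L) := by
      push_cast
      rfl
    rw [h1, hx]
    exact (Finset.sum_subtype_of_mem (fun u => c u * u) hTF).symm
  obtain ⟨S, hSint, hSgen⟩ := Fermat.Agent.Red.ModelO.h85_exists_finset_gen_of_noetherian
    φ' t' ht' E₀ hE₀ T' hT'
  -- integrality in `F'` and in `L`
  have hintiff : ∀ x : F', (eval₂RingHom φ' t').IsIntegralElem x ↔
      (eval₂RingHom ψ t).IsIntegralElem (x : L) := by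
    intro x
    have hcomp : F'.subtype.comp (eval₂RingHom φ' t') = eval₂RingHom ψ t :=
      RingHom.ext fun P => hval P
    constructor
    · rintro ⟨p, hp, hroot⟩
      refine ⟨p, hp, ?_⟩
      have h1 := Polynomial.hom_eval₂ p (eval₂RingHom φ' t') F'.subtype x
      rw [hroot, map_zero, hcomp] at h1
      exact h1.symm
    · rintro ⟨p, hp, hroot⟩
      refine ⟨p, hp, ?_⟩
      apply Subtype.ext
      have h1 := Polynomial.hom_eval₂ p (eval₂RingHom φ' t') F'.subtype x
      rw [hcomp] at h1
      show F'.subtype _ = _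
      rw [h1]
      exact hroot
  -- conclusion
  refine h59n_isNoetherianRing_of_fg (eval₂RingHom ψ t) B ?_
    (S.map ⟨Subtype.val, Subtype.val_injective⟩) ?_ ?_
  · intro P
    rw [hB]
    refine ⟨hF' P, ?_⟩
    exact RingHom.isIntegralElem_map (eval₂RingHom ψ t)
  · intro g hg
    obtain ⟨s, hs, rfl⟩ := Finset.mem_map.mp hg
    rw [hB]
    exact ⟨s.2, (hintiff s).mp (hSint s hs)⟩
  · intro x hx
    rw [hB] at hx
    obtain ⟨c, hc⟩ := hSgen ⟨x, hx.1⟩ ((hintiff ⟨x, hx.1⟩).mpr hx.2)
    refine ⟨fun g => if hg : g ∈ F' then c ⟨g, hg⟩ else 0, ?_⟩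
    rw [Finset.sum_map]
    have h1 := congrArg (fun z : F' => (z : L)) hc
    simp only at h1
    rw [h1]
    push_cast
    refine Finset.sum_congr rfl fun s _ => ?_
    show ((eval₂RingHom φ' t' (c s) : F') : L) * (s : L) = _
    rw [hval]
    simp [s.2]

/-- integrality over `S₀[t]` (`h59cAdj`) through `RingHom.IsIntegralElem` of an evaluation
`O[X] → L`, where `S₀` is the image of `O`. -/
theorem h59n_adj_isIntegral_iff_elem {K L O : Type*} [Field K] [CommRing L] [Algebra K L]
    [CommRing O] (ι : O →+* K) (S₀ : Set K) (hS₀ : Set.range ι = S₀) (t x : L) :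
    IsIntegral (h59cAdj S₀ t) x ↔
      (eval₂RingHom ((algebraMap K L).comp ι) t).IsIntegralElem x := by
  rw [← Fermat.Agent.Red.ModelO.h85_isIntegral_range_iff]
  have heq : h59cAdj S₀ t = (eval₂RingHom ((algebraMap K L).comp ι) t).range := by
    apply le_antisymm
    · apply Subring.closure_le.mpr
      rintro y (⟨a, ha, rfl⟩ | hy)
      · rw [← hS₀] at ha
        obtain ⟨o, rfl⟩ := ha
        exact ⟨C o, by rw [coe_eval₂RingHom, eval₂_C]; rfl⟩
      · rw [Set.mem_singleton_iff] at hy
        subst hy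
        exact ⟨X, by rw [coe_eval₂RingHom, eval₂_X]⟩
    · rintro _ ⟨P, rfl⟩
      induction P using Polynomial.induction_on' with
      | add p q hp hq =>
        rw [map_add]
        exact add_mem hp hq
      | monomial n a =>
        rw [← C_mul_X_pow_eq_monomial, map_mul, map_pow, coe_eval₂RingHom, eval₂_C, eval₂_X]
        refine mul_mem (h59c_cst_mem_adj S₀ t ?_) (pow_mem (h59c_self_mem_adj S₀ t) n)
        rw [← hS₀]
        exact ⟨a, rfl⟩
  have key : ∀ R R' : Subring L, R = R' → (IsIntegral R x ↔ IsIntegral R' x) := by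
    rintro R _ rfl
    rfl
  exact key _ _ heq

end Fermat.Agent.S36
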