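/-
S36 (Carayol), leaf F0-BRIDGE (helper81): the elements of `FF N` fixed by a subgroup `H` of `G_ℚ`
are exactly the elements of the function field over the fixed field `K_H = ℚ̄^H`
(`laurentBaseChange K_H (modularFunctionFieldFull N) ⊆ K_H((q))`, i.e. `Red.GV.Asm.FK K_H N`),
embedded coefficientwise.

Abstract part (`K ⊆ L` fields, `F₀` a field of rational `q`-expansions):
* `h81f_coeffMap_mem`   : `Φ = coeffMap (K → L)` maps `F_K` into `F_L`;
* `h81f_adjoin_eq`      : `F_L` is generated over `L` by `Φ(F_K)`;
* `h81f_descent`        : an element of `F_L` with coefficients in `K` is `Φ y`, `y ∈ F_K`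
  (from the landed linear disjointness `Jac.h49_mem_of_coeffMap_mem_adjoin`).

Modular part:
* `h81f_fixed_iff`      : `x : FF N` is `H`-fixed iff `x = Φ y` with `y ∈ F_{K_H}`;
* `h81f_toFF`, `h81f_toFF_range`, `h81f_toFF_injective` : the embedding `F_{K_H} →+* FF N`.
-/
import Mathlib
import Fermat.Agent.Jac.Desc0Core
import Fermat.Agent.S37.Defs

set_option autoImplicit false
set_option linter.unusedSectionVars false

open ModularCurve

noncomputable section

namespace Fermat.Agent.S36

open Fermat.Agent.S37 (Kbar GQ FF cst gal)

section Abstract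

variable {K L : Type*} [Field K] [Field L] [Algebra ℚ K] [Algebra ℚ L] [Algebra K L]
  [IsScalarTower ℚ K L]
variable (F₀ : IntermediateField ℚ (LaurentSeries ℚ))

theorem h81f_coeffMap_coeffEmb (g : LaurentSeries ℚ) :
    coeffMap (algebraMap K L) (coeffEmb K g) = coeffEmb L g := by
  ext n
  rw [coeffMap_coeff, coeffEmb_coeff, coeffEmb_coeff, ← IsScalarTower.algebraMap_apply]

theorem h81f_coeffMap_algebraMap (c : K) :
    coeffMap (algebraMap K L) (algebraMap K (LaurentSeries K) c) =
      algebraMap L (LaurentSeries L) (algebraMap K L c) := by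
  rw [algebraMap_laurentSeries_eq_single, algebraMap_laurentSeries_eq_single, coeffMap_single]

/-- The coefficient extension maps `F_K` into `F_L`. -/
theorem h81f_coeffMap_mem {y : LaurentSeries K} (hy : y ∈ laurentBaseChange K F₀) :
    coeffMap (algebraMap K L) y ∈ laurentBaseChange L F₀ := by
  rw [mem_laurentBaseChange_iff] at hy
  induction hy using Subfield.closure_induction with
  | mem y hy =>
    rcases hy with ⟨a, rfl⟩ | ⟨z, hz, rfl⟩
    · rw [h81f_coeffMap_algebraMap]
      exact IntermediateField.algebraMap_mem _ _
    · rw [h81f_coeffMap_coeffEmb]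
      exact coeffEmb_mem_laurentBaseChange L hz
  | one => rw [map_one]; exact one_mem _
  | add x y _ _ hx hy => rw [map_add]; exact add_mem hx hy
  | neg x _ hx => rw [map_neg]; exact neg_mem hx
  | inv x _ hx => rw [map_inv₀]; exact inv_mem hx
  | mul x y _ _ hx hy => rw [map_mul]; exact mul_mem hx hy

/-- `F_L` is generated over `L` by the image of `F_K`. -/
theorem h81f_adjoin_eq :
    IntermediateField.adjoin L
        (⇑(coeffMap (algebraMap K L)) '' (laurentBaseChange K F₀ : Set (LaurentSeries K))) =
      laurentBaseChange L F₀ := by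
  apply le_antisymm
  · rw [IntermediateField.adjoin_le_iff]
    rintro _ ⟨y, hy, rfl⟩
    exact h81f_coeffMap_mem F₀ hy
  · rw [laurentBaseChange, IntermediateField.adjoin_le_iff]
    rintro _ ⟨g, hg, rfl⟩
    apply IntermediateField.subset_adjoin
    exact ⟨coeffEmb K g, coeffEmb_mem_laurentBaseChange K hg, h81f_coeffMap_coeffEmb g⟩

/-- **Descent.** An element of `F_L` all of whose coefficients lie in `K` comes from `F_K`. -/
theorem h81f_descent {x : LaurentSeries L} (hx : x ∈ laurentBaseChange L F₀)
    (hc : ∀ n : ℤ, x.coeff n ∈ Set.range (algebraMap K L)) :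
    ∃ y ∈ laurentBaseChange K F₀, coeffMap (algebraMap K L) y = x := by
  obtain ⟨ψ, hψ⟩ := LinearMap.exists_leftInverse_of_injective (Algebra.linearMap K L)
    (LinearMap.ker_eq_bot.mpr (algebraMap K L).injective)
  have hψ' : ∀ r : K, ψ (algebraMap K L r) = r := fun r => by
    have := LinearMap.congr_fun hψ r
    simpa using this
  set g : LaurentSeries K := HahnSeries.map x ψ with hg
  have hgx : coeffMap (algebraMap K L) g = x := by
    ext n
    obtain ⟨r, hr⟩ := hc n
    rw [coeffMap_coeff, hg, HahnSeries.map_coeff, ← hr, hψ']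
  refine ⟨g, ?_, hgx⟩
  refine Fermat.Agent.Jac.h49_mem_of_coeffMap_mem_adjoin (K := K) (L := L)
    (laurentBaseChange K F₀) g ?_
  rw [hgx, h81f_adjoin_eq]
  exact hx

end Abstract

section Modular

variable (N : ℕ) (H : Subgroup GQ)

/-- **F0-BRIDGE.** An element of `FF N` is fixed by the subgroup `H` of `G_ℚ` iff it is the
coefficient extension of an element of the function field over the fixed field of `H`. -/
theorem h81f_fixed_iff (x : FF N) :
    (∀ σ ∈ H, gal N σ • x = x) ↔
      ∃ y ∈ laurentBaseChange (IntermediateField.fixedField H) (modularFunctionFieldFull N),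
        coeffMap (algebraMap (IntermediateField.fixedField H) Kbar) y =
          (x : LaurentSeries Kbar) := by
  constructor
  · intro hx
    apply h81f_descent (K := IntermediateField.fixedField H) (L := Kbar)
      (modularFunctionFieldFull N) x.2
    intro n
    have hmem : (x : LaurentSeries Kbar).coeff n ∈ IntermediateField.fixedField H := by
      rw [IntermediateField.mem_fixedField_iff]
      intro σ hσ
      have h1 := congrArg (fun z : FF N => (z : LaurentSeries Kbar).coeff n) (hx σ hσ)
      simp only [coe_arithmeticGalois_smul, coeffMap_coeff] at h1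
      exact h1
    exact ⟨⟨_, hmem⟩, rfl⟩
  · rintro ⟨y, hy, hyx⟩ σ hσ
    apply Subtype.ext
    rw [coe_arithmeticGalois_smul, ← hyx, coeffMap_coeffMap]
    apply coeffMap_congr
    ext c
    exact (IntermediateField.mem_fixedField_iff _ _).mp c.2 σ hσ

/-- The embedding of the function field over `K_H = ℚ̄^H` into `FF N`. -/
def h81f_toFF :
    laurentBaseChange (IntermediateField.fixedField H) (modularFunctionFieldFull N) →+* FF N where
  toFun y := ⟨coeffMap (algebraMap (IntermediateField.fixedField H) Kbar)
    (y : LaurentSeries (IntermediateField.fixedField H)),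
    h81f_coeffMap_mem (modularFunctionFieldFull N) y.2⟩
  map_one' := Subtype.ext (by
    show coeffMap (algebraMap (IntermediateField.fixedField H) Kbar) 1 = 1
    exact map_one _)
  map_mul' a b := Subtype.ext (by
    show coeffMap (algebraMap (IntermediateField.fixedField H) Kbar)
        ((a : LaurentSeries (IntermediateField.fixedField H)) * b) = _
    rw [map_mul]
    rfl)
  map_zero' := Subtype.ext (by
    show coeffMap (algebraMap (IntermediateField.fixedField H) Kbar) 0 = 0
    exact map_zero _)
  map_add' a b := Subtype.ext (by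
    show coeffMap (algebraMap (IntermediateField.fixedField H) Kbar)
        ((a : LaurentSeries (IntermediateField.fixedField H)) + b) = _
    rw [map_add]
    rfl)

@[simp]
theorem h81f_coe_toFF
    (y : laurentBaseChange (IntermediateField.fixedField H) (modularFunctionFieldFull N)) :
    ((h81f_toFF N H y : FF N) : LaurentSeries Kbar) =
      coeffMap (algebraMap (IntermediateField.fixedField H) Kbar) (y : LaurentSeries _) :=
  rfl

theorem h81f_toFF_injective : Function.Injective (h81f_toFF N H) :=
  (h81f_toFF N H).injective

/-- The image of `h81f_toFF` is the set of `H`-fixed functions. -/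
theorem h81f_toFF_range (x : FF N) :
    x ∈ (h81f_toFF N H).range ↔ ∀ σ ∈ H, gal N σ • x = x := by
  rw [h81f_fixed_iff]
  constructor
  · rintro ⟨y, rfl⟩
    exact ⟨y, y.2, rfl⟩
  · rintro ⟨y, hy, hyx⟩
    exact ⟨⟨y, hy⟩, Subtype.ext hyx⟩

theorem h81f_toFF_fixed
    (y : laurentBaseChange (IntermediateField.fixedField H) (modularFunctionFieldFull N))
    {σ : GQ} (hσ : σ ∈ H) : gal N σ • h81f_toFF N H y = h81f_toFF N H y :=
  (h81f_toFF_range N H _).mp ⟨y, rfl⟩ σ hσ

/-- constants. -/
theorem h81f_toFF_const (c : IntermediateField.fixedField H) :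
    h81f_toFF N H ⟨algebraMap (IntermediateField.fixedField H)
        (LaurentSeries (IntermediateField.fixedField H)) c,
      IntermediateField.algebraMap_mem _ c⟩ = cst N (c : Kbar) := by
  apply Subtype.ext
  rw [h81f_coe_toFF]
  exact h81f_coeffMap_algebraMap c

end Modular

end Fermat.Agent.S36
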