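import Mathlib
import Fermat.Agent.S36.H62RegIface
import Fermat.Agent.S36.H81Bridge
import Fermat.Agent.S36.H59Base
import Fermat.Agent.S36.H59ChartInt
import Fermat.Agent.S36.H59NoethAbs
import Fermat.Agent.Red.ModelO.RatFinite
import Fermat.Agent.Red.ModelO.FiniteNoeth
import Fermat.Agent.Red.ModelO.ValCrit
import Fermat.Agent.S24.DegLe
import Fermat.Agent.S37.Inertia

/-!
# S36, block REG, leaf R-NOETH (helper59): the charts over the inertia ring are noetherian

`h59n_isNoetherianRing_chart` : for every level `N`, `A` over `q` and `t = j` or `t = 1/j`, the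
chart `h62rChart A N t` (the inertia-fixed functions integral over `A[t]`) is a noetherian ring:
it is the integral closure of `A₀[t]` (`A₀` the discrete valuation ring `A ∩ ℚ̄^I`) in the
function field `F₀ = FF N ^ I`, which is finite over `K₀(t)`.
-/

set_option autoImplicit false
set_option linter.style.haveILetI false
set_option linter.unusedSectionVars false

open Polynomial AlgebraicCurve ModularCurve

noncomputable section

namespace Fermat.Agent.S36

open Fermat.Agent.S37 (Kbar GQ FF cst gal jB modelAt ringAdj)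
open Fermat.Agent.Red.ModelO (FQ h85ratEmb h85jQ)

section Level

variable (N : ℕ) (A : ValuationSubring Kbar)

/-- the constants of `A₀` in `FF N`. -/
def h59nPsi : h59bA0 A →+* FF N :=
  (algebraMap Kbar (FF N)).comp
    ((algebraMap (h59bK0 A) Kbar).comp (h59bA0 A).subtype)

theorem h59nPsi_apply (a : h59bA0 A) :
    h59nPsi N A a = cst N (((a : h59bK0 A) : Kbar)) := rfl

/-- evaluation `A₀[X] → FF N`, `X ↦ t`. -/
def h59nEv (t : FF N) : Polynomial (h59bA0 A) →+* FF N :=
  eval₂RingHom (h59nPsi N A) t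

theorem h59nEv_C (t : FF N) (a : h59bA0 A) :
    h59nEv N A t (C a) = cst N (((a : h59bK0 A) : Kbar)) := by
  simp [h59nEv, h59nPsi_apply]

theorem h59nEv_X (t : FF N) : h59nEv N A t X = t := by
  simp [h59nEv]

/-- the field `K₀(t) ⊆ FF N`. -/
def h59nK (t : FF N) : Subfield (FF N) :=
  Subfield.closure (Set.range (h59nEv N A t))

theorem h59nEv_mem_K (t : FF N) (P : Polynomial (h59bA0 A)) : h59nEv N A t P ∈ h59nK N A t :=
  Subfield.subset_closure ⟨P, rfl⟩

theorem h59n_t_mem_K (t : FF N) : t ∈ h59nK N A t := by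
  have := h59nEv_mem_K N A t X
  rwa [h59nEv_X] at this

/-- the constants of the inertia field lie in `K₀(t)`. -/
theorem h59n_cst_mem_K (t : FF N) {c : Kbar} (hc : c ∈ h59bK0 A) : cst N c ∈ h59nK N A t := by
  rcases (h59bA0 A).mem_or_inv_mem (⟨c, hc⟩ : h59bK0 A) with h | h
  · have := h59nEv_mem_K N A t (C (⟨⟨c, hc⟩, h⟩ : h59bA0 A))
    rwa [h59nEv_C] at this
  · have h1 := h59nEv_mem_K N A t (C (⟨(⟨c, hc⟩ : h59bK0 A)⁻¹, h⟩ : h59bA0 A))
    rw [h59nEv_C] at h1
    have h2 := (h59nK N A t).inv_mem h1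
    have h3 : (cst N (((⟨c, hc⟩ : h59bK0 A)⁻¹ : h59bK0 A) : Kbar))⁻¹ = cst N c := by
      rw [← map_inv₀]
      congr 1
      push_cast
      rw [inv_inv]
    rwa [h3] at h2

/-- rational constants lie in `K₀(t)`. -/
theorem h59n_cst_rat_mem_K (t : FF N) (r : ℚ) : cst N (algebraMap ℚ Kbar r) ∈ h59nK N A t :=
  h59n_cst_mem_K N A t ((h59bK0 A).algebraMap_mem r)

/-- `K₀(t)` consists of inertia-fixed functions if `t` is inertia-fixed. -/
theorem h59nK_le_F0 (t : FF N) (ht : ∀ σ ∈ A.inertiaSubgroupIn ℚ, gal N σ • t = t) :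
    h59nK N A t ≤ h53d_F0 N (A.inertiaSubgroupIn ℚ) := by
  apply Subfield.closure_le.mpr
  rintro x ⟨P, rfl⟩
  induction P using Polynomial.induction_on' with
  | add p q hp hq =>
    rw [map_add]
    exact (h53d_F0 N (A.inertiaSubgroupIn ℚ)).add_mem hp hq
  | monomial n a =>
    rw [← C_mul_X_pow_eq_monomial, map_mul, map_pow, h59nEv_C, h59nEv_X]
    refine (h53d_F0 N (A.inertiaSubgroupIn ℚ)).mul_mem ?_
      ((h53d_F0 N (A.inertiaSubgroupIn ℚ)).pow_mem ht n)
    intro σ hσ
    rw [Fermat.Agent.S37.GalI.gal_smul_cst]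
    congr 1
    exact (h59b_mem_K0_iff A _).mp (a : h59bK0 A).2 σ hσ

/-- the evaluation at a transcendental `t` is injective. -/
theorem h59nEv_injective (t : FF N) (ht : Transcendental Kbar t) :
    Function.Injective (h59nEv N A t) := by
  rw [injective_iff_map_eq_zero]
  intro P hP
  have h0 : h59nEv N A t P = aeval t (P.map
      ((algebraMap (h59bK0 A) Kbar).comp (h59bA0 A).subtype)) := by
    rw [aeval_def, eval₂_map]
    rfl
  rw [h0] at hP
  have h1 := transcendental_iff_injective.mp ht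
  have h2 : P.map ((algebraMap (h59bK0 A) Kbar).comp (h59bA0 A).subtype) = 0 :=
    h1 (hP.trans (map_zero _).symm)
  have hinj : Function.Injective ((algebraMap (h59bK0 A) Kbar).comp (h59bA0 A).subtype) :=
    (algebraMap (h59bK0 A) Kbar).injective.comp Subtype.val_injective
  exact Polynomial.map_injective _ hinj (h2.trans (Polynomial.map_zero _).symm)

/-- the rational functions of `j` lie in `K₀(t)` (if `j` does). -/
theorem h59n_ratEmb_Qj_mem [NeZero N] (t : FF N) (hj : jB N ∈ h59nK N A t) {y : FQ N}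
    (hy : y ∈ Fermat.Agent.Red.ModelO.h85QjSet N) : h85ratEmb N y ∈ h59nK N A t := by
  have hj' : h85jQ N ∈ (h59nK N A t).comap (h85ratEmb N) := by
    show h85ratEmb N (h85jQ N) ∈ h59nK N A t
    rw [Fermat.Agent.Red.ModelO.h85ratEmb_jQ]
    exact hj
  exact Fermat.Agent.Red.ModelO.h85_Qj_subsetC N _ hj' hy

/-- the image of a rational function is algebraic over `K₀(t)`. -/
theorem h59n_ratEmb_algebraic [NeZero N] (t : FF N) (hj : jB N ∈ h59nK N A t)
    (u : ↥(modularFunctionFieldFullC ℚ N)) :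
    ∃ p : Polynomial (h59nK N A t), p ≠ 0 ∧
      eval₂ (h59nK N A t).subtype (h85ratEmb N u) p = 0 := by
  have hfd := Fermat.Agent.Red.ModelO.h85_finiteDimensional_jQ N
  have hint : IsIntegral (Fermat.Agent.Red.ModelO.h85Qj N) u := IsIntegral.of_finite _ u
  obtain ⟨P, hPm, hP⟩ := hint
  let e : ↥(modularFunctionFieldFullC ℚ N) →+* FF N := h85ratEmb N
  let g : (Fermat.Agent.Red.ModelO.h85Qj N) →+* (h59nK N A t) :=
    { toFun := fun y => ⟨e (y : ↥(modularFunctionFieldFullC ℚ N)),
        h59n_ratEmb_Qj_mem N A t hj y.2⟩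
      map_one' := Subtype.ext (map_one e)
      map_mul' := fun a b => Subtype.ext (map_mul e _ _)
      map_zero' := Subtype.ext (map_zero e)
      map_add' := fun a b => Subtype.ext (map_add e _ _) }
  refine ⟨P.map g, (hPm.map g).ne_zero, ?_⟩
  rw [eval₂_map]
  have hcomp : ((h59nK N A t).subtype.comp g) =
      e.comp (algebraMap (Fermat.Agent.Red.ModelO.h85Qj N)
        (↥(modularFunctionFieldFullC ℚ N))) := rfl
  rw [hcomp]
  have h1 := Polynomial.hom_eval₂ P (algebraMap (Fermat.Agent.Red.ModelO.h85Qj N)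
        (↥(modularFunctionFieldFullC ℚ N))) e u
  rw [hP, map_zero] at h1
  exact h1.symm

/-- the images of all rational functions lie in the field generated by `K₀(t)` and the images
of a spanning set. -/
theorem h59n_ratEmb_mem_closure [NeZero N] (t : FF N) (hj : jB N ∈ h59nK N A t)
    (T : Finset (FQ N))
    (hT : ∀ x : FQ N, ∃ c : FQ N → FQ N,
      (∀ u, c u ∈ Fermat.Agent.Red.ModelO.h85QjSet N) ∧ x = ∑ u ∈ T, c u * u)
    (f : FQ N) :
    h85ratEmb N f ∈ Subfield.closure
      ((h59nK N A t : Set (FF N)) ∪ (h85ratEmb N '' (T : Set (FQ N)))) := by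
  classical
  obtain ⟨c, hc, hf⟩ := hT f
  rw [hf, map_sum]
  refine Subfield.sum_mem _ fun u hu => ?_
  rw [map_mul]
  refine Subfield.mul_mem _ (Subfield.subset_closure (Or.inl ?_))
    (Subfield.subset_closure (Or.inr ?_))
  · exact h59n_ratEmb_Qj_mem N A t hj (hc u)
  · exact ⟨u, hu, rfl⟩

/-- **the inertia-fixed functions lie in the field generated by `K₀(t)` and finitely many
rational functions.** -/
theorem h59n_F0_le_closure [NeZero N] (t : FF N) (hj : jB N ∈ h59nK N A t)
    (T : Finset (FQ N))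
    (hT : ∀ x : FQ N, ∃ c : FQ N → FQ N,
      (∀ u, c u ∈ Fermat.Agent.Red.ModelO.h85QjSet N) ∧ x = ∑ u ∈ T, c u * u) :
    h53d_F0 N (A.inertiaSubgroupIn ℚ) ≤ Subfield.closure
      ((h59nK N A t : Set (FF N)) ∪ (h85ratEmb N '' (T : Set (FQ N)))) := by
  classical
  intro x hx
  set Cl : Subfield (FF N) := Subfield.closure
      ((h59nK N A t : Set (FF N)) ∪ (h85ratEmb N '' (T : Set (FQ N))))
    with hCl
  obtain ⟨y, hy, hyx⟩ := (h81f_fixed_iff N (A.inertiaSubgroupIn ℚ) x).mp hx
  -- the subfield of series over `K₀` whose base change lies in `Cl`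
  let Z : Subfield (LaurentSeries (IntermediateField.fixedField (A.inertiaSubgroupIn ℚ))) :=
    (Cl.map (algebraMap (FF N) (LaurentSeries Kbar))).comap
      (coeffMap (algebraMap (IntermediateField.fixedField (A.inertiaSubgroupIn ℚ)) Kbar))
  have hle : ∀ z, z ∈ laurentBaseChange (IntermediateField.fixedField (A.inertiaSubgroupIn ℚ))
      (modularFunctionFieldFull N) → z ∈ Z := by
    intro z hz
    rw [mem_laurentBaseChange_iff] at hz
    refine Subfield.closure_le.mpr ?_ hz
    rintro w (⟨c, rfl⟩ | ⟨f, hf, rfl⟩)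
    · show coeffMap _ _ ∈ Cl.map (algebraMap (FF N) (LaurentSeries Kbar))
      rw [h81f_coeffMap_algebraMap]
      refine ⟨cst N (c : Kbar), Subfield.subset_closure (Or.inl ?_), rfl⟩
      exact h59n_cst_mem_K N A t c.2
    · show coeffMap _ _ ∈ Cl.map (algebraMap (FF N) (LaurentSeries Kbar))
      rw [h81f_coeffMap_coeffEmb]
      exact ⟨h85ratEmb N ⟨f, hf⟩, h59n_ratEmb_mem_closure N A t hj T hT ⟨f, hf⟩, rfl⟩
  obtain ⟨z, hz, hzy⟩ := hle y hy
  have hzx : z = x := by
    apply Subtype.ext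
    rw [← hyx]
    exact hzy
  rw [← hzx]
  exact hz

/-- the range of the constants of `A₀` is the set of inertia-fixed elements of `A`. -/
theorem h59n_range_iota :
    Set.range ((algebraMap (h59bK0 A) Kbar).comp (h59bA0 A).subtype) = h59cA0 A := by
  ext a
  constructor
  · rintro ⟨o, rfl⟩
    exact ⟨o.2, (h59b_mem_K0_iff A _).mp (o : h59bK0 A).2⟩
  · rintro ⟨ha, hfix⟩
    exact ⟨⟨⟨a, (h59b_mem_K0_iff A a).mpr hfix⟩, ha⟩, rfl⟩

set_option synthInstance.maxHeartbeats 400000 in
/-- membership in the chart through `RingHom.IsIntegralElem`. -/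
theorem h59n_mem_chart_iff (t x : FF N) :
    x ∈ h62rChart A N t ↔
      x ∈ h53d_F0 N (A.inertiaSubgroupIn ℚ) ∧ (h59nEv N A t).IsIntegralElem x := by
  have h1 : x ∈ modelAt N A t ↔ (h59nEv N A t).IsIntegralElem x := by
    rw [h59c_mem_modelAt_iff]
    exact h59n_adj_isIntegral_iff_elem (L := FF N)
      ((algebraMap (h59bK0 A) Kbar).comp (h59bA0 A).subtype) (h59cA0 A) (h59n_range_iota A) t x
  constructor
  · rintro ⟨hx1, hx2⟩
    exact ⟨hx2, h1.mp hx1⟩
  · rintro ⟨hx1, hx2⟩
    exact ⟨h1.mpr hx2, hx1⟩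

/-- **R-NOETH.**  The chart over the inertia ring is a noetherian ring. -/
theorem h59n_isNoetherianRing_chart [NeZero N] {q : ℕ} (hq : q.Prime)
    (hA : A.LiesOverPrime q) (t : FF N) (ht : t = jB N ∨ t = (jB N)⁻¹) :
    IsNoetherianRing (h62rChart A N t) := by
  classical
  haveI := h59b_isDVR A hq hA
  haveI : CharZero (FF N) := charZero_of_injective_algebraMap (algebraMap Kbar (FF N)).injective
  have htr : Transcendental Kbar t := by
    rcases ht with rfl | rfl
    · exact Fermat.Agent.S24.transcendental_jBar N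
    · exact fun h => Fermat.Agent.S24.transcendental_jBar N (IsAlgebraic.inv_iff.mp h)
  have hfix : ∀ σ ∈ A.inertiaSubgroupIn ℚ, gal N σ • t = t := by
    intro σ _
    rcases ht with rfl | rfl
    · exact Fermat.Agent.S37.GalI.gal_smul_jB σ
    · exact Fermat.Agent.S37.GalI.gal_smul_jB_inv σ
  have hj : jB N ∈ h59nK N A t := by
    rcases ht with rfl | rfl
    · exact h59n_t_mem_K N A _
    · have h1 := (h59nK N A (jB N)⁻¹).inv_mem (h59n_t_mem_K N A (jB N)⁻¹)
      rwa [inv_inv] at h1
  obtain ⟨T, hT⟩ := Fermat.Agent.Red.ModelO.h85_exists_span_Qj N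
  refine h59n_isNoetherianRing_abs (h59nPsi N A) t (h59nEv_injective N A t htr)
    (h53d_F0 N (A.inertiaSubgroupIn ℚ))
    (fun P => h59nK_le_F0 N A t hfix (h59nEv_mem_K N A t P))
    (T.image (h85ratEmb N)) ?_ ?_ (h62rChart A N t) (fun x => h59n_mem_chart_iff N A t x)
  · intro s hs
    obtain ⟨u, -, rfl⟩ := Finset.mem_image.mp hs
    exact h59n_ratEmb_algebraic N A t hj u
  · rw [Finset.coe_image]
    exact h59n_F0_le_closure N A t hj T hT

end Level

end Fermat.Agent.S36
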