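import Mathlib
import Fermat.Agent.S36.H62RegCrit

/-!
# S36, block REG (helper62): the frozen leaves of `H62RegStatement` and the assembly

* `H62Datum 𝔫 q` : the datum to be produced at a closed point `𝔫 ∋ q` of a chart:
  either the **triple datum** (supersingular points: `X, Z ∈ 𝔫`, `𝔫 = (X, Z)` locally, and
  the two Kronecker relations modulo `q`) or the **one-branch datum** (`z, t ∈ 𝔫`,
  `𝔫 = (z, t)` locally, `s * z ^ e = c * q` with `s ∉ 𝔫`).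
* `h62r_regAt_of_datum` : `H62Datum 𝔫 q → H62RegAt 𝔫 q` (noetherian chart).
* Leaves (all at the good levels `M q²`, charts over `A₀`):
  * `H62LeafNoeth`   : both charts are noetherian                       (R-BASE0);
  * `H62LeafFin`     : `H62Datum` at every closed point `𝔫 ∋ q` of the finite chart
                       (R-TOWER-SS + R-ORD on top of R-L1, R-GEN);
  * `H62LeafCusp`    : `H62Datum` at the closed points `𝔫 ∋ q, j⁻¹` of the chart at infinity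
                       (R-CUSP);
  * `H62LeafOverlap` : `H62RegAt` at the closed points `𝔫 ∋ q`, `j⁻¹ ∉ 𝔫` of the chart at
                       infinity, from REG on the finite chart           (R-OVERLAP).
* `h62r_regStatement_of` : **R-ASM**: the four leaves give `H62RegStatement`.
-/

set_option autoImplicit false

open AlgebraicCurve ModularCurve

noncomputable section

namespace Fermat.Agent.S36

/-- the datum at a closed point: triple datum or one-branch datum. -/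
def H62Datum {B : Type*} [CommRing B] (𝔫 : Ideal B) (q : ℕ) : Prop :=
  (∃ X Y Z : B, X ∈ 𝔫 ∧ Z ∈ 𝔫 ∧
      (∀ w ∈ 𝔫, ∃ s, s ∉ 𝔫 ∧ s * w ∈ Ideal.span {X, Z}) ∧
      (Y - X ^ q) * (Y ^ q - X) ∈ Ideal.span {(q : B)} ∧
      (Z - Y ^ q) * (Z ^ q - Y) ∈ Ideal.span {(q : B)}) ∨
  (∃ z t : B, z ∈ 𝔫 ∧ t ∈ 𝔫 ∧
      (∀ w ∈ 𝔫, ∃ s, s ∉ 𝔫 ∧ s * w ∈ Ideal.span {z, t}) ∧
      ∃ (e : ℕ) (s c : B), s ∉ 𝔫 ∧ s * z ^ e = c * (q : B))

theorem h62r_regAt_of_datum {B : Type*} [CommRing B] [IsNoetherianRing B] (𝔫 : Ideal B)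
    [𝔫.IsPrime] (q : ℕ) (hq : q.Prime) (h : H62Datum 𝔫 q) : H62RegAt 𝔫 (q : B) := by
  rcases h with ⟨X, Y, Z, hX, hZ, hgen, h1, h2⟩ | ⟨z, t, hz, ht, hgen, hram⟩
  · exact h62r_regAt_triple 𝔫 q hq X Y Z hX hZ hgen h1 h2
  · exact h62r_regAt_one 𝔫 (q : B) z t hz ht hgen hram

open Fermat.Agent.S37 (Kbar GQ FF jB modelAt auxLevel)

/-- **R-BASE0 (noetherian part).** -/
def H62LeafNoeth : Prop :=
  ∀ (q : ℕ) (hq : q.Prime) (M : ℕ) [NeZero M], ¬ q ∣ M → auxLevel q ∣ M →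
    haveI : NeZero q := ⟨hq.ne_zero⟩
    ∀ A : ValuationSubring Kbar, A.LiesOverPrime q →
      IsNoetherianRing (h62rChart A (M * q * q) (jB (M * q * q))) ∧
      IsNoetherianRing (h62rChart A (M * q * q) (jB (M * q * q))⁻¹)

/-- **the finite chart** (R-TOWER-SS + R-ORD). -/
def H62LeafFin : Prop :=
  ∀ (q : ℕ) (hq : q.Prime) (M : ℕ) [NeZero M], ¬ q ∣ M → auxLevel q ∣ M →
    haveI : NeZero q := ⟨hq.ne_zero⟩
    ∀ A : ValuationSubring Kbar, A.LiesOverPrime q →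
      ∀ 𝔫 : Ideal (h62rChart A (M * q * q) (jB (M * q * q))), 𝔫.IsMaximal →
        (q : h62rChart A (M * q * q) (jB (M * q * q))) ∈ 𝔫 → H62Datum 𝔫 q

/-- **the cusps** (R-CUSP): the closed points `𝔫 ∋ q, j⁻¹` of the chart at infinity. -/
def H62LeafCusp : Prop :=
  ∀ (q : ℕ) (hq : q.Prime) (M : ℕ) [NeZero M], ¬ q ∣ M → auxLevel q ∣ M →
    haveI : NeZero q := ⟨hq.ne_zero⟩
    ∀ A : ValuationSubring Kbar, A.LiesOverPrime q →
      ∀ 𝔫 : Ideal (h62rChart A (M * q * q) (jB (M * q * q))⁻¹), 𝔫.IsMaximal →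
        (q : h62rChart A (M * q * q) (jB (M * q * q))⁻¹) ∈ 𝔫 →
        (∃ x ∈ 𝔫, (x : FF (M * q * q)) = (jB (M * q * q))⁻¹) → H62Datum 𝔫 q

/-- **the overlap** (R-OVERLAP): REG at the closed points `𝔫 ∋ q`, `j⁻¹ ∉ 𝔫` of the chart at
infinity, from REG on the finite chart. -/
def H62LeafOverlap : Prop :=
  ∀ (q : ℕ) (hq : q.Prime) (M : ℕ) [NeZero M], ¬ q ∣ M → auxLevel q ∣ M →
    haveI : NeZero q := ⟨hq.ne_zero⟩
    ∀ A : ValuationSubring Kbar, A.LiesOverPrime q →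
      H62RegChart A (M * q * q) q (jB (M * q * q)) →
      ∀ 𝔫 : Ideal (h62rChart A (M * q * q) (jB (M * q * q))⁻¹), 𝔫.IsMaximal →
        (q : h62rChart A (M * q * q) (jB (M * q * q))⁻¹) ∈ 𝔫 →
        (¬ ∃ x ∈ 𝔫, (x : FF (M * q * q)) = (jB (M * q * q))⁻¹) →
          H62RegAt 𝔫 (q : h62rChart A (M * q * q) (jB (M * q * q))⁻¹)

/-- **R-ASM.** -/
theorem h62r_regStatement_of (hN : H62LeafNoeth) (hF : H62LeafFin) (hC : H62LeafCusp)
    (hO : H62LeafOverlap) : H62RegStatement := by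
  intro q hq M _ hqM haux
  haveI : NeZero q := ⟨hq.ne_zero⟩
  intro A hA
  obtain ⟨hN₀, hN₁⟩ := hN q hq M hqM haux A hA
  have h₀ : H62RegChart A (M * q * q) q (jB (M * q * q)) := by
    refine ⟨hN₀, fun 𝔫 h𝔫 hq𝔫 => ?_⟩
    haveI := hN₀
    haveI : 𝔫.IsPrime := h𝔫.isPrime
    exact h62r_regAt_of_datum 𝔫 q hq (hF q hq M hqM haux A hA 𝔫 h𝔫 hq𝔫)
  refine ⟨h₀, hN₁, fun 𝔫 h𝔫 hq𝔫 => ?_⟩
  haveI := hN₁
  haveI : 𝔫.IsPrime := h𝔫.isPrime
  by_cases hc : ∃ x ∈ 𝔫, (x : FF (M * q * q)) = (jB (M * q * q))⁻¹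
  · exact h62r_regAt_of_datum 𝔫 q hq (hC q hq M hqM haux A hA 𝔫 h𝔫 hq𝔫 hc)
  · exact hO q hq M hqM haux A hA h₀ 𝔫 h𝔫 hq𝔫 hc

end Fermat.Agent.S36
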