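import Mathlib
import Fermat.Agent.S36.H59Noeth
import Fermat.Agent.Red.KR.Basic
import Fermat.Agent.Red.KR.MEAlpha
import Fermat.Agent.Red.HKGal
import Fermat.Agent.S36.H62RegLeaves

/-!
# S36, block REG, leaf R-BASE0 (helper59): the charts over the inertia ring

`h62rChart A N t` = the inertia-fixed functions of `FF N` integral over `A[t]`
(`= h92c_Chart`).

* noetherian: `h59n_isNoetherianRing_chart` (`S36/H59Noeth.lean`);
* `= ` integral closure of `A₀[t]` in `F₀`: `h59n_mem_chart_iff` (`S36/H59Noeth.lean`);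
* `h59z_chart_closed` : integrally closed in `F₀` (elementwise form: a root in `F₀` of a monic
  polynomial with coefficients in the chart lies in the chart);
* `h59z_map_mem_chart` : a `ℚ̄`-algebra homomorphism commuting with the Galois actions maps
  charts to charts; `h59z_alpha_mem_chart_fin/inf`, `h59z_beta_mem_chart` for the degeneracy maps;
* `h59z_beta_mem_chart_fin` : `β (chart₀ (M q)) ⊆ chart₀ (M q q)` (finite charts, `q ∤ M`);
* `h59z_chart_integral_alpha` : `chart₀ (N ℓ)` is integral over `α (chart₀ N)`.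
-/

set_option autoImplicit false
set_option linter.style.haveILetI false
set_option linter.unusedSectionVars false

open Polynomial AlgebraicCurve ModularCurve

noncomputable section

namespace Fermat.Agent.S36

open Fermat.Agent.S37 (Kbar GQ FF cst gal jB modelAt ringAdj)

/-! ### Abstract: integral closures are closed -/

/-- a root of a monic polynomial with coefficients in the integral closure of `R` is integral
over `R`. -/
theorem h59z_closed_abs {L : Type*} [CommRing L] (R : Subring L) (p : L[X]) (hm : p.Monic)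
    (hc : ∀ i, IsIntegral R (p.coeff i)) (x : L) (hx : p.eval x = 0) : IsIntegral R x := by
  set T := integralClosure R L with hT
  have hpc : (↑p.coeffs : Set L) ⊆ (T.toSubring : Set L) := by
    intro c hc'
    rw [Finset.mem_coe, Polynomial.mem_coeffs_iff] at hc'
    obtain ⟨n, -, rfl⟩ := hc'
    exact hc n
  have hxT : IsIntegral T x := by
    refine ⟨p.toSubring T.toSubring hpc, (Polynomial.monic_toSubring p _ hpc).mpr hm, ?_⟩
    have h1 : eval₂ (algebraMap T L) x (p.toSubring T.toSubring hpc)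
        = eval x ((p.toSubring T.toSubring hpc).map T.toSubring.subtype) := by
      rw [eval_map]
      rfl
    rw [h1, Polynomial.map_toSubring, hx]
  exact isIntegral_trans (R := R) (A := T) x hxT

/-! ### The chart is integrally closed in `F₀` -/

section Closed

variable (N : ℕ) (A : ValuationSubring Kbar) (t : FF N)

/-- `modelAt` is integrally closed in `FF N` (polynomial form). -/
theorem h59z_modelAt_closed (p : (FF N)[X]) (hm : p.Monic)
    (hc : ∀ i, p.coeff i ∈ modelAt N A t) (x : FF N) (hx : p.eval x = 0) :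
    x ∈ modelAt N A t :=
  h59z_closed_abs (ringAdj N A t) p hm hc x hx

/-- **the chart over `A₀` is integrally closed in `F₀`** (polynomial form): a root in `F₀` of a
monic polynomial with coefficients in the chart lies in the chart. -/
theorem h59z_chart_closed (p : (FF N)[X]) (hm : p.Monic)
    (hc : ∀ i, p.coeff i ∈ h62rChart A N t) (x : FF N)
    (hxF : x ∈ h53d_F0 N (A.inertiaSubgroupIn ℚ)) (hx : p.eval x = 0) :
    x ∈ h62rChart A N t :=
  ⟨h59z_modelAt_closed N A t p hm (fun i => (hc i).1) x hx, hxF⟩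

/-- the same with a polynomial over the chart. -/
theorem h59z_chart_closed_elem (x : FF N)
    (hxF : x ∈ h53d_F0 N (A.inertiaSubgroupIn ℚ))
    (hx : (h62rChart A N t).subtype.IsIntegralElem x) :
    x ∈ h62rChart A N t := by
  obtain ⟨p, hp, hpx⟩ := hx
  refine h59z_chart_closed N A t (p.map (h62rChart A N t).subtype) (hp.map _) (fun i => ?_) x hxF ?_
  · rw [coeff_map]
    exact (p.coeff i).2
  · rw [eval_map]
    exact hpx

end Closed

/-! ### Functoriality of the charts -/

section Maps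

variable {N M' : ℕ}

/-- a `ℚ̄`-algebra homomorphism commuting with the Galois actions maps charts to charts. -/
theorem h59z_map_mem_chart (φ : FF N →ₐ[Kbar] FF M')
    (hφ : ∀ (σ : GQ) (x : FF N), gal M' σ • φ x = φ (gal N σ • x))
    (A : ValuationSubring Kbar) {t x : FF N} (hx : x ∈ h62rChart A N t) :
    φ x ∈ h62rChart A M' (φ t) :=
  ⟨Fermat.Agent.Red.KR.map_mem_modelAt φ A hx.1, fun σ hσ => by rw [hφ, hx.2 σ hσ]⟩

end Maps

section Degeneracy

variable (N ℓ : ℕ) [NeZero N] [NeZero ℓ] (A : ValuationSubring Kbar)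

theorem h59z_gal_alpha (σ : GQ) (x : FF N) :
    gal (N * ℓ) σ • heckeAlphaBar Kbar N ℓ x = heckeAlphaBar Kbar N ℓ (gal N σ • x) := by
  have h := Fermat.Agent.Red.HKGal.intertwines_heckeAlphaBar N ℓ σ x
  exact h

theorem h59z_gal_beta (σ : GQ) (x : FF N) :
    gal (N * ℓ) σ • heckeBetaBar Kbar N ℓ x = heckeBetaBar Kbar N ℓ (gal N σ • x) := by
  have h := Fermat.Agent.Red.HKGal.intertwines_heckeBetaBar N ℓ σ x
  exact h

theorem h59z_alpha_jB : heckeAlphaBar Kbar N ℓ (jB N) = jB (N * ℓ) :=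
  Fermat.Agent.Red.HKMod.heckeAlphaBar_jBar N ℓ

/-- `α` maps the chart at `t` into the chart at `α t`. -/
theorem h59z_alpha_mem_chart {t x : FF N} (hx : x ∈ h62rChart A N t) :
    heckeAlphaBar Kbar N ℓ x ∈ h62rChart A (N * ℓ) (heckeAlphaBar Kbar N ℓ t) :=
  h59z_map_mem_chart (heckeAlphaBar Kbar N ℓ) (h59z_gal_alpha N ℓ) A hx

/-- `β` maps the chart at `t` into the chart at `β t`. -/
theorem h59z_beta_mem_chart {t x : FF N} (hx : x ∈ h62rChart A N t) :
    heckeBetaBar Kbar N ℓ x ∈ h62rChart A (N * ℓ) (heckeBetaBar Kbar N ℓ t) :=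
  h59z_map_mem_chart (heckeBetaBar Kbar N ℓ) (h59z_gal_beta N ℓ) A hx

/-- **`α (chart₀ N) ⊆ chart₀ (N ℓ)`** (finite charts). -/
theorem h59z_alpha_mem_chart_fin {x : FF N} (hx : x ∈ h62rChart A N (jB N)) :
    heckeAlphaBar Kbar N ℓ x ∈ h62rChart A (N * ℓ) (jB (N * ℓ)) := by
  have h := h59z_alpha_mem_chart N ℓ A hx
  rwa [h59z_alpha_jB] at h

/-- **`α (chart₀ N) ⊆ chart₀ (N ℓ)`** (charts at infinity). -/
theorem h59z_alpha_mem_chart_inf {x : FF N} (hx : x ∈ h62rChart A N (jB N)⁻¹) :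
    heckeAlphaBar Kbar N ℓ x ∈ h62rChart A (N * ℓ) (jB (N * ℓ))⁻¹ := by
  have h := h59z_alpha_mem_chart N ℓ A hx
  rwa [map_inv₀, h59z_alpha_jB] at h

end Degeneracy

/-! ### `chart₀ (N ℓ)` is integral over `α (chart₀ N)` -/

section Integral

variable (N : ℕ) (A : ValuationSubring Kbar)

/-- the evaluation `A₀[X] → FF N`, `X ↦ t`, lands in the chart (for inertia-fixed `t`). -/
theorem h59zEv_mem_chart (t : FF N) (ht : ∀ σ ∈ A.inertiaSubgroupIn ℚ, gal N σ • t = t)
    (P : Polynomial (h59bA0 A)) : h59nEv N A t P ∈ h62rChart A N t := by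
  rw [h59n_mem_chart_iff]
  refine ⟨h59nK_le_F0 N A t ht (h59nEv_mem_K N A t P), X - C P, monic_X_sub_C P, ?_⟩
  simp

/-- a `ℚ̄`-algebra homomorphism carries the evaluation at `t` to the evaluation at `φ t`. -/
theorem h59z_comp_ev {M' : ℕ} (φ : FF N →ₐ[Kbar] FF M') (t : FF N) :
    (φ : FF N →+* FF M').comp (h59nEv N A t) = h59nEv M' A (φ t) := by
  apply Polynomial.ringHom_ext
  · intro a
    simp only [RingHom.comp_apply, h59nEv_C]
    exact φ.commutes _
  · simp only [RingHom.comp_apply, h59nEv_X]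
    rfl

/-- **integrality along a homomorphism**: every element of the chart at `φ t` is a root of a
monic polynomial with coefficients in `φ (chart at t)` (`t` inertia-fixed). -/
theorem h59z_chart_integral_map {M' : ℕ} (φ : FF N →ₐ[Kbar] FF M') (t : FF N)
    (ht : ∀ σ ∈ A.inertiaSubgroupIn ℚ, gal N σ • t = t) {y : FF M'}
    (hy : y ∈ h62rChart A M' (φ t)) :
    ∃ p : (FF N)[X], p.Monic ∧ (∀ i, p.coeff i ∈ h62rChart A N t) ∧
      eval₂ (φ : FF N →+* FF M') y p = 0 := by
  obtain ⟨-, P, hP, hPy⟩ := (h59n_mem_chart_iff M' A (φ t) y).mp hy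
  refine ⟨P.map (h59nEv N A t), hP.map _, fun i => ?_, ?_⟩
  · rw [coeff_map]
    exact h59zEv_mem_chart N A t ht _
  · rw [eval₂_map, h59z_comp_ev]
    exact hPy

theorem h59z_jB_fixed [NeZero N] (σ : GQ) : gal N σ • jB N = jB N :=
  Fermat.Agent.S37.GalI.gal_smul_jB σ

theorem h59z_jB_inv_fixed [NeZero N] (σ : GQ) : gal N σ • (jB N)⁻¹ = (jB N)⁻¹ :=
  Fermat.Agent.S37.GalI.gal_smul_jB_inv σ

variable (ℓ : ℕ) [NeZero N] [NeZero ℓ]

/-- **`chart₀ (N ℓ)` is integral over `α (chart₀ N)`** (finite charts). -/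
theorem h59z_chart_integral_alpha_fin {y : FF (N * ℓ)}
    (hy : y ∈ h62rChart A (N * ℓ) (jB (N * ℓ))) :
    ∃ p : (FF N)[X], p.Monic ∧ (∀ i, p.coeff i ∈ h62rChart A N (jB N)) ∧
      eval₂ (heckeAlphaBar Kbar N ℓ : FF N →+* FF (N * ℓ)) y p = 0 := by
  rw [← h59z_alpha_jB] at hy
  exact h59z_chart_integral_map N A (heckeAlphaBar Kbar N ℓ) (jB N)
    (fun σ _ => h59z_jB_fixed N σ) hy

/-- **`chart₀ (N ℓ)` is integral over `α (chart₀ N)`** (charts at infinity). -/
theorem h59z_chart_integral_alpha_inf {y : FF (N * ℓ)}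
    (hy : y ∈ h62rChart A (N * ℓ) (jB (N * ℓ))⁻¹) :
    ∃ p : (FF N)[X], p.Monic ∧ (∀ i, p.coeff i ∈ h62rChart A N (jB N)⁻¹) ∧
      eval₂ (heckeAlphaBar Kbar N ℓ : FF N →+* FF (N * ℓ)) y p = 0 := by
  rw [← h59z_alpha_jB, ← map_inv₀] at hy
  exact h59z_chart_integral_map N A (heckeAlphaBar Kbar N ℓ) (jB N)⁻¹
    (fun σ _ => h59z_jB_inv_fixed N σ) hy

end Integral

/-! ### The leaf `H62LeafNoeth` -/

/-- **R-BASE0 (noetherian part)**: the frozen leaf of `H62RegLeaves`. -/
theorem h59z_leafNoeth : H62LeafNoeth := by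
  intro q hq M _ _ _
  haveI : NeZero q := ⟨hq.ne_zero⟩
  intro A hA
  exact ⟨h59n_isNoetherianRing_chart (M * q * q) A hq hA _ (Or.inl rfl),
    h59n_isNoetherianRing_chart (M * q * q) A hq hA _ (Or.inr rfl)⟩

end Fermat.Agent.S36
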