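import Fermat.Agent.S36.H11TorSkel
import Fermat.Agent.S36.H12TorUnitAbs
import Fermat.Agent.S36.H59Base0
import Fermat.Agent.S36.H44FrickeChart2
import Fermat.Agent.Red.KR.NormFin

/-!
# S36, row T-UNIT (helper12, prefix `h12u_` / `H12Tor`): `H11TorUnit` from the uniqueness of the
point over a node

* `H12TorUniq` (frozen interface, by-product of R-TOWER-SS): a supersingular point `𝔫` of the
  chart `j` of level `M q q` is the only maximal ideal over the node `𝔫a` below it, along `α`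
  and along `β`.
* `h12u_alpha_*`, `h12u_beta_*` : the degeneracy maps `α₂, β₂` map the chart over `A₀` of level
  `M q` into the chart of level `M q q`, the latter is integral over the image, and the norms
  map it back.
* `h12u_torUnit_of : H12TorUniq → H11TorUnit`.
-/

set_option autoImplicit false
set_option linter.style.haveILetI false
set_option linter.unusedSectionVars false

open AlgebraicCurve ModularCurve Polynomial

noncomputable section

namespace Fermat.Agent.S36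

open Fermat.Agent.S37 (Kbar GQ FF cst jB gal modelAt modelFin auxLevel)
open Fermat.Agent.Red.KR (normAlong)
open Fermat.Agent.Red.Kron (kFricke)

/-- **uniqueness of the point over a node** (by-product of R-TOWER-SS): a supersingular point
`𝔫` is the only maximal ideal of the chart of level `M q q` containing the image of the node
`𝔫a` below it. -/
def H12TorUniq : Prop :=
  ∀ (q : ℕ) (hq : q.Prime) (M : ℕ) [NeZero M] (hqM : ¬ q ∣ M), auxLevel q ∣ M →
    haveI : NeZero q := ⟨hq.ne_zero⟩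
    ∀ A : ValuationSubring Kbar, A.LiesOverPrime q →
    ∀ 𝔫 : Ideal (h92c_Chart A (M * q * q) (jB (M * q * q))), h11t_IsSS A M q 𝔫 →
    ∀ φ : FF (M * q) →ₐ[Kbar] FF (M * q * q),
      φ = heckeAlphaBar Kbar (M * q) q ∨ φ = heckeBetaBar Kbar (M * q) q →
    ∀ 𝔫a, h11t_NodeUnder A M q hq hqM φ 𝔫a 𝔫 →
    ∀ 𝔫' : Ideal (h92c_Chart A (M * q * q) (jB (M * q * q))), 𝔫'.IsMaximal →
      (∀ b : h92c_Chart A (M * q) (jB (M * q)), b ∈ 𝔫a →
        ∀ b' : h92c_Chart A (M * q * q) (jB (M * q * q)),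
          (b' : FF (M * q * q)) = φ (b : FF (M * q)) → b' ∈ 𝔫') → 𝔫' = 𝔫

section Level

variable (M q : ℕ) [NeZero M] [NeZero q] (A : ValuationSubring Kbar)

theorem h12u_chart_eq (N : ℕ) (t : FF N) : h92c_Chart A N t = h62rChart A N t := rfl

/-- the norm along a Galois-equivariant homomorphism of an `I`-invariant function is
`I`-invariant. -/
theorem h12u_norm_mem_F0 {N N' : ℕ} (φ : FF N →ₐ[Kbar] FF N')
    (hφ : ∀ (σ : GQ) (x : FF N), gal N' σ • φ x = φ (gal N σ • x)) {u : FF N'}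
    (hu : u ∈ h92c_F0 A N') : normAlong φ u ∈ h92c_F0 A N := by
  intro σ hσ
  let _ := algebraAlong φ
  have h := Algebra.norm_eq_of_equiv_equiv (A₁ := FF N) (B₁ := FF N') (A₂ := FF N)
    (B₂ := FF N') (SemilinearAut.toRingAut (gal N σ)) (SemilinearAut.toRingAut (gal N' σ))
    (RingHom.ext fun x => by
      show φ (gal N σ • x) = gal N' σ • φ x
      exact (hφ σ x).symm) u
  have h1 : Algebra.norm (FF N) (gal N' σ • u) = gal N σ • Algebra.norm (FF N) u := by
    rw [h]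
    exact (RingEquiv.apply_symm_apply (SemilinearAut.toRingAut (gal N σ)) _).symm
  have h2 : gal N' σ • u = u := hu σ hσ
  rw [h2] at h1
  exact h1.symm

/-! ### `α₂` -/

theorem h12u_alpha_mem {x : FF (M * q)} (hx : x ∈ h92c_Chart A (M * q) (jB (M * q))) :
    heckeAlphaBar Kbar (M * q) q x ∈ h92c_Chart A (M * q * q) (jB (M * q * q)) :=
  h59z_alpha_mem_chart_fin (M * q) q A hx

theorem h12u_alpha_int {y : FF (M * q * q)}
    (hy : y ∈ h92c_Chart A (M * q * q) (jB (M * q * q))) :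
    ∃ p : (FF (M * q))[X], p.Monic ∧ (∀ i, p.coeff i ∈ h92c_Chart A (M * q) (jB (M * q))) ∧
      p.eval₂ (heckeAlphaBar Kbar (M * q) q : FF (M * q) →+* FF (M * q * q)) y = 0 :=
  h59z_chart_integral_alpha_fin (M * q) A q hy

theorem h12u_alpha_norm {y : FF (M * q * q)}
    (hy : y ∈ h92c_Chart A (M * q * q) (jB (M * q * q))) :
    normAlong (heckeAlphaBar Kbar (M * q) q) y ∈ h92c_Chart A (M * q) (jB (M * q)) := by
  refine ⟨?_, h12u_norm_mem_F0 A _ (h59z_gal_alpha (M * q) q) hy.2⟩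
  have h1 : y ∈ modelAt (M * q * q) A (heckeAlphaBar Kbar (M * q) q (jB (M * q))) := by
    rw [h59z_alpha_jB]
    exact hy.1
  exact Fermat.Agent.Red.KR.h66_normAlong_mem_modelAt (heckeAlphaBar Kbar (M * q) q)
    (Fermat.Agent.Red.HKMod.finiteAlong_heckeAlphaBar (M * q) q) A (jB (M * q)) h1

/-! ### `β₂` -/

variable {M q} in
/-- `j` is integral over `A[j(t^q)]` in `F_{Mqq}`. -/
theorem h12u_jB_mem_beta (hq : q.Prime) (hM : ¬ q ∣ M) (hA : A.LiesOverPrime q) :
    jB (M * q * q) ∈ modelAt (M * q * q) A (heckeBetaBar Kbar (M * q) q (jB (M * q))) := by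
  have h1 : heckeBetaBar Kbar M q (jB M) ∈ modelAt (M * q) A (jB (M * q)) :=
    Fermat.Agent.Red.KR.meAlpha M q hq hM A hA
  have e1 : heckeAlphaBar Kbar M q (jB M) = jB (M * q) :=
    Fermat.Agent.Red.HKMod.heckeAlphaBar_jBar M q
  have h2 := Fermat.Agent.Red.KR.map_mem_modelAt (heckeBetaBar Kbar (M * q) q) A h1
  have e2 : heckeBetaBar Kbar (M * q) q (jB (M * q)) = h44s_ab M q (jB M) := by
    rw [← e1]
    exact h44s_beta_alpha M q (jB M)
  rw [e2, ← h44s_bb_apply] at h2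
  have h3 := h44s_fricke2_mem_modelAt M q hq hM A h2
  rw [h44s_fricke2_bb, h44s_fricke2_ab, h44s_aa_jB] at h3
  rw [e2]
  exact h3

variable {M q} in
theorem h12u_beta_jB_mem (hq : q.Prime) (hM : ¬ q ∣ M) (hA : A.LiesOverPrime q) :
    heckeBetaBar Kbar (M * q) q (jB (M * q)) ∈ modelAt (M * q * q) A (jB (M * q * q)) := by
  have e1 : heckeAlphaBar Kbar M q (jB M) = jB (M * q) :=
    Fermat.Agent.Red.HKMod.heckeAlphaBar_jBar M q
  have e2 : heckeBetaBar Kbar (M * q) q (jB (M * q)) = h44s_ab M q (jB M) := by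
    rw [← e1]
    exact h44s_beta_alpha M q (jB M)
  rw [e2]
  exact h44s_ab_jB_mem_modelFin M q hq hM A hA

variable {M q} in
theorem h12u_beta_mem (hq : q.Prime) (hM : ¬ q ∣ M) (hA : A.LiesOverPrime q) {x : FF (M * q)}
    (hx : x ∈ h92c_Chart A (M * q) (jB (M * q))) :
    heckeBetaBar Kbar (M * q) q x ∈ h92c_Chart A (M * q * q) (jB (M * q * q)) := by
  have h1 := h59z_beta_mem_chart (M * q) q A hx
  exact ⟨Fermat.Agent.Red.KR.h66_modelAt_le_of_mem (M * q * q) A (h12u_beta_jB_mem A hq hM hA)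
    h1.1, h1.2⟩

variable {M q} in
theorem h12u_beta_int (hq : q.Prime) (hM : ¬ q ∣ M) (hA : A.LiesOverPrime q)
    {y : FF (M * q * q)} (hy : y ∈ h92c_Chart A (M * q * q) (jB (M * q * q))) :
    ∃ p : (FF (M * q))[X], p.Monic ∧ (∀ i, p.coeff i ∈ h92c_Chart A (M * q) (jB (M * q))) ∧
      p.eval₂ (heckeBetaBar Kbar (M * q) q : FF (M * q) →+* FF (M * q * q)) y = 0 := by
  have h1 : y ∈ h62rChart A (M * q * q) (heckeBetaBar Kbar (M * q) q (jB (M * q))) :=
    ⟨Fermat.Agent.Red.KR.h66_modelAt_le_of_mem (M * q * q) A (h12u_jB_mem_beta A hq hM hA) hy.1,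
      hy.2⟩
  exact h59z_chart_integral_map (M * q) A (heckeBetaBar Kbar (M * q) q) (jB (M * q))
    (fun σ _ => h59z_jB_fixed (M * q) σ) h1

variable {M q} in
theorem h12u_beta_norm (hq : q.Prime) (hM : ¬ q ∣ M) (hA : A.LiesOverPrime q)
    {y : FF (M * q * q)} (hy : y ∈ h92c_Chart A (M * q * q) (jB (M * q * q))) :
    normAlong (heckeBetaBar Kbar (M * q) q) y ∈ h92c_Chart A (M * q) (jB (M * q)) := by
  refine ⟨?_, h12u_norm_mem_F0 A _ (h59z_gal_beta (M * q) q) hy.2⟩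
  have h1 : y ∈ modelAt (M * q * q) A (heckeBetaBar Kbar (M * q) q (jB (M * q))) :=
    Fermat.Agent.Red.KR.h66_modelAt_le_of_mem (M * q * q) A (h12u_jB_mem_beta A hq hM hA) hy.1
  exact Fermat.Agent.Red.KR.h66_normAlong_mem_modelAt (heckeBetaBar Kbar (M * q) q)
    (Fermat.Agent.Red.HKMod.finiteAlong_heckeBetaBar (M * q) q) A (jB (M * q)) h1

end Level

/-! ### The assembly -/

/-- the unit statement along one degeneracy map, from the abstract lemma. -/
theorem h12u_unit_of {M q : ℕ} [NeZero M] [NeZero q] (A : ValuationSubring Kbar)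
    (φ : FF (M * q) →ₐ[Kbar] FF (M * q * q))
    (hφB : ∀ b ∈ h92c_Chart A (M * q) (jB (M * q)),
      φ b ∈ h92c_Chart A (M * q * q) (jB (M * q * q)))
    (hint : ∀ y ∈ h92c_Chart A (M * q * q) (jB (M * q * q)),
      ∃ p : (FF (M * q))[X], p.Monic ∧ (∀ i, p.coeff i ∈ h92c_Chart A (M * q) (jB (M * q))) ∧
        p.eval₂ (φ : FF (M * q) →+* FF (M * q * q)) y = 0)
    (hNB : ∀ y ∈ h92c_Chart A (M * q * q) (jB (M * q * q)),
      normAlong φ y ∈ h92c_Chart A (M * q) (jB (M * q)))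
    (𝔫 : Ideal (h92c_Chart A (M * q * q) (jB (M * q * q))))
    (𝔫a : Ideal (h92c_Chart A (M * q) (jB (M * q)))) (h𝔫a : 𝔫a.IsMaximal)
    (huniq : ∀ 𝔫' : Ideal (h92c_Chart A (M * q * q) (jB (M * q * q))), 𝔫'.IsMaximal →
      (∀ b : h92c_Chart A (M * q) (jB (M * q)), b ∈ 𝔫a →
        ∀ b' : h92c_Chart A (M * q * q) (jB (M * q * q)),
          (b' : FF (M * q * q)) = φ (b : FF (M * q)) → b' ∈ 𝔫') → 𝔫' = 𝔫)
    (u : FF (M * q * q)) (hu : h11t_UnitAt A (jB (M * q * q)) 𝔫 u) :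
    h11t_UnitAt A (jB (M * q)) 𝔫a (normAlong φ u) := by
  obtain ⟨hu0, s, hs, hsu, hsu'⟩ := hu
  exact h12u_unit_norm_abs (φ : FF (M * q) →+* FF (M * q * q)) _ _ (normAlong φ)
    (Fermat.Agent.Red.KR.normAlong_mul φ) _ (Fermat.Agent.Red.KR.normAlong_map φ) hφB hint hNB
    𝔫a h𝔫a 𝔫 huniq u hu0 s hs hsu hsu'

/-- **T-UNIT** from the uniqueness of the point over a node. -/
theorem h12u_torUnit_of (hU : H12TorUniq) : H11TorUnit := by
  intro q hq M _ hqM haux
  haveI : NeZero q := ⟨hq.ne_zero⟩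
  intro A hA 𝔫 h𝔫 u _ hu
  refine ⟨fun 𝔫a hna => ?_, fun 𝔫b hnb => ?_⟩
  · exact h12u_unit_of A (heckeAlphaBar Kbar (M * q) q)
      (fun b hb => h12u_alpha_mem M q A hb) (fun y hy => h12u_alpha_int M q A hy)
      (fun y hy => h12u_alpha_norm M q A hy) 𝔫 𝔫a hna.1
      (hU q hq M hqM haux A hA 𝔫 h𝔫 _ (Or.inl rfl) 𝔫a hna) u hu
  · exact h12u_unit_of A (heckeBetaBar Kbar (M * q) q)
      (fun b hb => h12u_beta_mem A hq hqM hA hb) (fun y hy => h12u_beta_int A hq hqM hA hy)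
      (fun y hy => h12u_beta_norm A hq hqM hA hy) 𝔫 𝔫b hnb.1
      (hU q hq M hqM haux A hA 𝔫 h𝔫 _ (Or.inr rfl) 𝔫b hnb) u hu

end Fermat.Agent.S36
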