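import Fermat.Agent.LGC.SSInt
import Fermat.Agent.Red.TransferRed
import Fermat.Agent.Red.KR.Basic
import Fermat.Agent.S36.H12TorUnit

/-!
# S36, R-CUSP-UNIT11 tool (helper90): the adjugate

`φ : FF N → FF N'` finite, `S ∈ FF N'` integral over `A[φ t]`.  Then the norm `ν = Nm_φ S` is
integral over `A[t]` and `S ∣ φ ν` in the chart: `S · S' = φ ν` with `S'` integral over
`A[φ t]` (`S' = G₁(-S)`, `G = X · G₁ + ν` the characteristic polynomial of `-S`, whose
coefficients are integral by the landed `h87_coeff_mem_modelAt`).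
-/

set_option autoImplicit false
set_option linter.unusedVariables false
set_option linter.style.haveILetI false

open AlgebraicCurve ModularCurve Polynomial

noncomputable section

namespace Fermat.Agent.S36

open Fermat.Agent.S37 (Kbar GQ FF cst gal jB modelAt)
open Fermat.Agent.Red.KR (normAlong)
open Fermat.Agent.Red.TRK (charpolyAlong)

/-- the norm as the constant coefficient of the characteristic polynomial of `-S`. -/
theorem h90u_normAlong_eq_coeff {N N' : ℕ} (φ : FF N →ₐ[Kbar] FF N')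
    (hfin : FiniteAlong Kbar φ) (S : FF N') :
    normAlong φ S = (charpolyAlong φ hfin (-S)).coeff 0 := by
  have h := Fermat.Agent.Red.KR.normAlong_sub_eq_eval φ hfin 0 (-S)
  rw [map_zero, zero_sub, neg_neg] at h
  rw [h, Polynomial.coeff_zero_eq_eval_zero]

/-- **the norm of a chart function is a chart function.** -/
theorem h90u_norm_mem_modelAt {N N' : ℕ} [NeZero N] [NeZero N'] (φ : FF N →ₐ[Kbar] FF N')
    (hfin : FiniteAlong Kbar φ) (A : ValuationSubring Kbar) (t : FF N) {S : FF N'}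
    (hS : S ∈ modelAt N' A (φ t)) : normAlong φ S ∈ modelAt N A t := by
  rw [h90u_normAlong_eq_coeff φ hfin S]
  exact Fermat.Agent.Red.TRK.h87_coeff_mem_modelAt φ hfin A t (Subring.neg_mem _ hS) 0

/-- **the adjugate.**  `S` divides its norm in the chart. -/
theorem h90u_adjugate {N N' : ℕ} [NeZero N] [NeZero N'] (φ : FF N →ₐ[Kbar] FF N')
    (hfin : FiniteAlong Kbar φ) (A : ValuationSubring Kbar) (t : FF N) {S : FF N'}
    (hS : S ∈ modelAt N' A (φ t)) :
    ∃ S' : FF N', S' ∈ modelAt N' A (φ t) ∧ S * S' = φ (normAlong φ S) := by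
  set G := charpolyAlong φ hfin (-S) with hG
  have hroot : G.eval₂ φ.toRingHom (-S) = 0 :=
    Fermat.Agent.LGC.h44g_eval₂_charpolyAlong φ hfin (-S)
  have hsplit : G = G.divX * X + C (G.coeff 0) := (Polynomial.divX_mul_X_add G).symm
  refine ⟨G.divX.eval₂ φ.toRingHom (-S), ?_, ?_⟩
  · rw [Polynomial.eval₂_eq_sum_range]
    refine Subring.sum_mem _ (fun i _ => Subring.mul_mem _ ?_ (Subring.pow_mem _
      (Subring.neg_mem _ hS) i))
    rw [Polynomial.coeff_divX]
    exact Fermat.Agent.Red.KR.map_mem_modelAt φ A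
      (Fermat.Agent.Red.TRK.h87_coeff_mem_modelAt φ hfin A t (Subring.neg_mem _ hS) (i + 1))
  · have h1 : G.eval₂ φ.toRingHom (-S) =
        G.divX.eval₂ φ.toRingHom (-S) * (-S) + φ (G.coeff 0) := by
      conv_lhs => rw [hsplit]
      rw [Polynomial.eval₂_add, Polynomial.eval₂_mul, Polynomial.eval₂_X, Polynomial.eval₂_C]
      rfl
    rw [hroot] at h1
    rw [h90u_normAlong_eq_coeff φ hfin S, ← hG]
    linear_combination h1

/-- **the adjugate, over the inertia ring.**  For a Galois-equivariant finite `φ` and `S` in the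
chart `B₀(φ t)` of level `N'`: the norm `ν` lies in the chart `B₀(t)` of level `N` and
`S · S' = φ ν` with `S'` in the chart `B₀(φ t)`. -/
theorem h90u_adjugate_chart {N N' : ℕ} [NeZero N] [NeZero N'] (φ : FF N →ₐ[Kbar] FF N')
    (hfin : FiniteAlong Kbar φ)
    (hφ : ∀ (σ : GQ) (x : FF N), gal N' σ • φ x = φ (gal N σ • x))
    (A : ValuationSubring Kbar) (t : FF N) {S : FF N'} (hS : S ∈ h62rChart A N' (φ t)) :
    normAlong φ S ∈ h62rChart A N t ∧
      ∃ S' : FF N', S' ∈ h62rChart A N' (φ t) ∧ S * S' = φ (normAlong φ S) := by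
  obtain ⟨hSm, hSf⟩ := h62r_mem_chart.mp hS
  have hνf : ∀ σ ∈ A.inertiaSubgroupIn ℚ, gal N σ • normAlong φ S = normAlong φ S :=
    h12u_norm_mem_F0 A φ hφ (u := S) hSf
  refine ⟨h62r_mem_chart.mpr ⟨h90u_norm_mem_modelAt φ hfin A t hSm, hνf⟩, ?_⟩
  obtain ⟨S', hS'm, hS'⟩ := h90u_adjugate φ hfin A t hSm
  by_cases hS0 : S = 0
  · refine ⟨0, Subring.zero_mem _, ?_⟩
    rw [mul_zero, ← hS', hS0, zero_mul]
  · refine ⟨S', h62r_mem_chart.mpr ⟨hS'm, ?_⟩, hS'⟩
    intro σ hσ
    have h1 := congrArg (fun x => gal N' σ • x) hS'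
    simp only [smul_mul'] at h1
    rw [hSf σ hσ, hφ, hνf σ hσ, ← hS'] at h1
    exact mul_left_cancel₀ hS0 h1

end Fermat.Agent.S36
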