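import Fermat.Agent.S36.H90CuspLevel1
import Fermat.Agent.S36.H90CuspAdj

/-!
# S36, R-CUSP-UNIT11 (helper90): the certificate from the norm to the level one

`h90u_certificate`: the whole final algebra of the certificate `S · S' = q · p` of
`H18cUnit11`: if `S₂ ∈ FF (1 · q · q)` lies in the chart at infinity over the inertia ring and
its norm to the level `1` is `q · z`, `z` Gauss-integral with a reduction of nonzero constant
coefficient, then for every level `M` the image `S` of `S₂` in `FF (M · q · q)` satisfies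
`S · S' = q · p` in the chart with `p ∉ 𝔫` at every cusp `𝔫`.
(adjugate `h90u_adjugate_chart` + level one `h90u_level1_unit_of_mul`.)
-/

set_option autoImplicit false
set_option linter.unusedVariables false
set_option linter.style.haveILetI false

open AlgebraicCurve ModularCurve WithZero Polynomial

noncomputable section

namespace Fermat.Agent.S36

open Fermat.Agent.S37 (Kbar GQ FF cst gal jB auxLevel modelAt degen coe_degen)
open Fermat.Agent.Red.KR (normAlong)
open Fermat.Agent.Red.GV.Soft (softV softR)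

/-- an algebra homomorphism which is the identity on `q`-expansions is the degeneracy map. -/
theorem h90u_eq_degen {N N' : ℕ} [NeZero N] [NeZero N'] (h : N ∣ N') (φ : FF N →ₐ[Kbar] FF N')
    (hcoe : ∀ x : FF N, ((φ x : FF N') : LaurentSeries Kbar) = (x : LaurentSeries Kbar)) :
    φ = degen h := by
  apply AlgHom.ext
  intro x
  apply Subtype.ext
  rw [hcoe, coe_degen]

/-- the degeneracy maps send charts at infinity to charts at infinity. -/
theorem h90u_degen_mem_chart {N N' : ℕ} [NeZero N] [NeZero N'] (h : N ∣ N')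
    (A : ValuationSubring Kbar) {x : FF N} (hx : x ∈ h62rChart A N (jB N)⁻¹) :
    degen h x ∈ h62rChart A N' (jB N')⁻¹ := by
  obtain ⟨hm, hf⟩ := h62r_mem_chart.mp hx
  refine h62r_mem_chart.mpr ⟨?_, ?_⟩
  · have := Fermat.Agent.Red.KR.map_mem_modelAt (degen h) A hm
    rwa [map_inv₀, Fermat.Agent.Red.CH0.degen_jBar h] at this
  · intro σ hσ
    rw [← Fermat.Agent.LGC.h63_degen_gal, hf σ hσ]

/-- **The certificate from the norm to the level one.**  Let `S₂` be a function of level
`q²` (`= 1 · q · q`) in the chart at infinity over the inertia ring whose norm to the level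
`1` (along any `φ` which is the identity on `q`-expansions) is `q · z` with `z` Gauss-integral
and with a reduction of nonzero constant coefficient.  Then at every level `M q²` the image `S`
of `S₂` satisfies `S · S' = q · p` in the chart at infinity with `p` a unit at every cusp. -/
theorem h90u_certificate {q : ℕ} (hq : q.Prime) (A : ValuationSubring Kbar)
    (hA : A.LiesOverPrime q) (M : ℕ) [NeZero M]
    (φ : FF 1 →ₐ[Kbar] FF (1 * q * q))
    (hcoe : ∀ x : FF 1, ((φ x : FF (1 * q * q)) : LaurentSeries Kbar) = (x : LaurentSeries Kbar))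
    (S₂ : FF (1 * q * q))
    (hS₂ : haveI : NeZero q := ⟨hq.ne_zero⟩
      S₂ ∈ h62rChart A (1 * q * q) (jB (1 * q * q))⁻¹)
    (z : FF 1) (hνz : normAlong φ S₂ = cst 1 ((q : ℕ) : Kbar) * z)
    (hzV : z ∈ softV A 1) (hz0 : (softR A 1 ⟨z, hzV⟩).coeff 0 ≠ 0) :
    haveI : NeZero q := ⟨hq.ne_zero⟩
    ∃ S S' p : h62rChart A (M * q * q) (jB (M * q * q))⁻¹,
      (S : FF (M * q * q)) = degen (Nat.mul_dvd_mul (Nat.mul_dvd_mul (one_dvd M) dvd_rfl) dvd_rfl) S₂ ∧
      S * S' = (q : h62rChart A (M * q * q) (jB (M * q * q))⁻¹) * p ∧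
      ∀ 𝔫 : Ideal (h62rChart A (M * q * q) (jB (M * q * q))⁻¹),
        h18c_IsCusp A (M * q * q) q 𝔫 → p ∉ 𝔫 := by
  haveI : NeZero q := ⟨hq.ne_zero⟩
  have hd1 : (1 : ℕ) ∣ 1 * q * q := one_dvd _
  have hd2 : 1 * q * q ∣ M * q * q := Nat.mul_dvd_mul (Nat.mul_dvd_mul (one_dvd M) dvd_rfl) dvd_rfl
  have hφ : φ = degen hd1 := h90u_eq_degen hd1 φ hcoe
  subst hφ
  have hfin : FiniteAlong Kbar (degen hd1) := Fermat.Agent.Red.CH0.finiteAlong_degen hd1
  have hgal : ∀ (σ : GQ) (x : FF 1), gal (1 * q * q) σ • degen hd1 x = degen hd1 (gal 1 σ • x) :=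
    fun σ x => (Fermat.Agent.LGC.h63_degen_gal hd1 σ x).symm
  have ht : degen hd1 (jB 1)⁻¹ = (jB (1 * q * q))⁻¹ := by
    rw [map_inv₀, Fermat.Agent.Red.CH0.degen_jBar hd1]
  have hS₂' : S₂ ∈ h62rChart A (1 * q * q) (degen hd1 (jB 1)⁻¹) := by rw [ht]; exact hS₂
  obtain ⟨hν, T, hT, hST⟩ := h90u_adjugate_chart (degen hd1) hfin hgal A (jB 1)⁻¹ hS₂'
  rw [ht] at hT
  obtain ⟨hνm, hνf⟩ := h62r_mem_chart.mp hν
  have hqA : ((q : ℕ) : Kbar) ∈ A := natCast_mem A q
  have hq0 : ((q : ℕ) : Kbar) ≠ 0 := Nat.cast_ne_zero.mpr hq.ne_zero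
  obtain ⟨p, hp, hpc⟩ := h90u_level1_unit_of_mul hq A hA (normAlong (degen hd1) S₂) z
    ((q : ℕ) : Kbar) hqA hq0 (fun σ _ => map_natCast σ q) hνm hνf hνz hzV hz0 (M * q * q)
  refine ⟨⟨degen hd2 S₂, h90u_degen_mem_chart hd2 A hS₂⟩,
    ⟨degen hd2 T, h90u_degen_mem_chart hd2 A hT⟩, p, rfl, ?_, hpc⟩
  apply Subtype.ext
  show degen hd2 S₂ * degen hd2 T = ((q : ℕ) : FF (M * q * q)) * (p : FF (M * q * q))
  rw [← map_mul, hST, hνz, map_mul, map_mul, hp]
  have e1 : degen hd2 (degen hd1 (cst 1 ((q : ℕ) : Kbar))) = ((q : ℕ) : FF (M * q * q)) := by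
    rw [AlgHom.commutes, AlgHom.commutes]
    exact map_natCast _ q
  have e2 : degen hd2 (degen hd1 z) = degen (one_dvd (M * q * q)) z := by
    apply Subtype.ext
    rw [coe_degen, coe_degen, coe_degen]
  rw [e1, e2]

end Fermat.Agent.S36
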