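import Fermat.Agent.S36.H76CuspExp
import Fermat.Agent.S36.H90CuspCert
import Fermat.Agent.S36.H58C11Fam
import Fermat.Agent.S36.H20U11Norm
import Fermat.Agent.S36.H18CuspIface
import Fermat.Agent.S36.H20Emb
import Fermat.Agent.S36.H34Cyc

/-!
# S36, block REG, row R-CUSP-UNIT11 (helper76): the certificate of regularity at the middle cusps

`theorem h76u_unit11 : H18cUnit11`.

`S = σ y₁ (1 - j₀ / j₂) + (1 - y₁)` (`h76u_S`, file `H76CuspInt`), a function of the level `q²`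
in the chart at infinity over the inertia ring, whose three expansions are `unit` (`E20`),
`(1 - ζ) · unit` (`E11^ζ`), `unit` (`E02`) (file `H76CuspExp`).  Its norm to the level one is
`q · unit` (the landed product formula `h58k_norm` of helper58), and the landed certificate
`h90u_certificate` of helper90 (adjugate, level one, transport) gives `S · S' = q · p`.
-/

set_option autoImplicit false
set_option linter.unusedVariables false
set_option linter.style.haveILetI false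
set_option linter.unusedSectionVars false
set_option synthInstance.maxHeartbeats 400000

open AlgebraicCurve ModularCurve WithZero

noncomputable section

namespace Fermat.Agent.S36

open Fermat.Agent.S37 (Kbar GQ FF cst gal jB auxLevel modelAt degen coe_degen)
open Fermat.Agent.Red.KR (normAlong)
open Fermat.Agent.Red.Kron (kFricke twistK)
open Fermat.Agent.Red.GV.Soft (softV softR)

/-! ## Bridges -/

/-- the two notions of units of `A[[t]]` agree. -/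
theorem h76u_PS1_ups {A : ValuationSubring Kbar} {s : LaurentSeries Kbar} (h : h76u_PS1 A s) :
    h20u_UPS A s := by
  rw [h76u_PS1_iff, h76u_PS_iff] at h
  rw [h20u_ups_iff]
  exact ⟨h.1.2, h.1.1, h.2.1, h.2.2⟩

theorem h76u_PS1_prod {A : ValuationSubring Kbar} {ι : Type*} (s : Finset ι)
    (f : ι → LaurentSeries Kbar) (h : ∀ i ∈ s, h76u_PS1 A (f i)) :
    h76u_PS1 A (∏ i ∈ s, f i) :=
  Finset.prod_induction f (h76u_PS1 A) (fun _ _ ha hb => ha.mul hb) h76u_PS1_one h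

/-- `(1 - ζ)^(q-1) / q` is a unit of `A`. -/
theorem h76u_cyc_unit (A : ValuationSubring Kbar) {q : ℕ} (hq : q.Prime) {ζ : Kbar}
    (hζ : IsPrimitiveRoot ζ q) :
    (1 - ζ) ^ (q - 1) * ((q : ℕ) : Kbar)⁻¹ ∈ A ∧ (1 - ζ) ^ (q - 1) * ((q : ℕ) : Kbar)⁻¹ ≠ 0 ∧
      ((1 - ζ) ^ (q - 1) * ((q : ℕ) : Kbar)⁻¹)⁻¹ ∈ A := by
  have hq0 : ((q : ℕ) : Kbar) ≠ 0 := Nat.cast_ne_zero.mpr hq.ne_zero
  have hz1 : (1 : Kbar) - ζ ≠ 0 := sub_ne_zero.mpr (fun h => hζ.ne_one hq.one_lt h.symm)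
  have hv := h34y_val_q A hq hζ
  have hvq : A.valuation ((q : ℕ) : Kbar) ≠ 0 := (Valuation.ne_zero_iff _).mpr hq0
  have h1 : A.valuation ((1 - ζ) ^ (q - 1) * ((q : ℕ) : Kbar)⁻¹) = 1 := by
    rw [map_mul, map_pow, map_inv₀, ← hv, mul_inv_cancel₀ hvq]
  refine ⟨(A.valuation_le_one_iff _).mp h1.le,
    mul_ne_zero (pow_ne_zero _ hz1) (inv_ne_zero hq0), ?_⟩
  rw [← A.valuation_le_one_iff, map_inv₀, h1, inv_one]

/-- `∏_{0 < b < q} (1 - ζ^b) = q`. -/
theorem h76u_prod_cyc {q : ℕ} (hq : q.Prime) {ζ : Kbar} (hζ : IsPrimitiveRoot ζ q) :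
    ∏ b ∈ Finset.Ioo 0 q, (1 - ζ ^ b) = ((q : ℕ) : Kbar) := by
  obtain ⟨n, rfl⟩ : ∃ n, q = n + 1 := ⟨q - 1, (Nat.sub_add_cancel hq.pos).symm⟩
  have h2 := hζ.prod_one_sub_pow_eq_order
  have h3 : Finset.Ioo 0 (n + 1) =
      (Finset.range n).map ⟨fun k => k + 1, add_left_injective 1⟩ := by
    ext b
    simp only [Finset.mem_Ioo, Finset.mem_map, Finset.mem_range, Function.Embedding.coeFn_mk]
    constructor
    · rintro ⟨h0, h1⟩
      exact ⟨b - 1, by omega, by omega⟩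
    · rintro ⟨k, hk, rfl⟩
      exact ⟨by omega, by omega⟩
  rw [h3, Finset.prod_map]
  simp only [Function.Embedding.coeFn_mk]
  rw [h2, Nat.cast_add, Nat.cast_one]

/-- a function whose expansion is a unit of `A[[t]]` is Gauss-integral with a reduction of
nonzero constant coefficient. -/
theorem h76u_soft_of_PS1 (A : ValuationSubring Kbar) (N : ℕ) {z : FF N}
    (h : h76u_PS1 A ((z : FF N) : LaurentSeries Kbar)) :
    ∃ hzV : z ∈ softV A N, (softR A N ⟨z, hzV⟩).coeff 0 ≠ 0 := by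
  obtain ⟨f, hf, hfz⟩ := h
  have hemb : Fermat.Agent.Red.GV.embA A (HahnSeries.ofPowerSeries ℤ A f) =
      ((z : FF N) : LaurentSeries Kbar) := by
    rw [← hfz, h76u_ps_apply]
    exact coeffMap_ofPowerSeries A.subtype f
  have hzV : z ∈ softV A N := Fermat.Agent.Red.GV.Soft.mem_softV_of_embA A N z _ hemb
  refine ⟨hzV, ?_⟩
  rw [Fermat.Agent.Red.GV.Soft.softR_of_embA A N ⟨z, hzV⟩ _ hemb]
  change (coeffMap (IsLocalRing.residue A) (HahnSeries.ofPowerSeries ℤ A f)).coeff 0 ≠ 0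
  rw [coeffMap_coeff]
  have h0 : (HahnSeries.ofPowerSeries ℤ A f).coeff 0 = PowerSeries.constantCoeff f := by
    have := HahnSeries.ofPowerSeries_apply_coeff (Γ := ℤ) (R := A) f 0
    rw [PowerSeries.coeff_zero_eq_constantCoeff] at this
    exact_mod_cast this
  rw [h0]
  have hu : IsUnit (PowerSeries.constantCoeff f) := PowerSeries.isUnit_iff_constantCoeff.mp hf
  intro hres
  rw [IsLocalRing.residue_eq_zero_iff] at hres
  exact (IsLocalRing.mem_maximalIdeal _).mp hres hu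

/-! ## The norm to the level `M` -/

section Norm

variable (M q : ℕ) [NeZero M] [NeZero q]

theorem h76u_range_eq (hq : 0 < q) : Finset.range q = insert 0 (Finset.Ioo 0 q) := by
  ext b
  simp only [Finset.mem_range, Finset.mem_insert, Finset.mem_Ioo]
  omega

/-- **the norm of a certificate is `q · unit`.** -/
theorem h76u_norm_series (hq : q.Prime) (hqM : ¬ q ∣ M) (A : ValuationSubring Kbar)
    (u : FF (M * q * q))
    (h20 : h76u_PS1 A ((u : FF (M * q * q)) : LaurentSeries Kbar))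
    (h11 : ∀ ζ : Kbar, IsPrimitiveRoot ζ q → ∀ Φ : FF (M * q * q) →+* LaurentSeries Kbar,
      h20n_IsE11 M q hq hqM ζ Φ → ∃ v, h76u_PS1 A v ∧ Φ u = HahnSeries.C (1 - ζ) * v)
    (h02 : ∀ Φ : FF (M * q * q) →+* LaurentSeries Kbar, h20n_IsE02 M q hq hqM Φ →
      h76u_PS1 A (Φ u)) :
    ∃ W, h76u_PS1 A W ∧
      ((normAlong (h58k_inc M q) u : FF M) : LaurentSeries Kbar) =
        HahnSeries.C ((q : ℕ) : Kbar) * W := by
  classical
  have hqq : 0 < q * q := Nat.mul_pos hq.pos hq.pos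
  haveI : NeZero (q * q) := ⟨hqq.ne'⟩
  have hq0 : ((q : ℕ) : Kbar) ≠ 0 := Nat.cast_ne_zero.mpr hq.ne_zero
  obtain ⟨ξ, hξ⟩ := HasEnoughRootsOfUnity.exists_primitiveRoot Kbar (q * q)
  have hζ : IsPrimitiveRoot (ξ ^ q) q := hξ.pow hqq rfl
  have hξA : ξ ∈ A := h20u_root_mem hqq hξ.pow_eq_one
  have hEx := h20n_embExists q hq M hqM
  obtain ⟨E0, hE0⟩ := hEx.2
  have hprim : ∀ b : ℕ, 0 < b → b < q → IsPrimitiveRoot ((ξ ^ q) ^ b) q := fun b hb0 hbq =>
    hζ.pow_of_coprime b ((Nat.coprime_of_lt_prime hb0.ne' hbq hq).symm)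
  have hEb : ∀ b : ℕ, ∃ Eb : FF (M * q * q) →+* LaurentSeries Kbar,
      0 < b → b < q → h20n_IsE11 M q hq hqM ((ξ ^ q) ^ b) Eb := by
    intro b
    by_cases hb : 0 < b ∧ b < q
    · have hp := hprim b hb.1 hb.2
      obtain ⟨Eb, hEb⟩ := hEx.1 ((ξ ^ q) ^ b) hp.pow_eq_one (hp.ne_one hq.one_lt)
      exact ⟨Eb, fun _ _ => hEb⟩
    · exact ⟨algebraMap _ _, fun h1 h2 => absurd ⟨h1, h2⟩ hb⟩
  choose E hE using hEb
  have hN := h58k_norm M q hq hqM (ξ ^ q) hζ E hE E0 hE0 ξ hξ u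
  rw [h58k_prod_split] at hN
  -- the middle factors
  have hv : ∀ b : ℕ, ∃ v, b ∈ Finset.Ioo 0 q →
      h76u_PS1 A v ∧ E b u = HahnSeries.C (1 - (ξ ^ q) ^ b) * v := by
    intro b
    by_cases hb : b ∈ Finset.Ioo 0 q
    · have hb' := Finset.mem_Ioo.mp hb
      obtain ⟨v, hv1, hv2⟩ := h11 _ (hprim b hb'.1 hb'.2) (E b) (hE b hb'.1 hb'.2)
      exact ⟨v, fun _ => ⟨hv1, hv2⟩⟩
    · exact ⟨0, fun h => absurd h hb⟩
  choose v hv using hv
  have hmid : ∏ c ∈ Finset.range q, qExpand Kbar (q * q) (h40naFam M q E c u) =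
      HahnSeries.C ((q : ℕ) : Kbar) *
        (qExpand Kbar (q * q) ((u : FF (M * q * q)) : LaurentSeries Kbar) *
          ∏ b ∈ Finset.Ioo 0 q, qExpand Kbar (q * q) (v b)) := by
    rw [h76u_range_eq q hq.pos, Finset.prod_insert (by simp), h40naFam_zero]
    have h1 : ∏ b ∈ Finset.Ioo 0 q, qExpand Kbar (q * q) (h40naFam M q E b u) =
        ∏ b ∈ Finset.Ioo 0 q,
          (HahnSeries.C (1 - (ξ ^ q) ^ b) * qExpand Kbar (q * q) (v b)) := by
      refine Finset.prod_congr rfl (fun b hb => ?_)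
      rw [h40naFam_pos M q E (Finset.mem_Ioo.mp hb).1, (hv b hb).2, map_mul, qExpand_C]
    rw [h1, Finset.prod_mul_distrib, ← map_prod, h76u_prod_cyc hq hζ]
    change qExpand Kbar (q * q) ((u : FF (M * q * q)) : LaurentSeries Kbar) * _ = _
    ring
  have hW1 : h76u_PS1 A (qExpand Kbar (q * q) ((u : FF (M * q * q)) : LaurentSeries Kbar) *
      ∏ b ∈ Finset.Ioo 0 q, qExpand Kbar (q * q) (v b)) :=
    (h20.qExpand (q * q)).mul
      (h76u_PS1_prod _ _ (fun b hb => ((hv b hb).1).qExpand (q * q)))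
  have hW2 : h76u_PS1 A (∏ b ∈ Finset.range (q * q), twistK (ξ ^ b) (E0 u)) :=
    h76u_PS1_prod _ _ (fun b _ => (h02 E0 hE0).twist (A.pow_mem hξA b))
  rw [hmid] at hN
  set Nm : LaurentSeries Kbar := ((normAlong (h58k_inc M q) u : FF M) : LaurentSeries Kbar)
    with hNm
  refine ⟨HahnSeries.C (((q : ℕ) : Kbar)⁻¹) * Nm, ?_, ?_⟩
  · apply h76u_PS1_of_qExpand (q * q)
    rw [map_mul, qExpand_C, hN]
    have hC : (HahnSeries.C (((q : ℕ) : Kbar)⁻¹) : LaurentSeries Kbar) *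
        HahnSeries.C ((q : ℕ) : Kbar) = 1 := by
      rw [← map_mul, inv_mul_cancel₀ hq0, map_one]
    have hre : (HahnSeries.C (((q : ℕ) : Kbar)⁻¹) : LaurentSeries Kbar) *
        (HahnSeries.C ((q : ℕ) : Kbar) *
          (qExpand Kbar (q * q) ((u : FF (M * q * q)) : LaurentSeries Kbar) *
            ∏ b ∈ Finset.Ioo 0 q, qExpand Kbar (q * q) (v b)) *
          ∏ b ∈ Finset.range (q * q), twistK (ξ ^ b) (E0 u)) =
        (qExpand Kbar (q * q) ((u : FF (M * q * q)) : LaurentSeries Kbar) *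
            ∏ b ∈ Finset.Ioo 0 q, qExpand Kbar (q * q) (v b)) *
          ∏ b ∈ Finset.range (q * q), twistK (ξ ^ b) (E0 u) := by
      rw [mul_assoc (HahnSeries.C ((q : ℕ) : Kbar)), ← mul_assoc, hC, one_mul]
    rw [hre]
    exact hW1.mul hW2
  · rw [← mul_assoc, ← map_mul, mul_inv_cancel₀ hq0, map_one, one_mul]

end Norm

/-! ## The functions `S` at the levels `q²` and `M q²` -/

theorem h76u_degen_S (M q : ℕ) [NeZero M] [NeZero q] (A : ValuationSubring Kbar)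
    (s : Polynomial ↥(h81a_A0 A)) (E : ℕ) (h : 1 * q * q ∣ M * q * q) :
    degen h (h76u_S 1 q A s E) = h76u_S M q A s E := by
  apply Subtype.ext
  rw [coe_degen]
  exact (h76u_coe_S 1 q A s E).trans (h76u_coe_S M q A s E).symm

/-! ## The leaf -/

/-- **R-CUSP-UNIT11.**  The certificate of regularity at the middle cusps. -/
theorem h76u_unit11 : H18cUnit11 := by
  intro q hq M _ hqM haux
  haveI : NeZero q := ⟨hq.ne_zero⟩
  intro A hA ζ E11 E02 hT
  have hq1 : ¬ q ∣ 1 := hq.not_dvd_one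
  have hq0 : ((q : ℕ) : Kbar) ≠ 0 := Nat.cast_ne_zero.mpr hq.ne_zero
  obtain ⟨s, E, hs0, hZ⟩ := h76u_exists_mult 1 q A hq hq1 hA
  have hS₂ := h76u_S_mem 1 q A hq hq1 hA s E hZ
  obtain ⟨W, hW, hNm⟩ := h76u_norm_series 1 q hq hq1 A (h76u_S 1 q A s E)
    (h76u_E20_S 1 q A hq s E hs0)
    (fun ζ' hζ' Φ hΦ => h76u_E11_S 1 q A hq hq1 hζ' Φ hΦ s E hs0)
    (fun Φ hΦ => h76u_E02_S 1 q A hq hq1 Φ hΦ s E hs0)
  set ν : FF 1 := normAlong (h58k_inc 1 q) (h76u_S 1 q A s E) with hν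
  have hcq : cst 1 ((q : ℕ) : Kbar) ≠ 0 :=
    (_root_.map_ne_zero (algebraMap Kbar (FF 1))).mpr hq0
  have hνz : ν = cst 1 ((q : ℕ) : Kbar) * ((cst 1 ((q : ℕ) : Kbar))⁻¹ * ν) := by
    rw [← mul_assoc, mul_inv_cancel₀ hcq, one_mul]
  have hzW : (((cst 1 ((q : ℕ) : Kbar))⁻¹ * ν : FF 1) : LaurentSeries Kbar) = W := by
    have h1 : (((cst 1 ((q : ℕ) : Kbar))⁻¹ * ν : FF 1) : LaurentSeries Kbar) =
        (HahnSeries.C ((q : ℕ) : Kbar))⁻¹ * (ν : LaurentSeries Kbar) := by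
      rw [← h76u_coe_cst 1]
      exact (map_mul (algebraMap (FF 1) (LaurentSeries Kbar)) _ _).trans
        (by rw [map_inv₀]; rfl)
    have hC0 : (HahnSeries.C ((q : ℕ) : Kbar) : LaurentSeries Kbar) ≠ 0 :=
      (_root_.map_ne_zero (HahnSeries.C : Kbar →+* LaurentSeries Kbar)).mpr hq0
    rw [h1, hNm, ← mul_assoc, inv_mul_cancel₀ hC0, one_mul]
  obtain ⟨hzV, hz0⟩ := h76u_soft_of_PS1 A 1 (z := (cst 1 ((q : ℕ) : Kbar))⁻¹ * ν)
    (by rw [hzW]; exact hW)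
  obtain ⟨S, S', p, hS, hmul, hp⟩ := h90u_certificate hq A hA M (h58k_inc 1 q)
    (h58k_coe_inc 1 q) (h76u_S 1 q A s E) hS₂ _ hνz hzV hz0
  refine ⟨S, S', p, hmul, ?_, hp⟩
  rw [hS, h76u_degen_S M q A s E]
  obtain ⟨v, hv, hEv⟩ := h76u_E11_S M q A hq hqM hT.prim E11 hT.e11 s E hs0
  have hcalc : E11 (h76u_S M q A s E ^ (q - 1) * ((q : ℕ) : FF (M * q * q))⁻¹) =
      HahnSeries.C ((1 - ζ) ^ (q - 1) * ((q : ℕ) : Kbar)⁻¹) * v ^ (q - 1) := by
    rw [map_mul, map_pow, map_inv₀, map_natCast, hEv, mul_pow, map_mul, map_pow, map_inv₀,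
      map_natCast]
    ring
  rw [hcalc]
  obtain ⟨hc1, hc2, hc3⟩ := h76u_cyc_unit A hq hT.prim
  exact h20u_ups_unit (h76u_PS1_ups ((h76u_PS1_C hc1 hc2 hc3).mul (hv.pow (q - 1))))

end Fermat.Agent.S36
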