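import Mathlib

/-!
# S36, step (D) (descent), no-regret leaf (helper10): abstract Hilbert 90

Mathlib only.  A group `G` acts on a field `F` by ring automorphisms (`ψ : G →* (F ≃+* F)`),
`H ≤ G` is a normal subgroup of finite index and `G ⧸ H` acts faithfully on the fixed field of
`H`.  Then every `1`-cocycle `h : G → Fˣ` (written with values in `F`, nonzero) which is trivial
on `H` is a coboundary: there is `f ≠ 0` with `ψ σ f = h σ * f` for all `σ`.

* `h10s_hilbert90`      : the statement above;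
* `h10s_hilbert90_div`  : the same in the form `h σ = ψ σ f / f`.

Intended use: `G` = the inertia group `I ⊆ Gal(ℚ̄/ℚ)`, `F = FF N`, `ψ = gal N`, `H = I ∩ G_L` for a
finite Galois `L/ℚ` over which the cocycle is defined.
-/

set_option autoImplicit false
set_option linter.style.haveILetI false

open scoped Classical

noncomputable section

namespace Fermat.Agent.S36

variable {G F : Type*} [Group G] [Field F]

/-- the fixed field of a subgroup, as a submonoid of `F`. -/
def h10s_fix (ψ : G →* (F ≃+* F)) (H : Subgroup G) : Submonoid F where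
  carrier := {x | ∀ τ ∈ H, ψ τ x = x}
  one_mem' := fun τ _ => map_one (ψ τ)
  mul_mem' := fun {_ _} ha hb τ hτ => by
    rw [map_mul, ha τ hτ, hb τ hτ]

theorem h10s_mem_fix (ψ : G →* (F ≃+* F)) (H : Subgroup G) (x : F) :
    x ∈ h10s_fix ψ H ↔ ∀ τ ∈ H, ψ τ x = x := Iff.rfl

/-- a cocycle trivial on `H` is right `H`-invariant. -/
theorem h10s_coc_mul_right (ψ : G →* (F ≃+* F)) (H : Subgroup G) (h : G → F)
    (hcoc : ∀ σ τ, h (σ * τ) = h σ * ψ σ (h τ)) (hH : ∀ τ ∈ H, h τ = 1)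
    (σ : G) {τ : G} (hτ : τ ∈ H) : h (σ * τ) = h σ := by
  rw [hcoc, hH τ hτ, map_one, mul_one]

/-- the character of the fixed field attached to `σ`. -/
def h10s_chi (ψ : G →* (F ≃+* F)) (H : Subgroup G) (σ : G) : ↥(h10s_fix ψ H) →* F where
  toFun c := ψ σ (c : F)
  map_one' := map_one (ψ σ)
  map_mul' _ _ := map_mul (ψ σ) _ _

theorem h10s_chi_mul_right (ψ : G →* (F ≃+* F)) (H : Subgroup G) (σ : G) {τ : G}
    (hτ : τ ∈ H) : h10s_chi ψ H (σ * τ) = h10s_chi ψ H σ := by
  ext c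
  change ψ (σ * τ) (c : F) = ψ σ (c : F)
  rw [map_mul, RingAut.mul_apply, c.2 τ hτ]

/-- **Hilbert 90** for a semilinear action with a finite-index normal subgroup acting
trivially on the cocycle. -/
theorem h10s_hilbert90 (ψ : G →* (F ≃+* F)) (H : Subgroup G) [H.Normal] [H.FiniteIndex]
    (hfaith : ∀ σ : G, (∀ x : F, (∀ τ ∈ H, ψ τ x = x) → ψ σ x = x) → σ ∈ H)
    (h : G → F) (h0 : ∀ σ, h σ ≠ 0)
    (hcoc : ∀ σ τ, h (σ * τ) = h σ * ψ σ (h τ))
    (hH : ∀ τ ∈ H, h τ = 1) :
    ∃ f : F, f ≠ 0 ∧ ∀ σ, ψ σ f = h σ * f := by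
  classical
  letI : Fintype (G ⧸ H) := Subgroup.fintypeQuotientOfFiniteIndex
  -- representatives
  have hout : ∀ σ : G, ∃ τ ∈ H, σ = (Quotient.out (σ : G ⧸ H)) * τ := by
    intro σ
    have h1 : ((Quotient.out (σ : G ⧸ H) : G) : G ⧸ H) = (σ : G ⧸ H) :=
      QuotientGroup.out_eq' _
    have h2 : (Quotient.out (σ : G ⧸ H))⁻¹ * σ ∈ H := QuotientGroup.eq.mp h1
    exact ⟨_, h2, by group⟩
  have hh : ∀ σ : G, h σ = h (Quotient.out (σ : G ⧸ H)) := by
    intro σ
    obtain ⟨τ, hτ, e⟩ := hout σ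
    conv_lhs => rw [e]
    exact h10s_coc_mul_right ψ H h hcoc hH _ hτ
  have hchi : ∀ σ : G, h10s_chi ψ H σ = h10s_chi ψ H (Quotient.out (σ : G ⧸ H)) := by
    intro σ
    obtain ⟨τ, hτ, e⟩ := hout σ
    conv_lhs => rw [e]
    exact h10s_chi_mul_right ψ H _ hτ
  -- the characters attached to distinct cosets are distinct
  have hinj : Function.Injective (fun q : G ⧸ H => h10s_chi ψ H (Quotient.out q)) := by
    intro q q' hqq
    have h1 : ∀ c : ↥(h10s_fix ψ H), ψ (Quotient.out q) (c : F) = ψ (Quotient.out q') (c : F) :=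
      fun c => DFunLike.congr_fun hqq c
    have h2 : (Quotient.out q)⁻¹ * Quotient.out q' ∈ H := by
      apply hfaith
      intro x hx
      have := h1 ⟨x, hx⟩
      change ψ (Quotient.out q) x = ψ (Quotient.out q') x at this
      rw [map_mul, RingAut.mul_apply, ← this, map_inv]
      exact RingEquiv.symm_apply_apply (ψ (Quotient.out q)) x
    have h3 : ((Quotient.out q : G) : G ⧸ H) = (Quotient.out q' : G) := QuotientGroup.eq.mpr h2
    rwa [QuotientGroup.out_eq', QuotientGroup.out_eq'] at h3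
  -- Dedekind: the characters are linearly independent
  have hli : LinearIndependent F
      (fun q : G ⧸ H => (h10s_chi ψ H (Quotient.out q) : ↥(h10s_fix ψ H) → F)) :=
    (linearIndependent_monoidHom ↥(h10s_fix ψ H) F).comp _ hinj
  -- hence some value of the Poincaré series is nonzero
  have hex : ∃ c : ↥(h10s_fix ψ H),
      ∑ q : G ⧸ H, h (Quotient.out q) * ψ (Quotient.out q) (c : F) ≠ 0 := by
    by_contra hcon
    rw [not_exists] at hcon
    have hzero : ∑ q : G ⧸ H, h (Quotient.out q) •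
        (h10s_chi ψ H (Quotient.out q) : ↥(h10s_fix ψ H) → F) = 0 := by
      funext c
      have := not_not.mp (hcon c)
      rw [Finset.sum_apply]
      simpa [h10s_chi, smul_eq_mul] using this
    have := Fintype.linearIndependent_iff.mp hli (fun q => h (Quotient.out q)) hzero
      ((1 : G) : G ⧸ H)
    exact h0 _ this
  obtain ⟨c, hc⟩ := hex
  set g : F := ∑ q : G ⧸ H, h (Quotient.out q) * ψ (Quotient.out q) (c : F) with hg
  -- transformation rule of `g`
  have hrule : ∀ σ : G, h σ * ψ σ g = g := by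
    intro σ
    rw [hg, map_sum, Finset.mul_sum]
    have e1 : ∀ q : G ⧸ H, h σ * ψ σ (h (Quotient.out q) * ψ (Quotient.out q) (c : F)) =
        h (Quotient.out ((σ : G ⧸ H) * q)) * ψ (Quotient.out ((σ : G ⧸ H) * q)) (c : F) := by
      intro q
      have hq : ((σ * Quotient.out q : G) : G ⧸ H) = (σ : G ⧸ H) * q := by
        rw [QuotientGroup.mk_mul, QuotientGroup.out_eq']
      have h1 := hh (σ * Quotient.out q)
      have h2 := DFunLike.congr_fun (hchi (σ * Quotient.out q)) c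
      change ψ (σ * Quotient.out q) (c : F) =
        ψ (Quotient.out ((σ * Quotient.out q : G) : G ⧸ H)) (c : F) at h2
      rw [hq] at h1 h2
      rw [← h1, ← h2, hcoc, map_mul, map_mul, RingAut.mul_apply, mul_assoc]
    rw [Finset.sum_congr rfl (fun q _ => e1 q)]
    exact Fintype.sum_bijective (fun q : G ⧸ H => (σ : G ⧸ H) * q)
      (Group.mulLeft_bijective _) _ _ (fun _ => rfl)
  refine ⟨g⁻¹, inv_ne_zero hc, fun σ => ?_⟩
  have hr := hrule σ
  have e : g⁻¹ = (h σ)⁻¹ * (ψ σ g)⁻¹ := by rw [← mul_inv, hr]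
  rw [map_inv₀, e, ← mul_assoc, mul_inv_cancel₀ (h0 σ), one_mul]

/-- **Hilbert 90**, quotient form: `h σ = ψ σ f / f`. -/
theorem h10s_hilbert90_div (ψ : G →* (F ≃+* F)) (H : Subgroup G) [H.Normal] [H.FiniteIndex]
    (hfaith : ∀ σ : G, (∀ x : F, (∀ τ ∈ H, ψ τ x = x) → ψ σ x = x) → σ ∈ H)
    (h : G → F) (h0 : ∀ σ, h σ ≠ 0)
    (hcoc : ∀ σ τ, h (σ * τ) = h σ * ψ σ (h τ))
    (hH : ∀ τ ∈ H, h τ = 1) :
    ∃ f : F, f ≠ 0 ∧ ∀ σ, h σ = ψ σ f / f := by
  obtain ⟨f, hf, hfσ⟩ := h10s_hilbert90 ψ H hfaith h h0 hcoc hH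
  exact ⟨f, hf, fun σ => by rw [hfσ σ, mul_div_assoc, div_self hf, mul_one]⟩

end Fermat.Agent.S36
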