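import Fermat.Agent.S37.Inertia
import Fermat.Agent.S36.H10H90

/-!
# S36, step (D) (descent), no-regret leaves (helper10): finite level and Hilbert 90 on `FF N`

* `h10s_LevelOf N L f` : `f ∈ FF N` is fixed by `Gal(ℚ̄/L)`;
* `h10s_exists_level` : every `f ∈ FF N` has a level `L`, finite and normal over `ℚ`;
* `h10s_exists_level_finset` : the same for finitely many functions at once;
* `h10s_hilbert90_FF` : **Hilbert 90** on `FF N` for a subgroup `I ≤ G_ℚ` (e.g. an inertia or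
  decomposition group): a `1`-cocycle `h : I → (FF N)ˣ` which is trivial on `I ∩ Gal(ℚ̄/L)`,
  `L/ℚ` finite normal, is of the form `h σ = σ f / f`.
-/

set_option autoImplicit false
set_option linter.style.haveILetI false
set_option linter.unusedSectionVars false

open AlgebraicCurve ModularCurve IntermediateField

noncomputable section

namespace Fermat.Agent.S36

open Fermat.Agent.S37 Fermat.Agent.S37.GalI

/-- `ℚ̄ / ℚ` is normal. -/
theorem h10s_normal_Kbar : Normal ℚ Kbar :=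
  haveI : IsAlgClosure ℚ Kbar := ⟨inferInstance, AlgebraicClosure.isAlgebraic ℚ⟩
  IsAlgClosure.normal ℚ Kbar

/-- the bottom field is normal. -/
theorem h10s_normal_bot : Normal ℚ (⊥ : IntermediateField ℚ Kbar) :=
  Normal.of_algEquiv (IntermediateField.botEquiv ℚ Kbar).symm

/-- `f` is fixed by the Galois group of `L`. -/
def h10s_LevelOf (N : ℕ) (L : IntermediateField ℚ Kbar) (f : FF N) : Prop :=
  ∀ σ : GQ, σ ∈ L.fixingSubgroup → gal N σ • f = f

theorem h10s_levelOf_mono {N : ℕ} {L L' : IntermediateField ℚ Kbar} (h : L ≤ L') {f : FF N}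
    (hf : h10s_LevelOf N L f) : h10s_LevelOf N L' f :=
  fun σ hσ => hf σ (IntermediateField.fixingSubgroup_antitone h hσ)

theorem h10s_levelOf_cst (N : ℕ) {L : IntermediateField ℚ Kbar} {c : Kbar} (hc : c ∈ L) :
    h10s_LevelOf N L (cst N c) := by
  intro σ hσ
  rw [gal_smul_cst]
  congr 1
  exact (IntermediateField.mem_fixingSubgroup_iff L σ).1 hσ c hc

/-- a series is fixed by `Gal(ℚ̄/L)` for some finite normal `L`. -/
def h10s_SerLevel (x : LaurentSeries Kbar) : Prop :=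
  ∃ L : IntermediateField ℚ Kbar, FiniteDimensional ℚ L ∧ Normal ℚ L ∧
    ∀ σ : GQ, σ ∈ L.fixingSubgroup → coeffMap (σ : Kbar →+* Kbar) x = x

theorem h10s_serLevel_sup {x y : LaurentSeries Kbar} (hx : h10s_SerLevel x)
    (hy : h10s_SerLevel y) :
    ∃ L : IntermediateField ℚ Kbar, FiniteDimensional ℚ L ∧ Normal ℚ L ∧
      (∀ σ : GQ, σ ∈ L.fixingSubgroup → coeffMap (σ : Kbar →+* Kbar) x = x) ∧
      (∀ σ : GQ, σ ∈ L.fixingSubgroup → coeffMap (σ : Kbar →+* Kbar) y = y) := by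
  obtain ⟨L₁, hf₁, hn₁, h₁⟩ := hx
  obtain ⟨L₂, hf₂, hn₂, h₂⟩ := hy
  haveI := hf₁
  haveI := hf₂
  haveI := hn₁
  haveI := hn₂
  refine ⟨L₁ ⊔ L₂, inferInstance,
    @IntermediateField.normal_sup ℚ Kbar _ _ _ L₁ L₂ hn₁ hn₂, fun σ hσ => ?_, fun σ hσ => ?_⟩
  · exact h₁ σ (IntermediateField.fixingSubgroup_antitone le_sup_left hσ)
  · exact h₂ σ (IntermediateField.fixingSubgroup_antitone le_sup_right hσ)

theorem h10s_serLevel_const (c : Kbar) :
    h10s_SerLevel (algebraMap Kbar (LaurentSeries Kbar) c) := by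
  have halg : Algebra.IsAlgebraic ℚ Kbar := AlgebraicClosure.isAlgebraic ℚ
  haveI : FiniteDimensional ℚ ℚ⟮c⟯ :=
    IntermediateField.adjoin.finiteDimensional (Algebra.IsIntegral.isIntegral c)
  haveI : Normal ℚ Kbar := h10s_normal_Kbar
  refine ⟨IntermediateField.normalClosure ℚ ℚ⟮c⟯ Kbar, inferInstance,
    @normalClosure.normal ℚ ℚ⟮c⟯ Kbar _ _ _ _ _ h10s_normal_Kbar, fun σ hσ => ?_⟩
  have hc : c ∈ IntermediateField.normalClosure ℚ ℚ⟮c⟯ Kbar :=
    IntermediateField.le_normalClosure ℚ⟮c⟯ (IntermediateField.mem_adjoin_simple_self ℚ c)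
  rw [coeffMap_algebraMap]
  congr 1
  exact (IntermediateField.mem_fixingSubgroup_iff _ σ).1 hσ c hc

/-- every element of the function field has a finite normal level (series form). -/
theorem h10s_serLevel_of_mem (N : ℕ) {x : LaurentSeries Kbar}
    (hx : x ∈ modularFunctionFieldBar N) : h10s_SerLevel x := by
  induction hx using IntermediateField.adjoin_induction with
  | mem z hz =>
    obtain ⟨y, -, rfl⟩ := hz
    refine ⟨⊥, inferInstance, h10s_normal_bot, fun σ _ => ?_⟩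
    exact coeffMap_coeffEmb σ y
  | algebraMap c => exact h10s_serLevel_const c
  | add a b _ _ ha hb =>
    obtain ⟨L, hf, hn, h₁, h₂⟩ := h10s_serLevel_sup ha hb
    exact ⟨L, hf, hn, fun σ hσ => by rw [map_add, h₁ σ hσ, h₂ σ hσ]⟩
  | inv a _ ha =>
    obtain ⟨L, hf, hn, h₁⟩ := ha
    exact ⟨L, hf, hn, fun σ hσ => by rw [map_inv₀, h₁ σ hσ]⟩
  | mul a b _ _ ha hb =>
    obtain ⟨L, hf, hn, h₁, h₂⟩ := h10s_serLevel_sup ha hb
    exact ⟨L, hf, hn, fun σ hσ => by rw [map_mul, h₁ σ hσ, h₂ σ hσ]⟩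

/-- **finite level**: every `f ∈ FF N` is fixed by `Gal(ℚ̄/L)` for a finite normal `L/ℚ`. -/
theorem h10s_exists_level (N : ℕ) (f : FF N) :
    ∃ L : IntermediateField ℚ Kbar, FiniteDimensional ℚ L ∧ Normal ℚ L ∧ h10s_LevelOf N L f := by
  obtain ⟨L, hf, hn, h⟩ := h10s_serLevel_of_mem N f.2
  refine ⟨L, hf, hn, fun σ hσ => ?_⟩
  apply Subtype.ext
  rw [coe_arithmeticGalois_smul]
  exact h σ hσ

/-- finitely many functions have a common finite normal level. -/
theorem h10s_exists_level_finset (N : ℕ) (s : Finset (FF N)) :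
    ∃ L : IntermediateField ℚ Kbar, FiniteDimensional ℚ L ∧ Normal ℚ L ∧
      ∀ f ∈ s, h10s_LevelOf N L f := by
  classical
  induction s using Finset.induction_on with
  | empty =>
    exact ⟨⊥, inferInstance, h10s_normal_bot, fun f hf => absurd hf (Finset.notMem_empty f)⟩
  | insert a s _ ih =>
    obtain ⟨L₁, hf₁, hn₁, h₁⟩ := ih
    obtain ⟨L₂, hf₂, hn₂, h₂⟩ := h10s_exists_level N a
    haveI := hf₁
    haveI := hf₂
    haveI := hn₁
    haveI := hn₂
    refine ⟨L₁ ⊔ L₂, inferInstance,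
      @IntermediateField.normal_sup ℚ Kbar _ _ _ L₁ L₂ hn₁ hn₂, fun f hf => ?_⟩
    rcases Finset.mem_insert.mp hf with rfl | hf
    · exact h10s_levelOf_mono le_sup_right h₂
    · exact h10s_levelOf_mono le_sup_left (h₁ f hf)

/-! ## Hilbert 90 on `FF N` -/

/-- the fixing subgroup of a finite normal extension of `ℚ` is normal of finite index. -/
theorem h10s_fixingSubgroup_good (L : IntermediateField ℚ Kbar) [FiniteDimensional ℚ L]
    [Normal ℚ L] : L.fixingSubgroup.Normal ∧ L.fixingSubgroup.FiniteIndex := by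
  haveI : IsAlgClosure ℚ Kbar := ⟨inferInstance, AlgebraicClosure.isAlgebraic ℚ⟩
  haveI hQ : IsGalois ℚ Kbar := IsAlgClosure.isGalois ℚ Kbar
  have hG : IsGalois ℚ L := ⟨⟩
  refine ⟨@IsGalois.fixingSubgroup_normal_of_isGalois ℚ Kbar _ _ _ L hQ hG, ⟨?_⟩⟩
  rw [← IntermediateField.finrank_eq_fixingSubgroup_index (E' := Kbar) L]
  exact Module.finrank_pos.ne'

/-- the Galois action of a subgroup `I ≤ G_ℚ` on `FF N`, as a homomorphism to `RingAut`. -/
def h10s_psi (N : ℕ) (I : Subgroup GQ) : ↥I →* (FF N ≃+* FF N) where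
  toFun σ := SemilinearAut.toRingAut (gal N (σ : GQ))
  map_one' := by
    change SemilinearAut.toRingAut (arithmeticGalois (modularFunctionFieldFull N) (1 : GQ)) = 1
    rw [map_one]
    rfl
  map_mul' σ τ := by
    change SemilinearAut.toRingAut (arithmeticGalois (modularFunctionFieldFull N)
      ((σ : GQ) * (τ : GQ))) = _
    rw [map_mul]
    rfl

theorem h10s_psi_apply (N : ℕ) (I : Subgroup GQ) (σ : ↥I) (f : FF N) :
    h10s_psi N I σ f = gal N (σ : GQ) • f := rfl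

/-- **Hilbert 90 on `FF N`** for a subgroup `I ≤ G_ℚ`. -/
theorem h10s_hilbert90_FF (N : ℕ) (I : Subgroup GQ) (L : IntermediateField ℚ Kbar)
    [FiniteDimensional ℚ L] [Normal ℚ L] (h : GQ → FF N)
    (h0 : ∀ σ ∈ I, h σ ≠ 0)
    (hcoc : ∀ σ ∈ I, ∀ τ ∈ I, h (σ * τ) = h σ * gal N σ • h τ)
    (hL : ∀ σ ∈ I, σ ∈ L.fixingSubgroup → h σ = 1) :
    ∃ f : FF N, f ≠ 0 ∧ ∀ σ ∈ I, gal N σ • f = h σ * f := by
  obtain ⟨hnorm, hfin⟩ := h10s_fixingSubgroup_good L
  haveI : (L.fixingSubgroup.subgroupOf I).Normal := hnorm.subgroupOf I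
  haveI : (L.fixingSubgroup.subgroupOf I).FiniteIndex := by
    haveI := hfin
    infer_instance
  have key := h10s_hilbert90 (h10s_psi N I) (L.fixingSubgroup.subgroupOf I) ?_
    (fun σ : ↥I => h (σ : GQ)) (fun σ => h0 σ σ.2)
    (fun σ τ => hcoc σ σ.2 τ τ.2) (fun τ hτ => hL τ τ.2 (Subgroup.mem_subgroupOf.mp hτ))
  · obtain ⟨f, hf, hfσ⟩ := key
    exact ⟨f, hf, fun σ hσ => hfσ ⟨σ, hσ⟩⟩
  · intro σ hσ
    rw [Subgroup.mem_subgroupOf, IntermediateField.mem_fixingSubgroup_iff]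
    intro c hc
    have h1 : ∀ τ ∈ L.fixingSubgroup.subgroupOf I, h10s_psi N I τ (cst N c) = cst N c := by
      intro τ hτ
      exact h10s_levelOf_cst N hc τ (Subgroup.mem_subgroupOf.mp hτ)
    have h2 := hσ (cst N c) h1
    rw [h10s_psi_apply, gal_smul_cst] at h2
    exact (algebraMap Kbar (FF N)).injective h2

end Fermat.Agent.S36
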