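import Mathlib

/-!
# S36, block (N) (norm formulas), abstract no-regret leaf (helper10): Newton / Hensel for a
finite family of discrete valuations

Valuation language: `W : ι → Valuation F ℤᵐ⁰`.  `m` is a unit at every `W i`.

* `h10n_newton` : one Newton step with ONE global element: from `W i h = 1` and
  `W i (w - h ^ m) ≤ exp (-n)`, `1 ≤ n`, the element `h' = h + (w - h ^ m) / (m h ^ (m-1))`
  satisfies `W i h' = 1`, `W i (h' - h) ≤ exp (-n)` and `W i (w - h' ^ m) ≤ exp (-2n)`;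
* `h10n_hensel` : if `w` is an `m`-th power modulo all `W i` (common root `h₀`), then it is an
  `m`-th power modulo any precision;
* `h10n_hensel_residue` : the same starting from local roots `g i` and a common approximation
  `h₀` of the `g i` (weak approximation);
* `h10n_hensel_U` : the output in the form `w / h ^ m ∈ 1 + π V` used by the gate;
* `h10n_arith` : the component group arithmetic of the blueprint (step N1).
-/

set_option autoImplicit false

namespace Fermat.Agent.S36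

open WithZero

section Basic

/-- in `ℤᵐ⁰`, `x < 1` means `x ≤ exp (-1)`. -/
theorem h10n_le_exp_of_lt_one {x : ℤᵐ⁰} (hx : x < 1) : x ≤ exp (-1 : ℤ) := by
  rcases eq_or_ne x 0 with rfl | h0
  · exact zero_le
  · obtain ⟨a, rfl⟩ : ∃ a : ℤ, x = exp a := ⟨log x, (exp_log h0).symm⟩
    rw [← exp_zero, exp_lt_exp] at hx
    rw [exp_le_exp]
    omega

theorem h10n_exp_neg_lt_one {n : ℤ} (hn : 1 ≤ n) : (exp (-n) : ℤᵐ⁰) < 1 := by
  rw [← exp_zero, exp_lt_exp]
  omega

variable {F : Type*} [Field F]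

/-- the binomial expansion to second order, inside a subring. -/
theorem h10n_binom (S : Subring F) {x y : F} (hx : x ∈ S) (hy : y ∈ S) (m : ℕ) :
    ∃ k ∈ S, (x + y) ^ m = x ^ m + m * x ^ (m - 1) * y + k * y ^ 2 := by
  obtain ⟨k, hk⟩ := Polynomial.powAddExpansion (⟨x, hx⟩ : S) ⟨y, hy⟩ m
  refine ⟨k, k.2, ?_⟩
  have h := congrArg (fun z : S => (z : F)) hk
  simpa using h

end Basic

section Family

variable {F : Type*} [Field F] {ι : Type*}

/-- the ring of elements integral at all `W i`. -/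
def h10nV (W : ι → Valuation F ℤᵐ⁰) : Subring F where
  carrier := {x | ∀ i, W i x ≤ 1}
  mul_mem' := fun {a b} ha hb i => by
    rw [map_mul]
    exact mul_le_one' (ha i) (hb i)
  one_mem' := fun i => by rw [map_one]
  add_mem' := fun {a b} ha hb i => (W i).map_add_le (ha i) (hb i)
  zero_mem' := fun i => by rw [map_zero]; exact zero_le
  neg_mem' := fun {a} ha i => by rw [Valuation.map_neg]; exact ha i

theorem h10n_mem_V {W : ι → Valuation F ℤᵐ⁰} {x : F} : x ∈ h10nV W ↔ ∀ i, W i x ≤ 1 :=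
  Iff.rfl

/-- **Newton step** for the equation `h ^ m = w`, simultaneously at all `W i`. -/
theorem h10n_newton (W : ι → Valuation F ℤᵐ⁰) (m : ℕ) (hm : ∀ i, W i (m : F) = 1)
    (w h : F) (hh : ∀ i, W i h = 1) (n : ℤ) (hn : 1 ≤ n)
    (hwh : ∀ i, W i (w - h ^ m) ≤ exp (-n)) :
    ∃ h' : F, (∀ i, W i h' = 1) ∧ (∀ i, W i (h' - h) ≤ exp (-n)) ∧
      ∀ i, W i (w - h' ^ m) ≤ exp (-(2 * n)) := by
  rcases isEmpty_or_nonempty ι with hι | ⟨⟨i₀⟩⟩
  · exact ⟨h, fun i => (hι.false i).elim, fun i => (hι.false i).elim,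
      fun i => (hι.false i).elim⟩
  have hm0 : (m : F) ≠ 0 := by
    intro h0
    have := hm i₀
    rw [h0, map_zero] at this
    exact zero_ne_one this
  have hh0 : h ≠ 0 := by
    intro h0
    have := hh i₀
    rw [h0, map_zero] at this
    exact zero_ne_one this
  have hden : (m : F) * h ^ (m - 1) ≠ 0 := mul_ne_zero hm0 (pow_ne_zero _ hh0)
  set δ : F := (w - h ^ m) / ((m : F) * h ^ (m - 1)) with hδ
  have hWδ : ∀ i, W i δ = W i (w - h ^ m) := by
    intro i
    rw [hδ, map_div₀, map_mul, map_pow, hm i, hh i, one_pow, one_mul, div_one]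
  have hδn : ∀ i, W i δ ≤ exp (-n) := fun i => (hWδ i).le.trans (hwh i)
  have hδ1 : ∀ i, W i δ < 1 := fun i => (hδn i).trans_lt (h10n_exp_neg_lt_one hn)
  have hhV : h ∈ h10nV W := fun i => (hh i).le
  have hδV : δ ∈ h10nV W := fun i => (hδ1 i).le
  obtain ⟨k, hk, hexp⟩ := h10n_binom (h10nV W) hhV hδV m
  have hlin : (m : F) * h ^ (m - 1) * δ = w - h ^ m := by
    rw [hδ]
    field_simp
  refine ⟨h + δ, fun i => ?_, fun i => ?_, fun i => ?_⟩
  · rw [Valuation.map_add_eq_of_lt_left (W i) (by rw [hh i]; exact hδ1 i), hh i]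
  · rw [add_sub_cancel_left]
    exact hδn i
  · have hrew : w - (h + δ) ^ m = -(k * δ ^ 2) := by
      rw [hexp, hlin]
      ring
    rw [hrew, Valuation.map_neg, map_mul, map_pow]
    calc W i k * W i δ ^ 2 ≤ 1 * exp (-n) ^ 2 :=
          mul_le_mul' (hk i) (pow_le_pow_left' (hδn i) 2)
      _ = exp (-(2 * n)) := by
          rw [one_mul, ← exp_nsmul]
          congr 1
          simp only [nsmul_eq_mul, Nat.cast_ofNat]
          ring

/-- **Hensel** for a family of valuations: a common root modulo the maximal ideals lifts to a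
common root modulo any precision. -/
theorem h10n_hensel (W : ι → Valuation F ℤᵐ⁰) (m : ℕ) (hm : ∀ i, W i (m : F) = 1)
    (w h₀ : F) (hh₀ : ∀ i, W i h₀ = 1) (hw : ∀ i, W i (w - h₀ ^ m) < 1) (n : ℕ) :
    ∃ h : F, (∀ i, W i h = 1) ∧ (∀ i, W i (h - h₀) < 1) ∧
      ∀ i, W i (w - h ^ m) ≤ exp (-(n : ℤ)) := by
  have key : ∀ n : ℕ, ∃ h : F, (∀ i, W i h = 1) ∧ (∀ i, W i (h - h₀) < 1) ∧
      ∀ i, W i (w - h ^ m) ≤ exp (-((n : ℤ) + 1)) := by
    intro n
    induction n with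
    | zero =>
      refine ⟨h₀, hh₀, fun i => ?_, fun i => ?_⟩
      · rw [sub_self, map_zero]
        exact zero_lt_one
      · have := h10n_le_exp_of_lt_one (hw i)
        simpa using this
    | succ n ih =>
      obtain ⟨h, h1, h2, h3⟩ := ih
      obtain ⟨h', h1', h2', h3'⟩ := h10n_newton W m hm w h h1 ((n : ℤ) + 1) (by omega) h3
      refine ⟨h', h1', fun i => ?_, fun i => ?_⟩
      · have e : h' - h₀ = (h' - h) + (h - h₀) := by ring
        rw [e]
        exact Valuation.map_add_lt (W i)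
          ((h2' i).trans_lt (h10n_exp_neg_lt_one (by omega))) (h2 i)
      · refine (h3' i).trans ?_
        rw [exp_le_exp]
        push_cast
        omega
  obtain ⟨h, h1, h2, h3⟩ := key n
  refine ⟨h, h1, h2, fun i => (h3 i).trans ?_⟩
  rw [exp_le_exp]
  omega

/-- a unit `g` at `W`: from `W w = 1` and `W (w - g ^ m) < 1`. -/
theorem h10n_val_root (W : Valuation F ℤᵐ⁰) {m : ℕ} (hm0 : 0 < m) {w g : F} (hw1 : W w = 1)
    (hg : W (w - g ^ m) < 1) : W g = 1 := by
  have h1 : W (g ^ m) = 1 := by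
    have e : g ^ m = w + -(w - g ^ m) := by ring
    rw [e, Valuation.map_add_eq_of_lt_left (W) (by rw [Valuation.map_neg, hw1]; exact hg), hw1]
  rw [map_pow] at h1
  rcases lt_trichotomy (W g) 1 with h | h | h
  · exact absurd h1 (pow_lt_one₀ zero_le h hm0.ne').ne
  · exact h
  · exact absurd h1 (one_lt_pow₀ h hm0.ne').ne'

/-- congruent elements have congruent powers. -/
theorem h10n_pow_congr (W : Valuation F ℤᵐ⁰) (m : ℕ) {g h : F} (hg : W g ≤ 1)
    (hgh : W (h - g) < 1) : W (h ^ m - g ^ m) < 1 := by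
  have hh : W h ≤ 1 := by
    have e : h = (h - g) + g := by ring
    rw [e]
    exact (W).map_add_le hgh.le hg
  obtain ⟨c, hc⟩ := sub_dvd_pow_sub_pow (⟨h, hh⟩ : W.integer) ⟨g, hg⟩ m
  have hc' : h ^ m - g ^ m = (h - g) * (c : F) := by
    have h' := congrArg (fun z : W.integer => (z : F)) hc
    simpa using h'
  rw [hc', map_mul]
  calc W (h - g) * W (c : F) ≤ W (h - g) * 1 := mul_le_mul' le_rfl c.2
    _ = W (h - g) := mul_one _
    _ < 1 := hgh

/-- **Hensel from local roots**: `w` a unit at every `W i` whose residue at `W i` is the `m`-th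
power of the residue of `g i`, and `h₀` a common approximation of the `g i`. -/
theorem h10n_hensel_residue (W : ι → Valuation F ℤᵐ⁰) (m : ℕ) (hm0 : 0 < m)
    (hm : ∀ i, W i (m : F) = 1) (w : F) (hw1 : ∀ i, W i w = 1) (g : ι → F)
    (hg : ∀ i, W i (w - g i ^ m) < 1) (h₀ : F) (hh₀ : ∀ i, W i (h₀ - g i) < 1) (n : ℕ) :
    ∃ h : F, (∀ i, W i h = 1) ∧ (∀ i, W i (h - g i) < 1) ∧
      ∀ i, W i (w - h ^ m) ≤ exp (-(n : ℤ)) := by
  have hg1 : ∀ i, W i (g i) = 1 := fun i => h10n_val_root (W i) hm0 (hw1 i) (hg i)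
  have hh1 : ∀ i, W i h₀ = 1 := by
    intro i
    have e : h₀ = g i + (h₀ - g i) := by ring
    rw [e, Valuation.map_add_eq_of_lt_left (W i) (by rw [hg1 i]; exact hh₀ i), hg1 i]
  have hw0 : ∀ i, W i (w - h₀ ^ m) < 1 := by
    intro i
    have e : w - h₀ ^ m = (w - g i ^ m) + -(h₀ ^ m - g i ^ m) := by ring
    rw [e]
    refine Valuation.map_add_lt (W i) (hg i) ?_
    rw [Valuation.map_neg]
    exact h10n_pow_congr (W i) m (hg1 i).le (hh₀ i)
  obtain ⟨h, h1, h2, h3⟩ := h10n_hensel W m hm w h₀ hh1 hw0 n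
  refine ⟨h, h1, fun i => ?_, h3⟩
  have e : h - g i = (h - h₀) + (h₀ - g i) := by ring
  rw [e]
  exact Valuation.map_add_lt (W i) (h2 i) (hh₀ i)

/-- **output for the gate**: `w / h ^ m ∈ 1 + π V` where `V` contains the elements integral at
all `W i` and `π` has valuation at least `exp (-n)` at every `W i`. -/
theorem h10n_hensel_U (W : ι → Valuation F ℤᵐ⁰) (m : ℕ) (hm0 : 0 < m)
    (hm : ∀ i, W i (m : F) = 1) (w : F) (hw1 : ∀ i, W i w = 1) (g : ι → F)
    (hg : ∀ i, W i (w - g i ^ m) < 1) (h₀ : F) (hh₀ : ∀ i, W i (h₀ - g i) < 1)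
    (V : Subring F) (hV : ∀ x : F, (∀ i, W i x ≤ 1) → x ∈ V) (π : F) (hπ0 : π ≠ 0) (n : ℕ)
    (hπ : ∀ i, exp (-(n : ℤ)) ≤ W i π) (hι : Nonempty ι) :
    ∃ h : F, h ≠ 0 ∧ (∀ i, W i h = 1) ∧ (∀ i, W i (h - g i) < 1) ∧
      ∃ v ∈ V, w / h ^ m = 1 + π * v := by
  obtain ⟨h, h1, h2, h3⟩ := h10n_hensel_residue W m hm0 hm w hw1 g hg h₀ hh₀ n
  obtain ⟨i₀⟩ := hι
  have hh0 : h ≠ 0 := by
    intro h0
    have := h1 i₀
    rw [h0, map_zero] at this
    exact zero_ne_one this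
  have hpow : h ^ m ≠ 0 := pow_ne_zero _ hh0
  refine ⟨h, hh0, h1, h2, (w - h ^ m) / (h ^ m * π), hV _ fun i => ?_, ?_⟩
  · rw [map_div₀, map_mul, map_pow, h1 i, one_pow, one_mul]
    have hπi : W i π ≠ 0 := (Valuation.ne_zero_iff _).2 hπ0
    rw [div_le_iff₀ (zero_lt_iff.2 hπi), one_mul]
    exact (h3 i).trans (hπ i)
  · field_simp
    ring

end Family

section Arith

/-- **component group arithmetic (blueprint step N1).**  If the valuations
`(n₂₀, n₁₁, n₀₂)` of `w` at the three vertical components satisfy the two norm relations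
`n₂₀ + n₁₁ ≡ q n₀₂` and `q n₂₀ ≡ n₁₁ + n₀₂` modulo `m`, then the valuations of `w ^ (q + 1)`
are, modulo `m`, those of a power of `q` (valuations `(1, q - 1, 1)`). -/
theorem h10n_arith (q m n₂₀ n₁₁ n₀₂ : ℤ) (h1 : m ∣ n₂₀ + n₁₁ - q * n₀₂)
    (h2 : m ∣ q * n₂₀ - (n₁₁ + n₀₂)) :
    ∃ a : ℤ, m ∣ (q + 1) * n₂₀ - a * 1 ∧ m ∣ (q + 1) * n₁₁ - a * (q - 1) ∧
      m ∣ (q + 1) * n₀₂ - a * 1 := by
  refine ⟨(q + 1) * n₂₀, ?_, ?_, ?_⟩
  · simp
  · obtain ⟨c, hc⟩ := h1
    obtain ⟨d, hd⟩ := h2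
    refine ⟨(q + 1) * c - q * (c + d), ?_⟩
    have e1 : n₁₁ = m * c - n₂₀ + q * n₀₂ := by linarith
    have e2 : (q + 1) * n₂₀ - (q + 1) * n₀₂ = m * (c + d) := by linarith
    have e3 : (q + 1) * n₁₁ - (q + 1) * n₂₀ * (q - 1)
        = (q + 1) * (m * c) - q * ((q + 1) * n₂₀ - (q + 1) * n₀₂) := by
      rw [e1]
      ring
    rw [e3, e2]
    ring
  · obtain ⟨c, hc⟩ := h1
    obtain ⟨d, hd⟩ := h2
    refine ⟨-(c + d), ?_⟩
    linarith

end Arith

end Fermat.Agent.S36
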