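import Fermat.Agent.S36.H92Chain
import Fermat.Agent.S36.H20NormSkel

/-!
# S36, row H92LOC (blocks R + T): skeleton of `H92Loc` (helper11, prefix `h11l_` / `H11Loc`)

Target: `H92Loc` of `S36/H92Chain.lean` (contract of helper92).  Every declaration is a
definition, a frozen interface `Prop`, or a proved theorem; nothing is assumed.

## Vocabulary (elementwise inside `FF (M q q)`, no new types)

* `B = h92c_Chart A (M q q) t` (`t = j` or `j⁻¹`), `𝔫` a maximal ideal of `B` with `q ∈ 𝔫`.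
* `h11l_DatumAt` : the datum of `h92c_LocalDatum` at ONE point `𝔫`.
* `h11l_OneBranch 𝔫` : at most one vertical prime (a prime `P ∌ 𝔫`-properly below `𝔫` with
  `q ∈ P`) passes through `𝔫` (valuation-free, the vocabulary of `H62RegIface`).
* `h11l_Small A E x` : `x` is Gauss-small at the `q`-expansion embedding `E`
  (`E x ∈ softOT A` with reduction `0`);  `h11l_IsVE` : `E` is one of `E20`, `E11^ζ`, `E02`
  (vocabulary of `H20NormSkel` / `H74VIface`);  `h11l_Centred` : the component of `E` passes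
  through `𝔫`.
* `h11l_BV A t 𝔫 E x c` : the branch value of `x` at `𝔫` along the component of `E` is the
  value of `c ∈ B` (shape of `h8b_BV`, `S36/H8Branch.lean`, and of the socket `H63gLoc`).
* `h11l_EqBV` : `w` has at `𝔫` a local `m`-th root `G ∈ F₀` (up to a unit of `B_𝔫`) whose branch
  values along all the components through `𝔫` are equal.

## The leaves

* `H11LocOrd`   (R + D + V + G): the datum at the one-branch points of both charts, for every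
  `w ∈ F₀ ∩ (1 + q V₀)` with `m ∣ div w` (no toric condition).
* `H11LocCusp`  (R): the points of the chart at infinity with `j⁻¹ ∈ 𝔫` are one-branch points.
* `H11LocTransfer` : the datum passes from the chart `j` to the chart `j⁻¹` away from the cusps.
* `H11LocGlue`  (G): at the points of the chart `j`, `h11l_EqBV` gives the datum
  (Lemma A: `h66c_hloc` / `h13g_datum_of_branch` / `h63g_local`).
* `H11LocTor`   (T): a new `w ∈ F₀ ∩ (1 + q V₀)` has, after the exponent `t` and the twist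
  `f ^ m`, equal branch values at every point of the chart `j` which is not a one-branch point.

`h11l_loc_of : H11LocOrd → H11LocCusp → H11LocTransfer → H11LocGlue → H11LocTor → H92Loc`.
-/

set_option autoImplicit false

open AlgebraicCurve ModularCurve

noncomputable section

namespace Fermat.Agent.S36

open Fermat.Agent.S37 (Kbar GQ FF cst jB gal modelAt degen auxLevel)
open Fermat.Agent.Red.KR (normAlong)
open Fermat.Agent.Red.GV.Soft (softOT softRedT)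

/-! ## Definitions -/

/-- the datum of `h92c_LocalDatum` at one closed point `𝔫`. -/
def h11l_DatumAt (A : ValuationSubring Kbar) (M q : ℕ) [NeZero M] [NeZero q]
    (t : FF (M * q * q)) (m : ℕ) (w : FF (M * q * q))
    (𝔫 : Ideal (h92c_Chart A (M * q * q) t)) : Prop :=
  ∃ g : FF (M * q * q), g ∈ h92c_F0 A (M * q * q) ∧ g ≠ 0 ∧
    ∃ s : h92c_Chart A (M * q * q) t, s ∉ 𝔫 ∧
      (∃ y ∈ h92c_V0 A M q, (s : FF (M * q * q)) * (g - 1) = (q : FF (M * q * q)) * y) ∧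
      (s : FF (M * q * q)) * (w * (g ^ m)⁻¹) ∈ h92c_Chart A (M * q * q) t ∧
      (s : FF (M * q * q)) * (g ^ m * w⁻¹) ∈ h92c_Chart A (M * q * q) t

theorem h11l_localDatum_iff (A : ValuationSubring Kbar) (M q : ℕ) [NeZero M] [NeZero q]
    (t : FF (M * q * q)) (m : ℕ) (w : FF (M * q * q)) :
    h92c_LocalDatum A M q t m w ↔
      ∀ 𝔫 : Ideal (h92c_Chart A (M * q * q) t), 𝔫.IsMaximal →
        ((q : ℕ) : h92c_Chart A (M * q * q) t) ∈ 𝔫 → h11l_DatumAt A M q t m w 𝔫 :=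
  Iff.rfl

/-- at most one vertical prime passes through `𝔫`. -/
def h11l_OneBranch {R : Type*} [CommRing R] (π : R) (𝔫 : Ideal R) : Prop :=
  ∀ P P' : Ideal R, P.IsPrime → P'.IsPrime → π ∈ P → π ∈ P' → P ≤ 𝔫 → P' ≤ 𝔫 →
    P ≠ 𝔫 → P' ≠ 𝔫 → P = P'

/-- `x` is Gauss-small at the embedding `E`: `E x` is Gauss-integral with reduction `0`. -/
def h11l_Small (A : ValuationSubring Kbar) {N : ℕ} (E : FF N →+* LaurentSeries Kbar)
    (x : FF N) : Prop :=
  ∃ h : E x ∈ softOT A (IsLocalRing.residue A),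
    softRedT A (IsLocalRing.residue A) ⟨E x, h⟩ = 0

/-- `E` is one of the vertical embeddings `E20`, `E11^ζ` (`ζ` primitive), `E02`. -/
def h11l_IsVE (M q : ℕ) [NeZero M] [NeZero q] (hq : q.Prime) (hqM : ¬ q ∣ M)
    (E : FF (M * q * q) →+* LaurentSeries Kbar) : Prop :=
  E = h20n_E20 M q ∨ (∃ ζ : Kbar, IsPrimitiveRoot ζ q ∧ h20n_IsE11 M q hq hqM ζ E) ∨
    h20n_IsE02 M q hq hqM E

/-- the component of `E` passes through the closed point `𝔫` of the chart `t`. -/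
def h11l_Centred (A : ValuationSubring Kbar) {N : ℕ} (t : FF N)
    (𝔫 : Ideal (h92c_Chart A N t)) (E : FF N →+* LaurentSeries Kbar) : Prop :=
  ∀ b : h92c_Chart A N t, h11l_Small A E (b : FF N) → b ∈ 𝔫

/-- **branch value**: the reduction of `x` on the component of `E` is regular at `𝔫` with the
value of `c` there. -/
def h11l_BV (A : ValuationSubring Kbar) {N : ℕ} (t : FF N) (𝔫 : Ideal (h92c_Chart A N t))
    (E : FF N →+* LaurentSeries Kbar) (x : FF N) (c : h92c_Chart A N t) : Prop :=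
  ∃ b s : h92c_Chart A N t, s ∉ 𝔫 ∧ h11l_Small A E ((s : FF N) * x - (b : FF N)) ∧
    b - c * s ∈ 𝔫

/-- `G` is a local `m`-th root of `w` at `𝔫`, up to a unit of `B_𝔫`. -/
def h11l_RootAt (A : ValuationSubring Kbar) {N : ℕ} (t : FF N) (𝔫 : Ideal (h92c_Chart A N t))
    (m : ℕ) (w G : FF N) : Prop :=
  G ∈ h92c_F0 A N ∧ G ≠ 0 ∧ ∃ s : h92c_Chart A N t, s ∉ 𝔫 ∧
    (s : FF N) * (w * (G ^ m)⁻¹) ∈ h92c_Chart A N t ∧
    (s : FF N) * (G ^ m * w⁻¹) ∈ h92c_Chart A N t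

/-- `w` has at `𝔫` a local `m`-th root with equal branch values along all the components
through `𝔫`. -/
def h11l_EqBV (A : ValuationSubring Kbar) (M q : ℕ) [NeZero M] [NeZero q] (hq : q.Prime)
    (hqM : ¬ q ∣ M) (t : FF (M * q * q)) (𝔫 : Ideal (h92c_Chart A (M * q * q) t))
    (m : ℕ) (w : FF (M * q * q)) : Prop :=
  ∃ G : FF (M * q * q), h11l_RootAt A t 𝔫 m w G ∧
    ∃ c : h92c_Chart A (M * q * q) t, c ∉ 𝔫 ∧
      ∀ E : FF (M * q * q) →+* LaurentSeries Kbar, h11l_IsVE M q hq hqM E →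
        h11l_Centred A t 𝔫 E → h11l_BV A t 𝔫 E G c

/-! ## The leaves -/

/-- **L-ORD** (R + D + V + G).  The datum at the one-branch points of both charts, for every
`w ∈ F₀ ∩ (1 + q V₀)` with `m ∣ div w`.  (Local factoriality `H62RegAt.two_gen`, `DescLoc`,
branch regular `H62RegAt.branch`, Lemma A for one branch `h66c_hloc_unibranch`.) -/
def H11LocOrd : Prop :=
  ∀ (q : ℕ) (hq : q.Prime) (M : ℕ) [NeZero M], ¬ q ∣ M → auxLevel q ∣ M →
    haveI : NeZero q := ⟨hq.ne_zero⟩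
    ∀ A : ValuationSubring Kbar, A.LiesOverPrime q →
    ∀ t : FF (M * q * q), t = jB (M * q * q) ∨ t = (jB (M * q * q))⁻¹ →
    ∀ m : ℕ, ¬ q ∣ m → ∀ w : FF (M * q * q), w ≠ 0 →
      w ∈ h92c_F0 A (M * q * q) → w ∈ h92c_U A M q →
      (∀ v : Place Kbar (FF (M * q * q)), (m : ℤ) ∣ v.ord w) →
      ∀ 𝔫 : Ideal (h92c_Chart A (M * q * q) t), 𝔫.IsMaximal →
        ((q : ℕ) : h92c_Chart A (M * q * q) t) ∈ 𝔫 →
        h11l_OneBranch ((q : ℕ) : h92c_Chart A (M * q * q) t) 𝔫 →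
        h11l_DatumAt A M q t m w 𝔫

/-- **L-CUSP** (R).  The cusps (points of the chart at infinity with `j⁻¹ ∈ 𝔫`) are one-branch
points. -/
def H11LocCusp : Prop :=
  ∀ (q : ℕ) (hq : q.Prime) (M : ℕ) [NeZero M], ¬ q ∣ M → auxLevel q ∣ M →
    haveI : NeZero q := ⟨hq.ne_zero⟩
    ∀ A : ValuationSubring Kbar, A.LiesOverPrime q →
    ∀ 𝔫 : Ideal (h92c_Chart A (M * q * q) (jB (M * q * q))⁻¹), 𝔫.IsMaximal →
      ((q : ℕ) : h92c_Chart A (M * q * q) (jB (M * q * q))⁻¹) ∈ 𝔫 →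
      (∀ b : h92c_Chart A (M * q * q) (jB (M * q * q))⁻¹,
        (b : FF (M * q * q)) = (jB (M * q * q))⁻¹ → b ∈ 𝔫) →
      h11l_OneBranch ((q : ℕ) : h92c_Chart A (M * q * q) (jB (M * q * q))⁻¹) 𝔫

/-- **L-TRANSFER.**  Away from the cusps the datum passes from the chart `j` to the chart
`j⁻¹` (the local rings are the same; `j` and `j⁻¹` are units of `V₀`). -/
def H11LocTransfer : Prop :=
  ∀ (q : ℕ) (hq : q.Prime) (M : ℕ) [NeZero M], ¬ q ∣ M → auxLevel q ∣ M →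
    haveI : NeZero q := ⟨hq.ne_zero⟩
    ∀ A : ValuationSubring Kbar, A.LiesOverPrime q →
    ∀ (m : ℕ) (w : FF (M * q * q)),
      (∀ 𝔫 : Ideal (h92c_Chart A (M * q * q) (jB (M * q * q))), 𝔫.IsMaximal →
        ((q : ℕ) : h92c_Chart A (M * q * q) (jB (M * q * q))) ∈ 𝔫 →
        h11l_DatumAt A M q (jB (M * q * q)) m w 𝔫) →
      ∀ 𝔫 : Ideal (h92c_Chart A (M * q * q) (jB (M * q * q))⁻¹), 𝔫.IsMaximal →
        ((q : ℕ) : h92c_Chart A (M * q * q) (jB (M * q * q))⁻¹) ∈ 𝔫 →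
        (∃ b : h92c_Chart A (M * q * q) (jB (M * q * q))⁻¹,
          (b : FF (M * q * q)) = (jB (M * q * q))⁻¹ ∧ b ∉ 𝔫) →
        h11l_DatumAt A M q (jB (M * q * q))⁻¹ m w 𝔫

/-- **L-GLUE** (G).  At a closed point of the special fibre of the chart `j`, a local root with
equal branch values gives the datum (Lemma A). -/
def H11LocGlue : Prop :=
  ∀ (q : ℕ) (hq : q.Prime) (M : ℕ) [NeZero M] (hqM : ¬ q ∣ M), auxLevel q ∣ M →
    haveI : NeZero q := ⟨hq.ne_zero⟩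
    ∀ A : ValuationSubring Kbar, A.LiesOverPrime q →
    ∀ m : ℕ, ¬ q ∣ m → ∀ w : FF (M * q * q), w ≠ 0 →
      w ∈ h92c_F0 A (M * q * q) → w ∈ h92c_U A M q →
      ∀ 𝔫 : Ideal (h92c_Chart A (M * q * q) (jB (M * q * q))), 𝔫.IsMaximal →
        ((q : ℕ) : h92c_Chart A (M * q * q) (jB (M * q * q))) ∈ 𝔫 →
        h11l_EqBV A M q hq hqM (jB (M * q * q)) 𝔫 m w →
        h11l_DatumAt A M q (jB (M * q * q)) m w 𝔫

/-- **L-TOR** (T).  A new function `w ∈ F₀ ∩ (1 + q V₀)` has, after a bounded exponent `t` and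
a twist by the `m`-th power of a function of `F₀`, equal branch values at every closed point of
the special fibre of the chart `j` which is not a one-branch point. -/
def H11LocTor : Prop :=
  ∀ (q : ℕ) (hq : q.Prime) (M : ℕ) [NeZero M] (hqM : ¬ q ∣ M), auxLevel q ∣ M →
    haveI : NeZero q := ⟨hq.ne_zero⟩
    ∀ A : ValuationSubring Kbar, A.LiesOverPrime q →
    ∃ t : ℕ, 0 < t ∧ ∀ m : ℕ, ¬ q ∣ m → ∀ w : FF (M * q * q),
      w ∈ h92c_F0 A (M * q * q) → w ∈ h92c_U A M q → h92c_New M q m w →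
        ∃ f : FF (M * q * q), f ∈ h92c_F0 A (M * q * q) ∧ f ≠ 0 ∧
          w ^ t * f ^ m ∈ h92c_U A M q ∧
          ∀ 𝔫 : Ideal (h92c_Chart A (M * q * q) (jB (M * q * q))), 𝔫.IsMaximal →
            ((q : ℕ) : h92c_Chart A (M * q * q) (jB (M * q * q))) ∈ 𝔫 →
            ¬ h11l_OneBranch ((q : ℕ) : h92c_Chart A (M * q * q) (jB (M * q * q))) 𝔫 →
            h11l_EqBV A M q hq hqM (jB (M * q * q)) 𝔫 m (w ^ t * f ^ m)

/-! ## The assembly -/

/-- **H92LOC-ASM.**  `H92Loc` from the five leaves. -/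
theorem h11l_loc_of (hO : H11LocOrd) (hC : H11LocCusp) (hX : H11LocTransfer)
    (hG : H11LocGlue) (hT : H11LocTor) : H92Loc := by
  classical
  intro q hq M _ hqM haux
  haveI : NeZero q := ⟨hq.ne_zero⟩
  intro A hA
  obtain ⟨t, ht, hT'⟩ := hT q hq M hqM haux A hA
  refine ⟨t, ht, ?_⟩
  intro m hm w hwF hwU hnew
  obtain ⟨f, hfF, hf, hw'U, hEq⟩ := hT' m hm w hwF hwU hnew
  have hw0 : w ≠ 0 := hnew.1
  have hw'0 : w ^ t * f ^ m ≠ 0 := mul_ne_zero (pow_ne_zero _ hw0) (pow_ne_zero _ hf)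
  have hw'F : w ^ t * f ^ m ∈ h92c_F0 A (M * q * q) :=
    mul_mem (pow_mem hwF _) (pow_mem hfF _)
  have hw'ord : ∀ v : Place Kbar (FF (M * q * q)), (m : ℤ) ∣ v.ord (w ^ t * f ^ m) := by
    intro v
    rw [v.ord_mul (pow_ne_zero _ hw0) (pow_ne_zero _ hf), h92c_ord_pow, h92c_ord_pow]
    exact dvd_add (Dvd.dvd.mul_left (hnew.2.1 v) _) (dvd_mul_right _ _)
  -- the chart `j`
  have h0 : h92c_LocalDatum A M q (jB (M * q * q)) m (w ^ t * f ^ m) := by
    intro 𝔫 h𝔫 hq𝔫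
    by_cases h1 : h11l_OneBranch ((q : ℕ) : h92c_Chart A (M * q * q) (jB (M * q * q))) 𝔫
    · exact hO q hq M hqM haux A hA _ (Or.inl rfl) m hm _ hw'0 hw'F hw'U hw'ord 𝔫 h𝔫 hq𝔫 h1
    · exact hG q hq M hqM haux A hA m hm _ hw'0 hw'F hw'U 𝔫 h𝔫 hq𝔫 (hEq 𝔫 h𝔫 hq𝔫 h1)
  refine ⟨f, hfF, hf, hw'U, h0, ?_⟩
  -- the chart `j⁻¹`
  intro 𝔫 h𝔫 hq𝔫
  by_cases h1 : h11l_OneBranch ((q : ℕ) : h92c_Chart A (M * q * q) (jB (M * q * q))⁻¹) 𝔫
  · exact hO q hq M hqM haux A hA _ (Or.inr rfl) m hm _ hw'0 hw'F hw'U hw'ord 𝔫 h𝔫 hq𝔫 h1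
  · by_cases h2 : ∀ b : h92c_Chart A (M * q * q) (jB (M * q * q))⁻¹,
        (b : FF (M * q * q)) = (jB (M * q * q))⁻¹ → b ∈ 𝔫
    · exact absurd (hC q hq M hqM haux A hA 𝔫 h𝔫 hq𝔫 h2) h1
    · push_neg at h2
      exact hX q hq M hqM haux A hA m _ h0 𝔫 h𝔫 hq𝔫 h2

end Fermat.Agent.S36
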