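import Mathlib

/-!
# S36, block TOR (helper11): the abstract branch-data theorem

Mathlib only.  Blueprint: finding #1021 (stmt = S36, kind = blueprint).

## Setting

Level `q² M'` (field `F`) and level `q M'` (field `F'`), `k` the residue field.  At every
supersingular point `P` the special fibre of level `q² M'` has three branches
(`0 = W₂₀`, `1 = W₁₁`, `2 = W₀₂`), the special fibre of level `q M'` has two (`0 = W_∞`,
`1 = W₀`).

* `H11Branch F k` : an abstract *branch*, i.e. a partially defined multiplicative value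
  `rel x c` ("`x` is a unit along the branch and its value at the point is `c`").
* `H11Local F k ι br` : the units of the local ring at a point through which the branches
  `br i`, `i : ι`, pass: a unit has the *same* value on all branches.

## Results

* `h11t_branch_alpha`, `h11t_branch_beta` : if `w = u f ^ m` locally at `P` (`u` a local unit,
  `f` with branch values `z₀, z₁, z₂`) and the norm `N w = c g ^ m` with `c` a unit at all nodes
  and `g` of branch values `d₀, d₁` *independent of the node*, then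
  `z₂ ^ q = (d₁ / d₀) z₀ z₁ ^ (q - 1)` (for `α`), `z₁ ^ (q - 1) z₂ = (d₁' / d₀') z₀ ^ q`
  (for `β`).
* `h11t_graph` : the graph computation: `(z₁ / z₀) ^ (q² - 1)` and `(z₂ / z₀) ^ (q² - 1)` are
  determined by `C₁ = d₁ / d₀`, `C₂ = d₁' / d₀'`.
* `h11t_branch_const` : the two together: the `(q² - 1)`-th powers of the branch data of a new
  class are independent of the supersingular point.
* `h11t_twist` : after the twist `w ↦ w ^ (q² - 1) (h ^ q) ^ m` by a function `h` with constant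
  branch values the local roots have equal values on the three branches.
-/

set_option autoImplicit false

namespace Fermat.Agent.S36

/-- An abstract branch of a special fibre at a point: `rel x c` means that `x` is a unit along
the branch whose value at the point is `c`. -/
structure H11Branch (F : Type*) [Field F] (k : Type*) [Field k] where
  /-- `x` is a unit along the branch and its value at the point is `c` -/
  rel : F → k → Prop
  mul : ∀ {x y : F} {c d : k}, rel x c → rel y d → rel (x * y) (c * d)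
  inv : ∀ {x : F} {c : k}, rel x c → rel x⁻¹ c⁻¹
  ne_zero : ∀ {x : F} {c : k}, rel x c → c ≠ 0
  ne_zero' : ∀ {x : F} {c : k}, rel x c → x ≠ 0
  uniq : ∀ {x : F} {c c' : k}, rel x c → rel x c' → c = c'

namespace H11Branch

variable {F : Type*} [Field F] {k : Type*} [Field k] (b : H11Branch F k)

theorem one_of_rel {x : F} {c : k} (h : b.rel x c) : b.rel 1 1 := by
  have h1 := b.mul h (b.inv h)
  rwa [mul_inv_cancel₀ (b.ne_zero' h), mul_inv_cancel₀ (b.ne_zero h)] at h1

theorem pow {x : F} {c : k} (h : b.rel x c) (n : ℕ) : b.rel (x ^ n) (c ^ n) := by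
  induction n with
  | zero =>
    rw [pow_zero, pow_zero]
    exact b.one_of_rel h
  | succ n ih =>
    rw [pow_succ, pow_succ]
    exact b.mul ih h

theorem div {x y : F} {c d : k} (hx : b.rel x c) (hy : b.rel y d) : b.rel (x / y) (c / d) := by
  rw [div_eq_mul_inv, div_eq_mul_inv]
  exact b.mul hx (b.inv hy)

end H11Branch

/-- The units of the local ring at a point through which the branches `br i` pass. -/
structure H11Local (F : Type*) [Field F] (k : Type*) [Field k] (ι : Type*)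
    (br : ι → H11Branch F k) where
  /-- `x` is a unit of the local ring -/
  unit : F → Prop
  mul : ∀ {x y : F}, unit x → unit y → unit (x * y)
  inv : ∀ {x : F}, unit x → unit x⁻¹
  /-- a unit has the same value on all branches -/
  val : ∀ {x : F}, unit x → ∃ c : k, ∀ i, (br i).rel x c

namespace H11Local

variable {F : Type*} [Field F] {k : Type*} [Field k] {ι : Type*} {br : ι → H11Branch F k}
  (L : H11Local F k ι br)

theorem pow {x : F} (h : L.unit x) (n : ℕ) (hn : 0 < n) : L.unit (x ^ n) := by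
  induction n with
  | zero => exact absurd hn (lt_irrefl 0)
  | succ n ih =>
    rcases Nat.eq_zero_or_pos n with h0 | h0
    · subst h0
      rwa [pow_one]
    · rw [pow_succ]
      exact L.mul (ih h0) h

end H11Local

section Norm

variable {F F' k : Type*} [Field F] [Field F'] [Field k]

/-- **The branch relation for one degeneracy map** (abstract form).  `br₀ br₁ br₂` the three
branches at `P`, `br'₀ br'₁` the two branches at the image node, `N` the norm, with
`val'₀ (N x) = a(x)`, `val'₁ (N x) = b(x)` for functions `a b` of the three branch values.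
If `w = u f ^ m` with `u` a local unit and `N w = c g ^ m` with `c` a unit at the node and `g` of
branch values `d₀, d₁`, then `b(z) d₀ = a(z) d₁`. -/
theorem h11t_branch_rel
    (br : Fin 3 → H11Branch F k) (br' : Fin 2 → H11Branch F' k)
    (L : H11Local F k (Fin 3) br) (L' : H11Local F' k (Fin 2) br')
    (m : ℕ)
    (hnormal : ∀ h : F', h ≠ 0 → L'.unit (h ^ m) → L'.unit h)
    (N : F →* F') (hNL : ∀ u, L.unit u → L'.unit (N u))
    (a b : k → k → k → k)
    (hN : ∀ x c0 c1 c2, (br 0).rel x c0 → (br 1).rel x c1 → (br 2).rel x c2 →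
      (br' 0).rel (N x) (a c0 c1 c2) ∧ (br' 1).rel (N x) (b c0 c1 c2))
    (w : F) (c g : F') (hc : L'.unit c) (d0 d1 : k)
    (hg0 : (br' 0).rel g d0) (hg1 : (br' 1).rel g d1) (hw : N w = c * g ^ m)
    (u f : F) (z0 z1 z2 : k) (hu : L.unit u) (hwf : w = u * f ^ m)
    (hf0 : (br 0).rel f z0) (hf1 : (br 1).rel f z1) (hf2 : (br 2).rel f z2) :
    b z0 z1 z2 * d0 = a z0 z1 z2 * d1 := by
  obtain ⟨hNf0, hNf1⟩ := hN f z0 z1 z2 hf0 hf1 hf2
  have hNu : L'.unit (N u) := hNL u hu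
  have hg_ne : g ≠ 0 := (br' 0).ne_zero' hg0
  have hNf_ne : N f ≠ 0 := (br' 0).ne_zero' hNf0
  obtain ⟨cc, hcc⟩ := L'.val hc
  have hc_ne : c ≠ 0 := (br' 0).ne_zero' (hcc 0)
  have e1 : N u * N f ^ m = c * g ^ m := by
    rw [← hw, hwf, map_mul, map_pow]
  set h : F' := g * (N f)⁻¹ with hh
  have hh0 : h ≠ 0 := mul_ne_zero hg_ne (inv_ne_zero hNf_ne)
  have hhm : h ^ m = N u * c⁻¹ := by
    rw [hh, mul_pow, inv_pow]
    have h2 : g ^ m = c⁻¹ * (N u * N f ^ m) := by
      rw [e1, ← mul_assoc, inv_mul_cancel₀ hc_ne, one_mul]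
    rw [h2]
    have h3 : N f ^ m ≠ 0 := pow_ne_zero m hNf_ne
    field_simp
  have hunit : L'.unit (h ^ m) := by
    rw [hhm]
    exact L'.mul hNu (L'.inv hc)
  obtain ⟨e, he⟩ := L'.val (hnormal h hh0 hunit)
  have hg_eq : g = h * N f := by
    rw [hh, mul_assoc, inv_mul_cancel₀ hNf_ne, mul_one]
  have r0 : (br' 0).rel g (e * a z0 z1 z2) := by
    rw [hg_eq]
    exact (br' 0).mul (he 0) hNf0
  have r1 : (br' 1).rel g (e * b z0 z1 z2) := by
    rw [hg_eq]
    exact (br' 1).mul (he 1) hNf1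
  have q0 : e * a z0 z1 z2 = d0 := (br' 0).uniq r0 hg0
  have q1 : e * b z0 z1 z2 = d1 := (br' 1).uniq r1 hg1
  rw [← q0, ← q1]
  ring

end Norm

section Graph

variable {k : Type*} [Field k]

/-- **The graph computation.**  With `a = z₁ / z₀`, `b = z₂ / z₀`: the relations
`z₂ ^ q d₀ = z₀ z₁ ^ (q - 1) d₁` (from `α`) and `z₁ ^ (q - 1) z₂ d₀' = z₀ ^ q d₁'` (from `β`)
give `b ^ (q + 1) = C₁ C₂`, `a ^ (q² - 1) = C₂ ^ q / C₁`, `b ^ (q² - 1) = (C₁ C₂) ^ (q - 1)`
with `C₁ = d₁ / d₀`, `C₂ = d₁' / d₀'`.  Here `q = r + 1`. -/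
theorem h11t_graph (r : ℕ) (z0 z1 z2 d0 d1 d0' d1' : k)
    (hz0 : z0 ≠ 0) (hz1 : z1 ≠ 0) (hz2 : z2 ≠ 0) (hd0 : d0 ≠ 0) (hd1 : d1 ≠ 0)
    (hd0' : d0' ≠ 0) (hd1' : d1' ≠ 0)
    (hα : z2 ^ (r + 1) * d0 = z0 * z1 ^ r * d1)
    (hβ : z1 ^ r * z2 * d0' = z0 ^ (r + 1) * d1') :
    (z1 / z0) ^ (r * (r + 2)) = (d1' / d0') ^ (r + 1) / (d1 / d0) ∧
    (z2 / z0) ^ (r * (r + 2)) = ((d1 / d0) * (d1' / d0')) ^ r := by
  -- `b ^ (q+1) = C₁ C₂`
  have hb : (z2 / z0) ^ (r + 2) = (d1 / d0) * (d1' / d0') := by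
    have h1 : z2 ^ (r + 2) * (d0 * d0') = z0 ^ (r + 2) * (d1 * d1') := by
      have : z2 ^ (r + 2) * (d0 * d0') * (z1 ^ r) =
          z0 ^ (r + 2) * (d1 * d1') * (z1 ^ r) := by
        calc z2 ^ (r + 2) * (d0 * d0') * (z1 ^ r)
            = (z2 ^ (r + 1) * d0) * (z1 ^ r * z2 * d0') := by ring
          _ = (z0 * z1 ^ r * d1) * (z0 ^ (r + 1) * d1') := by rw [hα, hβ]
          _ = z0 ^ (r + 2) * (d1 * d1') * (z1 ^ r) := by ring
      exact mul_right_cancel₀ (pow_ne_zero r hz1) this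
    rw [div_pow, div_mul_div_comm, div_eq_div_iff (pow_ne_zero _ hz0) (mul_ne_zero hd0 hd0')]
    rw [h1]
    ring
  -- `a ^ (q-1) b = C₂`
  have ha : (z1 / z0) ^ r * (z2 / z0) = d1' / d0' := by
    rw [div_pow, div_mul_div_comm, div_eq_div_iff (mul_ne_zero (pow_ne_zero _ hz0) hz0) hd0']
    rw [hβ]
    ring
  have hb0 : z2 / z0 ≠ 0 := div_ne_zero hz2 hz0
  have hC1 : d1 / d0 ≠ 0 := div_ne_zero hd1 hd0
  refine ⟨?_, ?_⟩
  · -- `a ^ (r (r+2)) = (a^r)^(r+2) = (C₂ / b)^(r+2) = C₂^(r+2) / (C₁ C₂) = C₂^(r+1) / C₁`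
    have h1 : (z1 / z0) ^ r = (d1' / d0') / (z2 / z0) := by
      rw [eq_div_iff hb0]
      exact ha
    have hC2 : d1' / d0' ≠ 0 := div_ne_zero hd1' hd0'
    rw [pow_mul, h1, div_pow, hb, pow_succ (d1' / d0') (r + 1)]
    field_simp
  · rw [mul_comm r (r + 2), pow_mul, hb]

end Graph

section Main

variable {F F' k : Type*} [Field F] [Field F'] [Field k] {S : Type*}

/-- **TOR, abstract form: the branch data of a new class are constant up to the exponent
`q² - 1`.**  `q = r + 1`.  For every supersingular point `P` and every local factorisation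
`w = u f ^ m` at `P`, the branch values `z₀, z₁, z₂` of `f` satisfy
`(z₁ / z₀) ^ (q² - 1) = A`, `(z₂ / z₀) ^ (q² - 1) = B` with `A`, `B` independent of `P`. -/
theorem h11t_branch_const
    (br : S → Fin 3 → H11Branch F k) (br' : S → Fin 2 → H11Branch F' k)
    (L : ∀ P, H11Local F k (Fin 3) (br P)) (L' : ∀ P, H11Local F' k (Fin 2) (br' P))
    (m r : ℕ)
    (hnormal : ∀ P (h : F'), h ≠ 0 → (L' P).unit (h ^ m) → (L' P).unit h)
    (Na Nb : F →* F') (frob : S → S)
    (hNaL : ∀ P u, (L P).unit u → (L' P).unit (Na u))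
    (hNbL : ∀ P u, (L P).unit u → (L' (frob P)).unit (Nb u))
    (hNa : ∀ P x c0 c1 c2, (br P 0).rel x c0 → (br P 1).rel x c1 → (br P 2).rel x c2 →
      (br' P 0).rel (Na x) (c0 * c1 ^ r) ∧ (br' P 1).rel (Na x) (c2 ^ (r + 1)))
    (hNb : ∀ P x c0 c1 c2, (br P 0).rel x c0 → (br P 1).rel x c1 → (br P 2).rel x c2 →
      (br' (frob P) 0).rel (Nb x) (c0 ^ (r + 1)) ∧ (br' (frob P) 1).rel (Nb x) (c1 ^ r * c2))
    (w : F)
    (c g : F') (hc : ∀ P, (L' P).unit c) (d0 d1 : k)
    (hg : ∀ P, (br' P 0).rel g d0 ∧ (br' P 1).rel g d1) (hwa : Na w = c * g ^ m)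
    (c' g' : F') (hc' : ∀ P, (L' P).unit c') (d0' d1' : k)
    (hg' : ∀ P, (br' P 0).rel g' d0' ∧ (br' P 1).rel g' d1') (hwb : Nb w = c' * g' ^ m)
    (P : S) (u f : F) (z0 z1 z2 : k) (hu : (L P).unit u) (hwf : w = u * f ^ m)
    (hf0 : (br P 0).rel f z0) (hf1 : (br P 1).rel f z1) (hf2 : (br P 2).rel f z2) :
    (z1 / z0) ^ (r * (r + 2)) = (d1' / d0') ^ (r + 1) / (d1 / d0) ∧
    (z2 / z0) ^ (r * (r + 2)) = ((d1 / d0) * (d1' / d0')) ^ r := by
  have hα := h11t_branch_rel (br P) (br' P) (L P) (L' P) m (hnormal P) Na (hNaL P)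
    (fun c0 c1 _ => c0 * c1 ^ r) (fun _ _ c2 => c2 ^ (r + 1)) (hNa P)
    w c g (hc P) d0 d1 (hg P).1 (hg P).2 hwa u f z0 z1 z2 hu hwf hf0 hf1 hf2
  have hβ := h11t_branch_rel (br P) (br' (frob P)) (L P) (L' (frob P)) m (hnormal (frob P)) Nb
    (hNbL P) (fun c0 _ _ => c0 ^ (r + 1)) (fun _ c1 c2 => c1 ^ r * c2) (hNb P)
    w c' g' (hc' (frob P)) d0' d1' (hg' (frob P)).1 (hg' (frob P)).2 hwb u f z0 z1 z2 hu hwf
    hf0 hf1 hf2
  exact h11t_graph r z0 z1 z2 d0 d1 d0' d1' ((br P 0).ne_zero hf0) ((br P 1).ne_zero hf1)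
    ((br P 2).ne_zero hf2) ((br' P 0).ne_zero (hg P).1) ((br' P 1).ne_zero (hg P).2)
    ((br' P 0).ne_zero (hg' P).1) ((br' P 1).ne_zero (hg' P).2) hα hβ

/-- **The twist.**  If the `(q² - 1)`-th powers of the branch data of `w` are the constants
`A`, `B` and `h` has constant branch values `e₀, e₁, e₂` with `(e₁ / e₀) ^ q A = 1`,
`(e₂ / e₀) ^ q B = 1`, then `w' = w ^ (q² - 1) (h ^ q) ^ m` has, at every point, the local
factorisation `w' = u ^ (q² - 1) (f ^ (q² - 1) h ^ q) ^ m` whose root has the same value on the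
three branches. -/
theorem h11t_twist
    (br : Fin 3 → H11Branch F k) (m n q : ℕ)
    (A B : k) (h : F) (e0 e1 e2 : k)
    (hh0 : (br 0).rel h e0) (hh1 : (br 1).rel h e1) (hh2 : (br 2).rel h e2)
    (he1 : (e1 / e0) ^ q * A = 1) (he2 : (e2 / e0) ^ q * B = 1)
    (w u f : F) (z0 z1 z2 : k) (hwf : w = u * f ^ m)
    (hf0 : (br 0).rel f z0) (hf1 : (br 1).rel f z1) (hf2 : (br 2).rel f z2)
    (hA : (z1 / z0) ^ n = A) (hB : (z2 / z0) ^ n = B) :
    w ^ n * (h ^ q) ^ m = u ^ n * (f ^ n * h ^ q) ^ m ∧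
    ∀ i, (br i).rel (f ^ n * h ^ q) (z0 ^ n * e0 ^ q) := by
  have hz0 : z0 ≠ 0 := (br 0).ne_zero hf0
  have he0 : e0 ≠ 0 := (br 0).ne_zero hh0
  refine ⟨by rw [hwf]; ring, ?_⟩
  have k1 : z1 ^ n * e1 ^ q = z0 ^ n * e0 ^ q := by
    have h1 : (z1 / z0) ^ n * (e1 / e0) ^ q = 1 := by rw [hA, mul_comm]; exact he1
    rw [div_pow, div_pow, div_mul_div_comm,
      div_eq_one_iff_eq (mul_ne_zero (pow_ne_zero _ hz0) (pow_ne_zero _ he0))] at h1
    exact h1
  have k2 : z2 ^ n * e2 ^ q = z0 ^ n * e0 ^ q := by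
    have h1 : (z2 / z0) ^ n * (e2 / e0) ^ q = 1 := by rw [hB, mul_comm]; exact he2
    rw [div_pow, div_pow, div_mul_div_comm,
      div_eq_one_iff_eq (mul_ne_zero (pow_ne_zero _ hz0) (pow_ne_zero _ he0))] at h1
    exact h1
  intro i
  fin_cases i
  · exact (br 0).mul ((br 0).pow hf0 n) ((br 0).pow hh0 q)
  · have := (br 1).mul ((br 1).pow hf1 n) ((br 1).pow hh1 q)
    rw [k1] at this
    exact this
  · have := (br 2).mul ((br 2).pow hf2 n) ((br 2).pow hh2 q)
    rw [k2] at this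
    exact this

end Main

end Fermat.Agent.S36
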