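import Mathlib

/-!
# S36, block TOR (helper11): calculus of branch values in the chart language (abstract)

Mathlib only.  `B` a subring of a field `F` (a chart), `𝔫` an ideal of `B` (a closed point),
`Int, Sm : F → Prop` the valuation ring and the maximal ideal of a vertical valuation
(`H11aSm`: `Int` is a subring containing `B`, `Sm` is an ideal of `Int`).

* `h11a_BV B 𝔫 Sm x c` : `∃ b s ∈ B, s ∉ 𝔫, Sm (s x - b), b - c s ∈ 𝔫`  (the shape of
  `h11l_BV`, `S36/H11LocSkel.lean`, and of `h8b_BV`).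
* `h11a_bv_of_small`, `h11a_bv_mul`, `h11a_bv_pow`, `h11a_bv_congr`, `h11a_bv_unique`,
  `h11a_bv_of_unit`.
* `h11a_node_rel` : the relation at a node: if `g = η n` with `η` a unit at `𝔫` and `n`, `g` have
  the branch values `(p, p')`, `(x, x')` along two branches centred at `𝔫`, then
  `p x' - p' x ∈ 𝔫`.
-/

set_option autoImplicit false

namespace Fermat.Agent.S36

variable {F : Type*} [Field F]

/-- `Int` is a subring of `F` containing the chart `B`, and `Sm` is an ideal of `Int`. -/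
structure H11aSm (B : Subring F) (Int Sm : F → Prop) : Prop where
  int_of_mem : ∀ b : B, Int (b : F)
  int_add : ∀ {x y : F}, Int x → Int y → Int (x + y)
  int_mul : ∀ {x y : F}, Int x → Int y → Int (x * y)
  int_neg : ∀ {x : F}, Int x → Int (-x)
  sm_zero : Sm 0
  sm_add : ∀ {x y : F}, Sm x → Sm y → Sm (x + y)
  sm_neg : ∀ {x : F}, Sm x → Sm (-x)
  sm_int : ∀ {x : F}, Sm x → Int x
  sm_mul : ∀ {v x : F}, Int v → Sm x → Sm (v * x)

namespace H11aSm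

variable {B : Subring F} {Int Sm : F → Prop} (h : H11aSm B Int Sm)
include h

theorem sm_sub {x y : F} (hx : Sm x) (hy : Sm y) : Sm (x - y) := by
  rw [sub_eq_add_neg]
  exact h.sm_add hx (h.sm_neg hy)

theorem int_sub {x y : F} (hx : Int x) (hy : Int y) : Int (x - y) := by
  rw [sub_eq_add_neg]
  exact h.int_add hx (h.int_neg hy)

theorem int_one : Int (1 : F) := by
  have := h.int_of_mem (1 : B)
  simpa using this

theorem int_pow {x : F} (hx : Int x) (n : ℕ) : Int (x ^ n) := by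
  induction n with
  | zero => rw [pow_zero]; exact h.int_one
  | succ n ih => rw [pow_succ]; exact h.int_mul ih hx

theorem sm_mul_right {v x : F} (hv : Int v) (hx : Sm x) : Sm (x * v) := by
  rw [mul_comm]
  exact h.sm_mul hv hx

end H11aSm

/-- **branch value** (abstract shape). -/
def h11a_BV (B : Subring F) (𝔫 : Ideal B) (Sm : F → Prop) (x : F) (c : B) : Prop :=
  ∃ b s : B, s ∉ 𝔫 ∧ Sm ((s : F) * x - (b : F)) ∧ b - c * s ∈ 𝔫

/-- the branch `Sm` is centred at `𝔫`. -/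
def h11a_Centred (B : Subring F) (𝔫 : Ideal B) (Sm : F → Prop) : Prop :=
  ∀ b : B, Sm (b : F) → b ∈ 𝔫

/-- `u` is a unit of the local ring `B_𝔫`. -/
def h11a_UnitAt (B : Subring F) (𝔫 : Ideal B) (u : F) : Prop :=
  u ≠ 0 ∧ ∃ s : B, s ∉ 𝔫 ∧ (s : F) * u ∈ B ∧ (s : F) * u⁻¹ ∈ B

section Calc

variable {B : Subring F} {𝔫 : Ideal B} {Int Sm : F → Prop}

theorem h11a_bv_of_small [h𝔫 : 𝔫.IsPrime] {x : F} (c : B) (hx : Sm (x - (c : F))) :
    h11a_BV B 𝔫 Sm x c := by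
  refine ⟨c, 1, (Ideal.ne_top_iff_one 𝔫).mp h𝔫.ne_top, ?_, ?_⟩
  · simpa using hx
  · simp

theorem h11a_bv_congr {x : F} {c c' : B} (hx : h11a_BV B 𝔫 Sm x c) (hc : c - c' ∈ 𝔫) :
    h11a_BV B 𝔫 Sm x c' := by
  obtain ⟨b, s, hs, hsm, hb⟩ := hx
  refine ⟨b, s, hs, hsm, ?_⟩
  have e : b - c' * s = (b - c * s) + (c - c') * s := by ring
  rw [e]
  exact 𝔫.add_mem hb (𝔫.mul_mem_right _ hc)

theorem h11a_bv_int (h : H11aSm B Int Sm) {x : F} {c : B} (hx : h11a_BV B 𝔫 Sm x c) :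
    ∃ s : B, s ∉ 𝔫 ∧ Int ((s : F) * x) := by
  obtain ⟨b, s, hs, hsm, -⟩ := hx
  refine ⟨s, hs, ?_⟩
  have e : (s : F) * x = ((s : F) * x - b) + b := by ring
  rw [e]
  exact h.int_add (h.sm_int hsm) (h.int_of_mem b)

theorem h11a_bv_mul [h𝔫 : 𝔫.IsPrime] (h : H11aSm B Int Sm) {x y : F} {c d : B}
    (hx : h11a_BV B 𝔫 Sm x c) (hy : h11a_BV B 𝔫 Sm y d) :
    h11a_BV B 𝔫 Sm (x * y) (c * d) := by
  obtain ⟨b, s, hs, hsm, hb⟩ := hx
  obtain ⟨b', s', hs', hsm', hb'⟩ := hy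
  refine ⟨b * b', s * s', fun h' => (h𝔫.mem_or_mem h').elim hs hs', ?_, ?_⟩
  · have e : ((s * s' : B) : F) * (x * y) - ((b * b' : B) : F)
        = ((s' : F) * y) * ((s : F) * x - b) + (b : F) * ((s' : F) * y - b') := by
      push_cast; ring
    rw [e]
    have h1 : Int ((s' : F) * y) := by
      have e1 : (s' : F) * y = ((s' : F) * y - b') + b' := by ring
      rw [e1]
      exact h.int_add (h.sm_int hsm') (h.int_of_mem b')
    exact h.sm_add (h.sm_mul h1 hsm) (h.sm_mul (h.int_of_mem b) hsm')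
  · have e : b * b' - c * d * (s * s') = (b - c * s) * b' + c * s * (b' - d * s') := by ring
    rw [e]
    exact 𝔫.add_mem (𝔫.mul_mem_right _ hb) (𝔫.mul_mem_left _ hb')

theorem h11a_bv_one [h𝔫 : 𝔫.IsPrime] (h : H11aSm B Int Sm) : h11a_BV B 𝔫 Sm (1 : F) 1 := by
  refine h11a_bv_of_small (1 : B) ?_
  simpa using h.sm_zero

theorem h11a_bv_pow [h𝔫 : 𝔫.IsPrime] (h : H11aSm B Int Sm) {x : F} {c : B}
    (hx : h11a_BV B 𝔫 Sm x c) (n : ℕ) : h11a_BV B 𝔫 Sm (x ^ n) (c ^ n) := by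
  induction n with
  | zero => simpa using h11a_bv_one (𝔫 := 𝔫) h
  | succ n ih => rw [pow_succ, pow_succ]; exact h11a_bv_mul h ih hx

theorem h11a_bv_unique [h𝔫 : 𝔫.IsPrime] (h : H11aSm B Int Sm) (hcen : h11a_Centred B 𝔫 Sm)
    {x : F} {c d : B} (hx : h11a_BV B 𝔫 Sm x c) (hy : h11a_BV B 𝔫 Sm x d) : c - d ∈ 𝔫 := by
  obtain ⟨b, s, hs, hsm, hb⟩ := hx
  obtain ⟨b', s', hs', hsm', hb'⟩ := hy
  have h1 : s * b' - s' * b ∈ 𝔫 := by
    apply hcen
    have e : ((s * b' - s' * b : B) : F)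
        = (s' : F) * ((s : F) * x - b) - (s : F) * ((s' : F) * x - b') := by
      push_cast; ring
    rw [e]
    exact h.sm_sub (h.sm_mul (h.int_of_mem s') hsm) (h.sm_mul (h.int_of_mem s) hsm')
  have h4 : (c - d) * (s * s') ∈ 𝔫 := by
    have e : (c - d) * (s * s') = -(s * b' - s' * b) + s * (b' - d * s') - s' * (b - c * s) := by
      ring
    rw [e]
    exact 𝔫.sub_mem (𝔫.add_mem (𝔫.neg_mem h1) (𝔫.mul_mem_left _ hb')) (𝔫.mul_mem_left _ hb)
  rcases h𝔫.mem_or_mem h4 with h' | h'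
  · exact h'
  · exact absurd h' fun h'' => (h𝔫.mem_or_mem h'').elim hs hs'

/-- a unit of `B_𝔫` has a branch value, the same along every branch. -/
theorem h11a_bv_of_unit [h𝔫 : 𝔫.IsMaximal] {u : F} (hu : h11a_UnitAt B 𝔫 u) :
    ∃ c : B, c ∉ 𝔫 ∧ ∀ (Sm : F → Prop), Sm 0 → h11a_BV B 𝔫 Sm u c := by
  obtain ⟨hu0, s, hs, hsu, hsu'⟩ := hu
  -- `b = s u ∈ B`, `b' = s u⁻¹ ∈ B`, `b b' = s ^ 2`
  set b : B := ⟨(s : F) * u, hsu⟩ with hb
  set b' : B := ⟨(s : F) * u⁻¹, hsu'⟩ with hb'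
  have hbb' : b * b' = s * s := by
    apply Subtype.ext
    push_cast
    rw [hb, hb']
    show (s : F) * u * ((s : F) * u⁻¹) = (s : F) * (s : F)
    field_simp
  have hprime : 𝔫.IsPrime := h𝔫.isPrime
  have hbn : b ∉ 𝔫 := by
    intro hbn
    have : s * s ∈ 𝔫 := by rw [← hbb']; exact 𝔫.mul_mem_right _ hbn
    exact (hprime.mem_or_mem this).elim hs hs
  -- an inverse of `s` modulo `𝔫`
  obtain ⟨s', hs'⟩ : ∃ s' : B, s * s' - 1 ∈ 𝔫 := by
    obtain ⟨y, i, hi, hyi⟩ := h𝔫.exists_inv hs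
    refine ⟨y, ?_⟩
    have e : s * y - 1 = -i := by
      have : y * s + i = 1 := hyi
      linear_combination this
    rw [e]
    exact 𝔫.neg_mem hi
  have hs'n : s' ∉ 𝔫 := by
    intro h'
    have h1 : (1 : B) ∈ 𝔫 := by
      have e : (1 : B) = s * s' - (s * s' - 1) := by ring
      rw [e]
      exact 𝔫.sub_mem (𝔫.mul_mem_left _ h') hs'
    exact (Ideal.ne_top_iff_one 𝔫).mp hprime.ne_top h1
  refine ⟨b * s', fun h' => (hprime.mem_or_mem h').elim hbn hs'n, fun Sm hSm0 => ?_⟩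
  refine ⟨b, s, hs, ?_, ?_⟩
  · have e : (s : F) * u - (b : F) = 0 := by rw [hb]; simp
    rw [e]
    exact hSm0
  · have e : b - b * s' * s = -(b * (s * s' - 1)) := by ring
    rw [e]
    exact 𝔫.neg_mem (𝔫.mul_mem_left _ hs')

/-- **the relation at a node.**  `g = η n` with `η` a unit of `B_𝔫`; `n` has the branch values
`p, p'` and `g` the branch values `x, x'` along two branches centred at `𝔫`: then
`p x' - p' x ∈ 𝔫`. -/
theorem h11a_node_rel [h𝔫 : 𝔫.IsMaximal] {Int Sm Int' Sm' : F → Prop}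
    (h : H11aSm B Int Sm) (h' : H11aSm B Int' Sm')
    (hcen : h11a_Centred B 𝔫 Sm) (hcen' : h11a_Centred B 𝔫 Sm')
    {g n η : F} (hη : h11a_UnitAt B 𝔫 η) (hg : g = η * n) {p p' x x' : B}
    (hn : h11a_BV B 𝔫 Sm n p) (hn' : h11a_BV B 𝔫 Sm' n p')
    (hgx : h11a_BV B 𝔫 Sm g x) (hgx' : h11a_BV B 𝔫 Sm' g x') :
    p * x' - p' * x ∈ 𝔫 := by
  have hprime : 𝔫.IsPrime := h𝔫.isPrime
  obtain ⟨c, -, hc⟩ := h11a_bv_of_unit hη
  have h1 : h11a_BV B 𝔫 Sm g (c * p) := by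
    rw [hg]; exact h11a_bv_mul h (hc Sm h.sm_zero) hn
  have h2 : h11a_BV B 𝔫 Sm' g (c * p') := by
    rw [hg]; exact h11a_bv_mul h' (hc Sm' h'.sm_zero) hn'
  have e1 : c * p - x ∈ 𝔫 := h11a_bv_unique h hcen h1 hgx
  have e2 : c * p' - x' ∈ 𝔫 := h11a_bv_unique h' hcen' h2 hgx'
  have e : p * x' - p' * x = p' * (c * p - x) - p * (c * p' - x') := by ring
  rw [e]
  exact 𝔫.sub_mem (𝔫.mul_mem_left _ e1) (𝔫.mul_mem_left _ e2)

/-- root closedness passes to the local ring: if `B` is root closed in a subfield-like set `K`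
(closed under multiplication by elements of `B`), a function of `K` whose `m`-th power is a
unit of `B_𝔫` is a unit of `B_𝔫`. -/
theorem h11a_unit_of_pow [h𝔫 : 𝔫.IsPrime] (K : F → Prop)
    (hK : ∀ (b : B) (x : F), K x → K ((b : F) * x)) (hKinv : ∀ x : F, K x → K x⁻¹)
    (m : ℕ) (hm : 0 < m) (hroot : ∀ x : F, K x → x ^ m ∈ B → x ∈ B)
    {x : F} (hxK : K x) (hx : h11a_UnitAt B 𝔫 (x ^ m)) : h11a_UnitAt B 𝔫 x := by
  obtain ⟨hx0, s, hs, h1, h2⟩ := hx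
  have hx0' : x ≠ 0 := fun h0 => hx0 (by rw [h0, zero_pow hm.ne'])
  obtain ⟨k, rfl⟩ : ∃ k, m = k + 1 := ⟨m - 1, by omega⟩
  refine ⟨hx0', s, hs, ?_, ?_⟩
  · refine hroot _ (hK s x hxK) ?_
    have e : ((s : F) * x) ^ (k + 1) = (s : F) ^ k * ((s : F) * x ^ (k + 1)) := by
      rw [mul_pow, pow_succ (s : F)]; ring
    rw [e]
    exact B.mul_mem (B.pow_mem s.2 k) h1
  · refine hroot _ (hK s _ (hKinv x hxK)) ?_
    have e : ((s : F) * x⁻¹) ^ (k + 1) = (s : F) ^ k * ((s : F) * (x ^ (k + 1))⁻¹) := by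
      rw [mul_pow, pow_succ (s : F), inv_pow]; ring
    rw [e]
    exact B.mul_mem (B.pow_mem s.2 k) h2

end Calc

end Fermat.Agent.S36
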