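import Fermat.Agent.S36.H11TorSkel
import Fermat.Agent.S36.H11TorCalc
import Fermat.Agent.S36.H11TorAbs

set_option autoImplicit false

open AlgebraicCurve ModularCurve

noncomputable section

namespace Fermat.Agent.S36

open Fermat.Agent.S37 (Kbar GQ FF cst jB gal modelAt degen auxLevel)
open Fermat.Agent.Red.KR (normAlong)
open Fermat.Agent.Red.Kron (kFricke)
open Fermat.Agent.Red.GV.Soft (softOT softRedT)

section Sm

variable (A : ValuationSubring Kbar) {N : ℕ} (E : FF N →+* LaurentSeries Kbar)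

/-- Gauss-integral at `E`. -/
def h11t_Int (x : FF N) : Prop := E x ∈ softOT A (IsLocalRing.residue A)

theorem h11t_small_iff (x : FF N) :
    h11l_Small A E x ↔ ∃ h : E x ∈ softOT A (IsLocalRing.residue A),
      softRedT A (IsLocalRing.residue A) ⟨E x, h⟩ = 0 := Iff.rfl

theorem h11t_small_of_eq {x : FF N} {y : softOT A (IsLocalRing.residue A)}
    (hxy : E x = (y : LaurentSeries Kbar))
    (hy : softRedT A (IsLocalRing.residue A) y = 0) : h11l_Small A E x := by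
  have hx : E x ∈ softOT A (IsLocalRing.residue A) := by rw [hxy]; exact y.2
  refine ⟨hx, ?_⟩
  have : (⟨E x, hx⟩ : softOT A (IsLocalRing.residue A)) = y := Subtype.ext hxy
  rw [this, hy]

/-- the calculus structure of the branch of `E` on a chart which is Gauss-integral at `E`. -/
theorem h11t_sm (B : Subring (FF N))
    (hB : ∀ b ∈ B, E b ∈ softOT A (IsLocalRing.residue A)) :
    H11aSm B (h11t_Int A E) (h11l_Small A E) where
  int_of_mem b := hB b b.2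
  int_add := by
    intro x y hx hy
    show E (x + y) ∈ _
    rw [map_add]
    exact add_mem hx hy
  int_mul := by
    intro x y hx hy
    show E (x * y) ∈ _
    rw [map_mul]
    exact mul_mem hx hy
  int_neg := by
    intro x hx
    show E (-x) ∈ _
    rw [map_neg]
    exact neg_mem hx
  sm_zero := h11t_small_of_eq A E (y := 0) (by simp) (map_zero _)
  sm_add := by
    rintro x y ⟨hx, hx0⟩ ⟨hy, hy0⟩
    refine h11t_small_of_eq A E (y := ⟨E x, hx⟩ + ⟨E y, hy⟩) (by simp) ?_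
    rw [map_add, hx0, hy0, add_zero]
  sm_neg := by
    rintro x ⟨hx, hx0⟩
    refine h11t_small_of_eq A E (y := -⟨E x, hx⟩) (by simp) ?_
    rw [map_neg, hx0, neg_zero]
  sm_int := fun ⟨hx, _⟩ => hx
  sm_mul := by
    rintro v x hv ⟨hx, hx0⟩
    refine h11t_small_of_eq A E (y := ⟨E v, hv⟩ * ⟨E x, hx⟩) (by simp) ?_
    rw [map_mul, hx0, mul_zero]

theorem h11t_bv_iff (t : FF N) (𝔫 : Ideal (h92c_Chart A N t)) (x : FF N)
    (c : h92c_Chart A N t) :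
    h11l_BV A t 𝔫 E x c ↔ h11a_BV (h92c_Chart A N t) 𝔫 (h11l_Small A E) x c := Iff.rfl

theorem h11t_centred_iff (t : FF N) (𝔫 : Ideal (h92c_Chart A N t)) :
    h11l_Centred A t 𝔫 E ↔ h11a_Centred (h92c_Chart A N t) 𝔫 (h11l_Small A E) := Iff.rfl

theorem h11t_unitAt_iff (t : FF N) (𝔫 : Ideal (h92c_Chart A N t)) (u : FF N) :
    h11t_UnitAt A t 𝔫 u ↔ h11a_UnitAt (h92c_Chart A N t) 𝔫 u := Iff.rfl

end Sm

section Res

variable (A : ValuationSubring Kbar)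

/-- the residue of a constant (`0` outside `A`). -/
def h11t_rs (a : Kbar) : IsLocalRing.ResidueField A :=
  open Classical in
  if h : a ∈ A then IsLocalRing.residue A ⟨a, h⟩ else 0

theorem h11t_rs_of_mem {a : Kbar} (ha : a ∈ A) :
    h11t_rs A a = IsLocalRing.residue A ⟨a, ha⟩ := by
  unfold h11t_rs
  exact dif_pos ha

theorem h11t_rs_mul {a b : Kbar} (ha : a ∈ A) (hb : b ∈ A) :
    h11t_rs A (a * b) = h11t_rs A a * h11t_rs A b := by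
  rw [h11t_rs_of_mem A ha, h11t_rs_of_mem A hb, h11t_rs_of_mem A (A.mul_mem _ _ ha hb),
    ← map_mul]
  rfl

theorem h11t_rs_one : h11t_rs A 1 = 1 := by
  rw [h11t_rs_of_mem A A.one_mem]
  exact map_one _

theorem h11t_rs_pow {a : Kbar} (ha : a ∈ A) (n : ℕ) :
    h11t_rs A (a ^ n) = h11t_rs A a ^ n := by
  induction n with
  | zero => rw [pow_zero, pow_zero, h11t_rs_one]
  | succ n ih => rw [pow_succ, pow_succ, h11t_rs_mul A (pow_mem ha n) ha, ih]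

theorem h11t_rs_sub {a b : Kbar} (ha : a ∈ A) (hb : b ∈ A) :
    h11t_rs A (a - b) = h11t_rs A a - h11t_rs A b := by
  rw [h11t_rs_of_mem A ha, h11t_rs_of_mem A hb, h11t_rs_of_mem A (A.sub_mem ha hb),
    ← map_sub]
  rfl

theorem h11t_rs_ne_zero {a : Kbar} (ha : a ∈ A) (ha' : a⁻¹ ∈ A) (h0 : a ≠ 0) :
    h11t_rs A a ≠ 0 := by
  intro h
  have h1 : h11t_rs A (a * a⁻¹) = 1 := by rw [mul_inv_cancel₀ h0, h11t_rs_one]
  rw [h11t_rs_mul A ha ha', h, zero_mul] at h1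
  exact zero_ne_one h1

theorem h11t_rs_inv {a : Kbar} (ha : a ∈ A) (ha' : a⁻¹ ∈ A) (h0 : a ≠ 0) :
    h11t_rs A a⁻¹ = (h11t_rs A a)⁻¹ := by
  have h1 : h11t_rs A (a * a⁻¹) = 1 := by rw [mul_inv_cancel₀ h0, h11t_rs_one]
  rw [h11t_rs_mul A ha ha'] at h1
  exact eq_inv_of_mul_eq_one_right h1

/-- a constant of `A` with residue `0` is `0` or has no inverse in `A`. -/
theorem h11t_rs_eq_zero {a : Kbar} (ha : a ∈ A) (h : h11t_rs A a = 0) : a = 0 ∨ a⁻¹ ∉ A := by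
  by_cases h0 : a = 0
  · exact Or.inl h0
  · exact Or.inr fun ha' => h11t_rs_ne_zero A ha ha' h0 h

/-- a constant of `A` without inverse in `A` has residue `0`. -/
theorem h11t_rs_eq_zero_of {a : Kbar} (ha : a ∈ A) (h : a = 0 ∨ a⁻¹ ∉ A) :
    h11t_rs A a = 0 := by
  rw [h11t_rs_of_mem A ha, IsLocalRing.residue_eq_zero_iff, IsLocalRing.mem_maximalIdeal,
    mem_nonunits_iff]
  intro hu
  rcases h with h | h
  · have : (⟨a, ha⟩ : A) = 0 := Subtype.ext h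
    rw [this] at hu
    exact not_isUnit_zero hu
  · obtain ⟨y, hy⟩ := hu.exists_right_inv
    have h1 : a * (y : Kbar) = 1 := by
      have := congrArg (Subtype.val : A → Kbar) hy
      simpa using this
    have h2 : a⁻¹ = (y : Kbar) := (eq_inv_of_mul_eq_one_right h1).symm ▸ rfl
    exact h (h2 ▸ y.2)

end Res
section Cst

variable (A : ValuationSubring Kbar) {N : ℕ} (t : FF N) (𝔫 : Ideal (h92c_Chart A N t))
  (E : FF N →+* LaurentSeries Kbar)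

theorem h11t_cbv_of_small [h𝔫 : 𝔫.IsPrime] {x : FF N} {a : Kbar}
    (ha : cst N a ∈ h92c_Chart A N t) (hx : h11l_Small A E (x - cst N a)) :
    h11t_cBV A t 𝔫 E x a :=
  ⟨⟨cst N a, ha⟩, rfl, h11a_bv_of_small (⟨cst N a, ha⟩ : h92c_Chart A N t) hx⟩

theorem h11t_cbv_mul [h𝔫 : 𝔫.IsPrime]
    (hsm : H11aSm (h92c_Chart A N t) (h11t_Int A E) (h11l_Small A E)) {x y : FF N}
    {a b : Kbar} (hx : h11t_cBV A t 𝔫 E x a) (hy : h11t_cBV A t 𝔫 E y b) :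
    h11t_cBV A t 𝔫 E (x * y) (a * b) := by
  obtain ⟨c, hc, hxc⟩ := hx
  obtain ⟨d, hd, hyd⟩ := hy
  refine ⟨c * d, ?_, h11a_bv_mul hsm hxc hyd⟩
  rw [Subring.coe_mul, hc, hd]
  exact (map_mul (algebraMap Kbar (FF N)) a b).symm

theorem h11t_cbv_pow [h𝔫 : 𝔫.IsPrime]
    (hsm : H11aSm (h92c_Chart A N t) (h11t_Int A E) (h11l_Small A E)) {x : FF N}
    {a : Kbar} (hx : h11t_cBV A t 𝔫 E x a) (n : ℕ) :
    h11t_cBV A t 𝔫 E (x ^ n) (a ^ n) := by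
  obtain ⟨c, hc, hxc⟩ := hx
  refine ⟨c ^ n, ?_, h11a_bv_pow hsm hxc n⟩
  rw [SubmonoidClass.coe_pow, hc]
  exact (map_pow (algebraMap Kbar (FF N)) a n).symm

/-- the value of a constant branch value may be changed modulo `𝔪_A`. -/
theorem h11t_cbv_congr (q : ℕ) (hq𝔫 : ((q : ℕ) : h92c_Chart A N t) ∈ 𝔫)
    (hcst : ∀ a : Kbar, a ∈ A → (∀ σ ∈ A.inertiaSubgroupIn ℚ, σ a = a) →
      cst N a ∈ h92c_Chart A N t)
    (hdiv : ∀ a : Kbar, a ∈ A → a⁻¹ ∉ A → (∀ σ ∈ A.inertiaSubgroupIn ℚ, σ a = a) →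
      ∃ a' : Kbar, a' ∈ A ∧ (∀ σ ∈ A.inertiaSubgroupIn ℚ, σ a' = a') ∧ a = (q : Kbar) * a')
    {x : FF N} {a a' : Kbar} (ha : a ∈ A) (haI : ∀ σ ∈ A.inertiaSubgroupIn ℚ, σ a = a)
    (ha' : a' ∈ A) (ha'I : ∀ σ ∈ A.inertiaSubgroupIn ℚ, σ a' = a')
    (hrs : h11t_rs A a = h11t_rs A a') (hx : h11t_cBV A t 𝔫 E x a) :
    h11t_cBV A t 𝔫 E x a' := by
  obtain ⟨c, hc, hxc⟩ := hx
  refine ⟨⟨cst N a', hcst a' ha' ha'I⟩, rfl, h11a_bv_congr hxc ?_⟩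
  have hδA : a - a' ∈ A := A.sub_mem ha ha'
  have hδI : ∀ σ ∈ A.inertiaSubgroupIn ℚ, σ (a - a') = a - a' := by
    intro σ hσ
    rw [map_sub, haI σ hσ, ha'I σ hσ]
  have hδ0 : h11t_rs A (a - a') = 0 := by
    rw [h11t_rs_sub A ha ha', hrs, sub_self]
  rcases h11t_rs_eq_zero A hδA hδ0 with h0 | h0
  · have e : c - ⟨cst N a', hcst a' ha' ha'I⟩ = 0 := by
      apply Subtype.ext
      push_cast
      rw [hc, ← map_sub, h0, map_zero]
    rw [e]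
    exact 𝔫.zero_mem
  · obtain ⟨δ', hδ'A, hδ'I, hδ'⟩ := hdiv _ hδA h0 hδI
    have e : c - ⟨cst N a', hcst a' ha' ha'I⟩ =
        ((q : ℕ) : h92c_Chart A N t) * ⟨cst N δ', hcst δ' hδ'A hδ'I⟩ := by
      apply Subtype.ext
      rw [AddSubgroupClass.coe_sub, Subring.coe_mul, hc]
      show algebraMap Kbar (FF N) a - algebraMap Kbar (FF N) a' =
        ((q : ℕ) : FF N) * algebraMap Kbar (FF N) δ'
      rw [← map_sub, hδ', map_mul, map_natCast]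
    rw [e]
    exact 𝔫.mul_mem_right _ hq𝔫

/-- **the relation at a node, constant form.** -/
theorem h11t_node_rel [h𝔫 : 𝔫.IsMaximal] (E' : FF N →+* LaurentSeries Kbar)
    (hsm : H11aSm (h92c_Chart A N t) (h11t_Int A E) (h11l_Small A E))
    (hsm' : H11aSm (h92c_Chart A N t) (h11t_Int A E') (h11l_Small A E'))
    (hcen : h11l_Centred A t 𝔫 E) (hcen' : h11l_Centred A t 𝔫 E')
    (hcst : ∀ a : Kbar, a ∈ A → (∀ σ ∈ A.inertiaSubgroupIn ℚ, σ a = a) →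
      cst N a ∈ h92c_Chart A N t)
    {g n η : FF N} (hη : h11t_UnitAt A t 𝔫 η) (hg : g = η * n) {p p' x x' : Kbar}
    (hp : p ∈ A) (hp' : p' ∈ A) (hx : x ∈ A) (hx' : x' ∈ A)
    (hpI : ∀ σ ∈ A.inertiaSubgroupIn ℚ, σ p = p)
    (hp'I : ∀ σ ∈ A.inertiaSubgroupIn ℚ, σ p' = p')
    (hxI : ∀ σ ∈ A.inertiaSubgroupIn ℚ, σ x = x)
    (hx'I : ∀ σ ∈ A.inertiaSubgroupIn ℚ, σ x' = x')
    (hn : h11t_cBV A t 𝔫 E n p) (hn' : h11t_cBV A t 𝔫 E' n p')
    (hgx : h11t_cBV A t 𝔫 E g x) (hgx' : h11t_cBV A t 𝔫 E' g x') :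
    h11t_rs A p * h11t_rs A x' = h11t_rs A p' * h11t_rs A x := by
  obtain ⟨cp, hcp, hn⟩ := hn
  obtain ⟨cp', hcp', hn'⟩ := hn'
  obtain ⟨cx, hcx, hgx⟩ := hgx
  obtain ⟨cx', hcx', hgx'⟩ := hgx'
  have hrel : cp * cx' - cp' * cx ∈ 𝔫 :=
    h11a_node_rel hsm hsm' hcen hcen' hη hg hn hn' hgx hgx'
  set κ : Kbar := p * x' - p' * x with hκ
  have hκA : κ ∈ A := A.sub_mem (A.mul_mem _ _ hp hx') (A.mul_mem _ _ hp' hx)
  have hκI : ∀ σ ∈ A.inertiaSubgroupIn ℚ, σ κ = κ := by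
    intro σ hσ
    rw [hκ, map_sub, map_mul, map_mul, hpI σ hσ, hp'I σ hσ, hxI σ hσ, hx'I σ hσ]
  have hcoe : ((cp * cx' - cp' * cx : h92c_Chart A N t) : FF N) = cst N κ := by
    rw [AddSubgroupClass.coe_sub, Subring.coe_mul, Subring.coe_mul, hcp, hcp', hcx, hcx', hκ]
    show _ = algebraMap Kbar (FF N) (p * x' - p' * x)
    rw [map_sub, map_mul, map_mul]
  have hκ0 : h11t_rs A κ = 0 := by
    apply h11t_rs_eq_zero_of A hκA
    by_contra hcon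
    push Not at hcon
    obtain ⟨hne, hinv⟩ := hcon
    have hinvI : ∀ σ ∈ A.inertiaSubgroupIn ℚ, σ κ⁻¹ = κ⁻¹ := by
      intro σ hσ
      rw [map_inv₀, hκI σ hσ]
    have h1 : (cp * cx' - cp' * cx) * ⟨cst N κ⁻¹, hcst κ⁻¹ hinv hinvI⟩ = 1 := by
      apply Subtype.ext
      rw [Subring.coe_mul, hcoe]
      show algebraMap Kbar (FF N) κ * algebraMap Kbar (FF N) κ⁻¹ = _
      rw [← map_mul, mul_inv_cancel₀ hne, map_one]
      rfl
    have h2 : (1 : h92c_Chart A N t) ∈ 𝔫 := by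
      rw [← h1]
      exact 𝔫.mul_mem_right _ hrel
    exact (Ideal.ne_top_iff_one 𝔫).mp h𝔫.ne_top h2
  have h3 := h11t_rs_sub A (A.mul_mem _ _ hp hx') (A.mul_mem _ _ hp' hx)
  rw [← hκ, hκ0, h11t_rs_mul A hp hx', h11t_rs_mul A hp' hx] at h3
  exact (sub_eq_zero.mp h3.symm)

end Cst
section Aux

theorem h11t_exists_root (q m : ℕ) (hqm : Nat.Coprime q m) (x : Kbar) (hx : x ^ m = 1) :
    ∃ e : Kbar, e ^ m = 1 ∧ e ^ q = x := by
  rcases Nat.lt_or_ge 1 m with hm | hm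
  · obtain ⟨q', -, hq'⟩ := Nat.exists_mul_mod_eq_one_of_coprime hqm hm
    refine ⟨x ^ q', ?_, ?_⟩
    · rw [← pow_mul, mul_comm, pow_mul, hx, one_pow]
    · rw [← pow_mul, mul_comm q' q]
      have h1 : q * q' = m * (q * q' / m) + 1 := by
        have := Nat.div_add_mod (q * q') m
        rw [hq'] at this
        exact this.symm
      rw [h1, pow_add, pow_mul, hx, one_pow, one_mul, pow_one]
  · interval_cases m
    · rw [Nat.coprime_zero_right] at hqm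
      exact ⟨x, by rw [pow_zero], by rw [hqm, pow_one]⟩
    · rw [pow_one] at hx
      exact ⟨1, by rw [one_pow], by rw [one_pow, hx]⟩

/-- `Sm (h - c)`, `c ^ m = 1`, `c` integral ⟹ `Sm (h ^ m - 1)`. -/
theorem h11t_small_pow {F : Type*} [Field F] {B : Subring F} {Int Sm : F → Prop}
    (hsm : H11aSm B Int Sm) {h c : F} (hc : Int c) (hhc : Sm (h - c)) (m : ℕ)
    (hcm : c ^ m = 1) : Sm (h ^ m - 1) := by
  have hh : Int h := by
    have e : h = (h - c) + c := by ring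
    rw [e]
    exact hsm.int_add (hsm.sm_int hhc) hc
  have h1 := (Commute.all h c).mul_geom_sum₂ m
  rw [← hcm, ← h1]
  refine hsm.sm_mul_right ?_ hhc
  refine Finset.sum_induction _ Int (fun _ _ => hsm.int_add) (hsm.sm_int hsm.sm_zero) ?_
  intro i _
  exact hsm.int_mul (hsm.int_pow hh _) (hsm.int_pow hc _)

variable (A : ValuationSubring Kbar) (M q : ℕ) [NeZero M] [NeZero q]

theorem h11t_U_one : (1 : FF (M * q * q)) ∈ h92c_U A M q :=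
  ⟨0, zero_mem _, by rw [mul_zero, add_zero]⟩

theorem h11t_U_mul {x y : FF (M * q * q)} (hx : x ∈ h92c_U A M q) (hy : y ∈ h92c_U A M q) :
    x * y ∈ h92c_U A M q := by
  obtain ⟨a, ha, rfl⟩ := hx
  obtain ⟨b, hb, rfl⟩ := hy
  refine ⟨a + b + (q : FF (M * q * q)) * (a * b), ?_, by ring⟩
  exact add_mem (add_mem ha hb) (mul_mem (natCast_mem _ q) (mul_mem ha hb))

theorem h11t_U_pow {x : FF (M * q * q)} (hx : x ∈ h92c_U A M q) (n : ℕ) :
    x ^ n ∈ h92c_U A M q := by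
  induction n with
  | zero => rw [pow_zero]; exact h11t_U_one A M q
  | succ n ih => rw [pow_succ]; exact h11t_U_mul A M q ih hx

end Aux
section IsC

variable {A : ValuationSubring Kbar}

theorem h11t_isC_mul {a b : Kbar} (ha : h11t_IsC A a) (hb : h11t_IsC A b) :
    h11t_IsC A (a * b) :=
  ⟨mul_ne_zero ha.1 hb.1, A.mul_mem _ _ ha.2.1 hb.2.1,
    by rw [mul_inv]; exact A.mul_mem _ _ ha.2.2.1 hb.2.2.1,
    fun σ hσ => by rw [map_mul, ha.2.2.2 σ hσ, hb.2.2.2 σ hσ]⟩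

theorem h11t_isC_one : h11t_IsC A 1 :=
  ⟨one_ne_zero, A.one_mem, by rw [inv_one]; exact A.one_mem, fun σ _ => map_one σ⟩

theorem h11t_isC_pow {a : Kbar} (ha : h11t_IsC A a) (n : ℕ) : h11t_IsC A (a ^ n) := by
  induction n with
  | zero => rw [pow_zero]; exact h11t_isC_one
  | succ n ih => rw [pow_succ]; exact h11t_isC_mul ih ha

theorem h11t_isC_inv {a : Kbar} (ha : h11t_IsC A a) : h11t_IsC A a⁻¹ :=
  ⟨inv_ne_zero ha.1, ha.2.2.1, by rw [inv_inv]; exact ha.2.1,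
    fun σ hσ => by rw [map_inv₀, ha.2.2.2 σ hσ]⟩

theorem h11t_isC_rs_ne_zero {a : Kbar} (ha : h11t_IsC A a) : h11t_rs A a ≠ 0 :=
  h11t_rs_ne_zero A ha.2.1 ha.2.2.1 ha.1

end IsC

section Step

variable (A : ValuationSubring Kbar) (M q : ℕ) [NeZero M] [NeZero q] (hq : q.Prime)
  (hqM : ¬ q ∣ M)

/-- **one degeneracy map at one supersingular point.** -/
theorem h11t_node_step
    (hcst : ∀ a : Kbar, a ∈ A → (∀ σ ∈ A.inertiaSubgroupIn ℚ, σ a = a) →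
      cst (M * q) a ∈ h92c_Chart A (M * q) (jB (M * q)))
    (hint : ∀ b ∈ h92c_Chart A (M * q) (jB (M * q)),
      h11t_Einf M q b ∈ softOT A (IsLocalRing.residue A) ∧
      h11t_Ezero M q hq hqM b ∈ softOT A (IsLocalRing.residue A))
    (m : ℕ) (hm : 0 < m)
    (hroot : ∀ x : FF (M * q), x ∈ h92c_F0 A (M * q) →
      x ^ m ∈ h92c_Chart A (M * q) (jB (M * q)) → x ∈ h92c_Chart A (M * q) (jB (M * q)))
    (φ : FF (M * q) →ₐ[Kbar] FF (M * q * q))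
    (𝔫 : Ideal (h92c_Chart A (M * q * q) (jB (M * q * q))))
    (𝔫' : Ideal (h92c_Chart A (M * q) (jB (M * q))))
    (hnode : h11t_NodeUnder A M q hq hqM φ 𝔫' 𝔫)
    (w ε G : FF (M * q * q)) (hG0 : G ≠ 0) (hwε : w = ε * G ^ m)
    (hNG : normAlong φ G ∈ h92c_F0 A (M * q))
    (hNε : h11t_UnitAt A (jB (M * q)) 𝔫' (normAlong φ ε))
    (g : FF (M * q)) (hgF : g ∈ h92c_F0 A (M * q)) (hNw : normAlong φ w = g ^ m)
    (ξ ξ' p p' : Kbar) (hξ : h11t_IsC A ξ) (hξ' : h11t_IsC A ξ') (hp : h11t_IsC A p)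
    (hp' : h11t_IsC A p')
    (hg : h11l_Small A (h11t_Einf M q) (g - cst (M * q) ξ))
    (hg' : h11l_Small A (h11t_Ezero M q hq hqM) (g - cst (M * q) ξ'))
    (hn : h11t_cBV A (jB (M * q)) 𝔫' (h11t_Einf M q) (normAlong φ G) p)
    (hn' : h11t_cBV A (jB (M * q)) 𝔫' (h11t_Ezero M q hq hqM) (normAlong φ G) p') :
    h11t_rs A p * h11t_rs A ξ' = h11t_rs A p' * h11t_rs A ξ := by
  obtain ⟨hmax, -, hcen, hcen'⟩ := hnode
  haveI := hmax
  have hprime : 𝔫'.IsPrime := hmax.isPrime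
  have hsm := h11t_sm A (h11t_Einf M q) (h92c_Chart A (M * q) (jB (M * q)))
    (fun b hb => (hint b hb).1)
  have hsm' := h11t_sm A (h11t_Ezero M q hq hqM) (h92c_Chart A (M * q) (jB (M * q)))
    (fun b hb => (hint b hb).2)
  have hNG0 : normAlong φ G ≠ 0 := h92c_norm_ne_zero φ hG0
  set η : FF (M * q) := g * (normAlong φ G)⁻¹ with hη
  have hηF : η ∈ h92c_F0 A (M * q) := mul_mem hgF (inv_mem hNG)
  have hηm : η ^ m = normAlong φ ε := by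
    have h1 : normAlong φ w = normAlong φ ε * normAlong φ G ^ m := by
      rw [hwε, Fermat.Agent.Red.KR.normAlong_mul, h92c_norm_pow]
    rw [hη, mul_pow, inv_pow, ← hNw, h1]
    have h2 : normAlong φ G ^ m ≠ 0 := pow_ne_zero m hNG0
    field_simp
  have hηU : h11t_UnitAt A (jB (M * q)) 𝔫' η := by
    rw [h11t_unitAt_iff]
    refine h11a_unit_of_pow (fun x => x ∈ h92c_F0 A (M * q)) ?_ ?_ m hm hroot hηF ?_
    · intro b x hx
      exact mul_mem b.2.2 hx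
    · intro x hx
      exact inv_mem hx
    · rw [hηm]
      exact hNε
  have hgη : g = η * normAlong φ G := by
    rw [hη, mul_assoc, inv_mul_cancel₀ hNG0, mul_one]
  exact h11t_node_rel A (jB (M * q)) 𝔫' (h11t_Einf M q) (h11t_Ezero M q hq hqM) hsm hsm'
    hcen hcen' hcst hηU hgη hp.2.1 hp'.2.1 hξ.2.1 hξ'.2.1 hp.2.2.2 hp'.2.2.2 hξ.2.2.2
    hξ'.2.2.2 hn hn'
    (h11t_cbv_of_small A (jB (M * q)) 𝔫' (h11t_Einf M q) (hcst ξ hξ.2.1 hξ.2.2.2) hg)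
    (h11t_cbv_of_small A (jB (M * q)) 𝔫' (h11t_Ezero M q hq hqM) (hcst ξ' hξ'.2.1 hξ'.2.2.2)
      hg')

end Step
section Main

theorem h11t_root_calc1 {F : Type*} [Field F] (s w G h : F) (t m q : ℕ) (hh : h ≠ 0) :
    s ^ t * (w ^ t * (h ^ q) ^ m * ((G ^ t * h ^ q) ^ m)⁻¹) = (s * (w * (G ^ m)⁻¹)) ^ t := by
  have hhq : (h ^ q) ^ m ≠ 0 := pow_ne_zero m (pow_ne_zero q hh)
  have e : (G ^ t) ^ m = (G ^ m) ^ t := by
    rw [← pow_mul, ← pow_mul, Nat.mul_comm]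
  rw [mul_pow (G ^ t), mul_inv, mul_pow s, mul_pow w, inv_pow, e]
  field_simp

theorem h11t_root_calc2 {F : Type*} [Field F] (s w G h : F) (t m q : ℕ) (hh : h ≠ 0) :
    s ^ t * ((G ^ t * h ^ q) ^ m * (w ^ t * (h ^ q) ^ m)⁻¹) = (s * (G ^ m * w⁻¹)) ^ t := by
  have hhq : (h ^ q) ^ m ≠ 0 := pow_ne_zero m (pow_ne_zero q hh)
  have e : (G ^ t) ^ m = (G ^ m) ^ t := by
    rw [← pow_mul, ← pow_mul, Nat.mul_comm]
  rw [mul_pow (G ^ t), mul_inv, mul_pow s, mul_pow (G ^ m), inv_pow, e]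
  field_simp

/-- the residue computation: from the graph relations to the equality of the twisted values. -/
theorem h11t_twist_res {k : Type*} [Field k] (r : ℕ) (z0 z1 z2 d0 d1 d0' d1' ρ1 ρ2 ε1 ε2 : k)
    (hz0 : z0 ≠ 0) (hz1 : z1 ≠ 0) (hz2 : z2 ≠ 0) (hd0 : d0 ≠ 0) (hd1 : d1 ≠ 0)
    (hd0' : d0' ≠ 0) (hd1' : d1' ≠ 0)
    (hα : z0 * z1 ^ r * d1 = z2 ^ (r + 1) * d0)
    (hβ : z0 ^ (r + 1) * d1' = z1 ^ r * z2 * d0')
    (hρ1 : ρ1 = (d1' * d0'⁻¹) ^ (r + 1) * (d1 * d0⁻¹)⁻¹)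
    (hρ2 : ρ2 = ((d1 * d0⁻¹) * (d1' * d0'⁻¹)) ^ r)
    (hε1 : ε1 = ρ1⁻¹) (hε2 : ε2 = ρ2⁻¹) :
    z1 ^ (r * (r + 2)) * ε1 = z0 ^ (r * (r + 2)) ∧
    z2 ^ (r * (r + 2)) * ε2 = z0 ^ (r * (r + 2)) := by
  obtain ⟨h1, h2⟩ := h11t_graph r z0 z1 z2 d0 d1 d0' d1' hz0 hz1 hz2 hd0 hd1 hd0' hd1'
    hα.symm hβ.symm
  have e1 : ρ1 = (z1 / z0) ^ (r * (r + 2)) := by
    rw [h1, hρ1, div_eq_mul_inv, div_eq_mul_inv, div_eq_mul_inv]
  have e2 : ρ2 = (z2 / z0) ^ (r * (r + 2)) := by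
    rw [h2, hρ2, div_eq_mul_inv, div_eq_mul_inv]
  have hz0t : z0 ^ (r * (r + 2)) ≠ 0 := pow_ne_zero _ hz0
  have hz1t : z1 ^ (r * (r + 2)) ≠ 0 := pow_ne_zero _ hz1
  have hz2t : z2 ^ (r * (r + 2)) ≠ 0 := pow_ne_zero _ hz2
  constructor
  · rw [hε1, e1, div_pow]
    field_simp
  · rw [hε2, e2, div_pow]
    field_simp

/-- **T-ASM.**  `H11LocTor` from the ten leaves of `S36/H11TorSkel.lean`. -/
theorem h11t_locTor_of (hB : H11TorBasic) (hR : H11TorRoot) (hP : H11TorPt)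
    (hNA : H11TorNormA) (hNB : H11TorNormB) (hU : H11TorUnit) (hNo : H11TorNormal)
    (hGl : H11TorGlob) (hTw : H11TorTwist) (hUQ : H11TorUQ) : H11LocTor := by
  intro q hq M _ hqM haux
  have : NeZero q := ⟨hq.ne_zero⟩
  intro A hA
  obtain ⟨hcst, hint2, hint1, hdiv, hμ, hnF⟩ := hB q hq M hqM haux A hA
  have hq2 : 2 ≤ q := hq.two_le
  obtain ⟨r, hr⟩ : ∃ r, q = r + 1 := ⟨q - 1, by omega⟩
  refine ⟨r * (r + 2), Nat.mul_pos (by omega) (by omega), ?_⟩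
  intro m hm w hwF hwU hnew
  have hm0 : 0 < m := Nat.pos_of_ne_zero (fun h => hm (h ▸ dvd_zero q))
  have hqm : Nat.Coprime q m := (Nat.Prime.coprime_iff_not_dvd hq).mpr hm
  have hw0 : w ≠ 0 := hnew.1
  -- roots of unity
  have rmul : ∀ x y : Kbar, x ^ m = 1 → y ^ m = 1 → (x * y) ^ m = 1 := by
    intro x y hx hy; rw [mul_pow, hx, hy, one_mul]
  have rinv : ∀ x : Kbar, x ^ m = 1 → (x⁻¹) ^ m = 1 := by
    intro x hx; rw [inv_pow, hx, inv_one]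
  have rpow : ∀ (x : Kbar) (k : ℕ), x ^ m = 1 → (x ^ k) ^ m = 1 := by
    intro x k hx; rw [← pow_mul, mul_comm, pow_mul, hx, one_pow]
  -- global roots of the norms
  obtain ⟨ga, hgaF, hga0, hNa, ξa, ξa', hξa, hξa', hga, hga'⟩ :=
    hGl q hq M hqM haux A hA m hm w hwF hwU hnew (heckeAlphaBar Kbar (M * q) q) (Or.inl rfl)
  obtain ⟨gb, hgbF, hgb0, hNb, ξb, ξb', hξb, hξb', hgb, hgb'⟩ :=
    hGl q hq M hqM haux A hA m hm w hwF hwU hnew (heckeBetaBar Kbar (M * q) q) (Or.inr rfl)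
  have hCa : h11t_IsC A ξa := hμ m ξa hm hξa
  have hCa' : h11t_IsC A ξa' := hμ m ξa' hm hξa'
  have hCb : h11t_IsC A ξb := hμ m ξb hm hξb
  have hCb' : h11t_IsC A ξb' := hμ m ξb' hm hξb'
  -- the twist constants
  set A1 : Kbar := (ξb' * ξb⁻¹) ^ (r + 1) * (ξa' * ξa⁻¹)⁻¹ with hA1
  set A2 : Kbar := ((ξa' * ξa⁻¹) * (ξb' * ξb⁻¹)) ^ r with hA2
  have hA1m : A1⁻¹ ^ m = 1 :=
    rinv _ (rmul _ _ (rpow _ _ (rmul _ _ hξb' (rinv _ hξb)))
      (rinv _ (rmul _ _ hξa' (rinv _ hξa))))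
  have hA2m : A2⁻¹ ^ m = 1 :=
    rinv _ (rpow _ _ (rmul _ _ (rmul _ _ hξa' (rinv _ hξa)) (rmul _ _ hξb' (rinv _ hξb))))
  obtain ⟨e1, he1m, he1q⟩ := h11t_exists_root q m hqm A1⁻¹ hA1m
  obtain ⟨e2, he2m, he2q⟩ := h11t_exists_root q m hqm A2⁻¹ hA2m
  have hCe1 : h11t_IsC A e1 := hμ m e1 hm he1m
  have hCe2 : h11t_IsC A e2 := hμ m e2 hm he2m
  obtain ⟨h, hhF, hh0, hh20, hh11, hh02⟩ :=
    hTw q hq M hqM haux A hA m hm e1 e2 he1m he2m
  -- the calculus structures of the vertical embeddings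
  have hsmE : ∀ E : FF (M * q * q) →+* LaurentSeries Kbar, h11l_IsVE M q hq hqM E →
      H11aSm (h92c_Chart A (M * q * q) (jB (M * q * q))) (h11t_Int A E) (h11l_Small A E) :=
    fun E hE => h11t_sm A E _ (fun b hb => hint2 b hb E hE)
  have hcst2 : ∀ a : Kbar, a ∈ A → (∀ σ ∈ A.inertiaSubgroupIn ℚ, σ a = a) →
      cst (M * q * q) a ∈ h92c_Chart A (M * q * q) (jB (M * q * q)) :=
    fun a ha haI => (hcst a ha haI).1
  have hcst1 : ∀ a : Kbar, a ∈ A → (∀ σ ∈ A.inertiaSubgroupIn ℚ, σ a = a) →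
      cst (M * q) a ∈ h92c_Chart A (M * q) (jB (M * q)) :=
    fun a ha haI => (hcst a ha haI).2
  have hcstC : ∀ a : Kbar, h11t_IsC A a →
      cst (M * q * q) a ∈ h92c_Chart A (M * q * q) (jB (M * q * q)) :=
    fun a ha => hcst2 a ha.2.1 ha.2.2.2
  -- `h ≡ e` along `E` for the constant `e` attached to `E`
  have hhE : ∀ E : FF (M * q * q) →+* LaurentSeries Kbar, h11l_IsVE M q hq hqM E →
      ∃ e : Kbar, e ^ m = 1 ∧ h11l_Small A E (h - cst (M * q * q) e) := by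
    intro E hE
    rcases hE with rfl | ⟨ζ, hζ, hE⟩ | hE
    · refine ⟨1, one_pow m, ?_⟩
      have : cst (M * q * q) 1 = 1 := map_one _
      rw [this]
      exact hh20
    · exact ⟨e1, he1m, hh11 ζ E hζ hE⟩
    · exact ⟨e2, he2m, hh02 E hE⟩
  refine ⟨h ^ q, pow_mem hhF q, pow_ne_zero q hh0, ?_, ?_⟩
  · -- `w ^ t * (h ^ q) ^ m ∈ 1 + q V₀`
    refine h11t_U_mul A M q (h11t_U_pow A M q hwU _) ?_
    have e : (h ^ q) ^ m = (1 + (h ^ m - 1)) ^ q := by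
      rw [add_sub_cancel, ← pow_mul, ← pow_mul, Nat.mul_comm q m]
    rw [e]
    refine hUQ q hq M hqM haux A hA _ (sub_mem (pow_mem hhF m) (one_mem _)) ?_
    intro E hE
    obtain ⟨e, hem, hhe⟩ := hhE E hE
    have hCe : h11t_IsC A e := hμ m e hm hem
    refine h11t_small_pow (hsmE E hE) (c := cst (M * q * q) e) ?_ hhe m ?_
    · exact hint2 _ (hcstC e hCe) E hE
    · show (algebraMap Kbar (FF (M * q * q)) e) ^ m = 1
      rw [← map_pow, hem, map_one]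
  · -- the supersingular points
    intro 𝔫 h𝔫 hq𝔫 hnot
    have hprime : 𝔫.IsPrime := h𝔫.isPrime
    have hSS : h11t_IsSS A M q 𝔫 := ⟨h𝔫, hq𝔫, hnot⟩
    obtain ⟨G, hGroot, a0, a1, a2, hC0, hC1, hC2, hBV0, hBV1, hBV2⟩ :=
      hR q hq M hqM haux A hA m hm w hw0 hwF hwU hnew.2.1 𝔫 hSS
    obtain ⟨⟨𝔫a, hna⟩, ⟨𝔫b, hnb⟩⟩ := hP q hq M hqM haux A hA 𝔫 hSS
    obtain ⟨hGF, hG0, s, hs, hs1, hs2⟩ := hGroot
    have hGm0 : G ^ m ≠ 0 := pow_ne_zero m hG0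
    set ε : FF (M * q * q) := w * (G ^ m)⁻¹ with hε
    have hε0 : ε ≠ 0 := mul_ne_zero hw0 (inv_ne_zero hGm0)
    have hεF : ε ∈ h92c_F0 A (M * q * q) := mul_mem hwF (inv_mem (pow_mem hGF m))
    have hεinv : ε⁻¹ = G ^ m * w⁻¹ := by
      rw [hε, mul_inv, inv_inv, mul_comm w⁻¹ (G ^ m)]
    have hεU : h11t_UnitAt A (jB (M * q * q)) 𝔫 ε :=
      ⟨hε0, s, hs, hs1, by rw [hεinv]; exact hs2⟩
    have hwε : w = ε * G ^ m := by
      rw [hε, mul_assoc w, inv_mul_cancel₀ hGm0, mul_one]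
    obtain ⟨hUa, hUb⟩ := hU q hq M hqM haux A hA 𝔫 hSS ε hεF hεU
    obtain ⟨hNGa, hNGb⟩ := hnF G hGF
    obtain ⟨hna1, hna2⟩ := hNA q hq M hqM haux A hA 𝔫 hSS 𝔫a hna G hGF a0 a1 a2 hC0 hC1 hC2
      ⟨hBV0, hBV1, hBV2⟩
    obtain ⟨hnb1, hnb2⟩ := hNB q hq M hqM haux A hA 𝔫 hSS 𝔫b hnb G hGF a0 a1 a2 hC0 hC1 hC2
      ⟨hBV0, hBV1, hBV2⟩
    have hroot := hNo q hq M hqM haux A hA m hm0
    have hq1 : q - 1 = r := by omega
    rw [hq1] at hna1 hnb2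
    have ea2 : a2 ^ q = a2 ^ (r + 1) := by rw [hr]
    have ea0 : a0 ^ q = a0 ^ (r + 1) := by rw [hr]
    rw [ea2] at hna2
    rw [ea0] at hnb1
    -- the two relations
    have hα := h11t_node_step A M q hq hqM hcst1 hint1 m hm0 hroot
      (heckeAlphaBar Kbar (M * q) q) 𝔫 𝔫a hna w ε G hG0 hwε hNGa (hUa 𝔫a hna) ga hgaF hNa
      ξa ξa' (a0 * a1 ^ r) (a2 ^ (r + 1)) hCa hCa' (h11t_isC_mul hC0 (h11t_isC_pow hC1 r))
      (h11t_isC_pow hC2 (r + 1)) hga hga' hna1 hna2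
    have hβ := h11t_node_step A M q hq hqM hcst1 hint1 m hm0 hroot
      (heckeBetaBar Kbar (M * q) q) 𝔫 𝔫b hnb w ε G hG0 hwε hNGb (hUb 𝔫b hnb) gb hgbF hNb
      ξb ξb' (a0 ^ (r + 1)) (a1 ^ r * a2) hCb hCb' (h11t_isC_pow hC0 (r + 1))
      (h11t_isC_mul (h11t_isC_pow hC1 r) hC2) hgb hgb' hnb1 hnb2
    rw [h11t_rs_mul A hC0.2.1 (pow_mem hC1.2.1 r), h11t_rs_pow A hC1.2.1,
      h11t_rs_pow A hC2.2.1] at hα
    rw [h11t_rs_pow A hC0.2.1, h11t_rs_mul A (pow_mem hC1.2.1 r) hC2.2.1,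
      h11t_rs_pow A hC1.2.1] at hβ
    -- residues of the twist constants
    have hCab : h11t_IsC A (ξa' * ξa⁻¹) := h11t_isC_mul hCa' (h11t_isC_inv hCa)
    have hCbb : h11t_IsC A (ξb' * ξb⁻¹) := h11t_isC_mul hCb' (h11t_isC_inv hCb)
    have hCA1 : h11t_IsC A A1 :=
      h11t_isC_mul (h11t_isC_pow hCbb (r + 1)) (h11t_isC_inv hCab)
    have hCA2 : h11t_IsC A A2 := h11t_isC_pow (h11t_isC_mul hCab hCbb) r
    have hrab : h11t_rs A (ξa' * ξa⁻¹) = h11t_rs A ξa' * (h11t_rs A ξa)⁻¹ := by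
      rw [h11t_rs_mul A hCa'.2.1 hCa.2.2.1, h11t_rs_inv A hCa.2.1 hCa.2.2.1 hCa.1]
    have hrbb : h11t_rs A (ξb' * ξb⁻¹) = h11t_rs A ξb' * (h11t_rs A ξb)⁻¹ := by
      rw [h11t_rs_mul A hCb'.2.1 hCb.2.2.1, h11t_rs_inv A hCb.2.1 hCb.2.2.1 hCb.1]
    have hrA1 : h11t_rs A A1 = (h11t_rs A ξb' * (h11t_rs A ξb)⁻¹) ^ (r + 1) *
        (h11t_rs A ξa' * (h11t_rs A ξa)⁻¹)⁻¹ := by
      rw [hA1, h11t_rs_mul A (pow_mem hCbb.2.1 _) hCab.2.2.1, h11t_rs_pow A hCbb.2.1,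
        h11t_rs_inv A hCab.2.1 hCab.2.2.1 hCab.1, hrab, hrbb]
    have hrA2 : h11t_rs A A2 = ((h11t_rs A ξa' * (h11t_rs A ξa)⁻¹) *
        (h11t_rs A ξb' * (h11t_rs A ξb)⁻¹)) ^ r := by
      rw [hA2, h11t_rs_pow A (h11t_isC_mul hCab hCbb).2.1,
        h11t_rs_mul A hCab.2.1 hCbb.2.1, hrab, hrbb]
    have hre1 : h11t_rs A (e1 ^ q) = (h11t_rs A A1)⁻¹ := by
      rw [he1q, h11t_rs_inv A hCA1.2.1 hCA1.2.2.1 hCA1.1]
    have hre2 : h11t_rs A (e2 ^ q) = (h11t_rs A A2)⁻¹ := by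
      rw [he2q, h11t_rs_inv A hCA2.2.1 hCA2.2.2.1 hCA2.1]
    obtain ⟨hres1, hres2⟩ := h11t_twist_res r (h11t_rs A a0) (h11t_rs A a1) (h11t_rs A a2)
      (h11t_rs A ξa) (h11t_rs A ξa') (h11t_rs A ξb) (h11t_rs A ξb') (h11t_rs A A1)
      (h11t_rs A A2) (h11t_rs A (e1 ^ q)) (h11t_rs A (e2 ^ q))
      (h11t_isC_rs_ne_zero hC0) (h11t_isC_rs_ne_zero hC1) (h11t_isC_rs_ne_zero hC2)
      (h11t_isC_rs_ne_zero hCa) (h11t_isC_rs_ne_zero hCa') (h11t_isC_rs_ne_zero hCb)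
      (h11t_isC_rs_ne_zero hCb') hα hβ hrA1 hrA2 hre1 hre2
    -- the local root of the twisted function
    set t : ℕ := r * (r + 2) with ht
    have hRoot : h11l_RootAt A (jB (M * q * q)) 𝔫 m (w ^ t * (h ^ q) ^ m) (G ^ t * h ^ q) := by
      refine ⟨mul_mem (pow_mem hGF t) (pow_mem hhF q),
        mul_ne_zero (pow_ne_zero t hG0) (pow_ne_zero q hh0), s ^ t,
        fun h' => hs (hprime.mem_of_pow_mem t h'), ?_, ?_⟩
      · have e : ((s ^ t : h92c_Chart A (M * q * q) (jB (M * q * q))) : FF (M * q * q)) *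
            (w ^ t * (h ^ q) ^ m * ((G ^ t * h ^ q) ^ m)⁻¹) =
            ((s : FF (M * q * q)) * (w * (G ^ m)⁻¹)) ^ t := by
          rw [SubmonoidClass.coe_pow]
          exact h11t_root_calc1 _ w G h t m q hh0
        rw [e]
        exact pow_mem hs1 t
      · have e : ((s ^ t : h92c_Chart A (M * q * q) (jB (M * q * q))) : FF (M * q * q)) *
            ((G ^ t * h ^ q) ^ m * (w ^ t * (h ^ q) ^ m)⁻¹) =
            ((s : FF (M * q * q)) * (G ^ m * w⁻¹)) ^ t := by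
          rw [SubmonoidClass.coe_pow]
          exact h11t_root_calc2 _ w G h t m q hh0
        rw [e]
        exact pow_mem hs2 t
    -- the common branch value
    have hCc : h11t_IsC A (a0 ^ t) := h11t_isC_pow hC0 t
    have hkey : ∀ E : FF (M * q * q) →+* LaurentSeries Kbar, h11l_IsVE M q hq hqM E →
        h11t_cBV A (jB (M * q * q)) 𝔫 E (G ^ t * h ^ q) (a0 ^ t) := by
      intro E hE
      have hsm := hsmE E hE
      have key : ∀ (a e : Kbar), h11t_IsC A a → h11t_IsC A e →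
          h11t_cBV A (jB (M * q * q)) 𝔫 E G a →
          h11l_Small A E (h - cst (M * q * q) e) →
          h11t_rs A (a ^ t) * h11t_rs A (e ^ q) = h11t_rs A (a0 ^ t) →
          h11t_cBV A (jB (M * q * q)) 𝔫 E (G ^ t * h ^ q) (a0 ^ t) := by
        intro a e hCa hCe hGa hhe hres
        have h1 := h11t_cbv_pow A (jB (M * q * q)) 𝔫 E hsm hGa t
        have h2 := h11t_cbv_pow A (jB (M * q * q)) 𝔫 E hsm
          (h11t_cbv_of_small A (jB (M * q * q)) 𝔫 E (hcstC e hCe) hhe) q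
        have h3 := h11t_cbv_mul A (jB (M * q * q)) 𝔫 E hsm h1 h2
        have hCprod : h11t_IsC A (a ^ t * e ^ q) :=
          h11t_isC_mul (h11t_isC_pow hCa t) (h11t_isC_pow hCe q)
        refine h11t_cbv_congr A (jB (M * q * q)) 𝔫 E q hq𝔫 hcst2 hdiv hCprod.2.1
          hCprod.2.2.2 hCc.2.1 hCc.2.2.2 ?_ h3
        rw [h11t_rs_mul A (pow_mem hCa.2.1 t) (pow_mem hCe.2.1 q)]
        exact hres
      rcases hE with rfl | ⟨ζ, hζ, hE⟩ | hE
      · refine key a0 1 hC0 h11t_isC_one hBV0 ?_ ?_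
        · have : cst (M * q * q) 1 = 1 := map_one _
          rw [this]
          exact hh20
        · rw [one_pow, h11t_rs_one, mul_one]
      · refine key a1 e1 hC1 hCe1 (hBV1 ζ E hζ hE) (hh11 ζ E hζ hE) ?_
        rw [h11t_rs_pow A hC1.2.1, h11t_rs_pow A hC0.2.1]
        exact hres1
      · refine key a2 e2 hC2 hCe2 (hBV2 E hE) (hh02 E hE) ?_
        rw [h11t_rs_pow A hC2.2.1, h11t_rs_pow A hC0.2.1]
        exact hres2
    refine ⟨G ^ t * h ^ q, hRoot, ⟨cst (M * q * q) (a0 ^ t), hcstC _ hCc⟩, ?_, ?_⟩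
    · -- the value is a unit of the chart
      intro hmem
      have hCi := h11t_isC_inv hCc
      have h1 : (⟨cst (M * q * q) (a0 ^ t), hcstC _ hCc⟩ :
          h92c_Chart A (M * q * q) (jB (M * q * q))) *
          ⟨cst (M * q * q) (a0 ^ t)⁻¹, hcstC _ hCi⟩ = 1 := by
        apply Subtype.ext
        rw [Subring.coe_mul]
        show algebraMap Kbar (FF (M * q * q)) (a0 ^ t) *
          algebraMap Kbar (FF (M * q * q)) (a0 ^ t)⁻¹ = _
        rw [← map_mul, mul_inv_cancel₀ hCc.1, map_one]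
        rfl
      have h2 : (1 : h92c_Chart A (M * q * q) (jB (M * q * q))) ∈ 𝔫 := by
        rw [← h1]
        exact 𝔫.mul_mem_right _ hmem
      exact (Ideal.ne_top_iff_one 𝔫).mp hprime.ne_top h2
    · intro E hE _
      obtain ⟨c, hc, hbv⟩ := hkey E hE
      have : c = ⟨cst (M * q * q) (a0 ^ t), hcstC _ hCc⟩ := Subtype.ext hc
      rw [← this]
      exact hbv

end Main
end Fermat.Agent.S36
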