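import Fermat.Agent.S36.H11TorNorm

/-!
# S36, block TOR (helper11): trivial classes have constant branch values; normality at the node

Mathlib only (through `H11TorNorm.lean`).  Interface: finding #1065, items (TN4a), (TN4b).

* `h11t_root_of_pow` : `V ≤ F` a subring, `M` a prime ideal of `V` (as an additive subgroup of
  `F`), `ζ` a primitive `m`-th root of unity of `F` whose powers lie in `V`.  If
  `g ^ m ≡ d ^ m` modulo `M` (`g, d ∈ V`) then `g ≡ ξ d` modulo `M` for an `m`-th root of unity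
  `ξ`.
* `h11t_bval_const` : **(TN4b)** if `c g ^ m ∈ 1 + M` and `c d ^ m ∈ 1 + M` for a constant `d`
  (`d ∈ O` for the local ring `O` of every node), then `g` has the branch value `res (ξ d)`
  along `M` at every node: the branch values of `g` are independent of the node.
* `h11t_unit_of_pow` : **(TN4a)** if `x ^ m ∈ O ⟹ x ∈ O` (normality), then `h ^ m ∈ Oˣ`
  implies `h ∈ Oˣ`.
* `h11t_root_loc` : the normality `x ^ m ∈ O ⟹ x ∈ O` of a localisation `O = B_𝔫` from the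
  normality of the chart `B`.
-/

set_option autoImplicit false

open Polynomial

namespace Fermat.Agent.S36

section Root

variable {F : Type*} [Field F]

/-- a finite product of elements of `V` which lies in the prime `M` has a factor in `M`. -/
theorem h11t_prod_mem {ι : Type*} (V : Subring F) (M : AddSubgroup F)
    (hprime : ∀ x ∈ V, ∀ y ∈ V, x * y ∈ M → x ∈ M ∨ y ∈ M) (h1 : (1 : F) ∉ M)
    (s : Finset ι) (f : ι → F) (hf : ∀ i ∈ s, f i ∈ V) (h : ∏ i ∈ s, f i ∈ M) :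
    ∃ i ∈ s, f i ∈ M := by
  classical
  induction s using Finset.induction_on with
  | empty =>
    rw [Finset.prod_empty] at h
    exact absurd h h1
  | insert a s ha ih =>
    rw [Finset.prod_insert ha] at h
    have hfa : f a ∈ V := hf a (Finset.mem_insert_self a s)
    have hfs : ∀ i ∈ s, f i ∈ V := fun i hi => hf i (Finset.mem_insert_of_mem hi)
    rcases hprime _ hfa _ (Subring.prod_mem V hfs) h with h' | h'
    · exact ⟨a, Finset.mem_insert_self a s, h'⟩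
    · obtain ⟨i, hi, hi'⟩ := ih hfs h'
      exact ⟨i, Finset.mem_insert_of_mem hi, hi'⟩

/-- **roots modulo a prime**: `g ^ m ≡ d ^ m` modulo `M` implies `g ≡ ξ d` modulo `M` for an
`m`-th root of unity `ξ`. -/
theorem h11t_root_of_pow (V : Subring F) (M : AddSubgroup F)
    (hprime : ∀ x ∈ V, ∀ y ∈ V, x * y ∈ M → x ∈ M ∨ y ∈ M) (h1 : (1 : F) ∉ M)
    (m : ℕ) (hm : 0 < m) (ζ : F) (hζ : IsPrimitiveRoot ζ m)
    (hroots : ∀ ξ : F, ξ ^ m = 1 → ξ ∈ V)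
    (g d : F) (hg : g ∈ V) (hd : d ∈ V) (h : g ^ m - d ^ m ∈ M) :
    ∃ ξ : F, ξ ^ m = 1 ∧ g - ξ * d ∈ M := by
  classical
  have : NeZero m := ⟨hm.ne'⟩
  rw [hζ.pow_sub_pow_eq_prod_sub_mul g d hm] at h
  have hmem : ∀ ξ ∈ nthRootsFinset m (1 : F), ξ ^ m = 1 := fun ξ hξ =>
    (mem_nthRootsFinset hm 1).mp hξ
  obtain ⟨ξ, hξ, hξM⟩ := h11t_prod_mem V M hprime h1 (nthRootsFinset m (1 : F))
    (fun ξ => g - ξ * d)
    (fun ξ hξ => V.sub_mem hg (V.mul_mem (hroots ξ (hmem ξ hξ)) hd)) h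
  exact ⟨ξ, hmem ξ hξ, hξM⟩

/-- **(TN4b)** a function `g ∈ V` with `c g ^ m ≡ 1` modulo the prime `M`, where
`c d ^ m ≡ 1` for a constant `d`, is congruent modulo `M` to the constant `ξ d`, `ξ ^ m = 1`. -/
theorem h11t_const_of_pow (V : Subring F) (M : AddSubgroup F)
    (hVM : ∀ v ∈ V, ∀ x ∈ M, v * x ∈ M)
    (hprime : ∀ x ∈ V, ∀ y ∈ V, x * y ∈ M → x ∈ M ∨ y ∈ M) (h1 : (1 : F) ∉ M)
    (m : ℕ) (hm : 0 < m) (ζ : F) (hζ : IsPrimitiveRoot ζ m)
    (hroots : ∀ ξ : F, ξ ^ m = 1 → ξ ∈ V)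
    (c g d : F) (hc : c ∈ V) (hg : g ∈ V) (hd : d ∈ V)
    (hcg : c * g ^ m - 1 ∈ M) (hcd : c * d ^ m - 1 ∈ M) :
    ∃ ξ : F, ξ ^ m = 1 ∧ g - ξ * d ∈ M := by
  -- `c (g ^ m - d ^ m) ∈ M` and `c ∉ M`
  have h2 : c * (g ^ m - d ^ m) ∈ M := by
    have : c * (g ^ m - d ^ m) = (c * g ^ m - 1) - (c * d ^ m - 1) := by ring
    rw [this]
    exact M.sub_mem hcg hcd
  have hcM : c ∉ M := by
    intro hcM
    apply h1
    have h3 : c * g ^ m ∈ M := by
      rw [mul_comm]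
      exact hVM _ (V.pow_mem hg m) _ hcM
    have : (1 : F) = c * g ^ m - (c * g ^ m - 1) := by ring
    rw [this]
    exact M.sub_mem h3 hcg
  have h3 : g ^ m - d ^ m ∈ M :=
    (hprime c hc _ (V.sub_mem (V.pow_mem hg m) (V.pow_mem hd m)) h2).resolve_left hcM
  exact h11t_root_of_pow V M hprime h1 m hm ζ hζ hroots g d hg hd h3

end Root

section BVal

variable {F : Type*} [Field F] {k : Type*} [Field k]

/-- **(TN4b), branch value form.**  Under the hypotheses of `h11t_const_of_pow`, there is a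
constant `e` (`= ξ d`) such that `g ≡ e` modulo `M`; hence at every node whose local ring `O`
contains the constant `e`, the branch value of `g` along `M` is `res e`. -/
theorem h11t_bval_const (V : Subring F) (M : AddSubgroup F)
    (hVM : ∀ v ∈ V, ∀ x ∈ M, v * x ∈ M)
    (hprime : ∀ x ∈ V, ∀ y ∈ V, x * y ∈ M → x ∈ M ∨ y ∈ M) (h1 : (1 : F) ∉ M)
    (m : ℕ) (hm : 0 < m) (ζ : F) (hζ : IsPrimitiveRoot ζ m)
    (hroots : ∀ ξ : F, ξ ^ m = 1 → ξ ∈ V)
    (c g d : F) (hc : c ∈ V) (hg : g ∈ V) (hd : d ∈ V)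
    (hcg : c * g ^ m - 1 ∈ M) (hcd : c * d ^ m - 1 ∈ M) :
    ∃ e : F, (∃ ξ : F, ξ ^ m = 1 ∧ e = ξ * d) ∧ g - e ∈ M ∧
      ∀ (O : Subring F) (res : O →+* k) (he : e ∈ O),
        h11t_BVal O res M g (res ⟨e, he⟩) := by
  obtain ⟨ξ, hξ, hgξ⟩ := h11t_const_of_pow V M hVM hprime h1 m hm ζ hζ hroots c g d hc hg hd
    hcg hcd
  exact ⟨ξ * d, ⟨ξ, hξ, rfl⟩, hgξ, fun O res he => ⟨⟨ξ * d, he⟩, rfl, hgξ⟩⟩

end BVal

section Normal

variable {F : Type*} [Field F]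

/-- **(TN4a)** in a subring `O` of a field which contains the `m`-th roots of its elements
(normality), `h ^ m ∈ Oˣ` implies `h ∈ Oˣ`, in the form `h ∈ O ∧ h⁻¹ ∈ O`. -/
theorem h11t_unit_of_pow (O : Subring F) (m : ℕ)
    (hroot : ∀ x : F, x ^ m ∈ O → x ∈ O) (h : F)
    (hh : h ^ m ∈ O) (hh' : (h ^ m)⁻¹ ∈ O) : h ∈ O ∧ h⁻¹ ∈ O :=
  ⟨hroot h hh, hroot h⁻¹ (by rw [inv_pow]; exact hh')⟩

/-- the normality of a localisation `O = {x | ∃ s ∈ B ∖ 𝔫, s x ∈ B}` of a chart `B` with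
`x ^ m ∈ B ⟹ x ∈ B`. -/
theorem h11t_root_loc (B : Subring F) (𝔫 : Ideal B) (m : ℕ) (hm : 0 < m)
    (hroot : ∀ x : F, x ^ m ∈ B → x ∈ B) (x : F)
    (hx : ∃ s : B, s ∉ 𝔫 ∧ (s : F) * x ^ m ∈ B) :
    ∃ s : B, s ∉ 𝔫 ∧ (s : F) * x ∈ B := by
  obtain ⟨s, hs, hsx⟩ := hx
  refine ⟨s, hs, hroot _ ?_⟩
  obtain ⟨n, rfl⟩ : ∃ n, m = n + 1 := ⟨m - 1, by omega⟩
  have : ((s : F) * x) ^ (n + 1) = (s : F) ^ n * ((s : F) * x ^ (n + 1)) := by
    rw [mul_pow, pow_succ (s : F)]; ring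
  rw [this]
  exact B.mul_mem (B.pow_mem s.2 n) hsx

end Normal

end Fermat.Agent.S36
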