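import Fermat.Agent.S36.H11TorSkel
import Fermat.Agent.S36.H62L1Iface
import Fermat.Agent.LGC.SSV44
import Fermat.Agent.LGC.Res44
import Fermat.Agent.Red.BC.Main
import Fermat.Agent.Red.BC.Asm46
import Fermat.Agent.Red.ModelO.ValCrit
import Fermat.Prelude.Thm_ModularCurve_coeff_jqModC_pow_self

/-!
# S36, row T-UNIT (helper12, prefix `h12v_`): a point of level `M q` through which both
components pass is a node

`B₁ = h62rChart A (M q) (jSS M q)` (the chart over `A₀` of level `M q`), `𝔫₁` a prime ideal.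

* `h12v_small_*` : calculus of `h11l_Small` (Gauss-small at a `q`-expansion embedding).
* `h12v_chart_soft` : the functions of the chart are Gauss-integral along `E_∞` and `E_0`.
* `h12v_X_not_small` : `α j - (β j) ^ q = j(t) - j(t^q)^q` is not Gauss-small along `E_∞`
  (its reduction has the coefficient `-1` at `t^(-q²)`).
* `h12v_not_inf`, `h12v_not_zero` : if `E_0` (resp. `E_∞`) is centred at `𝔫₁` then the first
  clause of `H62InfDatum` (resp. `H62ZeroDatum`) fails at `𝔫₁`.
* `h12v_node_of_centred` : under `H62L1`, a closed point `𝔫₁` at which both `E_∞` and `E_0` are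
  centred carries `H62NodeDatum`.
-/

set_option autoImplicit false
set_option linter.style.haveILetI false
set_option linter.unusedSectionVars false

open AlgebraicCurve ModularCurve IsLocalRing

noncomputable section

namespace Fermat.Agent.S36

open Fermat.Agent.S37 (Kbar GQ FF cst jB gal modelAt modelFin auxLevel IsRat)
open Fermat.Agent.Red.Kron (kFricke kFricke_alpha kFricke_beta kFricke_kFricke)
open Fermat.Agent.Red.GV Fermat.Agent.Red.GV.Soft
open Fermat.Agent.LGC (jSS ssV)

/-! ## Calculus of `h11l_Small` -/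

section Small

variable (A : ValuationSubring Kbar) {N : ℕ} (E : FF N →+* LaurentSeries Kbar)

theorem h12v_small_iff {x : FF N} (hx : E x ∈ softOT A (residue A)) :
    h11l_Small A E x ↔ softRedT A (residue A) ⟨E x, hx⟩ = 0 :=
  ⟨fun ⟨_, h⟩ => h, fun h => ⟨hx, h⟩⟩

/-- the reduction of the prime below `A` vanishes. -/
theorem h12v_red_natCast {q : ℕ} (hA : A.LiesOverPrime q) :
    softRedT A (residue A) ((q : ℕ) : softOT A (residue A)) = 0 := by
  rw [map_natCast]
  have h1 : ((q : ℕ) : ResidueField A) = 0 := by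
    have h2 : residue A ((q : ℕ) : A) = 0 := by
      rw [IsLocalRing.residue_eq_zero_iff, ← ValuationSubring.coe_mem_nonunits_iff]
      exact hA
    rwa [map_natCast] at h2
  have h3 : ((q : ℕ) : LaurentSeries (ResidueField A)) =
      HahnSeries.C ((q : ℕ) : ResidueField A) := (map_natCast HahnSeries.C q).symm
  rw [h3, h1, map_zero]

/-- a multiple of `q` by a Gauss-integral function is Gauss-small. -/
theorem h12v_small_q_mul {q : ℕ} (hA : A.LiesOverPrime q) {c : FF N}
    (hc : E c ∈ softOT A (residue A)) : h11l_Small A E ((q : FF N) * c) := by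
  have h1 : E ((q : FF N) * c) =
      ((((q : ℕ) : softOT A (residue A)) * ⟨E c, hc⟩ : softOT A (residue A)) :
        LaurentSeries Kbar) := by
    rw [map_mul, map_natCast]
    rfl
  have h2 : E ((q : FF N) * c) ∈ softOT A (residue A) := by
    rw [h1]
    exact Subtype.property _
  refine ⟨h2, ?_⟩
  have h3 : (⟨E ((q : FF N) * c), h2⟩ : softOT A (residue A)) =
      ((q : ℕ) : softOT A (residue A)) * ⟨E c, hc⟩ := Subtype.ext h1
  rw [h3, map_mul, h12v_red_natCast A hA, zero_mul]

/-- the Gauss-small functions form a prime: if `s y` is small and `y` is not, `s` is. -/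
theorem h12v_small_of_mul {s y : FF N} (hs : E s ∈ softOT A (residue A))
    (hy : E y ∈ softOT A (residue A)) (hsy : h11l_Small A E (s * y))
    (hy0 : ¬ h11l_Small A E y) : h11l_Small A E s := by
  obtain ⟨h, h0⟩ := hsy
  have h3 : (⟨E (s * y), h⟩ : softOT A (residue A)) = ⟨E s, hs⟩ * ⟨E y, hy⟩ :=
    Subtype.ext (map_mul E s y)
  rw [h3, map_mul] at h0
  rcases mul_eq_zero.mp h0 with h1 | h1
  · exact ⟨hs, h1⟩
  · exact absurd ⟨hy, h1⟩ hy0

end Small

/-! ## The series `j(t) - j(t^q)^q` -/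

section Series

variable (A : ValuationSubring Kbar) (q : ℕ) [NeZero q]

/-- the integral model of `j(t) - j(t^q)^q`. -/
def h12vY : LaurentSeries A := jqModC A - (qExpand A q (jqModC A)) ^ q

theorem h12v_embA_Y :
    embA A (h12vY A q) = jK Kbar - (qExpand Kbar q (jK Kbar)) ^ q := by
  have h1 : embA A (jqModC A) = jK Kbar := coeffMap_jqModC A.subtype
  rw [h12vY, map_sub, map_pow, soft_embA_qExpand, h1]

theorem h12v_redA_Y :
    redA (residue A) (h12vY A q) =
      jqModC (ResidueField A) - (qExpand (ResidueField A) q (jqModC (ResidueField A))) ^ q := by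
  have h1 : redA (residue A) (jqModC A) = jqModC (ResidueField A) :=
    coeffMap_jqModC (residue A)
  rw [h12vY, map_sub, map_pow, soft_redA_qExpand, h1]

theorem h12v_redA_Y_ne_zero (hq : q.Prime) : redA (residue A) (h12vY A q) ≠ 0 := by
  intro h0
  have h1 := congrArg (fun f : LaurentSeries (ResidueField A) => f.coeff (-((q : ℤ) * q))) h0
  simp only [h12v_redA_Y, HahnSeries.coeff_sub, HahnSeries.coeff_zero] at h1
  have hq2 : (2 : ℤ) ≤ q := by exact_mod_cast hq.two_le
  have h2 : (jqModC (ResidueField A)).coeff (-((q : ℤ) * q)) = 0 := by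
    apply coeff_jqModC_of_lt
    nlinarith
  have h3 : ((qExpand (ResidueField A) q (jqModC (ResidueField A))) ^ q).coeff
      (-((q : ℤ) * q)) = 1 := by
    rw [← map_pow, show -((q : ℤ) * q) = (q : ℤ) * (-(q : ℤ)) by ring, qExpand_coeff_mul]
    exact coeff_jqModC_pow_self (ResidueField A) q
  rw [h2, h3] at h1
  norm_num at h1

end Series

/-! ## Level `M q` -/

section Level

variable (A : ValuationSubring Kbar) (M : ℕ) {q : ℕ} [NeZero M] [NeZero q]

/-- the functions of the chart of level `M q` are Gauss-integral along `E_∞` and `E_0`. -/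
theorem h12v_chart_soft (hq : q.Prime) (hM : ¬ q ∣ M) (hA : A.LiesOverPrime q)
    {b : FF (M * q)} (hb : b ∈ modelAt (M * q) A (jSS M q)) :
    h11t_Einf M q b ∈ softOT A (residue A) ∧ h11t_Ezero M q hq hM b ∈ softOT A (residue A) :=
  (Fermat.Agent.LGC.h44r_mem_ssV_iff A M q hq hM hA b).mp
    (Fermat.Agent.LGC.h44v_hBV_fin A M q hq hM hA b hb)

/-- `X = α j - (β j) ^ q`. -/
def h12vX : FF (M * q) :=
  heckeAlphaBar Kbar M q (jB M) - (heckeBetaBar Kbar M q (jB M)) ^ q

theorem h12v_coe_X :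
    ((h12vX M (q := q) : FF (M * q)) : LaurentSeries Kbar) =
      jK Kbar - (qExpand Kbar q (jK Kbar)) ^ q := by
  have h1 : ((heckeAlphaBar Kbar M q (jB M) : FF (M * q)) : LaurentSeries Kbar) = jK Kbar := by
    rw [coe_heckeAlphaBar]
    exact Fermat.Agent.Red.BC.h58_coe_jB M
  have h2 : ((heckeBetaBar Kbar M q (jB M) : FF (M * q)) : LaurentSeries Kbar) =
      qExpand Kbar q (jK Kbar) := by
    rw [coe_heckeBetaBar]
    exact congrArg _ (Fermat.Agent.Red.BC.h58_coe_jB M)
  show ((heckeAlphaBar Kbar M q (jB M) : FF (M * q)) : LaurentSeries Kbar) -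
    ((heckeBetaBar Kbar M q (jB M) : FF (M * q)) : LaurentSeries Kbar) ^ q = _
  rw [h1, h2]

/-- **`j(t) - j(t^q)^q` is not Gauss-small.** -/
theorem h12v_X_not_small (hq : q.Prime) : ¬ h11l_Small A (h11t_Einf M q) (h12vX M (q := q)) := by
  rintro ⟨h, h0⟩
  have h1 : embA A (h12vY A q) =
      ((⟨h11t_Einf M q (h12vX M (q := q)), h⟩ : softOT A (residue A)) : LaurentSeries Kbar) := by
    rw [h12v_embA_Y]
    exact (h12v_coe_X M).symm
  rw [softRedT_of_embA _ _ h1] at h0
  exact h12v_redA_Y_ne_zero A q hq h0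

theorem h12v_small_congr {N N' : ℕ} {E : FF N →+* LaurentSeries Kbar}
    {E' : FF N' →+* LaurentSeries Kbar} {x : FF N} {x' : FF N'} (h : E x = E' x') :
    h11l_Small A E x ↔ h11l_Small A E' x' := by
  unfold h11l_Small
  rw [h]

/-- `j` as an element of the chart over `A₀` of level `M`. -/
def h12vJ : h62rChart A M (jB M) :=
  ⟨jB M, Fermat.Agent.Red.ModelO.h85_self_mem_modelAt M A (jB M),
    fun σ _ => Fermat.Agent.S37.GalI.gal_smul_jB σ⟩

theorem h12v_coe_J : ((h12vJ A M : h62rChart A M (jB M)) : FF M) = jB M := rfl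

theorem h12v_isRat_J : IsRat ((h12vJ A M : h62rChart A M (jB M)) : FF M) :=
  Fermat.Agent.Red.BC.h46b_isRat_jB M

variable {A M}

/-- the key step: if `s X'` is a multiple of `q` in the chart, `X'` is not small along `E` and
`E` is centred at the prime `𝔫₁`, then `s ∈ 𝔫₁`. -/
theorem h12v_mem_of_mul (hA : A.LiesOverPrime q)
    (𝔫₁ : Ideal (h62rChart A (M * q) (jSS M q)))
    (E : FF (M * q) →+* LaurentSeries Kbar)
    (hE : ∀ b : FF (M * q), b ∈ modelAt (M * q) A (jSS M q) → E b ∈ softOT A (residue A))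
    (hcen : h11l_Centred A (jSS M q) 𝔫₁ E)
    (s y : h62rChart A (M * q) (jSS M q))
    (hy : ¬ h11l_Small A E (y : FF (M * q)))
    (hsy : s * y ∈ Ideal.span {(q : h62rChart A (M * q) (jSS M q))}) : s ∈ 𝔫₁ := by
  obtain ⟨c, hc⟩ := Ideal.mem_span_singleton'.mp hsy
  have h1 : (s : FF (M * q)) * (y : FF (M * q)) = (q : FF (M * q)) * (c : FF (M * q)) := by
    have h2 := congrArg (fun z : h62rChart A (M * q) (jSS M q) => (z : FF (M * q))) hc
    simp only [Subring.coe_mul, Subring.coe_natCast] at h2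
    rw [← h2]
    exact mul_comm _ _
  have h3 : h11l_Small A E ((s : FF (M * q)) * (y : FF (M * q))) := by
    rw [h1]
    exact h12v_small_q_mul A E hA (hE _ c.2.1)
  exact hcen s (h12v_small_of_mul A E (hE _ s.2.1) (hE _ y.2.1) h3 hy)

/-- a point at which `E_0` is centred is not a smooth point of `C_∞`. -/
theorem h12v_not_inf (hq : q.Prime) (hM : ¬ q ∣ M) (hA : A.LiesOverPrime q)
    (𝔫₁ : Ideal (h62rChart A (M * q) (jSS M q)))
    (hcen : h11l_Centred A (jSS M q) 𝔫₁ (h11t_Ezero M q hq hM)) :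
    ¬ H62InfDatum A M hq hM hA 𝔫₁ := by
  rintro ⟨h1, -⟩
  obtain ⟨s, hs, hsy⟩ := h1 (h12vJ A M) (h12v_isRat_J A M)
  refine hs (h12v_mem_of_mul hA 𝔫₁ _
    (fun b hb => (h12v_chart_soft A M hq hM hA hb).2) hcen s _ ?_ hsy)
  have h2 : h11t_Ezero M q hq hM
      ((h62rBeta A M hq hM hA (h12vJ A M) - h62rAlpha A M (h12vJ A M) ^ q :
        h62rChart A (M * q) (jSS M q)) : FF (M * q)) =
      h11t_Einf M q (h12vX M (q := q)) := by
    show ((kFricke M q hq hM ((h62rBeta A M hq hM hA (h12vJ A M) -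
      h62rAlpha A M (h12vJ A M) ^ q : h62rChart A (M * q) (jSS M q)) : FF (M * q)) :
        FF (M * q)) : LaurentSeries Kbar) = ((h12vX M (q := q) : FF (M * q)) : LaurentSeries Kbar)
    congr 1
    have h3 : ((h62rBeta A M hq hM hA (h12vJ A M) - h62rAlpha A M (h12vJ A M) ^ q :
        h62rChart A (M * q) (jSS M q)) : FF (M * q)) =
        heckeBetaBar Kbar M q (jB M) - (heckeAlphaBar Kbar M q (jB M)) ^ q := rfl
    rw [h3, map_sub, map_pow, kFricke_beta, kFricke_alpha]
    rfl
  rw [h12v_small_congr A h2]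
  exact h12v_X_not_small A M hq

/-- a point at which `E_∞` is centred is not a smooth point of `C_0`. -/
theorem h12v_not_zero (hq : q.Prime) (hM : ¬ q ∣ M) (hA : A.LiesOverPrime q)
    (𝔫₁ : Ideal (h62rChart A (M * q) (jSS M q)))
    (hcen : h11l_Centred A (jSS M q) 𝔫₁ (h11t_Einf M q)) :
    ¬ H62ZeroDatum A M hq hM hA 𝔫₁ := by
  rintro ⟨h1, -⟩
  obtain ⟨s, hs, hsy⟩ := h1 (h12vJ A M) (h12v_isRat_J A M)
  refine hs (h12v_mem_of_mul hA 𝔫₁ _
    (fun b hb => (h12v_chart_soft A M hq hM hA hb).1) hcen s _ ?_ hsy)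
  have h2 : ((h62rAlpha A M (h12vJ A M) - h62rBeta A M hq hM hA (h12vJ A M) ^ q :
        h62rChart A (M * q) (jSS M q)) : FF (M * q)) = h12vX M (q := q) := rfl
  rw [h2]
  exact h12v_X_not_small A M hq

/-- `q` lies in a prime at which `E_∞` is centred. -/
theorem h12v_q_mem (hq : q.Prime) (hM : ¬ q ∣ M) (hA : A.LiesOverPrime q)
    (𝔫₁ : Ideal (h62rChart A (M * q) (jSS M q)))
    (hinf : h11l_Centred A (jSS M q) 𝔫₁ (h11t_Einf M q)) :
    (q : h62rChart A (M * q) (jSS M q)) ∈ 𝔫₁ := by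
  apply hinf
  have h1 : (((q : ℕ) : h62rChart A (M * q) (jSS M q)) : FF (M * q)) =
      (q : FF (M * q)) * ((1 : h62rChart A (M * q) (jSS M q)) : FF (M * q)) := by
    simp
  rw [h1]
  exact h12v_small_q_mul A _ hA
    (h12v_chart_soft A M hq hM hA (1 : h62rChart A (M * q) (jSS M q)).2.1).1

/-- **a closed point of level `M q` through which both components pass is a node.** -/
theorem h12v_node_of_centred (hL1 : H62L1) (hq : q.Prime) (hM : ¬ q ∣ M)
    (haux : auxLevel q ∣ M) (hA : A.LiesOverPrime q)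
    (𝔫₁ : Ideal (h62rChart A (M * q) (jSS M q))) (hmax : 𝔫₁.IsMaximal)
    (hinf : h11l_Centred A (jSS M q) 𝔫₁ (h11t_Einf M q))
    (hzero : h11l_Centred A (jSS M q) 𝔫₁ (h11t_Ezero M q hq hM)) :
    H62NodeDatum A M hq hM hA 𝔫₁ := by
  rcases hL1 q hq M hM haux A hA 𝔫₁ hmax (h12v_q_mem hq hM hA 𝔫₁ hinf) with h | h | h
  · exact h
  · exact absurd h (h12v_not_inf hq hM hA 𝔫₁ hzero)
  · exact absurd h (h12v_not_zero hq hM hA 𝔫₁ hinf)

end Level

end Fermat.Agent.S36
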