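import Fermat.Agent.S36.H12TorUnit
import Fermat.Agent.S36.H12TorExcl
import Fermat.Agent.S36.H62FinIface
import Fermat.Agent.LGC.FrickeChart

/-!
# S36, row T-UNIT (helper12, prefix `h12w_` / `H12Tower`): the uniqueness of the point over a
node, from the tower

* `H12TowerUniq` (frozen interface; third output of `h67t_tower`, R-TOWER-SS): a closed point
  `𝔫₂ ∋ q` of the chart of level `M q q` whose contraction along `α₂` carries `H62NodeDatum` is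
  the only maximal ideal with this contraction.
* `h12w_uniq_alpha` : under `H62L1` and `H12TowerUniq`, two maximal ideals of the chart of
  level `M q q` containing `α₂ 𝔫a`, `𝔫a` a closed point of level `M q` at which `E_∞` and `E_0`
  are centred, are equal.
* `h12w_uniq_beta` : the same along `β₂` (transport by the Fricke involutions `w₁`, `w₂`).
* `h12w_torUniq_of : H62L1 → H12TowerUniq → H12TorUniq`;
  `h12w_torUnit_of : H62L1 → H12TowerUniq → H11TorUnit`.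
-/

set_option autoImplicit false
set_option linter.style.haveILetI false
set_option linter.unusedSectionVars false

open AlgebraicCurve ModularCurve IsLocalRing

noncomputable section

namespace Fermat.Agent.S36

open Fermat.Agent.S37 (Kbar GQ FF cst jB gal modelAt modelFin auxLevel IsRat)
open Fermat.Agent.Red.Kron (kFricke kFricke_alpha kFricke_beta kFricke_kFricke)
open Fermat.Agent.Red.GV Fermat.Agent.Red.GV.Soft
open Fermat.Agent.LGC (jSS)

/-- **tower uniqueness** (third output of `h67t_tower`). -/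
def H12TowerUniq : Prop :=
  ∀ (q : ℕ) (hq : q.Prime) (M : ℕ) [NeZero M] (hM : ¬ q ∣ M), auxLevel q ∣ M →
    haveI : NeZero q := ⟨hq.ne_zero⟩
    ∀ (A : ValuationSubring Kbar) (hA : A.LiesOverPrime q),
      ∀ 𝔫₂ : Ideal (h62rChart A (M * q * q) (jB (M * q * q))), 𝔫₂.IsMaximal →
        (q : h62rChart A (M * q * q) (jB (M * q * q))) ∈ 𝔫₂ →
        H62NodeDatum A M hq hM hA (𝔫₂.comap (h62rA2 A M)) →
        ∀ 𝔫' : Ideal (h62rChart A (M * q * q) (jB (M * q * q))), 𝔫'.IsMaximal →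
          𝔫'.comap (h62rA2 A M) = 𝔫₂.comap (h62rA2 A M) → 𝔫' = 𝔫₂

section Level

variable {A : ValuationSubring Kbar} {M q : ℕ} [NeZero M] [NeZero q]

/-- the contraction of a maximal ideal containing the image of a maximal ideal. -/
theorem h12w_comap_eq (𝔫a : Ideal (h62rChart A (M * q) (jSS M q))) (hmax : 𝔫a.IsMaximal)
    (𝔫 : Ideal (h62rChart A (M * q * q) (jB (M * q * q)))) (h𝔫 : 𝔫.IsMaximal)
    (h1 : ∀ b : h62rChart A (M * q) (jSS M q), b ∈ 𝔫a →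
      ∀ b' : h62rChart A (M * q * q) (jB (M * q * q)),
        (b' : FF (M * q * q)) = heckeAlphaBar Kbar (M * q) q (b : FF (M * q)) → b' ∈ 𝔫) :
    𝔫.comap (h62rA2 A M) = 𝔫a := by
  haveI := h𝔫.isPrime
  have hle : 𝔫a ≤ 𝔫.comap (h62rA2 A M) := fun b hb =>
    Ideal.mem_comap.mpr (h1 b hb _ (h62r_coe_A2 A M b))
  exact (hmax.eq_of_le (Ideal.comap_ne_top _ h𝔫.ne_top) hle).symm

/-- **uniqueness along `α₂`** (core). -/
theorem h12w_uniq_alpha_core (hL1 : H62L1) (hT : H12TowerUniq) (hq : q.Prime) (hM : ¬ q ∣ M)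
    (haux : auxLevel q ∣ M) (hA : A.LiesOverPrime q)
    (𝔫a : Ideal (h62rChart A (M * q) (jSS M q))) (hmax : 𝔫a.IsMaximal)
    (hinf : h11l_Centred A (jSS M q) 𝔫a (h11t_Einf M q))
    (hzero : h11l_Centred A (jSS M q) 𝔫a (h11t_Ezero M q hq hM))
    (𝔫 𝔫' : Ideal (h62rChart A (M * q * q) (jB (M * q * q)))) (h𝔫 : 𝔫.IsMaximal)
    (h𝔫' : 𝔫'.IsMaximal)
    (h1 : ∀ b : h62rChart A (M * q) (jSS M q), b ∈ 𝔫a →
      ∀ b' : h62rChart A (M * q * q) (jB (M * q * q)),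
        (b' : FF (M * q * q)) = heckeAlphaBar Kbar (M * q) q (b : FF (M * q)) → b' ∈ 𝔫)
    (h2 : ∀ b : h62rChart A (M * q) (jSS M q), b ∈ 𝔫a →
      ∀ b' : h62rChart A (M * q * q) (jB (M * q * q)),
        (b' : FF (M * q * q)) = heckeAlphaBar Kbar (M * q) q (b : FF (M * q)) → b' ∈ 𝔫') :
    𝔫' = 𝔫 := by
  have hnode : H62NodeDatum A M hq hM hA 𝔫a :=
    h12v_node_of_centred hL1 hq hM haux hA 𝔫a hmax hinf hzero
  have hc : Ideal.comap (h62rA2 A M) 𝔫 = 𝔫a := h12w_comap_eq 𝔫a hmax 𝔫 h𝔫 h1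
  have hc' : Ideal.comap (h62rA2 A M) 𝔫' = 𝔫a := h12w_comap_eq 𝔫a hmax 𝔫' h𝔫' h2
  have hq𝔫a : (q : h62rChart A (M * q) (jSS M q)) ∈ 𝔫a := h12v_q_mem hq hM hA 𝔫a hinf
  have hq𝔫 : (q : h62rChart A (M * q * q) (jB (M * q * q))) ∈ 𝔫 := by
    have h3 : (q : h62rChart A (M * q) (jSS M q)) ∈ Ideal.comap (h62rA2 A M) 𝔫 := by
      rw [hc]
      exact hq𝔫a
    rw [Ideal.mem_comap, map_natCast] at h3
    exact h3
  refine hT q hq M hM haux A hA 𝔫 h𝔫 hq𝔫 ?_ 𝔫' h𝔫' (hc'.trans hc.symm)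
  rw [hc]
  exact hnode

/-- **uniqueness along `α₂`**, for the chart `t = jSS M q` of level `M q`. -/
theorem h12w_uniq_alpha_gen (hL1 : H62L1) (hT : H12TowerUniq) (hq : q.Prime) (hM : ¬ q ∣ M)
    (haux : auxLevel q ∣ M) (hA : A.LiesOverPrime q) (t : FF (M * q)) (ht : jSS M q = t)
    (𝔫a : Ideal (h92c_Chart A (M * q) t)) (hmax : 𝔫a.IsMaximal)
    (hinf : h11l_Centred A t 𝔫a (h11t_Einf M q))
    (hzero : h11l_Centred A t 𝔫a (h11t_Ezero M q hq hM))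
    (𝔫 𝔫' : Ideal (h92c_Chart A (M * q * q) (jB (M * q * q)))) (h𝔫 : 𝔫.IsMaximal)
    (h𝔫' : 𝔫'.IsMaximal)
    (h1 : ∀ b : h92c_Chart A (M * q) t, b ∈ 𝔫a →
      ∀ b' : h92c_Chart A (M * q * q) (jB (M * q * q)),
        (b' : FF (M * q * q)) = heckeAlphaBar Kbar (M * q) q (b : FF (M * q)) → b' ∈ 𝔫)
    (h2 : ∀ b : h92c_Chart A (M * q) t, b ∈ 𝔫a →
      ∀ b' : h92c_Chart A (M * q * q) (jB (M * q * q)),
        (b' : FF (M * q * q)) = heckeAlphaBar Kbar (M * q) q (b : FF (M * q)) → b' ∈ 𝔫') :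
    𝔫' = 𝔫 := by
  subst ht
  exact h12w_uniq_alpha_core hL1 hT hq hM haux hA 𝔫a hmax hinf hzero 𝔫 𝔫' h𝔫 h𝔫' h1 h2

/-- **uniqueness along `α₂`**, chart `j` of level `M q`. -/
theorem h12w_uniq_alpha (hL1 : H62L1) (hT : H12TowerUniq) (hq : q.Prime) (hM : ¬ q ∣ M)
    (haux : auxLevel q ∣ M) (hA : A.LiesOverPrime q)
    (𝔫a : Ideal (h92c_Chart A (M * q) (jB (M * q)))) (hmax : 𝔫a.IsMaximal)
    (hinf : h11l_Centred A (jB (M * q)) 𝔫a (h11t_Einf M q))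
    (hzero : h11l_Centred A (jB (M * q)) 𝔫a (h11t_Ezero M q hq hM))
    (𝔫 𝔫' : Ideal (h92c_Chart A (M * q * q) (jB (M * q * q)))) (h𝔫 : 𝔫.IsMaximal)
    (h𝔫' : 𝔫'.IsMaximal)
    (h1 : ∀ b : h92c_Chart A (M * q) (jB (M * q)), b ∈ 𝔫a →
      ∀ b' : h92c_Chart A (M * q * q) (jB (M * q * q)),
        (b' : FF (M * q * q)) = heckeAlphaBar Kbar (M * q) q (b : FF (M * q)) → b' ∈ 𝔫)
    (h2 : ∀ b : h92c_Chart A (M * q) (jB (M * q)), b ∈ 𝔫a →
      ∀ b' : h92c_Chart A (M * q * q) (jB (M * q * q)),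
        (b' : FF (M * q * q)) = heckeAlphaBar Kbar (M * q) q (b : FF (M * q)) → b' ∈ 𝔫') :
    𝔫' = 𝔫 :=
  h12w_uniq_alpha_gen hL1 hT hq hM haux hA (jB (M * q)) (Fermat.Agent.LGC.h71i_jSS_eq M q) 𝔫a
    hmax hinf hzero 𝔫 𝔫' h𝔫 h𝔫' h1 h2

/-! ### The Fricke involutions on the charts -/

/-- `w₁` on the chart over `A₀` of level `M q`. -/
def h12wW1 (hq : q.Prime) (hM : ¬ q ∣ M) (hA : A.LiesOverPrime q) :
    h92c_Chart A (M * q) (jB (M * q)) →+* h92c_Chart A (M * q) (jB (M * q)) :=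
  h12uRes ((kFricke M q hq hM : FF (M * q) ≃ₐ[Kbar] FF (M * q)) : FF (M * q) →+* FF (M * q))
    _ _ (fun b hb => ⟨Fermat.Agent.LGC.h44g_kFricke_mem_modelFin M q hq hM A hA hb.1,
      fun σ hσ => by
        have h := Fermat.Agent.Red.Kron.kFricke_gal M q hq hM σ b
        have hb' : arithmeticGalois (modularFunctionFieldFull (M * q)) σ • b = b := hb.2 σ hσ
        rw [hb'] at h
        exact h.symm⟩)

/-- `w₂` on the chart over `A₀` of level `M q q`. -/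
def h12wW2 (hq : q.Prime) (hM : ¬ q ∣ M) (hA : A.LiesOverPrime q) :
    h92c_Chart A (M * q * q) (jB (M * q * q)) →+* h92c_Chart A (M * q * q) (jB (M * q * q)) :=
  h12uRes ((h44s_fricke2 M q hq hM : FF (M * q * q) ≃ₐ[Kbar] FF (M * q * q)) :
      FF (M * q * q) →+* FF (M * q * q))
    _ _ (fun _ hb => ⟨h44s_fricke2_mem_modelFin M q hq hM A hA hb.1,
      fun σ hσ => h44s_fricke2_fixed M q hq hM σ (hb.2 σ hσ)⟩)

theorem h12w_coe_W1 (hq : q.Prime) (hM : ¬ q ∣ M) (hA : A.LiesOverPrime q)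
    (b : h92c_Chart A (M * q) (jB (M * q))) :
    ((h12wW1 hq hM hA b : h92c_Chart A (M * q) (jB (M * q))) : FF (M * q)) =
      kFricke M q hq hM (b : FF (M * q)) := rfl

theorem h12w_coe_W2 (hq : q.Prime) (hM : ¬ q ∣ M) (hA : A.LiesOverPrime q)
    (b : h92c_Chart A (M * q * q) (jB (M * q * q))) :
    ((h12wW2 hq hM hA b : h92c_Chart A (M * q * q) (jB (M * q * q))) : FF (M * q * q)) =
      h44s_fricke2 M q hq hM (b : FF (M * q * q)) := rfl

theorem h12w_W1_W1 (hq : q.Prime) (hM : ¬ q ∣ M) (hA : A.LiesOverPrime q)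
    (b : h92c_Chart A (M * q) (jB (M * q))) : h12wW1 hq hM hA (h12wW1 hq hM hA b) = b :=
  Subtype.ext (by rw [h12w_coe_W1, h12w_coe_W1, kFricke_kFricke])

theorem h12w_W2_W2 (hq : q.Prime) (hM : ¬ q ∣ M) (hA : A.LiesOverPrime q)
    (b : h92c_Chart A (M * q * q) (jB (M * q * q))) :
    h12wW2 hq hM hA (h12wW2 hq hM hA b) = b :=
  Subtype.ext (by rw [h12w_coe_W2, h12w_coe_W2, h44s_fricke2_fricke2])

theorem h12w_W1_surjective (hq : q.Prime) (hM : ¬ q ∣ M) (hA : A.LiesOverPrime q) :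
    Function.Surjective (h12wW1 (A := A) hq hM hA) :=
  fun b => ⟨h12wW1 hq hM hA b, h12w_W1_W1 hq hM hA b⟩

theorem h12w_W2_surjective (hq : q.Prime) (hM : ¬ q ∣ M) (hA : A.LiesOverPrime q) :
    Function.Surjective (h12wW2 (A := A) hq hM hA) :=
  fun b => ⟨h12wW2 hq hM hA b, h12w_W2_W2 hq hM hA b⟩

/-- **uniqueness along `β₂`**, chart `j` of level `M q` (transport by `w₁`, `w₂`). -/
theorem h12w_uniq_beta (hL1 : H62L1) (hT : H12TowerUniq) (hq : q.Prime) (hM : ¬ q ∣ M)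
    (haux : auxLevel q ∣ M) (hA : A.LiesOverPrime q)
    (𝔫b : Ideal (h92c_Chart A (M * q) (jB (M * q)))) (hmax : 𝔫b.IsMaximal)
    (hinf : h11l_Centred A (jB (M * q)) 𝔫b (h11t_Einf M q))
    (hzero : h11l_Centred A (jB (M * q)) 𝔫b (h11t_Ezero M q hq hM))
    (𝔫 𝔫' : Ideal (h92c_Chart A (M * q * q) (jB (M * q * q)))) (h𝔫 : 𝔫.IsMaximal)
    (h𝔫' : 𝔫'.IsMaximal)
    (h1 : ∀ b : h92c_Chart A (M * q) (jB (M * q)), b ∈ 𝔫b →
      ∀ b' : h92c_Chart A (M * q * q) (jB (M * q * q)),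
        (b' : FF (M * q * q)) = heckeBetaBar Kbar (M * q) q (b : FF (M * q)) → b' ∈ 𝔫)
    (h2 : ∀ b : h92c_Chart A (M * q) (jB (M * q)), b ∈ 𝔫b →
      ∀ b' : h92c_Chart A (M * q * q) (jB (M * q * q)),
        (b' : FF (M * q * q)) = heckeBetaBar Kbar (M * q) q (b : FF (M * q)) → b' ∈ 𝔫') :
    𝔫' = 𝔫 := by
  haveI := hmax
  haveI := h𝔫
  haveI := h𝔫'
  have hmax' : (𝔫b.comap (h12wW1 hq hM hA)).IsMaximal :=
    Ideal.comap_isMaximal_of_surjective _ (h12w_W1_surjective hq hM hA)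
  have h𝔫w : (𝔫.comap (h12wW2 hq hM hA)).IsMaximal :=
    Ideal.comap_isMaximal_of_surjective _ (h12w_W2_surjective hq hM hA)
  have h𝔫w' : (𝔫'.comap (h12wW2 hq hM hA)).IsMaximal :=
    Ideal.comap_isMaximal_of_surjective _ (h12w_W2_surjective hq hM hA)
  have hinf' : h11l_Centred A (jB (M * q)) (𝔫b.comap (h12wW1 hq hM hA)) (h11t_Einf M q) := by
    intro b hb
    rw [Ideal.mem_comap]
    apply hzero
    have h3 : h11t_Ezero M q hq hM ((h12wW1 hq hM hA b : h92c_Chart A (M * q) (jB (M * q))) :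
        FF (M * q)) = h11t_Einf M q (b : FF (M * q)) := by
      show ((kFricke M q hq hM (kFricke M q hq hM (b : FF (M * q))) : FF (M * q)) :
        LaurentSeries Kbar) = _
      rw [kFricke_kFricke]
      rfl
    exact (h12v_small_congr A h3).mpr hb
  have hzero' : h11l_Centred A (jB (M * q)) (𝔫b.comap (h12wW1 hq hM hA))
      (h11t_Ezero M q hq hM) := by
    intro b hb
    rw [Ideal.mem_comap]
    apply hinf
    have h3 : h11t_Einf M q ((h12wW1 hq hM hA b : h92c_Chart A (M * q) (jB (M * q))) :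
        FF (M * q)) = h11t_Ezero M q hq hM (b : FF (M * q)) := rfl
    exact (h12v_small_congr A h3).mpr hb
  have hrel : ∀ (𝔪 : Ideal (h92c_Chart A (M * q * q) (jB (M * q * q)))),
      (∀ b : h92c_Chart A (M * q) (jB (M * q)), b ∈ 𝔫b →
        ∀ b' : h92c_Chart A (M * q * q) (jB (M * q * q)),
          (b' : FF (M * q * q)) = heckeBetaBar Kbar (M * q) q (b : FF (M * q)) → b' ∈ 𝔪) →
      ∀ b : h92c_Chart A (M * q) (jB (M * q)), b ∈ 𝔫b.comap (h12wW1 hq hM hA) →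
        ∀ b' : h92c_Chart A (M * q * q) (jB (M * q * q)),
          (b' : FF (M * q * q)) = heckeAlphaBar Kbar (M * q) q (b : FF (M * q)) →
          b' ∈ 𝔪.comap (h12wW2 hq hM hA) := by
    intro 𝔪 h𝔪 b hb b' hb'
    rw [Ideal.mem_comap] at hb ⊢
    refine h𝔪 _ hb _ ?_
    rw [h12w_coe_W2, hb', h44s_fricke2_alpha, h12w_coe_W1]
  have key := h12w_uniq_alpha hL1 hT hq hM haux hA (𝔫b.comap (h12wW1 hq hM hA)) hmax' hinf'
    hzero' (𝔫.comap (h12wW2 hq hM hA)) (𝔫'.comap (h12wW2 hq hM hA)) h𝔫w h𝔫w'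
    (hrel 𝔫 h1) (hrel 𝔫' h2)
  exact Ideal.comap_injective_of_surjective _ (h12w_W2_surjective hq hM hA) key

end Level

/-! ### The assembly -/

/-- **the uniqueness of the point over a node**, from `H62L1` and the tower. -/
theorem h12w_torUniq_of (hL1 : H62L1) (hT : H12TowerUniq) : H12TorUniq := by
  intro q hq M _ hqM haux
  haveI : NeZero q := ⟨hq.ne_zero⟩
  intro A hA 𝔫 h𝔫 φ hφ 𝔫a hna 𝔫' h𝔫' h2
  obtain ⟨hmax, hunder, hinf, hzero⟩ := hna
  have h1 : ∀ b : h92c_Chart A (M * q) (jB (M * q)), b ∈ 𝔫a →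
      ∀ b' : h92c_Chart A (M * q * q) (jB (M * q * q)),
        (b' : FF (M * q * q)) = φ (b : FF (M * q)) → b' ∈ 𝔫 := by
    intro b hb b' hb'
    obtain ⟨b₀, hb₀, hb₀'⟩ := (hunder b).mp hb
    have : b' = b₀ := Subtype.ext (hb'.trans hb₀'.symm)
    rw [this]
    exact hb₀
  rcases hφ with rfl | rfl
  · exact h12w_uniq_alpha hL1 hT hq hqM haux hA 𝔫a hmax hinf hzero 𝔫 𝔫' h𝔫.1 h𝔫' h1 h2
  · exact h12w_uniq_beta hL1 hT hq hqM haux hA 𝔫a hmax hinf hzero 𝔫 𝔫' h𝔫.1 h𝔫' h1 h2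

/-- **T-UNIT** from `H62L1` (R-L1) and the tower uniqueness (R-TOWER-SS). -/
theorem h12w_torUnit_of (hL1 : H62L1) (hT : H12TowerUniq) : H11TorUnit :=
  h12u_torUnit_of (h12w_torUniq_of hL1 hT)

end Fermat.Agent.S36
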