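import Mathlib

/-!
# S36 / GATE: Lemma A, the local gluing lemma at a closed point of the special fibre (helper66)

Setting (finding #968, route memo #991 step (4)).  `O` is the local ring of the model at a
closed point of the special fibre, `π` a uniformiser of the base (`π ∣ q`), the vertical
components through the point are cut out by `f i` (`i : ι`) with multiplicities `e i`,
`π = unit * ∏ f i ^ e i`, and `V` is the semi-local ring of the generic points of these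
components (the localisation of `O` at the complement of `⋃ (f i)`), `φ : O → V`.

**Lemma A.**  Let `z ∈ V`, `ε ∈ Oˣ` with `z ^ m * ε ≡ 1 mod π V`, `m` prime to `q`.  Assume
that the branch values of `z` agree: there are `a i ∈ O` with `z ≡ a i mod (f i) V`, all
congruent to one `c` modulo the maximal ideal.  Then there is `η ∈ Oˣ` with
`z * η ≡ 1 mod π V`.

The point is that neither the nilpotents of the special fibre (multiplicities `e i > 1`) nor
the non-seminormal (planar triple point) gluing matter: a large power `z ^ (q ^ N)` descends to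
`O` (Frobenius kills both), and `gcd (m, q ^ N) = 1`.

Main statements:

* `h66a_glue_abs` : the abstract form (only `hcrt : ⋂ (f i ^ e i) V ⊆ π V` is used of `V`);
* `h66a_crt`, `h66a_contract` : the two facts about `V` from the localisation-like
  hypotheses `hden`, `hinv` (every element of `V` has a denominator prime to all `f i`);
* `h66a_branch` : the branch value `a i` exists as soon as `O ⧸ (f i)` is a valuation ring;
* `h66a_glue_loc` : Lemma A for a localisation-like `V`;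
* `h66a_glue_unibranch` : one component, no compatibility hypothesis;
* `h66a_glue_field` : the form inside a field `F`, conclusion `z * η ∈ 1 + π V`.
-/

set_option autoImplicit false

namespace Fermat.Agent.S36

open IsLocalRing

/-! ## Ideal arithmetic -/

/-- `∏ (A ⊔ B j) ≤ A ⊔ ∏ B j`. -/
theorem h66a_prod_sup_le {R : Type*} [CommRing R] {ι : Type*} (s : Finset ι) (A : Ideal R)
    (B : ι → Ideal R) : ∏ j ∈ s, (A ⊔ B j) ≤ A ⊔ ∏ j ∈ s, B j := by
  classical
  induction s using Finset.induction_on with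
  | empty => simp
  | insert a s ha ih =>
    rw [Finset.prod_insert ha, Finset.prod_insert ha]
    refine le_trans (Ideal.mul_mono_right ih) ?_
    rw [Ideal.mul_le]
    intro x hx y hy
    obtain ⟨x₁, hx₁, x₂, hx₂, rfl⟩ := Submodule.mem_sup.mp hx
    obtain ⟨y₁, hy₁, y₂, hy₂, rfl⟩ := Submodule.mem_sup.mp hy
    have h1 : (x₁ + x₂) * (y₁ + y₂) = (x₁ * (y₁ + y₂) + x₂ * y₁) + x₂ * y₂ := by ring
    rw [h1]
    refine Submodule.add_mem_sup ?_ (Ideal.mul_mem_mul hx₂ hy₂)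
    exact A.add_mem (A.mul_mem_right _ hx₁) (A.mul_mem_left _ hy₁)

/-- if `𝔪 ^ n ≤ (f i, f j)` for all `j ∈ s`, then a power of `𝔪` lies in
`(f i ^ e i) + (∏_{j ∈ s} f j ^ e j)`. -/
theorem h66a_pow_le_sup_prod {O : Type*} [CommRing O] (𝔪 : Ideal O) {ι : Type*}
    (s : Finset ι) (f : ι → O) (e : ι → ℕ) (i : ι)
    (hpair : ∀ j ∈ s, ∃ n, 𝔪 ^ n ≤ Ideal.span {f i, f j}) :
    ∃ K, 𝔪 ^ K ≤ Ideal.span {f i ^ e i} ⊔ Ideal.span {∏ j ∈ s, f j ^ e j} := by
  classical
  have h1 : ∀ j : ι, ∃ k, j ∈ s → 𝔪 ^ k ≤ Ideal.span {f i ^ e i} ⊔ Ideal.span {f j ^ e j} := by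
    intro j
    by_cases hj : j ∈ s
    · obtain ⟨n, hn⟩ := hpair j hj
      refine ⟨n * (e i + e j), fun _ => ?_⟩
      rw [pow_mul]
      refine le_trans (Ideal.pow_right_mono hn _) ?_
      rw [Ideal.span_insert]
      refine le_trans Ideal.sup_pow_add_le_pow_sup_pow ?_
      rw [Ideal.span_singleton_pow, Ideal.span_singleton_pow]
    · exact ⟨0, fun h => absurd h hj⟩
  choose k hk using h1
  refine ⟨∑ j ∈ s, k j, ?_⟩
  rw [← Finset.prod_pow_eq_pow_sum]
  refine le_trans (Finset.prod_le_prod' fun j hj => hk j hj) ?_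
  refine le_trans (h66a_prod_sup_le s _ _) ?_
  rw [Ideal.prod_span_singleton]

/-! ## Bezout in the unit group -/

/-- if `z ^ m` and `z ^ Q` come from units of `O` and `gcd (m, Q) = 1`, so does `z`. -/
theorem h66a_bezout {O R : Type*} [CommRing O] [CommRing R] (ψ : O →+* R) (m Q : ℕ)
    (h : Nat.Coprime m Q) (z : R) (ε o : Oˣ) (hz : z ^ m * ψ ε = 1) (hQ : z ^ Q = ψ o) :
    ∃ η : Oˣ, z * ψ η = 1 := by
  have hzu : IsUnit z := by
    rcases Nat.eq_zero_or_pos m with hm | hm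
    · subst hm
      have hQ1 : Q = 1 := by simpa using h
      rw [hQ1, pow_one] at hQ
      rw [hQ]
      exact (o.isUnit.map ψ)
    · have h1 : z * (z ^ (m - 1) * ψ ε) = 1 := by
        rw [← mul_assoc, ← pow_succ', Nat.sub_add_cancel hm, hz]
      exact IsUnit.of_mul_eq_one _ h1
  obtain ⟨zu, rfl⟩ := hzu
  have hzm : zu ^ m = (Units.map (ψ : O →* R) ε)⁻¹ := by
    rw [eq_inv_iff_mul_eq_one]
    ext
    simpa using hz
  have hzQ : zu ^ Q = Units.map (ψ : O →* R) o := by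
    ext
    simpa using hQ
  have hab : (m : ℤ) * Nat.gcdA m Q + (Q : ℤ) * Nat.gcdB m Q = 1 := by
    have := Nat.gcd_eq_gcd_ab m Q
    rw [h.gcd_eq_one] at this
    simpa using this.symm
  have hzz : zu = Units.map (ψ : O →* R) (ε⁻¹ ^ (Nat.gcdA m Q) * o ^ (Nat.gcdB m Q)) := by
    calc zu = zu ^ (1 : ℤ) := (zpow_one zu).symm
      _ = zu ^ ((m : ℤ) * Nat.gcdA m Q + (Q : ℤ) * Nat.gcdB m Q) := by rw [hab]
      _ = (zu ^ m) ^ (Nat.gcdA m Q) * (zu ^ Q) ^ (Nat.gcdB m Q) := by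
        rw [zpow_add, zpow_mul, zpow_mul, zpow_natCast, zpow_natCast]
      _ = _ := by
        rw [hzm, hzQ, map_mul, map_zpow, map_zpow, map_inv]
  refine ⟨(ε⁻¹ ^ (Nat.gcdA m Q) * o ^ (Nat.gcdB m Q))⁻¹, ?_⟩
  have h2 : zu * Units.map (ψ : O →* R) (ε⁻¹ ^ (Nat.gcdA m Q) * o ^ (Nat.gcdB m Q))⁻¹ = 1 := by
    rw [map_inv, ← hzz, mul_inv_cancel]
  have h3 := congrArg Units.val h2
  rw [Units.val_mul, Units.val_one, Units.coe_map] at h3
  exact h3

/-! ## Lemma A, abstract form -/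

/-- **Lemma A (abstract form).**  `O` local, `φ : O → V`, `π ∣ q`, `f i ^ e i ∣ π`, pairwise
`𝔪 ^ n ≤ (f i, f j)`, and `⋂ (f i ^ e i) V ⊆ π V` (`hcrt`).  If `z ^ m * ε ≡ 1 mod π V` with
`m` prime to `q` and the branch values of `z` agree modulo `𝔪` (`hbr`), then
`z * η ≡ 1 mod π V` for a unit `η` of `O`. -/
theorem h66a_glue_abs {O V : Type*} [CommRing O] [IsLocalRing O] [CommRing V] (φ : O →+* V)
    (q : ℕ) (hq : q.Prime) (π : O) (hπq : π ∣ (q : O))
    {ι : Type*} [Fintype ι] (f : ι → O) (e : ι → ℕ)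
    (hfπ : ∀ i, f i ^ e i ∣ π)
    (hpair : ∀ i j, i ≠ j → ∃ n, maximalIdeal O ^ n ≤ Ideal.span {f i, f j})
    (hcrt : ∀ v : V, (∀ i, φ (f i) ^ e i ∣ v) → φ π ∣ v)
    (m : ℕ) (hm : m.Coprime q) (z : V) (ε : Oˣ) (hz : φ π ∣ z ^ m * φ ε - 1)
    (c : O) (hbr : ∀ i, ∃ a : O, a - c ∈ maximalIdeal O ∧ φ (f i) ∣ z - φ a) :
    ∃ η : Oˣ, φ π ∣ z * φ η - 1 := by
  classical
  by_cases hπu : IsUnit (φ π)
  · exact ⟨1, hπu.dvd⟩
  obtain ⟨i₀, hi₀⟩ : ∃ i₀, ¬ φ (f i₀) ^ e i₀ ∣ 1 := by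
    by_contra hcon
    simp only [not_exists, not_not] at hcon
    exact hπu (isUnit_of_dvd_one (hcrt 1 hcon))
  have hfi₀ : ¬ IsUnit (φ (f i₀)) := fun hu => hi₀ (hu.pow _).dvd
  have hei₀ : e i₀ ≠ 0 := fun h0 => hi₀ (by rw [h0, pow_zero])
  have hfπ' : ∀ i, φ (f i) ^ e i ∣ φ π := fun i => by
    rw [← map_pow]; exact map_dvd φ (hfπ i)
  have hfi₀π : φ (f i₀) ∣ φ π := (dvd_pow_self _ hei₀).trans (hfπ' i₀)
  have hqV : φ π ∣ (q : V) := by
    have := map_dvd φ hπq
    rwa [map_natCast] at this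
  have hm0 : 0 < m := by
    rcases Nat.eq_zero_or_pos m with h | h
    · subst h
      rw [Nat.coprime_zero_left] at hm
      exact absurd hm hq.ne_one
    · exact h
  choose a ha_c ha_z using hbr
  -- units of `O` do not map into `(f i₀) V`
  have hunit : ∀ u : O, φ (f i₀) ∣ φ u → ¬ IsUnit u := fun u hu huu =>
    hfi₀ (isUnit_of_dvd_unit hu (huu.map φ))
  -- `a i₀` is a unit
  have ha₀ : IsUnit (a i₀) := by
    by_contra hnu
    have hmem : a i₀ ^ m * (ε : O) ∈ maximalIdeal O :=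
      Ideal.mul_mem_right _ _ (Ideal.pow_mem_of_mem _ ((mem_maximalIdeal _).mpr hnu) m hm0)
    have hu1 : IsUnit (1 - a i₀ ^ m * (ε : O)) :=
      isUnit_one_sub_self_of_mem_nonunits _ ((mem_maximalIdeal _).mp hmem)
    refine hunit _ ?_ hu1
    have h1 : φ (f i₀) ∣ z ^ m - φ (a i₀) ^ m := (ha_z i₀).trans (sub_dvd_pow_sub_pow _ _ m)
    have h2 : φ (1 - a i₀ ^ m * (ε : O))
        = (z ^ m - φ (a i₀) ^ m) * φ ε - (z ^ m * φ ε - 1) := by
      simp only [map_sub, map_one, map_mul, map_pow]; ring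
    rw [h2]
    exact dvd_sub (Dvd.dvd.mul_right h1 _) (hfi₀π.trans hz)
  -- the exponent
  have hK : ∀ i, ∃ K, maximalIdeal O ^ K ≤
      Ideal.span {f i ^ e i} ⊔ Ideal.span {∏ j ∈ Finset.univ.erase i, f j ^ e j} := fun i =>
    h66a_pow_le_sup_prod _ _ f e i (fun j hj => hpair i j (Finset.ne_of_mem_erase hj).symm)
  choose K hK using hK
  obtain ⟨N, hN⟩ : ∃ N : ℕ, ∀ i, e i + K i ≤ q ^ N := by
    refine ⟨∑ i, (e i + K i), fun i => ?_⟩
    have h1 : e i + K i ≤ ∑ i, (e i + K i) :=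
      Finset.single_le_sum (f := fun i => e i + K i) (fun _ _ => Nat.zero_le _)
        (Finset.mem_univ i)
    have h2 : (∑ i, (e i + K i)) < q ^ (∑ i, (e i + K i)) := Nat.lt_pow_self hq.one_lt
    omega
  have hdec : ∀ i, ∃ α κ : O, (a i - c) ^ q ^ N
      = α * f i ^ e i + κ * ∏ j ∈ Finset.univ.erase i, f j ^ e j := by
    intro i
    have h1 : (a i - c) ^ q ^ N ∈ maximalIdeal O ^ K i :=
      Ideal.pow_le_pow_right (by have := hN i; omega) (Ideal.pow_mem_pow (ha_c i) (q ^ N))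
    obtain ⟨x, hx, y, hy, hxy⟩ := Submodule.mem_sup.mp (hK i h1)
    obtain ⟨α, rfl⟩ := Ideal.mem_span_singleton'.mp hx
    obtain ⟨κ, rfl⟩ := Ideal.mem_span_singleton'.mp hy
    exact ⟨α, κ, hxy.symm⟩
  choose α κ hακ using hdec
  obtain ⟨o', ho'⟩ : ∃ o' : O,
      o' = c ^ q ^ N + ∑ i, κ i * ∏ j ∈ Finset.univ.erase i, f j ^ e j := ⟨_, rfl⟩
  have hO : ∀ i, f i ^ e i ∣ o' - a i ^ q ^ N := by
    intro i
    obtain ⟨r, hr⟩ := exists_add_pow_prime_pow_eq hq c (a i - c) N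
    have h1 : a i ^ q ^ N = c ^ q ^ N + (a i - c) ^ q ^ N + q * c * (a i - c) * r := by
      rw [← hr]; congr 1; ring
    have h2 : o' - a i ^ q ^ N
        = (∑ k ∈ Finset.univ.erase i, κ k * ∏ j ∈ Finset.univ.erase k, f j ^ e j)
          - α i * f i ^ e i - q * c * (a i - c) * r := by
      rw [h1, hακ i, ho', ← Finset.add_sum_erase _ _ (Finset.mem_univ i)]
      ring
    rw [h2]
    refine dvd_sub (dvd_sub (Finset.dvd_sum fun k hk => ?_) (Dvd.intro_left _ rfl)) ?_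
    · refine Dvd.dvd.mul_left ?_ _
      exact Finset.dvd_prod_of_mem (fun j => f j ^ e j)
        (Finset.mem_erase.mpr ⟨(Finset.ne_of_mem_erase hk).symm, Finset.mem_univ i⟩)
    · exact ((((hfπ i).trans hπq).mul_right _).mul_right _).mul_right _
  have hV : ∀ i, φ (f i) ^ e i ∣ z ^ q ^ N - φ (a i) ^ q ^ N := by
    intro i
    obtain ⟨v, hv⟩ := ha_z i
    obtain ⟨r, hr⟩ := exists_add_pow_prime_pow_eq hq (φ (a i)) (φ (f i) * v) N
    have h1 : z = φ (a i) + φ (f i) * v := by rw [← hv]; ring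
    have h2 : z ^ q ^ N - φ (a i) ^ q ^ N
        = φ (f i) ^ q ^ N * v ^ q ^ N + q * φ (a i) * (φ (f i) * v) * r := by
      rw [h1, hr]; ring
    rw [h2]
    refine dvd_add (Dvd.dvd.mul_right (pow_dvd_pow _ (by have := hN i; omega)) _) ?_
    exact ((((hfπ' i).trans hqV).mul_right _).mul_right _).mul_right _
  have hzo : φ π ∣ z ^ q ^ N - φ o' := by
    refine hcrt _ fun i => ?_
    have h1 : z ^ q ^ N - φ o' = (z ^ q ^ N - φ (a i) ^ q ^ N) - φ (o' - a i ^ q ^ N) := by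
      simp only [map_sub, map_pow]; ring
    rw [h1]
    exact dvd_sub (hV i) (by rw [← map_pow]; exact map_dvd φ (hO i))
  have ho'u : IsUnit o' := by
    have h1 : IsUnit ((a i₀ ^ q ^ N - o') + o') := by
      rw [sub_add_cancel]; exact ha₀.pow _
    rcases isUnit_or_isUnit_of_isUnit_add h1 with h | h
    · refine absurd h (hunit _ ?_)
      have h2 : φ (a i₀ ^ q ^ N - o')
          = (z ^ q ^ N - φ o') - (z ^ q ^ N - φ (a i₀) ^ q ^ N) := by
        simp only [map_sub, map_pow]; ring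
      rw [h2]
      exact dvd_sub (hfi₀π.trans hzo) ((dvd_pow_self _ hei₀).trans (hV i₀))
    · exact h
  obtain ⟨ou, hou⟩ := ho'u
  have hz1 : (Ideal.Quotient.mk (Ideal.span {φ π}) z) ^ m
      * ((Ideal.Quotient.mk (Ideal.span {φ π})).comp φ) ε = 1 := by
    have h1 : Ideal.Quotient.mk (Ideal.span {φ π}) (z ^ m * φ ε - 1) = 0 :=
      Ideal.Quotient.eq_zero_iff_mem.mpr (Ideal.mem_span_singleton.mpr hz)
    rw [map_sub, map_mul, map_pow, map_one, sub_eq_zero] at h1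
    exact h1
  have hz2 : (Ideal.Quotient.mk (Ideal.span {φ π}) z) ^ q ^ N
      = ((Ideal.Quotient.mk (Ideal.span {φ π})).comp φ) ou := by
    have h1 : Ideal.Quotient.mk (Ideal.span {φ π}) (z ^ q ^ N - φ o') = 0 :=
      Ideal.Quotient.eq_zero_iff_mem.mpr (Ideal.mem_span_singleton.mpr hzo)
    rw [map_sub, map_pow, sub_eq_zero] at h1
    rw [h1, hou]
    rfl
  obtain ⟨η, hη⟩ := h66a_bezout _ m (q ^ N) (Nat.Coprime.pow_right N hm) _ ε ou hz1 hz2
  refine ⟨η, ?_⟩
  have h1 : Ideal.Quotient.mk (Ideal.span {φ π}) (z * φ η - 1) = 0 := by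
    rw [map_sub, map_mul, map_one, sub_eq_zero]; exact hη
  exact Ideal.mem_span_singleton.mp (Ideal.Quotient.eq_zero_iff_mem.mp h1)

/-! ## The facts about a localisation-like `V` -/

/-- pairwise non-associated primes: if every `f i ^ e i` divides `o`, so does the product. -/
theorem h66a_prod_pow_dvd {O : Type*} [CommRing O] [IsDomain O] {ι : Type*} (s : Finset ι)
    (f : ι → O) (e : ι → ℕ) (hprime : ∀ i ∈ s, Prime (f i))
    (hna : ∀ i ∈ s, ∀ j ∈ s, i ≠ j → ¬ f i ∣ f j) (o : O) (ho : ∀ i ∈ s, f i ^ e i ∣ o) :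
    ∏ i ∈ s, f i ^ e i ∣ o := by
  classical
  induction s using Finset.induction_on with
  | empty => simp
  | insert a s ha ih =>
    rw [Finset.prod_insert ha]
    have hs : ∏ i ∈ s, f i ^ e i ∣ o :=
      ih (fun i hi => hprime i (Finset.mem_insert_of_mem hi))
        (fun i hi j hj => hna i (Finset.mem_insert_of_mem hi) j (Finset.mem_insert_of_mem hj))
        (fun i hi => ho i (Finset.mem_insert_of_mem hi))
    obtain ⟨o', rfl⟩ := hs
    have hpa : Prime (f a) := hprime a (Finset.mem_insert_self a s)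
    have hnd : ¬ f a ∣ ∏ i ∈ s, f i ^ e i := by
      intro hd
      obtain ⟨i, hi, hdi⟩ := (Prime.dvd_finsetProd_iff hpa _).mp hd
      have hai : a ≠ i := fun h => ha (h ▸ hi)
      exact hna a (Finset.mem_insert_self a s) i (Finset.mem_insert_of_mem hi) hai
        (hpa.dvd_of_dvd_pow hdi)
    have h1 : f a ^ e a ∣ o' :=
      hpa.pow_dvd_of_dvd_mul_left _ hnd (ho a (Finset.mem_insert_self a s))
    rw [mul_comm]
    exact mul_dvd_mul_left _ h1

section Loc

variable {O V : Type*} [CommRing O] [IsDomain O] [CommRing V] (φ : O →+* V)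
  {ι : Type*} (f : ι → O)

/-- contraction: `(f i) V ∩ O = (f i) O`. -/
theorem h66a_contract (hφ : Function.Injective φ) (i : ι) (hfi : Prime (f i))
    (hden : ∀ v : V, ∃ s o : O, (∀ j, ¬ f j ∣ s) ∧ φ s * v = φ o)
    (n : ℕ) (x : O) (hx : φ (f i) ^ n ∣ φ x) : f i ^ n ∣ x := by
  obtain ⟨v, hv⟩ := hx
  obtain ⟨s, o, hs, hso⟩ := hden v
  have h1 : φ (s * x) = φ (f i ^ n * o) := by
    rw [map_mul, map_mul, map_pow, hv, ← hso]; ring
  have h2 : s * x = f i ^ n * o := hφ h1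
  exact hfi.pow_dvd_of_dvd_mul_left _ (hs i) ⟨o, h2⟩

/-- `⋂ (f i ^ e i) V = π V`. -/
theorem h66a_crt [Fintype ι] (hφ : Function.Injective φ) (e : ι → ℕ)
    (hprime : ∀ i, Prime (f i)) (hna : ∀ i j, i ≠ j → ¬ f i ∣ f j)
    (π : O) (hπ : Associated π (∏ i, f i ^ e i))
    (hden : ∀ v : V, ∃ s o : O, (∀ j, ¬ f j ∣ s) ∧ φ s * v = φ o)
    (hinv : ∀ s : O, (∀ j, ¬ f j ∣ s) → IsUnit (φ s))
    (v : V) (hv : ∀ i, φ (f i) ^ e i ∣ v) : φ π ∣ v := by
  obtain ⟨s, o, hs, hso⟩ := hden v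
  have h1 : ∀ i, f i ^ e i ∣ o := fun i =>
    h66a_contract φ f hφ i (hprime i) hden (e i) o (by rw [← hso]; exact (hv i).mul_left _)
  have h2 : ∏ i, f i ^ e i ∣ o :=
    h66a_prod_pow_dvd Finset.univ f e (fun i _ => hprime i) (fun i _ j _ => hna i j) o
      (fun i _ => h1 i)
  have h3 : π ∣ o := hπ.dvd.trans h2
  have h4 : φ π ∣ φ s * v := by rw [hso]; exact map_dvd φ h3
  exact ((hinv s hs).dvd_mul_left).mp h4

/-- **the branch value exists** when `O ⧸ (f i)` is a valuation ring (hypothesis `hval`, in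
elementary form): if `z ^ m ≡ u` modulo `(f i) V` with `u ∈ O` and `m ≠ 0`, then `z ≡ a`
modulo `(f i) V` for some `a ∈ O`. -/
theorem h66a_branch (hφ : Function.Injective φ) (i : ι) (hfi : Prime (f i))
    (hval : ∀ x y : O, (∃ t, f i ∣ y - x * t) ∨ (∃ t, f i ∣ x - y * t))
    (hden : ∀ v : V, ∃ s o : O, (∀ j, ¬ f j ∣ s) ∧ φ s * v = φ o)
    (hinv : ∀ s : O, (∀ j, ¬ f j ∣ s) → IsUnit (φ s))
    (m : ℕ) (hm : m ≠ 0) (z : V) (u : O) (hz : φ (f i) ∣ z ^ m - φ u) :
    ∃ a : O, φ (f i) ∣ z - φ a := by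
  have hPr : (Ideal.span {f i}).IsPrime := (Ideal.span_singleton_prime hfi.ne_zero).mpr hfi
  obtain ⟨s, x, hs, hsx⟩ := hden z
  have hsu : IsUnit (φ s) := hinv s hs
  -- `f i ∣ x ^ m - s ^ m * u`
  have h1 : f i ∣ x ^ m - s ^ m * u := by
    have h := h66a_contract φ f hφ i hfi hden 1 (x ^ m - s ^ m * u) (by
      rw [pow_one]
      have h2 : φ (x ^ m - s ^ m * u) = φ s ^ m * (z ^ m - φ u) := by
        rw [map_sub, map_mul, map_pow, map_pow, ← hsx]; ring
      rw [h2]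
      exact hz.mul_left _)
    rwa [pow_one] at h
  -- it suffices that `s ∣ x` modulo `f i`
  have hkey : ∀ a : O, f i ∣ x - s * a → ∃ a : O, φ (f i) ∣ z - φ a := by
    intro a ha
    refine ⟨a, ?_⟩
    have h2 : φ s * (z - φ a) = φ (x - s * a) := by
      rw [map_sub, map_mul, ← hsx]; ring
    have h3 : φ (f i) ∣ φ s * (z - φ a) := by rw [h2]; exact map_dvd φ ha
    exact (hsu.dvd_mul_left).mp h3
  have hmk : ∀ y : O, Ideal.Quotient.mk (Ideal.span {f i}) y = 0 ↔ f i ∣ y := fun y => by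
    rw [Ideal.Quotient.eq_zero_iff_mem, Ideal.mem_span_singleton]
  have hs0 : Ideal.Quotient.mk (Ideal.span {f i}) s ≠ 0 := fun h => hs i ((hmk s).mp h)
  have hxm : Ideal.Quotient.mk (Ideal.span {f i}) x ^ m
      = Ideal.Quotient.mk (Ideal.span {f i}) s ^ m * Ideal.Quotient.mk (Ideal.span {f i}) u := by
    have := (hmk _).mpr h1
    rw [map_sub, map_mul, map_pow, map_pow, sub_eq_zero] at this
    exact this
  rcases hval s x with ⟨a, ha⟩ | ⟨b, hb⟩
  · exact hkey a ha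
  · have hbb : Ideal.Quotient.mk (Ideal.span {f i}) s
        = Ideal.Quotient.mk (Ideal.span {f i}) x * Ideal.Quotient.mk (Ideal.span {f i}) b := by
      have := (hmk _).mpr hb
      rw [map_sub, map_mul, sub_eq_zero] at this
      exact this
    have hx0 : Ideal.Quotient.mk (Ideal.span {f i}) x ≠ 0 := by
      intro h0
      rw [h0, zero_mul] at hbb
      exact hs0 hbb
    -- `1 = b ^ m * u`
    have h2 : Ideal.Quotient.mk (Ideal.span {f i}) x ^ m * 1
        = Ideal.Quotient.mk (Ideal.span {f i}) x ^ m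
          * (Ideal.Quotient.mk (Ideal.span {f i}) b ^ m
            * Ideal.Quotient.mk (Ideal.span {f i}) u) := by
      rw [mul_one]
      conv_lhs => rw [hxm, hbb]
      ring
    have h3 : 1 = Ideal.Quotient.mk (Ideal.span {f i}) b ^ m
        * Ideal.Quotient.mk (Ideal.span {f i}) u :=
      mul_left_cancel₀ (pow_ne_zero m hx0) h2
    have hbu : IsUnit (Ideal.Quotient.mk (Ideal.span {f i}) b) := by
      have h4 : Ideal.Quotient.mk (Ideal.span {f i}) b
          * (Ideal.Quotient.mk (Ideal.span {f i}) b ^ (m - 1)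
            * Ideal.Quotient.mk (Ideal.span {f i}) u) = 1 := by
        rw [← mul_assoc, ← pow_succ', Nat.sub_add_cancel (Nat.pos_of_ne_zero hm), ← h3]
      exact IsUnit.of_mul_eq_one _ h4
    obtain ⟨bu, hbu'⟩ := hbu
    obtain ⟨a, ha⟩ := Ideal.Quotient.mk_surjective ((bu⁻¹ : (O ⧸ Ideal.span {f i})ˣ) :
      O ⧸ Ideal.span {f i})
    refine hkey a ((hmk _).mp ?_)
    rw [map_sub, map_mul, ha, hbb, ← hbu', sub_eq_zero, mul_assoc, Units.mul_inv, mul_one]

end Loc

/-- the elementary valuation-ring hypothesis `hval` of `h66a_branch` from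
`ValuationRing (O ⧸ (f))`. -/
theorem h66a_hval_of_valuationRing {O : Type*} [CommRing O] (g : O)
    [IsDomain (O ⧸ Ideal.span {g})]
    [ValuationRing (O ⧸ Ideal.span {g})] (x y : O) :
    (∃ t, g ∣ y - x * t) ∨ (∃ t, g ∣ x - y * t) := by
  have hmk : ∀ y : O, Ideal.Quotient.mk (Ideal.span {g}) y = 0 ↔ g ∣ y := fun y => by
    rw [Ideal.Quotient.eq_zero_iff_mem, Ideal.mem_span_singleton]
  rcases ValuationRing.dvd_total (Ideal.Quotient.mk (Ideal.span {g}) x)
    (Ideal.Quotient.mk (Ideal.span {g}) y) with h | h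
  · obtain ⟨tb, htb⟩ := h
    obtain ⟨t, rfl⟩ := Ideal.Quotient.mk_surjective tb
    exact Or.inl ⟨t, (hmk _).mp (by rw [map_sub, map_mul, htb, sub_self])⟩
  · obtain ⟨tb, htb⟩ := h
    obtain ⟨t, rfl⟩ := Ideal.Quotient.mk_surjective tb
    exact Or.inr ⟨t, (hmk _).mp (by rw [map_sub, map_mul, htb, sub_self])⟩

/-- the hypothesis `hval` of `h66a_branch` when the branch `O ⧸ (g)` is regular of dimension
`≤ 1`: `O` noetherian local, `g` prime and `𝔪 = (t, g)`. -/
theorem h66a_hval_of_param {O : Type*} [CommRing O] [IsDomain O] [IsLocalRing O]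
    [IsNoetherianRing O] (g t : O) (hg : Prime g) (hmax : maximalIdeal O = Ideal.span {t, g})
    (x y : O) : (∃ s, g ∣ y - x * s) ∨ (∃ s, g ∣ x - y * s) := by
  have hPr : (Ideal.span {g}).IsPrime := (Ideal.span_singleton_prime hg.ne_zero).mpr hg
  have : IsDomain (O ⧸ Ideal.span {g}) := Ideal.Quotient.isDomain _
  have : IsLocalRing (O ⧸ Ideal.span {g}) :=
    IsLocalRing.of_surjective' (Ideal.Quotient.mk _) Ideal.Quotient.mk_surjective
  have hprinc : (maximalIdeal (O ⧸ Ideal.span {g})).IsPrincipal := by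
    refine ⟨⟨Ideal.Quotient.mk _ t, le_antisymm ?_ ?_⟩⟩
    · intro ab hab
      obtain ⟨a, rfl⟩ := Ideal.Quotient.mk_surjective ab
      have ha : a ∈ maximalIdeal O := by
        rw [mem_maximalIdeal, mem_nonunits_iff]
        intro hu
        exact ((mem_maximalIdeal _).mp hab) (hu.map _)
      obtain ⟨α, β, hαβ⟩ := Ideal.mem_span_pair.mp (hmax ▸ ha)
      rw [← hαβ, map_add, map_mul, map_mul]
      have hg0 : Ideal.Quotient.mk (Ideal.span {g}) g = 0 :=
        Ideal.Quotient.eq_zero_iff_mem.mpr (Ideal.mem_span_singleton_self g)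
      rw [hg0, mul_zero, add_zero]
      exact Ideal.mul_mem_left _ _ (Ideal.subset_span rfl)
    · rw [Submodule.span_singleton_le_iff_mem, mem_maximalIdeal, mem_nonunits_iff]
      intro hu
      obtain ⟨sb, hsb⟩ := hu.exists_right_inv
      obtain ⟨s, rfl⟩ := Ideal.Quotient.mk_surjective sb
      have h1 : t * s - 1 ∈ Ideal.span {g} := by
        rw [← Ideal.Quotient.eq_zero_iff_mem, map_sub, map_mul, hsb, map_one, sub_self]
      have hgm : g ∈ maximalIdeal O := by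
        rw [mem_maximalIdeal, mem_nonunits_iff]
        exact hg.not_isUnit
      have h2 : t * s - 1 ∈ maximalIdeal O :=
        (Ideal.span_le.mpr (Set.singleton_subset_iff.mpr hgm)) h1
      have htm : t ∈ maximalIdeal O := by
        rw [hmax]
        exact Ideal.subset_span (Set.mem_insert _ _)
      have h3 : (1 : O) ∈ maximalIdeal O := by
        have : (1 : O) = t * s - (t * s - 1) := by ring
        rw [this]
        exact Ideal.sub_mem _ (Ideal.mul_mem_right _ _ htm) h2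
      exact (Ideal.ne_top_iff_one _).mp (maximalIdeal.isMaximal O).ne_top h3
  have hval : ValuationRing (O ⧸ Ideal.span {g}) :=
    ((tfae_of_isNoetherianRing_of_isLocalRing_of_isDomain (O ⧸ Ideal.span {g})).out 4 1).mp
      hprinc
  exact h66a_hval_of_valuationRing g x y

/-! ## Lemma A for a localisation-like `V` -/

section Glue

variable {O V : Type*} [CommRing O] [IsDomain O] [IsLocalRing O] [CommRing V] (φ : O →+* V)

/-- **Lemma A** for a localisation-like `V` (`hden`, `hinv`), branch values given (`hbr`). -/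
theorem h66a_glue_loc (hφ : Function.Injective φ) (q : ℕ) (hq : q.Prime) (π : O)
    (hπq : π ∣ (q : O)) {ι : Type*} [Fintype ι] (f : ι → O) (e : ι → ℕ)
    (hprime : ∀ i, Prime (f i)) (hna : ∀ i j, i ≠ j → ¬ f i ∣ f j)
    (hπ : Associated π (∏ i, f i ^ e i))
    (hpair : ∀ i j, i ≠ j → ∃ n, maximalIdeal O ^ n ≤ Ideal.span {f i, f j})
    (hden : ∀ v : V, ∃ s o : O, (∀ j, ¬ f j ∣ s) ∧ φ s * v = φ o)
    (hinv : ∀ s : O, (∀ j, ¬ f j ∣ s) → IsUnit (φ s))
    (m : ℕ) (hm : m.Coprime q) (z : V) (ε : Oˣ) (hz : φ π ∣ z ^ m * φ ε - 1)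
    (c : O) (hbr : ∀ i, ∃ a : O, a - c ∈ maximalIdeal O ∧ φ (f i) ∣ z - φ a) :
    ∃ η : Oˣ, φ π ∣ z * φ η - 1 :=
  h66a_glue_abs φ q hq π hπq f e
    (fun i => (Finset.dvd_prod_of_mem (fun j => f j ^ e j) (Finset.mem_univ i)).trans
      hπ.symm.dvd)
    hpair (h66a_crt φ f hφ e hprime hna π hπ hden hinv) m hm z ε hz c hbr

/-- **Lemma A**, all branches valuation rings (`hval`), all multiplicities positive; the only
remaining hypothesis is the compatibility `hcomp` of the branch values at the closed point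
(the toric obstruction). -/
theorem h66a_glue_val (hφ : Function.Injective φ) (q : ℕ) (hq : q.Prime) (π : O)
    (hπq : π ∣ (q : O)) {ι : Type*} [Fintype ι] (f : ι → O) (e : ι → ℕ) (he : ∀ i, e i ≠ 0)
    (hprime : ∀ i, Prime (f i)) (hna : ∀ i j, i ≠ j → ¬ f i ∣ f j)
    (hπ : Associated π (∏ i, f i ^ e i))
    (hpair : ∀ i j, i ≠ j → ∃ n, maximalIdeal O ^ n ≤ Ideal.span {f i, f j})
    (hval : ∀ i, ∀ x y : O, (∃ t, f i ∣ y - x * t) ∨ (∃ t, f i ∣ x - y * t))
    (hden : ∀ v : V, ∃ s o : O, (∀ j, ¬ f j ∣ s) ∧ φ s * v = φ o)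
    (hinv : ∀ s : O, (∀ j, ¬ f j ∣ s) → IsUnit (φ s))
    (m : ℕ) (hm : m.Coprime q) (z : V) (ε : Oˣ) (hz : φ π ∣ z ^ m * φ ε - 1)
    (hcomp : ∀ a : ι → O, (∀ i, φ (f i) ∣ z - φ (a i)) →
      ∀ i j, a i - a j ∈ maximalIdeal O) :
    ∃ η : Oˣ, φ π ∣ z * φ η - 1 := by
  have hm0 : m ≠ 0 := by
    rintro rfl
    rw [Nat.coprime_zero_left] at hm
    exact hq.ne_one hm
  have hfπ : ∀ i, φ (f i) ∣ φ π := fun i =>
    map_dvd φ (((dvd_pow_self _ (he i)).trans
      (Finset.dvd_prod_of_mem (fun j => f j ^ e j) (Finset.mem_univ i))).trans hπ.symm.dvd)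
  have hex : ∀ i, ∃ a : O, φ (f i) ∣ z - φ a := by
    intro i
    refine h66a_branch φ f hφ i (hprime i) (hval i) hden hinv m hm0 z ((ε⁻¹ : Oˣ) : O) ?_
    have h1 : z ^ m - φ ((ε⁻¹ : Oˣ) : O) = φ ((ε⁻¹ : Oˣ) : O) * (z ^ m * φ ε - 1) := by
      have h2 : φ ((ε⁻¹ : Oˣ) : O) * φ ε = 1 := by
        rw [← map_mul, Units.inv_mul, map_one]
      calc z ^ m - φ ((ε⁻¹ : Oˣ) : O)
          = z ^ m * (φ ((ε⁻¹ : Oˣ) : O) * φ ε) - φ ((ε⁻¹ : Oˣ) : O) := by rw [h2, mul_one]
        _ = _ := by ring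
    rw [h1]
    exact ((hfπ i).trans hz).mul_left _
  choose a ha using hex
  rcases isEmpty_or_nonempty ι with hι | ⟨⟨i₀⟩⟩
  · exact h66a_glue_loc φ hφ q hq π hπq f e hprime hna hπ hpair hden hinv m hm z ε hz 0
      (fun i => (hι.false i).elim)
  · exact h66a_glue_loc φ hφ q hq π hπq f e hprime hna hπ hpair hden hinv m hm z ε hz (a i₀)
      (fun i => ⟨a i, hcomp a ha i i₀, ha i⟩)

/-- **Lemma A at a point on one component** of multiplicity `e ≠ 0` whose reduction is regular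
there (`hval`): no compatibility is needed. -/
theorem h66a_glue_unibranch (hφ : Function.Injective φ) (q : ℕ) (hq : q.Prime) (π : O)
    (hπq : π ∣ (q : O)) (g : O) (e : ℕ) (he : e ≠ 0) (hg : Prime g)
    (hπ : Associated π (g ^ e))
    (hval : ∀ x y : O, (∃ t, g ∣ y - x * t) ∨ (∃ t, g ∣ x - y * t))
    (hden : ∀ v : V, ∃ s o : O, ¬ g ∣ s ∧ φ s * v = φ o)
    (hinv : ∀ s : O, ¬ g ∣ s → IsUnit (φ s))
    (m : ℕ) (hm : m.Coprime q) (z : V) (ε : Oˣ) (hz : φ π ∣ z ^ m * φ ε - 1) :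
    ∃ η : Oˣ, φ π ∣ z * φ η - 1 := by
  refine h66a_glue_val φ hφ q hq π hπq (fun _ : Unit => g) (fun _ => e) (fun _ => he)
    (fun _ => hg) (fun i j hij => absurd (Subsingleton.elim i j) hij) (by simpa using hπ)
    (fun i j hij => absurd (Subsingleton.elim i j) hij) (fun _ => hval) ?_ ?_ m hm z ε hz ?_
  · intro v
    obtain ⟨s, o, hs, hso⟩ := hden v
    exact ⟨s, o, fun _ => hs, hso⟩
  · intro s hs
    exact hinv s (hs ())
  · intro a _ i j
    rw [Subsingleton.elim i j, sub_self]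
    exact Ideal.zero_mem _

end Glue

/-! ## The form inside a field -/

/-- **Lemma A inside a field `F`**: `O ≤ V` subrings of `F`, `O` local, `V` the localisation of
`O` at the complement of `⋃ (f i)`.  If `z ^ m * ε ∈ 1 + π V` (`m` prime to `q`) and the
branch values of `z` agree, then `z * η ∈ 1 + π V` for a unit `η` of `O`. -/
theorem h66a_glue_field {F : Type*} [Field F] (O V : Subring F) [IsLocalRing O] (hOV : O ≤ V)
    (q : ℕ) (hq : q.Prime) (π : O) (hπq : π ∣ (q : O))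
    {ι : Type*} [Fintype ι] (f : ι → O) (e : ι → ℕ) (he : ∀ i, e i ≠ 0)
    (hprime : ∀ i, Prime (f i)) (hna : ∀ i j, i ≠ j → ¬ f i ∣ f j)
    (hπ : Associated π (∏ i, f i ^ e i))
    (hpair : ∀ i j, i ≠ j → ∃ n, maximalIdeal O ^ n ≤ Ideal.span {f i, f j})
    (hval : ∀ i, ∀ x y : O, (∃ t, f i ∣ y - x * t) ∨ (∃ t, f i ∣ x - y * t))
    (hden : ∀ v ∈ V, ∃ s : O, (∀ j, ¬ f j ∣ s) ∧ (s : F) * v ∈ O)
    (hinv : ∀ s : O, (∀ j, ¬ f j ∣ s) → ((s : F))⁻¹ ∈ V)
    (m : ℕ) (hm : m.Coprime q) (z : F) (hzV : z ∈ V) (ε : Oˣ)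
    (hz : ∃ y ∈ V, z ^ m * ((ε : O) : F) = 1 + (π : F) * y)
    (hcomp : ∀ a : ι → O, (∀ i, ∃ y ∈ V, z = (a i : F) + (f i : F) * y) →
      ∀ i j, a i - a j ∈ maximalIdeal O) :
    ∃ η : Oˣ, ∃ y ∈ V, z * ((η : O) : F) = 1 + (π : F) * y := by
  have hφ : Function.Injective (Subring.inclusion hOV) := Subring.inclusion_injective hOV
  have hdvd : ∀ (x : O) (w : V), Subring.inclusion hOV x ∣ w ↔
      ∃ y ∈ V, (w : F) = (x : F) * y := by
    intro x w
    constructor
    · rintro ⟨y, rfl⟩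
      exact ⟨y, y.2, rfl⟩
    · rintro ⟨y, hy, h⟩
      exact ⟨⟨y, hy⟩, Subtype.ext h⟩
  rcases isEmpty_or_nonempty ι with hι | ⟨⟨j₀⟩⟩
  · -- no component: `π` is a unit of `O`
    have hπu : IsUnit π := by
      have h1 : (∏ i, f i ^ e i) = 1 := Finset.prod_of_isEmpty _
      rw [h1] at hπ
      exact (associated_one_iff_isUnit).mp hπ
    obtain ⟨πi, hπi⟩ := hπu.exists_right_inv
    refine ⟨1, (πi : F) * (z - 1), V.mul_mem (hOV πi.2) (V.sub_mem hzV V.one_mem), ?_⟩
    have h2 : (π : F) * (πi : F) = 1 := by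
      have := congrArg (Subtype.val : O → F) hπi
      simpa using this
    rw [← mul_assoc, h2]
    simp
  obtain ⟨η, hη⟩ := h66a_glue_val (Subring.inclusion hOV) hφ q hq π hπq f e he hprime hna hπ
    hpair hval
    (by
      intro v
      obtain ⟨s, hs, hsv⟩ := hden v v.2
      exact ⟨s, ⟨_, hsv⟩, hs, Subtype.ext rfl⟩)
    (by
      intro s hs
      have hs0 : (s : F) ≠ 0 := by
        intro h0
        refine hs j₀ ?_
        have : s = 0 := Subtype.ext h0
        rw [this]; exact dvd_zero _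
      refine IsUnit.of_mul_eq_one ⟨((s : F))⁻¹, hinv s hs⟩ (Subtype.ext ?_)
      show (s : F) * ((s : F))⁻¹ = 1
      exact mul_inv_cancel₀ hs0)
    m hm ⟨z, hzV⟩ ε
    (by
      obtain ⟨y, hy, h⟩ := hz
      rw [hdvd]
      exact ⟨y, hy, by
        show z ^ m * ((ε : O) : F) - 1 = (π : F) * y
        rw [h]; ring⟩)
    (by
      intro a ha
      refine hcomp a fun i => ?_
      obtain ⟨y, hy, h⟩ := (hdvd _ _).mp (ha i)
      refine ⟨y, hy, ?_⟩
      have h' : z - (a i : F) = (f i : F) * y := h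
      rw [← h']; ring)
  obtain ⟨y, hy, h⟩ := (hdvd _ _).mp hη
  refine ⟨η, y, hy, ?_⟩
  have h' : z * ((η : O) : F) - 1 = (π : F) * y := h
  rw [← h']; ring

end Fermat.Agent.S36
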