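import Mathlib

/-!
# S36 (route input, helper80): factoriality of a two-dimensional local ring from one smooth branch

Abstract commutative algebra, Mathlib only.

* `h80u_prime_principal` : `R` noetherian local, `a ∈ 𝔪`, `R ⧸ (a)` a principal ideal ring,
  `𝔭` a prime with `a ∉ 𝔭`.  Then `𝔭` is principal.  (Five lines: `𝔭 = (f) + a 𝔭` and Nakayama.)
* `h80u_ufd` : if moreover `R` is a domain and `a` is a prime element, `R` is a UFD
  (Kaplansky's criterion), hence integrally closed.
* `h80u_exists_unit_mul_pow`, `h80u_noZeroDivisors_of_principal`,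
  `h80u_isPrincipalIdealRing_of_principal` : a noetherian local ring with principal maximal ideal
  `(b)`: every nonzero element is `unit * b ^ n`; it is a principal ideal ring, and a domain as
  soon as `b` is not nilpotent.
* `h80u_prime_of_two_gen`, `h80u_ufd_of_two_gen` : a noetherian local domain with maximal ideal
  `(a, b)`, `a ≠ 0`, `b ^ n ∉ (a)` for all `n` ("regular of dimension two") is a UFD, `a` is a
  prime element and `R ⧸ (a)` is a principal ideal domain.

No Auslander–Buchsbaum, no regular local rings.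
-/

set_option autoImplicit false
set_option linter.unusedSectionVars false
set_option linter.unnecessarySimpa false

open IsLocalRing

namespace Fermat.Agent.S36

variable {R : Type*} [CommRing R]

/-- **the five-line lemma.**  In a noetherian local ring `R` with `a ∈ 𝔪` such that `R ⧸ (a)` is
a principal ideal ring, every prime ideal not containing `a` is principal. -/
theorem h80u_prime_principal [IsNoetherianRing R] [IsLocalRing R]
    (a : R) (ha : a ∈ maximalIdeal R)
    (hPIR : IsPrincipalIdealRing (R ⧸ Ideal.span {a}))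
    (p : Ideal R) [hp : p.IsPrime] (hap : a ∉ p) : p.IsPrincipal := by
  classical
  -- the image of `p` in `R ⧸ (a)` is principal
  have h1 : (p.map (Ideal.Quotient.mk (Ideal.span {a}))).IsPrincipal :=
    hPIR.principal _
  obtain ⟨fbar, hfbar⟩ := h1
  have hfmem : fbar ∈ p.map (Ideal.Quotient.mk (Ideal.span {a})) := by
    rw [hfbar]; exact Submodule.mem_span_singleton_self fbar
  rw [Ideal.mem_map_iff_of_surjective _ Ideal.Quotient.mk_surjective] at hfmem
  obtain ⟨f, hfp, rfl⟩ := hfmem
  refine ⟨f, ?_⟩
  apply le_antisymm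
  · -- Nakayama
    have hle : p ≤ Ideal.span {f} ⊔ Ideal.span {a} • p := by
      intro g hg
      have hg1 : Ideal.Quotient.mk (Ideal.span {a}) g ∈
          p.map (Ideal.Quotient.mk (Ideal.span {a})) := Ideal.mem_map_of_mem _ hg
      rw [hfbar] at hg1
      obtain ⟨hbar, hh⟩ := Submodule.mem_span_singleton.mp hg1
      obtain ⟨h, rfl⟩ := Ideal.Quotient.mk_surjective hbar
      have h2 : g - h * f ∈ Ideal.span {a} := by
        rw [← Ideal.Quotient.eq]
        rw [map_mul]
        simpa [smul_eq_mul] using hh.symm
      obtain ⟨c, hc⟩ := Ideal.mem_span_singleton'.mp h2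
      have hcp : c ∈ p := by
        have h3 : c * a ∈ p := by
          rw [hc]
          exact p.sub_mem hg (p.mul_mem_left h hfp)
        rcases hp.mem_or_mem h3 with h4 | h4
        · exact h4
        · exact absurd h4 hap
      have h5 : g = h * f + a * c := by
        have : g - h * f = c * a := hc.symm
        linear_combination this
      rw [h5]
      refine Submodule.add_mem_sup ?_ ?_
      · exact Ideal.mul_mem_left _ _ (Ideal.subset_span (Set.mem_singleton f))
      · exact Submodule.smul_mem_smul (Ideal.subset_span (Set.mem_singleton a)) hcp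
    have hJ : Ideal.span {a} ≤ Ideal.jacobson (⊥ : Ideal R) := by
      rw [IsLocalRing.jacobson_eq_maximalIdeal (⊥ : Ideal R) bot_ne_top]
      rw [Ideal.span_le]
      intro x hx
      rw [Set.mem_singleton_iff] at hx
      rw [hx]; exact ha
    have hfg : (p : Submodule R R).FG := (isNoetherianRing_iff_ideal_fg R).mp inferInstance p
    exact Submodule.le_of_le_smul_of_le_jacobson_bot hfg hJ hle
  · change Ideal.span {f} ≤ p
    rw [Ideal.span_le]
    intro x hx
    rw [Set.mem_singleton_iff] at hx
    rw [hx]; exact hfp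

/-- **factoriality from one smooth branch.**  A noetherian local domain `R` with a prime element
`a ∈ 𝔪` such that `R ⧸ (a)` is a principal ideal ring is a unique factorisation domain. -/
theorem h80u_ufd [IsDomain R] [IsNoetherianRing R] [IsLocalRing R]
    (a : R) (ha : a ∈ maximalIdeal R) (hprime : Prime a)
    (hPIR : IsPrincipalIdealRing (R ⧸ Ideal.span {a})) : UniqueFactorizationMonoid R := by
  refine UniqueFactorizationMonoid.iff_exists_prime_mem_of_isPrime.mpr fun I hI hIp => ?_
  by_cases haI : a ∈ I
  · exact ⟨a, haI, hprime⟩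
  · have := hIp
    obtain ⟨f, hf⟩ := h80u_prime_principal a ha hPIR I haI
    have hf' : I = Ideal.span {f} := hf
    have hf0 : f ≠ 0 := by
      rintro rfl
      apply hI
      rw [hf']
      simp
    refine ⟨f, ?_, ?_⟩
    · rw [hf']; exact Ideal.subset_span (Set.mem_singleton f)
    · rw [← Ideal.span_singleton_prime hf0, ← hf']
      exact hIp

/-- integrally closed, as a corollary. -/
theorem h80u_integrallyClosed [IsDomain R] [IsNoetherianRing R] [IsLocalRing R]
    (a : R) (ha : a ∈ maximalIdeal R) (hprime : Prime a)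
    (hPIR : IsPrincipalIdealRing (R ⧸ Ideal.span {a})) : IsIntegrallyClosed R := by
  have := h80u_ufd a ha hprime hPIR
  infer_instance

section PrincipalMax

variable {S : Type*} [CommRing S] [IsNoetherianRing S] [IsLocalRing S]

/-- in a noetherian local ring with maximal ideal `(b)`, every nonzero element is a unit times a
power of `b`. -/
theorem h80u_exists_unit_mul_pow (b : S) (hb : maximalIdeal S = Ideal.span {b})
    (x : S) (hx : x ≠ 0) : ∃ (n : ℕ) (u : S), IsUnit u ∧ x = u * b ^ n := by
  classical
  have hK : ⨅ i : ℕ, (maximalIdeal S) ^ i = ⊥ :=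
    Ideal.iInf_pow_eq_bot_of_isLocalRing (maximalIdeal S) (maximalIdeal.isMaximal S).ne_top
  have hex : ∃ n : ℕ, x ∉ (maximalIdeal S) ^ n := by
    by_contra hcon
    push Not at hcon
    have : x ∈ ⨅ i : ℕ, (maximalIdeal S) ^ i := by
      rw [Ideal.mem_iInf]; exact hcon
    rw [hK] at this
    exact hx (by simpa using this)
  have h0 : x ∈ (maximalIdeal S) ^ 0 := by simp
  have hpos : 0 < Nat.find hex := by
    rcases Nat.eq_zero_or_pos (Nat.find hex) with h | h
    · exact absurd h0 (h ▸ Nat.find_spec hex)
    · exact h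
  obtain ⟨n, hn⟩ : ∃ n, Nat.find hex = n + 1 := ⟨Nat.find hex - 1, by omega⟩
  have hmem : x ∈ (maximalIdeal S) ^ n := by
    by_contra h
    have := Nat.find_min' hex h
    omega
  have hnot : x ∉ (maximalIdeal S) ^ (n + 1) := hn ▸ Nat.find_spec hex
  rw [hb, Ideal.span_singleton_pow] at hmem hnot
  obtain ⟨u, hu⟩ := Ideal.mem_span_singleton'.mp hmem
  refine ⟨n, u, ?_, by rw [← hu]⟩
  by_contra hunit
  have hum : u ∈ maximalIdeal S := (IsLocalRing.mem_maximalIdeal u).mpr hunit
  rw [hb] at hum
  obtain ⟨c, hc⟩ := Ideal.mem_span_singleton'.mp hum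
  apply hnot
  rw [Ideal.mem_span_singleton']
  exact ⟨c, by rw [← hu, ← hc, pow_succ]; ring⟩

/-- a noetherian local ring with maximal ideal `(b)`, `b` not nilpotent, has no zero divisors. -/
theorem h80u_noZeroDivisors_of_principal (b : S) (hb : maximalIdeal S = Ideal.span {b})
    (hnil : ∀ n : ℕ, b ^ n ≠ 0) : NoZeroDivisors S := by
  refine ⟨fun {x y} hxy => ?_⟩
  by_contra hcon
  push Not at hcon
  obtain ⟨n, u, hu, rfl⟩ := h80u_exists_unit_mul_pow b hb x hcon.1
  obtain ⟨m, u', hu', rfl⟩ := h80u_exists_unit_mul_pow b hb y hcon.2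
  have h1 : (u * u') * b ^ (n + m) = 0 := by
    rw [← hxy, pow_add]; ring
  have h2 : b ^ (n + m) = 0 := by
    have := (hu.mul hu').mul_right_eq_zero.mp h1
    exact this
  exact hnil _ h2

/-- a noetherian local ring with principal maximal ideal is a principal ideal ring. -/
theorem h80u_isPrincipalIdealRing_of_principal (b : S) (hb : maximalIdeal S = Ideal.span {b}) :
    IsPrincipalIdealRing S := by
  classical
  refine ⟨fun I => ?_⟩
  by_cases hI : I = ⊥
  · rw [hI]; exact ⟨0, by simp⟩
  have hex : ∃ n : ℕ, b ^ n ∈ I := by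
    obtain ⟨x, hxI, hx0⟩ := Submodule.exists_mem_ne_zero_of_ne_bot hI
    obtain ⟨n, u, hu, rfl⟩ := h80u_exists_unit_mul_pow b hb x hx0
    refine ⟨n, ?_⟩
    obtain ⟨v, hv⟩ := hu.exists_left_inv
    have : b ^ n = v * (u * b ^ n) := by rw [← mul_assoc, hv, one_mul]
    rw [this]
    exact I.mul_mem_left v hxI
  refine ⟨b ^ Nat.find hex, ?_⟩
  apply le_antisymm
  · intro y hy
    change y ∈ Ideal.span {b ^ Nat.find hex}
    by_cases hy0 : y = 0
    · rw [hy0]; exact Ideal.zero_mem _
    obtain ⟨m, u, hu, rfl⟩ := h80u_exists_unit_mul_pow b hb y hy0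
    have hbm : b ^ m ∈ I := by
      obtain ⟨v, hv⟩ := hu.exists_left_inv
      have : b ^ m = v * (u * b ^ m) := by rw [← mul_assoc, hv, one_mul]
      rw [this]
      exact I.mul_mem_left v hy
    have hle : Nat.find hex ≤ m := Nat.find_min' hex hbm
    obtain ⟨k, rfl⟩ := Nat.exists_eq_add_of_le hle
    rw [Ideal.mem_span_singleton']
    exact ⟨u * b ^ k, by rw [pow_add]; ring⟩
  · change Ideal.span {b ^ Nat.find hex} ≤ I
    rw [Ideal.span_le]
    intro x hx
    rw [Set.mem_singleton_iff] at hx
    rw [hx]
    exact Nat.find_spec hex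

end PrincipalMax

section TwoGen

variable {R : Type*} [CommRing R] [IsDomain R] [IsNoetherianRing R] [IsLocalRing R]

/-- **a two-dimensional regular local ring is factorial**, in elementary form: a noetherian local
domain whose maximal ideal is generated by two elements `a ≠ 0`, `b`, with `b` not nilpotent
modulo `a`, is a UFD; moreover `a` is a prime element and `R ⧸ (a)` is a principal ideal
domain. -/
theorem h80u_prime_of_two_gen (a b : R) (ha0 : a ≠ 0)
    (hmax : maximalIdeal R = Ideal.span {a, b}) (hnil : ∀ n : ℕ, b ^ n ∉ Ideal.span {a}) :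
    Prime a ∧ IsPrincipalIdealRing (R ⧸ Ideal.span {a}) := by
  classical
  have ham : a ∈ maximalIdeal R := by
    rw [hmax]; exact Ideal.subset_span (by simp)
  have hne : Ideal.span {a} ≠ ⊤ := by
    intro h
    have h1 : (1 : R) ∈ Ideal.span {a} := by rw [h]; trivial
    exact hnil 0 (by simpa using h1)
  have hnt : Nontrivial (R ⧸ Ideal.span {a}) := Ideal.Quotient.nontrivial_iff.mpr hne
  have hloc : IsLocalRing (R ⧸ Ideal.span {a}) :=
    IsLocalRing.of_surjective' (Ideal.Quotient.mk (Ideal.span {a})) Ideal.Quotient.mk_surjective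
  have hmaxS : maximalIdeal (R ⧸ Ideal.span {a}) =
      Ideal.span {Ideal.Quotient.mk (Ideal.span {a}) b} := by
    apply le_antisymm
    · intro x hx
      obtain ⟨y, rfl⟩ := Ideal.Quotient.mk_surjective x
      have hy : y ∈ maximalIdeal R := by
        rw [IsLocalRing.mem_maximalIdeal, mem_nonunits_iff] at hx ⊢
        exact fun h => hx (h.map _)
      rw [hmax, Ideal.mem_span_pair] at hy
      obtain ⟨c, d, rfl⟩ := hy
      rw [Ideal.mem_span_singleton']
      refine ⟨Ideal.Quotient.mk _ d, ?_⟩
      rw [map_add, map_mul, map_mul]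
      have : Ideal.Quotient.mk (Ideal.span {a}) a = 0 :=
        Ideal.Quotient.eq_zero_iff_mem.mpr (Ideal.subset_span (Set.mem_singleton a))
      rw [this, mul_zero, zero_add]
    · rw [Ideal.span_le]
      intro x hx
      rw [Set.mem_singleton_iff] at hx
      rw [hx]
      change _ ∈ maximalIdeal _
      rw [IsLocalRing.mem_maximalIdeal, mem_nonunits_iff]
      intro hu
      obtain ⟨v, hv⟩ := hu.exists_left_inv
      obtain ⟨w, rfl⟩ := Ideal.Quotient.mk_surjective v
      have h1 : w * b - 1 ∈ Ideal.span {a} := by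
        rw [← Ideal.Quotient.eq_zero_iff_mem, map_sub, map_mul, hv, map_one, sub_self]
      have h2 : w * b - 1 ∈ maximalIdeal R :=
        (Ideal.span_le.mpr (by
          intro z hz
          rw [Set.mem_singleton_iff] at hz
          rw [hz]; exact ham)) h1
      have hb : b ∈ maximalIdeal R := by
        rw [hmax]; exact Ideal.subset_span (by simp)
      have h3 : (1 : R) ∈ maximalIdeal R := by
        have := (maximalIdeal R).sub_mem ((maximalIdeal R).mul_mem_left w hb) h2
        simpa using this
      exact (maximalIdeal.isMaximal R).ne_top ((Ideal.eq_top_iff_one _).mpr h3)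
  have hnilS : ∀ n : ℕ, (Ideal.Quotient.mk (Ideal.span {a}) b) ^ n ≠ 0 := by
    intro n h
    rw [← map_pow, Ideal.Quotient.eq_zero_iff_mem] at h
    exact hnil n h
  have hPIR : IsPrincipalIdealRing (R ⧸ Ideal.span {a}) :=
    h80u_isPrincipalIdealRing_of_principal _ hmaxS
  have hNZD : NoZeroDivisors (R ⧸ Ideal.span {a}) :=
    h80u_noZeroDivisors_of_principal _ hmaxS hnilS
  have hdom : IsDomain (R ⧸ Ideal.span {a}) := NoZeroDivisors.to_isDomain _
  have hprime : (Ideal.span {a}).IsPrime := (Ideal.Quotient.isDomain_iff_prime _).mp hdom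
  exact ⟨(Ideal.span_singleton_prime ha0).mp hprime, hPIR⟩

/-- **factoriality of a noetherian local domain with two-generated maximal ideal** (regular of
dimension two). -/
theorem h80u_ufd_of_two_gen (a b : R) (ha0 : a ≠ 0)
    (hmax : maximalIdeal R = Ideal.span {a, b}) (hnil : ∀ n : ℕ, b ^ n ∉ Ideal.span {a}) :
    UniqueFactorizationMonoid R := by
  obtain ⟨hp, hPIR⟩ := h80u_prime_of_two_gen a b ha0 hmax hnil
  have ham : a ∈ maximalIdeal R := by
    rw [hmax]; exact Ideal.subset_span (by simp)
  exact h80u_ufd a ham hp hPIR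

end TwoGen

end Fermat.Agent.S36
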