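import Mathlib
import Fermat.Agent.S36.H62RegIface
import Fermat.Agent.S36.H66Chart
import Fermat.Agent.S36.H80Ufd

/-!
# S36, block LOC (helper16): from REG (`H62RegAt`) to the local data of Lemma A

Abstract (Mathlib + `H62RegIface` + `H66Chart` + `H80Ufd`).  `B ⊆ F` a noetherian chart, `𝔫` a
closed point of the fibre `π = 0`, `O = B_𝔫 = h66cO B 𝔫 ⊆ F`.

* `h16lIncl`, `h16l_isLocalization`, `h16l_isNoetherianRing` : `O` is the localisation of `B` at
  `𝔫`; it is noetherian.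
* `h16l_vertical` : for a vertical prime `π ∈ P ⊊ 𝔫` with `𝔫 = P + (t)` locally and `𝔫 = (x, y)`
  locally: `P O = (a)` with `a` a prime element of `O`, `O` is factorial and `O / (a)` is a
  principal ideal domain (the branch is regular).
-/

set_option autoImplicit false
set_option linter.unusedSectionVars false
set_option linter.style.haveILetI false

open IsLocalRing

namespace Fermat.Agent.S36

section Loc

variable {A : Type*} [CommRing A] {F : Type*} [Field F] [Algebra A F]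
variable (B : Subalgebra A F) (𝔫 : Ideal B) [h𝔫 : 𝔫.IsPrime]

/-- the inclusion `B → B_𝔫`. -/
def h16lIncl : B →+* h66cO B 𝔫 where
  toFun b := ⟨(b : F), h66c_B_le_O b.2⟩
  map_one' := rfl
  map_mul' _ _ := rfl
  map_zero' := rfl
  map_add' _ _ := rfl

theorem h16l_incl_coe (b : B) : ((h16lIncl B 𝔫 b : h66cO B 𝔫) : F) = (b : F) := rfl

theorem h16l_incl_injective : Function.Injective (h16lIncl B 𝔫) := by
  intro a b h
  apply Subtype.ext
  exact congrArg (fun z : h66cO B 𝔫 => (z : F)) h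

theorem h16l_isUnit_incl {s : B} (hs : s ∉ 𝔫) : IsUnit (h16lIncl B 𝔫 s) := by
  rw [h66c_isUnit_iff]
  exact ⟨1, s, (Ideal.ne_top_iff_one 𝔫).mp h𝔫.ne_top, hs, by simp [h16l_incl_coe]⟩

/-- `B_𝔫` is the localisation of `B` at `𝔫`. -/
theorem h16l_isLocalization :
    letI : Algebra B (h66cO B 𝔫) := (h16lIncl B 𝔫).toAlgebra
    IsLocalization 𝔫.primeCompl (h66cO B 𝔫) := by
  letI : Algebra B (h66cO B 𝔫) := (h16lIncl B 𝔫).toAlgebra
  rw [isLocalization_iff]
  refine ⟨fun y => h16l_isUnit_incl B 𝔫 y.2, fun z => ?_, fun {x y} h => ?_⟩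
  · obtain ⟨s, hs, hsz⟩ := z.2
    refine ⟨(⟨_, hsz⟩, ⟨s, hs⟩), ?_⟩
    apply Subtype.ext
    show (z : F) * (s : F) = (s : F) * (z : F)
    ring
  · exact ⟨1, by rw [h16l_incl_injective B 𝔫 h]⟩

theorem h16l_isNoetherianRing [IsNoetherianRing B] : IsNoetherianRing (h66cO B 𝔫) := by
  letI : Algebra B (h66cO B 𝔫) := (h16lIncl B 𝔫).toAlgebra
  haveI := h16l_isLocalization B 𝔫
  exact IsLocalization.isNoetherianRing 𝔫.primeCompl (h66cO B 𝔫) inferInstance

/-- elements of `𝔫` are in the maximal ideal of `B_𝔫`. -/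
theorem h16l_incl_mem_max {b : B} (hb : b ∈ 𝔫) : h16lIncl B 𝔫 b ∈ maximalIdeal (h66cO B 𝔫) := by
  rw [h66c_mem_maximalIdeal_iff]
  exact ⟨1, b, (Ideal.ne_top_iff_one 𝔫).mp h𝔫.ne_top, hb, by simp [h16l_incl_coe]⟩

/-- the extension of an ideal `I` of `B` to `B_𝔫`, elementwise. -/
theorem h16l_mem_map_iff (I : Ideal B) (z : h66cO B 𝔫) :
    z ∈ I.map (h16lIncl B 𝔫) ↔ ∃ s : B, s ∉ 𝔫 ∧ ∃ b ∈ I, (s : F) * (z : F) = b := by
  letI : Algebra B (h66cO B 𝔫) := (h16lIncl B 𝔫).toAlgebra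
  haveI := h16l_isLocalization B 𝔫
  constructor
  · intro hz
    have hz' : z ∈ I.map (algebraMap B (h66cO B 𝔫)) := hz
    rw [IsLocalization.mem_map_algebraMap_iff 𝔫.primeCompl] at hz'
    obtain ⟨⟨⟨b, hb⟩, s⟩, h⟩ := hz'
    refine ⟨s, s.2, b, hb, ?_⟩
    have := congrArg (fun z : h66cO B 𝔫 => (z : F)) h
    simp only at this
    rw [mul_comm]
    exact this
  · rintro ⟨s, hs, b, hb, h⟩
    have hu := h16l_isUnit_incl B 𝔫 hs
    have h1 : h16lIncl B 𝔫 s * z = h16lIncl B 𝔫 b := Subtype.ext h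
    have h2 : z = ↑(hu.unit⁻¹) * h16lIncl B 𝔫 b := by
      rw [← h1, ← mul_assoc, IsUnit.val_inv_mul, one_mul]
    rw [h2]
    exact Ideal.mul_mem_left _ _ (Ideal.mem_map_of_mem _ hb)

/-- the contraction of the extension of a prime `P ≤ 𝔫`. -/
theorem h16l_incl_mem_map_iff (P : Ideal B) [hP : P.IsPrime] (hP𝔫 : P ≤ 𝔫) (b : B) :
    h16lIncl B 𝔫 b ∈ P.map (h16lIncl B 𝔫) ↔ b ∈ P := by
  constructor
  · intro h
    obtain ⟨s, hs, c, hc, h⟩ := (h16l_mem_map_iff B 𝔫 P _).mp h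
    have h1 : s * b = c := Subtype.ext (by push_cast; exact h)
    have h2 : s * b ∈ P := by rw [h1]; exact hc
    exact (hP.mem_or_mem h2).resolve_left fun h => hs (hP𝔫 h)
  · exact fun h => Ideal.mem_map_of_mem _ h

theorem h16l_map_isPrime (P : Ideal B) [hP : P.IsPrime] (hP𝔫 : P ≤ 𝔫) :
    (P.map (h16lIncl B 𝔫)).IsPrime := by
  letI : Algebra B (h66cO B 𝔫) := (h16lIncl B 𝔫).toAlgebra
  haveI := h16l_isLocalization B 𝔫
  have hdisj : Disjoint (𝔫.primeCompl : Set B) (P : Set B) := by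
    rw [Set.disjoint_left]
    intro b hb hb'
    exact hb (hP𝔫 hb')
  exact IsLocalization.isPrime_of_isPrime_disjoint 𝔫.primeCompl (h66cO B 𝔫) P hP hdisj

/-- `𝔫 B_𝔫` is the maximal ideal. -/
theorem h16l_map_eq_max : 𝔫.map (h16lIncl B 𝔫) = maximalIdeal (h66cO B 𝔫) := by
  ext z
  rw [h16l_mem_map_iff, h66c_mem_maximalIdeal_iff]
  constructor
  · rintro ⟨s, hs, b, hb, h⟩
    exact ⟨s, b, hs, hb, h⟩
  · rintro ⟨s, b, hs, hb, h⟩
    exact ⟨s, hs, b, hb, h⟩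

/-- "locally at `𝔫`" generation, in `B_𝔫`. -/
theorem h16l_max_le_of_loc (I : Ideal B)
    (hgen : ∀ z ∈ 𝔫, ∃ s, s ∉ 𝔫 ∧ s * z ∈ I) :
    maximalIdeal (h66cO B 𝔫) ≤ I.map (h16lIncl B 𝔫) := by
  intro z hz
  rw [h66c_mem_maximalIdeal_iff] at hz
  obtain ⟨s, b, hs, hb, h⟩ := hz
  obtain ⟨s', hs', hsb⟩ := hgen b hb
  rw [h16l_mem_map_iff]
  refine ⟨s' * s, fun h => (h𝔫.mem_or_mem h).elim hs' hs, s' * b, hsb, ?_⟩
  push_cast
  rw [mul_assoc, h]

end Loc


/-! ## A vertical prime of a two-generated local ring -/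

section Local

variable {O : Type*} [CommRing O] [IsDomain O] [IsLocalRing O] [IsNoetherianRing O]

/-- in a noetherian local domain with principal maximal ideal, the only nonzero prime is the
maximal ideal. -/
theorem h16l_prime_eq_max_of_principal (x : O) (hm : maximalIdeal O = Ideal.span {x})
    (P : Ideal O) [hP : P.IsPrime] (hP0 : P ≠ ⊥) : P = maximalIdeal O := by
  apply le_antisymm (IsLocalRing.le_maximalIdeal hP.ne_top)
  obtain ⟨z, hz, hz0⟩ := Submodule.exists_mem_ne_zero_of_ne_bot hP0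
  obtain ⟨n, u, hu, hzu⟩ := h80u_exists_unit_mul_pow x hm z hz0
  have h1 : x ^ n ∈ P := by
    have h2 : u * x ^ n ∈ P := hzu ▸ hz
    rcases hP.mem_or_mem h2 with h | h
    · exact absurd (P.eq_top_of_isUnit_mem h hu) hP.ne_top
    · exact h
  have h3 : x ∈ P := hP.mem_of_pow_mem n h1
  rw [hm, Ideal.span_singleton_le_iff_mem]
  exact h3

/-- Nakayama: a prime `P ≤ (a, b)`, `a ∈ P`, `b ∉ P`, is `(a)`. -/
theorem h16l_prime_eq_span (a b : O) (hm : maximalIdeal O = Ideal.span {a, b})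
    (P : Ideal O) [hP : P.IsPrime] (ha : a ∈ P) (hb : b ∉ P) : P = Ideal.span {a} := by
  have hbm : b ∈ maximalIdeal O := by
    rw [hm]; exact Ideal.subset_span (by simp)
  have hle : P ≤ maximalIdeal O := IsLocalRing.le_maximalIdeal hP.ne_top
  apply le_antisymm _ ((Ideal.span_singleton_le_iff_mem _).mpr ha)
  have hstep : P ≤ Ideal.span {a} ⊔ Ideal.span {b} • P := by
    intro z hz
    have hz' := hle hz
    rw [hm, Ideal.mem_span_pair] at hz'
    obtain ⟨u, v, huv⟩ := hz'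
    have hvb : v * b ∈ P := by
      have : v * b = z - u * a := by rw [← huv]; ring
      rw [this]
      exact P.sub_mem hz (P.mul_mem_left _ ha)
    have hv : v ∈ P := (hP.mem_or_mem hvb).resolve_right hb
    rw [← huv]
    refine Ideal.add_mem _ (Ideal.mem_sup_left (Ideal.mul_mem_left _ _
      (Ideal.mem_span_singleton_self _))) (Ideal.mem_sup_right ?_)
    rw [mul_comm]
    exact Ideal.mul_mem_mul (Ideal.mem_span_singleton_self _) hv
  have hjac : Ideal.span {b} ≤ (⊥ : Ideal O).jacobson := by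
    rw [IsLocalRing.jacobson_eq_maximalIdeal (⊥ : Ideal O) bot_ne_top,
      Ideal.span_singleton_le_iff_mem]
    exact hbm
  exact Submodule.le_of_le_smul_of_le_jacobson_bot (IsNoetherian.noetherian _) hjac hstep

/-- the key step, with the first generator transversal to `P`. -/
theorem h16l_vertical_aux (x y t : O) (hxy : maximalIdeal O = Ideal.span {x, y})
    (P : Ideal O) [hP : P.IsPrime] (hP0 : P ≠ ⊥) (hPm : P ≠ maximalIdeal O)
    (htP : t ∉ P) (p₁ p₂ c₁ c₂ : O) (hp₁ : p₁ ∈ P) (hp₂ : p₂ ∈ P)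
    (hx : x = p₁ + c₁ * t) (hy : y = p₂ + c₂ * t) (hc₁ : IsUnit c₁) :
    ∃ a b : O, a ≠ 0 ∧ P = Ideal.span {a} ∧ maximalIdeal O = Ideal.span {a, b} ∧
      ∀ n : ℕ, b ^ n ∉ Ideal.span {a} := by
  obtain ⟨d, hd⟩ := hc₁.exists_left_inv
  -- `d * c₁ = 1`
  set a : O := p₂ - c₂ * d * p₁ with ha
  have haP : a ∈ P := P.sub_mem hp₂ (P.mul_mem_left _ hp₁)
  have hya : y = a + c₂ * d * x := by
    have h1 : c₂ * t = c₂ * (d * c₁) * t := by rw [hd, mul_one]
    rw [ha, hx, hy, h1]; ring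
  have hxP : x ∉ P := by
    intro h
    have h1 : c₁ * t ∈ P := by
      have : c₁ * t = x - p₁ := by rw [hx]; ring
      rw [this]
      exact P.sub_mem h hp₁
    rcases hP.mem_or_mem h1 with h2 | h2
    · exact hP.ne_top (P.eq_top_of_isUnit_mem h2 hc₁)
    · exact htP h2
  have hm : maximalIdeal O = Ideal.span {a, x} := by
    rw [hxy]
    apply le_antisymm
    · rw [Ideal.span_le]
      intro z hz
      rcases hz with rfl | rfl
      · exact Ideal.subset_span (by simp)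
      · rw [SetLike.mem_coe, hya, Ideal.mem_span_pair]
        exact ⟨1, c₂ * d, by ring⟩
    · rw [Ideal.span_le]
      intro z hz
      rcases hz with rfl | rfl
      · rw [SetLike.mem_coe, Ideal.mem_span_pair]
        exact ⟨-(c₂ * d), 1, by rw [hya]; ring⟩
      · exact Ideal.subset_span (by simp)
  have hPa : P = Ideal.span {a} := h16l_prime_eq_span a x hm P haP hxP
  have ha0 : a ≠ 0 := by
    intro h0
    apply hPm
    have hm' : maximalIdeal O = Ideal.span {x} := by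
      rw [hm, h0]
      apply le_antisymm
      · rw [Ideal.span_le]
        intro z hz
        rcases hz with rfl | rfl
        · exact Ideal.zero_mem _
        · exact Ideal.subset_span (by simp)
      · exact Ideal.span_mono (by simp)
    exact h16l_prime_eq_max_of_principal x hm' P hP0
  refine ⟨a, x, ha0, hPa, hm, fun n hn => ?_⟩
  rw [← hPa] at hn
  exact hxP (hP.mem_of_pow_mem n hn)

/-- **a vertical prime of a two-generated local ring is principal**, generated by an element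
`a` with `𝔪 = (a, b)`, `b` not nilpotent modulo `a`. -/
theorem h16l_vertical_local (x y t : O) (hxy : maximalIdeal O = Ideal.span {x, y})
    (ht : t ∈ maximalIdeal O)
    (P : Ideal O) [hP : P.IsPrime] (hP0 : P ≠ ⊥) (hPm : P ≠ maximalIdeal O)
    (hPt : maximalIdeal O ≤ P ⊔ Ideal.span {t}) :
    ∃ a b : O, a ≠ 0 ∧ P = Ideal.span {a} ∧ maximalIdeal O = Ideal.span {a, b} ∧
      ∀ n : ℕ, b ^ n ∉ Ideal.span {a} := by
  have hle : P ≤ maximalIdeal O := IsLocalRing.le_maximalIdeal hP.ne_top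
  have htP : t ∉ P := by
    intro h
    apply hPm
    apply le_antisymm hle
    refine hPt.trans (sup_le le_rfl ?_)
    rw [Ideal.span_singleton_le_iff_mem]
    exact h
  have hxm : x ∈ maximalIdeal O := by
    rw [hxy]; exact Ideal.subset_span (by simp)
  have hym : y ∈ maximalIdeal O := by
    rw [hxy]; exact Ideal.subset_span (by simp)
  obtain ⟨p₁, hp₁, w₁, hw₁, hx⟩ := Submodule.mem_sup.mp (hPt hxm)
  obtain ⟨c₁, rfl⟩ := Ideal.mem_span_singleton'.mp hw₁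
  obtain ⟨p₂, hp₂, w₂, hw₂, hy⟩ := Submodule.mem_sup.mp (hPt hym)
  obtain ⟨c₂, rfl⟩ := Ideal.mem_span_singleton'.mp hw₂
  have ht' := ht
  rw [hxy, Ideal.mem_span_pair] at ht'
  obtain ⟨α, β, hαβ⟩ := ht'
  have h1 : (1 - (α * c₁ + β * c₂)) * t ∈ P := by
    have : (1 - (α * c₁ + β * c₂)) * t = α * p₁ + β * p₂ := by
      have e : t = α * (p₁ + c₁ * t) + β * (p₂ + c₂ * t) := by
        rw [hx, hy, hαβ]
      linear_combination e
    rw [this]
    exact P.add_mem (P.mul_mem_left _ hp₁) (P.mul_mem_left _ hp₂)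
  have h2 : 1 - (α * c₁ + β * c₂) ∈ maximalIdeal O :=
    hle ((hP.mem_or_mem h1).resolve_right htP)
  have h3 : IsUnit (α * c₁ + β * c₂) := by
    by_contra hnu
    have h4 : α * c₁ + β * c₂ ∈ maximalIdeal O := hnu
    have h5 : (1 : O) ∈ maximalIdeal O := by
      have h6 := (maximalIdeal O).add_mem h2 h4
      rwa [sub_add_cancel] at h6
    exact (Ideal.ne_top_iff_one _).mp (maximalIdeal.isMaximal O).ne_top h5
  rcases IsLocalRing.isUnit_or_isUnit_of_isUnit_add h3 with h | h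
  · have hc₁ : IsUnit c₁ := isUnit_of_mul_isUnit_right h
    exact h16l_vertical_aux x y t hxy P hP0 hPm htP p₁ p₂ c₁ c₂ hp₁ hp₂ hx.symm hy.symm hc₁
  · have hc₂ : IsUnit c₂ := isUnit_of_mul_isUnit_right h
    have hyx : maximalIdeal O = Ideal.span {y, x} := by
      rw [hxy, Set.pair_comm]
    exact h16l_vertical_aux y x t hyx P hP0 hPm htP p₂ p₁ c₂ c₁ hp₂ hp₁ hy.symm hx.symm hc₂

/-- the branch `O / (a)` is a valuation ring, elementwise. -/
theorem h16l_hval_of_pir (a : O) (hprime : Prime a)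
    (hPIR : IsPrincipalIdealRing (O ⧸ Ideal.span {a})) (x y : O) :
    (∃ t, a ∣ y - x * t) ∨ (∃ t, a ∣ x - y * t) := by
  haveI : (Ideal.span {a}).IsPrime := (Ideal.span_singleton_prime hprime.ne_zero).mpr hprime
  haveI := hPIR
  haveI : IsBezout (O ⧸ Ideal.span {a}) := inferInstance
  haveI : IsLocalRing (O ⧸ Ideal.span {a}) :=
    IsLocalRing.of_surjective' (Ideal.Quotient.mk (Ideal.span {a})) Ideal.Quotient.mk_surjective
  haveI : ValuationRing (O ⧸ Ideal.span {a}) :=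
    ValuationRing.iff_local_bezout_domain.mpr ⟨inferInstance, inferInstance⟩
  obtain ⟨c, hc⟩ := ValuationRing.cond (Ideal.Quotient.mk (Ideal.span {a}) x)
    (Ideal.Quotient.mk (Ideal.span {a}) y)
  obtain ⟨t, rfl⟩ := Ideal.Quotient.mk_surjective c
  rcases hc with hc | hc
  · left
    refine ⟨t, ?_⟩
    rw [← Ideal.mem_span_singleton, ← Ideal.Quotient.eq_zero_iff_mem, map_sub, map_mul, hc,
      sub_self]
  · right
    refine ⟨t, ?_⟩
    rw [← Ideal.mem_span_singleton, ← Ideal.Quotient.eq_zero_iff_mem, map_sub, map_mul, hc,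
      sub_self]

end Local


/-! ## The vertical primes through a closed point of a regular chart -/

section Chart

variable {A : Type*} [CommRing A] {F : Type*} [Field F] [Algebra A F]
variable (B : Subalgebra A F) [hBn : IsNoetherianRing B] (𝔫 : Ideal B) [h𝔫 : 𝔫.IsPrime]

/-- the local ring at a closed point with a vertical prime `P`, `𝔫 = (x, y) = P + (t)` locally:
`P B_𝔫 = (a)`, `𝔪 = (a, b)`, `b` not nilpotent modulo `a`. -/
theorem h16l_vertical_gen (π : B) (hπ0 : π ≠ 0)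
    (htwo : ∃ x ∈ 𝔫, ∃ y ∈ 𝔫, ∀ z ∈ 𝔫, ∃ s, s ∉ 𝔫 ∧ s * z ∈ Ideal.span {x, y})
    (P : Ideal B) [hP : P.IsPrime] (hπP : π ∈ P) (hP𝔫 : P ≤ 𝔫) (hPne : P ≠ 𝔫)
    (hbr : ∃ t ∈ 𝔫, ∀ z ∈ 𝔫, ∃ s, s ∉ 𝔫 ∧ s * z ∈ P ⊔ Ideal.span {t}) :
    haveI := h16l_isNoetherianRing B 𝔫
    ∃ a b : h66cO B 𝔫, a ≠ 0 ∧ P.map (h16lIncl B 𝔫) = Ideal.span {a} ∧
      maximalIdeal (h66cO B 𝔫) = Ideal.span {a, b} ∧ ∀ n : ℕ, b ^ n ∉ Ideal.span {a} := by
  haveI := h16l_isNoetherianRing B 𝔫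
  obtain ⟨x, hx, y, hy, hgen⟩ := htwo
  obtain ⟨t, ht, hgen'⟩ := hbr
  have hxy : maximalIdeal (h66cO B 𝔫) = Ideal.span {h16lIncl B 𝔫 x, h16lIncl B 𝔫 y} := by
    apply le_antisymm
    · refine (h16l_max_le_of_loc B 𝔫 _ hgen).trans ?_
      rw [Ideal.map_span, Set.image_pair]
    · rw [Ideal.span_le]
      intro z hz
      rcases hz with rfl | rfl
      · exact h16l_incl_mem_max B 𝔫 hx
      · exact h16l_incl_mem_max B 𝔫 hy
  haveI hPO : (P.map (h16lIncl B 𝔫)).IsPrime := h16l_map_isPrime B 𝔫 P hP𝔫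
  have hP0 : P.map (h16lIncl B 𝔫) ≠ ⊥ := by
    intro h
    have h1 : h16lIncl B 𝔫 π ∈ P.map (h16lIncl B 𝔫) := Ideal.mem_map_of_mem _ hπP
    rw [h, Ideal.mem_bot] at h1
    exact hπ0 (h16l_incl_injective B 𝔫 (by rw [h1, map_zero]))
  have hPm : P.map (h16lIncl B 𝔫) ≠ maximalIdeal (h66cO B 𝔫) := by
    intro h
    apply hPne
    refine le_antisymm hP𝔫 fun b hb => ?_
    rw [← h16l_incl_mem_map_iff B 𝔫 P hP𝔫, h]
    exact h16l_incl_mem_max B 𝔫 hb
  have hPt : maximalIdeal (h66cO B 𝔫) ≤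
      P.map (h16lIncl B 𝔫) ⊔ Ideal.span {h16lIncl B 𝔫 t} := by
    refine (h16l_max_le_of_loc B 𝔫 _ hgen').trans ?_
    rw [Ideal.map_sup, Ideal.map_span, Set.image_singleton]
  exact h16l_vertical_local _ _ (h16lIncl B 𝔫 t) hxy (h16l_incl_mem_max B 𝔫 ht) _ hP0 hPm hPt

/-- divisibility by a generator of `P B_𝔫`, elementwise. -/
theorem h16l_dvd_iff (P : Ideal B) (a : h66cO B 𝔫)
    (hPa : P.map (h16lIncl B 𝔫) = Ideal.span {a}) (z : h66cO B 𝔫) :
    a ∣ z ↔ ∃ s : B, s ∉ 𝔫 ∧ ∃ b ∈ P, (s : F) * (z : F) = b := by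
  rw [← Ideal.mem_span_singleton, ← hPa, h16l_mem_map_iff]

/-- a prime `P'` of `B` with `P ≤ P' ≤ 𝔫`, `P' ≠ 𝔫`, is `P` if `P B_𝔫 = (a)`, `𝔪 = (a, b)`. -/
theorem h16l_eq_of_le (P : Ideal B) [hP : P.IsPrime] (hP𝔫 : P ≤ 𝔫)
    (a b : h66cO B 𝔫) (hPa : P.map (h16lIncl B 𝔫) = Ideal.span {a})
    (hm : maximalIdeal (h66cO B 𝔫) = Ideal.span {a, b})
    (P' : Ideal B) [hP' : P'.IsPrime] (hle : P ≤ P') (hP'𝔫 : P' ≤ 𝔫) (hP'ne : P' ≠ 𝔫) :
    P' = P := by
  haveI := h16l_isNoetherianRing B 𝔫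
  haveI hPO : (P'.map (h16lIncl B 𝔫)).IsPrime := h16l_map_isPrime B 𝔫 P' hP'𝔫
  have ha : a ∈ P'.map (h16lIncl B 𝔫) := by
    have h1 : a ∈ P.map (h16lIncl B 𝔫) := by
      rw [hPa]; exact Ideal.mem_span_singleton_self a
    exact Ideal.map_mono hle h1
  have hb : b ∉ P'.map (h16lIncl B 𝔫) := by
    intro hb
    apply hP'ne
    refine le_antisymm hP'𝔫 fun c hc => ?_
    rw [← h16l_incl_mem_map_iff B 𝔫 P' hP'𝔫]
    have h1 : maximalIdeal (h66cO B 𝔫) ≤ P'.map (h16lIncl B 𝔫) := by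
      rw [hm, Ideal.span_le]
      intro z hz
      rcases hz with rfl | rfl
      · exact ha
      · exact hb
    exact h1 (h16l_incl_mem_max B 𝔫 hc)
  have h2 : P'.map (h16lIncl B 𝔫) = Ideal.span {a} := h16l_prime_eq_span a b hm _ ha hb
  refine le_antisymm (fun c hc => ?_) hle
  rw [← h16l_incl_mem_map_iff B 𝔫 P hP𝔫, hPa, ← h2]
  exact Ideal.mem_map_of_mem _ hc

end Chart


/-! ## Factorisation of `π` along the vertical primes -/

section Factor

variable {O : Type*} [CommRing O] [IsDomain O] [UniqueFactorizationMonoid O]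

/-- in a factorial ring: an element all of whose prime divisors are associated to members of a
finite family `f` of pairwise non-associated primes is `unit * ∏ f i ^ e i`. -/
theorem h16l_assoc_prod {ι : Type*} [Fintype ι] (f : ι → O)
    (hprime : ∀ i, Prime (f i)) (hna : ∀ i j, i ≠ j → ¬ f i ∣ f j) (x : O) (hx0 : x ≠ 0)
    (hcov : ∀ p : O, Prime p → p ∣ x → ∃ i, Associated p (f i)) :
    ∃ e : ι → ℕ, Associated x (∏ i, f i ^ e i) ∧ ∀ i, f i ∣ x → e i ≠ 0 := by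
  classical
  revert hx0 hcov
  refine UniqueFactorizationMonoid.induction_on_prime (P := fun x => x ≠ 0 →
    (∀ p : O, Prime p → p ∣ x → ∃ i, Associated p (f i)) →
      ∃ e : ι → ℕ, Associated x (∏ i, f i ^ e i) ∧ ∀ i, f i ∣ x → e i ≠ 0) x ?_ ?_ ?_
  · intro h; exact absurd rfl h
  · intro u hu _ _
    refine ⟨fun _ => 0, ?_, fun i hi => ?_⟩
    · simp only [pow_zero, Finset.prod_const_one]
      exact associated_one_iff_isUnit.mpr hu
    · exact absurd (isUnit_of_dvd_unit hi hu) (hprime i).not_isUnit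
  · intro a p ha0 hp ih _ hcov
    obtain ⟨e, he, he'⟩ := ih ha0 fun p' hp' hd => hcov p' hp' (Dvd.dvd.mul_left hd p)
    obtain ⟨i₀, hi₀⟩ := hcov p hp (dvd_mul_right p a)
    refine ⟨fun i => e i + if i₀ = i then 1 else 0, ?_, fun i hi => ?_⟩
    · have h1 : ∏ i, f i ^ (e i + if i₀ = i then 1 else 0) = f i₀ * ∏ i, f i ^ e i := by
        simp only [pow_add, Finset.prod_mul_distrib]
        rw [Finset.prod_pow_boole, if_pos (Finset.mem_univ _), mul_comm]
      rw [h1]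
      exact hi₀.mul_mul he
    · rcases (hprime i).dvd_or_dvd hi with h | h
      · have h2 : f i ∣ f i₀ := h.trans hi₀.dvd
        have h3 : i₀ = i := by
          by_contra hne
          exact hna i i₀ (fun h' => hne h'.symm) h2
        simp [h3]
      · have h4 := he' i h
        show e i + (if i₀ = i then 1 else 0) ≠ 0
        exact fun h5 => h4 (Nat.add_eq_zero_iff.mp h5).1

end Factor

section Data

variable {A : Type*} [CommRing A] {F : Type*} [Field F] [Algebra A F]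
variable (B : Subalgebra A F) [hBn : IsNoetherianRing B] (𝔫 : Ideal B) [h𝔫 : 𝔫.IsPrime]

/-- **REG ⟹ the local data of Lemma A.**  `B` a noetherian chart, `H62RegAt 𝔫 π`, and a finite
nonempty family `P i` of pairwise distinct vertical primes through `𝔫` such that every prime
`π ∈ P' ≤ 𝔫` contains one of them.  Then `O = B_𝔫` is factorial and there are prime elements
`f i` of `O` and exponents `e i ≠ 0` with `P i O = (f i)`, `π = unit * ∏ f i ^ e i`,
`𝔪 = (f i, f j)` for `i ≠ j`, and every branch `O / (f i)` is a valuation ring.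
These are the hypotheses `hprime`, `hna`, `hπ`, `hpair`, `hval` of `h66c_hloc`. -/
theorem h16l_reg_data (π : B) (hπ0 : π ≠ 0) (hreg : H62RegAt 𝔫 π)
    {ι : Type*} [Fintype ι] [Nonempty ι] (P : ι → Ideal B) (hPprime : ∀ i, (P i).IsPrime)
    (hπP : ∀ i, π ∈ P i) (hP𝔫 : ∀ i, P i ≤ 𝔫) (hPne : ∀ i, P i ≠ 𝔫)
    (hPinj : Function.Injective P)
    (hcov : ∀ P' : Ideal B, P'.IsPrime → π ∈ P' → P' ≤ 𝔫 → ∃ i, P i ≤ P') :
    UniqueFactorizationMonoid (h66cO B 𝔫) ∧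
    ∃ (f : ι → h66cO B 𝔫) (e : ι → ℕ), (∀ i, e i ≠ 0) ∧ (∀ i, Prime (f i)) ∧
      (∀ i, (P i).map (h16lIncl B 𝔫) = Ideal.span {f i}) ∧
      (∀ i j, i ≠ j → ¬ f i ∣ f j) ∧
      Associated (h16lIncl B 𝔫 π) (∏ i, f i ^ e i) ∧
      (∀ i j, i ≠ j → maximalIdeal (h66cO B 𝔫) ^ 1 ≤ Ideal.span {f i, f j}) ∧
      (∀ i, ∀ x y : h66cO B 𝔫, (∃ t, f i ∣ y - x * t) ∨ (∃ t, f i ∣ x - y * t)) ∧
      (∀ i, ∀ z : h66cO B 𝔫, f i ∣ z ↔ ∃ s : B, s ∉ 𝔫 ∧ ∃ b ∈ P i, (s : F) * (z : F) = b) := by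
  classical
  haveI := h16l_isNoetherianRing B 𝔫
  have hex : ∀ i, ∃ a b : h66cO B 𝔫, a ≠ 0 ∧ (P i).map (h16lIncl B 𝔫) = Ideal.span {a} ∧
      maximalIdeal (h66cO B 𝔫) = Ideal.span {a, b} ∧ ∀ n : ℕ, b ^ n ∉ Ideal.span {a} :=
    fun i =>
      haveI := hPprime i
      h16l_vertical_gen B 𝔫 π hπ0 hreg.two_gen (P i) (hπP i) (hP𝔫 i) (hPne i)
        (hreg.branch (P i) (hPprime i) (hπP i) (hP𝔫 i) (hPne i))
  choose f b hf0 hPf hm hnil using hex
  have hprime : ∀ i, Prime (f i) := fun i =>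
    (h80u_prime_of_two_gen (f i) (b i) (hf0 i) (hm i) (hnil i)).1
  have hPIR : ∀ i, IsPrincipalIdealRing (h66cO B 𝔫 ⧸ Ideal.span {f i}) := fun i =>
    (h80u_prime_of_two_gen (f i) (b i) (hf0 i) (hm i) (hnil i)).2
  obtain ⟨i₀⟩ := (inferInstance : Nonempty ι)
  have hufd : UniqueFactorizationMonoid (h66cO B 𝔫) :=
    h80u_ufd_of_two_gen (f i₀) (b i₀) (hf0 i₀) (hm i₀) (hnil i₀)
  have hna : ∀ i j, i ≠ j → ¬ f i ∣ f j := by
    intro i j hij hd
    apply hij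
    apply hPinj
    have h1 : Associated (f i) (f j) :=
      (hprime i).associated_of_dvd (hprime j) hd
    have h2 : (P i).map (h16lIncl B 𝔫) = (P j).map (h16lIncl B 𝔫) := by
      rw [hPf i, hPf j]
      exact Ideal.span_singleton_eq_span_singleton.mpr h1
    haveI := hPprime i
    haveI := hPprime j
    ext c
    rw [← h16l_incl_mem_map_iff B 𝔫 (P i) (hP𝔫 i), ← h16l_incl_mem_map_iff B 𝔫 (P j) (hP𝔫 j),
      h2]
  have hπO0 : h16lIncl B 𝔫 π ≠ 0 := fun h =>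
    hπ0 (h16l_incl_injective B 𝔫 (by rw [h, map_zero]))
  have hcovO : ∀ p : h66cO B 𝔫, Prime p → p ∣ h16lIncl B 𝔫 π → ∃ i, Associated p (f i) := by
    intro p hp hd
    haveI hpp : (Ideal.span {p}).IsPrime := (Ideal.span_singleton_prime hp.ne_zero).mpr hp
    have hP' : ((Ideal.span {p}).comap (h16lIncl B 𝔫)).IsPrime := Ideal.comap_isPrime _ _
    have hπP' : π ∈ (Ideal.span {p}).comap (h16lIncl B 𝔫) := by
      rw [Ideal.mem_comap, Ideal.mem_span_singleton]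
      exact hd
    have hle : (Ideal.span {p}).comap (h16lIncl B 𝔫) ≤ 𝔫 := by
      intro c hc
      by_contra hcn
      have hu := h16l_isUnit_incl B 𝔫 hcn
      rw [Ideal.mem_comap] at hc
      exact hpp.ne_top (Ideal.eq_top_of_isUnit_mem _ hc hu)
    obtain ⟨i, hi⟩ := hcov _ hP' hπP' hle
    refine ⟨i, ?_⟩
    have h1 : f i ∈ Ideal.span {p} := by
      have h2 : f i ∈ (P i).map (h16lIncl B 𝔫) := by
        rw [hPf i]; exact Ideal.mem_span_singleton_self _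
      exact (Ideal.map_mono hi).trans Ideal.map_comap_le h2
    rw [Ideal.mem_span_singleton] at h1
    exact hp.associated_of_dvd (hprime i) h1
  haveI := hufd
  obtain ⟨e, he, he'⟩ := h16l_assoc_prod f hprime hna (h16lIncl B 𝔫 π) hπO0 hcovO
  refine ⟨hufd, f, e, fun i => he' i ?_, hprime, hPf, hna, he, ?_, ?_, ?_⟩
  · rw [← Ideal.mem_span_singleton, ← hPf i]
    exact Ideal.mem_map_of_mem _ (hπP i)
  · intro i j hij
    rw [pow_one]
    have h1 := h16l_max_le_of_loc B 𝔫 (P i ⊔ P j)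
      (hreg.transversal (P i) (P j) (hPprime i) (hPprime j) (hπP i) (hπP j) (hP𝔫 i) (hP𝔫 j)
        (hPne i) (hPne j) (fun h => hij (hPinj h)))
    refine h1.trans ?_
    rw [Ideal.map_sup, hPf i, hPf j, ← Ideal.span_union, Set.singleton_union]
  · intro i x y
    exact h16l_hval_of_pir (f i) (hprime i) (hPIR i) x y
  · intro i z
    exact h16l_dvd_iff B 𝔫 (P i) (f i) (hPf i) z

/-- **REG ⟹ the local data of Lemma A at a one-branch point.**  `P` the vertical prime through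
`𝔫`; every prime `π ∈ P' ≤ 𝔫` contains `P`.  These are the hypotheses `hg`, `hπ`, `hval` of
`h66c_hloc_unibranch`. -/
theorem h16l_reg_data_one (π : B) (hπ0 : π ≠ 0) (hreg : H62RegAt 𝔫 π)
    (P : Ideal B) [hP : P.IsPrime] (hπP : π ∈ P) (hP𝔫 : P ≤ 𝔫) (hPne : P ≠ 𝔫)
    (hcov : ∀ P' : Ideal B, P'.IsPrime → π ∈ P' → P' ≤ 𝔫 → P ≤ P') :
    UniqueFactorizationMonoid (h66cO B 𝔫) ∧
    ∃ (g : h66cO B 𝔫) (e : ℕ), e ≠ 0 ∧ Prime g ∧
      P.map (h16lIncl B 𝔫) = Ideal.span {g} ∧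
      Associated (h16lIncl B 𝔫 π) (g ^ e) ∧
      (∀ x y : h66cO B 𝔫, (∃ t, g ∣ y - x * t) ∨ (∃ t, g ∣ x - y * t)) ∧
      (∀ z : h66cO B 𝔫, g ∣ z ↔ ∃ s : B, s ∉ 𝔫 ∧ ∃ b ∈ P, (s : F) * (z : F) = b) := by
  obtain ⟨hufd, f, e, he, hprime, hPf, -, hπ, -, hval, hdvd⟩ :=
    h16l_reg_data B 𝔫 π hπ0 hreg (ι := Unit) (fun _ => P) (fun _ => hP) (fun _ => hπP)
      (fun _ => hP𝔫) (fun _ => hPne) (fun _ _ _ => rfl)
      (fun P' hP' hπP' hle => ⟨(), hcov P' hP' hπP' hle⟩)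
  refine ⟨hufd, f (), e (), he (), hprime (), hPf (), ?_, hval (), hdvd ()⟩
  simpa using hπ

/-- the covering hypothesis from uniqueness of the vertical prime through `𝔫`
(`¬ h86l_IsMulti 𝔫 π`). -/
theorem h16l_cov_of_unique (π : B) (P : Ideal B) [hP : P.IsPrime] (hπP : π ∈ P)
    (hP𝔫 : P ≤ 𝔫) (hPne : P ≠ 𝔫)
    (hone : ¬ ∃ P P' : Ideal B, P.IsPrime ∧ P'.IsPrime ∧ π ∈ P ∧ π ∈ P' ∧ P ≤ 𝔫 ∧ P' ≤ 𝔫 ∧
      P ≠ 𝔫 ∧ P' ≠ 𝔫 ∧ P ≠ P') :
    ∀ P' : Ideal B, P'.IsPrime → π ∈ P' → P' ≤ 𝔫 → P ≤ P' := by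
  intro P' hP' hπP' hle
  by_cases h : P' = 𝔫
  · rw [h]; exact hP𝔫
  · by_contra hcon
    apply hone
    refine ⟨P, P', hP, hP', hπP, hπP', hP𝔫, hle, hPne, h, ?_⟩
    rintro rfl
    exact hcon le_rfl

/-- the covering hypothesis from the radical of `π B_𝔫`: if every element of `⋂ P i` has,
locally at `𝔫`, a power divisible by `π`, then every prime `π ∈ P' ≤ 𝔫` contains some `P i`. -/
theorem h16l_cov_of_rad (π : B) {ι : Type*} [Fintype ι] (P : ι → Ideal B)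
    (hrad : ∀ b : B, (∀ i, b ∈ P i) → ∃ (k : ℕ) (s c : B), s ∉ 𝔫 ∧ s * b ^ k = c * π) :
    ∀ P' : Ideal B, P'.IsPrime → π ∈ P' → P' ≤ 𝔫 → ∃ i, P i ≤ P' := by
  classical
  intro P' hP' hπP' hle
  by_contra hcon
  push Not at hcon
  have hex : ∀ i, ∃ b ∈ P i, b ∉ P' := fun i => Set.not_subset.mp (hcon i)
  choose b hb hb' using hex
  have h1 : ∀ i, (∏ j, b j) ∈ P i := fun i =>
    Ideal.prod_mem (P i) (Finset.mem_univ i) (hb i)
  obtain ⟨k, s, c, hs, hsc⟩ := hrad _ h1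
  have h2 : s * (∏ j, b j) ^ k ∈ P' := by
    rw [hsc]; exact P'.mul_mem_left _ hπP'
  rcases hP'.mem_or_mem h2 with h | h
  · exact hs (hle h)
  · have h3 := hP'.mem_of_pow_mem k h
    obtain ⟨j, -, hj⟩ := (hP'.prod_mem_iff).mp h3
    exact hb' j hj

end Data

end Fermat.Agent.S36
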