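import Mathlib
import Fermat.Agent.S36.H66LemmaA

/-!
# S36 / LOC: Lemma A in chart form, for charts which are subrings (helper66)

Twin of `S36/H66Chart.lean` in the vocabulary of the contract `S36/H92Chain.lean`: the chart
`B` and the Gauss ring `V` are `Subring`s of a field `F` (`B = h92c_Chart`, `V = h92c_V0`,
`F = FF N`), `π ∈ F` (`π = q`), `F₀` a subfield containing `B`.

* `h66sO B 𝔫 : Subring F` : the local ring `B_𝔫`; `h66s_isLocalRing`, `h66s_isUnit_iff`,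
  `h66s_mem_maximalIdeal_iff`, `h66s_O_le_subfield`.
* `h66sV B V hBV 𝔫 : Subring F` : the semi-local ring `V_𝔫` of the components through `𝔫`.
* `h66s_datum` : **the semi-local datum of the contract at one closed point** `𝔫`
  (the body of `h92c_LocalDatum`) from a local factorisation `w = ε g₀ ^ m`, REG data in
  `B_𝔫` and the compatibility `hcomp` of the branch values of `g₀`.
* `h66s_datum_unibranch` : the same at a point on one component (no `hcomp`).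

Mathlib + `H66LemmaA` only.
-/

set_option autoImplicit false
set_option linter.unusedSectionVars false

open IsLocalRing

namespace Fermat.Agent.S36

section Defs

variable {F : Type*} [Field F]

/-- the local ring `B_𝔫` as a subring of `F`. -/
def h66sO (B : Subring F) (𝔫 : Ideal B) [h𝔫 : 𝔫.IsPrime] : Subring F where
  carrier := {x | ∃ s : B, s ∉ 𝔫 ∧ (s : F) * x ∈ B}
  mul_mem' := by
    rintro x y ⟨s, hs, hx⟩ ⟨s', hs', hy⟩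
    refine ⟨s * s', fun h => (h𝔫.mem_or_mem h).elim hs hs', ?_⟩
    have e : ((s * s' : B) : F) * (x * y) = ((s : F) * x) * ((s' : F) * y) := by
      push_cast; ring
    rw [e]
    exact B.mul_mem hx hy
  one_mem' := ⟨1, (Ideal.ne_top_iff_one 𝔫).mp h𝔫.ne_top, by simp⟩
  add_mem' := by
    rintro x y ⟨s, hs, hx⟩ ⟨s', hs', hy⟩
    refine ⟨s * s', fun h => (h𝔫.mem_or_mem h).elim hs hs', ?_⟩
    have e : ((s * s' : B) : F) * (x + y) = (s' : F) * ((s : F) * x) + (s : F) * ((s' : F) * y) := by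
      push_cast; ring
    rw [e]
    exact B.add_mem (B.mul_mem s'.2 hx) (B.mul_mem s.2 hy)
  zero_mem' := ⟨1, (Ideal.ne_top_iff_one 𝔫).mp h𝔫.ne_top, by simp⟩
  neg_mem' := by
    rintro x ⟨s, hs, hx⟩
    exact ⟨s, hs, by rw [mul_neg]; exact B.neg_mem hx⟩

/-- the semi-local ring `V_𝔫` of the components through `𝔫`. -/
def h66sV (B : Subring F) (V : Subring F) (hBV : ∀ x ∈ B, x ∈ V) (𝔫 : Ideal B)
    [h𝔫 : 𝔫.IsPrime] : Subring F where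
  carrier := {x | ∃ c : B, c ∉ 𝔫 ∧ (c : F) * x ∈ V}
  mul_mem' := by
    rintro x y ⟨s, hs, hx⟩ ⟨s', hs', hy⟩
    refine ⟨s * s', fun h => (h𝔫.mem_or_mem h).elim hs hs', ?_⟩
    have e : ((s * s' : B) : F) * (x * y) = ((s : F) * x) * ((s' : F) * y) := by
      push_cast; ring
    rw [e]
    exact V.mul_mem hx hy
  one_mem' := ⟨1, (Ideal.ne_top_iff_one 𝔫).mp h𝔫.ne_top, by simp [V.one_mem]⟩
  add_mem' := by
    rintro x y ⟨s, hs, hx⟩ ⟨s', hs', hy⟩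
    refine ⟨s * s', fun h => (h𝔫.mem_or_mem h).elim hs hs', ?_⟩
    have e : ((s * s' : B) : F) * (x + y) = (s' : F) * ((s : F) * x) + (s : F) * ((s' : F) * y) := by
      push_cast; ring
    rw [e]
    exact V.add_mem (V.mul_mem (hBV _ s'.2) hx) (V.mul_mem (hBV _ s.2) hy)
  zero_mem' := ⟨1, (Ideal.ne_top_iff_one 𝔫).mp h𝔫.ne_top, by simp [V.zero_mem]⟩
  neg_mem' := by
    rintro x ⟨s, hs, hx⟩
    exact ⟨s, hs, by rw [mul_neg]; exact V.neg_mem hx⟩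

variable {B : Subring F} {V : Subring F} {hBV : ∀ x ∈ B, x ∈ V} {𝔫 : Ideal B}
  [h𝔫 : 𝔫.IsPrime]

theorem h66s_mem_O {x : F} : x ∈ h66sO B 𝔫 ↔ ∃ s : B, s ∉ 𝔫 ∧ (s : F) * x ∈ B := Iff.rfl

theorem h66s_mem_V {x : F} :
    x ∈ h66sV B V hBV 𝔫 ↔ ∃ c : B, c ∉ 𝔫 ∧ (c : F) * x ∈ V := Iff.rfl

theorem h66s_B_le_O {x : F} (hx : x ∈ B) : x ∈ h66sO B 𝔫 :=
  ⟨1, (Ideal.ne_top_iff_one 𝔫).mp h𝔫.ne_top, by simpa using hx⟩

theorem h66s_V_le_V {x : F} (hx : x ∈ V) : x ∈ h66sV B V hBV 𝔫 :=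
  ⟨1, (Ideal.ne_top_iff_one 𝔫).mp h𝔫.ne_top, by simpa using hx⟩

theorem h66s_O_le_V : h66sO B 𝔫 ≤ h66sV B V hBV 𝔫 := by
  rintro x ⟨s, hs, hx⟩
  exact ⟨s, hs, hBV _ hx⟩

theorem h66s_coe_ne_zero {b : B} (hb : b ∉ 𝔫) : (b : F) ≠ 0 := by
  intro h
  apply hb
  have : b = 0 := Subtype.ext h
  rw [this]
  exact 𝔫.zero_mem

/-- `1 / s ∈ B_𝔫` for `s ∉ 𝔫`. -/
theorem h66s_inv_mem_O {s : B} (hs : s ∉ 𝔫) : ((s : F))⁻¹ ∈ h66sO B 𝔫 :=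
  ⟨s, hs, by rw [mul_inv_cancel₀ (h66s_coe_ne_zero hs)]; exact B.one_mem⟩

/-- if `s x = b` with `s, b ∉ 𝔫` then `x⁻¹ ∈ B_𝔫`. -/
theorem h66s_inv_mem_of {x : F} {s b : B} (hs : s ∉ 𝔫) (hb : b ∉ 𝔫) (h : (s : F) * x = b) :
    x⁻¹ ∈ h66sO B 𝔫 := by
  have hs0 := h66s_coe_ne_zero hs
  have hb0 := h66s_coe_ne_zero hb
  have hx0 : x ≠ 0 := by
    rintro rfl
    rw [mul_zero] at h
    exact hb0 h.symm
  refine ⟨b, hb, ?_⟩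
  have e : (b : F) * x⁻¹ = s := by
    rw [← h]; field_simp
  rw [e]
  exact s.2

/-- the units of `B_𝔫`. -/
theorem h66s_isUnit_iff (x : h66sO B 𝔫) :
    IsUnit x ↔ ∃ s b : B, s ∉ 𝔫 ∧ b ∉ 𝔫 ∧ (s : F) * (x : F) = b := by
  constructor
  · intro hu
    obtain ⟨y, hy⟩ := hu.exists_right_inv
    obtain ⟨s, hs, hsx⟩ := x.2
    obtain ⟨s', hs', hsy⟩ := y.2
    refine ⟨s, ⟨_, hsx⟩, hs, ?_, rfl⟩
    intro hmem
    -- `s s' = (s x) (s' y) ∈ 𝔫`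
    have h1 : (⟨_, hsx⟩ : B) * ⟨_, hsy⟩ = s * s' := by
      apply Subtype.ext
      push_cast
      have h2 : (x : F) * (y : F) = 1 := by
        have := congrArg (Subtype.val : h66sO B 𝔫 → F) hy
        simpa using this
      calc (s : F) * (x : F) * ((s' : F) * (y : F))
          = (s : F) * (s' : F) * ((x : F) * (y : F)) := by ring
        _ = (s : F) * (s' : F) := by rw [h2, mul_one]
    have h3 : s * s' ∈ 𝔫 := by rw [← h1]; exact 𝔫.mul_mem_right _ hmem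
    exact (h𝔫.mem_or_mem h3).elim hs hs'
  · rintro ⟨s, b, hs, hb, h⟩
    refine IsUnit.of_mul_eq_one ⟨(x : F)⁻¹, h66s_inv_mem_of hs hb h⟩ (Subtype.ext ?_)
    have hx0 : (x : F) ≠ 0 := by
      intro h0
      rw [h0, mul_zero] at h
      exact h66s_coe_ne_zero hb h.symm
    show (x : F) * (x : F)⁻¹ = 1
    exact mul_inv_cancel₀ hx0

instance h66s_isLocalRing : IsLocalRing (h66sO B 𝔫) := by
  refine IsLocalRing.of_isUnit_or_isUnit_one_sub_self fun x => ?_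
  obtain ⟨s, hs, hsx⟩ := x.2
  by_cases hb : (⟨_, hsx⟩ : B) ∈ 𝔫
  · right
    rw [h66s_isUnit_iff]
    refine ⟨s, s - ⟨_, hsx⟩, hs, fun h => hs ?_, ?_⟩
    · have : s = (s - ⟨_, hsx⟩) + ⟨_, hsx⟩ := by ring
      rw [this]
      exact 𝔫.add_mem h hb
    · push_cast
      ring
  · left
    rw [h66s_isUnit_iff]
    exact ⟨s, ⟨_, hsx⟩, hs, hb, rfl⟩

/-- the maximal ideal of `B_𝔫` is `𝔫 B_𝔫`. -/
theorem h66s_mem_maximalIdeal_iff (x : h66sO B 𝔫) :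
    x ∈ maximalIdeal (h66sO B 𝔫) ↔ ∃ s b : B, s ∉ 𝔫 ∧ b ∈ 𝔫 ∧ (s : F) * (x : F) = b := by
  rw [mem_maximalIdeal, mem_nonunits_iff, h66s_isUnit_iff]
  constructor
  · intro h
    obtain ⟨s, hs, hsx⟩ := x.2
    refine ⟨s, ⟨_, hsx⟩, hs, ?_, rfl⟩
    by_contra hb
    exact h ⟨s, ⟨_, hsx⟩, hs, hb, rfl⟩
  · rintro ⟨s, b, hs, hb, h⟩ ⟨s', b', hs', hb', h'⟩
    -- `s' b = s b'`
    have h1 : s' * b = s * b' := by
      apply Subtype.ext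
      push_cast
      rw [← h, ← h']; ring
    have h2 : s * b' ∈ 𝔫 := by rw [← h1]; exact 𝔫.mul_mem_left _ hb
    exact (h𝔫.mem_or_mem h2).elim hs hb'

end Defs


section Datum

variable {F : Type*} [Field F]

theorem h66s_O_le_subfield {B : Subring F} {𝔫 : Ideal B} [h𝔫 : 𝔫.IsPrime] (F₀ : Subfield F)
    (hBF : ∀ x ∈ B, x ∈ F₀) {x : F} (hx : x ∈ h66sO B 𝔫) : x ∈ F₀ := by
  obtain ⟨s, hs, hsx⟩ := hx
  have hs0 : (s : F) ≠ 0 := h66s_coe_ne_zero hs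
  have e : x = ((s : F))⁻¹ * ((s : F) * x) := by field_simp
  rw [e]
  exact F₀.mul_mem (F₀.inv_mem (hBF _ s.2)) (hBF _ hsx)

/-- **the semi-local datum at one closed point**, from REG + TOR data.  Output: the body of
`h92c_LocalDatum` (with `g = g₀ η`, `η` a unit of `B_𝔫`). -/
theorem h66s_datum (B V : Subring F) (hBV : ∀ x ∈ B, x ∈ V) (𝔫 : Ideal B)
    [h𝔫 : 𝔫.IsPrime] (π : F) (q : ℕ) (hq : q.Prime)
    (πO : h66sO B 𝔫) (hπO : (πO : F) = π) (hπq : πO ∣ (q : h66sO B 𝔫))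
    {ι : Type*} [Fintype ι] (f : ι → h66sO B 𝔫) (e : ι → ℕ) (he : ∀ i, e i ≠ 0)
    (hprime : ∀ i, Prime (f i)) (hna : ∀ i j, i ≠ j → ¬ f i ∣ f j)
    (hπ : Associated πO (∏ i, f i ^ e i))
    (hpair : ∀ i j, i ≠ j → ∃ n, maximalIdeal (h66sO B 𝔫) ^ n ≤ Ideal.span {f i, f j})
    (hval : ∀ i, ∀ x y : h66sO B 𝔫, (∃ t, f i ∣ y - x * t) ∨ (∃ t, f i ∣ x - y * t))
    (hden : ∀ v ∈ h66sV B V hBV 𝔫, ∃ s : h66sO B 𝔫, (∀ j, ¬ f j ∣ s) ∧ (s : F) * v ∈ h66sO B 𝔫)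
    (hinv : ∀ s : h66sO B 𝔫, (∀ j, ¬ f j ∣ s) → ((s : F))⁻¹ ∈ h66sV B V hBV 𝔫)
    (r : ℕ) (hr : r.Coprime q)
    (w : F) (hw0 : w ≠ 0) (hw : ∃ v ∈ V, w = 1 + π * v)
    (g₀ : F) (hg₀ : g₀ ≠ 0) (hg₀V : ∃ c : B, c ∉ 𝔫 ∧ (c : F) * g₀ ∈ V)
    (s₀ : B) (hs₀ : s₀ ∉ 𝔫) (h1 : (s₀ : F) * (w * (g₀ ^ r)⁻¹) ∈ B)
    (h2 : (s₀ : F) * (g₀ ^ r * w⁻¹) ∈ B)
    (hcomp : ∀ a : ι → h66sO B 𝔫,
      (∀ i, ∃ y ∈ h66sV B V hBV 𝔫, g₀ = (a i : F) + (f i : F) * y) →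
      ∀ i j, a i - a j ∈ maximalIdeal (h66sO B 𝔫)) :
    ∃ η : F, η ∈ h66sO B 𝔫 ∧ η⁻¹ ∈ h66sO B 𝔫 ∧ g₀ * η ≠ 0 ∧
      ∃ s : B, s ∉ 𝔫 ∧ (∃ y ∈ V, (s : F) * (g₀ * η - 1) = π * y) ∧
        (s : F) * (w * ((g₀ * η) ^ r)⁻¹) ∈ B ∧ (s : F) * ((g₀ * η) ^ r * w⁻¹) ∈ B := by
  have hgr0 : g₀ ^ r ≠ 0 := pow_ne_zero r hg₀
  -- the unit `ε = w / g₀ ^ r` of `B_𝔫`
  have hεO : w * (g₀ ^ r)⁻¹ ∈ h66sO B 𝔫 := ⟨s₀, hs₀, h1⟩
  have hεO' : g₀ ^ r * w⁻¹ ∈ h66sO B 𝔫 := ⟨s₀, hs₀, h2⟩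
  have hεε : (⟨_, hεO⟩ : h66sO B 𝔫) * ⟨_, hεO'⟩ = 1 := by
    apply Subtype.ext
    show w * (g₀ ^ r)⁻¹ * (g₀ ^ r * w⁻¹) = 1
    field_simp
  have hεε' : (⟨_, hεO'⟩ : h66sO B 𝔫) * ⟨_, hεO⟩ = 1 := by rw [mul_comm]; exact hεε
  obtain ⟨v, hv, hwv⟩ := hw
  obtain ⟨η, y, hy, hηy⟩ := h66a_glue_field (h66sO B 𝔫) (h66sV B V hBV 𝔫) h66s_O_le_V q hq πO
    hπq f e he hprime hna hπ hpair hval hden hinv r hr g₀ hg₀V
    (⟨⟨_, hεO⟩, ⟨_, hεO'⟩, hεε, hεε'⟩ : (h66sO B 𝔫)ˣ)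
    ⟨v, h66s_V_le_V hv, by
      show g₀ ^ r * (w * (g₀ ^ r)⁻¹) = 1 + (πO : F) * v
      rw [hπO, ← hwv]
      field_simp⟩
    hcomp
  -- `η` and its inverse
  have hηinv : ((η : h66sO B 𝔫) : F) * (((η⁻¹ : (h66sO B 𝔫)ˣ) : h66sO B 𝔫) : F) = 1 := by
    have h3 : ((η : h66sO B 𝔫) * ((η⁻¹ : (h66sO B 𝔫)ˣ) : h66sO B 𝔫) : h66sO B 𝔫) = 1 :=
      Units.mul_inv η
    have h4 := congrArg (Subtype.val : h66sO B 𝔫 → F) h3
    rw [Subring.coe_mul, Subring.coe_one] at h4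
    exact h4
  have hη0 : ((η : h66sO B 𝔫) : F) ≠ 0 := left_ne_zero_of_mul_eq_one hηinv
  have hηinv' : (((η⁻¹ : (h66sO B 𝔫)ˣ) : h66sO B 𝔫) : F) = (((η : h66sO B 𝔫) : F))⁻¹ :=
    eq_inv_of_mul_eq_one_right hηinv
  have hηO : ((η : h66sO B 𝔫) : F) ∈ h66sO B 𝔫 := (η : h66sO B 𝔫).2
  have hηO' : (((η : h66sO B 𝔫) : F))⁻¹ ∈ h66sO B 𝔫 := by
    rw [← hηinv']; exact ((η⁻¹ : (h66sO B 𝔫)ˣ) : h66sO B 𝔫).2
  obtain ⟨s, hs, hsη⟩ := hηO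
  obtain ⟨s', hs', hsη'⟩ := hηO'
  obtain ⟨c, hc, hcy⟩ := hy
  have hS : s₀ * (s * s') ^ r * c ∉ 𝔫 := by
    intro h
    rcases h𝔫.mem_or_mem h with h' | h'
    · rcases h𝔫.mem_or_mem h' with h'' | h''
      · exact hs₀ h''
      · exact (h𝔫.mem_or_mem (h𝔫.mem_of_pow_mem r h'')).elim hs hs'
    · exact hc h'
  have hsη1 : ((s * s' : B) : F) * ((η : h66sO B 𝔫) : F) ∈ B := by
    have e1 : ((s * s' : B) : F) * ((η : h66sO B 𝔫) : F)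
        = (s' : F) * ((s : F) * ((η : h66sO B 𝔫) : F)) := by push_cast; ring
    rw [e1]
    exact B.mul_mem s'.2 hsη
  have hsη2 : ((s * s' : B) : F) * (((η : h66sO B 𝔫) : F))⁻¹ ∈ B := by
    have e1 : ((s * s' : B) : F) * (((η : h66sO B 𝔫) : F))⁻¹
        = (s : F) * ((s' : F) * (((η : h66sO B 𝔫) : F))⁻¹) := by push_cast; ring
    rw [e1]
    exact B.mul_mem s.2 hsη'
  refine ⟨((η : h66sO B 𝔫) : F), (η : h66sO B 𝔫).2, ?_, mul_ne_zero hg₀ hη0,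
    s₀ * (s * s') ^ r * c, hS, ⟨((s₀ * (s * s') ^ r : B) : F) * ((c : F) * y),
      V.mul_mem (hBV _ (s₀ * (s * s') ^ r).2) hcy, ?_⟩, ?_, ?_⟩
  · rw [← hηinv']; exact ((η⁻¹ : (h66sO B 𝔫)ˣ) : h66sO B 𝔫).2
  · have e1 : ((s₀ * (s * s') ^ r * c : B) : F) * (g₀ * ((η : h66sO B 𝔫) : F) - 1)
        = ((s₀ * (s * s') ^ r : B) : F) * ((c : F) * (g₀ * ((η : h66sO B 𝔫) : F) - 1)) := by
      push_cast; ring
    rw [e1, hηy, hπO]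
    ring
  · have e1 : ((s₀ * (s * s') ^ r * c : B) : F) * (w * ((g₀ * ((η : h66sO B 𝔫) : F)) ^ r)⁻¹)
        = (c : F) * (((s₀ : F) * (w * (g₀ ^ r)⁻¹))
          * (((s * s' : B) : F) * (((η : h66sO B 𝔫) : F))⁻¹) ^ r) := by
      push_cast
      rw [mul_pow, mul_pow, mul_pow, mul_inv, inv_pow]
      ring
    rw [e1]
    exact B.mul_mem c.2 (B.mul_mem h1 (B.pow_mem hsη2 r))
  · have e1 : ((s₀ * (s * s') ^ r * c : B) : F) * ((g₀ * ((η : h66sO B 𝔫) : F)) ^ r * w⁻¹)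
        = (c : F) * (((s₀ : F) * (g₀ ^ r * w⁻¹))
          * (((s * s' : B) : F) * ((η : h66sO B 𝔫) : F)) ^ r) := by
      push_cast
      rw [mul_pow, mul_pow, mul_pow]
      ring
    rw [e1]
    exact B.mul_mem c.2 (B.mul_mem h2 (B.pow_mem hsη1 r))

/-- **the semi-local datum at a closed point on one component** `g` of multiplicity `e ≠ 0`
(REG data only, no compatibility hypothesis). -/
theorem h66s_datum_unibranch (B V : Subring F) (hBV : ∀ x ∈ B, x ∈ V) (𝔫 : Ideal B)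
    [h𝔫 : 𝔫.IsPrime] (π : F) (q : ℕ) (hq : q.Prime)
    (πO : h66sO B 𝔫) (hπO : (πO : F) = π) (hπq : πO ∣ (q : h66sO B 𝔫))
    (g : h66sO B 𝔫) (e : ℕ) (he : e ≠ 0) (hg : Prime g) (hπ : Associated πO (g ^ e))
    (hval : ∀ x y : h66sO B 𝔫, (∃ t, g ∣ y - x * t) ∨ (∃ t, g ∣ x - y * t))
    (hden : ∀ v ∈ h66sV B V hBV 𝔫, ∃ s : h66sO B 𝔫, ¬ g ∣ s ∧ (s : F) * v ∈ h66sO B 𝔫)
    (hinv : ∀ s : h66sO B 𝔫, ¬ g ∣ s → ((s : F))⁻¹ ∈ h66sV B V hBV 𝔫)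
    (r : ℕ) (hr : r.Coprime q)
    (w : F) (hw0 : w ≠ 0) (hw : ∃ v ∈ V, w = 1 + π * v)
    (g₀ : F) (hg₀ : g₀ ≠ 0) (hg₀V : ∃ c : B, c ∉ 𝔫 ∧ (c : F) * g₀ ∈ V)
    (s₀ : B) (hs₀ : s₀ ∉ 𝔫) (h1 : (s₀ : F) * (w * (g₀ ^ r)⁻¹) ∈ B)
    (h2 : (s₀ : F) * (g₀ ^ r * w⁻¹) ∈ B) :
    ∃ η : F, η ∈ h66sO B 𝔫 ∧ η⁻¹ ∈ h66sO B 𝔫 ∧ g₀ * η ≠ 0 ∧
      ∃ s : B, s ∉ 𝔫 ∧ (∃ y ∈ V, (s : F) * (g₀ * η - 1) = π * y) ∧
        (s : F) * (w * ((g₀ * η) ^ r)⁻¹) ∈ B ∧ (s : F) * ((g₀ * η) ^ r * w⁻¹) ∈ B := by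
  refine h66s_datum B V hBV 𝔫 π q hq πO hπO hπq (fun _ : Unit => g) (fun _ => e) (fun _ => he)
    (fun _ => hg) (fun i j hij => absurd (Subsingleton.elim i j) hij) (by simpa using hπ)
    (fun i j hij => absurd (Subsingleton.elim i j) hij) (fun _ => hval) ?_ ?_ r hr w hw0 hw
    g₀ hg₀ hg₀V s₀ hs₀ h1 h2 ?_
  · intro v hv
    obtain ⟨s, hs, hsv⟩ := hden v hv
    exact ⟨s, fun _ => hs, hsv⟩
  · intro s hs
    exact hinv s (hs ())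
  · intro a _ i j
    rw [Subsingleton.elim i j, sub_self]
    exact Ideal.zero_mem _

end Datum

end Fermat.Agent.S36
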