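import Fermat.Agent.S36.H86LocIface
import Fermat.Agent.S36.H66ChartSub
import Fermat.Agent.S36.H62RegIface

/-!
# S36, row LOC-ONE (`H86LocOne`): frozen leaves (helper86, prefix `h86l_`)

Every declaration is a definition or a frozen interface `Prop`; nothing is assumed.
Vocabulary of the contract (`S36/H92Chain.lean`) and of `S36/H66ChartSub.lean`: the chart `B`
and the Gauss ring `V` are `Subring`s of a field `F` (NOT necessarily the fraction field of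
`B`: `F = FF N`, `B = h92c_Chart A N t`, `V = h92c_V0 A M q`), `O = h66sO B 𝔫` is the local
ring `B_𝔫` inside `F`.

## Abstract leaves (commutative algebra; Mathlib + `H62RegIface` + `H66ChartSub`)

* `H86LocRegData` : at a ONE-BRANCH closed point `𝔫` with `H62RegAt 𝔫 q` and vertical prime
  `P`: a prime element `g` of `O` with `q ~ g ^ e`, `e ≠ 0`, `O ⧸ (g)` a valuation ring (`hval`
  of Lemma A), and `g ∣ b ↔ b ∈ P` for `b ∈ B`.
  (Route: `𝔪_O = (x, y)` ⟹ every prime `≠ 𝔪_O` is principal (`h16r_prime_principal`), `O` is a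
  UFD, `q = unit * ∏ p ^ e` over the vertical primes through `𝔫`, `branch` ⟹ `𝔪_O = (g, t)`
  ⟹ `h66a_hval_of_param`.)
* `H86LocFactAbs` : the local factorisation `w = ε g₀ ^ m` at a closed point `𝔫` with
  `H62RegAt 𝔫 q` (any number of branches): `w` a fraction of elements of `B`, a unit of `V`,
  with `m ∣ ord_𝔭 w` at the horizontal primes `𝔭 ≤ 𝔫` (`hhor`); `V` compatible with the
  vertical primes through `𝔫` (`hden`, `hinv`).  (Route: UFD + `h80f_local_root`.)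

## Concrete leaves (contract objects)

* `H86LocVComp` : `V₀` and the vertical primes of the charts: `V₀ ⊆ B_P` for every vertical
  prime `P` (`hden`); a function of `B` outside the vertical primes through `𝔫` is a unit of the
  semi-local ring `(V₀)_𝔫` (`hinv`); a vertical prime passes through every closed point of the
  special fibre (`hex`).
* `H86LocHor` : `m ∣ div w` gives `m ∣ ord_𝔭 w` at every horizontal prime `𝔭` of the charts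
  (`q ∉ 𝔭 ≠ ⊥`): `w = unit of B_𝔭 · G ^ m`, `G ∈ F₀` (from `DescLoc`: `B_𝔭` is a discrete
  valuation ring of `F₀` containing `K₀`).
* `H86LocFrac` : `F₀` is the fraction field of the charts, the charts are noetherian, and
  `1 + q V₀ ⊆ V₀ˣ`.

`H86LocOneAssembly` : the abstract leaves + the concrete leaves + `H62RegStatement` ⟹
`H86LocOne` (proved in `S36/H86LocOneAsm.lean`).
-/

set_option autoImplicit false

open AlgebraicCurve ModularCurve IsLocalRing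

noncomputable section

namespace Fermat.Agent.S36

open Fermat.Agent.S37 (Kbar GQ FF cst jB gal modelAt degen auxLevel)

/-- `P` is a vertical prime (a component of the fibre `π = 0`) through the closed point `𝔫`. -/
def h86l_IsVert {B : Type*} [CommRing B] (𝔫 : Ideal B) (π : B) (P : Ideal B) : Prop :=
  P.IsPrime ∧ π ∈ P ∧ P ≤ 𝔫 ∧ P ≠ 𝔫

theorem h86l_isMulti_iff {B : Type*} [CommRing B] (𝔫 : Ideal B) (π : B) :
    h86l_IsMulti 𝔫 π ↔ ∃ P P' : Ideal B, h86l_IsVert 𝔫 π P ∧ h86l_IsVert 𝔫 π P' ∧ P ≠ P' := by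
  constructor
  · rintro ⟨P, P', hP, hP', h1, h2, h3, h4, h5, h6, h7⟩
    exact ⟨P, P', ⟨hP, h1, h3, h5⟩, ⟨hP', h2, h4, h6⟩, h7⟩
  · rintro ⟨P, P', ⟨hP, h1, h3, h5⟩, ⟨hP', h2, h4, h6⟩, h7⟩
    exact ⟨P, P', hP, hP', h1, h2, h3, h4, h5, h6, h7⟩

/-- `x` is a fraction of elements of `B`. -/
def h86l_IsFrac {F : Type*} [Field F] (B : Subring F) (x : F) : Prop :=
  ∃ a b : B, b ≠ 0 ∧ x * (b : F) = (a : F)

/-! ## Abstract leaves -/

/-- **LOC-REGDATA (abstract).**  The REG data of Lemma A (`h66s_datum_unibranch`) at a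
one-branch closed point. -/
def H86LocRegData : Prop :=
  ∀ {F : Type} [Field F] (B : Subring F) [IsNoetherianRing B] (𝔫 : Ideal B) [𝔫.IsMaximal]
    (q : ℕ), q.Prime → ((q : ℕ) : B) ∈ 𝔫 → ((q : ℕ) : F) ≠ 0 →
    H62RegAt 𝔫 ((q : ℕ) : B) → ¬ h86l_IsMulti 𝔫 ((q : ℕ) : B) →
    ∀ P : Ideal B, h86l_IsVert 𝔫 ((q : ℕ) : B) P →
      ∃ (g : h66sO B 𝔫) (e : ℕ), e ≠ 0 ∧ Prime g ∧
        Associated ((q : ℕ) : h66sO B 𝔫) (g ^ e) ∧
        (∀ x y : h66sO B 𝔫, (∃ t, g ∣ y - x * t) ∨ (∃ t, g ∣ x - y * t)) ∧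
        (∀ b : B, g ∣ (⟨(b : F), h66s_B_le_O b.2⟩ : h66sO B 𝔫) ↔ b ∈ P)

/-- **LOC-FACT (abstract).**  The local factorisation `w = ε g₀ ^ m` at a closed point with
`H62RegAt` through which at least one vertical prime passes. -/
def H86LocFactAbs : Prop :=
  ∀ {F : Type} [Field F] (B V : Subring F), (∀ x ∈ B, x ∈ V) → ∀ [IsNoetherianRing B]
    (𝔫 : Ideal B) [𝔫.IsMaximal] (q : ℕ), q.Prime → ((q : ℕ) : B) ∈ 𝔫 → ((q : ℕ) : F) ≠ 0 →
    H62RegAt 𝔫 ((q : ℕ) : B) → (∃ P : Ideal B, h86l_IsVert 𝔫 ((q : ℕ) : B) P) →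
    -- `V ⊆ B_P` at the vertical primes through `𝔫`
    (∀ P : Ideal B, h86l_IsVert 𝔫 ((q : ℕ) : B) P → ∀ v ∈ V, ∃ s : B, s ∉ P ∧ (s : F) * v ∈ B) →
    -- the functions of `B` outside the vertical primes through `𝔫` are units of `V_𝔫`
    (∀ s : B, (∀ P : Ideal B, h86l_IsVert 𝔫 ((q : ℕ) : B) P → s ∉ P) →
      ∃ c : B, c ∉ 𝔫 ∧ (c : F) * ((s : F))⁻¹ ∈ V) →
    ∀ (m : ℕ) (w : F), w ≠ 0 → h86l_IsFrac B w → w ∈ V → w⁻¹ ∈ V →
    -- `m ∣ ord_𝔭 w` at the horizontal primes through `𝔫`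
    (∀ 𝔭 : Ideal B, 𝔭.IsPrime → 𝔭 ≠ ⊥ → ((q : ℕ) : B) ∉ 𝔭 → 𝔭 ≤ 𝔫 →
      ∃ G : F, G ≠ 0 ∧ h86l_IsFrac B G ∧ ∃ s : B, s ∉ 𝔭 ∧
        (s : F) * (w * (G ^ m)⁻¹) ∈ B ∧ (s : F) * (G ^ m * w⁻¹) ∈ B) →
      ∃ g₀ : F, g₀ ≠ 0 ∧ h86l_IsFrac B g₀ ∧ (∃ c : B, c ∉ 𝔫 ∧ (c : F) * g₀ ∈ V) ∧
        ∃ s₀ : B, s₀ ∉ 𝔫 ∧ (s₀ : F) * (w * (g₀ ^ m)⁻¹) ∈ B ∧ (s₀ : F) * (g₀ ^ m * w⁻¹) ∈ B

/-! ## Concrete leaves -/

/-- **LOC-VCOMP at the chart `t`.** -/
def H86LocVCompAt (A : ValuationSubring Kbar) (M q : ℕ) [NeZero M] [NeZero q]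
    (t : FF (M * q * q)) : Prop :=
  -- `hex`: a vertical prime passes through every closed point of the special fibre
  (∀ 𝔫 : Ideal (h92c_Chart A (M * q * q) t), 𝔫.IsMaximal →
    ((q : ℕ) : h92c_Chart A (M * q * q) t) ∈ 𝔫 →
    ∃ P : Ideal (h92c_Chart A (M * q * q) t),
      h86l_IsVert 𝔫 ((q : ℕ) : h92c_Chart A (M * q * q) t) P) ∧
  -- `hden`: `V₀ ⊆ B_P` for every non-maximal prime `P ∋ q`
  (∀ P : Ideal (h92c_Chart A (M * q * q) t), P.IsPrime → ¬ P.IsMaximal →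
    ((q : ℕ) : h92c_Chart A (M * q * q) t) ∈ P → ∀ v ∈ h92c_V0 A M q,
    ∃ s : h92c_Chart A (M * q * q) t, s ∉ P ∧
      (s : FF (M * q * q)) * v ∈ h92c_Chart A (M * q * q) t) ∧
  -- `hinv`: outside the vertical primes through `𝔫`, the functions of `B` are units of `(V₀)_𝔫`
  (∀ 𝔫 : Ideal (h92c_Chart A (M * q * q) t), 𝔫.IsMaximal →
    ((q : ℕ) : h92c_Chart A (M * q * q) t) ∈ 𝔫 →
    ∀ s : h92c_Chart A (M * q * q) t,
      (∀ P : Ideal (h92c_Chart A (M * q * q) t),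
        h86l_IsVert 𝔫 ((q : ℕ) : h92c_Chart A (M * q * q) t) P → s ∉ P) →
      ∃ c : h92c_Chart A (M * q * q) t, c ∉ 𝔫 ∧
        (c : FF (M * q * q)) * ((s : FF (M * q * q)))⁻¹ ∈ h92c_V0 A M q)

/-- **LOC-VCOMP.** -/
def H86LocVComp : Prop :=
  ∀ (q : ℕ) (hq : q.Prime) (M : ℕ) [NeZero M], ¬ q ∣ M → auxLevel q ∣ M →
    haveI : NeZero q := ⟨hq.ne_zero⟩
    ∀ A : ValuationSubring Kbar, A.LiesOverPrime q →
      H86LocVCompAt A M q (jB (M * q * q)) ∧ H86LocVCompAt A M q (jB (M * q * q))⁻¹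

/-- **LOC-HOR at the chart `t`.** -/
def H86LocHorAt (A : ValuationSubring Kbar) (N q : ℕ) (t : FF N) : Prop :=
  ∀ 𝔭 : Ideal (h92c_Chart A N t), 𝔭.IsPrime → 𝔭 ≠ ⊥ → ((q : ℕ) : h92c_Chart A N t) ∉ 𝔭 →
    ∀ (m : ℕ) (w : FF N), w ≠ 0 → w ∈ h92c_F0 A N →
      (∀ v : Place Kbar (FF N), (m : ℤ) ∣ v.ord w) →
      ∃ G : FF N, G ≠ 0 ∧ h86l_IsFrac (h92c_Chart A N t) G ∧
        ∃ s : h92c_Chart A N t, s ∉ 𝔭 ∧
          (s : FF N) * (w * (G ^ m)⁻¹) ∈ h92c_Chart A N t ∧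
          (s : FF N) * (G ^ m * w⁻¹) ∈ h92c_Chart A N t

/-- **LOC-HOR.** -/
def H86LocHor : Prop :=
  ∀ (q : ℕ) (hq : q.Prime) (M : ℕ) [NeZero M], ¬ q ∣ M → auxLevel q ∣ M →
    haveI : NeZero q := ⟨hq.ne_zero⟩
    ∀ A : ValuationSubring Kbar, A.LiesOverPrime q →
      H86LocHorAt A (M * q * q) q (jB (M * q * q)) ∧
      H86LocHorAt A (M * q * q) q (jB (M * q * q))⁻¹

/-- **LOC-FRAC at the chart `t`.** -/
def H86LocFracAt (A : ValuationSubring Kbar) (N : ℕ) (t : FF N) : Prop :=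
  IsNoetherianRing (h92c_Chart A N t) ∧
    ∀ x : FF N, x ∈ h92c_F0 A N ↔ h86l_IsFrac (h92c_Chart A N t) x

/-- **LOC-FRAC.**  The charts are noetherian with fraction field `F₀`; `1 + q V₀ ⊆ V₀ˣ`;
the charts lie in `V₀`. -/
def H86LocFrac : Prop :=
  ∀ (q : ℕ) (hq : q.Prime) (M : ℕ) [NeZero M], ¬ q ∣ M → auxLevel q ∣ M →
    haveI : NeZero q := ⟨hq.ne_zero⟩
    ∀ A : ValuationSubring Kbar, A.LiesOverPrime q →
      H86LocFracAt A (M * q * q) (jB (M * q * q)) ∧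
      H86LocFracAt A (M * q * q) (jB (M * q * q))⁻¹ ∧
      (∀ x ∈ h92c_Chart A (M * q * q) (jB (M * q * q)), x ∈ h92c_V0 A M q) ∧
      (∀ x ∈ h92c_Chart A (M * q * q) (jB (M * q * q))⁻¹, x ∈ h92c_V0 A M q) ∧
      (∀ w ∈ h92c_U A M q, w⁻¹ ∈ h92c_V0 A M q)

/-- **LOC-ONE-ASM.** -/
def H86LocOneAssembly : Prop :=
  H86LocRegData → H86LocFactAbs → H62RegStatement → H86LocVComp → H86LocHor → H86LocFrac →
    H86LocOne

end Fermat.Agent.S36
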