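import Mathlib
import Fermat.Agent.S36.H16RegLoc
import Fermat.Agent.S36.H66ChartSub
import Fermat.Agent.S36.H86LocOneIface

/-!
# S36, row LOC-REGDATA (helper16): `H86LocRegData`

Twin of `S36/H16RegLoc.lean` in the vocabulary of `S36/H66ChartSub.lean` (the chart `B` is a
`Subring` of a field `F`, `O = h66sO B 𝔫`), and the proof of the frozen abstract leaf
`H86LocRegData` of `S36/H86LocOneIface.lean`.

* `h16s_reg_data`, `h16s_reg_data_one` : REG (`H62RegAt`) ⟹ the local data of Lemma A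
  (`h66s_datum`, `h66s_datum_unibranch`).
* `h16s_locRegData : H86LocRegData`.
-/

set_option autoImplicit false
set_option linter.unusedSectionVars false
set_option linter.style.haveILetI false

open IsLocalRing

namespace Fermat.Agent.S36

section LocS

variable {F : Type*} [Field F]
variable (B : Subring F) (𝔫 : Ideal B) [h𝔫 : 𝔫.IsPrime]

/-- the inclusion `B → B_𝔫`. -/
def h16sIncl : B →+* h66sO B 𝔫 where
  toFun b := ⟨(b : F), h66s_B_le_O b.2⟩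
  map_one' := rfl
  map_mul' _ _ := rfl
  map_zero' := rfl
  map_add' _ _ := rfl

theorem h16s_incl_coe (b : B) : ((h16sIncl B 𝔫 b : h66sO B 𝔫) : F) = (b : F) := rfl

theorem h16s_incl_injective : Function.Injective (h16sIncl B 𝔫) := by
  intro a b h
  apply Subtype.ext
  exact congrArg (fun z : h66sO B 𝔫 => (z : F)) h

theorem h16s_isUnit_incl {s : B} (hs : s ∉ 𝔫) : IsUnit (h16sIncl B 𝔫 s) := by
  rw [h66s_isUnit_iff]
  exact ⟨1, s, (Ideal.ne_top_iff_one 𝔫).mp h𝔫.ne_top, hs, by simp [h16s_incl_coe]⟩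

/-- `B_𝔫` is the localisation of `B` at `𝔫`. -/
theorem h16s_isLocalization :
    letI : Algebra B (h66sO B 𝔫) := (h16sIncl B 𝔫).toAlgebra
    IsLocalization 𝔫.primeCompl (h66sO B 𝔫) := by
  letI : Algebra B (h66sO B 𝔫) := (h16sIncl B 𝔫).toAlgebra
  rw [isLocalization_iff]
  refine ⟨fun y => h16s_isUnit_incl B 𝔫 y.2, fun z => ?_, fun {x y} h => ?_⟩
  · obtain ⟨s, hs, hsz⟩ := z.2
    refine ⟨(⟨_, hsz⟩, ⟨s, hs⟩), ?_⟩
    apply Subtype.ext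
    show (z : F) * (s : F) = (s : F) * (z : F)
    ring
  · exact ⟨1, by rw [h16s_incl_injective B 𝔫 h]⟩

theorem h16s_isNoetherianRing [IsNoetherianRing B] : IsNoetherianRing (h66sO B 𝔫) := by
  letI : Algebra B (h66sO B 𝔫) := (h16sIncl B 𝔫).toAlgebra
  haveI := h16s_isLocalization B 𝔫
  exact IsLocalization.isNoetherianRing 𝔫.primeCompl (h66sO B 𝔫) inferInstance

/-- elements of `𝔫` are in the maximal ideal of `B_𝔫`. -/
theorem h16s_incl_mem_max {b : B} (hb : b ∈ 𝔫) : h16sIncl B 𝔫 b ∈ maximalIdeal (h66sO B 𝔫) := by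
  rw [h66s_mem_maximalIdeal_iff]
  exact ⟨1, b, (Ideal.ne_top_iff_one 𝔫).mp h𝔫.ne_top, hb, by simp [h16s_incl_coe]⟩

/-- the extension of an ideal `I` of `B` to `B_𝔫`, elementwise. -/
theorem h16s_mem_map_iff (I : Ideal B) (z : h66sO B 𝔫) :
    z ∈ I.map (h16sIncl B 𝔫) ↔ ∃ s : B, s ∉ 𝔫 ∧ ∃ b ∈ I, (s : F) * (z : F) = b := by
  letI : Algebra B (h66sO B 𝔫) := (h16sIncl B 𝔫).toAlgebra
  haveI := h16s_isLocalization B 𝔫
  constructor
  · intro hz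
    have hz' : z ∈ I.map (algebraMap B (h66sO B 𝔫)) := hz
    rw [IsLocalization.mem_map_algebraMap_iff 𝔫.primeCompl] at hz'
    obtain ⟨⟨⟨b, hb⟩, s⟩, h⟩ := hz'
    refine ⟨s, s.2, b, hb, ?_⟩
    have := congrArg (fun z : h66sO B 𝔫 => (z : F)) h
    simp only at this
    rw [mul_comm]
    exact this
  · rintro ⟨s, hs, b, hb, h⟩
    have hu := h16s_isUnit_incl B 𝔫 hs
    have h1 : h16sIncl B 𝔫 s * z = h16sIncl B 𝔫 b := Subtype.ext h
    have h2 : z = ↑(hu.unit⁻¹) * h16sIncl B 𝔫 b := by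
      rw [← h1, ← mul_assoc, IsUnit.val_inv_mul, one_mul]
    rw [h2]
    exact Ideal.mul_mem_left _ _ (Ideal.mem_map_of_mem _ hb)

/-- the contraction of the extension of a prime `P ≤ 𝔫`. -/
theorem h16s_incl_mem_map_iff (P : Ideal B) [hP : P.IsPrime] (hP𝔫 : P ≤ 𝔫) (b : B) :
    h16sIncl B 𝔫 b ∈ P.map (h16sIncl B 𝔫) ↔ b ∈ P := by
  constructor
  · intro h
    obtain ⟨s, hs, c, hc, h⟩ := (h16s_mem_map_iff B 𝔫 P _).mp h
    have h1 : s * b = c := Subtype.ext (by push_cast; exact h)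
    have h2 : s * b ∈ P := by rw [h1]; exact hc
    exact (hP.mem_or_mem h2).resolve_left fun h => hs (hP𝔫 h)
  · exact fun h => Ideal.mem_map_of_mem _ h

theorem h16s_map_isPrime (P : Ideal B) [hP : P.IsPrime] (hP𝔫 : P ≤ 𝔫) :
    (P.map (h16sIncl B 𝔫)).IsPrime := by
  letI : Algebra B (h66sO B 𝔫) := (h16sIncl B 𝔫).toAlgebra
  haveI := h16s_isLocalization B 𝔫
  have hdisj : Disjoint (𝔫.primeCompl : Set B) (P : Set B) := by
    rw [Set.disjoint_left]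
    intro b hb hb'
    exact hb (hP𝔫 hb')
  exact IsLocalization.isPrime_of_isPrime_disjoint 𝔫.primeCompl (h66sO B 𝔫) P hP hdisj

/-- `𝔫 B_𝔫` is the maximal ideal. -/
theorem h16s_map_eq_max : 𝔫.map (h16sIncl B 𝔫) = maximalIdeal (h66sO B 𝔫) := by
  ext z
  rw [h16s_mem_map_iff, h66s_mem_maximalIdeal_iff]
  constructor
  · rintro ⟨s, hs, b, hb, h⟩
    exact ⟨s, b, hs, hb, h⟩
  · rintro ⟨s, b, hs, hb, h⟩
    exact ⟨s, hs, b, hb, h⟩

/-- "locally at `𝔫`" generation, in `B_𝔫`. -/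
theorem h16s_max_le_of_loc (I : Ideal B)
    (hgen : ∀ z ∈ 𝔫, ∃ s, s ∉ 𝔫 ∧ s * z ∈ I) :
    maximalIdeal (h66sO B 𝔫) ≤ I.map (h16sIncl B 𝔫) := by
  intro z hz
  rw [h66s_mem_maximalIdeal_iff] at hz
  obtain ⟨s, b, hs, hb, h⟩ := hz
  obtain ⟨s', hs', hsb⟩ := hgen b hb
  rw [h16s_mem_map_iff]
  refine ⟨s' * s, fun h => (h𝔫.mem_or_mem h).elim hs' hs, s' * b, hsb, ?_⟩
  push_cast
  rw [mul_assoc, h]

end LocS

section ChartS

variable {F : Type*} [Field F]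
variable (B : Subring F) [hBn : IsNoetherianRing B] (𝔫 : Ideal B) [h𝔫 : 𝔫.IsPrime]

/-- the local ring at a closed point with a vertical prime `P`, `𝔫 = (x, y) = P + (t)` locally:
`P B_𝔫 = (a)`, `𝔪 = (a, b)`, `b` not nilpotent modulo `a`. -/
theorem h16s_vertical_gen (π : B) (hπ0 : π ≠ 0)
    (htwo : ∃ x ∈ 𝔫, ∃ y ∈ 𝔫, ∀ z ∈ 𝔫, ∃ s, s ∉ 𝔫 ∧ s * z ∈ Ideal.span {x, y})
    (P : Ideal B) [hP : P.IsPrime] (hπP : π ∈ P) (hP𝔫 : P ≤ 𝔫) (hPne : P ≠ 𝔫)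
    (hbr : ∃ t ∈ 𝔫, ∀ z ∈ 𝔫, ∃ s, s ∉ 𝔫 ∧ s * z ∈ P ⊔ Ideal.span {t}) :
    haveI := h16s_isNoetherianRing B 𝔫
    ∃ a b : h66sO B 𝔫, a ≠ 0 ∧ P.map (h16sIncl B 𝔫) = Ideal.span {a} ∧
      maximalIdeal (h66sO B 𝔫) = Ideal.span {a, b} ∧ ∀ n : ℕ, b ^ n ∉ Ideal.span {a} := by
  haveI := h16s_isNoetherianRing B 𝔫
  obtain ⟨x, hx, y, hy, hgen⟩ := htwo
  obtain ⟨t, ht, hgen'⟩ := hbr
  have hxy : maximalIdeal (h66sO B 𝔫) = Ideal.span {h16sIncl B 𝔫 x, h16sIncl B 𝔫 y} := by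
    apply le_antisymm
    · refine (h16s_max_le_of_loc B 𝔫 _ hgen).trans ?_
      rw [Ideal.map_span, Set.image_pair]
    · rw [Ideal.span_le]
      intro z hz
      rcases hz with rfl | rfl
      · exact h16s_incl_mem_max B 𝔫 hx
      · exact h16s_incl_mem_max B 𝔫 hy
  haveI hPO : (P.map (h16sIncl B 𝔫)).IsPrime := h16s_map_isPrime B 𝔫 P hP𝔫
  have hP0 : P.map (h16sIncl B 𝔫) ≠ ⊥ := by
    intro h
    have h1 : h16sIncl B 𝔫 π ∈ P.map (h16sIncl B 𝔫) := Ideal.mem_map_of_mem _ hπP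
    rw [h, Ideal.mem_bot] at h1
    exact hπ0 (h16s_incl_injective B 𝔫 (by rw [h1, map_zero]))
  have hPm : P.map (h16sIncl B 𝔫) ≠ maximalIdeal (h66sO B 𝔫) := by
    intro h
    apply hPne
    refine le_antisymm hP𝔫 fun b hb => ?_
    rw [← h16s_incl_mem_map_iff B 𝔫 P hP𝔫, h]
    exact h16s_incl_mem_max B 𝔫 hb
  have hPt : maximalIdeal (h66sO B 𝔫) ≤
      P.map (h16sIncl B 𝔫) ⊔ Ideal.span {h16sIncl B 𝔫 t} := by
    refine (h16s_max_le_of_loc B 𝔫 _ hgen').trans ?_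
    rw [Ideal.map_sup, Ideal.map_span, Set.image_singleton]
  exact h16l_vertical_local _ _ (h16sIncl B 𝔫 t) hxy (h16s_incl_mem_max B 𝔫 ht) _ hP0 hPm hPt

/-- divisibility by a generator of `P B_𝔫`, elementwise. -/
theorem h16s_dvd_iff (P : Ideal B) (a : h66sO B 𝔫)
    (hPa : P.map (h16sIncl B 𝔫) = Ideal.span {a}) (z : h66sO B 𝔫) :
    a ∣ z ↔ ∃ s : B, s ∉ 𝔫 ∧ ∃ b ∈ P, (s : F) * (z : F) = b := by
  rw [← Ideal.mem_span_singleton, ← hPa, h16s_mem_map_iff]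

/-- a prime `P'` of `B` with `P ≤ P' ≤ 𝔫`, `P' ≠ 𝔫`, is `P` if `P B_𝔫 = (a)`, `𝔪 = (a, b)`. -/
theorem h16s_eq_of_le (P : Ideal B) [hP : P.IsPrime] (hP𝔫 : P ≤ 𝔫)
    (a b : h66sO B 𝔫) (hPa : P.map (h16sIncl B 𝔫) = Ideal.span {a})
    (hm : maximalIdeal (h66sO B 𝔫) = Ideal.span {a, b})
    (P' : Ideal B) [hP' : P'.IsPrime] (hle : P ≤ P') (hP'𝔫 : P' ≤ 𝔫) (hP'ne : P' ≠ 𝔫) :
    P' = P := by
  haveI := h16s_isNoetherianRing B 𝔫
  haveI hPO : (P'.map (h16sIncl B 𝔫)).IsPrime := h16s_map_isPrime B 𝔫 P' hP'𝔫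
  have ha : a ∈ P'.map (h16sIncl B 𝔫) := by
    have h1 : a ∈ P.map (h16sIncl B 𝔫) := by
      rw [hPa]; exact Ideal.mem_span_singleton_self a
    exact Ideal.map_mono hle h1
  have hb : b ∉ P'.map (h16sIncl B 𝔫) := by
    intro hb
    apply hP'ne
    refine le_antisymm hP'𝔫 fun c hc => ?_
    rw [← h16s_incl_mem_map_iff B 𝔫 P' hP'𝔫]
    have h1 : maximalIdeal (h66sO B 𝔫) ≤ P'.map (h16sIncl B 𝔫) := by
      rw [hm, Ideal.span_le]
      intro z hz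
      rcases hz with rfl | rfl
      · exact ha
      · exact hb
    exact h1 (h16s_incl_mem_max B 𝔫 hc)
  have h2 : P'.map (h16sIncl B 𝔫) = Ideal.span {a} := h16l_prime_eq_span a b hm _ ha hb
  refine le_antisymm (fun c hc => ?_) hle
  rw [← h16s_incl_mem_map_iff B 𝔫 P hP𝔫, hPa, ← h2]
  exact Ideal.mem_map_of_mem _ hc

end ChartS

section DataS

variable {F : Type*} [Field F]
variable (B : Subring F) [hBn : IsNoetherianRing B] (𝔫 : Ideal B) [h𝔫 : 𝔫.IsPrime]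

/-- **REG ⟹ the local data of Lemma A.**  `B` a noetherian chart, `H62RegAt 𝔫 π`, and a finite
nonempty family `P i` of pairwise distinct vertical primes through `𝔫` such that every prime
`π ∈ P' ≤ 𝔫` contains one of them.  Then `O = B_𝔫` is factorial and there are prime elements
`f i` of `O` and exponents `e i ≠ 0` with `P i O = (f i)`, `π = unit * ∏ f i ^ e i`,
`𝔪 = (f i, f j)` for `i ≠ j`, and every branch `O / (f i)` is a valuation ring.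
These are the hypotheses `hprime`, `hna`, `hπ`, `hpair`, `hval` of `h66s_hloc`. -/
theorem h16s_reg_data (π : B) (hπ0 : π ≠ 0) (hreg : H62RegAt 𝔫 π)
    {ι : Type*} [Fintype ι] [Nonempty ι] (P : ι → Ideal B) (hPprime : ∀ i, (P i).IsPrime)
    (hπP : ∀ i, π ∈ P i) (hP𝔫 : ∀ i, P i ≤ 𝔫) (hPne : ∀ i, P i ≠ 𝔫)
    (hPinj : Function.Injective P)
    (hcov : ∀ P' : Ideal B, P'.IsPrime → π ∈ P' → P' ≤ 𝔫 → ∃ i, P i ≤ P') :
    UniqueFactorizationMonoid (h66sO B 𝔫) ∧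
    ∃ (f : ι → h66sO B 𝔫) (e : ι → ℕ), (∀ i, e i ≠ 0) ∧ (∀ i, Prime (f i)) ∧
      (∀ i, (P i).map (h16sIncl B 𝔫) = Ideal.span {f i}) ∧
      (∀ i j, i ≠ j → ¬ f i ∣ f j) ∧
      Associated (h16sIncl B 𝔫 π) (∏ i, f i ^ e i) ∧
      (∀ i j, i ≠ j → maximalIdeal (h66sO B 𝔫) ^ 1 ≤ Ideal.span {f i, f j}) ∧
      (∀ i, ∀ x y : h66sO B 𝔫, (∃ t, f i ∣ y - x * t) ∨ (∃ t, f i ∣ x - y * t)) ∧
      (∀ i, ∀ z : h66sO B 𝔫, f i ∣ z ↔ ∃ s : B, s ∉ 𝔫 ∧ ∃ b ∈ P i, (s : F) * (z : F) = b) := by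
  classical
  haveI := h16s_isNoetherianRing B 𝔫
  have hex : ∀ i, ∃ a b : h66sO B 𝔫, a ≠ 0 ∧ (P i).map (h16sIncl B 𝔫) = Ideal.span {a} ∧
      maximalIdeal (h66sO B 𝔫) = Ideal.span {a, b} ∧ ∀ n : ℕ, b ^ n ∉ Ideal.span {a} :=
    fun i =>
      haveI := hPprime i
      h16s_vertical_gen B 𝔫 π hπ0 hreg.two_gen (P i) (hπP i) (hP𝔫 i) (hPne i)
        (hreg.branch (P i) (hPprime i) (hπP i) (hP𝔫 i) (hPne i))
  choose f b hf0 hPf hm hnil using hex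
  have hprime : ∀ i, Prime (f i) := fun i =>
    (h80u_prime_of_two_gen (f i) (b i) (hf0 i) (hm i) (hnil i)).1
  have hPIR : ∀ i, IsPrincipalIdealRing (h66sO B 𝔫 ⧸ Ideal.span {f i}) := fun i =>
    (h80u_prime_of_two_gen (f i) (b i) (hf0 i) (hm i) (hnil i)).2
  obtain ⟨i₀⟩ := (inferInstance : Nonempty ι)
  have hufd : UniqueFactorizationMonoid (h66sO B 𝔫) :=
    h80u_ufd_of_two_gen (f i₀) (b i₀) (hf0 i₀) (hm i₀) (hnil i₀)
  have hna : ∀ i j, i ≠ j → ¬ f i ∣ f j := by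
    intro i j hij hd
    apply hij
    apply hPinj
    have h1 : Associated (f i) (f j) :=
      (hprime i).associated_of_dvd (hprime j) hd
    have h2 : (P i).map (h16sIncl B 𝔫) = (P j).map (h16sIncl B 𝔫) := by
      rw [hPf i, hPf j]
      exact Ideal.span_singleton_eq_span_singleton.mpr h1
    haveI := hPprime i
    haveI := hPprime j
    ext c
    rw [← h16s_incl_mem_map_iff B 𝔫 (P i) (hP𝔫 i), ← h16s_incl_mem_map_iff B 𝔫 (P j) (hP𝔫 j),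
      h2]
  have hπO0 : h16sIncl B 𝔫 π ≠ 0 := fun h =>
    hπ0 (h16s_incl_injective B 𝔫 (by rw [h, map_zero]))
  have hcovO : ∀ p : h66sO B 𝔫, Prime p → p ∣ h16sIncl B 𝔫 π → ∃ i, Associated p (f i) := by
    intro p hp hd
    haveI hpp : (Ideal.span {p}).IsPrime := (Ideal.span_singleton_prime hp.ne_zero).mpr hp
    have hP' : ((Ideal.span {p}).comap (h16sIncl B 𝔫)).IsPrime := Ideal.comap_isPrime _ _
    have hπP' : π ∈ (Ideal.span {p}).comap (h16sIncl B 𝔫) := by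
      rw [Ideal.mem_comap, Ideal.mem_span_singleton]
      exact hd
    have hle : (Ideal.span {p}).comap (h16sIncl B 𝔫) ≤ 𝔫 := by
      intro c hc
      by_contra hcn
      have hu := h16s_isUnit_incl B 𝔫 hcn
      rw [Ideal.mem_comap] at hc
      exact hpp.ne_top (Ideal.eq_top_of_isUnit_mem _ hc hu)
    obtain ⟨i, hi⟩ := hcov _ hP' hπP' hle
    refine ⟨i, ?_⟩
    have h1 : f i ∈ Ideal.span {p} := by
      have h2 : f i ∈ (P i).map (h16sIncl B 𝔫) := by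
        rw [hPf i]; exact Ideal.mem_span_singleton_self _
      exact (Ideal.map_mono hi).trans Ideal.map_comap_le h2
    rw [Ideal.mem_span_singleton] at h1
    exact hp.associated_of_dvd (hprime i) h1
  haveI := hufd
  obtain ⟨e, he, he'⟩ := h16l_assoc_prod f hprime hna (h16sIncl B 𝔫 π) hπO0 hcovO
  refine ⟨hufd, f, e, fun i => he' i ?_, hprime, hPf, hna, he, ?_, ?_, ?_⟩
  · rw [← Ideal.mem_span_singleton, ← hPf i]
    exact Ideal.mem_map_of_mem _ (hπP i)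
  · intro i j hij
    rw [pow_one]
    have h1 := h16s_max_le_of_loc B 𝔫 (P i ⊔ P j)
      (hreg.transversal (P i) (P j) (hPprime i) (hPprime j) (hπP i) (hπP j) (hP𝔫 i) (hP𝔫 j)
        (hPne i) (hPne j) (fun h => hij (hPinj h)))
    refine h1.trans ?_
    rw [Ideal.map_sup, hPf i, hPf j, ← Ideal.span_union, Set.singleton_union]
  · intro i x y
    exact h16l_hval_of_pir (f i) (hprime i) (hPIR i) x y
  · intro i z
    exact h16s_dvd_iff B 𝔫 (P i) (f i) (hPf i) z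

/-- **REG ⟹ the local data of Lemma A at a one-branch point.**  `P` the vertical prime through
`𝔫`; every prime `π ∈ P' ≤ 𝔫` contains `P`.  These are the hypotheses `hg`, `hπ`, `hval` of
`h66s_hloc_unibranch`. -/
theorem h16s_reg_data_one (π : B) (hπ0 : π ≠ 0) (hreg : H62RegAt 𝔫 π)
    (P : Ideal B) [hP : P.IsPrime] (hπP : π ∈ P) (hP𝔫 : P ≤ 𝔫) (hPne : P ≠ 𝔫)
    (hcov : ∀ P' : Ideal B, P'.IsPrime → π ∈ P' → P' ≤ 𝔫 → P ≤ P') :
    UniqueFactorizationMonoid (h66sO B 𝔫) ∧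
    ∃ (g : h66sO B 𝔫) (e : ℕ), e ≠ 0 ∧ Prime g ∧
      P.map (h16sIncl B 𝔫) = Ideal.span {g} ∧
      Associated (h16sIncl B 𝔫 π) (g ^ e) ∧
      (∀ x y : h66sO B 𝔫, (∃ t, g ∣ y - x * t) ∨ (∃ t, g ∣ x - y * t)) ∧
      (∀ z : h66sO B 𝔫, g ∣ z ↔ ∃ s : B, s ∉ 𝔫 ∧ ∃ b ∈ P, (s : F) * (z : F) = b) := by
  obtain ⟨hufd, f, e, he, hprime, hPf, -, hπ, -, hval, hdvd⟩ :=
    h16s_reg_data B 𝔫 π hπ0 hreg (ι := Unit) (fun _ => P) (fun _ => hP) (fun _ => hπP)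
      (fun _ => hP𝔫) (fun _ => hPne) (fun _ _ _ => rfl)
      (fun P' hP' hπP' hle => ⟨(), hcov P' hP' hπP' hle⟩)
  refine ⟨hufd, f (), e (), he (), hprime (), hPf (), ?_, hval (), hdvd ()⟩
  simpa using hπ

/-- the covering hypothesis from uniqueness of the vertical prime through `𝔫`
(`¬ h86l_IsMulti 𝔫 π`). -/
theorem h16s_cov_of_unique (π : B) (P : Ideal B) [hP : P.IsPrime] (hπP : π ∈ P)
    (hP𝔫 : P ≤ 𝔫) (hPne : P ≠ 𝔫)
    (hone : ¬ ∃ P P' : Ideal B, P.IsPrime ∧ P'.IsPrime ∧ π ∈ P ∧ π ∈ P' ∧ P ≤ 𝔫 ∧ P' ≤ 𝔫 ∧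
      P ≠ 𝔫 ∧ P' ≠ 𝔫 ∧ P ≠ P') :
    ∀ P' : Ideal B, P'.IsPrime → π ∈ P' → P' ≤ 𝔫 → P ≤ P' := by
  intro P' hP' hπP' hle
  by_cases h : P' = 𝔫
  · rw [h]; exact hP𝔫
  · by_contra hcon
    apply hone
    refine ⟨P, P', hP, hP', hπP, hπP', hP𝔫, hle, hPne, h, ?_⟩
    rintro rfl
    exact hcon le_rfl

/-- the covering hypothesis from the radical of `π B_𝔫`: if every element of `⋂ P i` has,
locally at `𝔫`, a power divisible by `π`, then every prime `π ∈ P' ≤ 𝔫` contains some `P i`. -/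
theorem h16s_cov_of_rad (π : B) {ι : Type*} [Fintype ι] (P : ι → Ideal B)
    (hrad : ∀ b : B, (∀ i, b ∈ P i) → ∃ (k : ℕ) (s c : B), s ∉ 𝔫 ∧ s * b ^ k = c * π) :
    ∀ P' : Ideal B, P'.IsPrime → π ∈ P' → P' ≤ 𝔫 → ∃ i, P i ≤ P' := by
  classical
  intro P' hP' hπP' hle
  by_contra hcon
  push Not at hcon
  have hex : ∀ i, ∃ b ∈ P i, b ∉ P' := fun i => Set.not_subset.mp (hcon i)
  choose b hb hb' using hex
  have h1 : ∀ i, (∏ j, b j) ∈ P i := fun i =>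
    Ideal.prod_mem (P i) (Finset.mem_univ i) (hb i)
  obtain ⟨k, s, c, hs, hsc⟩ := hrad _ h1
  have h2 : s * (∏ j, b j) ^ k ∈ P' := by
    rw [hsc]; exact P'.mul_mem_left _ hπP'
  rcases hP'.mem_or_mem h2 with h | h
  · exact hs (hle h)
  · have h3 := hP'.mem_of_pow_mem k h
    obtain ⟨j, -, hj⟩ := (hP'.prod_mem_iff).mp h3
    exact hb' j hj

end DataS

/-- **LOC-REGDATA.** -/
theorem h16s_locRegData : H86LocRegData := by
  intro F _ B _ 𝔫 h𝔫 q hq hq𝔫 hq0 hreg hmulti P hP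
  obtain ⟨hPp, hqP, hP𝔫, hPne⟩ := hP
  haveI := hPp
  have hπ0 : ((q : ℕ) : B) ≠ 0 := by
    intro h
    apply hq0
    have h1 : (((q : ℕ) : B) : F) = 0 := by rw [h]; rfl
    simpa using h1
  have hcov := h16s_cov_of_unique B 𝔫 ((q : ℕ) : B) P hqP hP𝔫 hPne hmulti
  obtain ⟨-, g, e, he, hg, hPg, hπ, hval, -⟩ :=
    h16s_reg_data_one B 𝔫 ((q : ℕ) : B) hπ0 hreg P hqP hP𝔫 hPne hcov
  refine ⟨g, e, he, hg, ?_, hval, fun b => ?_⟩
  · rwa [map_natCast] at hπ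
  · have h1 : (⟨(b : F), h66s_B_le_O b.2⟩ : h66sO B 𝔫) = h16sIncl B 𝔫 b := rfl
    rw [h1, ← Ideal.mem_span_singleton, ← hPg, h16s_incl_mem_map_iff B 𝔫 P hP𝔫]

end Fermat.Agent.S36
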