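import Mathlib
import Fermat.Agent.S36.H16RegSub

/-!
# S36, block T (helper16): branch values of a local root from REG (branch normality)

Abstract (Mathlib + `H16RegSub`).  `B ⊆ F` a noetherian chart, `𝔫` a closed point with
`H62RegAt 𝔫 π`, `O = h66sO B 𝔫`.  A *vertical valuation through `𝔫`* is given by its ring
`W ⊆ F` and its maximal ideal `S ⊆ W` (`hSadd`, `hSmul`, `hS1`, `hWinv`), with `B ⊆ W`,
`π ∈ S`, centre `P = B ∩ S ≤ 𝔫` (`hcen`), `P ≠ 𝔫` (`hPne`).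

* `h16s_branch_value` : if `g₀ = y / x` with `x, y ∈ B`, `x ∉ S`, and `g₀ ^ m * u ≡ 1` modulo
  `S` for a unit `u` of `O`, then the residue of `g₀` along `W` lies in the local ring of the
  branch at `𝔫`: there are `b, s ∈ B ∖ 𝔫` with `s g₀ - b ∈ S`.
  (The branch `O / P O` is a valuation ring by `H62RegAt.branch`, hence root closed.)
-/

set_option autoImplicit false
set_option linter.unusedSectionVars false
set_option linter.style.haveILetI false

open IsLocalRing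

namespace Fermat.Agent.S36

section BranchValue

variable {F : Type*} [Field F]

/-- **branch normality**: the branch value of a local `m`-th root exists. -/
theorem h16s_branch_value (B : Subring F) [IsNoetherianRing B]
    (𝔫 : Ideal B) [h𝔫 : 𝔫.IsPrime] (π : B) (hπ0 : π ≠ 0) (hreg : H62RegAt 𝔫 π)
    (W : Subring F) (S : Set F) (hBW : ∀ x ∈ B, x ∈ W)
    (hSadd : ∀ x ∈ S, ∀ y ∈ S, x + y ∈ S) (hSmul : ∀ x ∈ W, ∀ y ∈ S, x * y ∈ S)
    (hS1 : (1 : F) ∉ S) (hWinv : ∀ x ∈ W, x ∉ S → x⁻¹ ∈ W)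
    (hπS : (π : F) ∈ S) (hcen : ∀ b : B, (b : F) ∈ S → b ∈ 𝔫) (hPne : ∃ b ∈ 𝔫, (b : F) ∉ S)
    (g₀ : F) (x y : B) (hx : (x : F) ∉ S) (hxy : (x : F) * g₀ = y)
    (m : ℕ) (hm : 0 < m) (u : F) (hu : u ∈ h66sO B 𝔫) (hu' : u⁻¹ ∈ h66sO B 𝔫) (hu0 : u ≠ 0)
    (hgu : g₀ ^ m * u - 1 ∈ S) :
    ∃ b s : B, s ∉ 𝔫 ∧ b ∉ 𝔫 ∧ (s : F) * g₀ - b ∈ S := by
  classical
  haveI := h16s_isNoetherianRing B 𝔫
  have hS0 : (0 : F) ∈ S := by
    have := hSmul 0 W.zero_mem _ hπS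
    rwa [zero_mul] at this
  have hSneg : ∀ z ∈ S, -z ∈ S := by
    intro z hz
    have := hSmul (-1) (W.neg_mem W.one_mem) z hz
    rwa [neg_one_mul] at this
  have hSsub : ∀ z ∈ S, ∀ z' ∈ S, z - z' ∈ S := by
    intro z hz z' hz'
    rw [sub_eq_add_neg]
    exact hSadd z hz _ (hSneg z' hz')
  have hSmul' : ∀ z ∈ S, ∀ c ∈ W, z * c ∈ S := by
    intro z hz c hc
    rw [mul_comm]
    exact hSmul c hc z hz
  -- the centre
  let P : Ideal B :=
    { carrier := {b | (b : F) ∈ S}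
      add_mem' := fun {a b} ha hb => by
        show ((a + b : B) : F) ∈ S
        push_cast
        exact hSadd _ ha _ hb
      zero_mem' := by
        show ((0 : B) : F) ∈ S
        exact hS0
      smul_mem' := fun c b hb => by
        show ((c * b : B) : F) ∈ S
        push_cast
        exact hSmul _ (hBW _ c.2) _ hb }
  have hPmem : ∀ b : B, b ∈ P ↔ (b : F) ∈ S := fun b => Iff.rfl
  haveI hP : P.IsPrime := by
    refine ⟨?_, ?_⟩
    · rw [Ne, Ideal.eq_top_iff_one, hPmem]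
      exact hS1
    · intro a b hab
      by_contra hcon
      push Not at hcon
      rw [hPmem] at hab
      rw [hPmem, hPmem] at hcon
      apply hcon.2
      have ha0 : (a : F) ≠ 0 := fun h => hcon.1 (h ▸ hS0)
      have h1 : (b : F) = (a : F)⁻¹ * ((a * b : B) : F) := by
        push_cast
        field_simp
      rw [h1]
      exact hSmul _ (hWinv _ (hBW _ a.2) hcon.1) _ hab
  have hπP : π ∈ P := hπS
  have hP𝔫 : P ≤ 𝔫 := fun b hb => hcen b hb
  have hPne' : P ≠ 𝔫 := by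
    obtain ⟨b, hb, hbS⟩ := hPne
    intro h
    exact hbS ((hPmem b).mp (h ▸ hb))
  -- `O ⊆ W`, `O ∩ S ⊆ 𝔪_O`
  have hsW : ∀ s : B, s ∉ 𝔫 → ((s : F))⁻¹ ∈ W := fun s hs =>
    hWinv _ (hBW _ s.2) fun h => hs (hcen s h)
  have hOW : ∀ z ∈ h66sO B 𝔫, z ∈ W := by
    rintro z ⟨s, hs, hsz⟩
    have hs0 : (s : F) ≠ 0 := h66s_coe_ne_zero hs
    have h1 : z = ((s : F))⁻¹ * ((s : F) * z) := by field_simp
    rw [h1]
    exact W.mul_mem (hsW s hs) (hBW _ hsz)
  have hOS : ∀ z : h66sO B 𝔫, (z : F) ∈ S → z ∈ maximalIdeal (h66sO B 𝔫) := by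
    intro z hz
    obtain ⟨s, hs, hsz⟩ := z.2
    rw [h66s_mem_maximalIdeal_iff]
    refine ⟨s, ⟨_, hsz⟩, hs, hcen _ ?_, rfl⟩
    exact hSmul _ (hBW _ s.2) _ hz
  have hPS : ∀ z : h66sO B 𝔫, z ∈ P.map (h16sIncl B 𝔫) → (z : F) ∈ S := by
    intro z hz
    obtain ⟨s, hs, b, hb, h⟩ := (h16s_mem_map_iff B 𝔫 P z).mp hz
    have hs0 : (s : F) ≠ 0 := h66s_coe_ne_zero hs
    have h1 : (z : F) = ((s : F))⁻¹ * (b : F) := by
      rw [← h]; field_simp
    rw [h1]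
    exact hSmul _ (hsW s hs) _ hb
  -- REG: the branch is a valuation ring
  obtain ⟨f, b₁, hf0, hPf, hmax, hnil⟩ :=
    h16s_vertical_gen B 𝔫 π hπ0 hreg.two_gen P hπP hP𝔫 hPne'
      (hreg.branch P hP hπP hP𝔫 hPne')
  obtain ⟨hfprime, hPIR⟩ := h80u_prime_of_two_gen f b₁ hf0 hmax hnil
  have hval := h16l_hval_of_pir f hfprime hPIR (h16sIncl B 𝔫 x) (h16sIncl B 𝔫 y)
  have hx0 : (x : F) ≠ 0 := fun h => hx (h ▸ hS0)
  have hxW : ((x : F))⁻¹ ∈ W := hWinv _ (hBW _ x.2) hx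
  have hg₀ : g₀ = ((x : F))⁻¹ * (y : F) := by
    rw [← hxy]; field_simp
  have hg₀W : g₀ ∈ W := by
    rw [hg₀]; exact W.mul_mem hxW (hBW _ y.2)
  have huW : u ∈ W := hOW u hu
  -- an element of `O` congruent to `g₀` or inverse to `g₀` modulo `S` is a unit of `O`
  have hpow : ∀ a c : F, a ∈ W → c ∈ W → a - c ∈ S → ∀ n : ℕ, a ^ n - c ^ n ∈ S := by
    intro a c ha hc hac n
    obtain ⟨d, hd⟩ := sub_dvd_pow_sub_pow (⟨a, ha⟩ : W) ⟨c, hc⟩ n
    have h1 : a ^ n - c ^ n = (a - c) * (d : F) := by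
      have := congrArg (fun z : W => (z : F)) hd
      simpa using this
    rw [h1]
    exact hSmul' _ hac _ d.2
  have hunitA : ∀ t : h66sO B 𝔫, g₀ - (t : F) ∈ S → IsUnit t := by
    intro t ht
    have htW : (t : F) ∈ W := hOW _ t.2
    have h1 : (t : F) ^ m * u - 1 ∈ S := by
      have e : (t : F) ^ m * u - 1 = ((t : F) ^ m - g₀ ^ m) * u + (g₀ ^ m * u - 1) := by ring
      rw [e]
      refine hSadd _ (hSmul' _ ?_ _ huW) _ hgu
      have := hpow g₀ (t : F) hg₀W htW ht m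
      have e2 : (t : F) ^ m - g₀ ^ m = -(g₀ ^ m - (t : F) ^ m) := by ring
      rw [e2]
      exact hSneg _ this
    have h2 : t ^ m * ⟨u, hu⟩ - 1 ∈ maximalIdeal (h66sO B 𝔫) := hOS _ h1
    have h3 : IsUnit (t ^ m * (⟨u, hu⟩ : h66sO B 𝔫)) := by
      by_contra hnu
      have h4 : t ^ m * (⟨u, hu⟩ : h66sO B 𝔫) ∈ maximalIdeal (h66sO B 𝔫) := hnu
      have h5 := (maximalIdeal (h66sO B 𝔫)).sub_mem h4 h2
      rw [sub_sub_cancel] at h5
      exact (Ideal.ne_top_iff_one _).mp (maximalIdeal.isMaximal _).ne_top h5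
    exact (isUnit_pow_iff hm.ne').mp (isUnit_of_mul_isUnit_left h3)
  have hunitB : ∀ t : h66sO B 𝔫, 1 - g₀ * (t : F) ∈ S → IsUnit t := by
    intro t ht
    have htW : (t : F) ∈ W := hOW _ t.2
    have h1 : (t : F) ^ m - u ∈ S := by
      have e : (t : F) ^ m - u =
          -((t : F) ^ m * (g₀ ^ m * u - 1)) + u * ((g₀ * (t : F)) ^ m - 1 ^ m) := by ring
      rw [e]
      refine hSadd _ (hSneg _ (hSmul _ (W.pow_mem htW m) _ hgu)) _ (hSmul _ huW _ ?_)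
      have h2 : g₀ * (t : F) - 1 ∈ S := by
        have e2 : g₀ * (t : F) - 1 = -(1 - g₀ * (t : F)) := by ring
        rw [e2]; exact hSneg _ ht
      exact hpow _ 1 (W.mul_mem hg₀W htW) W.one_mem h2 m
    have h2 : t ^ m - ⟨u, hu⟩ ∈ maximalIdeal (h66sO B 𝔫) := hOS _ h1
    have huu : IsUnit (⟨u, hu⟩ : h66sO B 𝔫) := by
      refine IsUnit.of_mul_eq_one (⟨u⁻¹, hu'⟩ : h66sO B 𝔫) ?_
      apply Subtype.ext
      show u * u⁻¹ = 1
      exact mul_inv_cancel₀ hu0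
    have h3 : IsUnit (t ^ m) := by
      by_contra hnu
      have h4 : t ^ m ∈ maximalIdeal (h66sO B 𝔫) := hnu
      have h5 := (maximalIdeal (h66sO B 𝔫)).sub_mem h4 h2
      rw [sub_sub_cancel] at h5
      exact h5 huu
    exact (isUnit_pow_iff hm.ne').mp h3
  -- conclusion from a unit `t` of `O` with `g₀ ≡ t`
  have hfin : ∀ t : h66sO B 𝔫, IsUnit t → g₀ - (t : F) ∈ S →
      ∃ b s : B, s ∉ 𝔫 ∧ b ∉ 𝔫 ∧ (s : F) * g₀ - b ∈ S := by
    intro t htu ht
    obtain ⟨s, b, hs, hb, hsb⟩ := (h66s_isUnit_iff t).mp htu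
    refine ⟨b, s, hs, hb, ?_⟩
    have e : (s : F) * g₀ - b = (s : F) * (g₀ - (t : F)) := by
      rw [← hsb]; ring
    rw [e]
    exact hSmul _ (hBW _ s.2) _ ht
  have hfz : ∀ z : h66sO B 𝔫, f ∣ z → (z : F) * ((x : F))⁻¹ ∈ S := by
    intro z hz
    refine hSmul' _ (hPS z ?_) _ hxW
    rw [hPf, Ideal.mem_span_singleton]
    exact hz
  rcases hval with ⟨t, ht⟩ | ⟨t, ht⟩
  · -- `y ≡ x t`
    have h1 := hfz _ ht
    have h2 : g₀ - (t : F) ∈ S := by
      have e : g₀ - (t : F) =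
          ((h16sIncl B 𝔫 y - h16sIncl B 𝔫 x * t : h66sO B 𝔫) : F) * ((x : F))⁻¹ := by
        push_cast
        rw [h16s_incl_coe, h16s_incl_coe, hg₀]
        field_simp
      rw [e]; exact h1
    exact hfin t (hunitA t h2) h2
  · -- `x ≡ y t`
    have h1 := hfz _ ht
    have h2 : 1 - g₀ * (t : F) ∈ S := by
      have e : 1 - g₀ * (t : F) =
          ((h16sIncl B 𝔫 x - h16sIncl B 𝔫 y * t : h66sO B 𝔫) : F) * ((x : F))⁻¹ := by
        push_cast
        rw [h16s_incl_coe, h16s_incl_coe, hg₀]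
        field_simp
      rw [e]; exact h1
    have htu := hunitB t h2
    obtain ⟨t', ht'⟩ := htu.exists_right_inv
    have ht'u : IsUnit t' := IsUnit.of_mul_eq_one t (by rw [mul_comm]; exact ht')
    have ht'F : (t : F) * (t' : F) = 1 := congrArg (fun z : h66sO B 𝔫 => (z : F)) ht'
    have h3 : g₀ - (t' : F) ∈ S := by
      have e : g₀ - (t' : F) = -((1 - g₀ * (t : F)) * (t' : F)) := by
        have : g₀ * ((t : F) * (t' : F)) = g₀ := by rw [ht'F, mul_one]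
        linear_combination -this
      rw [e]
      exact hSneg _ (hSmul' _ h2 _ (hOW _ t'.2))
    exact hfin t' ht'u h3

end BranchValue

end Fermat.Agent.S36
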