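import Fermat.Agent.LGC.SSV44

/-!
# S36, block GATE (helper3): the Gauss ring of ANY level `N` over a good level `M`

Port of `LGC/SSV44.lean` (helper44) from the inclusion `α : F_M → F_{Mℓ}` to an arbitrary
finite `ℚ̄`-algebra map `φ : F_M → F_N` (for S36: `M = M'`, `N = M' q²`, `φ` = the degeneracy
inclusion).  `ℓ ∤ M` a prime, `A` a valuation subring of `ℚ̄` over `ℓ`.

* `h3vV A φ` : the integral closure in `F_N` of `φ (gaussV A M)` = the intersection of ALL the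
  vertical valuation rings of `F_N` over `A` (no component has to be constructed).
* `h3v_hBV_fin/inf`, `h3v_hVunit`, `h3v_hQEP_fin/inf`, `h3v_nt` : the fields of `H26Chart` which
  depend on the Gauss ring, for the two charts `φ j`, `(φ j)⁻¹` of level `N`.
* `h3v_chart_fin`, `h3v_chart_inf` : `H26Chart` for the two charts of level `N`.

The special fibre of the normal model over `A ⊆ ℚ̄` is reduced (QEP), whatever the
multiplicities of the components over the unramified base are.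
-/

set_option autoImplicit false
set_option linter.style.haveILetI false
set_option linter.unusedSectionVars false
set_option synthInstance.maxHeartbeats 400000

open AlgebraicCurve ModularCurve WithZero IsLocalRing Polynomial

noncomputable section

namespace Fermat.Agent.S36

open Fermat.Agent.S37 Fermat.Agent.Red Fermat.Agent.Red.GG Fermat.Agent.Red.GV
  Fermat.Agent.Red.TRK Fermat.Agent.LGC

variable (A : ValuationSubring Kbar) {M N : ℕ} [NeZero M] [NeZero N]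
  (φ : FF M →ₐ[Kbar] FF N) {ℓ : ℕ} [NeZero ℓ]

/-- the image of the Gauss ring of level `M` in `F_N`. -/
def h3vImage : Subring (FF N) := (gaussV A M).map φ.toRingHom

/-- shortcut instance. -/
instance (priority := 10000) h3vInstAlgebraImage : Algebra (h3vImage A φ) (FF N) :=
  inferInstance

/-- **the Gauss ring of level `N`**: the integral closure in `F_N` of the Gauss valuation ring
of the good level `M`. -/
def h3vV : Subring (FF N) := (integralClosure (h3vImage A φ) (FF N)).toSubring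

theorem h3v_mem_V_iff' {x : FF N} : x ∈ h3vV A φ ↔ IsIntegral (h3vImage A φ) x := Iff.rfl

/-! ### `ssV` as integrality over `gaussV A M` along `α` -/

/-- the ring homomorphism `gaussV A M → F_{Mℓ}`. -/
def h3v_f : ↥(gaussV A M) →+* FF N :=
  (φ).toRingHom.comp (gaussV A M).subtype

theorem h3v_f_apply (x : gaussV A M) :
    h3v_f A φ x = φ (x : FF M) := rfl

theorem h3v_f_injective : Function.Injective (h3v_f A φ) := by
  intro x y h
  exact Subtype.ext ((φ).toRingHom.injective h)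

/-- the surjection `gaussV A M → h3vImage A φ`. -/
def h3v_toImage : ↥(gaussV A M) →+* ↥(h3vImage A φ) :=
  (h3v_f A φ).codRestrict (h3vImage A φ)
    (fun x => Subring.mem_map.mpr ⟨x.1, x.2, rfl⟩)

theorem h3v_toImage_surjective : Function.Surjective (h3v_toImage A φ) := by
  rintro ⟨y, hy⟩
  obtain ⟨x, hx, rfl⟩ := Subring.mem_map.mp hy
  exact ⟨⟨x, hx⟩, rfl⟩

theorem h3v_mem_V_iff (x : FF N) :
    x ∈ h3vV A φ ↔ (h3v_f A φ).IsIntegralElem x := by
  rw [h3v_mem_V_iff']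
  constructor
  · rintro ⟨p, hp, hpx⟩
    obtain ⟨q, hq, -, hqm⟩ := Polynomial.lifts_and_degree_eq_and_monic
      ((Polynomial.mem_lifts p).2
        (Polynomial.map_surjective _ (h3v_toImage_surjective A φ) p)) hp
    refine ⟨q, hqm, ?_⟩
    have h1 : eval₂ (h3v_f A φ) x q =
        eval₂ (algebraMap (h3vImage A φ) (FF N)) x (q.map (h3v_toImage A φ)) := by
      rw [Polynomial.eval₂_map]
      rfl
    rw [h1, hq]
    exact hpx
  · rintro ⟨p, hp, hpx⟩
    refine ⟨p.map (h3v_toImage A φ), hp.map _, ?_⟩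
    rw [Polynomial.eval₂_map]
    exact hpx

/-! ### (V1) the charts are contained in `ssV` -/

theorem h3v_modelAt_le_V {ℓ' : ℕ} (hA : A.LiesOverPrime ℓ') (t₀ : FF M)
    (ht₀ : t₀ ∈ gaussV A M) :
    modelAt N A (φ t₀) ≤ h3vV A φ := by
  intro x hx
  rw [h3v_mem_V_iff]
  rw [Fermat.Agent.Red.KR.mem_modelAt_iff_evalF] at hx
  obtain ⟨p, hp, hpx⟩ := hx
  have hmem : ∀ Q : Polynomial A, evalF M A t₀ Q ∈ gaussV A M := by
    intro Q
    have hle : ringAdj M A t₀ ≤ gaussV A M := by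
      refine Subring.closure_le.2 ?_
      rintro z (⟨a, ha, rfl⟩ | rfl)
      · exact (cst_mem_gaussV_iff A M hA a).2 ha
      · exact ht₀
    exact hle (evalF_mem_ringAdj M A t₀ Q)
  let g : Polynomial A →+* ↥(gaussV A M) := (evalF M A t₀).codRestrict (gaussV A M) hmem
  refine ⟨p.map g, hp.map _, ?_⟩
  rw [Polynomial.eval₂_map]
  have hcomp : (h3v_f A φ).comp g = evalF N A (φ t₀) := by
    rw [← Fermat.Agent.Red.KR.comp_evalF (φ) A t₀]
    rfl
  rw [hcomp]
  exact hpx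




/-- **(V1) hBV**, finite chart. -/
theorem h3v_hBV_fin (hℓ : ℓ.Prime) (hM : ¬ ℓ ∣ M) (hA : A.LiesOverPrime ℓ) :
    ∀ x ∈ chart N A (φ (jB M)), x ∈ h3vV A φ :=
  fun _ hx => h3v_modelAt_le_V A φ hA (jB M) (h44v_jB_mem_gaussV A M ℓ hℓ hM hA) hx

/-- **(V1) hBV**, chart at infinity. -/
theorem h3v_hBV_inf (hℓ : ℓ.Prime) (hM : ¬ ℓ ∣ M) (hA : A.LiesOverPrime ℓ) :
    ∀ x ∈ chart N A (φ (jB M))⁻¹, x ∈ h3vV A φ := by
  intro x hx
  rw [← map_inv₀] at hx
  exact h3v_modelAt_le_V A φ hA (jB M)⁻¹ (h44v_jB_inv_mem_gaussV A M ℓ hℓ hM hA) hx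

/-! ### the Gauss ring of level `M` is integrally closed -/


/-- the coefficients of the characteristic polynomial over `α(F_M)` of an element of `ssV` are
Gauss-integral. -/
theorem h3v_coeff_mem_gaussV (hℓ : ℓ.Prime) (hM : ¬ ℓ ∣ M) (hA : A.LiesOverPrime ℓ)
    (hfin : FiniteAlong Kbar (φ)) (x : FF N) (hx : x ∈ h3vV A φ)
    (i : ℕ) : (charpolyAlong (φ) hfin x).coeff i ∈ gaussV A M := by
  letI := algebraAlong (φ)
  letI : Algebra ↥(gaussV A M) (FF N) := (h3v_f A φ).toAlgebra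
  haveI : IsScalarTower ↥(gaussV A M) (FF M) (FF N) :=
    IsScalarTower.of_algebraMap_eq (fun _ => rfl)
  haveI : Module.Finite (FF M) (FF N) := hfin
  have hg : IsIntegral ↥(gaussV A M) x := (h3v_mem_V_iff A φ x).1 hx
  have h1 := h87_isIntegral_coeff_charpoly (R := ↥(gaussV A M)) (F := FF M)
    (F' := FF N) x hg i
  exact h44v_mem_gaussV_of_isIntegralElem A M ℓ hℓ hM hA _ h1

/-! ### (V3) QEP -/

/-- the characteristic polynomial of `c · x`. -/
theorem h3v_charpoly_cst_mul (hfin : FiniteAlong Kbar (φ)) (a : Kbar)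
    (x : FF N) (i : ℕ) :
    (charpolyAlong (φ) hfin (cst N a * x)).coeff i * cst M a ^ i =
      cst M a ^ finrankAlong Kbar (φ) *
        (charpolyAlong (φ) hfin x).coeff i := by
  haveI : Infinite (FF M) := inferInstance
  have key : (charpolyAlong (φ) hfin (cst N a * x)).comp
      (C (cst M a) * X) =
      C (cst M a ^ finrankAlong Kbar (φ)) *
        charpolyAlong (φ) hfin x := by
    apply Polynomial.funext
    intro c
    have e : φ (cst M a * c) - cst N a * x =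
        φ (cst M a) * (φ c - x) := by
      have e1 : φ (cst M a) = cst N a :=
        (φ).commutes a
      rw [map_mul, mul_sub, e1]
    rw [eval_comp, eval_mul, eval_C, eval_X, eval_mul, eval_C,
      ← Fermat.Agent.Red.KR.normAlong_sub_eq_eval, ← Fermat.Agent.Red.KR.normAlong_sub_eq_eval,
      ← Fermat.Agent.Red.KR.normAlong_map, ← Fermat.Agent.Red.KR.normAlong_mul, e]
  have h := congrArg (fun p : Polynomial (FF M) => p.coeff i) key
  simp only [comp_C_mul_X_coeff, coeff_C_mul] at h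
  exact h

/-- **QEP at level `Mℓ` from QEP at level `M`**, for the chart with coordinate `α t₀`. -/
theorem h3v_qep (hfin : FiniteAlong Kbar φ) (hℓ : ℓ.Prime) (hM : ¬ ℓ ∣ M)
    (hA : A.LiesOverPrime ℓ) (t₀ : FF M)
    (hqepM : ∀ c : Kbar, c ∈ A → c ≠ 0 → ∀ y ∈ gaussV A M,
      cst M c * y ∈ modelAt M A t₀ → y ∈ modelAt M A t₀)
    (a : Kbar) (haA : a ∈ A) (ha0 : a ≠ 0) (x : FF N) (hx : x ∈ h3vV A φ)
    (hax : cst N a * x ∈ modelAt N A (φ t₀)) :
    x ∈ modelAt N A (φ t₀) := by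
  set P := charpolyAlong (φ) hfin x with hP
  have hcoef : ∀ i, P.coeff i ∈ modelAt M A t₀ := by
    intro i
    have h1 : P.coeff i ∈ gaussV A M := h3v_coeff_mem_gaussV A φ hℓ hM hA hfin x hx i
    have h2 := h87_coeff_mem_modelAt (φ) hfin A t₀ hax i
    have h3 := h3v_charpoly_cst_mul φ hfin a x i
    set d := finrankAlong Kbar (φ) with hd
    have hcA : ∀ n : ℕ, cst M a ^ n ∈ modelAt M A t₀ := fun n =>
      pow_mem (Fermat.Agent.Red.ModelO.h85_cst_mem_modelAt M A t₀ haA) n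
    have h4 : cst M (a ^ d) * P.coeff i ∈ modelAt M A t₀ := by
      have e1 : cst M (a ^ d) = cst M a ^ d := map_pow _ _ _
      rw [e1, ← h3]
      exact mul_mem h2 (hcA i)
    exact hqepM (a ^ d) (pow_mem haA d) (pow_ne_zero d ha0) _ h1 h4
  have hroot : (P.map (φ).toRingHom).eval x = 0 := by
    rw [Polynomial.eval_map]
    exact h44g_eval₂_charpolyAlong (φ) hfin x
  refine Fermat.Agent.Red.KR.h69m_mem_modelAt_of_root A _
    (P.map (φ).toRingHom)
    ((charpolyAlong_monic _ hfin x).map _) (fun m => ?_) x hroot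
  rw [Polynomial.coeff_map]
  exact Fermat.Agent.Red.KR.map_mem_modelAt (φ) A (hcoef m)

/-- **(V3) hQEP**, finite chart. -/
theorem h3v_hQEP_fin (hfin : FiniteAlong Kbar φ) (hℓ : ℓ.Prime) (hM : ¬ ℓ ∣ M) (hA : A.LiesOverPrime ℓ) :
    ∀ a : A, algebraMap A (FF N) a ≠ 0 → ∀ x ∈ h3vV A φ,
      a • x ∈ chart N A (φ (jB M)) → x ∈ chart N A (φ (jB M)) := by
  intro a ha x hx h
  rw [GGC97_smul_eq] at h
  exact h3v_qep A φ hfin hℓ hM hA (jB M)
    (fun c hc hc0 y hy hcy => mem_modelFin_of_cst_mul A M hℓ hM hA y hy c hc hc0 hcy)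
    (a : Kbar) a.2 (GGC97_coe_ne_zero ha) x hx h

/-- **(V3) hQEP**, chart at infinity. -/
theorem h3v_hQEP_inf (hfin : FiniteAlong Kbar φ) (hℓ : ℓ.Prime) (hM : ¬ ℓ ∣ M) (hA : A.LiesOverPrime ℓ) :
    ∀ a : A, algebraMap A (FF N) a ≠ 0 → ∀ x ∈ h3vV A φ,
      a • x ∈ chart N A (φ (jB M))⁻¹ → x ∈ chart N A (φ (jB M))⁻¹ := by
  intro a ha x hx h
  rw [GGC97_smul_eq] at h
  rw [← map_inv₀] at h ⊢
  exact h3v_qep A φ hfin hℓ hM hA (jB M)⁻¹
    (fun c hc hc0 y hy hcy => mem_modelInf_of_cst_mul A M hℓ hM hA y hy c hc hc0 hcy)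
    (a : Kbar) a.2 (GGC97_coe_ne_zero ha) x hx h

/-! ### (V2), (V4): units -/



theorem h3v_f_mu {ℓ' : ℕ} (hA : A.LiesOverPrime ℓ') (m : A) :
    h3v_f A φ (h44v_mu A M hA m) = algebraMap A (FF N) m :=
  (φ).commutes (m : Kbar)


/-- **(V4) `IfaceSSNt`**: `1 ∉ 𝔪_A · ssV`. -/
theorem h3v_nt (hℓ : ℓ.Prime) (hM : ¬ ℓ ∣ M) (hA : A.LiesOverPrime ℓ) :
    ∀ m ∈ maximalIdeal A, ∀ x ∈ h3vV A φ, algebraMap A (FF N) m * x ≠ 1 := by
  intro m hm x hx h1
  obtain ⟨R, hR, hRx⟩ := (h3v_mem_V_iff A φ x).1 hx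
  have h2 := scaleRoots_eval₂_eq_zero (h3v_f A φ) (s := h44v_mu A M hA m) hRx
  rw [h3v_f_mu, h1] at h2
  have h3 : eval₂ (h3v_f A φ) 1 (R.scaleRoots (h44v_mu A M hA m)) =
      h3v_f A φ ((R.scaleRoots (h44v_mu A M hA m)).eval 1) := by
    rw [← Polynomial.eval₂_at_apply, map_one]
  rw [h3] at h2
  have h4 : (R.scaleRoots (h44v_mu A M hA m)).eval 1 = 0 :=
    h3v_f_injective A φ (h2.trans (map_zero _).symm)
  have h5 := h44v_red_scaleRoots A M R hR (h44v_mu A M hA m)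
    (h44v_gaussR_mu A M ℓ hℓ hM hA m hm) 1
  rw [h4, map_zero, map_one, one_pow] at h5
  exact zero_ne_one h5

/-- **(V2) hVunit**: `1 + 𝔪_A · ssV ⊆ ssV^×`. -/
theorem h3v_hVunit (hℓ : ℓ.Prime) (hM : ¬ ℓ ∣ M) (hA : A.LiesOverPrime ℓ) :
    ∀ m ∈ maximalIdeal A, ∀ x ∈ h3vV A φ,
      (1 + algebraMap A (FF N) m * x)⁻¹ ∈ h3vV A φ := by
  intro m hm x hx
  set y : FF N := 1 + algebraMap A (FF N) m * x with hy
  by_cases hy0 : y = 0
  · rw [hy0, inv_zero]
    exact zero_mem _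
  obtain ⟨R, hR, hRx⟩ := (h3v_mem_V_iff A φ x).1 hx
  set μ := h44v_mu A M hA m with hμ
  set S := R.scaleRoots μ with hS
  have hSm : S.Monic := (monic_scaleRoots_iff μ).2 hR
  have hSx : eval₂ (h3v_f A φ) (algebraMap A (FF N) m * x) S = 0 := by
    have h2 := scaleRoots_eval₂_eq_zero (h3v_f A φ) (s := μ) hRx
    rwa [h3v_f_mu] at h2
  set Q := S.comp (X - C 1) with hQ
  have hQm : Q.Monic := hSm.comp_X_sub_C 1
  have hQy : eval₂ (h3v_f A φ) y Q = 0 := by
    rw [hQ, eval₂_comp, eval₂_sub, eval₂_X, eval₂_C, map_one, hy, add_sub_cancel_left]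
    exact hSx
  -- the constant coefficient of `Q` is a unit of the Gauss ring
  have hc : gaussR A M (Q.coeff 0) ≠ 0 := by
    have h1 : Q.coeff 0 = S.eval (-1) := by
      rw [coeff_zero_eq_eval_zero, hQ, eval_comp, eval_sub, eval_X, eval_C, zero_sub]
    rw [h1, hS, h44v_red_scaleRoots A M R hR μ (h44v_gaussR_mu A M ℓ hℓ hM hA m hm) (-1),
      map_neg, map_one]
    exact pow_ne_zero _ (neg_ne_zero.2 one_ne_zero)
  have hc' : ((Q.coeff 0 : gaussV A M) : FF M) ≠ 0 ∧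
      ((Q.coeff 0 : gaussV A M) : FF M)⁻¹ ∈ gaussV A M := by
    rw [Ne, gaussR_eq_zero_iff A M hℓ hM hA, not_or, not_not] at hc
    exact hc
  set c' : ↥(gaussV A M) := ⟨((Q.coeff 0 : gaussV A M) : FF M)⁻¹, hc'.2⟩ with hc'def
  have hcc : c' * Q.coeff 0 = 1 := Subtype.ext (inv_mul_cancel₀ hc'.1)
  have hQ0 : Q.coeff 0 ≠ 0 := fun h0 => hc'.1 (by rw [h0]; rfl)
  -- the reversed polynomial
  letI : Invertible y := invertibleOfNonzero hy0
  have hrev : eval₂ (h3v_f A φ) (⅟ y) Q.reverse = 0 :=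
    (eval₂_reverse_eq_zero_iff (h3v_f A φ) y Q).2 hQy
  rw [invOf_eq_inv] at hrev
  have hTm : (C c' * Q.reverse).Monic := by
    apply monic_C_mul_of_mul_leadingCoeff_eq_one
    rw [reverse_leadingCoeff, trailingCoeff_eq_coeff_zero hQ0]
    exact hcc
  rw [h3v_mem_V_iff]
  refine ⟨C c' * Q.reverse, hTm, ?_⟩
  rw [eval₂_mul, hrev, mul_zero]


/-! ### assembly -/

/-- **`H26Chart`** for the finite chart of level `N`. -/
theorem h3v_chart_fin (hφj : φ (jB M) = jB N) (hfin : FiniteAlong Kbar φ)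
    (hℓ : ℓ.Prime) (hM : ¬ ℓ ∣ M) (hA : A.LiesOverPrime ℓ) :
    H26Chart (chart N A (jB N)) (h3vV A φ) (chartVal N (jB N)) where
  hfin := GGC97_hfin N (jB N)
  hint := fun f hf => h18c_hint N A (jB N) f hf
  hB := GGC97_hB N A (jB N)
  hunif := GGC97_hunif A (jB N) (GGC97_transcendental_jB N)
  hinj := GGC97_hinj A (jB N) (GGC97_transcendental_jB N)
  hBV := by rw [← hφj]; exact h3v_hBV_fin A φ hℓ hM hA
  hVunit := h3v_hVunit A φ hℓ hM hA
  hQEP := by rw [← hφj]; exact h3v_hQEP_fin A φ hfin hℓ hM hA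

/-- **`H26Chart`** for the chart at infinity of level `N`. -/
theorem h3v_chart_inf (hφj : φ (jB M) = jB N) (hfin : FiniteAlong Kbar φ)
    (hℓ : ℓ.Prime) (hM : ¬ ℓ ∣ M) (hA : A.LiesOverPrime ℓ) :
    H26Chart (chart N A (jB N)⁻¹) (h3vV A φ) (chartVal N (jB N)⁻¹) where
  hfin := GGC97_hfin N (jB N)⁻¹
  hint := fun f hf => h18c_hint N A (jB N)⁻¹ f hf
  hB := GGC97_hB N A (jB N)⁻¹
  hunif := GGC97_hunif A (jB N)⁻¹ (GGC97_transcendental_jB_inv N)
  hinj := GGC97_hinj A (jB N)⁻¹ (GGC97_transcendental_jB_inv N)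
  hBV := by rw [← hφj]; exact h3v_hBV_inf A φ hℓ hM hA
  hVunit := h3v_hVunit A φ hℓ hM hA
  hQEP := by rw [← hφj]; exact h3v_hQEP_inf A φ hfin hℓ hM hA

end Fermat.Agent.S36
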