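import Fermat.Agent.S36.H92Chain
import Fermat.Agent.S36.H3GenV
import Fermat.Agent.Red.GateAll

/-!
# S36, block (G) / (V): the chart axioms of the gate for the contract ring `h92c_V` (helper3)

`h92c_V A M q` (the integral closure in `FF (M q²)` of the Gauss valuation ring of the good
level `M`, `S36/H92Chain.lean`) is BY DEFINITION the generic Gauss ring `h3vV A (degen _)` of
`S36/H3GenV.lean`.  This file states the chart axioms of the landed gate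
(`h13g_gate_asm_semi`, `h26y_gate_asm`) in the elementwise vocabulary of the chain contract:

* `h3w_chart_le_V0`, `h3w_chartInv_le_V0`  (**hBV**): `B₀(j), B₀(j⁻¹) ⊆ V₀`;
* `h3w_qep`, `h3w_qepInv`, `h3w_qep0`, `h3w_qep0Inv`, `h3w_qep0_nat`, `h3w_qep0Inv_nat`
  (**V-QEP**): `x ∈ V`, `a x ∈ modelAt` (`0 ≠ a ∈ A`) `⟹ x ∈ modelAt`; the same for `V₀` and the
  charts over the inertia field, and for `a = q`;
* `h3w_unit`, `h3w_unit0_nat` (**hVunit**): `(1 + a x)⁻¹ ∈ V` for `a ∈ 𝔪_A`, `x ∈ V`;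
  `(1 + q x)⁻¹ ∈ V₀` for `x ∈ V₀`;
* `h3w_nt`, `h3w_nt_nat` (**hVnt**): `a x ≠ 1` for `a ∈ 𝔪_A`, `x ∈ V`;
* `h3w_U_ne_zero`, `h3w_U_mem_V0`, `h3w_U_inv_mem_V0`, `h3w_U_inv_mem_U`, `h3w_U_mul_mem`:
  `1 + q V₀` is a subgroup of `V₀ˣ`.
-/

set_option autoImplicit false
set_option linter.unusedSectionVars false
set_option linter.style.haveILetI false

open AlgebraicCurve ModularCurve IsLocalRing

noncomputable section

namespace Fermat.Agent.S36

open Fermat.Agent.S37 Fermat.Agent.Red Fermat.Agent.Red.GG Fermat.Agent.Red.GV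

variable (A : ValuationSubring Kbar) (M q : ℕ) [NeZero M] [NeZero q]

/-- the contract ring `V` is the generic Gauss ring of `S36/H3GenV.lean`. -/
theorem h3w_V_eq : h92c_V A M q = h3vV A (degen (h92c_dvd M q)) := rfl

theorem h3w_degen_jB : degen (h92c_dvd M q) (jB M) = jB (M * q * q) :=
  Fermat.Agent.Red.GateAll.h99_degen_jB _

theorem h3w_finiteAlong : FiniteAlong Kbar (degen (h92c_dvd M q)) :=
  Fermat.Agent.Red.CH0.finiteAlong_degen _

variable {A M q}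

/-- the natural number `q` as a constant. -/
theorem h3w_natCast_eq (N : ℕ) [NeZero N] (n : ℕ) : (n : FF N) = cst N (n : Kbar) :=
  (map_natCast (algebraMap Kbar (FF N)) n).symm

theorem h3w_natCast_mem_F0 (N : ℕ) [NeZero N] (n : ℕ) :
    (n : FF N) ∈ h92c_F0 A N :=
  natCast_mem _ n

/-! ### hBV -/

/-- **hBV**, finite chart, over `ℚ̄`. -/
theorem h3w_modelAt_le_V (hq : q.Prime) (hqM : ¬ q ∣ M) (hA : A.LiesOverPrime q) :
    modelAt (M * q * q) A (jB (M * q * q)) ≤ h92c_V A M q := by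
  intro x hx
  rw [← h3w_degen_jB M q] at hx
  exact h3v_hBV_fin A (degen (h92c_dvd M q)) hq hqM hA x hx

/-- **hBV**, chart at infinity, over `ℚ̄`. -/
theorem h3w_modelAtInv_le_V (hq : q.Prime) (hqM : ¬ q ∣ M) (hA : A.LiesOverPrime q) :
    modelAt (M * q * q) A (jB (M * q * q))⁻¹ ≤ h92c_V A M q := by
  intro x hx
  rw [← h3w_degen_jB M q] at hx
  exact h3v_hBV_inf A (degen (h92c_dvd M q)) hq hqM hA x hx

/-- **hBV**, finite chart over the inertia field. -/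
theorem h3w_chart_le_V0 (hq : q.Prime) (hqM : ¬ q ∣ M) (hA : A.LiesOverPrime q) :
    h92c_Chart A (M * q * q) (jB (M * q * q)) ≤ h92c_V0 A M q :=
  fun _ hx => ⟨h3w_modelAt_le_V hq hqM hA hx.1, hx.2⟩

/-- **hBV**, chart at infinity over the inertia field. -/
theorem h3w_chartInv_le_V0 (hq : q.Prime) (hqM : ¬ q ∣ M) (hA : A.LiesOverPrime q) :
    h92c_Chart A (M * q * q) (jB (M * q * q))⁻¹ ≤ h92c_V0 A M q :=
  fun _ hx => ⟨h3w_modelAtInv_le_V hq hqM hA hx.1, hx.2⟩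

/-- the constants of `A` lie in `V`. -/
theorem h3w_cst_mem_V (hq : q.Prime) (hqM : ¬ q ∣ M) (hA : A.LiesOverPrime q)
    {a : Kbar} (ha : a ∈ A) : cst (M * q * q) a ∈ h92c_V A M q :=
  h3w_modelAt_le_V hq hqM hA (Fermat.Agent.Red.ModelO.h85_cst_mem_modelAt _ A _ ha)

/-! ### V-QEP -/

/-- **V-QEP**, finite chart, over `ℚ̄`. -/
theorem h3w_qep (hq : q.Prime) (hqM : ¬ q ∣ M) (hA : A.LiesOverPrime q)
    {a : Kbar} (ha : a ∈ A) (ha0 : a ≠ 0) {x : FF (M * q * q)} (hx : x ∈ h92c_V A M q)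
    (hax : cst (M * q * q) a * x ∈ modelAt (M * q * q) A (jB (M * q * q))) :
    x ∈ modelAt (M * q * q) A (jB (M * q * q)) := by
  rw [← h3w_degen_jB M q] at hax ⊢
  exact h3v_qep A (degen (h92c_dvd M q)) (h3w_finiteAlong M q) hq hqM hA (jB M)
    (fun c hc hc0 y hy hcy => mem_modelFin_of_cst_mul A M hq hqM hA y hy c hc hc0 hcy)
    a ha ha0 x hx hax

/-- **V-QEP**, chart at infinity, over `ℚ̄`. -/
theorem h3w_qepInv (hq : q.Prime) (hqM : ¬ q ∣ M) (hA : A.LiesOverPrime q)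
    {a : Kbar} (ha : a ∈ A) (ha0 : a ≠ 0) {x : FF (M * q * q)} (hx : x ∈ h92c_V A M q)
    (hax : cst (M * q * q) a * x ∈ modelAt (M * q * q) A (jB (M * q * q))⁻¹) :
    x ∈ modelAt (M * q * q) A (jB (M * q * q))⁻¹ := by
  rw [← h3w_degen_jB M q, ← map_inv₀] at hax ⊢
  exact h3v_qep A (degen (h92c_dvd M q)) (h3w_finiteAlong M q) hq hqM hA (jB M)⁻¹
    (fun c hc hc0 y hy hcy => mem_modelInf_of_cst_mul A M hq hqM hA y hy c hc hc0 hcy)
    a ha ha0 x hx hax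

/-- **V-QEP**, finite chart over the inertia field. -/
theorem h3w_qep0 (hq : q.Prime) (hqM : ¬ q ∣ M) (hA : A.LiesOverPrime q)
    {a : Kbar} (ha : a ∈ A) (ha0 : a ≠ 0) {x : FF (M * q * q)} (hx : x ∈ h92c_V0 A M q)
    (hax : cst (M * q * q) a * x ∈ h92c_Chart A (M * q * q) (jB (M * q * q))) :
    x ∈ h92c_Chart A (M * q * q) (jB (M * q * q)) :=
  ⟨h3w_qep hq hqM hA ha ha0 hx.1 hax.1, hx.2⟩

/-- **V-QEP**, chart at infinity over the inertia field. -/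
theorem h3w_qep0Inv (hq : q.Prime) (hqM : ¬ q ∣ M) (hA : A.LiesOverPrime q)
    {a : Kbar} (ha : a ∈ A) (ha0 : a ≠ 0) {x : FF (M * q * q)} (hx : x ∈ h92c_V0 A M q)
    (hax : cst (M * q * q) a * x ∈ h92c_Chart A (M * q * q) (jB (M * q * q))⁻¹) :
    x ∈ h92c_Chart A (M * q * q) (jB (M * q * q))⁻¹ :=
  ⟨h3w_qepInv hq hqM hA ha ha0 hx.1 hax.1, hx.2⟩

theorem h3w_natCast_mem_A (n : ℕ) : (n : Kbar) ∈ A := natCast_mem A n

/-- **V-QEP** for the uniformiser `q`, finite chart over the inertia field. -/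
theorem h3w_qep0_nat (hq : q.Prime) (hqM : ¬ q ∣ M) (hA : A.LiesOverPrime q)
    {x : FF (M * q * q)} (hx : x ∈ h92c_V0 A M q)
    (hax : (q : FF (M * q * q)) * x ∈ h92c_Chart A (M * q * q) (jB (M * q * q))) :
    x ∈ h92c_Chart A (M * q * q) (jB (M * q * q)) := by
  rw [h3w_natCast_eq] at hax
  exact h3w_qep0 hq hqM hA (h3w_natCast_mem_A q) (Nat.cast_ne_zero.2 hq.ne_zero) hx hax

/-- **V-QEP** for the uniformiser `q`, chart at infinity over the inertia field. -/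
theorem h3w_qep0Inv_nat (hq : q.Prime) (hqM : ¬ q ∣ M) (hA : A.LiesOverPrime q)
    {x : FF (M * q * q)} (hx : x ∈ h92c_V0 A M q)
    (hax : (q : FF (M * q * q)) * x ∈ h92c_Chart A (M * q * q) (jB (M * q * q))⁻¹) :
    x ∈ h92c_Chart A (M * q * q) (jB (M * q * q))⁻¹ := by
  rw [h3w_natCast_eq] at hax
  exact h3w_qep0Inv hq hqM hA (h3w_natCast_mem_A q) (Nat.cast_ne_zero.2 hq.ne_zero) hx hax

/-! ### hVunit, hVnt -/

theorem h3w_mem_maximalIdeal {a : Kbar} (ha : a ∈ A) (hna : a⁻¹ ∉ A) :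
    (⟨a, ha⟩ : A) ∈ maximalIdeal A := by
  rw [mem_maximalIdeal, mem_nonunits_iff]
  intro hu
  obtain ⟨b, hb⟩ := hu.exists_right_inv
  apply hna
  have h1 : a * (b : Kbar) = 1 := by
    have := congrArg (Subtype.val) hb
    simpa using this
  have h2 : a⁻¹ = (b : Kbar) := by
    rw [inv_eq_iff_eq_inv]
    exact eq_inv_of_mul_eq_one_left h1
  rw [h2]
  exact b.2

/-- **hVunit** over `ℚ̄`. -/
theorem h3w_unit (hq : q.Prime) (hqM : ¬ q ∣ M) (hA : A.LiesOverPrime q)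
    {a : Kbar} (ha : a ∈ A) (hna : a⁻¹ ∉ A) {x : FF (M * q * q)} (hx : x ∈ h92c_V A M q) :
    (1 + cst (M * q * q) a * x)⁻¹ ∈ h92c_V A M q :=
  h3v_hVunit A (degen (h92c_dvd M q)) hq hqM hA ⟨a, ha⟩ (h3w_mem_maximalIdeal ha hna) x hx

/-- **hVnt** over `ℚ̄`. -/
theorem h3w_nt (hq : q.Prime) (hqM : ¬ q ∣ M) (hA : A.LiesOverPrime q)
    {a : Kbar} (ha : a ∈ A) (hna : a⁻¹ ∉ A) {x : FF (M * q * q)} (hx : x ∈ h92c_V A M q) :
    cst (M * q * q) a * x ≠ 1 :=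
  h3v_nt A (degen (h92c_dvd M q)) hq hqM hA ⟨a, ha⟩ (h3w_mem_maximalIdeal ha hna) x hx

theorem h3w_q_inv_not_mem (hq : q.Prime) (hA : A.LiesOverPrime q) : ((q : Kbar))⁻¹ ∉ A := by
  intro h
  have h1 : (q : Kbar) ∈ A.nonunits := hA
  rw [ValuationSubring.mem_nonunits_iff_exists_mem_maximalIdeal] at h1
  obtain ⟨hqA, hqm⟩ := h1
  rw [mem_maximalIdeal, mem_nonunits_iff] at hqm
  apply hqm
  refine isUnit_iff_exists_inv.2 ⟨⟨_, h⟩, ?_⟩
  apply Subtype.ext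
  show (q : Kbar) * (q : Kbar)⁻¹ = 1
  exact mul_inv_cancel₀ (Nat.cast_ne_zero.2 hq.ne_zero)

/-- **hVnt** for `q`. -/
theorem h3w_nt_nat (hq : q.Prime) (hqM : ¬ q ∣ M) (hA : A.LiesOverPrime q)
    {x : FF (M * q * q)} (hx : x ∈ h92c_V A M q) : (q : FF (M * q * q)) * x ≠ 1 := by
  rw [h3w_natCast_eq]
  exact h3w_nt hq hqM hA (h3w_natCast_mem_A q) (h3w_q_inv_not_mem hq hA) hx

/-- **hVunit** for `q` over the inertia field. -/
theorem h3w_unit0_nat (hq : q.Prime) (hqM : ¬ q ∣ M) (hA : A.LiesOverPrime q)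
    {x : FF (M * q * q)} (hx : x ∈ h92c_V0 A M q) :
    (1 + (q : FF (M * q * q)) * x)⁻¹ ∈ h92c_V0 A M q := by
  refine ⟨?_, ?_⟩
  · rw [h3w_natCast_eq]
    exact h3w_unit hq hqM hA (h3w_natCast_mem_A q) (h3w_q_inv_not_mem hq hA) hx.1
  · have h1 : (1 + (q : FF (M * q * q)) * x) ∈ h92c_F0 A (M * q * q) :=
      add_mem (one_mem _) (mul_mem (h3w_natCast_mem_F0 _ q) hx.2)
    exact (h92c_F0 A (M * q * q)).inv_mem h1

/-! ### `1 + q V₀` is a subgroup of `V₀ˣ` -/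

theorem h3w_natCast_mem_V0 (n : ℕ) :
    (n : FF (M * q * q)) ∈ h92c_V0 A M q :=
  natCast_mem _ n

theorem h3w_U_mem_V0 {w : FF (M * q * q)} (hw : w ∈ h92c_U A M q) : w ∈ h92c_V0 A M q := by
  obtain ⟨y, hy, rfl⟩ := hw
  exact add_mem (one_mem _) (mul_mem (natCast_mem _ q) hy)

theorem h3w_U_ne_zero (hq : q.Prime) (hqM : ¬ q ∣ M) (hA : A.LiesOverPrime q)
    {w : FF (M * q * q)} (hw : w ∈ h92c_U A M q) : w ≠ 0 := by
  obtain ⟨y, hy, rfl⟩ := hw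
  intro h
  have h1 : (q : FF (M * q * q)) * (-y) = 1 := by
    linear_combination -h
  exact h3w_nt_nat hq hqM hA (neg_mem hy.1) h1

theorem h3w_U_inv_mem_V0 (hq : q.Prime) (hqM : ¬ q ∣ M) (hA : A.LiesOverPrime q)
    {w : FF (M * q * q)} (hw : w ∈ h92c_U A M q) : w⁻¹ ∈ h92c_V0 A M q := by
  obtain ⟨y, hy, rfl⟩ := hw
  exact h3w_unit0_nat hq hqM hA hy

theorem h3w_U_one : (1 : FF (M * q * q)) ∈ h92c_U A M q :=
  ⟨0, zero_mem _, by rw [mul_zero, add_zero]⟩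

theorem h3w_U_mul_mem {w w' : FF (M * q * q)} (hw : w ∈ h92c_U A M q)
    (hw' : w' ∈ h92c_U A M q) : w * w' ∈ h92c_U A M q := by
  obtain ⟨y, hy, rfl⟩ := hw
  obtain ⟨y', hy', rfl⟩ := hw'
  refine ⟨y + y' + (q : FF (M * q * q)) * (y * y'),
    add_mem (add_mem hy hy') (mul_mem (natCast_mem _ q) (mul_mem hy hy')), ?_⟩
  ring

theorem h3w_U_pow_mem {w : FF (M * q * q)} (hw : w ∈ h92c_U A M q) (n : ℕ) :
    w ^ n ∈ h92c_U A M q := by
  induction n with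
  | zero => rw [pow_zero]; exact h3w_U_one
  | succ k ih => rw [pow_succ]; exact h3w_U_mul_mem ih hw

theorem h3w_U_inv_mem_U (hq : q.Prime) (hqM : ¬ q ∣ M) (hA : A.LiesOverPrime q)
    {w : FF (M * q * q)} (hw : w ∈ h92c_U A M q) : w⁻¹ ∈ h92c_U A M q := by
  have h0 := h3w_U_ne_zero hq hqM hA hw
  have hinv := h3w_U_inv_mem_V0 hq hqM hA hw
  obtain ⟨y, hy, rfl⟩ := hw
  refine ⟨-(y * (1 + (q : FF (M * q * q)) * y)⁻¹), neg_mem (mul_mem hy hinv), ?_⟩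
  field_simp
  ring

end Fermat.Agent.S36
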