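import Fermat.Agent.S36.H92Chain
import Fermat.Agent.LGC.SSV44
import Fermat.Agent.Red.GateAll

/-!
# S36, block (V), leaf V-QEP (helper84): the `V`-dependent fields of the gate for the contract
ring `h92c_V` at level `M q²`

Generic clone of `LGC/SSV44.lean` (helper44) along an arbitrary finite `ℚ̄`-embedding
`φ : F_M → F_N` (instead of `α : F_M → F_{Mℓ}`), then specialised to
`φ = degen : F_M → F_{M q²}`, for which `h84q_V A φ = h92c_V A M q` by definition.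

`ℓ ∤ M` prime, `A` a valuation subring of `ℚ̄` over `ℓ`; `h84q_V A φ` = the integral closure in
`F_N` of `φ (gaussV A M)`.

Generic part:
* `h84q_mem_V_iff` : `x ∈ V ↔ x` is integral over `gaussV A M` along `φ`.
* `h84q_modelAt_le_V` : **hBV**: `modelAt N A (φ t₀) ≤ V` for `t₀ ∈ gaussV A M`.
* `h84q_coeff_mem_gaussV` : the characteristic polynomial over `φ (F_M)` of an element of `V`
  has Gauss-integral coefficients.
* `h84q_qep` : **QEP** at level `N` from QEP at level `M`.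
* `h84q_nt` : `cst m * x ≠ 1` for `m ∈ 𝔪_A`, `x ∈ V`.
* `h84q_hVunit` : `(1 + cst m * x)⁻¹ ∈ V` for `m ∈ 𝔪_A`, `x ∈ V`.

Level `M q²` (vocabulary of `S36/H92Chain.lean`):
* `h84q_V_eq` : `h84q_V A (degen _) = h92c_V A M q`.
* `h84q_hBV_fin`, `h84q_hBV_inf` : `modelAt (M q q) A j`, `modelAt (M q q) A j⁻¹ ≤ h92c_V`.
* `h84q_qep_fin`, `h84q_qep_inf` : QEP for the two charts with respect to `h92c_V`.
* `h84q_nt92`, `h84q_hVunit92` : the unit statements for `h92c_V`.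
* `h84q_chart_le_V0`, `h84q_qep_chart_fin`, `h84q_qep_chart_inf`, `h84q_nt_V0`,
  `h84q_hVunit_V0`, `h84q_U_inv_mem` : the same for the `I`-invariant objects `h92c_V0`,
  `h92c_Chart`, `h92c_U` (the fields `hBV`, `hQEP`, `hVnt`, `hVunit` of the gate over `A₀`).
-/

set_option autoImplicit false
set_option linter.style.haveILetI false
set_option linter.unusedSectionVars false
set_option linter.unusedVariables false
set_option synthInstance.maxHeartbeats 400000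

open AlgebraicCurve ModularCurve WithZero IsLocalRing Polynomial

noncomputable section

namespace Fermat.Agent.S36

open Fermat.Agent.S37 Fermat.Agent.Red Fermat.Agent.Red.GG Fermat.Agent.Red.GV
  Fermat.Agent.Red.TRK Fermat.Agent.LGC

/-! ## Generic part -/

section Generic

variable (A : ValuationSubring Kbar) {M N : ℕ} [NeZero M] [NeZero N]
  (φ : FF M →ₐ[Kbar] FF N)

/-- the image of the Gauss ring of level `M` in `F_N`. -/
def h84q_G : Subring (FF N) := (gaussV A M).map φ.toRingHom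

/-- `V`: the integral closure in `F_N` of the image of the Gauss ring of level `M`. -/
def h84q_V : Subring (FF N) := (integralClosure (h84q_G A φ) (FF N)).toSubring

theorem h84q_mem_V_iff' {x : FF N} : x ∈ h84q_V A φ ↔ IsIntegral (h84q_G A φ) x := Iff.rfl

/-- the ring homomorphism `gaussV A M → F_N`. -/
def h84q_f : ↥(gaussV A M) →+* FF N := φ.toRingHom.comp (gaussV A M).subtype

theorem h84q_f_apply (x : gaussV A M) : h84q_f A φ x = φ (x : FF M) := rfl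

theorem h84q_f_injective : Function.Injective (h84q_f A φ) := by
  intro x y h
  exact Subtype.ext (φ.toRingHom.injective h)

/-- the surjection `gaussV A M → h84q_G`. -/
def h84q_toImage : ↥(gaussV A M) →+* ↥(h84q_G A φ) :=
  (h84q_f A φ).codRestrict (h84q_G A φ) (fun x => Subring.mem_map.mpr ⟨x.1, x.2, rfl⟩)

theorem h84q_toImage_surjective : Function.Surjective (h84q_toImage A φ) := by
  rintro ⟨y, hy⟩
  obtain ⟨x, hx, rfl⟩ := Subring.mem_map.mp hy
  exact ⟨⟨x, hx⟩, rfl⟩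

theorem h84q_mem_V_iff (x : FF N) :
    x ∈ h84q_V A φ ↔ (h84q_f A φ).IsIntegralElem x := by
  rw [h84q_mem_V_iff']
  constructor
  · rintro ⟨p, hp, hpx⟩
    obtain ⟨q, hq, -, hqm⟩ := Polynomial.lifts_and_degree_eq_and_monic
      ((Polynomial.mem_lifts p).2
        (Polynomial.map_surjective _ (h84q_toImage_surjective A φ) p)) hp
    refine ⟨q, hqm, ?_⟩
    have h1 : eval₂ (h84q_f A φ) x q =
        eval₂ (algebraMap (h84q_G A φ) (FF N)) x (q.map (h84q_toImage A φ)) := by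
      rw [Polynomial.eval₂_map]
      rfl
    rw [h1, hq]
    exact hpx
  · rintro ⟨p, hp, hpx⟩
    refine ⟨p.map (h84q_toImage A φ), hp.map _, ?_⟩
    rw [Polynomial.eval₂_map]
    exact hpx

/-! ### hBV -/

theorem h84q_modelAt_le_V {ℓ' : ℕ} (hA : A.LiesOverPrime ℓ') (t₀ : FF M)
    (ht₀ : t₀ ∈ gaussV A M) : modelAt N A (φ t₀) ≤ h84q_V A φ := by
  intro x hx
  rw [h84q_mem_V_iff]
  rw [Fermat.Agent.Red.KR.mem_modelAt_iff_evalF] at hx
  obtain ⟨p, hp, hpx⟩ := hx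
  have hmem : ∀ Q : Polynomial A, evalF M A t₀ Q ∈ gaussV A M := by
    intro Q
    have hle : ringAdj M A t₀ ≤ gaussV A M := by
      refine Subring.closure_le.2 ?_
      rintro z (⟨a, ha, rfl⟩ | rfl)
      · exact (cst_mem_gaussV_iff A M hA a).2 ha
      · exact ht₀
    exact hle (evalF_mem_ringAdj M A t₀ Q)
  let g : Polynomial A →+* ↥(gaussV A M) := (evalF M A t₀).codRestrict (gaussV A M) hmem
  refine ⟨p.map g, hp.map _, ?_⟩
  rw [Polynomial.eval₂_map]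
  have hcomp : (h84q_f A φ).comp g = evalF N A (φ t₀) := by
    rw [← Fermat.Agent.Red.KR.comp_evalF φ A t₀]
    rfl
  rw [hcomp]
  exact hpx

/-! ### the characteristic polynomial -/

/-- the coefficients of the characteristic polynomial over `φ (F_M)` of an element of `V` are
Gauss-integral. -/
theorem h84q_coeff_mem_gaussV {ℓ : ℕ} (hℓ : ℓ.Prime) (hM : ¬ ℓ ∣ M) (hA : A.LiesOverPrime ℓ)
    (hfin : FiniteAlong Kbar φ) (x : FF N) (hx : x ∈ h84q_V A φ) (i : ℕ) :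
    (charpolyAlong φ hfin x).coeff i ∈ gaussV A M := by
  haveI : NeZero ℓ := ⟨hℓ.ne_zero⟩
  letI := algebraAlong φ
  letI : Algebra ↥(gaussV A M) (FF N) := (h84q_f A φ).toAlgebra
  haveI : IsScalarTower ↥(gaussV A M) (FF M) (FF N) :=
    IsScalarTower.of_algebraMap_eq (fun _ => rfl)
  haveI : Module.Finite (FF M) (FF N) := hfin
  have hg : IsIntegral ↥(gaussV A M) x := (h84q_mem_V_iff A φ x).1 hx
  have h1 := h87_isIntegral_coeff_charpoly (R := ↥(gaussV A M)) (F := FF M)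
    (F' := FF N) x hg i
  exact h44v_mem_gaussV_of_isIntegralElem A M ℓ hℓ hM hA _ h1

/-- the characteristic polynomial of `c · x`. -/
theorem h84q_charpoly_cst_mul (hfin : FiniteAlong Kbar φ) (a : Kbar) (x : FF N) (i : ℕ) :
    (charpolyAlong φ hfin (cst N a * x)).coeff i * cst M a ^ i =
      cst M a ^ finrankAlong Kbar φ * (charpolyAlong φ hfin x).coeff i := by
  haveI : Infinite (FF M) := inferInstance
  have key : (charpolyAlong φ hfin (cst N a * x)).comp (C (cst M a) * X) =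
      C (cst M a ^ finrankAlong Kbar φ) * charpolyAlong φ hfin x := by
    apply Polynomial.funext
    intro c
    have e : φ (cst M a * c) - cst N a * x = φ (cst M a) * (φ c - x) := by
      have e1 : φ (cst M a) = cst N a := φ.commutes a
      rw [map_mul, mul_sub, e1]
    rw [eval_comp, eval_mul, eval_C, eval_X, eval_mul, eval_C,
      ← Fermat.Agent.Red.KR.normAlong_sub_eq_eval, ← Fermat.Agent.Red.KR.normAlong_sub_eq_eval,
      ← Fermat.Agent.Red.KR.normAlong_map, ← Fermat.Agent.Red.KR.normAlong_mul, e]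
  have h := congrArg (fun p : Polynomial (FF M) => p.coeff i) key
  simp only [comp_C_mul_X_coeff, coeff_C_mul] at h
  exact h

/-! ### QEP -/

/-- **QEP at level `N` from QEP at level `M`**, for the chart with coordinate `φ t₀`. -/
theorem h84q_qep {ℓ : ℕ} (hℓ : ℓ.Prime) (hM : ¬ ℓ ∣ M) (hA : A.LiesOverPrime ℓ)
    (hfin : FiniteAlong Kbar φ) (t₀ : FF M)
    (hqepM : ∀ c : Kbar, c ∈ A → c ≠ 0 → ∀ y ∈ gaussV A M,
      cst M c * y ∈ modelAt M A t₀ → y ∈ modelAt M A t₀)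
    (a : Kbar) (haA : a ∈ A) (ha0 : a ≠ 0) (x : FF N) (hx : x ∈ h84q_V A φ)
    (hax : cst N a * x ∈ modelAt N A (φ t₀)) :
    x ∈ modelAt N A (φ t₀) := by
  set P := charpolyAlong φ hfin x with hP
  have hcoef : ∀ i, P.coeff i ∈ modelAt M A t₀ := by
    intro i
    have h1 : P.coeff i ∈ gaussV A M := h84q_coeff_mem_gaussV A φ hℓ hM hA hfin x hx i
    have h2 := h87_coeff_mem_modelAt φ hfin A t₀ hax i
    have h3 := h84q_charpoly_cst_mul φ hfin a x i
    set d := finrankAlong Kbar φ with hd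
    have hcA : ∀ n : ℕ, cst M a ^ n ∈ modelAt M A t₀ := fun n =>
      pow_mem (Fermat.Agent.Red.ModelO.h85_cst_mem_modelAt M A t₀ haA) n
    have h4 : cst M (a ^ d) * P.coeff i ∈ modelAt M A t₀ := by
      have e1 : cst M (a ^ d) = cst M a ^ d := map_pow _ _ _
      rw [e1, ← h3]
      exact mul_mem h2 (hcA i)
    exact hqepM (a ^ d) (pow_mem haA d) (pow_ne_zero d ha0) _ h1 h4
  have hroot : (P.map φ.toRingHom).eval x = 0 := by
    rw [Polynomial.eval_map]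
    exact h44g_eval₂_charpolyAlong φ hfin x
  refine Fermat.Agent.Red.KR.h69m_mem_modelAt_of_root A _ (P.map φ.toRingHom)
    ((charpolyAlong_monic _ hfin x).map _) (fun m => ?_) x hroot
  rw [Polynomial.coeff_map]
  exact Fermat.Agent.Red.KR.map_mem_modelAt φ A (hcoef m)

/-! ### units -/

theorem h84q_f_mu {ℓ' : ℕ} (hA : A.LiesOverPrime ℓ') (m : A) :
    h84q_f A φ (h44v_mu A M hA m) = cst N (m : Kbar) :=
  φ.commutes (m : Kbar)

/-- **nt**: `1 ∉ 𝔪_A · V`. -/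
theorem h84q_nt {ℓ : ℕ} (hℓ : ℓ.Prime) (hM : ¬ ℓ ∣ M) (hA : A.LiesOverPrime ℓ)
    (m : A) (hm : m ∈ maximalIdeal A) (x : FF N) (hx : x ∈ h84q_V A φ) :
    cst N (m : Kbar) * x ≠ 1 := by
  haveI : NeZero ℓ := ⟨hℓ.ne_zero⟩
  intro h1
  obtain ⟨R, hR, hRx⟩ := (h84q_mem_V_iff A φ x).1 hx
  have h2 := scaleRoots_eval₂_eq_zero (h84q_f A φ) (s := h44v_mu A M hA m) hRx
  rw [h84q_f_mu, h1] at h2
  have h3 : eval₂ (h84q_f A φ) 1 (R.scaleRoots (h44v_mu A M hA m)) =
      h84q_f A φ ((R.scaleRoots (h44v_mu A M hA m)).eval 1) := by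
    rw [← Polynomial.eval₂_at_apply, map_one]
  rw [h3] at h2
  have h4 : (R.scaleRoots (h44v_mu A M hA m)).eval 1 = 0 :=
    h84q_f_injective A φ (h2.trans (map_zero _).symm)
  have h5 := h44v_red_scaleRoots A M R hR (h44v_mu A M hA m)
    (h44v_gaussR_mu A M ℓ hℓ hM hA m hm) 1
  rw [h4, map_zero, map_one, one_pow] at h5
  exact zero_ne_one h5

/-- **hVunit**: `1 + 𝔪_A · V ⊆ V^×`. -/
theorem h84q_hVunit {ℓ : ℕ} (hℓ : ℓ.Prime) (hM : ¬ ℓ ∣ M) (hA : A.LiesOverPrime ℓ)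
    (m : A) (hm : m ∈ maximalIdeal A) (x : FF N) (hx : x ∈ h84q_V A φ) :
    (1 + cst N (m : Kbar) * x)⁻¹ ∈ h84q_V A φ := by
  haveI : NeZero ℓ := ⟨hℓ.ne_zero⟩
  set y : FF N := 1 + cst N (m : Kbar) * x with hy
  by_cases hy0 : y = 0
  · rw [hy0, inv_zero]
    exact zero_mem _
  obtain ⟨R, hR, hRx⟩ := (h84q_mem_V_iff A φ x).1 hx
  set μ := h44v_mu A M hA m with hμ
  set S := R.scaleRoots μ with hS
  have hSm : S.Monic := (monic_scaleRoots_iff μ).2 hR
  have hSx : eval₂ (h84q_f A φ) (cst N (m : Kbar) * x) S = 0 := by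
    have h2 := scaleRoots_eval₂_eq_zero (h84q_f A φ) (s := μ) hRx
    rwa [h84q_f_mu] at h2
  set Q := S.comp (X - C 1) with hQ
  have hQm : Q.Monic := hSm.comp_X_sub_C 1
  have hQy : eval₂ (h84q_f A φ) y Q = 0 := by
    rw [hQ, eval₂_comp, eval₂_sub, eval₂_X, eval₂_C, map_one, hy, add_sub_cancel_left]
    exact hSx
  -- the constant coefficient of `Q` is a unit of the Gauss ring
  have hc : gaussR A M (Q.coeff 0) ≠ 0 := by
    have h1 : Q.coeff 0 = S.eval (-1) := by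
      rw [coeff_zero_eq_eval_zero, hQ, eval_comp, eval_sub, eval_X, eval_C, zero_sub]
    rw [h1, hS, h44v_red_scaleRoots A M R hR μ (h44v_gaussR_mu A M ℓ hℓ hM hA m hm) (-1),
      map_neg, map_one]
    exact pow_ne_zero _ (neg_ne_zero.2 one_ne_zero)
  have hc' : ((Q.coeff 0 : gaussV A M) : FF M) ≠ 0 ∧
      ((Q.coeff 0 : gaussV A M) : FF M)⁻¹ ∈ gaussV A M := by
    rw [Ne, gaussR_eq_zero_iff A M hℓ hM hA, not_or, not_not] at hc
    exact hc
  set c' : ↥(gaussV A M) := ⟨((Q.coeff 0 : gaussV A M) : FF M)⁻¹, hc'.2⟩ with hc'def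
  have hcc : c' * Q.coeff 0 = 1 := Subtype.ext (inv_mul_cancel₀ hc'.1)
  have hQ0 : Q.coeff 0 ≠ 0 := fun h0 => hc'.1 (by rw [h0]; rfl)
  -- the reversed polynomial
  letI : Invertible y := invertibleOfNonzero hy0
  have hrev : eval₂ (h84q_f A φ) (⅟ y) Q.reverse = 0 :=
    (eval₂_reverse_eq_zero_iff (h84q_f A φ) y Q).2 hQy
  rw [invOf_eq_inv] at hrev
  have hTm : (C c' * Q.reverse).Monic := by
    apply monic_C_mul_of_mul_leadingCoeff_eq_one
    rw [reverse_leadingCoeff, trailingCoeff_eq_coeff_zero hQ0]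
    exact hcc
  rw [h84q_mem_V_iff]
  refine ⟨C c' * Q.reverse, hTm, ?_⟩
  rw [eval₂_mul, hrev, mul_zero]

end Generic

/-! ## Level `M q²`: the contract ring `h92c_V` -/

section Level

variable (A : ValuationSubring Kbar) (M q : ℕ) [NeZero M] [NeZero q]

/-- the generic `V` along `degen` is the contract ring `h92c_V`. -/
theorem h84q_V_eq : h84q_V A (degen (h92c_dvd M q)) = h92c_V A M q := rfl

theorem h84q_degen_jB : degen (h92c_dvd M q) (jB M) = jB (M * q * q) :=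
  Fermat.Agent.Red.GateAll.h99_degen_jB (h92c_dvd M q)

theorem h84q_degen_jB_inv : degen (h92c_dvd M q) (jB M)⁻¹ = (jB (M * q * q))⁻¹ := by
  rw [map_inv₀, h84q_degen_jB]

/-- **hBV**, finite chart. -/
theorem h84q_hBV_fin (hq : q.Prime) (hM : ¬ q ∣ M) (hA : A.LiesOverPrime q) :
    modelAt (M * q * q) A (jB (M * q * q)) ≤ h92c_V A M q := by
  rw [← h84q_V_eq, ← h84q_degen_jB]
  exact h84q_modelAt_le_V A _ hA (jB M) (h44v_jB_mem_gaussV A M q hq hM hA)

/-- **hBV**, chart at infinity. -/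
theorem h84q_hBV_inf (hq : q.Prime) (hM : ¬ q ∣ M) (hA : A.LiesOverPrime q) :
    modelAt (M * q * q) A (jB (M * q * q))⁻¹ ≤ h92c_V A M q := by
  rw [← h84q_V_eq, ← h84q_degen_jB_inv]
  exact h84q_modelAt_le_V A _ hA (jB M)⁻¹ (h44v_jB_inv_mem_gaussV A M q hq hM hA)

/-- **QEP**, finite chart: `x ∈ V`, `c x ∈ B₀`, `0 ≠ c ∈ A` ⟹ `x ∈ B₀`. -/
theorem h84q_qep_fin (hq : q.Prime) (hM : ¬ q ∣ M) (hA : A.LiesOverPrime q)
    (c : Kbar) (hcA : c ∈ A) (hc : c ≠ 0) (x : FF (M * q * q)) (hx : x ∈ h92c_V A M q)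
    (h : cst (M * q * q) c * x ∈ modelAt (M * q * q) A (jB (M * q * q))) :
    x ∈ modelAt (M * q * q) A (jB (M * q * q)) := by
  rw [← h84q_degen_jB] at h ⊢
  exact h84q_qep A _ hq hM hA (Fermat.Agent.Red.GateAll.h99_finiteAlong_degen _) (jB M)
    (fun c hc hc0 y hy hcy => mem_modelFin_of_cst_mul A M hq hM hA y hy c hc hc0 hcy)
    c hcA hc x hx h

/-- **QEP**, chart at infinity. -/
theorem h84q_qep_inf (hq : q.Prime) (hM : ¬ q ∣ M) (hA : A.LiesOverPrime q)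
    (c : Kbar) (hcA : c ∈ A) (hc : c ≠ 0) (x : FF (M * q * q)) (hx : x ∈ h92c_V A M q)
    (h : cst (M * q * q) c * x ∈ modelAt (M * q * q) A (jB (M * q * q))⁻¹) :
    x ∈ modelAt (M * q * q) A (jB (M * q * q))⁻¹ := by
  rw [← h84q_degen_jB_inv] at h ⊢
  exact h84q_qep A _ hq hM hA (Fermat.Agent.Red.GateAll.h99_finiteAlong_degen _) (jB M)⁻¹
    (fun c hc hc0 y hy hcy => mem_modelInf_of_cst_mul A M hq hM hA y hy c hc hc0 hcy)
    c hcA hc x hx h

/-- **nt** for `h92c_V`. -/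
theorem h84q_nt92 (hq : q.Prime) (hM : ¬ q ∣ M) (hA : A.LiesOverPrime q)
    (m : A) (hm : m ∈ maximalIdeal A) (x : FF (M * q * q)) (hx : x ∈ h92c_V A M q) :
    cst (M * q * q) (m : Kbar) * x ≠ 1 :=
  h84q_nt A (degen (h92c_dvd M q)) hq hM hA m hm x hx

/-- **hVunit** for `h92c_V`. -/
theorem h84q_hVunit92 (hq : q.Prime) (hM : ¬ q ∣ M) (hA : A.LiesOverPrime q)
    (m : A) (hm : m ∈ maximalIdeal A) (x : FF (M * q * q)) (hx : x ∈ h92c_V A M q) :
    (1 + cst (M * q * q) (m : Kbar) * x)⁻¹ ∈ h92c_V A M q :=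
  h84q_hVunit A (degen (h92c_dvd M q)) hq hM hA m hm x hx

/-- the prime `q` is in the maximal ideal of `A`. -/
theorem h84q_q_mem (hA : A.LiesOverPrime q) :
    (⟨(q : Kbar), natCast_mem A q⟩ : A) ∈ maximalIdeal A := by
  obtain ⟨h1, h2⟩ := (A.mem_nonunits_iff_exists_mem_maximalIdeal).1 hA
  exact h2

theorem h84q_cst_natCast (N : ℕ) (n : ℕ) : cst N (n : Kbar) = (n : FF N) :=
  map_natCast _ n

/-! ### the `I`-invariant objects -/

/-- **hBV over `A₀`**: the charts are contained in `V₀`. -/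
theorem h84q_chart_le_V0_fin (hq : q.Prime) (hM : ¬ q ∣ M) (hA : A.LiesOverPrime q) :
    h92c_Chart A (M * q * q) (jB (M * q * q)) ≤ h92c_V0 A M q :=
  fun _ hx => ⟨h84q_hBV_fin A M q hq hM hA hx.1, hx.2⟩

theorem h84q_chart_le_V0_inf (hq : q.Prime) (hM : ¬ q ∣ M) (hA : A.LiesOverPrime q) :
    h92c_Chart A (M * q * q) (jB (M * q * q))⁻¹ ≤ h92c_V0 A M q :=
  fun _ hx => ⟨h84q_hBV_inf A M q hq hM hA hx.1, hx.2⟩

/-- **QEP over `A₀`**, finite chart. -/
theorem h84q_qep_chart_fin (hq : q.Prime) (hM : ¬ q ∣ M) (hA : A.LiesOverPrime q)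
    (c : Kbar) (hcA : c ∈ A) (hc : c ≠ 0) (x : FF (M * q * q)) (hx : x ∈ h92c_V0 A M q)
    (h : cst (M * q * q) c * x ∈ h92c_Chart A (M * q * q) (jB (M * q * q))) :
    x ∈ h92c_Chart A (M * q * q) (jB (M * q * q)) :=
  ⟨h84q_qep_fin A M q hq hM hA c hcA hc x hx.1 h.1, hx.2⟩

/-- **QEP over `A₀`**, chart at infinity. -/
theorem h84q_qep_chart_inf (hq : q.Prime) (hM : ¬ q ∣ M) (hA : A.LiesOverPrime q)
    (c : Kbar) (hcA : c ∈ A) (hc : c ≠ 0) (x : FF (M * q * q)) (hx : x ∈ h92c_V0 A M q)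
    (h : cst (M * q * q) c * x ∈ h92c_Chart A (M * q * q) (jB (M * q * q))⁻¹) :
    x ∈ h92c_Chart A (M * q * q) (jB (M * q * q))⁻¹ :=
  ⟨h84q_qep_inf A M q hq hM hA c hcA hc x hx.1 h.1, hx.2⟩

/-- **QEP over `A₀`** with the constant `q ^ k`. -/
theorem h84q_qep_chart_pow_fin (hq : q.Prime) (hM : ¬ q ∣ M) (hA : A.LiesOverPrime q)
    (k : ℕ) (x : FF (M * q * q)) (hx : x ∈ h92c_V0 A M q)
    (h : (q : FF (M * q * q)) ^ k * x ∈ h92c_Chart A (M * q * q) (jB (M * q * q))) :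
    x ∈ h92c_Chart A (M * q * q) (jB (M * q * q)) := by
  have hqA : (q : Kbar) ∈ A := natCast_mem A q
  have hq0 : (q : Kbar) ≠ 0 := Nat.cast_ne_zero.mpr hq.ne_zero
  refine h84q_qep_chart_fin A M q hq hM hA ((q : Kbar) ^ k) (pow_mem hqA k)
    (pow_ne_zero k hq0) x hx ?_
  have e : cst (M * q * q) ((q : Kbar) ^ k) = (q : FF (M * q * q)) ^ k := by
    rw [← h84q_cst_natCast (M * q * q) q]
    exact map_pow (algebraMap Kbar (FF (M * q * q))) (q : Kbar) k
  rw [e]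
  exact h

theorem h84q_qep_chart_pow_inf (hq : q.Prime) (hM : ¬ q ∣ M) (hA : A.LiesOverPrime q)
    (k : ℕ) (x : FF (M * q * q)) (hx : x ∈ h92c_V0 A M q)
    (h : (q : FF (M * q * q)) ^ k * x ∈ h92c_Chart A (M * q * q) (jB (M * q * q))⁻¹) :
    x ∈ h92c_Chart A (M * q * q) (jB (M * q * q))⁻¹ := by
  have hqA : (q : Kbar) ∈ A := natCast_mem A q
  have hq0 : (q : Kbar) ≠ 0 := Nat.cast_ne_zero.mpr hq.ne_zero
  refine h84q_qep_chart_inf A M q hq hM hA ((q : Kbar) ^ k) (pow_mem hqA k)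
    (pow_ne_zero k hq0) x hx ?_
  have e : cst (M * q * q) ((q : Kbar) ^ k) = (q : FF (M * q * q)) ^ k := by
    rw [← h84q_cst_natCast (M * q * q) q]
    exact map_pow (algebraMap Kbar (FF (M * q * q))) (q : Kbar) k
  rw [e]
  exact h

/-- **nt over `A₀`**: `q x ≠ 1` for `x ∈ V₀`. -/
theorem h84q_nt_V0 (hq : q.Prime) (hM : ¬ q ∣ M) (hA : A.LiesOverPrime q)
    (x : FF (M * q * q)) (hx : x ∈ h92c_V0 A M q) : (q : FF (M * q * q)) * x ≠ 1 := by
  have h := h84q_nt92 A M q hq hM hA ⟨(q : Kbar), natCast_mem A q⟩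
    (h84q_q_mem A q hA) x hx.1
  rwa [h84q_cst_natCast] at h

/-- **hVunit over `A₀`**: `(1 + q x)⁻¹ ∈ V₀` for `x ∈ V₀`. -/
theorem h84q_hVunit_V0 (hq : q.Prime) (hM : ¬ q ∣ M) (hA : A.LiesOverPrime q)
    (x : FF (M * q * q)) (hx : x ∈ h92c_V0 A M q) :
    (1 + (q : FF (M * q * q)) * x)⁻¹ ∈ h92c_V0 A M q := by
  have h := h84q_hVunit92 A M q hq hM hA ⟨(q : Kbar), natCast_mem A q⟩
    (h84q_q_mem A q hA) x hx.1
  rw [h84q_cst_natCast] at h
  refine ⟨h, ?_⟩
  exact (h92c_F0 A (M * q * q)).inv_mem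
    ((h92c_F0 A (M * q * q)).add_mem (h92c_F0 A (M * q * q)).one_mem
      ((h92c_F0 A (M * q * q)).mul_mem (natCast_mem _ q) hx.2))

/-- `U = 1 + q V₀` consists of units of `V₀`: nonzero, and the inverse is again in `U`. -/
theorem h84q_U_ne_zero (hq : q.Prime) (hM : ¬ q ∣ M) (hA : A.LiesOverPrime q)
    {w : FF (M * q * q)} (hw : w ∈ h92c_U A M q) : w ≠ 0 := by
  obtain ⟨y, hy, rfl⟩ := hw
  intro h0
  have h1 : (q : FF (M * q * q)) * (-y) = 1 := by
    have : (1 : FF (M * q * q)) + (q : FF (M * q * q)) * y = 0 := h0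
    linear_combination -this
  exact h84q_nt_V0 A M q hq hM hA (-y) ((h92c_V0 A M q).neg_mem hy) h1

theorem h84q_U_inv_mem (hq : q.Prime) (hM : ¬ q ∣ M) (hA : A.LiesOverPrime q)
    {w : FF (M * q * q)} (hw : w ∈ h92c_U A M q) : w⁻¹ ∈ h92c_U A M q := by
  have hw0 := h84q_U_ne_zero A M q hq hM hA hw
  obtain ⟨y, hy, rfl⟩ := hw
  have hinv := h84q_hVunit_V0 A M q hq hM hA y hy
  refine ⟨-(y * (1 + (q : FF (M * q * q)) * y)⁻¹),
    (h92c_V0 A M q).neg_mem ((h92c_V0 A M q).mul_mem hy hinv), ?_⟩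
  field_simp
  ring

theorem h84q_U_mul_mem {w w' : FF (M * q * q)} (hw : w ∈ h92c_U A M q)
    (hw' : w' ∈ h92c_U A M q) : w * w' ∈ h92c_U A M q := by
  obtain ⟨y, hy, rfl⟩ := hw
  obtain ⟨y', hy', rfl⟩ := hw'
  refine ⟨y + y' + (q : FF (M * q * q)) * (y * y'),
    (h92c_V0 A M q).add_mem ((h92c_V0 A M q).add_mem hy hy')
      ((h92c_V0 A M q).mul_mem (natCast_mem _ q) ((h92c_V0 A M q).mul_mem hy hy')), ?_⟩
  ring

theorem h84q_U_pow_mem {w : FF (M * q * q)} (hw : w ∈ h92c_U A M q) (n : ℕ) :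
    w ^ n ∈ h92c_U A M q := by
  induction n with
  | zero =>
    rw [pow_zero]
    exact ⟨0, (h92c_V0 A M q).zero_mem, by ring⟩
  | succ k ih =>
    rw [pow_succ]
    exact h84q_U_mul_mem A M q ih hw

end Level

end Fermat.Agent.S36
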