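import Fermat.Agent.S36.H86LocOneIface
import Fermat.Agent.S36.H84VQep
import Fermat.Agent.S36.H59Noeth
import Fermat.Agent.S36.H40Gen

/-!
# S36, row LOC-FRAC (helper40, prefix `h40f_`)

`h40f_locFrac : H86LocFrac` (the exact frozen `Prop` of `S36/H86LocOneIface.lean`):
at the good levels `M q²`, both charts over `A₀`

* are noetherian (landed `h59n_isNoetherianRing_chart`, helper59),
* have fraction field `F₀` (`h40g_den`: denominators in `A₀[t]`),
* lie in `V₀` (landed `h84q_chart_le_V0_fin/_inf`, helper84),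

and `(1 + q V₀)⁻¹ ⊆ V₀` (landed `h84q_U_inv_mem`, helper84).

`h40f_locFracAt` : the chart part at ANY level `N` (for `t = j`, `1/j`).
-/

set_option autoImplicit false
set_option linter.style.haveILetI false
set_option linter.unusedSectionVars false

open AlgebraicCurve ModularCurve

noncomputable section

namespace Fermat.Agent.S36

open Fermat.Agent.S37 (Kbar GQ FF cst jB gal modelAt ringAdj auxLevel)

/-- `F₀` is the fraction field of the chart over `A₀` (`t` an `I`-invariant coordinate over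
which `F_N` is algebraic). -/
theorem h40f_isFrac_iff (A : ValuationSubring Kbar) (N : ℕ) [NeZero N] (t : FF N)
    (halg : ∀ y : FF N, IsAlgebraic (Algebra.adjoin Kbar {t}) y)
    (ht : ∀ σ ∈ A.inertiaSubgroupIn ℚ, gal N σ • t = t) (x : FF N) :
    x ∈ h92c_F0 A N ↔ h86l_IsFrac (h92c_Chart A N t) x := by
  constructor
  · intro hx
    obtain ⟨s, -, hs0, hs, hsx⟩ := h40g_den A N t halg ht x hx
    refine ⟨⟨s * x, hsx⟩, ⟨s, hs⟩, fun h => hs0 (congrArg Subtype.val h), ?_⟩
    show x * s = s * x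
    exact mul_comm x s
  · rintro ⟨a, b, hb, hab⟩
    have hb0 : (b : FF N) ≠ 0 := fun h => hb (Subtype.ext h)
    have hx : x = (a : FF N) * ((b : FF N))⁻¹ := by
      rw [← hab, mul_assoc, mul_inv_cancel₀ hb0, mul_one]
    rw [hx]
    exact (h92c_F0 A N).mul_mem a.2.2 ((h92c_F0 A N).inv_mem b.2.2)

/-- **LOC-FRAC at the chart `t = j`**, any level. -/
theorem h40f_locFracAt_fin (A : ValuationSubring Kbar) (N : ℕ) [NeZero N] {q : ℕ}
    (hq : q.Prime) (hA : A.LiesOverPrime q) : H86LocFracAt A N (jB N) :=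
  ⟨h59n_isNoetherianRing_chart N A hq hA (jB N) (Or.inl rfl),
    fun x => h40f_isFrac_iff A N (jB N) (Fermat.Agent.Red.SM.HAlg.h81a_halg_jB N)
      (fun σ _ => Fermat.Agent.S37.GalI.gal_smul_jB (N := N) σ) x⟩

/-- **LOC-FRAC at the chart `t = 1/j`**, any level. -/
theorem h40f_locFracAt_inf (A : ValuationSubring Kbar) (N : ℕ) [NeZero N] {q : ℕ}
    (hq : q.Prime) (hA : A.LiesOverPrime q) : H86LocFracAt A N (jB N)⁻¹ :=
  ⟨h59n_isNoetherianRing_chart N A hq hA (jB N)⁻¹ (Or.inr rfl),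
    fun x => h40f_isFrac_iff A N (jB N)⁻¹ (Fermat.Agent.Red.SM.HAlg.h81a_halg_jB_inv N)
      (fun σ _ => Fermat.Agent.S37.GalI.gal_smul_jB_inv (N := N) σ) x⟩

/-- **LOC-FRAC.** -/
theorem h40f_locFrac : H86LocFrac := by
  intro q hq M _ hqM _
  haveI : NeZero q := ⟨hq.ne_zero⟩
  intro A hA
  refine ⟨h40f_locFracAt_fin A (M * q * q) hq hA, h40f_locFracAt_inf A (M * q * q) hq hA,
    fun x hx => h84q_chart_le_V0_fin A M q hq hqM hA hx,
    fun x hx => h84q_chart_le_V0_inf A M q hq hqM hA hx, fun w hw => ?_⟩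
  obtain ⟨y, hy, hwy⟩ := h84q_U_inv_mem A M q hq hqM hA hw
  rw [hwy]
  refine (h92c_V0 A M q).add_mem (h92c_V0 A M q).one_mem
    ((h92c_V0 A M q).mul_mem (natCast_mem _ q) hy)

end Fermat.Agent.S36
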