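/-
S36 (wave 4), block (V), row V-MIDALL (helper85): on the functions fixed by inertia all the
middle embeddings `E11^ζ` define the same valuation ring.

* `h85m_coeffMap_mem_softOT` : the Gauss ring `softOT A` is stable under the coefficientwise
  action of the decomposition group of `A`;
* `h85m_E11_conj` : `E11^{ζ'} x = σ (E11^ζ x)` for `x` fixed by inertia, `σ ∈ I_A`, `σ ζ = ζ'`;
* `h85m_midAll : H74MidAll` (exact frozen Prop of `S36/H74VIface.lean`);
* `h85m_unit` : the same for Gauss units.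
-/
import Mathlib
import Fermat.Agent.S36.H74VIface
import Fermat.Agent.S36.H34Cyc
import Fermat.Agent.S36.H20Emb
import Fermat.Agent.S36.H83EmbGal
import Fermat.Agent.Red.GV.SoftGal

set_option autoImplicit false
set_option linter.style.haveILetI false

open AlgebraicCurve ModularCurve

noncomputable section

namespace Fermat.Agent.S36

open Fermat.Agent.S37 (Kbar GQ FF cst gal)
open Fermat.Agent.S05
open Fermat.Agent.Red.GV Fermat.Agent.Red.GV.Soft
open Fermat.Agent.S36.V28 (h28v_IFixed)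

/-- the Gauss ring is stable under the decomposition group. -/
theorem h85m_coeffMap_mem_softOT (A : ValuationSubring Kbar) {σ : GQ}
    (hσ : σ ∈ A.decompositionSubgroup ℚ) {s : LaurentSeries Kbar}
    (hs : s ∈ softOT A (IsLocalRing.residue A)) :
    coeffMap (σ : Kbar →+* Kbar) s ∈ softOT A (IsLocalRing.residue A) :=
  mem_softOT_coeffMap (σ : Kbar →+* Kbar) (decompA A σ hσ) (coe_decompA A σ hσ)
    (decompK A σ hσ) (residue_decompA A σ hσ) hs

/-- conjugate middle embeddings on a function fixed by inertia. -/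
theorem h85m_E11_conj {q : ℕ} (hq : q.Prime) (M : ℕ) [NeZero M] (hqM : ¬ q ∣ M)
    (A : ValuationSubring Kbar) {ζ : Kbar}
    {E E' : haveI : NeZero q := ⟨hq.ne_zero⟩; FF (M * q * q) →+* LaurentSeries Kbar}
    {σ : GQ} (hσ : σ ∈ A.inertiaSubgroupIn ℚ)
    (hE : haveI : NeZero q := ⟨hq.ne_zero⟩; h20n_IsE11 M q hq hqM ζ E)
    (hE' : haveI : NeZero q := ⟨hq.ne_zero⟩; h20n_IsE11 M q hq hqM (σ ζ) E')
    {x : FF (M * q * q)} (hx : h28v_IFixed A (M * q * q) x) :
    E' x = coeffMap (σ : Kbar →+* Kbar) (E x) := by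
  haveI : NeZero q := ⟨hq.ne_zero⟩
  have hgal := (h83g_embGal h20n_embUnique q hq M hqM σ).1 ζ E E' hE hE' x
  rw [hx σ hσ] at hgal
  exact hgal

/-- **V-MIDALL.** -/
theorem h85m_midAll : H74MidAll := by
  intro q hq M _ hqM A hA ζ ζ' hζ hζ' E E' hE hE' x hx hint
  haveI : NeZero q := ⟨hq.ne_zero⟩
  obtain ⟨σ, hσ, hσζ⟩ := h34y_cyc q hq A hA ζ ζ' hζ hζ'
  have hE'' : h20n_IsE11 M q hq hqM (σ ζ) E' := by rw [hσζ]; exact hE'
  have hconj := h85m_E11_conj hq M hqM A hσ hE hE'' hx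
  unfold h74w_Int at hint ⊢
  rw [hconj]
  exact h85m_coeffMap_mem_softOT A (mem_decomp_of_mem_inertia A hσ) hint

/-- **V-MIDALL for Gauss units.** -/
theorem h85m_unit {q : ℕ} (hq : q.Prime) (M : ℕ) [NeZero M] (hqM : ¬ q ∣ M)
    (A : ValuationSubring Kbar) (hA : A.LiesOverPrime q) {ζ ζ' : Kbar}
    (hζ : IsPrimitiveRoot ζ q) (hζ' : IsPrimitiveRoot ζ' q)
    {E E' : haveI : NeZero q := ⟨hq.ne_zero⟩; FF (M * q * q) →+* LaurentSeries Kbar}
    (hE : haveI : NeZero q := ⟨hq.ne_zero⟩; h20n_IsE11 M q hq hqM ζ E)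
    (hE' : haveI : NeZero q := ⟨hq.ne_zero⟩; h20n_IsE11 M q hq hqM ζ' E')
    {x : FF (M * q * q)} (hx : h28v_IFixed A (M * q * q) x) (hu : h74w_Unit A E x) :
    h74w_Unit A E' x := by
  haveI : NeZero q := ⟨hq.ne_zero⟩
  have hxinv : h28v_IFixed A (M * q * q) x⁻¹ := by
    intro σ hσ
    rw [smul_inv'', hx σ hσ]
  exact ⟨h85m_midAll q hq M hqM A hA ζ ζ' hζ hζ' E E' hE hE' x hx hu.1,
    h85m_midAll q hq M hqM A hA ζ ζ' hζ hζ' E E' hE hE' x⁻¹ hxinv hu.2⟩

end Fermat.Agent.S36
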