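import Fermat.Agent.S36.H11TorSkel
import Fermat.Agent.S36.H86LocOneIface
import Fermat.Agent.S36.H16BranchVal
import Fermat.Agent.S36.H40LocFrac
import Fermat.Agent.S36.H85MidAll
import Fermat.Agent.S36.H20Emb
import Fermat.Agent.S36.H3Gate92V

/-!
# S36, row T-ROOT (helper16): `H11TorRoot` from the leaves of LOC-ONE and two new leaves

`h16t_torRoot_of : H86LocFactAbs → H62RegStatement → H86LocVComp → H86LocHor → H11TorBasic →
  H16TorCentre → H16TorRat → H11TorRoot`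

(`H86LocFrac`, `H74MidAll`, `H20EmbUnique` are landed: `h40f_locFrac`, `h85m_midAll`,
`h20n_embUnique`.)

New leaves (frozen here):
* `H16TorCentre` : no maximal ideal of the chart `j` consists of functions which are Gauss-small
  at a vertical embedding (the centre of a vertical valuation is not a closed point).
* `H16TorRat` : the closed points of the special fibre of the chart `j` are rational over the
  residue field of `A₀`: every function of the chart is congruent modulo `𝔫` to a constant of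
  `A₀`.

Route: local factorisation `w = ε G ^ m` (`H86LocFactAbs`); along a vertical embedding `E` the
branch `B_𝔫 / P_E` is a valuation ring (`H62RegAt.branch`, `h16s_branch_value`), so the residue
of `G` along `E` is regular at `𝔫`; its value at `𝔫` is a constant (`H16TorRat`), a unit of `A₀`
(`H11TorBasic` (4)); the `E11^ζ` are conjugate under inertia (`H74MidAll`), `E02` is unique
(`H20EmbUnique`).
-/

set_option autoImplicit false
set_option linter.unusedSectionVars false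
set_option linter.style.haveILetI false

open AlgebraicCurve ModularCurve IsLocalRing

noncomputable section

namespace Fermat.Agent.S36

open Fermat.Agent.S37 (Kbar GQ FF cst jB gal modelAt degen auxLevel)
open Fermat.Agent.Red.GV.Soft (softOT softRedT)

/-! ## The new leaves -/

/-- **T-ROOT-CEN.**  No maximal ideal of the chart `j` of level `M q q` consists of functions
which are Gauss-small at a vertical embedding. -/
def H16TorCentre : Prop :=
  ∀ (q : ℕ) (hq : q.Prime) (M : ℕ) [NeZero M] (hqM : ¬ q ∣ M), auxLevel q ∣ M →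
    haveI : NeZero q := ⟨hq.ne_zero⟩
    ∀ A : ValuationSubring Kbar, A.LiesOverPrime q →
    ∀ E : FF (M * q * q) →+* LaurentSeries Kbar, h11l_IsVE M q hq hqM E →
    ∀ 𝔫 : Ideal (h92c_Chart A (M * q * q) (jB (M * q * q))), 𝔫.IsMaximal →
      ((q : ℕ) : h92c_Chart A (M * q * q) (jB (M * q * q))) ∈ 𝔫 →
      ∃ b : h92c_Chart A (M * q * q) (jB (M * q * q)), b ∈ 𝔫 ∧
        ¬ h11l_Small A E (b : FF (M * q * q))

/-- **T-ROOT-RAT.**  The closed points of the special fibre of the chart `j` of level `M q q`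
are rational: every function of the chart is congruent modulo `𝔫` to a constant of `A₀`. -/
def H16TorRat : Prop :=
  ∀ (q : ℕ) (hq : q.Prime) (M : ℕ) [NeZero M], ¬ q ∣ M → auxLevel q ∣ M →
    haveI : NeZero q := ⟨hq.ne_zero⟩
    ∀ A : ValuationSubring Kbar, A.LiesOverPrime q →
    ∀ 𝔫 : Ideal (h92c_Chart A (M * q * q) (jB (M * q * q))), 𝔫.IsMaximal →
      ((q : ℕ) : h92c_Chart A (M * q * q) (jB (M * q * q))) ∈ 𝔫 →
      ∀ x : h92c_Chart A (M * q * q) (jB (M * q * q)),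
        ∃ a : Kbar, a ∈ A ∧ (∀ σ ∈ A.inertiaSubgroupIn ℚ, σ a = a) ∧
          ∃ c : h92c_Chart A (M * q * q) (jB (M * q * q)),
            (c : FF (M * q * q)) = cst (M * q * q) a ∧ x - c ∈ 𝔫

/-! ## Gauss-small functions at an embedding -/

section Small

variable (A : ValuationSubring Kbar) {N : ℕ} (E : FF N →+* LaurentSeries Kbar)

/-- the ring of the functions which are Gauss-integral at `E`. -/
def h16tW : Subring (FF N) := (softOT A (IsLocalRing.residue A)).comap E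

theorem h16t_mem_W {x : FF N} : x ∈ h16tW A E ↔ E x ∈ softOT A (IsLocalRing.residue A) :=
  Iff.rfl

variable {A E}

theorem h16t_small_int {x : FF N} (hx : h11l_Small A E x) : x ∈ h16tW A E := hx.1

theorem h16t_small_add {x y : FF N} (hx : h11l_Small A E x) (hy : h11l_Small A E y) :
    h11l_Small A E (x + y) := by
  obtain ⟨hx1, hx2⟩ := hx
  obtain ⟨hy1, hy2⟩ := hy
  have h : E (x + y) ∈ softOT A (IsLocalRing.residue A) := by
    rw [map_add]; exact add_mem hx1 hy1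
  refine ⟨h, ?_⟩
  have e : (⟨E (x + y), h⟩ : softOT A (IsLocalRing.residue A)) = ⟨E x, hx1⟩ + ⟨E y, hy1⟩ :=
    Subtype.ext (map_add E x y)
  rw [e, map_add, hx2, hy2, add_zero]

theorem h16t_small_mul {x y : FF N} (hx : x ∈ h16tW A E) (hy : h11l_Small A E y) :
    h11l_Small A E (x * y) := by
  obtain ⟨hy1, hy2⟩ := hy
  have h : E (x * y) ∈ softOT A (IsLocalRing.residue A) := by
    rw [map_mul]; exact mul_mem hx hy1
  refine ⟨h, ?_⟩
  have e : (⟨E (x * y), h⟩ : softOT A (IsLocalRing.residue A)) = ⟨E x, hx⟩ * ⟨E y, hy1⟩ :=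
    Subtype.ext (map_mul E x y)
  rw [e, map_mul, hy2, mul_zero]

theorem h16t_not_small_one : ¬ h11l_Small A E (1 : FF N) := by
  rintro ⟨h1, h2⟩
  have e : (⟨E 1, h1⟩ : softOT A (IsLocalRing.residue A)) = 1 := Subtype.ext (map_one E)
  rw [e, map_one] at h2
  exact one_ne_zero h2

theorem h16t_inv_int {x : FF N} (hx : x ∈ h16tW A E) (hns : ¬ h11l_Small A E x) :
    x⁻¹ ∈ h16tW A E := by
  have h1 : softRedT A (IsLocalRing.residue A) ⟨E x, hx⟩ ≠ 0 := fun h => hns ⟨hx, h⟩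
  have h2 := (Fermat.Agent.Red.GV.Soft.softRedT_ne_zero_iff
    (⟨E x, hx⟩ : softOT A (IsLocalRing.residue A))).mp h1
  rw [h16t_mem_W, map_inv₀]
  exact h2.2

/-- small = integral and (zero or not a unit). -/
theorem h16t_small_iff {x : FF N} :
    h11l_Small A E x ↔ x ∈ h16tW A E ∧ (x = 0 ∨ x⁻¹ ∉ h16tW A E) := by
  constructor
  · rintro ⟨h1, h2⟩
    refine ⟨h1, ?_⟩
    rcases (Fermat.Agent.Red.GV.Soft.softRedT_eq_zero_iff
      (⟨E x, h1⟩ : softOT A (IsLocalRing.residue A))).mp h2 with h | h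
    · left
      exact (map_eq_zero E).mp h
    · right
      rw [h16t_mem_W, map_inv₀]
      exact h
  · rintro ⟨h1, h2⟩
    refine ⟨h1, ?_⟩
    rw [Fermat.Agent.Red.GV.Soft.softRedT_eq_zero_iff]
    rcases h2 with h | h
    · left
      show E x = 0
      rw [h, map_zero]
    · right
      rw [h16t_mem_W, map_inv₀] at h
      exact h

/-- `q` is Gauss-small. -/
theorem h16t_small_q {q : ℕ} (hA : A.LiesOverPrime q) (hq : q.Prime) :
    h11l_Small A E ((q : ℕ) : FF N) := by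
  haveI : NeZero q := ⟨hq.ne_zero⟩
  rw [h16t_small_iff]
  have hqA : ((q : ℕ) : Kbar) ∈ A := natCast_mem A q
  have h1 : E ((q : ℕ) : FF N) = HahnSeries.C ((⟨(q : Kbar), hqA⟩ : A) : Kbar) := by
    rw [map_natCast]
    simp
  refine ⟨?_, Or.inr ?_⟩
  · rw [h16t_mem_W, h1]
    exact Fermat.Agent.Red.GV.Soft.C_mem_softOT A _ _
  · intro h
    rw [h16t_mem_W, map_inv₀, h1] at h
    have h2 : (HahnSeries.C ((⟨(q : Kbar), hqA⟩ : A) : Kbar) : LaurentSeries Kbar)⁻¹ =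
        HahnSeries.C ((q : Kbar))⁻¹ := by
      rw [← map_inv₀]
    rw [h2] at h
    have hres : ∀ a : A, (a : Kbar) ∈ A.nonunits → IsLocalRing.residue A a = 0 := by
      intro a ha
      rw [IsLocalRing.residue_eq_zero_iff]
      exact (ValuationSubring.mem_nonunits_iff_exists_mem_maximalIdeal.mp ha).2
    exact h3w_q_inv_not_mem hq hA
      ((Fermat.Agent.Red.GV.Soft.C_mem_softOT_iff A (IsLocalRing.residue A) hres _).mp h)

end Small


/-! ## The centre of a vertical embedding on a chart -/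

section Centre

variable (A : ValuationSubring Kbar) {N : ℕ} (E : FF N →+* LaurentSeries Kbar)
  (B : Subring (FF N)) (hB : ∀ b ∈ B, b ∈ h16tW A E)

/-- the centre on `B` of the Gauss valuation of `E`. -/
def h16tCentre : Ideal B where
  carrier := {b | h11l_Small A E (b : FF N)}
  add_mem' := fun {a b} ha hb => by
    show h11l_Small A E ((a + b : B) : FF N)
    push_cast
    exact h16t_small_add ha hb
  zero_mem' := by
    show h11l_Small A E ((0 : B) : FF N)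
    rw [h16t_small_iff]
    exact ⟨zero_mem _, Or.inl rfl⟩
  smul_mem' := fun c b hb => by
    show h11l_Small A E ((c * b : B) : FF N)
    push_cast
    exact h16t_small_mul (hB _ c.2) hb

theorem h16t_mem_centre (b : B) : b ∈ h16tCentre A E B hB ↔ h11l_Small A E (b : FF N) :=
  Iff.rfl

theorem h16t_centre_isPrime : (h16tCentre A E B hB).IsPrime := by
  refine ⟨?_, ?_⟩
  · rw [Ne, Ideal.eq_top_iff_one, h16t_mem_centre]
    exact h16t_not_small_one
  · intro a b hab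
    by_contra hcon
    push Not at hcon
    rw [h16t_mem_centre] at hab
    rw [h16t_mem_centre, h16t_mem_centre] at hcon
    apply hcon.2
    have ha0 : (a : FF N) ≠ 0 := by
      intro h
      apply hcon.1
      rw [h, h16t_small_iff]
      exact ⟨zero_mem _, Or.inl rfl⟩
    have h1 : (b : FF N) = (a : FF N)⁻¹ * ((a * b : B) : FF N) := by
      push_cast
      field_simp
    rw [h1]
    exact h16t_small_mul (h16t_inv_int (hB _ a.2) hcon.1) hab

end Centre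

/-! ## The branch value along one vertical embedding -/

section BV

variable (q : ℕ) (M : ℕ) [NeZero M] [NeZero q] (A : ValuationSubring Kbar)

/-- **the branch value of a local root along a vertical embedding is a constant.**
(`B` is the chart `j` of level `M q q`; only the listed properties are used.) -/
theorem h16t_bv_at (hq : q.Prime) (hA : A.LiesOverPrime q)
    (E : FF (M * q * q) →+* LaurentSeries Kbar)
    (B : Subring (FF (M * q * q))) (hnoeth : IsNoetherianRing B)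
    (hBint : ∀ b ∈ B, E b ∈ softOT A (IsLocalRing.residue A))
    (hconst : ∀ a : Kbar, a ∈ A → (∀ σ ∈ A.inertiaSubgroupIn ℚ, σ a = a) →
      cst (M * q * q) a ∈ B)
    (hqA0 : ∀ a : Kbar, a ∈ A → a⁻¹ ∉ A → (∀ σ ∈ A.inertiaSubgroupIn ℚ, σ a = a) →
      ∃ a' : Kbar, a' ∈ A ∧ (∀ σ ∈ A.inertiaSubgroupIn ℚ, σ a' = a') ∧ a = (q : Kbar) * a')
    (hden : ∀ P : Ideal B, P.IsPrime → ¬ P.IsMaximal → ((q : ℕ) : B) ∈ P →
      ∀ v ∈ h92c_V0 A M q, ∃ s : B, s ∉ P ∧ (s : FF (M * q * q)) * v ∈ B)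
    (hcen : ∀ 𝔫' : Ideal B, 𝔫'.IsMaximal → ((q : ℕ) : B) ∈ 𝔫' →
      ∃ b : B, b ∈ 𝔫' ∧ ¬ h11l_Small A E (b : FF (M * q * q)))
    (𝔫 : Ideal B) (h𝔫 : 𝔫.IsMaximal) (hq𝔫 : ((q : ℕ) : B) ∈ 𝔫)
    (hrat : ∀ x : B, ∃ a : Kbar, a ∈ A ∧ (∀ σ ∈ A.inertiaSubgroupIn ℚ, σ a = a) ∧
      ∃ c : B, (c : FF (M * q * q)) = cst (M * q * q) a ∧ x - c ∈ 𝔫)
    (hreg : H62RegAt 𝔫 ((q : ℕ) : B))
    (m : ℕ) (hm : 0 < m) (w G : FF (M * q * q)) (hw0 : w ≠ 0) (hG0 : G ≠ 0)
    (hwU : w ∈ h92c_U A M q)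
    (c₁ : B) (hc₁ : c₁ ∉ 𝔫) (hc₁G : (c₁ : FF (M * q * q)) * G ∈ h92c_V0 A M q)
    (s₀ : B) (hs₀ : s₀ ∉ 𝔫)
    (h1 : (s₀ : FF (M * q * q)) * (w * (G ^ m)⁻¹) ∈ B)
    (h2 : (s₀ : FF (M * q * q)) * (G ^ m * w⁻¹) ∈ B) :
    ∃ a : Kbar, h11t_IsC A a ∧
      ∃ c : B, (c : FF (M * q * q)) = cst (M * q * q) a ∧
        ∃ b s : B, s ∉ 𝔫 ∧ h11l_Small A E ((s : FF (M * q * q)) * G - (b : FF (M * q * q))) ∧
          b - c * s ∈ 𝔫 := by
  classical
  haveI := hnoeth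
  haveI : 𝔫.IsPrime := h𝔫.isPrime
  have hBW : ∀ b ∈ B, b ∈ h16tW A E := hBint
  obtain ⟨P, hPmem, hP⟩ : ∃ P : Ideal B, (∀ b : B, b ∈ P ↔ h11l_Small A E (b : FF (M * q * q))) ∧
      P.IsPrime :=
    ⟨h16tCentre A E B hBW, fun _ => Iff.rfl, h16t_centre_isPrime A E B hBW⟩
  have hS0 : h11l_Small A E (0 : FF (M * q * q)) := by
    rw [h16t_small_iff]
    exact ⟨zero_mem _, Or.inl rfl⟩
  have hqS : h11l_Small A E ((q : ℕ) : FF (M * q * q)) := h16t_small_q hA hq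
  have hqP : ((q : ℕ) : B) ∈ P := by
    rw [hPmem, Subring.coe_natCast]
    exact hqS
  have hPmax : ¬ P.IsMaximal := by
    intro hmax
    obtain ⟨b, hb, hbS⟩ := hcen P hmax hqP
    exact hbS ((hPmem b).mp hb)
  -- `V₀ ⊆ W`
  have hVW : ∀ v ∈ h92c_V0 A M q, v ∈ h16tW A E := by
    intro v hv
    obtain ⟨s, hs, hsv⟩ := hden P hP hPmax hqP v hv
    have hs' : ¬ h11l_Small A E (s : FF (M * q * q)) := fun h => hs ((hPmem s).mpr h)
    have hs0 : (s : FF (M * q * q)) ≠ 0 := fun h => hs' (h ▸ hS0)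
    have e : v = ((s : FF (M * q * q)))⁻¹ * ((s : FF (M * q * q)) * v) := by field_simp
    rw [e]
    exact mul_mem (h16t_inv_int (hBW _ s.2) hs') (hBW _ hsv)
  have hIsC1 : h11t_IsC A 1 :=
    ⟨one_ne_zero, one_mem _, by rw [inv_one]; exact one_mem _, fun σ _ => map_one σ⟩
  by_cases hcentred : P ≤ 𝔫
  swap
  · -- the component of `E` does not pass through `𝔫`
    obtain ⟨b₀, hb₀P, hb₀𝔫⟩ := Set.not_subset.mp hcentred
    have hb₀S : h11l_Small A E (b₀ : FF (M * q * q)) := (hPmem b₀).mp hb₀P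
    refine ⟨1, hIsC1, 1, ?_, b₀ * c₁, b₀ * c₁,
      fun h => (h𝔫.isPrime.mem_or_mem h).elim (fun h' => hb₀𝔫 h') hc₁, ?_, ?_⟩
    · exact (map_one (algebraMap Kbar (FF (M * q * q)))).symm
    · have e : ((b₀ * c₁ : B) : FF (M * q * q)) * G - ((b₀ * c₁ : B) : FF (M * q * q)) =
          ((c₁ : FF (M * q * q)) * G - (c₁ : FF (M * q * q))) * (b₀ : FF (M * q * q)) := by
        push_cast; ring
      rw [e]
      exact h16t_small_mul (sub_mem (hVW _ hc₁G) (hBW _ c₁.2)) hb₀S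
    · rw [one_mul, sub_self]
      exact 𝔫.zero_mem
  -- the component of `E` passes through `𝔫`
  obtain ⟨b₁, hb₁, hb₁S⟩ := hcen 𝔫 h𝔫 hq𝔫
  obtain ⟨s', hs', hs'G⟩ := hden P hP hPmax hqP _ hc₁G
  have hc₁P : c₁ ∉ P := fun h => hc₁ (hcentred h)
  have hxS : ¬ h11l_Small A E ((s' * c₁ : B) : FF (M * q * q)) := by
    intro h
    have h3 : s' * c₁ ∈ P := (hPmem _).mpr h
    exact (hP.mem_or_mem h3).elim hs' hc₁P
  have hq0 : ((q : ℕ) : B) ≠ 0 := by
    intro h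
    have h3 : (((q : ℕ) : B) : FF (M * q * q)) = 0 := by rw [h]; rfl
    rw [Subring.coe_natCast] at h3
    exact (Nat.cast_ne_zero.mpr hq.ne_zero) h3
  have hGm0 : G ^ m ≠ 0 := pow_ne_zero m hG0
  have hu : w * (G ^ m)⁻¹ ∈ h66sO B 𝔫 := ⟨s₀, hs₀, h1⟩
  have hu' : (w * (G ^ m)⁻¹)⁻¹ ∈ h66sO B 𝔫 := by
    refine ⟨s₀, hs₀, ?_⟩
    have e : (w * (G ^ m)⁻¹)⁻¹ = G ^ m * w⁻¹ := by
      rw [mul_inv, inv_inv]
      exact mul_comm _ _
    rw [e]
    exact h2
  have hu0 : w * (G ^ m)⁻¹ ≠ 0 := mul_ne_zero hw0 (inv_ne_zero hGm0)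
  have hgu : h11l_Small A E (G ^ m * (w * (G ^ m)⁻¹) - 1) := by
    obtain ⟨y, hy, rfl⟩ := hwU
    have e : G ^ m * ((1 + (q : FF (M * q * q)) * y) * (G ^ m)⁻¹) - 1 =
        y * ((q : ℕ) : FF (M * q * q)) := by
      field_simp
      ring
    rw [e]
    exact h16t_small_mul (hVW y hy) hqS
  obtain ⟨b, s, hs, hb, hsb⟩ := h16s_branch_value B 𝔫 ((q : ℕ) : B) hq0 hreg (h16tW A E)
    {x | h11l_Small A E x} hBW (fun x hx y hy => h16t_small_add hx hy)
    (fun x hx y hy => h16t_small_mul hx hy) h16t_not_small_one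
    (fun x hx hns => h16t_inv_int hx hns)
    (by
      show h11l_Small A E ((((q : ℕ) : B)) : FF (M * q * q))
      rw [Subring.coe_natCast]
      exact hqS)
    (fun b hb => hcentred ((hPmem b).mpr hb)) ⟨b₁, hb₁, hb₁S⟩ G (s' * c₁) ⟨_, hs'G⟩ hxS
    (by push_cast; ring) m hm (w * (G ^ m)⁻¹) hu hu' hu0 hgu
  -- the value is a constant
  obtain ⟨s₂, i, hi, hs₂⟩ := h𝔫.exists_inv hs
  obtain ⟨a, haA, haI, c, hca, hc⟩ := hrat (b * s₂)
  have hc𝔫 : c ∉ 𝔫 := by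
    intro hc'
    have h3 : b * s₂ ∈ 𝔫 := by
      have := 𝔫.add_mem hc hc'
      rwa [sub_add_cancel] at this
    rcases h𝔫.isPrime.mem_or_mem h3 with h4 | h4
    · exact hb h4
    · have h5 : (1 : B) ∈ 𝔫 := by
        rw [← hs₂]
        exact 𝔫.add_mem (𝔫.mul_mem_right _ h4) hi
      exact (Ideal.ne_top_iff_one 𝔫).mp h𝔫.ne_top h5
  have haC : h11t_IsC A a := by
    refine ⟨?_, haA, ?_, haI⟩
    · intro ha0
      apply hc𝔫
      have h3 : c = 0 := by
        apply Subtype.ext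
        rw [hca, ha0]
        exact map_zero (algebraMap Kbar (FF (M * q * q)))
      rw [h3]
      exact 𝔫.zero_mem
    by_contra hna
    obtain ⟨a', ha'A, ha'I, haa'⟩ := hqA0 a haA hna haI
    apply hc𝔫
    have h3 : c = ((q : ℕ) : B) * ⟨cst (M * q * q) a', hconst a' ha'A ha'I⟩ := by
      apply Subtype.ext
      push_cast
      rw [hca, haa']
      show algebraMap Kbar (FF (M * q * q)) ((q : Kbar) * a') =
        (q : FF (M * q * q)) * algebraMap Kbar (FF (M * q * q)) a'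
      rw [map_mul, map_natCast]
    rw [h3]
    exact 𝔫.mul_mem_right _ hq𝔫
  refine ⟨a, haC, c, hca, b, s, hs, hsb, ?_⟩
  have e : b - c * s = (b * s₂ - c) * s + b * i := by
    have : b = b * (s₂ * s + i) := by rw [hs₂, mul_one]
    linear_combination this
  rw [e]
  exact 𝔫.add_mem (𝔫.mul_mem_right _ hc) (𝔫.mul_mem_left _ hi)

end BV


/-! ## Independence of the embedding inside a family -/

section Transfer

variable {A : ValuationSubring Kbar} {N : ℕ} {E E' : FF N →+* LaurentSeries Kbar}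

/-- if integrality at `E` and at `E'` agree on a subfield `F₀`, so does smallness. -/
theorem h16t_small_transfer (F₀ : Subfield (FF N))
    (h : ∀ x ∈ F₀, x ∈ h16tW A E → x ∈ h16tW A E')
    (h' : ∀ x ∈ F₀, x ∈ h16tW A E' → x ∈ h16tW A E)
    {x : FF N} (hx : x ∈ F₀) (hs : h11l_Small A E x) : h11l_Small A E' x := by
  rw [h16t_small_iff] at hs ⊢
  refine ⟨h x hx hs.1, ?_⟩
  rcases hs.2 with h0 | h0
  · exact Or.inl h0
  · exact Or.inr fun h1 => h0 (h' _ (F₀.inv_mem hx) h1)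

end Transfer

/-! ## T-ROOT -/

/-- **T-ROOT** from the leaves. -/
theorem h16t_torRoot_of (hFA : H86LocFactAbs) (hReg : H62RegStatement) (hVC : H86LocVComp)
    (hHor : H86LocHor) (hTB : H11TorBasic) (hCen : H16TorCentre) (hRat : H16TorRat) :
    H11TorRoot := by
  classical
  intro q hq M _ hqM haux
  haveI : NeZero q := ⟨hq.ne_zero⟩
  intro A hA m hm w hw0 hwF hwU hord 𝔫 hSS
  obtain ⟨h𝔫, hq𝔫, -⟩ := hSS
  haveI : 𝔫.IsMaximal := h𝔫
  -- the leaves at `(q, M, A)`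
  obtain ⟨hregj, -⟩ := hReg q hq M hqM haux A hA
  obtain ⟨⟨hex, hden, hinv⟩, -⟩ := hVC q hq M hqM haux A hA
  obtain ⟨hhor, -⟩ := hHor q hq M hqM haux A hA
  obtain ⟨⟨hnoeth, hfr⟩, -, hBV, -, hUinv⟩ := h40f_locFrac q hq M hqM haux A hA
  obtain ⟨hconst, hBint, -, hqA0, -, -⟩ := hTB q hq M hqM haux A hA
  haveI : IsNoetherianRing (h92c_Chart A (M * q * q) (jB (M * q * q))) := hnoeth
  have hm0 : 0 < m := Nat.pos_of_ne_zero fun h => hm (h ▸ dvd_zero q)
  have hqF : ((q : ℕ) : FF (M * q * q)) ≠ 0 := Nat.cast_ne_zero.mpr hq.ne_zero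
  have hregAt : H62RegAt 𝔫 ((q : ℕ) : h92c_Chart A (M * q * q) (jB (M * q * q))) :=
    hregj.2 𝔫 h𝔫 hq𝔫
  obtain ⟨P, hP⟩ := hex 𝔫 h𝔫 hq𝔫
  have hPmax : ∀ P' : Ideal (h92c_Chart A (M * q * q) (jB (M * q * q))),
      h86l_IsVert 𝔫 ((q : ℕ) : h92c_Chart A (M * q * q) (jB (M * q * q))) P' →
      ¬ P'.IsMaximal := by
    intro P' hP' hmax
    exact hP'.2.2.2 (hmax.eq_of_le h𝔫.ne_top hP'.2.2.1)
  have hwV : w ∈ h92c_V0 A M q := by
    obtain ⟨y, hy, rfl⟩ := hwU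
    exact add_mem (one_mem _) (mul_mem (natCast_mem _ q) hy)
  have hw'V : w⁻¹ ∈ h92c_V0 A M q := hUinv w hwU
  -- the local factorisation
  obtain ⟨g₀, hg₀, hg₀frac, ⟨c₁, hc₁, hc₁G⟩, s₀, hs₀, h1, h2⟩ :=
    hFA (h92c_Chart A (M * q * q) (jB (M * q * q))) (h92c_V0 A M q) hBV 𝔫 q hq hq𝔫 hqF
      hregAt ⟨P, hP⟩
      (fun P' hP' v hv => hden P' hP'.1 (hPmax P' hP') hP'.2.1 v hv)
      (fun s hs => hinv 𝔫 h𝔫 hq𝔫 s hs)
      m w hw0 ((hfr w).mp hwF) hwV hw'V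
      (fun 𝔭 h𝔭 h𝔭0 hq𝔭 _ => hhor 𝔭 h𝔭 h𝔭0 hq𝔭 m w hw0 hwF hord)
  have hGF : g₀ ∈ h92c_F0 A (M * q * q) := (hfr g₀).mpr hg₀frac
  refine ⟨g₀, ⟨hGF, hg₀, s₀, hs₀, h1, h2⟩, ?_⟩
  -- the branch value along one vertical embedding
  have key : ∀ E : FF (M * q * q) →+* LaurentSeries Kbar, h11l_IsVE M q hq hqM E →
      ∃ a : Kbar, h11t_IsC A a ∧
        ∃ c : h92c_Chart A (M * q * q) (jB (M * q * q)),
          (c : FF (M * q * q)) = cst (M * q * q) a ∧
          ∃ b s : h92c_Chart A (M * q * q) (jB (M * q * q)), s ∉ 𝔫 ∧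
            h11l_Small A E ((s : FF (M * q * q)) * g₀ - (b : FF (M * q * q))) ∧
            b - c * s ∈ 𝔫 := fun E hE =>
    h16t_bv_at q M A hq hA E (h92c_Chart A (M * q * q) (jB (M * q * q))) hnoeth
      (fun b hb => hBint b hb E hE) (fun a ha hI => (hconst a ha hI).1) hqA0 hden
      (hCen q hq M hqM haux A hA E hE) 𝔫 h𝔫 hq𝔫 (hRat q hq M hqM haux A hA 𝔫 h𝔫 hq𝔫)
      hregAt m hm0 w g₀ hw0 hg₀ hwU c₁ hc₁ hc₁G s₀ hs₀ h1 h2
  have hIsC1 : h11t_IsC A 1 :=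
    ⟨one_ne_zero, one_mem _, by rw [inv_one]; exact one_mem _, fun σ _ => map_one σ⟩
  have hxF : ∀ b s : h92c_Chart A (M * q * q) (jB (M * q * q)),
      (s : FF (M * q * q)) * g₀ - (b : FF (M * q * q)) ∈ h92c_F0 A (M * q * q) :=
    fun b s => sub_mem (mul_mem s.2.2 hGF) b.2.2
  -- `E20`
  obtain ⟨a₀, ha₀, c₀, hc₀, b₀, s₀', hs₀', hsb₀, hbc₀⟩ := key (h20n_E20 M q) (Or.inl rfl)
  -- `E11`
  have h11 : ∃ a₁ : Kbar, h11t_IsC A a₁ ∧
      ∀ (ζ : Kbar) (E : FF (M * q * q) →+* LaurentSeries Kbar), IsPrimitiveRoot ζ q →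
        h20n_IsE11 M q hq hqM ζ E → h11t_cBV A (jB (M * q * q)) 𝔫 E g₀ a₁ := by
    by_cases hex11 : ∃ (ζ : Kbar) (E : FF (M * q * q) →+* LaurentSeries Kbar),
        IsPrimitiveRoot ζ q ∧ h20n_IsE11 M q hq hqM ζ E
    · obtain ⟨ζ₁, E₁, hζ₁, hE₁⟩ := hex11
      obtain ⟨a₁, ha₁, c, hc, b, s, hs, hsb, hbc⟩ := key E₁ (Or.inr (Or.inl ⟨ζ₁, hζ₁, hE₁⟩))
      refine ⟨a₁, ha₁, fun ζ E hζ hE => ⟨c, hc, b, s, hs, ?_, hbc⟩⟩
      exact h16t_small_transfer (h92c_F0 A (M * q * q))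
        (fun x hx hxE => h85m_midAll q hq M hqM A hA ζ₁ ζ hζ₁ hζ E₁ E hE₁ hE x hx hxE)
        (fun x hx hxE => h85m_midAll q hq M hqM A hA ζ ζ₁ hζ hζ₁ E E₁ hE hE₁ x hx hxE)
        (hxF b s) hsb
    · exact ⟨1, hIsC1, fun ζ E hζ hE => absurd ⟨ζ, E, hζ, hE⟩ hex11⟩
  -- `E02`
  have h02 : ∃ a₂ : Kbar, h11t_IsC A a₂ ∧
      ∀ E : FF (M * q * q) →+* LaurentSeries Kbar, h20n_IsE02 M q hq hqM E →
        h11t_cBV A (jB (M * q * q)) 𝔫 E g₀ a₂ := by
    by_cases hex02 : ∃ E : FF (M * q * q) →+* LaurentSeries Kbar, h20n_IsE02 M q hq hqM E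
    · obtain ⟨E₁, hE₁⟩ := hex02
      obtain ⟨a₂, ha₂, c, hc, b, s, hs, hsb, hbc⟩ := key E₁ (Or.inr (Or.inr hE₁))
      refine ⟨a₂, ha₂, fun E hE => ?_⟩
      have hEE : E = E₁ := h20n_embUnique q hq M E E₁
        (fun x => by rw [hE.1 x, hE₁.1 x]) (fun x => by rw [hE.2 x, hE₁.2 x])
      rw [hEE]
      exact ⟨c, hc, b, s, hs, hsb, hbc⟩
    · exact ⟨1, hIsC1, fun E hE => absurd ⟨E, hE⟩ hex02⟩
  obtain ⟨a₁, ha₁, h11'⟩ := h11
  obtain ⟨a₂, ha₂, h02'⟩ := h02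
  exact ⟨a₀, a₁, a₂, ha₀, ha₁, ha₂, ⟨c₀, hc₀, b₀, s₀', hs₀', hsb₀, hbc₀⟩, h11', h02'⟩

end Fermat.Agent.S36
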