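import Mathlib

/-!
# S36, blocks (G)/(LOC): non-maximal primes over `π` are minimal over `(π)` (helper3)
— abstract part, Mathlib only

* `h3k_minimal_of_not_isMaximal` : `S` a domain, integral over a ring `R` of Krull dimension
  `≤ 2`; a prime `P` of `S` which is not maximal and contains `π ≠ 0` is minimal over `(π)`
  (incomparability: a chain `⊥ < Q < P < 𝔪` of `S` contracts to a strict chain of `R`).
* `h3k_ringKrullDim_polynomial_dvr` : `dim O[X] = 2` for a discrete valuation ring `O`.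
-/

set_option autoImplicit false
set_option linter.style.haveILetI false

open Polynomial

namespace Fermat.Agent.S36

/-- `dim O[X] = 2` for a discrete valuation ring `O`. -/
theorem h3k_ringKrullDim_polynomial_dvr (O : Type*) [CommRing O] [IsDomain O]
    [IsDiscreteValuationRing O] : ringKrullDim O[X] = 2 := by
  rw [Polynomial.ringKrullDim_of_isNoetherianRing,
    IsPrincipalIdealRing.ringKrullDim_eq_one O (IsDiscreteValuationRing.not_isField O)]
  rfl

/-- **a non-maximal prime containing `π ≠ 0` is minimal over `(π)`** in a domain `S` integral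
over a ring `R` of dimension `≤ 2`. -/
theorem h3k_minimal_of_not_isMaximal {R S : Type*} [CommRing R] [CommRing S] [IsDomain S]
    [Algebra R S] [Algebra.IsIntegral R S] (hdim : ringKrullDim R ≤ 2)
    (P : Ideal S) [hP : P.IsPrime] (hmax : ¬ P.IsMaximal) (π : S) (hπ0 : π ≠ 0) (hπ : π ∈ P) :
    P ∈ (Ideal.span {π}).minimalPrimes := by
  classical
  refine ⟨⟨hP, (Ideal.span_singleton_le_iff_mem _).2 hπ⟩, ?_⟩
  rintro Q ⟨hQ, hπQ⟩ hQP
  by_contra hne
  have hlt : Q < P := lt_of_le_not_ge hQP hne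
  have hπQ' : π ∈ Q := (Ideal.span_singleton_le_iff_mem _).1 hπQ
  -- a maximal ideal above `P`
  obtain ⟨𝔪, h𝔪, hP𝔪⟩ := Ideal.exists_le_maximal P hP.ne_top
  have hP𝔪' : P < 𝔪 := lt_of_le_of_ne hP𝔪 (fun h => hmax (h ▸ h𝔪))
  have hbot : (⊥ : Ideal S) < Q := by
    refine lt_of_le_of_ne bot_le (fun h => hπ0 ?_)
    rw [← h] at hπQ'
    exact (Ideal.mem_bot).1 hπQ'
  haveI : (⊥ : Ideal S).IsPrime := Ideal.isPrime_bot
  haveI := hQ
  haveI : 𝔪.IsPrime := h𝔪.isPrime
  -- the chain of contractions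
  have c1 := Ideal.IsIntegral.comap_lt_comap (R := R) hbot
  have c2 := Ideal.IsIntegral.comap_lt_comap (R := R) hlt
  have c3 := Ideal.IsIntegral.comap_lt_comap (R := R) hP𝔪'
  haveI p0 : ((⊥ : Ideal S).comap (algebraMap R S)).IsPrime := Ideal.comap_isPrime _ _
  haveI p1 : (Q.comap (algebraMap R S)).IsPrime := Ideal.comap_isPrime _ _
  haveI p2 : (P.comap (algebraMap R S)).IsPrime := Ideal.comap_isPrime _ _
  haveI p3 : (𝔪.comap (algebraMap R S)).IsPrime := Ideal.comap_isPrime _ _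
  have h1 := Ideal.height_add_one_le_of_lt_of_isPrime c1
  have h2 := Ideal.height_add_one_le_of_lt_of_isPrime c2
  have h3 := Ideal.height_add_one_le_of_lt_of_isPrime c3
  have h4 : (3 : ℕ∞) ≤ (𝔪.comap (algebraMap R S)).height := by
    calc (3 : ℕ∞) = 0 + 1 + 1 + 1 := by norm_num
      _ ≤ ((⊥ : Ideal S).comap (algebraMap R S)).height + 1 + 1 + 1 := by gcongr; exact zero_le
      _ ≤ (Q.comap (algebraMap R S)).height + 1 + 1 := by gcongr
      _ ≤ (P.comap (algebraMap R S)).height + 1 := by gcongr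
      _ ≤ (𝔪.comap (algebraMap R S)).height := h3
  have h5 : ((𝔪.comap (algebraMap R S)).height : WithBot ℕ∞) ≤ ringKrullDim R :=
    Ideal.height_le_ringKrullDim_of_isPrime
  have h6 : ((3 : ℕ∞) : WithBot ℕ∞) ≤ ((2 : ℕ∞) : WithBot ℕ∞) :=
    (WithBot.coe_le_coe.2 h4).trans (h5.trans hdim)
  have h7 : (3 : ℕ∞) ≤ 2 := WithBot.coe_le_coe.1 h6
  have h8 : ((3 : ℕ) : ℕ∞) ≤ ((2 : ℕ) : ℕ∞) := h7
  have h9 : (3 : ℕ) ≤ 2 := by exact_mod_cast h8
  exact absurd h9 (by norm_num)

/-- ring-homomorphism form of `h3k_minimal_of_not_isMaximal`. -/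
theorem h3k_minimal_of_not_isMaximal' {R S : Type*} [CommRing R] [CommRing S] [IsDomain S]
    (f : R →+* S) (hf : f.IsIntegral) (hdim : ringKrullDim R ≤ 2)
    (P : Ideal S) [hP : P.IsPrime] (hmax : ¬ P.IsMaximal) (π : S) (hπ0 : π ≠ 0) (hπ : π ∈ P) :
    P ∈ (Ideal.span {π}).minimalPrimes := by
  letI : Algebra R S := f.toAlgebra
  haveI : Algebra.IsIntegral R S := ⟨hf⟩
  exact h3k_minimal_of_not_isMaximal (R := R) hdim P hmax π hπ0 hπ

end Fermat.Agent.S36
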