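import Fermat.Agent.S36.H3Dict
import Fermat.Agent.S36.H3DimAbs
import Fermat.Agent.S36.H86LocOneIface

/-!
# S36, row LOC-VCOMP: the conjunct `hden` of `H86LocVCompAt` (helper3)

For both charts `t = j, j⁻¹` of level `N = M q²` over the inertia ring:

* `h3k_chart_minimal` : a prime `P` of `B₀(t)` which is not maximal and contains `q` is minimal
  over `(q)`  (`B₀(t)` is integral over `A₀[t]`, of dimension `2`).
* `h3k_hden`, `h3k_hdenInv` : **`hden`**: for every prime `P` of `B₀(t)`, not maximal, `q ∈ P`,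
  and every `v ∈ V₀` there is `s ∈ B₀(t) ∖ P` with `s v ∈ B₀(t)`.
* `h3k_hden_vert` : the same for the vertical primes through a closed point
  (`h86l_IsVert 𝔫 q P`).
-/

set_option autoImplicit false
set_option linter.unusedSectionVars false
set_option linter.style.haveILetI false
set_option synthInstance.maxHeartbeats 400000

open AlgebraicCurve ModularCurve IsLocalRing Polynomial

noncomputable section

namespace Fermat.Agent.S36

open Fermat.Agent.S37 Fermat.Agent.Red Fermat.Agent.Red.GG Fermat.Agent.Red.GV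

variable {A : ValuationSubring Kbar}

/-- the evaluation `A₀[X] → B₀(t)`, `X ↦ t`, for an inertia-fixed `t`. -/
def h3kEv (N : ℕ) (t : FF N) (ht : ∀ σ ∈ A.inertiaSubgroupIn ℚ, gal N σ • t = t) :
    Polynomial (h59bA0 A) →+* ↥(h92c_Chart A N t) :=
  (h59nEv N A t).codRestrict (h92c_Chart A N t) (fun P => by
    have h1 : h59nEv N A t P ∈ h62rChart A N t := by
      rw [h59n_mem_chart_iff]
      refine ⟨h59nK_le_F0 N A t ht (h59nEv_mem_K N A t P), ?_⟩
      refine ⟨X - C P, monic_X_sub_C P, ?_⟩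
      rw [eval₂_sub, eval₂_X, eval₂_C, sub_self]
    exact h1)

theorem h3kEv_coe (N : ℕ) (t : FF N) (ht : ∀ σ ∈ A.inertiaSubgroupIn ℚ, gal N σ • t = t)
    (P : Polynomial (h59bA0 A)) : ((h3kEv N t ht P : ↥(h92c_Chart A N t)) : FF N) =
      h59nEv N A t P := rfl

/-- the chart is integral over `A₀[t]`. -/
theorem h3kEv_isIntegral (N : ℕ) (t : FF N)
    (ht : ∀ σ ∈ A.inertiaSubgroupIn ℚ, gal N σ • t = t) : (h3kEv N t ht).IsIntegral := by
  intro b
  have hb : (b : FF N) ∈ h62rChart A N t := b.2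
  rw [h59n_mem_chart_iff] at hb
  obtain ⟨p, hp, hpb⟩ := hb.2
  refine ⟨p, hp, ?_⟩
  apply Subtype.val_injective
  have h1 : ((p.eval₂ (h3kEv N t ht) b : ↥(h92c_Chart A N t)) : FF N) =
      p.eval₂ ((h92c_Chart A N t).subtype.comp (h3kEv N t ht)) ((h92c_Chart A N t).subtype b) :=
    Polynomial.hom_eval₂ p (h3kEv N t ht) (h92c_Chart A N t).subtype b
  show ((p.eval₂ (h3kEv N t ht) b : ↥(h92c_Chart A N t)) : FF N) = 0
  rw [h1]
  exact hpb

/-- **a non-maximal prime of the chart containing `q` is minimal over `(q)`.** -/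
theorem h3k_chart_minimal {q : ℕ} (hq : q.Prime) (hA : A.LiesOverPrime q) (N : ℕ) (t : FF N)
    (ht : ∀ σ ∈ A.inertiaSubgroupIn ℚ, gal N σ • t = t)
    (P : Ideal (h92c_Chart A N t)) (hP : P.IsPrime) (hmax : ¬ P.IsMaximal)
    (hqP : ((q : ℕ) : h92c_Chart A N t) ∈ P) :
    P ∈ (Ideal.span {((q : ℕ) : h92c_Chart A N t)}).minimalPrimes := by
  haveI := h59b_isDVR A hq hA
  haveI : CharZero (FF N) := charZero_of_injective_algebraMap (algebraMap Kbar (FF N)).injective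
  have hdim : ringKrullDim (Polynomial (h59bA0 A)) ≤ 2 :=
    (h3k_ringKrullDim_polynomial_dvr (h59bA0 A)).le
  have hq0 : ((q : ℕ) : h92c_Chart A N t) ≠ 0 := by
    intro h
    have h1 := congrArg (Subtype.val : ↥(h92c_Chart A N t) → FF N) h
    have h2 : ((q : ℕ) : FF N) = 0 := by simpa using h1
    exact hq.ne_zero (Nat.cast_eq_zero.1 h2)
  exact h3k_minimal_of_not_isMaximal' (h3kEv N t ht) (h3kEv_isIntegral N t ht) hdim P hmax _
    hq0 hqP

variable {M q : ℕ} [NeZero M] [NeZero q]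

/-- **`hden` (finite chart)**: `V₀ ⊆ B_P` for every non-maximal prime `P ∋ q` of `B₀(j)`. -/
theorem h3k_hden (hq : q.Prime) (hqM : ¬ q ∣ M) (hA : A.LiesOverPrime q) :
    ∀ P : Ideal (h92c_Chart A (M * q * q) (jB (M * q * q))), P.IsPrime → ¬ P.IsMaximal →
      ((q : ℕ) : h92c_Chart A (M * q * q) (jB (M * q * q))) ∈ P → ∀ v ∈ h92c_V0 A M q,
      ∃ s : h92c_Chart A (M * q * q) (jB (M * q * q)), s ∉ P ∧
        (s : FF (M * q * q)) * v ∈ h92c_Chart A (M * q * q) (jB (M * q * q)) := by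
  intro P hP hmax hqP v hv
  obtain ⟨s, hs, hsv⟩ := h3k_dict hq hqM hA v hv
  exact ⟨s, hs P (h3k_chart_minimal hq hA (M * q * q) _
    (fun σ _ => Fermat.Agent.S37.GalI.gal_smul_jB σ) P hP hmax hqP), hsv⟩

/-- **`hden` (chart at infinity)**. -/
theorem h3k_hdenInv (hq : q.Prime) (hqM : ¬ q ∣ M) (hA : A.LiesOverPrime q) :
    ∀ P : Ideal (h92c_Chart A (M * q * q) (jB (M * q * q))⁻¹), P.IsPrime → ¬ P.IsMaximal →
      ((q : ℕ) : h92c_Chart A (M * q * q) (jB (M * q * q))⁻¹) ∈ P → ∀ v ∈ h92c_V0 A M q,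
      ∃ s : h92c_Chart A (M * q * q) (jB (M * q * q))⁻¹, s ∉ P ∧
        (s : FF (M * q * q)) * v ∈ h92c_Chart A (M * q * q) (jB (M * q * q))⁻¹ := by
  intro P hP hmax hqP v hv
  obtain ⟨s, hs, hsv⟩ := h3k_dictInv hq hqM hA v hv
  exact ⟨s, hs P (h3k_chart_minimal hq hA (M * q * q) _
    (fun σ _ => Fermat.Agent.S37.GalI.gal_smul_jB_inv σ) P hP hmax hqP), hsv⟩

/-- a vertical prime through a closed point is not maximal. -/
theorem h3k_isVert_not_isMaximal {B : Type*} [CommRing B] {𝔫 : Ideal B} (h𝔫 : 𝔫.IsMaximal)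
    {π : B} {P : Ideal B} (hP : h86l_IsVert 𝔫 π P) : ¬ P.IsMaximal := by
  intro hmax
  exact hP.2.2.2 (hmax.eq_of_le h𝔫.ne_top hP.2.2.1)

/-- **`hden` in the strong semi-local form**: ONE denominator outside all the vertical primes
through all the closed points (finite chart). -/
theorem h3k_hden_semilocal (hq : q.Prime) (hqM : ¬ q ∣ M) (hA : A.LiesOverPrime q)
    (v : FF (M * q * q)) (hv : v ∈ h92c_V0 A M q) :
    ∃ s : h92c_Chart A (M * q * q) (jB (M * q * q)),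
      (∀ (𝔫 : Ideal (h92c_Chart A (M * q * q) (jB (M * q * q)))), 𝔫.IsMaximal →
        ∀ P, h86l_IsVert 𝔫 ((q : ℕ) : h92c_Chart A (M * q * q) (jB (M * q * q))) P → s ∉ P) ∧
      (s : FF (M * q * q)) * v ∈ h92c_Chart A (M * q * q) (jB (M * q * q)) := by
  obtain ⟨s, hs, hsv⟩ := h3k_dict hq hqM hA v hv
  refine ⟨s, fun 𝔫 h𝔫 P hP => ?_, hsv⟩
  exact hs P (h3k_chart_minimal hq hA (M * q * q) _
    (fun σ _ => Fermat.Agent.S37.GalI.gal_smul_jB σ) P hP.1
    (h3k_isVert_not_isMaximal h𝔫 hP) hP.2.1)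

/-- **`hden` in the strong semi-local form** (chart at infinity). -/
theorem h3k_hdenInv_semilocal (hq : q.Prime) (hqM : ¬ q ∣ M) (hA : A.LiesOverPrime q)
    (v : FF (M * q * q)) (hv : v ∈ h92c_V0 A M q) :
    ∃ s : h92c_Chart A (M * q * q) (jB (M * q * q))⁻¹,
      (∀ (𝔫 : Ideal (h92c_Chart A (M * q * q) (jB (M * q * q))⁻¹)), 𝔫.IsMaximal →
        ∀ P, h86l_IsVert 𝔫 ((q : ℕ) : h92c_Chart A (M * q * q) (jB (M * q * q))⁻¹) P →
          s ∉ P) ∧
      (s : FF (M * q * q)) * v ∈ h92c_Chart A (M * q * q) (jB (M * q * q))⁻¹ := by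
  obtain ⟨s, hs, hsv⟩ := h3k_dictInv hq hqM hA v hv
  refine ⟨s, fun 𝔫 h𝔫 P hP => ?_, hsv⟩
  exact hs P (h3k_chart_minimal hq hA (M * q * q) _
    (fun σ _ => Fermat.Agent.S37.GalI.gal_smul_jB_inv σ) P hP.1
    (h3k_isVert_not_isMaximal h𝔫 hP) hP.2.1)

end Fermat.Agent.S36
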