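import Fermat.Agent.S36.H40NormA
import Fermat.Agent.S36.H20Emb

/-!
# S36, block (N) NORMS, leaf N-NORM-C (helper40, prefix `h40nc_`)

`h40nc_normC : H20NormC` (the exact frozen `Prop` of `S36/H20NormSkel.lean`):
for a prime `q ∤ M`, a primitive `q`-th root of unity `ζ`, an embedding `E0` of type `E02` and
embeddings `E b` of type `E11^{ζ^b}` (`0 < b < q`) of `F₂ = FF (M q q)`,

  `(w (Nm_β u))(t) = E0 u · ∏_{0 < b < q} (E (q - b) u)(ζ^b t)`.

Proof: `[F₂ : β F₁] = q` (`h20n_finrank_beta`), the `q` embeddings `E0`,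
`twist(ζ^b) ∘ E (q - b)` all restrict to `coe ∘ w` on `β F₁` and are pairwise distinct
(coefficient of `t⁻¹` of the image of `α j`), so the norm is their product.
-/

set_option autoImplicit false
set_option linter.style.haveILetI false
set_option linter.unusedSectionVars false

open AlgebraicCurve ModularCurve

noncomputable section

namespace Fermat.Agent.S36

open Fermat.Agent.S24 (jBar embC)
open Fermat.Agent.S37 (Kbar GQ FF cst gal)
open Fermat.Agent.Red.KR (normAlong)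
open Fermat.Agent.Red.Kron
open Fermat.Agent.Red.HKComm

section Family

variable (M q : ℕ) [NeZero M] [NeZero q]

/-- the family of the `q` embeddings over `β` with base `coe ∘ w`:
`E0` at `0`, `twist(ζ^b) ∘ E (q - b)` at `b > 0`. -/
def h40ncFam (ζ : Kbar) (hζ0 : ζ ≠ 0) (E0 : FF (M * q * q) →+* LaurentSeries Kbar)
    (E : ℕ → (FF (M * q * q) →+* LaurentSeries Kbar)) (b : ℕ) :
    FF (M * q * q) →+* LaurentSeries Kbar :=
  if b = 0 then E0 else (twistHom (ζ ^ b) (pow_ne_zero b hζ0)).comp (E (q - b))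

theorem h40ncFam_zero (ζ : Kbar) (hζ0 : ζ ≠ 0) (E0 : FF (M * q * q) →+* LaurentSeries Kbar)
    (E : ℕ → (FF (M * q * q) →+* LaurentSeries Kbar)) :
    h40ncFam M q ζ hζ0 E0 E 0 = E0 := if_pos rfl

theorem h40ncFam_pos (ζ : Kbar) (hζ0 : ζ ≠ 0) (E0 : FF (M * q * q) →+* LaurentSeries Kbar)
    (E : ℕ → (FF (M * q * q) →+* LaurentSeries Kbar)) {b : ℕ} (hb : 0 < b)
    (x : FF (M * q * q)) :
    h40ncFam M q ζ hζ0 E0 E b x = twistK (ζ ^ b) (E (q - b) x) := by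
  rw [h40ncFam, if_neg hb.ne']
  rfl

/-- the test element `α j`. -/
def h40ncTest : FF (M * q * q) := heckeAlphaBar Kbar (M * q) q (jBar (M * q))

theorem h40nc_test_E02 (hq : q.Prime) (hqM : ¬ q ∣ M)
    (E0 : FF (M * q * q) →+* LaurentSeries Kbar) (hE0 : h20n_IsE02 M q hq hqM E0) :
    (E0 (h40ncTest M q)).coeff (-1) = 0 := by
  rw [h40ncTest, hE0.1]
  exact qExpand_coeff_of_not_dvd q _ (h20n_not_dvd_neg_one q hq)

theorem h40nc_test_E11 (hq : q.Prime) (hqM : ¬ q ∣ M) (ω ω' : Kbar)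
    (E : FF (M * q * q) →+* LaurentSeries Kbar) (hE : h20n_IsE11 M q hq hqM ω E) :
    (twistK ω' (E (h40ncTest M q))).coeff (-1) = ω'⁻¹ := by
  rw [h40ncTest, hE.1, coeff_twistK, h40na_coeff_jBar_neg_one, zpow_neg_one, one_mul]

theorem h40ncFam_injective (hq : q.Prime) (hqM : ¬ q ∣ M) (ζ : Kbar) (hζ : IsPrimitiveRoot ζ q)
    (E0 : FF (M * q * q) →+* LaurentSeries Kbar) (hE0 : h20n_IsE02 M q hq hqM E0)
    (E : ℕ → (FF (M * q * q) →+* LaurentSeries Kbar))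
    (hE : ∀ b : ℕ, 0 < b → b < q → h20n_IsE11 M q hq hqM (ζ ^ b) (E b)) :
    Function.Injective (fun b : Fin q =>
      h40ncFam M q ζ (hζ.ne_zero (NeZero.ne q)) E0 E (b : ℕ)) := by
  have hζ0 : ζ ≠ 0 := hζ.ne_zero (NeZero.ne q)
  have hsub : ∀ b : ℕ, 0 < b → b < q → 0 < q - b ∧ q - b < q := fun b h1 h2 => by omega
  intro a b hab
  have h1 : (h40ncFam M q ζ hζ0 E0 E (a : ℕ) (h40ncTest M q)).coeff (-1) =
      (h40ncFam M q ζ hζ0 E0 E (b : ℕ) (h40ncTest M q)).coeff (-1) := by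
    have := congrArg (fun e : FF (M * q * q) →+* LaurentSeries Kbar =>
      (e (h40ncTest M q)).coeff (-1)) hab
    exact this
  rcases Nat.eq_zero_or_pos (a : ℕ) with ha | ha <;> rcases Nat.eq_zero_or_pos (b : ℕ) with hb | hb
  · exact Fin.ext (ha.trans hb.symm)
  · exfalso
    rw [ha, h40ncFam_zero, h40ncFam_pos M q ζ hζ0 E0 E hb, h40nc_test_E02 M q hq hqM E0 hE0,
      h40nc_test_E11 M q hq hqM _ _ _ (hE _ (hsub b hb b.2).1 (hsub b hb b.2).2)] at h1
    exact inv_ne_zero (pow_ne_zero _ hζ0) h1.symm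
  · exfalso
    rw [hb, h40ncFam_zero, h40ncFam_pos M q ζ hζ0 E0 E ha, h40nc_test_E02 M q hq hqM E0 hE0,
      h40nc_test_E11 M q hq hqM _ _ _ (hE _ (hsub a ha a.2).1 (hsub a ha a.2).2)] at h1
    exact inv_ne_zero (pow_ne_zero _ hζ0) h1
  · rw [h40ncFam_pos M q ζ hζ0 E0 E ha, h40ncFam_pos M q ζ hζ0 E0 E hb,
      h40nc_test_E11 M q hq hqM _ _ _ (hE _ (hsub a ha a.2).1 (hsub a ha a.2).2),
      h40nc_test_E11 M q hq hqM _ _ _ (hE _ (hsub b hb b.2).1 (hsub b hb b.2).2)] at h1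
    exact Fin.ext (hζ.pow_inj a.2 b.2 (inv_injective h1))

theorem h40ncFam_beta (hq : q.Prime) (hqM : ¬ q ∣ M) (ζ : Kbar) (hζ : IsPrimitiveRoot ζ q)
    (E0 : FF (M * q * q) →+* LaurentSeries Kbar) (hE0 : h20n_IsE02 M q hq hqM E0)
    (E : ℕ → (FF (M * q * q) →+* LaurentSeries Kbar))
    (hE : ∀ b : ℕ, 0 < b → b < q → h20n_IsE11 M q hq hqM (ζ ^ b) (E b))
    (b : Fin q) (x : FF (M * q)) :
    h40ncFam M q ζ (hζ.ne_zero (NeZero.ne q)) E0 E (b : ℕ) (heckeBetaBar Kbar (M * q) q x) =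
      ((kFricke M q hq hqM x : FF (M * q)) : LaurentSeries Kbar) := by
  have hζ0 : ζ ≠ 0 := hζ.ne_zero (NeZero.ne q)
  rcases Nat.eq_zero_or_pos (b : ℕ) with hb | hb
  · rw [hb, h40ncFam_zero]
    exact hE0.2 x
  · have hlt : (b : ℕ) < q := b.2
    rw [h40ncFam_pos M q ζ hζ0 E0 E hb, (hE (q - b) (by omega) (by omega)).2 x, twistK_twistK,
      ← pow_add, Nat.sub_add_cancel hlt.le, hζ.pow_eq_one, twistK_one_left]

end Family

/-- **N-NORM (c).**  `w (Nm_β u) = E02 u · ∏_{0 < b < q} (E11^{ζ^(q-b)} u)(ζ^b t)`. -/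
theorem h40nc_normC : H20NormC := by
  intro q hq M _ hqM
  haveI : NeZero q := ⟨hq.ne_zero⟩
  intro ζ hζ E0 hE0 E hE u
  have hζ0 : ζ ≠ 0 := hζ.ne_zero (NeZero.ne q)
  letI := algebraAlong (heckeBetaBar Kbar (M * q) q)
  haveI : FiniteDimensional (FF (M * q)) (FF (M * q * q)) :=
    Fermat.Agent.Red.HKMod.finiteAlong_heckeBetaBar (M * q) q
  haveI : Algebra.IsSeparable (FF (M * q)) (FF (M * q * q)) := inferInstance
  have key := norm_eq_prod_of_embeddings (K := FF (M * q)) (L := FF (M * q * q))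
    ((algebraMap (FF (M * q)) (LaurentSeries Kbar)).comp
      ((kFricke M q hq hqM : FF (M * q) ≃ₐ[Kbar] FF (M * q)) : FF (M * q) →+* FF (M * q)))
    (fun b : Fin q => h40ncFam M q ζ hζ0 E0 E (b : ℕ))
    (h40ncFam_injective M q hq hqM ζ hζ E0 hE0 E hE)
    (fun b x => h40ncFam_beta M q hq hqM ζ hζ E0 hE0 E hE b x)
    (by rw [Fintype.card_fin]
        exact (h20n_finrank_beta M q hq hqM).symm) u
  have h1 : (∏ b : Fin q, h40ncFam M q ζ hζ0 E0 E (b : ℕ) u) =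
      ∏ b ∈ Finset.range q, h40ncFam M q ζ hζ0 E0 E b u :=
    Fin.prod_univ_eq_prod_range (fun b : ℕ => h40ncFam M q ζ hζ0 E0 E b u) q
  have h2 : Finset.range q = insert 0 (Finset.Ioo 0 q) := by
    ext b
    simp only [Finset.mem_range, Finset.mem_insert, Finset.mem_Ioo]
    have := hq.pos
    omega
  have h3 : (0 : ℕ) ∉ Finset.Ioo 0 q := by simp
  show algebraMap (FF (M * q)) (LaurentSeries Kbar)
    (kFricke M q hq hqM (Algebra.norm (FF (M * q)) u)) = _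
  rw [show algebraMap (FF (M * q)) (LaurentSeries Kbar)
      (kFricke M q hq hqM (Algebra.norm (FF (M * q)) u)) =
      ((algebraMap (FF (M * q)) (LaurentSeries Kbar)).comp
        ((kFricke M q hq hqM : FF (M * q) ≃ₐ[Kbar] FF (M * q)) : FF (M * q) →+* FF (M * q)))
        (Algebra.norm (FF (M * q)) u) from rfl]
  rw [key, h1, h2, Finset.prod_insert h3, h40ncFam_zero]
  congr 1
  refine Finset.prod_congr rfl (fun b hb => ?_)
  rw [h40ncFam_pos M q ζ hζ0 E0 E (Finset.mem_Ioo.mp hb).1]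

end Fermat.Agent.S36
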