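import Mathlib

/-!
# S36 (R): translating the Kronecker relations to a supersingular point (helper67)

Mathlib only.  `V₀, V₁, V₂` satisfy the Kronecker relations

  `(V₁ - V₀^q)(V₁^q - V₀) + q ρ₀ = 0`,  `G̃(V₀) = 0 = G̃(V₂)`,
  `G̃ = (T - V₁^q)(T^q - V₁) + q S(T)`,

and `a, b` are constants with `a^q = b`, `b^q = a` (Teichmüller representatives of the values
at a supersingular point, which is `𝔽_{q²}`-rational).  Then `x = V₀ - a`, `y = V₁ - b`,
`z = V₂ - a` satisfy relations of the same shape, with `ρ ≡ ρ₀` modulo `(x, y)`: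
the hypotheses of `h67r_key`.
-/

set_option autoImplicit false

open Polynomial

namespace Fermat.Agent.S36

variable {R : Type*} [CommRing R]

/-- **The translated relations.** -/
theorem h67s_shift (q : ℕ) (hq : q.Prime) (V0 V1 V2 a b ρ₀ : R) (S : R[X])
    (hab : a ^ q = b) (hba : b ^ q = a)
    (hf : (V1 - V0 ^ q) * (V1 ^ q - V0) + (q : R) * ρ₀ = 0)
    (hGX : (V0 - V1 ^ q) * (V0 ^ q - V1) + (q : R) * S.eval V0 = 0)
    (hGZ : (V2 - V1 ^ q) * (V2 ^ q - V1) + (q : R) * S.eval V2 = 0) :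
    ∃ (ρ : R) (s : R[X]),
      ((V1 - b) - (V0 - a) ^ q) * ((V1 - b) ^ q - (V0 - a)) + (q : R) * ρ = 0 ∧
      ((V0 - a) - (V1 - b) ^ q) * ((V0 - a) ^ q - (V1 - b)) + (q : R) * s.eval (V0 - a) = 0 ∧
      ((V2 - a) - (V1 - b) ^ q) * ((V2 - a) ^ q - (V1 - b)) + (q : R) * s.eval (V2 - a) = 0 ∧
      ρ - ρ₀ ∈ Ideal.span {V0 - a, V1 - b} := by
  set x := V0 - a with hx
  set y := V1 - b with hy
  set z := V2 - a with hz
  -- binomial expansions
  obtain ⟨r₁, hr₁⟩ := exists_add_pow_prime_eq hq x a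
  obtain ⟨r₂, hr₂⟩ := exists_add_pow_prime_eq hq y b
  obtain ⟨R₁, hR₁⟩ := exists_add_pow_prime_eq hq (X : R[X]) (C a)
  have hV0 : V0 = x + a := by rw [hx]; ring
  have hV1 : V1 = y + b := by rw [hy]; ring
  have hV2 : V2 = z + a := by rw [hz]; ring
  have e1 : V0 ^ q = x ^ q + b + (q : R) * (x * a * r₁) := by
    rw [hV0, hr₁, hab]; ring
  have e2 : V1 ^ q = y ^ q + a + (q : R) * (y * b * r₂) := by
    rw [hV1, hr₂, hba]; ring
  -- evaluation of the polynomial binomial identity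
  have e3 : ∀ t : R, (t + a) ^ q = t ^ q + b + (q : R) * (t * a * R₁.eval t) := by
    intro t
    have := congrArg (Polynomial.eval t) hR₁
    simp only [eval_add, eval_pow, eval_X, eval_C, eval_mul, eval_natCast] at this
    rw [this, hab]; ring
  set s : R[X] := (X - C (y ^ q)) * (X * C a * R₁) - C (y * b * r₂) * (X ^ q - C y)
      - C ((q : R) * (y * b * r₂)) * (X * C a * R₁) + S.comp (X + C a) with hs
  have hev : ∀ t : R, s.eval t = (t - y ^ q) * (t * a * R₁.eval t) - (y * b * r₂) * (t ^ q - y)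
          - ((q : R) * (y * b * r₂)) * (t * a * R₁.eval t) + S.eval (t + a) := by
    intro t
    rw [hs]
    simp only [eval_add, eval_sub, eval_mul, eval_pow, eval_X, eval_C, eval_comp]
  have hG : ∀ t : R, (t - y ^ q) * (t ^ q - y) + (q : R) * s.eval t
      = ((t + a) - V1 ^ q) * ((t + a) ^ q - V1) + (q : R) * S.eval (t + a) := by
    intro t
    rw [hev, e2, e3 t, hV1]; ring
  refine ⟨ρ₀ + (y - x ^ q) * (y * b * r₂) - (x * a * r₁) * (y ^ q - x)
      - (q : R) * (x * a * r₁) * (y * b * r₂), s, ?_, ?_, ?_, ?_⟩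
  · have : (y - x ^ q) * (y ^ q - x) + (q : R) * (ρ₀ + (y - x ^ q) * (y * b * r₂)
        - (x * a * r₁) * (y ^ q - x) - (q : R) * (x * a * r₁) * (y * b * r₂))
        = (V1 - V0 ^ q) * (V1 ^ q - V0) + (q : R) * ρ₀ := by
      rw [e1, e2, hV0, hV1]; ring
    rw [this, hf]
  · rw [hG x, ← hV0, hGX]
  · rw [hG z, ← hV2, hGZ]
  · have hXm : x ∈ Ideal.span {x, y} := Ideal.subset_span (by simp)
    have hYm : y ∈ Ideal.span {x, y} := Ideal.subset_span (by simp)
    have : ρ₀ + (y - x ^ q) * (y * b * r₂) - (x * a * r₁) * (y ^ q - x)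
        - (q : R) * (x * a * r₁) * (y * b * r₂) - ρ₀
        = ((y - x ^ q) * (b * r₂)) * y
          + (- (a * r₁ * (y ^ q - x)) - (q : R) * (a * r₁) * (y * b * r₂)) * x := by ring
    rw [this]
    exact Ideal.add_mem _ (Ideal.mul_mem_left _ _ hYm) (Ideal.mul_mem_left _ _ hXm)

end Fermat.Agent.S36
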