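import Fermat.Agent.S36.H67Reg
import Fermat.Agent.S36.H67Shift
import Fermat.Agent.LGC.H55Kron

/-!
# S36 (R): the three Kronecker relations at level `M q²` (helper67)

`q ∤ M` a prime, `v ∈ F_M` a function of the finite chart of level `M` with rational
`q`-expansion.  `α₁, β₁ : F_M → F_{Mq}`, `α₂, β₂ : F_{Mq} → F_{Mq²}` the degeneracy maps,
`V₀ = α₂ α₁ v = v(t)`, `V₁ = α₂ β₁ v = β₂ α₁ v = v(t^q)`, `V₂ = β₂ β₁ v = v(t^{q²})`.

* `h67i_relations` : there is `r ∈ F_M[T]` (coefficients in the finite chart of level `M`) with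
  `(V₁ - V₀^q)(V₁^q - V₀) + q r^{(0)}(V₁) = 0` and, for `G̃ = (T - V₁^q)(T^q - V₁) + q r^{(1)}(T)`,
  `G̃(V₀) = 0 = G̃(V₂)`; here `r^{(0)}` has the coefficients `α₂ α₁ (r_i)` (functions of `E₀`)
  and `r^{(1)}` the coefficients `α₂ β₁ (r_i)` (functions of `E₁`).
  Proof: the landed Kronecker congruence `h55k_kron` at level `M → M q`, transported by
  `α₂`, by `β₂`, and by `α₂ ∘ (Fricke involution)`.
-/

set_option autoImplicit false
set_option linter.unusedSectionVars false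

open ModularCurve AlgebraicCurve Polynomial

noncomputable section

namespace Fermat.Agent.S36

open Fermat.Agent.S37 Fermat.Agent.Red.Kron Fermat.Agent.LGC

variable (M q : ℕ) [NeZero M] [NeZero q]

/-- `E₀`-functions: `F_M → F_{Mq²}`, `v ↦ v(t)`. -/
def h67i_e0 : FF M →+* FF (M * q * q) :=
  (heckeAlphaBar Kbar (M * q) q).toRingHom.comp (heckeAlphaBar Kbar M q).toRingHom

/-- `E₁`-functions: `F_M → F_{Mq²}`, `v ↦ v(t^q)`. -/
def h67i_e1 : FF M →+* FF (M * q * q) :=
  (heckeAlphaBar Kbar (M * q) q).toRingHom.comp (heckeBetaBar Kbar M q).toRingHom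

/-- `E₂`-functions: `F_M → F_{Mq²}`, `v ↦ v(t^{q²})`. -/
def h67i_e2 : FF M →+* FF (M * q * q) :=
  (heckeBetaBar Kbar (M * q) q).toRingHom.comp (heckeBetaBar Kbar M q).toRingHom

theorem h67i_e1_eq (v : FF M) :
    h67i_e1 M q v = heckeBetaBar Kbar (M * q) q (heckeAlphaBar Kbar M q v) := by
  apply Subtype.ext
  show ((heckeAlphaBar Kbar (M * q) q (heckeBetaBar Kbar M q v) : FF (M * q * q)) :
    LaurentSeries Kbar) = _
  rw [coe_heckeAlphaBar, coe_heckeBetaBar, coe_heckeBetaBar, coe_heckeAlphaBar]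

theorem h67i_e1_eq' :
    h67i_e1 M q = (heckeBetaBar Kbar (M * q) q).toRingHom.comp
      (heckeAlphaBar Kbar M q).toRingHom :=
  RingHom.ext fun v => h67i_e1_eq M q v

/-- evaluation of the Kronecker polynomial. -/
theorem h67i_eval₂ {F F' : Type*} [Field F] [CommRing F'] (φ : F →+* F') (v : F)
    (r : F[X]) (y : F') :
    ((X - C (v ^ q)) * (X ^ q - C v) + C ((q : ℕ) : F) * r).eval₂ φ y
      = (y - φ v ^ q) * (y ^ q - φ v) + (q : F') * r.eval₂ φ y := by
  rw [eval₂_add, eval₂_mul, eval₂_mul, eval₂_sub, eval₂_sub, eval₂_X, eval₂_C, eval₂_pow,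
    eval₂_X, eval₂_C, eval₂_C, map_pow, map_natCast]

variable {M q}

/-- **The three Kronecker relations at level `M q²`** (in the variables `V₀, V₁, V₂`). -/
theorem h67i_relations (A : ValuationSubring Kbar) (hq : q.Prime) (hM : ¬ q ∣ M)
    (hA : A.LiesOverPrime q) (v : FF M) (hv : v ∈ modelFin M A) (hrat : IsRat v) :
    ∃ r : (FF M)[X], (∀ n, r.coeff n ∈ modelFin M A) ∧ r.natDegree ≤ q ∧
      (h67i_e1 M q v - h67i_e0 M q v ^ q) * (h67i_e1 M q v ^ q - h67i_e0 M q v)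
        + (q : FF (M * q * q)) * r.eval₂ (h67i_e0 M q) (h67i_e1 M q v) = 0 ∧
      (h67i_e0 M q v - h67i_e1 M q v ^ q) * (h67i_e0 M q v ^ q - h67i_e1 M q v)
        + (q : FF (M * q * q)) * (r.map (h67i_e1 M q)).eval (h67i_e0 M q v) = 0 ∧
      (h67i_e2 M q v - h67i_e1 M q v ^ q) * (h67i_e2 M q v ^ q - h67i_e1 M q v)
        + (q : FF (M * q * q)) * (r.map (h67i_e1 M q)).eval (h67i_e2 M q v) = 0 := by
  obtain ⟨r, hr, hdeg, h0⟩ := h55k_kron M q A hq hM hA v hv hrat
  refine ⟨r, hr, hdeg, ?_, ?_, ?_⟩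
  · -- apply `α₂`
    have h1 := congrArg (heckeAlphaBar Kbar (M * q) q).toRingHom h0
    rw [Polynomial.hom_eval₂, map_zero, h67i_eval₂] at h1
    exact h1
  · -- apply the Fricke involution, then `α₂`
    have hw := congrArg (kFricke M q hq hM).toAlgHom.toRingHom h0
    rw [Polynomial.hom_eval₂, map_zero] at hw
    have hwa : (kFricke M q hq hM).toAlgHom.toRingHom.comp (heckeAlphaBar Kbar M q).toRingHom
        = (heckeBetaBar Kbar M q).toRingHom :=
      RingHom.ext fun x => kFricke_alpha M q hq hM x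
    have hwb : (kFricke M q hq hM).toAlgHom.toRingHom (heckeBetaBar Kbar M q v)
        = heckeAlphaBar Kbar M q v := kFricke_beta M q hq hM v
    rw [hwa, hwb] at hw
    have h1 := congrArg (heckeAlphaBar Kbar (M * q) q).toRingHom hw
    rw [Polynomial.hom_eval₂, map_zero, h67i_eval₂, ← Polynomial.eval_map] at h1
    exact h1
  · -- apply `β₂`
    have h1 := congrArg (heckeBetaBar Kbar (M * q) q).toRingHom h0
    rw [Polynomial.hom_eval₂, map_zero, ← h67i_e1_eq', h67i_eval₂, ← Polynomial.eval_map] at h1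
    exact h1

end Fermat.Agent.S36
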