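import Mathlib
import Fermat.Agent.S36.H59Base0
import Fermat.Agent.S36.H62L1Iface
import Fermat.Agent.S36.H67Inst
import Fermat.Agent.Red.KR.Nbr
import Fermat.Agent.Red.KR.NormFin

/-!
# S36, block REG, leaf R-BASE2 (helper59): the degeneracy maps on the charts over `A₀`

`Λ₀ = h62rChart A M (jB M)`, `B₁ = h62rChart A (M q) (jSS M q)`,
`B₂ = h62rChart A (M q q) (jB (M q q))` (finite charts over the inertia ring `A₀`, `q ∤ M`).

* `h59y_a2 : B₁ →+* B₂` (`= α₂`), `h59y_b2 : B₁ →+* B₂` (`= β₂`);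
* `h59y_e0, h59y_e1, h59y_e2 : Λ₀ →+* B₂` (`= h67i_e0/e1/e2` on the underlying functions),
  `e0 = a2 ∘ α₁`, `e1 = a2 ∘ β₁ = b2 ∘ α₁`, `e2 = b2 ∘ β₁`
  (`α₁ = h62rAlpha`, `β₁ = h62rBeta`);
* `h59y_a2_isIntegral`, `h59y_b2_isIntegral`, `h59y_alpha1_isIntegral`, `h59y_beta1_isIntegral`,
  `h59y_e0_isIntegral`, … : all these maps are integral;
* `h59y_comap_isMaximal` : the contraction of a maximal ideal along an integral homomorphism is
  maximal; `h59y_q_mem_comap` : it contains `q` if the ideal does;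
* `h59y_a2_injective`, … : the maps are injective.
-/

set_option autoImplicit false
set_option linter.style.haveILetI false
set_option linter.unusedSectionVars false

open Polynomial AlgebraicCurve ModularCurve

noncomputable section

namespace Fermat.Agent.S36

open Fermat.Agent.S37 (Kbar GQ FF cst gal jB modelAt modelFin ringAdj)
open Fermat.Agent.LGC (jSS)

/-! ### General: ring homomorphisms between charts over `A₀` -/

section General

variable (A : ValuationSubring Kbar) {N N' : ℕ}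

/-- the ring homomorphism between charts over `A₀` induced by a homomorphism of function
fields mapping the first chart into the second. -/
def h59yMap (φ : FF N →+* FF N') (t : FF N) (t' : FF N')
    (h : ∀ x ∈ h62rChart A N t, φ x ∈ h62rChart A N' t') :
    h62rChart A N t →+* h62rChart A N' t' where
  toFun x := ⟨φ (x : FF N), h _ x.2⟩
  map_one' := Subtype.ext (map_one _)
  map_mul' _ _ := Subtype.ext (map_mul _ _ _)
  map_zero' := Subtype.ext (map_zero _)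
  map_add' _ _ := Subtype.ext (map_add _ _ _)

@[simp]
theorem h59y_coe_map (φ : FF N →+* FF N') (t : FF N) (t' : FF N')
    (h : ∀ x ∈ h62rChart A N t, φ x ∈ h62rChart A N' t') (x : h62rChart A N t) :
    ((h59yMap A φ t t' h x : h62rChart A N' t') : FF N') = φ (x : FF N) := rfl

theorem h59yMap_injective (φ : FF N →+* FF N') (t : FF N) (t' : FF N')
    (h : ∀ x ∈ h62rChart A N t, φ x ∈ h62rChart A N' t') :
    Function.Injective (h59yMap A φ t t' h) := by
  intro x y hxy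
  apply Subtype.ext
  apply φ.injective
  exact congrArg Subtype.val hxy

theorem h59yMap_natCast (φ : FF N →+* FF N') (t : FF N) (t' : FF N')
    (h : ∀ x ∈ h62rChart A N t, φ x ∈ h62rChart A N' t') (n : ℕ) :
    h59yMap A φ t t' h (n : h62rChart A N t) = (n : h62rChart A N' t') :=
  map_natCast _ n

/-- integrality of the induced homomorphism from the elementwise statement in `FF`. -/
theorem h59yMap_isIntegral (φ : FF N →+* FF N') (t : FF N) (t' : FF N')
    (h : ∀ x ∈ h62rChart A N t, φ x ∈ h62rChart A N' t')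
    (hint : ∀ y ∈ h62rChart A N' t', ∃ p : (FF N)[X], p.Monic ∧
      (∀ i, p.coeff i ∈ h62rChart A N t) ∧ eval₂ φ y p = 0) :
    (h59yMap A φ t t' h).IsIntegral := by
  intro y
  obtain ⟨p, hp, hc, hpy⟩ := hint (y : FF N') y.2
  have hpc : (↑p.coeffs : Set (FF N)) ⊆ (h62rChart A N t : Set (FF N)) := by
    intro c hc'
    rw [Finset.mem_coe, Polynomial.mem_coeffs_iff] at hc'
    obtain ⟨n, -, rfl⟩ := hc'
    exact hc n
  refine ⟨p.toSubring (h62rChart A N t) hpc, (Polynomial.monic_toSubring p _ hpc).mpr hp, ?_⟩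
  apply Subtype.ext
  have h1 : ((eval₂ (h59yMap A φ t t' h) y (p.toSubring (h62rChart A N t) hpc) :
      h62rChart A N' t') : FF N')
      = eval₂ φ (y : FF N') ((p.toSubring (h62rChart A N t) hpc).map
          (h62rChart A N t).subtype) := by
    rw [eval₂_map]
    have h2 := Polynomial.hom_eval₂ (p.toSubring (h62rChart A N t) hpc)
      (h59yMap A φ t t' h) (h62rChart A N' t').subtype y
    have h3 : (h62rChart A N' t').subtype.comp (h59yMap A φ t t' h)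
        = φ.comp (h62rChart A N t).subtype := RingHom.ext fun _ => rfl
    rw [h3] at h2
    exact h2
  rw [h1, Polynomial.map_toSubring, hpy]
  rfl

/-- the contraction of a maximal ideal along an integral ring homomorphism is maximal. -/
theorem h59y_comap_isMaximal {R S : Type*} [CommRing R] [CommRing S] (f : R →+* S)
    (hf : f.IsIntegral) (𝔫 : Ideal S) (h𝔫 : 𝔫.IsMaximal) : (𝔫.comap f).IsMaximal :=
  Ideal.isMaximal_comap_of_isIntegral_of_isMaximal' f hf 𝔫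

/-- the contraction contains `q` if the ideal does. -/
theorem h59y_q_mem_comap {R S : Type*} [CommRing R] [CommRing S] (f : R →+* S)
    (𝔫 : Ideal S) (q : ℕ) (hq : (q : S) ∈ 𝔫) : (q : R) ∈ 𝔫.comap f := by
  rw [Ideal.mem_comap, map_natCast]
  exact hq

end General

/-! ### Comparison of charts -/

section Compare

variable (A : ValuationSubring Kbar) (N : ℕ)

/-- if `t` is integral over `A[t']` then the chart at `t` is contained in the chart at `t'`. -/
theorem h59y_chart_le_of_mem {t t' : FF N} (h : t ∈ modelAt N A t') :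
    h62rChart A N t ≤ h62rChart A N t' := fun _ hx =>
  ⟨Fermat.Agent.Red.KR.h66_modelAt_le_of_mem N A h hx.1, hx.2⟩

end Compare

/-! ### The maps between the levels `M`, `M q`, `M q q` -/

section Levels

variable (A : ValuationSubring Kbar) (M : ℕ) {q : ℕ} [NeZero M] [NeZero q]

theorem h59y_jSS_eq : jSS M q = jB (M * q) := Fermat.Agent.LGC.h85s_jSS_eq (M := M) (ℓ := q)

theorem h59y_jSS_fixed (σ : GQ) : gal (M * q) σ • jSS M q = jSS M q := by
  rw [h59y_jSS_eq]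
  exact h59z_jB_fixed (M * q) σ

/-- `α₂ (B₁) ⊆ B₂`. -/
theorem h59y_a2_mem {x : FF (M * q)} (hx : x ∈ h62rChart A (M * q) (jSS M q)) :
    heckeAlphaBar Kbar (M * q) q x ∈ h62rChart A (M * q * q) (jB (M * q * q)) := by
  rw [h59y_jSS_eq] at hx
  exact h59z_alpha_mem_chart_fin (M * q) q A hx

/-- `j(t^q)` at level `M q q` is integral over `A[j]`. -/
theorem h59y_e1_jB_mem (hq : q.Prime) (hM : ¬ q ∣ M) (hA : A.LiesOverPrime q) :
    heckeBetaBar Kbar (M * q) q (jSS M q) ∈ modelAt (M * q * q) A (jB (M * q * q)) := by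
  have h1 : heckeBetaBar Kbar M q (jB M) ∈ modelAt (M * q) A (jB (M * q)) :=
    Fermat.Agent.Red.KR.meAlpha M q hq hM A hA
  have h2 := Fermat.Agent.Red.KR.map_mem_modelAt (heckeAlphaBar Kbar (M * q) q) A h1
  rw [h59z_alpha_jB] at h2
  have h3 : heckeBetaBar Kbar (M * q) q (jSS M q)
      = heckeAlphaBar Kbar (M * q) q (heckeBetaBar Kbar M q (jB M)) :=
    (h67i_e1_eq M q (jB M)).symm
  rw [h3]
  exact h2

/-- `j` at level `M q q` is integral over `A[j(t^q)]`. -/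
theorem h59y_jB_mem_e1 (hq : q.Prime) (hM : ¬ q ∣ M) (hA : A.LiesOverPrime q) :
    jB (M * q * q) ∈ modelAt (M * q * q) A (heckeBetaBar Kbar (M * q) q (jSS M q)) := by
  have h1 : jB (M * q) ∈ modelAt (M * q) A (heckeBetaBar Kbar M q (jB M)) :=
    Fermat.Agent.Red.KR.meBeta Fermat.Agent.Red.KR.meAlpha M q hq hM A hA
  have h2 := Fermat.Agent.Red.KR.map_mem_modelAt (heckeAlphaBar Kbar (M * q) q) A h1
  rw [h59z_alpha_jB] at h2
  have h3 : heckeBetaBar Kbar (M * q) q (jSS M q)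
      = heckeAlphaBar Kbar (M * q) q (heckeBetaBar Kbar M q (jB M)) :=
    (h67i_e1_eq M q (jB M)).symm
  rw [h3]
  exact h2

/-- `β₂ (B₁) ⊆ B₂`. -/
theorem h59y_b2_mem (hq : q.Prime) (hM : ¬ q ∣ M) (hA : A.LiesOverPrime q) {x : FF (M * q)}
    (hx : x ∈ h62rChart A (M * q) (jSS M q)) :
    heckeBetaBar Kbar (M * q) q x ∈ h62rChart A (M * q * q) (jB (M * q * q)) :=
  h59y_chart_le_of_mem A (M * q * q) (h59y_e1_jB_mem A M hq hM hA)
    (h59z_beta_mem_chart (M * q) q A hx)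

/-- **`α₂ : B₁ →+* B₂`**. -/
def h59y_a2 : h62rChart A (M * q) (jSS M q) →+* h62rChart A (M * q * q) (jB (M * q * q)) :=
  h59yMap A (heckeAlphaBar Kbar (M * q) q : FF (M * q) →+* FF (M * q * q)) _ _
    (fun _ hx => h59y_a2_mem A M hx)

/-- **`β₂ : B₁ →+* B₂`**. -/
def h59y_b2 (hq : q.Prime) (hM : ¬ q ∣ M) (hA : A.LiesOverPrime q) :
    h62rChart A (M * q) (jSS M q) →+* h62rChart A (M * q * q) (jB (M * q * q)) :=
  h59yMap A (heckeBetaBar Kbar (M * q) q : FF (M * q) →+* FF (M * q * q)) _ _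
    (fun _ hx => h59y_b2_mem A M hq hM hA hx)

@[simp]
theorem h59y_coe_a2 (x : h62rChart A (M * q) (jSS M q)) :
    ((h59y_a2 A M x : h62rChart A (M * q * q) (jB (M * q * q))) : FF (M * q * q))
      = heckeAlphaBar Kbar (M * q) q (x : FF (M * q)) := rfl

@[simp]
theorem h59y_coe_b2 (hq : q.Prime) (hM : ¬ q ∣ M) (hA : A.LiesOverPrime q)
    (x : h62rChart A (M * q) (jSS M q)) :
    ((h59y_b2 A M hq hM hA x : h62rChart A (M * q * q) (jB (M * q * q))) : FF (M * q * q))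
      = heckeBetaBar Kbar (M * q) q (x : FF (M * q)) := rfl

/-- **`e₀ = α₂ ∘ α₁ : Λ₀ →+* B₂`**. -/
def h59y_e0 : h62rChart A M (jB M) →+* h62rChart A (M * q * q) (jB (M * q * q)) :=
  (h59y_a2 A M).comp (h62rAlpha A M)

/-- **`e₁ = α₂ ∘ β₁ : Λ₀ →+* B₂`**. -/
def h59y_e1 (hq : q.Prime) (hM : ¬ q ∣ M) (hA : A.LiesOverPrime q) :
    h62rChart A M (jB M) →+* h62rChart A (M * q * q) (jB (M * q * q)) :=
  (h59y_a2 A M).comp (h62rBeta A M hq hM hA)

/-- **`e₂ = β₂ ∘ β₁ : Λ₀ →+* B₂`**. -/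
def h59y_e2 (hq : q.Prime) (hM : ¬ q ∣ M) (hA : A.LiesOverPrime q) :
    h62rChart A M (jB M) →+* h62rChart A (M * q * q) (jB (M * q * q)) :=
  (h59y_b2 A M hq hM hA).comp (h62rBeta A M hq hM hA)

@[simp]
theorem h59y_coe_e0 (x : h62rChart A M (jB M)) :
    ((h59y_e0 A M (q := q) x : h62rChart A (M * q * q) (jB (M * q * q))) : FF (M * q * q))
      = h67i_e0 M q (x : FF M) := rfl

@[simp]
theorem h59y_coe_e1 (hq : q.Prime) (hM : ¬ q ∣ M) (hA : A.LiesOverPrime q)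
    (x : h62rChart A M (jB M)) :
    ((h59y_e1 A M hq hM hA x : h62rChart A (M * q * q) (jB (M * q * q))) : FF (M * q * q))
      = h67i_e1 M q (x : FF M) := rfl

@[simp]
theorem h59y_coe_e2 (hq : q.Prime) (hM : ¬ q ∣ M) (hA : A.LiesOverPrime q)
    (x : h62rChart A M (jB M)) :
    ((h59y_e2 A M hq hM hA x : h62rChart A (M * q * q) (jB (M * q * q))) : FF (M * q * q))
      = h67i_e2 M q (x : FF M) := rfl

theorem h59y_e0_eq : h59y_e0 A M (q := q) = (h59y_a2 A M).comp (h62rAlpha A M) := rfl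

theorem h59y_e1_eq (hq : q.Prime) (hM : ¬ q ∣ M) (hA : A.LiesOverPrime q) :
    h59y_e1 A M hq hM hA = (h59y_a2 A M).comp (h62rBeta A M hq hM hA) := rfl

theorem h59y_e2_eq (hq : q.Prime) (hM : ¬ q ∣ M) (hA : A.LiesOverPrime q) :
    h59y_e2 A M hq hM hA = (h59y_b2 A M hq hM hA).comp (h62rBeta A M hq hM hA) := rfl

/-- `e₁ = β₂ ∘ α₁`. -/
theorem h59y_e1_eq' (hq : q.Prime) (hM : ¬ q ∣ M) (hA : A.LiesOverPrime q) :
    h59y_e1 A M hq hM hA = (h59y_b2 A M hq hM hA).comp (h62rAlpha A M) :=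
  RingHom.ext fun x => Subtype.ext (h67i_e1_eq M q (x : FF M))

/-! ### Integrality -/

theorem h59y_alpha1_eq : h62rAlpha A M (q := q) =
    h59yMap A (heckeAlphaBar Kbar M q : FF M →+* FF (M * q)) (jB M) (jSS M q)
      (fun x hx => ((h62rAlpha A M (q := q)) ⟨x, hx⟩).2) :=
  RingHom.ext fun _ => rfl

theorem h59y_beta1_eq (hq : q.Prime) (hM : ¬ q ∣ M) (hA : A.LiesOverPrime q) :
    h62rBeta A M hq hM hA =
    h59yMap A (heckeBetaBar Kbar M q : FF M →+* FF (M * q)) (jB M) (jSS M q)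
      (fun x hx => ((h62rBeta A M hq hM hA) ⟨x, hx⟩).2) :=
  RingHom.ext fun _ => rfl

/-- **`B₁` is integral over `α₁ (Λ₀)`**. -/
theorem h59y_alpha1_isIntegral : (h62rAlpha A M (q := q)).IsIntegral := by
  rw [h59y_alpha1_eq]
  refine h59yMap_isIntegral A _ _ _ _ (fun y hy => ?_)
  have hy' : y ∈ h62rChart A (M * q) (heckeAlphaBar Kbar M q (jB M)) := hy
  exact h59z_chart_integral_map M A (heckeAlphaBar Kbar M q) (jB M)
    (fun σ _ => h59z_jB_fixed M σ) hy'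

/-- **`B₁` is integral over `β₁ (Λ₀)`**. -/
theorem h59y_beta1_isIntegral (hq : q.Prime) (hM : ¬ q ∣ M) (hA : A.LiesOverPrime q) :
    (h62rBeta A M hq hM hA).IsIntegral := by
  rw [h59y_beta1_eq]
  refine h59yMap_isIntegral A _ _ _ _ (fun y hy => ?_)
  have h1 : jB (M * q) ∈ modelAt (M * q) A (heckeBetaBar Kbar M q (jB M)) :=
    Fermat.Agent.Red.KR.meBeta Fermat.Agent.Red.KR.meAlpha M q hq hM A hA
  rw [h59y_jSS_eq] at hy
  exact h59z_chart_integral_map M A (heckeBetaBar Kbar M q) (jB M)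
    (fun σ _ => h59z_jB_fixed M σ) (h59y_chart_le_of_mem A (M * q) h1 hy)

/-- **`B₂` is integral over `α₂ (B₁)`**. -/
theorem h59y_a2_isIntegral : (h59y_a2 A M (q := q)).IsIntegral := by
  refine h59yMap_isIntegral A _ _ _ _ (fun y hy => ?_)
  have h := h59z_chart_integral_alpha_fin (M * q) A q hy
  rw [← h59y_jSS_eq] at h
  exact h

/-- **`B₂` is integral over `β₂ (B₁)`**. -/
theorem h59y_b2_isIntegral (hq : q.Prime) (hM : ¬ q ∣ M) (hA : A.LiesOverPrime q) :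
    (h59y_b2 A M hq hM hA).IsIntegral := by
  refine h59yMap_isIntegral A _ _ _ _ (fun y hy => ?_)
  exact h59z_chart_integral_map (M * q) A (heckeBetaBar Kbar (M * q) q) (jSS M q)
    (fun σ _ => h59y_jSS_fixed M σ)
    (h59y_chart_le_of_mem A (M * q * q) (h59y_jB_mem_e1 A M hq hM hA) hy)

theorem h59y_e0_isIntegral : (h59y_e0 A M (q := q)).IsIntegral :=
  RingHom.IsIntegral.trans _ _ (h59y_alpha1_isIntegral A M) (h59y_a2_isIntegral A M)

theorem h59y_e1_isIntegral (hq : q.Prime) (hM : ¬ q ∣ M) (hA : A.LiesOverPrime q) :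
    (h59y_e1 A M hq hM hA).IsIntegral :=
  RingHom.IsIntegral.trans _ _ (h59y_beta1_isIntegral A M hq hM hA) (h59y_a2_isIntegral A M)

theorem h59y_e2_isIntegral (hq : q.Prime) (hM : ¬ q ∣ M) (hA : A.LiesOverPrime q) :
    (h59y_e2 A M hq hM hA).IsIntegral :=
  RingHom.IsIntegral.trans _ _ (h59y_beta1_isIntegral A M hq hM hA)
    (h59y_b2_isIntegral A M hq hM hA)

/-! ### Injectivity -/

theorem h59y_a2_injective : Function.Injective (h59y_a2 A M (q := q)) :=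
  h59yMap_injective A _ _ _ _

theorem h59y_b2_injective (hq : q.Prime) (hM : ¬ q ∣ M) (hA : A.LiesOverPrime q) :
    Function.Injective (h59y_b2 A M hq hM hA) :=
  h59yMap_injective A _ _ _ _

theorem h59y_alpha1_injective : Function.Injective (h62rAlpha A M (q := q)) := by
  rw [h59y_alpha1_eq]
  exact h59yMap_injective A _ _ _ _

theorem h59y_beta1_injective (hq : q.Prime) (hM : ¬ q ∣ M) (hA : A.LiesOverPrime q) :
    Function.Injective (h62rBeta A M hq hM hA) := by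
  rw [h59y_beta1_eq]
  exact h59yMap_injective A _ _ _ _

theorem h59y_e0_injective : Function.Injective (h59y_e0 A M (q := q)) := by
  rw [h59y_e0_eq, RingHom.coe_comp]
  exact (h59y_a2_injective A M).comp (h59y_alpha1_injective A M)

theorem h59y_e1_injective (hq : q.Prime) (hM : ¬ q ∣ M) (hA : A.LiesOverPrime q) :
    Function.Injective (h59y_e1 A M hq hM hA) := by
  rw [h59y_e1_eq, RingHom.coe_comp]
  exact (h59y_a2_injective A M).comp (h59y_beta1_injective A M hq hM hA)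

theorem h59y_e2_injective (hq : q.Prime) (hM : ¬ q ∣ M) (hA : A.LiesOverPrime q) :
    Function.Injective (h59y_e2 A M hq hM hA) := by
  rw [h59y_e2_eq, RingHom.coe_comp]
  exact (h59y_b2_injective A M hq hM hA).comp (h59y_beta1_injective A M hq hM hA)

/-! ### Contraction of the closed points of the special fibre -/

/-- **the contraction along `α₂` of a closed point of the fibre `q = 0` is a closed point of
the fibre `q = 0`**. -/
theorem h59y_comap_a2 (𝔫 : Ideal (h62rChart A (M * q * q) (jB (M * q * q))))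
    (h𝔫 : 𝔫.IsMaximal) (hq𝔫 : (q : h62rChart A (M * q * q) (jB (M * q * q))) ∈ 𝔫) :
    (𝔫.comap (h59y_a2 A M)).IsMaximal ∧
      (q : h62rChart A (M * q) (jSS M q)) ∈ 𝔫.comap (h59y_a2 A M) :=
  ⟨h59y_comap_isMaximal _ (h59y_a2_isIntegral A M) 𝔫 h𝔫, h59y_q_mem_comap _ 𝔫 q hq𝔫⟩

theorem h59y_comap_b2 (hq : q.Prime) (hM : ¬ q ∣ M) (hA : A.LiesOverPrime q)
    (𝔫 : Ideal (h62rChart A (M * q * q) (jB (M * q * q))))
    (h𝔫 : 𝔫.IsMaximal) (hq𝔫 : (q : h62rChart A (M * q * q) (jB (M * q * q))) ∈ 𝔫) :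
    (𝔫.comap (h59y_b2 A M hq hM hA)).IsMaximal ∧
      (q : h62rChart A (M * q) (jSS M q)) ∈ 𝔫.comap (h59y_b2 A M hq hM hA) :=
  ⟨h59y_comap_isMaximal _ (h59y_b2_isIntegral A M hq hM hA) 𝔫 h𝔫, h59y_q_mem_comap _ 𝔫 q hq𝔫⟩

theorem h59y_comap_alpha1 (𝔫 : Ideal (h62rChart A (M * q) (jSS M q)))
    (h𝔫 : 𝔫.IsMaximal) (hq𝔫 : (q : h62rChart A (M * q) (jSS M q)) ∈ 𝔫) :
    (𝔫.comap (h62rAlpha A M)).IsMaximal ∧
      (q : h62rChart A M (jB M)) ∈ 𝔫.comap (h62rAlpha A M) :=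
  ⟨h59y_comap_isMaximal _ (h59y_alpha1_isIntegral A M) 𝔫 h𝔫, h59y_q_mem_comap _ 𝔫 q hq𝔫⟩

theorem h59y_comap_beta1 (hq : q.Prime) (hM : ¬ q ∣ M) (hA : A.LiesOverPrime q)
    (𝔫 : Ideal (h62rChart A (M * q) (jSS M q)))
    (h𝔫 : 𝔫.IsMaximal) (hq𝔫 : (q : h62rChart A (M * q) (jSS M q)) ∈ 𝔫) :
    (𝔫.comap (h62rBeta A M hq hM hA)).IsMaximal ∧
      (q : h62rChart A M (jB M)) ∈ 𝔫.comap (h62rBeta A M hq hM hA) :=
  ⟨h59y_comap_isMaximal _ (h59y_beta1_isIntegral A M hq hM hA) 𝔫 h𝔫,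
    h59y_q_mem_comap _ 𝔫 q hq𝔫⟩

theorem h59y_comap_e0 (𝔫 : Ideal (h62rChart A (M * q * q) (jB (M * q * q))))
    (h𝔫 : 𝔫.IsMaximal) (hq𝔫 : (q : h62rChart A (M * q * q) (jB (M * q * q))) ∈ 𝔫) :
    (𝔫.comap (h59y_e0 A M)).IsMaximal ∧
      (q : h62rChart A M (jB M)) ∈ 𝔫.comap (h59y_e0 A M) :=
  ⟨h59y_comap_isMaximal _ (h59y_e0_isIntegral A M) 𝔫 h𝔫, h59y_q_mem_comap _ 𝔫 q hq𝔫⟩

theorem h59y_comap_e1 (hq : q.Prime) (hM : ¬ q ∣ M) (hA : A.LiesOverPrime q)
    (𝔫 : Ideal (h62rChart A (M * q * q) (jB (M * q * q))))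
    (h𝔫 : 𝔫.IsMaximal) (hq𝔫 : (q : h62rChart A (M * q * q) (jB (M * q * q))) ∈ 𝔫) :
    (𝔫.comap (h59y_e1 A M hq hM hA)).IsMaximal ∧
      (q : h62rChart A M (jB M)) ∈ 𝔫.comap (h59y_e1 A M hq hM hA) :=
  ⟨h59y_comap_isMaximal _ (h59y_e1_isIntegral A M hq hM hA) 𝔫 h𝔫, h59y_q_mem_comap _ 𝔫 q hq𝔫⟩

theorem h59y_comap_e2 (hq : q.Prime) (hM : ¬ q ∣ M) (hA : A.LiesOverPrime q)
    (𝔫 : Ideal (h62rChart A (M * q * q) (jB (M * q * q))))
    (h𝔫 : 𝔫.IsMaximal) (hq𝔫 : (q : h62rChart A (M * q * q) (jB (M * q * q))) ∈ 𝔫) :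
    (𝔫.comap (h59y_e2 A M hq hM hA)).IsMaximal ∧
      (q : h62rChart A M (jB M)) ∈ 𝔫.comap (h59y_e2 A M hq hM hA) :=
  ⟨h59y_comap_isMaximal _ (h59y_e2_isIntegral A M hq hM hA) 𝔫 h𝔫, h59y_q_mem_comap _ 𝔫 q hq𝔫⟩

/-- the contractions are compatible: `comap α₁ (comap α₂ 𝔫) = comap e₀ 𝔫`. -/
theorem h59y_comap_comap_e0 (𝔫 : Ideal (h62rChart A (M * q * q) (jB (M * q * q)))) :
    (𝔫.comap (h59y_a2 A M)).comap (h62rAlpha A M) = 𝔫.comap (h59y_e0 A M) := by
  rw [h59y_e0_eq, Ideal.comap_comap]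

theorem h59y_comap_comap_e1 (hq : q.Prime) (hM : ¬ q ∣ M) (hA : A.LiesOverPrime q)
    (𝔫 : Ideal (h62rChart A (M * q * q) (jB (M * q * q)))) :
    (𝔫.comap (h59y_a2 A M)).comap (h62rBeta A M hq hM hA)
      = 𝔫.comap (h59y_e1 A M hq hM hA) := by
  rw [h59y_e1_eq, Ideal.comap_comap]

theorem h59y_comap_comap_e2 (hq : q.Prime) (hM : ¬ q ∣ M) (hA : A.LiesOverPrime q)
    (𝔫 : Ideal (h62rChart A (M * q * q) (jB (M * q * q)))) :
    (𝔫.comap (h59y_b2 A M hq hM hA)).comap (h62rBeta A M hq hM hA)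
      = 𝔫.comap (h59y_e2 A M hq hM hA) := by
  rw [h59y_e2_eq, Ideal.comap_comap]

end Levels

end Fermat.Agent.S36
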