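import Fermat.Agent.S36.H11LocSkel

/-!
# S36, row L-TOR (block T): the frozen leaves of `H11LocTor` (helper11, prefix `h11t_`/`H11Tor`)

Target: `H11LocTor` of `S36/H11LocSkel.lean`.  Every declaration is a definition or a frozen
interface `Prop`; nothing is assumed.  The assembly `H11Tor* → H11LocTor` is
`S36/H11TorAsm.lean`.

## Setting

`q` prime, `q ∤ M`, levels `N' = M q`, `N = M q q`, `α, β : FF N' → FF N` (`heckeAlphaBar`,
`heckeBetaBar`), norms `Nα, Nβ = normAlong α, normAlong β`, charts `B = h92c_Chart A N j`,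
`B' = h92c_Chart A N' j`, `F₀ = h92c_F0 A N`, `F₀' = h92c_F0 A N'`.

* vertical embeddings of level `N`: `E20`, `E11^ζ`, `E02` (`H20NormSkel`);
  of level `N'`: `h11t_Einf = coe` (component `C_∞`), `h11t_Ezero = coe ∘ w` (component `C_0`).
  `α` maps `W20, W11 → W_∞` (`e f = 1, q - 1`), `W02 → W_0` (purely inseparable);
  `β` maps `W20 → W_∞` (purely inseparable), `W11, W02 → W_0` (`e f = q - 1, 1`).
* `h11t_IsC A a` : `a` is a unit of `A₀ = A ∩ ℚ̄^I` (a "constant").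
* `h11t_cBV A t 𝔫 E x a` : the branch value of `x` at `𝔫` along `E` is the constant `a`.
* `h11t_UnitAt A t 𝔫 u` : `u` is a unit of the local ring `B_𝔫`.
* `h11t_Under A φ t' t 𝔫' 𝔫` : `𝔫' = φ⁻¹ 𝔫` (elementwise).
* `h11t_IsSS A M q 𝔫` : `𝔫` is a closed point of the special fibre of the chart `j` of level
  `N` which is not a one-branch point (a supersingular point).

## The leaves (owner blocks)

* `H11TorBasic`  (BASE/V): constants of `A₀` lie in the charts, the charts are Gauss-integral,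
  `𝔪_{A₀} = q A₀`, `μ_m ⊆ A₀ˣ`, norms of `I`-invariant functions are `I`-invariant.
* `H11TorRoot`   (R + D + V): at a supersingular point a function `w ∈ F₀ ∩ (1 + q V₀)` with
  `m ∣ div w` has a local `m`-th root with constant branch values on the three branches.
* `H11TorPt`     (R): the points `α⁻¹ 𝔫`, `β⁻¹ 𝔫` of level `N'` are closed points through which
  both components `C_∞`, `C_0` pass (nodes).
* `H11TorNormA`, `H11TorNormB` (N + R-TOWER-SS): the branch norm formulas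
  `bv_∞ (Nα x) = z₀ z₁^(q-1)`, `bv_0 (Nα x) = z₂^q`, `bv_∞ (Nβ x) = z₀^q`,
  `bv_0 (Nβ x) = z₁^(q-1) z₂`  (abstract form: `h11t_bnorm_sep`, `h11t_bnorm_insep`,
  `h8t_hNa`, `h8t_hNb` from (TN1) + (TN2)).
* `H11TorUnit`   (R): norms of units of `B_𝔫` are units at `α⁻¹ 𝔫`, `β⁻¹ 𝔫`
  (`𝔫` is the only point above them).
* `H11TorNormal` (BASE): the chart of level `N'` is root closed in `F₀'`.
* `H11TorGlob`   (D-POW + N + V): the norms of a new `w ∈ F₀ ∩ (1 + q V₀)` are `m`-th powers of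
  functions of `F₀'` which are congruent to `m`-th roots of unity along `C_∞` and `C_0`.
* `H11TorTwist`  (V, weak approximation): a function of `F₀` with prescribed constant
  reductions `1, ξ₁, ξ₂` (`m`-th roots of unity) along `W20, W11, W02`.
* `H11TorUQ`     (V): `(1 + y)^q ∈ 1 + q V₀` for `y ∈ F₀` Gauss-small at all vertical embeddings.
-/

set_option autoImplicit false

open AlgebraicCurve ModularCurve

noncomputable section

namespace Fermat.Agent.S36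

open Fermat.Agent.S37 (Kbar GQ FF cst jB gal modelAt degen auxLevel)
open Fermat.Agent.Red.KR (normAlong)
open Fermat.Agent.Red.Kron (kFricke)
open Fermat.Agent.Red.GV.Soft (softOT softRedT)

/-! ## Definitions -/

/-- `a` is a unit of `A₀ = A ∩ ℚ̄^I`. -/
def h11t_IsC (A : ValuationSubring Kbar) (a : Kbar) : Prop :=
  a ≠ 0 ∧ a ∈ A ∧ a⁻¹ ∈ A ∧ ∀ σ ∈ A.inertiaSubgroupIn ℚ, σ a = a

/-- the branch value of `x` at `𝔫` along `E` is the constant `a`. -/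
def h11t_cBV (A : ValuationSubring Kbar) {N : ℕ} (t : FF N) (𝔫 : Ideal (h92c_Chart A N t))
    (E : FF N →+* LaurentSeries Kbar) (x : FF N) (a : Kbar) : Prop :=
  ∃ c : h92c_Chart A N t, (c : FF N) = cst N a ∧ h11l_BV A t 𝔫 E x c

/-- `u` is a unit of the local ring of the chart at `𝔫`. -/
def h11t_UnitAt (A : ValuationSubring Kbar) {N : ℕ} (t : FF N) (𝔫 : Ideal (h92c_Chart A N t))
    (u : FF N) : Prop :=
  u ≠ 0 ∧ ∃ s : h92c_Chart A N t, s ∉ 𝔫 ∧ (s : FF N) * u ∈ h92c_Chart A N t ∧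
    (s : FF N) * u⁻¹ ∈ h92c_Chart A N t

/-- `𝔫' = φ⁻¹ 𝔫` for `φ : FF N' → FF N`. -/
def h11t_Under (A : ValuationSubring Kbar) {N' N : ℕ} (φ : FF N' →+* FF N) (t' : FF N')
    (t : FF N) (𝔫' : Ideal (h92c_Chart A N' t')) (𝔫 : Ideal (h92c_Chart A N t)) : Prop :=
  ∀ b' : h92c_Chart A N' t', b' ∈ 𝔫' ↔
    ∃ b : h92c_Chart A N t, b ∈ 𝔫 ∧ (b : FF N) = φ (b' : FF N')

/-- the embedding of level `M q` at the cusp `∞` (component `C_∞`). -/
def h11t_Einf (M q : ℕ) [NeZero M] [NeZero q] : FF (M * q) →+* LaurentSeries Kbar :=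
  algebraMap (FF (M * q)) (LaurentSeries Kbar)

/-- the embedding of level `M q` at the cusp `0` (component `C_0`): `x ↦ (w x)(t)`. -/
def h11t_Ezero (M q : ℕ) [NeZero M] [NeZero q] (hq : q.Prime) (hqM : ¬ q ∣ M) :
    FF (M * q) →+* LaurentSeries Kbar :=
  (algebraMap (FF (M * q)) (LaurentSeries Kbar)).comp
    ((kFricke M q hq hqM : FF (M * q) ≃ₐ[Kbar] FF (M * q)) : FF (M * q) →+* FF (M * q))

/-- `𝔫` is a supersingular point of the chart `j` of level `M q q`: a closed point of the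
special fibre which is not a one-branch point. -/
def h11t_IsSS (A : ValuationSubring Kbar) (M q : ℕ) [NeZero M] [NeZero q]
    (𝔫 : Ideal (h92c_Chart A (M * q * q) (jB (M * q * q)))) : Prop :=
  𝔫.IsMaximal ∧ ((q : ℕ) : h92c_Chart A (M * q * q) (jB (M * q * q))) ∈ 𝔫 ∧
    ¬ h11l_OneBranch ((q : ℕ) : h92c_Chart A (M * q * q) (jB (M * q * q))) 𝔫

/-- the point `𝔫'` of level `M q` is a node under `𝔫` along `φ`: `𝔫' = φ⁻¹ 𝔫` is a closed
point and both components `C_∞`, `C_0` pass through it. -/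
def h11t_NodeUnder (A : ValuationSubring Kbar) (M q : ℕ) [NeZero M] [NeZero q] (hq : q.Prime)
    (hqM : ¬ q ∣ M) (φ : FF (M * q) →+* FF (M * q * q))
    (𝔫' : Ideal (h92c_Chart A (M * q) (jB (M * q))))
    (𝔫 : Ideal (h92c_Chart A (M * q * q) (jB (M * q * q)))) : Prop :=
  𝔫'.IsMaximal ∧ h11t_Under A φ (jB (M * q)) (jB (M * q * q)) 𝔫' 𝔫 ∧
    h11l_Centred A (jB (M * q)) 𝔫' (h11t_Einf M q) ∧
    h11l_Centred A (jB (M * q)) 𝔫' (h11t_Ezero M q hq hqM)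

/-- constant branch values `a₀, a₁, a₂` of `x` at `𝔫` along `E20`, all `E11^ζ`, all `E02`. -/
def h11t_BV3 (A : ValuationSubring Kbar) (M q : ℕ) [NeZero M] [NeZero q] (hq : q.Prime)
    (hqM : ¬ q ∣ M) (𝔫 : Ideal (h92c_Chart A (M * q * q) (jB (M * q * q))))
    (x : FF (M * q * q)) (a₀ a₁ a₂ : Kbar) : Prop :=
  h11t_cBV A (jB (M * q * q)) 𝔫 (h20n_E20 M q) x a₀ ∧
  (∀ (ζ : Kbar) (E : FF (M * q * q) →+* LaurentSeries Kbar), IsPrimitiveRoot ζ q →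
    h20n_IsE11 M q hq hqM ζ E → h11t_cBV A (jB (M * q * q)) 𝔫 E x a₁) ∧
  (∀ E : FF (M * q * q) →+* LaurentSeries Kbar, h20n_IsE02 M q hq hqM E →
    h11t_cBV A (jB (M * q * q)) 𝔫 E x a₂)

/-! ## The leaves -/

/-- **T-BASIC** (BASE / V).  (1) the constants of `A₀` lie in the charts `j` of the levels
`M q`, `M q q`; (2), (3) the charts are Gauss-integral at the vertical embeddings; (4) a non-unit
of `A₀` is divisible by `q` in `A₀`; (5) the roots of unity of order prime to `q` are units of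
`A₀`; (6) the norms along `α`, `β` of an `I`-invariant function are `I`-invariant. -/
def H11TorBasic : Prop :=
  ∀ (q : ℕ) (hq : q.Prime) (M : ℕ) [NeZero M] (hqM : ¬ q ∣ M), auxLevel q ∣ M →
    haveI : NeZero q := ⟨hq.ne_zero⟩
    ∀ A : ValuationSubring Kbar, A.LiesOverPrime q →
    (∀ a : Kbar, a ∈ A → (∀ σ ∈ A.inertiaSubgroupIn ℚ, σ a = a) →
      cst (M * q * q) a ∈ h92c_Chart A (M * q * q) (jB (M * q * q)) ∧
      cst (M * q) a ∈ h92c_Chart A (M * q) (jB (M * q))) ∧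
    (∀ b ∈ h92c_Chart A (M * q * q) (jB (M * q * q)),
      ∀ E : FF (M * q * q) →+* LaurentSeries Kbar, h11l_IsVE M q hq hqM E →
        E b ∈ softOT A (IsLocalRing.residue A)) ∧
    (∀ b ∈ h92c_Chart A (M * q) (jB (M * q)),
      h11t_Einf M q b ∈ softOT A (IsLocalRing.residue A) ∧
      h11t_Ezero M q hq hqM b ∈ softOT A (IsLocalRing.residue A)) ∧
    (∀ a : Kbar, a ∈ A → a⁻¹ ∉ A → (∀ σ ∈ A.inertiaSubgroupIn ℚ, σ a = a) →
      ∃ a' : Kbar, a' ∈ A ∧ (∀ σ ∈ A.inertiaSubgroupIn ℚ, σ a' = a') ∧ a = (q : Kbar) * a') ∧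
    (∀ (m : ℕ) (ξ : Kbar), ¬ q ∣ m → ξ ^ m = 1 → h11t_IsC A ξ) ∧
    (∀ x : FF (M * q * q), x ∈ h92c_F0 A (M * q * q) →
      normAlong (heckeAlphaBar Kbar (M * q) q) x ∈ h92c_F0 A (M * q) ∧
      normAlong (heckeBetaBar Kbar (M * q) q) x ∈ h92c_F0 A (M * q))

/-- **T-ROOT** (R + D + V).  At a supersingular point, a function `w ∈ F₀ ∩ (1 + q V₀)` with
`m ∣ div w` has a local `m`-th root with constant branch values along the three branches. -/
def H11TorRoot : Prop :=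
  ∀ (q : ℕ) (hq : q.Prime) (M : ℕ) [NeZero M] (hqM : ¬ q ∣ M), auxLevel q ∣ M →
    haveI : NeZero q := ⟨hq.ne_zero⟩
    ∀ A : ValuationSubring Kbar, A.LiesOverPrime q →
    ∀ m : ℕ, ¬ q ∣ m → ∀ w : FF (M * q * q), w ≠ 0 →
      w ∈ h92c_F0 A (M * q * q) → w ∈ h92c_U A M q →
      (∀ v : Place Kbar (FF (M * q * q)), (m : ℤ) ∣ v.ord w) →
      ∀ 𝔫 : Ideal (h92c_Chart A (M * q * q) (jB (M * q * q))), h11t_IsSS A M q 𝔫 →
        ∃ G : FF (M * q * q), h11l_RootAt A (jB (M * q * q)) 𝔫 m w G ∧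
          ∃ a₀ a₁ a₂ : Kbar, h11t_IsC A a₀ ∧ h11t_IsC A a₁ ∧ h11t_IsC A a₂ ∧
            h11t_BV3 A M q hq hqM 𝔫 G a₀ a₁ a₂

/-- **T-PT** (R).  Under a supersingular point of level `M q q` lie nodes of level `M q`, along
`α` and along `β`. -/
def H11TorPt : Prop :=
  ∀ (q : ℕ) (hq : q.Prime) (M : ℕ) [NeZero M] (hqM : ¬ q ∣ M), auxLevel q ∣ M →
    haveI : NeZero q := ⟨hq.ne_zero⟩
    ∀ A : ValuationSubring Kbar, A.LiesOverPrime q →
    ∀ 𝔫 : Ideal (h92c_Chart A (M * q * q) (jB (M * q * q))), h11t_IsSS A M q 𝔫 →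
      (∃ 𝔫a, h11t_NodeUnder A M q hq hqM (heckeAlphaBar Kbar (M * q) q) 𝔫a 𝔫) ∧
      (∃ 𝔫b, h11t_NodeUnder A M q hq hqM (heckeBetaBar Kbar (M * q) q) 𝔫b 𝔫)

/-- **T-NORM-α** (N + R-TOWER-SS).  The branch norm formula for `α` at a supersingular point:
`bv_∞ (Nα x) = a₀ a₁^(q-1)`, `bv_0 (Nα x) = a₂^q`. -/
def H11TorNormA : Prop :=
  ∀ (q : ℕ) (hq : q.Prime) (M : ℕ) [NeZero M] (hqM : ¬ q ∣ M), auxLevel q ∣ M →
    haveI : NeZero q := ⟨hq.ne_zero⟩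
    ∀ A : ValuationSubring Kbar, A.LiesOverPrime q →
    ∀ 𝔫 : Ideal (h92c_Chart A (M * q * q) (jB (M * q * q))), h11t_IsSS A M q 𝔫 →
    ∀ 𝔫a, h11t_NodeUnder A M q hq hqM (heckeAlphaBar Kbar (M * q) q) 𝔫a 𝔫 →
    ∀ x : FF (M * q * q), x ∈ h92c_F0 A (M * q * q) →
    ∀ a₀ a₁ a₂ : Kbar, h11t_IsC A a₀ → h11t_IsC A a₁ → h11t_IsC A a₂ →
      h11t_BV3 A M q hq hqM 𝔫 x a₀ a₁ a₂ →
        h11t_cBV A (jB (M * q)) 𝔫a (h11t_Einf M q)
          (normAlong (heckeAlphaBar Kbar (M * q) q) x) (a₀ * a₁ ^ (q - 1)) ∧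
        h11t_cBV A (jB (M * q)) 𝔫a (h11t_Ezero M q hq hqM)
          (normAlong (heckeAlphaBar Kbar (M * q) q) x) (a₂ ^ q)

/-- **T-NORM-β** (N + R-TOWER-SS).  The branch norm formula for `β` at a supersingular point:
`bv_∞ (Nβ x) = a₀^q`, `bv_0 (Nβ x) = a₁^(q-1) a₂`. -/
def H11TorNormB : Prop :=
  ∀ (q : ℕ) (hq : q.Prime) (M : ℕ) [NeZero M] (hqM : ¬ q ∣ M), auxLevel q ∣ M →
    haveI : NeZero q := ⟨hq.ne_zero⟩
    ∀ A : ValuationSubring Kbar, A.LiesOverPrime q →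
    ∀ 𝔫 : Ideal (h92c_Chart A (M * q * q) (jB (M * q * q))), h11t_IsSS A M q 𝔫 →
    ∀ 𝔫b, h11t_NodeUnder A M q hq hqM (heckeBetaBar Kbar (M * q) q) 𝔫b 𝔫 →
    ∀ x : FF (M * q * q), x ∈ h92c_F0 A (M * q * q) →
    ∀ a₀ a₁ a₂ : Kbar, h11t_IsC A a₀ → h11t_IsC A a₁ → h11t_IsC A a₂ →
      h11t_BV3 A M q hq hqM 𝔫 x a₀ a₁ a₂ →
        h11t_cBV A (jB (M * q)) 𝔫b (h11t_Einf M q)
          (normAlong (heckeBetaBar Kbar (M * q) q) x) (a₀ ^ q) ∧
        h11t_cBV A (jB (M * q)) 𝔫b (h11t_Ezero M q hq hqM)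
          (normAlong (heckeBetaBar Kbar (M * q) q) x) (a₁ ^ (q - 1) * a₂)

/-- **T-UNIT** (R).  The norms of a unit of the local ring at a supersingular point are units
at the nodes below it. -/
def H11TorUnit : Prop :=
  ∀ (q : ℕ) (hq : q.Prime) (M : ℕ) [NeZero M] (hqM : ¬ q ∣ M), auxLevel q ∣ M →
    haveI : NeZero q := ⟨hq.ne_zero⟩
    ∀ A : ValuationSubring Kbar, A.LiesOverPrime q →
    ∀ 𝔫 : Ideal (h92c_Chart A (M * q * q) (jB (M * q * q))), h11t_IsSS A M q 𝔫 →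
    ∀ u : FF (M * q * q), u ∈ h92c_F0 A (M * q * q) → h11t_UnitAt A (jB (M * q * q)) 𝔫 u →
      (∀ 𝔫a, h11t_NodeUnder A M q hq hqM (heckeAlphaBar Kbar (M * q) q) 𝔫a 𝔫 →
        h11t_UnitAt A (jB (M * q)) 𝔫a (normAlong (heckeAlphaBar Kbar (M * q) q) u)) ∧
      (∀ 𝔫b, h11t_NodeUnder A M q hq hqM (heckeBetaBar Kbar (M * q) q) 𝔫b 𝔫 →
        h11t_UnitAt A (jB (M * q)) 𝔫b (normAlong (heckeBetaBar Kbar (M * q) q) u))

/-- **T-NORMAL** (BASE).  The chart `j` of level `M q` is root closed in `F₀'`. -/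
def H11TorNormal : Prop :=
  ∀ (q : ℕ) (hq : q.Prime) (M : ℕ) [NeZero M], ¬ q ∣ M → auxLevel q ∣ M →
    haveI : NeZero q := ⟨hq.ne_zero⟩
    ∀ A : ValuationSubring Kbar, A.LiesOverPrime q →
    ∀ (m : ℕ), 0 < m → ∀ x : FF (M * q), x ∈ h92c_F0 A (M * q) →
      x ^ m ∈ h92c_Chart A (M * q) (jB (M * q)) → x ∈ h92c_Chart A (M * q) (jB (M * q))

/-- **T-GLOB** (D-POW + N + V).  The norms of a new function `w ∈ F₀ ∩ (1 + q V₀)` are `m`-th
powers of functions of `F₀'` which are congruent to `m`-th roots of unity along `C_∞`, `C_0`. -/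
def H11TorGlob : Prop :=
  ∀ (q : ℕ) (hq : q.Prime) (M : ℕ) [NeZero M] (hqM : ¬ q ∣ M), auxLevel q ∣ M →
    haveI : NeZero q := ⟨hq.ne_zero⟩
    ∀ A : ValuationSubring Kbar, A.LiesOverPrime q →
    ∀ m : ℕ, ¬ q ∣ m → ∀ w : FF (M * q * q),
      w ∈ h92c_F0 A (M * q * q) → w ∈ h92c_U A M q → h92c_New M q m w →
      ∀ φ : FF (M * q) →ₐ[Kbar] FF (M * q * q),
        φ = heckeAlphaBar Kbar (M * q) q ∨ φ = heckeBetaBar Kbar (M * q) q →
        ∃ g : FF (M * q), g ∈ h92c_F0 A (M * q) ∧ g ≠ 0 ∧ normAlong φ w = g ^ m ∧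
          ∃ ξ ξ' : Kbar, ξ ^ m = 1 ∧ ξ' ^ m = 1 ∧
            h11l_Small A (h11t_Einf M q) (g - cst (M * q) ξ) ∧
            h11l_Small A (h11t_Ezero M q hq hqM) (g - cst (M * q) ξ')

/-- **T-TWIST** (V, weak approximation).  For `m`-th roots of unity `ξ₁, ξ₂` there is a
function `h ∈ F₀` with `h ≡ 1` along `W20`, `h ≡ ξ₁` along `W11`, `h ≡ ξ₂` along `W02`. -/
def H11TorTwist : Prop :=
  ∀ (q : ℕ) (hq : q.Prime) (M : ℕ) [NeZero M] (hqM : ¬ q ∣ M), auxLevel q ∣ M →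
    haveI : NeZero q := ⟨hq.ne_zero⟩
    ∀ A : ValuationSubring Kbar, A.LiesOverPrime q →
    ∀ m : ℕ, ¬ q ∣ m → ∀ ξ₁ ξ₂ : Kbar, ξ₁ ^ m = 1 → ξ₂ ^ m = 1 →
      ∃ h : FF (M * q * q), h ∈ h92c_F0 A (M * q * q) ∧ h ≠ 0 ∧
        h11l_Small A (h20n_E20 M q) (h - 1) ∧
        (∀ (ζ : Kbar) (E : FF (M * q * q) →+* LaurentSeries Kbar), IsPrimitiveRoot ζ q →
          h20n_IsE11 M q hq hqM ζ E → h11l_Small A E (h - cst (M * q * q) ξ₁)) ∧
        (∀ E : FF (M * q * q) →+* LaurentSeries Kbar, h20n_IsE02 M q hq hqM E →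
          h11l_Small A E (h - cst (M * q * q) ξ₂))

/-- **T-UQ** (V).  `(1 + y)^q ∈ 1 + q V₀` for `y ∈ F₀` Gauss-small at all the vertical
embeddings. -/
def H11TorUQ : Prop :=
  ∀ (q : ℕ) (hq : q.Prime) (M : ℕ) [NeZero M] (hqM : ¬ q ∣ M), auxLevel q ∣ M →
    haveI : NeZero q := ⟨hq.ne_zero⟩
    ∀ A : ValuationSubring Kbar, A.LiesOverPrime q →
    ∀ y : FF (M * q * q), y ∈ h92c_F0 A (M * q * q) →
      (∀ E : FF (M * q * q) →+* LaurentSeries Kbar, h11l_IsVE M q hq hqM E →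
        h11l_Small A E y) →
      (1 + y) ^ q ∈ h92c_U A M q

end Fermat.Agent.S36
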