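import Fermat.Agent.S36.Skeleton
import Fermat.Agent.S36.H53DescIface
import Fermat.Agent.Red.GV.Bar

/-!
# S36, GEOM36: the chain of the blocks (D) → (V, N) → (R, T) → (G) and its assembly (helper92)

Target: `InertiaGate` (frozen in `S36/Skeleton.lean`, helper37).  This file fixes the CONTRACT
between the blocks, in elementwise form inside `FF N` (no new types; every block may work in
its own vocabulary and translate at the end), and proves the assembly
`h92c_inertiaGate_of : H92Desc → H92Vert → H92Loc → H92Gate → InertiaGate`.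

## Setting

`q` a prime, `q ∤ M`, `N = M * q * q`, `A` a valuation subring of `ℚ̄` over `q`,
`I = A.inertiaSubgroupIn ℚ`, `α, β : FF (M * q) → FF (M * q * q)`.

* `h92c_F0 A N` (`F₀`) `= h53d_F0 N I`: the functions fixed by `I`.
* `h92c_V A M q` (`V`): the functions of `FF N` integral over the Gauss valuation ring
  `gaussV A M` of the level `M` (`q ∤ M`); it is the intersection of the valuation rings
  `W₂₀`, `W₁₁^ζ`, `W₀₂` of `H20NormSkel`.  `h92c_V0 = V ∩ F₀`, `h92c_U = 1 + q V₀`.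
* `h92c_Chart A N t` (`B₀(t)`): the functions of `F₀` integral over `A[t]`, `t = j, j⁻¹`.
* `h92c_LocalDatum`: the SEMI-LOCAL datum of the landed gate `h13g_gate_asm_semi`
  (`S36/H13GateSemi.lean`) at the closed points of the special fibre of a chart.
* `h92c_New`: `u ≠ 0`, `m ∣ div u`, the norms of `u` along `α` and `β` are `m`-th powers.

## The blocks

* `H92Desc` (D): a function with `I`-invariant class is an `I`-invariant function times an
  `m`-th power (true with `t = 1`: landed `h17d_desc_tors` / `h79d_descent`).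
* `H92Vert` (V + N): an `I`-invariant new function is, up to the exponent `t = q² - 1` and an
  `m`-th power, in `1 + q V₀`.
* `H92Loc` (R + T): an `I`-invariant new function of `1 + q V₀` has, up to a bounded exponent
  and the `m`-th power of a function of `F₀`, the semi-local datum at every closed point of the
  special fibre of both charts.
* `H92Gate` (G): an `I`-invariant function of `1 + q V₀` with `m ∣ div w` and the semi-local
  datum is an `m`-th power.
-/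

set_option autoImplicit false

open AlgebraicCurve ModularCurve

noncomputable section

namespace Fermat.Agent.S36

open Fermat.Agent.S37 (Kbar GQ FF cst jB gal modelAt degen auxLevel)
open Fermat.Agent.Red.KR (normAlong)
open Fermat.Agent.Red.GV (gaussV)

/-! ## Definitions -/

/-- `F₀`: the subfield of `FF N` of the functions fixed by the inertia group of `A`. -/
abbrev h92c_F0 (A : ValuationSubring Kbar) (N : ℕ) : Subfield (FF N) :=
  h53d_F0 N (A.inertiaSubgroupIn ℚ)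

theorem h92c_dvd (M q : ℕ) : M ∣ M * q * q := ⟨q * q, by ring⟩

/-- the Gauss valuation ring of the level `M`, inside `FF (M * q * q)`. -/
def h92c_G (A : ValuationSubring Kbar) (M q : ℕ) [NeZero M] [NeZero q] :
    Subring (FF (M * q * q)) :=
  (gaussV A M).map (degen (h92c_dvd M q)).toRingHom

/-- `V`: the functions of `FF (M * q * q)` integral over the Gauss valuation ring of the
level `M`. -/
def h92c_V (A : ValuationSubring Kbar) (M q : ℕ) [NeZero M] [NeZero q] :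
    Subring (FF (M * q * q)) :=
  (integralClosure (h92c_G A M q) (FF (M * q * q))).toSubring

/-- `V₀ = V ∩ F₀`. -/
def h92c_V0 (A : ValuationSubring Kbar) (M q : ℕ) [NeZero M] [NeZero q] :
    Subring (FF (M * q * q)) :=
  h92c_V A M q ⊓ (h92c_F0 A (M * q * q)).toSubring

/-- `1 + q V₀`. -/
def h92c_U (A : ValuationSubring Kbar) (M q : ℕ) [NeZero M] [NeZero q] :
    Set (FF (M * q * q)) :=
  {x | ∃ y ∈ h92c_V0 A M q, x = 1 + (q : FF (M * q * q)) * y}

/-- `B₀(t)`: the functions of `F₀` integral over `A[t]`. -/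
def h92c_Chart (A : ValuationSubring Kbar) (N : ℕ) (t : FF N) : Subring (FF N) :=
  modelAt N A t ⊓ (h92c_F0 A N).toSubring

/-- the semi-local datum of the gate for `w` at the closed points of the special fibre of the
chart `B₀(t)`: locally at `𝔫 ∋ q`, `w = g ^ m * unit` with `g ∈ F₀`, `g ≡ 1` modulo `q` at the
components through `𝔫`. -/
def h92c_LocalDatum (A : ValuationSubring Kbar) (M q : ℕ) [NeZero M] [NeZero q]
    (t : FF (M * q * q)) (m : ℕ) (w : FF (M * q * q)) : Prop :=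
  ∀ 𝔫 : Ideal (h92c_Chart A (M * q * q) t), 𝔫.IsMaximal →
    ((q : ℕ) : h92c_Chart A (M * q * q) t) ∈ 𝔫 →
    ∃ g : FF (M * q * q), g ∈ h92c_F0 A (M * q * q) ∧ g ≠ 0 ∧
      ∃ s : h92c_Chart A (M * q * q) t, s ∉ 𝔫 ∧
        (∃ y ∈ h92c_V0 A M q, (s : FF (M * q * q)) * (g - 1) = (q : FF (M * q * q)) * y) ∧
        (s : FF (M * q * q)) * (w * (g ^ m)⁻¹) ∈ h92c_Chart A (M * q * q) t ∧
        (s : FF (M * q * q)) * (g ^ m * w⁻¹) ∈ h92c_Chart A (M * q * q) t

/-- `u` is "new of exponent `m`": `u ≠ 0`, `m ∣ div u`, and the norms of `u` along `α` and `β`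
are `m`-th powers. -/
def h92c_New (M q m : ℕ) [NeZero M] [NeZero q] (u : FF (M * q * q)) : Prop :=
  u ≠ 0 ∧ (∀ v : Place Kbar (FF (M * q * q)), (m : ℤ) ∣ v.ord u) ∧
    (∃ h : FF (M * q), normAlong (heckeAlphaBar Kbar (M * q) q) u = h ^ m) ∧
    (∃ h : FF (M * q), normAlong (heckeBetaBar Kbar (M * q) q) u = h ^ m)

/-! ## The four blocks -/

/-- **(D).**  A function whose class is `I`-invariant is an `I`-invariant function times an
`m`-th power (up to a bounded exponent; true with `t = 1`). -/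
def H92Desc : Prop :=
  ∀ (q : ℕ) (hq : q.Prime) (M : ℕ) [NeZero M], ¬ q ∣ M → auxLevel q ∣ M →
    haveI : NeZero q := ⟨hq.ne_zero⟩
    ∀ A : ValuationSubring Kbar, A.LiesOverPrime q →
    ∃ t : ℕ, 0 < t ∧ ∀ m : ℕ, ¬ q ∣ m → ∀ u : FF (M * q * q), u ≠ 0 →
      (∀ v : Place Kbar (FF (M * q * q)), (m : ℤ) ∣ v.ord u) →
      (∀ σ ∈ A.inertiaSubgroupIn ℚ,
        ∃ h : FF (M * q * q), gal (M * q * q) σ • u = h ^ m * u) →
        ∃ u₀ h : FF (M * q * q), u₀ ∈ h92c_F0 A (M * q * q) ∧ h ≠ 0 ∧ u ^ t = u₀ * h ^ m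

/-- **(V) + (N).**  An `I`-invariant new function is, up to a bounded exponent `t` and an
`m`-th power, congruent to `1` modulo `q` along the whole special fibre.
(`t = q² - 1`: the valuations of the norms give `(q + 1) v_i(u) ≡ (q + 1) v₂₀(u) v_i(q)` modulo
`m`; the residues of the norms give that `r₂₀`, `r₀₂`, `r₁₁ ^ (q - 1)` are `m`-th powers;
approximation; `(1 + J) / (1 + q V₀)` is uniquely `m`-divisible.) -/
def H92Vert : Prop :=
  ∀ (q : ℕ) (hq : q.Prime) (M : ℕ) [NeZero M], ¬ q ∣ M → auxLevel q ∣ M →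
    haveI : NeZero q := ⟨hq.ne_zero⟩
    ∀ A : ValuationSubring Kbar, A.LiesOverPrime q →
    ∃ t : ℕ, 0 < t ∧ ∀ m : ℕ, ¬ q ∣ m → ∀ u : FF (M * q * q),
      u ∈ h92c_F0 A (M * q * q) → h92c_New M q m u →
        ∃ g w : FF (M * q * q), g ≠ 0 ∧ w ∈ h92c_F0 A (M * q * q) ∧ w ∈ h92c_U A M q ∧
          u ^ t = g ^ m * w

/-- **(R) + (T).**  An `I`-invariant new function `w ∈ 1 + q V₀` has, up to a bounded exponent
`t` and the `m`-th power of a function of `F₀`, the semi-local datum of the gate at every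
closed point of the special fibre of the two charts of the normal model over `A₀`. -/
def H92Loc : Prop :=
  ∀ (q : ℕ) (hq : q.Prime) (M : ℕ) [NeZero M], ¬ q ∣ M → auxLevel q ∣ M →
    haveI : NeZero q := ⟨hq.ne_zero⟩
    ∀ A : ValuationSubring Kbar, A.LiesOverPrime q →
    ∃ t : ℕ, 0 < t ∧ ∀ m : ℕ, ¬ q ∣ m → ∀ w : FF (M * q * q),
      w ∈ h92c_F0 A (M * q * q) → w ∈ h92c_U A M q → h92c_New M q m w →
        ∃ f : FF (M * q * q), f ∈ h92c_F0 A (M * q * q) ∧ f ≠ 0 ∧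
          w ^ t * f ^ m ∈ h92c_U A M q ∧
          h92c_LocalDatum A M q (jB (M * q * q)) m (w ^ t * f ^ m) ∧
          h92c_LocalDatum A M q (jB (M * q * q))⁻¹ m (w ^ t * f ^ m)

/-- **(G).**  An `I`-invariant function `w ∈ 1 + q V₀` with `m ∣ div w` and the semi-local
datum at every closed point of the special fibre of the two charts is an `m`-th power.
(`h13g_gate_asm_semi` over `A₀`, `F₀`, `V₀`; then `t ^ m / w` is a constant.) -/
def H92Gate : Prop :=
  ∀ (q : ℕ) (hq : q.Prime) (M : ℕ) [NeZero M], ¬ q ∣ M → auxLevel q ∣ M →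
    haveI : NeZero q := ⟨hq.ne_zero⟩
    ∀ A : ValuationSubring Kbar, A.LiesOverPrime q →
    ∀ m : ℕ, ¬ q ∣ m → ∀ w : FF (M * q * q), w ≠ 0 →
      w ∈ h92c_F0 A (M * q * q) → w ∈ h92c_U A M q →
      (∀ v : Place Kbar (FF (M * q * q)), (m : ℤ) ∣ v.ord w) →
      h92c_LocalDatum A M q (jB (M * q * q)) m w →
      h92c_LocalDatum A M q (jB (M * q * q))⁻¹ m w →
        ∃ h : FF (M * q * q), h ^ m = w

/-! ## Norms and orders of products -/

section Norm

variable {K F F' : Type*} [Field K] [Field F] [Field F'] [Algebra K F] [Algebra K F']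

theorem h92c_norm_one (φ : F →ₐ[K] F') : normAlong φ (1 : F') = 1 := by
  have h := Fermat.Agent.Red.KR.normAlong_map φ (1 : F)
  rwa [map_one, one_pow] at h

theorem h92c_norm_pow (φ : F →ₐ[K] F') (y : F') (n : ℕ) :
    normAlong φ (y ^ n) = normAlong φ y ^ n := by
  induction n with
  | zero => rw [pow_zero, pow_zero, h92c_norm_one]
  | succ k ih => rw [pow_succ, pow_succ, Fermat.Agent.Red.KR.normAlong_mul, ih]

theorem h92c_norm_ne_zero (φ : F →ₐ[K] F') {y : F'} (hy : y ≠ 0) : normAlong φ y ≠ 0 := by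
  intro h
  have h1 := Fermat.Agent.Red.KR.normAlong_mul φ y y⁻¹
  rw [mul_inv_cancel₀ hy, h92c_norm_one, h, zero_mul] at h1
  exact one_ne_zero h1

/-- if `x ^ t = y * h ^ m` and the norm of `x` is an `m`-th power, so is the norm of `y`. -/
theorem h92c_norm_of_eq (φ : F →ₐ[K] F') {x y h : F'} {t m : ℕ} (hh : h ≠ 0)
    (hxy : x ^ t = y * h ^ m) (hx : ∃ k : F, normAlong φ x = k ^ m) :
    ∃ k : F, normAlong φ y = k ^ m := by
  obtain ⟨k, hk⟩ := hx
  have h1 : normAlong φ x ^ t = normAlong φ y * normAlong φ h ^ m := by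
    rw [← h92c_norm_pow, hxy, Fermat.Agent.Red.KR.normAlong_mul, h92c_norm_pow]
  have h2 : normAlong φ h ≠ 0 := h92c_norm_ne_zero φ hh
  refine ⟨k ^ t * (normAlong φ h)⁻¹, ?_⟩
  rw [mul_pow, inv_pow, ← pow_mul, mul_comm t m, pow_mul, ← hk, h1]
  field_simp

end Norm

theorem h92c_ord_pow {N : ℕ} (v : Place Kbar (FF N)) (x : FF N) (n : ℕ) :
    v.ord (x ^ n) = n * v.ord x := by
  have h := v.ord_zpow x (n : ℤ)
  rwa [zpow_natCast] at h

/-- if `x ^ t = y * h ^ m` and `m ∣ div x` then `m ∣ div y`. -/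
theorem h92c_ord_of_eq {N : ℕ} (v : Place Kbar (FF N)) {x y h : FF N} {t m : ℕ}
    (hy : y ≠ 0) (hh : h ≠ 0) (hxy : x ^ t = y * h ^ m) (hx : (m : ℤ) ∣ v.ord x) :
    (m : ℤ) ∣ v.ord y := by
  have h1 : v.ord (x ^ t) = v.ord y + v.ord (h ^ m) := by
    rw [hxy, v.ord_mul hy (pow_ne_zero _ hh)]
  rw [h92c_ord_pow, h92c_ord_pow] at h1
  have h2 : v.ord y = t * v.ord x - m * v.ord h := by linarith
  rw [h2]
  exact dvd_sub (Dvd.dvd.mul_left hx _) (dvd_mul_right _ _)

/-- newness passes from `x` to `y` if `x ^ t = y * h ^ m`. -/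
theorem h92c_new_of_eq {M q m t : ℕ} [NeZero M] [NeZero q] {x y h : FF (M * q * q)}
    (hy : y ≠ 0) (hh : h ≠ 0) (hxy : x ^ t = y * h ^ m) (hx : h92c_New M q m x) :
    h92c_New M q m y :=
  ⟨hy, fun v => h92c_ord_of_eq v hy hh hxy (hx.2.1 v), h92c_norm_of_eq _ hh hxy hx.2.2.1,
    h92c_norm_of_eq _ hh hxy hx.2.2.2⟩

/-! ## The assembly -/

/-- **GATE36-ASM.**  The inertia gate at the good levels from the four blocks. -/
theorem h92c_inertiaGate_of (hD : H92Desc) (hV : H92Vert) (hL : H92Loc) (hG : H92Gate) :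
    InertiaGate := by
  intro q hq M _ hqM haux
  haveI : NeZero q := ⟨hq.ne_zero⟩
  intro A hA
  obtain ⟨t₁, ht₁, hD'⟩ := hD q hq M hqM haux A hA
  obtain ⟨t₂, ht₂, hV'⟩ := hV q hq M hqM haux A hA
  obtain ⟨t₃, ht₃, hL'⟩ := hL q hq M hqM haux A hA
  refine ⟨t₁ * t₂ * t₃, Nat.mul_pos (Nat.mul_pos ht₁ ht₂) ht₃, ?_⟩
  intro m hm u hu hord hinv hα hβ
  -- (D)
  obtain ⟨u₀, h₁, hu₀F, hh₁, hu₀⟩ := hD' m hm u hu hord hinv
  have hu₀0 : u₀ ≠ 0 := by
    rintro rfl
    rw [zero_mul] at hu₀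
    exact hu (pow_eq_zero_iff (Nat.pos_iff_ne_zero.mp ht₁) |>.mp hu₀)
  have hnew₀ : h92c_New M q m u₀ := h92c_new_of_eq hu₀0 hh₁ hu₀ ⟨hu, hord, hα, hβ⟩
  -- (V) + (N)
  obtain ⟨g, w, hg, hwF, hwU, hw⟩ := hV' m hm u₀ hu₀F hnew₀
  have hw0 : w ≠ 0 := by
    rintro rfl
    rw [mul_zero] at hw
    exact hu₀0 (pow_eq_zero_iff (Nat.pos_iff_ne_zero.mp ht₂) |>.mp hw)
  have hnew₁ : h92c_New M q m w :=
    h92c_new_of_eq hw0 hg (hw.trans (mul_comm _ _)) hnew₀
  -- (R) + (T)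
  obtain ⟨f, hfF, hf, hw'U, hloc₀, hloc₁⟩ := hL' m hm w hwF hwU hnew₁
  have hw'0 : w ^ t₃ * f ^ m ≠ 0 := mul_ne_zero (pow_ne_zero _ hw0) (pow_ne_zero _ hf)
  have hw'F : w ^ t₃ * f ^ m ∈ h92c_F0 A (M * q * q) :=
    mul_mem (pow_mem hwF _) (pow_mem hfF _)
  have hw'ord : ∀ v : Place Kbar (FF (M * q * q)), (m : ℤ) ∣ v.ord (w ^ t₃ * f ^ m) := by
    intro v
    rw [v.ord_mul (pow_ne_zero _ hw0) (pow_ne_zero _ hf), h92c_ord_pow, h92c_ord_pow]
    exact dvd_add (Dvd.dvd.mul_left (hnew₁.2.1 v) _) (dvd_mul_right _ _)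
  -- (G)
  obtain ⟨h₄, hh₄⟩ := hG q hq M hqM haux A hA m hm _ hw'0 hw'F hw'U hw'ord hloc₀ hloc₁
  refine ⟨h₁ ^ (t₂ * t₃) * g ^ t₃ * h₄ * f⁻¹, ?_⟩
  have e1 : u ^ (t₁ * t₂ * t₃) = (u₀ ^ t₂) ^ t₃ * (h₁ ^ (t₂ * t₃)) ^ m := by
    rw [pow_mul, pow_mul, hu₀, mul_pow, mul_pow]
    ring
  have e2 : (u₀ ^ t₂) ^ t₃ = (g ^ t₃) ^ m * w ^ t₃ := by
    rw [hw, mul_pow]
    ring
  have e3 : w ^ t₃ = h₄ ^ m * (f⁻¹) ^ m := by
    rw [hh₄, inv_pow]
    exact (mul_inv_cancel_right₀ (pow_ne_zero m hf) _).symm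
  rw [e1, e2, e3]
  ring

end Fermat.Agent.S36
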