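import Fermat.Agent.S36.H20NormSkel
import Fermat.Agent.S36.H92Chain

/-!
# S36, block (V) + (N): frozen leaves of `H92Vert` (helper20; hand-off N → G)

Target: `H92Vert` of `S36/H92Chain.lean` (helper92): an `I`-invariant new function `u` of level
`M q q` is, up to the exponent `t = q² - 1` and an `m`-th power, in `1 + q V₀`.
Every declaration is a definition or a frozen interface `Prop`; nothing is assumed.
Every leaf carries the hypothesis `auxLevel q ∣ M` of `H92Vert` (use it or ignore it).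

Language: the three vertical embeddings `E20` (`h20n_E20`), `E11 = E11^ζ` (`h20n_IsE11`),
`E02` (`h20n_IsE02`) of `F₂ = FF (M q q)` into `ℚ̄((t))` (`S36/H20NormSkel.lean`; they exist:
`h20n_embExists`), `G = softOT A` the Gauss ring of `ℚ̄((t))`, `F₀ = h92c_F0` the functions
fixed by inertia.  The uniformisers are `q` at `E20`, `E02` and `1 - ζ` at `E11`.

## The chain (blueprint BP3 = finding 1020, audit 1056 gaps G1-G3)

* (L2) `H20Val` : every `0 ≠ u ∈ F₀` has integral valuations `(n₂₀, n₁₁, n₀₂)`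
  (`h20v_HasVal`: `π_E ^ n_E · u` is a unit of `G` at `E`).
* (L3) `H20CompGroup` : if `u ∈ F₀` is new then `m ∣ n₂₀ + n₁₁ - q n₀₂` and
  `m ∣ q n₂₀ - n₁₁ - n₀₂` (valuations of the norm formulas (a)-(d); `DescPow`); by
  `h10n_arith`, `(q + 1) (n₂₀, n₁₁, n₀₂) ≡ a (1, q - 1, 1)` modulo `m`.
* (L4) `H20ApproxVal` : there are functions of `F₀` with prescribed valuations.
  Hence `u₂ = q^a u^(q+1) / h₁^m` is a unit at the three valuations.
* (L5) `H20Roots` : a new unit `u₂ ∈ F₀` has local `m`-th roots in `F₀`: `u₂ ≡ g₂₀^m` at `E20`,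
  `u₂ ≡ g₀₂^m` at `E02`, `u₂^(q-1) ≡ g₁₁^m` at `E11` (`H20RedA/B/D`, `H20Frob`, `H20Root`).
* (L6) `H20ApproxRes` : there are functions of `F₀` with prescribed residues.
  Hence `w₀ = u₂^(q-1) / h₀^m ≡ 1` at the three valuations.
* (L7) `H20Unip` : `w₀ ≡ 1` at the three valuations ⟹ `w₀ / h^m = 1 + q y`, `y ∈ F₀` integral
  at the three valuations (Newton iteration along the non-reduced component `W₁₁`).
* (L1) `H20VComplete` : `y ∈ F₀` integral at the three valuations ⟹ `y ∈ h92c_V` (the three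
  valuations and their conjugates are ALL the valuations over the Gauss valuation of level `M`).
* (L8) `H20VertAssembly`.
-/

set_option autoImplicit false

open AlgebraicCurve ModularCurve

noncomputable section

namespace Fermat.Agent.S36

open Fermat.Agent.S37 (Kbar GQ FF cst gal auxLevel)
open Fermat.Agent.Red.KR (normAlong)
open Fermat.Agent.Red.GV.Soft (softOT)

/-! ## Definitions -/

/-- the Gauss ring `G` of `ℚ̄((t))`. -/
abbrev h20v_G (A : ValuationSubring Kbar) : Subring (LaurentSeries Kbar) :=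
  softOT A (IsLocalRing.residue A)

/-- `s` is a unit of the Gauss ring: `s ≠ 0`, `s ∈ G`, `s⁻¹ ∈ G`. -/
def h20v_Unit (A : ValuationSubring Kbar) (s : LaurentSeries Kbar) : Prop :=
  s ≠ 0 ∧ s ∈ h20v_G A ∧ s⁻¹ ∈ h20v_G A

section Level

variable (M q : ℕ) [NeZero M] [NeZero q]

/-- a vertical triple: a primitive `q`-th root of unity `ζ` and embeddings `E11 = E11^ζ`,
`E02` of `FF (M q q)` (the third embedding is `h20n_E20`). -/
structure h20v_Triple (hq : q.Prime) (hqM : ¬ q ∣ M) (ζ : Kbar)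
    (E11 E02 : FF (M * q * q) →+* LaurentSeries Kbar) : Prop where
  prim : IsPrimitiveRoot ζ q
  e11 : h20n_IsE11 M q hq hqM ζ E11
  e02 : h20n_IsE02 M q hq hqM E02

/-- `u` has the valuations `(-n₂₀, -n₁₁, -n₀₂)` at `(E20, E11, E02)`: `q ^ n₂₀ · u`,
`(1 - ζ) ^ n₁₁ · u`, `q ^ n₀₂ · u` are units of the Gauss ring at `E20`, `E11`, `E02`. -/
def h20v_HasVal (A : ValuationSubring Kbar) (ζ : Kbar)
    (E11 E02 : FF (M * q * q) →+* LaurentSeries Kbar) (u : FF (M * q * q))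
    (n₂₀ n₁₁ n₀₂ : ℤ) : Prop :=
  h20v_Unit A (h20n_E20 M q (cst (M * q * q) (((q : ℕ) : Kbar) ^ n₂₀) * u)) ∧
  h20v_Unit A (E11 (cst (M * q * q) ((1 - ζ) ^ n₁₁) * u)) ∧
  h20v_Unit A (E02 (cst (M * q * q) (((q : ℕ) : Kbar) ^ n₀₂) * u))

/-- `y` is integral at the three valuations. -/
def h20v_Int (A : ValuationSubring Kbar)
    (E11 E02 : FF (M * q * q) →+* LaurentSeries Kbar) (y : FF (M * q * q)) : Prop :=
  h20n_E20 M q y ∈ h20v_G A ∧ E11 y ∈ h20v_G A ∧ E02 y ∈ h20v_G A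

/-- `w ≡ 1` at the three valuations. -/
def h20v_CongOne (A : ValuationSubring Kbar)
    (E11 E02 : FF (M * q * q) →+* LaurentSeries Kbar) (w : FF (M * q * q)) : Prop :=
  h20n_CongOneS A (h20n_E20 M q w) ∧ h20n_CongOneS A (E11 w) ∧ h20n_CongOneS A (E02 w)

/-- the norms of `u` along `α` and `β` are `m`-th powers. -/
def h20v_NormPow (m : ℕ) (u : FF (M * q * q)) : Prop :=
  (∃ h : FF (M * q), normAlong (heckeAlphaBar Kbar (M * q) q) u = h ^ m) ∧
  (∃ h : FF (M * q), normAlong (heckeBetaBar Kbar (M * q) q) u = h ^ m)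

end Level

/-! ## Frozen leaves -/

/-- **(L1) V-COMPLETE.**  A function of `F₀` which is integral at the three valuations is
integral over the Gauss valuation ring of the level `M`. -/
def H20VComplete : Prop :=
  ∀ (q : ℕ) (hq : q.Prime) (M : ℕ) [NeZero M] (hqM : ¬ q ∣ M), auxLevel q ∣ M →
    haveI : NeZero q := ⟨hq.ne_zero⟩
    ∀ A : ValuationSubring Kbar, A.LiesOverPrime q →
    ∀ (ζ : Kbar) (E11 E02 : FF (M * q * q) →+* LaurentSeries Kbar),
      h20v_Triple M q hq hqM ζ E11 E02 →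
      ∀ y : FF (M * q * q), y ∈ h92c_F0 A (M * q * q) → h20v_Int M q A E11 E02 y →
        y ∈ h92c_V A M q

/-- **(L2) VAL.**  Every nonzero function of `F₀` has integral valuations. -/
def H20Val : Prop :=
  ∀ (q : ℕ) (hq : q.Prime) (M : ℕ) [NeZero M] (hqM : ¬ q ∣ M), auxLevel q ∣ M →
    haveI : NeZero q := ⟨hq.ne_zero⟩
    ∀ A : ValuationSubring Kbar, A.LiesOverPrime q →
    ∀ (ζ : Kbar) (E11 E02 : FF (M * q * q) →+* LaurentSeries Kbar),
      h20v_Triple M q hq hqM ζ E11 E02 →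
      ∀ u : FF (M * q * q), u ∈ h92c_F0 A (M * q * q) → u ≠ 0 →
        ∃ n₂₀ n₁₁ n₀₂ : ℤ, h20v_HasVal M q A ζ E11 E02 u n₂₀ n₁₁ n₀₂

/-- **(L3) N1-VAL (component group).**  The valuations of a new function of `F₀` satisfy
`n₂₀ + n₁₁ ≡ q n₀₂` and `q n₂₀ ≡ n₁₁ + n₀₂` modulo `m`. -/
def H20CompGroup : Prop :=
  ∀ (q : ℕ) (hq : q.Prime) (M : ℕ) [NeZero M] (hqM : ¬ q ∣ M), auxLevel q ∣ M →
    haveI : NeZero q := ⟨hq.ne_zero⟩
    ∀ A : ValuationSubring Kbar, A.LiesOverPrime q →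
    ∀ (ζ : Kbar) (E11 E02 : FF (M * q * q) →+* LaurentSeries Kbar),
      h20v_Triple M q hq hqM ζ E11 E02 →
      ∀ (m : ℕ) (u : FF (M * q * q)), u ∈ h92c_F0 A (M * q * q) → u ≠ 0 →
        h20v_NormPow M q m u →
        ∀ n₂₀ n₁₁ n₀₂ : ℤ, h20v_HasVal M q A ζ E11 E02 u n₂₀ n₁₁ n₀₂ →
          (m : ℤ) ∣ n₂₀ + n₁₁ - q * n₀₂ ∧ (m : ℤ) ∣ q * n₂₀ - (n₁₁ + n₀₂)

/-- **(L4) WA-VAL.**  There are functions of `F₀` with prescribed valuations. -/
def H20ApproxVal : Prop :=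
  ∀ (q : ℕ) (hq : q.Prime) (M : ℕ) [NeZero M] (hqM : ¬ q ∣ M), auxLevel q ∣ M →
    haveI : NeZero q := ⟨hq.ne_zero⟩
    ∀ A : ValuationSubring Kbar, A.LiesOverPrime q →
    ∀ (ζ : Kbar) (E11 E02 : FF (M * q * q) →+* LaurentSeries Kbar),
      h20v_Triple M q hq hqM ζ E11 E02 →
      ∀ n₂₀ n₁₁ n₀₂ : ℤ, ∃ h : FF (M * q * q), h ∈ h92c_F0 A (M * q * q) ∧ h ≠ 0 ∧
        h20v_HasVal M q A ζ E11 E02 h n₂₀ n₁₁ n₀₂

/-- **(L5) N2-RES (local roots).**  A new function of `F₀` which is a unit at the three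
valuations has local `m`-th roots in `F₀`: `u ≡ g₂₀ ^ m` at `E20`, `u ^ (q - 1) ≡ g₁₁ ^ m` at
`E11`, `u ≡ g₀₂ ^ m` at `E02`. -/
def H20Roots : Prop :=
  ∀ (q : ℕ) (hq : q.Prime) (M : ℕ) [NeZero M] (hqM : ¬ q ∣ M), auxLevel q ∣ M →
    haveI : NeZero q := ⟨hq.ne_zero⟩
    ∀ A : ValuationSubring Kbar, A.LiesOverPrime q →
    ∀ (ζ : Kbar) (E11 E02 : FF (M * q * q) →+* LaurentSeries Kbar),
      h20v_Triple M q hq hqM ζ E11 E02 →
      ∀ (m : ℕ), ¬ q ∣ m → ∀ u : FF (M * q * q), u ∈ h92c_F0 A (M * q * q) → u ≠ 0 →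
        h20v_NormPow M q m u → h20v_HasVal M q A ζ E11 E02 u 0 0 0 →
        ∃ g₂₀ g₁₁ g₀₂ : FF (M * q * q),
          g₂₀ ∈ h92c_F0 A (M * q * q) ∧ g₁₁ ∈ h92c_F0 A (M * q * q) ∧
          g₀₂ ∈ h92c_F0 A (M * q * q) ∧ g₂₀ ≠ 0 ∧ g₁₁ ≠ 0 ∧ g₀₂ ≠ 0 ∧
          h20n_CongOneS A (h20n_E20 M q (u * (g₂₀ ^ m)⁻¹)) ∧
          h20n_CongOneS A (E11 (u ^ (q - 1) * (g₁₁ ^ m)⁻¹)) ∧
          h20n_CongOneS A (E02 (u * (g₀₂ ^ m)⁻¹))

/-- **(L6) WA-RES.**  There are functions of `F₀` with prescribed residues at the three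
valuations. -/
def H20ApproxRes : Prop :=
  ∀ (q : ℕ) (hq : q.Prime) (M : ℕ) [NeZero M] (hqM : ¬ q ∣ M), auxLevel q ∣ M →
    haveI : NeZero q := ⟨hq.ne_zero⟩
    ∀ A : ValuationSubring Kbar, A.LiesOverPrime q →
    ∀ (ζ : Kbar) (E11 E02 : FF (M * q * q) →+* LaurentSeries Kbar),
      h20v_Triple M q hq hqM ζ E11 E02 →
      ∀ g₂₀ g₁₁ g₀₂ : FF (M * q * q),
        g₂₀ ∈ h92c_F0 A (M * q * q) → g₁₁ ∈ h92c_F0 A (M * q * q) →
        g₀₂ ∈ h92c_F0 A (M * q * q) →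
        h20v_Unit A (h20n_E20 M q g₂₀) → h20v_Unit A (E11 g₁₁) → h20v_Unit A (E02 g₀₂) →
        ∃ h : FF (M * q * q), h ∈ h92c_F0 A (M * q * q) ∧ h ≠ 0 ∧
          h20n_CongOneS A (h20n_E20 M q (h * g₂₀⁻¹)) ∧
          h20n_CongOneS A (E11 (h * g₁₁⁻¹)) ∧
          h20n_CongOneS A (E02 (h * g₀₂⁻¹))

/-- **(L7) UNIP.**  A function of `F₀` which is `≡ 1` at the three valuations is, up to an
`m`-th power of a function of `F₀`, `≡ 1` modulo `q` at the three valuations. -/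
def H20Unip : Prop :=
  ∀ (q : ℕ) (hq : q.Prime) (M : ℕ) [NeZero M] (hqM : ¬ q ∣ M), auxLevel q ∣ M →
    haveI : NeZero q := ⟨hq.ne_zero⟩
    ∀ A : ValuationSubring Kbar, A.LiesOverPrime q →
    ∀ (ζ : Kbar) (E11 E02 : FF (M * q * q) →+* LaurentSeries Kbar),
      h20v_Triple M q hq hqM ζ E11 E02 →
      ∀ (m : ℕ), ¬ q ∣ m → ∀ w : FF (M * q * q), w ∈ h92c_F0 A (M * q * q) →
        h20v_CongOne M q A E11 E02 w →
        ∃ h y : FF (M * q * q), h ∈ h92c_F0 A (M * q * q) ∧ h ≠ 0 ∧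
          y ∈ h92c_F0 A (M * q * q) ∧ h20v_Int M q A E11 E02 y ∧
          w * (h ^ m)⁻¹ = 1 + (q : FF (M * q * q)) * y

/-- **(L8) VERT-ASM.**  `H92Vert` (with `t = q² - 1`) from the leaves and the landed
`h20n_embExists`. -/
def H20VertAssembly : Prop :=
  H20EmbExists → H20VComplete → H20Val → H20CompGroup → H20ApproxVal → H20Roots →
    H20ApproxRes → H20Unip → H92Vert

end Fermat.Agent.S36
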