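import Fermat.Agent.S36.H92Bridge
import Fermat.Agent.S36.H20VertSkel
import Fermat.Agent.S36.H20Emb

/-!
# S36, row BRIDGE: `H92Bridge` from the frozen leaves (L7) `H20Unip` and (L1) `H20VComplete`
(helper95)

`H92Bridge` (`S36/H92Bridge.lean`, helper92) is the passage from the vocabulary of the
`q`-expansions (`h86g_CongAll`) to the vocabulary of the normal model (`h92c_U = 1 + q V₀`).
It is a formal consequence of two frozen leaves of `S36/H20VertSkel.lean` (helper20) and the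
landed existence of the vertical embeddings (`h20n_embExists`, `S36/H20Emb.lean`):

* choose a primitive `q`-th root of unity `ζ` and a vertical triple `(E11^ζ, E02)`;
* `h86g_CongAll w` gives `h20v_CongOne w` for this triple;
* (L7) `H20Unip`: `w / h ^ m = 1 + q y` with `h, y ∈ F₀`, `y` integral at the triple;
* (L1) `H20VComplete`: `y ∈ V`; hence `w · (h⁻¹) ^ m ∈ 1 + q V₀`.

Main statements:

* `h95v_exists_triple` : a vertical triple exists;
* `h95v_congOne_of_congAll` : `h86g_CongAll → h20v_CongOne`;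
* `h95v_bridge : H20Unip → H20VComplete → H92Bridge`;
* `h95v_vert_of_bridge_leaves : H86NormalForm → H20Unip → H20VComplete → H92Vert`;
* `h95v_core_of_bridge_leaves : H20Unip → H20VComplete → H92Loc → H92Gate → H86GateCore`.
-/

set_option autoImplicit false

open AlgebraicCurve ModularCurve

noncomputable section

namespace Fermat.Agent.S36

open Fermat.Agent.S37 (Kbar GQ FF cst gal auxLevel)

/-- a primitive `q`-th root of unity of `ℚ̄`. -/
theorem h95v_exists_prim (q : ℕ) (hq : q.Prime) : ∃ ζ : Kbar, IsPrimitiveRoot ζ q := by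
  haveI : NeZero q := ⟨hq.ne_zero⟩
  haveI : NeZero ((q : ℕ) : Kbar) := ⟨by exact_mod_cast hq.ne_zero⟩
  exact HasEnoughRootsOfUnity.exists_primitiveRoot Kbar q

/-- a vertical triple exists. -/
theorem h95v_exists_triple (q : ℕ) (hq : q.Prime) (M : ℕ) [NeZero M] (hqM : ¬ q ∣ M) :
    haveI : NeZero q := ⟨hq.ne_zero⟩
    ∃ (ζ : Kbar) (E11 E02 : FF (M * q * q) →+* LaurentSeries Kbar),
      h20v_Triple M q hq hqM ζ E11 E02 := by
  haveI : NeZero q := ⟨hq.ne_zero⟩
  obtain ⟨ζ, hζ⟩ := h95v_exists_prim q hq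
  obtain ⟨h11, E02, h02⟩ := h20n_embExists q hq M hqM
  have hζ1 : ζ ≠ 1 := hζ.ne_one hq.one_lt
  obtain ⟨E11, hE11⟩ := h11 ζ hζ.pow_eq_one hζ1
  exact ⟨ζ, E11, E02, ⟨hζ, hE11, h02⟩⟩

/-- `h86g_CongAll` gives `h20v_CongOne` at every vertical triple. -/
theorem h95v_congOne_of_congAll (M q : ℕ) [NeZero M] [NeZero q] (hq : q.Prime) (hqM : ¬ q ∣ M)
    (A : ValuationSubring Kbar) (ζ : Kbar) (E11 E02 : FF (M * q * q) →+* LaurentSeries Kbar)
    (hT : h20v_Triple M q hq hqM ζ E11 E02) (w : FF (M * q * q))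
    (hw : h86g_CongAll M q hq hqM A w) : h20v_CongOne M q A E11 E02 w :=
  ⟨hw.1, hw.2.2 ζ E11 hT.prim hT.e11, hw.2.1 E02 hT.e02⟩

/-- **BRIDGE** from the frozen leaves (L7) and (L1). -/
theorem h95v_bridge (hU : H20Unip) (hV : H20VComplete) : H92Bridge := by
  intro q hq M _ hqM haux
  haveI : NeZero q := ⟨hq.ne_zero⟩
  intro A hA m hm w _ hwF hcong
  obtain ⟨ζ, E11, E02, hT⟩ := h95v_exists_triple q hq M hqM
  have hc1 : h20v_CongOne M q A E11 E02 w :=
    h95v_congOne_of_congAll M q hq hqM A ζ E11 E02 hT w hcong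
  obtain ⟨h, y, hhF, hh0, hyF, hyI, hEq⟩ :=
    hU q hq M hqM haux A hA ζ E11 E02 hT m hm w hwF hc1
  have hyV : y ∈ h92c_V A M q := hV q hq M hqM haux A hA ζ E11 E02 hT y hyF hyI
  refine ⟨h⁻¹, inv_ne_zero hh0, inv_mem hhF, ?_⟩
  refine ⟨y, ⟨hyV, hyF⟩, ?_⟩
  rw [inv_pow]
  exact hEq

/-- `H92Vert` from the normal form and the two leaves. -/
theorem h95v_vert_of_bridge_leaves (hNF : H86NormalForm) (hU : H20Unip) (hV : H20VComplete) :
    H92Vert :=
  h92c_vert_of hNF (h95v_bridge hU hV)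

/-- `H86GateCore` from the two leaves, `H92Loc` and `H92Gate`. -/
theorem h95v_core_of_bridge_leaves (hU : H20Unip) (hV : H20VComplete) (hL : H92Loc)
    (hG : H92Gate) : H86GateCore :=
  h92c_core_of (h95v_bridge hU hV) hL hG

end Fermat.Agent.S36
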