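import Fermat.Agent.S36.H75Unip
import Fermat.Agent.S36.H11TorSkel
import Fermat.Agent.S36.H95Bridge

/-!
# S36, row T-UQ (helper75, second seat): `H11TorUQ` from `H20VComplete`

`(1 + y) ^ q ∈ 1 + q V₀` for `y ∈ F₀` Gauss-small at all the vertical embeddings.

`(1 + y) ^ q = 1 + y ^ q + q y r` (`r` a polynomial in `y`), `y` is divisible by the uniformiser
at each of the three valuations (discreteness, `V28Disc`), hence `y ^ q / q` is integral at the
three valuations (`(1 - ζ) ^ (q - 1) / q ∈ A`), and `H20VComplete` puts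
`v = y r + y ^ q / q` in `V`.

* `h75q_torUQ : H20VComplete → H11TorUQ`.
-/

set_option autoImplicit false
set_option linter.unusedSectionVars false

open AlgebraicCurve ModularCurve

noncomputable section

namespace Fermat.Agent.S36

open Fermat.Agent.S37 (Kbar FF cst auxLevel)
open Fermat.Agent.Red.GV Fermat.Agent.Red.GV.Soft
open Fermat.Agent.S36.V28

/-- powers along a filtration. -/
theorem h75q_filt_pow {F : Type*} [Field F] {R : Subring F} {I : ℕ → Set F}
    (hF : H75uFilt R I) {x : F} (hx : x ∈ I 1) (k : ℕ) : x ^ (k + 1) ∈ I (k + 1) := by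
  induction k with
  | zero => rwa [zero_add, pow_one]
  | succ k ih =>
    rw [pow_succ]
    exact hF.mul _ _ _ _ ih hx

/-- **T-UQ** from V-COMPLETE. -/
theorem h75q_torUQ (hV : H20VComplete) : H11TorUQ := by
  intro q hq M _ hqM haux
  haveI : NeZero q := ⟨hq.ne_zero⟩
  intro A hA y hyF hy
  obtain ⟨ζ, E11, E02, hT⟩ := h95v_exists_triple q hq M hqM
  have hζ : IsPrimitiveRoot ζ q := hT.prim
  have hqn : ((q : ℕ) : Kbar) ∈ A.nonunits := hA
  have hq0 : ((q : ℕ) : Kbar) ≠ 0 := Nat.cast_ne_zero.mpr hq.ne_zero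
  have hπn : (1 - ζ : Kbar) ∈ A.nonunits := h75u_one_sub_mem_nonunits A hq hA hζ
  have hπ0 : (1 - ζ : Kbar) ≠ 0 := by
    intro h
    exact hζ.ne_one hq.one_lt (sub_eq_zero.mp h).symm
  have hε : (1 - ζ) ^ (q - 1) / ((q : ℕ) : Kbar) ∈ A :=
    (h28c_pow_div_mem (A := A) hq hA hζ).1
  have hc20 : ∀ c : Kbar, h20n_E20 M q (cst (M * q * q) c) = HahnSeries.C c :=
    fun c => soft_coe_cst (M * q * q) c
  have hc11 : ∀ c : Kbar, E11 (cst (M * q * q) c) = HahnSeries.C c :=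
    h28d_E11_cst hq hqM ζ E11 hT.e11
  have hc02 : ∀ c : Kbar, E02 (cst (M * q * q) c) = HahnSeries.C c :=
    h28d_E02_cst hq hqM E02 hT.e02
  have hqF : ((q : ℕ) : FF (M * q * q)) ≠ 0 := h75u_natCast_ne_zero hq.ne_zero
  have hF := h75u_filt A (h92c_F0 A (M * q * q)) (h20n_E20 M q) E11 E02
    ((q : ℕ) : Kbar) (1 - ζ) hqn hπn
  by_cases hy0 : y = 0
  · refine ⟨0, zero_mem _, ?_⟩
    rw [hy0, add_zero, one_pow, mul_zero, add_zero]
  · have hfix : h28v_IFixed A (M * q * q) y := hyF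
    -- `y ∈ I 1`
    have hI1 : y ∈ h75uI A (h92c_F0 A (M * q * q)) (h20n_E20 M q) E11 E02
        ((q : ℕ) : Kbar) (1 - ζ) 1 := by
      refine ⟨hyF, ?_, ?_, ?_⟩
      · obtain ⟨hG, hred⟩ := hy (h20n_E20 M q) (Or.inl rfl)
        obtain ⟨n, hn⟩ := h28d_W20_exists_zpow A hq hA y hfix hy0
        exact h75u_div_of_disc hqn hq0 hc20 hG hred n hn hy0
      · obtain ⟨hG, hred⟩ := hy E11 (Or.inr (Or.inl ⟨ζ, hζ, hT.e11⟩))
        obtain ⟨n, hn⟩ := h28d_W11_exists_zpow A hq hqM hA ζ hζ E11 hT.e11 y hfix hy0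
        exact h75u_div_of_disc hπn hπ0 hc11 hG hred n hn hy0
      · obtain ⟨hG, hred⟩ := hy E02 (Or.inr (Or.inr hT.e02))
        obtain ⟨n, hn⟩ := h28d_W02_exists_zpow A hq hqM hA E02 hT.e02 y hfix hy0
        exact h75u_div_of_disc hqn hq0 hc02 hG hred n hn hy0
    have hyR : y ∈ h75uR A (h92c_F0 A (M * q * q)) (h20n_E20 M q) E11 E02 := hF.sub _ _ hI1
    -- the binomial expansion in `R`
    obtain ⟨r, hr⟩ := exists_add_pow_prime_eq hq
      (1 : h75uR A (h92c_F0 A (M * q * q)) (h20n_E20 M q) E11 E02) ⟨y, hyR⟩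
    have hr' : (1 + y) ^ q = 1 + y ^ q + (q : FF (M * q * q)) * y * (r : FF (M * q * q)) := by
      have h1 := congrArg Subtype.val hr
      simp only [Subring.coe_add, Subring.coe_pow, Subring.coe_mul, Subring.coe_one,
        Subring.coe_natCast, one_pow, mul_one] at h1
      exact h1
    have hyr : y * (r : FF (M * q * q)) ∈
        h75uR A (h92c_F0 A (M * q * q)) (h20n_E20 M q) E11 E02 := mul_mem hyR r.2
    obtain ⟨hyr0, hyr1, hyr2, hyr3⟩ := (h75u_mem_R A _ _ _ _ _).mp hyr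
    -- `y ^ q / q`
    obtain ⟨k, hk⟩ : ∃ k, q = k + 1 := ⟨q - 1, by have := hq.two_le; omega⟩
    have hpow : y ^ q ∈ h75uI A (h92c_F0 A (M * q * q)) (h20n_E20 M q) E11 E02
        ((q : ℕ) : Kbar) (1 - ζ) (q - 1) := by
      have h1 := h75q_filt_pow hF hI1 k
      rw [← hk] at h1
      exact hF.mono (q - 1) q (Nat.sub_le q 1) _ h1
    obtain ⟨hb0, hb1, hb2, hb3⟩ := hpow
    have hqq : ((q : ℕ) : Kbar) ^ (q - 1) / ((q : ℕ) : Kbar) ∈ A := by
      obtain ⟨j, hj⟩ : ∃ j, q - 1 = j + 1 := ⟨q - 2, by have := hq.two_le; omega⟩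
      rw [hj, pow_succ, mul_div_assoc, div_self hq0, mul_one]
      exact pow_mem (A.nonunits_subset hqn) j
    have hvF : y * (r : FF (M * q * q)) + y ^ q * ((q : ℕ) : FF (M * q * q))⁻¹ ∈
        h92c_F0 A (M * q * q) :=
      add_mem hyr0 (mul_mem hb0 (inv_mem (natCast_mem _ q)))
    have hvI : h20v_Int M q A E11 E02
        (y * (r : FF (M * q * q)) + y ^ q * ((q : ℕ) : FF (M * q * q))⁻¹) := by
      refine ⟨?_, ?_, ?_⟩
      · rw [map_add]
        exact add_mem hyr1 (h75u_div_q hb1 _ hqq _ (h75u_map_natCast _ q))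
      · rw [map_add]
        exact add_mem hyr2 (h75u_div_q hb2 _ hε _ (h75u_map_natCast _ q))
      · rw [map_add]
        exact add_mem hyr3 (h75u_div_q hb3 _ hqq _ (h75u_map_natCast _ q))
    have hvV := hV q hq M hqM haux A hA ζ E11 E02 hT _ hvF hvI
    refine ⟨_, ⟨hvV, hvF⟩, ?_⟩
    rw [hr', mul_add, ← mul_assoc, mul_comm (y ^ q), ← mul_assoc, mul_inv_cancel₀ hqF, one_mul]
    ring

end Fermat.Agent.S36
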