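import Fermat.Agent.S36.H81CompGroup
import Fermat.Agent.S36.H11TorSkel
import Fermat.Agent.S36.H11TorConst
import Fermat.Agent.S36.H6VConv

/-!
# S36, row T-GLOB: `H11TorGlob` (helper81, prefix `h81t_`)

`h81t_torGlob : H11TorGlob` (the exact frozen `Prop` of `S36/H11TorSkel.lean`).

For a new `w ∈ F₀ ∩ (1 + q V₀)` and `φ = α, β`:

* `E w ≡ 1` at every vertical embedding (`V` is Gauss-integral at `E20`, `E11^ζ`, `E02`);
* by the norm formulas (a)-(d), `Nφ w ≡ 1` at `E_∞` and at `E_0`;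
* `Nφ w = h ^ m`; by `DescPow`, `Nφ w = c g' ^ m` with `c ∈ K₀`, `g' ∈ F₀'`; the valuations of
  `F₀'` are integral, so `c = q ^ (k m) c₁` with a unit `c₁`; an `m`-th root `d` of `c₁` is fixed
  by inertia (`q ∤ m`), and `g = d q ^ k g'` has `g ^ m = Nφ w`;
* `g ^ m ≡ 1` modulo the prime ideal of the Gauss-small series gives `g ≡ ξ`, `ξ ^ m = 1`
  (`h11t_root_of_pow`).
-/

set_option autoImplicit false
set_option linter.unusedSectionVars false

open AlgebraicCurve ModularCurve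

noncomputable section

namespace Fermat.Agent.S36

open Fermat.Agent.S37 (Kbar GQ FF cst gal jB degen auxLevel)
open Fermat.Agent.Red.KR (normAlong)
open Fermat.Agent.Red.GV (embA redA gaussV)
open Fermat.Agent.Red.GV.Soft (softOT softRedT dfField IsWit)
open Fermat.Agent.Red.Kron (kFricke twistK)

/-! ## Gauss congruences -/

section Cong

variable {A : ValuationSubring Kbar} {q : ℕ}

theorem h81t_cong_ne_zero {s : LaurentSeries Kbar} (hs : h20n_CongOneS A s) : s ≠ 0 :=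
  h81g_cong_ne_zero hs

theorem h81t_cong_prod {ι : Type*} (S : Finset ι) (s : ι → LaurentSeries Kbar)
    (h : ∀ i ∈ S, h20n_CongOneS A (s i)) : h20n_CongOneS A (∏ i ∈ S, s i) := by
  classical
  induction S using Finset.induction_on with
  | empty =>
    rw [Finset.prod_empty]
    exact h64a_cong_one A
  | insert a S ha ih =>
    rw [Finset.prod_insert ha]
    exact h64a_cong_mul (h a (Finset.mem_insert_self a S))
      (ih fun i hi => h i (Finset.mem_insert_of_mem hi))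

/-- `1 + q s ≡ 1` for a Gauss-integral `s`. -/
theorem h81t_cong_one_add (hq : q.Prime) (hA : A.LiesOverPrime q) {s : LaurentSeries Kbar}
    (hs : s ∈ softOT A (IsLocalRing.residue A)) :
    h20n_CongOneS A (1 + ((q : ℕ) : LaurentSeries Kbar) * s) := by
  rw [h64a_cong_iff]
  have hqm : ((q : ℕ) : LaurentSeries Kbar) ∈ softOT A (IsLocalRing.residue A) :=
    natCast_mem _ q
  refine ⟨add_mem (one_mem _) (mul_mem hqm hs), ?_⟩
  have := h1g_charP_laurent q hq A hA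
  have e : (⟨1 + ((q : ℕ) : LaurentSeries Kbar) * s, add_mem (one_mem _) (mul_mem hqm hs)⟩ :
      softOT A (IsLocalRing.residue A)) =
      1 + ((q : ℕ) : softOT A (IsLocalRing.residue A)) * ⟨s, hs⟩ := Subtype.ext rfl
  rw [e, map_add, map_one, map_mul, map_natCast, CharP.cast_eq_zero, zero_mul, add_zero]

/-- the twist by a `q`-th root of unity preserves `≡ 1`. -/
theorem h81t_cong_twist (hq : q.Prime) (hA : A.LiesOverPrime q) {ω : Kbar} (hω : ω ^ q = 1)
    {s : LaurentSeries Kbar} (hdf : s ∈ dfField (K := Kbar)) (hs : h20n_CongOneS A s) :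
    h20n_CongOneS A (twistK ω s) := by
  have hs0 := h81t_cong_ne_zero hs
  have h := h1g_twist q hq A hA ω 1 (by rw [pow_one]; exact hω) s hdf hs0
  have e : twistK ω s = (twistK ω s * s⁻¹) * s := by
    field_simp
  rw [e]
  exact h64a_cong_mul h hs

/-- the substitution `t ↦ t ^ n` reflects `≡ 1` on `dfField`. -/
theorem h81t_cong_of_qExpand (hq : q.Prime) (hA : A.LiesOverPrime q) (n : ℕ) [NeZero n]
    {s : LaurentSeries Kbar} (hdf : s ∈ dfField (K := Kbar))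
    (h : h20n_CongOneS A (qExpand Kbar n s)) : h20n_CongOneS A s := by
  have hu := h81g_unit_of_cong h
  have hne := h81t_cong_ne_zero h
  have huc : h81g_UC A 1 (qExpand Kbar n s) :=
    ⟨one_ne_zero, hne, by rw [map_one, one_mul]; exact hu⟩
  have huc' := h81g_uc_of_qExpand hq hA n hdf huc
  have hs : s ∈ softOT A (IsLocalRing.residue A) := by
    have h1 := h81g_uc_mem huc'
    rwa [map_one, one_mul] at h1
  rw [h64a_cong_iff] at h ⊢
  obtain ⟨h1, h2⟩ := h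
  refine ⟨hs, ?_⟩
  have h3 := Fermat.Agent.Red.GV.Soft.softRedT_qExpand A (IsLocalRing.residue A) n ⟨s, hs⟩ h1
  rw [h2] at h3
  exact (qExpand (IsLocalRing.ResidueField A) n).injective (by rw [← h3, map_one])

/-- a unit scaling with `x = 1` is Gauss-integrality of the series and of its inverse. -/
theorem h81t_uc_one_of_cong {s : LaurentSeries Kbar} (hs : h20n_CongOneS A s) :
    h81g_UC A 1 s :=
  ⟨one_ne_zero, h81t_cong_ne_zero hs, by rw [map_one, one_mul]; exact h81g_unit_of_cong hs⟩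

end Cong

/-! ## `V` is Gauss-integral at the vertical embeddings -/

section VInt

variable {A : ValuationSubring Kbar} {M q : ℕ} [NeZero M] [NeZero q]

/-- a function of `V` is Gauss-integral at every embedding `E` with values in `dfField` at
which the Gauss ring of the level `M` is Gauss-integral. -/
theorem h81t_V_int (hq : q.Prime) (hA : A.LiesOverPrime q)
    (E : FF (M * q * q) →+* LaurentSeries Kbar)
    (hDF : ∀ x : FF (M * q * q), E x ∈ dfField (K := Kbar))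
    (hE : ∀ x₀ : FF M, x₀ ∈ gaussV A M →
      E (degen (h92c_dvd M q) x₀) ∈ softOT A (IsLocalRing.residue A))
    {y : FF (M * q * q)} (hy : y ∈ h92c_V A M q) :
    E y ∈ softOT A (IsLocalRing.residue A) := by
  have hint : (h92c_G A M q).subtype.IsIntegralElem y := hy
  refine (h6v_mem_W q hq A hA E hDF y).1
    (h6v_mem_of_isIntegralElem _ (h6v_W q hq A hA E hDF) (fun r => ?_) hint)
  obtain ⟨x₀, hx₀, hr⟩ := r.2
  rw [h6v_mem_W]
  show E (r : FF (M * q * q)) ∈ _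
  rw [← hr]
  exact hE x₀ hx₀

theorem h81t_degen_eq (x₀ : FF M) :
    degen (h92c_dvd M q) x₀ =
      heckeAlphaBar Kbar (M * q) q (heckeAlphaBar Kbar M q x₀) := by
  apply Subtype.ext
  rw [Fermat.Agent.S37.coe_degen]
  exact ((coe_heckeAlphaBar (M * q) q _).trans (coe_heckeAlphaBar M q x₀)).symm

theorem h81t_coe_gauss {x₀ : FF M} (hx₀ : x₀ ∈ gaussV A M) :
    (x₀ : LaurentSeries Kbar) ∈ softOT A (IsLocalRing.residue A) :=
  Fermat.Agent.Red.GV.Soft.gaussV_le_softV A M hx₀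

/-- `V` at `E20`. -/
theorem h81t_V_int20 (hq : q.Prime) (hA : A.LiesOverPrime q) {y : FF (M * q * q)}
    (hy : y ∈ h92c_V A M q) : (y : LaurentSeries Kbar) ∈ softOT A (IsLocalRing.residue A) := by
  refine h81t_V_int hq hA (h20n_E20 M q)
    (fun x => Fermat.Agent.Red.GV.Soft.FF_le_dfField (M * q * q) x) (fun x₀ hx₀ => ?_) hy
  show ((degen (h92c_dvd M q) x₀ : FF (M * q * q)) : LaurentSeries Kbar) ∈ _
  rw [Fermat.Agent.S37.coe_degen]
  exact h81t_coe_gauss hx₀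

/-- `V` at `E11^ζ`. -/
theorem h81t_V_int11 (hq : q.Prime) (hqM : ¬ q ∣ M) (hA : A.LiesOverPrime q) {ζ : Kbar}
    (hζ : ζ ^ q = 1) (E : FF (M * q * q) →+* LaurentSeries Kbar)
    (hE : h20n_IsE11 M q hq hqM ζ E) {y : FF (M * q * q)}
    (hy : y ∈ h92c_V A M q) : E y ∈ softOT A (IsLocalRing.residue A) := by
  refine h81t_V_int hq hA E (h12e_embDF q hq M hqM E (Or.inl ⟨ζ, hζ, hE⟩))
    (fun x₀ hx₀ => ?_) hy
  rw [h81t_degen_eq, hE.1, coe_heckeAlphaBar]
  exact h81t_coe_gauss hx₀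

/-- `V` at `E02`. -/
theorem h81t_V_int02 (hq : q.Prime) (hqM : ¬ q ∣ M) (hA : A.LiesOverPrime q)
    (E : FF (M * q * q) →+* LaurentSeries Kbar)
    (hE : h20n_IsE02 M q hq hqM E) {y : FF (M * q * q)}
    (hy : y ∈ h92c_V A M q) : E y ∈ softOT A (IsLocalRing.residue A) := by
  refine h81t_V_int hq hA E (h12e_embDF q hq M hqM E (Or.inr hE))
    (fun x₀ hx₀ => ?_) hy
  rw [h81t_degen_eq, hE.1, Fermat.Agent.Red.Kron.kFricke_alpha, coe_heckeBetaBar]
  exact Fermat.Agent.Red.GV.Soft.mem_softOT_qExpand A _ q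
    (Fermat.Agent.Red.GV.Soft.mem_softOT_qExpand A _ q (h81t_coe_gauss hx₀))

/-- `E w ≡ 1` for `w ∈ 1 + q V₀`, for a ring homomorphism `E` at which `V` is
Gauss-integral. -/
theorem h81t_cong_U (hq : q.Prime) (hA : A.LiesOverPrime q)
    (E : FF (M * q * q) →+* LaurentSeries Kbar)
    (hE : ∀ y : FF (M * q * q), y ∈ h92c_V A M q → E y ∈ softOT A (IsLocalRing.residue A))
    {w : FF (M * q * q)} (hw : w ∈ h92c_U A M q) : h20n_CongOneS A (E w) := by
  obtain ⟨y, hy, rfl⟩ := hw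
  rw [map_add, map_one, map_mul, map_natCast]
  exact h81t_cong_one_add hq hA (hE y hy.1)

end VInt

/-! ## The norms of `1 + q V₀` are `≡ 1` -/

section NormCong

variable {A : ValuationSubring Kbar} {M q : ℕ} [NeZero M] [NeZero q]

/-- the norms of `w ∈ 1 + q V₀` along `α` and `β` are `≡ 1` at `E_∞` and at `E_0`. -/
theorem h81t_norm_cong (hq : q.Prime) (hqM : ¬ q ∣ M) (hA : A.LiesOverPrime q)
    {w : FF (M * q * q)} (hw : w ∈ h92c_U A M q) :
    h20n_CongOneS A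
      ((normAlong (heckeAlphaBar Kbar (M * q) q) w : FF (M * q)) : LaurentSeries Kbar) ∧
    h20n_CongOneS A
      ((kFricke M q hq hqM (normAlong (heckeAlphaBar Kbar (M * q) q) w) : FF (M * q)) :
        LaurentSeries Kbar) ∧
    h20n_CongOneS A
      ((normAlong (heckeBetaBar Kbar (M * q) q) w : FF (M * q)) : LaurentSeries Kbar) ∧
    h20n_CongOneS A
      ((kFricke M q hq hqM (normAlong (heckeBetaBar Kbar (M * q) q) w) : FF (M * q)) :
        LaurentSeries Kbar) := by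
  have : NeZero ((q : ℕ) : Kbar) := ⟨by exact_mod_cast hq.ne_zero⟩
  obtain ⟨ζ, hζ⟩ := HasEnoughRootsOfUnity.exists_primitiveRoot Kbar q
  have hroot : ∀ b : ℕ, (ζ ^ b) ^ q = 1 := fun b => by
    rw [← pow_mul, mul_comm, pow_mul, hζ.pow_eq_one, one_pow]
  obtain ⟨hex11, E02, hE02⟩ := h20n_embExists q hq M hqM
  have hex : ∀ b : ℕ, 0 < b → b < q → ∃ E, h20n_IsE11 M q hq hqM (ζ ^ b) E :=
    fun b hb0 hbq => hex11 (ζ ^ b) (hroot b) (hζ.pow_ne_one_of_pos_of_lt hb0.ne' hbq)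
  let E : ℕ → (FF (M * q * q) →+* LaurentSeries Kbar) := fun b =>
    if h : 0 < b ∧ b < q then Classical.choose (hex b h.1 h.2) else E02
  have hE : ∀ b : ℕ, 0 < b → b < q → h20n_IsE11 M q hq hqM (ζ ^ b) (E b) := by
    intro b hb0 hbq
    have hEb : E b = Classical.choose (hex b hb0 hbq) := dif_pos ⟨hb0, hbq⟩
    rw [hEb]
    exact Classical.choose_spec (hex b hb0 hbq)
  have c20 : h20n_CongOneS A (w : LaurentSeries Kbar) :=
    h81t_cong_U hq hA (h20n_E20 M q) (fun y hy => h81t_V_int20 hq hA hy) hw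
  have cE : ∀ b : ℕ, 0 < b → b < q → h20n_CongOneS A (E b w) := fun b hb0 hbq =>
    h81t_cong_U hq hA (E b)
      (fun y hy => h81t_V_int11 hq hqM hA (hroot b) (E b) (hE b hb0 hbq) hy) hw
  have c02 : h20n_CongOneS A (E02 w) :=
    h81t_cong_U hq hA E02 (fun y hy => h81t_V_int02 hq hqM hA E02 hE02 hy) hw
  have dfE : ∀ b : ℕ, 0 < b → b < q → E b w ∈ dfField (K := Kbar) := fun b hb0 hbq =>
    h12e_embDF q hq M hqM (E b) (Or.inl ⟨ζ ^ b, hroot b, hE b hb0 hbq⟩) w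
  have df02 : E02 w ∈ dfField (K := Kbar) := h12e_embDF q hq M hqM E02 (Or.inr hE02) w
  have df20 : (w : LaurentSeries Kbar) ∈ dfField (K := Kbar) :=
    Fermat.Agent.Red.GV.Soft.FF_le_dfField (M * q * q) w
  refine ⟨?_, ?_, ?_, ?_⟩
  · rw [h40na_normA q hq M hqM ζ hζ E hE w]
    exact h64a_cong_mul c20 (h81t_cong_prod _ _ fun b hb =>
      cE b (Finset.mem_Ioo.mp hb).1 (Finset.mem_Ioo.mp hb).2)
  · apply h81t_cong_of_qExpand hq hA q (Fermat.Agent.Red.GV.Soft.FF_le_dfField (M * q) _)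
    rw [h93n_normD q hq M hqM ζ hζ E02 hE02 w]
    exact h81t_cong_prod _ _ fun b _ => h81t_cong_twist hq hA (hroot b) df02 c02
  · apply h81t_cong_of_qExpand hq hA q (Fermat.Agent.Red.GV.Soft.FF_le_dfField (M * q) _)
    rw [h71m_normB q hq (M * q) (Dvd.intro_left M rfl) ζ hζ w]
    exact h81t_cong_prod _ _ fun b _ => h81t_cong_twist hq hA (hroot b) df20 c20
  · rw [h40nc_normC q hq M hqM ζ hζ E02 hE02 E hE w]
    refine h64a_cong_mul c02 (h81t_cong_prod _ _ fun b hb => ?_)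
    have hb' := Finset.mem_Ioo.mp hb
    exact h81t_cong_twist hq hA (hroot b) (dfE (q - b) (by omega) (by omega))
      (cE (q - b) (by omega) (by omega))

end NormCong

/-! ## Roots of unity and descent of the root -/

section Root

variable {A : ValuationSubring Kbar} {q : ℕ}

/-- an `m`-th root of an inertia-fixed unit of `A` is inertia-fixed (`q ∤ m`). -/
theorem h81t_root_fixed (hq : q.Prime) (hA : A.LiesOverPrime q) {m : ℕ} (hm : ¬ q ∣ m)
    {d : Kbar} (hd0 : d ≠ 0) (hd : d ∈ A) (hd' : d⁻¹ ∈ A)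
    (hfix : ∀ σ ∈ A.inertiaSubgroupIn ℚ, σ (d ^ m) = d ^ m) :
    ∀ σ ∈ A.inertiaSubgroupIn ℚ, σ d = d := by
  intro σ hσ
  have hm0 : 0 < m := Nat.pos_of_ne_zero (by rintro rfl; exact hm (dvd_zero q))
  have h1 := ((Fermat.Agent.Bridge.H47.mem_inertiaSubgroupIn_iff A).mp hσ).2 d hd
  have hx : (σ d * d⁻¹) ^ m = 1 := by
    rw [mul_pow, ← map_pow, hfix σ hσ, inv_pow, mul_inv_cancel₀ (pow_ne_zero _ hd0)]
  have h2 : σ d * d⁻¹ - 1 ∈ A.nonunits := by
    have e : σ d * d⁻¹ - 1 = (σ d - d) * d⁻¹ := by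
      field_simp
    rw [e, A.mem_nonunits_iff, map_mul]
    have h3 := (A.valuation_le_one_iff _).mpr hd'
    exact lt_of_le_of_lt (mul_le_of_le_one_right' h3) ((A.mem_nonunits_iff).mp h1)
  have h4 := Fermat.Agent.PT.Bridge.h23b_eq_of_sub_mem_nonunits_of_not_dvd A hm0 hq hm hA hx
    (one_pow m) h2
  have h5 : σ d = (σ d * d⁻¹) * d := by
    field_simp
  rw [h5, h4, one_mul]

/-- the additive group of the Gauss-small series. -/
def h81t_small (A : ValuationSubring Kbar) : AddSubgroup (LaurentSeries Kbar) where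
  carrier := {s | ∃ h : s ∈ softOT A (IsLocalRing.residue A),
    softRedT A (IsLocalRing.residue A) ⟨s, h⟩ = 0}
  zero_mem' := ⟨zero_mem _, map_zero _⟩
  add_mem' := by
    rintro a b ⟨ha, ha0⟩ ⟨hb, hb0⟩
    refine ⟨add_mem ha hb, ?_⟩
    have e : (⟨a + b, add_mem ha hb⟩ : softOT A (IsLocalRing.residue A)) =
        ⟨a, ha⟩ + ⟨b, hb⟩ := rfl
    rw [e, map_add, ha0, hb0, add_zero]
  neg_mem' := by
    rintro a ⟨ha, ha0⟩
    refine ⟨neg_mem ha, ?_⟩
    have e : (⟨-a, neg_mem ha⟩ : softOT A (IsLocalRing.residue A)) = -⟨a, ha⟩ := rfl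
    rw [e, map_neg, ha0, neg_zero]

theorem h81t_mem_small {s : LaurentSeries Kbar} :
    s ∈ h81t_small A ↔ ∃ h : s ∈ softOT A (IsLocalRing.residue A),
      softRedT A (IsLocalRing.residue A) ⟨s, h⟩ = 0 := Iff.rfl

/-- a Gauss-integral series whose `m`-th power is `≡ 1` is congruent to an `m`-th root of
unity. -/
theorem h81t_root_const {m : ℕ} (hm0 : 0 < m)
    {s : LaurentSeries Kbar} (hs : s ∈ softOT A (IsLocalRing.residue A))
    (hsm : h20n_CongOneS A (s ^ m)) :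
    ∃ ξ : Kbar, ξ ^ m = 1 ∧ s - HahnSeries.C ξ ∈ h81t_small A := by
  have : NeZero ((m : ℕ) : Kbar) := ⟨by exact_mod_cast hm0.ne'⟩
  obtain ⟨ζ₀, hζ₀⟩ := HasEnoughRootsOfUnity.exists_primitiveRoot Kbar m
  have hζ : IsPrimitiveRoot (HahnSeries.C ζ₀ : LaurentSeries Kbar) m :=
    hζ₀.map_of_injective HahnSeries.C_injective
  have hconst : ∀ ξ : LaurentSeries Kbar, ξ ^ m = 1 →
      ∃ ξ₀ : Kbar, ξ₀ ^ m = 1 ∧ ξ = HahnSeries.C ξ₀ := by
    intro ξ hξ
    have : NeZero m := ⟨hm0.ne'⟩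
    obtain ⟨i, -, hi⟩ := hζ.eq_pow_of_pow_eq_one hξ
    refine ⟨ζ₀ ^ i, ?_, ?_⟩
    · rw [← pow_mul, mul_comm, pow_mul, hζ₀.pow_eq_one, one_pow]
    · rw [← hi, map_pow]
  have hroots : ∀ ξ : LaurentSeries Kbar, ξ ^ m = 1 →
      ξ ∈ softOT A (IsLocalRing.residue A) := by
    intro ξ hξ
    obtain ⟨ξ₀, hξ₀, rfl⟩ := hconst ξ hξ
    exact Fermat.Agent.Red.GV.Soft.C_mem_softOT A _ ⟨ξ₀, h81c_mem_of_pow_eq_one hm0 hξ₀⟩
  have hprime : ∀ x ∈ softOT A (IsLocalRing.residue A),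
      ∀ y ∈ softOT A (IsLocalRing.residue A), x * y ∈ h81t_small A →
        x ∈ h81t_small A ∨ y ∈ h81t_small A := by
    rintro x hx y hy ⟨hxy, h0⟩
    have e : (⟨x * y, hxy⟩ : softOT A (IsLocalRing.residue A)) = ⟨x, hx⟩ * ⟨y, hy⟩ := rfl
    rw [e, map_mul] at h0
    rcases mul_eq_zero.mp h0 with h | h
    · exact Or.inl ⟨hx, h⟩
    · exact Or.inr ⟨hy, h⟩
  have h1 : (1 : LaurentSeries Kbar) ∉ h81t_small A := by
    rintro ⟨h, h0⟩
    have e : (⟨1, h⟩ : softOT A (IsLocalRing.residue A)) = 1 := rfl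
    rw [e, map_one] at h0
    exact one_ne_zero h0
  have hdiff : s ^ m - 1 ^ m ∈ h81t_small A := by
    obtain ⟨h, h0⟩ := (h64a_cong_iff A (s ^ m)).mp hsm
    rw [one_pow]
    refine ⟨sub_mem h (one_mem _), ?_⟩
    have e : (⟨s ^ m - 1, sub_mem h (one_mem _)⟩ : softOT A (IsLocalRing.residue A)) =
        ⟨s ^ m, h⟩ - 1 := rfl
    rw [e, map_sub, h0, map_one, sub_self]
  obtain ⟨ξ, hξ, hmem⟩ := h11t_root_of_pow (softOT A (IsLocalRing.residue A)) (h81t_small A)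
    hprime h1 m hm0 _ hζ hroots s 1 hs (one_mem _) hdiff
  obtain ⟨ξ₀, hξ₀, rfl⟩ := hconst ξ hξ
  rw [mul_one] at hmem
  exact ⟨ξ₀, hξ₀, hmem⟩

end Root

/-! ## The descent and the assembly -/

section Glob

variable {A : ValuationSubring Kbar} {M q : ℕ} [NeZero M] [NeZero q]

/-- a function of `F₀` (any level) whose `m`-th power is a Gauss unit is a Gauss unit. -/
theorem h81t_unit_of_pow (hq : q.Prime) (hA : A.LiesOverPrime q) {m : ℕ} (hm0 : 0 < m)
    (N : ℕ) {g : FF N} (hg0 : g ≠ 0) (hgF : g ∈ h92c_F0 A N)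
    (hu : h81g_UC A 1 ((g : LaurentSeries Kbar) ^ m)) :
    h81g_UC A 1 (g : LaurentSeries Kbar) := by
  have hq0 : ((q : ℕ) : Kbar) ≠ 0 := Nat.cast_ne_zero.mpr hq.ne_zero
  obtain ⟨j, hj⟩ := h81g_uc_level hq A hA N g hg0 hgF
  have hjm := h81g_uc_pow hj m
  have a1 := h81g_uc_cmp hu hjm
  have a2 := h81g_uc_cmp hjm hu
  rw [inv_one, mul_one] at a1
  rw [one_mul] at a2
  have e : (((q : ℕ) : Kbar) ^ j) ^ m = ((q : ℕ) : Kbar) ^ (j * (m : ℤ)) := by
    rw [zpow_mul, zpow_natCast]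
  rw [e] at a1 a2
  have hz := h81g_zpow_eq_zero hq hA a1 a2
  have hj0 : j = 0 := by
    rcases mul_eq_zero.mp hz with h | h
    · exact h
    · exact absurd (by exact_mod_cast h) hm0.ne'
  rw [hj0, zpow_zero] at hj
  exact hj

/-- **the descent of the root**: an `m`-th power in `FF (M q)` which is fixed by inertia and
`≡ 1` is the `m`-th power of a function fixed by inertia. -/
theorem h81t_descent (hq : q.Prime) (hA : A.LiesOverPrime q) {m : ℕ} (hm : ¬ q ∣ m)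
    (L : ℕ) [NeZero L] (N h : FF L) (hN0 : N ≠ 0) (hNF : N ∈ h92c_F0 A L) (hNh : N = h ^ m)
    (hc : h20n_CongOneS A (N : LaurentSeries Kbar)) :
    ∃ g : FF L, g ∈ h92c_F0 A L ∧ g ≠ 0 ∧ N = g ^ m := by
  have hm0 : 0 < m := Nat.pos_of_ne_zero (by rintro rfl; exact hm (dvd_zero q))
  have hq0 : ((q : ℕ) : Kbar) ≠ 0 := Nat.cast_ne_zero.mpr hq.ne_zero
  obtain ⟨c', g', hc'fix, hg'F, hgeq⟩ := h55p_descPow L (A.inertiaSubgroupIn ℚ) m N h 1 hN0
    hNF (by
      show N = algebraMap Kbar (FF L) 1 * h ^ m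
      rw [map_one (algebraMap Kbar (FF L)), one_mul]
      exact hNh)
  have hg'0 : g' ≠ 0 := by
    rintro rfl
    apply hN0
    rw [hgeq, zero_pow hm0.ne', mul_zero]
  have hc'0 : c' ≠ 0 := by
    rintro rfl
    apply hN0
    have hz : cst L (0 : Kbar) = 0 := map_zero (algebraMap Kbar (FF L))
    rw [hgeq, hz, zero_mul]
  obtain ⟨k, hk⟩ := h81g_uc_level hq A hA L g' hg'0 hg'F
  have e1 : (N : LaurentSeries Kbar) = HahnSeries.C c' * (g' : LaurentSeries Kbar) ^ m := by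
    conv_lhs => rw [hgeq]
    rw [h81g_coe_cst_mul]
    rfl
  have hN' : h81g_UC A ((((q : ℕ) : Kbar) ^ k) ^ m * c'⁻¹) (N : LaurentSeries Kbar) := by
    rw [e1]
    exact h81g_uc_C_mul (h81g_uc_pow hk m) hc'0
  have hN1 : h81g_UC A 1 (N : LaurentSeries Kbar) := h81t_uc_one_of_cong hc
  have a1 := h81g_uc_cmp hN' hN1
  have a2 := h81g_uc_cmp hN1 hN'
  rw [one_mul] at a1
  rw [inv_one, mul_one] at a2
  -- `c₁ = c' (q ^ k) ^ (-m)` is a unit of `A`, fixed by inertia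
  have hk0 : (((q : ℕ) : Kbar) ^ k) ^ m ≠ 0 := pow_ne_zero _ (zpow_ne_zero _ hq0)
  set c₁ : Kbar := c' * ((((q : ℕ) : Kbar) ^ k) ^ m)⁻¹ with hc₁
  have hc₁A : c₁ ∈ A := by
    have e : c₁ = ((((q : ℕ) : Kbar) ^ k) ^ m * c'⁻¹)⁻¹ := by
      rw [hc₁, mul_inv, inv_inv, mul_comm]
    rw [e]
    exact a1
  have hc₁A' : c₁⁻¹ ∈ A := by
    have e : c₁⁻¹ = (((q : ℕ) : Kbar) ^ k) ^ m * c'⁻¹ := by
      rw [hc₁, mul_inv, inv_inv, mul_comm]
    rw [e]
    exact a2
  have hc₁0 : c₁ ≠ 0 := mul_ne_zero hc'0 (inv_ne_zero hk0)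
  have hqfix : ∀ σ : GQ, σ (((q : ℕ) : Kbar) ^ k) = ((q : ℕ) : Kbar) ^ k := fun σ => by
    rw [map_zpow₀, map_natCast]
  have hc₁fix : ∀ σ ∈ A.inertiaSubgroupIn ℚ, σ c₁ = c₁ := fun σ hσ => by
    rw [hc₁, map_mul, map_inv₀, map_pow, hqfix σ, hc'fix σ hσ]
  -- an `m`-th root of `c₁`
  obtain ⟨d, hd⟩ := IsAlgClosed.exists_pow_nat_eq c₁ hm0
  have hd0 : d ≠ 0 := by
    rintro rfl
    rw [zero_pow hm0.ne'] at hd
    exact hc₁0 hd.symm
  have hdint : ∀ x : Kbar, x ≠ 0 → x ^ m ∈ A → x ∈ A := by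
    intro x _ hx
    rcases A.mem_or_inv_mem x with h | h
    · exact h
    · by_contra hxA
      have hv : 1 < A.valuation x := by
        by_contra hle
        exact hxA ((A.valuation_le_one_iff x).mp (not_lt.mp hle))
      have hv2 : 1 < A.valuation (x ^ m) := by
        rw [map_pow]
        exact one_lt_pow₀ hv hm0.ne'
      exact absurd ((A.valuation_le_one_iff _).mpr hx) (not_le.mpr hv2)
  have hdA : d ∈ A := hdint d hd0 (by rw [hd]; exact hc₁A)
  have hdA' : d⁻¹ ∈ A := hdint d⁻¹ (inv_ne_zero hd0) (by rw [inv_pow, hd]; exact hc₁A')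
  have hdfix : ∀ σ ∈ A.inertiaSubgroupIn ℚ, σ d = d :=
    h81t_root_fixed hq hA hm hd0 hdA hdA' (fun σ hσ => by rw [hd]; exact hc₁fix σ hσ)
  refine ⟨cst L (d * ((q : ℕ) : Kbar) ^ k) * g', ?_, ?_, ?_⟩
  · refine mul_mem ?_ hg'F
    intro σ hσ
    rw [Fermat.Agent.S37.GalI.gal_smul_cst, map_mul, hdfix σ hσ, hqfix σ]
  · refine mul_ne_zero ?_ hg'0
    rw [Ne, map_eq_zero_iff _ (algebraMap Kbar (FF L)).injective]
    exact mul_ne_zero hd0 (zpow_ne_zero _ hq0)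
  · rw [mul_pow, ← map_pow (algebraMap Kbar (FF L)), mul_pow, hd, hc₁, mul_assoc,
      inv_mul_cancel₀ hk0, mul_one]
    exact hgeq

/-- **the core of T-GLOB** at the level `M q`. -/
theorem h81t_glob_core (hq : q.Prime) (hqM : ¬ q ∣ M) (hA : A.LiesOverPrime q) {m : ℕ}
    (hm : ¬ q ∣ m) (N h : FF (M * q)) (hN0 : N ≠ 0) (hNF : N ∈ h92c_F0 A (M * q))
    (hNh : N = h ^ m) (c1 : h20n_CongOneS A (N : LaurentSeries Kbar))
    (c2 : h20n_CongOneS A ((kFricke M q hq hqM N : FF (M * q)) : LaurentSeries Kbar)) :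
    ∃ g : FF (M * q), g ∈ h92c_F0 A (M * q) ∧ g ≠ 0 ∧ N = g ^ m ∧
      ∃ ξ ξ' : Kbar, ξ ^ m = 1 ∧ ξ' ^ m = 1 ∧
        h11l_Small A (h11t_Einf M q) (g - cst (M * q) ξ) ∧
        h11l_Small A (h11t_Ezero M q hq hqM) (g - cst (M * q) ξ') := by
  have hm0 : 0 < m := Nat.pos_of_ne_zero (by rintro rfl; exact hm (dvd_zero q))
  obtain ⟨g, hgF, hg0, hNg⟩ := h81t_descent hq hA hm (M * q) N h hN0 hNF hNh c1
  have hwF : kFricke M q hq hqM g ∈ h92c_F0 A (M * q) := by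
    intro σ hσ
    have h1 := Fermat.Agent.Red.Kron.kFricke_gal M q hq hqM σ g
    have h2 : gal (M * q) σ • g = g := hgF σ hσ
    change kFricke M q hq hqM (gal (M * q) σ • g) = gal (M * q) σ • kFricke M q hq hqM g
      at h1
    rw [h2] at h1
    exact h1.symm
  have hw0 : kFricke M q hq hqM g ≠ 0 := (map_ne_zero (kFricke M q hq hqM)).mpr hg0
  -- Gauss units
  have e1 : ((g : LaurentSeries Kbar)) ^ m = (N : LaurentSeries Kbar) := by
    rw [hNg]
    rfl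
  have e2 : ((kFricke M q hq hqM g : FF (M * q)) : LaurentSeries Kbar) ^ m =
      ((kFricke M q hq hqM N : FF (M * q)) : LaurentSeries Kbar) := by
    rw [hNg, map_pow]
    rfl
  have u1 := h81t_unit_of_pow hq hA hm0 (M * q) hg0 hgF (by rw [e1]; exact h81t_uc_one_of_cong c1)
  have u2 := h81t_unit_of_pow hq hA hm0 (M * q) hw0 hwF
    (by rw [e2]; exact h81t_uc_one_of_cong c2)
  have s1 : (g : LaurentSeries Kbar) ∈ softOT A (IsLocalRing.residue A) := by
    have h1 := h81g_uc_mem u1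
    rwa [map_one, one_mul] at h1
  have s2 : ((kFricke M q hq hqM g : FF (M * q)) : LaurentSeries Kbar) ∈
      softOT A (IsLocalRing.residue A) := by
    have h1 := h81g_uc_mem u2
    rwa [map_one, one_mul] at h1
  obtain ⟨ξ, hξ, hξm⟩ := h81t_root_const hm0 s1 (by rw [e1]; exact c1)
  obtain ⟨ξ', hξ', hξ'm⟩ := h81t_root_const hm0 s2 (by rw [e2]; exact c2)
  refine ⟨g, hgF, hg0, hNg, ξ, ξ', hξ, hξ', ?_, ?_⟩
  · have e : h11t_Einf M q (g - cst (M * q) ξ) = (g : LaurentSeries Kbar) - HahnSeries.C ξ := by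
      rw [map_sub]
      congr 1
      exact Fermat.Agent.Red.GV.Soft.soft_coe_cst (M * q) ξ
    show ∃ h : h11t_Einf M q (g - cst (M * q) ξ) ∈ softOT A (IsLocalRing.residue A), _
    rw [e]
    exact hξm
  · have e : h11t_Ezero M q hq hqM (g - cst (M * q) ξ') =
        ((kFricke M q hq hqM g : FF (M * q)) : LaurentSeries Kbar) - HahnSeries.C ξ' := by
      rw [map_sub]
      congr 1
      show ((kFricke M q hq hqM (cst (M * q) ξ') : FF (M * q)) : LaurentSeries Kbar) = _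
      rw [Fermat.Agent.Red.Kron.kFricke_cst]
      exact Fermat.Agent.Red.GV.Soft.soft_coe_cst (M * q) ξ'
    show ∃ h : h11t_Ezero M q hq hqM (g - cst (M * q) ξ') ∈
      softOT A (IsLocalRing.residue A), _
    rw [e]
    exact hξ'm

end Glob

/-- **T-GLOB.** -/
theorem h81t_torGlob : H11TorGlob := by
  intro q hq M _ hqM _
  have : NeZero q := ⟨hq.ne_zero⟩
  intro A hA m hm w hwF hwU hnew φ hφ
  obtain ⟨hw0, -, ⟨hα, hαeq⟩, ⟨hβ, hβeq⟩⟩ := hnew
  obtain ⟨cA, cAw, cB, cBw⟩ := h81t_norm_cong hq hqM hA hwU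
  rcases hφ with rfl | rfl
  · obtain ⟨g, hgF, hg0, hNg, ξ, ξ', hξ, hξ', h1, h2⟩ :=
      h81t_glob_core hq hqM hA hm _ hα (h92c_norm_ne_zero _ hw0)
        (h81g_norm_mem_F0 _ _ (fun σ x => h83g_gal_alpha (M * q) q σ x) hwF) hαeq cA cAw
    exact ⟨g, hgF, hg0, hNg, ξ, ξ', hξ, hξ', h1, h2⟩
  · obtain ⟨g, hgF, hg0, hNg, ξ, ξ', hξ, hξ', h1, h2⟩ :=
      h81t_glob_core hq hqM hA hm _ hβ (h92c_norm_ne_zero _ hw0)
        (h81g_norm_mem_F0 _ _ (fun σ x => h83g_gal_beta (M * q) q σ x) hwF) hβeq cB cBw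
    exact ⟨g, hgF, hg0, hNg, ξ, ξ', hξ, hξ', h1, h2⟩

end Fermat.Agent.S36
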