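import Fermat.Agent.S36.H6VExact
import Fermat.Agent.S36.H40NormA
import Fermat.Agent.S36.H93NormD
import Fermat.Agent.S36.H20Emb
import Fermat.Agent.S36.H74VIface

/-!
# S36, block (V): V-EXACT, unconditional form (helper6)

`h6v_vExact` : a function `x` of level `M q²` which is Gauss-integral at `E20`, at all `E11^ζ`
(`ζ` a primitive `q`-th root of unity) and at `E02` is integral over the semistable Gauss ring
`ssV A M q` of level `M q` (along `α`).  (`h6v_noFourth` with the landed `h40na_normA`,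
`h93n_normD`, `h20n_embExists`.)
-/

set_option autoImplicit false
set_option linter.style.haveILetI false
set_option linter.unusedSectionVars false

open AlgebraicCurve ModularCurve Polynomial

noncomputable section

namespace Fermat.Agent.S36

open Fermat.Agent.S37 (Kbar GQ FF cst gal)
open Fermat.Agent.Red.GV.Soft (softOT softV)
open Fermat.Agent.LGC (h44g_IsFrac ssV)

/-- **V-EXACT (no fourth extension), unconditional.** -/
theorem h6v_vExact (q : ℕ) (hq : q.Prime) (M : ℕ) [NeZero M] (hqM : ¬ q ∣ M)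
    (A : ValuationSubring Kbar) (hA : A.LiesOverPrime q) :
    haveI : NeZero q := ⟨hq.ne_zero⟩
    ∀ x : FF (M * q * q), x ∈ softV A (M * q * q) →
      (∀ (ζ : Kbar) (E : FF (M * q * q) →+* LaurentSeries Kbar), IsPrimitiveRoot ζ q →
        h20n_IsE11 M q hq hqM ζ E → h74w_Int A E x) →
      (∀ E0 : FF (M * q * q) →+* LaurentSeries Kbar, h20n_IsE02 M q hq hqM E0 →
        h74w_Int A E0 x) →
      ((heckeAlphaBar Kbar (M * q) q).toRingHom.comp (ssV A M q).subtype).IsIntegralElem x := by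
  haveI : NeZero q := ⟨hq.ne_zero⟩
  haveI : Fact q.Prime := ⟨hq⟩
  haveI : NeZero ((q : ℕ) : Kbar) := ⟨by exact_mod_cast hq.ne_zero⟩
  intro x hx h11 h02
  obtain ⟨ζ, hζ⟩ := HasEnoughRootsOfUnity.exists_primitiveRoot Kbar q
  obtain ⟨hex11, E0, hE0⟩ := h20n_embExists q hq M hqM
  have hprim : ∀ b : ℕ, 0 < b → b < q → IsPrimitiveRoot (ζ ^ b) q := by
    intro b hb0 hbq
    apply hζ.pow_of_coprime
    exact (Nat.coprime_comm.mp ((Nat.Prime.coprime_iff_not_dvd hq).mpr
      (Nat.not_dvd_of_pos_of_lt hb0 hbq)))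
  have hexb : ∀ b : ℕ, ∃ E : FF (M * q * q) →+* LaurentSeries Kbar,
      0 < b → b < q → h20n_IsE11 M q hq hqM (ζ ^ b) E := by
    intro b
    by_cases hb : 0 < b ∧ b < q
    · obtain ⟨E, hE⟩ := hex11 (ζ ^ b) (hprim b hb.1 hb.2).pow_eq_one
        ((hprim b hb.1 hb.2).ne_one hq.one_lt)
      exact ⟨E, fun _ _ => hE⟩
    · exact ⟨E0, fun h1 h2 => absurd ⟨h1, h2⟩ hb⟩
  choose E hE using hexb
  exact h6v_noFourth h40na_normA h93n_normD hq hqM A hA ζ hζ E E0 hE hE0 x hx
    (fun b hb0 hbq => h11 (ζ ^ b) (E b) (hprim b hb0 hbq) (hE b hb0 hbq)) (h02 E0 hE0)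

end Fermat.Agent.S36
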