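import Fermat.Agent.S36.H23InertiaDVR
import Fermat.Agent.S05.RealOrd
import Fermat.Agent.Red.GV.SoftDisc

/-!
# S36 (V), part 2: the value group of `K₀(ζ_q)` (for the middle valuation `W₁₁`)

`A` a valuation subring of `ℚ̄` over the prime `q`, `K₀ = ℚ̄^I` the inertia field
(`h23u_K0 A`), `ζ` a primitive `q`-th root of unity, `π = 1 - ζ`.

* `h28c_ord_one_sub` : `(q - 1) · ord π = 1` (`ord` the real valuation with `ord q = 1`).
* `h28c_pow_div_mem`, `h28c_div_pow_mem` : `π ^ (q - 1) / q` is a unit of `A`.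
* `h28c_exists_aeval` : every element of `K₀(ζ)` is `∑_{i < q - 1} b_i π ^ i` with `b_i ∈ K₀`.
* `h28c_exists_zpow` : every nonzero element `c` of `K₀(ζ)` is `π ^ n` times a unit of `A`
  (`K₀(ζ) / K₀` is totally ramified of degree `q - 1` with uniformiser `π`).
-/

set_option autoImplicit false
set_option linter.unusedSectionVars false
set_option linter.style.haveILetI false

open Polynomial

noncomputable section

namespace Fermat.Agent.S36.V28

open Fermat.Agent.S05

local notation "Kb" => AlgebraicClosure ℚ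

variable {A : ValuationSubring Kb} {q : ℕ} {ord : Kb → ℝ}

/-- `ord` of a product of nonzero elements. -/
theorem h28c_ord_prod (h : RO.IsOrd A q ord) {ι : Type*} (s : Finset ι) (t : ι → Kb)
    (ht : ∀ i ∈ s, t i ≠ 0) : ord (∏ i ∈ s, t i) = ∑ i ∈ s, ord (t i) := by
  classical
  induction s using Finset.induction_on with
  | empty => simp [h.map_one]
  | insert a s ha ih =>
    rw [Finset.prod_insert ha, Finset.sum_insert ha,
      h.map_mul (ht a (Finset.mem_insert_self a s))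
        (Finset.prod_ne_zero_iff.mpr fun i hi => ht i (Finset.mem_insert_of_mem hi)),
      ih fun i hi => ht i (Finset.mem_insert_of_mem hi)]

/-- a root of unity has `ord = 0`. -/
theorem h28c_ord_of_pow_eq_one (h : RO.IsOrd A q ord) {ζ : Kb} {n : ℕ} (hn : 0 < n)
    (hζ : ζ ^ n = 1) : ord ζ = 0 := by
  have h1 : ord (ζ ^ n) = n * ord ζ := h.map_pow ζ n
  rw [hζ, h.map_one] at h1
  have hn' : (n : ℝ) ≠ 0 := Nat.cast_ne_zero.mpr hn.ne'
  exact (mul_eq_zero.mp h1.symm).resolve_left hn'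

/-- a unit of `A` has `ord = 0`. -/
theorem h28c_ord_of_unit (h : RO.IsOrd A q ord) {u : Kb} (hu : u ∈ A) (hu' : u⁻¹ ∈ A) :
    ord u = 0 := by
  have h1 := h.nonneg_of_mem hu
  have h2 := h.nonneg_of_mem hu'
  rw [h.map_inv] at h2
  linarith

/-- `1 - ζ ^ k` and `1 - ζ` have the same `ord` for `k` prime to `q`. -/
theorem h28c_ord_one_sub_pow (h : RO.IsOrd A q ord) (hq : q.Prime) {ζ : Kb}
    (hζ : IsPrimitiveRoot ζ q) {k : ℕ} (hk : k.Coprime q) :
    ord (1 - ζ ^ k) = ord (1 - ζ) := by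
  have hζA : ζ ∈ A :=
    h.mem_of_nonneg (le_of_eq (h28c_ord_of_pow_eq_one h hq.pos hζ.pow_eq_one).symm)
  have hζ' : IsPrimitiveRoot (⟨ζ, hζA⟩ : A) q :=
    IsPrimitiveRoot.of_map_of_injective (f := A.subtype) hζ Subtype.val_injective
  obtain ⟨u, hu⟩ := hζ'.associated_sub_one_pow_sub_one_of_coprime hk
  have hu1 : (ζ - 1) * ((u : A) : Kb) = ζ ^ k - 1 := by
    have := congrArg (fun x : A => (x : Kb)) hu
    simpa using this
  have hζ1 : ζ - 1 ≠ 0 := sub_ne_zero.mpr (hζ.ne_one hq.one_lt)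
  have hu0 : ((u : A) : Kb) ≠ 0 := by
    intro h0
    have : (u : A) = 0 := Subtype.ext h0
    exact u.ne_zero this
  have huord : ord ((u : A) : Kb) = 0 := by
    apply h28c_ord_of_unit h (u : A).2
    have h3 : (((u⁻¹ : Aˣ) : A) : Kb) = ((u : A) : Kb)⁻¹ := by
      have h4 : ((u : A) : Kb) * (((u⁻¹ : Aˣ) : A) : Kb) = 1 := by
        have h5 : (((u : A) * ((u⁻¹ : Aˣ) : A) : A) : Kb) = ((1 : A) : Kb) :=
          congrArg (fun x : A => (x : Kb)) u.mul_inv
        exact h5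
      exact eq_inv_of_mul_eq_one_right h4
    rw [← h3]
    exact ((u⁻¹ : Aˣ) : A).2
  rw [← h.map_neg (1 - ζ ^ k), ← h.map_neg (1 - ζ), neg_sub, neg_sub, ← hu1,
    h.map_mul hζ1 hu0, huord, add_zero]

/-- **`(q - 1) · ord (1 - ζ) = 1`.** -/
theorem h28c_ord_one_sub (h : RO.IsOrd A q ord) (hq : q.Prime) {ζ : Kb}
    (hζ : IsPrimitiveRoot ζ q) : ((q : ℝ) - 1) * ord (1 - ζ) = 1 := by
  obtain ⟨n, rfl⟩ : ∃ n, q = n + 1 := ⟨q - 1, (Nat.succ_pred_eq_of_pos hq.pos).symm⟩
  have hprod := hζ.prod_one_sub_pow_eq_order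
  have hne : ∀ k ∈ Finset.range n, (1 - ζ ^ (k + 1) : Kb) ≠ 0 := by
    intro k hk h0
    have hk' : k + 1 < n + 1 := by
      have := Finset.mem_range.mp hk
      omega
    have h1 : ζ ^ (k + 1) = 1 := (sub_eq_zero.mp h0).symm
    exact hζ.pow_ne_one_of_pos_of_lt (Nat.succ_ne_zero k) hk' h1
  have h2 := h28c_ord_prod h (Finset.range n) (fun k => (1 - ζ ^ (k + 1) : Kb)) hne
  rw [hprod] at h2
  have h3 : ord ((n : Kb) + 1) = 1 := by
    have := h.map_q
    push_cast at this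
    exact this
  rw [h3] at h2
  have h4 : ∀ k ∈ Finset.range n, ord (1 - ζ ^ (k + 1)) = ord (1 - ζ) := by
    intro k hk
    apply h28c_ord_one_sub_pow h hq hζ
    have hk' : k + 1 < n + 1 := by
      have := Finset.mem_range.mp hk
      omega
    exact Nat.Coprime.symm ((Nat.Prime.coprime_iff_not_dvd hq).mpr
      (Nat.not_dvd_of_pos_of_lt (Nat.succ_pos k) hk'))
  rw [Finset.sum_congr rfl h4, Finset.sum_const, Finset.card_range, nsmul_eq_mul] at h2
  push_cast
  linarith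

/-- `π ^ (q - 1) / q` is a unit of `A` (`π = 1 - ζ`). -/
theorem h28c_ord_pow_div (h : RO.IsOrd A q ord) (hq : q.Prime) {ζ : Kb}
    (hζ : IsPrimitiveRoot ζ q) : ord ((1 - ζ) ^ (q - 1) / (q : Kb)) = 0 := by
  have hπ0 : (1 - ζ : Kb) ≠ 0 := sub_ne_zero.mpr (hζ.ne_one hq.one_lt).symm
  rw [h.map_div (pow_ne_zero _ hπ0) h.q_ne_zero, h.map_pow, h.map_q]
  have h1 := h28c_ord_one_sub h hq hζ
  have h2 : ((q - 1 : ℕ) : ℝ) = (q : ℝ) - 1 := by
    rw [Nat.cast_sub hq.one_lt.le, Nat.cast_one]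
  rw [h2, h1, sub_self]

/-- every element of `K₀(ζ)` is a polynomial of degree `< q - 1` in `π = 1 - ζ` with
coefficients in `K₀` (any subfield `K₀`). -/
theorem h28c_exists_aeval (K₀ : IntermediateField ℚ Kb) (hq : q.Prime) {ζ : Kb}
    (hζ : IsPrimitiveRoot ζ q) (c : Kb) (hc : c ∈ IntermediateField.adjoin K₀ {ζ}) :
    ∃ f : Polynomial K₀, f.natDegree < q - 1 ∧ c = Polynomial.aeval (1 - ζ) f := by
  haveI : Fact q.Prime := ⟨hq⟩
  set π : Kb := 1 - ζ with hπ
  have hint : IsIntegral K₀ π := by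
    have : Algebra.IsAlgebraic K₀ Kb := by
      haveI : Algebra.IsAlgebraic ℚ Kb := AlgebraicClosure.isAlgebraic ℚ
      exact Algebra.IsAlgebraic.tower_top (K := ℚ) K₀
    exact (this.isAlgebraic π).isIntegral
  have hle : IntermediateField.adjoin K₀ {ζ} ≤ IntermediateField.adjoin K₀ {π} := by
    rw [IntermediateField.adjoin_le_iff]
    intro x hx
    rw [Set.mem_singleton_iff] at hx
    subst hx
    have h1 : x = 1 - π := by rw [hπ]; ring
    rw [h1]
    exact sub_mem (one_mem _) (IntermediateField.mem_adjoin_simple_self K₀ π)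
  have hc' := hle hc
  let pb := IntermediateField.adjoin.powerBasis hint
  obtain ⟨f, hf, hfc⟩ := pb.exists_eq_aeval ⟨c, hc'⟩
  -- the polynomial `Ψ = Φ_q ∘ (1 - X)`
  set Ψ : Polynomial K₀ := (cyclotomic q K₀).comp (C 1 - X) with hΨ
  have hlin : (C (1 : K₀) - X : Polynomial K₀).natDegree = 1 := by
    have : (C (1 : K₀) - X : Polynomial K₀) = -(X - C 1) := by ring
    rw [this, natDegree_neg, natDegree_X_sub_C]
  have hΨdeg : Ψ.natDegree = q - 1 := by
    rw [hΨ, natDegree_comp, natDegree_cyclotomic, hlin, mul_one, Nat.totient_prime hq]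
  have hΨ0 : Ψ ≠ 0 := by
    intro h0
    rw [h0, natDegree_zero] at hΨdeg
    have := hq.two_le
    omega
  have hΨπ : aeval π Ψ = 0 := by
    rw [hΨ, aeval_comp]
    have : aeval π (C (1 : K₀) - X : Polynomial K₀) = ζ := by
      simp [hπ]
    rw [this, cyclotomic_prime, map_sum]
    simp only [map_pow, aeval_X]
    exact hζ.geom_sum_eq_zero hq.one_lt
  have hdim : pb.dim ≤ q - 1 := by
    have h1 : pb.dim = (minpoly K₀ π).natDegree := IntermediateField.adjoin.powerBasis_dim hint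
    rw [h1, ← hΨdeg]
    exact natDegree_le_of_dvd (minpoly.dvd K₀ π hΨπ) hΨ0
  refine ⟨f, lt_of_lt_of_le hf hdim, ?_⟩
  have h2 := congrArg (fun y : IntermediateField.adjoin K₀ {π} => (y : Kb)) hfc
  simp only at h2
  rw [h2]
  have h3 : pb.gen = IntermediateField.AdjoinSimple.gen K₀ π :=
    IntermediateField.adjoin.powerBasis_gen hint
  rw [h3]
  have h4 := Polynomial.aeval_algHom_apply
    (IntermediateField.val (IntermediateField.adjoin K₀ {π}))
    (IntermediateField.AdjoinSimple.gen K₀ π) f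
  rw [IntermediateField.val_mk] at h4
  exact h4.symm

/-- **Value group of `K₀(ζ_q)`, `ord` form.**  Every nonzero element of `K₀(ζ)` has
`ord = n · ord (1 - ζ)` for an integer `n`. -/
theorem h28c_ord_eq (h : RO.IsOrd A q ord) (hq : q.Prime) (hA : A.LiesOverPrime q) {ζ : Kb}
    (hζ : IsPrimitiveRoot ζ q) {c : Kb} (hc : c ∈ IntermediateField.adjoin (h23u_K0 A) {ζ})
    (hc0 : c ≠ 0) : ∃ n : ℤ, ord c = n * ord (1 - ζ) := by
  classical
  obtain ⟨f, hf, hcf⟩ := h28c_exists_aeval (h23u_K0 A) hq hζ c hc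
  set π : Kb := 1 - ζ with hπ
  have hπ0 : π ≠ 0 := sub_ne_zero.mpr (hζ.ne_one hq.one_lt).symm
  have hρ : ((q : ℝ) - 1) * ord π = 1 := h28c_ord_one_sub h hq hζ
  have hq1 : (1 : ℝ) < q := by exact_mod_cast hq.one_lt
  set co : ℕ → Kb := fun i => ((f.coeff i : h23u_K0 A) : Kb) with hco
  have hco0 : ∀ i, co i = 0 ↔ f.coeff i = 0 := by
    intro i
    constructor
    · intro h0
      exact Subtype.ext h0
    · intro h0
      rw [hco]
      simp only
      rw [h0]
      rfl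
  have hsum : c = ∑ i ∈ Finset.range (q - 1), co i * π ^ i := by
    rw [hcf, Polynomial.aeval_eq_sum_range' hf]
    refine Finset.sum_congr rfl fun i _ => ?_
    rw [Algebra.smul_def]
    rfl
  -- `ord` of a nonzero coefficient is an integer
  have hcoeff : ∀ i, co i ≠ 0 → ∃ m : ℤ, ord (co i) = m := by
    intro i hi
    have hfix := (h23u_mem_K0_iff A (co i)).mp (f.coeff i).2
    obtain ⟨m, hm1, hm2⟩ := h23u_exists_zpow hq A hA hi hfix
    have h1 := h28c_ord_of_unit h hm1 hm2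
    have hq0 : ((q : ℕ) : Kb) ≠ 0 := Nat.cast_ne_zero.mpr hq.ne_zero
    rw [h.map_div hi (zpow_ne_zero _ hq0), h.map_q_zpow] at h1
    exact ⟨m, by linarith⟩
  set s : Finset ℕ := (Finset.range (q - 1)).filter (fun i => co i ≠ 0) with hs
  set t : Option ℕ → Kb := fun o => Option.elim o (-c) (fun i => co i * π ^ i) with ht
  have hsum' : ∑ i ∈ s, co i * π ^ i = c := by
    rw [hsum, hs, Finset.sum_filter]
    refine Finset.sum_congr rfl fun i _ => ?_
    by_cases hi : co i = 0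
    · simp [hi]
    · simp [hi]
  have hsum0 : ∑ o ∈ Finset.insertNone s, t o = 0 := by
    rw [Finset.sum_insertNone]
    show -c + ∑ i ∈ s, co i * π ^ i = 0
    rw [hsum']
    ring
  have hne : ∀ o ∈ Finset.insertNone s, t o ≠ 0 := by
    intro o ho
    cases o with
    | none => exact neg_ne_zero.mpr hc0
    | some i =>
      have hi : i ∈ s := Finset.some_mem_insertNone.mp ho
      have hi' : co i ≠ 0 := (Finset.mem_filter.mp hi).2
      exact mul_ne_zero hi' (pow_ne_zero _ hπ0)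
  have hordt : ∀ i, co i ≠ 0 → ∃ m : ℤ, ord (co i * π ^ i) = (m * (q - 1) + i) * ord π := by
    intro i hi
    obtain ⟨m, hm⟩ := hcoeff i hi
    refine ⟨m, ?_⟩
    rw [h.map_mul hi (pow_ne_zero _ hπ0), h.map_pow, hm]
    have : (m : ℝ) = m * ((q - 1) * ord π) := by rw [hρ, mul_one]
    linear_combination this
  obtain ⟨a, ha, b, hb, hab, hord⟩ := Fermat.Agent.Red.GV.Soft.exists_pair_of_sum_eq_zero h
    (Finset.insertNone s) t hne ⟨none, Finset.none_mem_insertNone⟩ hsum0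
  have hρ0 : ord π ≠ 0 := by
    intro h0
    rw [h0, mul_zero] at hρ
    exact zero_ne_one hρ
  -- two distinct `some` indices cannot have the same `ord`
  have hdist : ∀ i ∈ s, ∀ j ∈ s, ord (co i * π ^ i) = ord (co j * π ^ j) → i = j := by
    intro i hi j hj hij
    obtain ⟨mi, hmi⟩ := hordt i (Finset.mem_filter.mp hi).2
    obtain ⟨mj, hmj⟩ := hordt j (Finset.mem_filter.mp hj).2
    rw [hmi, hmj] at hij
    have h1 := mul_right_cancel₀ hρ0 hij
    have hiq : i < q - 1 := Finset.mem_range.mp (Finset.mem_filter.mp hi).1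
    have hjq : j < q - 1 := Finset.mem_range.mp (Finset.mem_filter.mp hj).1
    have h2 : ((q - 1 : ℕ) : ℝ) = (q : ℝ) - 1 := by
      rw [Nat.cast_sub hq.one_lt.le, Nat.cast_one]
    rw [← h2] at h1
    have h3 : mi * ((q - 1 : ℕ) : ℤ) + (i : ℤ) = mj * ((q - 1 : ℕ) : ℤ) + (j : ℤ) := by
      exact_mod_cast h1
    have h4 : mi = mj := by
      by_contra hne'
      rcases lt_or_gt_of_ne hne' with hlt | hlt
      · have : mi + 1 ≤ mj := hlt
        nlinarith
      · have : mj + 1 ≤ mi := hlt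
        nlinarith
    rw [h4] at h3
    have h5 : (i : ℤ) = j := by linarith
    exact_mod_cast h5
  have key : ∃ i, co i ≠ 0 ∧ ord c = ord (co i * π ^ i) := by
    cases a with
    | none =>
      cases b with
      | none => exact absurd rfl hab
      | some j =>
        have hj : j ∈ s := Finset.some_mem_insertNone.mp hb
        refine ⟨j, (Finset.mem_filter.mp hj).2, ?_⟩
        have : ord (-c) = ord (co j * π ^ j) := hord
        rwa [h.map_neg] at this
    | some i =>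
      have hi : i ∈ s := Finset.some_mem_insertNone.mp ha
      cases b with
      | none =>
        refine ⟨i, (Finset.mem_filter.mp hi).2, ?_⟩
        have : ord (co i * π ^ i) = ord (-c) := hord
        rw [h.map_neg] at this
        exact this.symm
      | some j =>
        exfalso
        have hj : j ∈ s := Finset.some_mem_insertNone.mp hb
        have : i = j := hdist i hi j hj hord
        exact hab (by rw [this])
  obtain ⟨i, hi, hci⟩ := key
  obtain ⟨m, hm⟩ := hordt i hi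
  refine ⟨m * ((q - 1 : ℕ) : ℤ) + i, ?_⟩
  rw [hci, hm]
  have h2 : ((q - 1 : ℕ) : ℝ) = (q : ℝ) - 1 := by
    rw [Nat.cast_sub hq.one_lt.le, Nat.cast_one]
  push_cast
  rw [h2]

/-- **Value group of `K₀(ζ_q)`.**  Every nonzero element of `K₀(ζ)` is `(1 - ζ) ^ n` times a
unit of `A`: the extension `K₀(ζ_q) / K₀` is totally ramified with uniformiser `1 - ζ`. -/
theorem h28c_exists_zpow (hq : q.Prime) (hA : A.LiesOverPrime q) {ζ : Kb}
    (hζ : IsPrimitiveRoot ζ q) {c : Kb} (hc : c ∈ IntermediateField.adjoin (h23u_K0 A) {ζ})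
    (hc0 : c ≠ 0) :
    ∃ n : ℤ, c / (1 - ζ) ^ n ∈ A ∧ (c / (1 - ζ) ^ n)⁻¹ ∈ A := by
  obtain ⟨ord, h⟩ := @RO.exists_isOrd _ _ A _ RO.isAlgebraic_int_Qbar q hq hA
  obtain ⟨n, hn⟩ := h28c_ord_eq h hq hA hζ hc hc0
  have hπ0 : (1 - ζ : Kb) ≠ 0 := sub_ne_zero.mpr (hζ.ne_one hq.one_lt).symm
  have h0 : ord (c / (1 - ζ) ^ n) = 0 := by
    rw [h.map_div hc0 (zpow_ne_zero _ hπ0), h.map_zpow, hn, sub_self]
  refine ⟨n, h.mem_of_nonneg (le_of_eq h0.symm), h.mem_of_nonneg ?_⟩
  rw [h.map_inv, h0, neg_zero]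

/-- `(1 - ζ) ^ (q - 1) / q` is a unit of `A`. -/
theorem h28c_pow_div_mem (hq : q.Prime) (hA : A.LiesOverPrime q) {ζ : Kb}
    (hζ : IsPrimitiveRoot ζ q) :
    (1 - ζ) ^ (q - 1) / (q : Kb) ∈ A ∧ ((1 - ζ) ^ (q - 1) / (q : Kb))⁻¹ ∈ A := by
  obtain ⟨ord, h⟩ := @RO.exists_isOrd _ _ A _ RO.isAlgebraic_int_Qbar q hq hA
  have h0 := h28c_ord_pow_div h hq hζ
  refine ⟨h.mem_of_nonneg (le_of_eq h0.symm), h.mem_of_nonneg ?_⟩
  rw [h.map_inv, h0, neg_zero]

end Fermat.Agent.S36.V28
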