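import Fermat.Agent.S36.H20VertSkel
import Fermat.Agent.S36.V28Disc
import Fermat.Agent.S36.V28Cyc
import Fermat.Agent.Red.RootLemmas

/-!
# S36, block (V) + (N), leaf VN-L7 (helper75): `H20Unip`, the unipotent lifting

`w ∈ F₀` with `w ≡ 1` at the three vertical valuations `E20`, `E11`, `E02` is, up to the
`m`-th power of a function of `F₀`, of the form `1 + q y` with `y ∈ F₀` integral at the three
valuations.

* `h75u_newton` : the abstract Newton iteration for `X ^ m = w` along a multiplicative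
  filtration `I j` of a subring `R` of a field (no valuations, no completeness).
* `h75u_unip : H20Unip` (unconditional): the filtration is
  `I j = {x ∈ F₀ | E20 x ∈ q ^ j G, E11 x ∈ (1 - ζ) ^ j G, E02 x ∈ q ^ j G}`, `G = softOT A`;
  `w - 1 ∈ I 1` by the discreteness of the three valuations on `F₀` (helper28, `V28Disc`);
  `I (q - 1) ⊆ q R` because `(1 - ζ) ^ (q - 1) / q` is a unit of `A` (`V28Cyc`).
-/

set_option autoImplicit false
set_option linter.unusedSectionVars false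

open AlgebraicCurve ModularCurve

noncomputable section

namespace Fermat.Agent.S36

/-! ## The abstract Newton iteration -/

section Newton

variable {F : Type*} [Field F]

/-- a multiplicative filtration of a subring `R` of a field, with `1 + I 1 ⊆ Rˣ`. -/
structure H75uFilt (R : Subring F) (I : ℕ → Set F) : Prop where
  add : ∀ j x y, x ∈ I j → y ∈ I j → x + y ∈ I j
  smul : ∀ j x r, x ∈ I j → r ∈ R → r * x ∈ I j
  mul : ∀ j k x y, x ∈ I j → y ∈ I k → x * y ∈ I (j + k)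
  sub : ∀ j x, x ∈ I j → x ∈ R
  mono : ∀ j k, j ≤ k → ∀ x, x ∈ I k → x ∈ I j
  unit : ∀ x, x ∈ I 1 → 1 + x ≠ 0 ∧ (1 + x)⁻¹ ∈ R

/-- **Newton iteration for `X ^ m = w`** along a filtration. -/
theorem h75u_newton (R : Subring F) (I : ℕ → Set F) (hF : H75uFilt R I)
    (m : ℕ) (ρ : F) (hρ : (m : F) * ρ = 1) (hρR : ρ ∈ R)
    (w : F) (hw : w - 1 ∈ I 1) (n : ℕ) :
    ∃ g : F, g ≠ 0 ∧ g ∈ R ∧ g⁻¹ ∈ R ∧ w * (g ^ m)⁻¹ - 1 ∈ I (2 ^ n) := by
  induction n with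
  | zero =>
    refine ⟨1, one_ne_zero, R.one_mem, by rw [inv_one]; exact R.one_mem, ?_⟩
    rw [one_pow, inv_one, mul_one, pow_zero]
    exact hw
  | succ n ih =>
    obtain ⟨g, hg0, hgR, hgR', hb⟩ := ih
    set b : F := w * (g ^ m)⁻¹ - 1 with hbdef
    have hb1 : b ∈ I 1 := hF.mono 1 (2 ^ n) Nat.one_le_two_pow b hb
    have hx : ρ * b ∈ I (2 ^ n) := hF.smul _ _ _ hb hρR
    have hx1 : ρ * b ∈ I 1 := hF.smul _ _ _ hb1 hρR
    have hxR : ρ * b ∈ R := hF.sub _ _ hx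
    obtain ⟨hu0, huR⟩ := hF.unit _ hx1
    obtain ⟨c, hc⟩ := Fermat.Agent.Red.h26_one_add_pow_expand (⟨ρ * b, hxR⟩ : R) m
    have hc' : (1 + ρ * b) ^ m = 1 + b + (ρ * b) ^ 2 * (c : F) := by
      have h1 := congrArg (Subtype.val) hc
      simp only [Subring.coe_add, Subring.coe_pow, Subring.coe_mul, Subring.coe_one,
        Subring.coe_natCast] at h1
      rw [h1, ← mul_assoc, hρ, one_mul]
    have h1xR : 1 + ρ * b ∈ R := R.add_mem R.one_mem hxR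
    refine ⟨g * (1 + ρ * b), mul_ne_zero hg0 hu0, R.mul_mem hgR h1xR, ?_, ?_⟩
    · rw [mul_inv]
      exact R.mul_mem hgR' huR
    · have hD0 : (1 + ρ * b) ^ m ≠ 0 := pow_ne_zero _ hu0
      have hgm0 : g ^ m ≠ 0 := pow_ne_zero _ hg0
      have h2 : w * (g ^ m)⁻¹ = 1 + b := by rw [hbdef]; ring
      have e1 : 1 + b = (1 + ρ * b) ^ m - (ρ * b) ^ 2 * (c : F) := by rw [hc']; ring
      have h3 : w * ((g * (1 + ρ * b)) ^ m)⁻¹ - 1
          = (-(c : F) * ((1 + ρ * b)⁻¹) ^ m) * ((ρ * b) * (ρ * b)) := by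
        rw [mul_pow, mul_inv, ← mul_assoc, h2, e1, sub_mul, mul_inv_cancel₀ hD0, inv_pow]
        ring
      rw [h3]
      have h4 : (ρ * b) * (ρ * b) ∈ I (2 ^ n + 2 ^ n) := hF.mul _ _ _ _ hx hx
      have h5 : 2 ^ (n + 1) = 2 ^ n + 2 ^ n := by rw [pow_succ]; ring
      rw [h5]
      refine hF.smul _ _ _ h4 ?_
      exact R.mul_mem (R.neg_mem c.2) (R.pow_mem huR m)

end Newton

/-! ## Divisibility in the Gauss ring along an embedding -/

section Div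

open Fermat.Agent.S37 (Kbar FF cst)
open Fermat.Agent.Red.GV Fermat.Agent.Red.GV.Soft

variable {N : ℕ} (A : ValuationSubring Kbar)

/-- `E x ∈ ϖ ^ j G`, `G = softOT A` the Gauss ring. -/
def h75uDiv (E : FF N →+* LaurentSeries Kbar) (ϖ : Kbar) (j : ℕ) (x : FF N) : Prop :=
  ∃ g ∈ h20v_G A, E x = HahnSeries.C ϖ ^ j * g

variable {A} {E : FF N →+* LaurentSeries Kbar} {ϖ : Kbar}

theorem h75u_div_add {j : ℕ} {x y : FF N} (hx : h75uDiv A E ϖ j x) (hy : h75uDiv A E ϖ j y) :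
    h75uDiv A E ϖ j (x + y) := by
  obtain ⟨g, hg, h⟩ := hx
  obtain ⟨g', hg', h'⟩ := hy
  exact ⟨g + g', add_mem hg hg', by rw [map_add, h, h', mul_add]⟩

theorem h75u_div_smul {j : ℕ} {x r : FF N} (hx : h75uDiv A E ϖ j x) (hr : E r ∈ h20v_G A) :
    h75uDiv A E ϖ j (r * x) := by
  obtain ⟨g, hg, h⟩ := hx
  exact ⟨E r * g, mul_mem hr hg, by rw [map_mul, h]; ring⟩

theorem h75u_div_mul {j k : ℕ} {x y : FF N} (hx : h75uDiv A E ϖ j x)
    (hy : h75uDiv A E ϖ k y) : h75uDiv A E ϖ (j + k) (x * y) := by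
  obtain ⟨g, hg, h⟩ := hx
  obtain ⟨g', hg', h'⟩ := hy
  exact ⟨g * g', mul_mem hg hg', by rw [map_mul, h, h', pow_add]; ring⟩

theorem h75u_C_mem (hϖ : ϖ ∈ A) : HahnSeries.C ϖ ∈ h20v_G A :=
  C_mem_softOT A (IsLocalRing.residue A) ⟨ϖ, hϖ⟩

theorem h75u_div_mem (hϖ : ϖ ∈ A) {j : ℕ} {x : FF N} (hx : h75uDiv A E ϖ j x) :
    E x ∈ h20v_G A := by
  obtain ⟨g, hg, h⟩ := hx
  rw [h]
  exact mul_mem (pow_mem (h75u_C_mem hϖ) j) hg

theorem h75u_div_mono (hϖ : ϖ ∈ A) {j k : ℕ} (hjk : j ≤ k) {x : FF N}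
    (hx : h75uDiv A E ϖ k x) : h75uDiv A E ϖ j x := by
  obtain ⟨g, hg, h⟩ := hx
  refine ⟨HahnSeries.C ϖ ^ (k - j) * g, mul_mem (pow_mem (h75u_C_mem hϖ) _) hg, ?_⟩
  rw [h, ← mul_assoc, ← pow_add, Nat.add_sub_cancel' hjk]

/-- the reduction of an element of `ϖ G` is `0` (`ϖ` a non-unit of `A`). -/
theorem h75u_red_eq_zero (hϖ : ϖ ∈ A.nonunits) {x : FF N} (hx : h75uDiv A E ϖ 1 x)
    (h : E x ∈ h20v_G A) : softRedT A (IsLocalRing.residue A) ⟨E x, h⟩ = 0 := by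
  have hϖA : ϖ ∈ A := A.nonunits_subset hϖ
  obtain ⟨g, hg, hxg⟩ := hx
  rw [pow_one] at hxg
  have h1 : (⟨E x, h⟩ : softOT A (IsLocalRing.residue A)) =
      ⟨HahnSeries.C ϖ, h75u_C_mem (A := A) hϖA⟩ * ⟨g, hg⟩ := Subtype.ext hxg
  rw [h1, map_mul, softRedT_C A (IsLocalRing.residue A) ⟨ϖ, hϖA⟩,
    residue_eq_zero_of_nonunit A ⟨ϖ, hϖA⟩ hϖ, map_zero, zero_mul]

/-- `1 + ϖ G` consists of units of `G`. -/
theorem h75u_div_unit (hϖ : ϖ ∈ A.nonunits) {x : FF N} (hx : h75uDiv A E ϖ 1 x) :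
    1 + x ≠ 0 ∧ E ((1 + x)⁻¹) ∈ h20v_G A := by
  have hϖA : ϖ ∈ A := A.nonunits_subset hϖ
  have hxG : E x ∈ h20v_G A := h75u_div_mem hϖA hx
  have h1G : E (1 + x) ∈ h20v_G A := by
    rw [map_add, map_one]
    exact add_mem (one_mem _) hxG
  have hred : softRedT A (IsLocalRing.residue A) ⟨E (1 + x), h1G⟩ = 1 := by
    have h2 : (⟨E (1 + x), h1G⟩ : softOT A (IsLocalRing.residue A)) = 1 + ⟨E x, hxG⟩ := by
      apply Subtype.ext
      change E (1 + x) = 1 + E x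
      rw [map_add, map_one]
    rw [h2, map_add, map_one, h75u_red_eq_zero hϖ hx hxG, add_zero]
  have hne : softRedT A (IsLocalRing.residue A) ⟨E (1 + x), h1G⟩ ≠ 0 := by
    rw [hred]
    exact one_ne_zero
  obtain ⟨h0, hinv⟩ := (softRedT_ne_zero_iff _).mp hne
  refine ⟨fun h => h0 (by simp only; rw [h, map_zero]), ?_⟩
  rw [map_inv₀]
  exact hinv

/-- **discreteness ⟹ divisibility**: if `E x` is in `G` with reduction `0` and `ϖ ^ n · x`
is a unit of `G` at `E` for some `n : ℤ`, then `E x ∈ ϖ G`. -/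
theorem h75u_div_of_disc (hϖ : ϖ ∈ A.nonunits) (hϖ0 : ϖ ≠ 0)
    (hEc : ∀ c : Kbar, E (cst N c) = HahnSeries.C c) {x : FF N}
    (hxG : E x ∈ h20v_G A) (hred : softRedT A (IsLocalRing.residue A) ⟨E x, hxG⟩ = 0)
    (n : ℤ) (hu : E (cst N (ϖ ^ n) * x) ∈ h20v_G A ∧ (E (cst N (ϖ ^ n) * x))⁻¹ ∈ h20v_G A)
    (hx0 : x ≠ 0) :
    h75uDiv A E ϖ 1 x := by
  have hϖA : ϖ ∈ A := A.nonunits_subset hϖ
  have hEx0 : E x ≠ 0 := fun h => hx0 ((map_eq_zero E).mp h)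
  have hE : E (cst N (ϖ ^ n) * x) = HahnSeries.C (ϖ ^ n) * E x := by rw [map_mul, hEc]
  rw [hE] at hu
  rcases le_or_gt 0 n with hn | hn
  · -- `n ≥ 0`: the reduction of a unit would be `0`
    exfalso
    obtain ⟨k, rfl⟩ := Int.eq_ofNat_of_zero_le hn
    rw [zpow_natCast] at hu
    have hCk : HahnSeries.C (ϖ ^ k) ∈ h20v_G A := by
      rw [map_pow]
      exact pow_mem (h75u_C_mem hϖA) k
    have hne : HahnSeries.C (ϖ ^ k) * E x ≠ 0 :=
      mul_ne_zero (by rw [Ne, map_eq_zero]; exact pow_ne_zero _ hϖ0) hEx0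
    have h1 : softRedT A (IsLocalRing.residue A) ⟨_, hu.1⟩ ≠ 0 :=
      (softRedT_ne_zero_iff _).mpr ⟨hne, hu.2⟩
    apply h1
    have h2 : (⟨_, hu.1⟩ : softOT A (IsLocalRing.residue A)) = ⟨_, hCk⟩ * ⟨E x, hxG⟩ :=
      Subtype.ext rfl
    rw [h2, map_mul, hred, mul_zero]
  · -- `n < 0`: `E x = ϖ ^ (-n) · unit`
    obtain ⟨k, hk⟩ : ∃ k : ℕ, n = -((k : ℤ) + 1) := ⟨(-n - 1).toNat, by omega⟩
    subst hk
    refine ⟨HahnSeries.C ϖ ^ k * (HahnSeries.C (ϖ ^ (-((k : ℤ) + 1))) * E x),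
      mul_mem (pow_mem (h75u_C_mem hϖA) k) hu.1, ?_⟩
    rw [pow_one, ← mul_assoc, ← mul_assoc, ← pow_succ', ← map_pow, ← map_mul]
    have h3 : ϖ ^ (k + 1) * ϖ ^ (-((k : ℤ) + 1)) = 1 := by
      rw [zpow_neg, ← zpow_natCast ϖ (k + 1)]
      push_cast
      exact mul_inv_cancel₀ (zpow_ne_zero _ hϖ0)
    rw [h3, map_one, one_mul]

/-- `w ≡ 1` at `E` (in the sense of `h20n_CongOneS`): `E (w - 1)` is in `G` with reduction
`0`. -/
theorem h75u_congOne {w : FF N} (hw : h20n_CongOneS A (E w)) :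
    ∃ h : E (w - 1) ∈ h20v_G A,
      softRedT A (IsLocalRing.residue A) ⟨E (w - 1), h⟩ = 0 := by
  obtain ⟨a, b, hb, hab, hred⟩ := hw
  have hwit : IsWit A (IsLocalRing.residue A) (E w) a b := ⟨hb, hab⟩
  have hwG : E w ∈ h20v_G A := ⟨a, b, hwit⟩
  have h1 : softRedT A (IsLocalRing.residue A) ⟨E w, hwG⟩ = 1 := by
    rw [softRedT_apply ⟨E w, hwG⟩ hwit]
    have h3 : redA (IsLocalRing.residue A) a = redA (IsLocalRing.residue A) b := hred
    have hb' : redA (IsLocalRing.residue A) b ≠ 0 := hb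
    rw [h3, div_self hb']
  have hG : E (w - 1) ∈ h20v_G A := by
    rw [map_sub, map_one]
    exact sub_mem hwG (one_mem _)
  refine ⟨hG, ?_⟩
  have h2 : (⟨E (w - 1), hG⟩ : softOT A (IsLocalRing.residue A)) = ⟨E w, hwG⟩ - 1 := by
    apply Subtype.ext
    change E (w - 1) = E w - 1
    rw [map_sub, map_one]
  rw [h2, map_sub, map_one, h1, sub_self]

/-- division by `q`: `E b ∈ ϖ ^ e G` and `ϖ ^ e / q ∈ A` imply `E (b / q) ∈ G`. -/
theorem h75u_div_q {e : ℕ} {b : FF N} (hb : h75uDiv A E ϖ e b) (qK : Kbar)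
    (hϖq : ϖ ^ e / qK ∈ A) (qF : FF N) (hEq : E qF = HahnSeries.C qK) :
    E (b * qF⁻¹) ∈ h20v_G A := by
  obtain ⟨g, hg, h⟩ := hb
  have h1 : E (b * qF⁻¹) = HahnSeries.C (ϖ ^ e / qK) * g := by
    rw [map_mul, map_inv₀, h, hEq, div_eq_mul_inv, map_mul, map_pow, map_inv₀]
    ring
  rw [h1]
  exact mul_mem (h75u_C_mem hϖq) hg

end Div

/-! ## The filtration of the three valuations -/

section Filt

open Fermat.Agent.S37 (Kbar FF cst)
open Fermat.Agent.Red.GV Fermat.Agent.Red.GV.Soft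

variable {N : ℕ} (A : ValuationSubring Kbar) (F0 : Subfield (FF N))
  (E20 E11 E02 : FF N →+* LaurentSeries Kbar) (qK π : Kbar)

/-- the functions of `F₀` which are integral at the three valuations. -/
def h75uR : Subring (FF N) :=
  F0.toSubring ⊓ (h20v_G A).comap E20 ⊓ (h20v_G A).comap E11 ⊓ (h20v_G A).comap E02

theorem h75u_mem_R (x : FF N) : x ∈ h75uR A F0 E20 E11 E02 ↔
    x ∈ F0 ∧ E20 x ∈ h20v_G A ∧ E11 x ∈ h20v_G A ∧ E02 x ∈ h20v_G A := by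
  unfold h75uR
  simp only [Subring.mem_inf, Subring.mem_comap, Subfield.mem_toSubring, and_assoc]

/-- the filtration: divisibility by `q ^ j`, `π ^ j`, `q ^ j` at `E20`, `E11`, `E02`. -/
def h75uI (j : ℕ) : Set (FF N) :=
  {x | x ∈ F0 ∧ h75uDiv A E20 qK j x ∧ h75uDiv A E11 π j x ∧ h75uDiv A E02 qK j x}

theorem h75u_mem_I (j : ℕ) (x : FF N) : x ∈ h75uI A F0 E20 E11 E02 qK π j ↔
    x ∈ F0 ∧ h75uDiv A E20 qK j x ∧ h75uDiv A E11 π j x ∧ h75uDiv A E02 qK j x := Iff.rfl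

theorem h75u_filt (hq : qK ∈ A.nonunits) (hπ : π ∈ A.nonunits) :
    H75uFilt (h75uR A F0 E20 E11 E02) (h75uI A F0 E20 E11 E02 qK π) := by
  have hqA : qK ∈ A := A.nonunits_subset hq
  have hπA : π ∈ A := A.nonunits_subset hπ
  refine ⟨?_, ?_, ?_, ?_, ?_, ?_⟩
  · rintro j x y ⟨hx0, hx1, hx2, hx3⟩ ⟨hy0, hy1, hy2, hy3⟩
    exact ⟨add_mem hx0 hy0, h75u_div_add hx1 hy1, h75u_div_add hx2 hy2,
      h75u_div_add hx3 hy3⟩
  · rintro j x r ⟨hx0, hx1, hx2, hx3⟩ hr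
    obtain ⟨hr0, hr1, hr2, hr3⟩ := (h75u_mem_R A F0 E20 E11 E02 r).mp hr
    exact ⟨mul_mem hr0 hx0, h75u_div_smul hx1 hr1, h75u_div_smul hx2 hr2,
      h75u_div_smul hx3 hr3⟩
  · rintro j k x y ⟨hx0, hx1, hx2, hx3⟩ ⟨hy0, hy1, hy2, hy3⟩
    exact ⟨mul_mem hx0 hy0, h75u_div_mul hx1 hy1, h75u_div_mul hx2 hy2,
      h75u_div_mul hx3 hy3⟩
  · rintro j x ⟨hx0, hx1, hx2, hx3⟩
    exact (h75u_mem_R A F0 E20 E11 E02 x).mpr ⟨hx0, h75u_div_mem hqA hx1,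
      h75u_div_mem hπA hx2, h75u_div_mem hqA hx3⟩
  · rintro j k hjk x ⟨hx0, hx1, hx2, hx3⟩
    exact ⟨hx0, h75u_div_mono hqA hjk hx1, h75u_div_mono hπA hjk hx2,
      h75u_div_mono hqA hjk hx3⟩
  · rintro x ⟨hx0, hx1, hx2, hx3⟩
    obtain ⟨h0, h1⟩ := h75u_div_unit hq hx1
    obtain ⟨-, h2⟩ := h75u_div_unit hπ hx2
    obtain ⟨-, h3⟩ := h75u_div_unit hq hx3
    exact ⟨h0, (h75u_mem_R A F0 E20 E11 E02 _).mpr
      ⟨inv_mem (add_mem (one_mem _) hx0), h1, h2, h3⟩⟩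

/-- the inverse of a natural number prime to the residue characteristic is in `A`. -/
theorem h75u_inv_natCast_mem {q m : ℕ} (hq : q.Prime) (hA : ((q : ℕ) : Kbar) ∈ A.nonunits)
    (hm : ¬ q ∣ m) : ((m : ℕ) : Kbar)⁻¹ ∈ A := by
  have hcop : Nat.Coprime m q :=
    Nat.Coprime.symm ((Nat.Prime.coprime_iff_not_dvd hq).mpr hm)
  obtain ⟨u, v, huv⟩ := (Nat.isCoprime_iff_coprime.2 hcop)
  have h1 : (u : Kbar) * ((m : ℕ) : Kbar) + (v : Kbar) * ((q : ℕ) : Kbar) = 1 := by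
    have h := congrArg (Int.cast : ℤ → Kbar) huv
    push_cast at h
    exact h
  have hu : A.valuation (u : Kbar) ≤ 1 := (A.valuation_le_one_iff _).2 (intCast_mem A u)
  have hv : A.valuation (v : Kbar) ≤ 1 := (A.valuation_le_one_iff _).2 (intCast_mem A v)
  have hm1 : A.valuation ((m : ℕ) : Kbar) ≤ 1 :=
    (A.valuation_le_one_iff _).2 (natCast_mem A m)
  have hqv : A.valuation ((q : ℕ) : Kbar) < 1 := (ValuationSubring.mem_nonunits_iff A).1 hA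
  have hm2 : A.valuation ((m : ℕ) : Kbar) = 1 := by
    refine le_antisymm hm1 (not_lt.1 fun hlt => ?_)
    have h2 : A.valuation ((u : Kbar) * ((m : ℕ) : Kbar) + (v : Kbar) * ((q : ℕ) : Kbar))
        < 1 := by
      refine lt_of_le_of_lt (Valuation.map_add _ _ _) (max_lt ?_ ?_)
      · rw [map_mul]
        exact lt_of_le_of_lt (mul_le_of_le_one_left' hu) hlt
      · rw [map_mul]
        exact lt_of_le_of_lt (mul_le_of_le_one_left' hv) hqv
    rw [h1, map_one] at h2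
    exact lt_irrefl _ h2
  rw [← A.valuation_le_one_iff, map_inv₀, hm2, inv_one]

/-- `1 - ζ` is a non-unit of `A` (`ζ` a primitive `q`-th root of unity, `A` over `q`). -/
theorem h75u_one_sub_mem_nonunits {q : ℕ} (hq : q.Prime) (hA : A.LiesOverPrime q) {ζ : Kbar}
    (hζ : IsPrimitiveRoot ζ q) : (1 - ζ : Kbar) ∈ A.nonunits := by
  obtain ⟨hε, -⟩ := Fermat.Agent.S36.V28.h28c_pow_div_mem (A := A) hq hA hζ
  have hqn : ((q : ℕ) : Kbar) ∈ A.nonunits := hA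
  have hq0 : ((q : ℕ) : Kbar) ≠ 0 := Nat.cast_ne_zero.mpr hq.ne_zero
  rw [ValuationSubring.mem_nonunits_iff]
  by_contra hcon
  rw [not_lt] at hcon
  have h1 : A.valuation ((1 - ζ) ^ (q - 1) / ((q : ℕ) : Kbar)) ≤ 1 :=
    (A.valuation_le_one_iff _).mpr hε
  have h2 : A.valuation ((q : ℕ) : Kbar) < 1 := (ValuationSubring.mem_nonunits_iff A).mp hqn
  have h3 : (1 : ValuationSubring.ValueGroup A) ≤ A.valuation ((1 - ζ) ^ (q - 1)) := by
    rw [map_pow]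
    exact one_le_pow₀ hcon
  have h4 : A.valuation ((1 - ζ) ^ (q - 1)) =
      A.valuation ((1 - ζ) ^ (q - 1) / ((q : ℕ) : Kbar)) * A.valuation ((q : ℕ) : Kbar) := by
    rw [← map_mul, div_mul_cancel₀ _ hq0]
  have h5 : A.valuation ((1 - ζ) ^ (q - 1) / ((q : ℕ) : Kbar)) *
      A.valuation ((q : ℕ) : Kbar) < 1 :=
    lt_of_le_of_lt (mul_le_of_le_one_left' h1) h2
  rw [← h4] at h5
  exact absurd h3 (not_le.mpr h5)

end Filt

/-! ## The main theorem -/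

section Main

open Fermat.Agent.S37 (Kbar FF cst auxLevel)
open Fermat.Agent.Red.GV Fermat.Agent.Red.GV.Soft
open Fermat.Agent.S36.V28

/-- natural numbers at an embedding which is the identity on constants. -/
theorem h75u_map_natCast {N : ℕ} (E : FF N →+* LaurentSeries Kbar) (k : ℕ) :
    E ((k : ℕ) : FF N) = HahnSeries.C ((k : ℕ) : Kbar) := by
  rw [map_natCast, map_natCast]

theorem h75u_natCast_ne_zero {N : ℕ} {k : ℕ} (hk : k ≠ 0) : ((k : ℕ) : FF N) ≠ 0 := by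
  intro h
  have h1 : algebraMap Kbar (FF N) ((k : ℕ) : Kbar) = 0 := by rw [map_natCast]; exact h
  have h2 : ((k : ℕ) : Kbar) = 0 := (map_eq_zero (algebraMap Kbar (FF N))).mp h1
  exact hk (Nat.cast_eq_zero.mp h2)

/-- **(L7) UNIP**, unconditional. -/
theorem h75u_unip : H20Unip := by
  intro q hq M _ hqM _
  haveI : NeZero q := ⟨hq.ne_zero⟩
  intro A hA ζ E11 E02 hT m hm w hwF hw
  have hζ : IsPrimitiveRoot ζ q := hT.prim
  have hqn : ((q : ℕ) : Kbar) ∈ A.nonunits := hA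
  have hq0 : ((q : ℕ) : Kbar) ≠ 0 := Nat.cast_ne_zero.mpr hq.ne_zero
  have hπn : (1 - ζ : Kbar) ∈ A.nonunits := h75u_one_sub_mem_nonunits A hq hA hζ
  have hπ0 : (1 - ζ : Kbar) ≠ 0 := by
    intro h
    have h1 : ζ = 1 := (sub_eq_zero.mp h).symm
    exact hq.one_lt.ne' (hζ.unique (h1 ▸ IsPrimitiveRoot.one))
  have hε : (1 - ζ) ^ (q - 1) / ((q : ℕ) : Kbar) ∈ A :=
    (h28c_pow_div_mem (A := A) hq hA hζ).1
  have hc20 : ∀ c : Kbar, h20n_E20 M q (cst (M * q * q) c) = HahnSeries.C c :=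
    fun c => soft_coe_cst (M * q * q) c
  have hc11 : ∀ c : Kbar, E11 (cst (M * q * q) c) = HahnSeries.C c :=
    h28d_E11_cst hq hqM ζ E11 hT.e11
  have hc02 : ∀ c : Kbar, E02 (cst (M * q * q) c) = HahnSeries.C c :=
    h28d_E02_cst hq hqM E02 hT.e02
  have hm0 : m ≠ 0 := fun h => hm (h ▸ dvd_zero q)
  have hmF : ((m : ℕ) : FF (M * q * q)) ≠ 0 := h75u_natCast_ne_zero hm0
  have hqF : ((q : ℕ) : FF (M * q * q)) ≠ 0 := h75u_natCast_ne_zero hq.ne_zero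
  have hmA : ((m : ℕ) : Kbar)⁻¹ ∈ A := h75u_inv_natCast_mem A hq hqn hm
  have hF := h75u_filt A (h92c_F0 A (M * q * q)) (h20n_E20 M q) E11 E02
    ((q : ℕ) : Kbar) (1 - ζ) hqn hπn
  -- the inverse of `m`
  have hρE : ∀ E : FF (M * q * q) →+* LaurentSeries Kbar,
      E (((m : ℕ) : FF (M * q * q))⁻¹) ∈ h20v_G A := by
    intro E
    rw [map_inv₀, h75u_map_natCast, ← map_inv₀]
    exact h75u_C_mem hmA
  have hρR : ((m : ℕ) : FF (M * q * q))⁻¹ ∈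
      h75uR A (h92c_F0 A (M * q * q)) (h20n_E20 M q) E11 E02 :=
    (h75u_mem_R A _ _ _ _ _).mpr
      ⟨inv_mem (natCast_mem _ m), hρE _, hρE _, hρE _⟩
  have hρ : ((m : ℕ) : FF (M * q * q)) * ((m : ℕ) : FF (M * q * q))⁻¹ = 1 :=
    mul_inv_cancel₀ hmF
  by_cases hw1 : w - 1 = 0
  · refine ⟨1, 0, one_mem _, one_ne_zero, zero_mem _, ⟨?_, ?_, ?_⟩, ?_⟩
    · rw [map_zero]; exact zero_mem _
    · rw [map_zero]; exact zero_mem _
    · rw [map_zero]; exact zero_mem _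
    · rw [one_pow, inv_one, mul_one, mul_zero, add_zero]
      exact sub_eq_zero.mp hw1
  · have hfix : h28v_IFixed A (M * q * q) (w - 1) :=
      (sub_mem hwF (one_mem _) : w - 1 ∈ h92c_F0 A (M * q * q))
    -- `w - 1 ∈ I 1`
    have hI1 : w - 1 ∈ h75uI A (h92c_F0 A (M * q * q)) (h20n_E20 M q) E11 E02
        ((q : ℕ) : Kbar) (1 - ζ) 1 := by
      refine ⟨sub_mem hwF (one_mem _), ?_, ?_, ?_⟩
      · obtain ⟨hG, hred⟩ := h75u_congOne (E := h20n_E20 M q) hw.1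
        obtain ⟨n, hn⟩ := h28d_W20_exists_zpow A hq hA (w - 1) hfix hw1
        exact h75u_div_of_disc hqn hq0 hc20 hG hred n hn hw1
      · obtain ⟨hG, hred⟩ := h75u_congOne (E := E11) hw.2.1
        obtain ⟨n, hn⟩ := h28d_W11_exists_zpow A hq hqM hA ζ hζ E11 hT.e11 (w - 1) hfix hw1
        exact h75u_div_of_disc hπn hπ0 hc11 hG hred n hn hw1
      · obtain ⟨hG, hred⟩ := h75u_congOne (E := E02) hw.2.2
        obtain ⟨n, hn⟩ := h28d_W02_exists_zpow A hq hqM hA E02 hT.e02 (w - 1) hfix hw1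
        exact h75u_div_of_disc hqn hq0 hc02 hG hred n hn hw1
    obtain ⟨g, hg0, hgR, -, hb⟩ := h75u_newton _ _ hF m _ hρ hρR w hI1 q
    have hb' := hF.mono (q - 1) (2 ^ q)
      (le_trans (Nat.sub_le q 1) (Nat.lt_two_pow_self).le) _ hb
    obtain ⟨hb0, hb1, hb2, hb3⟩ := hb'
    have hgF : g ∈ h92c_F0 A (M * q * q) := ((h75u_mem_R A _ _ _ _ g).mp hgR).1
    have hqq : ((q : ℕ) : Kbar) ^ (q - 1) / ((q : ℕ) : Kbar) ∈ A := by
      obtain ⟨k, hk⟩ : ∃ k, q - 1 = k + 1 := ⟨q - 2, by have := hq.two_le; omega⟩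
      rw [hk, pow_succ, mul_div_assoc, div_self hq0, mul_one]
      exact pow_mem (A.nonunits_subset hqn) k
    refine ⟨g, (w * (g ^ m)⁻¹ - 1) * ((q : ℕ) : FF (M * q * q))⁻¹, hgF, hg0,
      mul_mem hb0 (inv_mem (natCast_mem _ q)), ⟨?_, ?_, ?_⟩, ?_⟩
    · exact h75u_div_q hb1 _ hqq _ (h75u_map_natCast _ q)
    · exact h75u_div_q hb2 _ hε _ (h75u_map_natCast _ q)
    · exact h75u_div_q hb3 _ hqq _ (h75u_map_natCast _ q)
    · rw [mul_comm (w * (g ^ m)⁻¹ - 1), ← mul_assoc, mul_inv_cancel₀ hqF, one_mul]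
      ring

end Main

end Fermat.Agent.S36
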