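import Fermat.Agent.S36.H74VIface
import Fermat.Agent.S36.H20VertSkel
import Fermat.Agent.S36.H20Emb
import Fermat.Agent.S36.H83EmbGal
import Fermat.Agent.LGC.QEP28
import Fermat.Agent.LGC.SSV44
import Fermat.Agent.Red.GV.SoftGal

/-!
# S36, block (V), rows V-INT and VN-L1 (helper88): completeness in integrality form

* `H88VExact` : (hypothesis, = forward direction of row V-EXACT) a function of level `M q q`
  which is Gauss-integral at `E20`, at all `E11^ζ` and at `E02` is integral over
  `α₂ (ssV A M q)`.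
* `h88v_int_of_exact : H88VExact → H74Int` (exact frozen Prop of `H74VIface`): the monic
  equation is the minimal polynomial of `x` over `FF M` along `α ∘ α`; its coefficients are
  Gauss-integral because the Gauss ring of level `M` is a valuation ring, and they are fixed by
  inertia (uniqueness of the minimal polynomial) when `x` is.
* `h88v_vcomplete : H74MidAll → H74Int → H20VComplete` (exact frozen Prop of `H20VertSkel`).
-/

set_option autoImplicit false
set_option linter.unusedSectionVars false
set_option linter.style.haveILetI false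
set_option synthInstance.maxHeartbeats 400000

open AlgebraicCurve ModularCurve Polynomial

noncomputable section

namespace Fermat.Agent.S36

open Fermat.Agent.S37 (Kbar GQ FF cst gal jB degen coe_degen auxLevel)
open Fermat.Agent.Red.GV (gaussV mem_or_inv_mem_gaussV)
open Fermat.Agent.Red.GV.Soft (softOT softV softV_eq_gaussV)
open Fermat.Agent.S36.V28 (h28v_F0 h28v_IFixed)
open Fermat.Agent.LGC (ssV gaussVImage h28q_mem_of_isIntegral h28q_isIntegral_of_root)

/-! ## Abstract lemmas (Mathlib only) -/

section Abstract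

/-- an integral equation over the image `R.map f` lifts to `R`. -/
theorem h88v_isIntegralElem_of_map {F F' : Type*} [Field F] [Field F'] (f : F →+* F')
    (R : Subring F) (x : F') (hx : IsIntegral (R.map f) x) :
    (f.comp R.subtype).IsIntegralElem x := by
  obtain ⟨p, hp, hpx⟩ := hx
  let g : R →+* (R.map f) := (f.comp R.subtype).codRestrict (R.map f)
    (fun y => Subring.mem_map.mpr ⟨y.1, y.2, rfl⟩)
  have hg : Function.Surjective g := by
    rintro ⟨y, hy⟩
    obtain ⟨z, hz, rfl⟩ := Subring.mem_map.mp hy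
    exact ⟨⟨z, hz⟩, rfl⟩
  obtain ⟨Q, hQ, -, hQm⟩ := Polynomial.lifts_and_degree_eq_and_monic
    ((Polynomial.mem_lifts p).2 (Polynomial.map_surjective _ hg p)) hp
  refine ⟨Q, hQm, ?_⟩
  have h1 : Polynomial.eval₂ (f.comp R.subtype) x Q =
      Polynomial.eval₂ (algebraMap (R.map f) F') x (Q.map g) := by
    rw [Polynomial.eval₂_map]
    rfl
  rw [h1, hQ]
  exact hpx

/-- conversely. -/
theorem h88v_isIntegral_map_of_elem {F F' : Type*} [Field F] [Field F'] (f : F →+* F')
    (R : Subring F) (x : F') (hx : (f.comp R.subtype).IsIntegralElem x) :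
    IsIntegral (R.map f) x := by
  obtain ⟨p, hp, hpx⟩ := hx
  let g : R →+* (R.map f) := (f.comp R.subtype).codRestrict (R.map f)
    (fun y => Subring.mem_map.mpr ⟨y.1, y.2, rfl⟩)
  refine ⟨p.map g, hp.map _, ?_⟩
  rw [Polynomial.eval₂_map]
  exact hpx

/-- the minimal polynomial of an element integral over a valuation subring `R` of `F` has
coefficients in `R`. -/
theorem h88v_minpoly_coeff_mem {F F' : Type*} [Field F] [Field F'] [Algebra F F']
    (R : Subring F) (hR : ∀ y : F, y ∈ R ∨ y⁻¹ ∈ R) (x : F')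
    (hx : ((algebraMap F F').comp R.subtype).IsIntegralElem x) (i : ℕ) :
    (minpoly F x).coeff i ∈ R := by
  obtain ⟨Q, hQm, hQx⟩ := hx
  have hroot : Polynomial.aeval x (Q.map (algebraMap R F)) = 0 := by
    rw [Polynomial.aeval_def, Polynomial.eval₂_map]
    exact hQx
  have hint : IsIntegral F x := ⟨Q.map (algebraMap R F), hQm.map _, by
    rw [← Polynomial.aeval_def]; exact hroot⟩
  have hdvd : minpoly F x ∣ Q.map (algebraMap R F) := minpoly.dvd F x hroot
  have hmem := integralClosure.mem_lifts_of_monic_of_dvd_map F hQm (minpoly.monic hint) hdvd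
  rw [Polynomial.lifts_iff_coeff_lifts] at hmem
  obtain ⟨y, hy⟩ := hmem i
  rw [← hy]
  exact h28q_mem_of_isIntegral R hR y.2

/-- the minimal polynomial of an element fixed by a semilinear automorphism is fixed. -/
theorem h88v_minpoly_map_eq {F F' : Type*} [Field F] [Field F'] [Algebra F F']
    (τ : F →+* F) (τ' : F' →+* F')
    (hcomm : ∀ a, τ' (algebraMap F F' a) = algebraMap F F' (τ a))
    (x : F') (hint : IsIntegral F x) (hx : τ' x = x) :
    (minpoly F x).map τ = minpoly F x := by
  apply minpoly.unique F x ((minpoly.monic hint).map τ)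
  · rw [Polynomial.aeval_def, Polynomial.eval₂_map]
    have h1 : (algebraMap F F').comp τ = τ'.comp (algebraMap F F') :=
      RingHom.ext fun a => (hcomm a).symm
    rw [h1]
    have h2 := Polynomial.hom_eval₂ (minpoly F x) (algebraMap F F') τ' x
    rw [hx] at h2
    rw [← h2, ← Polynomial.aeval_def, minpoly.aeval, map_zero]
  · intro r hr hrx
    rw [Polynomial.degree_map]
    exact minpoly.min F x hr hrx

end Abstract

/-! ## The hypothesis: forward direction of row V-EXACT -/

/-- **V-EXACT (forward).**  A function of level `M q q` which is Gauss-integral at `E20`, at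
every `E11^ζ` and at `E02` is integral over `α₂ (ssV A M q)`. -/
def H88VExact : Prop :=
  ∀ (q : ℕ) (hq : q.Prime) (M : ℕ) [NeZero M] (hqM : ¬ q ∣ M),
    haveI : NeZero q := ⟨hq.ne_zero⟩
    ∀ A : ValuationSubring Kbar, A.LiesOverPrime q →
    ∀ x : FF (M * q * q), x ∈ softV A (M * q * q) →
      (∀ (ζ : Kbar) (E : FF (M * q * q) →+* LaurentSeries Kbar), IsPrimitiveRoot ζ q →
        h20n_IsE11 M q hq hqM ζ E → h74w_Int A E x) →
      (∀ E0 : FF (M * q * q) →+* LaurentSeries Kbar, h20n_IsE02 M q hq hqM E0 →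
        h74w_Int A E0 x) →
      ((heckeAlphaBar Kbar (M * q) q).toRingHom.comp (ssV A M q).subtype).IsIntegralElem x

/-! ## Transitivity -/

section Trans

variable (A : ValuationSubring Kbar) (M q : ℕ) [NeZero M] [NeZero q]

theorem h88v_aa_apply (y : FF M) :
    h74w_aa M q y = heckeAlphaBar Kbar (M * q) q (heckeAlphaBar Kbar M q y) := rfl

theorem h88v_degen_eq_aa : (degen (h92c_dvd M q)).toRingHom = h74w_aa M q := by
  refine RingHom.ext fun y => Subtype.ext ?_
  show ((degen (h92c_dvd M q) y : FF (M * q * q)) : LaurentSeries Kbar) = _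
  rw [coe_degen, h88v_aa_apply, coe_heckeAlphaBar, coe_heckeAlphaBar]

/-- `α₂` maps elements integral over `α₁ (gaussV)` to elements integral over
`α₂ α₁ (gaussV)`. -/
theorem h88v_isIntegral_alpha (y : FF (M * q)) (hy : IsIntegral (gaussVImage A M q) y) :
    IsIntegral ((gaussV A M).map (h74w_aa M q)) (heckeAlphaBar Kbar (M * q) q y) := by
  obtain ⟨Q, hQm, hQy⟩ :=
    h88v_isIntegralElem_of_map (heckeAlphaBar Kbar M q).toRingHom (gaussV A M) y hy
  apply h88v_isIntegral_map_of_elem
  refine ⟨Q, hQm, ?_⟩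
  have h := Polynomial.hom_eval₂ Q ((heckeAlphaBar Kbar M q).toRingHom.comp (gaussV A M).subtype)
    (heckeAlphaBar Kbar (M * q) q).toRingHom y
  rw [hQy, map_zero] at h
  have hcomp : (h74w_aa M q).comp (gaussV A M).subtype =
      (heckeAlphaBar Kbar (M * q) q).toRingHom.comp
        ((heckeAlphaBar Kbar M q).toRingHom.comp (gaussV A M).subtype) :=
    RingHom.ext fun _ => rfl
  rw [hcomp]
  exact h.symm

/-- **transitivity**: integral over `α₂ (ssV A M q)` implies integral over
`α₂ α₁ (gaussV A M)`. -/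
theorem h88v_isIntegralElem_trans (x : FF (M * q * q))
    (hx : ((heckeAlphaBar Kbar (M * q) q).toRingHom.comp (ssV A M q).subtype).IsIntegralElem x) :
    ((h74w_aa M q).comp (gaussV A M).subtype).IsIntegralElem x := by
  obtain ⟨P, hPm, hPx⟩ := hx
  apply h88v_isIntegralElem_of_map
  refine h28q_isIntegral_of_root (heckeAlphaBar Kbar (M * q) q) (gaussVImage A M q)
    ((gaussV A M).map (h74w_aa M q)) (h88v_isIntegral_alpha A M q)
    (P.map (ssV A M q).subtype) (hPm.map _) (fun m => ?_) x ?_
  · rw [Polynomial.coeff_map]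
    exact (P.coeff m).2
  · rw [Polynomial.eval₂_map]
    exact hPx

end Trans

/-! ## V-INT -/

set_option synthInstance.maxHeartbeats 400000 in
set_option maxHeartbeats 1000000 in
/-- **V-INT** (exact frozen Prop `H74Int`) from the forward direction of V-EXACT. -/
theorem h88v_int_of_exact (hE : H88VExact) : H74Int := by
  intro q hq M _ hqM
  haveI : NeZero q := ⟨hq.ne_zero⟩
  intro A hA x hx20 hx11 hx02
  have h3 : ((h74w_aa M q).comp (gaussV A M).subtype).IsIntegralElem x :=
    h88v_isIntegralElem_trans A M q x (hE q hq M hqM A hA x hx20 hx11 hx02)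
  letI : Algebra (FF M) (FF (M * q * q)) := (h74w_aa M q).toAlgebra
  have hint : IsIntegral (FF M) x := by
    obtain ⟨Q, hQm, hQx⟩ := h3
    refine ⟨Q.map (gaussV A M).subtype, hQm.map _, ?_⟩
    rw [Polynomial.eval₂_map]
    exact hQx
  refine ⟨minpoly (FF M) x, minpoly.monic hint, fun i => ?_, ?_, fun hxI i σ hσ => ?_⟩
  · rw [softV_eq_gaussV A M hq hqM hA]
    exact h88v_minpoly_coeff_mem (gaussV A M) (mem_or_inv_mem_gaussV A M hq hqM hA) x h3 i
  · have h := minpoly.aeval (FF M) x
    rw [Polynomial.aeval_def] at h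
    exact h
  · have h := h88v_minpoly_map_eq (h83g_galHom M σ) (h83g_galHom (M * q * q) σ)
      (fun a => by
        show gal (M * q * q) σ • h74w_aa M q a = h74w_aa M q (gal M σ • a)
        rw [h88v_aa_apply, h88v_aa_apply, h83g_gal_alpha, h83g_gal_alpha]) x hint (hxI σ hσ)
    have h2 := congrArg (fun P : Polynomial (FF M) => P.coeff i) h
    simp only [Polynomial.coeff_map] at h2
    exact h2

/-! ## VN-L1 -/

set_option synthInstance.maxHeartbeats 400000 in
set_option maxHeartbeats 1000000 in
/-- **V-COMPLETE** (exact frozen Prop `H20VComplete`) from `H74MidAll` and `H74Int`. -/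
theorem h88v_vcomplete (hMid : H74MidAll) (hInt : H74Int) : H20VComplete := by
  intro q hq M _ hqM _
  haveI : NeZero q := ⟨hq.ne_zero⟩
  intro A hA ζ E11 E02 hT y hyF0 hyInt
  have hyI : h28v_IFixed A (M * q * q) y := fun σ hσ => hyF0 σ hσ
  obtain ⟨h20, h11, h02⟩ := hyInt
  have h11' : ∀ (ζ' : Kbar) (E' : FF (M * q * q) →+* LaurentSeries Kbar),
      IsPrimitiveRoot ζ' q → h20n_IsE11 M q hq hqM ζ' E' → h74w_Int A E' y :=
    fun ζ' E' hζ' hE' => hMid q hq M hqM A hA ζ ζ' hT.prim hζ' E11 E' hT.e11 hE' y hyI h11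
  have h02' : ∀ E0 : FF (M * q * q) →+* LaurentSeries Kbar, h20n_IsE02 M q hq hqM E0 →
      h74w_Int A E0 y := by
    intro E0 hE0
    have he : E0 = E02 := h20n_embUnique q hq M E0 E02
      (fun x => by rw [hE0.1, hT.e02.1]) (fun x => by rw [hE0.2, hT.e02.2])
    rw [he]
    exact h02
  obtain ⟨p, hpm, hpc, hpy, -⟩ := hInt q hq M hqM A hA y h20 h11' h02'
  have hmem : p ∈ Polynomial.lifts (gaussV A M).subtype := by
    rw [Polynomial.lifts_iff_coeff_lifts]
    intro i
    have h := hpc i
    rw [softV_eq_gaussV A M hq hqM hA] at h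
    exact ⟨⟨_, h⟩, rfl⟩
  obtain ⟨P, hP, -, hPm⟩ := Polynomial.lifts_and_degree_eq_and_monic hmem hpm
  have h4 : ((h74w_aa M q).comp (gaussV A M).subtype).IsIntegralElem y := by
    refine ⟨P, hPm, ?_⟩
    rw [← Polynomial.eval₂_map, hP]
    exact hpy
  have h5 := h88v_isIntegral_map_of_elem (h74w_aa M q) (gaussV A M) y h4
  rw [← h88v_degen_eq_aa] at h5
  exact h5

end Fermat.Agent.S36
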