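import Fermat.Agent.S36.H95Bridge
import Fermat.Agent.S36.H75Unip
import Fermat.Agent.S36.H88VInt
import Fermat.Agent.S36.H6VExactFinal
import Fermat.Agent.S36.H85MidAll

/-!
# S36, row BRIDGE: `H92Bridge`, unconditional (helper95)

Wiring of the landed leaves:

* `h6v_vExact` (helper6, `S36/H6VExactFinal.lean`) is the body of `H88VExact`;
* `h88v_int_of_exact : H88VExact → H74Int` (helper88);
* `h88v_vcomplete : H74MidAll → H74Int → H20VComplete` (helper88), `h85m_midAll` (helper85);
* `h75u_unip : H20Unip` (helper75);
* `h95v_bridge : H20Unip → H20VComplete → H92Bridge` (`S36/H95Bridge.lean`).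

Main statements (all unconditional):

* `h95v_vExact88 : H88VExact`, `h95v_int : H74Int`, `h95v_vComplete : H20VComplete`;
* `h95v_bridge_final : H92Bridge`;
* `h95v_vert_of_nf : H86NormalForm → H92Vert`;
* `h95v_core_of_loc_gate : H92Loc → H92Gate → H86GateCore`.
-/

set_option autoImplicit false

open AlgebraicCurve ModularCurve

noncomputable section

namespace Fermat.Agent.S36

/-- **V-EXACT (forward)**, the frozen `Prop` of `S36/H88VInt.lean`. -/
theorem h95v_vExact88 : H88VExact :=
  fun q hq M _ hqM A hA => h6v_vExact q hq M hqM A hA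

/-- **V-INT**, the frozen `Prop` of `S36/H74VIface.lean`. -/
theorem h95v_int : H74Int :=
  h88v_int_of_exact h95v_vExact88

/-- **(L1) V-COMPLETE**, the frozen `Prop` of `S36/H20VertSkel.lean`. -/
theorem h95v_vComplete : H20VComplete :=
  h88v_vcomplete h85m_midAll h95v_int

/-- **BRIDGE**, the frozen `Prop` of `S36/H92Bridge.lean`, unconditional. -/
theorem h95v_bridge_final : H92Bridge :=
  h95v_bridge h75u_unip h95v_vComplete

/-- `H92Vert` from the normal form alone. -/
theorem h95v_vert_of_nf (hNF : H86NormalForm) : H92Vert :=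
  h92c_vert_of hNF h95v_bridge_final

/-- `H86GateCore` from `H92Loc` and `H92Gate` alone. -/
theorem h95v_core_of_loc_gate (hL : H92Loc) (hG : H92Gate) : H86GateCore :=
  h92c_core_of h95v_bridge_final hL hG

end Fermat.Agent.S36
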