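import Fermat.Agent.S36.H11TorSkel
import Fermat.Agent.S36.H75TorUQ
import Fermat.Agent.S36.H95BridgeFinal
import Fermat.Agent.S36.H3Hden
import Fermat.Agent.S36.H81TorGlob
import Fermat.Agent.S36.H59Base2
import Fermat.Agent.S36.H40NormA
import Fermat.Agent.S36.H40NormC
import Fermat.Agent.S36.H84VQep
import Fermat.Agent.LGC.Res44

/-!
# S36, row T-PT: `H11TorPt` from `H11TorBasic` and `H11TorUnit` (helper22, prefix `h22p_`)

Under a supersingular point `𝔫` of the chart `j` of level `M q q` lie nodes of the chart `j`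
of level `M q`, along `α` and along `β`.

* `h22p_small_*` : calculus of Gauss-small functions (`h11l_Small`).
* `h22p_two_types` : a closed point which is not a one-branch point lies on two of the three
  components `W20`, `W11`, `W02` (V-COMPLETE, `hden`, minimality of the vertical primes).
* `h22p_torPt : H11TorBasic → H11TorUnit → H11TorPt`.
-/

set_option autoImplicit false
set_option linter.unusedSectionVars false
set_option linter.style.haveILetI false

open AlgebraicCurve ModularCurve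

noncomputable section

namespace Fermat.Agent.S36

open Fermat.Agent.S37 (Kbar GQ FF cst jB gal modelAt degen auxLevel)
open Fermat.Agent.Red.KR (normAlong)
open Fermat.Agent.Red.Kron (kFricke twistK)
open Fermat.Agent.Red.GV.Soft (softOT softRedT)

/-! ## Gauss-small functions -/

section Small

variable {A : ValuationSubring Kbar} {N : ℕ} {E : FF N →+* LaurentSeries Kbar}

theorem h22p_small_iff {x : FF N} :
    h11l_Small A E x ↔ ∃ h : E x ∈ softOT A (IsLocalRing.residue A),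
      softRedT A (IsLocalRing.residue A) ⟨E x, h⟩ = 0 := Iff.rfl

theorem h22p_small_int {x : FF N} (h : h11l_Small A E x) :
    E x ∈ softOT A (IsLocalRing.residue A) := h.1

theorem h22p_small_of {x : FF N} {s : LaurentSeries Kbar} (hs : E x = s)
    (h : s ∈ softOT A (IsLocalRing.residue A))
    (h0 : softRedT A (IsLocalRing.residue A) ⟨s, h⟩ = 0) : h11l_Small A E x := by
  subst hs
  exact ⟨h, h0⟩

theorem h22p_small_mul {x y : FF N} (hx : h11l_Small A E x)
    (hy : E y ∈ softOT A (IsLocalRing.residue A)) : h11l_Small A E (x * y) := by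
  obtain ⟨h, h0⟩ := hx
  have hxy : E (x * y) ∈ softOT A (IsLocalRing.residue A) := by
    rw [map_mul]
    exact mul_mem h hy
  refine ⟨hxy, ?_⟩
  have e : (⟨E (x * y), hxy⟩ : softOT A (IsLocalRing.residue A))
      = ⟨E x, h⟩ * ⟨E y, hy⟩ := Subtype.ext (map_mul E x y)
  rw [e, map_mul, h0, zero_mul]

theorem h22p_small_mul' {x y : FF N} (hx : E x ∈ softOT A (IsLocalRing.residue A))
    (hy : h11l_Small A E y) : h11l_Small A E (x * y) := by
  rw [mul_comm]
  exact h22p_small_mul hy hx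

theorem h22p_small_add {x y : FF N} (hx : h11l_Small A E x) (hy : h11l_Small A E y) :
    h11l_Small A E (x + y) := by
  obtain ⟨h, h0⟩ := hx
  obtain ⟨h', h0'⟩ := hy
  have hxy : E (x + y) ∈ softOT A (IsLocalRing.residue A) := by
    rw [map_add]
    exact add_mem h h'
  refine ⟨hxy, ?_⟩
  have e : (⟨E (x + y), hxy⟩ : softOT A (IsLocalRing.residue A))
      = ⟨E x, h⟩ + ⟨E y, h'⟩ := Subtype.ext (map_add E x y)
  rw [e, map_add, h0, h0', add_zero]

theorem h22p_small_zero : h11l_Small A E (0 : FF N) := by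
  have h : E 0 ∈ softOT A (IsLocalRing.residue A) := by
    rw [map_zero]
    exact zero_mem _
  refine ⟨h, ?_⟩
  have e : (⟨E 0, h⟩ : softOT A (IsLocalRing.residue A)) = 0 := Subtype.ext (map_zero E)
  rw [e, map_zero]

theorem h22p_not_small_one : ¬ h11l_Small A E (1 : FF N) := by
  rintro ⟨h, h0⟩
  have e : (⟨E 1, h⟩ : softOT A (IsLocalRing.residue A)) = 1 := Subtype.ext (map_one E)
  rw [e, map_one] at h0
  exact one_ne_zero h0

theorem h22p_small_or {x y : FF N} (hx : E x ∈ softOT A (IsLocalRing.residue A))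
    (hy : E y ∈ softOT A (IsLocalRing.residue A)) (h : h11l_Small A E (x * y)) :
    h11l_Small A E x ∨ h11l_Small A E y := by
  obtain ⟨hxy, h0⟩ := h
  have e : (⟨E (x * y), hxy⟩ : softOT A (IsLocalRing.residue A))
      = ⟨E x, hx⟩ * ⟨E y, hy⟩ := Subtype.ext (map_mul E x y)
  rw [e, map_mul] at h0
  rcases mul_eq_zero.mp h0 with h1 | h1
  · exact Or.inl ⟨hx, h1⟩
  · exact Or.inr ⟨hy, h1⟩

end Small

open Fermat.Agent.Red.GV Fermat.Agent.Red.GV.Soft
open Fermat.Agent.S36.V28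

/-! ## The ideal of the Gauss-small functions of a chart -/

section PE

variable (A : ValuationSubring Kbar) {N : ℕ} (t : FF N) (E : FF N →+* LaurentSeries Kbar)

/-- the ideal of the functions of the chart which are Gauss-small at `E`. -/
def h22p_PE (hE : ∀ b ∈ h92c_Chart A N t, E b ∈ softOT A (IsLocalRing.residue A)) :
    Ideal (h92c_Chart A N t) where
  carrier := {b | h11l_Small A E (b : FF N)}
  add_mem' := fun {a b} ha hb => by
    show h11l_Small A E ((a + b : h92c_Chart A N t) : FF N)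
    rw [Subring.coe_add]
    exact h22p_small_add ha hb
  zero_mem' := by
    show h11l_Small A E ((0 : h92c_Chart A N t) : FF N)
    rw [Subring.coe_zero]
    exact h22p_small_zero
  smul_mem' := fun c x hx => by
    show h11l_Small A E ((c * x : h92c_Chart A N t) : FF N)
    rw [Subring.coe_mul]
    exact h22p_small_mul' (hE c c.2) hx

theorem h22p_mem_PE (hE : ∀ b ∈ h92c_Chart A N t, E b ∈ softOT A (IsLocalRing.residue A))
    (b : h92c_Chart A N t) : b ∈ h22p_PE A t E hE ↔ h11l_Small A E (b : FF N) := Iff.rfl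

theorem h22p_PE_isPrime (hE : ∀ b ∈ h92c_Chart A N t, E b ∈ softOT A (IsLocalRing.residue A)) :
    (h22p_PE A t E hE).IsPrime := by
  refine ⟨?_, ?_⟩
  · intro h
    have h1 : (1 : h92c_Chart A N t) ∈ h22p_PE A t E hE := by rw [h]; trivial
    rw [h22p_mem_PE, Subring.coe_one] at h1
    exact h22p_not_small_one h1
  · intro a b hab
    rw [h22p_mem_PE, Subring.coe_mul] at hab
    exact h22p_small_or (hE a a.2) (hE b b.2) hab

end PE

/-! ## The chart of level `M q q` and the three vertical embeddings -/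

section Level2

variable {A : ValuationSubring Kbar} {M q : ℕ} [NeZero M] [NeZero q]

theorem h22p_E20_apply (x : FF (M * q * q)) :
    h20n_E20 M q x = (x : LaurentSeries Kbar) := by
  unfold h20n_E20
  exact IntermediateField.algebraMap_apply _ x

/-- the chart is Gauss-integral at `E20`. -/
theorem h22p_chart_int20 (hq : q.Prime) (hqM : ¬ q ∣ M) (hA : A.LiesOverPrime q)
    (b : FF (M * q * q)) (hb : b ∈ h92c_Chart A (M * q * q) (jB (M * q * q))) :
    h20n_E20 M q b ∈ softOT A (IsLocalRing.residue A) := by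
  rw [h22p_E20_apply]
  exact h81t_V_int20 hq hA (h84q_chart_le_V0_fin A M q hq hqM hA hb).1

/-- the chart is Gauss-integral at `E11^ζ`. -/
theorem h22p_chart_int11 (hq : q.Prime) (hqM : ¬ q ∣ M) (hA : A.LiesOverPrime q) {ζ : Kbar}
    (hζ : ζ ^ q = 1) (E : FF (M * q * q) →+* LaurentSeries Kbar)
    (hE : h20n_IsE11 M q hq hqM ζ E)
    (b : FF (M * q * q)) (hb : b ∈ h92c_Chart A (M * q * q) (jB (M * q * q))) :
    E b ∈ softOT A (IsLocalRing.residue A) :=
  h81t_V_int11 hq hqM hA hζ E hE (h84q_chart_le_V0_fin A M q hq hqM hA hb).1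

/-- the chart is Gauss-integral at `E02`. -/
theorem h22p_chart_int02 (hq : q.Prime) (hqM : ¬ q ∣ M) (hA : A.LiesOverPrime q)
    (E : FF (M * q * q) →+* LaurentSeries Kbar) (hE : h20n_IsE02 M q hq hqM E)
    (b : FF (M * q * q)) (hb : b ∈ h92c_Chart A (M * q * q) (jB (M * q * q))) :
    E b ∈ softOT A (IsLocalRing.residue A) :=
  h81t_V_int02 hq hqM hA E hE (h84q_chart_le_V0_fin A M q hq hqM hA hb).1

/-- a function of `F₀` which is Gauss-small at the three vertical embeddings has its `q`-th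
power in `q V₀`. -/
theorem h22p_pow_div_mem_V0 (hq : q.Prime) (hqM : ¬ q ∣ M) (haux : auxLevel q ∣ M)
    (hA : A.LiesOverPrime q) {ζ : Kbar} {E11 E02 : FF (M * q * q) →+* LaurentSeries Kbar}
    (hT : h20v_Triple M q hq hqM ζ E11 E02) {y : FF (M * q * q)}
    (hyF : y ∈ h92c_F0 A (M * q * q)) (hy0 : y ≠ 0)
    (h20 : h11l_Small A (h20n_E20 M q) y) (h11 : h11l_Small A E11 y)
    (h02 : h11l_Small A E02 y) :
    y ^ q * ((q : ℕ) : FF (M * q * q))⁻¹ ∈ h92c_V0 A M q := by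
  have hζ : IsPrimitiveRoot ζ q := hT.prim
  have hqn : ((q : ℕ) : Kbar) ∈ A.nonunits := hA
  have hq0 : ((q : ℕ) : Kbar) ≠ 0 := Nat.cast_ne_zero.mpr hq.ne_zero
  have hπn : (1 - ζ : Kbar) ∈ A.nonunits := h75u_one_sub_mem_nonunits A hq hA hζ
  have hπ0 : (1 - ζ : Kbar) ≠ 0 := by
    intro h
    exact hζ.ne_one hq.one_lt (sub_eq_zero.mp h).symm
  have hε : (1 - ζ) ^ (q - 1) / ((q : ℕ) : Kbar) ∈ A :=
    (h28c_pow_div_mem (A := A) hq hA hζ).1
  have hc20 : ∀ c : Kbar, h20n_E20 M q (cst (M * q * q) c) = HahnSeries.C c :=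
    fun c => soft_coe_cst (M * q * q) c
  have hc11 : ∀ c : Kbar, E11 (cst (M * q * q) c) = HahnSeries.C c :=
    h28d_E11_cst hq hqM ζ E11 hT.e11
  have hc02 : ∀ c : Kbar, E02 (cst (M * q * q) c) = HahnSeries.C c :=
    h28d_E02_cst hq hqM E02 hT.e02
  have hF := h75u_filt A (h92c_F0 A (M * q * q)) (h20n_E20 M q) E11 E02
    ((q : ℕ) : Kbar) (1 - ζ) hqn hπn
  have hfix : h28v_IFixed A (M * q * q) y := hyF
  have hI1 : y ∈ h75uI A (h92c_F0 A (M * q * q)) (h20n_E20 M q) E11 E02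
      ((q : ℕ) : Kbar) (1 - ζ) 1 := by
    refine ⟨hyF, ?_, ?_, ?_⟩
    · obtain ⟨hG, hred⟩ := h20
      obtain ⟨n, hn⟩ := h28d_W20_exists_zpow A hq hA y hfix hy0
      exact h75u_div_of_disc hqn hq0 hc20 hG hred n hn hy0
    · obtain ⟨hG, hred⟩ := h11
      obtain ⟨n, hn⟩ := h28d_W11_exists_zpow A hq hqM hA ζ hζ E11 hT.e11 y hfix hy0
      exact h75u_div_of_disc hπn hπ0 hc11 hG hred n hn hy0
    · obtain ⟨hG, hred⟩ := h02
      obtain ⟨n, hn⟩ := h28d_W02_exists_zpow A hq hqM hA E02 hT.e02 y hfix hy0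
      exact h75u_div_of_disc hqn hq0 hc02 hG hred n hn hy0
  obtain ⟨k, hk⟩ : ∃ k, q = k + 1 := ⟨q - 1, by have := hq.two_le; omega⟩
  have hpow : y ^ q ∈ h75uI A (h92c_F0 A (M * q * q)) (h20n_E20 M q) E11 E02
      ((q : ℕ) : Kbar) (1 - ζ) (q - 1) := by
    have h1 := h75q_filt_pow hF hI1 k
    rw [← hk] at h1
    exact hF.mono (q - 1) q (Nat.sub_le q 1) _ h1
  obtain ⟨hb0, hb1, hb2, hb3⟩ := hpow
  have hqq : ((q : ℕ) : Kbar) ^ (q - 1) / ((q : ℕ) : Kbar) ∈ A := by
    obtain ⟨j, hj⟩ : ∃ j, q - 1 = j + 1 := ⟨q - 2, by have := hq.two_le; omega⟩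
    rw [hj, pow_succ, mul_div_assoc, div_self hq0, mul_one]
    exact pow_mem (A.nonunits_subset hqn) j
  have hvF : y ^ q * ((q : ℕ) : FF (M * q * q))⁻¹ ∈ h92c_F0 A (M * q * q) :=
    mul_mem hb0 (inv_mem (natCast_mem _ q))
  have hvI : h20v_Int M q A E11 E02 (y ^ q * ((q : ℕ) : FF (M * q * q))⁻¹) :=
    ⟨h75u_div_q hb1 _ hqq _ (h75u_map_natCast _ q),
      h75u_div_q hb2 _ hε _ (h75u_map_natCast _ q),
      h75u_div_q hb3 _ hqq _ (h75u_map_natCast _ q)⟩
  exact ⟨h95v_vComplete q hq M hqM haux A hA ζ E11 E02 hT _ hvF hvI, hvF⟩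

/-- `q` is Gauss-small at every embedding. -/
theorem h22p_small_q (hA : A.LiesOverPrime q) {N : ℕ} (E : FF N →+* LaurentSeries Kbar) :
    h11l_Small A E ((q : ℕ) : FF N) := by
  have hqn : ((q : ℕ) : Kbar) ∈ A.nonunits := hA
  have hd : h75uDiv A E ((q : ℕ) : Kbar) 1 ((q : ℕ) : FF N) :=
    ⟨1, one_mem _, by rw [h75u_map_natCast, pow_one, mul_one]⟩
  have hG : E ((q : ℕ) : FF N) ∈ h20v_G A := h75u_div_mem (A.nonunits_subset hqn) hd
  exact ⟨hG, h75u_red_eq_zero hqn hd hG⟩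

/-- **a vertical prime contains one of the three ideals of Gauss-small functions.** -/
theorem h22p_prime_contains (hq : q.Prime) (hqM : ¬ q ∣ M) (haux : auxLevel q ∣ M)
    (hA : A.LiesOverPrime q) {ζ : Kbar} {E11 E02 : FF (M * q * q) →+* LaurentSeries Kbar}
    (hT : h20v_Triple M q hq hqM ζ E11 E02)
    (P : Ideal (h92c_Chart A (M * q * q) (jB (M * q * q)))) (hP : P.IsPrime)
    (hmax : ¬ P.IsMaximal)
    (hqP : ((q : ℕ) : h92c_Chart A (M * q * q) (jB (M * q * q))) ∈ P) :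
    (∀ b : h92c_Chart A (M * q * q) (jB (M * q * q)),
      h11l_Small A (h20n_E20 M q) (b : FF (M * q * q)) → b ∈ P) ∨
    (∀ b : h92c_Chart A (M * q * q) (jB (M * q * q)),
      h11l_Small A E11 (b : FF (M * q * q)) → b ∈ P) ∨
    (∀ b : h92c_Chart A (M * q * q) (jB (M * q * q)),
      h11l_Small A E02 (b : FF (M * q * q)) → b ∈ P) := by
  classical
  by_contra hcon
  rw [not_or, not_or] at hcon
  obtain ⟨h1, h2, h3⟩ := hcon
  obtain ⟨b₁, hb₁⟩ := not_forall.mp h1
  obtain ⟨b₂, hb₂⟩ := not_forall.mp h2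
  obtain ⟨b₃, hb₃⟩ := not_forall.mp h3
  obtain ⟨hs₁, hn₁⟩ := Classical.not_imp.mp hb₁
  obtain ⟨hs₂, hn₂⟩ := Classical.not_imp.mp hb₂
  obtain ⟨hs₃, hn₃⟩ := Classical.not_imp.mp hb₃
  have hζq : ζ ^ q = 1 := hT.prim.pow_eq_one
  have i20 := h22p_chart_int20 (A := A) hq hqM hA
  have i11 := h22p_chart_int11 (A := A) hq hqM hA hζq E11 hT.e11
  have i02 := h22p_chart_int02 (A := A) hq hqM hA E02 hT.e02
  set b : h92c_Chart A (M * q * q) (jB (M * q * q)) := b₁ * b₂ * b₃ with hb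
  have hbP : b ∉ P := by
    intro h
    rcases hP.mem_or_mem h with h | h
    · rcases hP.mem_or_mem h with h | h
      · exact hn₁ h
      · exact hn₂ h
    · exact hn₃ h
  have hbc : (b : FF (M * q * q)) = (b₁ : FF (M * q * q)) * b₂ * b₃ := rfl
  have hb0 : (b : FF (M * q * q)) ≠ 0 := by
    intro h
    apply hbP
    have : b = 0 := Subtype.ext h
    rw [this]
    exact P.zero_mem
  have s20 : h11l_Small A (h20n_E20 M q) (b : FF (M * q * q)) := by
    rw [hbc, mul_assoc (b₁ : FF (M * q * q))]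
    exact h22p_small_mul hs₁ (by
      rw [map_mul]; exact mul_mem (i20 _ b₂.2) (i20 _ b₃.2))
  have s11 : h11l_Small A E11 (b : FF (M * q * q)) := by
    rw [hbc]
    exact h22p_small_mul (h22p_small_mul' (i11 _ b₁.2) hs₂) (i11 _ b₃.2)
  have s02 : h11l_Small A E02 (b : FF (M * q * q)) := by
    rw [hbc]
    exact h22p_small_mul' (by rw [map_mul]; exact mul_mem (i02 _ b₁.2) (i02 _ b₂.2)) hs₃
  have hv := h22p_pow_div_mem_V0 hq hqM haux hA hT b.2.2 hb0 s20 s11 s02
  obtain ⟨s, hsP, hsv⟩ := h3k_hden hq hqM hA P hP hmax hqP _ hv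
  have hqF : ((q : ℕ) : FF (M * q * q)) ≠ 0 := h75u_natCast_ne_zero hq.ne_zero
  have e : s * b ^ q = ((q : ℕ) : h92c_Chart A (M * q * q) (jB (M * q * q))) * ⟨_, hsv⟩ := by
    apply Subtype.ext
    show (s : FF (M * q * q)) * (b : FF (M * q * q)) ^ q
      = ((q : ℕ) : FF (M * q * q)) *
        ((s : FF (M * q * q)) * ((b : FF (M * q * q)) ^ q * ((q : ℕ) : FF (M * q * q))⁻¹))
    field_simp
  have h4 : s * b ^ q ∈ P := by
    rw [e]
    exact P.mul_mem_right _ hqP
  rcases hP.mem_or_mem h4 with h | h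
  · exact hsP h
  · exact hbP (hP.mem_of_pow_mem q h)

/-- a vertical prime containing the ideal of the Gauss-small functions at `E` is equal
to it. -/
theorem h22p_small_of_mem (hq : q.Prime) (hA : A.LiesOverPrime q)
    (E : FF (M * q * q) →+* LaurentSeries Kbar)
    (hE : ∀ b ∈ h92c_Chart A (M * q * q) (jB (M * q * q)),
      E b ∈ softOT A (IsLocalRing.residue A))
    (P : Ideal (h92c_Chart A (M * q * q) (jB (M * q * q)))) (hP : P.IsPrime)
    (hmax : ¬ P.IsMaximal)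
    (hqP : ((q : ℕ) : h92c_Chart A (M * q * q) (jB (M * q * q))) ∈ P)
    (hc : ∀ b : h92c_Chart A (M * q * q) (jB (M * q * q)),
      h11l_Small A E (b : FF (M * q * q)) → b ∈ P) :
    ∀ b : h92c_Chart A (M * q * q) (jB (M * q * q)), b ∈ P →
      h11l_Small A E (b : FF (M * q * q)) := by
  have hmin := h3k_chart_minimal hq hA (M * q * q) (jB (M * q * q))
    (fun σ _ => Fermat.Agent.S37.GalI.gal_smul_jB σ) P hP hmax hqP
  have hPE := h22p_PE_isPrime A (jB (M * q * q)) E hE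
  have hle : h22p_PE A (jB (M * q * q)) E hE ≤ P := fun b hb => hc b hb
  have hq' : Ideal.span {((q : ℕ) : h92c_Chart A (M * q * q) (jB (M * q * q)))}
      ≤ h22p_PE A (jB (M * q * q)) E hE := by
    rw [Ideal.span_singleton_le_iff_mem, h22p_mem_PE, Subring.coe_natCast]
    exact h22p_small_q hA E
  have h := hmin.2 ⟨hPE, hq'⟩ hle
  exact fun b hb => h hb

/-- **a closed point which is not a one-branch point lies on two of the three components.** -/
theorem h22p_two_types (hq : q.Prime) (hqM : ¬ q ∣ M) (haux : auxLevel q ∣ M)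
    (hA : A.LiesOverPrime q) {ζ : Kbar} {E11 E02 : FF (M * q * q) →+* LaurentSeries Kbar}
    (hT : h20v_Triple M q hq hqM ζ E11 E02)
    (𝔫 : Ideal (h92c_Chart A (M * q * q) (jB (M * q * q)))) (h𝔫 : 𝔫.IsMaximal)
    (hnot : ¬ h11l_OneBranch ((q : ℕ) : h92c_Chart A (M * q * q) (jB (M * q * q))) 𝔫) :
    (h11l_Centred A (jB (M * q * q)) 𝔫 (h20n_E20 M q) ∧
      h11l_Centred A (jB (M * q * q)) 𝔫 E11) ∨
    (h11l_Centred A (jB (M * q * q)) 𝔫 (h20n_E20 M q) ∧
      h11l_Centred A (jB (M * q * q)) 𝔫 E02) ∨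
    (h11l_Centred A (jB (M * q * q)) 𝔫 E11 ∧
      h11l_Centred A (jB (M * q * q)) 𝔫 E02) := by
  classical
  unfold h11l_OneBranch at hnot
  simp only [not_forall] at hnot
  obtain ⟨P, P', hP, hP', hqP, hqP', hle, hle', hne, hne', hPP'⟩ := hnot
  have hmaxP : ¬ P.IsMaximal := fun h => hne (h.eq_of_le h𝔫.ne_top hle)
  have hmaxP' : ¬ P'.IsMaximal := fun h => hne' (h.eq_of_le h𝔫.ne_top hle')
  have hζq : ζ ^ q = 1 := hT.prim.pow_eq_one
  have i20 := h22p_chart_int20 (A := A) hq hqM hA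
  have i11 := h22p_chart_int11 (A := A) hq hqM hA hζq E11 hT.e11
  have i02 := h22p_chart_int02 (A := A) hq hqM hA E02 hT.e02
  -- same type is impossible
  have hsame : ∀ E : FF (M * q * q) →+* LaurentSeries Kbar,
      (∀ b ∈ h92c_Chart A (M * q * q) (jB (M * q * q)),
        E b ∈ softOT A (IsLocalRing.residue A)) →
      (∀ b : h92c_Chart A (M * q * q) (jB (M * q * q)),
        h11l_Small A E (b : FF (M * q * q)) → b ∈ P) →
      (∀ b : h92c_Chart A (M * q * q) (jB (M * q * q)),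
        h11l_Small A E (b : FF (M * q * q)) → b ∈ P') → False := by
    intro E hE c c'
    apply hPP'
    apply le_antisymm
    · intro b hb
      exact c' b (h22p_small_of_mem hq hA E hE P hP hmaxP hqP c b hb)
    · intro b hb
      exact c b (h22p_small_of_mem hq hA E hE P' hP' hmaxP' hqP' c' b hb)
  have hcen : ∀ (E : FF (M * q * q) →+* LaurentSeries Kbar)
      (Q : Ideal (h92c_Chart A (M * q * q) (jB (M * q * q)))), Q ≤ 𝔫 →
      (∀ b : h92c_Chart A (M * q * q) (jB (M * q * q)),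
        h11l_Small A E (b : FF (M * q * q)) → b ∈ Q) →
      h11l_Centred A (jB (M * q * q)) 𝔫 E := fun E Q hQ c b hb => hQ (c b hb)
  rcases h22p_prime_contains hq hqM haux hA hT P hP hmaxP hqP with c | c | c <;>
    rcases h22p_prime_contains hq hqM haux hA hT P' hP' hmaxP' hqP' with c' | c' | c'
  · exact (hsame _ i20 c c').elim
  · exact Or.inl ⟨hcen _ P hle c, hcen _ P' hle' c'⟩
  · exact Or.inr (Or.inl ⟨hcen _ P hle c, hcen _ P' hle' c'⟩)
  · exact Or.inl ⟨hcen _ P' hle' c', hcen _ P hle c⟩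
  · exact (hsame _ i11 c c').elim
  · exact Or.inr (Or.inr ⟨hcen _ P hle c, hcen _ P' hle' c'⟩)
  · exact Or.inr (Or.inl ⟨hcen _ P' hle' c', hcen _ P hle c⟩)
  · exact Or.inr (Or.inr ⟨hcen _ P' hle' c', hcen _ P hle c⟩)
  · exact (hsame _ i02 c c').elim

end Level2

/-! ## Gauss-small series -/

section Series

variable {A : ValuationSubring Kbar}

/-- a Gauss-small series. -/
def h22p_SmallS (A : ValuationSubring Kbar) (s : LaurentSeries Kbar) : Prop :=
  ∃ h : s ∈ softOT A (IsLocalRing.residue A),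
    softRedT A (IsLocalRing.residue A) ⟨s, h⟩ = 0

theorem h22p_smallS_mul {s t : LaurentSeries Kbar} (hs : h22p_SmallS A s)
    (ht : t ∈ softOT A (IsLocalRing.residue A)) : h22p_SmallS A (s * t) := by
  obtain ⟨h, h0⟩ := hs
  refine ⟨mul_mem h ht, ?_⟩
  have e : (⟨s * t, mul_mem h ht⟩ : softOT A (IsLocalRing.residue A))
      = ⟨s, h⟩ * ⟨t, ht⟩ := rfl
  rw [e, map_mul, h0, zero_mul]

theorem h22p_smallS_qExpand (n : ℕ) [NeZero n] {s : LaurentSeries Kbar}
    (hs : h22p_SmallS A s) : h22p_SmallS A (qExpand Kbar n s) := by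
  obtain ⟨h, h0⟩ := hs
  have h' := mem_softOT_qExpand A (IsLocalRing.residue A) n h
  refine ⟨h', ?_⟩
  rw [softRedT_qExpand A (IsLocalRing.residue A) n ⟨s, h⟩ h', h0, map_zero]

theorem h22p_smallS_twist (u : Aˣ) {s : LaurentSeries Kbar} (hs : h22p_SmallS A s) :
    h22p_SmallS A (twistK (((u : A) : Kbar)) s) := by
  obtain ⟨h, h0⟩ := hs
  have h' := Fermat.Agent.LGC.h44r_twistK_mem_softOT (A := A) (π := IsLocalRing.residue A) u h
  exact ⟨h', Fermat.Agent.LGC.h44r_softRedT_twistK_eq_zero u ⟨s, h⟩ h0 h'⟩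

theorem h22p_small_of_S {N : ℕ} {E : FF N →+* LaurentSeries Kbar} {x : FF N}
    {s : LaurentSeries Kbar} (hs : E x = s) (h : h22p_SmallS A s) : h11l_Small A E x :=
  h22p_small_of hs h.1 h.2

theorem h22p_S_of_small {N : ℕ} {E : FF N →+* LaurentSeries Kbar} {x : FF N}
    (h : h11l_Small A E x) : h22p_SmallS A (E x) := h

end Series

/-! ## The chart of level `M q` -/

section Level1

variable {A : ValuationSubring Kbar} {M q : ℕ} [NeZero M] [NeZero q]

theorem h22p_Einf_apply (x : FF (M * q)) :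
    h11t_Einf M q x = (x : LaurentSeries Kbar) := by
  unfold h11t_Einf
  exact IntermediateField.algebraMap_apply _ x

theorem h22p_Ezero_apply (hq : q.Prime) (hqM : ¬ q ∣ M) (x : FF (M * q)) :
    h11t_Ezero M q hq hqM x = ((kFricke M q hq hqM x : FF (M * q)) : LaurentSeries Kbar) := by
  unfold h11t_Ezero
  rw [RingHom.comp_apply]
  exact IntermediateField.algebraMap_apply _ _

/-- a chart whose coordinate is Gauss-integral is Gauss-integral. -/
theorem h22p_modelAt_le_softV (hq : q.Prime) (hA : A.LiesOverPrime q) (N : ℕ) [NeZero N]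
    {s : FF N} (hs : s ∈ softV A N) {z : FF N} (hz : z ∈ modelAt N A s) : z ∈ softV A N := by
  refine Fermat.Agent.LGC.h44r_mem_softV_of_isIntegralElem A q N hq hA (evalF N A s)
    (fun Q => ?_) z ((Fermat.Agent.Red.KR.mem_modelAt_iff_evalF A _ z).mp hz)
  induction Q using Polynomial.induction_on with
  | C a => rw [evalF_C]; exact (cst_mem_softV_iff A N _).mpr a.2
  | add p q hp hq => rw [map_add]; exact add_mem hp hq
  | monomial n a h =>
    rw [pow_succ, ← mul_assoc, map_mul, evalF_X]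
    exact mul_mem h hs

/-- the chart `j` of level `M q` is Gauss-integral at `E_∞`. -/
theorem h22p_chart1_int_inf (hq : q.Prime) (hA : A.LiesOverPrime q)
    (b : FF (M * q)) (hb : b ∈ h92c_Chart A (M * q) (jB (M * q))) :
    h11t_Einf M q b ∈ softOT A (IsLocalRing.residue A) := by
  rw [h22p_Einf_apply]
  have hj : jB (M * q) ∈ softV A (M * q) := gaussV_le_softV A (M * q) (jB_mem_gaussV A (M * q))
  exact h22p_modelAt_le_softV hq hA (M * q) hj hb.1

/-- the chart `j` of level `M q` is Gauss-integral at `E_0`. -/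
theorem h22p_chart1_int_zero (hq : q.Prime) (hqM : ¬ q ∣ M) (hA : A.LiesOverPrime q)
    (b : FF (M * q)) (hb : b ∈ h92c_Chart A (M * q) (jB (M * q))) :
    h11t_Ezero M q hq hqM b ∈ softOT A (IsLocalRing.residue A) := by
  rw [h22p_Ezero_apply]
  have h1 := Fermat.Agent.Red.KR.map_mem_modelAt
    ((kFricke M q hq hqM : FF (M * q) ≃ₐ[Kbar] FF (M * q)) : FF (M * q) →ₐ[Kbar] FF (M * q))
    A hb.1
  have h2 : ((kFricke M q hq hqM : FF (M * q) ≃ₐ[Kbar] FF (M * q)) :
      FF (M * q) →ₐ[Kbar] FF (M * q)) (jB (M * q)) = heckeBetaBar Kbar M q (jB M) := by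
    rw [← h59z_alpha_jB M q]
    exact Fermat.Agent.Red.Kron.kFricke_alpha M q hq hqM (jB M)
  rw [h2] at h1
  have hj : heckeBetaBar Kbar M q (jB M) ∈ softV A (M * q) :=
    beta_mem_softV A q (jB M) (gaussV_le_softV A M (jB_mem_gaussV A M))
  exact h22p_modelAt_le_softV hq hA (M * q) hj h1

end Level1

/-! ## The degeneracy maps on the charts `j` -/

section Maps

variable (A : ValuationSubring Kbar) (M q : ℕ) [NeZero M] [NeZero q]

/-- `α` on the charts `j` over `A₀`. -/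
def h22p_a : h92c_Chart A (M * q) (jB (M * q)) →+* h92c_Chart A (M * q * q) (jB (M * q * q)) :=
  h59yMap A (heckeAlphaBar Kbar (M * q) q : FF (M * q) →+* FF (M * q * q))
    (jB (M * q)) (jB (M * q * q)) (fun _ hx => h59z_alpha_mem_chart_fin (M * q) q A hx)

/-- `β` on the charts `j` over `A₀`. -/
def h22p_b (hq : q.Prime) (hqM : ¬ q ∣ M) (hA : A.LiesOverPrime q) :
    h92c_Chart A (M * q) (jB (M * q)) →+* h92c_Chart A (M * q * q) (jB (M * q * q)) :=
  h59yMap A (heckeBetaBar Kbar (M * q) q : FF (M * q) →+* FF (M * q * q))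
    (jB (M * q)) (jB (M * q * q)) (fun _ hx => h59y_b2_mem A M hq hqM hA (by
      rw [h59y_jSS_eq]; exact hx))

theorem h22p_coe_a (x : h92c_Chart A (M * q) (jB (M * q))) :
    ((h22p_a A M q x : h92c_Chart A (M * q * q) (jB (M * q * q))) : FF (M * q * q))
      = heckeAlphaBar Kbar (M * q) q (x : FF (M * q)) := rfl

theorem h22p_coe_b (hq : q.Prime) (hqM : ¬ q ∣ M) (hA : A.LiesOverPrime q)
    (x : h92c_Chart A (M * q) (jB (M * q))) :
    ((h22p_b A M q hq hqM hA x : h92c_Chart A (M * q * q) (jB (M * q * q))) : FF (M * q * q))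
      = heckeBetaBar Kbar (M * q) q (x : FF (M * q)) := rfl

theorem h22p_a_isIntegral : (h22p_a A M q).IsIntegral :=
  h59yMap_isIntegral A _ _ _ _ (fun _ hy => h59z_chart_integral_alpha_fin (M * q) A q hy)

theorem h22p_b_isIntegral (hq : q.Prime) (hqM : ¬ q ∣ M) (hA : A.LiesOverPrime q) :
    (h22p_b A M q hq hqM hA).IsIntegral := by
  refine h59yMap_isIntegral A _ _ _ _ (fun y hy => ?_)
  have h1 := h59y_jB_mem_e1 A M hq hqM hA
  rw [h59y_jSS_eq] at h1
  exact h59z_chart_integral_map (M * q) A (heckeBetaBar Kbar (M * q) q) (jB (M * q))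
    (fun σ _ => h59z_jB_fixed (M * q) σ) (h59y_chart_le_of_mem A (M * q * q) h1 hy)

variable {A M q}

theorem h22p_under_a (𝔫 : Ideal (h92c_Chart A (M * q * q) (jB (M * q * q)))) :
    h11t_Under A (heckeAlphaBar Kbar (M * q) q : FF (M * q) →+* FF (M * q * q))
      (jB (M * q)) (jB (M * q * q)) (𝔫.comap (h22p_a A M q)) 𝔫 := by
  intro b'
  rw [Ideal.mem_comap]
  constructor
  · intro h
    exact ⟨_, h, rfl⟩
  · rintro ⟨b, hb, hbe⟩
    have e : h22p_a A M q b' = b := Subtype.ext hbe.symm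
    rw [e]
    exact hb

theorem h22p_under_b (hq : q.Prime) (hqM : ¬ q ∣ M) (hA : A.LiesOverPrime q)
    (𝔫 : Ideal (h92c_Chart A (M * q * q) (jB (M * q * q)))) :
    h11t_Under A (heckeBetaBar Kbar (M * q) q : FF (M * q) →+* FF (M * q * q))
      (jB (M * q)) (jB (M * q * q)) (𝔫.comap (h22p_b A M q hq hqM hA)) 𝔫 := by
  intro b'
  rw [Ideal.mem_comap]
  constructor
  · intro h
    exact ⟨_, h, rfl⟩
  · rintro ⟨b, hb, hbe⟩
    have e : h22p_b A M q hq hqM hA b' = b := Subtype.ext hbe.symm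
    rw [e]
    exact hb

/-! ### transfer of centredness -/

variable (𝔫 : Ideal (h92c_Chart A (M * q * q) (jB (M * q * q))))

theorem h22p_cen_a_inf_of_20 (h : h11l_Centred A (jB (M * q * q)) 𝔫 (h20n_E20 M q)) :
    h11l_Centred A (jB (M * q)) (𝔫.comap (h22p_a A M q)) (h11t_Einf M q) := by
  intro b' hb'
  rw [Ideal.mem_comap]
  apply h
  refine h22p_small_of_S ?_ (h22p_S_of_small hb')
  rw [h22p_coe_a, h22p_E20_apply, coe_heckeAlphaBar, h22p_Einf_apply]

theorem h22p_cen_a_inf_of_11 (hq : q.Prime) (hqM : ¬ q ∣ M) {ζ : Kbar}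
    {E : FF (M * q * q) →+* LaurentSeries Kbar} (hE : h20n_IsE11 M q hq hqM ζ E)
    (h : h11l_Centred A (jB (M * q * q)) 𝔫 E) :
    h11l_Centred A (jB (M * q)) (𝔫.comap (h22p_a A M q)) (h11t_Einf M q) := by
  intro b' hb'
  rw [Ideal.mem_comap]
  apply h
  refine h22p_small_of_S ?_ (h22p_S_of_small hb')
  rw [h22p_coe_a, hE.1, h22p_Einf_apply]

theorem h22p_cen_a_zero_of_02 (hq : q.Prime) (hqM : ¬ q ∣ M)
    {E : FF (M * q * q) →+* LaurentSeries Kbar} (hE : h20n_IsE02 M q hq hqM E)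
    (h : h11l_Centred A (jB (M * q * q)) 𝔫 E) :
    h11l_Centred A (jB (M * q)) (𝔫.comap (h22p_a A M q)) (h11t_Ezero M q hq hqM) := by
  intro b' hb'
  rw [Ideal.mem_comap]
  apply h
  refine h22p_small_of_S ?_ (h22p_smallS_qExpand q (h22p_S_of_small hb'))
  rw [h22p_coe_a, hE.1, h22p_Ezero_apply]

theorem h22p_cen_b_inf_of_20 (hq : q.Prime) (hqM : ¬ q ∣ M) (hA : A.LiesOverPrime q)
    (h : h11l_Centred A (jB (M * q * q)) 𝔫 (h20n_E20 M q)) :
    h11l_Centred A (jB (M * q)) (𝔫.comap (h22p_b A M q hq hqM hA)) (h11t_Einf M q) := by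
  intro b' hb'
  rw [Ideal.mem_comap]
  apply h
  refine h22p_small_of_S ?_ (h22p_smallS_qExpand q (h22p_S_of_small hb'))
  rw [h22p_coe_b, h22p_E20_apply, coe_heckeBetaBar, h22p_Einf_apply]

theorem h22p_cen_b_zero_of_11 (hq : q.Prime) (hqM : ¬ q ∣ M) (hA : A.LiesOverPrime q)
    {ζ : Kbar} (hζ : ζ ^ q = 1)
    {E : FF (M * q * q) →+* LaurentSeries Kbar} (hE : h20n_IsE11 M q hq hqM ζ E)
    (h : h11l_Centred A (jB (M * q * q)) 𝔫 E) :
    h11l_Centred A (jB (M * q)) (𝔫.comap (h22p_b A M q hq hqM hA))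
      (h11t_Ezero M q hq hqM) := by
  intro b' hb'
  rw [Ideal.mem_comap]
  apply h
  obtain ⟨u, hu, -⟩ := h1g_exists_unit q hq A hA ζ 1 (by rw [pow_one]; exact hζ)
  have hS := h22p_smallS_twist u (h22p_S_of_small hb')
  rw [hu] at hS
  refine h22p_small_of_S ?_ hS
  rw [h22p_coe_b, hE.2, h22p_Ezero_apply]

theorem h22p_cen_b_zero_of_02 (hq : q.Prime) (hqM : ¬ q ∣ M) (hA : A.LiesOverPrime q)
    {E : FF (M * q * q) →+* LaurentSeries Kbar} (hE : h20n_IsE02 M q hq hqM E)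
    (h : h11l_Centred A (jB (M * q * q)) 𝔫 E) :
    h11l_Centred A (jB (M * q)) (𝔫.comap (h22p_b A M q hq hqM hA))
      (h11t_Ezero M q hq hqM) := by
  intro b' hb'
  rw [Ideal.mem_comap]
  apply h
  refine h22p_small_of_S ?_ (h22p_S_of_small hb')
  rw [h22p_coe_b, hE.2, h22p_Ezero_apply]

end Maps

/-! ## The third component, from `H11TorUnit` -/

section Third

variable {A : ValuationSubring Kbar} {M q : ℕ} [NeZero M] [NeZero q]

/-- a family of embeddings `E11^{ζ^b}`, `0 < b < q`. -/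
theorem h22p_exists_family (hq : q.Prime) (hqM : ¬ q ∣ M) {ζ : Kbar}
    (hζ : IsPrimitiveRoot ζ q) :
    ∃ E : ℕ → (FF (M * q * q) →+* LaurentSeries Kbar),
      ∀ b : ℕ, 0 < b → b < q → h20n_IsE11 M q hq hqM (ζ ^ b) (E b) := by
  classical
  obtain ⟨h11, E0, -⟩ := h20n_embExists q hq M hqM
  have h : ∀ b : ℕ, ∃ E : FF (M * q * q) →+* LaurentSeries Kbar,
      0 < b → b < q → h20n_IsE11 M q hq hqM (ζ ^ b) E := by
    intro b
    by_cases hb : 0 < b ∧ b < q
    · obtain ⟨E, hE⟩ := h11 (ζ ^ b)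
        (by rw [← pow_mul, mul_comm, pow_mul, hζ.pow_eq_one, one_pow])
        (hζ.pow_ne_one_of_pos_of_lt hb.1.ne' hb.2)
      exact ⟨E, fun _ _ => hE⟩
    · exact ⟨E0, fun h1 h2 => absurd ⟨h1, h2⟩ hb⟩
  choose E hE using h
  exact ⟨E, hE⟩

theorem h22p_pow_pow_eq_one {ζ : Kbar} (hζ : ζ ^ q = 1) (b : ℕ) : (ζ ^ b) ^ q = 1 := by
  rw [← pow_mul, mul_comm, pow_mul, hζ, one_pow]

/-- a function of the chart outside `𝔫` is a unit at `𝔫`. -/
theorem h22p_unitAt {N : ℕ} {t : FF N} {𝔫 : Ideal (h92c_Chart A N t)}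
    (z : h92c_Chart A N t) (hz : z ∉ 𝔫) : h11t_UnitAt A t 𝔫 (z : FF N) := by
  have hz0 : (z : FF N) ≠ 0 := by
    intro h
    apply hz
    have e : z = 0 := Subtype.ext h
    rw [e]
    exact 𝔫.zero_mem
  refine ⟨hz0, z, hz, (z * z).2, ?_⟩
  rw [mul_inv_cancel₀ hz0]
  exact one_mem _

/-- a function which is a unit at the closed point `𝔫'` is not Gauss-small at an embedding
centred at `𝔫'` at which the chart is Gauss-integral. -/
theorem h22p_not_small_of_unitAt {N : ℕ} {t : FF N} {𝔫' : Ideal (h92c_Chart A N t)}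
    (h𝔫' : 𝔫'.IsPrime) (E : FF N →+* LaurentSeries Kbar)
    (hint : ∀ b ∈ h92c_Chart A N t, E b ∈ softOT A (IsLocalRing.residue A))
    (hcen : h11l_Centred A t 𝔫' E) {x : FF N} (hU : h11t_UnitAt A t 𝔫' x) :
    ¬ h11l_Small A E x := by
  intro hsm
  obtain ⟨hx0, s, hs, h1, h2⟩ := hU
  have hmem : (⟨_, h1⟩ : h92c_Chart A N t) ∈ 𝔫' :=
    hcen ⟨_, h1⟩ (h22p_small_mul' (hint s s.2) hsm)
  have hmul : (⟨_, h1⟩ : h92c_Chart A N t) * ⟨_, h2⟩ = s * s := by
    apply Subtype.ext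
    show (s : FF N) * x * ((s : FF N) * x⁻¹) = (s : FF N) * (s : FF N)
    field_simp
  have h3 : s * s ∈ 𝔫' := by
    rw [← hmul]
    exact 𝔫'.mul_mem_right _ hmem
  exact hs ((h𝔫'.mem_or_mem h3).elim id id)

/-- **`W20` passes through a supersingular point lying over a node along `α`.** -/
theorem h22p_cen20_of_node_a (hUnit : H11TorUnit) (hq : q.Prime) (hqM : ¬ q ∣ M)
    (haux : auxLevel q ∣ M) (hA : A.LiesOverPrime q)
    (𝔫 : Ideal (h92c_Chart A (M * q * q) (jB (M * q * q)))) (hSS : h11t_IsSS A M q 𝔫)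
    (𝔫a : Ideal (h92c_Chart A (M * q) (jB (M * q))))
    (hNode : h11t_NodeUnder A M q hq hqM (heckeAlphaBar Kbar (M * q) q) 𝔫a 𝔫) :
    h11l_Centred A (jB (M * q * q)) 𝔫 (h20n_E20 M q) := by
  classical
  intro z hz
  by_contra hz𝔫
  obtain ⟨ζ, E11, E02, hT⟩ := h95v_exists_triple q hq M hqM
  have hζ : IsPrimitiveRoot ζ q := hT.prim
  obtain ⟨E, hE⟩ := h22p_exists_family (M := M) hq hqM hζ
  have hU := (hUnit q hq M hqM haux A hA 𝔫 hSS (z : FF (M * q * q)) z.2.2
    (h22p_unitAt z hz𝔫)).1 𝔫a hNode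
  refine h22p_not_small_of_unitAt hNode.1.isPrime (h11t_Einf M q)
    (h22p_chart1_int_inf hq hA) hNode.2.2.1 hU ?_
  have key := h40na_normA q hq M hqM ζ hζ E hE (z : FF (M * q * q))
  refine h22p_small_of_S ((h22p_Einf_apply _).trans key) ?_
  refine h22p_smallS_mul ?_ (Subring.prod_mem _ fun b hb => ?_)
  · have h := h22p_S_of_small hz
    rwa [h22p_E20_apply] at h
  · rw [Finset.mem_Ioo] at hb
    exact h22p_chart_int11 hq hqM hA (h22p_pow_pow_eq_one hζ.pow_eq_one b) (E b)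
      (hE b hb.1 hb.2) _ z.2

/-- **`W02` passes through a supersingular point lying over a node along `β`.** -/
theorem h22p_cen02_of_node_b (hUnit : H11TorUnit) (hq : q.Prime) (hqM : ¬ q ∣ M)
    (haux : auxLevel q ∣ M) (hA : A.LiesOverPrime q)
    (𝔫 : Ideal (h92c_Chart A (M * q * q) (jB (M * q * q)))) (hSS : h11t_IsSS A M q 𝔫)
    (𝔫b : Ideal (h92c_Chart A (M * q) (jB (M * q))))
    (hNode : h11t_NodeUnder A M q hq hqM (heckeBetaBar Kbar (M * q) q) 𝔫b 𝔫)
    {ζ : Kbar} (hζ : IsPrimitiveRoot ζ q)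
    (E02 : FF (M * q * q) →+* LaurentSeries Kbar) (hE02 : h20n_IsE02 M q hq hqM E02) :
    h11l_Centred A (jB (M * q * q)) 𝔫 E02 := by
  classical
  intro z hz
  by_contra hz𝔫
  obtain ⟨E, hE⟩ := h22p_exists_family (M := M) hq hqM hζ
  have hU := (hUnit q hq M hqM haux A hA 𝔫 hSS (z : FF (M * q * q)) z.2.2
    (h22p_unitAt z hz𝔫)).2 𝔫b hNode
  refine h22p_not_small_of_unitAt hNode.1.isPrime (h11t_Ezero M q hq hqM)
    (h22p_chart1_int_zero hq hqM hA) hNode.2.2.2 hU ?_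
  have key := h40nc_normC q hq M hqM ζ hζ E02 hE02 E hE (z : FF (M * q * q))
  refine h22p_small_of_S ((h22p_Ezero_apply hq hqM _).trans key) ?_
  refine h22p_smallS_mul (h22p_S_of_small hz) (Subring.prod_mem _ fun b hb => ?_)
  rw [Finset.mem_Ioo] at hb
  obtain ⟨u, hu, -⟩ := h1g_exists_unit q hq A hA (ζ ^ b) 1 (by
    rw [pow_one]; exact h22p_pow_pow_eq_one hζ.pow_eq_one b)
  have h1 : E (q - b) (z : FF (M * q * q)) ∈ softOT A (IsLocalRing.residue A) :=
    h22p_chart_int11 hq hqM hA (h22p_pow_pow_eq_one hζ.pow_eq_one (q - b)) (E (q - b))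
      (hE (q - b) (by omega) (by omega)) _ z.2
  have h2 := Fermat.Agent.LGC.h44r_twistK_mem_softOT (A := A) (π := IsLocalRing.residue A) u h1
  rwa [hu] at h2

end Third

/-! ## T-PT -/

/-- **T-PT** from T-UNIT: under a supersingular point of level `M q q` lie nodes of level
`M q`, along `α` and along `β`. -/
theorem h22p_torPt (hUnit : H11TorUnit) : H11TorPt := by
  intro q hq M _ hqM haux
  haveI : NeZero q := ⟨hq.ne_zero⟩
  intro A hA 𝔫 hSS
  obtain ⟨h𝔫, hq𝔫, hnot⟩ := id hSS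
  obtain ⟨ζ, E11, E02, hT⟩ := h95v_exists_triple q hq M hqM
  have hζq : ζ ^ q = 1 := hT.prim.pow_eq_one
  have hmaxa : (𝔫.comap (h22p_a A M q)).IsMaximal :=
    h59y_comap_isMaximal _ (h22p_a_isIntegral A M q) 𝔫 h𝔫
  have hmaxb : (𝔫.comap (h22p_b A M q hq hqM hA)).IsMaximal :=
    h59y_comap_isMaximal _ (h22p_b_isIntegral A M q hq hqM hA) 𝔫 h𝔫
  have concl : h11l_Centred A (jB (M * q * q)) 𝔫 (h20n_E20 M q) →
      h11l_Centred A (jB (M * q * q)) 𝔫 E02 →
      (∃ 𝔫a, h11t_NodeUnder A M q hq hqM (heckeAlphaBar Kbar (M * q) q) 𝔫a 𝔫) ∧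
      (∃ 𝔫b, h11t_NodeUnder A M q hq hqM (heckeBetaBar Kbar (M * q) q) 𝔫b 𝔫) :=
    fun c20 c02 =>
      ⟨⟨_, hmaxa, h22p_under_a 𝔫, h22p_cen_a_inf_of_20 𝔫 c20,
          h22p_cen_a_zero_of_02 𝔫 hq hqM hT.e02 c02⟩,
        ⟨_, hmaxb, h22p_under_b hq hqM hA 𝔫, h22p_cen_b_inf_of_20 𝔫 hq hqM hA c20,
          h22p_cen_b_zero_of_02 𝔫 hq hqM hA hT.e02 c02⟩⟩
  rcases h22p_two_types hq hqM haux hA hT 𝔫 h𝔫 hnot with ⟨c20, c11⟩ | ⟨c20, c02⟩ | ⟨c11, c02⟩
  · have hNb : h11t_NodeUnder A M q hq hqM (heckeBetaBar Kbar (M * q) q)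
        (𝔫.comap (h22p_b A M q hq hqM hA)) 𝔫 :=
      ⟨hmaxb, h22p_under_b hq hqM hA 𝔫, h22p_cen_b_inf_of_20 𝔫 hq hqM hA c20,
        h22p_cen_b_zero_of_11 𝔫 hq hqM hA hζq hT.e11 c11⟩
    exact concl c20 (h22p_cen02_of_node_b hUnit hq hqM haux hA 𝔫 hSS _ hNb hT.prim E02 hT.e02)
  · exact concl c20 c02
  · have hNa : h11t_NodeUnder A M q hq hqM (heckeAlphaBar Kbar (M * q) q)
        (𝔫.comap (h22p_a A M q)) 𝔫 :=
      ⟨hmaxa, h22p_under_a 𝔫, h22p_cen_a_inf_of_11 𝔫 hq hqM hT.e11 c11,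
        h22p_cen_a_zero_of_02 𝔫 hq hqM hT.e02 c02⟩
    exact concl (h22p_cen20_of_node_a hUnit hq hqM haux hA 𝔫 hSS _ hNa) c02

end Fermat.Agent.S36
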