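import Fermat.Agent.S36.H20NormSkel

/-!
# S36, block (N), leaf N-RED-D (helper16): `H20RedDAssembly`

`α (Nm_α u) ≡ u ^ q` at `W02`: by (d) the expansion `E02 (α (Nm_α u))` is the product of the
`q` twists `(E02 u)(ζ^b t)`, and every twist of a discrete series is Gauss-congruent to the
series itself.

* `h16n_congOneS_one`, `h16n_congOneS_mul`, `h16n_congOneS_prod` : the Gauss congruence
  `h20n_CongOneS` is multiplicative.
* `h16n_redDAssembly : H20RedDAssembly`.
-/

set_option autoImplicit false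

open AlgebraicCurve ModularCurve

noncomputable section

namespace Fermat.Agent.S36

open Fermat.Agent.S37 (Kbar GQ FF cst gal)
open Fermat.Agent.Red.KR (normAlong)
open Fermat.Agent.Red.Kron (kFricke twistK)

theorem h16n_congOneS_one (A : ValuationSubring Kbar) : h20n_CongOneS A 1 :=
  ⟨1, 1, by rw [map_one]; exact one_ne_zero, by simp, rfl⟩

theorem h16n_congOneS_mul (A : ValuationSubring Kbar) {s₁ s₂ : LaurentSeries Kbar}
    (h₁ : h20n_CongOneS A s₁) (h₂ : h20n_CongOneS A s₂) : h20n_CongOneS A (s₁ * s₂) := by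
  obtain ⟨a₁, b₁, hb₁, hab₁, hr₁⟩ := h₁
  obtain ⟨a₂, b₂, hb₂, hab₂, hr₂⟩ := h₂
  refine ⟨a₁ * a₂, b₁ * b₂, ?_, ?_, ?_⟩
  · rw [map_mul]
    exact mul_ne_zero hb₁ hb₂
  · rw [map_mul, map_mul, hab₁, hab₂]
    ring
  · rw [map_mul, map_mul, hr₁, hr₂]

theorem h16n_congOneS_prod (A : ValuationSubring Kbar) {ι : Type*} (s : Finset ι)
    (f : ι → LaurentSeries Kbar) (h : ∀ i ∈ s, h20n_CongOneS A (f i)) :
    h20n_CongOneS A (∏ i ∈ s, f i) := by
  classical
  induction s using Finset.induction_on with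
  | empty => simpa using h16n_congOneS_one A
  | insert a s ha ih =>
    rw [Finset.prod_insert ha]
    exact h16n_congOneS_mul A (h a (Finset.mem_insert_self a s))
      (ih fun i hi => h i (Finset.mem_insert_of_mem hi))

/-- **N-RED-D.** -/
theorem h16n_redDAssembly : H20RedDAssembly := by
  intro hD hDF hTw q hq M _ hqM
  have : NeZero q := ⟨hq.ne_zero⟩
  intro A hA E0 hE0 u hu
  -- a primitive `q`-th root of unity
  obtain ⟨ζ, hζ⟩ := HasEnoughRootsOfUnity.exists_primitiveRoot Kbar q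
  have hs0 : E0 u ≠ 0 := by
    intro h
    apply hu
    exact (RingHom.injective E0) (by rw [h, map_zero])
  have hsDF : E0 u ∈ Fermat.Agent.Red.GV.Soft.dfField (K := Kbar) :=
    hDF q hq M hqM E0 (Or.inr hE0) u
  have h1 : E0 (heckeAlphaBar Kbar (M * q) q (normAlong (heckeAlphaBar Kbar (M * q) q) u)) =
      ∏ b ∈ Finset.range q, twistK (ζ ^ b) (E0 u) := by
    rw [hE0.1]
    exact hD q hq M hqM ζ hζ E0 hE0 u
  have h2 : E0 (heckeAlphaBar Kbar (M * q) q (normAlong (heckeAlphaBar Kbar (M * q) q) u)) *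
      (E0 u ^ q)⁻¹ = ∏ b ∈ Finset.range q, (twistK (ζ ^ b) (E0 u) * (E0 u)⁻¹) := by
    rw [h1, Finset.prod_mul_distrib, Finset.prod_const, Finset.card_range, inv_pow]
  rw [h2]
  refine h16n_congOneS_prod A _ _ fun b _ => ?_
  refine hTw q hq A hA (ζ ^ b) 1 ?_ (E0 u) hsDF hs0
  rw [pow_one, ← pow_mul, mul_comm, pow_mul, hζ.pow_eq_one, one_pow]

end Fermat.Agent.S36
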