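import Fermat.Agent.S36.H20NormSkel
import Fermat.Agent.S36.H81Cyc

/-!
# S36, block (N), leaf `N-CYC` (adapter, helper49): `H20Cyc`

`h49c_cyc : H20Cyc` (the inertia group at `q` acts transitively on the primitive `q`-th roots of
unity), from helper81's landed `h81c_transitive` (`S36/H81Cyc.lean`).
-/

set_option autoImplicit false

namespace Fermat.Agent.S36

open Fermat.Agent.S37 (Kbar)

/-- **N-CYC.** -/
theorem h49c_cyc : H20Cyc := by
  intro q hq A hA ζ ζ' hζ hζ'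
  have hq0 : NeZero q := ⟨hq.ne_zero⟩
  obtain ⟨b, -, hb⟩ := hζ.eq_pow_of_pow_eq_one hζ'.pow_eq_one
  have hqb : ¬ q ∣ b := by
    rintro ⟨c, rfl⟩
    apply hζ'.ne_one hq.one_lt
    rw [← hb, pow_mul, hζ.pow_eq_one, one_pow]
  obtain ⟨σ, hσ, hσζ⟩ := h81c_transitive (A := A) hζ hq hA hqb
  exact ⟨σ, hσ, hσζ.trans hb⟩

end Fermat.Agent.S36
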