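import Fermat.Agent.S36.H20NormSkel

/-!
# S36, block (N), leaf `N-RED-A` (helper49): `H20RedAAssembly`

`h49r_redAAssembly : H20RedAAssembly`, i.e.
`H20EmbExists → H20EmbGal → H20EmbDF → H20NormA → H20Cyc → H20Inert → H20RedA`.

Proof: `Nm_α u = u · ∏_{0<b<q} E_b u` (`NormA`), `E_b = E11^{ζ^b}`; `ζ^b = σ_b ζ` with `σ_b` in the
inertia group (`Cyc`), so `E_b (σ_b u) = σ_b (E u)` (`EmbGal`); `σ_b u = c_b u`, hence
`E_b u = c_b⁻¹ σ_b (E u) ≡ (c_b d_b)⁻¹ E u` (`Inert`).  The Gauss congruence `h20n_CongOneS` is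
closed under products (`h49r_congOneS_mul`, `h49r_congOneS_prod`).
-/

set_option autoImplicit false

open AlgebraicCurve ModularCurve

noncomputable section

namespace Fermat.Agent.S36

open Fermat.Agent.S37 (Kbar GQ FF cst gal)
open Fermat.Agent.Red.KR (normAlong)
open Fermat.Agent.Red.Kron (kFricke twistK)

/-- `1 ≡ 1`. -/
theorem h49r_congOneS_one (A : ValuationSubring Kbar) : h20n_CongOneS A 1 := by
  refine ⟨1, 1, ?_, ?_, rfl⟩
  · rw [map_one]
    exact one_ne_zero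
  · rw [map_one, one_mul]

/-- The Gauss congruence is multiplicative. -/
theorem h49r_congOneS_mul (A : ValuationSubring Kbar) {s₁ s₂ : LaurentSeries Kbar}
    (h₁ : h20n_CongOneS A s₁) (h₂ : h20n_CongOneS A s₂) : h20n_CongOneS A (s₁ * s₂) := by
  obtain ⟨a₁, b₁, hb₁, hab₁, hr₁⟩ := h₁
  obtain ⟨a₂, b₂, hb₂, hab₂, hr₂⟩ := h₂
  refine ⟨a₁ * a₂, b₁ * b₂, ?_, ?_, ?_⟩
  · rw [map_mul]
    exact mul_ne_zero hb₁ hb₂
  · rw [map_mul, map_mul, hab₁, hab₂]
    ring
  · rw [map_mul, map_mul, hr₁, hr₂]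

/-- The Gauss congruence is closed under finite products. -/
theorem h49r_congOneS_prod (A : ValuationSubring Kbar) {ι : Type*} (s : Finset ι)
    (f : ι → LaurentSeries Kbar) (h : ∀ i ∈ s, h20n_CongOneS A (f i)) :
    h20n_CongOneS A (∏ i ∈ s, f i) := by
  classical
  induction s using Finset.induction_on with
  | empty =>
    rw [Finset.prod_empty]
    exact h49r_congOneS_one A
  | insert i s hi ih =>
    rw [Finset.prod_insert hi]
    exact h49r_congOneS_mul A (h i (Finset.mem_insert_self i s))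
      (ih (fun j hj => h j (Finset.mem_insert_of_mem hj)))

/-- An embedding of type `E11` is the identity on the constants. -/
theorem h49r_E11_cst (M q : ℕ) [NeZero M] [NeZero q] (hq : q.Prime) (hqM : ¬ q ∣ M) (ζ : Kbar)
    (E : FF (M * q * q) →+* LaurentSeries Kbar) (hE : h20n_IsE11 M q hq hqM ζ E) (c : Kbar) :
    E (cst (M * q * q) c) = HahnSeries.C c := by
  have h1 : cst (M * q * q) c = heckeAlphaBar Kbar (M * q) q (cst (M * q) c) :=
    ((heckeAlphaBar Kbar (M * q) q).commutes c).symm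
  rw [h1, hE.1]
  exact Fermat.Agent.Red.GV.Soft.soft_coe_cst (M * q) c

/-- **N-RED-ASM (a).** -/
theorem h49r_redAAssembly : H20RedAAssembly := by
  intro hEx hGal hDF hNormA hCyc hInert q hq M _ hqM
  have hq0 : NeZero q := ⟨hq.ne_zero⟩
  intro A hA ζ hζ E hE u hu hinv
  obtain ⟨hE11, -⟩ := hEx q hq M hqM
  have hprim : ∀ b : ℕ, 0 < b → b < q → IsPrimitiveRoot (ζ ^ b) q := fun b hb0 hbq =>
    hζ.pow_of_coprime b
      ((Nat.coprime_comm.mp ((Nat.Prime.coprime_iff_not_dvd hq).mpr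
        (Nat.not_dvd_of_pos_of_lt hb0 hbq))))
  -- the family of embeddings
  have hfam : ∀ b : ℕ, ∃ E' : FF (M * q * q) →+* LaurentSeries Kbar,
      (0 < b → b < q → h20n_IsE11 M q hq hqM (ζ ^ b) E') := by
    intro b
    by_cases hb : 0 < b ∧ b < q
    · obtain ⟨E', hE'⟩ := hE11 (ζ ^ b) ((hprim b hb.1 hb.2).pow_eq_one)
        ((hprim b hb.1 hb.2).ne_one hq.one_lt)
      exact ⟨E', fun _ _ => hE'⟩
    · exact ⟨E, fun h0 hq' => absurd ⟨h0, hq'⟩ hb⟩
  choose Efam hEfam using hfam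
  have hN := hNormA q hq M hqM ζ hζ Efam hEfam u
  have hEu0 : E u ≠ 0 := (map_ne_zero_iff E E.injective).mpr hu
  have hus0 : (u : LaurentSeries Kbar) ≠ 0 := fun h => hu (Subtype.ext h)
  have hEuDF : E u ∈ Fermat.Agent.Red.GV.Soft.dfField (K := Kbar) :=
    hDF q hq M hqM E (Or.inl ⟨ζ, hζ.pow_eq_one, hE⟩) u
  -- each conjugate is congruent to a constant times `E u`
  have key : ∀ b ∈ Finset.Ioo 0 q, ∃ c : Kbar, c ≠ 0 ∧
      h20n_CongOneS A (HahnSeries.C c * Efam b u * (E u)⁻¹) := by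
    intro b hb
    rw [Finset.mem_Ioo] at hb
    obtain ⟨σ, hσ, hσζ⟩ := hCyc q hq A hA ζ (ζ ^ b) hζ (hprim b hb.1 hb.2)
    have hE' : h20n_IsE11 M q hq hqM (σ ζ) (Efam b) := by
      rw [hσζ]
      exact hEfam b hb.1 hb.2
    have h1 := (hGal q hq M hqM σ).1 ζ E (Efam b) hE hE' u
    obtain ⟨c, hc, hcu⟩ := hinv σ hσ
    rw [hcu, map_mul, h49r_E11_cst M q hq hqM (σ ζ) (Efam b) hE' c] at h1
    obtain ⟨d, hd, hdc⟩ := hInert q hq A hA σ hσ (E u) hEuDF hEu0
    refine ⟨d * c, mul_ne_zero hd hc, ?_⟩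
    have h2 : HahnSeries.C (d * c) * Efam b u * (E u)⁻¹ =
        HahnSeries.C d * coeffMap (σ : Kbar →+* Kbar) (E u) * (E u)⁻¹ := by
      rw [← h1, map_mul]
      ring
    rw [h2]
    exact hdc
  choose! cf hcf using key
  refine ⟨∏ b ∈ Finset.Ioo 0 q, cf b,
    Finset.prod_ne_zero_iff.mpr (fun b hb => (hcf b hb).1), ?_⟩
  have hprod : HahnSeries.C (∏ b ∈ Finset.Ioo 0 q, cf b) *
      ((normAlong (heckeAlphaBar Kbar (M * q) q) u : FF (M * q)) : LaurentSeries Kbar) *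
      ((u : LaurentSeries Kbar) * E u ^ (q - 1))⁻¹ =
      ∏ b ∈ Finset.Ioo 0 q, (HahnSeries.C (cf b) * Efam b u * (E u)⁻¹) := by
    rw [hN, Finset.prod_mul_distrib, Finset.prod_mul_distrib, map_prod, Finset.prod_const,
      Nat.card_Ioo, Nat.sub_zero, mul_inv, inv_pow]
    field_simp
  rw [hprod]
  exact h49r_congOneS_prod A _ _ (fun b hb => (hcf b hb).2)

end Fermat.Agent.S36
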