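import Fermat.Agent.S36.H20NormSkel
import Fermat.Agent.S54.Frobenius

/-!
# S36, block (N), row N-ASM (helper64): `H20NewGateAssembly`

`h64a_newGateAssembly : H20NewGateAssembly`, i.e.
`H20EmbDF → H20Root → H20Frob → H20RedB → H20RedD → H20RedA → H20NewGate36`.

* Calculus of the Gauss congruence `h20n_CongOneS A s` (`s ≡ 1`): it is
  `s ∈ softOT` and `softRedT s = 1`, hence stable under products, inverses, powers.
* `Tor20`: `u^q ≡ (Nm_β u)(t^q) = h'(t^q)^m ≡ c (σ⁻¹ h')(t)^(q m)` (`σ` a Frobenius), so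
  `(d u / (σ⁻¹ h')^m)^q ≡ 1` with `d^q = c^m`, and `H20Root` gives `d u / α(σ⁻¹ h')^m ≡ 1`.
* `Tor02`: the same at `E02` with `Nm_α u = h^m` and `y = σ⁻¹ (w h) = w x`, `β x` in place
  of `α (σ⁻¹ h')`.
* `Tor11`: `c Nm_α u ≡ u (E u)^(q-1)` (`H20RedA`) and `Tor20` give
  `(E u)^(q-1) ≡ c' E (α (h / y))^m`.
-/

set_option autoImplicit false
set_option linter.style.haveILetI false

open AlgebraicCurve ModularCurve

noncomputable section

namespace Fermat.Agent.S36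

open Fermat.Agent.S37 (Kbar GQ FF cst gal)
open Fermat.Agent.Red.KR (normAlong)
open Fermat.Agent.Red.Kron (kFricke twistK)
open Fermat.Agent.Red.GV (embA redA)
open Fermat.Agent.Red.GV.Soft

/-! ## Calculus of the Gauss congruence -/

section Calculus

variable (A : ValuationSubring Kbar)

/-- `s ≡ 1` iff `s` is Gauss-integral with reduction `1`. -/
theorem h64a_cong_iff (s : LaurentSeries Kbar) :
    h20n_CongOneS A s ↔
      ∃ h : s ∈ softOT A (IsLocalRing.residue A),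
        softRedT A (IsLocalRing.residue A) ⟨s, h⟩ = 1 := by
  constructor
  · rintro ⟨a, b, hb, hab, hred⟩
    have hs : s ∈ softOT A (IsLocalRing.residue A) := ⟨a, b, hb, hab⟩
    refine ⟨hs, ?_⟩
    have h1 := softRedT_mul_eq (A := A) (π := IsLocalRing.residue A) ⟨s, hs⟩ a b hb hab
    have hred' : redA (IsLocalRing.residue A) a = redA (IsLocalRing.residue A) b := hred
    rw [hred'] at h1
    exact mul_right_cancel₀ hb (h1.trans (one_mul _).symm)
  · rintro ⟨⟨a, b, hb, hab⟩, hred⟩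
    refine ⟨a, b, hb, hab, ?_⟩
    have h1 := softRedT_mul_eq (A := A) (π := IsLocalRing.residue A)
      ⟨s, ⟨a, b, hb, hab⟩⟩ a b hb hab
    rw [hred, one_mul] at h1
    exact h1.symm

theorem h64a_cong_one : h20n_CongOneS A 1 := by
  rw [h64a_cong_iff]
  exact ⟨(softOT A (IsLocalRing.residue A)).one_mem, map_one _⟩

variable {A}

theorem h64a_cong_mul {s t : LaurentSeries Kbar} (hs : h20n_CongOneS A s)
    (ht : h20n_CongOneS A t) : h20n_CongOneS A (s * t) := by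
  rw [h64a_cong_iff] at hs ht ⊢
  obtain ⟨hs, hs1⟩ := hs
  obtain ⟨ht, ht1⟩ := ht
  refine ⟨(softOT A (IsLocalRing.residue A)).mul_mem hs ht, ?_⟩
  have : (⟨s * t, (softOT A (IsLocalRing.residue A)).mul_mem hs ht⟩ :
      softOT A (IsLocalRing.residue A)) = ⟨s, hs⟩ * ⟨t, ht⟩ := rfl
  rw [this, map_mul, hs1, ht1, one_mul]

theorem h64a_cong_inv {s : LaurentSeries Kbar} (hs : h20n_CongOneS A s) :
    h20n_CongOneS A s⁻¹ := by
  rw [h64a_cong_iff] at hs ⊢
  obtain ⟨hs, hs1⟩ := hs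
  have hne : softRedT A (IsLocalRing.residue A) ⟨s, hs⟩ ≠ 0 := by
    rw [hs1]
    exact one_ne_zero
  obtain ⟨hs0, hinv⟩ := (softRedT_ne_zero_iff (A := A) (π := IsLocalRing.residue A) ⟨s, hs⟩).mp hne
  refine ⟨hinv, ?_⟩
  have h1 : softRedT A (IsLocalRing.residue A) ⟨s, hs⟩ *
      softRedT A (IsLocalRing.residue A) ⟨s⁻¹, hinv⟩ = 1 := by
    rw [← map_mul]
    have : (⟨s, hs⟩ * ⟨s⁻¹, hinv⟩ : softOT A (IsLocalRing.residue A)) = 1 := by
      apply Subtype.ext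
      show s * s⁻¹ = 1
      exact mul_inv_cancel₀ hs0
    rw [this, map_one]
  rw [hs1, one_mul] at h1
  exact h1

theorem h64a_cong_pow {s : LaurentSeries Kbar} (hs : h20n_CongOneS A s) (n : ℕ) :
    h20n_CongOneS A (s ^ n) := by
  induction n with
  | zero => rw [pow_zero]; exact h64a_cong_one A
  | succ n ih => rw [pow_succ]; exact h64a_cong_mul ih hs

theorem h64a_cong_div {s t : LaurentSeries Kbar} (hs : h20n_CongOneS A s)
    (ht : h20n_CongOneS A t) : h20n_CongOneS A (s * t⁻¹) :=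
  h64a_cong_mul hs (h64a_cong_inv ht)

theorem h64a_cong_of_eq {s t : LaurentSeries Kbar} (hs : h20n_CongOneS A s) (h : s = t) :
    h20n_CongOneS A t := h ▸ hs

end Calculus

/-! ## Auxiliary facts -/

section Aux

theorem h64a_normAlong_ne_zero {K F F' : Type*} [Field K] [Field F] [Field F'] [Algebra K F]
    [Algebra K F'] (φ : F →ₐ[K] F') (hfin : FiniteAlong K φ) {y : F'} (hy : y ≠ 0) :
    normAlong φ y ≠ 0 := by
  letI := algebraAlong φ
  haveI : Module.Finite F F' := hfin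
  exact Algebra.norm_ne_zero_iff.mpr hy

theorem h64a_gal_smul_inv (N : ℕ) (σ : GQ) (x : FF N) : gal N σ • (gal N σ⁻¹ • x) = x := by
  have e : gal N σ⁻¹ = (gal N σ)⁻¹ := map_inv _ σ
  rw [e, smul_inv_smul]

theorem h64a_gal_inv_ne_zero (N : ℕ) (σ : GQ) {x : FF N} (hx : x ≠ 0) :
    gal N σ⁻¹ • x ≠ 0 := by
  intro h0
  apply hx
  have := h64a_gal_smul_inv N σ x
  rw [h0, smul_zero] at this
  exact this.symm

theorem h64a_coe_ne_zero (N : ℕ) {x : FF N} (hx : x ≠ 0) : (x : LaurentSeries Kbar) ≠ 0 := by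
  intro h0
  exact hx (Subtype.ext h0)

/-- the algebra behind `Tor20`, `Tor02`. -/
theorem h64a_pow_identity {L : Type*} [Field L] {C₁ D U Y H : L} {m q : ℕ}
    (hD : D ^ q = C₁ ^ m) (hH : H ≠ 0) (hY : Y ≠ 0) (hU : U ≠ 0) :
    (D * U * (Y ^ m)⁻¹) ^ q = (C₁ * H * (Y ^ q)⁻¹) ^ m * (H ^ m * (U ^ q)⁻¹)⁻¹ := by
  have hHm : H ^ m ≠ 0 := pow_ne_zero _ hH
  have hUq : U ^ q ≠ 0 := pow_ne_zero _ hU
  have e1 : (D * U * (Y ^ m)⁻¹) ^ q = D ^ q * U ^ q * ((Y ^ (m * q))⁻¹) := by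
    rw [mul_pow, mul_pow, inv_pow, ← pow_mul]
  have e2 : (C₁ * H * (Y ^ q)⁻¹) ^ m * (H ^ m * (U ^ q)⁻¹)⁻¹ =
      C₁ ^ m * U ^ q * ((Y ^ (m * q))⁻¹) := by
    rw [mul_pow, mul_pow, inv_pow, ← pow_mul, mul_inv, inv_inv, mul_comm q m]
    field_simp
  rw [e1, e2, hD]

end Aux

/-! ## The three toric statements -/

section Main

variable {M q : ℕ} [NeZero M] [NeZero q]

/-- `E (cst c) = C c` for an embedding which is the standard one, or a twist of it, along `α`. -/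
theorem h64a_E_cst (E : FF (M * q * q) →+* LaurentSeries Kbar)
    (φ : FF (M * q) → LaurentSeries Kbar)
    (hE : ∀ x : FF (M * q), E (heckeAlphaBar Kbar (M * q) q x) = φ x)
    (hφ : ∀ c : Kbar, φ (cst (M * q) c) = HahnSeries.C c) (c : Kbar) :
    E (cst (M * q * q) c) = HahnSeries.C c := by
  have h1 : cst (M * q * q) c = heckeAlphaBar Kbar (M * q) q (cst (M * q) c) :=
    ((heckeAlphaBar Kbar (M * q) q).commutes c).symm
  rw [h1, hE, hφ]

/-- **Tor20 (congruence form).** -/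
theorem h64a_tor20_cong (hRoot : H20Root) (hFrob : H20Frob) (hRedB : H20RedB)
    (hq : q.Prime) (A : ValuationSubring Kbar) (hA : A.LiesOverPrime q)
    (m : ℕ) (hqm : ¬ q ∣ m) (u : FF (M * q * q)) (hu : u ≠ 0)
    (h' : FF (M * q)) (hh' : normAlong (heckeBetaBar Kbar (M * q) q) u = h' ^ m) :
    ∃ (d : Kbar) (y : FF (M * q)), d ≠ 0 ∧ y ≠ 0 ∧
      h20n_CongOneS A (HahnSeries.C d * (u : LaurentSeries Kbar) *
        ((y : LaurentSeries Kbar) ^ m)⁻¹) := by
  have hm0 : m ≠ 0 := by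
    rintro rfl
    exact hqm (dvd_zero q)
  have hh'0 : h' ≠ 0 := by
    rintro rfl
    rw [zero_pow hm0] at hh'
    exact h64a_normAlong_ne_zero _
      (Fermat.Agent.Red.HKMod.finiteAlong_heckeBetaBar (M * q) q) hu hh'
  obtain ⟨σ, hσ⟩ := Fermat.Agent.S54.exists_isFrobeniusAt_of_liesOverPrime hq A hA
  set y : FF (M * q) := gal (M * q) σ⁻¹ • h' with hy
  have hy0 : y ≠ 0 := h64a_gal_inv_ne_zero (M * q) σ hh'0
  have hB := hRedB q hq (M * q) (dvd_mul_left q M) A hA u hu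
  rw [hh'] at hB
  obtain ⟨c, hc0, hF⟩ := hFrob q hq A hA σ hσ (M * q) y hy0
  rw [hy, h64a_gal_smul_inv] at hF
  rw [← hy] at hF
  obtain ⟨d, hd⟩ := IsAlgClosed.exists_pow_nat_eq (c ^ m) hq.pos
  have hd0 : d ≠ 0 := by
    rintro rfl
    rw [zero_pow hq.ne_zero] at hd
    exact pow_ne_zero m hc0 hd.symm
  refine ⟨d, y, hd0, hy0, ?_⟩
  have hU : (u : LaurentSeries Kbar) ≠ 0 := h64a_coe_ne_zero _ hu
  have hY : (y : LaurentSeries Kbar) ≠ 0 := h64a_coe_ne_zero _ hy0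
  have hH : qExpand Kbar q ((h' : FF (M * q)) : LaurentSeries Kbar) ≠ 0 := by
    intro h0
    have := (qExpand_injective (R := Kbar) (N := q)) (h0.trans (map_zero _).symm)
    exact h64a_coe_ne_zero _ hh'0 this
  have hDC : (HahnSeries.C d : LaurentSeries Kbar) ^ q = (HahnSeries.C c) ^ m := by
    rw [← map_pow, ← map_pow, hd]
  have hcoe : (((h' ^ m : FF (M * q)) : FF (M * q)) : LaurentSeries Kbar) =
      ((h' : FF (M * q)) : LaurentSeries Kbar) ^ m := rfl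
  rw [hcoe, map_pow] at hB
  have hpow := h64a_cong_div (h64a_cong_pow hF m) hB
  rw [← h64a_pow_identity hDC hH hY hU] at hpow
  refine hRoot q hq A hA _ ?_ hpow
  exact mul_mem (mul_mem (C_mem_dfField d) (FF_le_dfField (M * q * q) u))
    (inv_mem (pow_mem (FF_le_dfField (M * q) y) m))

/-- **Tor20.** -/
theorem h64a_tor20 (hRoot : H20Root) (hFrob : H20Frob) (hRedB : H20RedB)
    (hq : q.Prime) (A : ValuationSubring Kbar) (hA : A.LiesOverPrime q)
    (m : ℕ) (hqm : ¬ q ∣ m) (u : FF (M * q * q)) (hu : u ≠ 0)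
    (h' : FF (M * q)) (hh' : normAlong (heckeBetaBar Kbar (M * q) q) u = h' ^ m) :
    h20n_Tor M q A m (h20n_E20 M q) u := by
  obtain ⟨d, y, hd0, hy0, hcong⟩ := h64a_tor20_cong hRoot hFrob hRedB hq A hA m hqm u hu h' hh'
  refine ⟨d, heckeAlphaBar Kbar (M * q) q y, hd0, ?_, ?_⟩
  · exact (map_ne_zero (heckeAlphaBar Kbar (M * q) q)).2 hy0
  · have hE20 : ∀ x : FF (M * q * q), h20n_E20 M q x = (x : LaurentSeries Kbar) := by
      intro x
      unfold h20n_E20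
      exact IntermediateField.algebraMap_apply _ x
    have e : h20n_E20 M q (cst (M * q * q) d * u * (heckeAlphaBar Kbar (M * q) q y ^ m)⁻¹) =
        HahnSeries.C d * (u : LaurentSeries Kbar) * ((y : LaurentSeries Kbar) ^ m)⁻¹ := by
      rw [map_mul, map_mul, map_inv₀, map_pow, hE20, hE20, hE20, soft_coe_cst,
        coe_heckeAlphaBar]
    rw [e]
    exact hcong

/-- **Tor02.** -/
theorem h64a_tor02 (hDF : H20EmbDF) (hRoot : H20Root) (hFrob : H20Frob) (hRedD : H20RedD)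
    (hq : q.Prime) (hqM : ¬ q ∣ M) (A : ValuationSubring Kbar) (hA : A.LiesOverPrime q)
    (m : ℕ) (hqm : ¬ q ∣ m) (u : FF (M * q * q)) (hu : u ≠ 0)
    (h : FF (M * q)) (hh : normAlong (heckeAlphaBar Kbar (M * q) q) u = h ^ m)
    (E0 : FF (M * q * q) →+* LaurentSeries Kbar) (hE0 : h20n_IsE02 M q hq hqM E0) :
    h20n_Tor M q A m E0 u := by
  have hm0 : m ≠ 0 := by
    rintro rfl
    exact hqm (dvd_zero q)
  have hh0 : h ≠ 0 := by
    rintro rfl
    rw [zero_pow hm0] at hh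
    exact h64a_normAlong_ne_zero _
      (Fermat.Agent.Red.HKMod.finiteAlong_heckeAlphaBar (M * q) q) hu hh
  obtain ⟨σ, hσ⟩ := Fermat.Agent.S54.exists_isFrobeniusAt_of_liesOverPrime hq A hA
  have hwh0 : kFricke M q hq hqM h ≠ 0 := (map_ne_zero (kFricke M q hq hqM)).2 hh0
  set y : FF (M * q) := gal (M * q) σ⁻¹ • (kFricke M q hq hqM h) with hy
  have hy0 : y ≠ 0 := h64a_gal_inv_ne_zero (M * q) σ hwh0
  set x : FF (M * q) := kFricke M q hq hqM y with hx
  have hwx : kFricke M q hq hqM x = y := by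
    rw [hx]
    exact Fermat.Agent.Red.Kron.kFricke_kFricke M q hq hqM y
  have hx0 : x ≠ 0 := (map_ne_zero (kFricke M q hq hqM)).2 hy0
  have hD := hRedD q hq M hqM A hA E0 hE0 u hu
  rw [hh, map_pow, map_pow, hE0.1 h] at hD
  obtain ⟨c, hc0, hF⟩ := hFrob q hq A hA σ hσ (M * q) y hy0
  rw [hy, h64a_gal_smul_inv] at hF
  rw [← hy] at hF
  obtain ⟨d, hd⟩ := IsAlgClosed.exists_pow_nat_eq (c ^ m) hq.pos
  have hd0 : d ≠ 0 := by
    rintro rfl
    rw [zero_pow hq.ne_zero] at hd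
    exact pow_ne_zero m hc0 hd.symm
  have hU : E0 u ≠ 0 := (map_ne_zero E0).2 hu
  have hY : (y : LaurentSeries Kbar) ≠ 0 := h64a_coe_ne_zero _ hy0
  have hH : qExpand Kbar q ((kFricke M q hq hqM h : FF (M * q)) : LaurentSeries Kbar) ≠ 0 := by
    intro h0
    have := (qExpand_injective (R := Kbar) (N := q)) (h0.trans (map_zero _).symm)
    exact h64a_coe_ne_zero _ hwh0 this
  have hDC : (HahnSeries.C d : LaurentSeries Kbar) ^ q = (HahnSeries.C c) ^ m := by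
    rw [← map_pow, ← map_pow, hd]
  have hpow := h64a_cong_div (h64a_cong_pow hF m) hD
  rw [← h64a_pow_identity hDC hH hY hU] at hpow
  have hcong : h20n_CongOneS A (HahnSeries.C d * E0 u * ((y : LaurentSeries Kbar) ^ m)⁻¹) := by
    refine hRoot q hq A hA _ ?_ hpow
    exact mul_mem (mul_mem (C_mem_dfField d) (hDF q hq M hqM E0 (Or.inr hE0) u))
      (inv_mem (pow_mem (FF_le_dfField (M * q) y) m))
  refine ⟨d, heckeBetaBar Kbar (M * q) q x, hd0, ?_, ?_⟩
  · exact (map_ne_zero (heckeBetaBar Kbar (M * q) q)).2 hx0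
  · have h1 : E0 (cst (M * q * q) d) = HahnSeries.C d := by
      refine h64a_E_cst E0 _ hE0.1 (fun c => ?_) d
      have : kFricke M q hq hqM (cst (M * q) c) = cst (M * q) c :=
        (kFricke M q hq hqM).commutes c
      rw [this, soft_coe_cst, qExpand_C]
    rw [map_mul, map_mul, map_inv₀, map_pow, h1, hE0.2 x, hwx]
    exact hcong

/-- **Tor11.** -/
theorem h64a_tor11 (hRoot : H20Root) (hFrob : H20Frob) (hRedB : H20RedB) (hRedA : H20RedA)
    (hq : q.Prime) (hqM : ¬ q ∣ M) (A : ValuationSubring Kbar) (hA : A.LiesOverPrime q)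
    (m : ℕ) (hqm : ¬ q ∣ m) (u : FF (M * q * q)) (hu : u ≠ 0)
    (h : FF (M * q)) (hh : normAlong (heckeAlphaBar Kbar (M * q) q) u = h ^ m)
    (h' : FF (M * q)) (hh' : normAlong (heckeBetaBar Kbar (M * q) q) u = h' ^ m)
    (hinv : ∀ σ ∈ A.inertiaSubgroupIn ℚ, ∃ c : Kbar, c ≠ 0 ∧
      gal (M * q * q) σ • u = cst (M * q * q) c * u)
    (ζ : Kbar) (E : FF (M * q * q) →+* LaurentSeries Kbar) (hζ : IsPrimitiveRoot ζ q)
    (hE : h20n_IsE11 M q hq hqM ζ E) :
    h20n_Tor M q A m E (u ^ (q - 1)) := by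
  have hm0 : m ≠ 0 := by
    rintro rfl
    exact hqm (dvd_zero q)
  have hh0 : h ≠ 0 := by
    rintro rfl
    rw [zero_pow hm0] at hh
    exact h64a_normAlong_ne_zero _
      (Fermat.Agent.Red.HKMod.finiteAlong_heckeAlphaBar (M * q) q) hu hh
  obtain ⟨d, y, hd0, hy0, hcong⟩ := h64a_tor20_cong hRoot hFrob hRedB hq A hA m hqm u hu h' hh'
  obtain ⟨c, hc0, hA1⟩ := hRedA q hq M hqM A hA ζ hζ E hE u hu hinv
  rw [hh] at hA1
  have hcoe : (((h ^ m : FF (M * q)) : FF (M * q)) : LaurentSeries Kbar) =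
      ((h : FF (M * q)) : LaurentSeries Kbar) ^ m := rfl
  rw [hcoe] at hA1
  have hU : (u : LaurentSeries Kbar) ≠ 0 := h64a_coe_ne_zero _ hu
  have hY : (y : LaurentSeries Kbar) ≠ 0 := h64a_coe_ne_zero _ hy0
  have hHh : (h : LaurentSeries Kbar) ≠ 0 := h64a_coe_ne_zero _ hh0
  have hEu : E u ≠ 0 := (map_ne_zero E).2 hu
  have hCc : (HahnSeries.C c : LaurentSeries Kbar) ≠ 0 := (map_ne_zero _).2 hc0
  have hCd : (HahnSeries.C d : LaurentSeries Kbar) ≠ 0 := (map_ne_zero _).2 hd0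
  have hprod := h64a_cong_inv (h64a_cong_mul hA1 hcong)
  refine ⟨(c * d)⁻¹, heckeAlphaBar Kbar (M * q) q (h * y⁻¹), inv_ne_zero (mul_ne_zero hc0 hd0),
    ?_, ?_⟩
  · exact (map_ne_zero (heckeAlphaBar Kbar (M * q) q)).2 (mul_ne_zero hh0 (inv_ne_zero hy0))
  · have h1 : E (cst (M * q * q) (c * d)⁻¹) = HahnSeries.C (c * d)⁻¹ :=
      h64a_E_cst E _ hE.1 (fun c => soft_coe_cst (M * q) c) _
    have h2 : E (heckeAlphaBar Kbar (M * q) q (h * y⁻¹)) =
        (h : LaurentSeries Kbar) * (y : LaurentSeries Kbar)⁻¹ := by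
      rw [hE.1]
      rfl
    rw [map_mul, map_mul, map_inv₀, map_pow, map_pow, h1, h2]
    refine h64a_cong_of_eq hprod ?_
    rw [map_inv₀, map_mul]
    have hEq : E u ^ (q - 1) ≠ 0 := pow_ne_zero _ hEu
    have hYm : (y : LaurentSeries Kbar) ^ m ≠ 0 := pow_ne_zero _ hY
    have hHm : (h : LaurentSeries Kbar) ^ m ≠ 0 := pow_ne_zero _ hHh
    rw [mul_pow, inv_pow]
    field_simp

/-- **N-ASM.** -/
theorem h64a_newGateAssembly : H20NewGateAssembly := by
  intro hDF hRoot hFrob hRedB hRedD hRedA q hq M _ hqM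
  haveI : NeZero q := ⟨hq.ne_zero⟩
  intro A hA m hqm u hu hα hβ
  obtain ⟨h, hh⟩ := hα
  obtain ⟨h', hh'⟩ := hβ
  refine ⟨h64a_tor20 hRoot hFrob hRedB hq A hA m hqm u hu h' hh', ?_, ?_⟩
  · intro E0 hE0
    exact h64a_tor02 hDF hRoot hFrob hRedD hq hqM A hA m hqm u hu h hh E0 hE0
  · intro hinv ζ E hζ hE
    exact h64a_tor11 hRoot hFrob hRedB hRedA hq hqM A hA m hqm u hu h hh h' hh' hinv ζ E hζ hE

end Main

end Fermat.Agent.S36
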