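import Fermat.Agent.S36.H20NormSkel
import Fermat.Agent.S36.H71NormBeta

/-!
# S36, block (N), rows N-NORM-B and N-RED-B (helper71)

* `h71m_normB : H20NormB` : `(Nm_β u)(t^q) = ∏_{b < q} u(ζ^b t)` for `q ∣ N`, `u ∈ F_{Nq}`;
* `h71m_redB : H20RedB` : `β (Nm_β u) ≡ u ^ q` at `W20` (Gauss congruence), for every `u ≠ 0`
  -- **unconditional** (no use of `H20Twist`);
* `h71m_redBAssembly : H20RedBAssembly`.

Exact frozen `Prop`s of `S36/H20NormSkel.lean`.
-/

set_option autoImplicit false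
set_option linter.style.haveILetI false
set_option linter.unusedSectionVars false

open AlgebraicCurve ModularCurve IsLocalRing

noncomputable section

namespace Fermat.Agent.S36

open Fermat.Agent.S37 (Kbar GQ FF cst gal CongOne)
open Fermat.Agent.Red.KR (normAlong)
open Fermat.Agent.Red.Kron (kFricke twistK)
open Fermat.Agent.Red.GV Fermat.Agent.Red.GV.Soft

/-- **N-NORM-B.** -/
theorem h71m_normB : H20NormB := by
  intro q hq N _ hqN
  haveI : NeZero q := ⟨hq.ne_zero⟩
  intro ζ hζ u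
  exact h71m_norm_beta_series N q hq hqN ζ hζ u

/-- the series form of `CongOne`. -/
theorem h71m_congOneS_coe {N : ℕ} (A : ValuationSubring Kbar) (w : FF N) :
    h20n_CongOneS A (w : LaurentSeries Kbar) ↔ CongOne A w := Iff.rfl

/-- **N-RED-B**, unconditional. -/
theorem h71m_redB : H20RedB := by
  intro q hq N _ hqN
  haveI : NeZero q := ⟨hq.ne_zero⟩
  intro A hA u hu
  letI := algebraAlong (heckeBetaBar Kbar N q)
  -- scale `u` to a Gauss unit
  obtain ⟨c, hc, hx, hxi⟩ := exists_cst_mul_unit_soft A (N * q) hq hA u hu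
  obtain ⟨x, hx_def⟩ : ∃ x : FF (N * q), x = cst (N * q) c * u := ⟨_, rfl⟩
  rw [← hx_def] at hx hxi
  have hcst0 : cst (N * q) c ≠ 0 := by
    rw [Ne, map_eq_zero_iff _ (algebraMap Kbar (FF (N * q))).injective]
    exact hc
  have hx0 : x ≠ 0 := by rw [hx_def]; exact mul_ne_zero hcst0 hu
  -- the norm of `x`
  obtain ⟨hn, hred⟩ := h71m_norm_beta_red_pow A N q hq hqN hA x hx
  obtain ⟨n, hn_def⟩ : ∃ n : FF N, n = Algebra.norm (FF N) x := ⟨_, rfl⟩
  have hn' : n ∈ softV A N := by rw [hn_def]; exact hn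
  have hred' : qExpand (ResidueField A) q (softR A N ⟨n, hn'⟩) =
      (softR A (N * q) ⟨x, hx⟩) ^ q := by
    have e : (⟨n, hn'⟩ : softV A N) = ⟨_, hn⟩ := Subtype.ext hn_def
    rw [e]; exact hred
  have hnu : n = cst N (c ^ q) * Algebra.norm (FF N) u := by
    rw [hn_def, hx_def]
    exact h71m_norm_beta_cst_mul N q hq hqN c u
  -- the function `w = β n / x ^ q`
  obtain ⟨w, hw_def⟩ : ∃ w : FF (N * q), w = heckeBetaBar Kbar N q n * (x⁻¹) ^ q := ⟨_, rfl⟩
  have hβn : heckeBetaBar Kbar N q n ∈ softV A (N * q) := beta_mem_softV A q n hn'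
  have hw : w ∈ softV A (N * q) := by
    rw [hw_def]; exact mul_mem hβn (pow_mem hxi q)
  have hxr : softR A (N * q) ⟨x, hx⟩ * softR A (N * q) ⟨x⁻¹, hxi⟩ = 1 := by
    rw [← map_mul]
    have e : (⟨x, hx⟩ : softV A (N * q)) * ⟨x⁻¹, hxi⟩ = 1 :=
      Subtype.ext (mul_inv_cancel₀ hx0)
    rw [e, map_one]
  have hwr : softR A (N * q) ⟨w, hw⟩ = 1 := by
    have e : (⟨w, hw⟩ : softV A (N * q)) =
        ⟨heckeBetaBar Kbar N q n, hβn⟩ * (⟨x⁻¹, hxi⟩ : softV A (N * q)) ^ q :=
      Subtype.ext hw_def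
    rw [e, map_mul, map_pow, softR_beta A q ⟨n, hn'⟩ hβn, hred', ← mul_pow, hxr, one_pow]
  have hcong : CongOne A w := (congOne_iff_softR A (N * q) w).mpr ⟨hw, hwr⟩
  -- identify the series
  have hser : qExpand Kbar q ((normAlong (heckeBetaBar Kbar N q) u : FF N) :
      LaurentSeries Kbar) * ((u : LaurentSeries Kbar) ^ q)⁻¹ = (w : LaurentSeries Kbar) := by
    have h1 : (w : LaurentSeries Kbar) =
        qExpand Kbar q ((n : FF N) : LaurentSeries Kbar) *
          (((x : FF (N * q)) : LaurentSeries Kbar)⁻¹) ^ q := by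
      rw [hw_def]
      rfl
    have h2 : ((n : FF N) : LaurentSeries Kbar) =
        HahnSeries.C (c ^ q) *
          ((normAlong (heckeBetaBar Kbar N q) u : FF N) : LaurentSeries Kbar) := by
      rw [hnu, ← soft_coe_cst N (c ^ q)]
      rfl
    have h3 : ((x : FF (N * q)) : LaurentSeries Kbar) =
        HahnSeries.C c * (u : LaurentSeries Kbar) := by
      rw [hx_def, ← soft_coe_cst (N * q) c]
      rfl
    have hu0 : (u : LaurentSeries Kbar) ≠ 0 := fun h0 => hu (Subtype.ext h0)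
    have hC0 : (HahnSeries.C c : LaurentSeries Kbar) ≠ 0 := by
      rw [Ne, map_eq_zero_iff _ HahnSeries.C_injective]
      exact hc
    have hCq : (HahnSeries.C c : LaurentSeries Kbar) ^ q ≠ 0 := pow_ne_zero _ hC0
    have huq : (u : LaurentSeries Kbar) ^ q ≠ 0 := pow_ne_zero _ hu0
    rw [h1, h2, h3, map_mul, qExpand_C, map_pow, mul_inv, mul_pow, inv_pow, inv_pow]
    field_simp
  rw [hser]
  exact hcong

/-- **N-RED-B (assembly form).** -/
theorem h71m_redBAssembly : H20RedBAssembly := fun _ _ => h71m_redB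

end Fermat.Agent.S36
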