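import Fermat.Agent.S36.H20VertSkel
import Fermat.Agent.S36.H1Gauss
import Fermat.Agent.S36.H64NAsm
import Fermat.Agent.S36.H83EmbGal
import Fermat.Agent.S36.H20Emb
import Fermat.Agent.S36.H40NormA
import Fermat.Agent.S36.H40NormC
import Fermat.Agent.S36.H12EmbDF
import Fermat.Agent.S36.H49Cyc
import Fermat.Agent.S36.H49RedA
import Fermat.Agent.S36.H71NormB
import Fermat.Agent.S36.H16RedD
import Fermat.Agent.S36.H93NormD

/-!
# S36, blocks (N) → (T): the norm formulas in EXACT congruence form (TN1 of finding 1065)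

(helper41, prefix `h41x_`.)  Language of `S36/H20NormSkel.lean` / `S36/H20VertSkel.lean`:
`E20 = coe`, `E11 = E11^ζ`, `E02` the three `q`-expansion embeddings of `F₂ = FF (M q q)`,
`≡` the Gauss congruence `h20n_CongOneS`, `h20v_Unit` the (nonzero) units of the Gauss ring,
`F₀ = h92c_F0` the functions fixed by the inertia group of `A`.

The reductions `H20RedB`, `H20RedD` of block (N) are constant-free; `H20RedA` carries a constant
(the function is only invariant up to constants, and the valuation at `W₁₁` need not be `0`).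
For the toric block one needs the constant-free forms for functions of `F₀` which are units
at `W₁₁`:

* `h41x_inert_unit` : `σ s ≡ s` for `σ` in the inertia group and `s` a unit of the Gauss ring;
* `h41x_conj_unit`  : `E11^{ζ'} u ≡ E11^ζ u` for `u ∈ F₀` a unit at `E11^ζ`;
* `h41x_redA_unit`  : **(a)** `Nm_α u ≡ E20 u · (E11 u)^(q-1)`   (at `W_∞` of the level `M q`);
* `h41x_redC_unit`  : **(c)** `w (Nm_β u) ≡ E02 u · (E11 u)^(q-1)` (at `W_0` of the level `M q`),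
  from the norm formula `h40nc_normC`.

## TN1: the four norm congruences

`≡` multiplicative (`h20n_CongOneS (s * s'⁻¹)`), or additive (`h41x_Small (s - s')`: the
difference is Gauss-integral with reduction `0`); `h41x_small_sub_iff` converts.

* `h41x_tn1_alpha_inf` : `E20 z ≡ y₀`, `E11 z ≡ y₁`  ⟹  `Nm_α z ≡ y₀ y₁^(q-1)` at `W_∞`;
* `h41x_tn1_alpha_zero` : `(E02 z)^q ≡ E02 (α y)`   ⟹  `Nm_α z ≡ y` at `W_0`;
* `h41x_tn1_beta_inf`  : `(E20 z)^q ≡ E20 (β y)`   ⟹  `Nm_β z ≡ y` at `W_∞`;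
* `h41x_tn1_beta_zero` : `E11 z ≡ E11 (β y₁)`, `E02 z ≡ E02 (β y₂)`  ⟹
  `Nm_β z ≡ y₁^(q-1) y₂` at `W_0`.

(`W_∞`: Gauss congruence of the `q`-expansion `coe` of `FF (M q)`; `W_0`: of `coe ∘ w`.)
-/

set_option autoImplicit false

open AlgebraicCurve ModularCurve

noncomputable section

namespace Fermat.Agent.S36

open Fermat.Agent.S37 (Kbar GQ FF cst gal)
open Fermat.Agent.Red.KR (normAlong)
open Fermat.Agent.Red.Kron (kFricke twistK)
open Fermat.Agent.Red.GV (embA redA embA_injective)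
open Fermat.Agent.Red.GV.Soft

/-! ## Units of the Gauss ring -/

section Units

variable (A : ValuationSubring Kbar)

/-- a nonzero unit of the Gauss ring is `a / b` with `ā ≠ 0`, `b̄ ≠ 0`. -/
theorem h41x_unit_wit {s : LaurentSeries Kbar} (hs : h20v_Unit A s) :
    ∃ a b : LaurentSeries A, redA (IsLocalRing.residue A) a ≠ 0 ∧
      redA (IsLocalRing.residue A) b ≠ 0 ∧ embA A a = s * embA A b := by
  obtain ⟨hs0, ⟨a, b, hb, hab⟩, ⟨a', b', hb', hab'⟩⟩ := hs
  refine ⟨a, b, ?_, hb, hab⟩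
  have h1 : a * a' = b * b' := by
    apply embA_injective A
    rw [map_mul, map_mul, hab, hab']
    field_simp
  intro ha
  have h2 := congrArg (redA (IsLocalRing.residue A)) h1
  rw [map_mul, map_mul, ha, zero_mul] at h2
  exact mul_ne_zero hb hb' h2.symm

/-- **the ratio lemma for units**: an endomorphism of `ℚ̄((t))` which preserves `A((t))` and
is the identity modulo `𝔪_A` satisfies `Φ s ≡ s` for every unit `s` of the Gauss ring. -/
theorem h41x_ratio_unit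
    (Φ : LaurentSeries Kbar →+* LaurentSeries Kbar) (ΦA : LaurentSeries A → LaurentSeries A)
    (hemb : ∀ y, embA A (ΦA y) = Φ (embA A y))
    (hred : ∀ y, redA (IsLocalRing.residue A) (ΦA y) = redA (IsLocalRing.residue A) y)
    {s : LaurentSeries Kbar} (hs : h20v_Unit A s) :
    h20n_CongOneS A (Φ s * s⁻¹) := by
  have hs0 : s ≠ 0 := hs.1
  obtain ⟨a, b, ha, hb, hab⟩ := h41x_unit_wit A hs
  refine ⟨ΦA a * b, a * ΦA b, ?_, ?_, ?_⟩
  · show redA (IsLocalRing.residue A) (a * ΦA b) ≠ 0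
    rw [map_mul, hred]
    exact mul_ne_zero ha hb
  · show embA A (ΦA a * b) = _ * embA A (a * ΦA b)
    have hΦ : embA A (ΦA a) = Φ s * embA A (ΦA b) := by
      rw [hemb, hab, map_mul, hemb]
    rw [map_mul, map_mul, hΦ, hab]
    field_simp
  · show redA (IsLocalRing.residue A) (ΦA a * b) = redA (IsLocalRing.residue A) (a * ΦA b)
    rw [map_mul, map_mul, hred, hred]

/-- the inertia group acts trivially on the units of the Gauss ring modulo `𝔪`. -/
theorem h41x_inert_unit (σ : GQ) (hσ : σ ∈ A.inertiaSubgroupIn ℚ)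
    {s : LaurentSeries Kbar} (hs : h20v_Unit A s) :
    h20n_CongOneS A (coeffMap (σ : Kbar →+* Kbar) s * s⁻¹) := by
  have hσd := Fermat.Agent.Red.GV.mem_decomp_of_mem_inertia A hσ
  exact h41x_ratio_unit A (coeffMap (σ : Kbar →+* Kbar))
    (coeffMap (Fermat.Agent.Red.GV.decompA A σ hσd))
    (fun y => Fermat.Agent.Red.GV.Soft.soft_embA_coeffMap (σ : Kbar →+* Kbar)
      (Fermat.Agent.Red.GV.decompA A σ hσd) (Fermat.Agent.Red.GV.coe_decompA A σ hσd) y)
    (fun y => by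
      rw [Fermat.Agent.Red.GV.Soft.soft_redA_coeffMap (Fermat.Agent.Red.GV.decompA A σ hσd)
        (Fermat.Agent.Red.GV.decompK A σ hσd) (Fermat.Agent.Red.GV.residue_decompA A σ hσd) y,
        Fermat.Agent.Red.GV.decompK_of_inertia A hσ, coeffMap_id])
    hs

/-- a series congruent to `1` is not `0`. -/
theorem h41x_ne_zero_of_congOne {s : LaurentSeries Kbar} (h : h20n_CongOneS A s) : s ≠ 0 := by
  rintro rfl
  obtain ⟨m1, r1⟩ := (h64a_cong_iff A _).mp h
  have e : (⟨0, m1⟩ : softOT A (IsLocalRing.residue A)) = 0 := rfl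
  rw [e, map_zero] at r1
  exact zero_ne_one r1

/-- a series congruent to a unit is a unit. -/
theorem h41x_unit_of_cong {s s' : LaurentSeries Kbar} (hs' : h20v_Unit A s')
    (h : h20n_CongOneS A (s * s'⁻¹)) : h20v_Unit A s := by
  have hs'0 : s' ≠ 0 := hs'.1
  have hs0 : s ≠ 0 := by
    rintro rfl
    rw [zero_mul] at h
    exact h41x_ne_zero_of_congOne A h rfl
  have h1 := (h64a_cong_iff A _).mp h
  have h2 := (h64a_cong_iff A _).mp (h64a_cong_inv h)
  obtain ⟨m1, -⟩ := h1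
  obtain ⟨m2, -⟩ := h2
  refine ⟨hs0, ?_, ?_⟩
  · have e : s = s * s'⁻¹ * s' := by field_simp
    rw [e]
    exact mul_mem m1 hs'.2.1
  · have e : s⁻¹ = (s * s'⁻¹)⁻¹ * s'⁻¹ := by
      rw [mul_inv, inv_inv]
      field_simp
    rw [e]
    exact mul_mem m2 hs'.2.2

end Units

/-! ## The conjugate embeddings at `W₁₁` -/

section Level

variable (M q : ℕ) [NeZero M] [NeZero q]

/-- for `u ∈ F₀` a unit at `E11^ζ`, all the conjugates `E11^{ζ'} u` are congruent to
`E11^ζ u`. -/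
theorem h41x_conj_unit (hq : q.Prime) (hqM : ¬ q ∣ M) (A : ValuationSubring Kbar)
    (hA : A.LiesOverPrime q) (ζ ζ' : Kbar) (hζ : IsPrimitiveRoot ζ q)
    (hζ' : IsPrimitiveRoot ζ' q)
    (E E' : FF (M * q * q) →+* LaurentSeries Kbar) (hE : h20n_IsE11 M q hq hqM ζ E)
    (hE' : h20n_IsE11 M q hq hqM ζ' E')
    (u : FF (M * q * q)) (hu : u ∈ h92c_F0 A (M * q * q))
    (hunit : h20v_Unit A (E u)) :
    h20n_CongOneS A (E' u * (E u)⁻¹) := by
  obtain ⟨σ, hσ, hσζ⟩ := h49c_cyc q hq A hA ζ ζ' hζ hζ'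
  have hE'' : h20n_IsE11 M q hq hqM (σ ζ) E' := by
    rw [hσζ]
    exact hE'
  have h1 := ((h83g_embGal h20n_embUnique) q hq M hqM σ).1 ζ E E' hE hE'' u
  rw [hu σ hσ] at h1
  rw [h1]
  exact h41x_inert_unit A σ hσ hunit

/-- **(a), exact form.**  `Nm_α u ≡ E20 u · (E11 u)^(q-1)` for `u ∈ F₀` a unit at `W₁₁`. -/
theorem h41x_redA_unit (hq : q.Prime) (hqM : ¬ q ∣ M) (A : ValuationSubring Kbar)
    (hA : A.LiesOverPrime q) (ζ : Kbar) (hζ : IsPrimitiveRoot ζ q)
    (E : FF (M * q * q) →+* LaurentSeries Kbar) (hE : h20n_IsE11 M q hq hqM ζ E)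
    (u : FF (M * q * q)) (hu : u ∈ h92c_F0 A (M * q * q))
    (hunit : h20v_Unit A (E u)) :
    h20n_CongOneS A
      (((normAlong (heckeAlphaBar Kbar (M * q) q) u : FF (M * q)) : LaurentSeries Kbar) *
        ((u : LaurentSeries Kbar) * E u ^ (q - 1))⁻¹) := by
  have hu0 : u ≠ 0 := by
    rintro rfl
    exact hunit.1 (map_zero E)
  obtain ⟨hE11, -⟩ := h20n_embExists q hq M hqM
  have hprim : ∀ b : ℕ, 0 < b → b < q → IsPrimitiveRoot (ζ ^ b) q := fun b hb0 hbq =>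
    hζ.pow_of_coprime b
      ((Nat.coprime_comm.mp ((Nat.Prime.coprime_iff_not_dvd hq).mpr
        (Nat.not_dvd_of_pos_of_lt hb0 hbq))))
  have hfam : ∀ b : ℕ, ∃ E' : FF (M * q * q) →+* LaurentSeries Kbar,
      (0 < b → b < q → h20n_IsE11 M q hq hqM (ζ ^ b) E') := by
    intro b
    by_cases hb : 0 < b ∧ b < q
    · obtain ⟨E', hE'⟩ := hE11 (ζ ^ b) ((hprim b hb.1 hb.2).pow_eq_one)
        ((hprim b hb.1 hb.2).ne_one hq.one_lt)
      exact ⟨E', fun _ _ => hE'⟩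
    · exact ⟨E, fun h0 hq' => absurd ⟨h0, hq'⟩ hb⟩
  choose Efam hEfam using hfam
  have hN := h40na_normA q hq M hqM ζ hζ Efam hEfam u
  have hEu0 : E u ≠ 0 := (map_ne_zero_iff E E.injective).mpr hu0
  have hus0 : (u : LaurentSeries Kbar) ≠ 0 := fun h => hu0 (Subtype.ext h)
  have key : ∀ b ∈ Finset.Ioo 0 q, h20n_CongOneS A (Efam b u * (E u)⁻¹) := by
    intro b hb
    rw [Finset.mem_Ioo] at hb
    exact h41x_conj_unit M q hq hqM A hA ζ (ζ ^ b) hζ (hprim b hb.1 hb.2) E (Efam b) hE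
      (hEfam b hb.1 hb.2) u hu hunit
  have hprod : ((normAlong (heckeAlphaBar Kbar (M * q) q) u : FF (M * q)) :
        LaurentSeries Kbar) * ((u : LaurentSeries Kbar) * E u ^ (q - 1))⁻¹ =
      ∏ b ∈ Finset.Ioo 0 q, (Efam b u * (E u)⁻¹) := by
    rw [hN, Finset.prod_mul_distrib, Finset.prod_const, Nat.card_Ioo, Nat.sub_zero, mul_inv,
      inv_pow]
    field_simp
  rw [hprod]
  exact h49r_congOneS_prod A _ _ key

/-- **(c), exact form.**  `w (Nm_β u) ≡ E02 u · (E11 u)^(q-1)` for `u ∈ F₀` a unit at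
`W₁₁`. -/
theorem h41x_redC_unit (hq : q.Prime) (hqM : ¬ q ∣ M)
    (A : ValuationSubring Kbar) (hA : A.LiesOverPrime q) (ζ : Kbar) (hζ : IsPrimitiveRoot ζ q)
    (E0 : FF (M * q * q) →+* LaurentSeries Kbar) (hE0 : h20n_IsE02 M q hq hqM E0)
    (E : FF (M * q * q) →+* LaurentSeries Kbar) (hE : h20n_IsE11 M q hq hqM ζ E)
    (u : FF (M * q * q)) (hu : u ∈ h92c_F0 A (M * q * q))
    (hunit : h20v_Unit A (E u)) :
    h20n_CongOneS A
      (((kFricke M q hq hqM (normAlong (heckeBetaBar Kbar (M * q) q) u) : FF (M * q)) :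
          LaurentSeries Kbar) * (E0 u * E u ^ (q - 1))⁻¹) := by
  have hu0 : u ≠ 0 := by
    rintro rfl
    exact hunit.1 (map_zero E)
  obtain ⟨hE11, -⟩ := h20n_embExists q hq M hqM
  have hprim : ∀ b : ℕ, 0 < b → b < q → IsPrimitiveRoot (ζ ^ b) q := fun b hb0 hbq =>
    hζ.pow_of_coprime b
      ((Nat.coprime_comm.mp ((Nat.Prime.coprime_iff_not_dvd hq).mpr
        (Nat.not_dvd_of_pos_of_lt hb0 hbq))))
  have hfam : ∀ b : ℕ, ∃ E' : FF (M * q * q) →+* LaurentSeries Kbar,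
      (0 < b → b < q → h20n_IsE11 M q hq hqM (ζ ^ b) E') := by
    intro b
    by_cases hb : 0 < b ∧ b < q
    · obtain ⟨E', hE'⟩ := hE11 (ζ ^ b) ((hprim b hb.1 hb.2).pow_eq_one)
        ((hprim b hb.1 hb.2).ne_one hq.one_lt)
      exact ⟨E', fun _ _ => hE'⟩
    · exact ⟨E, fun h0 hq' => absurd ⟨h0, hq'⟩ hb⟩
  choose Efam hEfam using hfam
  have hN := h40nc_normC q hq M hqM ζ hζ E0 hE0 Efam hEfam u
  have hEu0 : E u ≠ 0 := (map_ne_zero_iff E E.injective).mpr hu0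
  have hE0u0 : E0 u ≠ 0 := (map_ne_zero_iff E0 E0.injective).mpr hu0
  have key : ∀ b ∈ Finset.Ioo 0 q,
      h20n_CongOneS A (twistK (ζ ^ b) (Efam (q - b) u) * (E u)⁻¹) := by
    intro b hb
    rw [Finset.mem_Ioo] at hb
    have hb1 : 0 < q - b := Nat.sub_pos_of_lt hb.2
    have hb2 : q - b < q := Nat.sub_lt hq.pos hb.1
    have hs0 : Efam (q - b) u ≠ 0 :=
      (map_ne_zero_iff (Efam (q - b)) (Efam (q - b)).injective).mpr hu0
    have hsDF : Efam (q - b) u ∈ Fermat.Agent.Red.GV.Soft.dfField (K := Kbar) :=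
      h12e_embDF q hq M hqM (Efam (q - b))
        (Or.inl ⟨ζ ^ (q - b), (hprim (q - b) hb1 hb2).pow_eq_one, hEfam (q - b) hb1 hb2⟩) u
    have h1 : h20n_CongOneS A (Efam (q - b) u * (E u)⁻¹) :=
      h41x_conj_unit M q hq hqM A hA ζ (ζ ^ (q - b)) hζ (hprim (q - b) hb1 hb2) E
        (Efam (q - b)) hE (hEfam (q - b) hb1 hb2) u hu hunit
    have h2 : h20n_CongOneS A
        (twistK (ζ ^ b) (Efam (q - b) u) * (Efam (q - b) u)⁻¹) :=
      h1g_twist q hq A hA (ζ ^ b) 1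
        (by rw [pow_one]; exact (hprim b hb.1 hb.2).pow_eq_one) _ hsDF hs0
    have e : twistK (ζ ^ b) (Efam (q - b) u) * (E u)⁻¹ =
        (twistK (ζ ^ b) (Efam (q - b) u) * (Efam (q - b) u)⁻¹) *
          (Efam (q - b) u * (E u)⁻¹) := by
      field_simp
    rw [e]
    exact h64a_cong_mul h2 h1
  have hprod : ((kFricke M q hq hqM (normAlong (heckeBetaBar Kbar (M * q) q) u) :
        FF (M * q)) : LaurentSeries Kbar) * (E0 u * E u ^ (q - 1))⁻¹ =
      ∏ b ∈ Finset.Ioo 0 q, (twistK (ζ ^ b) (Efam (q - b) u) * (E u)⁻¹) := by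
    rw [hN, Finset.prod_mul_distrib, Finset.prod_const, Nat.card_Ioo, Nat.sub_zero, mul_inv,
      inv_pow]
    field_simp
  rw [hprod]
  exact h49r_congOneS_prod A _ _ key

end Level

/-! ## Additive form of the Gauss congruence -/

section Small

variable (A : ValuationSubring Kbar)

/-- the Gauss congruence `s ≡ 0`: `s` is Gauss-integral with reduction `0`. -/
def h41x_Small (s : LaurentSeries Kbar) : Prop :=
  ∃ h : s ∈ softOT A (IsLocalRing.residue A),
    softRedT A (IsLocalRing.residue A) ⟨s, h⟩ = 0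

variable {A}

theorem h41x_small_sub_of_cong {s s' : LaurentSeries Kbar}
    (hs' : s' ∈ softOT A (IsLocalRing.residue A)) (hs'0 : s' ≠ 0)
    (h : h20n_CongOneS A (s * s'⁻¹)) : h41x_Small A (s - s') := by
  obtain ⟨m1, r1⟩ := (h64a_cong_iff A _).mp h
  have e : s - s' = (s * s'⁻¹ - 1) * s' := by field_simp
  have m2 : s * s'⁻¹ - 1 ∈ softOT A (IsLocalRing.residue A) := sub_mem m1 (one_mem _)
  have m3 : s - s' ∈ softOT A (IsLocalRing.residue A) := by
    rw [e]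
    exact mul_mem m2 hs'
  refine ⟨m3, ?_⟩
  have e2 : (⟨s - s', m3⟩ : softOT A (IsLocalRing.residue A)) =
      (⟨s * s'⁻¹, m1⟩ - 1) * ⟨s', hs'⟩ := Subtype.ext e
  rw [e2, map_mul, map_sub, r1, map_one, sub_self, zero_mul]

theorem h41x_cong_of_small_sub {s s' : LaurentSeries Kbar} (hs' : h20v_Unit A s')
    (h : h41x_Small A (s - s')) : h20n_CongOneS A (s * s'⁻¹) := by
  have hs'0 : s' ≠ 0 := hs'.1
  obtain ⟨m1, r1⟩ := h
  rw [h64a_cong_iff]
  have e : s * s'⁻¹ = 1 + (s - s') * s'⁻¹ := by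
    field_simp
    ring
  have m2 : s * s'⁻¹ ∈ softOT A (IsLocalRing.residue A) := by
    rw [e]
    exact add_mem (one_mem _) (mul_mem m1 hs'.2.2)
  refine ⟨m2, ?_⟩
  have e2 : (⟨s * s'⁻¹, m2⟩ : softOT A (IsLocalRing.residue A)) =
      1 + ⟨s - s', m1⟩ * ⟨s'⁻¹, hs'.2.2⟩ := Subtype.ext e
  rw [e2, map_add, map_mul, r1, map_one, zero_mul, add_zero]

/-- conversion between the additive and the multiplicative form of the congruence to a
unit. -/
theorem h41x_small_sub_iff {s s' : LaurentSeries Kbar} (hs' : h20v_Unit A s') :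
    h41x_Small A (s - s') ↔ h20n_CongOneS A (s * s'⁻¹) :=
  ⟨h41x_cong_of_small_sub hs', h41x_small_sub_of_cong hs'.2.1 hs'.1⟩

theorem h41x_unit_mul {s s' : LaurentSeries Kbar} (hs : h20v_Unit A s) (hs' : h20v_Unit A s') :
    h20v_Unit A (s * s') :=
  ⟨mul_ne_zero hs.1 hs'.1, mul_mem hs.2.1 hs'.2.1, by
    rw [mul_inv]; exact mul_mem hs.2.2 hs'.2.2⟩

theorem h41x_unit_pow {s : LaurentSeries Kbar} (hs : h20v_Unit A s) (n : ℕ) :
    h20v_Unit A (s ^ n) :=
  ⟨pow_ne_zero n hs.1, pow_mem hs.2.1 n, by rw [← inv_pow]; exact pow_mem hs.2.2 n⟩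

theorem h41x_unit_of_congOne {s : LaurentSeries Kbar} (h : h20n_CongOneS A s) :
    h20v_Unit A s :=
  ⟨h41x_ne_zero_of_congOne A h, ((h64a_cong_iff A _).mp h).1,
    ((h64a_cong_iff A _).mp (h64a_cong_inv h)).1⟩

end Small

/-! ## `qExpand` reflects the Gauss congruence on `FF N` -/

section Reflect

/-- `x(t^d) ≡ 1 ⟹ x ≡ 1`, for a function `x` of level `N`. -/
theorem h41x_cong_of_qExpand {ℓ : ℕ} (hℓ : ℓ.Prime) (A : ValuationSubring Kbar)
    (hA : A.LiesOverPrime ℓ) (N : ℕ) [NeZero N] (d : ℕ) [NeZero d] (x : FF N)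
    (h : h20n_CongOneS A (qExpand Kbar d (x : LaurentSeries Kbar))) :
    h20n_CongOneS A (x : LaurentSeries Kbar) := by
  have h1 : Fermat.Agent.S37.CongOne A (heckeBetaBar Kbar N d x) := by
    have e := coe_heckeBetaBar N d x
    show h20n_CongOneS A ((heckeBetaBar Kbar N d x : FF (N * d)) : LaurentSeries Kbar)
    rw [e]
    exact h
  obtain ⟨m1, r1⟩ := (congOne_iff_softR A (N * d) _).mp h1
  have m2 : x ∈ softV A N := (beta_mem_softV_iff A hℓ hA d x).mp m1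
  have h2 := softR_beta A d ⟨x, m2⟩ m1
  rw [r1] at h2
  have h3 : softR A N ⟨x, m2⟩ = 1 := by
    apply qExpand_injective (R := IsLocalRing.ResidueField A) (N := d)
    rw [← h2, map_one]
  exact (congOne_iff_softR A N x).mpr ⟨m2, h3⟩

/-- `x(t^d) ≡ y(t^d) ⟹ x ≡ y`, for functions `x`, `y` of level `N`. -/
theorem h41x_cong_of_qExpand_div {ℓ : ℕ} (hℓ : ℓ.Prime) (A : ValuationSubring Kbar)
    (hA : A.LiesOverPrime ℓ) (N : ℕ) [NeZero N] (d : ℕ) [NeZero d] (x y : FF N)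
    (h : h20n_CongOneS A (qExpand Kbar d (x : LaurentSeries Kbar) *
      (qExpand Kbar d (y : LaurentSeries Kbar))⁻¹)) :
    h20n_CongOneS A ((x : LaurentSeries Kbar) * (y : LaurentSeries Kbar)⁻¹) := by
  have h1 := h41x_cong_of_qExpand hℓ A hA N d (x * y⁻¹)
    (by
      rw [IntermediateField.coe_mul, IntermediateField.coe_inv, map_mul, map_inv₀]
      exact h)
  rwa [IntermediateField.coe_mul, IntermediateField.coe_inv] at h1

end Reflect

/-! ## TN1 -/

section TN1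

variable (M q : ℕ) [NeZero M] [NeZero q]

omit [NeZero M] [NeZero q] in
theorem h41x_E20_apply (x : FF (M * q * q)) : h20n_E20 M q x = (x : LaurentSeries Kbar) := by
  unfold h20n_E20
  exact IntermediateField.algebraMap_apply _ x

omit [NeZero M] [NeZero q] in
theorem h41x_ne_zero_of_coe_ne_zero {N : ℕ} {y : FF N} (h : (y : LaurentSeries Kbar) ≠ 0) :
    y ≠ 0 := by
  rintro rfl
  exact h rfl

omit [NeZero M] [NeZero q] in
theorem h41x_ne_zero_of_cong_map {N : ℕ} (A : ValuationSubring Kbar)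
    (E : FF N →+* LaurentSeries Kbar) {z : FF N} {s : LaurentSeries Kbar}
    (h : h20n_CongOneS A (E z * s⁻¹)) : z ≠ 0 := by
  rintro rfl
  rw [map_zero, zero_mul] at h
  exact h41x_ne_zero_of_congOne A h rfl

omit [NeZero M] [NeZero q] in
theorem h41x_unit_qExpand (A : ValuationSubring Kbar) (d : ℕ) [NeZero d]
    {s : LaurentSeries Kbar} (hs : h20v_Unit A s) : h20v_Unit A (qExpand Kbar d s) :=
  ⟨fun h0 => hs.1 (qExpand_injective (R := Kbar) (N := d) (h0.trans (map_zero _).symm)),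
    mem_softOT_qExpand A _ d hs.2.1, by
    rw [← map_inv₀]
    exact mem_softOT_qExpand A _ d hs.2.2⟩

/-- **TN1 (α, `W_∞`).**  `E20 z ≡ y₀`, `E11 z ≡ y₁` ⟹ `Nm_α z ≡ y₀ y₁^(q-1)`. -/
theorem h41x_tn1_alpha_inf (hq : q.Prime) (hqM : ¬ q ∣ M) (A : ValuationSubring Kbar)
    (hA : A.LiesOverPrime q) (ζ : Kbar) (hζ : IsPrimitiveRoot ζ q)
    (E : FF (M * q * q) →+* LaurentSeries Kbar) (hE : h20n_IsE11 M q hq hqM ζ E)
    (z : FF (M * q * q)) (hz : z ∈ h92c_F0 A (M * q * q))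
    (y₀ y₁ : FF (M * q)) (hy₁ : h20v_Unit A (y₁ : LaurentSeries Kbar))
    (h₀ : h20n_CongOneS A (h20n_E20 M q z * ((y₀ : LaurentSeries Kbar))⁻¹))
    (h₁ : h20n_CongOneS A (E z * ((y₁ : LaurentSeries Kbar))⁻¹)) :
    h20n_CongOneS A
      (((normAlong (heckeAlphaBar Kbar (M * q) q) z : FF (M * q)) : LaurentSeries Kbar) *
        (((y₀ * y₁ ^ (q - 1) : FF (M * q)) : FF (M * q)) : LaurentSeries Kbar)⁻¹) := by
  have hz0 : z ≠ 0 := h41x_ne_zero_of_cong_map A E h₁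
  have hY₁ : (y₁ : LaurentSeries Kbar) ≠ 0 := hy₁.1
  have hunit : h20v_Unit A (E z) := h41x_unit_of_cong A hy₁ h₁
  have hA1 := h41x_redA_unit M q hq hqM A hA ζ hζ E hE z hz hunit
  rw [h41x_E20_apply] at h₀
  have hZ : (z : LaurentSeries Kbar) ≠ 0 := h64a_coe_ne_zero _ hz0
  have hEz : E z ≠ 0 := (map_ne_zero_iff E E.injective).mpr hz0
  have hY₀ : (y₀ : LaurentSeries Kbar) ≠ 0 := by
    intro h0
    rw [h0, inv_zero, mul_zero] at h₀
    exact h41x_ne_zero_of_congOne A h₀ rfl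
  rw [IntermediateField.coe_mul, IntermediateField.coe_pow]
  have h3 := h64a_cong_mul hA1 (h64a_cong_mul h₀ (h64a_cong_pow h₁ (q - 1)))
  refine h64a_cong_of_eq h3 ?_
  rw [mul_pow, inv_pow]
  field_simp

/-- **TN1 (α, `W_0`).**  `(E02 z)^q ≡ E02 (α y)` ⟹ `w (Nm_α z) ≡ w y`. -/
theorem h41x_tn1_alpha_zero (hq : q.Prime) (hqM : ¬ q ∣ M) (A : ValuationSubring Kbar)
    (hA : A.LiesOverPrime q)
    (E0 : FF (M * q * q) →+* LaurentSeries Kbar) (hE0 : h20n_IsE02 M q hq hqM E0)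
    (z : FF (M * q * q)) (y : FF (M * q))
    (h : h20n_CongOneS A (E0 z ^ q * (E0 (heckeAlphaBar Kbar (M * q) q y))⁻¹)) :
    h20n_CongOneS A
      (((kFricke M q hq hqM (normAlong (heckeAlphaBar Kbar (M * q) q) z) : FF (M * q)) :
          LaurentSeries Kbar) *
        ((kFricke M q hq hqM y : FF (M * q)) : LaurentSeries Kbar)⁻¹) := by
  have hz0 : z ≠ 0 := by
    rintro rfl
    rw [map_zero, zero_pow hq.ne_zero, zero_mul] at h
    exact h41x_ne_zero_of_congOne A h rfl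
  have hD := (h16n_redDAssembly h93n_normD h12e_embDF h1g_twist) q hq M hqM A hA E0 hE0 z hz0
  have h3 := h64a_cong_mul hD h
  have hE0z : E0 z ^ q ≠ 0 := pow_ne_zero q ((map_ne_zero_iff E0 E0.injective).mpr hz0)
  rw [hE0.1, hE0.1] at h3
  refine h41x_cong_of_qExpand_div hq A hA (M * q) q _ _ (h64a_cong_of_eq h3 ?_)
  field_simp

/-- **TN1 (β, `W_∞`).**  `(E20 z)^q ≡ E20 (β y)` ⟹ `Nm_β z ≡ y`. -/
theorem h41x_tn1_beta_inf (hq : q.Prime) (A : ValuationSubring Kbar)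
    (hA : A.LiesOverPrime q) (z : FF (M * q * q)) (y : FF (M * q))
    (h : h20n_CongOneS A
      (h20n_E20 M q z ^ q * (h20n_E20 M q (heckeBetaBar Kbar (M * q) q y))⁻¹)) :
    h20n_CongOneS A
      (((normAlong (heckeBetaBar Kbar (M * q) q) z : FF (M * q)) : LaurentSeries Kbar) *
        ((y : FF (M * q)) : LaurentSeries Kbar)⁻¹) := by
  have hz0 : z ≠ 0 := by
    rintro rfl
    rw [map_zero, zero_pow hq.ne_zero, zero_mul] at h
    exact h41x_ne_zero_of_congOne A h rfl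
  have hB := h71m_redB q hq (M * q) (dvd_mul_left q M) A hA z hz0
  rw [h41x_E20_apply, h41x_E20_apply, coe_heckeBetaBar] at h
  have h3 := h64a_cong_mul hB h
  have hZ : (z : LaurentSeries Kbar) ^ q ≠ 0 := pow_ne_zero q (h64a_coe_ne_zero _ hz0)
  refine h41x_cong_of_qExpand_div hq A hA (M * q) q _ _ (h64a_cong_of_eq h3 ?_)
  field_simp

/-- **TN1 (β, `W_0`).**  `E11 z ≡ E11 (β y₁)`, `E02 z ≡ E02 (β y₂)` ⟹
`w (Nm_β z) ≡ w (y₁^(q-1) y₂)`. -/
theorem h41x_tn1_beta_zero (hq : q.Prime) (hqM : ¬ q ∣ M)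
    (A : ValuationSubring Kbar) (hA : A.LiesOverPrime q) (ζ : Kbar) (hζ : IsPrimitiveRoot ζ q)
    (E0 : FF (M * q * q) →+* LaurentSeries Kbar) (hE0 : h20n_IsE02 M q hq hqM E0)
    (E : FF (M * q * q) →+* LaurentSeries Kbar) (hE : h20n_IsE11 M q hq hqM ζ E)
    (z : FF (M * q * q)) (hz : z ∈ h92c_F0 A (M * q * q))
    (y₁ y₂ : FF (M * q))
    (hy₁ : h20v_Unit A ((kFricke M q hq hqM y₁ : FF (M * q)) : LaurentSeries Kbar))
    (h₁ : h20n_CongOneS A (E z * (E (heckeBetaBar Kbar (M * q) q y₁))⁻¹))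
    (h₂ : h20n_CongOneS A (E0 z * (E0 (heckeBetaBar Kbar (M * q) q y₂))⁻¹)) :
    h20n_CongOneS A
      (((kFricke M q hq hqM (normAlong (heckeBetaBar Kbar (M * q) q) z) : FF (M * q)) :
          LaurentSeries Kbar) *
        ((kFricke M q hq hqM (y₁ ^ (q - 1) * y₂) : FF (M * q)) : LaurentSeries Kbar)⁻¹) := by
  have hz0 : z ≠ 0 := h41x_ne_zero_of_cong_map A E h₁
  set s₁ : LaurentSeries Kbar := ((kFricke M q hq hqM y₁ : FF (M * q)) : LaurentSeries Kbar)
    with hs₁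
  set s₂ : LaurentSeries Kbar := ((kFricke M q hq hqM y₂ : FF (M * q)) : LaurentSeries Kbar)
    with hs₂
  have hs₁0 : s₁ ≠ 0 := hy₁.1
  rw [hE.2 y₁, ← hs₁] at h₁
  rw [hE0.2 y₂, ← hs₂] at h₂
  -- the twist is congruent to the identity
  have htw : h20n_CongOneS A (twistK ζ s₁ * s₁⁻¹) :=
    h1g_twist q hq A hA ζ 1 (by rw [pow_one]; exact hζ.pow_eq_one) s₁
      (FF_le_dfField (M * q) _) hs₁0
  have htw0 : twistK ζ s₁ ≠ 0 := by
    intro h0
    rw [h0, zero_mul] at htw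
    exact h41x_ne_zero_of_congOne A htw rfl
  have h₁' : h20n_CongOneS A (E z * s₁⁻¹) := by
    refine h64a_cong_of_eq (h64a_cong_mul h₁ htw) ?_
    field_simp
  have hunit : h20v_Unit A (E z) := h41x_unit_of_cong A hy₁ h₁'
  have hC := h41x_redC_unit M q hq hqM A hA ζ hζ E0 hE0 E hE z hz hunit
  have hEz : E z ≠ 0 := (map_ne_zero_iff E E.injective).mpr hz0
  have hE0z : E0 z ≠ 0 := (map_ne_zero_iff E0 E0.injective).mpr hz0
  have hs₂0 : s₂ ≠ 0 := by
    intro h0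
    rw [h0, inv_zero, mul_zero] at h₂
    exact h41x_ne_zero_of_congOne A h₂ rfl
  have hcoe : ((kFricke M q hq hqM (y₁ ^ (q - 1) * y₂) : FF (M * q)) : LaurentSeries Kbar) =
      s₁ ^ (q - 1) * s₂ := by
    rw [map_mul, map_pow, IntermediateField.coe_mul, IntermediateField.coe_pow]
  rw [hcoe]
  have h3 := h64a_cong_mul hC (h64a_cong_mul h₂ (h64a_cong_pow h₁' (q - 1)))
  refine h64a_cong_of_eq h3 ?_
  rw [mul_pow, inv_pow]
  field_simp

/-! ### Additive forms (the shape `TN1` of `S36/H11TorNorm.lean`) -/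

/-- **TN1 (α, `W_∞`), additive form.** -/
theorem h41x_tn1_alpha_inf_add (hq : q.Prime) (hqM : ¬ q ∣ M) (A : ValuationSubring Kbar)
    (hA : A.LiesOverPrime q) (ζ : Kbar) (hζ : IsPrimitiveRoot ζ q)
    (E : FF (M * q * q) →+* LaurentSeries Kbar) (hE : h20n_IsE11 M q hq hqM ζ E)
    (z : FF (M * q * q)) (hz : z ∈ h92c_F0 A (M * q * q))
    (y₀ y₁ : FF (M * q)) (hy₀ : h20v_Unit A (y₀ : LaurentSeries Kbar))
    (hy₁ : h20v_Unit A (y₁ : LaurentSeries Kbar))
    (h₀ : h41x_Small A (h20n_E20 M q z - (y₀ : LaurentSeries Kbar)))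
    (h₁ : h41x_Small A (E z - (y₁ : LaurentSeries Kbar))) :
    h41x_Small A
      (((normAlong (heckeAlphaBar Kbar (M * q) q) z : FF (M * q)) : LaurentSeries Kbar) -
        (((y₀ * y₁ ^ (q - 1) : FF (M * q)) : FF (M * q)) : LaurentSeries Kbar)) := by
  have h₀' := h41x_cong_of_small_sub hy₀ h₀
  have h₁' := h41x_cong_of_small_sub hy₁ h₁
  have hc := h41x_tn1_alpha_inf M q hq hqM A hA ζ hζ E hE z hz y₀ y₁ hy₁ h₀' h₁'
  have hprod : h20v_Unit A
      ((((y₀ * y₁ ^ (q - 1) : FF (M * q)) : FF (M * q)) : LaurentSeries Kbar)) := by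
    rw [IntermediateField.coe_mul, IntermediateField.coe_pow]
    exact h41x_unit_mul hy₀ (h41x_unit_pow hy₁ _)
  exact h41x_small_sub_of_cong hprod.2.1 hprod.1 hc

/-- **TN1 (α, `W_0`), additive form.** -/
theorem h41x_tn1_alpha_zero_add (hq : q.Prime) (hqM : ¬ q ∣ M) (A : ValuationSubring Kbar)
    (hA : A.LiesOverPrime q)
    (E0 : FF (M * q * q) →+* LaurentSeries Kbar) (hE0 : h20n_IsE02 M q hq hqM E0)
    (z : FF (M * q * q)) (y : FF (M * q))
    (hy : h20v_Unit A ((kFricke M q hq hqM y : FF (M * q)) : LaurentSeries Kbar))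
    (h : h41x_Small A (E0 z ^ q - E0 (heckeAlphaBar Kbar (M * q) q y))) :
    h41x_Small A
      (((kFricke M q hq hqM (normAlong (heckeAlphaBar Kbar (M * q) q) z) : FF (M * q)) :
          LaurentSeries Kbar) -
        ((kFricke M q hq hqM y : FF (M * q)) : LaurentSeries Kbar)) := by
  have hu : h20v_Unit A (E0 (heckeAlphaBar Kbar (M * q) q y)) := by
    rw [hE0.1]
    exact h41x_unit_qExpand A q hy
  have h' := h41x_cong_of_small_sub hu h
  have hc := h41x_tn1_alpha_zero M q hq hqM A hA E0 hE0 z y h'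
  exact h41x_small_sub_of_cong hy.2.1 hy.1 hc

/-- **TN1 (β, `W_∞`), additive form.** -/
theorem h41x_tn1_beta_inf_add (hq : q.Prime) (A : ValuationSubring Kbar)
    (hA : A.LiesOverPrime q) (z : FF (M * q * q)) (y : FF (M * q))
    (hy : h20v_Unit A (y : LaurentSeries Kbar))
    (h : h41x_Small A
      (h20n_E20 M q z ^ q - h20n_E20 M q (heckeBetaBar Kbar (M * q) q y))) :
    h41x_Small A
      (((normAlong (heckeBetaBar Kbar (M * q) q) z : FF (M * q)) : LaurentSeries Kbar) -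
        ((y : FF (M * q)) : LaurentSeries Kbar)) := by
  have hu : h20v_Unit A (h20n_E20 M q (heckeBetaBar Kbar (M * q) q y)) := by
    rw [h41x_E20_apply, coe_heckeBetaBar]
    exact h41x_unit_qExpand A q hy
  have h' := h41x_cong_of_small_sub hu h
  have hc := h41x_tn1_beta_inf M q hq A hA z y h'
  exact h41x_small_sub_of_cong hy.2.1 hy.1 hc

/-- **TN1 (β, `W_0`), additive form.** -/
theorem h41x_tn1_beta_zero_add (hq : q.Prime) (hqM : ¬ q ∣ M)
    (A : ValuationSubring Kbar) (hA : A.LiesOverPrime q) (ζ : Kbar) (hζ : IsPrimitiveRoot ζ q)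
    (E0 : FF (M * q * q) →+* LaurentSeries Kbar) (hE0 : h20n_IsE02 M q hq hqM E0)
    (E : FF (M * q * q) →+* LaurentSeries Kbar) (hE : h20n_IsE11 M q hq hqM ζ E)
    (z : FF (M * q * q)) (hz : z ∈ h92c_F0 A (M * q * q))
    (y₁ y₂ : FF (M * q))
    (hy₁ : h20v_Unit A ((kFricke M q hq hqM y₁ : FF (M * q)) : LaurentSeries Kbar))
    (hy₂ : h20v_Unit A ((kFricke M q hq hqM y₂ : FF (M * q)) : LaurentSeries Kbar))
    (h₁ : h41x_Small A (E z - E (heckeBetaBar Kbar (M * q) q y₁)))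
    (h₂ : h41x_Small A (E0 z - E0 (heckeBetaBar Kbar (M * q) q y₂))) :
    h41x_Small A
      (((kFricke M q hq hqM (normAlong (heckeBetaBar Kbar (M * q) q) z) : FF (M * q)) :
          LaurentSeries Kbar) -
        ((kFricke M q hq hqM (y₁ ^ (q - 1) * y₂) : FF (M * q)) : LaurentSeries Kbar)) := by
  -- `E (β y₁) = (w y₁)(ζ t)` is a unit
  have htw : h20n_CongOneS A
      (twistK ζ ((kFricke M q hq hqM y₁ : FF (M * q)) : LaurentSeries Kbar) *
        ((kFricke M q hq hqM y₁ : FF (M * q)) : LaurentSeries Kbar)⁻¹) :=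
    h1g_twist q hq A hA ζ 1 (by rw [pow_one]; exact hζ.pow_eq_one) _
      (FF_le_dfField (M * q) _) hy₁.1
  have hu₁ : h20v_Unit A (E (heckeBetaBar Kbar (M * q) q y₁)) := by
    rw [hE.2]
    exact h41x_unit_of_cong A hy₁ htw
  have hu₂ : h20v_Unit A (E0 (heckeBetaBar Kbar (M * q) q y₂)) := by
    rw [hE0.2]
    exact hy₂
  have h₁' := h41x_cong_of_small_sub hu₁ h₁
  have h₂' := h41x_cong_of_small_sub hu₂ h₂
  have hc := h41x_tn1_beta_zero M q hq hqM A hA ζ hζ E0 hE0 E hE z hz y₁ y₂ hy₁ h₁' h₂'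
  have hprod : h20v_Unit A
      ((kFricke M q hq hqM (y₁ ^ (q - 1) * y₂) : FF (M * q)) : LaurentSeries Kbar) := by
    rw [map_mul, map_pow, IntermediateField.coe_mul, IntermediateField.coe_pow]
    exact h41x_unit_mul (h41x_unit_pow hy₁ _) hy₂
  exact h41x_small_sub_of_cong hprod.2.1 hprod.1 hc

end TN1

end Fermat.Agent.S36
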