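import Fermat.Agent.S36.H11TorSkel
import Fermat.Agent.S36.H41RedX
import Fermat.Agent.S36.H67Inst
import Fermat.Agent.LGC.H71Frob

/-!
# S36, block (T): TN1 in the vocabulary of `H11TorSkel`, and the TN2 congruences (helper41)

Prefix `h41y_`.  Vocabulary of `S36/H11LocSkel.lean`, `S36/H11TorSkel.lean`:
`h11l_Small A E x` (`E x` Gauss-integral with reduction `0`), `h11t_Einf = coe`,
`h11t_Ezero = coe ∘ w` (level `M q`), `E20`, `E11^ζ`, `E02` (level `M q q`).

## Small calculus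

`h41y_small_iff`, `h41y_small_zero/_add/_neg/_sub/_mul_left/_mul_right`,
`h41y_small_sub_iff_cong` (for a unit `y`: `Small (x - y) ↔ E x / E y ≡ 1`).

## The three embeddings on `e0 v = v(t)`, `e1 v = v(t^q)`, `e2 v = v(t^(q^2))`  (`v ∈ FF M`)

`s = coe v`:  `E20 ↦ (s, s(t^q), s(t^(q^2)))`, `E11^ζ ↦ (s, s(t^q), s(ζ t))`,
`E02 ↦ (s(t^(q^2)), s(t^q), s)`  (`h41y_E20_e0`, ..., `h41y_E02_e2`).

## TN2: the Frobenius congruences (`v` rational, Gauss-integral; `X, Y, Z = e0 v, e1 v, e2 v`)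

* along `α` (generator `Z`): `Z ≡ Y^q` at `E20`, `Z ≡ X` at `E11`, `Z^q ≡ Y` at `E02`;
* along `β` (generator `X`): `X^q ≡ Y` at `E20`, `X ≡ Z` at `E11`, `X ≡ Y^q` at `E02`;
* also `Y ≡ X^q`, `Y ≡ Z^q` at `E11`.

## TN1 in the vocabulary of `H11TorSkel`

`h41y_tn1_alpha_inf`, `h41y_tn1_alpha_zero`, `h41y_tn1_beta_inf`, `h41y_tn1_beta_zero`:
the hypotheses `TN1` of `h11t_bnorm_sep`, `h11t_bnorm_insep` with
`M_i = {x | h11l_Small A E_i x}`.
-/

set_option autoImplicit false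
set_option linter.style.haveILetI false
set_option linter.unusedSectionVars false

open AlgebraicCurve ModularCurve

noncomputable section

namespace Fermat.Agent.S36

open Fermat.Agent.S37 (Kbar GQ FF cst gal IsRat)
open Fermat.Agent.Red.KR (normAlong)
open Fermat.Agent.Red.Kron (kFricke twistK kFricke_alpha kFricke_beta)
open Fermat.Agent.Red.GV (embA redA embA_injective)
open Fermat.Agent.Red.GV.Soft

/-! ## Small calculus (series) -/

section SmallSeries

variable {A : ValuationSubring Kbar}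

theorem h41y_smallS_mem {s : LaurentSeries Kbar} (h : h41x_Small A s) :
    s ∈ softOT A (IsLocalRing.residue A) := h.1

theorem h41y_smallS_zero : h41x_Small A 0 :=
  ⟨zero_mem _, map_zero (softRedT A (IsLocalRing.residue A))⟩

theorem h41y_smallS_add {s t : LaurentSeries Kbar} (hs : h41x_Small A s)
    (ht : h41x_Small A t) : h41x_Small A (s + t) := by
  obtain ⟨m1, r1⟩ := hs
  obtain ⟨m2, r2⟩ := ht
  refine ⟨add_mem m1 m2, ?_⟩
  have e : (⟨s + t, add_mem m1 m2⟩ : softOT A (IsLocalRing.residue A)) = ⟨s, m1⟩ + ⟨t, m2⟩ :=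
    rfl
  rw [e, map_add, r1, r2, add_zero]

theorem h41y_smallS_neg {s : LaurentSeries Kbar} (hs : h41x_Small A s) :
    h41x_Small A (-s) := by
  obtain ⟨m1, r1⟩ := hs
  refine ⟨neg_mem m1, ?_⟩
  have e : (⟨-s, neg_mem m1⟩ : softOT A (IsLocalRing.residue A)) = -⟨s, m1⟩ := rfl
  rw [e, map_neg, r1, neg_zero]

theorem h41y_smallS_sub {s t : LaurentSeries Kbar} (hs : h41x_Small A s)
    (ht : h41x_Small A t) : h41x_Small A (s - t) := by
  rw [sub_eq_add_neg]
  exact h41y_smallS_add hs (h41y_smallS_neg ht)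

theorem h41y_smallS_mul_left {s t : LaurentSeries Kbar}
    (hs : s ∈ softOT A (IsLocalRing.residue A)) (ht : h41x_Small A t) :
    h41x_Small A (s * t) := by
  obtain ⟨m2, r2⟩ := ht
  refine ⟨mul_mem hs m2, ?_⟩
  have e : (⟨s * t, mul_mem hs m2⟩ : softOT A (IsLocalRing.residue A)) = ⟨s, hs⟩ * ⟨t, m2⟩ :=
    rfl
  rw [e, map_mul, r2, mul_zero]

theorem h41y_smallS_mul_right {s t : LaurentSeries Kbar} (hs : h41x_Small A s)
    (ht : t ∈ softOT A (IsLocalRing.residue A)) : h41x_Small A (s * t) := by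
  rw [mul_comm]
  exact h41y_smallS_mul_left ht hs

theorem h41y_smallS_of_eq {s t : LaurentSeries Kbar} (hs : h41x_Small A s) (h : s = t) :
    h41x_Small A t := h ▸ hs

/-- `s ≡ 1` multiplicatively iff `s - 1` is small. -/
theorem h41y_cong_iff_smallS (s : LaurentSeries Kbar) :
    h20n_CongOneS A s ↔ h41x_Small A (s - 1) := by
  rw [h64a_cong_iff]
  constructor
  · rintro ⟨m1, r1⟩
    refine ⟨sub_mem m1 (one_mem _), ?_⟩
    have e : (⟨s - 1, sub_mem m1 (one_mem _)⟩ : softOT A (IsLocalRing.residue A)) =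
        ⟨s, m1⟩ - 1 := rfl
    rw [e, map_sub, r1, map_one, sub_self]
  · rintro ⟨m1, r1⟩
    have m2 : s ∈ softOT A (IsLocalRing.residue A) := by
      have e : s = (s - 1) + 1 := by ring
      rw [e]
      exact add_mem m1 (one_mem _)
    refine ⟨m2, ?_⟩
    have e : (⟨s, m2⟩ : softOT A (IsLocalRing.residue A)) = ⟨s - 1, m1⟩ + 1 :=
      Subtype.ext (by show s = s - 1 + 1; ring)
    rw [e, map_add, r1, map_one, zero_add]

/-- the twist by a `q`-power root of unity is the identity modulo the maximal ideal, additive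
form. -/
theorem h41y_smallS_twist (q : ℕ) (hq : q.Prime) (hA : A.LiesOverPrime q) (ω : Kbar) (k : ℕ)
    (hω : ω ^ (q ^ k) = 1) {s : LaurentSeries Kbar}
    (hs : s ∈ softOT A (IsLocalRing.residue A)) (hsDF : s ∈ dfField (K := Kbar)) :
    h41x_Small A (twistK ω s - s) := by
  by_cases hs0 : s = 0
  · subst hs0
    have e : twistK ω (0 : LaurentSeries Kbar) - 0 = 0 := by
      have hω0 : ω ≠ 0 := by
        rintro rfl
        rw [zero_pow (pow_pos hq.pos k).ne'] at hω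
        exact zero_ne_one hω
      rw [sub_zero, ← Fermat.Agent.Red.Kron.twistHom_apply ω hω0, map_zero]
    rw [e]
    exact h41y_smallS_zero
  · have h1 := h1g_twist q hq A hA ω k hω s hsDF hs0
    rw [h41y_cong_iff_smallS] at h1
    have h2 := h41y_smallS_mul_right h1 hs
    refine h41y_smallS_of_eq h2 ?_
    field_simp

/-- the reduction of `s` is fixed by the Frobenius of the coefficients:
`s̄(t^q) = s̄(t)^q`. -/
def h41y_FrobFix (A : ValuationSubring Kbar) (q : ℕ) [NeZero q] (s : LaurentSeries Kbar) :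
    Prop :=
  ∃ h : s ∈ softOT A (IsLocalRing.residue A),
    qExpand (IsLocalRing.ResidueField A) q (softRedT A (IsLocalRing.residue A) ⟨s, h⟩) =
      softRedT A (IsLocalRing.residue A) ⟨s, h⟩ ^ q

/-- **Frobenius congruence**: `s(t^q) ≡ s(t)^q`. -/
theorem h41y_smallS_frob (q : ℕ) [NeZero q] {s : LaurentSeries Kbar}
    (hs : h41y_FrobFix A q s) : h41x_Small A (qExpand Kbar q s - s ^ q) := by
  obtain ⟨m1, r1⟩ := hs
  have m2 : qExpand Kbar q s ∈ softOT A (IsLocalRing.residue A) := mem_softOT_qExpand A _ q m1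
  have m3 : s ^ q ∈ softOT A (IsLocalRing.residue A) := pow_mem m1 q
  refine ⟨sub_mem m2 m3, ?_⟩
  have e : (⟨qExpand Kbar q s - s ^ q, sub_mem m2 m3⟩ : softOT A (IsLocalRing.residue A)) =
      ⟨qExpand Kbar q s, m2⟩ - ⟨s, m1⟩ ^ q := rfl
  rw [e, map_sub, map_pow, softRedT_qExpand A (IsLocalRing.residue A) q ⟨s, m1⟩ m2, r1,
    sub_self]

theorem h41y_frobFix_qExpand (q : ℕ) [NeZero q] {s : LaurentSeries Kbar}
    (hs : h41y_FrobFix A q s) : h41y_FrobFix A q (qExpand Kbar q s) := by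
  obtain ⟨m1, r1⟩ := hs
  have m2 : qExpand Kbar q s ∈ softOT A (IsLocalRing.residue A) := mem_softOT_qExpand A _ q m1
  refine ⟨m2, ?_⟩
  rw [softRedT_qExpand A (IsLocalRing.residue A) q ⟨s, m1⟩ m2, r1, map_pow, r1]

end SmallSeries

/-! ## Rational Gauss-integral functions are Frobenius-fixed -/

section Rat

/-- the `q`-expansion of a rational Gauss-integral function is Frobenius-fixed modulo `𝔪`. -/
theorem h41y_frobFix_of_isRat (A : ValuationSubring Kbar) (q : ℕ) [NeZero q] (hq : q.Prime)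
    (hA : A.LiesOverPrime q) (N : ℕ) (v : FF N) (hrat : IsRat v) (hv : v ∈ softV A N) :
    h41y_FrobFix A q (v : LaurentSeries Kbar) := by
  haveI : Fact q.Prime := ⟨hq⟩
  have hπ := Fermat.Agent.Red.GV.isResidueMap_residue A q hA
  haveI : CharP (IsLocalRing.ResidueField A) q :=
    Fermat.Agent.Red.GV.Base.h80_charP A (IsLocalRing.residue A) q hπ
  set κ := Fermat.Agent.LGC.h71s_kappa A (IsLocalRing.residue A) q hπ with hκ
  obtain ⟨r, hr, -⟩ := softR_of_isRat A N hq hA κ v hrat hv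
  refine ⟨hv, ?_⟩
  have e : softRedT A (IsLocalRing.residue A)
      ⟨(v : LaurentSeries Kbar), hv⟩ = softR A N ⟨v, hv⟩ := rfl
  rw [e, hr, Fermat.Agent.LGC.h71r_qExpand_eq_pow q κ r]

end Rat

/-! ## Small calculus (functions) -/

section SmallFun

variable {A : ValuationSubring Kbar} {N : ℕ}

theorem h41y_small_iff (E : FF N →+* LaurentSeries Kbar) (x : FF N) :
    h11l_Small A E x ↔ h41x_Small A (E x) := Iff.rfl

theorem h41y_small_zero (E : FF N →+* LaurentSeries Kbar) : h11l_Small A E 0 := by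
  rw [h41y_small_iff, map_zero]
  exact h41y_smallS_zero

theorem h41y_small_add {E : FF N →+* LaurentSeries Kbar} {x y : FF N}
    (hx : h11l_Small A E x) (hy : h11l_Small A E y) : h11l_Small A E (x + y) := by
  rw [h41y_small_iff, map_add]
  exact h41y_smallS_add hx hy

theorem h41y_small_neg {E : FF N →+* LaurentSeries Kbar} {x : FF N}
    (hx : h11l_Small A E x) : h11l_Small A E (-x) := by
  rw [h41y_small_iff, map_neg]
  exact h41y_smallS_neg hx

theorem h41y_small_sub {E : FF N →+* LaurentSeries Kbar} {x y : FF N}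
    (hx : h11l_Small A E x) (hy : h11l_Small A E y) : h11l_Small A E (x - y) := by
  rw [h41y_small_iff, map_sub]
  exact h41y_smallS_sub hx hy

theorem h41y_small_mul_left {E : FF N →+* LaurentSeries Kbar} {b x : FF N}
    (hb : E b ∈ softOT A (IsLocalRing.residue A)) (hx : h11l_Small A E x) :
    h11l_Small A E (b * x) := by
  rw [h41y_small_iff, map_mul]
  exact h41y_smallS_mul_left hb hx

theorem h41y_small_mul_right {E : FF N →+* LaurentSeries Kbar} {b x : FF N}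
    (hx : h11l_Small A E x) (hb : E b ∈ softOT A (IsLocalRing.residue A)) :
    h11l_Small A E (x * b) := by
  rw [h41y_small_iff, map_mul]
  exact h41y_smallS_mul_right hx hb

/-- for a unit `E y`: `x ≡ y` additively iff multiplicatively. -/
theorem h41y_small_sub_iff_cong {E : FF N →+* LaurentSeries Kbar} {x y : FF N}
    (hy : h20v_Unit A (E y)) :
    h11l_Small A E (x - y) ↔ h20n_CongOneS A (E x * (E y)⁻¹) := by
  rw [h41y_small_iff, map_sub]
  exact h41x_small_sub_iff hy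

end SmallFun

/-! ## The three embeddings on `e0 v`, `e1 v`, `e2 v` -/

section Emb

variable (M q : ℕ) [NeZero M] [NeZero q]

theorem h41y_e0_apply (v : FF M) :
    h67i_e0 M q v = heckeAlphaBar Kbar (M * q) q (heckeAlphaBar Kbar M q v) := rfl

theorem h41y_e1_apply (v : FF M) :
    h67i_e1 M q v = heckeAlphaBar Kbar (M * q) q (heckeBetaBar Kbar M q v) := rfl

theorem h41y_e2_apply (v : FF M) :
    h67i_e2 M q v = heckeBetaBar Kbar (M * q) q (heckeBetaBar Kbar M q v) := rfl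

theorem h41y_E20_e0 (v : FF M) :
    h20n_E20 M q (h67i_e0 M q v) = (v : LaurentSeries Kbar) := by
  rw [h41x_E20_apply, h41y_e0_apply, coe_heckeAlphaBar, coe_heckeAlphaBar]

theorem h41y_E20_e1 (v : FF M) :
    h20n_E20 M q (h67i_e1 M q v) = qExpand Kbar q (v : LaurentSeries Kbar) := by
  rw [h41x_E20_apply, h41y_e1_apply, coe_heckeAlphaBar, coe_heckeBetaBar]

theorem h41y_E20_e2 (v : FF M) :
    h20n_E20 M q (h67i_e2 M q v) =
      qExpand Kbar q (qExpand Kbar q (v : LaurentSeries Kbar)) := by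
  rw [h41x_E20_apply, h41y_e2_apply, coe_heckeBetaBar, coe_heckeBetaBar]

variable {M q}

theorem h41y_E11_e0 (hq : q.Prime) (hqM : ¬ q ∣ M) (ζ : Kbar)
    (E : FF (M * q * q) →+* LaurentSeries Kbar) (hE : h20n_IsE11 M q hq hqM ζ E) (v : FF M) :
    E (h67i_e0 M q v) = (v : LaurentSeries Kbar) := by
  rw [h41y_e0_apply, hE.1, coe_heckeAlphaBar]

theorem h41y_E11_e1 (hq : q.Prime) (hqM : ¬ q ∣ M) (ζ : Kbar)
    (E : FF (M * q * q) →+* LaurentSeries Kbar) (hE : h20n_IsE11 M q hq hqM ζ E) (v : FF M) :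
    E (h67i_e1 M q v) = qExpand Kbar q (v : LaurentSeries Kbar) := by
  rw [h41y_e1_apply, hE.1, coe_heckeBetaBar]

theorem h41y_E11_e2 (hq : q.Prime) (hqM : ¬ q ∣ M) (ζ : Kbar)
    (E : FF (M * q * q) →+* LaurentSeries Kbar) (hE : h20n_IsE11 M q hq hqM ζ E) (v : FF M) :
    E (h67i_e2 M q v) = twistK ζ (v : LaurentSeries Kbar) := by
  rw [h41y_e2_apply, hE.2, kFricke_beta, coe_heckeAlphaBar]

theorem h41y_E02_e0 (hq : q.Prime) (hqM : ¬ q ∣ M)
    (E0 : FF (M * q * q) →+* LaurentSeries Kbar) (hE0 : h20n_IsE02 M q hq hqM E0) (v : FF M) :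
    E0 (h67i_e0 M q v) = qExpand Kbar q (qExpand Kbar q (v : LaurentSeries Kbar)) := by
  rw [h41y_e0_apply, hE0.1, kFricke_alpha, coe_heckeBetaBar]

theorem h41y_E02_e1 (hq : q.Prime) (hqM : ¬ q ∣ M)
    (E0 : FF (M * q * q) →+* LaurentSeries Kbar) (hE0 : h20n_IsE02 M q hq hqM E0) (v : FF M) :
    E0 (h67i_e1 M q v) = qExpand Kbar q (v : LaurentSeries Kbar) := by
  rw [h41y_e1_apply, hE0.1, kFricke_beta, coe_heckeAlphaBar]

theorem h41y_E02_e2 (hq : q.Prime) (hqM : ¬ q ∣ M)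
    (E0 : FF (M * q * q) →+* LaurentSeries Kbar) (hE0 : h20n_IsE02 M q hq hqM E0) (v : FF M) :
    E0 (h67i_e2 M q v) = (v : LaurentSeries Kbar) := by
  rw [h41y_e2_apply, hE0.2, kFricke_beta, coe_heckeAlphaBar]

end Emb

/-! ## TN2: the Frobenius congruences -/

section TN2

variable {M q : ℕ} [NeZero M] [NeZero q]

/-- `Z ≡ Y^q` at `E20`. -/
theorem h41y_tn2_E20_ZY (A : ValuationSubring Kbar) (hq : q.Prime) (hA : A.LiesOverPrime q)
    (v : FF M) (hrat : IsRat v) (hv : v ∈ softV A M) :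
    h11l_Small A (h20n_E20 M q) (h67i_e2 M q v - h67i_e1 M q v ^ q) := by
  rw [h41y_small_iff, map_sub, map_pow, h41y_E20_e2, h41y_E20_e1]
  exact h41y_smallS_frob q (h41y_frobFix_qExpand q (h41y_frobFix_of_isRat A q hq hA M v hrat hv))

/-- `X^q ≡ Y` at `E20`. -/
theorem h41y_tn2_E20_XY (A : ValuationSubring Kbar) (hq : q.Prime) (hA : A.LiesOverPrime q)
    (v : FF M) (hrat : IsRat v) (hv : v ∈ softV A M) :
    h11l_Small A (h20n_E20 M q) (h67i_e0 M q v ^ q - h67i_e1 M q v) := by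
  rw [h41y_small_iff, map_sub, map_pow, h41y_E20_e0, h41y_E20_e1]
  have h := h41y_smallS_neg (h41y_smallS_frob q (h41y_frobFix_of_isRat A q hq hA M v hrat hv))
  exact h41y_smallS_of_eq h (by ring)

/-- `Z ≡ X` at `E11`. -/
theorem h41y_tn2_E11_ZX (A : ValuationSubring Kbar) (hq : q.Prime) (hqM : ¬ q ∣ M)
    (hA : A.LiesOverPrime q) (ζ : Kbar) (hζ : ζ ^ q = 1)
    (E : FF (M * q * q) →+* LaurentSeries Kbar) (hE : h20n_IsE11 M q hq hqM ζ E)
    (v : FF M) (hv : v ∈ softV A M) :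
    h11l_Small A E (h67i_e2 M q v - h67i_e0 M q v) := by
  rw [h41y_small_iff, map_sub, h41y_E11_e2 hq hqM ζ E hE, h41y_E11_e0 hq hqM ζ E hE]
  exact h41y_smallS_twist q hq hA ζ 1 (by rw [pow_one]; exact hζ) hv (FF_le_dfField M v)

/-- `X ≡ Z` at `E11`. -/
theorem h41y_tn2_E11_XZ (A : ValuationSubring Kbar) (hq : q.Prime) (hqM : ¬ q ∣ M)
    (hA : A.LiesOverPrime q) (ζ : Kbar) (hζ : ζ ^ q = 1)
    (E : FF (M * q * q) →+* LaurentSeries Kbar) (hE : h20n_IsE11 M q hq hqM ζ E)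
    (v : FF M) (hv : v ∈ softV A M) :
    h11l_Small A E (h67i_e0 M q v - h67i_e2 M q v) := by
  have h := h41y_small_neg (h41y_tn2_E11_ZX A hq hqM hA ζ hζ E hE v hv)
  rwa [neg_sub] at h

/-- `Y ≡ X^q` at `E11`. -/
theorem h41y_tn2_E11_YX (A : ValuationSubring Kbar) (hq : q.Prime) (hqM : ¬ q ∣ M)
    (hA : A.LiesOverPrime q) (ζ : Kbar)
    (E : FF (M * q * q) →+* LaurentSeries Kbar) (hE : h20n_IsE11 M q hq hqM ζ E)
    (v : FF M) (hrat : IsRat v) (hv : v ∈ softV A M) :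
    h11l_Small A E (h67i_e1 M q v - h67i_e0 M q v ^ q) := by
  rw [h41y_small_iff, map_sub, map_pow, h41y_E11_e1 hq hqM ζ E hE, h41y_E11_e0 hq hqM ζ E hE]
  exact h41y_smallS_frob q (h41y_frobFix_of_isRat A q hq hA M v hrat hv)

/-- `Z^q ≡ Y` at `E02`. -/
theorem h41y_tn2_E02_ZY (A : ValuationSubring Kbar) (hq : q.Prime) (hqM : ¬ q ∣ M)
    (hA : A.LiesOverPrime q)
    (E0 : FF (M * q * q) →+* LaurentSeries Kbar) (hE0 : h20n_IsE02 M q hq hqM E0)
    (v : FF M) (hrat : IsRat v) (hv : v ∈ softV A M) :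
    h11l_Small A E0 (h67i_e2 M q v ^ q - h67i_e1 M q v) := by
  rw [h41y_small_iff, map_sub, map_pow, h41y_E02_e2 hq hqM E0 hE0, h41y_E02_e1 hq hqM E0 hE0]
  have h := h41y_smallS_neg (h41y_smallS_frob q (h41y_frobFix_of_isRat A q hq hA M v hrat hv))
  exact h41y_smallS_of_eq h (by ring)

/-- `X ≡ Y^q` at `E02`. -/
theorem h41y_tn2_E02_XY (A : ValuationSubring Kbar) (hq : q.Prime) (hqM : ¬ q ∣ M)
    (hA : A.LiesOverPrime q)
    (E0 : FF (M * q * q) →+* LaurentSeries Kbar) (hE0 : h20n_IsE02 M q hq hqM E0)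
    (v : FF M) (hrat : IsRat v) (hv : v ∈ softV A M) :
    h11l_Small A E0 (h67i_e0 M q v - h67i_e1 M q v ^ q) := by
  rw [h41y_small_iff, map_sub, map_pow, h41y_E02_e0 hq hqM E0 hE0, h41y_E02_e1 hq hqM E0 hE0]
  exact h41y_smallS_frob q (h41y_frobFix_qExpand q (h41y_frobFix_of_isRat A q hq hA M v hrat hv))

end TN2

/-! ## TN1 in the vocabulary of `H11TorSkel` -/

section TN1

variable (M q : ℕ) [NeZero M] [NeZero q]

theorem h41y_Einf_apply (y : FF (M * q)) : h11t_Einf M q y = (y : LaurentSeries Kbar) := by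
  unfold h11t_Einf
  exact IntermediateField.algebraMap_apply _ y

theorem h41y_Ezero_apply (hq : q.Prime) (hqM : ¬ q ∣ M) (y : FF (M * q)) :
    h11t_Ezero M q hq hqM y = ((kFricke M q hq hqM y : FF (M * q)) : LaurentSeries Kbar) := by
  unfold h11t_Ezero
  exact IntermediateField.algebraMap_apply _ _

/-- **TN1 (α, `C_∞`).** -/
theorem h41y_tn1_alpha_inf (hq : q.Prime) (hqM : ¬ q ∣ M) (A : ValuationSubring Kbar)
    (hA : A.LiesOverPrime q) (ζ : Kbar) (hζ : IsPrimitiveRoot ζ q)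
    (E : FF (M * q * q) →+* LaurentSeries Kbar) (hE : h20n_IsE11 M q hq hqM ζ E)
    (z : FF (M * q * q)) (hz : z ∈ h92c_F0 A (M * q * q))
    (y₀ y₁ : FF (M * q)) (hy₀ : h20v_Unit A (h11t_Einf M q y₀))
    (hy₁ : h20v_Unit A (h11t_Einf M q y₁))
    (h₀ : h11l_Small A (h20n_E20 M q) (z - heckeAlphaBar Kbar (M * q) q y₀))
    (h₁ : h11l_Small A E (z - heckeAlphaBar Kbar (M * q) q y₁)) :
    h11l_Small A (h11t_Einf M q)
      (normAlong (heckeAlphaBar Kbar (M * q) q) z - y₀ * y₁ ^ (q - 1)) := by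
  rw [h41y_Einf_apply] at hy₀ hy₁
  rw [h41y_small_iff, map_sub, h41x_E20_apply M q (heckeAlphaBar Kbar (M * q) q y₀),
    coe_heckeAlphaBar] at h₀
  rw [h41y_small_iff, map_sub, hE.1] at h₁
  rw [h41y_small_iff, map_sub, h41y_Einf_apply, h41y_Einf_apply]
  exact h41x_tn1_alpha_inf_add M q hq hqM A hA ζ hζ E hE z hz y₀ y₁ hy₀ hy₁ h₀ h₁

/-- **TN1 (α, `C_0`).** -/
theorem h41y_tn1_alpha_zero (hq : q.Prime) (hqM : ¬ q ∣ M) (A : ValuationSubring Kbar)
    (hA : A.LiesOverPrime q)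
    (E0 : FF (M * q * q) →+* LaurentSeries Kbar) (hE0 : h20n_IsE02 M q hq hqM E0)
    (z : FF (M * q * q)) (y : FF (M * q)) (hy : h20v_Unit A (h11t_Ezero M q hq hqM y))
    (h : h11l_Small A E0 (z ^ q - heckeAlphaBar Kbar (M * q) q y)) :
    h11l_Small A (h11t_Ezero M q hq hqM)
      (normAlong (heckeAlphaBar Kbar (M * q) q) z - y) := by
  rw [h41y_Ezero_apply] at hy
  rw [h41y_small_iff, map_sub, map_pow] at h
  rw [h41y_small_iff, map_sub, h41y_Ezero_apply, h41y_Ezero_apply]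
  exact h41x_tn1_alpha_zero_add M q hq hqM A hA E0 hE0 z y hy h

/-- **TN1 (β, `C_∞`).** -/
theorem h41y_tn1_beta_inf (hq : q.Prime) (A : ValuationSubring Kbar)
    (hA : A.LiesOverPrime q) (z : FF (M * q * q)) (y : FF (M * q))
    (hy : h20v_Unit A (h11t_Einf M q y))
    (h : h11l_Small A (h20n_E20 M q) (z ^ q - heckeBetaBar Kbar (M * q) q y)) :
    h11l_Small A (h11t_Einf M q) (normAlong (heckeBetaBar Kbar (M * q) q) z - y) := by
  rw [h41y_Einf_apply] at hy
  rw [h41y_small_iff, map_sub, map_pow] at h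
  rw [h41y_small_iff, map_sub, h41y_Einf_apply, h41y_Einf_apply]
  exact h41x_tn1_beta_inf_add M q hq A hA z y hy h

/-- **TN1 (β, `C_0`).** -/
theorem h41y_tn1_beta_zero (hq : q.Prime) (hqM : ¬ q ∣ M)
    (A : ValuationSubring Kbar) (hA : A.LiesOverPrime q) (ζ : Kbar) (hζ : IsPrimitiveRoot ζ q)
    (E0 : FF (M * q * q) →+* LaurentSeries Kbar) (hE0 : h20n_IsE02 M q hq hqM E0)
    (E : FF (M * q * q) →+* LaurentSeries Kbar) (hE : h20n_IsE11 M q hq hqM ζ E)
    (z : FF (M * q * q)) (hz : z ∈ h92c_F0 A (M * q * q))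
    (y₁ y₂ : FF (M * q)) (hy₁ : h20v_Unit A (h11t_Ezero M q hq hqM y₁))
    (hy₂ : h20v_Unit A (h11t_Ezero M q hq hqM y₂))
    (h₁ : h11l_Small A E (z - heckeBetaBar Kbar (M * q) q y₁))
    (h₂ : h11l_Small A E0 (z - heckeBetaBar Kbar (M * q) q y₂)) :
    h11l_Small A (h11t_Ezero M q hq hqM)
      (normAlong (heckeBetaBar Kbar (M * q) q) z - y₁ ^ (q - 1) * y₂) := by
  rw [h41y_Ezero_apply] at hy₁ hy₂
  rw [h41y_small_iff, map_sub] at h₁ h₂
  rw [h41y_small_iff, map_sub, h41y_Ezero_apply, h41y_Ezero_apply]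
  exact h41x_tn1_beta_zero_add M q hq hqM A hA ζ hζ E0 hE0 E hE z hz y₁ y₂ hy₁ hy₂ h₁ h₂

end TN1

end Fermat.Agent.S36
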