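import Fermat.Agent.S36.H71TorIface
import Fermat.Agent.S36.H41TN2
import Fermat.Agent.S36.H59Base0

/-!
# S36, row T-NORM-A (helper2, prefix `h2t_`): the branch norm formula for `α`

Target: the frozen leaf `H11TorNormA` of `S36/H11TorSkel.lean`:
at a supersingular point `𝔫` of the chart `j` of level `M q q` with node `𝔫a = α⁻¹ 𝔫`, a function
`x ∈ F₀` with constant branch values `a₀, a₁, a₂` along `E20`, `E11^ζ`, `E02` has
`bv_∞ (Nα x) = a₀ a₁^(q-1)`, `bv_0 (Nα x) = a₂^q`.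

Inputs:

* (TN1) the norm formulas in congruence form: landed `h41y_tn1_alpha_inf`,
  `h41y_tn1_alpha_zero` (`S36/H41TN2.lean`, helper41);
* (T-BASIC) the frozen leaf `H11TorBasic` (constants and Gauss-integrality of the charts);
* (TN2) the frozen interfaces `H71TorGenA` (fraction form of the branch generation) and
  `H71TorCenA` (centredness at a supersingular point) of `S36/H71TorIface.lean` (helper71).

Result: `h2t_torNormA_of : H71TorGenA → H71TorCenA → H11TorBasic → H11TorNormA`.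

The lemmas `h2t_push_sep`, `h2t_push_insep`, `h2t_sep_datum`, `h2t_insep_datum` are stated for
an arbitrary ring homomorphism `φ : FF (M q) → FF (M q q)` mapping the chart to the chart, so
that they serve for `β` as well.
-/

set_option autoImplicit false
set_option linter.unusedSectionVars false
set_option linter.unusedVariables false
set_option linter.style.haveILetI false

open AlgebraicCurve ModularCurve

noncomputable section

namespace Fermat.Agent.S36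

open Fermat.Agent.S37 (Kbar GQ FF cst jB gal modelAt degen auxLevel)
open Fermat.Agent.Red.KR (normAlong)
open Fermat.Agent.Red.Kron (kFricke twistK)
open Fermat.Agent.Red.GV.Soft (softOT softRedT)

/-! ## Calculus of Gauss-small series -/

section Small

variable {A : ValuationSubring Kbar}

theorem h2t_small_zero : h41x_Small A (0 : LaurentSeries Kbar) :=
  ⟨zero_mem _, map_zero (softRedT A (IsLocalRing.residue A))⟩

theorem h2t_small_add {s t : LaurentSeries Kbar} (hs : h41x_Small A s) (ht : h41x_Small A t) :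
    h41x_Small A (s + t) := by
  obtain ⟨m1, r1⟩ := hs
  obtain ⟨m2, r2⟩ := ht
  refine ⟨add_mem m1 m2, ?_⟩
  have e : (⟨s + t, add_mem m1 m2⟩ : softOT A (IsLocalRing.residue A)) = ⟨s, m1⟩ + ⟨t, m2⟩ :=
    rfl
  rw [e, map_add, r1, r2, add_zero]

theorem h2t_small_neg {s : LaurentSeries Kbar} (hs : h41x_Small A s) : h41x_Small A (-s) := by
  obtain ⟨m1, r1⟩ := hs
  refine ⟨neg_mem m1, ?_⟩
  have e : (⟨-s, neg_mem m1⟩ : softOT A (IsLocalRing.residue A)) = -⟨s, m1⟩ := rfl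
  rw [e, map_neg, r1, neg_zero]

theorem h2t_small_sub {s t : LaurentSeries Kbar} (hs : h41x_Small A s) (ht : h41x_Small A t) :
    h41x_Small A (s - t) := by
  rw [sub_eq_add_neg]
  exact h2t_small_add hs (h2t_small_neg ht)

theorem h2t_small_mul {s t : LaurentSeries Kbar} (hs : h41x_Small A s)
    (ht : t ∈ softOT A (IsLocalRing.residue A)) : h41x_Small A (s * t) := by
  obtain ⟨m1, r1⟩ := hs
  refine ⟨mul_mem m1 ht, ?_⟩
  have e : (⟨s * t, mul_mem m1 ht⟩ : softOT A (IsLocalRing.residue A)) = ⟨s, m1⟩ * ⟨t, ht⟩ :=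
    rfl
  rw [e, map_mul, r1, zero_mul]

theorem h2t_small_mul' {s t : LaurentSeries Kbar} (ht : t ∈ softOT A (IsLocalRing.residue A))
    (hs : h41x_Small A s) : h41x_Small A (t * s) := by
  rw [mul_comm]
  exact h2t_small_mul hs ht

/-- an element of the Gauss ring which is not small is a unit. -/
theorem h2t_unit_of_not_small {s : LaurentSeries Kbar}
    (hs : s ∈ softOT A (IsLocalRing.residue A)) (h : ¬ h41x_Small A s) : h20v_Unit A s := by
  have hne : softRedT A (IsLocalRing.residue A) ⟨s, hs⟩ ≠ 0 := fun h0 => h ⟨hs, h0⟩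
  have := (Fermat.Agent.Red.GV.Soft.softRedT_ne_zero_iff ⟨s, hs⟩).mp hne
  exact ⟨this.1, hs, this.2⟩

/-- a unit is not small. -/
theorem h2t_not_small_of_unit {s : LaurentSeries Kbar} (hs : h20v_Unit A s) :
    ¬ h41x_Small A s := by
  rintro ⟨m, r⟩
  have h1 : softRedT A (IsLocalRing.residue A) ⟨s, m⟩ ≠ 0 :=
    (Fermat.Agent.Red.GV.Soft.softRedT_ne_zero_iff ⟨s, m⟩).mpr ⟨hs.1, hs.2.2⟩
  exact h1 r

theorem h2t_unit_mul {s t : LaurentSeries Kbar} (hs : h20v_Unit A s) (ht : h20v_Unit A t) :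
    h20v_Unit A (s * t) :=
  ⟨mul_ne_zero hs.1 ht.1, mul_mem hs.2.1 ht.2.1, by
    rw [mul_inv]
    exact mul_mem hs.2.2 ht.2.2⟩

theorem h2t_unit_inv {s : LaurentSeries Kbar} (hs : h20v_Unit A s) : h20v_Unit A s⁻¹ :=
  ⟨inv_ne_zero hs.1, hs.2.2, by
    rw [inv_inv]
    exact hs.2.1⟩

/-- `u ^ n - v ^ n` is small when `u - v` is small and `u`, `v` are Gauss-integral. -/
theorem h2t_small_pow_sub_pow {u v : LaurentSeries Kbar}
    (hu : u ∈ softOT A (IsLocalRing.residue A)) (hv : v ∈ softOT A (IsLocalRing.residue A))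
    (h : h41x_Small A (u - v)) (n : ℕ) : h41x_Small A (u ^ n - v ^ n) := by
  have h1 := (Commute.all u v).mul_geom_sum₂ n
  rw [← h1]
  refine h2t_small_mul h ?_
  exact Subring.sum_mem _ fun i _ => mul_mem (pow_mem hu _) (pow_mem hv _)

end Small

/-! ## Pushing a branch value down the tower -/

section Push

variable (A : ValuationSubring Kbar) (M q : ℕ) [NeZero M] [NeZero q]

/-- the map induced by `φ` on the charts. -/
def h2tφ (φ : FF (M * q) →+* FF (M * q * q))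
    (hφB : ∀ y ∈ h92c_Chart A (M * q) (jB (M * q)),
      φ y ∈ h92c_Chart A (M * q * q) (jB (M * q * q))) :
    h92c_Chart A (M * q) (jB (M * q)) →+* h92c_Chart A (M * q * q) (jB (M * q * q)) :=
  (φ.comp (h92c_Chart A (M * q) (jB (M * q))).subtype).codRestrict _ fun y => hφB y y.2

theorem h2t_coe_φ (φ : FF (M * q) →+* FF (M * q * q))
    (hφB : ∀ y ∈ h92c_Chart A (M * q) (jB (M * q)),
      φ y ∈ h92c_Chart A (M * q * q) (jB (M * q * q)))
    (y : h92c_Chart A (M * q) (jB (M * q))) :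
    ((h2tφ A M q φ hφB y : h92c_Chart A (M * q * q) (jB (M * q * q))) : FF (M * q * q))
      = φ (y : FF (M * q)) := rfl

variable {A M q}

theorem h2t_under_iff {φ : FF (M * q) →+* FF (M * q * q)}
    (hφB : ∀ y ∈ h92c_Chart A (M * q) (jB (M * q)),
      φ y ∈ h92c_Chart A (M * q * q) (jB (M * q * q)))
    {𝔫 : Ideal (h92c_Chart A (M * q * q) (jB (M * q * q)))}
    {𝔫' : Ideal (h92c_Chart A (M * q) (jB (M * q)))}
    (hU : h11t_Under A φ (jB (M * q)) (jB (M * q * q)) 𝔫' 𝔫)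
    (y : h92c_Chart A (M * q) (jB (M * q))) :
    y ∈ 𝔫' ↔ h2tφ A M q φ hφB y ∈ 𝔫 := by
  rw [hU y]
  constructor
  · rintro ⟨b, hb, hby⟩
    have : b = h2tφ A M q φ hφB y := Subtype.ext hby
    rw [← this]
    exact hb
  · intro h
    exact ⟨_, h, rfl⟩

/-- a function of the chart outside a point through which the component of `E` passes is a
Gauss unit along `E`. -/
theorem h2t_unit_of_not_mem {N : ℕ} {t : FF N} {𝔫 : Ideal (h92c_Chart A N t)}
    {E : FF N →+* LaurentSeries Kbar} (hcent : h11l_Centred A t 𝔫 E)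
    (b : h92c_Chart A N t) (hEb : E (b : FF N) ∈ softOT A (IsLocalRing.residue A))
    (hb : b ∉ 𝔫) : h20v_Unit A (E (b : FF N)) :=
  h2t_unit_of_not_small hEb fun h => hb (hcent b h)

/-- `E x` is Gauss-integral when `x` has a branch value along `E`. -/
theorem h2t_BV_mem {N : ℕ} {t : FF N} {𝔫 : Ideal (h92c_Chart A N t)}
    {E : FF N →+* LaurentSeries Kbar}
    (hEB : ∀ b ∈ h92c_Chart A N t, E b ∈ softOT A (IsLocalRing.residue A))
    (hcent : h11l_Centred A t 𝔫 E) (x : FF N) (b s : h92c_Chart A N t) (hs : s ∉ 𝔫)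
    (hsx : h11l_Small A E ((s : FF N) * x - (b : FF N))) :
    E ((s : FF N) * x) ∈ softOT A (IsLocalRing.residue A) ∧
      E x ∈ softOT A (IsLocalRing.residue A) := by
  have hEs : h20v_Unit A (E (s : FF N)) := h2t_unit_of_not_mem hcent s (hEB _ s.2) hs
  have h1 : E ((s : FF N) * x) ∈ softOT A (IsLocalRing.residue A) := by
    have h2 : (s : FF N) * x = ((s : FF N) * x - (b : FF N)) + (b : FF N) := by ring
    rw [h2, map_add]
    exact add_mem hsx.1 (hEB _ b.2)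
  refine ⟨h1, ?_⟩
  have h3 : E x = E ((s : FF N) * x) * (E (s : FF N))⁻¹ := by
    rw [map_mul, mul_comm (E (s : FF N)), mul_assoc, mul_inv_cancel₀ hEs.1, mul_one]
  rw [h3]
  exact mul_mem h1 hEs.2.2

/-- the datum pushed down along a separable branch. -/
theorem h2t_push_sep (φ : FF (M * q) →+* FF (M * q * q))
    (hφB : ∀ y ∈ h92c_Chart A (M * q) (jB (M * q)),
      φ y ∈ h92c_Chart A (M * q * q) (jB (M * q * q)))
    (𝔫 : Ideal (h92c_Chart A (M * q * q) (jB (M * q * q)))) [h𝔫 : 𝔫.IsPrime]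
    (𝔫' : Ideal (h92c_Chart A (M * q) (jB (M * q))))
    (hU : h11t_Under A φ (jB (M * q)) (jB (M * q * q)) 𝔫' 𝔫)
    (E : FF (M * q * q) →+* LaurentSeries Kbar)
    (hEB : ∀ b ∈ h92c_Chart A (M * q * q) (jB (M * q * q)),
      E b ∈ softOT A (IsLocalRing.residue A))
    (hcent : h11l_Centred A (jB (M * q * q)) 𝔫 E)
    (hsep : ∀ b : h92c_Chart A (M * q * q) (jB (M * q * q)),
      h71z_SepAt A φ (jB (M * q)) 𝔫' E (b : FF (M * q * q)))
    (x : FF (M * q * q))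
    (c : h92c_Chart A (M * q * q) (jB (M * q * q)))
    (c' : h92c_Chart A (M * q) (jB (M * q)))
    (hcc' : (c : FF (M * q * q)) = φ (c' : FF (M * q)))
    (hBV : h11l_BV A (jB (M * q * q)) 𝔫 E x c) :
    ∃ Y S : h92c_Chart A (M * q) (jB (M * q)), S ∉ 𝔫' ∧
      h11l_Small A E (φ (S : FF (M * q)) * x - φ (Y : FF (M * q))) ∧ Y - c' * S ∈ 𝔫' := by
  classical
  obtain ⟨b, s, hs, hsx, hbc⟩ := hBV
  obtain ⟨ds, S1, hds, hs1⟩ := hsep s
  obtain ⟨db, Y1, hdb, hb1⟩ := hsep b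
  have hUi := h2t_under_iff hφB hU
  have hEφ : ∀ y : h92c_Chart A (M * q) (jB (M * q)),
      E (φ (y : FF (M * q))) ∈ softOT A (IsLocalRing.residue A) :=
    fun y => hEB _ (hφB y y.2)
  have hs1𝔫 : h2tφ A M q φ hφB ds * s - h2tφ A M q φ hφB S1 ∈ 𝔫 := hcent _ hs1
  have hb1𝔫 : h2tφ A M q φ hφB db * b - h2tφ A M q φ hφB Y1 ∈ 𝔫 := hcent _ hb1
  have hEx : E x ∈ softOT A (IsLocalRing.residue A) :=
    (h2t_BV_mem hEB hcent x b s hs hsx).2
  refine ⟨ds * Y1, db * S1, ?_, ?_, ?_⟩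
  · -- `db * S1 ∉ 𝔫'`
    intro hmem
    have h1 : h2tφ A M q φ hφB (db * S1) ∈ 𝔫 := (hUi _).mp hmem
    have h2 : h2tφ A M q φ hφB db * (h2tφ A M q φ hφB ds * s) ∈ 𝔫 := by
      have e : h2tφ A M q φ hφB db * (h2tφ A M q φ hφB ds * s)
          = h2tφ A M q φ hφB db * (h2tφ A M q φ hφB ds * s - h2tφ A M q φ hφB S1)
            + h2tφ A M q φ hφB (db * S1) := by
        rw [map_mul]; ring
      rw [e]
      exact 𝔫.add_mem (𝔫.mul_mem_left _ hs1𝔫) h1
    rcases h𝔫.mem_or_mem h2 with h | h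
    · exact hdb ((hUi _).mpr h)
    · rcases h𝔫.mem_or_mem h with h' | h'
      · exact hds ((hUi _).mpr h')
      · exact hs h'
  · -- the congruence
    have e : φ ((db * S1 : h92c_Chart A (M * q) (jB (M * q))) : FF (M * q)) * x
          - φ ((ds * Y1 : h92c_Chart A (M * q) (jB (M * q))) : FF (M * q))
        = φ (db : FF (M * q)) * x *
            -(φ (ds : FF (M * q)) * (s : FF (M * q * q)) - φ (S1 : FF (M * q)))
          + φ (db : FF (M * q)) * φ (ds : FF (M * q)) *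
            ((s : FF (M * q * q)) * x - (b : FF (M * q * q)))
          + φ (ds : FF (M * q)) *
            (φ (db : FF (M * q)) * (b : FF (M * q * q)) - φ (Y1 : FF (M * q))) := by
      rw [Subring.coe_mul, Subring.coe_mul, map_mul, map_mul]
      ring
    rw [e]
    refine h41y_small_add (h41y_small_add ?_ ?_) ?_
    · refine h41y_small_mul_left ?_ (h41y_small_neg hs1)
      rw [map_mul]
      exact mul_mem (hEφ db) hEx
    · refine h41y_small_mul_left ?_ hsx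
      rw [map_mul]
      exact mul_mem (hEφ db) (hEφ ds)
    · exact h41y_small_mul_left (hEφ ds) hb1
  · -- the value
    rw [hUi]
    have hcφ : c = h2tφ A M q φ hφB c' := Subtype.ext hcc'
    have e : h2tφ A M q φ hφB (ds * Y1 - c' * (db * S1))
        = -(h2tφ A M q φ hφB ds * (h2tφ A M q φ hφB db * b - h2tφ A M q φ hφB Y1))
          + h2tφ A M q φ hφB ds * h2tφ A M q φ hφB db * (b - c * s)
          + c * h2tφ A M q φ hφB db * (h2tφ A M q φ hφB ds * s - h2tφ A M q φ hφB S1) := by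
      rw [hcφ]
      simp only [map_sub, map_mul]
      ring
    rw [e]
    exact 𝔫.add_mem (𝔫.add_mem (𝔫.neg_mem (𝔫.mul_mem_left _ hb1𝔫)) (𝔫.mul_mem_left _ hbc))
      (𝔫.mul_mem_left _ hs1𝔫)

/-- the datum pushed down along a purely inseparable branch. -/
theorem h2t_push_insep (φ : FF (M * q) →+* FF (M * q * q))
    (hφB : ∀ y ∈ h92c_Chart A (M * q) (jB (M * q)),
      φ y ∈ h92c_Chart A (M * q * q) (jB (M * q * q)))
    (𝔫 : Ideal (h92c_Chart A (M * q * q) (jB (M * q * q)))) [h𝔫 : 𝔫.IsPrime]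
    (𝔫' : Ideal (h92c_Chart A (M * q) (jB (M * q))))
    (hU : h11t_Under A φ (jB (M * q)) (jB (M * q * q)) 𝔫' 𝔫)
    (E : FF (M * q * q) →+* LaurentSeries Kbar)
    (hEB : ∀ b ∈ h92c_Chart A (M * q * q) (jB (M * q * q)),
      E b ∈ softOT A (IsLocalRing.residue A))
    (hcent : h11l_Centred A (jB (M * q * q)) 𝔫 E)
    (hinsep : ∀ b : h92c_Chart A (M * q * q) (jB (M * q * q)),
      h71z_InsepAt A φ (jB (M * q)) 𝔫' E q (b : FF (M * q * q)))
    (x : FF (M * q * q))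
    (c : h92c_Chart A (M * q * q) (jB (M * q * q)))
    (c' : h92c_Chart A (M * q) (jB (M * q)))
    (hcc' : (c : FF (M * q * q)) = φ (c' : FF (M * q)))
    (hBV : h11l_BV A (jB (M * q * q)) 𝔫 E x c) :
    ∃ Y S : h92c_Chart A (M * q) (jB (M * q)), S ∉ 𝔫' ∧
      h11l_Small A E (φ (S : FF (M * q)) * x ^ q - φ (Y : FF (M * q))) ∧
      Y - c' ^ q * S ∈ 𝔫' := by
  classical
  obtain ⟨b, s, hs, hsx, hbc⟩ := hBV
  obtain ⟨ds, S1, hds, hs1⟩ := hinsep s
  obtain ⟨db, Y1, hdb, hb1⟩ := hinsep b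
  have hUi := h2t_under_iff hφB hU
  have hEφ : ∀ y : h92c_Chart A (M * q) (jB (M * q)),
      E (φ (y : FF (M * q))) ∈ softOT A (IsLocalRing.residue A) :=
    fun y => hEB _ (hφB y y.2)
  have hs1𝔫 : (h2tφ A M q φ hφB ds * s) ^ q - h2tφ A M q φ hφB S1 ∈ 𝔫 := hcent _ hs1
  have hb1𝔫 : (h2tφ A M q φ hφB db * b) ^ q - h2tφ A M q φ hφB Y1 ∈ 𝔫 := hcent _ hb1
  obtain ⟨hEsx, hEx⟩ := h2t_BV_mem hEB hcent x b s hs hsx
  -- `(s x) ^ q ≡ b ^ q`
  have hpow : h11l_Small A E (((s : FF (M * q * q)) * x) ^ q - (b : FF (M * q * q)) ^ q) := by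
    show h41x_Small A (E _)
    rw [map_sub, map_pow, map_pow]
    refine h2t_small_pow_sub_pow hEsx (hEB _ b.2) ?_ q
    rw [← map_sub]
    exact hsx
  have hbcq : b ^ q - (c * s) ^ q ∈ 𝔫 := by
    obtain ⟨k, hk⟩ := sub_dvd_pow_sub_pow b (c * s) q
    rw [hk]
    exact 𝔫.mul_mem_right _ hbc
  refine ⟨ds ^ q * Y1, db ^ q * S1, ?_, ?_, ?_⟩
  · -- `db ^ q * S1 ∉ 𝔫'`
    intro hmem
    have h1 : h2tφ A M q φ hφB (db ^ q * S1) ∈ 𝔫 := (hUi _).mp hmem
    have h2 : h2tφ A M q φ hφB db ^ q * (h2tφ A M q φ hφB ds * s) ^ q ∈ 𝔫 := by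
      have e : h2tφ A M q φ hφB db ^ q * (h2tφ A M q φ hφB ds * s) ^ q
          = h2tφ A M q φ hφB db ^ q *
              ((h2tφ A M q φ hφB ds * s) ^ q - h2tφ A M q φ hφB S1)
            + h2tφ A M q φ hφB (db ^ q * S1) := by
        rw [map_mul, map_pow]; ring
      rw [e]
      exact 𝔫.add_mem (𝔫.mul_mem_left _ hs1𝔫) h1
    rcases h𝔫.mem_or_mem h2 with h | h
    · exact hdb ((hUi _).mpr (h𝔫.mem_of_pow_mem _ h))
    · rcases h𝔫.mem_or_mem (h𝔫.mem_of_pow_mem _ h) with h' | h'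
      · exact hds ((hUi _).mpr h')
      · exact hs h'
  · -- the congruence
    have e : φ ((db ^ q * S1 : h92c_Chart A (M * q) (jB (M * q))) : FF (M * q)) * x ^ q
          - φ ((ds ^ q * Y1 : h92c_Chart A (M * q) (jB (M * q))) : FF (M * q))
        = φ (db : FF (M * q)) ^ q * x ^ q *
            -((φ (ds : FF (M * q)) * (s : FF (M * q * q))) ^ q - φ (S1 : FF (M * q)))
          + φ (db : FF (M * q)) ^ q * φ (ds : FF (M * q)) ^ q *
            (((s : FF (M * q * q)) * x) ^ q - (b : FF (M * q * q)) ^ q)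
          + φ (ds : FF (M * q)) ^ q *
            ((φ (db : FF (M * q)) * (b : FF (M * q * q))) ^ q - φ (Y1 : FF (M * q))) := by
      rw [Subring.coe_mul, Subring.coe_mul, Subring.coe_pow, Subring.coe_pow, map_mul, map_mul,
        map_pow, map_pow]
      ring
    rw [e]
    have hdbq : E (φ (db : FF (M * q)) ^ q) ∈ softOT A (IsLocalRing.residue A) := by
      rw [map_pow]; exact pow_mem (hEφ db) q
    have hdsq : E (φ (ds : FF (M * q)) ^ q) ∈ softOT A (IsLocalRing.residue A) := by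
      rw [map_pow]; exact pow_mem (hEφ ds) q
    have hxq : E (x ^ q) ∈ softOT A (IsLocalRing.residue A) := by
      rw [map_pow]; exact pow_mem hEx q
    refine h41y_small_add (h41y_small_add ?_ ?_) ?_
    · refine h41y_small_mul_left ?_ (h41y_small_neg hs1)
      rw [map_mul]
      exact mul_mem hdbq hxq
    · refine h41y_small_mul_left ?_ hpow
      rw [map_mul]
      exact mul_mem hdbq hdsq
    · exact h41y_small_mul_left hdsq hb1
  · -- the value
    rw [hUi]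
    have hcφ : c = h2tφ A M q φ hφB c' := Subtype.ext hcc'
    have e : h2tφ A M q φ hφB (ds ^ q * Y1 - c' ^ q * (db ^ q * S1))
        = -(h2tφ A M q φ hφB ds ^ q *
              ((h2tφ A M q φ hφB db * b) ^ q - h2tφ A M q φ hφB Y1))
          + h2tφ A M q φ hφB ds ^ q * h2tφ A M q φ hφB db ^ q * (b ^ q - (c * s) ^ q)
          + c ^ q * h2tφ A M q φ hφB db ^ q *
              ((h2tφ A M q φ hφB ds * s) ^ q - h2tφ A M q φ hφB S1) := by
      rw [hcφ]
      simp only [map_sub, map_mul, map_pow]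
      ring
    rw [e]
    exact 𝔫.add_mem (𝔫.add_mem (𝔫.neg_mem (𝔫.mul_mem_left _ hb1𝔫)) (𝔫.mul_mem_left _ hbcq))
      (𝔫.mul_mem_left _ hs1𝔫)

/-- from `φ S · w ≡ φ Y` to `w ≡ φ (Y / S)`, for a Gauss unit `E (φ S)`. -/
theorem h2t_frac (φ : FF (M * q) →+* FF (M * q * q))
    (E : FF (M * q * q) →+* LaurentSeries Kbar) (S Y : FF (M * q)) (w : FF (M * q * q))
    (hS : h20v_Unit A (E (φ S))) (h : h11l_Small A E (φ S * w - φ Y)) :
    h11l_Small A E (w - φ (Y / S)) := by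
  have hS0 : E (φ S) ≠ 0 := hS.1
  have e : E (w - φ (Y / S)) = (E (φ S))⁻¹ * E (φ S * w - φ Y) := by
    rw [map_sub, map_sub, map_mul, map_div₀, map_div₀]
    field_simp
  show h41x_Small A (E (w - φ (Y / S)))
  rw [e]
  exact h2t_small_mul' hS.2.2 h

/-- the quotient of two Gauss units. -/
theorem h2t_unit_div {N : ℕ} (E' : FF N →+* LaurentSeries Kbar) (S Y : FF N)
    (hS : h20v_Unit A (E' S)) (hY : h20v_Unit A (E' Y)) : h20v_Unit A (E' (Y / S)) := by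
  rw [map_div₀, div_eq_mul_inv]
  exact h2t_unit_mul hY (h2t_unit_inv hS)

/-- **separable branch**: the branch value `c = φ c'` of `x` at `𝔫` along `E` gives a fraction
`Y / S` of the chart of level `M q`, a unit at the point `𝔫'` with value `c'`, with
`x ≡ φ (Y / S)` along `E`. -/
theorem h2t_sep_datum (φ : FF (M * q) →+* FF (M * q * q))
    (hφB : ∀ y ∈ h92c_Chart A (M * q) (jB (M * q)),
      φ y ∈ h92c_Chart A (M * q * q) (jB (M * q * q)))
    (𝔫 : Ideal (h92c_Chart A (M * q * q) (jB (M * q * q)))) [h𝔫 : 𝔫.IsPrime]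
    (𝔫' : Ideal (h92c_Chart A (M * q) (jB (M * q)))) [h𝔫' : 𝔫'.IsPrime]
    (hU : h11t_Under A φ (jB (M * q)) (jB (M * q * q)) 𝔫' 𝔫)
    (E : FF (M * q * q) →+* LaurentSeries Kbar)
    (hEB : ∀ b ∈ h92c_Chart A (M * q * q) (jB (M * q * q)),
      E b ∈ softOT A (IsLocalRing.residue A))
    (hcent : h11l_Centred A (jB (M * q * q)) 𝔫 E)
    (hsep : ∀ b : h92c_Chart A (M * q * q) (jB (M * q * q)),
      h71z_SepAt A φ (jB (M * q)) 𝔫' E (b : FF (M * q * q)))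
    (x : FF (M * q * q))
    (c : h92c_Chart A (M * q * q) (jB (M * q * q)))
    (c' : h92c_Chart A (M * q) (jB (M * q)))
    (hcc' : (c : FF (M * q * q)) = φ (c' : FF (M * q)))
    (hc' : c' ∉ 𝔫')
    (hBV : h11l_BV A (jB (M * q * q)) 𝔫 E x c)
    (E' : FF (M * q) →+* LaurentSeries Kbar)
    (hE'B : ∀ b ∈ h92c_Chart A (M * q) (jB (M * q)),
      E' b ∈ softOT A (IsLocalRing.residue A))
    (hcent' : h11l_Centred A (jB (M * q)) 𝔫' E') :
    ∃ Y S : h92c_Chart A (M * q) (jB (M * q)), S ∉ 𝔫' ∧ Y - c' * S ∈ 𝔫' ∧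
      h20v_Unit A (E' (S : FF (M * q))) ∧ h20v_Unit A (E' (Y : FF (M * q))) ∧
      h11l_Small A E (x - φ ((Y : FF (M * q)) / (S : FF (M * q)))) := by
  obtain ⟨Y, S, hS, hsm, hval⟩ :=
    h2t_push_sep φ hφB 𝔫 𝔫' hU E hEB hcent hsep x c c' hcc' hBV
  have hUi := h2t_under_iff hφB hU
  have hY : Y ∉ 𝔫' := by
    intro hY
    have h1 : c' * S ∈ 𝔫' := by
      have e : c' * S = Y - (Y - c' * S) := by ring
      rw [e]
      exact 𝔫'.sub_mem hY hval
    rcases h𝔫'.mem_or_mem h1 with h | h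
    · exact hc' h
    · exact hS h
  have hφS : h20v_Unit A (E (φ (S : FF (M * q)))) :=
    h2t_unit_of_not_mem hcent (h2tφ A M q φ hφB S) (hEB _ (hφB _ S.2))
      fun h => hS ((hUi S).mpr h)
  exact ⟨Y, S, hS, hval, h2t_unit_of_not_mem hcent' S (hE'B _ S.2) hS,
    h2t_unit_of_not_mem hcent' Y (hE'B _ Y.2) hY, h2t_frac φ E _ _ x hφS hsm⟩

/-- **purely inseparable branch**: the branch value `c = φ c'` of `x` at `𝔫` along `E` gives a
fraction `Y / S` of the chart of level `M q`, a unit at the point `𝔫'` with value `c' ^ q`, with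
`x ^ q ≡ φ (Y / S)` along `E`. -/
theorem h2t_insep_datum (φ : FF (M * q) →+* FF (M * q * q))
    (hφB : ∀ y ∈ h92c_Chart A (M * q) (jB (M * q)),
      φ y ∈ h92c_Chart A (M * q * q) (jB (M * q * q)))
    (𝔫 : Ideal (h92c_Chart A (M * q * q) (jB (M * q * q)))) [h𝔫 : 𝔫.IsPrime]
    (𝔫' : Ideal (h92c_Chart A (M * q) (jB (M * q)))) [h𝔫' : 𝔫'.IsPrime]
    (hU : h11t_Under A φ (jB (M * q)) (jB (M * q * q)) 𝔫' 𝔫)
    (E : FF (M * q * q) →+* LaurentSeries Kbar)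
    (hEB : ∀ b ∈ h92c_Chart A (M * q * q) (jB (M * q * q)),
      E b ∈ softOT A (IsLocalRing.residue A))
    (hcent : h11l_Centred A (jB (M * q * q)) 𝔫 E)
    (hinsep : ∀ b : h92c_Chart A (M * q * q) (jB (M * q * q)),
      h71z_InsepAt A φ (jB (M * q)) 𝔫' E q (b : FF (M * q * q)))
    (x : FF (M * q * q))
    (c : h92c_Chart A (M * q * q) (jB (M * q * q)))
    (c' : h92c_Chart A (M * q) (jB (M * q)))
    (hcc' : (c : FF (M * q * q)) = φ (c' : FF (M * q)))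
    (hc' : c' ∉ 𝔫')
    (hBV : h11l_BV A (jB (M * q * q)) 𝔫 E x c)
    (E' : FF (M * q) →+* LaurentSeries Kbar)
    (hE'B : ∀ b ∈ h92c_Chart A (M * q) (jB (M * q)),
      E' b ∈ softOT A (IsLocalRing.residue A))
    (hcent' : h11l_Centred A (jB (M * q)) 𝔫' E') :
    ∃ Y S : h92c_Chart A (M * q) (jB (M * q)), S ∉ 𝔫' ∧ Y - c' ^ q * S ∈ 𝔫' ∧
      h20v_Unit A (E' (S : FF (M * q))) ∧ h20v_Unit A (E' (Y : FF (M * q))) ∧
      h11l_Small A E (x ^ q - φ ((Y : FF (M * q)) / (S : FF (M * q)))) := by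
  obtain ⟨Y, S, hS, hsm, hval⟩ :=
    h2t_push_insep φ hφB 𝔫 𝔫' hU E hEB hcent hinsep x c c' hcc' hBV
  have hUi := h2t_under_iff hφB hU
  have hY : Y ∉ 𝔫' := by
    intro hY
    have h1 : c' ^ q * S ∈ 𝔫' := by
      have e : c' ^ q * S = Y - (Y - c' ^ q * S) := by ring
      rw [e]
      exact 𝔫'.sub_mem hY hval
    rcases h𝔫'.mem_or_mem h1 with h | h
    · exact hc' (h𝔫'.mem_of_pow_mem _ h)
    · exact hS h
  have hφS : h20v_Unit A (E (φ (S : FF (M * q)))) :=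
    h2t_unit_of_not_mem hcent (h2tφ A M q φ hφB S) (hEB _ (hφB _ S.2))
      fun h => hS ((hUi S).mpr h)
  exact ⟨Y, S, hS, hval, h2t_unit_of_not_mem hcent' S (hE'B _ S.2) hS,
    h2t_unit_of_not_mem hcent' Y (hE'B _ Y.2) hY, h2t_frac φ E _ _ (x ^ q) hφS hsm⟩

/-- a fraction `Y / S` with `S ∉ 𝔫'`, `Y ≡ c' S` at `𝔫'`, congruent to `z` along `E'`, gives the
branch value `c'` of `z` at `𝔫'` along `E'`. -/
theorem h2t_BV_of_frac {N : ℕ} {t : FF N} (𝔫' : Ideal (h92c_Chart A N t))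
    (E' : FF N →+* LaurentSeries Kbar)
    (hE'B : ∀ b ∈ h92c_Chart A N t, E' b ∈ softOT A (IsLocalRing.residue A))
    (z : FF N) (Y S c' : h92c_Chart A N t) (hS : S ∉ 𝔫') (hS0 : (S : FF N) ≠ 0)
    (hval : Y - c' * S ∈ 𝔫')
    (hsm : h11l_Small A E' (z - (Y : FF N) / (S : FF N))) :
    h11l_BV A t 𝔫' E' z c' := by
  refine ⟨Y, S, hS, ?_, hval⟩
  have e : (S : FF N) * z - (Y : FF N) = (S : FF N) * (z - (Y : FF N) / (S : FF N)) := by
    field_simp
  rw [e]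
  exact h41y_small_mul_left (hE'B _ S.2) hsm

end Push

/-! ## The branch norm formula for `α` -/

section Final

/-- the constants of `A₀ˣ` in the chart of level `M q` are outside every prime. -/
theorem h2t_cst_not_mem {A : ValuationSubring Kbar} {N : ℕ} {t : FF N}
    (𝔫' : Ideal (h92c_Chart A N t)) [h𝔫' : 𝔫'.IsPrime] (a : Kbar) (ha : a ≠ 0)
    (h1 : cst N a ∈ h92c_Chart A N t) (h2 : cst N a⁻¹ ∈ h92c_Chart A N t) :
    (⟨cst N a, h1⟩ : h92c_Chart A N t) ∉ 𝔫' := by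
  intro h
  have h3 : (⟨cst N a, h1⟩ : h92c_Chart A N t) * ⟨cst N a⁻¹, h2⟩ = 1 := by
    apply Subtype.ext
    show cst N a * cst N a⁻¹ = 1
    rw [← map_mul, mul_inv_cancel₀ ha, map_one]
  have h4 : (1 : h92c_Chart A N t) ∈ 𝔫' := by
    rw [← h3]
    exact 𝔫'.mul_mem_right _ h
  exact h𝔫'.ne_top ((Ideal.eq_top_iff_one _).mpr h4)

/-- **T-NORM-α** from the branch generation (TN2), the centredness and T-BASIC. -/
theorem h2t_torNormA_of (hGen : H71TorGenA) (hCen : H71TorCenA) (hBasic : H11TorBasic) :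
    H11TorNormA := by
  classical
  intro q hq M _ hqM haux
  haveI : NeZero q := ⟨hq.ne_zero⟩
  intro A hA 𝔫 hSS 𝔫a hNode x hx a₀ a₁ a₂ hC0 hC1 hC2 hBV3
  obtain ⟨hB1, hB2, hB3, -, -, -⟩ := hBasic q hq M hqM haux A hA
  have hGen' := hGen q hq M hqM haux A hA 𝔫 hSS 𝔫a hNode
  have hCen' := hCen q hq M hqM haux A hA 𝔫 hSS 𝔫a hNode
  obtain ⟨hmax', hU, hcI, hcZ⟩ := hNode
  haveI h𝔫 : 𝔫.IsPrime := hSS.1.isPrime
  haveI h𝔫a : 𝔫a.IsPrime := hmax'.isPrime
  -- `α` on the charts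
  have hφB : ∀ y ∈ h92c_Chart A (M * q) (jB (M * q)),
      (heckeAlphaBar Kbar (M * q) q : FF (M * q) →+* FF (M * q * q)) y
        ∈ h92c_Chart A (M * q * q) (jB (M * q * q)) := fun y hy =>
    h59z_alpha_mem_chart_fin (M * q) q A hy
  -- the embeddings
  obtain ⟨ζ, hζ⟩ := HasEnoughRootsOfUnity.exists_primitiveRoot Kbar q
  obtain ⟨hE11ex, hE02ex⟩ := h20n_embExists q hq M hqM
  obtain ⟨E1, hE1⟩ := hE11ex ζ hζ.pow_eq_one (hζ.ne_one hq.one_lt)
  obtain ⟨E2, hE2⟩ := hE02ex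
  have hVE0 : h11l_IsVE M q hq hqM (h20n_E20 M q) := Or.inl rfl
  have hVE1 : h11l_IsVE M q hq hqM E1 := Or.inr (Or.inl ⟨ζ, hζ, hE1⟩)
  have hVE2 : h11l_IsVE M q hq hqM E2 := Or.inr (Or.inr hE2)
  -- the branch values
  obtain ⟨⟨c0, hc0, hBV0⟩, hBV1', hBV2'⟩ := hBV3
  obtain ⟨c1, hc1, hBV1⟩ := hBV1' ζ E1 hζ hE1
  obtain ⟨c2, hc2, hBV2⟩ := hBV2' E2 hE2
  -- the constants of level `M q`
  have hinv : ∀ a : Kbar, h11t_IsC A a → ∀ σ ∈ A.inertiaSubgroupIn ℚ, σ a⁻¹ = a⁻¹ := by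
    intro a ha σ hσ
    rw [map_inv₀, ha.2.2.2 σ hσ]
  have hk0 := (hB1 a₀ hC0.2.1 hC0.2.2.2).2
  have hk1 := (hB1 a₁ hC1.2.1 hC1.2.2.2).2
  have hk2 := (hB1 a₂ hC2.2.1 hC2.2.2.2).2
  have hk0' := (hB1 a₀⁻¹ hC0.2.2.1 (hinv a₀ hC0)).2
  have hk1' := (hB1 a₁⁻¹ hC1.2.2.1 (hinv a₁ hC1)).2
  have hk2' := (hB1 a₂⁻¹ hC2.2.2.1 (hinv a₂ hC2)).2
  have hn0 := h2t_cst_not_mem 𝔫a a₀ hC0.1 hk0 hk0'
  have hn1 := h2t_cst_not_mem 𝔫a a₁ hC1.1 hk1 hk1'
  have hn2 := h2t_cst_not_mem 𝔫a a₂ hC2.1 hk2 hk2'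
  have hcc : ∀ (a : Kbar) (c : h92c_Chart A (M * q * q) (jB (M * q * q))),
      (c : FF (M * q * q)) = cst (M * q * q) a →
      (c : FF (M * q * q))
        = (heckeAlphaBar Kbar (M * q) q : FF (M * q) →+* FF (M * q * q)) (cst (M * q) a) :=
    fun a c hc => hc.trans ((heckeAlphaBar Kbar (M * q) q).commutes a).symm
  constructor
  · -- the component `C_∞`
    obtain ⟨Y0, S0, hS0, hv0, hS0u, hY0u, hsm0⟩ :=
      h2t_sep_datum (heckeAlphaBar Kbar (M * q) q : FF (M * q) →+* FF (M * q * q)) hφB 𝔫 𝔫a hU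
        (h20n_E20 M q) (fun b hb => hB2 b hb _ hVE0) (hCen' _ hVE0) (fun b => (hGen' b).1)
        x c0 ⟨cst (M * q) a₀, hk0⟩ (hcc a₀ c0 hc0) hn0 hBV0
        (h11t_Einf M q) (fun b hb => (hB3 b hb).1) hcI
    obtain ⟨Y1, S1, hS1, hv1, hS1u, hY1u, hsm1⟩ :=
      h2t_sep_datum (heckeAlphaBar Kbar (M * q) q : FF (M * q) →+* FF (M * q * q)) hφB 𝔫 𝔫a hU
        E1 (fun b hb => hB2 b hb _ hVE1) (hCen' _ hVE1) (fun b => (hGen' b).2.1 ζ E1 hζ hE1)
        x c1 ⟨cst (M * q) a₁, hk1⟩ (hcc a₁ c1 hc1) hn1 hBV1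
        (h11t_Einf M q) (fun b hb => (hB3 b hb).1) hcI
    have hTN := h41y_tn1_alpha_inf M q hq hqM A hA ζ hζ E1 hE1 x hx
      ((Y0 : FF (M * q)) / (S0 : FF (M * q))) ((Y1 : FF (M * q)) / (S1 : FF (M * q)))
      (h2t_unit_div _ _ _ hS0u hY0u) (h2t_unit_div _ _ _ hS1u hY1u) hsm0 hsm1
    have hS00 : (S0 : FF (M * q)) ≠ 0 := fun h => hS0u.1 (by rw [h, map_zero])
    have hS10 : (S1 : FF (M * q)) ≠ 0 := fun h => hS1u.1 (by rw [h, map_zero])
    refine ⟨⟨cst (M * q) a₀, hk0⟩ * ⟨cst (M * q) a₁, hk1⟩ ^ (q - 1), ?_, ?_⟩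
    · rw [Subring.coe_mul, Subring.coe_pow]
      show algebraMap Kbar (FF (M * q)) a₀ * algebraMap Kbar (FF (M * q)) a₁ ^ (q - 1)
        = algebraMap Kbar (FF (M * q)) (a₀ * a₁ ^ (q - 1))
      rw [map_mul, map_pow]
    · refine h2t_BV_of_frac 𝔫a (h11t_Einf M q) (fun b hb => (hB3 b hb).1) _
        (Y0 * Y1 ^ (q - 1)) (S0 * S1 ^ (q - 1)) _ ?_ ?_ ?_ ?_
      · intro h
        rcases h𝔫a.mem_or_mem h with h | h
        · exact hS0 h
        · exact hS1 (h𝔫a.mem_of_pow_mem _ h)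
      · rw [Subring.coe_mul, Subring.coe_pow]
        exact mul_ne_zero hS00 (pow_ne_zero _ hS10)
      · have e : Y0 * Y1 ^ (q - 1)
            - (⟨cst (M * q) a₀, hk0⟩ * ⟨cst (M * q) a₁, hk1⟩ ^ (q - 1)) * (S0 * S1 ^ (q - 1))
            = (Y0 - ⟨cst (M * q) a₀, hk0⟩ * S0) * Y1 ^ (q - 1)
              + ⟨cst (M * q) a₀, hk0⟩ * S0 *
                (Y1 ^ (q - 1) - (⟨cst (M * q) a₁, hk1⟩ * S1) ^ (q - 1)) := by
          ring
        rw [e]
        obtain ⟨k, hk⟩ := sub_dvd_pow_sub_pow Y1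
          ((⟨cst (M * q) a₁, hk1⟩ : h92c_Chart A (M * q) (jB (M * q))) * S1) (q - 1)
        rw [hk]
        exact 𝔫a.add_mem (𝔫a.mul_mem_right _ hv0)
          (𝔫a.mul_mem_left _ (𝔫a.mul_mem_right _ hv1))
      · have e : ((Y0 * Y1 ^ (q - 1) : h92c_Chart A (M * q) (jB (M * q))) : FF (M * q))
            / ((S0 * S1 ^ (q - 1) : h92c_Chart A (M * q) (jB (M * q))) : FF (M * q))
            = (Y0 : FF (M * q)) / (S0 : FF (M * q))
              * ((Y1 : FF (M * q)) / (S1 : FF (M * q))) ^ (q - 1) := by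
          rw [Subring.coe_mul, Subring.coe_mul, Subring.coe_pow, Subring.coe_pow, div_pow,
            mul_div_mul_comm]
        rw [e]
        exact hTN
  · -- the component `C_0`
    obtain ⟨Y2, S2, hS2, hv2, hS2u, hY2u, hsm2⟩ :=
      h2t_insep_datum (heckeAlphaBar Kbar (M * q) q : FF (M * q) →+* FF (M * q * q)) hφB 𝔫 𝔫a
        hU E2 (fun b hb => hB2 b hb _ hVE2) (hCen' _ hVE2) (fun b => (hGen' b).2.2 E2 hE2)
        x c2 ⟨cst (M * q) a₂, hk2⟩ (hcc a₂ c2 hc2) hn2 hBV2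
        (h11t_Ezero M q hq hqM) (fun b hb => (hB3 b hb).2) hcZ
    have hTN := h41y_tn1_alpha_zero M q hq hqM A hA E2 hE2 x
      ((Y2 : FF (M * q)) / (S2 : FF (M * q))) (h2t_unit_div _ _ _ hS2u hY2u) hsm2
    have hS20 : (S2 : FF (M * q)) ≠ 0 := fun h => hS2u.1 (by rw [h, map_zero])
    refine ⟨⟨cst (M * q) a₂, hk2⟩ ^ q, ?_, ?_⟩
    · rw [Subring.coe_pow]
      show algebraMap Kbar (FF (M * q)) a₂ ^ q = algebraMap Kbar (FF (M * q)) (a₂ ^ q)
      rw [map_pow]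
    · exact h2t_BV_of_frac 𝔫a (h11t_Ezero M q hq hqM) (fun b hb => (hB3 b hb).2) _
        Y2 S2 _ hS2 hS20 hv2 hTN

end Final

end Fermat.Agent.S36
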