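import Fermat.Agent.S36.H37HorDatum
import Fermat.Agent.S36.H86LocOneIface

/-!
# S36, H92LOC (helper37): `H86LocHor` (LOC-HOR)

`h37w_locHor : H86LocHor` (exact frozen Prop of `S36/H86LocOneIface.lean`): at every horizontal
prime `𝔭` (`𝔭 ≠ ⊥`, `q ∉ 𝔭`) of the two charts, a function `w ∈ F₀` with `m ∣ div w` is
`G ^ m` times a unit of `B_𝔭`, `G` a fraction of elements of the chart.
Also `h37w_locHorAt` (any level, `t = j, 1/j`) and `h37w_fracAt` (`F₀` = fractions of the chart).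
-/

set_option autoImplicit false
set_option linter.style.haveILetI false

open AlgebraicCurve ModularCurve

noncomputable section

namespace Fermat.Agent.S36

open Fermat.Agent.S37 (Kbar GQ FF cst jB gal modelAt auxLevel)

/-- `F₀` is the set of fractions of elements of the chart. -/
theorem h37w_fracAt {q : ℕ} (hq : q.Prime) {A : ValuationSubring Kbar}
    (hA : A.LiesOverPrime q) (N : ℕ) [NeZero N] (t : FF N) (ht : t = jB N ∨ t = (jB N)⁻¹)
    (x : FF N) : x ∈ h92c_F0 A N ↔ h86l_IsFrac (h92c_Chart A N t) x := by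
  constructor
  · exact fun hx => h37w_isFrac hq hA ht x hx
  · rintro ⟨a, b, hb, hab⟩
    have hb0 : (b : FF N) ≠ 0 := fun h => hb (Subtype.ext h)
    have hx : x = (a : FF N) * ((b : FF N))⁻¹ := by
      rw [← hab, mul_inv_cancel_right₀ hb0]
    rw [hx]
    exact mul_mem a.2.2 (inv_mem b.2.2)

/-- **LOC-HOR at a chart**, any level. -/
theorem h37w_locHorAt {q : ℕ} (hq : q.Prime) {A : ValuationSubring Kbar}
    (hA : A.LiesOverPrime q) (N : ℕ) [NeZero N] (t : FF N) (ht : t = jB N ∨ t = (jB N)⁻¹) :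
    H86LocHorAt A N q t := by
  intro 𝔭 h𝔭 h0 hq𝔭 m w hw0 hwF hdiv
  haveI := h𝔭
  obtain ⟨g, hgF, hg0, s, hs, h1, h2⟩ := h37w_horDatum hq hA ht 𝔭 h0 hq𝔭 m w hw0 hwF hdiv
  exact ⟨g, hg0, h37w_isFrac hq hA ht g hgF, s, hs, h1, h2⟩

/-- **LOC-HOR** (exact frozen Prop of `S36/H86LocOneIface.lean`). -/
theorem h37w_locHor : H86LocHor := by
  intro q hq M _ _ _
  haveI : NeZero q := ⟨hq.ne_zero⟩
  intro A hA
  exact ⟨h37w_locHorAt hq hA (M * q * q) _ (Or.inl rfl),
    h37w_locHorAt hq hA (M * q * q) _ (Or.inr rfl)⟩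

end Fermat.Agent.S36
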