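import Fermat.Agent.S36.H71TorGen
import Fermat.Agent.S36.H12TorUniq
import Fermat.Agent.S36.H67Inst
import Fermat.Agent.S36.H60L1Final

/-!
# S36, block T, row T-NORM-A: the bridge R → T for the generation (helper71, prefix `h71z_`)

* `H71TowerGen` (frozen interface; first and fourth outputs of `h67t_tower`, R-TOWER-SS, in the
  vocabulary of the block R): at a closed point `𝔫₂ ∋ q` of the chart of level `M q q` whose
  contraction `𝔫₁` along `α₂` carries `H62NodeDatum`, there is a rational `u` of the chart of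
  level `M` with `α u, β u ∈ 𝔫₁`, `Z = e₂ u ∈ 𝔫₂`, and every `b` of the chart is
  `p(Z) / α₂ d` with `p ∈ B₁[T]`, `α₂ d ∉ 𝔫₂`.
* `h71z_expA_of_tower : H62L1 → H71TowerGen → H71TorExpA` (the export in the vocabulary of the
  block T; `NodeUnder → NodeDatum` is `h12v_node_of_centred`, helper12).
* `h71z_genA_of_tower`, `h71z_cenA_of_tower : H71TowerGen → H71TorGenA / H71TorCenA`
  (`H62L1 = h60r_H62L1`, helper60).
-/

set_option autoImplicit false
set_option linter.style.haveILetI false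
set_option linter.unusedSectionVars false

open AlgebraicCurve ModularCurve Polynomial

noncomputable section

namespace Fermat.Agent.S36

open Fermat.Agent.S37 (Kbar GQ FF cst jB gal modelAt modelFin auxLevel IsRat)
open Fermat.Agent.LGC (jSS)

/-- **tower generation** (first and fourth outputs of `h67t_tower`). -/
def H71TowerGen : Prop :=
  ∀ (q : ℕ) (hq : q.Prime) (M : ℕ) [NeZero M] (hM : ¬ q ∣ M), auxLevel q ∣ M →
    haveI : NeZero q := ⟨hq.ne_zero⟩
    ∀ (A : ValuationSubring Kbar) (hA : A.LiesOverPrime q),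
      ∀ 𝔫₂ : Ideal (h62rChart A (M * q * q) (jB (M * q * q))), 𝔫₂.IsMaximal →
        (q : h62rChart A (M * q * q) (jB (M * q * q))) ∈ 𝔫₂ →
        H62NodeDatum A M hq hM hA (𝔫₂.comap (h62rA2 A M)) →
        ∃ u : h62rChart A M (jB M), IsRat (u : FF M) ∧
          h62rAlpha A M u ∈ 𝔫₂.comap (h62rA2 A M) ∧
          h62rBeta A M hq hM hA u ∈ 𝔫₂.comap (h62rA2 A M) ∧
          ∃ Z : h62rChart A (M * q * q) (jB (M * q * q)),
            (Z : FF (M * q * q)) = h67i_e2 M q (u : FF M) ∧ Z ∈ 𝔫₂ ∧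
            ∀ b : h62rChart A (M * q * q) (jB (M * q * q)),
              ∃ (p : (h62rChart A (M * q) (jSS M q))[X]) (d : h62rChart A (M * q) (jSS M q)),
                h62rA2 A M d ∉ 𝔫₂ ∧ h62rA2 A M d * b = (p.map (h62rA2 A M)).eval Z

section Level

variable {A : ValuationSubring Kbar} {M q : ℕ} [NeZero M] [NeZero q]

/-- the conclusion of `H71TorExpA` at one point, for a chart `t` of level `M q`. -/
def h71z_ExpConclA (A : ValuationSubring Kbar) (M q : ℕ) [NeZero M] [NeZero q]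
    (t : FF (M * q)) (𝔫a : Ideal (h92c_Chart A (M * q) t))
    (𝔫 : Ideal (h92c_Chart A (M * q * q) (jB (M * q * q)))) : Prop :=
  ∃ u : FF M, u ∈ h92c_Chart A M (jB M) ∧ IsRat u ∧
    (∃ X₁ ∈ 𝔫a, (X₁ : FF (M * q)) = heckeAlphaBar Kbar M q u) ∧
    (∃ Y₁ ∈ 𝔫a, (Y₁ : FF (M * q)) = heckeBetaBar Kbar M q u) ∧
    (∃ Z ∈ 𝔫, (Z : FF (M * q * q)) =
      heckeBetaBar Kbar (M * q) q (heckeBetaBar Kbar M q u)) ∧
    ∀ b : h92c_Chart A (M * q * q) (jB (M * q * q)),
      h71z_ExpAt A (heckeAlphaBar Kbar (M * q) q : FF (M * q) →+* FF (M * q * q))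
        t 𝔫a (heckeBetaBar Kbar (M * q) q (heckeBetaBar Kbar M q u))
        (b : FF (M * q * q))

/-- the export (core), chart `jSS M q`. -/
theorem h71z_expA_core (hL1 : H62L1) (hT : H71TowerGen) (hq : q.Prime) (hM : ¬ q ∣ M)
    (haux : auxLevel q ∣ M) (hA : A.LiesOverPrime q)
    (𝔫a : Ideal (h62rChart A (M * q) (jSS M q))) (hmax : 𝔫a.IsMaximal)
    (hinf : h11l_Centred A (jSS M q) 𝔫a (h11t_Einf M q))
    (hzero : h11l_Centred A (jSS M q) 𝔫a (h11t_Ezero M q hq hM))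
    (𝔫 : Ideal (h62rChart A (M * q * q) (jB (M * q * q)))) (h𝔫 : 𝔫.IsMaximal)
    (hU : h11t_Under A (heckeAlphaBar Kbar (M * q) q : FF (M * q) →+* FF (M * q * q))
      (jSS M q) (jB (M * q * q)) 𝔫a 𝔫) :
    h71z_ExpConclA A M q (jSS M q) 𝔫a 𝔫 := by
  have h1 : ∀ b : h62rChart A (M * q) (jSS M q), b ∈ 𝔫a →
      ∀ b' : h62rChart A (M * q * q) (jB (M * q * q)),
        (b' : FF (M * q * q)) = heckeAlphaBar Kbar (M * q) q (b : FF (M * q)) → b' ∈ 𝔫 := by
    intro b hb b' hb'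
    obtain ⟨b'', hb''𝔫, hb''e⟩ := (hU b).mp hb
    have e : b' = b'' := Subtype.ext (hb'.trans hb''e.symm)
    rw [e]
    exact hb''𝔫
  have hnode : H62NodeDatum A M hq hM hA 𝔫a :=
    h12v_node_of_centred hL1 hq hM haux hA 𝔫a hmax hinf hzero
  have hc : Ideal.comap (h62rA2 A M) 𝔫 = 𝔫a := h12w_comap_eq 𝔫a hmax 𝔫 h𝔫 h1
  have hq𝔫a : (q : h62rChart A (M * q) (jSS M q)) ∈ 𝔫a := h12v_q_mem hq hM hA 𝔫a hinf
  have hq𝔫 : (q : h62rChart A (M * q * q) (jB (M * q * q))) ∈ 𝔫 := by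
    have h3 : (q : h62rChart A (M * q) (jSS M q)) ∈ Ideal.comap (h62rA2 A M) 𝔫 := by
      rw [hc]
      exact hq𝔫a
    rw [Ideal.mem_comap, map_natCast] at h3
    exact h3
  have hnode' : H62NodeDatum A M hq hM hA (Ideal.comap (h62rA2 A M) 𝔫) := by
    rw [hc]
    exact hnode
  obtain ⟨u, hrat, hXu, hYu, Z, hZe, hZ, hgen⟩ := hT q hq M hM haux A hA 𝔫 h𝔫 hq𝔫 hnode'
  rw [hc] at hXu hYu
  refine ⟨(u : FF M), u.2, hrat, ⟨h62rAlpha A M u, hXu, h62r_coe_alpha A M u⟩,
    ⟨h62rBeta A M hq hM hA u, hYu, h62r_coe_beta A M hq hM hA u⟩, ⟨Z, hZ, hZe⟩, ?_⟩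
  intro (b : h62rChart A (M * q * q) (jB (M * q * q)))
  obtain ⟨p, d, hd, hdp⟩ := hgen b
  refine ⟨d, p, ?_, ?_⟩
  · intro hd'
    apply hd
    have h4 : d ∈ Ideal.comap (h62rA2 A M) 𝔫 := by
      rw [hc]
      exact hd'
    exact Ideal.mem_comap.mp h4
  · have h5 := congrArg (Subtype.val : h62rChart A (M * q * q) (jB (M * q * q)) →
      FF (M * q * q)) hdp
    have h6 : ((h62rA2 A M d * b : h62rChart A (M * q * q) (jB (M * q * q))) :
        FF (M * q * q)) =
        heckeAlphaBar Kbar (M * q) q (d : FF (M * q)) * (b : FF (M * q * q)) := by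
      rw [Subring.coe_mul, h62r_coe_A2]
    have h7 : (((p.map (h62rA2 A M)).eval Z : h62rChart A (M * q * q) (jB (M * q * q))) :
        FF (M * q * q)) =
        p.eval₂ ((heckeAlphaBar Kbar (M * q) q : FF (M * q) →+* FF (M * q * q)).comp
          (h62rChart A (M * q) (jSS M q)).subtype) (Z : FF (M * q * q)) := by
      rw [Polynomial.eval_map]
      have h8 := Polynomial.hom_eval₂ p (h62rA2 A M)
        (h62rChart A (M * q * q) (jB (M * q * q))).subtype Z
      have h9 : (h62rChart A (M * q * q) (jB (M * q * q))).subtype.comp (h62rA2 A M) =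
          (heckeAlphaBar Kbar (M * q) q : FF (M * q) →+* FF (M * q * q)).comp
            (h62rChart A (M * q) (jSS M q)).subtype :=
        RingHom.ext fun x => h62r_coe_A2 A M x
      rw [h9] at h8
      exact h8
    have h10 : heckeAlphaBar Kbar (M * q) q (d : FF (M * q)) * (b : FF (M * q * q)) =
        p.eval₂ ((heckeAlphaBar Kbar (M * q) q : FF (M * q) →+* FF (M * q * q)).comp
          (h62rChart A (M * q) (jSS M q)).subtype) (Z : FF (M * q * q)) := by
      rw [← h6, ← h7]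
      exact h5
    rw [hZe] at h10
    exact h10

/-- the export, for the chart `t = jSS M q` of level `M q`. -/
theorem h71z_expA_gen (hL1 : H62L1) (hT : H71TowerGen) (hq : q.Prime) (hM : ¬ q ∣ M)
    (haux : auxLevel q ∣ M) (hA : A.LiesOverPrime q) (t : FF (M * q)) (ht : jSS M q = t)
    (𝔫a : Ideal (h92c_Chart A (M * q) t)) (hmax : 𝔫a.IsMaximal)
    (hinf : h11l_Centred A t 𝔫a (h11t_Einf M q))
    (hzero : h11l_Centred A t 𝔫a (h11t_Ezero M q hq hM))
    (𝔫 : Ideal (h92c_Chart A (M * q * q) (jB (M * q * q)))) (h𝔫 : 𝔫.IsMaximal)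
    (hU : h11t_Under A (heckeAlphaBar Kbar (M * q) q : FF (M * q) →+* FF (M * q * q))
      t (jB (M * q * q)) 𝔫a 𝔫) :
    h71z_ExpConclA A M q t 𝔫a 𝔫 := by
  subst ht
  exact h71z_expA_core hL1 hT hq hM haux hA 𝔫a hmax hinf hzero 𝔫 h𝔫 hU

end Level

/-- **the export of R-TOWER-SS in the vocabulary of the block T.** -/
theorem h71z_expA_of_tower (hL1 : H62L1) (hT : H71TowerGen) : H71TorExpA := by
  intro q hq M _ hqM haux
  haveI : NeZero q := ⟨hq.ne_zero⟩
  intro A hA 𝔫 hSS 𝔫a hNU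
  exact h71z_expA_gen hL1 hT hq hqM haux hA (jB (M * q)) (Fermat.Agent.LGC.h71i_jSS_eq M q) 𝔫a
    hNU.1 hNU.2.2.1 hNU.2.2.2 𝔫 hSS.1 hNU.2.1

/-- **TN2 (α) from the tower.** -/
theorem h71z_genA_of_tower (hT : H71TowerGen) : H71TorGenA :=
  h71z_genA (h71z_expA_of_tower h60r_H62L1 hT)

/-- **centredness (α) from the tower.** -/
theorem h71z_cenA_of_tower (hT : H71TowerGen) : H71TorCenA :=
  h71z_cenA (h71z_expA_of_tower h60r_H62L1 hT)

end Fermat.Agent.S36
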