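import Mathlib

/-!
# S36 (helper80): local factorisation in a factorial ring (the local datum of the gate)

Abstract commutative algebra, Mathlib only.

`R` a UFD with fraction field `F`, `w ∈ Fˣ`, `r > 0`.  If for every prime element `p` of `R` the
order of `w` at `p` is divisible by `r` (`w = p ^ (r (a - b)) x / y` with `p ∤ x, y`), then
`w = u G ^ r` with `u ∈ Rˣ`, `G ∈ Fˣ`.

* `h80f_pow_cancel` : `p ^ m c = p ^ n d`, `p ∤ c, d` ⟹ `m = n`.
* `h80f_core` : the statement in `R` (for `w = x / y`).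
* `h80f_local_root` : the statement in `F`.
-/

set_option autoImplicit false

namespace Fermat.Agent.S36

variable {R : Type*} [CommRing R] [IsDomain R]

/-- comparison of exponents. -/
theorem h80f_pow_cancel {p c d : R} (hp : Prime p) (hc : ¬ p ∣ c) (hd : ¬ p ∣ d) {m n : ℕ}
    (h : p ^ m * c = p ^ n * d) : m = n := by
  wlog hmn : m ≤ n generalizing m n c d
  · exact (this hd hc h.symm (le_of_not_ge hmn)).symm
  obtain ⟨k, rfl⟩ := Nat.exists_eq_add_of_le hmn
  rcases Nat.eq_zero_or_pos k with rfl | hk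
  · rfl
  exfalso
  have h1 : p ^ m * c = p ^ m * (p ^ k * d) := by rw [h, pow_add]; ring
  have h2 : c = p ^ k * d := mul_left_cancel₀ (pow_ne_zero m hp.ne_zero) h1
  apply hc
  rw [h2]
  exact Dvd.dvd.mul_right (dvd_pow_self p hk.ne') d

variable [UniqueFactorizationMonoid R]

/-- **local factorisation, in `R`.** -/
theorem h80f_core (r : ℕ) :
    ∀ z : R, z ≠ 0 → ∀ x y : R, x * y = z →
      (∀ p : R, Prime p → ∃ (a b : ℕ) (x' y' : R), ¬ p ∣ x' ∧ ¬ p ∣ y' ∧
        y' * p ^ (r * b) * x = p ^ (r * a) * x' * y) →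
      ∃ (g h : R) (u v : Rˣ), g ≠ 0 ∧ h ≠ 0 ∧ x * h ^ r * v = u * g ^ r * y := by
  intro z
  induction z using (wellFounded_dvdNotUnit (α := R)).induction with
  | _ z ih =>
  intro hz x y hxy H
  have hx0 : x ≠ 0 := fun h => hz (by rw [← hxy, h, zero_mul])
  have hy0 : y ≠ 0 := fun h => hz (by rw [← hxy, h, mul_zero])
  by_cases hu : IsUnit z
  · have hxu : IsUnit x := isUnit_of_mul_isUnit_left (hxy ▸ hu)
    have hyu : IsUnit y := isUnit_of_mul_isUnit_right (hxy ▸ hu)
    obtain ⟨u, rfl⟩ := hxu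
    obtain ⟨v, rfl⟩ := hyu
    exact ⟨1, 1, u, v, one_ne_zero, one_ne_zero, by ring⟩
  · obtain ⟨p, hpirr, hpz⟩ := WfDvdMonoid.exists_irreducible_factor hu hz
    have hp : Prime p := UniqueFactorizationMonoid.irreducible_iff_prime.mp hpirr
    obtain ⟨i, x₁, hx₁, hxe⟩ := WfDvdMonoid.max_power_factor hx0 hpirr
    obtain ⟨j, y₁, hy₁, hye⟩ := WfDvdMonoid.max_power_factor hy0 hpirr
    have hx₁0 : x₁ ≠ 0 := fun h => hx₁ (h ▸ dvd_zero p)
    have hy₁0 : y₁ ≠ 0 := fun h => hy₁ (h ▸ dvd_zero p)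
    have hzz : z = x₁ * y₁ * p ^ (i + j) := by
      rw [← hxy, hxe, hye, pow_add]; ring
    have hij : 0 < i + j := by
      rcases Nat.eq_zero_or_pos (i + j) with h0 | h0
      · exfalso
        rw [hzz, h0, pow_zero, mul_one] at hpz
        rcases hp.dvd_or_dvd hpz with h | h
        · exact hx₁ h
        · exact hy₁ h
      · exact h0
    have hdnu : DvdNotUnit (x₁ * y₁) z := by
      refine ⟨mul_ne_zero hx₁0 hy₁0, p ^ (i + j), ?_, hzz⟩
      intro hun
      exact hp.not_isUnit (isUnit_of_dvd_unit (dvd_pow_self p hij.ne') hun)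
    -- the hypothesis for `x₁ / y₁`
    have H₁ : ∀ p' : R, Prime p' → ∃ (a b : ℕ) (x' y' : R), ¬ p' ∣ x' ∧ ¬ p' ∣ y' ∧
        y' * p' ^ (r * b) * x₁ = p' ^ (r * a) * x' * y₁ := by
      intro p' hp'
      by_cases hass : p' ∣ p
      · have hpp' : p ∣ p' := by
          obtain ⟨c, hc⟩ := hass
          rcases hpirr.isUnit_or_isUnit hc with h | h
          · exact absurd h hp'.not_isUnit
          · obtain ⟨cu, rfl⟩ := h
            exact ⟨(↑cu⁻¹ : R), by rw [hc, mul_assoc, Units.mul_inv, mul_one]⟩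
        refine ⟨0, 0, x₁, y₁, fun h => hx₁ (hpp'.trans h), fun h => hy₁ (hpp'.trans h), ?_⟩
        ring
      · obtain ⟨a, b, x', y', hx', hy', h⟩ := H p' hp'
        have hnp : ∀ k : ℕ, ∀ c : R, ¬ p' ∣ c → ¬ p' ∣ c * p ^ k := by
          intro k c hc hd
          rcases hp'.dvd_or_dvd hd with h1 | h1
          · exact hc h1
          · exact hass (hp'.dvd_of_dvd_pow h1)
        rw [hxe, hye] at h
        rcases le_total j i with hji | hij'
        · obtain ⟨k, rfl⟩ := Nat.exists_eq_add_of_le hji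
          refine ⟨a, b, x', y' * p ^ k, hx', hnp k y' hy', ?_⟩
          have h1 : p ^ j * (y' * p ^ k * p' ^ (r * b) * x₁) =
              p ^ j * (p' ^ (r * a) * x' * y₁) := by
            have e1 : p ^ j * (y' * p ^ k * p' ^ (r * b) * x₁) =
                y' * p' ^ (r * b) * (p ^ (j + k) * x₁) := by rw [pow_add]; ring
            have e2 : p ^ j * (p' ^ (r * a) * x' * y₁) = p' ^ (r * a) * x' * (p ^ j * y₁) := by
              ring
            rw [e1, e2, h]
          exact mul_left_cancel₀ (pow_ne_zero j hp.ne_zero) h1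
        · obtain ⟨k, rfl⟩ := Nat.exists_eq_add_of_le hij'
          refine ⟨a, b, x' * p ^ k, y', hnp k x' hx', hy', ?_⟩
          have h1 : p ^ i * (y' * p' ^ (r * b) * x₁) =
              p ^ i * (p' ^ (r * a) * (x' * p ^ k) * y₁) := by
            have e1 : p ^ i * (y' * p' ^ (r * b) * x₁) = y' * p' ^ (r * b) * (p ^ i * x₁) := by
              ring
            have e2 : p ^ i * (p' ^ (r * a) * (x' * p ^ k) * y₁) =
                p' ^ (r * a) * x' * (p ^ (i + k) * y₁) := by rw [pow_add]; ring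
            rw [e1, e2, h]
          exact mul_left_cancel₀ (pow_ne_zero i hp.ne_zero) h1
    obtain ⟨g₁, h₁, u, v, hg₁, hh₁, e₁⟩ :=
      ih (x₁ * y₁) hdnu (mul_ne_zero hx₁0 hy₁0) x₁ y₁ rfl H₁
    obtain ⟨a, b, x', y', hx', hy', h⟩ := H p hp
    have key : r * b + i = r * a + j := by
      rw [hxe, hye] at h
      have h' : p ^ (r * b + i) * (y' * x₁) = p ^ (r * a + j) * (x' * y₁) := by
        have e1 : p ^ (r * b + i) * (y' * x₁) = y' * p ^ (r * b) * (p ^ i * x₁) := by
          rw [pow_add]; ring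
        have e2 : p ^ (r * a + j) * (x' * y₁) = p ^ (r * a) * x' * (p ^ j * y₁) := by
          rw [pow_add]; ring
        rw [e1, e2, h]
      refine h80f_pow_cancel hp ?_ ?_ h'
      · intro hd
        rcases hp.dvd_or_dvd hd with h1 | h1
        · exact hy' h1
        · exact hx₁ h1
      · intro hd
        rcases hp.dvd_or_dvd hd with h1 | h1
        · exact hx' h1
        · exact hy₁ h1
    refine ⟨g₁ * p ^ a, h₁ * p ^ b, u, v, mul_ne_zero hg₁ (pow_ne_zero a hp.ne_zero),
      mul_ne_zero hh₁ (pow_ne_zero b hp.ne_zero), ?_⟩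
    rw [hxe, hye]
    have e1 : p ^ i * x₁ * (h₁ * p ^ b) ^ r * (v : R) =
        p ^ (r * b + i) * (x₁ * h₁ ^ r * v) := by
      rw [mul_pow, ← pow_mul, pow_add, mul_comm b r]; ring
    have e2 : (u : R) * (g₁ * p ^ a) ^ r * (p ^ j * y₁) =
        p ^ (r * a + j) * (u * g₁ ^ r * y₁) := by
      rw [mul_pow, ← pow_mul, pow_add, mul_comm a r]; ring
    rw [e1, e2, e₁, key]

variable {F : Type*} [Field F] [Algebra R F] [IsFractionRing R F]

/-- **local factorisation.**  In a UFD `R` with fraction field `F`: an element `w ≠ 0` of `F`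
whose order at every prime element is divisible by `r` is a unit of `R` times an `r`-th power. -/
theorem h80f_local_root (r : ℕ) (w : F) (hw : w ≠ 0)
    (H : ∀ p : R, Prime p → ∃ (a b : ℕ) (x y : R), ¬ p ∣ x ∧ ¬ p ∣ y ∧
      algebraMap R F (y * p ^ (r * b)) * w = algebraMap R F (p ^ (r * a) * x)) :
    ∃ (G : F) (u : Rˣ), G ≠ 0 ∧ w = algebraMap R F u * G ^ r := by
  have hinj : Function.Injective (algebraMap R F) := IsFractionRing.injective R F
  obtain ⟨x, y, hy, hxy⟩ := IsFractionRing.div_surjective (A := R) w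
  have hy0 : y ≠ 0 := nonZeroDivisors.ne_zero hy
  have hyF : algebraMap R F y ≠ 0 := fun h => hy0 (hinj (by rw [h, map_zero]))
  have hx0 : x ≠ 0 := by
    rintro rfl
    rw [map_zero, zero_div] at hxy
    exact hw hxy.symm
  have hxF : algebraMap R F x ≠ 0 := fun h => hx0 (hinj (by rw [h, map_zero]))
  have H' : ∀ p : R, Prime p → ∃ (a b : ℕ) (x' y' : R), ¬ p ∣ x' ∧ ¬ p ∣ y' ∧
      y' * p ^ (r * b) * x = p ^ (r * a) * x' * y := by
    intro p hp
    obtain ⟨a, b, x', y', hx', hy', h⟩ := H p hp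
    refine ⟨a, b, x', y', hx', hy', hinj ?_⟩
    rw [← hxy] at h
    rw [map_mul, map_mul (algebraMap R F) (p ^ (r * a) * x') y, ← h]
    field_simp
  obtain ⟨g, h, u, v, hg, hh, e⟩ := h80f_core r (x * y) (mul_ne_zero hx0 hy0) x y rfl H'
  have hgF : algebraMap R F g ≠ 0 := fun h0 => hg (hinj (by rw [h0, map_zero]))
  have hhF : algebraMap R F h ≠ 0 := fun h0 => hh (hinj (by rw [h0, map_zero]))
  have hvF : algebraMap R F (v : R) ≠ 0 := fun h0 => v.ne_zero (hinj (by rw [h0, map_zero]))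
  refine ⟨algebraMap R F g / algebraMap R F h, u * v⁻¹, div_ne_zero hgF hhF, ?_⟩
  have eF : algebraMap R F x * algebraMap R F h ^ r * algebraMap R F (v : R) =
      algebraMap R F (u : R) * algebraMap R F g ^ r * algebraMap R F y := by
    rw [← map_pow, ← map_pow, ← map_mul, ← map_mul, ← map_mul, ← map_mul, e]
  have hvinv : algebraMap R F ((u * v⁻¹ : Rˣ) : R) =
      algebraMap R F (u : R) / algebraMap R F (v : R) := by
    rw [eq_div_iff hvF, ← map_mul]
    congr 1
    rw [Units.val_mul, mul_assoc, Units.inv_mul, mul_one]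
  rw [← hxy, hvinv, div_pow]
  field_simp
  linear_combination eF

end Fermat.Agent.S36
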