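import Fermat.Agent.S36.H86LocO
import Fermat.Agent.S36.H80Fact

/-!
# S36, row LOC-FACT: the local factorisation at a closed point of the special fibre
(helper86, prefix `h86l_`)

`h86l_locFactAbs : H86LocFactAbs` (frozen in `S36/H86LocOneIface.lean`): at a closed point `𝔫`
of a noetherian chart `B` with `H62RegAt 𝔫 q` and a vertical prime through `𝔫`, a function
`w ∈ Frac B` which is a unit of `V` and has `m ∣ ord_𝔭 w` at the horizontal primes through `𝔫`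
is `w = ε g₀ ^ m` with `ε` a unit of `B_𝔫` and `g₀ ∈ Frac B` integral at the components
through `𝔫`.

Route: `O = B_𝔫` is a UFD (`h86l_ufd`), `h80f_core` gives `w = (u / v) (g / h) ^ m`; `g / h` in
lowest terms has no vertical prime in its denominator.
-/

set_option autoImplicit false

open IsLocalRing

namespace Fermat.Agent.S36

section Fact

variable {F : Type*} [Field F] (B : Subring F) (𝔫 : Ideal B) [h𝔫 : 𝔫.IsPrime]

/-- an element of `O` gives a denominator outside `𝔫`. -/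
theorem h86l_exists_den (z : h66sO B 𝔫) : ∃ s : B, s ∉ 𝔫 ∧ (s : F) * (z : F) ∈ B := z.2

/-- `p ∤ s` for `s ∉ 𝔫`. -/
theorem h86l_not_dvd_of_not_mem {p : h66sO B 𝔫} (hp : Prime p) {s : B} (hs : s ∉ 𝔫) :
    ¬ p ∣ h86l_incl B 𝔫 s :=
  fun h => hp.not_isUnit (isUnit_of_dvd_unit h (h86l_isUnit_incl B 𝔫 hs))

end Fact

/-- **LOC-FACT.** -/
theorem h86l_locFactAbs : H86LocFactAbs := by
  intro F _ B V hBV _ 𝔫 h𝔫max q hq hq𝔫 hqF hreg hex hden hinv m w hw0 hwfrac hwV hw'V hhor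
  classical
  haveI h𝔫 : 𝔫.IsPrime := h𝔫max.isPrime
  haveI : IsNoetherianRing (h66sO B 𝔫) := h86l_isNoetherianRing B 𝔫
  obtain ⟨x, hx, y, hy, hgen⟩ := hreg.two_gen
  have hmax := h86l_max_eq_span B 𝔫 x y hx hy hgen
  obtain ⟨P, hPp, hqP, hPle, hPne⟩ := hex
  have hqB : ((q : ℕ) : B) ≠ 0 := by
    intro h
    apply hqF
    have := congrArg (Subtype.val : B → F) h
    simpa using this
  have hbot : ∀ P' : Ideal B, ((q : ℕ) : B) ∈ P' → P' ≠ ⊥ := by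
    rintro P' hqP' rfl
    exact hqB (by simpa using hqP')
  haveI hufd : UniqueFactorizationMonoid (h66sO B 𝔫) :=
    h86l_ufd B 𝔫 _ _ hmax P hPp hPle hPne (hbot P hqP)
  -- vertical primes are cut out by prime elements
  have hvert : ∀ P' : Ideal B, h86l_IsVert 𝔫 ((q : ℕ) : B) P' →
      ∃ f : h66sO B 𝔫, Prime f ∧ ∀ b : B, f ∣ h86l_incl B 𝔫 b ↔ b ∈ P' := by
    rintro P' ⟨hP'p, hqP', hP'le, hP'ne⟩
    exact h86l_PO_principal B 𝔫 _ _ hmax P' hP'p hP'le hP'ne (hbot P' hqP')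
  -- the contraction of a prime element dividing `q` is a vertical prime
  have hcontr : ∀ p : h66sO B 𝔫, Prime p → p ∣ h86l_incl B 𝔫 ((q : ℕ) : B) →
      ∃ 𝔭 : Ideal B, h86l_IsVert 𝔫 ((q : ℕ) : B) 𝔭 ∧ ∀ b : B, b ∈ 𝔭 ↔ p ∣ h86l_incl B 𝔫 b := by
    intro p hp hpq
    obtain ⟨𝔭, h𝔭p, h𝔭le, -, h𝔭⟩ := h86l_comap_prime B 𝔫 p hp
    refine ⟨𝔭, ⟨h𝔭p, (h𝔭 _).mpr hpq, h𝔭le, ?_⟩, h𝔭⟩
    intro h𝔭𝔫
    -- `𝔪_O ⊆ (p)`
    obtain ⟨f, hf, hfP⟩ := hvert P ⟨hPp, hqP, hPle, hPne⟩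
    have hfm : f ∈ maximalIdeal (h66sO B 𝔫) := by
      rw [mem_maximalIdeal, mem_nonunits_iff]
      exact hf.not_isUnit
    have hle : maximalIdeal (h66sO B 𝔫) ≤ Ideal.span {p} := by
      rw [hmax, Ideal.span_le]
      intro z hz
      rcases hz with rfl | rfl
      · exact Ideal.mem_span_singleton.mpr ((h𝔭 x).mp (h𝔭𝔫 ▸ hx))
      · exact Ideal.mem_span_singleton.mpr ((h𝔭 y).mp (h𝔭𝔫 ▸ hy))
    have hpf : p ∣ f := Ideal.mem_span_singleton.mp (hle hfm)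
    have hfp : f ∣ p := by
      obtain ⟨c, hc⟩ := hpf
      rcases hf.irreducible.isUnit_or_isUnit hc with h | h
      · exact absurd h hp.not_isUnit
      · obtain ⟨cu, rfl⟩ := h
        exact ⟨(↑cu⁻¹ : h66sO B 𝔫), by rw [hc, mul_assoc, Units.mul_inv, mul_one]⟩
    apply hPne
    refine le_antisymm hPle fun b hb => ?_
    rw [← hfP]
    exact hfp.trans ((h𝔭 b).mp (h𝔭𝔫 ▸ hb))
  -- `w = a₀ / b₀`
  obtain ⟨a₀, b₀, hb₀, hab⟩ := hwfrac
  have hb₀F : (b₀ : F) ≠ 0 := fun h => hb₀ (Subtype.ext h)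
  have ha₀ : a₀ ≠ 0 := by
    rintro rfl
    have h1 : w * (b₀ : F) = 0 := by rw [hab]; rfl
    rcases mul_eq_zero.mp h1 with h | h
    · exact hw0 h
    · exact hb₀F h
  have hιa₀ : h86l_incl B 𝔫 a₀ ≠ 0 := fun h => ha₀ (h86l_incl_injective B 𝔫 (by rw [h, map_zero]))
  have hιb₀ : h86l_incl B 𝔫 b₀ ≠ 0 := fun h => hb₀ (h86l_incl_injective B 𝔫 (by rw [h, map_zero]))
  -- `w` is a unit at the vertical primes
  have hunit : ∀ p : h66sO B 𝔫, Prime p → p ∣ h86l_incl B 𝔫 ((q : ℕ) : B) →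
      ∃ s c : B, ¬ p ∣ h86l_incl B 𝔫 s ∧ ¬ p ∣ h86l_incl B 𝔫 c ∧ (s : F) * w = (c : F) := by
    intro p hp hpq
    obtain ⟨𝔭, h𝔭v, h𝔭⟩ := hcontr p hp hpq
    obtain ⟨s, hs, hsw⟩ := hden 𝔭 h𝔭v w hwV
    obtain ⟨s', hs', hsw'⟩ := hden 𝔭 h𝔭v w⁻¹ hw'V
    have hs1 : ¬ p ∣ h86l_incl B 𝔫 s := fun h => hs ((h𝔭 s).mpr h)
    have hs2 : ¬ p ∣ h86l_incl B 𝔫 s' := fun h => hs' ((h𝔭 s').mpr h)
    refine ⟨s, ⟨_, hsw⟩, hs1, ?_, rfl⟩
    intro hd
    have h1 : (⟨_, hsw⟩ : B) * ⟨_, hsw'⟩ = s * s' := by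
      apply Subtype.ext
      push_cast
      field_simp
    have h2 : p ∣ h86l_incl B 𝔫 (s * s') := by
      rw [← h1, map_mul]
      exact hd.mul_right _
    rw [map_mul] at h2
    exact (hp.dvd_or_dvd h2).elim hs1 hs2
  -- the orders of `w` at the prime elements of `O` are divisible by `m`
  have H : ∀ p : h66sO B 𝔫, Prime p → ∃ (a b : ℕ) (x' y' : h66sO B 𝔫), ¬ p ∣ x' ∧ ¬ p ∣ y' ∧
      y' * p ^ (m * b) * h86l_incl B 𝔫 a₀ = p ^ (m * a) * x' * h86l_incl B 𝔫 b₀ := by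
    intro p hp
    by_cases hpq : p ∣ h86l_incl B 𝔫 ((q : ℕ) : B)
    · obtain ⟨s, c, hs, hc, hsc⟩ := hunit p hp hpq
      refine ⟨0, 0, h86l_incl B 𝔫 c, h86l_incl B 𝔫 s, hc, hs, ?_⟩
      apply Subtype.ext
      simp only [mul_zero, pow_zero, mul_one, one_mul, Subring.coe_mul, h86l_incl_coe]
      rw [← hab, ← hsc]
      ring
    · obtain ⟨𝔭, h𝔭p, h𝔭le, h𝔭0, h𝔭⟩ := h86l_comap_prime B 𝔫 p hp
      have hq𝔭 : ((q : ℕ) : B) ∉ 𝔭 := fun h => hpq ((h𝔭 _).mp h)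
      obtain ⟨G, hG0, ⟨aG, bG, hbG, hG⟩, s, hs, h1, h2⟩ := hhor 𝔭 h𝔭p h𝔭0 hq𝔭 h𝔭le
      have hbGF : (bG : F) ≠ 0 := fun h => hbG (Subtype.ext h)
      have haG : aG ≠ 0 := by
        rintro rfl
        have h3 : G * (bG : F) = 0 := by rw [hG]; rfl
        rcases mul_eq_zero.mp h3 with h | h
        · exact hG0 h
        · exact hbGF h
      have hιaG : h86l_incl B 𝔫 aG ≠ 0 :=
        fun h => haG (h86l_incl_injective B 𝔫 (by rw [h, map_zero]))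
      have hιbG : h86l_incl B 𝔫 bG ≠ 0 :=
        fun h => hbG (h86l_incl_injective B 𝔫 (by rw [h, map_zero]))
      obtain ⟨α, a'', ha'', hαe⟩ := WfDvdMonoid.max_power_factor hιaG hp.irreducible
      obtain ⟨β, b'', hb'', hβe⟩ := WfDvdMonoid.max_power_factor hιbG hp.irreducible
      have hs1 : ¬ p ∣ h86l_incl B 𝔫 s := fun h => hs ((h𝔭 s).mpr h)
      have hc1 : ¬ p ∣ h86l_incl B 𝔫 ⟨_, h1⟩ := by
        intro hd
        have h3 : (⟨_, h1⟩ : B) * ⟨_, h2⟩ = s * s := by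
          apply Subtype.ext
          push_cast
          have hGm : G ^ m ≠ 0 := pow_ne_zero m hG0
          field_simp
        have h4 : p ∣ h86l_incl B 𝔫 (s * s) := by
          rw [← h3, map_mul]
          exact hd.mul_right _
        rw [map_mul] at h4
        exact (hp.dvd_or_dvd h4).elim hs1 hs1
      refine ⟨α, β, h86l_incl B 𝔫 ⟨_, h1⟩ * a'' ^ m, h86l_incl B 𝔫 s * b'' ^ m, ?_, ?_, ?_⟩
      · intro hd
        rcases hp.dvd_or_dvd hd with h | h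
        · exact hc1 h
        · exact ha'' (hp.dvd_of_dvd_pow h)
      · intro hd
        rcases hp.dvd_or_dvd hd with h | h
        · exact hs1 h
        · exact hb'' (hp.dvd_of_dvd_pow h)
      · apply Subtype.ext
        have e1 : (aG : F) = (p : F) ^ α * (a'' : F) := by
          have := congrArg (Subtype.val : h66sO B 𝔫 → F) hαe
          simpa using this
        have e2 : (bG : F) = (p : F) ^ β * (b'' : F) := by
          have := congrArg (Subtype.val : h66sO B 𝔫 → F) hβe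
          simpa using this
        have hGm : G ^ m ≠ 0 := pow_ne_zero m hG0
        have hc : (s : F) * (w * (G ^ m)⁻¹) * G ^ m = (s : F) * w := by
          field_simp
        simp only [Subring.coe_mul, Subring.coe_pow, h86l_incl_coe]
        calc (s : F) * (b'' : F) ^ m * (p : F) ^ (m * β) * (a₀ : F)
            = (s : F) * ((p : F) ^ β * (b'' : F)) ^ m * (a₀ : F) := by ring
          _ = (s : F) * (bG : F) ^ m * (w * (b₀ : F)) := by rw [← e2, hab]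
          _ = ((s : F) * w) * (bG : F) ^ m * (b₀ : F) := by ring
          _ = (s : F) * (w * (G ^ m)⁻¹) * G ^ m * (bG : F) ^ m * (b₀ : F) := by rw [hc]
          _ = (s : F) * (w * (G ^ m)⁻¹) * (G * (bG : F)) ^ m * (b₀ : F) := by ring
          _ = (s : F) * (w * (G ^ m)⁻¹) * ((p : F) ^ α * (a'' : F)) ^ m * (b₀ : F) := by
            rw [hG, e1]
          _ = (p : F) ^ (m * α) * ((s : F) * (w * (G ^ m)⁻¹) * (a'' : F) ^ m) * (b₀ : F) := by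
            ring
  obtain ⟨g, h, u, v, hg, hh, e⟩ := h80f_core m (h86l_incl B 𝔫 a₀ * h86l_incl B 𝔫 b₀)
    (mul_ne_zero hιa₀ hιb₀) (h86l_incl B 𝔫 a₀) (h86l_incl B 𝔫 b₀) rfl H
  -- lowest terms: no vertical prime in the denominator
  obtain ⟨g', h', hg', hh', e', hfh⟩ : ∃ g' h' : h66sO B 𝔫, g' ≠ 0 ∧ h' ≠ 0 ∧
      h86l_incl B 𝔫 a₀ * h' ^ m * (v : h66sO B 𝔫) =
        (u : h66sO B 𝔫) * g' ^ m * h86l_incl B 𝔫 b₀ ∧
      ∀ f : h66sO B 𝔫, Prime f → f ∣ h86l_incl B 𝔫 ((q : ℕ) : B) → ¬ f ∣ h' := by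
    rcases Nat.eq_zero_or_pos m with hm | hm
    · refine ⟨1, 1, one_ne_zero, one_ne_zero, ?_,
        fun f hf _ hd => hf.not_isUnit (isUnit_of_dvd_one hd)⟩
      rw [hm] at e ⊢
      simpa using e
    · obtain ⟨g', h', c', hrel, hcg, hch⟩ :=
        UniqueFactorizationMonoid.exists_reduced_factors g hg h
      have hc' : c' ≠ 0 := fun h0 => hg (by rw [← hcg, h0, zero_mul])
      have hg' : g' ≠ 0 := fun h0 => hg (by rw [← hcg, h0, mul_zero])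
      have hh' : h' ≠ 0 := fun h0 => hh (by rw [← hch, h0, mul_zero])
      have e' : h86l_incl B 𝔫 a₀ * h' ^ m * (v : h66sO B 𝔫) =
          (u : h66sO B 𝔫) * g' ^ m * h86l_incl B 𝔫 b₀ := by
        apply mul_left_cancel₀ (pow_ne_zero m hc')
        rw [← hcg, ← hch] at e
        calc c' ^ m * (h86l_incl B 𝔫 a₀ * h' ^ m * (v : h66sO B 𝔫))
            = h86l_incl B 𝔫 a₀ * (c' * h') ^ m * (v : h66sO B 𝔫) := by ring
          _ = (u : h66sO B 𝔫) * (c' * g') ^ m * h86l_incl B 𝔫 b₀ := e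
          _ = c' ^ m * ((u : h66sO B 𝔫) * g' ^ m * h86l_incl B 𝔫 b₀) := by ring
      refine ⟨g', h', hg', hh', e', fun f hf hfq hfh => ?_⟩
      obtain ⟨s, c, hs, hc, hsc⟩ := hunit f hf hfq
      have h1 : h86l_incl B 𝔫 c * h86l_incl B 𝔫 b₀ =
          h86l_incl B 𝔫 s * h86l_incl B 𝔫 a₀ := by
        apply Subtype.ext
        simp only [Subring.coe_mul, h86l_incl_coe]
        rw [← hsc, ← hab]
        ring
      have e2 : h86l_incl B 𝔫 c * h' ^ m * (v : h66sO B 𝔫) =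
          (u : h66sO B 𝔫) * g' ^ m * h86l_incl B 𝔫 s := by
        apply mul_right_cancel₀ hιb₀
        calc h86l_incl B 𝔫 c * h' ^ m * (v : h66sO B 𝔫) * h86l_incl B 𝔫 b₀
            = (h86l_incl B 𝔫 c * h86l_incl B 𝔫 b₀) * h' ^ m * (v : h66sO B 𝔫) := by ring
          _ = h86l_incl B 𝔫 s * (h86l_incl B 𝔫 a₀ * h' ^ m * (v : h66sO B 𝔫)) := by
            rw [h1]; ring
          _ = (u : h66sO B 𝔫) * g' ^ m * h86l_incl B 𝔫 s * h86l_incl B 𝔫 b₀ := by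
            rw [e']; ring
      have h3 : f ∣ (u : h66sO B 𝔫) * g' ^ m * h86l_incl B 𝔫 s := by
        rw [← e2]
        exact Dvd.dvd.mul_right (Dvd.dvd.mul_left (dvd_pow hfh hm.ne') _) _
      rcases hf.dvd_or_dvd h3 with h4 | h4
      · rcases hf.dvd_or_dvd h4 with h5 | h5
        · exact hf.not_isUnit (isUnit_of_dvd_unit h5 u.isUnit)
        · exact hf.not_isUnit (hrel (hf.dvd_of_dvd_pow h5) hfh)
      · exact hs h4
  -- values in `F`
  have hg'F : (g' : F) ≠ 0 := fun h0 => hg' (Subtype.ext h0)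
  have hh'F : (h' : F) ≠ 0 := fun h0 => hh' (Subtype.ext h0)
  have huF : ((u : h66sO B 𝔫) : F) ≠ 0 := fun h0 => u.ne_zero (Subtype.ext h0)
  have hvF : ((v : h66sO B 𝔫) : F) ≠ 0 := fun h0 => v.ne_zero (Subtype.ext h0)
  have eF : w * (h' : F) ^ m * ((v : h66sO B 𝔫) : F) =
      ((u : h66sO B 𝔫) : F) * (g' : F) ^ m := by
    have h1 := congrArg (Subtype.val : h66sO B 𝔫 → F) e'
    simp only [Subring.coe_mul, Subring.coe_pow, h86l_incl_coe] at h1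
    apply mul_right_cancel₀ hb₀F
    calc w * (h' : F) ^ m * ((v : h66sO B 𝔫) : F) * (b₀ : F)
        = (w * (b₀ : F)) * (h' : F) ^ m * ((v : h66sO B 𝔫) : F) := by ring
      _ = ((u : h66sO B 𝔫) : F) * (g' : F) ^ m * (b₀ : F) := by rw [hab, h1]
  have hvinv : (((v⁻¹ : (h66sO B 𝔫)ˣ) : h66sO B 𝔫) : F) = ((v : h66sO B 𝔫) : F)⁻¹ := by
    apply eq_inv_of_mul_eq_one_left
    exact congrArg (Subtype.val : h66sO B 𝔫 → F) (Units.inv_mul v)
  have huinv : (((u⁻¹ : (h66sO B 𝔫)ˣ) : h66sO B 𝔫) : F) = ((u : h66sO B 𝔫) : F)⁻¹ := by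
    apply eq_inv_of_mul_eq_one_left
    exact congrArg (Subtype.val : h66sO B 𝔫 → F) (Units.inv_mul u)
  have hgm : ((g' : F) * (h' : F)⁻¹) ^ m ≠ 0 :=
    pow_ne_zero m (mul_ne_zero hg'F (inv_ne_zero hh'F))
  have hw1 : w * (((g' : F) * (h' : F)⁻¹) ^ m)⁻¹ =
      ((u : h66sO B 𝔫) : F) * ((v : h66sO B 𝔫) : F)⁻¹ := by
    have h1 : w = ((u : h66sO B 𝔫) : F) * ((v : h66sO B 𝔫) : F)⁻¹ *
        ((g' : F) * (h' : F)⁻¹) ^ m := by
      have hhm : (h' : F) ^ m ≠ 0 := pow_ne_zero m hh'F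
      rw [mul_pow, inv_pow]
      field_simp
      linear_combination eF
    rw [h1, mul_assoc, mul_inv_cancel₀ hgm, mul_one]
  have hw2 : ((g' : F) * (h' : F)⁻¹) ^ m * w⁻¹ =
      ((v : h66sO B 𝔫) : F) * ((u : h66sO B 𝔫) : F)⁻¹ := by
    have h1 : ((g' : F) * (h' : F)⁻¹) ^ m * w⁻¹ =
        (w * (((g' : F) * (h' : F)⁻¹) ^ m)⁻¹)⁻¹ := by
      rw [mul_inv, inv_inv, mul_comm]
    rw [h1, hw1, mul_inv, inv_inv, mul_comm]
  obtain ⟨s₁, b₁, hs₁, hb₁⟩ := h86l_exists_frac B 𝔫 g'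
  obtain ⟨s₂, b₂, hs₂, hb₂⟩ := h86l_exists_frac B 𝔫 h'
  have hb₁F : (s₁ : F) * (g' : F) = (b₁ : F) := by
    have := congrArg (Subtype.val : h66sO B 𝔫 → F) hb₁
    simpa using this
  have hb₂F : (s₂ : F) * (h' : F) = (b₂ : F) := by
    have := congrArg (Subtype.val : h66sO B 𝔫 → F) hb₂
    simpa using this
  have hs₁F : (s₁ : F) ≠ 0 := by
    intro h0
    apply hs₁
    have h1 : s₁ = 0 := Subtype.ext h0
    rw [h1]
    exact Ideal.zero_mem _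
  have hs₂F : (s₂ : F) ≠ 0 := by
    intro h0
    apply hs₂
    have h1 : s₂ = 0 := Subtype.ext h0
    rw [h1]
    exact Ideal.zero_mem _
  have hb₂F0 : (b₂ : F) ≠ 0 := by
    rw [← hb₂F]
    exact mul_ne_zero hs₂F hh'F
  refine ⟨(g' : F) * (h' : F)⁻¹, mul_ne_zero hg'F (inv_ne_zero hh'F),
    ⟨b₁ * s₂, s₁ * b₂, ?_, ?_⟩, ?_, ?_⟩
  · intro h0
    have h1 := congrArg (Subtype.val : B → F) h0
    simp only [Subring.coe_mul, ZeroMemClass.coe_zero] at h1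
    exact mul_ne_zero hs₁F hb₂F0 h1
  · simp only [Subring.coe_mul]
    rw [← hb₁F, ← hb₂F]
    field_simp
  · have hout : ∀ P' : Ideal B, h86l_IsVert 𝔫 ((q : ℕ) : B) P' → s₁ * b₂ ∉ P' := by
      intro P' hP' hmem
      obtain ⟨f, hf, hfP⟩ := hvert P' hP'
      rcases hP'.1.mem_or_mem hmem with h1 | h1
      · exact hs₁ (hP'.2.2.1 h1)
      · have h2 : f ∣ h86l_incl B 𝔫 b₂ := (hfP b₂).mpr h1
        rw [← hb₂] at h2
        rcases hf.dvd_or_dvd h2 with h3 | h3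
        · exact h86l_not_dvd_of_not_mem B 𝔫 hf hs₂ h3
        · exact hfh f hf ((hfP _).mpr hP'.2.1) h3
    obtain ⟨c, hc, hcV⟩ := hinv (s₁ * b₂) hout
    refine ⟨c, hc, ?_⟩
    have h1 : (c : F) * ((g' : F) * (h' : F)⁻¹) =
        ((b₁ * s₂ : B) : F) * ((c : F) * (((s₁ * b₂ : B) : F))⁻¹) := by
      simp only [Subring.coe_mul]
      rw [← hb₁F, ← hb₂F]
      field_simp
    rw [h1]
    exact V.mul_mem (hBV _ (b₁ * s₂).2) hcV
  · obtain ⟨t₁, ht₁, ht₁B⟩ :=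
      h86l_exists_den B 𝔫 ((u : h66sO B 𝔫) * ((v⁻¹ : (h66sO B 𝔫)ˣ) : h66sO B 𝔫))
    obtain ⟨t₂, ht₂, ht₂B⟩ :=
      h86l_exists_den B 𝔫 ((v : h66sO B 𝔫) * ((u⁻¹ : (h66sO B 𝔫)ˣ) : h66sO B 𝔫))
    rw [Subring.coe_mul, hvinv] at ht₁B
    rw [Subring.coe_mul, huinv] at ht₂B
    refine ⟨t₁ * t₂, fun h0 => (h𝔫.mem_or_mem h0).elim ht₁ ht₂, ?_, ?_⟩
    · rw [hw1]
      have h1 : ((t₁ * t₂ : B) : F) * (((u : h66sO B 𝔫) : F) * ((v : h66sO B 𝔫) : F)⁻¹) =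
          (t₂ : F) * ((t₁ : F) * (((u : h66sO B 𝔫) : F) * ((v : h66sO B 𝔫) : F)⁻¹)) := by
        simp only [Subring.coe_mul]
        ring
      rw [h1]
      exact B.mul_mem t₂.2 ht₁B
    · rw [hw2]
      have h1 : ((t₁ * t₂ : B) : F) * (((v : h66sO B 𝔫) : F) * ((u : h66sO B 𝔫) : F)⁻¹) =
          (t₁ : F) * ((t₂ : F) * (((v : h66sO B 𝔫) : F) * ((u : h66sO B 𝔫) : F)⁻¹)) := by
        simp only [Subring.coe_mul]
        ring
      rw [h1]
      exact B.mul_mem t₁.2 ht₂B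

end Fermat.Agent.S36
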