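import Fermat.Agent.S36.H20VertSkel
import Fermat.Agent.S36.H1Gauss

/-!
# S36, block (V) + (N): calculus of Gauss units and Gauss congruences (helper20)

`G = softOT A` the Gauss ring of `ℚ̄((t))`, `h20g_res : ℚ̄((t)) → k((t))` the reduction (`0`
outside `G`).

* `h20g_unit_iff` : `h20v_Unit A s ↔ s ∈ G ∧ res s ≠ 0`;
* `h20g_congOne_iff` : `h20n_CongOneS A s ↔ s ∈ G ∧ res s = 1`;
* units form a group, `res` is multiplicative on them;
* `h20g_congOne_of_res_eq` : for units, `s / t ≡ 1 ↔ res s = res t`;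
* constants: `h20g_unit_C_iff`, `h20g_res_C`;
* `h20g_res_pow_inj` : `res s ^ q = res t ^ q → res s = res t`.
-/

set_option autoImplicit false
set_option linter.unusedSectionVars false
set_option maxHeartbeats 400000

open ModularCurve

noncomputable section

namespace Fermat.Agent.S36

open Fermat.Agent.S37 (Kbar GQ)
open Fermat.Agent.Red.GV (embA redA embA_injective)
open Fermat.Agent.Red.GV.Soft

variable (A : ValuationSubring Kbar)

/-- the reduction of a series (`0` outside the Gauss ring). -/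
def h20g_res (s : LaurentSeries Kbar) : LaurentSeries (IsLocalRing.ResidueField A) := by
  classical
  exact if h : s ∈ h20v_G A then softRedT A (IsLocalRing.residue A) ⟨s, h⟩ else 0

variable {A}

theorem h20g_res_of_mem {s : LaurentSeries Kbar} (h : s ∈ h20v_G A) :
    h20g_res A s = softRedT A (IsLocalRing.residue A) ⟨s, h⟩ := by
  rw [h20g_res, dif_pos h]

theorem h20g_res_one : h20g_res A (1 : LaurentSeries Kbar) = 1 := by
  rw [h20g_res_of_mem (one_mem _)]
  exact map_one (softRedT A (IsLocalRing.residue A))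

theorem h20g_res_mul {s t : LaurentSeries Kbar} (hs : s ∈ h20v_G A) (ht : t ∈ h20v_G A) :
    h20g_res A (s * t) = h20g_res A s * h20g_res A t := by
  rw [h20g_res_of_mem hs, h20g_res_of_mem ht, h20g_res_of_mem (mul_mem hs ht), ← map_mul]
  rfl

theorem h20g_res_pow {s : LaurentSeries Kbar} (hs : s ∈ h20v_G A) (n : ℕ) :
    h20g_res A (s ^ n) = h20g_res A s ^ n := by
  rw [h20g_res_of_mem hs, h20g_res_of_mem (pow_mem hs n), ← map_pow]
  rfl

theorem h20g_unit_iff (s : LaurentSeries Kbar) :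
    h20v_Unit A s ↔ s ∈ h20v_G A ∧ h20g_res A s ≠ 0 := by
  constructor
  · rintro ⟨hs0, hs, hsi⟩
    refine ⟨hs, ?_⟩
    rw [h20g_res_of_mem hs, softRedT_ne_zero_iff]
    exact ⟨hs0, hsi⟩
  · rintro ⟨hs, hr⟩
    rw [h20g_res_of_mem hs, softRedT_ne_zero_iff] at hr
    exact ⟨hr.1, hs, hr.2⟩

theorem h20g_unit_one : h20v_Unit A (1 : LaurentSeries Kbar) :=
  ⟨one_ne_zero, one_mem _, by rw [inv_one]; exact one_mem _⟩

theorem h20g_unit_mul {s t : LaurentSeries Kbar} (hs : h20v_Unit A s) (ht : h20v_Unit A t) :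
    h20v_Unit A (s * t) :=
  ⟨mul_ne_zero hs.1 ht.1, mul_mem hs.2.1 ht.2.1, by
    rw [mul_inv]; exact mul_mem hs.2.2 ht.2.2⟩

theorem h20g_unit_inv {s : LaurentSeries Kbar} (hs : h20v_Unit A s) : h20v_Unit A s⁻¹ :=
  ⟨inv_ne_zero hs.1, hs.2.2, by rw [inv_inv]; exact hs.2.1⟩

theorem h20g_unit_pow {s : LaurentSeries Kbar} (hs : h20v_Unit A s) (n : ℕ) :
    h20v_Unit A (s ^ n) :=
  ⟨pow_ne_zero n hs.1, pow_mem hs.2.1 n, by rw [← inv_pow]; exact pow_mem hs.2.2 n⟩

theorem h20g_unit_of_mul {s t : LaurentSeries Kbar} (hst : h20v_Unit A (s * t))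
    (ht : h20v_Unit A t) : h20v_Unit A s := by
  have h := h20g_unit_mul hst (h20g_unit_inv ht)
  rwa [mul_assoc, mul_inv_cancel₀ ht.1, mul_one] at h

theorem h20g_res_ne_zero {s : LaurentSeries Kbar} (hs : h20v_Unit A s) : h20g_res A s ≠ 0 :=
  ((h20g_unit_iff s).1 hs).2

theorem h20g_res_inv {s : LaurentSeries Kbar} (hs : h20v_Unit A s) :
    h20g_res A s⁻¹ = (h20g_res A s)⁻¹ := by
  have h1 : h20g_res A (s * s⁻¹) = h20g_res A s * h20g_res A s⁻¹ := h20g_res_mul hs.2.1 hs.2.2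
  rw [mul_inv_cancel₀ hs.1, h20g_res_one] at h1
  exact eq_inv_of_mul_eq_one_right h1.symm

theorem h20g_congOne_iff (s : LaurentSeries Kbar) :
    h20n_CongOneS A s ↔ s ∈ h20v_G A ∧ h20g_res A s = 1 := by
  constructor
  · rintro ⟨a, b, hb, hab, hred⟩
    have hs : s ∈ h20v_G A := ⟨a, b, hb, hab⟩
    refine ⟨hs, ?_⟩
    rw [h20g_res_of_mem hs]
    have h1 := softRedT_mul_eq (⟨s, hs⟩ : softOT A (IsLocalRing.residue A)) a b hb hab
    have hred' : redA (IsLocalRing.residue A) a = redA (IsLocalRing.residue A) b := hred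
    rw [hred'] at h1
    exact mul_right_cancel₀ hb (h1.trans (one_mul _).symm)
  · rintro ⟨⟨a, b, hb, hab⟩, hred⟩
    refine ⟨a, b, hb, hab, ?_⟩
    have hs : s ∈ h20v_G A := ⟨a, b, hb, hab⟩
    rw [h20g_res_of_mem hs] at hred
    have h1 := softRedT_mul_eq (⟨s, hs⟩ : softOT A (IsLocalRing.residue A)) a b hb hab
    rw [hred, one_mul] at h1
    exact h1.symm

theorem h20g_unit_of_congOne {s : LaurentSeries Kbar} (h : h20n_CongOneS A s) :
    h20v_Unit A s := by
  obtain ⟨hs, hr⟩ := (h20g_congOne_iff s).1 h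
  exact (h20g_unit_iff s).2 ⟨hs, by rw [hr]; exact one_ne_zero⟩

theorem h20g_res_of_congOne {s : LaurentSeries Kbar} (h : h20n_CongOneS A s) :
    h20g_res A s = 1 :=
  ((h20g_congOne_iff s).1 h).2

/-- for units, `s / t ≡ 1` iff the reductions coincide. -/
theorem h20g_congOne_of_res_eq {s t : LaurentSeries Kbar} (hs : h20v_Unit A s)
    (ht : h20v_Unit A t) (h : h20g_res A s = h20g_res A t) : h20n_CongOneS A (s * t⁻¹) := by
  rw [h20g_congOne_iff]
  refine ⟨mul_mem hs.2.1 ht.2.2, ?_⟩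
  rw [h20g_res_mul hs.2.1 ht.2.2, h20g_res_inv ht, h]
  exact mul_inv_cancel₀ (h20g_res_ne_zero ht)

theorem h20g_res_eq_of_congOne {s t : LaurentSeries Kbar} (ht : h20v_Unit A t)
    (h : h20n_CongOneS A (s * t⁻¹)) : h20v_Unit A s ∧ h20g_res A s = h20g_res A t := by
  have hu : h20v_Unit A s := by
    have := h20g_unit_mul (h20g_unit_of_congOne h) ht
    rwa [mul_assoc, inv_mul_cancel₀ ht.1, mul_one] at this
  refine ⟨hu, ?_⟩
  have h1 := h20g_res_of_congOne h
  rw [h20g_res_mul hu.2.1 ht.2.2, h20g_res_inv ht] at h1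
  exact eq_of_mul_inv_eq_one h1

/-! ### constants -/

theorem h20g_C_mem {c : Kbar} (hc : c ∈ A) : (HahnSeries.C c : LaurentSeries Kbar) ∈ h20v_G A :=
  C_mem_softOT A (IsLocalRing.residue A) ⟨c, hc⟩

theorem h20g_res_C {c : Kbar} (hc : c ∈ A) :
    h20g_res A (HahnSeries.C c : LaurentSeries Kbar) =
      HahnSeries.C (IsLocalRing.residue A ⟨c, hc⟩) := by
  rw [h20g_res_of_mem (h20g_C_mem hc)]
  exact softRedT_C A (IsLocalRing.residue A) ⟨c, hc⟩ _

theorem h20g_unit_C {c : Kbar} (hc0 : c ≠ 0) (hc : c ∈ A) (hci : c⁻¹ ∈ A) :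
    h20v_Unit A (HahnSeries.C c : LaurentSeries Kbar) := by
  refine ⟨?_, h20g_C_mem hc, ?_⟩
  · intro h
    exact hc0 (HahnSeries.C_injective (by rw [h, map_zero]))
  · have : (HahnSeries.C c : LaurentSeries Kbar)⁻¹ = HahnSeries.C c⁻¹ := by
      rw [← map_inv₀]
    rw [this]
    exact h20g_C_mem hci

/-- a constant which is a Gauss unit is a unit of `A`. -/
theorem h20g_mem_of_unit_C {c : Kbar} (h : h20v_Unit A (HahnSeries.C c : LaurentSeries Kbar)) :
    c ∈ A ∧ c⁻¹ ∈ A := by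
  have key : ∀ d : Kbar, (HahnSeries.C d : LaurentSeries Kbar) ∈ h20v_G A → d ∈ A := by
    intro d hd
    by_contra hdA
    -- `d⁻¹` is a nonunit of `A`
    have hdi : d⁻¹ ∈ A := (A.mem_or_inv_mem d).resolve_left hdA
    have hd0 : d ≠ 0 := by
      rintro rfl
      exact hdA A.zero_mem
    have hnu : ¬ IsUnit (⟨d⁻¹, hdi⟩ : A) := by
      intro hu
      obtain ⟨⟨x, y, hxy, hyx⟩, hx⟩ := hu
      have hx' : (x : Kbar) = d⁻¹ := congrArg Subtype.val hx
      have h1 : (x : Kbar) * (y : Kbar) = 1 := congrArg Subtype.val hxy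
      rw [hx'] at h1
      have h2 : (y : Kbar) = d := by
        have := congrArg (fun z => d * z) h1
        simp only [mul_one] at this
        rw [← mul_assoc, mul_inv_cancel₀ hd0, one_mul] at this
        exact this
      exact hdA (h2 ▸ y.2)
    have hres : IsLocalRing.residue A ⟨d⁻¹, hdi⟩ = 0 := by
      rw [IsLocalRing.residue_eq_zero_iff]
      exact (IsLocalRing.mem_maximalIdeal _).2 hnu
    have h3 : h20g_res A (HahnSeries.C d⁻¹ * HahnSeries.C d : LaurentSeries Kbar) =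
        h20g_res A (HahnSeries.C d⁻¹ : LaurentSeries Kbar) * h20g_res A (HahnSeries.C d) :=
      h20g_res_mul (h20g_C_mem hdi) hd
    rw [← map_mul, inv_mul_cancel₀ hd0, map_one, h20g_res_one, h20g_res_C hdi, hres, map_zero,
      zero_mul] at h3
    exact one_ne_zero h3
  refine ⟨key c h.2.1, key c⁻¹ ?_⟩
  have : (HahnSeries.C c⁻¹ : LaurentSeries Kbar) = (HahnSeries.C c)⁻¹ := by
    rw [← map_inv₀]
  rw [this]
  exact h.2.2

/-! ### Frobenius -/

theorem h20g_pow_inj (q : ℕ) (hq : q.Prime) (hA : A.LiesOverPrime q)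
    {x y : LaurentSeries (IsLocalRing.ResidueField A)} (h : x ^ q = y ^ q) : x = y := by
  haveI : Fact q.Prime := ⟨hq⟩
  haveI := h1g_charP_laurent q hq A hA
  exact frobenius_inj (LaurentSeries (IsLocalRing.ResidueField A)) q h

end Fermat.Agent.S36
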