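import Fermat.Agent.S36.H20VertSkel
import Fermat.Agent.S36.H20Gauss

/-!
# S36, block (V) + (N), row VN-L8 (helper27): `H20VertAssembly`

`h27a_vertAssembly : H20VertAssembly`, i.e.
`H20EmbExists → H20VComplete → H20Val → H20CompGroup → H20ApproxVal → H20Roots →
  H20ApproxRes → H20Unip → H92Vert`, with the exponent `t = (q + 1) (q - 1)`.

Chain (blueprint BP3): valuations `(n₂₀, n₁₁, n₀₂)` of `u` (L2); the norm relations (L3) give
`(q + 1) n ≡ a (1, q - 1, 1)` modulo `m`; with `h₁` of valuations `((q + 1) n - a (1, q-1, 1)) / m`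
(L4) the function `u₂ = u ^ (q + 1) q ^ (-a) / h₁ ^ m` is a unit at the three valuations and is
still new; local roots `g₂₀, g₁₁, g₀₂` (L5), which are units (L2 again); `h₀` with the residues of
`g₂₀ ^ (q - 1), g₁₁, g₀₂ ^ (q - 1)` (L6); `w₀ = u₂ ^ (q - 1) / h₀ ^ m ≡ 1` at the three
valuations; (L7) `w₀ / h ^ m = 1 + q y`; (L1) `y ∈ V`.
-/

set_option autoImplicit false
set_option linter.unusedSectionVars false

open AlgebraicCurve ModularCurve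

noncomputable section

namespace Fermat.Agent.S36

open Fermat.Agent.S37 (Kbar GQ FF cst gal auxLevel)
open Fermat.Agent.Red.KR (normAlong)
open Fermat.Agent.Red.GV (embA redA)
open Fermat.Agent.Red.GV.Soft

/-! ## The Gauss ring of `ℚ̄((t))`: units and congruences -/

section Gauss

variable {A : ValuationSubring Kbar}

theorem h27a_unit_one : h20v_Unit A 1 :=
  ⟨one_ne_zero, one_mem _, by rw [inv_one]; exact one_mem _⟩

theorem h27a_unit_mul {s t : LaurentSeries Kbar} (hs : h20v_Unit A s) (ht : h20v_Unit A t) :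
    h20v_Unit A (s * t) :=
  ⟨mul_ne_zero hs.1 ht.1, mul_mem hs.2.1 ht.2.1, by rw [mul_inv]; exact mul_mem hs.2.2 ht.2.2⟩

theorem h27a_unit_inv {s : LaurentSeries Kbar} (hs : h20v_Unit A s) : h20v_Unit A s⁻¹ :=
  ⟨inv_ne_zero hs.1, hs.2.2, by rw [inv_inv]; exact hs.2.1⟩

theorem h27a_unit_pow {s : LaurentSeries Kbar} (hs : h20v_Unit A s) (n : ℕ) :
    h20v_Unit A (s ^ n) :=
  ⟨pow_ne_zero n hs.1, pow_mem hs.2.1 n, by rw [← inv_pow]; exact pow_mem hs.2.2 n⟩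

theorem h27a_unit_of_eq {s t : LaurentSeries Kbar} (hs : h20v_Unit A s) (h : s = t) :
    h20v_Unit A t := h ▸ hs

/-- constants which are units of `A` are units of the Gauss ring. -/
theorem h27a_unit_C {c : Kbar} (hc0 : c ≠ 0) (hc : c ∈ A) (hc' : c⁻¹ ∈ A) :
    h20v_Unit A (HahnSeries.C c : LaurentSeries Kbar) := by
  refine ⟨fun h => hc0 (HahnSeries.C_injective (by rw [h, map_zero])),
    C_mem_softOT A _ ⟨c, hc⟩, ?_⟩
  have h := C_mem_softOT A (IsLocalRing.residue A) ⟨c⁻¹, hc'⟩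
  have e : (HahnSeries.C c : LaurentSeries Kbar)⁻¹ = HahnSeries.C c⁻¹ := (map_inv₀ _ c).symm
  rw [e]
  exact h

/-- a constant which is a unit of the Gauss ring is a unit of `A`. -/
theorem h27a_of_unit_C {c : Kbar} (h : h20v_Unit A (HahnSeries.C c : LaurentSeries Kbar)) :
    c ∈ A ∧ c⁻¹ ∈ A := by
  have hπ : ∀ a : A, (a : Kbar) ∈ A.nonunits → IsLocalRing.residue A a = 0 :=
    fun a ha => residue_eq_zero_of_nonunit A a ha
  refine ⟨(C_mem_softOT_iff A (IsLocalRing.residue A) hπ c).mp h.2.1, ?_⟩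
  have e : (HahnSeries.C c : LaurentSeries Kbar)⁻¹ = HahnSeries.C c⁻¹ := (map_inv₀ _ c).symm
  have h2 := h.2.2
  rw [e] at h2
  exact (C_mem_softOT_iff A (IsLocalRing.residue A) hπ c⁻¹).mp h2

theorem h27a_cong_one : h20n_CongOneS A 1 :=
  ⟨1, 1, by rw [map_one]; exact one_ne_zero, by rw [map_one, mul_one], rfl⟩

theorem h27a_cong_mul {s t : LaurentSeries Kbar} (hs : h20n_CongOneS A s)
    (ht : h20n_CongOneS A t) : h20n_CongOneS A (s * t) := by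
  obtain ⟨a, b, hb, hab, hred⟩ := hs
  obtain ⟨a', b', hb', hab', hred'⟩ := ht
  refine ⟨a * a', b * b', ?_, ?_, ?_⟩
  · rw [map_mul]; exact mul_ne_zero hb hb'
  · rw [map_mul, map_mul, hab, hab']; ring
  · rw [map_mul, map_mul, hred, hred']

theorem h27a_cong_inv {s : LaurentSeries Kbar} (hs : h20n_CongOneS A s) :
    h20n_CongOneS A s⁻¹ := by
  obtain ⟨a, b, hb, hab, hred⟩ := hs
  have ha : redA (IsLocalRing.residue A) a ≠ 0 := by
    show coeffMap (IsLocalRing.residue A) a ≠ 0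
    rw [hred]; exact hb
  have hw : IsWit A (IsLocalRing.residue A) s a b := ⟨hb, hab⟩
  have hw' := hw.inv ha
  exact ⟨b, a, hw'.1, hw'.2, hred.symm⟩

theorem h27a_cong_pow {s : LaurentSeries Kbar} (hs : h20n_CongOneS A s) (n : ℕ) :
    h20n_CongOneS A (s ^ n) := by
  induction n with
  | zero => rw [pow_zero]; exact h27a_cong_one
  | succ n ih => rw [pow_succ]; exact h27a_cong_mul ih hs

theorem h27a_cong_of_eq {s t : LaurentSeries Kbar} (hs : h20n_CongOneS A s) (h : s = t) :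
    h20n_CongOneS A t := h ▸ hs

/-- `s ≡ 1` ⟹ `s` is a unit of the Gauss ring. -/
theorem h27a_unit_of_cong {s : LaurentSeries Kbar} (hs : h20n_CongOneS A s) :
    h20v_Unit A s := h20g_unit_of_congOne hs

/-- an element of `ℚ̄` whose `m`-th power is a unit of `A` is a unit of `A`. -/
theorem h27a_unit_of_pow_unit {c : Kbar} {m : ℕ} (hm : m ≠ 0) (h1 : c ^ m ∈ A)
    (h2 : (c ^ m)⁻¹ ∈ A) : c ∈ A ∧ c⁻¹ ∈ A := by
  rcases eq_or_ne c 0 with rfl | hc0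
  · exact ⟨zero_mem _, by rw [inv_zero]; exact zero_mem _⟩
  have hv1 : A.valuation (c ^ m) ≤ 1 := (A.valuation_le_one_iff _).mpr h1
  have hv2 : A.valuation (c ^ m)⁻¹ ≤ 1 := (A.valuation_le_one_iff _).mpr h2
  have hv0 : A.valuation (c ^ m) ≠ 0 := (map_ne_zero _).mpr (pow_ne_zero _ hc0)
  rw [map_inv₀, inv_le_one₀ (zero_lt_iff.mpr hv0)] at hv2
  have hv : A.valuation c ^ m = 1 := by
    rw [← map_pow]
    exact le_antisymm hv1 hv2
  have hv' : A.valuation c = 1 := (pow_eq_one_iff.mp hv).resolve_right hm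
  refine ⟨(A.valuation_le_one_iff _).mp hv'.le, (A.valuation_le_one_iff _).mp ?_⟩
  rw [map_inv₀, hv', inv_one]

/-- **root closedness** (for an element with a valuation): if `C c · s` (`c ≠ 0`) and `s ^ m`
are units of the Gauss ring, `m ≠ 0`, `s ≠ 0`, then `s` is a unit. -/
theorem h27a_unit_of_pow {c : Kbar} {s : LaurentSeries Kbar} {m : ℕ} (hm : m ≠ 0)
    (hc0 : c ≠ 0) (hs0 : s ≠ 0)
    (h1 : h20v_Unit A (HahnSeries.C c * s)) (h2 : h20v_Unit A (s ^ m)) : h20v_Unit A s := by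
  have h3 : h20v_Unit A ((HahnSeries.C c * s) ^ m * (s ^ m)⁻¹) :=
    h27a_unit_mul (h27a_unit_pow h1 m) (h27a_unit_inv h2)
  have e : (HahnSeries.C c * s) ^ m * (s ^ m)⁻¹ = (HahnSeries.C (c ^ m) : LaurentSeries Kbar) := by
    rw [mul_pow, mul_assoc, mul_inv_cancel₀ (pow_ne_zero _ hs0), mul_one, map_pow]
  rw [e] at h3
  obtain ⟨h4, h5⟩ := h27a_of_unit_C h3
  obtain ⟨h6, h7⟩ := h27a_unit_of_pow_unit hm h4 h5
  have h8 : h20v_Unit A ((HahnSeries.C c : LaurentSeries Kbar)⁻¹ * (HahnSeries.C c * s)) :=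
    h27a_unit_mul (h27a_unit_inv (h27a_unit_C hc0 h6 h7)) h1
  have hC0 : (HahnSeries.C c : LaurentSeries Kbar) ≠ 0 := by
    rw [Ne, map_eq_zero]
    exact hc0
  rwa [← mul_assoc, inv_mul_cancel₀ hC0, one_mul] at h8

end Gauss

/-! ## Valuations along an embedding -/

section Val

variable {A : ValuationSubring Kbar} {N : ℕ} {E : FF N →+* LaurentSeries Kbar}

/-- `π ^ n · u` is a unit of the Gauss ring at the embedding `E`. -/
def h27a_Val (A : ValuationSubring Kbar) (E : FF N →+* LaurentSeries Kbar) (π : Kbar)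
    (u : FF N) (n : ℤ) : Prop :=
  h20v_Unit A (E (cst N (π ^ n) * u))

theorem h27a_cst_one (N : ℕ) : cst N 1 = 1 := map_one _

theorem h27a_cst_mul (N : ℕ) (a b : Kbar) : cst N (a * b) = cst N a * cst N b := map_mul _ _ _

theorem h27a_cst_inv (N : ℕ) (a : Kbar) : cst N a⁻¹ = (cst N a)⁻¹ := map_inv₀ _ _

theorem h27a_cst_pow (N : ℕ) (a : Kbar) (n : ℕ) : cst N (a ^ n) = cst N a ^ n := map_pow _ _ _

theorem h27a_cst_zpow (N : ℕ) (a : Kbar) (n : ℤ) : cst N (a ^ n) = cst N a ^ n :=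
  map_zpow₀ _ _ _

theorem h27a_cst_ne_zero (N : ℕ) {a : Kbar} (ha : a ≠ 0) : cst N a ≠ 0 :=
  (map_ne_zero (algebraMap Kbar (FF N))).mpr ha

theorem h27a_val_congr {π : Kbar} {u : FF N} {n n' : ℤ} (h : h27a_Val A E π u n)
    (e : n = n') : h27a_Val A E π u n' := e ▸ h

theorem h27a_val_zero_iff {π : Kbar} {u : FF N} :
    h27a_Val A E π u 0 ↔ h20v_Unit A (E u) := by
  unfold h27a_Val
  rw [zpow_zero, h27a_cst_one, one_mul]

theorem h27a_val_mul {π : Kbar} (hπ : π ≠ 0) {u h : FF N} {n n' : ℤ}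
    (hu : h27a_Val A E π u n) (hh : h27a_Val A E π h n') :
    h27a_Val A E π (u * h) (n + n') := by
  unfold h27a_Val at hu hh ⊢
  have e : cst N (π ^ (n + n')) * (u * h) = (cst N (π ^ n) * u) * (cst N (π ^ n') * h) := by
    rw [zpow_add₀ hπ, h27a_cst_mul]
    ring
  rw [e, map_mul]
  exact h27a_unit_mul hu hh

theorem h27a_val_inv {π : Kbar} {u : FF N} {n : ℤ} (hu : h27a_Val A E π u n) :
    h27a_Val A E π u⁻¹ (-n) := by
  unfold h27a_Val at hu ⊢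
  have e : cst N (π ^ (-n)) * u⁻¹ = (cst N (π ^ n) * u)⁻¹ := by
    rw [zpow_neg, h27a_cst_inv, mul_inv]
  rw [e, map_inv₀]
  exact h27a_unit_inv hu

theorem h27a_val_pow {π : Kbar} (hπ : π ≠ 0) {u : FF N} {n : ℤ}
    (hu : h27a_Val A E π u n) (k : ℕ) : h27a_Val A E π (u ^ k) (k * n) := by
  induction k with
  | zero =>
    rw [pow_zero, Nat.cast_zero, zero_mul, h27a_val_zero_iff, map_one]
    exact h27a_unit_one
  | succ k ih =>
    rw [pow_succ]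
    refine h27a_val_congr (h27a_val_mul hπ ih hu) ?_
    push_cast
    ring

theorem h27a_val_cst (hE : ∀ c : Kbar, E (cst N c) = HahnSeries.C c) {π c : Kbar} {n : ℤ}
    (hπ : π ≠ 0) (hc : c ≠ 0)
    (h1 : π ^ n * c ∈ A) (h2 : (π ^ n * c)⁻¹ ∈ A) : h27a_Val A E π (cst N c) n := by
  unfold h27a_Val
  rw [← h27a_cst_mul, hE]
  exact h27a_unit_C (mul_ne_zero (zpow_ne_zero _ hπ) hc) h1 h2

/-- root closedness at `E` for a function having a valuation. -/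
theorem h27a_unit_of_val_pow (hE : ∀ c : Kbar, E (cst N c) = HahnSeries.C c) {π : Kbar}
    (hπ : π ≠ 0) {g : FF N} (hg : g ≠ 0) {k : ℤ} (hk : h27a_Val A E π g k) {m : ℕ}
    (hm : m ≠ 0) (h : h20v_Unit A (E g ^ m)) : h20v_Unit A (E g) := by
  unfold h27a_Val at hk
  rw [map_mul, hE] at hk
  exact h27a_unit_of_pow hm (zpow_ne_zero _ hπ) ((map_ne_zero E).mpr hg) hk h

/-- if `u` and `u · (g ^ m)⁻¹` are units at `E` then `g ^ m` is a unit at `E`. -/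
theorem h27a_unit_pow_of_cong {u g : FF N} (hu0 : u ≠ 0) {m : ℕ}
    (hu : h20v_Unit A (E u)) (h : h20v_Unit A (E (u * (g ^ m)⁻¹))) :
    h20v_Unit A (E g ^ m) := by
  have h1 : h20v_Unit A (E u * (E (u * (g ^ m)⁻¹))⁻¹) := h27a_unit_mul hu (h27a_unit_inv h)
  have hEu : E u ≠ 0 := (map_ne_zero E).mpr hu0
  have e : E u * (E (u * (g ^ m)⁻¹))⁻¹ = E g ^ m := by
    rw [map_mul, map_inv₀, map_pow, mul_inv, inv_inv, ← mul_assoc, mul_inv_cancel₀ hEu, one_mul]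
  rwa [e] at h1

end Val

/-! ## The cyclotomic unit `q / (1 - ζ) ^ (q - 1)` -/

section Cyc

variable {A : ValuationSubring Kbar} {q : ℕ} {ζ : Kbar}

theorem h27a_val_root (hq : 0 < q) (hζ : ζ ^ q = 1) : A.valuation ζ = 1 := by
  have h : A.valuation ζ ^ q = 1 := by rw [← map_pow, hζ, map_one]
  exact (pow_eq_one_iff.mp h).resolve_right hq.ne'

theorem h27a_val_one_sub_pow_le {y : Kbar} (hy : y ∈ A) (b : ℕ) :
    A.valuation (1 - y ^ b) ≤ A.valuation (1 - y) := by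
  rw [← mul_neg_geom_sum y b, map_mul]
  exact mul_le_of_le_one_right' ((A.valuation_le_one_iff _).mpr
    (sum_mem fun i _ => pow_mem hy i))

theorem h27a_val_one_sub_pow (hq : q.Prime) (hζ : IsPrimitiveRoot ζ q) {b : ℕ}
    (hb : ¬ q ∣ b) : A.valuation (1 - ζ ^ b) = A.valuation (1 - ζ) := by
  have hζA : ζ ∈ A := (A.valuation_le_one_iff _).mp (h27a_val_root hq.pos hζ.pow_eq_one).le
  apply le_antisymm (h27a_val_one_sub_pow_le hζA b)
  have hcop : Nat.Coprime b q := ((Nat.Prime.coprime_iff_not_dvd hq).mpr hb).symm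
  obtain ⟨c, -, hc⟩ := Nat.exists_mul_mod_eq_one_of_coprime hcop hq.one_lt
  have h1 : (ζ ^ b) ^ c = ζ := by
    rw [← pow_mul, pow_eq_pow_mod (b * c) hζ.pow_eq_one, hc, pow_one]
  have h2 := h27a_val_one_sub_pow_le (A := A) (pow_mem hζA b) c
  rwa [h1] at h2

/-- `v(q) = v(1 - ζ)^(q-1)`. -/
theorem h27a_val_q (hq : q.Prime) (hζ : IsPrimitiveRoot ζ q) :
    A.valuation ((q : ℕ) : Kbar) = A.valuation (1 - ζ) ^ (q - 1) := by
  obtain ⟨n, rfl⟩ : ∃ n, q = n + 1 := ⟨q - 1, (Nat.sub_add_cancel hq.pos).symm⟩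
  have h := IsPrimitiveRoot.prod_one_sub_pow_eq_order hζ
  have h2 : ((n + 1 : ℕ) : Kbar) = ∏ k ∈ Finset.range n, (1 - ζ ^ (k + 1)) := by
    rw [h]
    push_cast
    rfl
  rw [h2, map_prod, Nat.add_sub_cancel]
  rw [Finset.prod_congr rfl (fun k hk => h27a_val_one_sub_pow (A := A) hq hζ
    (b := k + 1) (by
      intro hdvd
      have hk' := Finset.mem_range.mp hk
      have := Nat.le_of_dvd (Nat.succ_pos k) hdvd
      omega))]
  rw [Finset.prod_const, Finset.card_range]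

theorem h27a_one_sub_ne_zero (hq : q.Prime) (hζ : IsPrimitiveRoot ζ q) : (1 - ζ : Kbar) ≠ 0 :=
  sub_ne_zero.mpr (hζ.ne_one hq.one_lt).symm

/-- `(1 - ζ) ^ (-(q - 1) a) · q ^ a` is a unit of `A`. -/
theorem h27a_cyc_unit (hq : q.Prime) (hζ : IsPrimitiveRoot ζ q) (a : ℤ) :
    (1 - ζ) ^ (-(((q - 1 : ℕ) : ℤ) * a)) * ((q : ℕ) : Kbar) ^ a ∈ A ∧
      ((1 - ζ) ^ (-(((q - 1 : ℕ) : ℤ) * a)) * ((q : ℕ) : Kbar) ^ a)⁻¹ ∈ A := by
  have hv : A.valuation ((1 - ζ) ^ (-(((q - 1 : ℕ) : ℤ) * a)) * ((q : ℕ) : Kbar) ^ a) = 1 := by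
    have hπ : A.valuation (1 - ζ) ≠ 0 := (map_ne_zero _).mpr (h27a_one_sub_ne_zero hq hζ)
    rw [map_mul, map_zpow₀, map_zpow₀, h27a_val_q hq hζ, zpow_neg, zpow_mul, zpow_natCast]
    exact inv_mul_cancel₀ (zpow_ne_zero _ (pow_ne_zero _ hπ))
  refine ⟨(A.valuation_le_one_iff _).mp hv.le, (A.valuation_le_one_iff _).mp ?_⟩
  rw [map_inv₀, hv, inv_one]

/-- `q ^ (-a) · q ^ a = 1` is a unit of `A`. -/
theorem h27a_q_unit (hq : q.Prime) (a : ℤ) :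
    ((q : ℕ) : Kbar) ^ (-a) * ((q : ℕ) : Kbar) ^ a ∈ A ∧
      (((q : ℕ) : Kbar) ^ (-a) * ((q : ℕ) : Kbar) ^ a)⁻¹ ∈ A := by
  have hq0 : ((q : ℕ) : Kbar) ≠ 0 := Nat.cast_ne_zero.mpr hq.ne_zero
  have e : ((q : ℕ) : Kbar) ^ (-a) * ((q : ℕ) : Kbar) ^ a = 1 := by
    rw [zpow_neg, inv_mul_cancel₀ (zpow_ne_zero _ hq0)]
  rw [e, inv_one]
  exact ⟨one_mem _, one_mem _⟩

end Cyc

/-! ## The three embeddings and the constants -/

section Emb

variable {M q : ℕ} [NeZero M] [NeZero q]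

theorem h27a_E20_cst (c : Kbar) :
    h20n_E20 M q (cst (M * q * q) c) = (HahnSeries.C c : LaurentSeries Kbar) :=
  soft_coe_cst (M * q * q) c

theorem h27a_E11_cst {hq : q.Prime} {hqM : ¬ q ∣ M} {ζ : Kbar}
    {E : FF (M * q * q) →+* LaurentSeries Kbar} (hE : h20n_IsE11 M q hq hqM ζ E) (c : Kbar) :
    E (cst (M * q * q) c) = (HahnSeries.C c : LaurentSeries Kbar) := by
  have h1 : heckeAlphaBar Kbar (M * q) q (cst (M * q) c) = cst (M * q * q) c :=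
    (heckeAlphaBar Kbar (M * q) q).commutes c
  rw [← h1, hE.1]
  exact soft_coe_cst (M * q) c

theorem h27a_E02_cst {hq : q.Prime} {hqM : ¬ q ∣ M}
    {E : FF (M * q * q) →+* LaurentSeries Kbar} (hE : h20n_IsE02 M q hq hqM E) (c : Kbar) :
    E (cst (M * q * q) c) = (HahnSeries.C c : LaurentSeries Kbar) := by
  have h1 : heckeBetaBar Kbar (M * q) q (cst (M * q) c) = cst (M * q * q) c :=
    (heckeBetaBar Kbar (M * q) q).commutes c
  have h2 : Fermat.Agent.Red.Kron.kFricke M q hq hqM (cst (M * q) c) = cst (M * q) c :=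
    (Fermat.Agent.Red.Kron.kFricke M q hq hqM).commutes c
  rw [← h1, hE.2, h2]
  exact soft_coe_cst (M * q) c

theorem h27a_hasVal_iff {A : ValuationSubring Kbar} {ζ : Kbar}
    {E11 E02 : FF (M * q * q) →+* LaurentSeries Kbar} {u : FF (M * q * q)} {n₂₀ n₁₁ n₀₂ : ℤ} :
    h20v_HasVal M q A ζ E11 E02 u n₂₀ n₁₁ n₀₂ ↔
      h27a_Val A (h20n_E20 M q) ((q : ℕ) : Kbar) u n₂₀ ∧ h27a_Val A E11 (1 - ζ) u n₁₁ ∧
        h27a_Val A E02 ((q : ℕ) : Kbar) u n₀₂ := Iff.rfl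

theorem h27a_cst_mem_F0 (A : ValuationSubring Kbar) (N : ℕ) (a : ℤ) :
    cst N (((q : ℕ) : Kbar) ^ a) ∈ h92c_F0 A N := by
  rw [h27a_cst_zpow]
  have e : cst N ((q : ℕ) : Kbar) = ((q : ℕ) : FF N) := map_natCast _ q
  rw [e]
  exact zpow_mem (natCast_mem _ q) a

end Emb

/-! ## The assembly -/

/-- the arithmetic of the component group (blueprint N1), with `a = (q + 1) n₂₀`. -/
theorem h27a_arith (q m n₂₀ n₁₁ n₀₂ : ℤ) (h1 : m ∣ n₂₀ + n₁₁ - q * n₀₂)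
    (h2 : m ∣ q * n₂₀ - (n₁₁ + n₀₂)) :
    ∃ k₁₁ k₀₂ : ℤ, (q + 1) * n₁₁ - (q - 1) * ((q + 1) * n₂₀) = m * k₁₁ ∧
      (q + 1) * n₀₂ - (q + 1) * n₂₀ = m * k₀₂ := by
  obtain ⟨c, hc⟩ := h1
  obtain ⟨d, hd⟩ := h2
  refine ⟨(q + 1) * c - q * (c + d), -(c + d), ?_, ?_⟩
  · have e1 : n₁₁ = m * c - n₂₀ + q * n₀₂ := by linarith
    have e2 : (q + 1) * n₂₀ - (q + 1) * n₀₂ = m * (c + d) := by linarith
    have e3 : (q + 1) * n₁₁ - (q - 1) * ((q + 1) * n₂₀)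
        = (q + 1) * (m * c) - q * ((q + 1) * n₂₀ - (q + 1) * n₀₂) := by
      rw [e1]
      ring
    rw [e3, e2]
    ring
  · linarith

set_option maxHeartbeats 1600000 in
/-- **VN-L8.**  `H92Vert` from the leaves, with `t = (q + 1) (q - 1)`. -/
theorem h27a_vertAssembly : H20VertAssembly := by
  intro hEmb hComplete hVal hComp hApV hRoots hApR hUnip q hq M _ hqM haux
  have : NeZero q := ⟨hq.ne_zero⟩
  intro A hA
  refine ⟨(q + 1) * (q - 1), Nat.mul_pos (Nat.succ_pos q) (Nat.sub_pos_of_lt hq.one_lt), ?_⟩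
  intro m hm u huF hnew
  obtain ⟨hu0, -, hnα, hnβ⟩ := hnew
  have hm0 : m ≠ 0 := by
    rintro rfl
    exact hm (dvd_zero q)
  -- the triple of embeddings
  obtain ⟨ζ, hζ⟩ := HasEnoughRootsOfUnity.exists_primitiveRoot Kbar q
  obtain ⟨hE11ex, E02, hE02⟩ := hEmb q hq M hqM
  obtain ⟨E11, hE11⟩ := hE11ex ζ hζ.pow_eq_one (hζ.ne_one hq.one_lt)
  have hT : h20v_Triple M q hq hqM ζ E11 E02 := ⟨hζ, hE11, hE02⟩
  have hπq : ((q : ℕ) : Kbar) ≠ 0 := Nat.cast_ne_zero.mpr hq.ne_zero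
  have hπz : (1 - ζ : Kbar) ≠ 0 := h27a_one_sub_ne_zero hq hζ
  have hc20 : ∀ c : Kbar, h20n_E20 M q (cst (M * q * q) c) = HahnSeries.C c := h27a_E20_cst
  have hc11 : ∀ c : Kbar, E11 (cst (M * q * q) c) = HahnSeries.C c := h27a_E11_cst hE11
  have hc02 : ∀ c : Kbar, E02 (cst (M * q * q) c) = HahnSeries.C c := h27a_E02_cst hE02
  -- (L2) valuations of `u`
  obtain ⟨n₂₀, n₁₁, n₀₂, hv⟩ := hVal q hq M hqM haux A hA ζ E11 E02 hT u huF hu0
  -- (L3) the norm relations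
  obtain ⟨hd1, hd2⟩ := hComp q hq M hqM haux A hA ζ E11 E02 hT m u huF hu0 ⟨hnα, hnβ⟩
    n₂₀ n₁₁ n₀₂ hv
  obtain ⟨k₁₁, k₀₂, hk11, hk02⟩ := h27a_arith (q : ℤ) (m : ℤ) n₂₀ n₁₁ n₀₂ hd1 hd2
  obtain ⟨hv20, hv11, hv02⟩ := h27a_hasVal_iff.mp hv
  obtain ⟨a, ha⟩ : ∃ a : ℤ, a = ((q : ℤ) + 1) * n₂₀ := ⟨_, rfl⟩
  rw [← ha] at hk11 hk02
  -- (L4) `h₁` with the valuations `(0, k₁₁, k₀₂)`
  obtain ⟨h₁, hh1F, hh10, hvh1⟩ := hApV q hq M hqM haux A hA ζ E11 E02 hT 0 k₁₁ k₀₂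
  obtain ⟨hw20, hw11, hw02⟩ := h27a_hasVal_iff.mp hvh1
  -- an `m`-th root of `q ^ a`
  obtain ⟨d, hd⟩ := IsAlgClosed.exists_pow_nat_eq (((q : ℕ) : Kbar) ^ a) (Nat.pos_of_ne_zero hm0)
  have hd0 : d ≠ 0 := by
    rintro rfl
    rw [zero_pow hm0] at hd
    exact zpow_ne_zero a hπq hd.symm
  have hcd : cst (M * q * q) (((q : ℕ) : Kbar) ^ a) = cst (M * q * q) d ^ m := by
    rw [← hd, h27a_cst_pow]
  have hcd0 : cst (M * q * q) d ≠ 0 := h27a_cst_ne_zero _ hd0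
  -- `u₂`
  obtain ⟨u₂, hu₂⟩ : ∃ x : FF (M * q * q),
      x = u ^ (q + 1) * cst (M * q * q) (((q : ℕ) : Kbar) ^ a) * (h₁ ^ m)⁻¹ := ⟨_, rfl⟩
  have hu2F : u₂ ∈ h92c_F0 A (M * q * q) := by
    rw [hu₂]
    exact mul_mem (mul_mem (pow_mem huF _) (h27a_cst_mem_F0 A _ a)) (inv_mem (pow_mem hh1F _))
  have hca0 : cst (M * q * q) (((q : ℕ) : Kbar) ^ a) ≠ 0 :=
    h27a_cst_ne_zero _ (zpow_ne_zero a hπq)
  have hu20 : u₂ ≠ 0 := by
    rw [hu₂]
    exact mul_ne_zero (mul_ne_zero (pow_ne_zero _ hu0) hca0) (inv_ne_zero (pow_ne_zero _ hh10))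
  have hqc : (((q - 1 : ℕ) : ℤ)) = (q : ℤ) - 1 := by
    rw [Nat.cast_sub hq.one_lt.le, Nat.cast_one]
  have hv2 : h20v_HasVal M q A ζ E11 E02 u₂ 0 0 0 := by
    rw [h27a_hasVal_iff, hu₂]
    refine ⟨?_, ?_, ?_⟩
    · refine h27a_val_congr (h27a_val_mul hπq (h27a_val_mul hπq (h27a_val_pow hπq hv20 (q + 1))
        (h27a_val_cst hc20 hπq (zpow_ne_zero a hπq) (h27a_q_unit hq a).1 (h27a_q_unit hq a).2))
        (h27a_val_inv (h27a_val_pow hπq hw20 m))) ?_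
      rw [ha]
      push_cast
      ring
    · refine h27a_val_congr (h27a_val_mul hπz (h27a_val_mul hπz (h27a_val_pow hπz hv11 (q + 1))
        (h27a_val_cst hc11 hπz (zpow_ne_zero a hπq) (h27a_cyc_unit hq hζ a).1
          (h27a_cyc_unit hq hζ a).2))
        (h27a_val_inv (h27a_val_pow hπz hw11 m))) ?_
      rw [hqc]
      push_cast
      linarith
    · refine h27a_val_congr (h27a_val_mul hπq (h27a_val_mul hπq (h27a_val_pow hπq hv02 (q + 1))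
        (h27a_val_cst hc02 hπq (zpow_ne_zero a hπq) (h27a_q_unit hq a).1 (h27a_q_unit hq a).2))
        (h27a_val_inv (h27a_val_pow hπq hw02 m))) ?_
      push_cast
      linarith
  -- `u₂` is new
  have hxy : u ^ (q + 1) = u₂ * (h₁ * (cst (M * q * q) d)⁻¹) ^ m := by
    rw [hu₂, hcd, mul_pow, inv_pow]
    have := pow_ne_zero m hh10
    have := pow_ne_zero m hcd0
    field_simp
  have hh1d : h₁ * (cst (M * q * q) d)⁻¹ ≠ 0 := mul_ne_zero hh10 (inv_ne_zero hcd0)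
  have hn2 : h20v_NormPow M q m u₂ :=
    ⟨h92c_norm_of_eq _ hh1d hxy hnα, h92c_norm_of_eq _ hh1d hxy hnβ⟩
  -- (L5) local roots
  obtain ⟨g₂₀, g₁₁, g₀₂, hg20F, hg11F, hg02F, hg20, hg11, hg02, hr20, hr11, hr02⟩ :=
    hRoots q hq M hqM haux A hA ζ E11 E02 hT m hm u₂ hu2F hu20 hn2 hv2
  obtain ⟨hz20, hz11, hz02⟩ := h27a_hasVal_iff.mp hv2
  have hU2_20 : h20v_Unit A (h20n_E20 M q u₂) := h27a_val_zero_iff.mp hz20
  have hU2_11 : h20v_Unit A (E11 u₂) := h27a_val_zero_iff.mp hz11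
  have hU2_02 : h20v_Unit A (E02 u₂) := h27a_val_zero_iff.mp hz02
  -- the local roots are units
  obtain ⟨a20, _, _, hva20⟩ := hVal q hq M hqM haux A hA ζ E11 E02 hT g₂₀ hg20F hg20
  obtain ⟨_, a11, _, hva11⟩ := hVal q hq M hqM haux A hA ζ E11 E02 hT g₁₁ hg11F hg11
  obtain ⟨_, _, a02, hva02⟩ := hVal q hq M hqM haux A hA ζ E11 E02 hT g₀₂ hg02F hg02
  have hU20 : h20v_Unit A (h20n_E20 M q g₂₀) :=
    h27a_unit_of_val_pow hc20 hπq hg20 (h27a_hasVal_iff.mp hva20).1 hm0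
      (h27a_unit_pow_of_cong hu20 hU2_20 (h27a_unit_of_cong hr20))
  have hU11 : h20v_Unit A (E11 g₁₁) :=
    h27a_unit_of_val_pow hc11 hπz hg11 (h27a_hasVal_iff.mp hva11).2.1 hm0
      (h27a_unit_pow_of_cong (pow_ne_zero _ hu20)
        (by rw [map_pow]; exact h27a_unit_pow hU2_11 _) (h27a_unit_of_cong hr11))
  have hU02 : h20v_Unit A (E02 g₀₂) :=
    h27a_unit_of_val_pow hc02 hπq hg02 (h27a_hasVal_iff.mp hva02).2.2 hm0
      (h27a_unit_pow_of_cong hu20 hU2_02 (h27a_unit_of_cong hr02))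
  -- (L6) `h₀` with the residues of `g₂₀ ^ (q - 1)`, `g₁₁`, `g₀₂ ^ (q - 1)`
  obtain ⟨h₀, hh0F, hh00, hs20, hs11, hs02⟩ :=
    hApR q hq M hqM haux A hA ζ E11 E02 hT (g₂₀ ^ (q - 1)) g₁₁ (g₀₂ ^ (q - 1))
      (pow_mem hg20F _) hg11F (pow_mem hg02F _)
      (by rw [map_pow]; exact h27a_unit_pow hU20 _) hU11
      (by rw [map_pow]; exact h27a_unit_pow hU02 _)
  -- `w₀ ≡ 1` at the three valuations
  obtain ⟨w₀, hw₀⟩ : ∃ x : FF (M * q * q), x = u₂ ^ (q - 1) * (h₀ ^ m)⁻¹ := ⟨_, rfl⟩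
  have hw0F : w₀ ∈ h92c_F0 A (M * q * q) := by
    rw [hw₀]
    exact mul_mem (pow_mem hu2F _) (inv_mem (pow_mem hh0F _))
  have e20 : w₀ = (u₂ * (g₂₀ ^ m)⁻¹) ^ (q - 1) * ((h₀ * (g₂₀ ^ (q - 1))⁻¹) ^ m)⁻¹ := by
    rw [hw₀]
    have := pow_ne_zero m hg20
    have := pow_ne_zero (q - 1) hg20
    have := pow_ne_zero m hh00
    field_simp
    ring
  have e11 : w₀ = (u₂ ^ (q - 1) * (g₁₁ ^ m)⁻¹) * ((h₀ * g₁₁⁻¹) ^ m)⁻¹ := by
    rw [hw₀, mul_pow, inv_pow]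
    have := pow_ne_zero m hg11
    have := pow_ne_zero m hh00
    field_simp
  have e02 : w₀ = (u₂ * (g₀₂ ^ m)⁻¹) ^ (q - 1) * ((h₀ * (g₀₂ ^ (q - 1))⁻¹) ^ m)⁻¹ := by
    rw [hw₀]
    have := pow_ne_zero m hg02
    have := pow_ne_zero (q - 1) hg02
    have := pow_ne_zero m hh00
    field_simp
    ring
  have hcong : h20v_CongOne M q A E11 E02 w₀ := by
    refine ⟨?_, ?_, ?_⟩
    · rw [e20, map_mul, map_pow, map_inv₀, map_pow]
      exact h27a_cong_mul (h27a_cong_pow hr20 _) (h27a_cong_inv (h27a_cong_pow hs20 _))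
    · rw [e11, map_mul, map_inv₀, map_pow]
      exact h27a_cong_mul hr11 (h27a_cong_inv (h27a_cong_pow hs11 _))
    · rw [e02, map_mul, map_pow, map_inv₀, map_pow]
      exact h27a_cong_mul (h27a_cong_pow hr02 _) (h27a_cong_inv (h27a_cong_pow hs02 _))
  -- (L7) the unipotent part
  obtain ⟨h, y, hhF, hh0, hyF, hyInt, hwy⟩ :=
    hUnip q hq M hqM haux A hA ζ E11 E02 hT m hm w₀ hw0F hcong
  -- (L1) `y ∈ V`
  have hyV : y ∈ h92c_V A M q := hComplete q hq M hqM haux A hA ζ E11 E02 hT y hyF hyInt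
  refine ⟨h * h₀ * h₁ ^ (q - 1) * ((cst (M * q * q) d)⁻¹) ^ (q - 1), w₀ * (h ^ m)⁻¹, ?_, ?_, ?_, ?_⟩
  · exact mul_ne_zero (mul_ne_zero (mul_ne_zero hh0 hh00) (pow_ne_zero _ hh10))
      (pow_ne_zero _ (inv_ne_zero hcd0))
  · exact mul_mem hw0F (inv_mem (pow_mem hhF _))
  · exact ⟨y, ⟨hyV, hyF⟩, hwy⟩
  · have e1 : u ^ ((q + 1) * (q - 1)) = (u ^ (q + 1)) ^ (q - 1) := pow_mul _ _ _
    rw [e1, hxy, hw₀]
    have := pow_ne_zero m hh0
    have := pow_ne_zero m hh00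
    have := pow_ne_zero m hcd0
    field_simp
    ring

end Fermat.Agent.S36
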