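import Fermat.Agent.S36.H17Desc
import Fermat.Agent.S36.H53DescIface

/-!
# S36, block (D), leaf D-POW (helper55): `DescPow`

An `I`-invariant function `w ≠ 0` which is a constant times an `m`-th power in `FF N` is a
constant of `K0 = ℚ̄^I` times an `m`-th power of an `I`-invariant function.

Proof: normalise the leading `q`-coefficient of `g` to `1`; then the constant is the leading
coefficient of `w`, hence `I`-fixed, and `σ g₁`, `g₁` have the same divisor and the same
leading coefficient, hence are equal (`h17d_eq_of_ord_eq`).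
-/

set_option autoImplicit false

open AlgebraicCurve ModularCurve

noncomputable section

namespace Fermat.Agent.S36

open Fermat.Agent.S37 (Kbar GQ FF cst gal)

/-- the leading coefficient of an `I`-invariant function is `I`-fixed. -/
theorem h55p_lc_fixed {N : ℕ} [NeZero N] {I : Subgroup GQ} {w : FF N}
    (hw : w ∈ h53d_F0 N I) (σ : GQ) (hσ : σ ∈ I) : σ (h17d_lc w) = h17d_lc w := by
  have h := h17d_lc_gal σ w
  rw [hw σ hσ] at h
  exact h.symm

/-- normalised form: `w = c g ^ m`, `w ≠ 0`, `m ≥ 1` ⟹ `w = lc(w) g₁ ^ m` with `lc(g₁) = 1`. -/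
theorem h55p_normalise {N : ℕ} [NeZero N] {m : ℕ} (hm : 0 < m) {w g : FF N} {c : Kbar}
    (hw : w ≠ 0) (hwe : w = cst N c * g ^ m) :
    ∃ g₁ : FF N, g₁ ≠ 0 ∧ h17d_lc g₁ = 1 ∧ w = cst N (h17d_lc w) * g₁ ^ m := by
  have hg : g ≠ 0 := by
    rintro rfl
    apply hw
    rw [hwe, zero_pow hm.ne', mul_zero]
  have ha : h17d_lc g ≠ 0 := h17d_lc_ne_zero hg
  have hca : cst N (h17d_lc g) ≠ 0 := by
    intro h
    apply ha
    have := h17d_lc_cst (N := N) (h17d_lc g)
    rw [h] at this
    rw [← this]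
    exact HahnSeries.leadingCoeff_zero
  have hg1 : (cst N (h17d_lc g))⁻¹ * g ≠ 0 := mul_ne_zero (inv_ne_zero hca) hg
  have hlc1 : h17d_lc ((cst N (h17d_lc g))⁻¹ * g) = 1 := by
    rw [h17d_lc_mul, h17d_lc_inv hca, h17d_lc_cst, inv_mul_cancel₀ ha]
  have hpow : ∀ (x : FF N) (n : ℕ), h17d_lc (x ^ n) = h17d_lc x ^ n := by
    intro x n
    induction n with
    | zero => rw [pow_zero, pow_zero]; exact h17d_lc_one
    | succ n ih => rw [pow_succ, pow_succ, h17d_lc_mul, ih]
  have hw1 : w = cst N (c * h17d_lc g ^ m) * ((cst N (h17d_lc g))⁻¹ * g) ^ m := by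
    have e1 : cst N (c * h17d_lc g ^ m) = cst N c * cst N (h17d_lc g) ^ m := by
      show algebraMap Kbar (FF N) (c * h17d_lc g ^ m) = _
      rw [map_mul, map_pow]
    have hne : cst N (h17d_lc g) ^ m ≠ 0 := pow_ne_zero _ hca
    rw [hwe, mul_pow, inv_pow, e1, mul_assoc, mul_inv_cancel_left₀ hne]
  have hlcw : h17d_lc w = c * h17d_lc g ^ m := by
    conv_lhs => rw [hw1]
    rw [h17d_lc_mul, h17d_lc_cst, hpow, hlc1, one_pow, mul_one]
  refine ⟨(cst N (h17d_lc g))⁻¹ * g, hg1, hlc1, ?_⟩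
  rw [hlcw]
  exact hw1

/-- **D-POW.** -/
theorem h55p_descPow : DescPow := by
  intro N _ I m w g c hw hwF hwe
  rcases Nat.eq_zero_or_pos m with rfl | hm
  · refine ⟨c, 1, ?_, Subfield.one_mem _, ?_⟩
    · intro σ hσ
      have h := hwF σ hσ
      rw [hwe, pow_zero, mul_one, h17d_gal_cst] at h
      exact (algebraMap Kbar (FF N)).injective h
    · rw [hwe, pow_zero, one_pow]
  · obtain ⟨g₁, hg1, hlc1, hw1⟩ := h55p_normalise hm hw hwe
    have hcfix : ∀ σ ∈ I, σ (h17d_lc w) = h17d_lc w := fun σ hσ => h55p_lc_fixed hwF σ hσ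
    have hcw : cst N (h17d_lc w) ≠ 0 := by
      intro h
      apply hw
      rw [hw1, h, zero_mul]
    refine ⟨h17d_lc w, g₁, hcfix, ?_, hw1⟩
    intro σ hσ
    have hpowEq : (gal N σ • g₁) ^ m = g₁ ^ m := by
      have h := hwF σ hσ
      conv_lhs at h => rw [hw1]
      rw [smul_mul', smul_pow', h17d_gal_cst, hcfix σ hσ] at h
      conv_rhs at h => rw [hw1]
      exact mul_left_cancel₀ hcw h
    apply h17d_eq_of_ord_eq (h17d_gal_ne_zero σ hg1) hg1
    · intro v
      have h := congrArg v.ord hpowEq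
      rw [← zpow_natCast, ← zpow_natCast, Place.ord_zpow, Place.ord_zpow] at h
      have hm' : (m : ℤ) ≠ 0 := by exact_mod_cast hm.ne'
      exact mul_left_cancel₀ hm' h
    · rw [h17d_lc_gal, hlc1, map_one]

end Fermat.Agent.S36
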