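import Fermat.Agent.S36.H64NAsm
import Fermat.Agent.S36.H83EmbGal
import Fermat.Agent.S36.H55DescPow

/-!
# S36, hand-off (N) → (G): the toric witnesses of `H20NewGate36` made explicit (helper71)

`h64a_newGateAssembly` (helper64) proves `H20NewGate36` with witnesses hidden under `∃ h`.
For the gate over the inertia field one needs witnesses *fixed by inertia* and constants in
`K₀ = ℚ̄^I`.  This file exposes the witnesses:  for a Frobenius `σ` at `A`,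
`Nm_α u = c_a g_a ^ m`, `Nm_β u = c_b g_b ^ m` (constants allowed),

* `E20 u ≡ d · E20 (α (σ⁻¹ g_b)) ^ m`                         (`h71x_tor20`)
* `E02 u ≡ d · E02 (β (w (σ⁻¹ (w g_a)))) ^ m`                  (`h71x_tor02`)
* `E11 u ^ (q-1) ≡ d · E11 (α (g_a / σ⁻¹ g_b)) ^ m`            (`h71x_tor11`)

(`≡` the Gauss congruence `h20n_CongOneS`, `d ∈ ℚ̄ˣ`).  If `g_a, g_b` are fixed by the inertia
group `I` of `A` then so are the three witnesses (`h71x_wit20_mem`, ...), because `σ`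
normalises `I` and `α, β, w` commute with the Galois action.
-/

set_option autoImplicit false
set_option linter.style.haveILetI false

open AlgebraicCurve ModularCurve

noncomputable section

namespace Fermat.Agent.S36

open Fermat.Agent.S37 (Kbar GQ FF cst gal)
open Fermat.Agent.Red.KR (normAlong)
open Fermat.Agent.Red.Kron (kFricke twistK)
open Fermat.Agent.Red.GV (embA redA)
open Fermat.Agent.Red.GV.Soft

section Main

variable {M q : ℕ} [NeZero M] [NeZero q]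

/-- the witness at `W20`. -/
def h71xW20 (M q : ℕ) [NeZero M] [NeZero q] (σ : GQ) (gb : FF (M * q)) : FF (M * q * q) :=
  heckeAlphaBar Kbar (M * q) q (gal (M * q) σ⁻¹ • gb)

/-- the witness at `W02`. -/
def h71xW02 (M q : ℕ) [NeZero M] [NeZero q] (hq : q.Prime) (hqM : ¬ q ∣ M) (σ : GQ)
    (ga : FF (M * q)) : FF (M * q * q) :=
  heckeBetaBar Kbar (M * q) q
    (kFricke M q hq hqM (gal (M * q) σ⁻¹ • (kFricke M q hq hqM ga)))

/-- the witness at `W11` (for `u ^ (q - 1)`). -/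
def h71xW11 (M q : ℕ) [NeZero M] [NeZero q] (σ : GQ) (ga gb : FF (M * q)) : FF (M * q * q) :=
  heckeAlphaBar Kbar (M * q) q (ga * (gal (M * q) σ⁻¹ • gb)⁻¹)

theorem h71x_norm_ne_zero_a {u : FF (M * q * q)} (hu : u ≠ 0) :
    normAlong (heckeAlphaBar Kbar (M * q) q) u ≠ 0 :=
  h64a_normAlong_ne_zero _ (Fermat.Agent.Red.HKMod.finiteAlong_heckeAlphaBar (M * q) q) hu

theorem h71x_norm_ne_zero_b {u : FF (M * q * q)} (hu : u ≠ 0) :
    normAlong (heckeBetaBar Kbar (M * q) q) u ≠ 0 :=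
  h64a_normAlong_ne_zero _ (Fermat.Agent.Red.HKMod.finiteAlong_heckeBetaBar (M * q) q) hu

/-- a constant is an `m`-th power. -/
theorem h71x_exists_root {m : ℕ} (hm : m ≠ 0) {c : Kbar} (hc : c ≠ 0) :
    ∃ e : Kbar, e ≠ 0 ∧ e ^ m = c := by
  obtain ⟨e, he⟩ := IsAlgClosed.exists_pow_nat_eq c (Nat.pos_of_ne_zero hm)
  refine ⟨e, ?_, he⟩
  rintro rfl
  rw [zero_pow hm] at he
  exact hc he.symm

theorem h71x_gal_cst (N : ℕ) (σ : GQ) (c : Kbar) :
    gal N σ • cst N c = cst N (σ c) :=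
  SemilinearAut.smul_algebraMap (gal N σ) c

theorem h71x_coe_pow (N : ℕ) (x : FF N) (n : ℕ) :
    (((x ^ n : FF N) : FF N) : LaurentSeries Kbar) = (x : LaurentSeries Kbar) ^ n := rfl

theorem h71x_coe_mul (N : ℕ) (x y : FF N) :
    (((x * y : FF N) : FF N) : LaurentSeries Kbar) =
      (x : LaurentSeries Kbar) * (y : LaurentSeries Kbar) := rfl

theorem h71x_coe_inv (N : ℕ) (x : FF N) :
    (((x⁻¹ : FF N) : FF N) : LaurentSeries Kbar) = (x : LaurentSeries Kbar)⁻¹ := rfl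

/-! ## The explicit congruences, without constants in the norms -/

/-- **Tor20, explicit.**  `u ≡ d · (σ⁻¹ h')(t) ^ m` at `E20`. -/
theorem h71x_tor20_core (hRoot : H20Root) (hFrob : H20Frob) (hRedB : H20RedB)
    (hq : q.Prime) (A : ValuationSubring Kbar) (hA : A.LiesOverPrime q)
    (σ : GQ) (hσ : A.IsFrobeniusAt σ q)
    (m : ℕ) (hm0 : m ≠ 0) (u : FF (M * q * q)) (hu : u ≠ 0)
    (h' : FF (M * q)) (hh' : normAlong (heckeBetaBar Kbar (M * q) q) u = h' ^ m) :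
    ∃ d : Kbar, d ≠ 0 ∧
      h20n_CongOneS A (HahnSeries.C d * (u : LaurentSeries Kbar) *
        (((gal (M * q) σ⁻¹ • h' : FF (M * q)) : LaurentSeries Kbar) ^ m)⁻¹) := by
  have hh'0 : h' ≠ 0 := by
    rintro rfl
    rw [zero_pow hm0] at hh'
    exact h71x_norm_ne_zero_b hu hh'
  set y : FF (M * q) := gal (M * q) σ⁻¹ • h' with hy
  have hy0 : y ≠ 0 := h64a_gal_inv_ne_zero (M * q) σ hh'0
  have hB := hRedB q hq (M * q) (dvd_mul_left q M) A hA u hu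
  rw [hh'] at hB
  obtain ⟨c, hc0, hF⟩ := hFrob q hq A hA σ hσ (M * q) y hy0
  rw [hy, h64a_gal_smul_inv] at hF
  rw [← hy] at hF
  obtain ⟨d, hd⟩ := IsAlgClosed.exists_pow_nat_eq (c ^ m) hq.pos
  have hd0 : d ≠ 0 := by
    rintro rfl
    rw [zero_pow hq.ne_zero] at hd
    exact pow_ne_zero m hc0 hd.symm
  refine ⟨d, hd0, ?_⟩
  have hU : (u : LaurentSeries Kbar) ≠ 0 := h64a_coe_ne_zero _ hu
  have hY : (y : LaurentSeries Kbar) ≠ 0 := h64a_coe_ne_zero _ hy0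
  have hH : qExpand Kbar q ((h' : FF (M * q)) : LaurentSeries Kbar) ≠ 0 := by
    intro h0
    have := (qExpand_injective (R := Kbar) (N := q)) (h0.trans (map_zero _).symm)
    exact h64a_coe_ne_zero _ hh'0 this
  have hDC : (HahnSeries.C d : LaurentSeries Kbar) ^ q = (HahnSeries.C c) ^ m := by
    rw [← map_pow, ← map_pow, hd]
  rw [h71x_coe_pow, map_pow] at hB
  have hpow := h64a_cong_div (h64a_cong_pow hF m) hB
  rw [← h64a_pow_identity hDC hH hY hU] at hpow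
  refine hRoot q hq A hA _ ?_ hpow
  exact mul_mem (mul_mem (C_mem_dfField d) (FF_le_dfField (M * q * q) u))
    (inv_mem (pow_mem (FF_le_dfField (M * q) y) m))

/-- **Tor02, explicit.**  `E02 u ≡ d · (σ⁻¹ (w h))(t) ^ m`. -/
theorem h71x_tor02_core (hDF : H20EmbDF) (hRoot : H20Root) (hFrob : H20Frob)
    (hRedD : H20RedD)
    (hq : q.Prime) (hqM : ¬ q ∣ M) (A : ValuationSubring Kbar) (hA : A.LiesOverPrime q)
    (σ : GQ) (hσ : A.IsFrobeniusAt σ q)
    (m : ℕ) (hm0 : m ≠ 0) (u : FF (M * q * q)) (hu : u ≠ 0)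
    (h : FF (M * q)) (hh : normAlong (heckeAlphaBar Kbar (M * q) q) u = h ^ m)
    (E0 : FF (M * q * q) →+* LaurentSeries Kbar) (hE0 : h20n_IsE02 M q hq hqM E0) :
    ∃ d : Kbar, d ≠ 0 ∧
      h20n_CongOneS A (HahnSeries.C d * E0 u *
        (((gal (M * q) σ⁻¹ • (kFricke M q hq hqM h) : FF (M * q)) :
          LaurentSeries Kbar) ^ m)⁻¹) := by
  have hh0 : h ≠ 0 := by
    rintro rfl
    rw [zero_pow hm0] at hh
    exact h71x_norm_ne_zero_a hu hh
  have hwh0 : kFricke M q hq hqM h ≠ 0 := (map_ne_zero (kFricke M q hq hqM)).2 hh0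
  set y : FF (M * q) := gal (M * q) σ⁻¹ • (kFricke M q hq hqM h) with hy
  have hy0 : y ≠ 0 := h64a_gal_inv_ne_zero (M * q) σ hwh0
  have hD := hRedD q hq M hqM A hA E0 hE0 u hu
  rw [hh, map_pow, map_pow, hE0.1 h] at hD
  obtain ⟨c, hc0, hF⟩ := hFrob q hq A hA σ hσ (M * q) y hy0
  rw [hy, h64a_gal_smul_inv] at hF
  rw [← hy] at hF
  obtain ⟨d, hd⟩ := IsAlgClosed.exists_pow_nat_eq (c ^ m) hq.pos
  have hd0 : d ≠ 0 := by
    rintro rfl
    rw [zero_pow hq.ne_zero] at hd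
    exact pow_ne_zero m hc0 hd.symm
  have hU : E0 u ≠ 0 := (map_ne_zero E0).2 hu
  have hY : (y : LaurentSeries Kbar) ≠ 0 := h64a_coe_ne_zero _ hy0
  have hH : qExpand Kbar q ((kFricke M q hq hqM h : FF (M * q)) : LaurentSeries Kbar) ≠ 0 := by
    intro h0
    have := (qExpand_injective (R := Kbar) (N := q)) (h0.trans (map_zero _).symm)
    exact h64a_coe_ne_zero _ hwh0 this
  have hDC : (HahnSeries.C d : LaurentSeries Kbar) ^ q = (HahnSeries.C c) ^ m := by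
    rw [← map_pow, ← map_pow, hd]
  have hpow := h64a_cong_div (h64a_cong_pow hF m) hD
  rw [← h64a_pow_identity hDC hH hY hU] at hpow
  refine ⟨d, hd0, hRoot q hq A hA _ ?_ hpow⟩
  exact mul_mem (mul_mem (C_mem_dfField d) (hDF q hq M hqM E0 (Or.inr hE0) u))
    (inv_mem (pow_mem (FF_le_dfField (M * q) y) m))

/-- **Tor11, explicit.**  `(E u) ^ (q-1) ≡ d · (h / σ⁻¹ h')(t) ^ m`. -/
theorem h71x_tor11_core (hRoot : H20Root) (hFrob : H20Frob) (hRedB : H20RedB)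
    (hRedA : H20RedA)
    (hq : q.Prime) (hqM : ¬ q ∣ M) (A : ValuationSubring Kbar) (hA : A.LiesOverPrime q)
    (σ : GQ) (hσ : A.IsFrobeniusAt σ q)
    (m : ℕ) (hm0 : m ≠ 0) (u : FF (M * q * q)) (hu : u ≠ 0)
    (h : FF (M * q)) (hh : normAlong (heckeAlphaBar Kbar (M * q) q) u = h ^ m)
    (h' : FF (M * q)) (hh' : normAlong (heckeBetaBar Kbar (M * q) q) u = h' ^ m)
    (hinv : ∀ τ ∈ A.inertiaSubgroupIn ℚ, ∃ c : Kbar, c ≠ 0 ∧
      gal (M * q * q) τ • u = cst (M * q * q) c * u)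
    (ζ : Kbar) (E : FF (M * q * q) →+* LaurentSeries Kbar) (hζ : IsPrimitiveRoot ζ q)
    (hE : h20n_IsE11 M q hq hqM ζ E) :
    ∃ d : Kbar, d ≠ 0 ∧
      h20n_CongOneS A (HahnSeries.C d * E u ^ (q - 1) *
        (((h : LaurentSeries Kbar) *
          ((gal (M * q) σ⁻¹ • h' : FF (M * q)) : LaurentSeries Kbar)⁻¹) ^ m)⁻¹) := by
  have hh0 : h ≠ 0 := by
    rintro rfl
    rw [zero_pow hm0] at hh
    exact h71x_norm_ne_zero_a hu hh
  have hh'0 : h' ≠ 0 := by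
    rintro rfl
    rw [zero_pow hm0] at hh'
    exact h71x_norm_ne_zero_b hu hh'
  obtain ⟨d, hd0, hcong⟩ :=
    h71x_tor20_core hRoot hFrob hRedB hq A hA σ hσ m hm0 u hu h' hh'
  set y : FF (M * q) := gal (M * q) σ⁻¹ • h' with hy
  have hy0 : y ≠ 0 := h64a_gal_inv_ne_zero (M * q) σ hh'0
  obtain ⟨c, hc0, hA1⟩ := hRedA q hq M hqM A hA ζ hζ E hE u hu hinv
  rw [hh, h71x_coe_pow] at hA1
  have hU : (u : LaurentSeries Kbar) ≠ 0 := h64a_coe_ne_zero _ hu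
  have hY : (y : LaurentSeries Kbar) ≠ 0 := h64a_coe_ne_zero _ hy0
  have hHh : (h : LaurentSeries Kbar) ≠ 0 := h64a_coe_ne_zero _ hh0
  have hEu : E u ≠ 0 := (map_ne_zero E).2 hu
  have hCc : (HahnSeries.C c : LaurentSeries Kbar) ≠ 0 := (map_ne_zero _).2 hc0
  have hCd : (HahnSeries.C d : LaurentSeries Kbar) ≠ 0 := (map_ne_zero _).2 hd0
  have hprod := h64a_cong_inv (h64a_cong_mul hA1 hcong)
  refine ⟨(c * d)⁻¹, inv_ne_zero (mul_ne_zero hc0 hd0), h64a_cong_of_eq hprod ?_⟩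
  rw [map_inv₀, map_mul]
  have hEq : E u ^ (q - 1) ≠ 0 := pow_ne_zero _ hEu
  have hYm : (y : LaurentSeries Kbar) ^ m ≠ 0 := pow_ne_zero _ hY
  have hHm : (h : LaurentSeries Kbar) ^ m ≠ 0 := pow_ne_zero _ hHh
  rw [mul_pow, inv_pow]
  field_simp

end Main

/-! ## Galois: the Frobenius normalises inertia, norms are equivariant -/

/-- the decomposition group normalises the inertia group. -/
theorem h71x_conj_mem_inertia (A : ValuationSubring Kbar) (σ : GQ)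
    (hσ : σ ∈ A.decompositionSubgroup ℚ) (τ : GQ) (hτ : τ ∈ A.inertiaSubgroupIn ℚ) :
    σ * τ * σ⁻¹ ∈ A.inertiaSubgroupIn ℚ := by
  obtain ⟨τ', hτ', rfl⟩ := hτ
  have hn : (A.inertiaSubgroup ℚ).Normal := by
    unfold ValuationSubring.inertiaSubgroup
    exact MonoidHom.normal_ker _
  have h1 := hn.conj_mem τ' hτ' ⟨σ, hσ⟩
  exact ⟨_, h1, rfl⟩

/-- the norm along a Galois-equivariant embedding is Galois-equivariant. -/
theorem h71x_gal_normAlong {N N' : ℕ} (φ : FF N →ₐ[Kbar] FF N')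
    (hφ : ∀ (σ : GQ) (x : FF N), gal N' σ • φ x = φ (gal N σ • x)) (σ : GQ) (u : FF N') :
    gal N σ • normAlong φ u = normAlong φ (gal N' σ • u) := by
  letI := algebraAlong φ
  have h := Algebra.norm_eq_of_equiv_equiv (A₁ := FF N) (B₁ := FF N') (A₂ := FF N)
    (B₂ := FF N') (SemilinearAut.toRingAut (gal N σ)) (SemilinearAut.toRingAut (gal N' σ))
    (RingHom.ext fun x => (hφ σ x).symm) u
  have h2 := congrArg (SemilinearAut.toRingAut (gal N σ)) h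
  rw [RingEquiv.apply_symm_apply] at h2
  exact h2

/-- a function fixed by a subgroup `I`, moved by the inverse of an element normalising `I`,
is fixed by `I`. -/
theorem h71x_smul_inv_mem (A : ValuationSubring Kbar) (N : ℕ) (σ : GQ)
    (hσ : σ ∈ A.decompositionSubgroup ℚ) {x : FF N}
    (hx : x ∈ h53d_F0 N (A.inertiaSubgroupIn ℚ)) :
    gal N σ⁻¹ • x ∈ h53d_F0 N (A.inertiaSubgroupIn ℚ) := by
  intro τ hτ
  have h1 := hx _ (h71x_conj_mem_inertia A σ hσ τ hτ)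
  have e : gal N τ • gal N σ⁻¹ • x = gal N σ⁻¹ • (gal N (σ * τ * σ⁻¹) • x) := by
    rw [← mul_smul, ← mul_smul, ← map_mul, ← map_mul]
    congr 2
    group
  rw [e, h1]

theorem h71x_alpha_mem (I : Subgroup GQ) (N ℓ : ℕ) [NeZero N] [NeZero ℓ] {x : FF N}
    (hx : x ∈ h53d_F0 N I) : heckeAlphaBar Kbar N ℓ x ∈ h53d_F0 (N * ℓ) I := by
  intro τ hτ
  rw [h83g_gal_alpha, hx τ hτ]

theorem h71x_beta_mem (I : Subgroup GQ) (N ℓ : ℕ) [NeZero N] [NeZero ℓ] {x : FF N}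
    (hx : x ∈ h53d_F0 N I) : heckeBetaBar Kbar N ℓ x ∈ h53d_F0 (N * ℓ) I := by
  intro τ hτ
  rw [h83g_gal_beta, hx τ hτ]

theorem h71x_fricke_mem (I : Subgroup GQ) (N ℓ : ℕ) [NeZero N] [NeZero ℓ] (hℓ : ℓ.Prime)
    (hN : ¬ ℓ ∣ N) {x : FF (N * ℓ)} (hx : x ∈ h53d_F0 (N * ℓ) I) :
    kFricke N ℓ hℓ hN x ∈ h53d_F0 (N * ℓ) I := by
  intro τ hτ
  have h := Fermat.Agent.Red.Kron.kFricke_gal (N := N) (ℓ := ℓ) hℓ hN τ x
  have h2 : gal (N * ℓ) τ • kFricke N ℓ hℓ hN x = kFricke N ℓ hℓ hN (gal (N * ℓ) τ • x) :=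
    h.symm
  rw [h2, hx τ hτ]

theorem h71x_cst_mem (I : Subgroup GQ) (N : ℕ) {c : Kbar} (hc : ∀ τ ∈ I, τ c = c) :
    cst N c ∈ h53d_F0 N I := by
  intro τ hτ
  rw [h71x_gal_cst, hc τ hτ]

theorem h71x_norm_alpha_mem (I : Subgroup GQ) (N ℓ : ℕ) [NeZero N] [NeZero ℓ]
    {u : FF (N * ℓ)} (hu : u ∈ h53d_F0 (N * ℓ) I) :
    normAlong (heckeAlphaBar Kbar N ℓ) u ∈ h53d_F0 N I := by
  intro τ hτ
  rw [h71x_gal_normAlong (heckeAlphaBar Kbar N ℓ) (fun σ x => h83g_gal_alpha N ℓ σ x),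
    hu τ hτ]

theorem h71x_norm_beta_mem (I : Subgroup GQ) (N ℓ : ℕ) [NeZero N] [NeZero ℓ]
    {u : FF (N * ℓ)} (hu : u ∈ h53d_F0 (N * ℓ) I) :
    normAlong (heckeBetaBar Kbar N ℓ) u ∈ h53d_F0 N I := by
  intro τ hτ
  rw [h71x_gal_normAlong (heckeBetaBar Kbar N ℓ) (fun σ x => h83g_gal_beta N ℓ σ x),
    hu τ hτ]

end Fermat.Agent.S36
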