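import Mathlib

/-!
# S36, blocks (N)/(T): weak approximation for finitely many rank-one valuations (helper4)

Mathlib only.  `F` a field, `v i : Valuation F (Γ i)` a finite family of valuations
(the value groups may differ), with

* `harch` (rank one, elementary form): `c < 1`, `d ≠ 0` in `Γ i` ⇒ `c ^ n < d` for some `n`;
* `hnt` (nontrivial): `∃ x ≠ 0, v i x < 1`;
* `hsep` (separation): for `i ≠ j` there is `x` with `v i x < 1 ≤ v j x`.

Results:

* `h4w_exists_sep` : for every `i` there is `a` with `1 < v i a` and `v j a < 1` (`j ≠ i`);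
* `h4w_exists_idem` : approximate idempotents `e` (`v i (e - 1) < γ i`, `v j e < γ j`);
* `h4w_approx` : **weak approximation with precision**: for targets `t i` and nonzero bounds
  `γ i` there is `x` with `v i (x - t i) < γ i` for all `i`;
* `h4w_approx_val` : prescribed values: for `t i ≠ 0` there is `x ≠ 0` with `v i x = v i (t i)`
  and `v i (x / t i - 1) < 1` for all `i`;
* `h4w_arch_int` : `harch` for `ℤᵐ⁰`.
-/

set_option autoImplicit false

namespace Fermat.Agent.S36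

section approx

variable {F : Type*} [Field F] {ι : Type*} {Γ : ι → Type*}
  [∀ i, LinearOrderedCommGroupWithZero (Γ i)]

/-- monotone form of the archimedean hypothesis. -/
theorem h4w_pow_mul_lt {G : Type*} [LinearOrderedCommGroupWithZero G]
    (harch : ∀ c d : G, c < 1 → d ≠ 0 → ∃ n : ℕ, c ^ n < d)
    (c d γ : G) (hc : c < 1) (hγ : γ ≠ 0) : ∃ n₀ : ℕ, ∀ n, n₀ ≤ n → c ^ n * d < γ := by
  by_cases hd : d = 0
  · exact ⟨0, fun n _ => by rw [hd, mul_zero]; exact zero_lt_iff.mpr hγ⟩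
  · obtain ⟨n₀, hn₀⟩ := harch c (γ * d⁻¹) hc (mul_ne_zero hγ (inv_ne_zero hd))
    refine ⟨n₀, fun n hn => ?_⟩
    have h1 : c ^ n ≤ c ^ n₀ := pow_le_pow_right_of_le_one' hc.le hn
    have h2 : c ^ n < γ * d⁻¹ := lt_of_le_of_lt h1 hn₀
    have hdpos : 0 < d := zero_lt_iff.mpr hd
    calc c ^ n * d < γ * d⁻¹ * d := by
          exact mul_lt_mul_of_pos_right h2 hdpos
      _ = γ := by rw [mul_assoc, inv_mul_cancel₀ hd, mul_one]

variable (v : ∀ i, Valuation F (Γ i))

/-- uniform threshold over a finset. -/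
theorem h4w_unif (harch : ∀ i (c d : Γ i), c < 1 → d ≠ 0 → ∃ n : ℕ, c ^ n < d)
    (S : Finset ι) (c d γ : ∀ i, Γ i) (hc : ∀ j ∈ S, c j < 1) (hγ : ∀ j ∈ S, γ j ≠ 0) :
    ∃ r₀ : ℕ, ∀ r, r₀ ≤ r → ∀ j ∈ S, c j ^ r * d j < γ j := by
  classical
  have h : ∀ j : ι, ∃ r₀ : ℕ, j ∈ S → ∀ r, r₀ ≤ r → c j ^ r * d j < γ j := by
    intro j
    by_cases hj : j ∈ S
    · obtain ⟨r₀, hr₀⟩ := h4w_pow_mul_lt (harch j) (c j) (d j) (γ j) (hc j hj) (hγ j hj)
      exact ⟨r₀, fun _ => hr₀⟩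
    · exact ⟨0, fun h => absurd h hj⟩
  choose ρ hρ using h
  refine ⟨S.sup ρ, fun r hr j hj => hρ j hj r (le_trans (Finset.le_sup hj) hr)⟩

/-- separating elements over a finset. -/
theorem h4w_exists_sep_finset
    (harch : ∀ i (c d : Γ i), c < 1 → d ≠ 0 → ∃ n : ℕ, c ^ n < d)
    (hnt : ∀ i, ∃ x : F, x ≠ 0 ∧ v i x < 1)
    (hsep : ∀ i j, i ≠ j → ∃ x : F, v i x < 1 ∧ 1 ≤ v j x)
    (i : ι) (S : Finset ι) (hi : i ∉ S) :
    ∃ a : F, 1 < v i a ∧ ∀ j ∈ S, v j a < 1 := by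
  classical
  induction S using Finset.induction_on with
  | empty =>
    obtain ⟨x, hx0, hx⟩ := hnt i
    refine ⟨x⁻¹, ?_, fun j hj => absurd hj (Finset.notMem_empty j)⟩
    rw [map_inv₀]
    have hvx : v i x ≠ 0 := (Valuation.ne_zero_iff _).mpr hx0
    exact (one_lt_inv₀ (zero_lt_iff.mpr hvx)).mpr hx
  | insert n S hn ih =>
    have hin : i ≠ n := fun h => hi (h ▸ Finset.mem_insert_self _ _)
    have hiS : i ∉ S := fun h => hi (Finset.mem_insert_of_mem h)
    obtain ⟨a, ha1, haS⟩ := ih hiS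
    -- `b` with `1 < v i b`, `v n b < 1`
    obtain ⟨x, hx1, hx2⟩ := hsep i n hin
    obtain ⟨y, hy1, hy2⟩ := hsep n i hin.symm
    have hx0 : x ≠ 0 := by
      rintro rfl
      rw [map_zero] at hx2
      exact absurd hx2 (not_le.mpr zero_lt_one)
    have hvix : v i x ≠ 0 := (Valuation.ne_zero_iff _).mpr hx0
    have hvnx : v n x ≠ 0 := (Valuation.ne_zero_iff _).mpr hx0
    set b : F := y / x with hb
    have hbi : 1 < v i b := by
      rw [hb, map_div₀]
      rw [one_lt_div₀ (zero_lt_iff.mpr hvix)]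
      exact lt_of_lt_of_le hx1 hy2
    have hbn : v n b < 1 := by
      rw [hb, map_div₀]
      rw [div_lt_one₀ (zero_lt_iff.mpr hvnx)]
      exact lt_of_lt_of_le hy1 hx2
    have ha0 : a ≠ 0 := by
      rintro rfl
      rw [map_zero] at ha1
      exact absurd ha1 (not_lt.mpr zero_le_one)
    -- uniform exponent
    obtain ⟨r₀, hr₀⟩ := h4w_unif harch S (fun j => v j a) (fun j => v j b) (fun _ => 1)
      haS (fun _ _ => one_ne_zero)
    set r : ℕ := r₀ + 1 with hr
    have hrr : r₀ ≤ r := Nat.le_succ r₀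
    have hr0 : r ≠ 0 := Nat.succ_ne_zero r₀
    rcases lt_trichotomy (v n a) 1 with hlt | heq | hgt
    · refine ⟨a, ha1, fun j hj => ?_⟩
      rcases Finset.mem_insert.mp hj with rfl | hjS
      · exact hlt
      · exact haS j hjS
    · refine ⟨a ^ r * b, ?_, fun j hj => ?_⟩
      · rw [map_mul, map_pow]
        calc (1 : Γ i) < v i b := hbi
          _ = 1 * v i b := (one_mul _).symm
          _ ≤ v i a ^ r * v i b := mul_le_mul_left (one_le_pow₀ ha1.le) _
      · rw [map_mul, map_pow]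
        rcases Finset.mem_insert.mp hj with rfl | hjS
        · rw [heq, one_pow, one_mul]; exact hbn
        · exact hr₀ r hrr j hjS
    · -- `c = a ^ r * b / (1 + a ^ r)`
      have hpow_i : 1 < v i (a ^ r) := by
        rw [map_pow]; exact one_lt_pow₀ ha1 hr0
      have hpow_n : 1 < v n (a ^ r) := by
        rw [map_pow]; exact one_lt_pow₀ hgt hr0
      have hsum_i : v i (1 + a ^ r) = v i (a ^ r) := by
        rw [add_comm]
        exact Valuation.map_add_eq_of_lt_left _ (by rw [map_one]; exact hpow_i)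
      have hsum_n : v n (1 + a ^ r) = v n (a ^ r) := by
        rw [add_comm]
        exact Valuation.map_add_eq_of_lt_left _ (by rw [map_one]; exact hpow_n)
      have hne_i : v i (a ^ r) ≠ 0 := (Valuation.ne_zero_iff _).mpr (pow_ne_zero _ ha0)
      have hne_n : v n (a ^ r) ≠ 0 := (Valuation.ne_zero_iff _).mpr (pow_ne_zero _ ha0)
      refine ⟨a ^ r * b / (1 + a ^ r), ?_, fun j hj => ?_⟩
      · rw [map_div₀, map_mul, hsum_i, mul_comm, mul_div_assoc, div_self hne_i, mul_one]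
        exact hbi
      · rcases Finset.mem_insert.mp hj with rfl | hjS
        · rw [map_div₀, map_mul, hsum_n, mul_comm, mul_div_assoc, div_self hne_n, mul_one]
          exact hbn
        · have hlt1 : v j (a ^ r) < 1 := by
            rw [map_pow]; exact pow_lt_one₀ zero_le (haS j hjS) hr0
          have hsum_j : v j (1 + a ^ r) = 1 := by
            have := Valuation.map_add_eq_of_lt_left (v j) (x := (1 : F)) (y := a ^ r)
              (by rw [map_one]; exact hlt1)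
            rw [this, map_one]
          rw [map_div₀, hsum_j, div_one, map_mul, map_pow]
          exact hr₀ r hrr j hjS

/-- **Separating elements.** -/
theorem h4w_exists_sep [Finite ι]
    (harch : ∀ i (c d : Γ i), c < 1 → d ≠ 0 → ∃ n : ℕ, c ^ n < d)
    (hnt : ∀ i, ∃ x : F, x ≠ 0 ∧ v i x < 1)
    (hsep : ∀ i j, i ≠ j → ∃ x : F, v i x < 1 ∧ 1 ≤ v j x) (i : ι) :
    ∃ a : F, 1 < v i a ∧ ∀ j, j ≠ i → v j a < 1 := by
  classical
  have := Fintype.ofFinite ι
  obtain ⟨a, ha, haS⟩ := h4w_exists_sep_finset v harch hnt hsep i (Finset.univ.erase i)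
    (Finset.notMem_erase i _)
  exact ⟨a, ha, fun j hj => haS j (Finset.mem_erase.mpr ⟨hj, Finset.mem_univ j⟩)⟩

/-- **Approximate idempotents.** -/
theorem h4w_exists_idem [Finite ι]
    (harch : ∀ i (c d : Γ i), c < 1 → d ≠ 0 → ∃ n : ℕ, c ^ n < d)
    (hnt : ∀ i, ∃ x : F, x ≠ 0 ∧ v i x < 1)
    (hsep : ∀ i j, i ≠ j → ∃ x : F, v i x < 1 ∧ 1 ≤ v j x) (i : ι)
    (d γ : ∀ j, Γ j) (hγ : ∀ j, γ j ≠ 0) :
    ∃ e : F, v i (e - 1) * d i < γ i ∧ ∀ j, j ≠ i → v j e * d j < γ j := by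
  classical
  have := Fintype.ofFinite ι
  obtain ⟨a, ha, haj⟩ := h4w_exists_sep v harch hnt hsep i
  have ha0 : a ≠ 0 := by
    rintro rfl
    rw [map_zero] at ha
    exact absurd ha (not_lt.mpr zero_le_one)
  have hvia : v i a ≠ 0 := (Valuation.ne_zero_iff _).mpr ha0
  -- thresholds
  obtain ⟨r₁, hr₁⟩ := h4w_unif harch (Finset.univ.erase i) (fun j => v j a) d γ
    (fun j hj => haj j (Finset.mem_erase.mp hj).1) (fun j _ => hγ j)
  have hinv : (v i a)⁻¹ < 1 := (inv_lt_one₀ (zero_lt_iff.mpr hvia)).mpr ha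
  obtain ⟨r₂, hr₂⟩ := h4w_pow_mul_lt (harch i) (v i a)⁻¹ (d i) (γ i) hinv (hγ i)
  set r : ℕ := max r₁ r₂ + 1 with hr
  have hr1 : r₁ ≤ r := le_trans (le_max_left _ _) (Nat.le_succ _)
  have hr2 : r₂ ≤ r := le_trans (le_max_right _ _) (Nat.le_succ _)
  have hr0 : r ≠ 0 := Nat.succ_ne_zero _
  have hpow_i : 1 < v i (a ^ r) := by
    rw [map_pow]; exact one_lt_pow₀ ha hr0
  have hsum_i : v i (1 + a ^ r) = v i (a ^ r) := by
    rw [add_comm]
    exact Valuation.map_add_eq_of_lt_left _ (by rw [map_one]; exact hpow_i)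
  have hne_i : v i (a ^ r) ≠ 0 := (Valuation.ne_zero_iff _).mpr (pow_ne_zero _ ha0)
  have hsum0 : (1 : F) + a ^ r ≠ 0 := by
    intro h
    rw [h, map_zero] at hsum_i
    exact hne_i hsum_i.symm
  refine ⟨a ^ r / (1 + a ^ r), ?_, fun j hj => ?_⟩
  · have h1 : a ^ r / (1 + a ^ r) - 1 = -(1 / (1 + a ^ r)) := by
      field_simp
      ring
    rw [h1, Valuation.map_neg, map_div₀, map_one, hsum_i, map_pow, one_div, ← inv_pow]
    exact hr₂ r hr2
  · have hlt1 : v j (a ^ r) < 1 := by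
      rw [map_pow]; exact pow_lt_one₀ zero_le (haj j hj) hr0
    have hsum_j : v j (1 + a ^ r) = 1 := by
      have := Valuation.map_add_eq_of_lt_left (v j) (x := (1 : F)) (y := a ^ r)
        (by rw [map_one]; exact hlt1)
      rw [this, map_one]
    rw [map_div₀, hsum_j, div_one, map_pow]
    exact hr₁ r hr1 j (Finset.mem_erase.mpr ⟨hj, Finset.mem_univ j⟩)

/-- **Weak approximation with precision** for finitely many rank-one valuations. -/
theorem h4w_approx [Finite ι]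
    (harch : ∀ i (c d : Γ i), c < 1 → d ≠ 0 → ∃ n : ℕ, c ^ n < d)
    (hnt : ∀ i, ∃ x : F, x ≠ 0 ∧ v i x < 1)
    (hsep : ∀ i j, i ≠ j → ∃ x : F, v i x < 1 ∧ 1 ≤ v j x)
    (t : ι → F) (γ : ∀ i, Γ i) (hγ : ∀ i, γ i ≠ 0) :
    ∃ x : F, ∀ i, v i (x - t i) < γ i := by
  classical
  have := Fintype.ofFinite ι
  -- for each `i` an approximate idempotent adapted to the target `t i`
  have h : ∀ i, ∃ e : F, v i (e - 1) * v i (t i) < γ i ∧
      ∀ j, j ≠ i → v j e * v j (t i) < γ j := fun i =>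
    h4w_exists_idem v harch hnt hsep i (fun j => v j (t i)) γ hγ
  choose e he1 he2 using h
  refine ⟨∑ i, e i * t i, fun k => ?_⟩
  have hsum : ∑ i, e i * t i - t k = ∑ i, (e i * t i - if i = k then t k else 0) := by
    rw [Finset.sum_sub_distrib, Finset.sum_ite_eq' Finset.univ k, if_pos (Finset.mem_univ k)]
  rw [hsum]
  refine Valuation.map_sum_lt (v k) (hγ k) (fun i _ => ?_)
  by_cases hik : i = k
  · subst hik
    rw [if_pos rfl]
    have : e i * t i - t i = (e i - 1) * t i := by ring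
    rw [this, map_mul]
    exact he1 i
  · rw [if_neg hik, sub_zero, map_mul]
    exact he2 i k (fun h => hik h.symm)

/-- **Prescribed values**: an element with the same valuation as `t i` at every `i`, and
moreover `x / t i` a one-unit at `v i`. -/
theorem h4w_approx_val [Finite ι]
    (harch : ∀ i (c d : Γ i), c < 1 → d ≠ 0 → ∃ n : ℕ, c ^ n < d)
    (hnt : ∀ i, ∃ x : F, x ≠ 0 ∧ v i x < 1)
    (hsep : ∀ i j, i ≠ j → ∃ x : F, v i x < 1 ∧ 1 ≤ v j x)
    (t : ι → F) (ht : ∀ i, t i ≠ 0) :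
    ∃ x : F, (∀ i, v i x = v i (t i)) ∧ (∀ i, v i (x / t i - 1) < 1) ∧ (Nonempty ι → x ≠ 0) := by
  obtain ⟨x, hx⟩ := h4w_approx v harch hnt hsep t (fun i => v i (t i))
    (fun i => (Valuation.ne_zero_iff _).mpr (ht i))
  have hval : ∀ i, v i x = v i (t i) := by
    intro i
    have h1 : x = t i + (x - t i) := by ring
    have h2 : v i (t i + (x - t i)) = v i (t i) :=
      Valuation.map_add_eq_of_lt_left (v i) (hx i)
    rw [← h2, ← h1]
  refine ⟨x, hval, fun i => ?_, fun ⟨i⟩ => ?_⟩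
  · have hti : v i (t i) ≠ 0 := (Valuation.ne_zero_iff _).mpr (ht i)
    have h1 : x / t i - 1 = (x - t i) / t i := by
      field_simp [ht i]
    rw [h1, map_div₀, div_lt_one₀ (zero_lt_iff.mpr hti)]
    exact hx i
  · intro h0
    have := hval i
    rw [h0, map_zero] at this
    exact (Valuation.ne_zero_iff _).mpr (ht i) this.symm

end approx

/-- the archimedean hypothesis for `ℤᵐ⁰`. -/
theorem h4w_arch_int (c d : WithZero (Multiplicative ℤ)) (hc : c < 1) (hd : d ≠ 0) :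
    ∃ n : ℕ, c ^ n < d := by
  by_cases hc0 : c = 0
  · exact ⟨1, by rw [hc0, pow_one]; exact zero_lt_iff.mpr hd⟩
  · obtain ⟨a, rfl⟩ := WithZero.ne_zero_iff_exists.mp hc0
    obtain ⟨b, rfl⟩ := WithZero.ne_zero_iff_exists.mp hd
    have ha : a < 1 := by exact_mod_cast hc
    obtain ⟨n, hn⟩ := exists_pow_lt ha b
    exact ⟨n, by exact_mod_cast hn⟩

/-! ## valuation subrings -/

section subring

variable {F : Type*} [Field F] {ι : Type*} [Finite ι] (O : ι → ValuationSubring F)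

/-- **Weak approximation for finitely many rank-one valuation subrings.**
`harch`: rank one (`x` a nonunit, `y ≠ 0` ⇒ `x ^ n / y` is a nonunit for some `n`);
`hnt`: `O i ≠ F`; `hsep`: for `i ≠ j` some nonunit of `O i` is not a nonunit of `O j`.
For targets `t i` and nonzero moduli `b i` there is `x` with `(x - t i) / b i` in the maximal
ideal of `O i`, for all `i`. -/
theorem h4w_approx_subring
    (harch : ∀ i, ∀ x ∈ (O i).nonunits, ∀ y : F, y ≠ 0 → ∃ n : ℕ, x ^ n / y ∈ (O i).nonunits)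
    (hnt : ∀ i, ∃ x : F, x ≠ 0 ∧ x ∈ (O i).nonunits)
    (hsep : ∀ i j, i ≠ j → ∃ x : F, x ∈ (O i).nonunits ∧ x ∉ (O j).nonunits)
    (t : ι → F) (b : ι → F) (hb : ∀ i, b i ≠ 0) :
    ∃ x : F, ∀ i, (x - t i) / b i ∈ (O i).nonunits := by
  have harch' : ∀ i (c d : (O i).ValueGroup), c < 1 → d ≠ 0 → ∃ n : ℕ, c ^ n < d := by
    intro i c d hc hd
    obtain ⟨x, rfl⟩ := (O i).valuation_surjective c
    obtain ⟨y, rfl⟩ := (O i).valuation_surjective d
    have hy : y ≠ 0 := (Valuation.ne_zero_iff _).mp hd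
    obtain ⟨n, hn⟩ := harch i x ((O i).mem_nonunits_iff.mpr hc) y hy
    refine ⟨n, ?_⟩
    have := (O i).mem_nonunits_iff.mp hn
    rw [map_div₀, map_pow, div_lt_one₀ (zero_lt_iff.mpr hd)] at this
    exact this
  have hnt' : ∀ i, ∃ x : F, x ≠ 0 ∧ (O i).valuation x < 1 := fun i => by
    obtain ⟨x, hx0, hx⟩ := hnt i
    exact ⟨x, hx0, (O i).mem_nonunits_iff.mp hx⟩
  have hsep' : ∀ i j, i ≠ j → ∃ x : F, (O i).valuation x < 1 ∧ 1 ≤ (O j).valuation x := by
    intro i j hij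
    obtain ⟨x, hx1, hx2⟩ := hsep i j hij
    exact ⟨x, (O i).mem_nonunits_iff.mp hx1,
      not_lt.mp (fun h => hx2 ((O j).mem_nonunits_iff.mpr h))⟩
  obtain ⟨x, hx⟩ := h4w_approx (fun i => (O i).valuation) harch' hnt' hsep' t
    (fun i => (O i).valuation (b i)) (fun i => (Valuation.ne_zero_iff _).mpr (hb i))
  refine ⟨x, fun i => ?_⟩
  rw [(O i).mem_nonunits_iff, map_div₀,
    div_lt_one₀ (zero_lt_iff.mpr ((Valuation.ne_zero_iff _).mpr (hb i)))]
  exact hx i

/-- Special case: prescribed residues.  For `t i ∈ O i` there is `x ∈ ⋂ O i` with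
`x - t i` in the maximal ideal of `O i` for all `i`. -/
theorem h4w_approx_residue
    (harch : ∀ i, ∀ x ∈ (O i).nonunits, ∀ y : F, y ≠ 0 → ∃ n : ℕ, x ^ n / y ∈ (O i).nonunits)
    (hnt : ∀ i, ∃ x : F, x ≠ 0 ∧ x ∈ (O i).nonunits)
    (hsep : ∀ i j, i ≠ j → ∃ x : F, x ∈ (O i).nonunits ∧ x ∉ (O j).nonunits)
    (t : ι → F) (ht : ∀ i, t i ∈ O i) :
    ∃ x : F, ∀ i, x ∈ O i ∧ x - t i ∈ (O i).nonunits := by
  obtain ⟨x, hx⟩ := h4w_approx_subring O harch hnt hsep t (fun _ => 1) (fun _ => one_ne_zero)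
  refine ⟨x, fun i => ?_⟩
  have h1 : x - t i ∈ (O i).nonunits := by
    have := hx i
    rwa [div_one] at this
  refine ⟨?_, h1⟩
  have h2 : x - t i ∈ O i := (O i).nonunits_le h1
  have : x = (x - t i) + t i := by ring
  rw [this]
  exact (O i).add_mem _ _ h2 (ht i)

end subring

end Fermat.Agent.S36
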