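import Fermat.Agent.S36.H20Gauss
import Fermat.Agent.S36.H4Approx3
import Fermat.Agent.S36.V28Disc
import Fermat.Agent.Red.ESTF.FrobSeries

/-!
# S36, block (V) + (N), leaf VN-L6 (helper93): `H20ApproxRes`

`h93a_approxRes : H20ApproxRes` (the frozen interface of `S36/H20VertSkel.lean`), unconditional:
there are functions of `F₀` with prescribed residues at the three vertical valuations.

Proof.
* `h93a_GV` : the Gauss ring `G = softOT A` cuts out a VALUATION subring of the field `dfField`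
  (scaling `h1g_exists_scale`), of rank one (`h93a_GV_arch`: the value group is that of `A`).
* The three valuation subrings of `F₀` are the pull-backs of `h93a_GV` along `E20`, `E11`, `E02`
  (`h12e_embDF`: the embeddings take values in `dfField`).
* Separation: with `X = j(t)`, `Y = j(t^q)`, `Z = j(t^(q²))` (functions of `F₀`), `Z - X` is a
  nonunit exactly at `E11`, `X - Y^q` exactly at `E02`, `Z - Y^q` exactly at `E20`.
* Weak approximation for finitely many rank-one valuation subrings: `h4w_approx_subring`.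
-/

set_option autoImplicit false
set_option linter.unusedSectionVars false
set_option linter.style.haveILetI false

open ModularCurve AlgebraicCurve

noncomputable section

namespace Fermat.Agent.S36

open Fermat.Agent.S37 (Kbar GQ FF cst gal jB auxLevel)
open Fermat.Agent.Red.GV (embA redA embA_injective)
open Fermat.Agent.Red.GV.Soft
open Fermat.Agent.Red.Kron (kFricke twistK kFricke_alpha kFricke_beta)

/-! ## Generalities on valuation subrings -/

/-- the nonunits of a valuation subring. -/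
theorem h93a_mem_nonunits_iff {L : Type*} [Field L] (B : ValuationSubring L) (x : L) :
    x ∈ B.nonunits ↔ x = 0 ∨ x⁻¹ ∉ B := by
  rw [ValuationSubring.mem_nonunits_iff]
  constructor
  · intro hlt
    by_cases h0 : x = 0
    · exact Or.inl h0
    right
    intro hinv
    have h1 : B.valuation x⁻¹ ≤ 1 := (ValuationSubring.valuation_le_one_iff _ _).mpr hinv
    rw [map_inv₀] at h1
    have hpos : 0 < B.valuation x := zero_lt_iff.mpr ((Valuation.ne_zero_iff _).mpr h0)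
    exact absurd ((inv_le_one₀ hpos).mp h1) (not_le.mpr hlt)
  · rintro (h0 | h1)
    · rw [h0, map_zero]
      exact zero_lt_one
    · have hx0 : x ≠ 0 := by
        intro h0
        apply h1
        rw [h0, inv_zero]
        exact zero_mem _
      have h2 : ¬ B.valuation x⁻¹ ≤ 1 := fun hle =>
        h1 ((ValuationSubring.valuation_le_one_iff _ _).mp hle)
      rw [map_inv₀, not_le] at h2
      have hpos : 0 < B.valuation x := zero_lt_iff.mpr ((Valuation.ne_zero_iff _).mpr hx0)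
      exact (one_lt_inv₀ hpos).mp h2

/-- the nonunits of a pull-back. -/
theorem h93a_mem_nonunits_comap {K L : Type*} [Field K] [Field L] (B : ValuationSubring L)
    (f : K →+* L) (x : K) : x ∈ (B.comap f).nonunits ↔ f x ∈ B.nonunits := by
  rw [h93a_mem_nonunits_iff, h93a_mem_nonunits_iff, ValuationSubring.mem_comap, map_inv₀,
    map_eq_zero]

/-- rank one passes to pull-backs. -/
theorem h93a_arch_comap {K L : Type*} [Field K] [Field L] (B : ValuationSubring L)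
    (f : K →+* L)
    (h : ∀ x ∈ B.nonunits, ∀ y : L, y ≠ 0 → ∃ n : ℕ, x ^ n / y ∈ B.nonunits) :
    ∀ x ∈ (B.comap f).nonunits, ∀ y : K, y ≠ 0 → ∃ n : ℕ, x ^ n / y ∈ (B.comap f).nonunits := by
  intro x hx y hy
  obtain ⟨n, hn⟩ := h (f x) ((h93a_mem_nonunits_comap B f x).mp hx) (f y)
    ((map_ne_zero f).mpr hy)
  refine ⟨n, (h93a_mem_nonunits_comap B f _).mpr ?_⟩
  rwa [map_div₀, map_pow]

/-! ## The valuation subring `A` has rank one -/

theorem h93a_arch_A (q : ℕ) (hq : q.Prime) (A : ValuationSubring Kbar) (hA : A.LiesOverPrime q)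
    (c : Kbar) (hc : c ∈ A.nonunits) (d : Kbar) (hd : d ≠ 0) :
    ∃ n : ℕ, c ^ n / d ∈ A.nonunits := by
  obtain ⟨ord, hord⟩ :=
    @Fermat.Agent.S05.RO.exists_isOrd _ _ A _ Fermat.Agent.S05.RO.isAlgebraic_int_Qbar q hq hA
  by_cases hc0 : c = 0
  · exact ⟨1, by rw [hc0, pow_one, zero_div]; exact (h93a_mem_nonunits_iff A 0).mpr (Or.inl rfl)⟩
  have hpos : 0 < ord c := hord.pos_of_nonunit hc0 hc
  obtain ⟨n, hn⟩ := Archimedean.arch (ord d + 1) hpos
  refine ⟨n, hord.mem_of_pos ?_⟩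
  rw [hord.map_div (pow_ne_zero n hc0) hd, hord.map_pow]
  have h1 : ord d + 1 ≤ n * ord c := by
    rw [nsmul_eq_mul] at hn
    exact hn
  linarith

/-! ## The Gauss valuation subring of `dfField` -/

/-- every nonzero element of `dfField` is a constant times a Gauss unit. -/
theorem h93a_scale (q : ℕ) (hq : q.Prime) (A : ValuationSubring Kbar) (hA : A.LiesOverPrime q)
    {s : LaurentSeries Kbar} (hs : s ∈ dfField (K := Kbar)) (hs0 : s ≠ 0) :
    ∃ c : Kbar, c ≠ 0 ∧ h20v_Unit A (HahnSeries.C c * s) := by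
  obtain ⟨c, a, b, hc, ha, hb, hab⟩ := h1g_exists_scale q hq A hA hs hs0
  have hCc : (HahnSeries.C c : LaurentSeries Kbar) ≠ 0 := by
    intro h0
    exact hc (HahnSeries.C_injective (by rw [h0, map_zero]))
  have hw : IsWit A (IsLocalRing.residue A) (HahnSeries.C c * s) a b := ⟨hb, hab⟩
  exact ⟨c, hc, mul_ne_zero hCc hs0, ⟨a, b, hw⟩, ⟨b, a, hw.inv ha⟩⟩

/-- a constant of the Gauss ring lies in `A`. -/
theorem h93a_C_mem {A : ValuationSubring Kbar} {c : Kbar}
    (h : (HahnSeries.C c : LaurentSeries Kbar) ∈ h20v_G A) : c ∈ A := by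
  by_contra hcA
  have hci : c⁻¹ ∈ A := (A.mem_or_inv_mem c).resolve_left hcA
  have hc0 : c ≠ 0 := by
    rintro rfl
    exact hcA A.zero_mem
  have hnu : c⁻¹ ∈ A.nonunits := by
    rw [h93a_mem_nonunits_iff, inv_inv]
    exact Or.inr hcA
  have hres : IsLocalRing.residue A ⟨c⁻¹, hci⟩ = 0 :=
    residue_eq_zero_of_nonunit A ⟨c⁻¹, hci⟩ hnu
  have h3 : h20g_res A (HahnSeries.C c⁻¹ * HahnSeries.C c : LaurentSeries Kbar) =
      h20g_res A (HahnSeries.C c⁻¹ : LaurentSeries Kbar) * h20g_res A (HahnSeries.C c) :=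
    h20g_res_mul (h20g_C_mem hci) h
  rw [← map_mul, inv_mul_cancel₀ hc0, map_one, h20g_res_one, h20g_res_C hci, hres, map_zero,
    zero_mul] at h3
  exact one_ne_zero h3

/-- the Gauss valuation subring of the field `dfField`. -/
def h93a_GV (q : ℕ) (hq : q.Prime) (A : ValuationSubring Kbar) (hA : A.LiesOverPrime q) :
    ValuationSubring (dfField (K := Kbar)) where
  toSubring := (h20v_G A).comap (dfField (K := Kbar)).subtype
  mem_or_inv_mem' := by
    intro s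
    by_cases hs0 : s = 0
    · left
      show (s : LaurentSeries Kbar) ∈ h20v_G A
      rw [hs0]
      exact (h20v_G A).zero_mem
    have hs0' : (s : LaurentSeries Kbar) ≠ 0 := fun h => hs0 (Subtype.ext h)
    obtain ⟨c, hc, hu0, hu, hui⟩ := h93a_scale q hq A hA s.2 hs0'
    have hCc : (HahnSeries.C c : LaurentSeries Kbar) ≠ 0 := by
      intro h0
      exact hc (HahnSeries.C_injective (by rw [h0, map_zero]))
    rcases A.mem_or_inv_mem c with hcA | hcA
    · right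
      show ((s⁻¹ : dfField (K := Kbar)) : LaurentSeries Kbar) ∈ h20v_G A
      have h1 : ((s⁻¹ : dfField (K := Kbar)) : LaurentSeries Kbar) =
          HahnSeries.C c * (HahnSeries.C c * (s : LaurentSeries Kbar))⁻¹ := by
        rw [Subfield.coe_inv]
        field_simp
      rw [h1]
      exact mul_mem (h20g_C_mem hcA) hui
    · left
      show (s : LaurentSeries Kbar) ∈ h20v_G A
      have h1 : (s : LaurentSeries Kbar) =
          HahnSeries.C c⁻¹ * (HahnSeries.C c * (s : LaurentSeries Kbar)) := by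
        rw [map_inv₀]
        field_simp
      rw [h1]
      exact mul_mem (h20g_C_mem hcA) hu

theorem h93a_mem_GV (q : ℕ) (hq : q.Prime) (A : ValuationSubring Kbar) (hA : A.LiesOverPrime q)
    (s : dfField (K := Kbar)) :
    s ∈ h93a_GV q hq A hA ↔ (s : LaurentSeries Kbar) ∈ h20v_G A :=
  Iff.rfl

/-- nonunits of the Gauss valuation subring. -/
theorem h93a_mem_nonunits_GV (q : ℕ) (hq : q.Prime) (A : ValuationSubring Kbar)
    (hA : A.LiesOverPrime q) (s : dfField (K := Kbar)) :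
    s ∈ (h93a_GV q hq A hA).nonunits ↔
      (s : LaurentSeries Kbar) = 0 ∨ (s : LaurentSeries Kbar)⁻¹ ∉ h20v_G A := by
  rw [h93a_mem_nonunits_iff, h93a_mem_GV, Subfield.coe_inv]
  constructor
  · rintro (h | h)
    · exact Or.inl (by rw [h]; rfl)
    · exact Or.inr h
  · rintro (h | h)
    · exact Or.inl (Subtype.ext h)
    · exact Or.inr h

/-- a series over `A` with zero reduction is a nonunit. -/
theorem h93a_nonunit_of_embA (q : ℕ) (hq : q.Prime) (A : ValuationSubring Kbar)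
    (hA : A.LiesOverPrime q) (s : dfField (K := Kbar)) (a : LaurentSeries A)
    (hs : (s : LaurentSeries Kbar) = embA A a) (ha : redA (IsLocalRing.residue A) a = 0) :
    s ∈ (h93a_GV q hq A hA).nonunits := by
  rw [h93a_mem_nonunits_GV]
  have hmem : (s : LaurentSeries Kbar) ∈ h20v_G A := by
    rw [hs]
    exact embA_mem_softOT A _ a
  have h1 : softRedT A (IsLocalRing.residue A) ⟨_, hmem⟩ = 0 := by
    rw [softRedT_of_embA ⟨_, hmem⟩ a hs.symm, ha]
  exact (softRedT_eq_zero_iff _).mp h1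

/-- a series over `A` with nonzero reduction is not a nonunit. -/
theorem h93a_unit_of_embA (q : ℕ) (hq : q.Prime) (A : ValuationSubring Kbar)
    (hA : A.LiesOverPrime q) (s : dfField (K := Kbar)) (a : LaurentSeries A)
    (hs : (s : LaurentSeries Kbar) = embA A a) (ha : redA (IsLocalRing.residue A) a ≠ 0) :
    s ∉ (h93a_GV q hq A hA).nonunits := by
  rw [h93a_mem_nonunits_GV, hs]
  rintro (h | h)
  · exact h1g_embA_ne_zero A ha h
  · exact h (show (embA A a)⁻¹ ∈ softOT A (IsLocalRing.residue A) from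
      ⟨1, a, (isWit_of_embA A (IsLocalRing.residue A) a).inv ha⟩)

/-- the Gauss valuation has rank one. -/
theorem h93a_GV_arch (q : ℕ) (hq : q.Prime) (A : ValuationSubring Kbar)
    (hA : A.LiesOverPrime q) :
    ∀ x ∈ (h93a_GV q hq A hA).nonunits, ∀ y : dfField (K := Kbar), y ≠ 0 →
      ∃ n : ℕ, x ^ n / y ∈ (h93a_GV q hq A hA).nonunits := by
  intro x hx y hy
  by_cases hx0 : x = 0
  · refine ⟨1, ?_⟩
    rw [hx0, pow_one, zero_div]
    exact (h93a_mem_nonunits_iff _ 0).mpr (Or.inl rfl)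
  have hx0' : (x : LaurentSeries Kbar) ≠ 0 := fun h => hx0 (Subtype.ext h)
  have hy0' : (y : LaurentSeries Kbar) ≠ 0 := fun h => hy (Subtype.ext h)
  obtain ⟨c₁, hc₁, hu₁⟩ := h93a_scale q hq A hA x.2 hx0'
  obtain ⟨c₂, hc₂, hu₂⟩ := h93a_scale q hq A hA y.2 hy0'
  have hC₁ : (HahnSeries.C c₁ : LaurentSeries Kbar) ≠ 0 := by
    intro h0
    exact hc₁ (HahnSeries.C_injective (by rw [h0, map_zero]))
  have hC₂ : (HahnSeries.C c₂ : LaurentSeries Kbar) ≠ 0 := by
    intro h0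
    exact hc₂ (HahnSeries.C_injective (by rw [h0, map_zero]))
  -- `c₁⁻¹` is a nonunit of `A`
  have hxG : (x : LaurentSeries Kbar) ∈ h20v_G A :=
    (h93a_mem_GV q hq A hA x).mp ((h93a_GV q hq A hA).nonunits_le hx)
  have hxi : (x : LaurentSeries Kbar)⁻¹ ∉ h20v_G A := by
    rcases (h93a_mem_nonunits_GV q hq A hA x).mp hx with h | h
    · exact absurd h hx0'
    · exact h
  have hc₁nu : c₁⁻¹ ∈ A.nonunits := by
    rw [h93a_mem_nonunits_iff, inv_inv]
    right
    intro hcA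
    apply hxi
    have h1 : (x : LaurentSeries Kbar)⁻¹ =
        HahnSeries.C c₁ * (HahnSeries.C c₁ * (x : LaurentSeries Kbar))⁻¹ := by
      field_simp
    rw [h1]
    exact mul_mem (h20g_C_mem hcA) hu₁.2.2
  obtain ⟨n, hn⟩ := h93a_arch_A q hq A hA c₁⁻¹ hc₁nu c₂⁻¹ (inv_ne_zero hc₂)
  refine ⟨n, ?_⟩
  rw [h93a_mem_nonunits_GV]
  right
  intro hinv
  -- then `c₂⁻¹ / c₁⁻¹ ^ n ∈ A`
  have h2 : (HahnSeries.C ((c₁⁻¹ ^ n / c₂⁻¹)⁻¹) : LaurentSeries Kbar) =
      ((x ^ n / y : dfField (K := Kbar)) : LaurentSeries Kbar)⁻¹ *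
        ((HahnSeries.C c₁ * (x : LaurentSeries Kbar)) ^ n *
          (HahnSeries.C c₂ * (y : LaurentSeries Kbar))⁻¹) := by
    rw [Subfield.coe_div, SubmonoidClass.coe_pow, map_inv₀, map_div₀, map_pow, map_inv₀,
      map_inv₀]
    field_simp
    rw [← mul_pow, ← mul_assoc, one_div, inv_mul_cancel₀ hC₁, one_mul]
  have h3 : (HahnSeries.C ((c₁⁻¹ ^ n / c₂⁻¹)⁻¹) : LaurentSeries Kbar) ∈ h20v_G A := by
    rw [h2]
    exact mul_mem hinv (mul_mem (pow_mem hu₁.2.1 n) hu₂.2.2)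
  have h4 := h93a_C_mem h3
  rcases (h93a_mem_nonunits_iff A _).mp hn with h | h
  · have : c₁⁻¹ ^ n / c₂⁻¹ ≠ 0 :=
      div_ne_zero (pow_ne_zero n (inv_ne_zero hc₁)) (inv_ne_zero hc₂)
    exact this h
  · exact h h4

/-- a nonunit plus one is congruent to one. -/
theorem h93a_congOne_of_nonunit (q : ℕ) (hq : q.Prime) (A : ValuationSubring Kbar)
    (hA : A.LiesOverPrime q) (s : dfField (K := Kbar))
    (hs : s ∈ (h93a_GV q hq A hA).nonunits) :
    h20n_CongOneS A ((s : LaurentSeries Kbar) + 1) := by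
  have hmem : (s : LaurentSeries Kbar) ∈ h20v_G A :=
    (h93a_mem_GV q hq A hA s).mp ((h93a_GV q hq A hA).nonunits_le hs)
  have h0 : softRedT A (IsLocalRing.residue A) ⟨_, hmem⟩ = 0 :=
    (softRedT_eq_zero_iff _).mpr ((h93a_mem_nonunits_GV q hq A hA s).mp hs)
  have hmem1 : (s : LaurentSeries Kbar) + 1 ∈ h20v_G A := add_mem hmem (one_mem _)
  rw [h20g_congOne_iff]
  refine ⟨hmem1, ?_⟩
  rw [h20g_res_of_mem hmem1]
  have h1 : (⟨(s : LaurentSeries Kbar) + 1, hmem1⟩ : softOT A (IsLocalRing.residue A)) =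
      ⟨_, hmem⟩ + 1 := rfl
  rw [h1, map_add, h0, zero_add, map_one]

/-- the prime `q` is a nonzero nonunit. -/
theorem h93a_q_nonunit (q : ℕ) (hq : q.Prime) (A : ValuationSubring Kbar)
    (hA : A.LiesOverPrime q) :
    ((q : ℕ) : dfField (K := Kbar)) ∈ (h93a_GV q hq A hA).nonunits := by
  refine h93a_nonunit_of_embA q hq A hA _ ((q : ℕ) : LaurentSeries A) ?_ ?_
  · rw [map_natCast]
    rfl
  · rw [map_natCast]
    haveI := h1g_charP_laurent q hq A hA
    exact CharP.cast_eq_zero _ q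

/-! ## The three valuation subrings of `F₀` -/

section Level

variable (M q : ℕ) [NeZero M] [NeZero q]

/-- an embedding with values in `dfField`, restricted to `F₀`. -/
def h93aRes (A : ValuationSubring Kbar) {N : ℕ} (E : FF N →+* LaurentSeries Kbar)
    (hE : ∀ u, E u ∈ dfField (K := Kbar)) : h92c_F0 A N →+* dfField (K := Kbar) :=
  (E.codRestrict (dfField (K := Kbar)) hE).comp (h92c_F0 A N).subtype

@[simp]
theorem h93aRes_coe (A : ValuationSubring Kbar) {N : ℕ} (E : FF N →+* LaurentSeries Kbar)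
    (hE : ∀ u, E u ∈ dfField (K := Kbar)) (x : h92c_F0 A N) :
    ((h93aRes A E hE x : dfField (K := Kbar)) : LaurentSeries Kbar) = E (x : FF N) :=
  rfl

/-- the valuation subring of `F₀` of the embedding `E`. -/
def h93aO (hq : q.Prime) (A : ValuationSubring Kbar) (hA : A.LiesOverPrime q) {N : ℕ}
    (E : FF N →+* LaurentSeries Kbar) (hE : ∀ u, E u ∈ dfField (K := Kbar)) :
    ValuationSubring (h92c_F0 A N) :=
  (h93a_GV q hq A hA).comap (h93aRes A E hE)

variable {q}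

theorem h93aO_arch (hq : q.Prime) (A : ValuationSubring Kbar) (hA : A.LiesOverPrime q) {N : ℕ}
    (E : FF N →+* LaurentSeries Kbar) (hE : ∀ u, E u ∈ dfField (K := Kbar)) :
    ∀ x ∈ (h93aO q hq A hA E hE).nonunits, ∀ y : h92c_F0 A N, y ≠ 0 →
      ∃ n : ℕ, x ^ n / y ∈ (h93aO q hq A hA E hE).nonunits :=
  h93a_arch_comap _ _ (h93a_GV_arch q hq A hA)

theorem h93aO_nt (hq : q.Prime) (A : ValuationSubring Kbar) (hA : A.LiesOverPrime q) {N : ℕ}
    (E : FF N →+* LaurentSeries Kbar) (hE : ∀ u, E u ∈ dfField (K := Kbar)) :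
    ∃ x : h92c_F0 A N, x ≠ 0 ∧ x ∈ (h93aO q hq A hA E hE).nonunits := by
  have h1 : ((q : ℕ) : h92c_F0 A N) ∈ (h93aO q hq A hA E hE).nonunits := by
    rw [h93aO, h93a_mem_nonunits_comap, map_natCast]
    exact h93a_q_nonunit q hq A hA
  refine ⟨((q : ℕ) : h92c_F0 A N), ?_, h1⟩
  intro h0
  have h2 : h93aRes A E hE ((q : ℕ) : h92c_F0 A N) = 0 := by rw [h0, map_zero]
  rw [map_natCast] at h2
  have h3 : (((q : ℕ) : dfField (K := Kbar)) : LaurentSeries Kbar) = 0 := by rw [h2]; rfl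
  have h4 : (((q : ℕ) : dfField (K := Kbar)) : LaurentSeries Kbar) =
      HahnSeries.C ((q : ℕ) : Kbar) := by
    rw [map_natCast]
    rfl
  rw [h4] at h3
  have h5 : ((q : ℕ) : Kbar) = 0 := HahnSeries.C_injective (by rw [h3, map_zero])
  exact hq.ne_zero (Nat.cast_eq_zero.mp h5)

theorem h93aO_nonunit (hq : q.Prime) (A : ValuationSubring Kbar) (hA : A.LiesOverPrime q)
    {N : ℕ} (E : FF N →+* LaurentSeries Kbar) (hE : ∀ u, E u ∈ dfField (K := Kbar))
    (x : h92c_F0 A N) (a : LaurentSeries A) (hx : E (x : FF N) = embA A a)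
    (ha : redA (IsLocalRing.residue A) a = 0) : x ∈ (h93aO q hq A hA E hE).nonunits := by
  rw [h93aO, h93a_mem_nonunits_comap]
  exact h93a_nonunit_of_embA q hq A hA _ a hx ha

theorem h93aO_unit (hq : q.Prime) (A : ValuationSubring Kbar) (hA : A.LiesOverPrime q)
    {N : ℕ} (E : FF N →+* LaurentSeries Kbar) (hE : ∀ u, E u ∈ dfField (K := Kbar))
    (x : h92c_F0 A N) (a : LaurentSeries A) (hx : E (x : FF N) = embA A a)
    (ha : redA (IsLocalRing.residue A) a ≠ 0) : x ∉ (h93aO q hq A hA E hE).nonunits := by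
  rw [h93aO, h93a_mem_nonunits_comap]
  exact h93a_unit_of_embA q hq A hA _ a hx ha

/-- the conclusion of the approximation at one embedding. -/
theorem h93aO_congOne (hq : q.Prime) (A : ValuationSubring Kbar) (hA : A.LiesOverPrime q)
    {N : ℕ} (E : FF N →+* LaurentSeries Kbar) (hE : ∀ u, E u ∈ dfField (K := Kbar))
    (x g : h92c_F0 A N) (hg : g ≠ 0)
    (h : (x - g) / g ∈ (h93aO q hq A hA E hE).nonunits) :
    h20n_CongOneS A (E ((x : FF N) * (g : FF N)⁻¹)) := by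
  rw [h93aO, h93a_mem_nonunits_comap] at h
  have h1 := h93a_congOne_of_nonunit q hq A hA _ h
  have hg' : (g : FF N) ≠ 0 := fun h0 => hg (Subtype.ext h0)
  have h2 : ((h93aRes A E hE ((x - g) / g) : dfField (K := Kbar)) : LaurentSeries Kbar) + 1 =
      E ((x : FF N) * (g : FF N)⁻¹) := by
    rw [h93aRes_coe]
    have h3 : (((x - g) / g : h92c_F0 A N) : FF N) = (x : FF N) * (g : FF N)⁻¹ - 1 := by
      rw [Subfield.coe_div, Subfield.coe_sub]
      field_simp
    rw [h3, map_sub, map_one, sub_add_cancel]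
  rwa [h2] at h1

end Level

/-! ## The separating functions -/

section Sep

variable (M q : ℕ) [NeZero M] [NeZero q]

/-- `X = j(t)`. -/
def h93aX : FF (M * q * q) :=
  heckeAlphaBar Kbar (M * q) q (heckeAlphaBar Kbar M q (jB M))

/-- `Y = j(t^q)`. -/
def h93aY : FF (M * q * q) :=
  heckeAlphaBar Kbar (M * q) q (heckeBetaBar Kbar M q (jB M))

/-- `Z = j(t^(q²))`. -/
def h93aZ : FF (M * q * q) :=
  heckeBetaBar Kbar (M * q) q (heckeBetaBar Kbar M q (jB M))

/-- the series `j(t)`, `j(t^q)`, `j(t^(q²))` over a ring. -/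
def h93aJ (R : Type) [CommRing R] : ℕ → LaurentSeries R
  | 0 => jqModC R
  | (n + 1) => qExpand R q (h93aJ R n)

theorem h93aJ_zero (R : Type) [CommRing R] : h93aJ q R 0 = jqModC R := rfl

theorem h93aJ_succ (R : Type) [CommRing R] (n : ℕ) :
    h93aJ q R (n + 1) = qExpand R q (h93aJ q R n) := rfl

theorem h93aJ_map {R S : Type} [CommRing R] [CommRing S] (f : R →+* S) (n : ℕ) :
    coeffMap f (h93aJ q R n) = h93aJ q S n := by
  induction n with
  | zero => exact coeffMap_jqModC f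
  | succ n ih => rw [h93aJ_succ, h93aJ_succ, ModularCurve.coeffMap_qExpand, ih]

theorem h93a_embA_J (A : ValuationSubring Kbar) (n : ℕ) :
    embA A (h93aJ q A n) = h93aJ q Kbar n :=
  h93aJ_map q A.subtype n

theorem h93a_redA_J (A : ValuationSubring Kbar) (n : ℕ) :
    redA (IsLocalRing.residue A) (h93aJ q A n) = h93aJ q (IsLocalRing.ResidueField A) n :=
  h93aJ_map q (IsLocalRing.residue A) n

theorem h93a_coe_X :
    ((h93aX M q : FF (M * q * q)) : LaurentSeries Kbar) = h93aJ q Kbar 0 := by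
  rw [h93aX, coe_heckeAlphaBar, coe_heckeAlphaBar, Fermat.Agent.Red.GV.coe_jB]
  rfl

theorem h93a_coe_Y :
    ((h93aY M q : FF (M * q * q)) : LaurentSeries Kbar) = h93aJ q Kbar 1 := by
  rw [h93aY, coe_heckeAlphaBar, coe_heckeBetaBar, Fermat.Agent.Red.GV.coe_jB]
  rfl

theorem h93a_coe_Z :
    ((h93aZ M q : FF (M * q * q)) : LaurentSeries Kbar) = h93aJ q Kbar 2 := by
  rw [h93aZ, coe_heckeBetaBar, coe_heckeBetaBar, Fermat.Agent.Red.GV.coe_jB]
  rfl

/-- a function whose expansion is one of the series `j(t^(q^n))` is fixed by Galois. -/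
theorem h93a_fixed_of_coe (A : ValuationSubring Kbar) (x : FF (M * q * q)) (n : ℕ)
    (hx : (x : LaurentSeries Kbar) = h93aJ q Kbar n) : x ∈ h92c_F0 A (M * q * q) := by
  intro σ _
  apply Subtype.ext
  rw [Fermat.Agent.Red.GV.coe_gal_smul, hx]
  exact h93aJ_map q (σ : Kbar →+* Kbar) n

theorem h93a_X_mem (A : ValuationSubring Kbar) : h93aX M q ∈ h92c_F0 A (M * q * q) :=
  h93a_fixed_of_coe M q A _ 0 (h93a_coe_X M q)

theorem h93a_Y_mem (A : ValuationSubring Kbar) : h93aY M q ∈ h92c_F0 A (M * q * q) :=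
  h93a_fixed_of_coe M q A _ 1 (h93a_coe_Y M q)

theorem h93a_Z_mem (A : ValuationSubring Kbar) : h93aZ M q ∈ h92c_F0 A (M * q * q) :=
  h93a_fixed_of_coe M q A _ 2 (h93a_coe_Z M q)

/-! ### the reductions -/

variable {q}

/-- Frobenius: `j(t^q)^q = j(t^(q²))` in characteristic `q`. -/
theorem h93a_frob (hq : q.Prime) (A : ValuationSubring Kbar) (hA : A.LiesOverPrime q) :
    h93aJ q (IsLocalRing.ResidueField A) 1 ^ q = h93aJ q (IsLocalRing.ResidueField A) 2 := by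
  haveI : Fact q.Prime := ⟨hq⟩
  haveI : CharP (IsLocalRing.ResidueField A) q := h1g_charP q hq A hA
  haveI : ExpChar (IsLocalRing.ResidueField A) q := ExpChar.prime hq
  rw [Fermat.Agent.Red.ESTF.h76_pow_char_eq_qExpand q, h93aJ_map]
  rfl

/-- `j(t^(q²)) ≠ j(t)`. -/
theorem h93a_J_ne (hq : q.Prime) (k : Type) [Field k] : h93aJ q k 2 ≠ h93aJ q k 0 := by
  intro h
  have h1 := congrArg (fun s : LaurentSeries k => s.coeff (-1 : ℤ)) h
  simp only [h93aJ_zero, h93aJ_succ] at h1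
  rw [ModularCurve.coeff_jqModC_neg_one, qExpand_coeff_of_not_dvd] at h1
  · exact zero_ne_one h1
  · intro hdvd
    have h2 : ((q : ℤ)) ∣ 1 := (dvd_neg (a := (q : ℤ)) (b := 1)).mp hdvd
    have h3 : (q : ℤ) = 1 := Int.eq_one_of_dvd_one (Int.natCast_nonneg q) h2
    exact hq.one_lt.ne' (by exact_mod_cast h3)

/-- the images of `X`, `Y`, `Z` under `E` are series over `A` with the reductions
`j(t^(q^a))`, `j(t^(q^b))`, `j(t^(q^c))`. -/
def h93aImg (A : ValuationSubring Kbar) (E : FF (M * q * q) →+* LaurentSeries Kbar)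
    (a b c : ℕ) : Prop :=
  (∃ s : LaurentSeries A, E (h93aX M q) = embA A s ∧
    redA (IsLocalRing.residue A) s = h93aJ q (IsLocalRing.ResidueField A) a) ∧
  (∃ s : LaurentSeries A, E (h93aY M q) = embA A s ∧
    redA (IsLocalRing.residue A) s = h93aJ q (IsLocalRing.ResidueField A) b) ∧
  (∃ s : LaurentSeries A, E (h93aZ M q) = embA A s ∧
    redA (IsLocalRing.residue A) s = h93aJ q (IsLocalRing.ResidueField A) c)

theorem h93a_img20 (A : ValuationSubring Kbar) : h93aImg M A (h20n_E20 M q) 0 1 2 := by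
  refine ⟨⟨h93aJ q A 0, ?_, h93a_redA_J q A 0⟩, ⟨h93aJ q A 1, ?_, h93a_redA_J q A 1⟩,
    ⟨h93aJ q A 2, ?_, h93a_redA_J q A 2⟩⟩
  · rw [h93a_embA_J]
    exact h93a_coe_X M q
  · rw [h93a_embA_J]
    exact h93a_coe_Y M q
  · rw [h93a_embA_J]
    exact h93a_coe_Z M q

theorem h93a_img11 (hq : q.Prime) (hqM : ¬ q ∣ M) (A : ValuationSubring Kbar)
    (hA : A.LiesOverPrime q) (ζ : Kbar) (hζ : ζ ^ q = 1)
    (E : FF (M * q * q) →+* LaurentSeries Kbar) (hE : h20n_IsE11 M q hq hqM ζ E) :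
    h93aImg M A E 0 1 0 := by
  obtain ⟨ζu, hζu, hres⟩ := h1g_exists_unit q hq A hA ζ 1 (by rw [pow_one]; exact hζ)
  refine ⟨⟨h93aJ q A 0, ?_, h93a_redA_J q A 0⟩, ⟨h93aJ q A 1, ?_, h93a_redA_J q A 1⟩,
    ⟨h1g_twA A ζu (h93aJ q A 0), ?_, ?_⟩⟩
  · rw [h93a_embA_J, h93aX, hE.1, coe_heckeAlphaBar, Fermat.Agent.Red.GV.coe_jB]
    rfl
  · rw [h93a_embA_J, h93aY, hE.1, coe_heckeBetaBar, Fermat.Agent.Red.GV.coe_jB]
    rfl
  · rw [h1g_embA_twA, hζu, h93a_embA_J, h93aZ, hE.2, kFricke_beta, coe_heckeAlphaBar,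
      Fermat.Agent.Red.GV.coe_jB]
    rfl
  · rw [h1g_redA_twA A ζu hres, h93a_redA_J]

theorem h93a_img02 (hq : q.Prime) (hqM : ¬ q ∣ M) (A : ValuationSubring Kbar)
    (E : FF (M * q * q) →+* LaurentSeries Kbar) (hE : h20n_IsE02 M q hq hqM E) :
    h93aImg M A E 2 1 0 := by
  refine ⟨⟨h93aJ q A 2, ?_, h93a_redA_J q A 2⟩, ⟨h93aJ q A 1, ?_, h93a_redA_J q A 1⟩,
    ⟨h93aJ q A 0, ?_, h93a_redA_J q A 0⟩⟩
  · rw [h93a_embA_J, h93aX, hE.1, kFricke_alpha, coe_heckeBetaBar, Fermat.Agent.Red.GV.coe_jB]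
    rfl
  · rw [h93a_embA_J, h93aY, hE.1, kFricke_beta, coe_heckeAlphaBar, Fermat.Agent.Red.GV.coe_jB]
    rfl
  · rw [h93a_embA_J, h93aZ, hE.2, kFricke_beta, coe_heckeAlphaBar, Fermat.Agent.Red.GV.coe_jB]
    rfl

/-- the three separating functions `Z - Y^q`, `Z - X`, `X - Y^q` of `F₀`. -/
def h93aS (A : ValuationSubring Kbar) : Fin 3 → h92c_F0 A (M * q * q) :=
  ![⟨h93aZ M q, h93a_Z_mem M q A⟩ - ⟨h93aY M q, h93a_Y_mem M q A⟩ ^ q,
    ⟨h93aZ M q, h93a_Z_mem M q A⟩ - ⟨h93aX M q, h93a_X_mem M q A⟩,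
    ⟨h93aX M q, h93a_X_mem M q A⟩ - ⟨h93aY M q, h93a_Y_mem M q A⟩ ^ q]

/-- the images of the separating functions. -/
theorem h93a_img_sep (hq : q.Prime) (A : ValuationSubring Kbar) (hA : A.LiesOverPrime q)
    (E : FF (M * q * q) →+* LaurentSeries Kbar) (a c : ℕ) (h : h93aImg M A E a 1 c) :
    (∃ s : LaurentSeries A, E ((h93aS M A 0 : h92c_F0 A (M * q * q)) : FF (M * q * q)) = embA A s ∧
      redA (IsLocalRing.residue A) s = h93aJ q (IsLocalRing.ResidueField A) c -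
        h93aJ q (IsLocalRing.ResidueField A) 2) ∧
    (∃ s : LaurentSeries A, E ((h93aS M A 1 : h92c_F0 A (M * q * q)) : FF (M * q * q)) = embA A s ∧
      redA (IsLocalRing.residue A) s = h93aJ q (IsLocalRing.ResidueField A) c -
        h93aJ q (IsLocalRing.ResidueField A) a) ∧
    (∃ s : LaurentSeries A, E ((h93aS M A 2 : h92c_F0 A (M * q * q)) : FF (M * q * q)) = embA A s ∧
      redA (IsLocalRing.residue A) s = h93aJ q (IsLocalRing.ResidueField A) a -
        h93aJ q (IsLocalRing.ResidueField A) 2) := by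
  obtain ⟨⟨sX, hX, rX⟩, ⟨sY, hY, rY⟩, ⟨sZ, hZ, rZ⟩⟩ := h
  have hfrob := h93a_frob hq A hA
  refine ⟨⟨sZ - sY ^ q, ?_, ?_⟩, ⟨sZ - sX, ?_, ?_⟩, ⟨sX - sY ^ q, ?_, ?_⟩⟩
  · show E (h93aZ M q - h93aY M q ^ q) = _
    rw [map_sub, map_pow, map_sub, map_pow, hZ, hY]
  · rw [map_sub, map_pow, rZ, rY, hfrob]
  · show E (h93aZ M q - h93aX M q) = _
    rw [map_sub, map_sub, hZ, hX]
  · rw [map_sub, rZ, rX]
  · show E (h93aX M q - h93aY M q ^ q) = _
    rw [map_sub, map_pow, map_sub, map_pow, hX, hY]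
  · rw [map_sub, map_pow, rX, rY, hfrob]

theorem h93aO_nonunit_iff (hq : q.Prime) (A : ValuationSubring Kbar) (hA : A.LiesOverPrime q)
    {N : ℕ} (E : FF N →+* LaurentSeries Kbar) (hE : ∀ u, E u ∈ dfField (K := Kbar))
    (x : h92c_F0 A N) (a : LaurentSeries A) (hx : E (x : FF N) = embA A a) :
    x ∈ (h93aO q hq A hA E hE).nonunits ↔ redA (IsLocalRing.residue A) a = 0 := by
  constructor
  · intro h
    by_contra h0
    exact h93aO_unit hq A hA E hE x a hx h0 h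
  · exact h93aO_nonunit hq A hA E hE x a hx

/-- where the separating functions are nonunits. -/
theorem h93a_sep_iff (hq : q.Prime) (A : ValuationSubring Kbar) (hA : A.LiesOverPrime q)
    (E : FF (M * q * q) →+* LaurentSeries Kbar) (hE : ∀ u, E u ∈ dfField (K := Kbar))
    (a c : ℕ) (h : h93aImg M A E a 1 c) :
    (h93aS M A 0 ∈ (h93aO q hq A hA E hE).nonunits ↔
      h93aJ q (IsLocalRing.ResidueField A) c = h93aJ q (IsLocalRing.ResidueField A) 2) ∧
    (h93aS M A 1 ∈ (h93aO q hq A hA E hE).nonunits ↔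
      h93aJ q (IsLocalRing.ResidueField A) c = h93aJ q (IsLocalRing.ResidueField A) a) ∧
    (h93aS M A 2 ∈ (h93aO q hq A hA E hE).nonunits ↔
      h93aJ q (IsLocalRing.ResidueField A) a = h93aJ q (IsLocalRing.ResidueField A) 2) := by
  obtain ⟨⟨s₀, h₀, r₀⟩, ⟨s₁, h₁, r₁⟩, ⟨s₂, h₂, r₂⟩⟩ := h93a_img_sep M hq A hA E a c h
  refine ⟨?_, ?_, ?_⟩
  · rw [h93aO_nonunit_iff hq A hA E hE _ s₀ h₀, r₀, sub_eq_zero]
  · rw [h93aO_nonunit_iff hq A hA E hE _ s₁ h₁, r₁, sub_eq_zero]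
  · rw [h93aO_nonunit_iff hq A hA E hE _ s₂ h₂, r₂, sub_eq_zero]

end Sep

/-! ## The theorem -/

/-- **(L6) WA-RES.**  There are functions of `F₀` with prescribed residues at the three
valuations. -/
theorem h93a_approxRes : H20ApproxRes := by
  intro q hq M _ hqM _
  haveI : NeZero q := ⟨hq.ne_zero⟩
  intro A hA ζ E11 E02 hT g₂₀ g₁₁ g₀₂ hg₂₀ hg₁₁ hg₀₂ hu₂₀ hu₁₁ hu₀₂
  have hE20 : ∀ u, h20n_E20 M q u ∈ dfField (K := Kbar) := fun u => FF_le_dfField _ u
  have hE11 : ∀ u, E11 u ∈ dfField (K := Kbar) := fun u =>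
    h12e_embDF q hq M hqM E11 (Or.inl ⟨ζ, hT.prim.pow_eq_one, hT.e11⟩) u
  have hE02 : ∀ u, E02 u ∈ dfField (K := Kbar) := fun u =>
    h12e_embDF q hq M hqM E02 (Or.inr hT.e02) u
  set O₀ := h93aO q hq A hA (h20n_E20 M q) hE20 with hO₀
  set O₁ := h93aO q hq A hA E11 hE11 with hO₁
  set O₂ := h93aO q hq A hA E02 hE02 with hO₂
  -- the separation
  have hk := h93a_J_ne hq (IsLocalRing.ResidueField A)
  obtain ⟨a00, a01, a02⟩ := h93a_sep_iff M hq A hA _ hE20 0 2 (h93a_img20 M A)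
  obtain ⟨a10, a11, a12⟩ := h93a_sep_iff M hq A hA _ hE11 0 0
    (h93a_img11 M hq hqM A hA ζ hT.prim.pow_eq_one E11 hT.e11)
  obtain ⟨a20, a21, a22⟩ := h93a_sep_iff M hq A hA _ hE02 2 0 (h93a_img02 M hq hqM A E02 hT.e02)
  have s00 : h93aS M A 0 ∈ O₀.nonunits := a00.mpr rfl
  have s01 : h93aS M A 0 ∉ O₁.nonunits := fun h => hk (a10.mp h).symm
  have s02 : h93aS M A 0 ∉ O₂.nonunits := fun h => hk (a20.mp h).symm
  have s10 : h93aS M A 1 ∉ O₀.nonunits := fun h => hk (a01.mp h)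
  have s11 : h93aS M A 1 ∈ O₁.nonunits := a11.mpr rfl
  have s12 : h93aS M A 1 ∉ O₂.nonunits := fun h => hk (a21.mp h).symm
  have s20 : h93aS M A 2 ∉ O₀.nonunits := fun h => hk (a02.mp h).symm
  have s21 : h93aS M A 2 ∉ O₁.nonunits := fun h => hk (a12.mp h).symm
  have s22 : h93aS M A 2 ∈ O₂.nonunits := a22.mpr rfl
  -- the data of the weak approximation
  let O : Fin 3 → ValuationSubring (h92c_F0 A (M * q * q)) := ![O₀, O₁, O₂]
  let t : Fin 3 → h92c_F0 A (M * q * q) := ![⟨g₂₀, hg₂₀⟩, ⟨g₁₁, hg₁₁⟩, ⟨g₀₂, hg₀₂⟩]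
  have hg₂₀0 : g₂₀ ≠ 0 := fun h => hu₂₀.1 (by rw [h, map_zero])
  have hg₁₁0 : g₁₁ ≠ 0 := fun h => hu₁₁.1 (by rw [h, map_zero])
  have hg₀₂0 : g₀₂ ≠ 0 := fun h => hu₀₂.1 (by rw [h, map_zero])
  have ht : ∀ i, t i ≠ 0 := by
    intro i
    fin_cases i
    · exact fun h => hg₂₀0 (congrArg Subtype.val h)
    · exact fun h => hg₁₁0 (congrArg Subtype.val h)
    · exact fun h => hg₀₂0 (congrArg Subtype.val h)
  have harch : ∀ i, ∀ x ∈ (O i).nonunits, ∀ y : h92c_F0 A (M * q * q), y ≠ 0 →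
      ∃ n : ℕ, x ^ n / y ∈ (O i).nonunits := by
    intro i
    fin_cases i
    · exact h93aO_arch hq A hA _ hE20
    · exact h93aO_arch hq A hA _ hE11
    · exact h93aO_arch hq A hA _ hE02
  have hnt : ∀ i, ∃ x : h92c_F0 A (M * q * q), x ≠ 0 ∧ x ∈ (O i).nonunits := by
    intro i
    fin_cases i
    · exact h93aO_nt hq A hA _ hE20
    · exact h93aO_nt hq A hA _ hE11
    · exact h93aO_nt hq A hA _ hE02
  have hsep : ∀ i j, i ≠ j →
      ∃ x : h92c_F0 A (M * q * q), x ∈ (O i).nonunits ∧ x ∉ (O j).nonunits := by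
    intro i j hij
    refine ⟨h93aS M A i, ?_⟩
    fin_cases i <;> fin_cases j
    · exact absurd rfl hij
    · exact ⟨s00, s01⟩
    · exact ⟨s00, s02⟩
    · exact ⟨s11, s10⟩
    · exact absurd rfl hij
    · exact ⟨s11, s12⟩
    · exact ⟨s22, s20⟩
    · exact ⟨s22, s21⟩
    · exact absurd rfl hij
  obtain ⟨x, hx⟩ := h4w_approx_subring O harch hnt hsep t t ht
  have hx0 : (x - ⟨g₂₀, hg₂₀⟩) / ⟨g₂₀, hg₂₀⟩ ∈ O₀.nonunits := hx 0
  have hx1 : (x - ⟨g₁₁, hg₁₁⟩) / ⟨g₁₁, hg₁₁⟩ ∈ O₁.nonunits := hx 1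
  have hx2 : (x - ⟨g₀₂, hg₀₂⟩) / ⟨g₀₂, hg₀₂⟩ ∈ O₂.nonunits := hx 2
  refine ⟨(x : FF (M * q * q)), x.2, ?_,
    h93aO_congOne hq A hA _ hE20 x ⟨g₂₀, hg₂₀⟩ (ht 0) hx0,
    h93aO_congOne hq A hA _ hE11 x ⟨g₁₁, hg₁₁⟩ (ht 1) hx1,
    h93aO_congOne hq A hA _ hE02 x ⟨g₀₂, hg₀₂⟩ (ht 2) hx2⟩
  intro h0
  have hx00 : x = 0 := Subtype.ext h0
  have ht0 : (⟨g₂₀, hg₂₀⟩ : h92c_F0 A (M * q * q)) ≠ 0 := ht 0
  rw [hx00, zero_sub, neg_div, div_self ht0] at hx0
  rcases (h93a_mem_nonunits_iff O₀ _).mp hx0 with h | h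
  · exact one_ne_zero (neg_eq_zero.mp h)
  · apply h
    rw [inv_neg, inv_one]
    exact neg_mem (one_mem _)

end Fermat.Agent.S36
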