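import Fermat.Agent.S36.H11TorSkel
import Fermat.Agent.S36.H27VertAsm
import Fermat.Agent.S36.H93ApproxRes
import Fermat.Agent.S36.H85MidAll
import Fermat.Agent.S36.H81Base
import Fermat.Agent.S36.H71NewGateX

/-!
# S36, block (T), row T-TWIST (helper27, second seat): `H11TorTwist`

`h27t_torTwist : H11TorTwist` (the exact frozen `Prop` of `S36/H11TorSkel.lean`): for `m`-th
roots of unity `ξ₁, ξ₂` (`q ∤ m`) there is `h ∈ F₀`, `h ≠ 0`, with `h ≡ 1` along `W20`,
`h ≡ ξ₁` along every `E11^ζ` and `h ≡ ξ₂` along every `E02`.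

Proof: weak approximation of residues `h93a_approxRes : H20ApproxRes` for the triple
`(1, cst ξ₁, cst ξ₂)` at one triple of embeddings; a Gauss congruence `E (h / cst ξ) ≡ 1` gives
`h - cst ξ` Gauss-small; smallness passes to the other middle embeddings by the conjugation
`h85m_E11_conj` (inertia acts transitively on the primitive `q`-th roots of unity, `h34y_cyc`)
and the embedding `E02` is unique (`h20n_embUnique`).

Reusable: `h27t_S` (Gauss-small series) with `h27t_S_of_cong`, `h27t_S_mul`, `h27t_S_coeffMap`;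
`h27t_small_sub_cst`, `h27t_small_E11_conj`.
-/

set_option autoImplicit false
set_option linter.unusedSectionVars false

open AlgebraicCurve ModularCurve

noncomputable section

namespace Fermat.Agent.S36

open Fermat.Agent.S37 (Kbar GQ FF cst jB gal modelAt degen auxLevel)
open Fermat.Agent.Red.GV Fermat.Agent.Red.GV.Soft

/-! ## Gauss-small series -/

section Small

variable {A : ValuationSubring Kbar}

/-- the series `s` is Gauss-small: Gauss-integral with reduction `0`. -/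
def h27t_S (A : ValuationSubring Kbar) (s : LaurentSeries Kbar) : Prop :=
  ∃ h : s ∈ softOT A (IsLocalRing.residue A),
    softRedT A (IsLocalRing.residue A) ⟨s, h⟩ = 0

theorem h27t_small_iff {N : ℕ} (E : FF N →+* LaurentSeries Kbar) (x : FF N) :
    h11l_Small A E x ↔ h27t_S A (E x) := Iff.rfl

/-- `s ≡ 1` ⟹ `s - 1` is Gauss-small. -/
theorem h27t_S_of_cong {s : LaurentSeries Kbar} (h : h20n_CongOneS A s) : h27t_S A (s - 1) := by
  obtain ⟨hs, hr⟩ := (h20g_congOne_iff s).1 h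
  have h1 : s - 1 ∈ softOT A (IsLocalRing.residue A) := sub_mem hs (one_mem _)
  refine ⟨h1, ?_⟩
  have e : (⟨s - 1, h1⟩ : softOT A (IsLocalRing.residue A)) = ⟨s, hs⟩ - 1 := rfl
  rw [e, map_sub, map_one, ← h20g_res_of_mem hs, hr, sub_self]

/-- Gauss-integral times Gauss-small is Gauss-small. -/
theorem h27t_S_mul {s t : LaurentSeries Kbar} (hs : s ∈ softOT A (IsLocalRing.residue A))
    (ht : h27t_S A t) : h27t_S A (s * t) := by
  obtain ⟨ht1, ht2⟩ := ht
  refine ⟨mul_mem hs ht1, ?_⟩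
  have e : (⟨s * t, mul_mem hs ht1⟩ : softOT A (IsLocalRing.residue A)) = ⟨s, hs⟩ * ⟨t, ht1⟩ :=
    rfl
  rw [e, map_mul, ht2, mul_zero]

/-- Gauss-smallness is stable under the coefficientwise action of the decomposition group. -/
theorem h27t_S_coeffMap {σ : GQ} (hσ : σ ∈ A.decompositionSubgroup ℚ) {s : LaurentSeries Kbar}
    (hs : h27t_S A s) : h27t_S A (coeffMap (σ : Kbar →+* Kbar) s) := by
  obtain ⟨hs1, hs2⟩ := hs
  have h1 : coeffMap (σ : Kbar →+* Kbar) s ∈ softOT A (IsLocalRing.residue A) :=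
    h85m_coeffMap_mem_softOT A hσ hs1
  refine ⟨h1, ?_⟩
  have h2 := softRedT_coeffMap (σ : Kbar →+* Kbar) (decompA A σ hσ) (coe_decompA A σ hσ)
    (decompK A σ hσ) (residue_decompA A σ hσ) ⟨s, hs1⟩ h1
  rw [h2, hs2, map_zero]

/-- a Gauss congruence `E (h / cst ξ) ≡ 1` gives `h - cst ξ` Gauss-small at `E`. -/
theorem h27t_small_sub_cst {N : ℕ} {E : FF N →+* LaurentSeries Kbar}
    (hE : ∀ c : Kbar, E (cst N c) = HahnSeries.C c) {ξ : Kbar} (hξ0 : ξ ≠ 0) (hξ : ξ ∈ A)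
    {h : FF N} (hc : h20n_CongOneS A (E (h * (cst N ξ)⁻¹))) :
    h11l_Small A E (h - cst N ξ) := by
  rw [h27t_small_iff]
  have hC0 : (HahnSeries.C ξ : LaurentSeries Kbar) ≠ 0 := by
    intro h0
    exact hξ0 (HahnSeries.C_injective (by rw [h0, map_zero]))
  have e : E (h - cst N ξ) = HahnSeries.C ξ * (E (h * (cst N ξ)⁻¹) - 1) := by
    rw [map_sub, map_mul, map_inv₀, hE, mul_sub, mul_one, mul_comm (E h), ← mul_assoc,
      mul_inv_cancel₀ hC0, one_mul]
  rw [e]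
  exact h27t_S_mul (C_mem_softOT A _ ⟨ξ, hξ⟩) (h27t_S_of_cong hc)

end Small

/-! ## Conjugate middle embeddings -/

section Conj

/-- Gauss-smallness of an inertia-fixed function passes from one middle embedding to all the
others. -/
theorem h27t_small_E11_conj {q : ℕ} (hq : q.Prime) (M : ℕ) [NeZero M] (hqM : ¬ q ∣ M)
    (A : ValuationSubring Kbar) (hA : A.LiesOverPrime q) {ζ ζ' : Kbar}
    (hζ : IsPrimitiveRoot ζ q) (hζ' : IsPrimitiveRoot ζ' q)
    {E E' : haveI : NeZero q := ⟨hq.ne_zero⟩; FF (M * q * q) →+* LaurentSeries Kbar}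
    (hE : haveI : NeZero q := ⟨hq.ne_zero⟩; h20n_IsE11 M q hq hqM ζ E)
    (hE' : haveI : NeZero q := ⟨hq.ne_zero⟩; h20n_IsE11 M q hq hqM ζ' E')
    {x : FF (M * q * q)} (hx : x ∈ h92c_F0 A (M * q * q)) (hs : h11l_Small A E x) :
    h11l_Small A E' x := by
  have : NeZero q := ⟨hq.ne_zero⟩
  obtain ⟨σ, hσ, hσζ⟩ := h34y_cyc q hq A hA ζ ζ' hζ hζ'
  have hE'' : h20n_IsE11 M q hq hqM (σ ζ) E' := by rw [hσζ]; exact hE'
  have hconj : E' x = coeffMap (σ : Kbar →+* Kbar) (E x) :=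
    h85m_E11_conj hq M hqM A hσ hE hE'' hx
  rw [h27t_small_iff, hconj]
  exact h27t_S_coeffMap (mem_decomp_of_mem_inertia A hσ) hs

end Conj

/-! ## T-TWIST -/

/-- **T-TWIST.** -/
theorem h27t_torTwist : H11TorTwist := by
  intro q hq M _ hqM haux
  have : NeZero q := ⟨hq.ne_zero⟩
  intro A hA m hm ξ₁ ξ₂ h1 h2
  have hm0 : m ≠ 0 := by
    rintro rfl
    exact hm (dvd_zero q)
  have hmpos : 0 < m := Nat.pos_of_ne_zero hm0
  -- a triple of embeddings
  obtain ⟨ζ, hζ⟩ := HasEnoughRootsOfUnity.exists_primitiveRoot Kbar q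
  obtain ⟨hE11ex, E02, hE02⟩ := h20n_embExists q hq M hqM
  obtain ⟨E11, hE11⟩ := hE11ex ζ hζ.pow_eq_one (hζ.ne_one hq.one_lt)
  have hT : h20v_Triple M q hq hqM ζ E11 E02 := ⟨hζ, hE11, hE02⟩
  -- the roots of unity are inertia-fixed units of `A`
  have key : ∀ ξ : Kbar, ξ ^ m = 1 →
      ξ ≠ 0 ∧ ξ ∈ A ∧ ξ⁻¹ ∈ A ∧ cst (M * q * q) ξ ∈ h92c_F0 A (M * q * q) := by
    intro ξ hξ
    have hξ0 : ξ ≠ 0 := by
      rintro rfl
      rw [zero_pow hm0] at hξ
      exact zero_ne_one hξ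
    have hv : A.valuation ξ = 1 := h27a_val_root hmpos hξ
    refine ⟨hξ0, (A.valuation_le_one_iff _).mp hv.le, (A.valuation_le_one_iff _).mp ?_, ?_⟩
    · rw [map_inv₀, hv, inv_one]
    · exact h71x_cst_mem _ _ ((h81a_mem_K0 A ξ).mp (h81a_root_of_unity_mem hq hA hmpos hm hξ))
  obtain ⟨hξ10, hξ1A, hξ1A', hξ1F⟩ := key ξ₁ h1
  obtain ⟨hξ20, hξ2A, hξ2A', hξ2F⟩ := key ξ₂ h2
  -- weak approximation of the residues
  obtain ⟨h, hhF, hh0, hc20, hc11, hc02⟩ :=
    h93a_approxRes q hq M hqM haux A hA ζ E11 E02 hT 1 (cst (M * q * q) ξ₁)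
      (cst (M * q * q) ξ₂) (one_mem _) hξ1F hξ2F
      (by rw [map_one]; exact h27a_unit_one)
      (by rw [h27a_E11_cst hE11]; exact h27a_unit_C hξ10 hξ1A hξ1A')
      (by rw [h27a_E02_cst hE02]; exact h27a_unit_C hξ20 hξ2A hξ2A')
  refine ⟨h, hhF, hh0, ?_, ?_, ?_⟩
  · -- `E20`
    rw [inv_one, mul_one] at hc20
    rw [h27t_small_iff, map_sub, map_one]
    exact h27t_S_of_cong hc20
  · -- all the `E11^ζ'`
    intro ζ' E' hζ' hE'
    have hs : h11l_Small A E11 (h - cst (M * q * q) ξ₁) :=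
      h27t_small_sub_cst (h27a_E11_cst hE11) hξ10 hξ1A hc11
    exact h27t_small_E11_conj hq M hqM A hA hζ hζ' hE11 hE' (sub_mem hhF hξ1F) hs
  · -- all the `E02`
    intro E hE
    have hEE : E = E02 :=
      h20n_embUnique q hq M E E02 (fun x => by rw [hE.1, hE02.1]) (fun x => by rw [hE.2, hE02.2])
    rw [hEE]
    exact h27t_small_sub_cst (h27a_E02_cst hE02) hξ20 hξ2A hc02

end Fermat.Agent.S36
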