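import Fermat.Agent.S36.H11TorSkel
import Fermat.Agent.S36.H44FrickeChart2
import Fermat.Agent.S36.H20Emb
import Fermat.Agent.S36.H27TorTwist
import Fermat.Agent.S36.H12EmbDF

/-!
# S36, row T-NORM-B: `H11TorNormA → H11TorNormB` by the Fricke symmetry (helper28, `h28n_`)

The Fricke involutions `W = h44s_fricke2 M q` of level `M q q` and `w₁ = kFricke M q` of level
`M q` (helper44, `Red/Kron`) satisfy `W ∘ α = β ∘ w₁`, `W ∘ β = α ∘ w₁`; they preserve the charts
`j` over the inertia ring, exchange the vertical embeddings `E20 ↔ E02`, `E11^ζ ↔ twist ∘ E11^ζ⁻¹`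
and `E_∞ ↔ E_0`, and `Nβ x = w₁ (Nα (W x))`.

* `h28n_cBV_transport` : transport of constant branch values along a chart automorphism.
* `h28n_norm_beta` : `Nβ x = w₁ (Nα (W x))`.
* `h28n_torNormB_of : H11TorNormA → H11TorNormB`.
-/

set_option autoImplicit false
set_option linter.unusedSectionVars false
set_option linter.style.haveILetI false

open ModularCurve AlgebraicCurve

noncomputable section

namespace Fermat.Agent.S36.V28

open Fermat.Agent.S05 Fermat.Agent.S37 Fermat.Agent.Red.GV Fermat.Agent.Red.GV.Soft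
open Fermat.Agent.Red.Kron (kFricke twistK kFricke_alpha kFricke_beta kFricke_kFricke)
open Fermat.Agent.Red.KR (normAlong)
open Fermat.Agent.S36

/-! ### Transport of branch values along a chart automorphism -/

section Transport

variable {N : ℕ} (A : ValuationSubring Kbar) (t : FF N) (w : FF N ≃ₐ[Kbar] FF N)
  (hw : ∀ x ∈ h92c_Chart A N t, w x ∈ h92c_Chart A N t)

/-- the restriction of `w` to the chart. -/
def h28n_res : h92c_Chart A N t →+* h92c_Chart A N t where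
  toFun b := ⟨w (b : FF N), hw b b.2⟩
  map_one' := Subtype.ext (map_one w)
  map_mul' x y := Subtype.ext (map_mul w (x : FF N) (y : FF N))
  map_zero' := Subtype.ext (map_zero w)
  map_add' x y := Subtype.ext (map_add w (x : FF N) (y : FF N))

@[simp]
theorem h28n_coe_res (b : h92c_Chart A N t) :
    ((h28n_res A t w hw b : h92c_Chart A N t) : FF N) = w (b : FF N) := rfl

theorem h28n_res_res (hww : ∀ x, w (w x) = x) (b : h92c_Chart A N t) :
    h28n_res A t w hw (h28n_res A t w hw b) = b :=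
  Subtype.ext (hww (b : FF N))

/-- `𝔫' = w⁻¹ 𝔫`. -/
def h28n_Rel (𝔫 𝔫' : Ideal (h92c_Chart A N t)) : Prop :=
  ∀ b : h92c_Chart A N t, b ∈ 𝔫' ↔ h28n_res A t w hw b ∈ 𝔫

theorem h28n_rel_comap (𝔫 : Ideal (h92c_Chart A N t)) :
    h28n_Rel A t w hw 𝔫 (𝔫.comap (h28n_res A t w hw)) :=
  fun _ => Ideal.mem_comap

theorem h28n_rel_symm (hww : ∀ x, w (w x) = x) {𝔫 𝔫' : Ideal (h92c_Chart A N t)}
    (h : h28n_Rel A t w hw 𝔫 𝔫') :
    h28n_Rel A t w hw 𝔫' 𝔫 := by
  intro b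
  rw [h (h28n_res A t w hw b), h28n_res_res A t w hw hww]

theorem h28n_cBV_transport (hww : ∀ x, w (w x) = x) (𝔫 𝔫' : Ideal (h92c_Chart A N t))
    (hrel : h28n_Rel A t w hw 𝔫 𝔫')
    (E E' : FF N →+* LaurentSeries Kbar)
    (hE : ∀ y : FF N, h11l_Small A E y → h11l_Small A E' (w y))
    (x : FF N) (a : Kbar) (h : h11t_cBV A t 𝔫 E x a) : h11t_cBV A t 𝔫' E' (w x) a := by
  obtain ⟨c, hc, b, s, hs, hsm, hbc⟩ := h
  refine ⟨c, hc, h28n_res A t w hw b, h28n_res A t w hw s, ?_, ?_, ?_⟩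
  · rw [hrel, h28n_res_res A t w hw hww]
    exact hs
  · have h1 := hE _ hsm
    rw [map_sub, map_mul] at h1
    exact h1
  · rw [hrel]
    have e : h28n_res A t w hw (h28n_res A t w hw b - c * h28n_res A t w hw s) = b - c * s := by
      rw [map_sub, map_mul, h28n_res_res A t w hw hww, h28n_res_res A t w hw hww]
      congr 2
      apply Subtype.ext
      rw [h28n_coe_res, hc]
      exact w.commutes a
    rw [e]
    exact hbc

/-- a one-branch point is transported to a one-branch point. -/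
theorem h28n_oneBranch_transport (hww : ∀ x, w (w x) = x) (π : h92c_Chart A N t)
    (hπ : h28n_res A t w hw π = π) (𝔫 𝔫' : Ideal (h92c_Chart A N t))
    (hrel : h28n_Rel A t w hw 𝔫 𝔫') (h : h11l_OneBranch π 𝔫') : h11l_OneBranch π 𝔫 := by
  intro P P' hP hP' hπP hπP' hle hle' hne hne'
  have hmem : ∀ (Q : Ideal (h92c_Chart A N t)) (b : h92c_Chart A N t),
      b ∈ Q ↔ h28n_res A t w hw b ∈ Q.comap (h28n_res A t w hw) := by
    intro Q b
    rw [Ideal.mem_comap, h28n_res_res A t w hw hww]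
  have hinj : ∀ Q Q' : Ideal (h92c_Chart A N t),
      Q.comap (h28n_res A t w hw) = Q'.comap (h28n_res A t w hw) → Q = Q' := by
    intro Q Q' hQ
    ext b
    rw [hmem Q, hmem Q', hQ]
  have hcle : ∀ Q : Ideal (h92c_Chart A N t), Q ≤ 𝔫 → Q.comap (h28n_res A t w hw) ≤ 𝔫' := by
    intro Q hQ b hb
    rw [hrel]
    exact hQ (Ideal.mem_comap.mp hb)
  have hcne : ∀ Q : Ideal (h92c_Chart A N t), Q ≠ 𝔫 → Q.comap (h28n_res A t w hw) ≠ 𝔫' := by
    intro Q hQ hQ'
    apply hQ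
    ext b
    rw [hmem Q, hQ', hrel, h28n_res_res A t w hw hww]
  have hπc : ∀ Q : Ideal (h92c_Chart A N t), π ∈ Q → π ∈ Q.comap (h28n_res A t w hw) := by
    intro Q hQ
    rw [Ideal.mem_comap, hπ]
    exact hQ
  exact hinj P P' (h _ _ (Ideal.comap_isPrime _ P) (Ideal.comap_isPrime _ P') (hπc P hπP)
    (hπc P' hπP') (hcle P hle) (hcle P' hle') (hcne P hne) (hcne P' hne'))

end Transport

/-! ### The Fricke involutions -/

section Fricke

variable (M q : ℕ) [NeZero M] [NeZero q] (hq : q.Prime) (hqM : ¬ q ∣ M)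
  (A : ValuationSubring Kbar)

theorem h28n_coe_E20 (y : FF (M * q * q)) :
    h20n_E20 M q y = ((y : FF (M * q * q)) : LaurentSeries Kbar) := rfl

theorem h28n_W_mem_chart (hA : A.LiesOverPrime q) {x : FF (M * q * q)}
    (hx : x ∈ h92c_Chart A (M * q * q) (jB (M * q * q))) :
    h44s_fricke2 M q hq hqM x ∈ h92c_Chart A (M * q * q) (jB (M * q * q)) :=
  ⟨h44s_fricke2_mem_modelFin M q hq hqM A hA hx.1,
    fun σ hσ => h44s_fricke2_fixed M q hq hqM σ (hx.2 σ hσ)⟩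

theorem h28n_w1_fixed (σ : GQ) {x : FF (M * q)} (hx : gal (M * q) σ • x = x) :
    gal (M * q) σ • kFricke M q hq hqM x = kFricke M q hq hqM x := by
  have h := Fermat.Agent.Red.Kron.kFricke_gal M q hq hqM σ x
  have hx' : arithmeticGalois (modularFunctionFieldFull (M * q)) σ • x = x := hx
  rw [hx'] at h
  exact h.symm

theorem h28n_w1_mem_chart (hA : A.LiesOverPrime q) {x : FF (M * q)}
    (hx : x ∈ h92c_Chart A (M * q) (jB (M * q))) :
    kFricke M q hq hqM x ∈ h92c_Chart A (M * q) (jB (M * q)) :=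
  ⟨Fermat.Agent.LGC.h44g_kFricke_mem_modelFin M q hq hqM A hA hx.1,
    fun σ hσ => h28n_w1_fixed M q hq hqM σ (hx.2 σ hσ)⟩

/-- `E20 ∘ W` is an embedding `E02`. -/
theorem h28n_E20W_isE02 :
    h20n_IsE02 M q hq hqM ((h20n_E20 M q).comp
      ((h44s_fricke2 M q hq hqM : FF (M * q * q) ≃ₐ[Kbar] FF (M * q * q)) :
        FF (M * q * q) →+* FF (M * q * q))) := by
  constructor
  · intro x
    rw [RingHom.comp_apply, h28n_coe_E20]
    exact (congrArg (fun z : FF (M * q * q) => (z : LaurentSeries Kbar))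
      (h44s_fricke2_alpha M q hq hqM x)).trans (coe_heckeBetaBar _ _ _)
  · intro x
    rw [RingHom.comp_apply, h28n_coe_E20]
    exact (congrArg (fun z : FF (M * q * q) => (z : LaurentSeries Kbar))
      (h44s_fricke2_beta M q hq hqM x)).trans (coe_heckeAlphaBar _ _ _)

/-- `E02 ∘ W = E20`. -/
theorem h28n_E02W_eq (E0 : FF (M * q * q) →+* LaurentSeries Kbar)
    (hE0 : h20n_IsE02 M q hq hqM E0) (y : FF (M * q * q)) :
    E0 (h44s_fricke2 M q hq hqM y) = h20n_E20 M q y := by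
  have h := h20n_embUnique q hq M (E0.comp
      ((h44s_fricke2 M q hq hqM : FF (M * q * q) ≃ₐ[Kbar] FF (M * q * q)) :
        FF (M * q * q) →+* FF (M * q * q))) (h20n_E20 M q) ?_ ?_
  · exact RingHom.congr_fun h y
  · intro x
    rw [RingHom.comp_apply, h28n_coe_E20, coe_heckeAlphaBar]
    exact (congrArg E0 (h44s_fricke2_alpha M q hq hqM x)).trans
      ((hE0.2 _).trans (by rw [kFricke_kFricke]))
  · intro x
    rw [RingHom.comp_apply, h28n_coe_E20, coe_heckeBetaBar]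
    exact (congrArg E0 (h44s_fricke2_beta M q hq hqM x)).trans
      ((hE0.1 _).trans (by rw [kFricke_kFricke]))

/-- the twist as a ring homomorphism. -/
def h28n_twistHom (ω : Kbar) (hω : ω ≠ 0) : LaurentSeries Kbar →+* LaurentSeries Kbar where
  toFun := twistK ω
  map_one' := Fermat.Agent.Red.Kron.twistK_one ω
  map_mul' := Fermat.Agent.Red.Kron.twistK_mul hω
  map_zero' := Fermat.Agent.Red.Kron.twistK_zero ω
  map_add' := Fermat.Agent.Red.Kron.twistK_add ω

/-- `twist_{ζ⁻¹} ∘ E11^ζ ∘ W` is an embedding `E11^{ζ⁻¹}`. -/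
theorem h28n_E11W_isE11 (ζ : Kbar) (hζ0 : ζ ≠ 0) (E : FF (M * q * q) →+* LaurentSeries Kbar)
    (hE : h20n_IsE11 M q hq hqM ζ E) :
    h20n_IsE11 M q hq hqM ζ⁻¹ ((h28n_twistHom ζ⁻¹ (inv_ne_zero hζ0)).comp (E.comp
      ((h44s_fricke2 M q hq hqM : FF (M * q * q) ≃ₐ[Kbar] FF (M * q * q)) :
        FF (M * q * q) →+* FF (M * q * q)))) := by
  constructor
  · intro x
    show twistK ζ⁻¹ (E (h44s_fricke2 M q hq hqM (heckeAlphaBar Kbar (M * q) q x))) = _
    rw [h44s_fricke2_alpha, hE.2, kFricke_kFricke, Fermat.Agent.Red.Kron.twistK_twistK,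
      mul_inv_cancel₀ hζ0, Fermat.Agent.Red.Kron.twistK_one_left]
  · intro x
    show twistK ζ⁻¹ (E (h44s_fricke2 M q hq hqM (heckeBetaBar Kbar (M * q) q x))) = _
    rw [h44s_fricke2_beta, hE.1]

/-- Gauss-smallness is invariant under the twist by a `q`-th root of unity. -/
theorem h28n_small_twist (hq' : q.Prime) (hA : A.LiesOverPrime q) {ω : Kbar} (hω : ω ^ q = 1)
    {s : LaurentSeries Kbar}
    (hs : s ∈ dfField (K := Kbar)) (h : h27t_S A s) : h27t_S A (twistK ω s) := by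
  rcases eq_or_ne s 0 with rfl | hs0
  · rw [Fermat.Agent.Red.Kron.twistK_zero]
    exact h
  have hc := h1g_twist q hq' A hA ω 1 (by rw [pow_one]; exact hω) s hs hs0
  have hmem : twistK ω s * s⁻¹ ∈ softOT A (IsLocalRing.residue A) :=
    ((h20g_congOne_iff (A := A) _).1 hc).1
  have e : twistK ω s = (twistK ω s * s⁻¹) * s := by
    rw [mul_assoc, inv_mul_cancel₀ hs0, mul_one]
  rw [e]
  exact h27t_S_mul hmem h

/-- **`Nβ x = w₁ (Nα (W x))`.** -/
theorem h28n_norm_beta (x : FF (M * q * q)) :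
    normAlong (heckeBetaBar Kbar (M * q) q) x =
      kFricke M q hq hqM
        (normAlong (heckeAlphaBar Kbar (M * q) q) (h44s_fricke2 M q hq hqM x)) := by
  have h := @Algebra.norm_eq_of_equiv_equiv (FF (M * q)) (FF (M * q * q)) (FF (M * q))
    (FF (M * q * q)) _ _ _ _ (algebraAlong (heckeBetaBar Kbar (M * q) q))
    (algebraAlong (heckeAlphaBar Kbar (M * q) q))
    ((kFricke M q hq hqM : FF (M * q) ≃ₐ[Kbar] FF (M * q)) : FF (M * q) ≃+* FF (M * q))
    ((h44s_fricke2 M q hq hqM : FF (M * q * q) ≃ₐ[Kbar] FF (M * q * q)) :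
      FF (M * q * q) ≃+* FF (M * q * q))
    (RingHom.ext fun y => (h44s_fricke2_beta M q hq hqM y).symm) x
  have hsymm : ∀ z : FF (M * q),
      ((kFricke M q hq hqM : FF (M * q) ≃ₐ[Kbar] FF (M * q)) : FF (M * q) ≃+* FF (M * q)).symm z
        = kFricke M q hq hqM z := by
    intro z
    rw [RingEquiv.symm_apply_eq]
    exact (kFricke_kFricke M q hq hqM z).symm
  rw [hsymm] at h
  exact h

end Fricke

/-! ### The assembly -/

theorem h28n_res_surjective {N : ℕ} (A : ValuationSubring Kbar) (t : FF N)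
    (w : FF N ≃ₐ[Kbar] FF N) (hw : ∀ x ∈ h92c_Chart A N t, w x ∈ h92c_Chart A N t)
    (hww : ∀ x, w (w x) = x) : Function.Surjective (h28n_res A t w hw) :=
  fun b => ⟨h28n_res A t w hw b, h28n_res_res A t w hw hww b⟩

section Assembly

variable (M q : ℕ) [NeZero M] [NeZero q] (hq : q.Prime) (hqM : ¬ q ∣ M)
  (A : ValuationSubring Kbar) (hA : A.LiesOverPrime q)

/-- `W` on the chart of level `M q q`. -/
def h28n_WB : h92c_Chart A (M * q * q) (jB (M * q * q)) →+*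
    h92c_Chart A (M * q * q) (jB (M * q * q)) :=
  h28n_res A _ (h44s_fricke2 M q hq hqM) (fun _ hy => h28n_W_mem_chart M q hq hqM A hA hy)

/-- `w₁` on the chart of level `M q`. -/
def h28n_wB : h92c_Chart A (M * q) (jB (M * q)) →+* h92c_Chart A (M * q) (jB (M * q)) :=
  h28n_res A _ (kFricke M q hq hqM) (fun _ hy => h28n_w1_mem_chart M q hq hqM A hA hy)

theorem h28n_coe_WB (b : h92c_Chart A (M * q * q) (jB (M * q * q))) :
    ((h28n_WB M q hq hqM A hA b : h92c_Chart A (M * q * q) (jB (M * q * q))) :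
      FF (M * q * q)) = h44s_fricke2 M q hq hqM (b : FF (M * q * q)) := rfl

theorem h28n_coe_wB (b : h92c_Chart A (M * q) (jB (M * q))) :
    ((h28n_wB M q hq hqM A hA b : h92c_Chart A (M * q) (jB (M * q))) : FF (M * q)) =
      kFricke M q hq hqM (b : FF (M * q)) := rfl

theorem h28n_WB_WB (b : h92c_Chart A (M * q * q) (jB (M * q * q))) :
    h28n_WB M q hq hqM A hA (h28n_WB M q hq hqM A hA b) = b :=
  Subtype.ext (h44s_fricke2_fricke2 M q hq hqM _)

theorem h28n_wB_wB (b : h92c_Chart A (M * q) (jB (M * q))) :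
    h28n_wB M q hq hqM A hA (h28n_wB M q hq hqM A hA b) = b :=
  Subtype.ext (kFricke_kFricke M q hq hqM _)

theorem h28n_small_Ezero_w (y : FF (M * q)) :
    h11l_Small A (h11t_Ezero M q hq hqM) (kFricke M q hq hqM y) ↔
      h11l_Small A (h11t_Einf M q) y := by
  have e : h11t_Ezero M q hq hqM (kFricke M q hq hqM y) = h11t_Einf M q y := by
    show ((kFricke M q hq hqM (kFricke M q hq hqM y) : FF (M * q)) : LaurentSeries Kbar) = _
    rw [kFricke_kFricke]
    rfl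
  rw [h27t_small_iff, e, ← h27t_small_iff]

theorem h28n_small_Einf_w (y : FF (M * q)) :
    h11l_Small A (h11t_Einf M q) (kFricke M q hq hqM y) ↔
      h11l_Small A (h11t_Ezero M q hq hqM) y :=
  Iff.rfl

/-- transport of a supersingular point. -/
theorem h28n_isSS (𝔫 : Ideal (h92c_Chart A (M * q * q) (jB (M * q * q))))
    (hSS : h11t_IsSS A M q 𝔫) :
    h11t_IsSS A M q (𝔫.comap (h28n_WB M q hq hqM A hA)) := by
  obtain ⟨hmax, hq𝔫, hnot⟩ := hSS
  haveI := hmax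
  refine ⟨Ideal.comap_isMaximal_of_surjective _
    (fun b => ⟨h28n_WB M q hq hqM A hA b, h28n_WB_WB M q hq hqM A hA b⟩), ?_, ?_⟩
  · rw [Ideal.mem_comap, map_natCast]
    exact hq𝔫
  · intro h1
    exact hnot (h28n_oneBranch_transport A _ (h44s_fricke2 M q hq hqM)
      (fun _ hy => h28n_W_mem_chart M q hq hqM A hA hy) (h44s_fricke2_fricke2 M q hq hqM) _
      (map_natCast (h28n_WB M q hq hqM A hA) q) 𝔫 _ (fun _ => Ideal.mem_comap) h1)

/-- transport of a node under a point: from `β` to `α`. -/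
theorem h28n_nodeUnder (𝔫 : Ideal (h92c_Chart A (M * q * q) (jB (M * q * q))))
    (𝔫b : Ideal (h92c_Chart A (M * q) (jB (M * q))))
    (hNode : h11t_NodeUnder A M q hq hqM (heckeBetaBar Kbar (M * q) q) 𝔫b 𝔫) :
    h11t_NodeUnder A M q hq hqM (heckeAlphaBar Kbar (M * q) q)
      (𝔫b.comap (h28n_wB M q hq hqM A hA)) (𝔫.comap (h28n_WB M q hq hqM A hA)) := by
  obtain ⟨hmax, hund, hcinf, hczero⟩ := hNode
  haveI := hmax
  refine ⟨Ideal.comap_isMaximal_of_surjective _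
    (fun b => ⟨h28n_wB M q hq hqM A hA b, h28n_wB_wB M q hq hqM A hA b⟩), ?_, ?_, ?_⟩
  · intro b'
    rw [Ideal.mem_comap, hund]
    constructor
    · rintro ⟨b, hb, hbe⟩
      refine ⟨h28n_WB M q hq hqM A hA b, ?_, ?_⟩
      · rw [Ideal.mem_comap, h28n_WB_WB]
        exact hb
      · rw [h28n_coe_WB, hbe, h28n_coe_wB]
        have h3 := h44s_fricke2_beta M q hq hqM (kFricke M q hq hqM (b' : FF (M * q)))
        rw [kFricke_kFricke] at h3
        exact h3
    · rintro ⟨b, hb, hbe⟩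
      refine ⟨h28n_WB M q hq hqM A hA b, Ideal.mem_comap.mp hb, ?_⟩
      rw [h28n_coe_WB, hbe, h28n_coe_wB]
      exact h44s_fricke2_alpha M q hq hqM (b' : FF (M * q))
  · intro b' hb'
    rw [Ideal.mem_comap]
    apply hczero
    exact (h28n_small_Ezero_w M q hq hqM A (b' : FF (M * q))).2 hb'
  · intro b' hb'
    rw [Ideal.mem_comap]
    apply hcinf
    exact hb'

theorem h28n_cBV_W (𝔫 : Ideal (h92c_Chart A (M * q * q) (jB (M * q * q))))
    (E E' : FF (M * q * q) →+* LaurentSeries Kbar)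
    (hE : ∀ y : FF (M * q * q), h11l_Small A E y →
      h11l_Small A E' (h44s_fricke2 M q hq hqM y))
    (x : FF (M * q * q)) (a : Kbar) (h : h11t_cBV A (jB (M * q * q)) 𝔫 E x a) :
    h11t_cBV A (jB (M * q * q)) (𝔫.comap (h28n_WB M q hq hqM A hA)) E'
      (h44s_fricke2 M q hq hqM x) a :=
  h28n_cBV_transport A _ (h44s_fricke2 M q hq hqM)
    (fun _ hy => h28n_W_mem_chart M q hq hqM A hA hy) (h44s_fricke2_fricke2 M q hq hqM) 𝔫 _
    (fun _ => Ideal.mem_comap) E E' hE x a h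

theorem h28n_cBV_w (𝔫b : Ideal (h92c_Chart A (M * q) (jB (M * q))))
    (E E' : FF (M * q) →+* LaurentSeries Kbar)
    (hE : ∀ y : FF (M * q), h11l_Small A E y → h11l_Small A E' (kFricke M q hq hqM y))
    (x : FF (M * q)) (a : Kbar)
    (h : h11t_cBV A (jB (M * q)) (𝔫b.comap (h28n_wB M q hq hqM A hA)) E x a) :
    h11t_cBV A (jB (M * q)) 𝔫b E' (kFricke M q hq hqM x) a := by
  refine h28n_cBV_transport A _ (kFricke M q hq hqM)
    (fun _ hy => h28n_w1_mem_chart M q hq hqM A hA hy) (kFricke_kFricke M q hq hqM) _ 𝔫b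
    (fun b => ?_) E E' hE x a h
  show b ∈ 𝔫b ↔ h28n_wB M q hq hqM A hA b ∈ 𝔫b.comap (h28n_wB M q hq hqM A hA)
  rw [Ideal.mem_comap, h28n_wB_wB]

theorem h28n_small_E20W (y : FF (M * q * q))
    (hy : h11l_Small A ((h20n_E20 M q).comp
      ((h44s_fricke2 M q hq hqM : FF (M * q * q) ≃ₐ[Kbar] FF (M * q * q)) :
        FF (M * q * q) →+* FF (M * q * q))) y) :
    h11l_Small A (h20n_E20 M q) (h44s_fricke2 M q hq hqM y) := hy

theorem h28n_small_E02W (E0 : FF (M * q * q) →+* LaurentSeries Kbar)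
    (hE0 : h20n_IsE02 M q hq hqM E0) (y : FF (M * q * q))
    (hy : h11l_Small A (h20n_E20 M q) y) :
    h11l_Small A E0 (h44s_fricke2 M q hq hqM y) := by
  rw [h27t_small_iff, h28n_E02W_eq M q hq hqM E0 hE0 y, ← h27t_small_iff]
  exact hy

theorem h28n_small_E11W (hA' : A.LiesOverPrime q) (ζ : Kbar) (hζ : IsPrimitiveRoot ζ q)
    (E : FF (M * q * q) →+* LaurentSeries Kbar) (hE : h20n_IsE11 M q hq hqM ζ E)
    (y : FF (M * q * q))
    (hy : h11l_Small A ((h28n_twistHom ζ⁻¹ (inv_ne_zero (hζ.ne_zero hq.ne_zero))).comp (E.comp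
      ((h44s_fricke2 M q hq hqM : FF (M * q * q) ≃ₐ[Kbar] FF (M * q * q)) :
        FF (M * q * q) →+* FF (M * q * q)))) y) :
    h11l_Small A E (h44s_fricke2 M q hq hqM y) := by
  have hζ0 : ζ ≠ 0 := hζ.ne_zero hq.ne_zero
  have hE3 := h28n_E11W_isE11 M q hq hqM ζ hζ0 E hE
  have hζi : IsPrimitiveRoot ζ⁻¹ q := hζ.inv
  have hDF := h12e_embDF q hq M hqM _ (Or.inl ⟨ζ⁻¹, hζi.pow_eq_one, hE3⟩) y
  have h1 := h28n_small_twist q A hq hA' hζ.pow_eq_one hDF ((h27t_small_iff _ _).1 hy)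
  rw [h27t_small_iff]
  have e : twistK ζ ((h28n_twistHom ζ⁻¹ (inv_ne_zero hζ0)).comp (E.comp
      ((h44s_fricke2 M q hq hqM : FF (M * q * q) ≃ₐ[Kbar] FF (M * q * q)) :
        FF (M * q * q) →+* FF (M * q * q))) y) = E (h44s_fricke2 M q hq hqM y) := by
    show twistK ζ (twistK ζ⁻¹ (E (h44s_fricke2 M q hq hqM y))) = _
    rw [Fermat.Agent.Red.Kron.twistK_twistK, inv_mul_cancel₀ hζ0,
      Fermat.Agent.Red.Kron.twistK_one_left]
  rw [← e]
  exact h1

/-- transport of the three branch values. -/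
theorem h28n_BV3 (𝔫 : Ideal (h92c_Chart A (M * q * q) (jB (M * q * q))))
    (x : FF (M * q * q)) (a₀ a₁ a₂ : Kbar) (hBV : h11t_BV3 A M q hq hqM 𝔫 x a₀ a₁ a₂) :
    h11t_BV3 A M q hq hqM (𝔫.comap (h28n_WB M q hq hqM A hA))
      (h44s_fricke2 M q hq hqM x) a₂ a₁ a₀ := by
  obtain ⟨h20, h11, h02⟩ := hBV
  refine ⟨?_, ?_, ?_⟩
  · exact h28n_cBV_W M q hq hqM A hA 𝔫 _ (h20n_E20 M q) (h28n_small_E20W M q hq hqM A) x a₂
      (h02 _ (h28n_E20W_isE02 M q hq hqM))
  · intro ζ E hζ hE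
    exact h28n_cBV_W M q hq hqM A hA 𝔫 _ E (h28n_small_E11W M q hq hqM A hA ζ hζ E hE) x a₁
      (h11 ζ⁻¹ _ hζ.inv (h28n_E11W_isE11 M q hq hqM ζ (hζ.ne_zero hq.ne_zero) E hE))
  · intro E0 hE0
    exact h28n_cBV_W M q hq hqM A hA 𝔫 (h20n_E20 M q) E0
      (h28n_small_E02W M q hq hqM A E0 hE0) x a₀ h20

end Assembly

/-- **T-NORM-B from T-NORM-A** (Fricke symmetry). -/
theorem h28n_torNormB_of (hNA : H11TorNormA) : H11TorNormB := by
  intro q hq M _ hqM haux
  haveI : NeZero q := ⟨hq.ne_zero⟩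
  intro A hA 𝔫 hSS 𝔫b hNode x hx a₀ a₁ a₂ ha₀ ha₁ ha₂ hBV
  have hWx : h44s_fricke2 M q hq hqM x ∈ h92c_F0 A (M * q * q) :=
    fun σ hσ => h44s_fricke2_fixed M q hq hqM σ (hx σ hσ)
  obtain ⟨h1, h2⟩ := hNA q hq M hqM haux A hA _ (h28n_isSS M q hq hqM A hA 𝔫 hSS) _
    (h28n_nodeUnder M q hq hqM A hA 𝔫 𝔫b hNode) _ hWx a₂ a₁ a₀ ha₂ ha₁ ha₀
    (h28n_BV3 M q hq hqM A hA 𝔫 x a₀ a₁ a₂ hBV)
  constructor
  · rw [h28n_norm_beta M q hq hqM]
    exact h28n_cBV_w M q hq hqM A hA 𝔫b (h11t_Ezero M q hq hqM) (h11t_Einf M q)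
      (fun y hy => (h28n_small_Einf_w M q hq hqM A y).2 hy) _ _ h2
  · rw [h28n_norm_beta M q hq hqM, mul_comm (a₁ ^ (q - 1)) a₂]
    exact h28n_cBV_w M q hq hqM A hA 𝔫b (h11t_Einf M q) (h11t_Ezero M q hq hqM)
      (fun y hy => (h28n_small_Ezero_w M q hq hqM A y).2 hy) _ _ h1

end Fermat.Agent.S36.V28
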