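import Fermat.Agent.S36.H11TorWire
import Fermat.Agent.S36.H22TorPt
import Fermat.Agent.S36.H12TorUniq
import Fermat.Agent.S36.H71TorExp
import Fermat.Agent.S36.H2TNormA
import Fermat.Agent.S36.V28TNormB
import Fermat.Agent.S36.H16TorRoot
import Fermat.Agent.S36.H86LocFact
import Fermat.Agent.S36.H37LocHor
import Fermat.Agent.S36.H60L1Final

/-!
# S36, row L-TOR: the final wiring (helper11, prefix `h11w_`)

`H11LocTor` from the frozen statements which are still open:

* `H12TowerUniq` (third output of the tower: uniqueness of the point over a node),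
* `H71TowerGen`  (first and fourth outputs of the tower: generation),
* `H62RegStatement`, `H86LocVComp` (blocks REG and LOC), `H16TorCentre`, `H16TorRat`.

Plugged in: T-UNIT (`h12w_torUnit_of`), T-PT (`h22p_torPt`), T-NORM-α (`h2t_torNormA_of`,
`h71z_genA_of_tower`, `h71z_cenA_of_tower`), T-NORM-β (`h28n_torNormB_of`), T-ROOT
(`h16t_torRoot_of`), and the five leaves of `S36/H11TorWire.lean`.
-/

set_option autoImplicit false

namespace Fermat.Agent.S36

/-- **T-UNIT** from the uniqueness output of the tower. -/
theorem h11w_torUnit_of (hT : H12TowerUniq) : H11TorUnit :=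
  h12w_torUnit_of h60r_H62L1 hT

/-- **T-PT** from the uniqueness output of the tower. -/
theorem h11w_torPt_of (hT : H12TowerUniq) : H11TorPt :=
  h22p_torPt (h11w_torUnit_of hT)

/-- **T-NORM-α** from the generation output of the tower. -/
theorem h11w_torNormA_of (hG : H71TowerGen) : H11TorNormA :=
  h2t_torNormA_of (h71z_genA_of_tower hG) (h71z_cenA_of_tower hG) h78b_torBasic

/-- **T-NORM-β** from the generation output of the tower. -/
theorem h11w_torNormB_of (hG : H71TowerGen) : H11TorNormB :=
  V28.h28n_torNormB_of (h11w_torNormA_of hG)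

/-- **T-ROOT** from REG, LOC-VCOMP and the two leaves of `S36/H16TorRoot.lean`. -/
theorem h11w_torRoot_of (hReg : H62RegStatement) (hVC : H86LocVComp) (hCen : H16TorCentre)
    (hRat : H16TorRat) : H11TorRoot :=
  h16t_torRoot_of h86l_locFactAbs hReg hVC h37w_locHor h78b_torBasic hCen hRat

/-- **L-TOR** from the open statements. -/
theorem h11w_locTor_final (hU : H12TowerUniq) (hG : H71TowerGen) (hReg : H62RegStatement)
    (hVC : H86LocVComp) (hCen : H16TorCentre) (hRat : H16TorRat) : H11LocTor :=
  h11w_locTor_of (h11w_torRoot_of hReg hVC hCen hRat) (h11w_torPt_of hU)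
    (h11w_torNormA_of hG) (h11w_torNormB_of hG) (h11w_torUnit_of hU)

end Fermat.Agent.S36
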