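import Mathlib

/-!
# S36, block TOR (helper11): branch values and their norm formulas (abstract form)

Mathlib only.  Blueprint: findings #1021, #1050 (stmt = S36).

## Language (the one of `H66LemmaA.lean`)

`F` a field, `O ≤ F` the local ring of the model at a closed point `P` of the special fibre,
`res : O → k` its residue map, `V ≤ F` the semi-local ring of the components through `P`, and for
a branch (component through `P`) the additive subgroup `M ≤ F` of the functions of `V` vanishing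
on the component (`M = f V`, `f` a local equation).

* `h11t_BVal O res M z c` : `z ≡ a` modulo `M` for some `a ∈ O` with `res a = c`
  ("the branch value of `z` at `P` along the component is `c`").

## What TOR consumes from the blocks N and R

For a degeneracy map `ι : F' → F` (`α` or `β`) with norm `Nm : F → F'`, `O', res', M'` at the
image node:

* (TN1, block N) the norm formula in CONGRUENCE form.  Separable branches `M₀, M₁` over `M'`
  (`e f = 1` and `e f = q - 1 = r`):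
  `z ≡ ι y₀ mod M₀`, `z ≡ ι y₁ mod M₁` ⟹ `Nm z ≡ y₀ y₁ ^ r mod M'`;
  purely inseparable branch `M` over `M'` (`f = q`): `z ^ q ≡ ι y mod M` ⟹ `Nm z ≡ y mod M'`.
* (TN2, block R) the branch of level `q² M'` is generated by the branch of level `q M'`:
  `∀ a ∈ O, ∃ a' ∈ O', a ≡ ι a' mod M` (separable), `a ^ q ≡ ι a' mod M` (inseparable).
  Both follow from `O = O'[Z]` and a congruence for `Z` (`h11t_gen_sep`, `h11t_gen_insep`).

## Results

* `h11t_bnorm_sep`, `h11t_bnorm_insep` : the branch values of `Nm z`.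
* `h11t_gen_sep`, `h11t_gen_insep` : (TN2) from `O = O'[Z]`.
-/

set_option autoImplicit false

namespace Fermat.Agent.S36

section Def

variable {F : Type*} [Field F] {k : Type*} [Field k]

/-- the branch value of `z` at the point (`O`, `res`) along the branch `M` is `c`. -/
def h11t_BVal (O : Subring F) (res : O →+* k) (M : AddSubgroup F) (z : F) (c : k) : Prop :=
  ∃ a : O, res a = c ∧ z - (a : F) ∈ M

/-- a local function has its residue as branch value along every branch. -/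
theorem h11t_bval_of_mem (O : Subring F) (res : O →+* k) (M : AddSubgroup F) (a : O) :
    h11t_BVal O res M (a : F) (res a) :=
  ⟨a, rfl, by rw [sub_self]; exact M.zero_mem⟩

/-- uniqueness of the branch value (`M ∩ O ⊆ ker res`). -/
theorem h11t_bval_uniq (O : Subring F) (res : O →+* k) (M : AddSubgroup F)
    (hM : ∀ a : O, (a : F) ∈ M → res a = 0) {z : F} {c c' : k}
    (h : h11t_BVal O res M z c) (h' : h11t_BVal O res M z c') : c = c' := by
  obtain ⟨a, rfl, ha⟩ := h
  obtain ⟨a', rfl, ha'⟩ := h'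
  have h1 : ((a - a' : O) : F) ∈ M := by
    have : ((a - a' : O) : F) = (z - (a' : F)) - (z - (a : F)) := by push_cast; ring
    rw [this]
    exact M.sub_mem ha' ha
  have h2 := hM _ h1
  rw [map_sub] at h2
  exact sub_eq_zero.mp h2

/-- multiplicativity of the branch value (`M` an ideal of `V ≥ O`). -/
theorem h11t_bval_mul (O : Subring F) (res : O →+* k) (V : Subring F) (hOV : O ≤ V)
    (M : AddSubgroup F) (hVM : ∀ v ∈ V, ∀ x ∈ M, v * x ∈ M) {z z' : F} (hz : z ∈ V)
    {c c' : k} (h : h11t_BVal O res M z c) (h' : h11t_BVal O res M z' c') :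
    h11t_BVal O res M (z * z') (c * c') := by
  obtain ⟨a, rfl, ha⟩ := h
  obtain ⟨a', rfl, ha'⟩ := h'
  refine ⟨a * a', map_mul res a a', ?_⟩
  have : z * z' - ((a * a' : O) : F) = z * (z' - (a' : F)) + (a' : F) * (z - (a : F)) := by
    push_cast; ring
  rw [this]
  exact M.add_mem (hVM z hz _ ha') (hVM _ (hOV a'.2) _ ha)

end Def

section Norm

variable {F F' : Type*} [Field F] [Field F'] {k : Type*} [Field k]

/-- **Branch norm formula, separable branches.**  From the congruence form (TN1) of the norm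
formula and the generation (TN2) of the two branches `M₀`, `M₁` over `M'`. -/
theorem h11t_bnorm_sep
    (O : Subring F) (res : O →+* k) (M₀ M₁ : AddSubgroup F)
    (O' : Subring F') (res' : O' →+* k) (M' : AddSubgroup F')
    (ι : F' →+* F) (hι : ∀ a' : O', ι (a' : F') ∈ O)
    (hres : ∀ a' : O', res ⟨ι (a' : F'), hι a'⟩ = res' a')
    (hM₀ : ∀ a : O, (a : F) ∈ M₀ → res a = 0) (hM₁ : ∀ a : O, (a : F) ∈ M₁ → res a = 0)
    (Nm : F →* F') (r : ℕ)
    (TN1 : ∀ (z : F) (y₀ y₁ : O'), res' y₀ ≠ 0 → res' y₁ ≠ 0 →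
      z - ι (y₀ : F') ∈ M₀ → z - ι (y₁ : F') ∈ M₁ →
      Nm z - (y₀ : F') * (y₁ : F') ^ r ∈ M')
    (TN2₀ : ∀ a : O, ∃ a' : O', (a : F) - ι (a' : F') ∈ M₀)
    (TN2₁ : ∀ a : O, ∃ a' : O', (a : F) - ι (a' : F') ∈ M₁)
    (z : F) (c₀ c₁ : k) (hc₀ : c₀ ≠ 0) (hc₁ : c₁ ≠ 0)
    (h₀ : h11t_BVal O res M₀ z c₀) (h₁ : h11t_BVal O res M₁ z c₁) :
    h11t_BVal O' res' M' (Nm z) (c₀ * c₁ ^ r) := by
  obtain ⟨a₀, ha₀, hz₀⟩ := h₀
  obtain ⟨a₁, ha₁, hz₁⟩ := h₁
  obtain ⟨y₀, hy₀⟩ := TN2₀ a₀
  obtain ⟨y₁, hy₁⟩ := TN2₁ a₁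
  have key : ∀ (M : AddSubgroup F) (hM : ∀ a : O, (a : F) ∈ M → res a = 0) (a : O) (y : O'),
      (a : F) - ι (y : F') ∈ M → res' y = res a := by
    intro M hM a y hy
    have h1 : ((a - ⟨ι (y : F'), hι y⟩ : O) : F) ∈ M := by
      have : ((a - ⟨ι (y : F'), hι y⟩ : O) : F) = (a : F) - ι (y : F') := by push_cast; rfl
      rw [this]
      exact hy
    have h2 := hM _ h1
    rw [map_sub, hres] at h2
    exact (sub_eq_zero.mp h2).symm
  have e₀ : res' y₀ = c₀ := by rw [key M₀ hM₀ a₀ y₀ hy₀, ha₀]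
  have e₁ : res' y₁ = c₁ := by rw [key M₁ hM₁ a₁ y₁ hy₁, ha₁]
  have hzy₀ : z - ι (y₀ : F') ∈ M₀ := by
    have : z - ι (y₀ : F') = (z - (a₀ : F)) + ((a₀ : F) - ι (y₀ : F')) := by ring
    rw [this]
    exact M₀.add_mem hz₀ hy₀
  have hzy₁ : z - ι (y₁ : F') ∈ M₁ := by
    have : z - ι (y₁ : F') = (z - (a₁ : F)) + ((a₁ : F) - ι (y₁ : F')) := by ring
    rw [this]
    exact M₁.add_mem hz₁ hy₁
  refine ⟨y₀ * y₁ ^ r, by rw [map_mul, map_pow, e₀, e₁], ?_⟩
  have := TN1 z y₀ y₁ (by rw [e₀]; exact hc₀) (by rw [e₁]; exact hc₁) hzy₀ hzy₁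
  simpa using this

/-- **Branch norm formula, purely inseparable branch.** -/
theorem h11t_bnorm_insep
    (O : Subring F) (res : O →+* k) (V : Subring F) (hOV : O ≤ V)
    (M : AddSubgroup F) (hVM : ∀ v ∈ V, ∀ x ∈ M, v * x ∈ M)
    (O' : Subring F') (res' : O' →+* k) (M' : AddSubgroup F')
    (ι : F' →+* F) (hι : ∀ a' : O', ι (a' : F') ∈ O)
    (hres : ∀ a' : O', res ⟨ι (a' : F'), hι a'⟩ = res' a')
    (hM : ∀ a : O, (a : F) ∈ M → res a = 0)
    (Nm : F →* F') (q : ℕ)
    (TN1 : ∀ (z : F) (y : O'), res' y ≠ 0 → z ^ q - ι (y : F') ∈ M → Nm z - (y : F') ∈ M')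
    (TN2 : ∀ a : O, ∃ a' : O', (a : F) ^ q - ι (a' : F') ∈ M)
    (z : F) (hzV : z ∈ V) (c : k) (hc : c ≠ 0) (h : h11t_BVal O res M z c) :
    h11t_BVal O' res' M' (Nm z) (c ^ q) := by
  obtain ⟨a, ha, hz⟩ := h
  obtain ⟨y, hy⟩ := TN2 a
  have e : res' y = c ^ q := by
    have h1 : ((a ^ q - ⟨ι (y : F'), hι y⟩ : O) : F) ∈ M := by
      have : ((a ^ q - ⟨ι (y : F'), hι y⟩ : O) : F) = (a : F) ^ q - ι (y : F') := by
        push_cast; rfl
      rw [this]
      exact hy
    have h2 := hM _ h1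
    rw [map_sub, map_pow, hres, ha] at h2
    exact (sub_eq_zero.mp h2).symm
  -- `z ^ q ≡ a ^ q`
  have hpow : z ^ q - (a : F) ^ q ∈ M := by
    have h1 := (Commute.all z (a : F)).mul_geom_sum₂ q
    rw [← h1, mul_comm]
    refine hVM _ ?_ _ hz
    refine Subring.sum_mem V fun i _ => ?_
    exact V.mul_mem (V.pow_mem hzV _) (V.pow_mem (hOV a.2) _)
  have hzy : z ^ q - ι (y : F') ∈ M := by
    have : z ^ q - ι (y : F') = (z ^ q - (a : F) ^ q) + ((a : F) ^ q - ι (y : F')) := by ring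
    rw [this]
    exact M.add_mem hpow hy
  exact ⟨y, e, TN1 z y (by rw [e]; exact pow_ne_zero q hc) hzy⟩

end Norm

section Gen

variable {F : Type*} [Field F]

/-- **(TN2), separable branch**, from `O = O'[Z]` and `Z ≡ z'` modulo `M`: every element of `O`
is congruent modulo `M` to an element of `O'`.  Here `O'` is a subring of `F` (the image of the
local ring of level `q M'`), `hgen` says that `O` is generated over `O'` by `Z`, in the form of
an induction principle. -/
theorem h11t_gen_sep (O O' V : Subring F) (hO'O : O' ≤ O) (hOV : O ≤ V)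
    (M : AddSubgroup F) (hVM : ∀ v ∈ V, ∀ x ∈ M, v * x ∈ M)
    (Z : F) (hZ : Z ∈ O) (z' : F) (hz' : z' ∈ O') (hZz : Z - z' ∈ M)
    (hgen : ∀ a ∈ O, a ∈ Subring.closure ((O' : Set F) ∪ {Z})) :
    ∀ a ∈ O, ∃ a' ∈ O', a - a' ∈ M := by
  intro a ha
  have hcl := hgen a ha
  induction hcl using Subring.closure_induction with
  | mem x hx =>
    rcases hx with hx | hx
    · exact ⟨x, hx, by rw [sub_self]; exact M.zero_mem⟩
    · rw [Set.mem_singleton_iff] at hx
      subst hx
      exact ⟨z', hz', hZz⟩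
  | zero => exact ⟨0, O'.zero_mem, by rw [sub_self]; exact M.zero_mem⟩
  | one => exact ⟨1, O'.one_mem, by rw [sub_self]; exact M.zero_mem⟩
  | add x y hx hy ihx ihy =>
    have hxO : x ∈ O := by
      refine (Subring.closure_le.mpr ?_) hx
      rintro t (ht | ht)
      · exact hO'O ht
      · rw [Set.mem_singleton_iff] at ht; rw [ht]; exact hZ
    have hyO : y ∈ O := by
      refine (Subring.closure_le.mpr ?_) hy
      rintro t (ht | ht)
      · exact hO'O ht
      · rw [Set.mem_singleton_iff] at ht; rw [ht]; exact hZ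
    obtain ⟨x', hx', hxx⟩ := ihx hxO
    obtain ⟨y', hy', hyy⟩ := ihy hyO
    refine ⟨x' + y', O'.add_mem hx' hy', ?_⟩
    have : x + y - (x' + y') = (x - x') + (y - y') := by ring
    rw [this]
    exact M.add_mem hxx hyy
  | neg x hx ihx =>
    have hxO : x ∈ O := by
      refine (Subring.closure_le.mpr ?_) hx
      rintro t (ht | ht)
      · exact hO'O ht
      · rw [Set.mem_singleton_iff] at ht; rw [ht]; exact hZ
    obtain ⟨x', hx', hxx⟩ := ihx hxO
    refine ⟨-x', O'.neg_mem hx', ?_⟩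
    have : -x - -x' = -(x - x') := by ring
    rw [this]
    exact M.neg_mem hxx
  | mul x y hx hy ihx ihy =>
    have hxO : x ∈ O := by
      refine (Subring.closure_le.mpr ?_) hx
      rintro t (ht | ht)
      · exact hO'O ht
      · rw [Set.mem_singleton_iff] at ht; rw [ht]; exact hZ
    have hyO : y ∈ O := by
      refine (Subring.closure_le.mpr ?_) hy
      rintro t (ht | ht)
      · exact hO'O ht
      · rw [Set.mem_singleton_iff] at ht; rw [ht]; exact hZ
    obtain ⟨x', hx', hxx⟩ := ihx hxO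
    obtain ⟨y', hy', hyy⟩ := ihy hyO
    refine ⟨x' * y', O'.mul_mem hx' hy', ?_⟩
    have : x * y - x' * y' = x * (y - y') + y' * (x - x') := by ring
    rw [this]
    exact M.add_mem (hVM x (hOV hxO) _ hyy) (hVM y' (hOV (hO'O hy')) _ hxx)

/-- **(TN2), purely inseparable branch**, from `O = O'[Z]`, `q ∈ M` and `Z ^ q ≡ z'` modulo `M`:
the `q`-th power of every element of `O` is congruent modulo `M` to an element of `O'`. -/
theorem h11t_gen_insep (O O' V : Subring F) (hO'O : O' ≤ O) (hOV : O ≤ V)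
    (M : AddSubgroup F) (hVM : ∀ v ∈ V, ∀ x ∈ M, v * x ∈ M)
    (q : ℕ) (hq : q.Prime) (hqM : (q : F) ∈ M)
    (Z : F) (hZ : Z ∈ O) (z' : F) (hz' : z' ∈ O') (hZz : Z ^ q - z' ∈ M)
    (hgen : ∀ a ∈ O, a ∈ Subring.closure ((O' : Set F) ∪ {Z})) :
    ∀ a ∈ O, ∃ a' ∈ O', a ^ q - a' ∈ M := by
  have hq0 : q ≠ 0 := hq.ne_zero
  have hcl_le : Subring.closure ((O' : Set F) ∪ {Z}) ≤ O := by
    refine Subring.closure_le.mpr ?_
    rintro t (ht | ht)
    · exact hO'O ht
    · rw [Set.mem_singleton_iff] at ht; rw [ht]; exact hZ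
  intro a ha
  have hcl := hgen a ha
  induction hcl using Subring.closure_induction with
  | mem x hx =>
    rcases hx with hx | hx
    · exact ⟨x ^ q, O'.pow_mem hx q, by rw [sub_self]; exact M.zero_mem⟩
    · rw [Set.mem_singleton_iff] at hx
      subst hx
      exact ⟨z', hz', hZz⟩
  | zero =>
    exact ⟨0, O'.zero_mem, by rw [zero_pow hq0, sub_self]; exact M.zero_mem⟩
  | one => exact ⟨1, O'.one_mem, by rw [one_pow, sub_self]; exact M.zero_mem⟩
  | add x y hx hy ihx ihy =>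
    have hxO : x ∈ O := hcl_le hx
    have hyO : y ∈ O := hcl_le hy
    obtain ⟨x', hx', hxx⟩ := ihx hxO
    obtain ⟨y', hy', hyy⟩ := ihy hyO
    refine ⟨x' + y', O'.add_mem hx' hy', ?_⟩
    obtain ⟨r, hr⟩ := exists_add_pow_prime_eq hq (⟨x, hOV hxO⟩ : V) ⟨y, hOV hyO⟩
    have hr' := congrArg (Subtype.val : V → F) hr
    push_cast at hr'
    have : (x + y) ^ q - (x' + y') =
        (x ^ q - x') + (y ^ q - y') + (x * y * (r : F)) * (q : F) := by
      rw [hr']; ring
    rw [this]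
    refine M.add_mem (M.add_mem hxx hyy) (hVM _ ?_ _ hqM)
    exact V.mul_mem (V.mul_mem (hOV hxO) (hOV hyO)) r.2
  | neg x hx ihx =>
    have hxO : x ∈ O := hcl_le hx
    obtain ⟨x', hx', hxx⟩ := ihx hxO
    refine ⟨(-1) ^ q * x', O'.mul_mem (O'.pow_mem (O'.neg_mem O'.one_mem) q) hx', ?_⟩
    have : (-x) ^ q - (-1) ^ q * x' = (-1) ^ q * (x ^ q - x') := by
      rw [neg_pow]; ring
    rw [this]
    exact hVM _ (V.pow_mem (V.neg_mem V.one_mem) q) _ hxx
  | mul x y hx hy ihx ihy =>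
    have hxO : x ∈ O := hcl_le hx
    have hyO : y ∈ O := hcl_le hy
    obtain ⟨x', hx', hxx⟩ := ihx hxO
    obtain ⟨y', hy', hyy⟩ := ihy hyO
    refine ⟨x' * y', O'.mul_mem hx' hy', ?_⟩
    have : (x * y) ^ q - x' * y' = x ^ q * (y ^ q - y') + y' * (x ^ q - x') := by
      rw [mul_pow]; ring
    rw [this]
    exact M.add_mem (hVM _ (V.pow_mem (hOV hxO) q) _ hyy) (hVM y' (hOV (hO'O hy')) _ hxx)

end Gen

end Fermat.Agent.S36
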