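import Fermat.Agent.S36.H11TorSkel
import Fermat.Agent.Red.ModelO.ValCrit

/-!
# S36, row T-NORMAL (helper36, prefix `h36tn_`)

`h36tn_torNormal : H11TorNormal` — the chart `j` of level `M q` is root closed in `F₀'`:
`modelAt` is root closed in `FF N` (`h85_modelAt_root_closed`, valuative criterion).
The statement is proved for every chart `h92c_Chart A N t` (`h36tn_chart_root_closed`).
-/

set_option autoImplicit false
set_option linter.style.haveILetI false

open AlgebraicCurve ModularCurve

noncomputable section

namespace Fermat.Agent.S36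

open Fermat.Agent.S37 (Kbar GQ FF cst jB gal modelAt degen auxLevel)

/-- every chart `B₀(t)` is root closed in `F₀`. -/
theorem h36tn_chart_root_closed (N : ℕ) (A : ValuationSubring Kbar) (t : FF N) (m : ℕ)
    (hm : 0 < m) (x : FF N) (hxF : x ∈ h92c_F0 A N) (hx : x ^ m ∈ h92c_Chart A N t) :
    x ∈ h92c_Chart A N t :=
  ⟨Fermat.Agent.Red.ModelO.h85_modelAt_root_closed N A t hm.ne' hx.1, hxF⟩

/-- **T-NORMAL.** -/
theorem h36tn_torNormal : H11TorNormal := by
  intro q hq M _ _ _
  haveI : NeZero q := ⟨hq.ne_zero⟩
  intro A _ m hm x hxF hx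
  exact h36tn_chart_root_closed (M * q) A (jB (M * q)) m hm x hxF hx

end Fermat.Agent.S36
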