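import Fermat.Agent.S36.H88VExact
import Fermat.Agent.S36.H85MidAll

/-!
# S36, block (V): rows V-INT, V-EXACT (forward), VN-L1 closed (helper88)

* `h88v_int : H74Int` (exact frozen Prop of `S36/H74VIface.lean`);
* `h88v_vcomplete_final : H20VComplete` (exact frozen Prop of `S36/H20VertSkel.lean`).
-/

set_option autoImplicit false

namespace Fermat.Agent.S36

/-- **V-INT.** -/
theorem h88v_int : H74Int := h88v_int_of_exact h88v_exact

/-- **VN-L1 (V-COMPLETE).** -/
theorem h88v_vcomplete_final : H20VComplete := h88v_vcomplete h85m_midAll h88v_int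

end Fermat.Agent.S36
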