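import Fermat.Agent.S36.H75TorUQ
import Fermat.Agent.S36.H88VFinal

/-!
# S36, row T-UQ (helper75): `H11TorUQ`, unconditional

`h75q_torUQ_final : H11TorUQ` = `h75q_torUQ` applied to the landed V-COMPLETE
(`h88v_vcomplete_final`, helper88).
-/

set_option autoImplicit false

namespace Fermat.Agent.S36

/-- **T-UQ**, unconditional. -/
theorem h75q_torUQ_final : H11TorUQ := h75q_torUQ h88v_vcomplete_final

end Fermat.Agent.S36
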