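import Fermat.Agent.S36.H11TorAsm
import Fermat.Agent.S36.H78TorBasic
import Fermat.Agent.S36.H36TNormal
import Fermat.Agent.S36.H81TorGlob
import Fermat.Agent.S36.H27TorTwist
import Fermat.Agent.S36.H75TorUQFinal

/-!
# S36, row L-TOR: wiring of the landed leaves (helper11, prefix `h11w_`)

`H11LocTor` from the five leaves which are still open (`H11TorRoot`, `H11TorPt`, `H11TorNormA`,
`H11TorNormB`, `H11TorUnit`); the other five are theorems:
`h78b_torBasic`, `h36tn_torNormal`, `h81t_torGlob`, `h27t_torTwist`, `h75q_torUQ_final`.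
-/

set_option autoImplicit false

namespace Fermat.Agent.S36

/-- **L-TOR** from the five open leaves. -/
theorem h11w_locTor_of (hR : H11TorRoot) (hP : H11TorPt) (hNA : H11TorNormA)
    (hNB : H11TorNormB) (hU : H11TorUnit) : H11LocTor :=
  h11t_locTor_of h78b_torBasic hR hP hNA hNB hU h36tn_torNormal h81t_torGlob h27t_torTwist
    h75q_torUQ_final

end Fermat.Agent.S36
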