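import Mathlib

/-!
# S36 / REG (helper12): the elementary factoriality lemma (Mathlib only)

Route memo #991 (helper92), step (3): the local rings of the level-`q²` chart are shown to be
factorial WITHOUT Auslander–Buchsbaum, by the following elementary lemma.

Let `O` be a commutative ring, `x` an element of its Jacobson radical (e.g. `O` local,
`x ∈ 𝔪`) and `P` a finitely generated prime ideal with `x ∉ P` (e.g. `O` noetherian).
If the image of `P` in `O ⧸ (x)` is principal (e.g. `O ⧸ (x)` is a DVR or any principal ideal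
ring), then `P` is principal: `P = (f)` for every `f ∈ P` whose image generates the image
of `P`.

Consequences:
* `h12f_isPrincipal_of_quotient` : the lemma (hypothesis on the quotient ring as a whole);
* `h12f_ufd` : a noetherian local domain `O` with `0 ≠ x ∈ 𝔪`, `(x)` prime and `O ⧸ (x)` a
  principal ideal ring is a unique factorization domain (Kaplansky's criterion);
* `h12f_exists_factor` : in such a ring every nonzero prime ideal is principal, generated by
  a prime element.
-/

set_option autoImplicit false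
set_option linter.unusedSectionVars false

open Ideal

namespace Fermat.Agent.S36

variable {O : Type*} [CommRing O]

/-- **Elementary lemma (Nakayama form).**  `x` in the Jacobson radical, `P` a finitely generated
prime not containing `x`, `f ∈ P` such that `P ≤ (f) + (x)`: then `P = (f)`. -/
theorem h12f_eq_span_of_le_sup {x f : O} (hx : x ∈ jacobson (⊥ : Ideal O)) {P : Ideal O}
    [hP : P.IsPrime] (hfg : P.FG) (hxP : x ∉ P) (hf : f ∈ P)
    (hle : P ≤ span {f} ⊔ span {x}) : P = span {f} := by
  refine le_antisymm ?_ ((span_singleton_le_iff_mem P).2 hf)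
  have hIJ : span {x} ≤ jacobson (⊥ : Ideal O) := (span_singleton_le_iff_mem _).2 hx
  refine Submodule.le_of_le_smul_of_le_jacobson_bot (I := span {x}) (N := span {f}) (N' := P)
    hfg hIJ ?_
  intro g hg
  obtain ⟨a, ha, b, hb, hab⟩ := Submodule.mem_sup.1 (hle hg)
  obtain ⟨c, rfl⟩ := mem_span_singleton'.1 hb
  -- `c * x = g - a ∈ P`, hence `c ∈ P`
  have haP : a ∈ P := (span_singleton_le_iff_mem P).2 hf ha
  have hcx : c * x ∈ P := by
    have : c * x = g - a := by rw [← hab]; ring
    rw [this]
    exact P.sub_mem hg haP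
  have hc : c ∈ P := (hP.mem_or_mem hcx).resolve_right hxP
  refine Submodule.mem_sup.2 ⟨a, ha, c * x, ?_, hab⟩
  rw [mul_comm]
  exact Submodule.smul_mem_smul (mem_span_singleton_self x) hc

/-- **Elementary lemma.**  If the image of `P` in `O ⧸ (x)` is a principal ideal, then `P` is
principal. -/
theorem h12f_isPrincipal_of_map {x : O} (hx : x ∈ jacobson (⊥ : Ideal O)) {P : Ideal O}
    [P.IsPrime] (hfg : P.FG) (hxP : x ∉ P)
    (hmap : (P.map (Ideal.Quotient.mk (span {x}))).IsPrincipal) : P.IsPrincipal := by
  obtain ⟨g, hg⟩ := hmap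
  -- a generator of the image which is the image of an element of `P`
  have hgmem : g ∈ P.map (Ideal.Quotient.mk (span {x})) := by
    rw [hg]
    exact Submodule.mem_span_singleton_self g
  rw [Ideal.mem_map_iff_of_surjective _ Ideal.Quotient.mk_surjective] at hgmem
  obtain ⟨f, hf, rfl⟩ := hgmem
  refine ⟨f, ?_⟩
  change P = span {f}
  refine h12f_eq_span_of_le_sup hx hfg hxP hf ?_
  intro a ha
  have h1 : Ideal.Quotient.mk (span {x}) a ∈ P.map (Ideal.Quotient.mk (span {x})) :=
    Ideal.mem_map_of_mem _ ha
  rw [hg] at h1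
  obtain ⟨c, hc⟩ := Submodule.mem_span_singleton.1 h1
  obtain ⟨c', rfl⟩ := Ideal.Quotient.mk_surjective c
  have h2 : Ideal.Quotient.mk (span {x}) (a - c' * f) = 0 := by
    rw [map_sub, map_mul, ← hc, smul_eq_mul, sub_self]
  rw [Ideal.Quotient.eq_zero_iff_mem] at h2
  refine Submodule.mem_sup.2 ⟨c' * f, ?_, a - c' * f, h2, by ring⟩
  exact Ideal.mul_mem_left _ _ (mem_span_singleton_self f)

/-- **Elementary lemma**, quotient a principal ideal ring. -/
theorem h12f_isPrincipal_of_quotient {x : O} (hx : x ∈ jacobson (⊥ : Ideal O))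
    [IsPrincipalIdealRing (O ⧸ span {x})] {P : Ideal O} [P.IsPrime] (hfg : P.FG)
    (hxP : x ∉ P) : P.IsPrincipal :=
  h12f_isPrincipal_of_map hx hfg hxP (IsPrincipalIdealRing.principal _)

section Domain

variable [IsDomain O]

/-- every nonzero prime ideal contains a prime element. -/
theorem h12f_exists_prime_mem [IsNoetherianRing O] {x : O}
    (hx : x ∈ jacobson (⊥ : Ideal O)) (hx0 : x ≠ 0) (hxp : (span {x} : Ideal O).IsPrime)
    [IsPrincipalIdealRing (O ⧸ span {x})] (P : Ideal O) (hP0 : P ≠ ⊥) (hP : P.IsPrime) :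
    ∃ y ∈ P, Prime y := by
  by_cases hxP : x ∈ P
  · exact ⟨x, hxP, (span_singleton_prime hx0).1 hxp⟩
  · obtain ⟨f, hf⟩ := h12f_isPrincipal_of_quotient hx (IsNoetherian.noetherian P) hxP
    change P = span {f} at hf
    have hf0 : f ≠ 0 := by
      rintro rfl
      apply hP0
      rw [hf]
      exact span_singleton_eq_bot.2 rfl
    refine ⟨f, by rw [hf]; exact mem_span_singleton_self f, ?_⟩
    rw [← span_singleton_prime hf0, ← hf]
    exact hP

/-- **Factoriality.**  A noetherian domain `O` with `x ≠ 0` in the Jacobson radical, `(x)` prime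
and `O ⧸ (x)` a principal ideal ring (e.g. a DVR) is a unique factorization domain. -/
theorem h12f_ufd [IsNoetherianRing O] {x : O} (hx : x ∈ jacobson (⊥ : Ideal O)) (hx0 : x ≠ 0)
    (hxp : (span {x} : Ideal O).IsPrime) [IsPrincipalIdealRing (O ⧸ span {x})] :
    UniqueFactorizationMonoid O :=
  UniqueFactorizationMonoid.iff_exists_prime_mem_of_isPrime.2
    fun P hP0 hP => h12f_exists_prime_mem hx hx0 hxp P hP0 hP

/-- local form: `x` in the maximal ideal of a noetherian local domain. -/
theorem h12f_ufd_local [IsNoetherianRing O] [IsLocalRing O] {x : O}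
    (hx : x ∈ IsLocalRing.maximalIdeal O) (hx0 : x ≠ 0) (hxp : (span {x} : Ideal O).IsPrime)
    [IsPrincipalIdealRing (O ⧸ span {x})] : UniqueFactorizationMonoid O :=
  h12f_ufd (by rwa [IsLocalRing.jacobson_eq_maximalIdeal ⊥ bot_ne_top]) hx0 hxp

end Domain

end Fermat.Agent.S36
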