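import Mathlib
import Fermat.Agent.S36.H53DescIface
import Fermat.Agent.S37.Inertia

/-!
# S36, block (D) DESCENT, leaf D-GEN (helper24): `DescGen`

`h24g_descGen : DescGen` : for every subgroup `I` of `G_ℚ`, every `I`-invariant function
`f ∈ FF N` is a finite sum `∑ cᵢ eᵢ` with `I`-invariant constants `cᵢ ∈ ℚ̄` and functions `eᵢ`
with rational `q`-expansion.

Steps:
* `h24g_mem_span` : `FF N` is the `ℚ̄`-span of the rational functions (the span is a subring,
  algebraic over the field of rational functions because `ℚ̄/ℚ` is algebraic, hence a field);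
* choose a `ℚ̄`-linearly independent family of rational functions spanning the same space; the
  coefficients of an invariant `f` in this family are invariant.
-/

set_option autoImplicit false
set_option linter.style.haveILetI false

open AlgebraicCurve ModularCurve

noncomputable section

namespace Fermat.Agent.S36

open Fermat.Agent.S37 (Kbar GQ FF cst gal IsRat)

section Span

variable (F₀ : IntermediateField ℚ (LaurentSeries ℚ))

/-- the series with rational coefficients coming from `F₀`. -/
def h24g_rat : Set (LaurentSeries Kbar) := ⇑(coeffEmb Kbar) '' (F₀ : Set (LaurentSeries ℚ))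

/-- the embedding of `F₀` into `ℚ̄((q))`. -/
def h24g_emb : F₀ →+* LaurentSeries Kbar :=
  (coeffEmb Kbar).comp (algebraMap F₀ (LaurentSeries ℚ))

theorem h24g_emb_mem (y : F₀) : h24g_emb F₀ y ∈ h24g_rat F₀ := ⟨y, y.2, rfl⟩

theorem h24g_one_mem : (1 : LaurentSeries Kbar) ∈ h24g_rat F₀ :=
  ⟨1, F₀.one_mem, map_one _⟩

theorem h24g_mul_mem {x y : LaurentSeries Kbar} (hx : x ∈ h24g_rat F₀) (hy : y ∈ h24g_rat F₀) :
    x * y ∈ h24g_rat F₀ := by
  obtain ⟨a, ha, rfl⟩ := hx
  obtain ⟨b, hb, rfl⟩ := hy
  exact ⟨a * b, F₀.mul_mem ha hb, map_mul _ _ _⟩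

/-- constants are integral over `F₀`. -/
theorem h24g_isIntegral_const (c : Kbar) :
    (h24g_emb F₀).IsIntegralElem (algebraMap Kbar (LaurentSeries Kbar) c) := by
  have hc : IsIntegral ℚ c := (AlgebraicClosure.isAlgebraic ℚ).isIntegral.isIntegral c
  obtain ⟨p, hp, hpc⟩ := hc
  refine ⟨p.map (algebraMap ℚ F₀), hp.map _, ?_⟩
  rw [Polynomial.eval₂_map]
  have h1 : (h24g_emb F₀).comp (algebraMap ℚ F₀) =
      (algebraMap Kbar (LaurentSeries Kbar)).comp (algebraMap ℚ Kbar) := Subsingleton.elim _ _
  rw [h1, ← Polynomial.hom_eval₂, hpc, map_zero]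

/-- scalar multiplication by a constant is multiplication by the constant series. -/
theorem h24g_smul_eq (c : Kbar) (x : LaurentSeries Kbar) :
    c • x = algebraMap Kbar (LaurentSeries Kbar) c * x := by
  rw [algebraMap_laurentSeries_eq_single, ← HahnSeries.C_apply, HahnSeries.C_mul_eq_smul]

/-- the `ℚ̄`-span of the rational series is closed under multiplication. -/
theorem h24g_span_mul {x y : LaurentSeries Kbar}
    (hx : x ∈ Submodule.span Kbar (h24g_rat F₀)) (hy : y ∈ Submodule.span Kbar (h24g_rat F₀)) :
    x * y ∈ Submodule.span Kbar (h24g_rat F₀) := by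
  induction hx using Submodule.span_induction with
  | mem x hxs =>
      induction hy using Submodule.span_induction with
      | mem y hys => exact Submodule.subset_span (h24g_mul_mem F₀ hxs hys)
      | zero => rw [mul_zero]; exact Submodule.zero_mem _
      | add y z _ _ ihy ihz => rw [mul_add]; exact Submodule.add_mem _ ihy ihz
      | smul a y _ ih =>
          have h : x * (a • y) = a • (x * y) := by
            rw [h24g_smul_eq, h24g_smul_eq]; ring
          rw [h]
          exact Submodule.smul_mem _ _ ih
  | zero => rw [zero_mul]; exact Submodule.zero_mem _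
  | add x z _ _ ihx ihz => rw [add_mul]; exact Submodule.add_mem _ ihx ihz
  | smul a x _ ih =>
      have h : (a • x) * y = a • (x * y) := by
        rw [h24g_smul_eq, h24g_smul_eq]; ring
      rw [h]
      exact Submodule.smul_mem _ _ ih

theorem h24g_const_mem_span (c : Kbar) :
    algebraMap Kbar (LaurentSeries Kbar) c ∈ Submodule.span Kbar (h24g_rat F₀) := by
  have h : algebraMap Kbar (LaurentSeries Kbar) c = c • (1 : LaurentSeries Kbar) := by
    rw [h24g_smul_eq, mul_one]
  rw [h]
  exact Submodule.smul_mem _ _ (Submodule.subset_span (h24g_one_mem F₀))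

/-- **The function field is the `ℚ̄`-span of the rational functions.** -/
theorem h24g_mem_span {x : LaurentSeries Kbar} (hx : x ∈ laurentBaseChange Kbar F₀) :
    x ∈ Submodule.span Kbar (h24g_rat F₀) := by
  letI : Algebra F₀ (LaurentSeries Kbar) := (h24g_emb F₀).toAlgebra
  -- the `F₀`-subalgebra generated by the constants
  set A : Subalgebra F₀ (LaurentSeries Kbar) :=
    Algebra.adjoin F₀ (Set.range (algebraMap Kbar (LaurentSeries Kbar))) with hA
  have hint : A ≤ integralClosure F₀ (LaurentSeries Kbar) := by
    refine Algebra.adjoin_le ?_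
    rintro _ ⟨c, rfl⟩
    exact h24g_isIntegral_const F₀ c
  have hinv : ∀ y ∈ A, y⁻¹ ∈ A := by
    intro y hy
    have h1 : IsIntegral F₀ y := hint hy
    exact Subalgebra.inv_mem_of_algebraic A (x := ⟨y, hy⟩) h1.isAlgebraic
  -- the function field is contained in `A`
  have hxA : x ∈ A := by
    rw [mem_laurentBaseChange_iff] at hx
    induction hx using Subfield.closure_induction with
    | mem y hy =>
        rcases hy with ⟨a, rfl⟩ | ⟨z, hz, rfl⟩
        · exact Algebra.subset_adjoin ⟨a, rfl⟩
        · exact A.algebraMap_mem ⟨z, hz⟩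
    | one => exact A.one_mem
    | add y z _ _ hy hz => exact A.add_mem hy hz
    | neg y _ hy => exact A.neg_mem hy
    | inv y _ hy => exact hinv y hy
    | mul y z _ _ hy hz => exact A.mul_mem hy hz
  -- `A` is contained in the span
  clear hx
  induction hxA using Algebra.adjoin_induction with
  | mem y hy =>
      obtain ⟨c, rfl⟩ := hy
      exact h24g_const_mem_span F₀ c
  | algebraMap r => exact Submodule.subset_span (h24g_emb_mem F₀ r)
  | add y z _ _ hy hz => exact Submodule.add_mem _ hy hz
  | mul y z _ _ hy hz => exact h24g_span_mul F₀ hy hz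

/-- the coefficientwise action is semilinear. -/
theorem h24g_coeffMap_smul (σ : GQ) (c : Kbar) (x : LaurentSeries Kbar) :
    coeffMap (σ : Kbar →+* Kbar) (c • x) = σ c • coeffMap (σ : Kbar →+* Kbar) x := by
  rw [h24g_smul_eq, h24g_smul_eq, map_mul, coeffMap_algebraMap]
  rfl

/-- the coefficientwise action fixes the rational series. -/
theorem h24g_coeffMap_rat (σ : GQ) {x : LaurentSeries Kbar} (hx : x ∈ h24g_rat F₀) :
    coeffMap (σ : Kbar →+* Kbar) x = x := by
  obtain ⟨y, -, rfl⟩ := hx
  exact coeffMap_coeffEmb σ y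

/-- **Descent of the coefficients**: a series of the function field fixed by a set of
automorphisms is a combination of linearly independent rational series with fixed
coefficients. -/
theorem h24g_exists_fixed_comb (I : Set GQ) {x : LaurentSeries Kbar}
    (hx : x ∈ laurentBaseChange Kbar F₀)
    (hfix : ∀ σ ∈ I, coeffMap (σ : Kbar →+* Kbar) x = x) :
    ∃ (b : Set (LaurentSeries Kbar)) (l : ↥b →₀ Kbar), b ⊆ h24g_rat F₀ ∧
      (∀ i, ∀ σ ∈ I, σ (l i) = l i) ∧
      (l.sum fun i a => a • (i : LaurentSeries Kbar)) = x := by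
  classical
  obtain ⟨b, hbS, hspan, hli⟩ := exists_linearIndependent Kbar (h24g_rat F₀)
  have hxspan : x ∈ Submodule.span Kbar (Set.range ((↑) : ↥b → LaurentSeries Kbar)) := by
    rw [Subtype.range_coe, hspan]
    exact h24g_mem_span F₀ hx
  obtain ⟨l, hl⟩ := Finsupp.mem_span_range_iff_exists_finsupp.1 hxspan
  refine ⟨b, l, hbS, ?_, hl⟩
  intro i σ hσ
  -- the transformed coefficients
  have hmap : (Finsupp.mapRange (σ : Kbar → Kbar) (map_zero σ) l).sum
      (fun i a => a • (i : LaurentSeries Kbar)) = x := by
    rw [Finsupp.sum_mapRange_index (h := fun (i : ↥b) (a : Kbar) => a • (i : LaurentSeries Kbar))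
      (fun i => zero_smul Kbar (i : LaurentSeries Kbar))]
    conv_rhs => rw [← hfix σ hσ, ← hl]
    rw [Finsupp.sum, Finsupp.sum, map_sum]
    refine Finset.sum_congr rfl fun j _ => ?_
    rw [h24g_coeffMap_smul, h24g_coeffMap_rat F₀ σ (hbS j.2)]
  have heq : Finsupp.mapRange (σ : Kbar → Kbar) (map_zero σ) l = l := by
    apply hli
    rw [Finsupp.linearCombination_apply, Finsupp.linearCombination_apply, hmap, hl]
  have := DFunLike.congr_fun heq i
  rwa [Finsupp.mapRange_apply] at this

end Span

/-- **D-GEN.** -/
theorem h24g_descGen : DescGen := by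
  classical
  intro N _ I f hf
  have hfix : ∀ σ ∈ (I : Set GQ), coeffMap (σ : Kbar →+* Kbar) (f : LaurentSeries Kbar)
      = (f : LaurentSeries Kbar) := by
    intro σ hσ
    have h := congrArg Subtype.val (hf σ hσ)
    rwa [coe_arithmeticGalois_smul] at h
  obtain ⟨b, l, hbS, hl1, hl2⟩ :=
    h24g_exists_fixed_comb (modularFunctionFieldFull N) (I : Set GQ) f.2 hfix
  -- the members of `b` as elements of the function field
  have hmem : ∀ i : ↥b, (i : LaurentSeries Kbar) ∈ modularFunctionFieldBar N := by
    intro i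
    obtain ⟨y, hy, hyi⟩ := hbS i.2
    rw [← hyi]
    exact coeffEmb_mem_laurentBaseChange Kbar hy
  refine ⟨l.support.card, fun j => l (l.support.equivFin.symm j).1,
    fun j => ⟨((l.support.equivFin.symm j).1 : LaurentSeries Kbar), hmem _⟩, ?_, ?_, ?_⟩
  · intro j σ hσ
    exact hl1 _ σ hσ
  · intro j
    obtain ⟨y, hy, hyi⟩ := hbS (l.support.equivFin.symm j).1.2
    exact ⟨y, hy, hyi⟩
  · apply Subtype.ext
    rw [← hl2, Finsupp.sum]
    have h1 : ((∑ j : Fin l.support.card, cst N (l (l.support.equivFin.symm j).1) *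
        (⟨((l.support.equivFin.symm j).1 : LaurentSeries Kbar), hmem _⟩ : FF N) : FF N) :
          LaurentSeries Kbar)
        = ∑ j : Fin l.support.card, l (l.support.equivFin.symm j).1 •
            ((l.support.equivFin.symm j).1 : LaurentSeries Kbar) := by
      rw [← IntermediateField.coe_val, map_sum]
      refine Finset.sum_congr rfl fun j _ => ?_
      rw [h24g_smul_eq, map_mul]
      rfl
    rw [h1, ← Finset.sum_coe_sort l.support]
    exact (Equiv.sum_comp l.support.equivFin.symm
      (fun i : ↥l.support => l i.1 • ((i.1 : ↥b) : LaurentSeries Kbar))).symm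

end Fermat.Agent.S36
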