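import Mathlib
import Fermat.Agent.S36.H62RegIface
import Fermat.Agent.S36.H24DescGen
import Fermat.Agent.PT.Glob.H55InertVal
import Fermat.Agent.LGC.H57Teich
import Fermat.Agent.Red.GV.SoftGal
import Fermat.Agent.Red.GV.SoftRat

/-!
# S36, block REG, row R-REDISO (part 1): the Gauss valuation is `ℤ`-valued on `F₀ = F^I`

`A` a valuation subring of `ℚ̄` over the prime `q`, `I = A.inertiaSubgroupIn ℚ`, `N` ANY level.

* `h12r_fixed_scale` : a nonzero function `x ∈ FF N` fixed by `I` is `q ^ n` times a unit of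
  the Gauss valuation ring `softV A N` (the value group of the `q`-expansion Gauss valuation on
  `F₀` is `q ^ ℤ`).
* `h12r_fixed_div_mem` : an `I`-fixed function which is a non-unit of `softV A N` is divisible
  by `q` in `softV A N`.

Proof: `x` is a combination of rational series with `I`-fixed coefficients (`h24g_exists_fixed_comb`),
hence a fraction `u / v` of discrete series with `I`-fixed coefficients; the Gauss norms of `u`
and `v` are attained at coefficients, which are `I`-fixed, hence of the form `q ^ n · unit`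
(`h55v_kInertVal`).

Author: helper12.
-/

set_option autoImplicit false
set_option linter.unusedSectionVars false
set_option linter.style.haveILetI false

open AlgebraicCurve ModularCurve

noncomputable section

namespace Fermat.Agent.S36

open Fermat.Agent.S37 (Kbar GQ FF cst gal IsRat)
open Fermat.Agent.Red.GV Fermat.Agent.Red.GV.Soft
open Fermat.Agent.S05

/-! ## Discrete series with fixed coefficients -/

/-- the image of a discrete rational series is discrete. -/
theorem h12r_isDisc_coeffEmb {a : LaurentSeries ℚ} (ha : IsDisc a) :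
    IsDisc (coeffEmb Kbar a) := by
  classical
  obtain ⟨s, hs⟩ := ha
  refine ⟨s.image (algebraMap ℚ Kbar), fun n => ?_⟩
  rw [coeffEmb_coeff]
  have key : ∀ y ∈ Submodule.span ℤ (s : Set ℚ),
      algebraMap ℚ Kbar y ∈ Submodule.span ℤ ((s.image (algebraMap ℚ Kbar) : Finset Kbar) : Set Kbar) := by
    intro y hy
    induction hy using Submodule.span_induction with
    | mem y hy =>
        refine Submodule.subset_span ?_
        rw [Finset.mem_coe, Finset.mem_image]
        exact ⟨y, hy, rfl⟩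
    | zero => rw [map_zero]; exact zero_mem _
    | add y z _ _ hy hz => rw [map_add]; exact add_mem hy hz
    | smul c y _ hy =>
        rw [zsmul_eq_mul, map_mul, map_intCast, ← zsmul_eq_mul]
        exact Submodule.smul_mem _ c hy
  exact key _ (hs n)

/-- `x` is a fraction of two discrete series whose coefficients are fixed by `I`. -/
def h12rFDF (I : Set GQ) (x : LaurentSeries Kbar) : Prop :=
  ∃ a b : LaurentSeries Kbar, b ≠ 0 ∧ IsDisc a ∧ IsDisc b ∧
    (∀ σ ∈ I, coeffMap (σ : Kbar →+* Kbar) a = a) ∧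
    (∀ σ ∈ I, coeffMap (σ : Kbar →+* Kbar) b = b) ∧ x * b = a

theorem h12r_fdf_zero (I : Set GQ) : h12rFDF I 0 :=
  ⟨0, 1, one_ne_zero, isDisc_zero, isDisc_one, fun _ _ => map_zero _, fun _ _ => map_one _,
    zero_mul _⟩

theorem h12r_fdf_add {I : Set GQ} {x y : LaurentSeries Kbar} (hx : h12rFDF I x)
    (hy : h12rFDF I y) : h12rFDF I (x + y) := by
  obtain ⟨a, b, hb, ha, hbd, hfa, hfb, hab⟩ := hx
  obtain ⟨a', b', hb', ha', hbd', hfa', hfb', hab'⟩ := hy
  refine ⟨a * b' + a' * b, b * b', mul_ne_zero hb hb', (ha.mul hbd').add (ha'.mul hbd),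
    hbd.mul hbd', ?_, ?_, ?_⟩
  · intro σ hσ
    rw [map_add, map_mul, map_mul, hfa σ hσ, hfb σ hσ, hfa' σ hσ, hfb' σ hσ]
  · intro σ hσ
    rw [map_mul, hfb σ hσ, hfb' σ hσ]
  · rw [← hab, ← hab']
    ring

theorem h12r_fdf_mul {I : Set GQ} {x y : LaurentSeries Kbar} (hx : h12rFDF I x)
    (hy : h12rFDF I y) : h12rFDF I (x * y) := by
  obtain ⟨a, b, hb, ha, hbd, hfa, hfb, hab⟩ := hx
  obtain ⟨a', b', hb', ha', hbd', hfa', hfb', hab'⟩ := hy
  refine ⟨a * a', b * b', mul_ne_zero hb hb', ha.mul ha', hbd.mul hbd', ?_, ?_, ?_⟩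
  · intro σ hσ
    rw [map_mul, hfa σ hσ, hfa' σ hσ]
  · intro σ hσ
    rw [map_mul, hfb σ hσ, hfb' σ hσ]
  · rw [← hab, ← hab']
    ring

theorem h12r_fdf_C {I : Set GQ} {c : Kbar} (hc : ∀ σ ∈ I, σ c = c) :
    h12rFDF I (HahnSeries.C c) := by
  refine ⟨HahnSeries.C c, 1, one_ne_zero, isDisc_C c, isDisc_one, ?_, fun σ _ => map_one _,
    mul_one _⟩
  intro σ hσ
  ext n
  show (σ : Kbar →+* Kbar) ((HahnSeries.C c : LaurentSeries Kbar).coeff n) = _
  rw [HahnSeries.C_apply, HahnSeries.coeff_single]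
  split_ifs
  · exact hc σ hσ
  · exact map_zero _

/-- a rational modular function is a fraction of discrete series with fixed coefficients. -/
theorem h12r_fdf_rat (I : Set GQ) (N : ℕ) {y : LaurentSeries ℚ}
    (hy : y ∈ modularFunctionFieldFull N) : h12rFDF I (coeffEmb Kbar y) := by
  have h1 := coeffEmb_mem_dfField_of_mem_full (K := ℚ) N y hy
  have h2 : coeffEmb ℚ y = y := by
    ext n
    rfl
  rw [h2] at h1
  obtain ⟨a, b, hb, ha, hbd, hab⟩ := h1
  refine ⟨coeffEmb Kbar a, coeffEmb Kbar b, ?_, h12r_isDisc_coeffEmb ha,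
    h12r_isDisc_coeffEmb hbd, fun σ _ => coeffMap_coeffEmb σ a, fun σ _ => coeffMap_coeffEmb σ b,
    ?_⟩
  · intro h0
    apply hb
    have hinj : Function.Injective (coeffEmb Kbar) := (coeffEmb Kbar).injective
    exact hinj (h0.trans (map_zero _).symm)
  · rw [← map_mul, hab]

/-- **a function fixed by `I` is a fraction of discrete series with fixed coefficients.** -/
theorem h12r_fdf_of_fixed (I : Set GQ) (N : ℕ) {x : LaurentSeries Kbar}
    (hx : x ∈ laurentBaseChange Kbar (modularFunctionFieldFull N))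
    (hfix : ∀ σ ∈ I, coeffMap (σ : Kbar →+* Kbar) x = x) : h12rFDF I x := by
  classical
  obtain ⟨b, l, hb, hl, hsum⟩ :=
    h24g_exists_fixed_comb (modularFunctionFieldFull N) I hx hfix
  rw [← hsum, Finsupp.sum]
  refine Finset.sum_induction _ (h12rFDF I) (fun _ _ => h12r_fdf_add) (h12r_fdf_zero I) ?_
  intro i _
  obtain ⟨y, hy, hyi⟩ := hb i.2
  have e : l i • (i : LaurentSeries Kbar) = HahnSeries.C (l i) * (i : LaurentSeries Kbar) :=
    (HahnSeries.C_mul_eq_smul).symm
  rw [e]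
  refine h12r_fdf_mul (h12r_fdf_C (hl i)) ?_
  rw [← hyi]
  exact h12r_fdf_rat I N hy

/-! ## Normalisation by a coefficient -/

section Normalize

variable {A : ValuationSubring Kbar} {q : ℕ} {ord : Kbar → ℝ}

/-- a nonzero discrete series is one of its coefficients times a series over `A` with nonzero
reduction. -/
theorem h12r_normalize (h : RO.IsOrd A q ord) (hq : q.Prime)
    {x : LaurentSeries Kbar} (hx : IsDisc x) (hx0 : x ≠ 0) :
    ∃ (n₁ : ℤ) (a : LaurentSeries A), x.coeff n₁ ≠ 0 ∧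
      redA (IsLocalRing.residue A) a ≠ 0 ∧ x = HahnSeries.C (x.coeff n₁) * embA A a := by
  have : Algebra.IsAlgebraic ℚ Kbar := AlgebraicClosure.isAlgebraic ℚ
  obtain ⟨n₁, hn₁, hmin⟩ := hx.exists_min h hq hx0
  set c : Kbar := x.coeff n₁ with hc
  have hcoeff : ∀ n, (HahnSeries.C c⁻¹ * x).coeff n = c⁻¹ * x.coeff n := by
    intro n
    rw [HahnSeries.C_mul_eq_smul, HahnSeries.coeff_smul, smul_eq_mul]
  have hmem : ∀ n, (HahnSeries.C c⁻¹ * x).coeff n ∈ A := by
    intro n
    rw [hcoeff]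
    by_cases hn : x.coeff n = 0
    · rw [hn, mul_zero]; exact A.zero_mem
    have hne : c⁻¹ * x.coeff n ≠ 0 := mul_ne_zero (inv_ne_zero hn₁) hn
    rw [← h.nonneg_iff hne, h.map_mul (inv_ne_zero hn₁) hn, h.map_inv]
    have := hmin n hn
    linarith
  obtain ⟨a, ha⟩ := (exists_embA_eq_iff A _).mpr hmem
  refine ⟨n₁, a, hn₁, ?_, ?_⟩
  · intro h0
    have h1 : (redA (IsLocalRing.residue A) a).coeff n₁ = 0 := by rw [h0]; rfl
    rw [h36_redA_coeff] at h1
    have h2 : ((a.coeff n₁ : A) : Kbar) = 1 := by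
      rw [← h36_embA_coeff, ha, hcoeff]
      exact inv_mul_cancel₀ hn₁
    have h3 : a.coeff n₁ = 1 := Subtype.ext h2
    rw [h3, map_one] at h1
    exact one_ne_zero h1
  · rw [ha, ← mul_assoc, ← map_mul, mul_inv_cancel₀ hn₁, map_one, one_mul]

end Normalize

/-! ## The value group on `F₀` -/

section Scale

variable (A : ValuationSubring Kbar) (N : ℕ) {q : ℕ}

theorem h12r_coeff_fixed {I : Set GQ} {u : LaurentSeries Kbar}
    (hu : ∀ σ ∈ I, coeffMap (σ : Kbar →+* Kbar) u = u) (n : ℤ) :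
    ∀ σ ∈ I, σ (u.coeff n) = u.coeff n := by
  intro σ hσ
  have h := congrArg (fun s : LaurentSeries Kbar => s.coeff n) (hu σ hσ)
  exact h

/-- **scaling of an `I`-fixed series**: a nonzero fraction `x` of discrete series with
`I`-fixed coefficients is `q ^ (-j) · a / b` with `a, b ∈ A((t))` of nonzero reduction. -/
theorem h12r_fdf_scale (hq : q.Prime) (hA : A.LiesOverPrime q) {x : LaurentSeries Kbar}
    (hx : h12rFDF (A.inertiaSubgroupIn ℚ : Set GQ) x) (hx0 : x ≠ 0) :
    ∃ (j : ℤ) (a b : LaurentSeries A), redA (IsLocalRing.residue A) a ≠ 0 ∧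
      redA (IsLocalRing.residue A) b ≠ 0 ∧
      embA A a = (HahnSeries.C (((q : ℕ) : Kbar) ^ j) * x) * embA A b := by
  obtain ⟨ord, hord⟩ := @RO.exists_isOrd _ _ A _ RO.isAlgebraic_int_Qbar q hq hA
  obtain ⟨u, v, hv, hu, hvd, hfu, hfv, huv⟩ := hx
  have hu0 : u ≠ 0 := by
    rw [← huv]
    exact mul_ne_zero hx0 hv
  obtain ⟨n₁, a, hc₁, ha, hua⟩ := h12r_normalize hord hq hu hu0
  obtain ⟨n₂, b, hc₂, hb, hvb⟩ := h12r_normalize hord hq hvd hv
  set c₁ : Kbar := u.coeff n₁ with hc₁def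
  set c₂ : Kbar := v.coeff n₂ with hc₂def
  -- the constant `c₂ / c₁` is fixed by inertia
  have hfix : ∀ σ ∈ A.inertiaSubgroupIn ℚ, σ (c₂ / c₁) = c₂ / c₁ := by
    intro σ hσ
    rw [map_div₀, h12r_coeff_fixed hfu n₁ σ hσ, h12r_coeff_fixed hfv n₂ σ hσ]
  obtain ⟨j, w, hw, hw', hcw⟩ := Fermat.Agent.PT.Glob.h55v_kInertVal q hq A hA (c₂ / c₁)
    (div_ne_zero hc₂ hc₁) hfix
  have hq0 : ((q : ℕ) : Kbar) ≠ 0 := by exact_mod_cast hq.ne_zero
  have hw0 : w ≠ 0 := by
    rintro rfl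
    rw [mul_zero] at hcw
    exact div_ne_zero hc₂ hc₁ hcw
  -- `C (c₂ / c₁) * x * embA b = embA a`
  have h1 : x * (HahnSeries.C c₂ * embA A b) = HahnSeries.C c₁ * embA A a := by
    rw [← hvb, ← hua, huv]
  have hC1 : (HahnSeries.C c₁ : LaurentSeries Kbar) ≠ 0 := by
    rw [Ne, map_eq_zero_iff _ HahnSeries.C_injective]
    exact hc₁
  have h2 : embA A a = (HahnSeries.C (c₂ / c₁) * x) * embA A b := by
    have hC : (HahnSeries.C (c₂ / c₁) : LaurentSeries Kbar) =
        HahnSeries.C c₂ * (HahnSeries.C c₁)⁻¹ := by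
      rw [div_eq_mul_inv, map_mul, map_inv₀]
    rw [hC]
    calc embA A a = (HahnSeries.C c₁)⁻¹ * (HahnSeries.C c₁ * embA A a) := by
          rw [← mul_assoc, inv_mul_cancel₀ hC1, one_mul]
      _ = (HahnSeries.C c₁)⁻¹ * (x * (HahnSeries.C c₂ * embA A b)) := by rw [h1]
      _ = _ := by ring
  -- divide by the unit `w`
  let wi : A := ⟨w⁻¹, hw'⟩
  have hwi : IsUnit wi := by
    refine IsUnit.of_mul_eq_one (⟨w, hw⟩ : A) ?_
    apply Subtype.ext
    show w⁻¹ * w = 1
    exact inv_mul_cancel₀ hw0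
  refine ⟨j, HahnSeries.C wi * a, b, ?_, hb, ?_⟩
  · rw [map_mul]
    refine mul_ne_zero ?_ ha
    intro h0
    have h3 : (redA (IsLocalRing.residue A) (HahnSeries.C wi)).coeff 0 = 0 := by rw [h0]; rfl
    rw [h36_redA_coeff] at h3
    have h4 : (HahnSeries.C wi : LaurentSeries A).coeff 0 = wi := by
      rw [HahnSeries.C_apply, HahnSeries.coeff_single_same]
    rw [h4] at h3
    exact (IsLocalRing.residue_ne_zero_iff_isUnit wi).mpr hwi h3
  · have h5 : embA A (HahnSeries.C wi) = HahnSeries.C (w⁻¹ : Kbar) := by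
      simp only [HahnSeries.C_apply, embA, coeffMap_single]
      rfl
    rw [map_mul, h5, h2, hcw]
    have h6 : (HahnSeries.C (((q : ℕ) : Kbar) ^ j * w) : LaurentSeries Kbar) =
        HahnSeries.C (((q : ℕ) : Kbar) ^ j) * HahnSeries.C w := by
      rw [map_mul]
    have h7 : (HahnSeries.C (w⁻¹ : Kbar) : LaurentSeries Kbar) * HahnSeries.C w = 1 := by
      rw [← map_mul, inv_mul_cancel₀ hw0, map_one]
    rw [h6]
    calc HahnSeries.C (w⁻¹ : Kbar) *
          (HahnSeries.C (((q : ℕ) : Kbar) ^ j) * HahnSeries.C w * x * embA A b)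
        = (HahnSeries.C (w⁻¹ : Kbar) * HahnSeries.C w) *
            (HahnSeries.C (((q : ℕ) : Kbar) ^ j) * x * embA A b) := by ring
      _ = _ := by rw [h7, one_mul]

variable [NeZero N]

/-- **the value group of the Gauss valuation on `F₀` is `q ^ ℤ`**: a nonzero function fixed
by the inertia group of `A` is `q ^ (-j)` times a unit of `softV A N` (any level `N`). -/
theorem h12r_fixed_scale (hq : q.Prime) (hA : A.LiesOverPrime q) (x : FF N) (hx0 : x ≠ 0)
    (hfix : ∀ σ ∈ A.inertiaSubgroupIn ℚ, gal N σ • x = x) :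
    ∃ j : ℤ, cst N (((q : ℕ) : Kbar) ^ j) * x ∈ softV A N ∧
      (cst N (((q : ℕ) : Kbar) ^ j) * x)⁻¹ ∈ softV A N := by
  have hfix' : ∀ σ ∈ (A.inertiaSubgroupIn ℚ : Set GQ),
      coeffMap (σ : Kbar →+* Kbar) (x : LaurentSeries Kbar) = (x : LaurentSeries Kbar) := by
    intro σ hσ
    have h := congrArg Subtype.val (hfix σ hσ)
    rwa [coe_arithmeticGalois_smul] at h
  have hfdf := h12r_fdf_of_fixed (A.inertiaSubgroupIn ℚ : Set GQ) N x.2 hfix'
  have hx0' : (x : LaurentSeries Kbar) ≠ 0 := fun h0 => hx0 (Subtype.ext h0)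
  obtain ⟨j, a, b, ha, hb, hab⟩ := h12r_fdf_scale A hq hA hfdf hx0'
  have hab' : embA A a =
      ((cst N (((q : ℕ) : Kbar) ^ j) * x : FF N) : LaurentSeries Kbar) * embA A b := by
    rw [hab]
    congr 1
    show _ = ((cst N (((q : ℕ) : Kbar) ^ j) : FF N) : LaurentSeries Kbar) *
      (x : LaurentSeries Kbar)
    rw [soft_coe_cst]
  have hw : IsWit A (IsLocalRing.residue A)
      ((cst N (((q : ℕ) : Kbar) ^ j) * x : FF N) : LaurentSeries Kbar) a b := ⟨hb, hab'⟩
  exact ⟨j, ⟨a, b, hw⟩, ⟨b, a, hw.inv ha⟩⟩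

/-- **`q` is a uniformiser of the Gauss valuation on `F₀`**: a function fixed by the inertia
group of `A` which is a non-unit of `softV A N` is divisible by `q` in `softV A N`. -/
theorem h12r_fixed_div_mem (hq : q.Prime) (hA : A.LiesOverPrime q) (x : FF N)
    (hfix : ∀ σ ∈ A.inertiaSubgroupIn ℚ, gal N σ • x = x)
    (hnu : x = 0 ∨ x⁻¹ ∉ softV A N) :
    cst N (((q : ℕ) : Kbar))⁻¹ * x ∈ softV A N := by
  by_cases hx0 : x = 0
  · rw [hx0, mul_zero]
    exact zero_mem _
  have hxinv : x⁻¹ ∉ softV A N := hnu.resolve_left hx0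
  obtain ⟨j, hu, hui⟩ := h12r_fixed_scale A N hq hA x hx0 hfix
  have hq0 : ((q : ℕ) : Kbar) ≠ 0 := by exact_mod_cast hq.ne_zero
  have hcj0 : cst N (((q : ℕ) : Kbar) ^ j) ≠ 0 := by
    rw [Ne, map_eq_zero_iff _ (algebraMap Kbar (FF N)).injective]
    exact zpow_ne_zero _ hq0
  have hjneg : j < 0 := by
    by_contra hcon
    have hj : 0 ≤ j := not_lt.mp hcon
    apply hxinv
    have e : x⁻¹ = cst N (((q : ℕ) : Kbar) ^ j) * (cst N (((q : ℕ) : Kbar) ^ j) * x)⁻¹ := by
      rw [mul_inv, ← mul_assoc, mul_inv_cancel₀ hcj0, one_mul]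
    rw [e]
    exact mul_mem ((cst_mem_softV_iff A N _).mpr (natCast_zpow_mem A q hj)) hui
  have e : cst N (((q : ℕ) : Kbar))⁻¹ * x =
      cst N (((q : ℕ) : Kbar) ^ (-j - 1)) * (cst N (((q : ℕ) : Kbar) ^ j) * x) := by
    rw [← mul_assoc, ← map_mul, ← zpow_add₀ hq0]
    have : -j - 1 + j = -1 := by ring
    rw [this, zpow_neg_one]
  rw [e]
  exact mul_mem ((cst_mem_softV_iff A N _).mpr (natCast_zpow_mem A q (by omega))) hu

end Scale

end Fermat.Agent.S36
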