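import Mathlib
import Fermat.Agent.S36.H12RedIso
import Fermat.Agent.S37.Inertia
import Fermat.Agent.LGC.Fin71Final
import Fermat.Agent.LGC.Res44
import Fermat.Agent.Red.BC.Main
import Fermat.Agent.Red.Kron.FrickeGal

/-!
# S36, block REG, row R-REDISO (part 2): the special fibres of the charts over `A₀` and over `A`

`A` a valuation subring of `ℚ̄` over the prime `q`, `I = A.inertiaSubgroupIn ℚ`,
`B = modelAt N A t` a chart over `A`, `B₀ = h62rChart A N t = B ∩ F^I` the chart over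
`A₀ = A ∩ ℚ̄^I`, `𝔪_A B = h12rJ A N t = {cst c * x' | c ∈ 𝔪_A, x' ∈ B}`.

* `h12r_approx_of_bc` : `B = B₀ + 𝔪_A B` as soon as the chart has the base change property
  `BCAt N A t` (landed at the levels `M` and `M q`, `q ∤ M`).
* `h12r_inter_fin`, `h12r_inter_inf` (level `N`, `q ∤ N`), `h12r_inter_ss_fin`,
  `h12r_inter_ss_inf` (level `M q`, `q ∤ M`) : `𝔪_A B ∩ B₀ = q B₀`.

Author: helper12.
-/

set_option autoImplicit false
set_option linter.unusedSectionVars false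
set_option linter.style.haveILetI false

open AlgebraicCurve ModularCurve

noncomputable section

namespace Fermat.Agent.S36

open Fermat.Agent.S37 (Kbar GQ FF cst gal IsRat jB modelAt modelFin modelInf)
open Fermat.Agent.Red.GV Fermat.Agent.Red.GV.Soft
open Fermat.Agent.LGC (BCAt ssV jSS)
open Fermat.Agent.Red.GG (chart)
open Fermat.Agent.Red.Kron (kFricke)

/-! ## The ideal `𝔪_A B` -/

section Ideal

variable (A : ValuationSubring Kbar) (N : ℕ) (t : FF N)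

/-- `𝔪_A · B`, elementwise: the products `cst c * x'` with `c ∈ 𝔪_A` and `x' ∈ B`. -/
def h12rJ : Set (FF N) :=
  {y | ∃ c : Kbar, c ∈ A.nonunits ∧ ∃ x' : FF N, x' ∈ modelAt N A t ∧ y = cst N c * x'}

variable {A N t}

theorem h12r_zero_mem_nonunits : (0 : Kbar) ∈ A.nonunits := by
  rw [ValuationSubring.mem_nonunits_iff, map_zero]
  exact zero_lt_one

theorem h12r_nonunits_mem {c : Kbar} (hc : c ∈ A.nonunits) : c ∈ A := by
  rw [ValuationSubring.mem_nonunits_iff] at hc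
  exact (A.valuation_le_one_iff c).mp hc.le

theorem h12r_mul_mem_nonunits {c d : Kbar} (hc : c ∈ A.nonunits) (hd : d ∈ A) :
    c * d ∈ A.nonunits := by
  rw [ValuationSubring.mem_nonunits_iff] at hc ⊢
  rw [map_mul]
  have hd' : A.valuation d ≤ 1 := (A.valuation_le_one_iff d).mpr hd
  exact mul_lt_one_of_lt_of_le hc hd'

theorem h12rJ_zero : (0 : FF N) ∈ h12rJ A N t :=
  ⟨0, h12r_zero_mem_nonunits, 0, zero_mem _, by rw [mul_zero]⟩

theorem h12rJ_mem_modelAt {y : FF N} (hy : y ∈ h12rJ A N t) : y ∈ modelAt N A t := by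
  obtain ⟨c, hc, x', hx', rfl⟩ := hy
  exact mul_mem (Fermat.Agent.Red.ModelO.h85_cst_mem_modelAt N A t (h12r_nonunits_mem hc)) hx'

theorem h12rJ_mul {y b : FF N} (hy : y ∈ h12rJ A N t) (hb : b ∈ modelAt N A t) :
    y * b ∈ h12rJ A N t := by
  obtain ⟨c, hc, x', hx', rfl⟩ := hy
  exact ⟨c, hc, x' * b, mul_mem hx' hb, by rw [mul_assoc]⟩

theorem h12rJ_neg {y : FF N} (hy : y ∈ h12rJ A N t) : -y ∈ h12rJ A N t := by
  obtain ⟨c, hc, x', hx', rfl⟩ := hy
  exact ⟨c, hc, -x', neg_mem hx', by rw [mul_neg]⟩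

theorem h12rJ_add {y z : FF N} (hy : y ∈ h12rJ A N t) (hz : z ∈ h12rJ A N t) :
    y + z ∈ h12rJ A N t := by
  obtain ⟨c, hc, x', hx', rfl⟩ := hy
  obtain ⟨d, hd, x'', hx'', rfl⟩ := hz
  have e0 : cst N (0 : Kbar) = 0 := map_zero _
  by_cases hc0 : c = 0
  · subst hc0
    exact ⟨d, hd, x'', hx'', by rw [e0, zero_mul, zero_add]⟩
  by_cases hd0 : d = 0
  · subst hd0
    exact ⟨c, hc, x', hx', by rw [e0, zero_mul, add_zero]⟩
  rcases A.mem_or_inv_mem (d / c) with h | h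
  · -- `d = c * (d / c)`
    refine ⟨c, hc, x' + cst N (d / c) * x'',
      add_mem hx' (mul_mem (Fermat.Agent.Red.ModelO.h85_cst_mem_modelAt N A t h) hx''), ?_⟩
    rw [mul_add, ← mul_assoc, ← map_mul, mul_div_cancel₀ d hc0]
  · -- `c = d * (c / d)`
    have h' : c / d ∈ A := by
      have e : (d / c)⁻¹ = c / d := by rw [inv_div]
      rwa [e] at h
    refine ⟨d, hd, cst N (c / d) * x' + x'',
      add_mem (mul_mem (Fermat.Agent.Red.ModelO.h85_cst_mem_modelAt N A t h') hx') hx'', ?_⟩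
    rw [mul_add, ← mul_assoc, ← map_mul, mul_div_cancel₀ c hd0]

end Ideal

/-! ## (a) `B = B₀ + 𝔪_A B` -/

section Approx

variable {A : ValuationSubring Kbar} {N : ℕ} [NeZero N] {t : FF N} {q : ℕ}

theorem h12r_chart_le {u : FF N} (hu : u ∈ h62rChart A N t) : u ∈ modelAt N A t :=
  (h62r_mem_chart.mp hu).1

/-- **(a)** every element of the chart over `A` is congruent modulo `𝔪_A B` to an element of
the chart over `A₀`, if the chart has the base change property. -/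
theorem h12r_approx_of_bc (hq : q.Prime) (hA : A.LiesOverPrime q) (hBC : BCAt N A t) :
    ∀ b ∈ modelAt N A t, ∃ b₀ ∈ h62rChart A N t, b - b₀ ∈ h12rJ A N t := by
  intro b hb
  have hb' := hBC hb
  clear hb
  induction hb' using Subring.closure_induction with
  | mem x hx =>
      rcases hx with ⟨a, ha, rfl⟩ | ⟨hrat, hmem⟩
      · obtain ⟨a', ha', hfix, hcong⟩ := Fermat.Agent.LGC.h57_exists_inertia_fixed (k := ℚ)
          Fermat.Agent.LGC.h57_isAlgebraic_int A hq hA ha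
        refine ⟨cst N a', h62r_mem_chart.mpr
          ⟨Fermat.Agent.Red.ModelO.h85_cst_mem_modelAt N A t ha', fun σ hσ => ?_⟩, ?_⟩
        · rw [Fermat.Agent.S37.GalI.gal_smul_cst, hfix σ hσ]
        · refine ⟨a - a', hcong, 1, one_mem _, ?_⟩
          show cst N a - cst N a' = cst N (a - a') * 1
          rw [mul_one]
          exact (map_sub (algebraMap Kbar (FF N)) a a').symm
      · refine ⟨x, h62r_mem_chart.mpr ⟨hmem, fun σ _ =>
          Fermat.Agent.S37.GalI.gal_smul_of_isRat σ hrat⟩, ?_⟩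
        rw [sub_self]
        exact h12rJ_zero
  | zero => exact ⟨0, zero_mem _, by rw [sub_self]; exact h12rJ_zero⟩
  | one => exact ⟨1, one_mem _, by rw [sub_self]; exact h12rJ_zero⟩
  | add x y _ _ ihx ihy =>
      obtain ⟨x₀, hx₀, hxJ⟩ := ihx
      obtain ⟨y₀, hy₀, hyJ⟩ := ihy
      refine ⟨x₀ + y₀, add_mem hx₀ hy₀, ?_⟩
      have e : x + y - (x₀ + y₀) = (x - x₀) + (y - y₀) := by ring
      rw [e]
      exact h12rJ_add hxJ hyJ
  | neg x _ ih =>
      obtain ⟨x₀, hx₀, hxJ⟩ := ih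
      refine ⟨-x₀, neg_mem hx₀, ?_⟩
      have e : -x - -x₀ = -(x - x₀) := by ring
      rw [e]
      exact h12rJ_neg hxJ
  | mul x y _ _ ihx ihy =>
      obtain ⟨x₀, hx₀, hxJ⟩ := ihx
      obtain ⟨y₀, hy₀, hyJ⟩ := ihy
      refine ⟨x₀ * y₀, mul_mem hx₀ hy₀, ?_⟩
      have hy : y ∈ modelAt N A t := by
        have e : y = y₀ + (y - y₀) := by ring
        rw [e]
        exact add_mem (h12r_chart_le hy₀) (h12rJ_mem_modelAt hyJ)
      have e : x * y - x₀ * y₀ = (x - x₀) * y + (y - y₀) * x₀ := by ring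
      rw [e]
      exact h12rJ_add (h12rJ_mul hxJ hy) (h12rJ_mul hyJ (h12r_chart_le hx₀))

end Approx

/-! ## (b) `𝔪_A B ∩ B₀ = q B₀` -/

section Inter

variable (A : ValuationSubring Kbar) {q : ℕ}

/-- an element of `𝔪_A B` is a non-unit of the Gauss valuation ring, if `B` is Gauss-integral. -/
theorem h12r_nonunit_of_J {N : ℕ} [NeZero N] {t : FF N}
    (hle : ∀ b ∈ modelAt N A t, b ∈ softV A N) {x : FF N} (hx : x ∈ h12rJ A N t) :
    x = 0 ∨ x⁻¹ ∉ softV A N := by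
  obtain ⟨c, hc, x', hx', rfl⟩ := hx
  by_cases h0 : cst N c * x' = 0
  · exact Or.inl h0
  right
  intro hinv
  have hc0 : c ≠ 0 := by
    rintro rfl
    apply h0
    have e0 : cst N (0 : Kbar) = 0 := map_zero _
    rw [e0, zero_mul]
  have hcc : cst N c ≠ 0 := fun h => h0 (by rw [h, zero_mul])
  have h1 : cst N c⁻¹ ∈ softV A N := by
    have e : cst N c⁻¹ = x' * (cst N c * x')⁻¹ := by
      have e1 : cst N c⁻¹ = (cst N c)⁻¹ := map_inv₀ (algebraMap Kbar (FF N)) c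
      have hx0 : x' ≠ 0 := fun h => h0 (by rw [h, mul_zero])
      rw [e1, mul_inv]
      field_simp
    rw [e]
    exact mul_mem (hle x' hx') hinv
  have h2 : c⁻¹ ∈ A := (cst_mem_softV_iff A N _).mp h1
  exact ((Fermat.Agent.S37.GalI.mem_nonunits_iff_inv A hc0).mp hc) h2

theorem h12r_gal_cst_mul {N : ℕ} [NeZero N] {x : FF N}
    (hfix : ∀ σ ∈ A.inertiaSubgroupIn ℚ, gal N σ • x = x) :
    ∀ σ ∈ A.inertiaSubgroupIn ℚ,
      gal N σ • (cst N (((q : ℕ) : Kbar))⁻¹ * x) = cst N (((q : ℕ) : Kbar))⁻¹ * x := by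
  intro σ hσ
  rw [smul_mul', hfix σ hσ, Fermat.Agent.S37.GalI.gal_smul_cst, map_inv₀, map_natCast]

theorem h12r_q_mul_inv (hq : q.Prime) {N : ℕ} (x : FF N) :
    x = cst N ((q : ℕ) : Kbar) * (cst N (((q : ℕ) : Kbar))⁻¹ * x) := by
  have hq0 : ((q : ℕ) : Kbar) ≠ 0 := by exact_mod_cast hq.ne_zero
  rw [← mul_assoc, ← map_mul, mul_inv_cancel₀ hq0, map_one, one_mul]

variable (N : ℕ) [NeZero N]

/-- **(b), level `N` prime to `q`, finite chart.** -/
theorem h12r_inter_fin (hq : q.Prime) (hN : ¬ q ∣ N) (hA : A.LiesOverPrime q) {x : FF N}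
    (hx : x ∈ h62rChart A N (jB N)) (hJ : x ∈ h12rJ A N (jB N)) :
    ∃ y ∈ h62rChart A N (jB N), x = cst N ((q : ℕ) : Kbar) * y := by
  have hfix := (h62r_mem_chart.mp hx).2
  have hle : ∀ b ∈ modelAt N A (jB N), b ∈ softV A N := by
    intro b hb
    rw [softV_eq_gaussV A N hq hN hA]
    exact modelFin_le_gaussV A N hq hN hA hb
  have hy : cst N (((q : ℕ) : Kbar))⁻¹ * x ∈ softV A N :=
    h12r_fixed_div_mem A N hq hA x hfix (h12r_nonunit_of_J A hle hJ)
  rw [softV_eq_gaussV A N hq hN hA] at hy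
  have hq0 : ((q : ℕ) : Kbar) ≠ 0 := by exact_mod_cast hq.ne_zero
  have hmem : cst N (((q : ℕ) : Kbar))⁻¹ * x ∈ modelFin N A := by
    refine mem_modelFin_of_cst_mul A N hq hN hA _ hy ((q : ℕ) : Kbar) (natCast_mem A q) hq0 ?_
    rw [← h12r_q_mul_inv hq x]
    exact (h62r_mem_chart.mp hx).1
  exact ⟨_, h62r_mem_chart.mpr ⟨hmem, h12r_gal_cst_mul A hfix⟩, h12r_q_mul_inv hq x⟩

/-- **(b), level `N` prime to `q`, chart at infinity.** -/
theorem h12r_inter_inf (hq : q.Prime) (hN : ¬ q ∣ N) (hA : A.LiesOverPrime q) {x : FF N}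
    (hx : x ∈ h62rChart A N (jB N)⁻¹) (hJ : x ∈ h12rJ A N (jB N)⁻¹) :
    ∃ y ∈ h62rChart A N (jB N)⁻¹, x = cst N ((q : ℕ) : Kbar) * y := by
  have hfix := (h62r_mem_chart.mp hx).2
  have hle : ∀ b ∈ modelAt N A (jB N)⁻¹, b ∈ softV A N := by
    intro b hb
    rw [softV_eq_gaussV A N hq hN hA]
    exact modelInf_le_gaussV A N hq hN hA hb
  have hy : cst N (((q : ℕ) : Kbar))⁻¹ * x ∈ softV A N :=
    h12r_fixed_div_mem A N hq hA x hfix (h12r_nonunit_of_J A hle hJ)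
  rw [softV_eq_gaussV A N hq hN hA] at hy
  have hq0 : ((q : ℕ) : Kbar) ≠ 0 := by exact_mod_cast hq.ne_zero
  have hmem : cst N (((q : ℕ) : Kbar))⁻¹ * x ∈ modelInf N A := by
    refine mem_modelInf_of_cst_mul A N hq hN hA _ hy ((q : ℕ) : Kbar) (natCast_mem A q) hq0 ?_
    rw [← h12r_q_mul_inv hq x]
    exact (h62r_mem_chart.mp hx).1
  exact ⟨_, h62r_mem_chart.mpr ⟨hmem, h12r_gal_cst_mul A hfix⟩, h12r_q_mul_inv hq x⟩

end Inter

/-! ## Level `M q` -/

section SS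

variable (A : ValuationSubring Kbar) (M q : ℕ) [NeZero M] [NeZero q]

/-- for an `I`-fixed element `x` of `𝔪_A B` at the level `M q`, `x / q` lies in the semistable
Gauss ring. -/
theorem h12r_div_mem_ssV (hq : q.Prime) (hM : ¬ q ∣ M) (hA : A.LiesOverPrime q)
    {t : FF (M * q)} (hle : ∀ b ∈ modelAt (M * q) A t, b ∈ ssV A M q) {x : FF (M * q)}
    (hfix : ∀ σ ∈ A.inertiaSubgroupIn ℚ, gal (M * q) σ • x = x)
    (hJ : x ∈ h12rJ A (M * q) t) :
    cst (M * q) (((q : ℕ) : Kbar))⁻¹ * x ∈ ssV A M q := by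
  rw [Fermat.Agent.LGC.h44r_mem_ssV_iff A M q hq hM hA]
  have hle1 : ∀ b ∈ modelAt (M * q) A t, b ∈ softV A (M * q) := fun b hb =>
    ((Fermat.Agent.LGC.h44r_mem_ssV_iff A M q hq hM hA b).mp (hle b hb)).1
  refine ⟨h12r_fixed_div_mem A (M * q) hq hA x hfix (h12r_nonunit_of_J A hle1 hJ), ?_⟩
  -- the Fricke transform
  have hwfix : ∀ σ ∈ A.inertiaSubgroupIn ℚ,
      gal (M * q) σ • (kFricke M q hq hM x) = kFricke M q hq hM x := by
    intro σ hσ
    have h := Fermat.Agent.Red.Kron.kFricke_gal M q hq hM σ x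
    rw [← h]
    congr 1
    exact hfix σ hσ
  have hwnu : kFricke M q hq hM x = 0 ∨ (kFricke M q hq hM x)⁻¹ ∉ softV A (M * q) := by
    obtain ⟨c, hc, x', hx', rfl⟩ := hJ
    by_cases h0 : kFricke M q hq hM (cst (M * q) c * x') = 0
    · exact Or.inl h0
    right
    intro hinv
    have hwx' : kFricke M q hq hM x' ∈ softV A (M * q) :=
      ((Fermat.Agent.LGC.h44r_mem_ssV_iff A M q hq hM hA x').mp (hle x' hx')).2
    have e1 : kFricke M q hq hM (cst (M * q) c * x') =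
        cst (M * q) c * kFricke M q hq hM x' := by
      rw [map_mul]
      congr 1
      exact (kFricke M q hq hM).commutes c
    rw [e1] at hinv h0
    have hc0 : c ≠ 0 := by
      rintro rfl
      apply h0
      have e0 : cst (M * q) (0 : Kbar) = 0 := map_zero _
      rw [e0, zero_mul]
    have h1 : cst (M * q) c⁻¹ ∈ softV A (M * q) := by
      have e : cst (M * q) c⁻¹ =
          kFricke M q hq hM x' * (cst (M * q) c * kFricke M q hq hM x')⁻¹ := by
        have e2 : cst (M * q) c⁻¹ = (cst (M * q) c)⁻¹ :=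
          map_inv₀ (algebraMap Kbar (FF (M * q))) c
        have hcc : cst (M * q) c ≠ 0 := fun h => h0 (by rw [h, zero_mul])
        have hx0 : kFricke M q hq hM x' ≠ 0 := fun h => h0 (by rw [h, mul_zero])
        rw [e2, mul_inv]
        field_simp
      rw [e]
      exact mul_mem hwx' hinv
    have h2 : c⁻¹ ∈ A := (cst_mem_softV_iff A (M * q) _).mp h1
    exact ((Fermat.Agent.S37.GalI.mem_nonunits_iff_inv A hc0).mp hc) h2
  have h3 := h12r_fixed_div_mem A (M * q) hq hA (kFricke M q hq hM x) hwfix hwnu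
  have e4 : kFricke M q hq hM (cst (M * q) (((q : ℕ) : Kbar))⁻¹ * x) =
      cst (M * q) (((q : ℕ) : Kbar))⁻¹ * kFricke M q hq hM x := by
    rw [map_mul]
    congr 1
    exact (kFricke M q hq hM).commutes _
  rw [e4]
  exact h3

/-- **(b), level `M q`, finite chart.** -/
theorem h12r_inter_ss_fin (hq : q.Prime) (hM : ¬ q ∣ M) (hA : A.LiesOverPrime q)
    {x : FF (M * q)} (hx : x ∈ h62rChart A (M * q) (jSS M q))
    (hJ : x ∈ h12rJ A (M * q) (jSS M q)) :
    ∃ y ∈ h62rChart A (M * q) (jSS M q), x = cst (M * q) ((q : ℕ) : Kbar) * y := by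
  have hfix := (h62r_mem_chart.mp hx).2
  have hy := h12r_div_mem_ssV A M q hq hM hA
    (fun b hb => Fermat.Agent.LGC.h44v_hBV_fin A M q hq hM hA b hb) hfix hJ
  have hq0 : ((q : ℕ) : Kbar) ≠ 0 := by exact_mod_cast hq.ne_zero
  have hqA : algebraMap A (FF (M * q)) ((q : ℕ) : A) ≠ 0 := by
    show cst (M * q) ((((q : ℕ) : A)) : Kbar) ≠ 0
    rw [cst, ne_eq, map_eq_zero]
    exact_mod_cast hq.ne_zero
  have hmem : cst (M * q) (((q : ℕ) : Kbar))⁻¹ * x ∈ chart (M * q) A (jSS M q) := by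
    refine Fermat.Agent.LGC.h44v_hQEP_fin A M q hq hM hA ((q : ℕ) : A) hqA _ hy ?_
    rw [Fermat.Agent.Red.GG.GGC97_smul_eq]
    have e : cst (M * q) ((((q : ℕ) : A)) : Kbar) = cst (M * q) ((q : ℕ) : Kbar) := by
      congr 1
    rw [e, ← h12r_q_mul_inv hq x]
    exact (h62r_mem_chart.mp hx).1
  exact ⟨_, h62r_mem_chart.mpr ⟨hmem, h12r_gal_cst_mul A hfix⟩, h12r_q_mul_inv hq x⟩

/-- **(b), level `M q`, chart at infinity.** -/
theorem h12r_inter_ss_inf (hq : q.Prime) (hM : ¬ q ∣ M) (hA : A.LiesOverPrime q)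
    {x : FF (M * q)} (hx : x ∈ h62rChart A (M * q) (jSS M q)⁻¹)
    (hJ : x ∈ h12rJ A (M * q) (jSS M q)⁻¹) :
    ∃ y ∈ h62rChart A (M * q) (jSS M q)⁻¹, x = cst (M * q) ((q : ℕ) : Kbar) * y := by
  have hfix := (h62r_mem_chart.mp hx).2
  have hy := h12r_div_mem_ssV A M q hq hM hA
    (fun b hb => Fermat.Agent.LGC.h44v_hBV_inf A M q hq hM hA b hb) hfix hJ
  have hq0 : ((q : ℕ) : Kbar) ≠ 0 := by exact_mod_cast hq.ne_zero
  have hqA : algebraMap A (FF (M * q)) ((q : ℕ) : A) ≠ 0 := by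
    show cst (M * q) ((((q : ℕ) : A)) : Kbar) ≠ 0
    rw [cst, ne_eq, map_eq_zero]
    exact_mod_cast hq.ne_zero
  have hmem : cst (M * q) (((q : ℕ) : Kbar))⁻¹ * x ∈ chart (M * q) A (jSS M q)⁻¹ := by
    refine Fermat.Agent.LGC.h44v_hQEP_inf A M q hq hM hA ((q : ℕ) : A) hqA _ hy ?_
    rw [Fermat.Agent.Red.GG.GGC97_smul_eq]
    have e : cst (M * q) ((((q : ℕ) : A)) : Kbar) = cst (M * q) ((q : ℕ) : Kbar) := by
      congr 1
    rw [e, ← h12r_q_mul_inv hq x]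
    exact (h62r_mem_chart.mp hx).1
  exact ⟨_, h62r_mem_chart.mpr ⟨hmem, h12r_gal_cst_mul A hfix⟩, h12r_q_mul_inv hq x⟩

/-! ## (a) at the levels `M` and `M q` -/

/-- **(a), level `M`, finite chart.** -/
theorem h12r_approx_fin (hq : q.Prime) (hM : ¬ q ∣ M) (hA : A.LiesOverPrime q) :
    ∀ b ∈ modelAt M A (jB M), ∃ b₀ ∈ h62rChart A M (jB M), b - b₀ ∈ h12rJ A M (jB M) :=
  h12r_approx_of_bc hq hA (Fermat.Agent.Red.BC.ifaceBaseChange M q hq hM A hA).1

/-- **(a), level `M`, chart at infinity.** -/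
theorem h12r_approx_inf (hq : q.Prime) (hM : ¬ q ∣ M) (hA : A.LiesOverPrime q) :
    ∀ b ∈ modelAt M A (jB M)⁻¹, ∃ b₀ ∈ h62rChart A M (jB M)⁻¹,
      b - b₀ ∈ h12rJ A M (jB M)⁻¹ :=
  h12r_approx_of_bc hq hA (Fermat.Agent.Red.BC.ifaceBaseChange M q hq hM A hA).2

/-- **(a), level `M q`, finite chart.** -/
theorem h12r_approx_ss_fin (hq : q.Prime) (hM : ¬ q ∣ M) (hA : A.LiesOverPrime q) :
    ∀ b ∈ modelAt (M * q) A (jSS M q), ∃ b₀ ∈ h62rChart A (M * q) (jSS M q),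
      b - b₀ ∈ h12rJ A (M * q) (jSS M q) :=
  h12r_approx_of_bc hq hA (Fermat.Agent.LGC.h71_bcAt_fin hq hM hA)

/-- **(a), level `M q`, chart at infinity.** -/
theorem h12r_approx_ss_inf (hq : q.Prime) (hM : ¬ q ∣ M) (hA : A.LiesOverPrime q) :
    ∀ b ∈ modelAt (M * q) A (jSS M q)⁻¹, ∃ b₀ ∈ h62rChart A (M * q) (jSS M q)⁻¹,
      b - b₀ ∈ h12rJ A (M * q) (jSS M q)⁻¹ :=
  h12r_approx_of_bc hq hA (Fermat.Agent.LGC.h71_bcAt_inf hq hM hA)

end SS

end Fermat.Agent.S36
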