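import Mathlib

/-!
# S36 (Carayol at `q² ‖ M`), local algebra: the Eisenstein step (helper67, findings #986)

Mathlib only.  Regularity of the chart of level `q² M'` over the unramified base at a
supersingular point, from the two Kronecker relations of level `q M'`.

`X, Y, Z` = a local parameter evaluated at `E₀, E₁, E₂` (chain `E₀ → E₁ → E₂` of `q`-isogenies),
`ℓ` = the image of the prime `q`.

* `h67r_key` : from `(Y - X^q)(Y^q - X) + ℓ ρ = 0` (Kronecker for `E₀ → E₁`) and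
  `G(X) = 0 = G(Z)`, `G = (T - Y^q)(T^q - Y) + ℓ s(T)` (Kronecker for `E₁ → E₂` and for the dual
  isogeny `E₁ → E₀`), `Z ≠ X`: there is `d` with `(ρ + d Y^q) Y ∈ (X, Z)` and
  `(ρ + d Y^q) ρ ℓ ∈ (X, Z)`.  At a supersingular point `𝔫` (`ρ ∉ 𝔫`, `Y ∈ 𝔫`) this says that
  `Y` and `ℓ` lie in `(X, Z)` locally at `𝔫`: the maximal ideal is generated by `X, Z`
  (two generators: the chart is regular there; combine with `h80u_ufd_of_two_gen`).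
* `h67r_key_local` : the same in "local at `𝔫`" form: `∃ e ∉ 𝔫, e Y ∈ (X, Z) ∧ e ℓ ∈ (X, Z)`.
-/

set_option autoImplicit false
set_option linter.unusedSectionVars false

open Polynomial IsLocalRing

namespace Fermat.Agent.S36

section key

variable {B : Type*} [CommRing B]

/-- geometric sum identity `Z^(n+1) - X^(n+1) = (Z - X) * ∑ Z^i X^(n-i)`. -/
theorem h67r_geom (X Z : B) (n : ℕ) :
    Z ^ n - X ^ n = (Z - X) * ∑ i ∈ Finset.range n, Z ^ i * X ^ (n - 1 - i) := by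
  have := (Commute.all Z X).mul_geom_sum₂ n
  rw [← this]

/-- For a polynomial `s`, `s(Z) - s(X)` is divisible by `Z - X`. -/
theorem h67r_eval_sub (s : B[X]) (X₀ Z₀ : B) : ∃ d : B, s.eval Z₀ - s.eval X₀ = (Z₀ - X₀) * d := by
  obtain ⟨d, hd⟩ := Polynomial.sub_dvd_eval_sub Z₀ X₀ s
  exact ⟨d, hd⟩

/-- a monomial of positive degree lies in `(X, Z)`. -/
theorem h67r_monomial_mem (X Z : B) (i n : ℕ) (h : 1 ≤ i + n) :
    Z ^ i * X ^ n ∈ Ideal.span {X, Z} := by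
  rcases Nat.eq_zero_or_pos i with hi | hi
  · have hn : 1 ≤ n := by omega
    obtain ⟨m, rfl⟩ : ∃ m, n = m + 1 := ⟨n - 1, by omega⟩
    rw [pow_succ]
    have : Z ^ i * (X ^ m * X) = (Z ^ i * X ^ m) * X := by ring
    rw [this]
    exact Ideal.mul_mem_left _ _ (Ideal.subset_span (by simp))
  · obtain ⟨m, rfl⟩ : ∃ m, i = m + 1 := ⟨i - 1, by omega⟩
    rw [pow_succ]
    have : Z ^ m * Z * X ^ n = (Z ^ m * X ^ n) * Z := by ring
    rw [this]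
    exact Ideal.mul_mem_left _ _ (Ideal.subset_span (by simp))

theorem h67r_geomsum_mem (X Z : B) (n : ℕ) (hn : 2 ≤ n) :
    ∑ i ∈ Finset.range n, Z ^ i * X ^ (n - 1 - i) ∈ Ideal.span {X, Z} := by
  refine Ideal.sum_mem _ fun i hi => ?_
  have := Finset.mem_range.mp hi
  exact h67r_monomial_mem X Z i (n - 1 - i) (by omega)

/-- **The key identity (Eisenstein step).**  In a domain `B`, let `ℓ, X, Y, Z, ρ ∈ B`, `s ∈ B[T]`,
`q ≥ 2`, with the two Kronecker relations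

* `(Y - X^q) (Y^q - X) + ℓ ρ = 0` (first step `E₀ → E₁`),
* `G(X) = 0 = G(Z)` for `G = (T - Y^q)(T^q - Y) + ℓ s(T)` (second step `E₁ → E₂`, and the
  dual isogeny `E₁ → E₀`), `Z ≠ X`.

Then there is `d ∈ B` with `(ρ + d Y^q) Y ∈ (X, Z)` and `(ρ + d Y^q) ρ ℓ ∈ (X, Z)`.
At a point where `ρ` is a unit and `Y` vanishes, `ρ + d Y^q` is a unit: so `Y, ℓ ∈ (X, Z)`
locally. -/
theorem h67r_key [IsDomain B] (q : ℕ) (hq : 2 ≤ q) (ℓ X Y Z ρ : B) (s : B[X])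
    (hf : (Y - X ^ q) * (Y ^ q - X) + ℓ * ρ = 0)
    (hGX : (X - Y ^ q) * (X ^ q - Y) + ℓ * s.eval X = 0)
    (hGZ : (Z - Y ^ q) * (Z ^ q - Y) + ℓ * s.eval Z = 0)
    (hne : Z ≠ X) :
    ∃ d : B, (ρ + d * Y ^ q) * Y ∈ Ideal.span {X, Z} ∧
      (ρ + d * Y ^ q) * (ρ * ℓ) ∈ Ideal.span {X, Z} := by
  obtain ⟨d, hd⟩ := h67r_eval_sub s X Z
  set S₁ := ∑ i ∈ Finset.range (q + 1), Z ^ i * X ^ (q + 1 - 1 - i) with hS₁
  set S₂ := ∑ i ∈ Finset.range q, Z ^ i * X ^ (q - 1 - i) with hS₂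
  have h1 : Z ^ (q + 1) - X ^ (q + 1) = (Z - X) * S₁ := h67r_geom X Z (q + 1)
  have h2 : Z ^ q - X ^ q = (Z - X) * S₂ := h67r_geom X Z q
  have hS₁m : S₁ ∈ Ideal.span {X, Z} := h67r_geomsum_mem X Z (q + 1) (by omega)
  have hS₂m : S₂ ∈ Ideal.span {X, Z} := h67r_geomsum_mem X Z q hq
  -- the difference of the two relations
  have hH : (Z - X) * (S₁ - Y - Y ^ q * S₂ + ℓ * d) = 0 := by
    have e1 : (Z - X) * (S₁ - Y - Y ^ q * S₂ + ℓ * d)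
        = (Z ^ (q + 1) - X ^ (q + 1)) - Y * (Z - X) - Y ^ q * (Z ^ q - X ^ q)
          + ℓ * (s.eval Z - s.eval X) := by
      rw [h1, h2, hd]; ring
    rw [e1]
    have e2 : (Z ^ (q + 1) - X ^ (q + 1)) - Y * (Z - X) - Y ^ q * (Z ^ q - X ^ q)
          + ℓ * (s.eval Z - s.eval X)
        = ((Z - Y ^ q) * (Z ^ q - Y) + ℓ * s.eval Z)
          - ((X - Y ^ q) * (X ^ q - Y) + ℓ * s.eval X) := by ring
    rw [e2, hGX, hGZ, sub_zero]
  have hH' : S₁ - Y - Y ^ q * S₂ + ℓ * d = 0 :=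
    (mul_eq_zero.mp hH).resolve_left (sub_ne_zero.mpr hne)
  have hY : Y = S₁ - Y ^ q * S₂ + ℓ * d := by linear_combination -hH'
  have hℓρ : ℓ * ρ = X * (Y + X ^ (q - 1) * Y ^ q - X ^ q) - Y ^ q * Y := by
    obtain ⟨m, rfl⟩ : ∃ m, q = m + 1 := ⟨q - 1, by omega⟩
    simp only [Nat.add_sub_cancel]
    linear_combination hf
  have hXm : X ∈ Ideal.span {X, Z} := Ideal.subset_span (by simp)
  have key1 : (ρ + d * Y ^ q) * Y
      = ρ * S₁ - (ρ * Y ^ q) * S₂ + (d * (Y + X ^ (q - 1) * Y ^ q - X ^ q)) * X := by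
    linear_combination ρ * hY + d * hℓρ
  have hm1 : (ρ + d * Y ^ q) * Y ∈ Ideal.span {X, Z} := by
    rw [key1]
    exact Ideal.add_mem _ (Ideal.sub_mem _ (Ideal.mul_mem_left _ _ hS₁m)
      (Ideal.mul_mem_left _ _ hS₂m)) (Ideal.mul_mem_left _ _ hXm)
  refine ⟨d, hm1, ?_⟩
  have key2 : (ρ + d * Y ^ q) * (ρ * ℓ)
      = ((ρ + d * Y ^ q) * (Y + X ^ (q - 1) * Y ^ q - X ^ q)) * X
        - Y ^ q * ((ρ + d * Y ^ q) * Y) := by
    linear_combination (ρ + d * Y ^ q) * hℓρ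
  rw [key2]
  exact Ideal.sub_mem _ (Ideal.mul_mem_left _ _ hXm) (Ideal.mul_mem_left _ _ hm1)

/-- **Local form of the key identity**: at a prime `𝔫` with `Y ∈ 𝔫`, `ρ ∉ 𝔫`, both `Y` and `ℓ`
lie in `(X, Z)` locally at `𝔫`. -/
theorem h67r_key_local [IsDomain B] (q : ℕ) (hq : 2 ≤ q) (ℓ X Y Z ρ : B) (s : B[X])
    (hf : (Y - X ^ q) * (Y ^ q - X) + ℓ * ρ = 0)
    (hGX : (X - Y ^ q) * (X ^ q - Y) + ℓ * s.eval X = 0)
    (hGZ : (Z - Y ^ q) * (Z ^ q - Y) + ℓ * s.eval Z = 0)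
    (hne : Z ≠ X) (𝔫 : Ideal B) [h𝔫 : 𝔫.IsPrime] (hY : Y ∈ 𝔫) (hρ : ρ ∉ 𝔫) :
    ∃ e : B, e ∉ 𝔫 ∧ e * Y ∈ Ideal.span {X, Z} ∧ e * ℓ ∈ Ideal.span {X, Z} := by
  obtain ⟨d, h1, h2⟩ := h67r_key q hq ℓ X Y Z ρ s hf hGX hGZ hne
  have he : ρ + d * Y ^ q ∉ 𝔫 := by
    intro hmem
    apply hρ
    have hq0 : q ≠ 0 := by omega
    have : d * Y ^ q ∈ 𝔫 := 𝔫.mul_mem_left _ (𝔫.pow_mem_of_mem hY q (by omega))
    have h3 := 𝔫.sub_mem hmem this
    simpa using h3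
  refine ⟨(ρ + d * Y ^ q) * ρ, ?_, ?_, ?_⟩
  · intro hmem
    rcases h𝔫.mem_or_mem hmem with h | h
    · exact he h
    · exact hρ h
  · have : (ρ + d * Y ^ q) * ρ * Y = ρ * ((ρ + d * Y ^ q) * Y) := by ring
    rw [this]
    exact Ideal.mul_mem_left _ _ h1
  · have : (ρ + d * Y ^ q) * ρ * ℓ = (ρ + d * Y ^ q) * (ρ * ℓ) := by ring
    rw [this]
    exact h2

end key

end Fermat.Agent.S36
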