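import Mathlib
import Fermat.Agent.S36.H80Ufd

/-!
# S36 (helper80): regularity of an Eisenstein-type extension `B[Z]` of a regular local ring

Abstract commutative algebra (Mathlib + `H80Ufd`).  Consumer: REG at the supersingular points
of the chart of level `q² M'` over the unramified base (helper67 `H67Reg`, findings #986).

Setting: `B` a noetherian local domain with maximal ideal `(X, Y)` ("regular of dimension two":
`X ≠ 0`, `Y ^ n ∉ (X)`), `R` a domain, `B`-algebra, `B → R` injective, `R = B[Z]`, `Z` a root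
of a monic `G ∈ B[T]` of positive degree with all lower coefficients in `𝔪_B`.

* `h80r_isLocalRing` : `R` is local.
* `h80r_maximalIdeal` : `𝔪_R = 𝔪_B R + (Z) = (X, Y, Z)`.
* `h80r_isNoetherianRing` : `R` is noetherian (finite over `B`).
* `h80r_not_mem_of_integral` : `Y' ^ n ∉ X' R` (integrality + scaling of roots; no normality).
* `h80r_regular` : if moreover `e Y' ∈ (X', Z)` for some `e ∉ (X', Y', Z)` (the key relation),
  then `𝔪_R = (X', Z)`, `Z ^ n ∉ (X')`, `R` is a UFD and integrally closed.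
-/

set_option autoImplicit false
set_option linter.unusedSectionVars false
set_option linter.unnecessarySimpa false

open IsLocalRing Polynomial

namespace Fermat.Agent.S36

section RegExt

variable {B : Type*} [CommRing B] [IsDomain B] [IsNoetherianRing B] [IsLocalRing B]
  {R : Type*} [CommRing R] [IsDomain R] [Algebra B R]

/-- `Z` is integral. -/
theorem h80r_isIntegral_gen (Z : R) (G : B[X]) (hG : G.Monic) (hroot : aeval Z G = 0) :
    IsIntegral B Z := ⟨G, hG, by rwa [← aeval_def]⟩

/-- `R = B[Z]` is integral over `B`. -/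
theorem h80r_isIntegral (Z : R) (hgen : Algebra.adjoin B {Z} = ⊤)
    (G : B[X]) (hG : G.Monic) (hroot : aeval Z G = 0) : Algebra.IsIntegral B R := by
  refine ⟨fun x => ?_⟩
  have h1 : x ∈ Algebra.adjoin B {Z} := by rw [hgen]; trivial
  exact adjoin_le_integralClosure (h80r_isIntegral_gen Z G hG hroot) h1

/-- `R = B[Z]` is a finite `B`-module. -/
theorem h80r_finite (Z : R) (hgen : Algebra.adjoin B {Z} = ⊤)
    (G : B[X]) (hG : G.Monic) (hroot : aeval Z G = 0) : Module.Finite B R := by
  have h1 := (h80r_isIntegral_gen Z G hG hroot).fg_adjoin_singleton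
  rw [hgen] at h1
  exact ⟨by simpa using h1⟩

/-- `R = B[Z]` is noetherian. -/
theorem h80r_isNoetherianRing (Z : R) (hgen : Algebra.adjoin B {Z} = ⊤)
    (G : B[X]) (hG : G.Monic) (hroot : aeval Z G = 0) : IsNoetherianRing R := by
  have := h80r_finite Z hgen G hG hroot
  exact IsNoetherianRing.of_finite B R

/-- every element of `B[Z]` is congruent to a constant modulo `Z`. -/
theorem h80r_exists_const (Z : R) (hgen : Algebra.adjoin B {Z} = ⊤) (x : R) :
    ∃ (b : B) (c : R), x = algebraMap B R b + Z * c := by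
  have h1 : x ∈ Algebra.adjoin B {Z} := by rw [hgen]; trivial
  induction h1 using Algebra.adjoin_induction with
  | mem y hy =>
    rw [Set.mem_singleton_iff] at hy
    exact ⟨0, 1, by rw [hy, map_zero, zero_add, mul_one]⟩
  | algebraMap b => exact ⟨b, 0, by rw [mul_zero, add_zero]⟩
  | add y z _ _ hy hz =>
    obtain ⟨b, c, rfl⟩ := hy
    obtain ⟨b', c', rfl⟩ := hz
    exact ⟨b + b', c + c', by rw [map_add]; ring⟩
  | mul y z _ _ hy hz =>
    obtain ⟨b, c, rfl⟩ := hy
    obtain ⟨b', c', rfl⟩ := hz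
    exact ⟨b * b', algebraMap B R b * c' + c * algebraMap B R b' + Z * c * c',
      by rw [map_mul]; ring⟩

/-- `Z ^ d ∈ 𝔪_B R`. -/
theorem h80r_pow_mem (Z : R) (G : B[X]) (hG : G.Monic) (hroot : aeval Z G = 0)
    (hcoef : ∀ i < G.natDegree, G.coeff i ∈ maximalIdeal B) :
    Z ^ G.natDegree ∈ (maximalIdeal B).map (algebraMap B R) := by
  have h1 : aeval Z G = Z ^ G.natDegree +
      ∑ i ∈ Finset.range G.natDegree, algebraMap B R (G.coeff i) * Z ^ i := by
    rw [aeval_eq_sum_range, Finset.sum_range_succ, add_comm]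
    congr 1
    · rw [← leadingCoeff, hG.leadingCoeff, one_smul]
    · refine Finset.sum_congr rfl fun i _ => ?_
      rw [Algebra.smul_def]
  rw [hroot] at h1
  have h2 : Z ^ G.natDegree =
      -∑ i ∈ Finset.range G.natDegree, algebraMap B R (G.coeff i) * Z ^ i := by
    linear_combination -h1
  rw [h2]
  refine Ideal.neg_mem_iff _ |>.mpr (Ideal.sum_mem _ fun i hi => ?_)
  exact Ideal.mul_mem_right _ _ (Ideal.mem_map_of_mem _ (hcoef i (Finset.mem_range.mp hi)))

/-- the ideal `𝔪_B R + (Z)`. -/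
def h80rI (B : Type*) [CommRing B] [IsLocalRing B] {R : Type*} [CommRing R] [Algebra B R]
    (Z : R) : Ideal R :=
  (maximalIdeal B).map (algebraMap B R) ⊔ Ideal.span {Z}

/-- every maximal ideal of `R` is `𝔪_B R + (Z)`. -/
theorem h80r_eq_of_isMaximal (Z : R) (hgen : Algebra.adjoin B {Z} = ⊤)
    (G : B[X]) (hG : G.Monic) (_hdeg : 0 < G.natDegree) (hroot : aeval Z G = 0)
    (hcoef : ∀ i < G.natDegree, G.coeff i ∈ maximalIdeal B)
    (M : Ideal R) (hM : M.IsMaximal) : M = h80rI B Z := by
  have hint := h80r_isIntegral Z hgen G hG hroot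
  have hcm : (M.comap (algebraMap B R)).IsMaximal :=
    Ideal.isMaximal_comap_of_isIntegral_of_isMaximal M
  have hcm' : M.comap (algebraMap B R) = maximalIdeal B := IsLocalRing.eq_maximalIdeal hcm
  have hle1 : (maximalIdeal B).map (algebraMap B R) ≤ M := by
    rw [Ideal.map_le_iff_le_comap, hcm']
  have hZ : Z ∈ M := by
    have h1 : Z ^ G.natDegree ∈ M := hle1 (h80r_pow_mem Z G hG hroot hcoef)
    exact hM.isPrime.mem_of_pow_mem _ h1
  have hle : h80rI B Z ≤ M := by
    refine sup_le hle1 ?_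
    rw [Ideal.span_le]
    intro x hx
    rw [Set.mem_singleton_iff] at hx
    rw [hx]; exact hZ
  apply le_antisymm
  · intro x hx
    obtain ⟨b, c, rfl⟩ := h80r_exists_const Z hgen x
    have hZc : Z * c ∈ h80rI B Z :=
      Ideal.mul_mem_right _ _ (Ideal.mem_sup_right (Ideal.subset_span (Set.mem_singleton Z)))
    have hb : algebraMap B R b ∈ M := by
      have := M.sub_mem hx (hle hZc)
      simpa using this
    have hb' : b ∈ maximalIdeal B := by
      rw [← hcm']; exact hb
    exact Ideal.add_mem _ (Ideal.mem_sup_left (Ideal.mem_map_of_mem _ hb')) hZc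
  · exact hle

/-- **`R = B[Z]` is local.** -/
theorem h80r_isLocalRing (Z : R) (hgen : Algebra.adjoin B {Z} = ⊤)
    (G : B[X]) (hG : G.Monic) (hdeg : 0 < G.natDegree) (hroot : aeval Z G = 0)
    (hcoef : ∀ i < G.natDegree, G.coeff i ∈ maximalIdeal B) : IsLocalRing R := by
  obtain ⟨M, hM⟩ := Ideal.exists_maximal R
  refine IsLocalRing.of_unique_max_ideal ⟨M, hM, fun M' hM' => ?_⟩
  rw [h80r_eq_of_isMaximal Z hgen G hG hdeg hroot hcoef M hM,
    h80r_eq_of_isMaximal Z hgen G hG hdeg hroot hcoef M' hM']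

/-- **the maximal ideal of `R = B[Z]`** is `𝔪_B R + (Z)`. -/
theorem h80r_maximalIdeal [IsLocalRing R] (Z : R) (hgen : Algebra.adjoin B {Z} = ⊤)
    (G : B[X]) (hG : G.Monic) (hdeg : 0 < G.natDegree) (hroot : aeval Z G = 0)
    (hcoef : ∀ i < G.natDegree, G.coeff i ∈ maximalIdeal B) :
    maximalIdeal R = (maximalIdeal B).map (algebraMap B R) ⊔ Ideal.span {Z} :=
  h80r_eq_of_isMaximal Z hgen G hG hdeg hroot hcoef _ (maximalIdeal.isMaximal R)

/-- **descent of divisibility along an integral extension** (scaling of roots, no normality):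
if `algebraMap y ∈ (algebraMap x) R` with `R` integral over `B` and `B → R` injective, then some
power of `y` lies in `x B`. -/
theorem h80r_pow_mem_of_integral [Algebra.IsIntegral B R]
    (hinj : Function.Injective (algebraMap B R)) (x y : B)
    (h : algebraMap B R y ∈ Ideal.span {algebraMap B R x}) :
    ∃ m : ℕ, 0 < m ∧ y ^ m ∈ Ideal.span {x} := by
  obtain ⟨c, hc⟩ := Ideal.mem_span_singleton'.mp h
  obtain ⟨p, hp, hpc⟩ := Algebra.IsIntegral.isIntegral (R := B) c
  have h1 : aeval (algebraMap B R x * c) (scaleRoots p x) = 0 :=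
    scaleRoots_aeval_eq_zero (by rwa [aeval_def])
  have h2 : algebraMap B R x * c = algebraMap B R y := by rw [← hc]; ring
  rw [h2, aeval_algebraMap_apply] at h1
  have h3 : eval y (scaleRoots p x) = 0 := by
    apply hinj
    rw [map_zero, ← h1]
    simp [aeval_def]
  have hm : (scaleRoots p x).Monic := (monic_scaleRoots_iff x).mpr hp
  have hd : (scaleRoots p x).natDegree = p.natDegree := natDegree_scaleRoots p x
  have hpos : 0 < p.natDegree := by
    rcases Nat.eq_zero_or_pos p.natDegree with h0 | h0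
    · exfalso
      have hp1 : p = 1 := Polynomial.eq_one_of_monic_natDegree_zero hp h0
      rw [hp1] at hpc
      simp at hpc
    · exact h0
  refine ⟨p.natDegree, hpos, ?_⟩
  have h4 : eval y (scaleRoots p x) = y ^ p.natDegree +
      ∑ i ∈ Finset.range p.natDegree, (scaleRoots p x).coeff i * y ^ i := by
    rw [eval_eq_sum_range, hd, Finset.sum_range_succ, add_comm]
    congr 1
    rw [← hd, ← leadingCoeff, hm.leadingCoeff, one_mul]
  rw [h3] at h4
  have h5 : y ^ p.natDegree =
      -∑ i ∈ Finset.range p.natDegree, (scaleRoots p x).coeff i * y ^ i := by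
    linear_combination -h4
  rw [h5]
  refine Ideal.neg_mem_iff _ |>.mpr (Ideal.sum_mem _ fun i hi => ?_)
  have hi' : i < p.natDegree := Finset.mem_range.mp hi
  rw [coeff_scaleRoots]
  obtain ⟨k, hk⟩ : ∃ k, p.natDegree - i = k + 1 := ⟨p.natDegree - i - 1, by omega⟩
  rw [hk, pow_succ]
  rw [Ideal.mem_span_singleton']
  exact ⟨p.coeff i * x ^ k * y ^ i, by ring⟩

/-- **the regularity theorem.**  `B` regular of dimension two with parameters `X, Y`,
`R = B[Z]` an Eisenstein-type extension, with the key relation `e Y ∈ (X, Z)`, `e ∉ 𝔪_R`.  Then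
`𝔪_R = (X, Z)` and `R` is regular of dimension two with parameters `X, Z`. -/
theorem h80r_two_gen [IsLocalRing R]
    (hinj : Function.Injective (algebraMap B R))
    (X₀ Y₀ : B) (hmaxB : maximalIdeal B = Ideal.span {X₀, Y₀})
    (hnil : ∀ n : ℕ, Y₀ ^ n ∉ Ideal.span {X₀})
    (Z : R) (hgen : Algebra.adjoin B {Z} = ⊤)
    (G : B[X]) (hG : G.Monic) (hdeg : 0 < G.natDegree) (hroot : aeval Z G = 0)
    (hcoef : ∀ i < G.natDegree, G.coeff i ∈ maximalIdeal B)
    (e : R) (he : e ∉ maximalIdeal R)
    (hkey : e * algebraMap B R Y₀ ∈ Ideal.span {algebraMap B R X₀, Z}) :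
    maximalIdeal R = Ideal.span {algebraMap B R X₀, Z} ∧
      ∀ n : ℕ, Z ^ n ∉ Ideal.span {algebraMap B R X₀} := by
  have hint := h80r_isIntegral Z hgen G hG hroot
  have hmax := h80r_maximalIdeal Z hgen G hG hdeg hroot hcoef
  have heu : IsUnit e := by
    by_contra h
    exact he ((IsLocalRing.mem_maximalIdeal e).mpr h)
  have hY : algebraMap B R Y₀ ∈ Ideal.span {algebraMap B R X₀, Z} := by
    obtain ⟨v, hv⟩ := heu.exists_left_inv
    have : algebraMap B R Y₀ = v * (e * algebraMap B R Y₀) := by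
      rw [← mul_assoc, hv, one_mul]
    rw [this]
    exact Ideal.mul_mem_left _ _ hkey
  have hXmem : algebraMap B R X₀ ∈ Ideal.span {algebraMap B R X₀, Z} :=
    Ideal.subset_span (by simp)
  have hZmem : Z ∈ Ideal.span {algebraMap B R X₀, Z} := Ideal.subset_span (by simp)
  have hmax2 : maximalIdeal R = Ideal.span {algebraMap B R X₀, Z} := by
    rw [hmax]
    apply le_antisymm
    · refine sup_le ?_ ?_
      · rw [hmaxB, Ideal.map_span, Ideal.span_le]
        rintro _ ⟨b, hb, rfl⟩
        rcases hb with rfl | hb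
        · exact hXmem
        · rw [Set.mem_singleton_iff] at hb
          rw [hb]; exact hY
      · rw [Ideal.span_le]
        intro x hx
        rw [Set.mem_singleton_iff] at hx
        rw [hx]; exact hZmem
    · rw [Ideal.span_le]
      rintro x (rfl | hx)
      · refine Ideal.mem_sup_left (Ideal.mem_map_of_mem _ ?_)
        rw [hmaxB]; exact Ideal.subset_span (by simp)
      · rw [Set.mem_singleton_iff] at hx
        rw [hx]
        exact Ideal.mem_sup_right (Ideal.subset_span (Set.mem_singleton Z))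
  refine ⟨hmax2, ?_⟩
  intro n hn
  -- `Y ^ n ∈ X R`
  obtain ⟨c₁, c₂, hc⟩ := Ideal.mem_span_pair.mp hY
  have hYn : algebraMap B R (Y₀ ^ n) ∈ Ideal.span {algebraMap B R X₀} := by
    rw [map_pow, ← hc]
    rw [add_pow]
    refine Ideal.sum_mem _ fun k hk => ?_
    rcases Nat.eq_zero_or_pos k with rfl | hk0
    · -- the term `(c₂ Z) ^ n`
      simp only [pow_zero, one_mul, Nat.sub_zero, Nat.choose_zero_right, Nat.cast_one, mul_one]
      rw [mul_pow]
      exact Ideal.mul_mem_left _ _ hn
    · obtain ⟨k', rfl⟩ : ∃ k', k = k' + 1 := ⟨k - 1, by omega⟩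
      have : (c₁ * algebraMap B R X₀) ^ (k' + 1) * (c₂ * Z) ^ (n - (k' + 1)) *
          (n.choose (k' + 1) : R) =
          ((c₁ * algebraMap B R X₀) ^ k' * c₁ * (c₂ * Z) ^ (n - (k' + 1)) *
            (n.choose (k' + 1) : R)) * algebraMap B R X₀ := by
        rw [pow_succ]; ring
      rw [this]
      exact Ideal.mul_mem_left _ _ (Ideal.subset_span (Set.mem_singleton _))
  obtain ⟨m, hm, hmem⟩ := h80r_pow_mem_of_integral hinj X₀ (Y₀ ^ n) hYn
  rw [← pow_mul] at hmem
  exact hnil _ hmem

/-- **REG (abstract).**  In the situation of `h80r_two_gen`, `R = B[Z]` is a noetherian local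
domain with maximal ideal `(X, Z)`, a UFD, and integrally closed. -/
theorem h80r_regular
    (hinj : Function.Injective (algebraMap B R))
    (X₀ Y₀ : B) (hX0 : X₀ ≠ 0) (hmaxB : maximalIdeal B = Ideal.span {X₀, Y₀})
    (hnil : ∀ n : ℕ, Y₀ ^ n ∉ Ideal.span {X₀})
    (Z : R) (hgen : Algebra.adjoin B {Z} = ⊤)
    (G : B[X]) (hG : G.Monic) (hdeg : 0 < G.natDegree) (hroot : aeval Z G = 0)
    (hcoef : ∀ i < G.natDegree, G.coeff i ∈ maximalIdeal B)
    (e : R) (he : e ∉ h80rI B Z)
    (hkey : e * algebraMap B R Y₀ ∈ Ideal.span {algebraMap B R X₀, Z}) :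
    ∃ (_ : IsLocalRing R), IsNoetherianRing R ∧
      maximalIdeal R = Ideal.span {algebraMap B R X₀, Z} ∧
      (∀ n : ℕ, Z ^ n ∉ Ideal.span {algebraMap B R X₀}) ∧
      Prime (algebraMap B R X₀) ∧
      UniqueFactorizationMonoid R ∧ IsIntegrallyClosed R := by
  have hloc := h80r_isLocalRing Z hgen G hG hdeg hroot hcoef
  have hnoe := h80r_isNoetherianRing Z hgen G hG hroot
  have he' : e ∉ maximalIdeal R := by
    rw [h80r_maximalIdeal Z hgen G hG hdeg hroot hcoef]
    exact he
  obtain ⟨h1, h2⟩ := h80r_two_gen hinj X₀ Y₀ hmaxB hnil Z hgen G hG hdeg hroot hcoef e he' hkey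
  have hX0' : algebraMap B R X₀ ≠ 0 := fun h => hX0 (hinj (by rw [h, map_zero]))
  have hufd := h80u_ufd_of_two_gen (algebraMap B R X₀) Z hX0' h1 h2
  have hpr := (h80u_prime_of_two_gen (algebraMap B R X₀) Z hX0' h1 h2).1
  exact ⟨hloc, hnoe, h1, h2, hpr, hufd, inferInstance⟩

end RegExt

end Fermat.Agent.S36
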