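import Mathlib

/-!
# S36 (helper80): REG transfer — a normal local subring is the local ring of the chart

Abstract commutative algebra, Mathlib only.  Consumer: block (R) of S36 (sub-architect helper62):
the local rings `R = B'[Z]` (resp. `R = B'[S]_𝔐`) produced by `h80r_regular`
(resp. `h80o_regular`) are regular, hence integrally closed; this file shows that such an `R` *is*
the local ring of the normal chart `Bc` at the closed point `𝔫`, and transfers the two generators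
of `𝔪_R` to the two-generator datum of `(Bc, 𝔫)` consumed by `h16r_lp_of_two_gen`.

Everything lives in a field `F`: `R` and `Bc` are rings with injective maps to `F`.

* `h80tLoc 𝔫 : Subring F` : the local ring `Bc_𝔫 ⊆ F`
  (`f` with `s f = b`, `s ∉ 𝔫`); `h80t_algebraMap_mem`, `h80t_inv_mem`, `h80t_adjoin_le`.
* `h80t_exists`, `h80t_exists_of_frac` : `Bc ⊆ R` (`Bc` integral over `R`, `R` integrally
  closed in `F`, resp. `R` integrally closed and the elements of `Bc` are fractions of elements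
  of `R`).
* `h80t_mem_iff` : `𝔪_R ∩ Bc = 𝔫` (`𝔫` maximal, `Bc ⊆ R ⊆ Bc_𝔫`).
* `h80t_two_gen` : `𝔪_R = (x', y')` ⟹ there are `x, y ∈ 𝔫` (`x = s₁ x'`, `y = s₂ y'`,
  `s₁, s₂ ∉ 𝔫`) with `∀ z ∈ 𝔫, ∃ s ∉ 𝔫, s z ∈ (x, y)`.
* `h80t_sub_of_localization` : `R ⊆ Bc_𝔫` for a localisation `R = R'_𝔐` of a subring `R'`.
* `h80t_closed_of_isIntegrallyClosed` : the hypothesis "integrally closed in `F`" from
  `IsIntegrallyClosed R` and `F = Frac R`.
-/

set_option autoImplicit false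
set_option linter.unusedSectionVars false
set_option linter.unnecessarySimpa false

open IsLocalRing

namespace Fermat.Agent.S36

section Loc

variable {F : Type*} [Field F] {Bc : Type*} [CommRing Bc] [Algebra Bc F]

/-- the local ring `Bc_𝔫` as a subring of `F`. -/
def h80tLoc (𝔫 : Ideal Bc) [h𝔫 : 𝔫.IsPrime] : Subring F where
  carrier := {f | ∃ s b : Bc, s ∉ 𝔫 ∧ algebraMap Bc F s * f = algebraMap Bc F b}
  mul_mem' := by
    rintro f g ⟨s, b, hs, hf⟩ ⟨s', b', hs', hg⟩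
    refine ⟨s * s', b * b', fun h => ?_, ?_⟩
    · rcases h𝔫.mem_or_mem h with h | h
      · exact hs h
      · exact hs' h
    · rw [map_mul, map_mul, ← hf, ← hg]; ring
  one_mem' := ⟨1, 1, fun h => h𝔫.ne_top ((Ideal.eq_top_iff_one _).mpr h), by simp⟩
  add_mem' := by
    rintro f g ⟨s, b, hs, hf⟩ ⟨s', b', hs', hg⟩
    refine ⟨s * s', b * s' + b' * s, fun h => ?_, ?_⟩
    · rcases h𝔫.mem_or_mem h with h | h
      · exact hs h
      · exact hs' h
    · rw [map_mul, map_add, map_mul, map_mul, ← hf, ← hg]; ring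
  zero_mem' := ⟨1, 0, fun h => h𝔫.ne_top ((Ideal.eq_top_iff_one _).mpr h), by simp⟩
  neg_mem' := by
    rintro f ⟨s, b, hs, hf⟩
    exact ⟨s, -b, hs, by rw [map_neg, ← hf]; ring⟩

theorem h80t_mem_loc (𝔫 : Ideal Bc) [𝔫.IsPrime] (f : F) :
    f ∈ h80tLoc (F := F) 𝔫 ↔
      ∃ s b : Bc, s ∉ 𝔫 ∧ algebraMap Bc F s * f = algebraMap Bc F b := Iff.rfl

theorem h80t_algebraMap_mem (𝔫 : Ideal Bc) [h𝔫 : 𝔫.IsPrime] (b : Bc) :
    algebraMap Bc F b ∈ h80tLoc (F := F) 𝔫 :=
  ⟨1, b, fun h => h𝔫.ne_top ((Ideal.eq_top_iff_one _).mpr h), by simp⟩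

theorem h80t_inv_mem (𝔫 : Ideal Bc) [𝔫.IsPrime]
    (hBinj : Function.Injective (algebraMap Bc F)) (s : Bc) (hs : s ∉ 𝔫) :
    (algebraMap Bc F s)⁻¹ ∈ h80tLoc (F := F) 𝔫 := by
  refine ⟨s, 1, hs, ?_⟩
  have h0 : algebraMap Bc F s ≠ 0 := by
    intro h
    apply hs
    have : s = 0 := hBinj (by rw [h, map_zero])
    rw [this]; exact 𝔫.zero_mem
  rw [mul_inv_cancel₀ h0, map_one]

/-- quotients `b / s`, `s ∉ 𝔫`, lie in `Bc_𝔫`. -/
theorem h80t_div_mem (𝔫 : Ideal Bc) [h𝔫 : 𝔫.IsPrime]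
    (hBinj : Function.Injective (algebraMap Bc F)) (b s : Bc) (hs : s ∉ 𝔫) :
    algebraMap Bc F b / algebraMap Bc F s ∈ h80tLoc (F := F) 𝔫 := by
  rw [div_eq_mul_inv]
  exact Subring.mul_mem _ (h80t_algebraMap_mem 𝔫 b) (h80t_inv_mem 𝔫 hBinj s hs)

/-- units of `Bc_𝔫`: if `s f = b` with `s, b ∉ 𝔫` then `f⁻¹ ∈ Bc_𝔫`. -/
theorem h80t_inv_mem_of (𝔫 : Ideal Bc) [𝔫.IsPrime]
    (hBinj : Function.Injective (algebraMap Bc F)) (f : F) (s b : Bc) (hb : b ∉ 𝔫)
    (hf : algebraMap Bc F s * f = algebraMap Bc F b) :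
    f⁻¹ ∈ h80tLoc (F := F) 𝔫 := by
  have hb0 : algebraMap Bc F b ≠ 0 := by
    intro h
    apply hb
    have : b = 0 := hBinj (by rw [h, map_zero])
    rw [this]; exact 𝔫.zero_mem
  have hf0 : f ≠ 0 := by
    rintro rfl
    rw [mul_zero] at hf
    exact hb0 hf.symm
  refine ⟨b, s, hb, ?_⟩
  rw [← hf]
  field_simp

/-- a subring of `F` generated over a subring of `Bc_𝔫` by elements of `Bc_𝔫` lies in `Bc_𝔫`
(ring-hom form): if `R = R₀[T]` (`Algebra.adjoin R₀ T = ⊤`) and the images of `R₀` and of `T`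
lie in `Bc_𝔫`, then the image of `R` does. -/
theorem h80t_adjoin_le (𝔫 : Ideal Bc) [h𝔫 : 𝔫.IsPrime]
    {R₀ R : Type*} [CommRing R₀] [CommRing R] [Algebra R₀ R] [Algebra R₀ F] [Algebra R F]
    [IsScalarTower R₀ R F] (T : Set R) (hT : Algebra.adjoin R₀ T = ⊤)
    (h0 : ∀ r : R₀, algebraMap R₀ F r ∈ h80tLoc (F := F) 𝔫)
    (h1 : ∀ t ∈ T, algebraMap R F t ∈ h80tLoc (F := F) 𝔫) (r : R) :
    algebraMap R F r ∈ h80tLoc (F := F) 𝔫 := by
  have hr : r ∈ Algebra.adjoin R₀ T := by rw [hT]; trivial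
  induction hr using Algebra.adjoin_induction with
  | mem x hx => exact h1 x hx
  | algebraMap a =>
    rw [← IsScalarTower.algebraMap_apply]
    exact h0 a
  | add x y _ _ hx hy => rw [map_add]; exact Subring.add_mem _ hx hy
  | mul x y _ _ hx hy => rw [map_mul]; exact Subring.mul_mem _ hx hy

end Loc

section Transfer

variable {F : Type*} [Field F]
  {R : Type*} [CommRing R] [IsLocalRing R] [Algebra R F]
  {Bc : Type*} [CommRing Bc] [Algebra Bc F]

/-- `Bc ⊆ R`. -/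
theorem h80t_exists
    (hclosed : ∀ x : F, IsIntegral R x → ∃ r : R, algebraMap R F r = x)
    (hint : ∀ b : Bc, IsIntegral R (algebraMap Bc F b)) (b : Bc) :
    ∃ r : R, algebraMap R F r = algebraMap Bc F b := hclosed _ (hint b)

/-- an element of `F` which is integral over the integrally closed domain `R` and is a fraction
of elements of `R` lies in `R` (no hypothesis `F = Frac R`). -/
theorem h80t_closed_of_frac [IsDomain R] [IsIntegrallyClosed R]
    (hRinj : Function.Injective (algebraMap R F)) (x : F) (hx : IsIntegral R x)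
    (r₁ r₂ : R) (hr₂ : r₂ ≠ 0) (h : x * algebraMap R F r₂ = algebraMap R F r₁) :
    ∃ r : R, algebraMap R F r = x := by
  classical
  let K := FractionRing R
  have hg : Function.Injective (Algebra.ofId R F) := fun a b hab => hRinj hab
  let φ : K →ₐ[R] F := IsFractionRing.liftAlgHom (K := K) (g := Algebra.ofId R F) hg
  have hφinj : Function.Injective φ := φ.toRingHom.injective
  have h2 : algebraMap R K r₂ ≠ 0 := by
    intro h0
    exact hr₂ (IsFractionRing.injective R K (by rw [h0, map_zero]))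
  have h2F : algebraMap R F r₂ ≠ 0 := by
    intro h0
    exact hr₂ (hRinj (by rw [h0, map_zero]))
  have hφ : φ (algebraMap R K r₁ / algebraMap R K r₂) = x := by
    rw [map_div₀, φ.commutes, φ.commutes, ← h, mul_div_assoc, div_self h2F, mul_one]
  have hint : IsIntegral R (algebraMap R K r₁ / algebraMap R K r₂) := by
    rw [← hφ] at hx
    exact (isIntegral_algHom_iff φ hφinj).mp hx
  obtain ⟨r, hr⟩ := IsIntegrallyClosed.isIntegral_iff.mp hint
  refine ⟨r, ?_⟩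
  rw [← hφ, ← hr, φ.commutes]

/-- `Bc ⊆ R` when `Bc` is integral over the integrally closed domain `R` and every element of
`Bc` is a fraction of elements of `R`. -/
theorem h80t_exists_of_frac [IsDomain R] [IsIntegrallyClosed R]
    (hRinj : Function.Injective (algebraMap R F))
    (hint : ∀ b : Bc, IsIntegral R (algebraMap Bc F b))
    (hfrac : ∀ b : Bc, ∃ r₁ r₂ : R, r₂ ≠ 0 ∧
      algebraMap Bc F b * algebraMap R F r₂ = algebraMap R F r₁) (b : Bc) :
    ∃ r : R, algebraMap R F r = algebraMap Bc F b := by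
  obtain ⟨r₁, r₂, hr₂, h⟩ := hfrac b
  exact h80t_closed_of_frac hRinj _ (hint b) r₁ r₂ hr₂ h

/-- `𝔫 ⊆ 𝔪_R` (only `R ⊆ Bc_𝔫` is used). -/
theorem h80t_mem_maximalIdeal (𝔫 : Ideal Bc) [h𝔫 : 𝔫.IsPrime]
    (hBinj : Function.Injective (algebraMap Bc F))
    (hsub : ∀ r : R, algebraMap R F r ∈ h80tLoc (F := F) 𝔫)
    (b : Bc) (r : R) (hbr : algebraMap R F r = algebraMap Bc F b) (hb : b ∈ 𝔫) :
    r ∈ maximalIdeal R := by
  rw [IsLocalRing.mem_maximalIdeal]
  intro hu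
  obtain ⟨r', hr'⟩ := hu.exists_right_inv
  obtain ⟨s, b', hs, hsb⟩ := hsub r'
  apply hs
  have h1 : algebraMap Bc F (b * b') = algebraMap Bc F s := by
    rw [map_mul, ← hsb, ← hbr]
    have : algebraMap R F r * algebraMap R F r' = 1 := by rw [← map_mul, hr', map_one]
    calc algebraMap R F r * (algebraMap Bc F s * algebraMap R F r')
        = algebraMap Bc F s * (algebraMap R F r * algebraMap R F r') := by ring
      _ = algebraMap Bc F s := by rw [this, mul_one]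
  rw [← hBinj h1]
  exact 𝔫.mul_mem_right _ hb

/-- **`𝔪_R ∩ Bc = 𝔫`.** -/
theorem h80t_mem_iff (𝔫 : Ideal Bc) [h𝔫 : 𝔫.IsMaximal]
    (hRinj : Function.Injective (algebraMap R F))
    (hBinj : Function.Injective (algebraMap Bc F))
    (hBR : ∀ b : Bc, ∃ r : R, algebraMap R F r = algebraMap Bc F b)
    (hsub : ∀ r : R, algebraMap R F r ∈ h80tLoc (F := F) 𝔫)
    (b : Bc) (r : R) (hbr : algebraMap R F r = algebraMap Bc F b) :
    b ∈ 𝔫 ↔ r ∈ maximalIdeal R := by
  constructor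
  · exact h80t_mem_maximalIdeal 𝔫 hBinj hsub b r hbr
  · intro hr
    by_contra hb
    obtain ⟨c, n, hn, hc⟩ := h𝔫.exists_inv hb
    obtain ⟨rc, hrc⟩ := hBR c
    obtain ⟨rn, hrn⟩ := hBR n
    have hrn' : rn ∈ maximalIdeal R :=
      h80t_mem_maximalIdeal 𝔫 hBinj hsub n rn hrn hn
    have h1 : (1 : R) = rc * r + rn := by
      apply hRinj
      rw [map_add, map_mul, hrc, hbr, hrn, map_one, ← map_mul, ← map_add, hc, map_one]
    have h2 : (1 : R) ∈ maximalIdeal R := by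
      rw [h1]
      exact (maximalIdeal R).add_mem ((maximalIdeal R).mul_mem_left _ hr) hrn'
    exact (maximalIdeal.isMaximal R).ne_top ((Ideal.eq_top_iff_one _).mpr h2)

/-- elements of `Bc` outside `𝔫` are units of `R`. -/
theorem h80t_isUnit (𝔫 : Ideal Bc) [h𝔫 : 𝔫.IsMaximal]
    (hRinj : Function.Injective (algebraMap R F))
    (hBinj : Function.Injective (algebraMap Bc F))
    (hBR : ∀ b : Bc, ∃ r : R, algebraMap R F r = algebraMap Bc F b)
    (hsub : ∀ r : R, algebraMap R F r ∈ h80tLoc (F := F) 𝔫)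
    (s : Bc) (hs : s ∉ 𝔫) (rs : R) (hrs : algebraMap R F rs = algebraMap Bc F s) :
    IsUnit rs := by
  by_contra hu
  exact hs ((h80t_mem_iff 𝔫 hRinj hBinj hBR hsub s rs hrs).mpr
    ((IsLocalRing.mem_maximalIdeal rs).mpr hu))

/-- **Transfer of the two generators.**  If `𝔪_R = (x', y')` then there are `x, y ∈ 𝔫` with
`x = s₁ x'`, `y = s₂ y'` (`s₁, s₂ ∈ Bc ∖ 𝔫`) and `∀ z ∈ 𝔫, ∃ s ∉ 𝔫, s z ∈ (x, y)`. -/
theorem h80t_two_gen (𝔫 : Ideal Bc) [h𝔫 : 𝔫.IsMaximal]
    (hRinj : Function.Injective (algebraMap R F))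
    (hBinj : Function.Injective (algebraMap Bc F))
    (hBR : ∀ b : Bc, ∃ r : R, algebraMap R F r = algebraMap Bc F b)
    (hsub : ∀ r : R, algebraMap R F r ∈ h80tLoc (F := F) 𝔫)
    (x' y' : R) (hmax : maximalIdeal R = Ideal.span {x', y'}) :
    ∃ x ∈ 𝔫, ∃ y ∈ 𝔫,
      (∃ s₁, s₁ ∉ 𝔫 ∧ algebraMap Bc F x = algebraMap Bc F s₁ * algebraMap R F x') ∧
      (∃ s₂, s₂ ∉ 𝔫 ∧ algebraMap Bc F y = algebraMap Bc F s₂ * algebraMap R F y') ∧
      ∀ z ∈ 𝔫, ∃ s, s ∉ 𝔫 ∧ s * z ∈ Ideal.span {x, y} := by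
  classical
  have hpr : 𝔫.IsPrime := h𝔫.isPrime
  have hx'm : x' ∈ maximalIdeal R := by rw [hmax]; exact Ideal.subset_span (by simp)
  have hy'm : y' ∈ maximalIdeal R := by rw [hmax]; exact Ideal.subset_span (by simp)
  obtain ⟨s₁, x, hs₁, hx⟩ := hsub x'
  obtain ⟨s₂, y, hs₂, hy⟩ := hsub y'
  obtain ⟨rs₁, hrs₁⟩ := hBR s₁
  obtain ⟨rs₂, hrs₂⟩ := hBR s₂
  have hxn : x ∈ 𝔫 := by
    refine (h80t_mem_iff 𝔫 hRinj hBinj hBR hsub x (rs₁ * x') ?_).mpr
      ((maximalIdeal R).mul_mem_left _ hx'm)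
    rw [map_mul, hrs₁, hx]
  have hyn : y ∈ 𝔫 := by
    refine (h80t_mem_iff 𝔫 hRinj hBinj hBR hsub y (rs₂ * y') ?_).mpr
      ((maximalIdeal R).mul_mem_left _ hy'm)
    rw [map_mul, hrs₂, hy]
  refine ⟨x, hxn, y, hyn, ⟨s₁, hs₁, hx.symm⟩, ⟨s₂, hs₂, hy.symm⟩, ?_⟩
  intro z hz
  obtain ⟨rz, hrz⟩ := hBR z
  have hrzm : rz ∈ maximalIdeal R :=
    (h80t_mem_iff 𝔫 hRinj hBinj hBR hsub z rz hrz).mp hz
  rw [hmax, Ideal.mem_span_pair] at hrzm
  obtain ⟨a, b, hab⟩ := hrzm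
  obtain ⟨s₃, a₁, hs₃, ha⟩ := hsub a
  obtain ⟨s₄, b₁, hs₄, hb⟩ := hsub b
  refine ⟨s₁ * s₂ * s₃ * s₄, ?_, ?_⟩
  · intro h
    rcases hpr.mem_or_mem h with h | h
    · rcases hpr.mem_or_mem h with h | h
      · rcases hpr.mem_or_mem h with h | h
        · exact hs₁ h
        · exact hs₂ h
      · exact hs₃ h
    · exact hs₄ h
  · rw [Ideal.mem_span_pair]
    refine ⟨a₁ * s₂ * s₄, b₁ * s₁ * s₃, ?_⟩
    apply hBinj
    simp only [map_add, map_mul]
    rw [← hrz, ← hab, map_add, map_mul, map_mul, ← ha, ← hb, ← hx, ← hy]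
    ring

/-- `R ⊆ Bc_𝔫` for a localisation `R = R'_𝔐`: it suffices that `R' ⊆ Bc_𝔫` and that the
elements of `R' ∖ 𝔐` are units of `Bc_𝔫`. -/
theorem h80t_sub_of_localization (𝔫 : Ideal Bc) [𝔫.IsPrime]
    {R' : Type*} [CommRing R'] [Algebra R' R] [Algebra R' F] [IsScalarTower R' R F]
    (𝔐 : Ideal R') [𝔐.IsPrime] [IsLocalization.AtPrime R 𝔐]
    (hsub' : ∀ r : R', algebraMap R' F r ∈ h80tLoc (F := F) 𝔫)
    (hunit : ∀ r : R', r ∉ 𝔐 → (algebraMap R' F r)⁻¹ ∈ h80tLoc (F := F) 𝔫) (r : R) :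
    algebraMap R F r ∈ h80tLoc (F := F) 𝔫 := by
  obtain ⟨⟨a, t⟩, hat⟩ := IsLocalization.mk'_surjective 𝔐.primeCompl r
  have h1 : r * algebraMap R' R (t : R') = algebraMap R' R a := by
    rw [← hat]; exact IsLocalization.mk'_spec R a t
  have h2 : algebraMap R F r * algebraMap R' F (t : R') = algebraMap R' F a := by
    rw [IsScalarTower.algebraMap_apply R' R F, IsScalarTower.algebraMap_apply R' R F,
      ← map_mul, h1]
  have ht0 : algebraMap R' F (t : R') ≠ 0 := by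
    intro h
    have hu : IsUnit (algebraMap R' R (t : R')) := IsLocalization.map_units R t
    rw [IsScalarTower.algebraMap_apply R' R F] at h
    obtain ⟨v, hv⟩ := hu.exists_left_inv
    have : (1 : F) = 0 := by
      calc (1 : F) = algebraMap R F (v * algebraMap R' R (t : R')) := by rw [hv, map_one]
        _ = 0 := by rw [map_mul, h, mul_zero]
    exact one_ne_zero this
  have h3 : algebraMap R F r = algebraMap R' F a * (algebraMap R' F (t : R'))⁻¹ := by
    rw [← h2, mul_assoc, mul_inv_cancel₀ ht0, mul_one]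
  rw [h3]
  exact Subring.mul_mem _ (hsub' a) (hunit _ t.2)

/-- "integrally closed in `F`" from `IsIntegrallyClosed R` and `F = Frac R`. -/
theorem h80t_closed_of_isIntegrallyClosed [IsDomain R] [IsIntegrallyClosed R]
    [IsFractionRing R F] (x : F) (hx : IsIntegral R x) : ∃ r : R, algebraMap R F r = x :=
  IsIntegrallyClosed.isIntegral_iff.mp hx

/-- `F = Frac R` when `F = Frac Bc` and `Bc ⊆ R` (`R → F` injective). -/
theorem h80t_isFractionRing [IsDomain R] [IsDomain Bc] [IsFractionRing Bc F]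
    (hRinj : Function.Injective (algebraMap R F))
    (hBR : ∀ b : Bc, ∃ r : R, algebraMap R F r = algebraMap Bc F b) :
    IsFractionRing R F := by
  have : FaithfulSMul R F := (faithfulSMul_iff_algebraMap_injective R F).mpr hRinj
  refine IsFractionRing.of_field (R := R) (K := F) ?_
  intro z
  obtain ⟨b, c, _, hbc⟩ := IsFractionRing.div_surjective (A := Bc) z
  obtain ⟨rb, hrb⟩ := hBR b
  obtain ⟨rc, hrc⟩ := hBR c
  exact ⟨rb, rc, by rw [hrb, hrc, hbc]⟩

end Transfer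

end Fermat.Agent.S36
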