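import Mathlib
import Fermat.Agent.S36.H67Reg
import Fermat.Agent.S36.H80RegExt
import Fermat.Agent.S36.H80RegTransfer

/-!
# S36 (R), row R-TOWER-SS, abstract part (helper67)

Mathlib + `H67Reg` (helper67) + `H80RegExt`, `H80RegTransfer` (helper80).

* `h67t_hnil` : in a noetherian local domain with `𝔪 = (X, Y)` and a prime `⊥ ≠ P ≠ 𝔪`
  (dimension two), no power of `Y` is divisible by `X` (Krull's principal ideal theorem).
* `h67tG`, `h67t_G_*` : the Kronecker-type polynomial `G = (T - Y ^ q)(T ^ q - Y) + ℓ s`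
  (monic of degree `q + 1`, lower coefficients in any ideal containing `Y` and `ℓ`).
* `h67t_local` (**Stage A**): `B` noetherian local domain of dimension two, `𝔪_B = (X₀, Y₀)`,
  `q ∈ 𝔪_B`, `R = B[Z]` a domain, the three Kronecker relations
  `(Y₀ - X₀^q)(Y₀^q - X₀) + q ρ = 0` (`ρ` a unit), `G(X₀) = 0 = G(Z)`, `Z ≠ X₀`
  ⟹ `R` is local, noetherian, `𝔪_R = (X₀, Z)`, factorial, integrally closed.
* `h67t_tower` (**Stage B**): `B1 → Bc` subrings of a field `F` (charts of level `M q` and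
  `M q²` over the inertia ring), `Bc` integral over `B1` and generated by `Z` up to denominators;
  `𝔫` maximal in `Bc` with trace `𝔫₁` on `B1` such that `𝔫₁ = (X, Y)` locally (dimension two:
  a prime `⊥ ≠ P ⊊ 𝔫₁`) and the three Kronecker relations hold with `ρ ∉ 𝔫₁`.  Then
  `Z ∈ 𝔫`, `𝔫 = (X, Z)` locally, `𝔫` is the only maximal ideal over `𝔫₁`, and the local ring
  of `Bc` at `𝔫` is generated by `Z` over the local ring of `B1` at `𝔫₁`
  (every `b ∈ Bc` is `p(Z) / d` with `p ∈ B1[T]`, `d ∈ B1 ∖ 𝔫₁`).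
-/

set_option autoImplicit false
set_option linter.style.haveILetI false

open Polynomial IsLocalRing

namespace Fermat.Agent.S36

section Hnil

variable {B : Type*} [CommRing B] [IsDomain B] [IsNoetherianRing B] [IsLocalRing B]

/-- **dimension two**: in a noetherian local domain with `𝔪 = (X, Y)` and a prime
`⊥ ≠ P ≠ 𝔪`, no power of `Y` is divisible by `X` (Krull's principal ideal theorem). -/
theorem h67t_hnil (X Y : B) (hmax : maximalIdeal B = Ideal.span {X, Y})
    (P : Ideal B) [hP : P.IsPrime] (hP0 : P ≠ ⊥) (hPne : P ≠ maximalIdeal B) :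
    ∀ n : ℕ, Y ^ n ∉ Ideal.span {X} := by
  intro n hn
  have hXm : X ∈ maximalIdeal B := by rw [hmax]; exact Ideal.subset_span (by simp)
  have hmin : maximalIdeal B ∈ (Ideal.span {X} : Ideal B).minimalPrimes := by
    refine ⟨⟨inferInstance, (Ideal.span_singleton_le_iff_mem _).mpr hXm⟩, ?_⟩
    rintro Q ⟨hQ, hXQ⟩ -
    rw [hmax, Ideal.span_le]
    intro w hw
    rcases hw with rfl | rfl
    · exact hXQ (Ideal.mem_span_singleton_self _)
    · exact hQ.mem_of_pow_mem n (hXQ hn)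
  have h1 : (maximalIdeal B).height ≤ 1 :=
    Ideal.height_le_one_of_isPrincipal_of_mem_minimalPrimes (Ideal.span {X}) _ hmin
  have hlt : P < maximalIdeal B := lt_of_le_of_ne (le_maximalIdeal hP.ne_top) hPne
  have h2 : P.height + 1 ≤ (maximalIdeal B).height :=
    Ideal.height_add_one_le_of_lt_of_isPrime hlt
  have h3 : P.height = 0 := by
    have h4 : P.height + 1 ≤ 1 := h2.trans h1
    have h5 : P.height + 1 ≤ 0 + 1 := by simpa using h4
    have h6 := (ENat.add_le_add_iff_right (by simp : (1 : ℕ∞) ≠ ⊤)).mp h5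
    exact le_antisymm h6 zero_le
  exact hP0 (Ideal.height_eq_zero_iff_eq_bot.mp h3)

end Hnil

section Poly

variable {B : Type*} [CommRing B]

/-- the Kronecker-type polynomial `G = (T - Y ^ q)(T ^ q - Y) + ℓ s`. -/
noncomputable def h67tG (q : ℕ) (ℓ Y : B) (s : B[X]) : B[X] :=
  (X - C (Y ^ q)) * (X ^ q - C Y) + C ℓ * s

theorem h67t_G_eval (q : ℕ) (ℓ Y : B) (s : B[X]) (t : B) :
    (h67tG q ℓ Y s).eval t = (t - Y ^ q) * (t ^ q - Y) + ℓ * s.eval t := by
  simp [h67tG]

theorem h67t_G_map {B' : Type*} [CommRing B'] (f : B →+* B') (q : ℕ) (ℓ Y : B) (s : B[X]) :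
    (h67tG q ℓ Y s).map f = h67tG q (f ℓ) (f Y) (s.map f) := by
  simp [h67tG]

theorem h67t_P_monic [Nontrivial B] (q : ℕ) (hq : 1 ≤ q) (Y : B) :
    ((X - C (Y ^ q)) * (X ^ q - C Y) : B[X]).Monic :=
  (monic_X_sub_C _).mul (monic_X_pow_sub_C _ (by omega))

theorem h67t_P_natDegree [Nontrivial B] (q : ℕ) (hq : 1 ≤ q) (Y : B) :
    ((X - C (Y ^ q)) * (X ^ q - C Y) : B[X]).natDegree = q + 1 := by
  rw [Monic.natDegree_mul (monic_X_sub_C _) (monic_X_pow_sub_C _ (by omega)),
    natDegree_X_sub_C, natDegree_X_pow_sub_C]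
  omega

theorem h67t_G_monic [Nontrivial B] (q : ℕ) (hq : 1 ≤ q) (ℓ Y : B) (s : B[X])
    (hs : s.natDegree ≤ q) : (h67tG q ℓ Y s).Monic := by
  unfold h67tG
  refine (h67t_P_monic q hq Y).add_of_left ?_
  rw [degree_eq_natDegree (h67t_P_monic q hq Y).ne_zero, h67t_P_natDegree q hq Y]
  refine lt_of_le_of_lt (degree_le_natDegree) ?_
  have h1 : (C ℓ * s).natDegree ≤ q := (natDegree_C_mul_le _ _).trans hs
  exact_mod_cast Nat.lt_succ_of_le h1

theorem h67t_G_natDegree [Nontrivial B] (q : ℕ) (hq : 1 ≤ q) (ℓ Y : B) (s : B[X])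
    (hs : s.natDegree ≤ q) : (h67tG q ℓ Y s).natDegree = q + 1 := by
  unfold h67tG
  have h1 : (C ℓ * s).natDegree ≤ q := (natDegree_C_mul_le _ _).trans hs
  rw [natDegree_add_eq_left_of_natDegree_lt, h67t_P_natDegree q hq Y]
  rw [h67t_P_natDegree q hq Y]
  omega

theorem h67t_G_coeff (q : ℕ) (hq : 1 ≤ q) (ℓ Y : B) (s : B[X]) (I : Ideal B) (hY : Y ∈ I)
    (hℓ : ℓ ∈ I)
    (i : ℕ) (hi : i < q + 1) : (h67tG q ℓ Y s).coeff i ∈ I := by
  have h1 : h67tG q ℓ Y s = X ^ (q + 1) +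
      (C (-Y) * X + C (-(Y ^ q)) * X ^ q + C (Y ^ q * Y) + C ℓ * s) := by
    unfold h67tG
    simp only [map_neg, map_mul, map_pow]
    ring
  have h2 : (C (-Y) * X + C (-(Y ^ q)) * X ^ q + C (Y ^ q * Y) + C ℓ * s : B[X])
      ∈ Ideal.map (C : B →+* B[X]) I := by
    have hC : ∀ b ∈ I, (C b : B[X]) ∈ Ideal.map (C : B →+* B[X]) I :=
      fun b hb => Ideal.mem_map_of_mem _ hb
    refine Ideal.add_mem _ (Ideal.add_mem _ (Ideal.add_mem _ ?_ ?_) ?_) ?_
    · exact Ideal.mul_mem_right _ _ (hC _ (I.neg_mem hY))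
    · exact Ideal.mul_mem_right _ _ (hC _ (I.neg_mem (I.pow_mem_of_mem hY q (by omega))))
    · exact hC _ (I.mul_mem_left _ hY)
    · exact Ideal.mul_mem_right _ _ (hC _ hℓ)
  rw [h1, coeff_add, coeff_X_pow, if_neg (by omega), zero_add]
  exact (Ideal.mem_map_C_iff.mp h2) i

end Poly

section StageA

variable {B : Type*} [CommRing B] [IsDomain B] [IsNoetherianRing B] [IsLocalRing B]
  {R : Type*} [CommRing R] [IsDomain R] [Algebra B R]

/-- **Stage A (local form).**  `B` a noetherian local domain of dimension two with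
`𝔪_B = (X₀, Y₀)`, `q ∈ 𝔪_B`; `R = B[Z]` a domain; the three Kronecker relations with `ρ` a unit.
Then `R` is a regular local ring with `𝔪_R = (X₀, Z)`: local, noetherian, factorial, integrally
closed. -/
theorem h67t_local
    (hinj : Function.Injective (algebraMap B R))
    (X₀ Y₀ ρ : B) (hmaxB : maximalIdeal B = Ideal.span {X₀, Y₀})
    (P : Ideal B) [hP : P.IsPrime] (hP0 : P ≠ ⊥) (hPne : P ≠ maximalIdeal B)
    (q : ℕ) (hq2 : 2 ≤ q) (hqB : (q : B) ∈ maximalIdeal B) (hρ : ρ ∉ maximalIdeal B)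
    (hf : (Y₀ - X₀ ^ q) * (Y₀ ^ q - X₀) + (q : B) * ρ = 0)
    (s : B[X]) (hsdeg : s.natDegree ≤ q)
    (hGX : (X₀ - Y₀ ^ q) * (X₀ ^ q - Y₀) + (q : B) * s.eval X₀ = 0)
    (Z : R) (hgen : Algebra.adjoin B {Z} = ⊤) (hZX : Z ≠ algebraMap B R X₀)
    (hGZ : (Z - algebraMap B R Y₀ ^ q) * (Z ^ q - algebraMap B R Y₀)
      + (q : R) * (s.map (algebraMap B R)).eval Z = 0) :
    ∃ (_ : IsLocalRing R), IsNoetherianRing R ∧
      maximalIdeal R = Ideal.span {algebraMap B R X₀, Z} ∧
      UniqueFactorizationMonoid R ∧ IsIntegrallyClosed R := by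
  classical
  have hq1 : 1 ≤ q := by omega
  have hY₀m : Y₀ ∈ maximalIdeal B := by rw [hmaxB]; exact Ideal.subset_span (by simp)
  -- dimension two
  have hnil : ∀ n : ℕ, Y₀ ^ n ∉ Ideal.span {X₀} := h67t_hnil X₀ Y₀ hmaxB P hP0 hPne
  have hX0 : X₀ ≠ 0 := by
    have hmax' : maximalIdeal B = Ideal.span {Y₀, X₀} := by
      rw [hmaxB]; congr 1; exact Set.pair_comm _ _
    have h1 := h67t_hnil Y₀ X₀ hmax' P hP0 hPne 1
    intro h0
    apply h1
    rw [h0, pow_one]
    exact Ideal.zero_mem _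
  -- the polynomial
  set G : B[X] := h67tG q (q : B) Y₀ s with hGdef
  have hGm : G.Monic := h67t_G_monic q hq1 _ _ s hsdeg
  have hGd : G.natDegree = q + 1 := h67t_G_natDegree q hq1 _ _ s hsdeg
  have hGpos : 0 < G.natDegree := by rw [hGd]; omega
  have hGc : ∀ i < G.natDegree, G.coeff i ∈ maximalIdeal B := by
    intro i hi
    rw [hGd] at hi
    exact h67t_G_coeff q hq1 _ _ s _ hY₀m hqB i hi
  have hroot : aeval Z G = 0 := by
    rw [aeval_def, eval₂_eq_eval_map, hGdef, h67t_G_map, h67t_G_eval, map_natCast]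
    exact hGZ
  have hloc : IsLocalRing R := h80r_isLocalRing Z hgen G hGm hGpos hroot hGc
  have hmaxR : maximalIdeal R = h80rI B Z := h80r_maximalIdeal Z hgen G hGm hGpos hroot hGc
  -- the key element
  have hYR : algebraMap B R Y₀ ∈ maximalIdeal R := by
    rw [hmaxR]
    exact Ideal.mem_sup_left (Ideal.mem_map_of_mem _ hY₀m)
  have hρR : algebraMap B R ρ ∉ maximalIdeal R := by
    have hu : IsUnit ρ := by
      by_contra h
      exact hρ ((IsLocalRing.mem_maximalIdeal ρ).mpr h)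
    have hu' : IsUnit (algebraMap B R ρ) := hu.map _
    intro h
    exact (IsLocalRing.mem_maximalIdeal _).mp h hu'
  have hfR : (algebraMap B R Y₀ - algebraMap B R X₀ ^ q)
      * (algebraMap B R Y₀ ^ q - algebraMap B R X₀) + (q : R) * algebraMap B R ρ = 0 := by
    have := congrArg (algebraMap B R) hf
    simpa using this
  have hGXR : (algebraMap B R X₀ - algebraMap B R Y₀ ^ q)
      * (algebraMap B R X₀ ^ q - algebraMap B R Y₀)
      + (q : R) * (s.map (algebraMap B R)).eval (algebraMap B R X₀) = 0 := by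
    have h := congrArg (algebraMap B R) hGX
    rw [map_zero, map_add, map_mul, map_mul, map_sub, map_sub, map_pow, map_pow,
      map_natCast] at h
    rw [eval_map, eval₂_at_apply]
    exact h
  obtain ⟨e, he, hkey, -⟩ := h67r_key_local q hq2 (q : R) (algebraMap B R X₀)
    (algebraMap B R Y₀) Z (algebraMap B R ρ) (s.map (algebraMap B R)) hfR hGXR hGZ hZX
    (maximalIdeal R) hYR hρR
  rw [hmaxR] at he
  obtain ⟨hloc', hnoeth, hmax, -, -, hufd, hic⟩ := h80r_regular hinj X₀ Y₀ hX0 hmaxB hnil Z hgen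
    G hGm hGpos hroot hGc e he hkey
  exact ⟨hloc', hnoeth, hmax, hufd, hic⟩

end StageA

section StageB

variable {F : Type*} [Field F]
  {B1 : Type*} [CommRing B1] [IsDomain B1] [IsNoetherianRing B1] [Algebra B1 F]
  {Bc : Type*} [CommRing Bc] [Algebra Bc F]

/-- **R-TOWER-SS (abstract).**  `B1 → Bc` two subrings of a field `F` (the charts of level
`M q` and `M q²` over the inertia ring), `Bc` integral over `B1`, generated by `Z` up to
denominators.  At a maximal ideal `𝔫` of `Bc` whose trace `𝔫₁` on `B1` is a regular point of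
dimension two with `𝔫₁ = (X, Y)` locally, and the three Kronecker relations with `ρ ∉ 𝔫₁`:

* `Z ∈ 𝔫` and `𝔫 = (X, Z)` locally;
* `𝔫` is the only maximal ideal of `Bc` over `𝔫₁`;
* the local ring of `Bc` at `𝔫` is generated by `Z` over the local ring of `B1` at `𝔫₁`. -/
theorem h67t_tower
    (hB1inj : Function.Injective (algebraMap B1 F))
    (hBcinj : Function.Injective (algebraMap Bc F))
    (ι : B1 →+* Bc) (hι : ∀ b, algebraMap Bc F (ι b) = algebraMap B1 F b)
    (hint : ∀ b : Bc, IsIntegral B1 (algebraMap Bc F b))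
    (𝔫 : Ideal Bc) [h𝔫 : 𝔫.IsMaximal]
    (q : ℕ) (hq2 : 2 ≤ q) (hq𝔫 : (q : Bc) ∈ 𝔫)
    (X1 Y1 ρ : B1) (hX1 : ι X1 ∈ 𝔫) (hY1 : ι Y1 ∈ 𝔫) (hρ : ι ρ ∉ 𝔫)
    (hgen1 : ∀ b : B1, ι b ∈ 𝔫 → ∃ t : B1, ι t ∉ 𝔫 ∧ t * b ∈ Ideal.span {X1, Y1})
    (P : Ideal B1) [hP : P.IsPrime] (hP0 : P ≠ ⊥) (hP𝔫 : ∀ b ∈ P, ι b ∈ 𝔫)
    (hPne : ∃ b, ι b ∈ 𝔫 ∧ b ∉ P)
    (hf : (Y1 - X1 ^ q) * (Y1 ^ q - X1) + (q : B1) * ρ = 0)
    (s : B1[X]) (hsdeg : s.natDegree ≤ q)
    (hGX : (X1 - Y1 ^ q) * (X1 ^ q - Y1) + (q : B1) * s.eval X1 = 0)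
    (Z : Bc) (hZX : Z ≠ ι X1)
    (hGZ : (Z - ι Y1 ^ q) * (Z ^ q - ι Y1) + (q : Bc) * (s.map ι).eval Z = 0)
    (hfrac : ∀ b : Bc, ∃ (p : B1[X]) (d : B1), d ≠ 0 ∧ ι d * b = (p.map ι).eval Z) :
    Z ∈ 𝔫 ∧
    (∀ z ∈ 𝔫, ∃ t, t ∉ 𝔫 ∧ t * z ∈ Ideal.span {ι X1, Z}) ∧
    (∀ 𝔫' : Ideal Bc, 𝔫'.IsMaximal → 𝔫'.comap ι = 𝔫.comap ι → 𝔫' = 𝔫) ∧
    (∀ b : Bc, ∃ (p : B1[X]) (d : B1), ι d ∉ 𝔫 ∧ ι d * b = (p.map ι).eval Z) := by
  classical
  haveI h𝔫p : 𝔫.IsPrime := h𝔫.isPrime
  set 𝔫1 : Ideal B1 := 𝔫.comap ι with h𝔫1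
  haveI h𝔫1p : 𝔫1.IsPrime := Ideal.comap_isPrime ι 𝔫
  have hmem1 : ∀ b : B1, b ∈ 𝔫1 ↔ ι b ∈ 𝔫 := fun b => Iff.rfl
  have hιF : (algebraMap Bc F).comp ι = algebraMap B1 F := RingHom.ext hι
  -- the local ring `B` of `B1` at `𝔫₁`
  let B := Localization.AtPrime 𝔫1
  haveI : IsDomain B := IsLocalization.isDomain_localization (Ideal.primeCompl_le_nonZeroDivisors 𝔫1)
  haveI : IsNoetherianRing B := IsLocalization.isNoetherianRing 𝔫1.primeCompl B inferInstance
  have hunit : ∀ y : 𝔫1.primeCompl, IsUnit (algebraMap B1 F (y : B1)) := by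
    intro y
    apply IsUnit.mk0
    intro h0
    have h1 : (y : B1) = 0 := hB1inj (by rw [h0, map_zero])
    exact y.2 (by rw [h1]; exact 𝔫1.zero_mem)
  let φ : B →+* F := IsLocalization.lift hunit
  letI algBF : Algebra B F := φ.toAlgebra
  have hφ : ∀ x : B1, algebraMap B F (algebraMap B1 B x) = algebraMap B1 F x :=
    fun x => IsLocalization.lift_eq hunit x
  haveI : IsScalarTower B1 B F := IsScalarTower.of_algebraMap_eq fun x => (hφ x).symm
  have hB1B : Function.Injective (algebraMap B1 B) :=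
    IsLocalization.injective B (Ideal.primeCompl_le_nonZeroDivisors 𝔫1)
  have hφinj : Function.Injective (algebraMap B F) := by
    show Function.Injective φ
    rw [IsLocalization.lift_injective_iff]
    intro x y
    constructor
    · intro h; rw [hB1B h]
    · intro h; rw [hB1inj h]
  -- the ring `R = B[Z]`
  set ZF : F := algebraMap Bc F Z with hZF
  let R : Subalgebra B F := Algebra.adjoin B {ZF}
  let Zr : R := ⟨ZF, Algebra.subset_adjoin (Set.mem_singleton _)⟩
  have hgen : Algebra.adjoin B {Zr} = ⊤ := by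
    have h1 := Algebra.adjoin_adjoin_coe_preimage (R := B) (s := ({ZF} : Set F))
    have h2 : ((↑) ⁻¹' ({ZF} : Set F) : Set (Algebra.adjoin B ({ZF} : Set F))) = {Zr} := by
      ext x
      simp only [Set.mem_preimage, Set.mem_singleton_iff]
      constructor
      · intro h
        exact Subtype.ext h
      · intro h
        rw [h]
    rw [h2] at h1
    exact h1
  have hRF : ∀ r : R, algebraMap R F r = (r : F) := fun _ => rfl
  have hRinj : Function.Injective (algebraMap R F) := Subtype.val_injective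
  have hBR_inj : Function.Injective (algebraMap B R) := by
    intro a b h
    apply hφinj
    have := congrArg (algebraMap R F) h
    rwa [← IsScalarTower.algebraMap_apply, ← IsScalarTower.algebraMap_apply] at this
  have hB1R : ∀ x : B1, algebraMap R F (algebraMap B R (algebraMap B1 B x)) = algebraMap B1 F x := by
    intro x
    rw [← IsScalarTower.algebraMap_apply B R F, hφ]
  -- the data in `B`
  have hmaxB : maximalIdeal B = Ideal.span {algebraMap B1 B X1, algebraMap B1 B Y1} := by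
    rw [← Localization.AtPrime.map_eq_maximalIdeal]
    apply le_antisymm
    · rw [Ideal.map_le_iff_le_comap]
      intro b hb
      obtain ⟨t, ht, htb⟩ := hgen1 b hb
      rw [Ideal.mem_comap]
      have hu : IsUnit (algebraMap B1 B t) :=
        IsLocalization.map_units B (⟨t, ht⟩ : 𝔫1.primeCompl)
      have h1 : algebraMap B1 B (t * b) ∈
          Ideal.span {algebraMap B1 B X1, algebraMap B1 B Y1} := by
        have h2 : Ideal.span {X1, Y1} ≤
            (Ideal.span {algebraMap B1 B X1, algebraMap B1 B Y1}).comap (algebraMap B1 B) := by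
          rw [Ideal.span_le]
          intro w hw
          rcases hw with rfl | rfl
          · exact Ideal.subset_span (by simp)
          · exact Ideal.subset_span (by simp)
        exact h2 htb
      rw [map_mul] at h1
      exact (Ideal.unit_mul_mem_iff_mem _ hu).mp h1
    · rw [Ideal.span_le]
      intro w hw
      rcases hw with rfl | rfl
      · exact Ideal.mem_map_of_mem _ hX1
      · exact Ideal.mem_map_of_mem _ hY1
  have hdisj : Disjoint (𝔫1.primeCompl : Set B1) (P : Set B1) := by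
    rw [Set.disjoint_left]
    intro b hb hb'
    exact hb (hP𝔫 b hb')
  let PB : Ideal B := P.map (algebraMap B1 B)
  haveI hPBp : PB.IsPrime :=
    IsLocalization.isPrime_of_isPrime_disjoint 𝔫1.primeCompl B P hP hdisj
  have hPBcomap : PB.comap (algebraMap B1 B) = P :=
    IsLocalization.under_map_of_isPrime_disjoint 𝔫1.primeCompl B hP hdisj
  have hPB0 : PB ≠ ⊥ := by
    intro h
    apply hP0
    rw [eq_bot_iff]
    intro x hx
    have h1 : algebraMap B1 B x ∈ PB := Ideal.mem_map_of_mem _ hx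
    rw [h, Ideal.mem_bot] at h1
    rw [Ideal.mem_bot]
    exact hB1B (by rw [h1, map_zero])
  have hPBne : PB ≠ maximalIdeal B := by
    intro h
    obtain ⟨b, hb, hbP⟩ := hPne
    apply hbP
    rw [← hPBcomap, Ideal.mem_comap, h, ← Localization.AtPrime.map_eq_maximalIdeal]
    exact Ideal.mem_map_of_mem _ hb
  have hq1 : (q : B1) ∈ 𝔫1 := by
    rw [hmem1, map_natCast]; exact hq𝔫
  have hqB : (q : B) ∈ maximalIdeal B := by
    rw [← Localization.AtPrime.map_eq_maximalIdeal]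
    have := Ideal.mem_map_of_mem (algebraMap B1 B) hq1
    rwa [map_natCast] at this
  have hρB : algebraMap B1 B ρ ∉ maximalIdeal B := by
    have hu : IsUnit (algebraMap B1 B ρ) :=
      IsLocalization.map_units B (⟨ρ, hρ⟩ : 𝔫1.primeCompl)
    intro h
    exact (IsLocalRing.mem_maximalIdeal _).mp h hu
  have hfB : (algebraMap B1 B Y1 - algebraMap B1 B X1 ^ q)
      * (algebraMap B1 B Y1 ^ q - algebraMap B1 B X1) + (q : B) * algebraMap B1 B ρ = 0 := by
    have h := congrArg (algebraMap B1 B) hf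
    simpa using h
  have hGXB : (algebraMap B1 B X1 - algebraMap B1 B Y1 ^ q)
      * (algebraMap B1 B X1 ^ q - algebraMap B1 B Y1)
      + (q : B) * (s.map (algebraMap B1 B)).eval (algebraMap B1 B X1) = 0 := by
    have h := congrArg (algebraMap B1 B) hGX
    rw [map_zero, map_add, map_mul, map_mul, map_sub, map_sub, map_pow, map_pow,
      map_natCast] at h
    rw [eval_map, eval₂_at_apply]
    exact h
  have hZXr : Zr ≠ algebraMap B R (algebraMap B1 B X1) := by
    intro h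
    apply hZX
    apply hBcinj
    have h1 := congrArg (algebraMap R F) h
    rw [hB1R, ← hι] at h1
    exact h1
  have hGZr : (Zr - algebraMap B R (algebraMap B1 B Y1) ^ q)
      * (Zr ^ q - algebraMap B R (algebraMap B1 B Y1))
      + (q : R) * ((s.map (algebraMap B1 B)).map (algebraMap B R)).eval Zr = 0 := by
    apply hRinj
    have h := congrArg (algebraMap Bc F) hGZ
    rw [map_zero, map_add, map_mul, map_mul, map_sub, map_sub, map_pow, map_pow,
      map_natCast, hι, eval_map, Polynomial.hom_eval₂, hιF] at h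
    rw [map_zero, map_add, map_mul, map_mul, map_sub, map_sub, map_pow, map_pow,
      map_natCast, hB1R, eval_map, Polynomial.hom_eval₂, Polynomial.eval₂_map]
    have hcomp : ((algebraMap R F).comp (algebraMap B R)).comp (algebraMap B1 B)
        = algebraMap B1 F := RingHom.ext fun x => hB1R x
    rw [hcomp]
    exact h
  obtain ⟨hlocR, hnoethR, hmaxR, hufd, hic⟩ := h67t_local hBR_inj (algebraMap B1 B X1)
    (algebraMap B1 B Y1) (algebraMap B1 B ρ) hmaxB PB hPB0 hPBne q hq2 hqB hρB hfB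
    (s.map (algebraMap B1 B)) ((natDegree_map_le).trans hsdeg) hGXB Zr hgen hZXr hGZr
  -- transfer to `Bc`
  have hB1RF : ∀ x : B1, algebraMap R F (algebraMap B1 R x) = algebraMap B1 F x := by
    intro x
    rw [← IsScalarTower.algebraMap_apply B1 R F]
  have hint' : ∀ b : Bc, IsIntegral R (algebraMap Bc F b) := fun b => (hint b).tower_top
  have hfrac' : ∀ b : Bc, ∃ r₁ r₂ : R, r₂ ≠ 0 ∧
      algebraMap Bc F b * algebraMap R F r₂ = algebraMap R F r₁ := by
    intro b
    obtain ⟨p, d, hd, hpd⟩ := hfrac b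
    refine ⟨(p.map (algebraMap B1 R)).eval Zr, algebraMap B1 R d, ?_, ?_⟩
    · intro h0
      apply hd
      apply hB1inj
      rw [← hB1RF, h0, map_zero, map_zero]
    · have h := congrArg (algebraMap Bc F) hpd
      rw [map_mul, hι, eval_map, Polynomial.hom_eval₂, hιF] at h
      rw [hB1RF, eval_map, Polynomial.hom_eval₂, mul_comm, h]
      have hcomp : (algebraMap R F).comp (algebraMap B1 R) = algebraMap B1 F :=
        RingHom.ext fun x => hB1RF x
      rw [hcomp]
      rfl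
  have hBR : ∀ b : Bc, ∃ r : R, algebraMap R F r = algebraMap Bc F b :=
    h80t_exists_of_frac hRinj hint' hfrac'
  -- `R ⊆ Bc_𝔫'` for every maximal `𝔫'` over `𝔫₁`
  have hsubAll : ∀ 𝔫' : Ideal Bc, ∀ [h' : 𝔫'.IsPrime], 𝔫'.comap ι = 𝔫1 →
      ∀ r : R, algebraMap R F r ∈ h80tLoc (F := F) 𝔫' := by
    intro 𝔫' h' hcomap
    have hsubB : ∀ b : B, algebraMap B F b ∈ h80tLoc (F := F) 𝔫' := by
      refine h80t_sub_of_localization 𝔫' (R := B) (R' := B1) 𝔫1 ?_ ?_
      · intro r
        rw [← hι]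
        exact h80t_algebraMap_mem 𝔫' (ι r)
      · intro r hr
        rw [← hι]
        refine h80t_inv_mem 𝔫' hBcinj (ι r) ?_
        intro h
        apply hr
        rw [← hcomap]
        exact h
    refine h80t_adjoin_le 𝔫' (R₀ := B) (R := R) {Zr} hgen hsubB ?_
    intro t ht
    rw [Set.mem_singleton_iff.mp ht]
    exact h80t_algebraMap_mem 𝔫' Z
  have hsub : ∀ r : R, algebraMap R F r ∈ h80tLoc (F := F) 𝔫 := hsubAll 𝔫 rfl
  have hXr : algebraMap R F (algebraMap B R (algebraMap B1 B X1)) = algebraMap Bc F (ι X1) := by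
    rw [hB1R, hι]
  have hZr : algebraMap R F Zr = algebraMap Bc F Z := rfl
  have hZrm : Zr ∈ maximalIdeal R := by
    rw [hmaxR]; exact Ideal.subset_span (by simp)
  refine ⟨?_, ?_, ?_, ?_⟩
  · exact (h80t_mem_iff 𝔫 hRinj hBcinj hBR hsub Z Zr hZr).mpr hZrm
  · obtain ⟨x, hx, y, hy, ⟨s₁, hs₁, hxs⟩, ⟨s₂, hs₂, hys⟩, hxy⟩ :=
      h80t_two_gen 𝔫 hRinj hBcinj hBR hsub (algebraMap B R (algebraMap B1 B X1)) Zr hmaxR
    have hx' : x = s₁ * ι X1 := by
      apply hBcinj
      rw [hxs, hXr, map_mul]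
    have hy' : y = s₂ * Z := by
      apply hBcinj
      rw [hys, hZr, map_mul]
    intro z hz
    obtain ⟨t, ht, htz⟩ := hxy z hz
    refine ⟨t, ht, ?_⟩
    have hle : Ideal.span {x, y} ≤ Ideal.span {ι X1, Z} := by
      rw [Ideal.span_le]
      intro w hw
      rcases hw with rfl | rfl
      · rw [hx']
        exact Ideal.mul_mem_left _ _ (Ideal.subset_span (by simp))
      · rw [hy']
        exact Ideal.mul_mem_left _ _ (Ideal.subset_span (by simp))
    exact hle htz
  · intro 𝔫' h𝔫' hcomap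
    haveI : 𝔫'.IsPrime := h𝔫'.isPrime
    have hsub' := hsubAll 𝔫' hcomap
    ext b
    obtain ⟨r, hr⟩ := hBR b
    rw [@h80t_mem_iff F _ R _ hlocR _ Bc _ _ 𝔫' h𝔫' hRinj hBcinj hBR hsub' b r hr,
      @h80t_mem_iff F _ R _ hlocR _ Bc _ _ 𝔫 h𝔫 hRinj hBcinj hBR hsub b r hr]
  · -- generation
    have hQ : ∀ r : R, ∃ (p : B1[X]) (d : B1), d ∉ 𝔫1 ∧
        algebraMap B1 F d * algebraMap R F r = (p.map (algebraMap B1 F)).eval ZF := by
      intro r
      have hr : r ∈ Algebra.adjoin B {Zr} := by rw [hgen]; trivial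
      induction hr using Algebra.adjoin_induction with
      | mem x hx =>
        rw [Set.mem_singleton_iff.mp hx]
        refine ⟨X, 1, fun h => h𝔫1p.ne_top ((Ideal.eq_top_iff_one _).mpr h), ?_⟩
        rw [map_one, one_mul, Polynomial.map_X, eval_X]
        rfl
      | algebraMap a =>
        obtain ⟨⟨b, t⟩, hbt⟩ := IsLocalization.mk'_surjective 𝔫1.primeCompl a
        refine ⟨C b, t, t.2, ?_⟩
        have h1 : a * algebraMap B1 B (t : B1) = algebraMap B1 B b := by
          rw [← hbt]; exact IsLocalization.mk'_spec B b t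
        have h2 := congrArg (algebraMap B F) h1
        rw [map_mul, hφ, hφ] at h2
        rw [Polynomial.map_C, eval_C, ← IsScalarTower.algebraMap_apply B R F, mul_comm]
        exact h2
      | add x y _ _ hx hy =>
        obtain ⟨p₁, d₁, hd₁, h₁⟩ := hx
        obtain ⟨p₂, d₂, hd₂, h₂⟩ := hy
        refine ⟨C d₂ * p₁ + C d₁ * p₂, d₁ * d₂,
          fun h => (h𝔫1p.mem_or_mem h).elim hd₁ hd₂, ?_⟩
        simp only [Polynomial.map_add, Polynomial.map_mul, Polynomial.map_C, eval_add, eval_mul,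
          eval_C, map_mul, map_add]
        rw [← h₁, ← h₂]
        ring
      | mul x y _ _ hx hy =>
        obtain ⟨p₁, d₁, hd₁, h₁⟩ := hx
        obtain ⟨p₂, d₂, hd₂, h₂⟩ := hy
        refine ⟨p₁ * p₂, d₁ * d₂, fun h => (h𝔫1p.mem_or_mem h).elim hd₁ hd₂, ?_⟩
        simp only [Polynomial.map_mul, eval_mul, map_mul]
        rw [← h₁, ← h₂]
        ring
    intro b
    obtain ⟨r, hr⟩ := hBR b
    obtain ⟨p, d, hd, hpd⟩ := hQ r
    refine ⟨p, d, hd, ?_⟩
    apply hBcinj
    rw [map_mul, hι, ← hr, hpd, eval_map, eval_map, Polynomial.hom_eval₂, hιF]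

end StageB

end Fermat.Agent.S36
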