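import Fermat.Agent.S36.H25RedIsoInst
import Fermat.Agent.LGC.H62Done

/-!
# S36, block REG (helper62): the closed points of the special fibre of the level `M q` lie on
a curve (input `P` of `h67t_tower`, `h80r_regular`, `h62n_pow_not_mem`)

* `h62m_dim_abs` (Mathlib only): `ι : B₀ → B`, `B = ι B₀ + 𝔪`, `𝔪 ∩ B₀ = π B₀`, two
  non-maximal primes `P, Q ⊇ 𝔪` of `B` with `P ∩ Q ⊆ 𝔪`.  Then every maximal `𝔫₁ ∋ π` of `B₀`
  contains a non-maximal prime `P₀ ∋ π` (one of `ι⁻¹ P`, `ι⁻¹ Q`).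
* `h62m_Pinf_not_isMaximal`, `h62m_P0_not_isMaximal` : the two components of the special fibre
  of the finite chart of level `M q` over `A` are not closed points.
* `H62L1Dim`, `h62m_L1Dim : H62L1Dim` : every closed point `𝔫₁ ∋ q` of the finite chart of
  level `M q` over `A₀` contains a prime `P ≠ ⊥`, `P ≠ 𝔫₁`, `q ∈ P`.
-/

set_option autoImplicit false
set_option linter.unusedSectionVars false

open AlgebraicCurve ModularCurve IsLocalRing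

noncomputable section

namespace Fermat.Agent.S36

section Abs

variable {B₀ B : Type*} [CommRing B₀] [CommRing B]

theorem h62m_comap_not_isMaximal (ι : B₀ →+* B) (𝔪 : Ideal B)
    (surj : ∀ b : B, ∃ b₀ : B₀, b - ι b₀ ∈ 𝔪)
    (P : Ideal B) [hPp : P.IsPrime] (hmP : 𝔪 ≤ P) (hP : ¬ P.IsMaximal) :
    ¬ (P.comap ι).IsMaximal := by
  intro hmax
  apply hP
  rw [Ideal.isMaximal_iff]
  refine ⟨fun h1 => hPp.ne_top ((Ideal.eq_top_iff_one P).mpr h1), ?_⟩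
  intro J b hPJ hbP hbJ
  obtain ⟨b₀, hb₀⟩ := surj b
  have hb₀P : b₀ ∉ P.comap ι := by
    intro h
    apply hbP
    have h1 : ι b₀ ∈ P := Ideal.mem_comap.mp h
    have h2 : b - ι b₀ ∈ P := hmP hb₀
    have h3 : b = (b - ι b₀) + ι b₀ := by ring
    rw [h3]
    exact P.add_mem h2 h1
  obtain ⟨c₀, i, hi, hc₀⟩ := Ideal.IsMaximal.exists_inv hmax hb₀P
  have h1 : ι i ∈ P := Ideal.mem_comap.mp hi
  have h0 : ι c₀ * ι b₀ + ι i = 1 := by
    rw [← map_mul, ← map_add, hc₀, map_one]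
  have h2 : (1 : B) = ι c₀ * b - ι c₀ * (b - ι b₀) + ι i := by
    rw [← h0]
    ring
  rw [h2]
  exact J.add_mem (J.sub_mem (J.mul_mem_left _ hbJ) (J.mul_mem_left _ (hPJ (hmP hb₀))))
    (hPJ h1)

theorem h62m_dim_abs (ι : B₀ →+* B) (𝔪 : Ideal B) (π : B₀) (hπ0 : π ≠ 0) (hπ : ι π ∈ 𝔪)
    (surj : ∀ b : B, ∃ b₀ : B₀, b - ι b₀ ∈ 𝔪)
    (inj : ∀ x : B₀, ι x ∈ 𝔪 → ∃ y : B₀, x = π * y)
    (P Q : Ideal B) [hPp : P.IsPrime] [hQp : Q.IsPrime] (hmP : 𝔪 ≤ P) (hmQ : 𝔪 ≤ Q)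
    (hPQ : P ⊓ Q ≤ 𝔪) (hP : ¬ P.IsMaximal) (hQ : ¬ Q.IsMaximal)
    (𝔫₁ : Ideal B₀) [h𝔫 : 𝔫₁.IsMaximal] (hπ𝔫 : π ∈ 𝔫₁) :
    ∃ P₀ : Ideal B₀, P₀.IsPrime ∧ P₀ ≠ ⊥ ∧ P₀ ≤ 𝔫₁ ∧ P₀ ≠ 𝔫₁ ∧ π ∈ P₀ := by
  have key : ∀ (R : Ideal B) [R.IsPrime], 𝔪 ≤ R → ¬ R.IsMaximal → R.comap ι ≤ 𝔫₁ →
      ∃ P₀ : Ideal B₀, P₀.IsPrime ∧ P₀ ≠ ⊥ ∧ P₀ ≤ 𝔫₁ ∧ P₀ ≠ 𝔫₁ ∧ π ∈ P₀ := by
    intro R hR hmR hRmax hle
    have hπR : π ∈ R.comap ι := Ideal.mem_comap.mpr (hmR hπ)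
    refine ⟨R.comap ι, Ideal.comap_isPrime _ _, ?_, hle, ?_, hπR⟩
    · intro h0
      rw [h0] at hπR
      exact hπ0 ((Ideal.mem_bot).mp hπR)
    · intro h0
      exact h62m_comap_not_isMaximal ι 𝔪 surj R hmR hRmax (h0 ▸ h𝔫)
  by_cases hc : P.comap ι ≤ 𝔫₁
  · exact key P hmP hP hc
  · refine key Q hmQ hQ ?_
    obtain ⟨x, hxP, hx𝔫⟩ := Set.not_subset.mp hc
    intro y hy
    have hxy : ι (x * y) ∈ 𝔪 := by
      apply hPQ
      rw [map_mul]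
      exact ⟨P.mul_mem_right _ (Ideal.mem_comap.mp hxP), Q.mul_mem_left _ (Ideal.mem_comap.mp hy)⟩
    obtain ⟨z, hz⟩ := inj (x * y) hxy
    have h1 : x * y ∈ 𝔫₁ := by
      rw [hz]
      exact 𝔫₁.mul_mem_right _ hπ𝔫
    rcases h𝔫.isPrime.mem_or_mem h1 with h | h
    · exact absurd h hx𝔫
    · exact h

end Abs

open Fermat.Agent.S37 Fermat.Agent.Red.GG Fermat.Agent.LGC

section Inst

variable (A : ValuationSubring Kbar) (M : ℕ) {q : ℕ} [NeZero M] [NeZero q]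

/-- the component `P∞` is not a closed point. -/
theorem h62m_Pinf_not_isMaximal (hq : q.Prime) (hM : ¬ q ∣ M) (haux : auxLevel q ∣ M)
    (hA : A.LiesOverPrime q) : ¬ (h62i_Pinf A M hq hM hA).IsMaximal := by
  intro hmax
  have hs : ∀ b : chart (M * q) A (jSS M q), ∃ x : chart M A (jB M),
      b - (h62i_α A M q : chart M A (jB M) →+* chart (M * q) A (jSS M q)) x ∈
        h62i_Pinf A M hq hM hA := fun b => h62d_surj A M hq hM haux hA b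
  have h1 : ((h62i_Pinf A M hq hM hA).comap
      (h62i_α A M q : chart M A (jB M) →+* chart (M * q) A (jSS M q))).IsMaximal :=
    h62l_comap_isMaximal (h𝔫 := hmax) _ (h62i_Pinf A M hq hM hA)
      (h62i_Pinf A M hq hM hA) le_rfl hs
  have h2 : (h62i_Pinf A M hq hM hA).comap
      (h62i_α A M q : chart M A (jB M) →+* chart (M * q) A (jSS M q)) ≤ h62i_mΛ A M := by
    intro x hx
    exact (h62d_ker A M hq hM hA).1 x (Ideal.mem_comap.mp hx)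
  have h3 : (h62i_mΛ A M) ≠ ⊤ := by
    intro htop
    apply h13l_hnf_fin M A hq hM hA
    have : Subsingleton (chart M A (jB M) ⧸ h62i_mΛ A M) :=
      Ideal.Quotient.subsingleton_iff.mpr htop
    exact absurd (h13l_hded_fin M A hq hM haux hA).toIsDomain.toNontrivial
      (not_nontrivial_iff_subsingleton.mpr this)
  have h4 : (h62i_Pinf A M hq hM hA).comap
      (h62i_α A M q : chart M A (jB M) →+* chart (M * q) A (jSS M q)) = h62i_mΛ A M :=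
    h1.eq_of_le h3 h2
  have h5 : (h62i_mΛ A M).IsMaximal := h4 ▸ h1
  exact h13l_hnf_fin M A hq hM hA
    ((Ideal.Quotient.maximal_ideal_iff_isField_quotient _).mp h5)

/-- the component `P₀` is not a closed point. -/
theorem h62m_P0_not_isMaximal (hq : q.Prime) (hM : ¬ q ∣ M) (haux : auxLevel q ∣ M)
    (hA : A.LiesOverPrime q) : ¬ (h62i_P0 A M hq hM hA).IsMaximal := by
  intro hmax
  apply h62m_Pinf_not_isMaximal A M hq hM haux hA
  have hsurj : Function.Surjective (h62i_w A M hq hM hA) := fun b =>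
    ⟨h62i_w A M hq hM hA b, h62i_w_w A M hq hM hA b⟩
  have h1 : ((h62i_P0 A M hq hM hA).comap (h62i_w A M hq hM hA)).IsMaximal :=
    Ideal.comap_isMaximal_of_surjective _ hsurj
  have h2 : (h62i_P0 A M hq hM hA).comap (h62i_w A M hq hM hA) = h62i_Pinf A M hq hM hA := by
    ext b
    rw [Ideal.mem_comap]
    exact h62i_w_mem_P0_iff A M hq hM hA b
  exact h2 ▸ h1

end Inst

/-- **R-L1-DIM**: every closed point `𝔫₁ ∋ q` of the finite chart of level `M q` over `A₀`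
contains a prime `P ≠ ⊥`, `P ≠ 𝔫₁` with `q ∈ P`. -/
def H62L1Dim : Prop :=
  ∀ (q : ℕ) (hq : q.Prime) (M : ℕ) [NeZero M], ¬ q ∣ M → auxLevel q ∣ M →
    haveI : NeZero q := ⟨hq.ne_zero⟩
    ∀ A : ValuationSubring Kbar, A.LiesOverPrime q →
      ∀ 𝔫₁ : Ideal (h62rChart A (M * q) (jSS M q)), 𝔫₁.IsMaximal →
        (q : h62rChart A (M * q) (jSS M q)) ∈ 𝔫₁ →
          ∃ P : Ideal (h62rChart A (M * q) (jSS M q)),
            P.IsPrime ∧ P ≠ ⊥ ∧ P ≤ 𝔫₁ ∧ P ≠ 𝔫₁ ∧ (q : h62rChart A (M * q) (jSS M q)) ∈ P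

theorem h62m_L1Dim : H62L1Dim := by
  intro q hq M _ hM haux
  have : NeZero q := ⟨hq.ne_zero⟩
  intro A hA 𝔫₁ h𝔫 hq𝔫
  obtain ⟨surj, inj⟩ := h25i_redIso_Mq_fin (A := A) (M := M) hq hM hA
  have hq0 : (q : h62rChart A (M * q) (jSS M q)) ≠ 0 := by
    intro h0
    have h1 : ((q : h62rChart A (M * q) (jSS M q)) : FF (M * q)) = 0 := by rw [h0]; rfl
    have h2 : ((q : ℕ) : FF (M * q)) = 0 := by
      rw [← h1]; push_cast; rfl
    exact hq.ne_zero (Nat.cast_eq_zero.mp h2)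
  have hπ : h62rIncl A (M * q) (jSS M q) (q : h62rChart A (M * q) (jSS M q)) ∈
      h62rM A (M * q) (jSS M q) := by
    rw [map_natCast]
    have h1 : ((q : ℕ) : chart (M * q) A (jSS M q)) =
        algebraMap A (chart (M * q) A (jSS M q)) (q : A) := by
      rw [map_natCast]
    rw [h1]
    exact Ideal.mem_map_of_mem _ (h57_natCast_mem_maximalIdeal A hA)
  exact h62m_dim_abs (h62rIncl A (M * q) (jSS M q)) (h62rM A (M * q) (jSS M q))
    (q : h62rChart A (M * q) (jSS M q)) hq0 hπ surj inj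
    (h62i_Pinf A M hq hM hA) (h62i_P0 A M hq hM hA)
    (h62i_m_le_Pinf A M hq hM hA) (h62i_m_le_P0 A M hq hM hA)
    (h62c_comp A M hq hM hA)
    (h62m_Pinf_not_isMaximal A M hq hM haux hA) (h62m_P0_not_isMaximal A M hq hM haux hA)
    𝔫₁ hq𝔫

end Fermat.Agent.S36
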