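import Mathlib
import Fermat.Agent.S36.H80RegTransfer

/-!
# S36 (helper80): the local ring of a chart as a subring of the function field

`Bc` a commutative ring with an injective map to a field `F`, `𝔫` a prime of `Bc`.  The subring
`h80tLoc 𝔫 ⊆ F` (`H80RegTransfer`) is the localisation of `Bc` at `𝔫`:

* `h80tMap 𝔫 : Bc →+* h80tLoc 𝔫`, `h80tAlg 𝔫 : Algebra Bc (h80tLoc 𝔫)`;
* `h80t_isLocalization` : `IsLocalization.AtPrime (h80tLoc 𝔫) 𝔫`;
* `h80t_isLocalRing`, `h80t_isNoetherianRing`, `h80t_maximalIdeal_eq_span_pair` (from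
  "`𝔫 = (x, y)` locally"), `h80t_mem_maximalIdeal_iff`, `h80t_isUnit_iff`;
* `h80t_not_pow_mem` : non-nilpotency from a prime `x ∈ P < 𝔫`.
-/

set_option autoImplicit false
set_option linter.unusedSectionVars false
set_option linter.unnecessarySimpa false
set_option linter.style.haveILetI false

open IsLocalRing

namespace Fermat.Agent.S36

section LocSub

variable {F : Type*} [Field F] {Bc : Type*} [CommRing Bc] [Algebra Bc F]

/-- the structure map `Bc → Bc_𝔫 ⊆ F`. -/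
def h80tMap (𝔫 : Ideal Bc) [𝔫.IsPrime] : Bc →+* ↥(h80tLoc (F := F) 𝔫) :=
  (algebraMap Bc F).codRestrict (h80tLoc (F := F) 𝔫) (h80t_algebraMap_mem 𝔫)

theorem h80tMap_coe (𝔫 : Ideal Bc) [𝔫.IsPrime] (b : Bc) :
    ((h80tMap (F := F) 𝔫 b : ↥(h80tLoc (F := F) 𝔫)) : F) = algebraMap Bc F b := rfl

/-- the algebra structure of `Bc_𝔫` over `Bc`. -/
@[reducible] def h80tAlg (𝔫 : Ideal Bc) [𝔫.IsPrime] : Algebra Bc ↥(h80tLoc (F := F) 𝔫) :=
  (h80tMap (F := F) 𝔫).toAlgebra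

theorem h80t_isScalarTower (𝔫 : Ideal Bc) [𝔫.IsPrime] :
    letI := h80tAlg (F := F) 𝔫
    IsScalarTower Bc ↥(h80tLoc (F := F) 𝔫) F := by
  letI := h80tAlg (F := F) 𝔫
  exact IsScalarTower.of_algebraMap_eq (fun x => rfl)

/-- **`h80tLoc 𝔫` is the localisation of `Bc` at `𝔫`.** -/
theorem h80t_isLocalization (hinj : Function.Injective (algebraMap Bc F))
    (𝔫 : Ideal Bc) [h𝔫 : 𝔫.IsPrime] :
    letI := h80tAlg (F := F) 𝔫
    IsLocalization.AtPrime ↥(h80tLoc (F := F) 𝔫) 𝔫 := by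
  letI := h80tAlg (F := F) 𝔫
  show IsLocalization 𝔫.primeCompl ↥(h80tLoc (F := F) 𝔫)
  rw [isLocalization_iff]
  refine ⟨?_, ?_, ?_⟩
  · rintro ⟨s, hs⟩
    have hinv := h80t_inv_mem (F := F) 𝔫 hinj s hs
    have h0 : algebraMap Bc F s ≠ 0 := by
      intro h
      apply hs
      have : s = 0 := hinj (by rw [h, map_zero])
      rw [this]; exact 𝔫.zero_mem
    refine IsUnit.of_mul_eq_one (⟨(algebraMap Bc F s)⁻¹, hinv⟩ : ↥(h80tLoc (F := F) 𝔫)) ?_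
    apply Subtype.ext
    show algebraMap Bc F s * (algebraMap Bc F s)⁻¹ = 1
    exact mul_inv_cancel₀ h0
  · rintro ⟨f, s, b, hs, hf⟩
    refine ⟨(b, ⟨s, hs⟩), ?_⟩
    apply Subtype.ext
    show f * algebraMap Bc F s = algebraMap Bc F b
    rw [mul_comm]; exact hf
  · intro x y hxy
    refine ⟨1, ?_⟩
    have h1 : algebraMap Bc F x = algebraMap Bc F y := congrArg Subtype.val hxy
    rw [hinj h1]

theorem h80t_isLocalRing (hinj : Function.Injective (algebraMap Bc F))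
    (𝔫 : Ideal Bc) [h𝔫 : 𝔫.IsPrime] : IsLocalRing ↥(h80tLoc (F := F) 𝔫) := by
  letI := h80tAlg (F := F) 𝔫
  haveI := h80t_isLocalization (F := F) hinj 𝔫
  exact IsLocalization.AtPrime.isLocalRing ↥(h80tLoc (F := F) 𝔫) 𝔫

theorem h80t_isNoetherianRing [IsNoetherianRing Bc]
    (hinj : Function.Injective (algebraMap Bc F))
    (𝔫 : Ideal Bc) [h𝔫 : 𝔫.IsPrime] : IsNoetherianRing ↥(h80tLoc (F := F) 𝔫) := by
  letI := h80tAlg (F := F) 𝔫
  haveI := h80t_isLocalization (F := F) hinj 𝔫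
  exact IsLocalization.isNoetherianRing 𝔫.primeCompl ↥(h80tLoc (F := F) 𝔫) inferInstance

/-- units of `Bc_𝔫`: `f` with `s f = b`, `s, b ∉ 𝔫`. -/
theorem h80t_isUnit_of (hinj : Function.Injective (algebraMap Bc F))
    (𝔫 : Ideal Bc) [h𝔫 : 𝔫.IsPrime] (f : ↥(h80tLoc (F := F) 𝔫)) (s b : Bc) (hb : b ∉ 𝔫)
    (hf : algebraMap Bc F s * (f : F) = algebraMap Bc F b) : IsUnit f := by
  have hinv := h80t_inv_mem_of (F := F) 𝔫 hinj (f : F) s b hb hf
  have hb0 : algebraMap Bc F b ≠ 0 := by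
    intro h
    apply hb
    have : b = 0 := hinj (by rw [h, map_zero])
    rw [this]; exact 𝔫.zero_mem
  have hf0 : (f : F) ≠ 0 := by
    intro h0
    rw [h0, mul_zero] at hf
    exact hb0 hf.symm
  refine IsUnit.of_mul_eq_one (⟨(f : F)⁻¹, hinv⟩ : ↥(h80tLoc (F := F) 𝔫)) ?_
  apply Subtype.ext
  show (f : F) * (f : F)⁻¹ = 1
  exact mul_inv_cancel₀ hf0

/-- the image of `b ∉ 𝔫` is a unit of `Bc_𝔫`. -/
theorem h80t_isUnit_map (hinj : Function.Injective (algebraMap Bc F))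
    (𝔫 : Ideal Bc) [h𝔫 : 𝔫.IsPrime] (b : Bc) (hb : b ∉ 𝔫) :
    IsUnit (h80tMap (F := F) 𝔫 b) :=
  h80t_isUnit_of hinj 𝔫 _ 1 b hb (by rw [map_one, one_mul]; rfl)

/-- the image of `b ∈ 𝔫` lies in the maximal ideal of `Bc_𝔫`. -/
theorem h80t_map_mem_maximalIdeal (hinj : Function.Injective (algebraMap Bc F))
    (𝔫 : Ideal Bc) [h𝔫 : 𝔫.IsPrime] (b : Bc) :
    letI := h80t_isLocalRing (F := F) hinj 𝔫
    h80tMap (F := F) 𝔫 b ∈ maximalIdeal ↥(h80tLoc (F := F) 𝔫) ↔ b ∈ 𝔫 := by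
  letI := h80tAlg (F := F) 𝔫
  haveI := h80t_isLocalization (F := F) hinj 𝔫
  letI := h80t_isLocalRing (F := F) hinj 𝔫
  exact IsLocalization.AtPrime.to_map_mem_maximal_iff ↥(h80tLoc (F := F) 𝔫) 𝔫 b

/-- **the maximal ideal of `Bc_𝔫`** when `𝔫 = (x, y)` locally. -/
theorem h80t_maximalIdeal_eq_span_pair (hinj : Function.Injective (algebraMap Bc F))
    (𝔫 : Ideal Bc) [h𝔫 : 𝔫.IsPrime] (x y : Bc) (hx : x ∈ 𝔫) (hy : y ∈ 𝔫)
    (hgen : ∀ z ∈ 𝔫, ∃ s, s ∉ 𝔫 ∧ s * z ∈ Ideal.span {x, y}) :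
    letI := h80t_isLocalRing (F := F) hinj 𝔫
    maximalIdeal ↥(h80tLoc (F := F) 𝔫) =
      Ideal.span {h80tMap (F := F) 𝔫 x, h80tMap (F := F) 𝔫 y} := by
  letI := h80tAlg (F := F) 𝔫
  haveI := h80t_isLocalization (F := F) hinj 𝔫
  letI := h80t_isLocalRing (F := F) hinj 𝔫
  have hmap : maximalIdeal ↥(h80tLoc (F := F) 𝔫) = 𝔫.map (h80tMap (F := F) 𝔫) :=
    (IsLocalization.AtPrime.map_eq_maximalIdeal 𝔫 ↥(h80tLoc (F := F) 𝔫)).symm
  apply le_antisymm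
  · rw [hmap, Ideal.map_le_iff_le_comap]
    intro z hz
    obtain ⟨s, hs, hsz⟩ := hgen z hz
    rw [Ideal.mem_comap]
    have hsu : IsUnit (h80tMap (F := F) 𝔫 s) := h80t_isUnit_map hinj 𝔫 s hs
    have h1 : h80tMap (F := F) 𝔫 (s * z) ∈
        Ideal.span {h80tMap (F := F) 𝔫 x, h80tMap (F := F) 𝔫 y} := by
      obtain ⟨a, b, hab⟩ := Ideal.mem_span_pair.mp hsz
      rw [← hab, map_add, map_mul, map_mul]
      exact Ideal.add_mem _ (Ideal.mul_mem_left _ _ (Ideal.subset_span (by simp)))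
        (Ideal.mul_mem_left _ _ (Ideal.subset_span (by simp)))
    rw [map_mul] at h1
    have h3 : h80tMap (F := F) 𝔫 z =
        ↑(hsu.unit⁻¹) * (h80tMap (F := F) 𝔫 s * h80tMap (F := F) 𝔫 z) := by
      rw [← mul_assoc, IsUnit.val_inv_mul, one_mul]
    rw [h3]
    exact Ideal.mul_mem_left _ _ h1
  · rw [Ideal.span_le]
    rintro w (rfl | hw)
    · exact (h80t_map_mem_maximalIdeal hinj 𝔫 x).mpr hx
    · rw [Set.mem_singleton_iff] at hw
      rw [hw]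
      exact (h80t_map_mem_maximalIdeal hinj 𝔫 y).mpr hy

/-- clearing denominators in a principal ideal of `Bc_𝔫`. -/
theorem h80t_mem_span_singleton (hinj : Function.Injective (algebraMap Bc F))
    (𝔫 : Ideal Bc) [h𝔫 : 𝔫.IsPrime] (x z : Bc)
    (h : h80tMap (F := F) 𝔫 z ∈ Ideal.span {h80tMap (F := F) 𝔫 x}) :
    ∃ s, s ∉ 𝔫 ∧ s * z ∈ Ideal.span {x} := by
  obtain ⟨⟨f, s, b, hs, hf⟩, hc⟩ := Ideal.mem_span_singleton'.mp h
  refine ⟨s, hs, ?_⟩
  rw [Ideal.mem_span_singleton']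
  refine ⟨b, ?_⟩
  apply hinj
  have h1 : f * algebraMap Bc F x = algebraMap Bc F z := congrArg Subtype.val hc
  rw [map_mul, map_mul, ← hf, ← h1]
  ring

/-- **non-nilpotency** of `y` modulo `x` in `Bc_𝔫` from a prime `x ∈ P < 𝔫`
(`𝔫 = (x, y)` locally). -/
theorem h80t_not_pow_mem (hinj : Function.Injective (algebraMap Bc F))
    (𝔫 : Ideal Bc) [h𝔫 : 𝔫.IsPrime] (x y : Bc)
    (hgen : ∀ z ∈ 𝔫, ∃ s, s ∉ 𝔫 ∧ s * z ∈ Ideal.span {x, y})
    (P : Ideal Bc) (hP : P.IsPrime) (hxP : x ∈ P) (hle : P ≤ 𝔫) (hne : P ≠ 𝔫) (n : ℕ) :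
    (h80tMap (F := F) 𝔫 y) ^ n ∉ Ideal.span {h80tMap (F := F) 𝔫 x} := by
  intro h
  rw [← map_pow] at h
  obtain ⟨s, hs, hsy⟩ := h80t_mem_span_singleton hinj 𝔫 x (y ^ n) h
  have h1 : s * y ^ n ∈ P := by
    obtain ⟨c, hc⟩ := Ideal.mem_span_singleton'.mp hsy
    rw [← hc]
    exact P.mul_mem_left _ hxP
  have hyP : y ∈ P := by
    rcases hP.mem_or_mem h1 with h2 | h2
    · exact absurd (hle h2) hs
    · exact hP.mem_of_pow_mem _ h2
  apply hne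
  refine le_antisymm hle fun z hz => ?_
  obtain ⟨t, ht, htz⟩ := hgen z hz
  have h3 : t * z ∈ P := by
    have hle' : Ideal.span {x, y} ≤ P := by
      rw [Ideal.span_le]
      rintro w (rfl | hw)
      · exact hxP
      · rw [Set.mem_singleton_iff] at hw
        rw [hw]; exact hyP
    exact hle' htz
  rcases hP.mem_or_mem h3 with h4 | h4
  · exact absurd (hle h4) ht
  · exact h4

end LocSub

end Fermat.Agent.S36
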