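import Mathlib
import Fermat.Agent.S36.H80RegExt

/-!
# S36 (helper80): regularity at the ordinary points of the middle component `Z₁₁`

Abstract commutative algebra (Mathlib + `H80Ufd`, `H80RegExt`).  Consumer: REG at the ordinary
points of `Z₁₁` of the chart of level `q² M'` over the unramified base (findings #1005 item 3,
statement proposed by helper67).

Setting: `B` a noetherian local domain with maximal ideal `(q₀, t₁)` (`q₀ ≠ 0`,
`t₁ ^ n ∉ (q₀)`: the chart of level `q M'` at an ordinary point of `Z_∞`), `R = B[S]` a domain,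
`S` integral over `B` with

  `S ^ k (S + c) + q₀ (S η + κ) = 0`,   `c, κ ∈ Bˣ`, `η ∈ R`, `k ≥ 1`

(`k = q - 1`), and `φ : R → B ⧸ (q₀)` the restriction to the component `S = 0`
(`φ S = 0`, `φ b = b mod q₀`).  Put `𝔐 = 𝔪_B R + (S)`.

* `h80o_isMaximal` : `𝔐` is a maximal ideal of `R`.
* `h80o_regular` : for `L = R_𝔐`: `L` is a noetherian local domain, `𝔪_L = (S, t₁)`,
  `q₀ = unit * S ^ k`, `S` is a prime element, `L` is a UFD and integrally closed.
* `h80o_phi` : construction of `φ` when every polynomial over `B` killing `S` has constant term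
  in `(q₀)`.
-/

set_option autoImplicit false
set_option linter.unusedSectionVars false
set_option linter.unnecessarySimpa false

open IsLocalRing Polynomial

namespace Fermat.Agent.S36

section RegOrd

variable {B : Type*} [CommRing B] [IsDomain B] [IsNoetherianRing B] [IsLocalRing B]
  {R : Type*} [CommRing R] [IsDomain R] [Algebra B R]

/-- `φ` maps `𝔐 = 𝔪_B R + (S)` into the maximal ideal of `B ⧸ (q₀)`. -/
theorem h80o_phi_mem (q₀ : B) (S : R)
    (φ : R →+* B ⧸ Ideal.span {q₀}) (hφS : φ S = 0)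
    (hφ : ∀ b : B, φ (algebraMap B R b) = Ideal.Quotient.mk _ b)
    (x : R) (hx : x ∈ h80rI B S) :
    φ x ∈ (maximalIdeal B).map (Ideal.Quotient.mk (Ideal.span {q₀})) := by
  have h1 : h80rI B S ≤
      ((maximalIdeal B).map (Ideal.Quotient.mk (Ideal.span {q₀}))).comap φ := by
    refine sup_le ?_ ?_
    · rw [Ideal.map_le_iff_le_comap]
      intro b hb
      rw [Ideal.mem_comap, Ideal.mem_comap, hφ]
      exact Ideal.mem_map_of_mem _ hb
    · rw [Ideal.span_le]
      intro y hy
      rw [Set.mem_singleton_iff] at hy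
      rw [hy, SetLike.mem_coe, Ideal.mem_comap, hφS]
      exact Ideal.zero_mem _
  exact h1 hx

/-- the image of `𝔪_B` in `B ⧸ (q₀)` is a proper ideal. -/
theorem h80o_map_ne_top (q₀ : B) (hq : q₀ ∈ maximalIdeal B) :
    (maximalIdeal B).map (Ideal.Quotient.mk (Ideal.span {q₀})) ≠ ⊤ := by
  intro h
  have h1 : (1 : B ⧸ Ideal.span {q₀}) ∈
      (maximalIdeal B).map (Ideal.Quotient.mk (Ideal.span {q₀})) := by rw [h]; trivial
  rw [Ideal.mem_map_iff_of_surjective _ Ideal.Quotient.mk_surjective] at h1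
  obtain ⟨b, hb, hb1⟩ := h1
  have h2 : b - 1 ∈ Ideal.span {q₀} := by
    rw [← Ideal.Quotient.eq_zero_iff_mem, map_sub, hb1, map_one, sub_self]
  have h3 : b - 1 ∈ maximalIdeal B :=
    (Ideal.span_le.mpr (by
      intro z hz
      rw [Set.mem_singleton_iff] at hz
      rw [hz]; exact hq)) h2
  have h4 : (1 : B) ∈ maximalIdeal B := by
    have := (maximalIdeal B).sub_mem hb h3
    simpa using this
  exact (maximalIdeal.isMaximal B).ne_top ((Ideal.eq_top_iff_one _).mpr h4)

/-- `x ∉ 𝔐` iff the constant term of `x` is a unit. -/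
theorem h80o_not_mem_iff (q₀ : B) (hq : q₀ ∈ maximalIdeal B) (S : R)
    (φ : R →+* B ⧸ Ideal.span {q₀}) (hφS : φ S = 0)
    (hφ : ∀ b : B, φ (algebraMap B R b) = Ideal.Quotient.mk _ b)
    (b : B) (c : R) :
    algebraMap B R b + S * c ∈ h80rI B S ↔ b ∈ maximalIdeal B := by
  have hSc : S * c ∈ h80rI B S :=
    Ideal.mul_mem_right _ _ (Ideal.mem_sup_right (Ideal.subset_span (Set.mem_singleton S)))
  constructor
  · intro h
    have h1 := h80o_phi_mem q₀ S φ hφS hφ _ h
    rw [map_add, map_mul, hφS, zero_mul, add_zero, hφ] at h1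
    rw [Ideal.mem_map_iff_of_surjective _ Ideal.Quotient.mk_surjective] at h1
    obtain ⟨b', hb', hbb⟩ := h1
    have h2 : b' - b ∈ Ideal.span {q₀} := by
      rw [← Ideal.Quotient.eq_zero_iff_mem, map_sub, hbb, sub_self]
    have h3 : b' - b ∈ maximalIdeal B :=
      (Ideal.span_le.mpr (by
        intro z hz
        rw [Set.mem_singleton_iff] at hz
        rw [hz]; exact hq)) h2
    have := (maximalIdeal B).sub_mem hb' h3
    simpa using this
  · intro hb
    exact Ideal.add_mem _ (Ideal.mem_sup_left (Ideal.mem_map_of_mem _ hb)) hSc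

/-- **`𝔐 = 𝔪_B R + (S)` is a maximal ideal.** -/
theorem h80o_isMaximal (q₀ : B) (hq : q₀ ∈ maximalIdeal B) (S : R)
    (hgen : Algebra.adjoin B {S} = ⊤)
    (φ : R →+* B ⧸ Ideal.span {q₀}) (hφS : φ S = 0)
    (hφ : ∀ b : B, φ (algebraMap B R b) = Ideal.Quotient.mk _ b) :
    (h80rI B S).IsMaximal := by
  rw [Ideal.isMaximal_iff]
  constructor
  · intro h1
    have h2 := h80o_phi_mem q₀ S φ hφS hφ 1 h1
    rw [map_one] at h2
    exact h80o_map_ne_top q₀ hq ((Ideal.eq_top_iff_one _).mpr h2)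
  · intro J x hJ hx hxJ
    obtain ⟨b, c, rfl⟩ := h80r_exists_const S hgen x
    have hb : b ∉ maximalIdeal B := fun h =>
      hx ((h80o_not_mem_iff q₀ hq S φ hφS hφ b c).mpr h)
    have hbu : IsUnit b := by
      by_contra h
      exact hb ((IsLocalRing.mem_maximalIdeal b).mpr h)
    have hSc : S * c ∈ J :=
      hJ (Ideal.mul_mem_right _ _ (Ideal.mem_sup_right (Ideal.subset_span
        (Set.mem_singleton S))))
    have hbJ : algebraMap B R b ∈ J := by
      have := J.sub_mem hxJ hSc
      simpa using this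
    obtain ⟨v, hv⟩ := hbu.exists_left_inv
    have : (1 : R) = algebraMap B R v * algebraMap B R b := by
      rw [← map_mul, hv, map_one]
    rw [this]
    exact J.mul_mem_left _ hbJ

/-- **REG at the ordinary points of `Z₁₁` (abstract).** -/
theorem h80o_regular
    (hinj : Function.Injective (algebraMap B R))
    (q₀ t₁ : B) (hq0 : q₀ ≠ 0) (hmaxB : maximalIdeal B = Ideal.span {q₀, t₁})
    (hnil : ∀ n : ℕ, t₁ ^ n ∉ Ideal.span {q₀})
    (S : R) (hint : IsIntegral B S) (hgen : Algebra.adjoin B {S} = ⊤)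
    (k : ℕ) (hk : 0 < k) (c κ : B) (hc : IsUnit c) (hκ : IsUnit κ) (η : R)
    (hroot : S ^ k * (S + algebraMap B R c) + algebraMap B R q₀ * (S * η + algebraMap B R κ) = 0)
    (φ : R →+* B ⧸ Ideal.span {q₀}) (hφS : φ S = 0)
    (hφ : ∀ b : B, φ (algebraMap B R b) = Ideal.Quotient.mk _ b)
    (𝔐 : Ideal R) [h𝔐 : 𝔐.IsPrime] (h𝔐eq : 𝔐 = h80rI B S)
    (L : Type*) [CommRing L] [Algebra R L] [IsLocalization.AtPrime L 𝔐] :
    ∃ (_ : IsLocalRing L) (_ : IsDomain L), IsNoetherianRing L ∧
      maximalIdeal L = Ideal.span {algebraMap R L S, algebraMap R L (algebraMap B R t₁)} ∧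
      (∃ u : Lˣ, algebraMap R L (algebraMap B R q₀) = u * algebraMap R L S ^ k) ∧
      Prime (algebraMap R L S) ∧ UniqueFactorizationMonoid L ∧ IsIntegrallyClosed L := by
  classical
  have hq : q₀ ∈ maximalIdeal B := by
    rw [hmaxB]; exact Ideal.subset_span (by simp)
  have ht : t₁ ∈ maximalIdeal B := by
    rw [hmaxB]; exact Ideal.subset_span (by simp)
  -- noetherian
  obtain ⟨G, hG, hGroot⟩ := hint
  have hnoeR : IsNoetherianRing R :=
    h80r_isNoetherianRing S hgen G hG (by rw [aeval_def]; exact hGroot)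
  have hlocL : IsLocalRing L := IsLocalization.AtPrime.isLocalRing L 𝔐
  have hle : 𝔐.primeCompl ≤ nonZeroDivisors R := by
    intro x hx
    rw [mem_nonZeroDivisors_iff_ne_zero]
    rintro rfl
    exact hx 𝔐.zero_mem
  have hdomL : IsDomain L := IsLocalization.isDomain_of_le_nonZeroDivisors (R := R) (M := 𝔐.primeCompl) (S := L) hle
  have hnoeL : IsNoetherianRing L := IsLocalization.isNoetherianRing 𝔐.primeCompl L hnoeR
  have hinjL : Function.Injective (algebraMap R L) := IsLocalization.injective L hle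
  refine ⟨hlocL, hdomL, hnoeL, ?_⟩
  -- units of `L`
  have hunit : ∀ x : R, x ∉ 𝔐 → IsUnit (algebraMap R L x) := fun x hx =>
    IsLocalization.map_units L (⟨x, hx⟩ : 𝔐.primeCompl)
  have hSmem : S ∈ 𝔐 := by
    rw [h𝔐eq]; exact Ideal.mem_sup_right (Ideal.subset_span (Set.mem_singleton S))
  -- `S + c ∉ 𝔐`, `S η + κ ∉ 𝔐`
  have hcu : algebraMap B R c ∉ 𝔐 := by
    intro h
    rw [h𝔐eq] at h
    have h1 := (h80o_not_mem_iff q₀ hq S φ hφS hφ c 0).mp (by simpa using h)
    exact (IsLocalRing.mem_maximalIdeal c).mp h1 hc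
  have hκu : algebraMap B R κ ∉ 𝔐 := by
    intro h
    rw [h𝔐eq] at h
    have h1 := (h80o_not_mem_iff q₀ hq S φ hφS hφ κ 0).mp (by simpa using h)
    exact (IsLocalRing.mem_maximalIdeal κ).mp h1 hκ
  have h1 : S + algebraMap B R c ∉ 𝔐 := by
    intro h
    apply hcu
    have := 𝔐.sub_mem h hSmem
    simpa using this
  have h2 : S * η + algebraMap B R κ ∉ 𝔐 := by
    intro h
    apply hκu
    have := 𝔐.sub_mem h (𝔐.mul_mem_right η hSmem)
    simpa using this
  obtain ⟨u₁, hu₁⟩ := hunit _ h1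
  obtain ⟨u₂, hu₂⟩ := hunit _ h2
  -- `q₀ = unit * S ^ k`
  have hqS : algebraMap R L (algebraMap B R q₀) =
      ((-(u₁ * u₂⁻¹) : Lˣ) : L) * algebraMap R L S ^ k := by
    have e := congrArg (algebraMap R L) hroot
    rw [map_add, map_mul, map_mul, map_pow, map_zero, ← hu₁, ← hu₂] at e
    have e2 : algebraMap R L (algebraMap B R q₀) * (u₂ : L) =
        -(algebraMap R L S ^ k * (u₁ : L)) := by linear_combination e
    have e3 : algebraMap R L (algebraMap B R q₀) =
        -(algebraMap R L S ^ k * (u₁ : L)) * ((u₂⁻¹ : Lˣ) : L) := by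
      rw [← e2, mul_assoc, Units.mul_inv, mul_one]
    rw [e3]
    simp only [Units.val_neg, Units.val_mul]
    ring
  -- the maximal ideal
  have hmaxL : maximalIdeal L = 𝔐.map (algebraMap R L) :=
    (IsLocalization.AtPrime.map_eq_maximalIdeal 𝔐 L).symm
  have hSL : algebraMap R L S ∈ Ideal.span
      {algebraMap R L S, algebraMap R L (algebraMap B R t₁)} :=
    Ideal.subset_span (by simp)
  have htL : algebraMap R L (algebraMap B R t₁) ∈ Ideal.span
      {algebraMap R L S, algebraMap R L (algebraMap B R t₁)} :=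
    Ideal.subset_span (by simp)
  have hmax2 : maximalIdeal L =
      Ideal.span {algebraMap R L S, algebraMap R L (algebraMap B R t₁)} := by
    apply le_antisymm
    · rw [hmaxL, Ideal.map_le_iff_le_comap, h𝔐eq]
      refine sup_le ?_ ?_
      · rw [hmaxB, Ideal.map_span, Ideal.span_le]
        rintro _ ⟨b, hb, rfl⟩
        rw [SetLike.mem_coe, Ideal.mem_comap]
        rcases hb with rfl | hb
        · rw [hqS]
          obtain ⟨k', rfl⟩ : ∃ k', k = k' + 1 := ⟨k - 1, by omega⟩
          rw [pow_succ, ← mul_assoc]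
          exact Ideal.mul_mem_left _ _ hSL
        · rw [Set.mem_singleton_iff] at hb
          rw [hb]; exact htL
      · rw [Ideal.span_le]
        intro x hx
        rw [Set.mem_singleton_iff] at hx
        rw [hx, SetLike.mem_coe, Ideal.mem_comap]
        exact hSL
    · rw [Ideal.span_le, hmaxL]
      rintro x (rfl | hx)
      · exact Ideal.mem_map_of_mem _ hSmem
      · rw [Set.mem_singleton_iff] at hx
        rw [hx]
        refine Ideal.mem_map_of_mem _ ?_
        rw [h𝔐eq]
        exact Ideal.mem_sup_left (Ideal.mem_map_of_mem _ ht)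
  -- `S ≠ 0`
  have hS0 : S ≠ 0 := by
    intro h
    rw [h, zero_pow hk.ne', zero_mul, zero_mul, zero_add, zero_add, ← map_mul] at hroot
    have h3 : q₀ * κ = 0 := hinj (by rw [hroot, map_zero])
    rcases mul_eq_zero.mp h3 with h4 | h4
    · exact hq0 h4
    · exact hκ.ne_zero h4
  have hSL0 : algebraMap R L S ≠ 0 := fun h => hS0 (hinjL (by rw [h, map_zero]))
  -- non-nilpotency of `t₁` modulo `S`
  have hnilL : ∀ n : ℕ, algebraMap R L (algebraMap B R t₁) ^ n ∉
      Ideal.span {algebraMap R L S} := by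
    intro n hn
    obtain ⟨x, hx⟩ := Ideal.mem_span_singleton'.mp hn
    obtain ⟨⟨r, s⟩, hrs⟩ := IsLocalization.mk'_surjective 𝔐.primeCompl x
    -- `s t₁ ^ n = S r` in `R`
    have e1 : algebraMap R L ((s : R) * algebraMap B R t₁ ^ n) =
        algebraMap R L (S * r) := by
      rw [map_mul, map_mul, map_pow, ← hx, ← hrs]
      have := IsLocalization.mk'_spec L r s
      calc algebraMap R L (s : R) * (IsLocalization.mk' L r s * algebraMap R L S)
          = (IsLocalization.mk' L r s * algebraMap R L (s : R)) * algebraMap R L S := by ring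
        _ = algebraMap R L r * algebraMap R L S := by rw [this]
        _ = algebraMap R L S * algebraMap R L r := by ring
    have e2 : (s : R) * algebraMap B R t₁ ^ n = S * r := hinjL e1
    have e3 := congrArg φ e2
    rw [map_mul, map_mul, hφS, zero_mul, map_pow, hφ] at e3
    -- `φ s` is a unit
    obtain ⟨b, c', hbc⟩ := h80r_exists_const S hgen (s : R)
    have hb : b ∉ maximalIdeal B := by
      intro h
      have := (h80o_not_mem_iff q₀ hq S φ hφS hφ b c').mpr h
      rw [← hbc, ← h𝔐eq] at this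
      exact s.2 this
    have hbu : IsUnit b := by
      by_contra h
      exact hb ((IsLocalRing.mem_maximalIdeal b).mpr h)
    have hφs : φ (s : R) = Ideal.Quotient.mk _ b := by
      rw [hbc, map_add, map_mul, hφS, zero_mul, add_zero, hφ]
    rw [hφs, ← map_pow, ← map_mul, Ideal.Quotient.eq_zero_iff_mem] at e3
    obtain ⟨v, hv⟩ := hbu.exists_left_inv
    have e4 : t₁ ^ n ∈ Ideal.span {q₀} := by
      have : t₁ ^ n = v * (b * t₁ ^ n) := by rw [← mul_assoc, hv, one_mul]
      rw [this]
      exact Ideal.mul_mem_left _ _ e3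
    exact hnil n e4
  have hufd := h80u_ufd_of_two_gen (algebraMap R L S) (algebraMap R L (algebraMap B R t₁))
    hSL0 hmax2 hnilL
  have hpr := (h80u_prime_of_two_gen (algebraMap R L S)
    (algebraMap R L (algebraMap B R t₁)) hSL0 hmax2 hnilL).1
  exact ⟨hmax2, ⟨-(u₁ * u₂⁻¹), hqS⟩, hpr, hufd, inferInstance⟩

/-- **Construction of the restriction `φ` to the component `S = 0`**: if every polynomial
over `B` killing `S` has its constant term in `(q₀)`, the ring map `R = B[S] → B ⧸ (q₀)`,
`S ↦ 0`, exists. -/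
theorem h80o_phi (q₀ : B) (S : R) (hgen : Algebra.adjoin B {S} = ⊤)
    (hker : ∀ P : B[X], aeval S P = 0 → P.coeff 0 ∈ Ideal.span {q₀}) :
    ∃ φ : R →+* B ⧸ Ideal.span {q₀}, φ S = 0 ∧
      ∀ b : B, φ (algebraMap B R b) = Ideal.Quotient.mk _ b := by
  classical
  have hsurj : Function.Surjective ((aeval S : B[X] →ₐ[B] R) : B[X] →+* R) := by
    intro x
    have hx : x ∈ (aeval S : B[X] →ₐ[B] R).range := by
      rw [← Algebra.adjoin_singleton_eq_range_aeval, hgen]; trivial
    obtain ⟨P, hP⟩ := hx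
    exact ⟨P, hP⟩
  let ψ : B[X] →+* B ⧸ Ideal.span {q₀} :=
    (Ideal.Quotient.mk (Ideal.span {q₀})).comp (Polynomial.constantCoeff)
  have hψ : ∀ P : B[X], ψ P = Ideal.Quotient.mk _ (P.coeff 0) := fun P => rfl
  have hkerψ : RingHom.ker ((aeval S : B[X] →ₐ[B] R) : B[X] →+* R) ≤ RingHom.ker ψ := by
    intro P hP
    rw [RingHom.mem_ker] at hP ⊢
    rw [hψ, Ideal.Quotient.eq_zero_iff_mem]
    exact hker P hP
  let φ : R →+* B ⧸ Ideal.span {q₀} :=
    RingHom.liftOfSurjective _ hsurj ⟨ψ, hkerψ⟩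
  have hφ : ∀ P : B[X], φ (aeval S P) = ψ P := fun P =>
    RingHom.liftOfSurjective_comp_apply _ hsurj ⟨ψ, hkerψ⟩ P
  refine ⟨φ, ?_, ?_⟩
  · have := hφ X
    rw [aeval_X, hψ, coeff_X_zero, map_zero] at this
    exact this
  · intro b
    have := hφ (C b)
    rw [aeval_C, hψ, coeff_C_zero] at this
    exact this

end RegOrd

end Fermat.Agent.S36
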