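import Mathlib
import Fermat.Agent.S36.H80RegOrd

/-!
# S36, block REG, row R-ORD (helper80): abstract regularity lemmas at the ordinary points

Abstract commutative algebra (Mathlib + `H80Ufd`, `H80RegExt`, `H80RegOrd`).

Setting: `B` a noetherian local domain with `𝔪_B = (q₀, t₁)`, `t₁ ^ n ∉ (q₀)` (the local ring of
the chart of level `M q` over the inertia ring at a smooth point of the special fibre),
`R = B[S]` a domain, `S` integral over `B`.

* `h80q_adjoin_sub` : `B[Z - a] = B[Z]`.
* `h80q_dvd_of_min` : a monic `H` of minimal degree killing `Z` divides every polynomial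
  killing `Z`.
* `h80q_phi` : the evaluation `R = B[Z] → B ⧸ (q₀)`, `Z ↦ a`, exists as soon as `P(a) ∈ (q₀)`
  for every polynomial `P` killing `Z`.
* `h80q_etale` (**the unramified point**): `S w = q₀ h` with `w ∉ 𝔐 = 𝔪_B R + (S)`, and the
  restriction `φ : R → B ⧸ (q₀)`, `S ↦ 0`.  Then `L = R_𝔐` is a noetherian local domain with
  `𝔪_L = (q₀, t₁)`, `S ∈ q₀ L`, `q₀` is prime, `L` is a UFD, integrally closed.
* `h80q_regular_rel` (**the purely inseparable point**, relation form of `h80r_regular`):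
  `S ^ d ∈ 𝔪_B R` and `e t₁ ∈ (q₀, S)`, `e ∉ 𝔪_B R + (S)`.  Then `R` is a noetherian local domain
  with `𝔪_R = (q₀, S)`, `q₀` prime, `R` is a UFD, integrally closed.
-/

set_option autoImplicit false
set_option linter.unusedSectionVars false
set_option linter.unnecessarySimpa false

open IsLocalRing Polynomial

namespace Fermat.Agent.S36

section OrdAbs

variable {B : Type*} [CommRing B] [IsDomain B] [IsNoetherianRing B] [IsLocalRing B]
  {R : Type*} [CommRing R] [IsDomain R] [Algebra B R]

/-- `B[Z - a] = B[Z]`. -/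
theorem h80q_adjoin_sub (Z : R) (a : B) (hgen : Algebra.adjoin B {Z} = ⊤) :
    Algebra.adjoin B {Z - algebraMap B R a} = ⊤ := by
  rw [eq_top_iff, ← hgen]
  refine Algebra.adjoin_le ?_
  intro x hx
  rw [Set.mem_singleton_iff] at hx
  rw [hx]
  have h1 : Z - algebraMap B R a ∈ Algebra.adjoin B {Z - algebraMap B R a} :=
    Algebra.subset_adjoin (Set.mem_singleton _)
  have h2 : algebraMap B R a ∈ Algebra.adjoin B {Z - algebraMap B R a} :=
    Subalgebra.algebraMap_mem _ a
  have h4 : (Z - algebraMap B R a) + algebraMap B R a ∈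
      Algebra.adjoin B {Z - algebraMap B R a} := Subalgebra.add_mem _ h1 h2
  rw [sub_add_cancel] at h4
  exact h4

/-- integrality of `Z - a`. -/
theorem h80q_isIntegral_sub (Z : R) (a : B) (hint : IsIntegral B Z) :
    IsIntegral B (Z - algebraMap B R a) :=
  hint.sub isIntegral_algebraMap

/-- a monic polynomial of minimal degree killing `Z` divides every polynomial killing `Z`. -/
theorem h80q_dvd_of_min (Z : R) (H : B[X]) (hH : H.Monic) (hroot : aeval Z H = 0)
    (hmin : ∀ P : B[X], P ≠ 0 → aeval Z P = 0 → H.natDegree ≤ P.natDegree)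
    (P : B[X]) (hP : aeval Z P = 0) : H ∣ P := by
  rw [← Polynomial.modByMonic_eq_zero_iff_dvd hH]
  by_contra hne
  have h1 : aeval Z (P %ₘ H) = 0 := by
    have h2 := Polynomial.modByMonic_add_div P H
    have h3 : P %ₘ H = P - H * (P /ₘ H) := by rw [eq_sub_iff_add_eq]; exact h2
    rw [h3, map_sub, map_mul, hP, hroot, zero_mul, sub_zero]
  have h4 := hmin _ hne h1
  have hH1 : H ≠ 1 := by
    rintro rfl
    exact hne (Polynomial.modByMonic_one P)
  have h5 := Polynomial.natDegree_modByMonic_lt P hH hH1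
  omega

/-- the evaluation `B[Z] → B ⧸ (q₀)`, `Z ↦ a`. -/
theorem h80q_phi (q₀ : B) (Z : R) (a : B) (hgen : Algebra.adjoin B {Z} = ⊤)
    (hker : ∀ P : B[X], aeval Z P = 0 → P.eval a ∈ Ideal.span {q₀}) :
    ∃ φ : R →+* B ⧸ Ideal.span {q₀}, φ Z = Ideal.Quotient.mk _ a ∧
      (∀ b : B, φ (algebraMap B R b) = Ideal.Quotient.mk _ b) ∧
      ∀ P : B[X], φ (aeval Z P) = Ideal.Quotient.mk _ (P.eval a) := by
  classical
  have hsurj : Function.Surjective ((aeval Z : B[X] →ₐ[B] R) : B[X] →+* R) := by
    intro x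
    have hx : x ∈ (aeval Z : B[X] →ₐ[B] R).range := by
      rw [← Algebra.adjoin_singleton_eq_range_aeval, hgen]; trivial
    obtain ⟨P, hP⟩ := hx
    exact ⟨P, hP⟩
  let ψ : B[X] →+* B ⧸ Ideal.span {q₀} :=
    (Ideal.Quotient.mk (Ideal.span {q₀})).comp (Polynomial.evalRingHom a)
  have hψ : ∀ P : B[X], ψ P = Ideal.Quotient.mk _ (P.eval a) := fun P => rfl
  have hkerψ : RingHom.ker ((aeval Z : B[X] →ₐ[B] R) : B[X] →+* R) ≤ RingHom.ker ψ := by
    intro P hP
    rw [RingHom.mem_ker] at hP ⊢
    rw [hψ, Ideal.Quotient.eq_zero_iff_mem]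
    exact hker P hP
  let φ : R →+* B ⧸ Ideal.span {q₀} :=
    RingHom.liftOfSurjective _ hsurj ⟨ψ, hkerψ⟩
  have hφ : ∀ P : B[X], φ (aeval Z P) = ψ P := fun P =>
    RingHom.liftOfSurjective_comp_apply _ hsurj ⟨ψ, hkerψ⟩ P
  refine ⟨φ, ?_, ?_, ?_⟩
  · have := hφ X
    rw [aeval_X, hψ, eval_X] at this
    exact this
  · intro b
    have := hφ (C b)
    rw [aeval_C, hψ, eval_C] at this
    exact this
  · intro P
    rw [hφ, hψ]

/-- **The unramified point.** -/
theorem h80q_etale
    (hinj : Function.Injective (algebraMap B R))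
    (q₀ t₁ : B) (hq0 : q₀ ≠ 0) (hmaxB : maximalIdeal B = Ideal.span {q₀, t₁})
    (hnil : ∀ n : ℕ, t₁ ^ n ∉ Ideal.span {q₀})
    (S : R) (hint : IsIntegral B S) (hgen : Algebra.adjoin B {S} = ⊤)
    (w h : R) (hrel : S * w = algebraMap B R q₀ * h)
    (φ : R →+* B ⧸ Ideal.span {q₀}) (hφS : φ S = 0)
    (hφ : ∀ b : B, φ (algebraMap B R b) = Ideal.Quotient.mk _ b)
    (𝔐 : Ideal R) [h𝔐 : 𝔐.IsPrime] (h𝔐eq : 𝔐 = h80rI B S) (hw : w ∉ 𝔐)
    (L : Type*) [CommRing L] [Algebra R L] [IsLocalization.AtPrime L 𝔐] :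
    ∃ (_ : IsLocalRing L) (_ : IsDomain L), IsNoetherianRing L ∧
      maximalIdeal L = Ideal.span {algebraMap R L (algebraMap B R q₀),
        algebraMap R L (algebraMap B R t₁)} ∧
      (∃ l : L, algebraMap R L S = algebraMap R L (algebraMap B R q₀) * l) ∧
      Prime (algebraMap R L (algebraMap B R q₀)) ∧ UniqueFactorizationMonoid L ∧
      IsIntegrallyClosed L := by
  classical
  have hq : q₀ ∈ maximalIdeal B := by
    rw [hmaxB]; exact Ideal.subset_span (by simp)
  have ht : t₁ ∈ maximalIdeal B := by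
    rw [hmaxB]; exact Ideal.subset_span (by simp)
  obtain ⟨G, hG, hGroot⟩ := hint
  have hnoeR : IsNoetherianRing R :=
    h80r_isNoetherianRing S hgen G hG (by rw [aeval_def]; exact hGroot)
  have hlocL : IsLocalRing L := IsLocalization.AtPrime.isLocalRing L 𝔐
  have hle : 𝔐.primeCompl ≤ nonZeroDivisors R := by
    intro x hx
    rw [mem_nonZeroDivisors_iff_ne_zero]
    rintro rfl
    exact hx 𝔐.zero_mem
  have hdomL : IsDomain L :=
    IsLocalization.isDomain_of_le_nonZeroDivisors (R := R) (M := 𝔐.primeCompl) (S := L) hle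
  have hnoeL : IsNoetherianRing L := IsLocalization.isNoetherianRing 𝔐.primeCompl L hnoeR
  have hinjL : Function.Injective (algebraMap R L) := IsLocalization.injective L hle
  refine ⟨hlocL, hdomL, hnoeL, ?_⟩
  have hunit : ∀ x : R, x ∉ 𝔐 → IsUnit (algebraMap R L x) := fun x hx =>
    IsLocalization.map_units L (⟨x, hx⟩ : 𝔐.primeCompl)
  have hSmem : S ∈ 𝔐 := by
    rw [h𝔐eq]; exact Ideal.mem_sup_right (Ideal.subset_span (Set.mem_singleton S))
  obtain ⟨u, hu⟩ := hunit w hw
  -- `S ∈ q₀ L`
  have hSq : algebraMap R L S =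
      algebraMap R L (algebraMap B R q₀) * (algebraMap R L h * ((u⁻¹ : Lˣ) : L)) := by
    have e := congrArg (algebraMap R L) hrel
    rw [map_mul, map_mul, ← hu] at e
    calc algebraMap R L S = algebraMap R L S * (u : L) * ((u⁻¹ : Lˣ) : L) := by
          rw [mul_assoc, Units.mul_inv, mul_one]
      _ = algebraMap R L (algebraMap B R q₀) * algebraMap R L h * ((u⁻¹ : Lˣ) : L) := by
          rw [e]
      _ = _ := by ring
  have hmaxL : maximalIdeal L = 𝔐.map (algebraMap R L) :=
    (IsLocalization.AtPrime.map_eq_maximalIdeal 𝔐 L).symm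
  have hqL : algebraMap R L (algebraMap B R q₀) ∈ Ideal.span
      {algebraMap R L (algebraMap B R q₀), algebraMap R L (algebraMap B R t₁)} :=
    Ideal.subset_span (by simp)
  have htL : algebraMap R L (algebraMap B R t₁) ∈ Ideal.span
      {algebraMap R L (algebraMap B R q₀), algebraMap R L (algebraMap B R t₁)} :=
    Ideal.subset_span (by simp)
  have hmax2 : maximalIdeal L = Ideal.span
      {algebraMap R L (algebraMap B R q₀), algebraMap R L (algebraMap B R t₁)} := by
    apply le_antisymm
    · rw [hmaxL, Ideal.map_le_iff_le_comap, h𝔐eq]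
      refine sup_le ?_ ?_
      · rw [hmaxB, Ideal.map_span, Ideal.span_le]
        rintro _ ⟨b, hb, rfl⟩
        rw [SetLike.mem_coe, Ideal.mem_comap]
        rcases hb with rfl | hb
        · exact hqL
        · rw [Set.mem_singleton_iff] at hb
          rw [hb]; exact htL
      · rw [Ideal.span_le]
        intro x hx
        rw [Set.mem_singleton_iff] at hx
        rw [hx, SetLike.mem_coe, Ideal.mem_comap, hSq]
        exact Ideal.mul_mem_right _ _ hqL
    · rw [Ideal.span_le, hmaxL]
      rintro x (rfl | hx)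
      · refine Ideal.mem_map_of_mem _ ?_
        rw [h𝔐eq]
        exact Ideal.mem_sup_left (Ideal.mem_map_of_mem _ hq)
      · rw [Set.mem_singleton_iff] at hx
        rw [hx]
        refine Ideal.mem_map_of_mem _ ?_
        rw [h𝔐eq]
        exact Ideal.mem_sup_left (Ideal.mem_map_of_mem _ ht)
  have hq0L : algebraMap R L (algebraMap B R q₀) ≠ 0 := by
    intro h0
    exact hq0 (hinj (hinjL (by rw [h0, map_zero, map_zero])))
  -- non-nilpotency of `t₁` modulo `q₀`
  have hnilL : ∀ n : ℕ, algebraMap R L (algebraMap B R t₁) ^ n ∉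
      Ideal.span {algebraMap R L (algebraMap B R q₀)} := by
    intro n hn
    obtain ⟨x, hx⟩ := Ideal.mem_span_singleton'.mp hn
    obtain ⟨⟨r, s⟩, hrs⟩ := IsLocalization.mk'_surjective 𝔐.primeCompl x
    have e1 : algebraMap R L ((s : R) * algebraMap B R t₁ ^ n) =
        algebraMap R L (algebraMap B R q₀ * r) := by
      rw [map_mul, map_mul, map_pow, ← hx, ← hrs]
      have := IsLocalization.mk'_spec L r s
      calc algebraMap R L (s : R) *
            (IsLocalization.mk' L r s * algebraMap R L (algebraMap B R q₀))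
          = (IsLocalization.mk' L r s * algebraMap R L (s : R)) *
              algebraMap R L (algebraMap B R q₀) := by ring
        _ = algebraMap R L r * algebraMap R L (algebraMap B R q₀) := by rw [this]
        _ = algebraMap R L (algebraMap B R q₀) * algebraMap R L r := by ring
    have e2 : (s : R) * algebraMap B R t₁ ^ n = algebraMap B R q₀ * r := hinjL e1
    have e3 := congrArg φ e2
    have hφq : φ (algebraMap B R q₀) = 0 := by
      rw [hφ, Ideal.Quotient.eq_zero_iff_mem]
      exact Ideal.subset_span (Set.mem_singleton _)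
    rw [map_mul, map_mul, hφq, zero_mul, map_pow, hφ] at e3
    obtain ⟨b, c', hbc⟩ := h80r_exists_const S hgen (s : R)
    have hb : b ∉ maximalIdeal B := by
      intro hbm
      have := (h80o_not_mem_iff q₀ hq S φ hφS hφ b c').mpr hbm
      rw [← hbc, ← h𝔐eq] at this
      exact s.2 this
    have hbu : IsUnit b := by
      by_contra hnu
      exact hb ((IsLocalRing.mem_maximalIdeal b).mpr hnu)
    have hφs : φ (s : R) = Ideal.Quotient.mk _ b := by
      rw [hbc, map_add, map_mul, hφS, zero_mul, add_zero, hφ]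
    rw [hφs, ← map_pow, ← map_mul, Ideal.Quotient.eq_zero_iff_mem] at e3
    obtain ⟨v, hv⟩ := hbu.exists_left_inv
    have e4 : t₁ ^ n ∈ Ideal.span {q₀} := by
      have : t₁ ^ n = v * (b * t₁ ^ n) := by rw [← mul_assoc, hv, one_mul]
      rw [this]
      exact Ideal.mul_mem_left _ _ e3
    exact hnil n e4
  have hufd := h80u_ufd_of_two_gen (algebraMap R L (algebraMap B R q₀))
    (algebraMap R L (algebraMap B R t₁)) hq0L hmax2 hnilL
  have hpr := (h80u_prime_of_two_gen (algebraMap R L (algebraMap B R q₀))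
    (algebraMap R L (algebraMap B R t₁)) hq0L hmax2 hnilL).1
  exact ⟨hmax2, ⟨_, hSq⟩, hpr, hufd, inferInstance⟩

/-! ## The purely inseparable point: relation form of `h80r_regular` -/

/-- `R = B[S]` is integral over `B`. -/
theorem h80q_isIntegral (S : R) (hint : IsIntegral B S) (hgen : Algebra.adjoin B {S} = ⊤) :
    Algebra.IsIntegral B R := by
  refine ⟨fun x => ?_⟩
  have h1 : x ∈ Algebra.adjoin B {S} := by rw [hgen]; trivial
  exact adjoin_le_integralClosure hint h1

/-- every maximal ideal of `R = B[S]` is `𝔪_B R + (S)` when `S ^ d ∈ 𝔪_B R`. -/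
theorem h80q_eq_of_isMaximal (S : R) (hint : IsIntegral B S)
    (hgen : Algebra.adjoin B {S} = ⊤)
    (d : ℕ) (hpow : S ^ d ∈ (maximalIdeal B).map (algebraMap B R))
    (M : Ideal R) (hM : M.IsMaximal) : M = h80rI B S := by
  have hint' := h80q_isIntegral S hint hgen
  have hcm : (M.comap (algebraMap B R)).IsMaximal :=
    Ideal.isMaximal_comap_of_isIntegral_of_isMaximal M
  have hcm' : M.comap (algebraMap B R) = maximalIdeal B := IsLocalRing.eq_maximalIdeal hcm
  have hle1 : (maximalIdeal B).map (algebraMap B R) ≤ M := by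
    rw [Ideal.map_le_iff_le_comap, hcm']
  have hZ : S ∈ M := hM.isPrime.mem_of_pow_mem _ (hle1 hpow)
  have hle : h80rI B S ≤ M := by
    refine sup_le hle1 ?_
    rw [Ideal.span_le]
    intro x hx
    rw [Set.mem_singleton_iff] at hx
    rw [hx]; exact hZ
  apply le_antisymm
  · intro x hx
    obtain ⟨b, c, rfl⟩ := h80r_exists_const S hgen x
    have hZc : S * c ∈ h80rI B S :=
      Ideal.mul_mem_right _ _ (Ideal.mem_sup_right (Ideal.subset_span (Set.mem_singleton S)))
    have hb : algebraMap B R b ∈ M := by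
      have := M.sub_mem hx (hle hZc)
      simpa using this
    have hb' : b ∈ maximalIdeal B := by
      rw [← hcm']; exact hb
    exact Ideal.add_mem _ (Ideal.mem_sup_left (Ideal.mem_map_of_mem _ hb')) hZc
  · exact hle

/-- `R = B[S]` is local when `S ^ d ∈ 𝔪_B R`. -/
theorem h80q_isLocalRing (S : R) (hint : IsIntegral B S)
    (hgen : Algebra.adjoin B {S} = ⊤)
    (d : ℕ) (hpow : S ^ d ∈ (maximalIdeal B).map (algebraMap B R)) : IsLocalRing R := by
  obtain ⟨M, hM⟩ := Ideal.exists_maximal R
  refine IsLocalRing.of_unique_max_ideal ⟨M, hM, fun M' hM' => ?_⟩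
  rw [h80q_eq_of_isMaximal S hint hgen d hpow M hM,
    h80q_eq_of_isMaximal S hint hgen d hpow M' hM']

/-- **The purely inseparable point** (relation form of `h80r_regular`). -/
theorem h80q_regular_rel
    (hinj : Function.Injective (algebraMap B R))
    (X₀ Y₀ : B) (hX0 : X₀ ≠ 0) (hmaxB : maximalIdeal B = Ideal.span {X₀, Y₀})
    (hnil : ∀ n : ℕ, Y₀ ^ n ∉ Ideal.span {X₀})
    (S : R) (hint : IsIntegral B S) (hgen : Algebra.adjoin B {S} = ⊤)
    (d : ℕ) (hpow : S ^ d ∈ (maximalIdeal B).map (algebraMap B R))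
    (e : R) (he : e ∉ h80rI B S)
    (hkey : e * algebraMap B R Y₀ ∈ Ideal.span {algebraMap B R X₀, S}) :
    ∃ (_ : IsLocalRing R), IsNoetherianRing R ∧
      maximalIdeal R = Ideal.span {algebraMap B R X₀, S} ∧
      (∀ n : ℕ, S ^ n ∉ Ideal.span {algebraMap B R X₀}) ∧
      Prime (algebraMap B R X₀) ∧
      UniqueFactorizationMonoid R ∧ IsIntegrallyClosed R := by
  classical
  have hloc : IsLocalRing R := h80q_isLocalRing S hint hgen d hpow
  have hnoe : IsNoetherianRing R := by
    obtain ⟨G, hG, hGroot⟩ := hint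
    exact h80r_isNoetherianRing S hgen G hG (by rw [aeval_def]; exact hGroot)
  have hint' := h80q_isIntegral S hint hgen
  have hmax : maximalIdeal R = h80rI B S :=
    h80q_eq_of_isMaximal S hint hgen d hpow _ (maximalIdeal.isMaximal R)
  have heu : IsUnit e := by
    by_contra h
    apply he
    rw [← hmax]
    exact (IsLocalRing.mem_maximalIdeal e).mpr h
  have hY : algebraMap B R Y₀ ∈ Ideal.span {algebraMap B R X₀, S} := by
    obtain ⟨v, hv⟩ := heu.exists_left_inv
    have : algebraMap B R Y₀ = v * (e * algebraMap B R Y₀) := by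
      rw [← mul_assoc, hv, one_mul]
    rw [this]
    exact Ideal.mul_mem_left _ _ hkey
  have hXmem : algebraMap B R X₀ ∈ Ideal.span {algebraMap B R X₀, S} :=
    Ideal.subset_span (by simp)
  have hZmem : S ∈ Ideal.span {algebraMap B R X₀, S} := Ideal.subset_span (by simp)
  have hmax2 : maximalIdeal R = Ideal.span {algebraMap B R X₀, S} := by
    rw [hmax]
    unfold h80rI
    apply le_antisymm
    · refine sup_le ?_ ?_
      · rw [hmaxB, Ideal.map_span, Ideal.span_le]
        rintro _ ⟨b, hb, rfl⟩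
        rcases hb with rfl | hb
        · exact hXmem
        · rw [Set.mem_singleton_iff] at hb
          rw [hb]; exact hY
      · rw [Ideal.span_le]
        intro x hx
        rw [Set.mem_singleton_iff] at hx
        rw [hx]; exact hZmem
    · rw [Ideal.span_le]
      rintro x (rfl | hx)
      · refine Ideal.mem_sup_left (Ideal.mem_map_of_mem _ ?_)
        rw [hmaxB]; exact Ideal.subset_span (by simp)
      · rw [Set.mem_singleton_iff] at hx
        rw [hx]
        exact Ideal.mem_sup_right (Ideal.subset_span (Set.mem_singleton S))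
  have hnilR : ∀ n : ℕ, S ^ n ∉ Ideal.span {algebraMap B R X₀} := by
    intro n hn
    obtain ⟨c₁, c₂, hc⟩ := Ideal.mem_span_pair.mp hY
    have hYn : algebraMap B R (Y₀ ^ n) ∈ Ideal.span {algebraMap B R X₀} := by
      rw [map_pow, ← hc]
      rw [add_pow]
      refine Ideal.sum_mem _ fun k hk => ?_
      rcases Nat.eq_zero_or_pos k with rfl | hk0
      · simp only [pow_zero, one_mul, Nat.sub_zero, Nat.choose_zero_right, Nat.cast_one,
          mul_one]
        rw [mul_pow]
        exact Ideal.mul_mem_left _ _ hn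
      · obtain ⟨k', rfl⟩ : ∃ k', k = k' + 1 := ⟨k - 1, by omega⟩
        have : (c₁ * algebraMap B R X₀) ^ (k' + 1) * (c₂ * S) ^ (n - (k' + 1)) *
            (n.choose (k' + 1) : R) =
            ((c₁ * algebraMap B R X₀) ^ k' * c₁ * (c₂ * S) ^ (n - (k' + 1)) *
              (n.choose (k' + 1) : R)) * algebraMap B R X₀ := by
          rw [pow_succ]; ring
        rw [this]
        exact Ideal.mul_mem_left _ _ (Ideal.subset_span (Set.mem_singleton _))
    obtain ⟨m, hm, hmem⟩ := h80r_pow_mem_of_integral hinj X₀ (Y₀ ^ n) hYn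
    rw [← pow_mul] at hmem
    exact hnil _ hmem
  have hX0' : algebraMap B R X₀ ≠ 0 := fun h => hX0 (hinj (by rw [h, map_zero]))
  have hufd := h80u_ufd_of_two_gen (algebraMap B R X₀) S hX0' hmax2 hnilR
  have hpr := (h80u_prime_of_two_gen (algebraMap B R X₀) S hX0' hmax2 hnilR).1
  exact ⟨hloc, hnoe, hmax2, hnilR, hpr, hufd, inferInstance⟩

end OrdAbs

end Fermat.Agent.S36
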