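import Mathlib
import Fermat.Agent.S36.H80OrdAbs

/-!
# S36, block REG, row R-ORD (helper80): the Kronecker polynomial at the ordinary points

`B` a domain, `q` a prime with `(q : B) ≠ 0`, `X Y : B`, `s : B[T]`,

  `G̃ = h80qG q Y s = (T - Y ^ q) (T ^ q - Y) + q s`,   `G̃(X) = 0`.

* `h80q_factor_inf` : if `Y = X ^ q + q y₁` (the point lies on `C_∞`) then
  `G̃ = (T - X) ((T - X ^ (q²)) (T - X) ^ (q - 1) + q H₁)`.
* `h80q_factor_zero` : if `X = Y ^ q + q x₁` (the point lies on `C₀`) then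
  `G̃ = (T - X) ((T ^ q - Y) + q E₁)`.
* `h80q_deriv_eval` : `G̃'(X) = H(X)` for `G̃ = (T - X) H`.
-/

set_option autoImplicit false
set_option linter.unusedSectionVars false
set_option linter.unnecessarySimpa false

open IsLocalRing Polynomial

namespace Fermat.Agent.S36

section Poly

variable {B : Type*} [CommRing B]

/-- the Kronecker polynomial `(T - Y ^ q) (T ^ q - Y) + q s`. -/
noncomputable def h80qG (q : ℕ) (Y : B) (s : B[X]) : B[X] :=
  (X - C (Y ^ q)) * (X ^ q - C Y) + C (q : B) * s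

theorem h80q_G_eval (q : ℕ) (Y : B) (s : B[X]) (x : B) :
    (h80qG q Y s).eval x = (x - Y ^ q) * (x ^ q - Y) + (q : B) * s.eval x := by
  unfold h80qG
  simp only [eval_add, eval_mul, eval_sub, eval_X, eval_C, eval_pow]

theorem h80q_G_aeval {R : Type*} [CommRing R] [Algebra B R] (q : ℕ) (Y : B) (s : B[X])
    (z : R) :
    aeval z (h80qG q Y s) =
      (z - algebraMap B R Y ^ q) * (z ^ q - algebraMap B R Y)
        + algebraMap B R (q : B) * aeval z s := by
  unfold h80qG
  simp only [map_add, map_mul, map_sub, aeval_X, aeval_C, map_pow]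

theorem h80q_G_monic [Nontrivial B] (q : ℕ) (hq : 0 < q) (Y : B) (s : B[X])
    (hs : s.natDegree ≤ q) : (h80qG q Y s).Monic := by
  unfold h80qG
  have h1 : ((X - C (Y ^ q)) * (X ^ q - C Y) : B[X]).Monic :=
    (monic_X_sub_C _).mul (monic_X_pow_sub_C _ hq.ne')
  have h2 : ((X - C (Y ^ q)) * (X ^ q - C Y) : B[X]).natDegree = 1 + q := by
    rw [((monic_X_sub_C (Y ^ q)).natDegree_mul (monic_X_pow_sub_C Y hq.ne')),
      natDegree_X_sub_C, natDegree_X_pow_sub_C]
  refine h1.add_of_left ?_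
  rw [degree_eq_natDegree h1.ne_zero, h2]
  refine lt_of_le_of_lt (degree_le_natDegree) ?_
  have h3 : (C (q : B) * s).natDegree ≤ q :=
    le_trans (natDegree_C_mul_le _ _) hs
  exact_mod_cast Nat.lt_of_le_of_lt h3 (by omega)

theorem h80q_G_natDegree [Nontrivial B] (q : ℕ) (hq : 0 < q) (Y : B) (s : B[X])
    (hs : s.natDegree ≤ q) : (h80qG q Y s).natDegree = q + 1 := by
  unfold h80qG
  have h1 : ((X - C (Y ^ q)) * (X ^ q - C Y) : B[X]).Monic :=
    (monic_X_sub_C _).mul (monic_X_pow_sub_C _ hq.ne')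
  have h2 : ((X - C (Y ^ q)) * (X ^ q - C Y) : B[X]).natDegree = 1 + q := by
    rw [((monic_X_sub_C (Y ^ q)).natDegree_mul (monic_X_pow_sub_C Y hq.ne')),
      natDegree_X_sub_C, natDegree_X_pow_sub_C]
  have h3 : (C (q : B) * s).natDegree ≤ q :=
    le_trans (natDegree_C_mul_le _ _) hs
  rw [natDegree_add_eq_left_of_natDegree_lt (by rw [h2]; omega), h2, add_comm]

/-- `T ^ q - X ^ q = (T - X) ((T - X) ^ (q - 1) + q X r)`. -/
theorem h80q_pow_sub (q : ℕ) (hq : q.Prime) (x : B) :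
    ∃ r : B[X], (X ^ q - C (x ^ q) : B[X]) =
      (X - C x) * ((X - C x) ^ (q - 1) + C (q : B) * (C x * r)) := by
  obtain ⟨r, hr⟩ := exists_add_pow_prime_eq hq (X - C x : B[X]) (C x)
  refine ⟨r, ?_⟩
  rw [sub_add_cancel] at hr
  obtain ⟨k, hk⟩ : ∃ k, q = k + 1 := ⟨q - 1, by have := hq.pos; omega⟩
  have h1 : ((q : ℕ) : B[X]) = C (q : B) := by simp
  rw [hr, h1, hk]
  simp only [Nat.add_sub_cancel, map_pow]
  ring

end Poly

section Factor

variable {B : Type*} [CommRing B] [IsDomain B]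

/-- a polynomial vanishing at `x` is divisible by `T - x`. -/
theorem h80q_exists_factor (e : B[X]) (x : B) (he : e.eval x = 0) :
    ∃ e₁ : B[X], e = (X - C x) * e₁ := by
  have h := (Polynomial.dvd_iff_isRoot (p := e) (a := x)).mpr he
  obtain ⟨e₁, he₁⟩ := h
  exact ⟨e₁, he₁⟩

/-- **the factorisation on `C_∞`.** -/
theorem h80q_factor_inf (q : ℕ) (hq : q.Prime) (hq0 : (q : B) ≠ 0) (x y y₁ : B) (s : B[X])
    (hy : y = x ^ q + (q : B) * y₁) (hGX : (h80qG q y s).eval x = 0) :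
    ∃ H₁ : B[X], h80qG q y s =
      (X - C x) * ((X - C (x ^ (q * q))) * (X - C x) ^ (q - 1) + C (q : B) * H₁) := by
  classical
  -- `y ^ q = x ^ (q²) + q y₂`
  obtain ⟨ρ, hρ⟩ := exists_add_pow_prime_eq hq (x ^ q) ((q : B) * y₁)
  obtain ⟨k, hk⟩ : ∃ k, q = k + 1 := ⟨q - 1, by have := hq.pos; omega⟩
  set y₂ : B := (q : B) ^ k * y₁ ^ q + x ^ q * ((q : B) * y₁) * ρ with hy₂
  have hyq : y ^ q = x ^ (q * q) + (q : B) * y₂ := by
    rw [hy, hρ, hy₂, pow_mul, mul_pow]
    have hpow : ∀ a : B, a ^ q = a * a ^ k := fun a => by rw [hk, pow_succ']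
    rw [hpow (q : B)]
    ring
  obtain ⟨r, hr⟩ := h80q_pow_sub q hq x
  -- the remainder
  set e : B[X] := -(C y₁ * (X - C (x ^ (q * q)))) - C y₂ * (X ^ q - C y) + s with he
  have hG : h80qG q y s =
      (X - C (x ^ (q * q))) * (X ^ q - C (x ^ q)) + C (q : B) * e := by
    unfold h80qG
    rw [he, hyq]
    have h1 : (C y : B[X]) = C (x ^ q) + C (q : B) * C y₁ := by
      rw [hy, map_add, map_mul]
    simp only [map_add, map_mul, map_pow]
    rw [h1]
    simp only [map_pow]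
    ring
  have heX : e.eval x = 0 := by
    have h1 := hGX
    rw [hG] at h1
    simp only [eval_add, eval_mul, eval_sub, eval_X, eval_C, eval_pow, sub_self, mul_zero,
      zero_add] at h1
    rcases mul_eq_zero.mp h1 with h2 | h2
    · exact absurd h2 hq0
    · exact h2
  obtain ⟨e₁, he₁⟩ := h80q_exists_factor e x heX
  refine ⟨(X - C (x ^ (q * q))) * (C x * r) + e₁, ?_⟩
  rw [hG, hr, he₁]
  ring

/-- **the factorisation on `C₀`.** -/
theorem h80q_factor_zero (q : ℕ) (hq0 : (q : B) ≠ 0) (x y x₁ : B) (s : B[X])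
    (hx : x = y ^ q + (q : B) * x₁) (hGX : (h80qG q y s).eval x = 0) :
    ∃ E₁ : B[X], h80qG q y s = (X - C x) * ((X ^ q - C y) + C (q : B) * E₁) := by
  classical
  set e : B[X] := C x₁ * (X ^ q - C y) + s with he
  have hG : h80qG q y s = (X - C x) * (X ^ q - C y) + C (q : B) * e := by
    unfold h80qG
    rw [he]
    have h1 : (C x : B[X]) = C (y ^ q) + C (q : B) * C x₁ := by
      rw [hx, map_add, map_mul]
    rw [h1]
    ring
  have heX : e.eval x = 0 := by
    have h1 := hGX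
    rw [hG] at h1
    simp only [eval_add, eval_mul, eval_sub, eval_X, eval_C, eval_pow, sub_self, zero_mul,
      zero_add] at h1
    rcases mul_eq_zero.mp h1 with h2 | h2
    · exact absurd h2 hq0
    · exact h2
  obtain ⟨e₁, he₁⟩ := h80q_exists_factor e x heX
  refine ⟨e₁, ?_⟩
  rw [hG, he₁]
  ring

/-- `G̃'(X) = H(X)` for `G̃ = (T - X) H`. -/
theorem h80q_deriv_eval (G H : B[X]) (x : B) (hG : G = (X - C x) * H) :
    (derivative G).eval x = H.eval x := by
  rw [hG, derivative_mul]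
  simp only [derivative_sub, derivative_X, derivative_C, sub_zero, one_mul, eval_add, eval_mul,
    eval_sub, eval_X, eval_C, sub_self, zero_mul, add_zero]

/-- a root `Z ≠ X` of `G̃ = (T - X) H` is a root of `H`. -/
theorem h80q_root_of_factor {R : Type*} [CommRing R] [IsDomain R] [Algebra B R]
    (G H : B[X]) (x : B) (hG : G = (X - C x) * H) (Z : R) (hZ : aeval Z G = 0)
    (hne : Z ≠ algebraMap B R x) : aeval Z H = 0 := by
  rw [hG, map_mul, map_sub, aeval_X, aeval_C] at hZ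
  rcases mul_eq_zero.mp hZ with h | h
  · exact absurd (sub_eq_zero.mp h) hne
  · exact h

/-- divided difference: `P(Z) = P(x) + (Z - x) η`. -/
theorem h80q_aeval_sub {R : Type*} [CommRing R] [Algebra B R] (P : B[X]) (x : B) (Z : R) :
    ∃ η : R, aeval Z P = algebraMap B R (P.eval x) + (Z - algebraMap B R x) * η := by
  have h1 : (X - C x) ∣ P - C (P.eval x) := by
    rw [Polynomial.dvd_iff_isRoot]
    simp
  obtain ⟨Q, hQ⟩ := h1
  refine ⟨aeval Z Q, ?_⟩
  have h2 : P = C (P.eval x) + (X - C x) * Q := by rw [← hQ]; ring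
  conv_lhs => rw [h2]
  simp only [map_add, map_mul, map_sub, aeval_X, aeval_C]

end Factor

end Fermat.Agent.S36
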