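import Mathlib
import Fermat.Agent.S36.H80OrdPoly

/-!
# S36, block REG, row R-ORD (helper80): regularity at the ordinary points, tower form

`B` a noetherian local domain (the local ring of the chart of level `M q` over the inertia ring
at a smooth point `𝔫₁` of the special fibre), `q` a prime, `X, Y ∈ B`, `s ∈ B[T]` of degree
`≤ q`, `G̃ = (T - Y ^ q) (T ^ q - Y) + q s` the Kronecker polynomial, `G̃(X) = 0`;
`R = B[Z]` a domain, `G̃(Z) = 0`, `Z ≠ X`.

* `h80q_ord0` (**points of `C₀₂`**): `X = Y ^ q + q x₁`, `𝔪_B = (q, Y - c' ^ q)`.  Then `R` is a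
  noetherian local domain, `𝔪_R = (q, Z - c')`, `q` is prime in `R`, `R` is a UFD, integrally
  closed.
* `h80q_ord20` (**points of `C₂₀`**, non-exceptional): `Y = X ^ q + q y₁`, `𝔪_B = (q, X - c)`,
  `X - X ^ (q²)` a unit, `Z` of degree `≥ q` over `B`.  Then `𝔐₂₀ = 𝔪_B R + (Z - X ^ (q²))` is
  maximal and `L = R_𝔐₂₀` is a noetherian local domain with `𝔪_L = (q, X - c)`, a UFD,
  integrally closed.
* `h80q_ord11` (**points of `C₁₁`**, non-exceptional): moreover `G̃'(X) = q κ` with `κ` a unit of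
  `B`.  Then `𝔐₁₁ = 𝔪_B R + (Z - X)` is maximal and `L = R_𝔐₁₁` is a noetherian local domain with
  `𝔪_L = (Z - X, X - c)`, `q = unit * (Z - X) ^ (q - 1)`, a UFD, integrally closed.
* `h80q_ordinf_mem` : a prime of `R` containing `q` contains `Z - X ^ (q²)` or `Z - X`.
-/

set_option autoImplicit false
set_option linter.unusedSectionVars false
set_option linter.unnecessarySimpa false

open IsLocalRing Polynomial

namespace Fermat.Agent.S36

section OrdThm

variable {B : Type*} [CommRing B] [IsDomain B] [IsNoetherianRing B] [IsLocalRing B]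
  {R : Type*} [CommRing R] [IsDomain R] [Algebra B R]

/-- `Z` is integral over `B`. -/
theorem h80q_isIntegral_root (q : ℕ) (hq : 0 < q) (Y : B) (s : B[X]) (hs : s.natDegree ≤ q)
    (Z : R) (hGZ : aeval Z (h80qG q Y s) = 0) : IsIntegral B Z :=
  ⟨h80qG q Y s, h80q_G_monic q hq Y s hs, by rw [← aeval_def]; exact hGZ⟩

/-- `1 ∉ 𝔪_B R + (S)` when `S ^ d ∈ 𝔪_B R`. -/
theorem h80q_one_not_mem (S : R) (hint : IsIntegral B S) (hgen : Algebra.adjoin B {S} = ⊤)
    (d : ℕ) (hpow : S ^ d ∈ (maximalIdeal B).map (algebraMap B R)) :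
    (1 : R) ∉ h80rI B S := by
  intro h
  obtain ⟨M, hM⟩ := Ideal.exists_maximal R
  have h1 := h80q_eq_of_isMaximal S hint hgen d hpow M hM
  exact hM.ne_top (by rw [h1]; exact (Ideal.eq_top_iff_one _).mpr h)

/-- **Points of `C₀₂`.** -/
theorem h80q_ord0 (hinj : Function.Injective (algebraMap B R))
    (q : ℕ) (hq : q.Prime) (hq0 : (q : B) ≠ 0)
    (X Y x₁ c' : B) (s : B[X]) (hs : s.natDegree ≤ q)
    (hX : X = Y ^ q + (q : B) * x₁)
    (hGX : (h80qG q Y s).eval X = 0)
    (hmaxB : maximalIdeal B = Ideal.span {(q : B), Y - c' ^ q})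
    (hnil : ∀ n : ℕ, (Y - c' ^ q) ^ n ∉ Ideal.span {(q : B)})
    (Z : R) (hgen : Algebra.adjoin B {Z} = ⊤)
    (hGZ : aeval Z (h80qG q Y s) = 0) (hne : Z ≠ algebraMap B R X) :
    ∃ (_ : IsLocalRing R), IsNoetherianRing R ∧
      maximalIdeal R = Ideal.span {algebraMap B R (q : B), Z - algebraMap B R c'} ∧
      (∀ n : ℕ, (Z - algebraMap B R c') ^ n ∉ Ideal.span {algebraMap B R (q : B)}) ∧
      Prime (algebraMap B R (q : B)) ∧ UniqueFactorizationMonoid R ∧
      IsIntegrallyClosed R := by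
  classical
  obtain ⟨E₁, hE⟩ := h80q_factor_zero q hq0 X Y x₁ s hX hGX
  have hH := h80q_root_of_factor _ _ X hE Z hGZ hne
  simp only [map_add, map_mul, map_sub, map_pow, aeval_X, aeval_C] at hH
  set S : R := Z - algebraMap B R c' with hS
  obtain ⟨r, hr⟩ := exists_add_pow_prime_eq hq S (algebraMap B R c')
  have hSZ : S + algebraMap B R c' = Z := by rw [hS]; ring
  rw [hSZ] at hr
  have hqR : ((q : ℕ) : R) = algebraMap B R (q : B) := by rw [map_natCast]
  -- `S ^ q = (Y - c' ^ q) - q (...)`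
  have hSq : S ^ q = algebraMap B R (Y - c' ^ q) -
      algebraMap B R (q : B) * (aeval Z E₁ + S * algebraMap B R c' * r) := by
    rw [map_sub, map_pow]
    rw [hqR] at hr
    linear_combination hH - hr
  have hintZ := h80q_isIntegral_root q hq.pos Y s hs Z hGZ
  have hintS : IsIntegral B S := h80q_isIntegral_sub Z c' hintZ
  have hgenS : Algebra.adjoin B {S} = ⊤ := h80q_adjoin_sub Z c' hgen
  have hqm : (q : B) ∈ maximalIdeal B := by
    rw [hmaxB]; exact Ideal.subset_span (by simp)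
  have htm : Y - c' ^ q ∈ maximalIdeal B := by
    rw [hmaxB]; exact Ideal.subset_span (by simp)
  have hpow : S ^ q ∈ (maximalIdeal B).map (algebraMap B R) := by
    rw [hSq]
    exact Ideal.sub_mem _ (Ideal.mem_map_of_mem _ htm)
      (Ideal.mul_mem_right _ _ (Ideal.mem_map_of_mem _ hqm))
  have he : (1 : R) ∉ h80rI B S := h80q_one_not_mem S hintS hgenS q hpow
  have hkey : (1 : R) * algebraMap B R (Y - c' ^ q) ∈
      Ideal.span {algebraMap B R (q : B), S} := by
    obtain ⟨k, hk⟩ : ∃ k, q = k + 1 := ⟨q - 1, by have := hq.pos; omega⟩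
    have h1 : (1 : R) * algebraMap B R (Y - c' ^ q) =
        (aeval Z E₁ + S * algebraMap B R c' * r) * algebraMap B R (q : B) + S ^ k * S := by
      rw [← pow_succ, ← hk]
      linear_combination -hSq
    rw [h1]
    exact Ideal.add_mem _ (Ideal.mul_mem_left _ _ (Ideal.subset_span (by simp)))
      (Ideal.mul_mem_left _ _ (Ideal.subset_span (by simp)))
  exact h80q_regular_rel hinj (q : B) (Y - c' ^ q) hq0 hmaxB hnil S hintS hgenS q hpow 1 he hkey

/-- the relation on `C_∞`: `(Z - X ^ (q²)) (Z - X) ^ (q - 1) + q H₁(Z) = 0`. -/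
theorem h80q_inf_rel
    (q : ℕ) (hq : q.Prime) (hq0 : (q : B) ≠ 0)
    (X Y y₁ : B) (s : B[X])
    (hY : Y = X ^ q + (q : B) * y₁)
    (hGX : (h80qG q Y s).eval X = 0)
    (Z : R) (hGZ : aeval Z (h80qG q Y s) = 0) (hne : Z ≠ algebraMap B R X) :
    ∃ H₁ : B[X], h80qG q Y s =
        (Polynomial.X - C X) * ((Polynomial.X - C (X ^ (q * q))) * (Polynomial.X - C X) ^ (q - 1)
          + C (q : B) * H₁) ∧
      (Z - algebraMap B R (X ^ (q * q))) * (Z - algebraMap B R X) ^ (q - 1)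
        + algebraMap B R (q : B) * aeval Z H₁ = 0 := by
  obtain ⟨H₁, hH⟩ := h80q_factor_inf q hq hq0 X Y y₁ s hY hGX
  refine ⟨H₁, hH, ?_⟩
  have h1 := h80q_root_of_factor _ _ X hH Z hGZ hne
  simpa only [map_add, map_mul, map_sub, map_pow, aeval_X, aeval_C] using h1

/-- a prime of `R` containing `q` contains `Z - X ^ (q²)` or `Z - X`. -/
theorem h80q_ordinf_mem
    (q : ℕ) (hq : q.Prime) (hq0 : (q : B) ≠ 0)
    (X Y y₁ : B) (s : B[X])
    (hY : Y = X ^ q + (q : B) * y₁)
    (hGX : (h80qG q Y s).eval X = 0)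
    (Z : R) (hGZ : aeval Z (h80qG q Y s) = 0) (hne : Z ≠ algebraMap B R X)
    (M : Ideal R) [hM : M.IsPrime] (hqM : algebraMap B R (q : B) ∈ M) :
    Z - algebraMap B R (X ^ (q * q)) ∈ M ∨ Z - algebraMap B R X ∈ M := by
  obtain ⟨H₁, -, hrel⟩ := h80q_inf_rel q hq hq0 X Y y₁ s hY hGX Z hGZ hne
  have h1 : (Z - algebraMap B R (X ^ (q * q))) * (Z - algebraMap B R X) ^ (q - 1) ∈ M := by
    have : (Z - algebraMap B R (X ^ (q * q))) * (Z - algebraMap B R X) ^ (q - 1) =
        -(aeval Z H₁) * algebraMap B R (q : B) := by linear_combination hrel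
    rw [this]
    exact M.mul_mem_left _ hqM
  rcases hM.mem_or_mem h1 with h | h
  · exact Or.inl h
  · exact Or.inr (hM.mem_of_pow_mem _ h)

/-- the cofactor `H` is monic of degree `q`, and divides every polynomial killing `Z`. -/
theorem h80q_inf_dvd
    (q : ℕ) (hq : q.Prime)
    (X Y : B) (s : B[X]) (hs : s.natDegree ≤ q)
    (H : B[X]) (hH : h80qG q Y s = (Polynomial.X - C X) * H)
    (Z : R) (hHZ : aeval Z H = 0)
    (hmin : ∀ P : B[X], P ≠ 0 → aeval Z P = 0 → q ≤ P.natDegree)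
    (P : B[X]) (hP : aeval Z P = 0) : H ∣ P := by
  have hGm := h80q_G_monic q hq.pos Y s hs
  have hGd := h80q_G_natDegree q hq.pos Y s hs
  have hHm : H.Monic := by
    rw [hH] at hGm
    exact (monic_X_sub_C X).of_mul_monic_left hGm
  have hHd : H.natDegree = q := by
    rw [hH, (monic_X_sub_C X).natDegree_mul hHm, natDegree_X_sub_C] at hGd
    omega
  exact h80q_dvd_of_min Z H hHm hHZ (fun P hP0 hPZ => by rw [hHd]; exact hmin P hP0 hPZ) P hP

/-- **Points of `C₂₀`** (non-exceptional). -/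
theorem h80q_ord20 (hinj : Function.Injective (algebraMap B R))
    (q : ℕ) (hq : q.Prime) (hq0 : (q : B) ≠ 0)
    (X Y y₁ c : B) (s : B[X]) (hs : s.natDegree ≤ q)
    (hY : Y = X ^ q + (q : B) * y₁)
    (hGX : (h80qG q Y s).eval X = 0)
    (hmaxB : maximalIdeal B = Ideal.span {(q : B), X - c})
    (hnil : ∀ n : ℕ, (X - c) ^ n ∉ Ideal.span {(q : B)})
    (hexc : IsUnit (X - X ^ (q * q)))
    (Z : R) (hgen : Algebra.adjoin B {Z} = ⊤)
    (hGZ : aeval Z (h80qG q Y s) = 0) (hne : Z ≠ algebraMap B R X)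
    (hmin : ∀ P : B[X], P ≠ 0 → aeval Z P = 0 → q ≤ P.natDegree)
    (𝔐 : Ideal R) [h𝔐 : 𝔐.IsPrime]
    (h𝔐eq : 𝔐 = h80rI B (Z - algebraMap B R (X ^ (q * q))))
    (L : Type*) [CommRing L] [Algebra R L] [IsLocalization.AtPrime L 𝔐] :
    ∃ (_ : IsLocalRing L) (_ : IsDomain L), IsNoetherianRing L ∧
      maximalIdeal L = Ideal.span {algebraMap R L (algebraMap B R (q : B)),
        algebraMap R L (algebraMap B R (X - c))} ∧
      (∃ l : L, algebraMap R L (Z - algebraMap B R (X ^ (q * q))) =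
        algebraMap R L (algebraMap B R (q : B)) * l) ∧
      Prime (algebraMap R L (algebraMap B R (q : B))) ∧ UniqueFactorizationMonoid L ∧
      IsIntegrallyClosed L := by
  classical
  obtain ⟨H₁, hH, hrel⟩ := h80q_inf_rel q hq hq0 X Y y₁ s hY hGX Z hGZ hne
  set a : B := X ^ (q * q) with ha
  set H : B[X] := (Polynomial.X - C a) * (Polynomial.X - C X) ^ (q - 1) + C (q : B) * H₁
    with hHdef
  have hHZ : aeval Z H = 0 := by
    rw [hHdef]
    simp only [map_add, map_mul, map_sub, map_pow, aeval_X, aeval_C]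
    exact hrel
  have hqm : (q : B) ∈ maximalIdeal B := by
    rw [hmaxB]; exact Ideal.subset_span (by simp)
  -- the restriction to the component `Z = X ^ (q²)`
  have hker : ∀ P : B[X], aeval Z P = 0 → P.eval a ∈ Ideal.span {(q : B)} := by
    intro P hP
    obtain ⟨Q, hQ⟩ := h80q_inf_dvd q hq X Y s hs H hH Z hHZ hmin P hP
    rw [hQ, eval_mul, hHdef]
    simp only [eval_add, eval_mul, eval_sub, eval_X, eval_C, eval_pow, sub_self, zero_mul,
      zero_add]
    rw [mul_assoc]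
    exact Ideal.mul_mem_right _ _ (Ideal.subset_span (Set.mem_singleton _))
  obtain ⟨φ, hφZ, hφ, -⟩ := h80q_phi (q : B) Z a hgen hker
  set S : R := Z - algebraMap B R a with hS
  have hφS : φ S = 0 := by rw [hS, map_sub, hφZ, hφ, sub_self]
  have hintZ := h80q_isIntegral_root q hq.pos Y s hs Z hGZ
  have hintS : IsIntegral B S := h80q_isIntegral_sub Z a hintZ
  have hgenS : Algebra.adjoin B {S} = ⊤ := h80q_adjoin_sub Z a hgen
  -- the relation
  have hrel' : S * (Z - algebraMap B R X) ^ (q - 1) =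
      algebraMap B R (q : B) * (-(aeval Z H₁)) := by
    linear_combination hrel
  -- `Z - X ∉ 𝔐`
  have hw : (Z - algebraMap B R X) ^ (q - 1) ∉ 𝔐 := by
    intro hmem
    have h1 : Z - algebraMap B R X ∈ 𝔐 := h𝔐.mem_of_pow_mem _ hmem
    rw [h𝔐eq] at h1
    have h2 : Z - algebraMap B R X = algebraMap B R (a - X) + S * 1 := by
      rw [hS, map_sub]; ring
    rw [h2] at h1
    have h3 := (h80o_not_mem_iff (q : B) hqm S φ hφS hφ (a - X) 1).mp h1
    have h4 : IsUnit (a - X) := by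
      have : a - X = -(X - a) := by ring
      rw [this]
      exact hexc.neg
    exact (IsLocalRing.mem_maximalIdeal _).mp h3 h4
  exact h80q_etale hinj (q : B) (X - c) hq0 hmaxB hnil S hintS hgenS _ _ hrel' φ hφS hφ 𝔐
    h𝔐eq hw L

/-- **Points of `C₁₁`** (non-exceptional). -/
theorem h80q_ord11 (hinj : Function.Injective (algebraMap B R))
    (q : ℕ) (hq : q.Prime) (hq0 : (q : B) ≠ 0)
    (X Y y₁ c : B) (s : B[X]) (hs : s.natDegree ≤ q)
    (hY : Y = X ^ q + (q : B) * y₁)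
    (hGX : (h80qG q Y s).eval X = 0)
    (hmaxB : maximalIdeal B = Ideal.span {(q : B), X - c})
    (hnil : ∀ n : ℕ, (X - c) ^ n ∉ Ideal.span {(q : B)})
    (hexc : IsUnit (X - X ^ (q * q)))
    (κ : B) (hκ : IsUnit κ) (hκeq : (derivative (h80qG q Y s)).eval X = (q : B) * κ)
    (Z : R) (hgen : Algebra.adjoin B {Z} = ⊤)
    (hGZ : aeval Z (h80qG q Y s) = 0) (hne : Z ≠ algebraMap B R X)
    (hmin : ∀ P : B[X], P ≠ 0 → aeval Z P = 0 → q ≤ P.natDegree)
    (𝔐 : Ideal R) [h𝔐 : 𝔐.IsPrime]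
    (h𝔐eq : 𝔐 = h80rI B (Z - algebraMap B R X))
    (L : Type*) [CommRing L] [Algebra R L] [IsLocalization.AtPrime L 𝔐] :
    ∃ (_ : IsLocalRing L) (_ : IsDomain L), IsNoetherianRing L ∧
      maximalIdeal L = Ideal.span {algebraMap R L (Z - algebraMap B R X),
        algebraMap R L (algebraMap B R (X - c))} ∧
      (∃ u : Lˣ, algebraMap R L (algebraMap B R (q : B)) =
        u * algebraMap R L (Z - algebraMap B R X) ^ (q - 1)) ∧
      Prime (algebraMap R L (Z - algebraMap B R X)) ∧ UniqueFactorizationMonoid L ∧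
      IsIntegrallyClosed L := by
  classical
  obtain ⟨H₁, hH, hrel⟩ := h80q_inf_rel q hq hq0 X Y y₁ s hY hGX Z hGZ hne
  set a : B := X ^ (q * q) with ha
  set H : B[X] := (Polynomial.X - C a) * (Polynomial.X - C X) ^ (q - 1) + C (q : B) * H₁
    with hHdef
  have hHZ : aeval Z H = 0 := by
    rw [hHdef]
    simp only [map_add, map_mul, map_sub, map_pow, aeval_X, aeval_C]
    exact hrel
  have hq1 : 0 < q - 1 := by have := hq.two_le; omega
  -- `H(X) = q H₁(X) = q κ`
  have hHX : H.eval X = (q : B) * H₁.eval X := by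
    rw [hHdef]
    simp only [eval_add, eval_mul, eval_sub, eval_X, eval_C, eval_pow, sub_self,
      zero_pow hq1.ne', mul_zero, zero_add]
  have hκ' : H₁.eval X = κ := by
    have h1 := h80q_deriv_eval (h80qG q Y s) H X hH
    rw [hκeq, hHX] at h1
    exact (mul_left_cancel₀ hq0 h1).symm
  -- the restriction to the component `Z = X`
  have hker : ∀ P : B[X], aeval Z P = 0 → P.eval X ∈ Ideal.span {(q : B)} := by
    intro P hP
    obtain ⟨Q, hQ⟩ := h80q_inf_dvd q hq X Y s hs H hH Z hHZ hmin P hP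
    rw [hQ, eval_mul, hHX, mul_assoc]
    exact Ideal.mul_mem_right _ _ (Ideal.subset_span (Set.mem_singleton _))
  obtain ⟨φ, hφZ, hφ, -⟩ := h80q_phi (q : B) Z X hgen hker
  set S : R := Z - algebraMap B R X with hS
  have hφS : φ S = 0 := by rw [hS, map_sub, hφZ, hφ, sub_self]
  have hintZ := h80q_isIntegral_root q hq.pos Y s hs Z hGZ
  have hintS : IsIntegral B S := h80q_isIntegral_sub Z X hintZ
  have hgenS : Algebra.adjoin B {S} = ⊤ := h80q_adjoin_sub Z X hgen
  obtain ⟨η, hη⟩ := h80q_aeval_sub H₁ X Z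
  rw [hκ'] at hη
  have hroot : S ^ (q - 1) * (S + algebraMap B R (X - a))
      + algebraMap B R (q : B) * (S * η + algebraMap B R κ) = 0 := by
    rw [hη] at hrel
    rw [hS, map_sub]
    linear_combination hrel
  exact h80o_regular hinj (q : B) (X - c) hq0 hmaxB hnil S hintS hgenS (q - 1) hq1 (X - a) κ
    hexc hκ η hroot φ hφS hφ 𝔐 h𝔐eq L

end OrdThm

end Fermat.Agent.S36
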