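import Mathlib
import Fermat.Agent.S36.H80OrdThm
import Fermat.Agent.S36.H80LocSub

/-!
# S36, block REG, row R-ORD (helper80): the tower at the ordinary points, chart form

`F` a field, `C₁ → C → F` rings (the charts of level `M q` and `M q²` over the inertia ring,
`F` the function field of level `M q²`), `𝔫` a maximal ideal of `C`, `𝔫₁ = 𝔫 ∩ C₁`.
All hypotheses and conclusions are elementwise in `C₁` and `C` ("locally at `𝔫`" means
`∀ z ∈ 𝔫, ∃ s ∉ 𝔫, s * z ∈ I`); the local rings `B = (C₁)_𝔫₁`, `R = B[Z]`, `L = R_𝔐` are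
constructed inside `F` in the proofs.

* `h80t_two_gen_exact` : transfer of two generators with prescribed representatives.
* `h80w_ord0` : **points of `C₀₂`**: `𝔫 = (q, Z - c')` locally.
-/

set_option autoImplicit false
set_option linter.unusedSectionVars false
set_option linter.unnecessarySimpa false
set_option linter.style.haveILetI false

open IsLocalRing Polynomial

namespace Fermat.Agent.S36

section TowerAbs

/-- transport of the Kronecker polynomial along a ring homomorphism. -/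
theorem h80q_G_map {B B' : Type*} [CommRing B] [CommRing B'] (f : B →+* B') (q : ℕ) (Y : B)
    (s : B[X]) : (h80qG q Y s).map f = h80qG q (f Y) (s.map f) := by
  unfold h80qG
  simp only [Polynomial.map_add, Polynomial.map_mul, Polynomial.map_sub, Polynomial.map_pow,
    Polynomial.map_X, Polynomial.map_C, map_pow, map_natCast, Polynomial.map_natCast]

variable {F : Type*} [Field F] {C : Type*} [CommRing C] [Algebra C F]

/-- **Transfer of two generators with prescribed representatives.** -/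
theorem h80t_two_gen_exact {L : Type*} [CommRing L] [IsLocalRing L] [Algebra L F]
    (𝔫 : Ideal C) [h𝔫 : 𝔫.IsMaximal]
    (hLinj : Function.Injective (algebraMap L F))
    (hCinj : Function.Injective (algebraMap C F))
    (hBR : ∀ b : C, ∃ r : L, algebraMap L F r = algebraMap C F b)
    (hsub : ∀ r : L, algebraMap L F r ∈ h80tLoc (F := F) 𝔫)
    (x y : C) (x' y' : L) (hx : algebraMap L F x' = algebraMap C F x)
    (hy : algebraMap L F y' = algebraMap C F y)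
    (hmax : maximalIdeal L = Ideal.span {x', y'}) :
    x ∈ 𝔫 ∧ y ∈ 𝔫 ∧ ∀ z ∈ 𝔫, ∃ s, s ∉ 𝔫 ∧ s * z ∈ Ideal.span {x, y} := by
  classical
  have hpr : 𝔫.IsPrime := h𝔫.isPrime
  have hx'm : x' ∈ maximalIdeal L := by rw [hmax]; exact Ideal.subset_span (by simp)
  have hy'm : y' ∈ maximalIdeal L := by rw [hmax]; exact Ideal.subset_span (by simp)
  refine ⟨(h80t_mem_iff 𝔫 hLinj hCinj hBR hsub x x' hx).mpr hx'm,
    (h80t_mem_iff 𝔫 hLinj hCinj hBR hsub y y' hy).mpr hy'm, ?_⟩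
  intro z hz
  obtain ⟨rz, hrz⟩ := hBR z
  have hrzm : rz ∈ maximalIdeal L := (h80t_mem_iff 𝔫 hLinj hCinj hBR hsub z rz hrz).mp hz
  rw [hmax, Ideal.mem_span_pair] at hrzm
  obtain ⟨a, b, hab⟩ := hrzm
  obtain ⟨s₃, a₁, hs₃, ha⟩ := hsub a
  obtain ⟨s₄, b₁, hs₄, hb⟩ := hsub b
  refine ⟨s₃ * s₄, fun h => (hpr.mem_or_mem h).elim hs₃ hs₄, ?_⟩
  rw [Ideal.mem_span_pair]
  refine ⟨a₁ * s₄, b₁ * s₃, ?_⟩
  apply hCinj
  simp only [map_add, map_mul]
  rw [← hrz, ← hab, map_add, map_mul, map_mul, ← ha, ← hb, hx, hy]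
  ring

/-- transfer of a relation `π = u z ^ e` (`u` a unit of `L`) to the chart:
`s z ^ e = c π` with `s ∉ 𝔫`. -/
theorem h80t_ram_exact {L : Type*} [CommRing L] [IsLocalRing L] [Algebra L F]
    (𝔫 : Ideal C) [h𝔫 : 𝔫.IsMaximal]
    (hCinj : Function.Injective (algebraMap C F))
    (hsub : ∀ r : L, algebraMap L F r ∈ h80tLoc (F := F) 𝔫)
    (π z : C) (π' z' : L) (hπ : algebraMap L F π' = algebraMap C F π)
    (hz : algebraMap L F z' = algebraMap C F z) (e : ℕ) (u : Lˣ)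
    (hrel : π' = u * z' ^ e) :
    ∃ s c : C, s ∉ 𝔫 ∧ s * z ^ e = c * π := by
  obtain ⟨s, c, hs, hsc⟩ := hsub ((u⁻¹ : Lˣ) : L)
  refine ⟨s, c, hs, ?_⟩
  apply hCinj
  rw [map_mul, map_mul, map_pow, ← hsc, ← hπ, ← hz, hrel, map_mul, map_pow]
  have h1 : algebraMap L F ((u⁻¹ : Lˣ) : L) * algebraMap L F (u : L) = 1 := by
    rw [← map_mul, Units.inv_mul, map_one]
  calc algebraMap C F s * algebraMap L F z' ^ e
      = algebraMap C F s * (algebraMap L F ((u⁻¹ : Lˣ) : L) * algebraMap L F (u : L)) *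
          algebraMap L F z' ^ e := by rw [h1, mul_one]
    _ = _ := by ring

end TowerAbs

section Tower

variable {F : Type*} [Field F] {C1 C : Type*} [CommRing C1] [CommRing C]
  [Algebra C1 C] [Algebra C1 F] [Algebra C F] [IsScalarTower C1 C F]

/-- the local ring `B = (C₁)_𝔫₁ ⊆ F` lies in `C_𝔫`. -/
theorem h80w_B_sub (𝔫 : Ideal C) [h𝔫 : 𝔫.IsPrime]
    (b : ↥(h80tLoc (F := F) (𝔫.comap (algebraMap C1 C)))) :
    (b : F) ∈ h80tLoc (F := F) 𝔫 := by
  obtain ⟨t, β, ht, hb⟩ := b.2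
  refine ⟨algebraMap C1 C t, algebraMap C1 C β, fun h => ht (Ideal.mem_comap.mpr h), ?_⟩
  rw [← IsScalarTower.algebraMap_apply, ← IsScalarTower.algebraMap_apply]
  exact hb

/-- the generator of `B[z]` generates. -/
theorem h80w_adjoin_top {B : Type*} [CommRing B] [Algebra B F] (z : F) :
    Algebra.adjoin B
      {(⟨z, Algebra.subset_adjoin (Set.mem_singleton z)⟩ : ↥(Algebra.adjoin B {z}))} = ⊤ := by
  have h := Algebra.adjoin_adjoin_coe_preimage (R := B) (s := ({z} : Set F))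
  have h2 : ((↑) : ↥(Algebra.adjoin B ({z} : Set F)) → F) ⁻¹' ({z} : Set F) =
      {(⟨z, Algebra.subset_adjoin (Set.mem_singleton z)⟩ : ↥(Algebra.adjoin B {z}))} := by
    ext x
    simp only [Set.mem_preimage, Set.mem_singleton_iff]
    exact ⟨fun hx => Subtype.ext hx, fun hx => by rw [hx]⟩
  rw [h2] at h
  exact h

/-- evaluation in `B[z] ⊆ F` of a polynomial with coefficients in `C₁`. -/
theorem h80w_aeval_coe (𝔫1 : Ideal C1) [𝔫1.IsPrime] (Z : C) (Q : C1[X]) :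
    ((aeval (⟨algebraMap C F Z, Algebra.subset_adjoin (Set.mem_singleton _)⟩ :
        ↥(Algebra.adjoin ↥(h80tLoc (F := F) 𝔫1) {algebraMap C F Z}))
      (Q.map (h80tMap (F := F) 𝔫1)) :
        ↥(Algebra.adjoin ↥(h80tLoc (F := F) 𝔫1) {algebraMap C F Z})) : F) =
      algebraMap C F (aeval Z Q) := by
  rw [Polynomial.aeval_subalgebra_coe]
  rw [Polynomial.aeval_def, Polynomial.eval₂_map]
  have h1 : (algebraMap ↥(h80tLoc (F := F) 𝔫1) F).comp (h80tMap (F := F) 𝔫1) =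
      algebraMap C1 F := RingHom.ext fun x => rfl
  rw [h1, ← Polynomial.aeval_def, Polynomial.aeval_algebraMap_apply]

/-- integrality of the elements of `C` over a subring of `F` receiving `C₁`. -/
theorem h80w_isIntegral {R : Type*} [CommRing R] [Algebra R F] [Algebra.IsIntegral C1 C]
    (g : C1 →+* R) (hg : ∀ x : C1, algebraMap R F (g x) = algebraMap C1 F x) (b : C) :
    IsIntegral R (algebraMap C F b) := by
  obtain ⟨p, hp, hpb⟩ := Algebra.IsIntegral.isIntegral (R := C1) b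
  refine ⟨p.map g, hp.map g, ?_⟩
  rw [Polynomial.eval₂_map]
  have h1 : (algebraMap R F).comp g = algebraMap C1 F := RingHom.ext hg
  rw [h1]
  have h2 := congrArg (algebraMap C F) hpb
  rw [Polynomial.hom_eval₂, map_zero, ← IsScalarTower.algebraMap_eq] at h2
  exact h2

/-- **Points of `C₀₂`, chart form.**  `𝔫 = (q, Z - c')` locally. -/
theorem h80w_ord0
    (hC1 : Function.Injective (algebraMap C1 F)) (hC : Function.Injective (algebraMap C F))
    [IsNoetherianRing C1] [Algebra.IsIntegral C1 C]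
    (𝔫 : Ideal C) [h𝔫 : 𝔫.IsMaximal]
    (q : ℕ) (hq : q.Prime) (hqF : (q : F) ≠ 0)
    (X Y c' : C1) (s : C1[X]) (hs : s.natDegree ≤ q)
    (hGX : (h80qG q Y s).eval X = 0)
    (Z : C) (hGZ : aeval Z (h80qG q Y s) = 0) (hne : Z ≠ algebraMap C1 C X)
    (t₀ x₁ : C1) (ht₀ : t₀ ∉ 𝔫.comap (algebraMap C1 C))
    (hXY : t₀ * (X - Y ^ q) = (q : C1) * x₁)
    (hq1 : (q : C1) ∈ 𝔫.comap (algebraMap C1 C))
    (ht1 : Y - c' ^ q ∈ 𝔫.comap (algebraMap C1 C))
    (hmax1 : ∀ w ∈ 𝔫.comap (algebraMap C1 C), ∃ t, t ∉ 𝔫.comap (algebraMap C1 C) ∧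
      t * w ∈ Ideal.span {(q : C1), Y - c' ^ q})
    (P : Ideal C1) (hP : P.IsPrime) (hqP : (q : C1) ∈ P)
    (hPle : P ≤ 𝔫.comap (algebraMap C1 C)) (hPne : P ≠ 𝔫.comap (algebraMap C1 C))
    (hfrac : ∀ x : C, ∃ (Q : C1[X]) (t : C1), t ≠ 0 ∧ algebraMap C1 C t * x = aeval Z Q) :
    (q : C) ∈ 𝔫 ∧ Z - algebraMap C1 C c' ∈ 𝔫 ∧
      ∀ w ∈ 𝔫, ∃ u, u ∉ 𝔫 ∧ u * w ∈ Ideal.span {(q : C), Z - algebraMap C1 C c'} := by
  classical
  haveI h𝔫p : 𝔫.IsPrime := h𝔫.isPrime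
  set 𝔫1 : Ideal C1 := 𝔫.comap (algebraMap C1 C) with h𝔫1
  haveI h𝔫1p : 𝔫1.IsPrime := Ideal.comap_isPrime _ _
  haveI hBloc : IsLocalRing ↥(h80tLoc (F := F) 𝔫1) := h80t_isLocalRing hC1 𝔫1
  haveI hBnoe : IsNoetherianRing ↥(h80tLoc (F := F) 𝔫1) := h80t_isNoetherianRing hC1 𝔫1
  set f1 : C1 →+* ↥(h80tLoc (F := F) 𝔫1) := h80tMap (F := F) 𝔫1 with hf1
  have hf1coe : ∀ x : C1, ((f1 x : ↥(h80tLoc (F := F) 𝔫1)) : F) = algebraMap C1 F x :=
    fun x => rfl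
  set zF : F := algebraMap C F Z with hzF
  -- the elements of `B`
  have hqB : f1 (q : C1) = ((q : ℕ) : ↥(h80tLoc (F := F) 𝔫1)) := map_natCast f1 q
  have hq0 : ((q : ℕ) : ↥(h80tLoc (F := F) 𝔫1)) ≠ 0 := by
    intro h
    apply hqF
    have := congrArg (fun x : ↥(h80tLoc (F := F) 𝔫1) => (x : F)) h
    simpa using this
  obtain ⟨u, hu⟩ := h80t_isUnit_map (F := F) hC1 𝔫1 t₀ ht₀
  have hXB : f1 X = f1 Y ^ q + ((q : ℕ) : ↥(h80tLoc (F := F) 𝔫1)) *
      (f1 x₁ * ((u⁻¹ : (↥(h80tLoc (F := F) 𝔫1))ˣ) : ↥(h80tLoc (F := F) 𝔫1))) := by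
    have h1 := congrArg f1 hXY
    rw [map_mul, map_mul, map_sub, map_pow, hqB, ← hu] at h1
    have h2 : f1 X - f1 Y ^ q = ((u⁻¹ : (↥(h80tLoc (F := F) 𝔫1))ˣ) :
        ↥(h80tLoc (F := F) 𝔫1)) * ((u : ↥(h80tLoc (F := F) 𝔫1)) * (f1 X - f1 Y ^ q)) := by
      rw [← mul_assoc, Units.inv_mul, one_mul]
    rw [h1] at h2
    rw [← sub_eq_iff_eq_add', h2]
    ring
  have hsB : (s.map f1).natDegree ≤ q := le_trans (natDegree_map_le) hs
  have hGXB : (h80qG q (f1 Y) (s.map f1)).eval (f1 X) = 0 := by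
    rw [← h80q_G_map, Polynomial.eval_map, Polynomial.eval₂_at_apply, hGX, map_zero]
  have hmaxB : maximalIdeal ↥(h80tLoc (F := F) 𝔫1) =
      Ideal.span {((q : ℕ) : ↥(h80tLoc (F := F) 𝔫1)), f1 Y - f1 c' ^ q} := by
    have h1 := h80t_maximalIdeal_eq_span_pair (F := F) hC1 𝔫1 (q : C1) (Y - c' ^ q) hq1 ht1
      hmax1
    rw [← hf1, hqB, map_sub, map_pow] at h1
    exact h1
  have hnil : ∀ n : ℕ, (f1 Y - f1 c' ^ q) ^ n ∉
      Ideal.span {((q : ℕ) : ↥(h80tLoc (F := F) 𝔫1))} := by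
    intro n
    have h1 := h80t_not_pow_mem (F := F) hC1 𝔫1 (q : C1) (Y - c' ^ q) hmax1 P hP hqP hPle
      hPne n
    rw [← hf1, hqB, map_sub, map_pow] at h1
    exact h1
  -- the ring `R = B[Z]`
  set ZR : ↥(Algebra.adjoin ↥(h80tLoc (F := F) 𝔫1) {zF}) :=
    ⟨zF, Algebra.subset_adjoin (Set.mem_singleton _)⟩ with hZR
  have hgen : Algebra.adjoin ↥(h80tLoc (F := F) 𝔫1) {ZR} = ⊤ := h80w_adjoin_top zF
  have hinj : Function.Injective (algebraMap ↥(h80tLoc (F := F) 𝔫1)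
      ↥(Algebra.adjoin ↥(h80tLoc (F := F) 𝔫1) {zF})) := by
    intro a b hab
    have := congrArg (fun x : ↥(Algebra.adjoin ↥(h80tLoc (F := F) 𝔫1) {zF}) => (x : F)) hab
    exact Subtype.ext this
  have hGZR : aeval ZR (h80qG q (f1 Y) (s.map f1)) = 0 := by
    apply Subtype.ext
    rw [← h80q_G_map]
    have h1 := h80w_aeval_coe (F := F) 𝔫1 Z (h80qG q Y s)
    rw [hGZ, map_zero] at h1
    exact h1
  have hneR : ZR ≠ algebraMap ↥(h80tLoc (F := F) 𝔫1)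
      ↥(Algebra.adjoin ↥(h80tLoc (F := F) 𝔫1) {zF}) (f1 X) := by
    intro h
    apply hne
    apply hC
    have := congrArg (fun x : ↥(Algebra.adjoin ↥(h80tLoc (F := F) 𝔫1) {zF}) => (x : F)) h
    rw [← IsScalarTower.algebraMap_apply]
    exact this
  obtain ⟨hloc, hnoe, hmaxR, -, -, -, hic⟩ :=
    h80q_ord0 hinj q hq hq0 (f1 X) (f1 Y) _ (f1 c') (s.map f1) hsB hXB hGXB hmaxB hnil ZR hgen
      hGZR hneR
  haveI := hloc
  haveI := hic
  -- transfer
  have hRinj : Function.Injective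
      (algebraMap ↥(Algebra.adjoin ↥(h80tLoc (F := F) 𝔫1) {zF}) F) :=
    Subtype.val_injective
  set g : C1 →+* ↥(Algebra.adjoin ↥(h80tLoc (F := F) 𝔫1) {zF}) :=
    (algebraMap ↥(h80tLoc (F := F) 𝔫1) ↥(Algebra.adjoin ↥(h80tLoc (F := F) 𝔫1) {zF})).comp f1
    with hg
  have hgcoe : ∀ x : C1, algebraMap ↥(Algebra.adjoin ↥(h80tLoc (F := F) 𝔫1) {zF}) F (g x) =
      algebraMap C1 F x := fun x => rfl
  have hint' : ∀ b : C, IsIntegral ↥(Algebra.adjoin ↥(h80tLoc (F := F) 𝔫1) {zF})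
      (algebraMap C F b) := fun b => h80w_isIntegral g hgcoe b
  have hfrac' : ∀ b : C, ∃ r₁ r₂ : ↥(Algebra.adjoin ↥(h80tLoc (F := F) 𝔫1) {zF}), r₂ ≠ 0 ∧
      algebraMap C F b * algebraMap ↥(Algebra.adjoin ↥(h80tLoc (F := F) 𝔫1) {zF}) F r₂ =
        algebraMap ↥(Algebra.adjoin ↥(h80tLoc (F := F) 𝔫1) {zF}) F r₁ := by
    intro b
    obtain ⟨Q, t, ht, hQ⟩ := hfrac b
    refine ⟨aeval ZR (Q.map f1), g t, ?_, ?_⟩
    · intro h0
      apply ht
      apply hC1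
      have := congrArg (fun x : ↥(Algebra.adjoin ↥(h80tLoc (F := F) 𝔫1) {zF}) => (x : F)) h0
      rw [map_zero]
      exact this
    · have h1 := h80w_aeval_coe (F := F) 𝔫1 Z Q
      rw [← hQ, map_mul, ← IsScalarTower.algebraMap_apply] at h1
      rw [hgcoe, mul_comm]
      exact h1.symm
  have hBR : ∀ b : C, ∃ r : ↥(Algebra.adjoin ↥(h80tLoc (F := F) 𝔫1) {zF}),
      algebraMap ↥(Algebra.adjoin ↥(h80tLoc (F := F) 𝔫1) {zF}) F r = algebraMap C F b :=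
    fun b => h80t_exists_of_frac hRinj hint' hfrac' b
  have hsub : ∀ r : ↥(Algebra.adjoin ↥(h80tLoc (F := F) 𝔫1) {zF}),
      algebraMap ↥(Algebra.adjoin ↥(h80tLoc (F := F) 𝔫1) {zF}) F r ∈ h80tLoc (F := F) 𝔫 := by
    intro r
    refine h80t_adjoin_le (F := F) 𝔫 ({ZR} : Set _) hgen (fun b => h80w_B_sub 𝔫 b) ?_ r
    intro t ht
    rw [Set.mem_singleton_iff] at ht
    rw [ht]
    exact h80t_algebraMap_mem 𝔫 Z
  have hx : algebraMap ↥(Algebra.adjoin ↥(h80tLoc (F := F) 𝔫1) {zF}) F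
      (algebraMap ↥(h80tLoc (F := F) 𝔫1) ↥(Algebra.adjoin ↥(h80tLoc (F := F) 𝔫1) {zF})
        ((q : ℕ) : ↥(h80tLoc (F := F) 𝔫1))) = algebraMap C F ((q : ℕ) : C) := by
    rw [map_natCast, map_natCast, map_natCast]
  have hy : algebraMap ↥(Algebra.adjoin ↥(h80tLoc (F := F) 𝔫1) {zF}) F
      (ZR - algebraMap ↥(h80tLoc (F := F) 𝔫1) ↥(Algebra.adjoin ↥(h80tLoc (F := F) 𝔫1) {zF})
        (f1 c')) = algebraMap C F (Z - algebraMap C1 C c') := by
    rw [map_sub, map_sub, ← IsScalarTower.algebraMap_apply C1 C F]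
    rfl
  exact h80t_two_gen_exact 𝔫 hRinj hC hBR hsub _ _ _ _ hx hy hmaxR

end Tower

end Fermat.Agent.S36
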