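import Mathlib
import Fermat.Agent.S36.H80OrdTower

/-!
# S36, block REG (helper80): the generic tower transfer

`F` a field, `C₁ → C → F` rings (charts of level `M q`, `M q²`), `𝔫` a maximal ideal of `C`,
`𝔫₁ = 𝔫 ∩ C₁`, `B = (C₁)_𝔫₁ ⊆ F`, `Z ∈ C`, `R = B[Z] ⊆ F`, `a ∈ C₁` with `Z - a ∈ 𝔫`,
`𝔐 = 𝔪_B R + (Z - a)`.

* `h80t_mem_maximalIdeal_iff` : the maximal ideal of `C_𝔫 ⊆ F`.
* `h80w_core` : **the tower transfer.**  If for every localisation `L` of `R` at `𝔐`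
  (`𝔐` is prime) `L` is a local integrally closed domain with `𝔪_L = (x', y')` and
  `π' = unit * z' ^ e`, where `x', y', π', z' ∈ R` have the same images in `F` as
  `x, y, π, z ∈ C`, then `x, y ∈ 𝔫`, `𝔫 = (x, y)` locally and `s z ^ e = c π` with `s ∉ 𝔫`:
  the input of `h62r_regAt_one`.
-/

set_option autoImplicit false
set_option linter.unusedSectionVars false
set_option linter.unnecessarySimpa false
set_option linter.style.haveILetI false

open IsLocalRing Polynomial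

namespace Fermat.Agent.S36

section MaxLoc

variable {F : Type*} [Field F] {Bc : Type*} [CommRing Bc] [Algebra Bc F]

/-- the maximal ideal of `Bc_𝔫 ⊆ F`: fractions `β / s`, `β ∈ 𝔫`, `s ∉ 𝔫`. -/
theorem h80t_mem_maximalIdeal_iff (hinj : Function.Injective (algebraMap Bc F))
    (𝔫 : Ideal Bc) [h𝔫 : 𝔫.IsPrime] (f : ↥(h80tLoc (F := F) 𝔫)) :
    letI := h80t_isLocalRing (F := F) hinj 𝔫
    f ∈ maximalIdeal ↥(h80tLoc (F := F) 𝔫) ↔
      ∃ s β : Bc, s ∉ 𝔫 ∧ β ∈ 𝔫 ∧ algebraMap Bc F s * (f : F) = algebraMap Bc F β := by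
  letI := h80t_isLocalRing (F := F) hinj 𝔫
  constructor
  · intro hf
    obtain ⟨s, β, hs, hsβ⟩ := f.2
    refine ⟨s, β, hs, ?_, hsβ⟩
    by_contra hβ
    exact (IsLocalRing.mem_maximalIdeal f).mp hf (h80t_isUnit_of hinj 𝔫 f s β hβ hsβ)
  · rintro ⟨s, β, hs, hβ, hsβ⟩
    rw [IsLocalRing.mem_maximalIdeal]
    intro hu
    obtain ⟨g, hg⟩ := hu.exists_right_inv
    obtain ⟨s', β', hs', hsβ'⟩ := g.2
    have h1 : (f : F) * (g : F) = 1 := by
      have := congrArg (fun x : ↥(h80tLoc (F := F) 𝔫) => (x : F)) hg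
      simpa using this
    have h2 : algebraMap Bc F (β * β') = algebraMap Bc F (s * s') := by
      rw [map_mul, map_mul, ← hsβ, ← hsβ']
      calc algebraMap Bc F s * (f : F) * (algebraMap Bc F s' * (g : F))
          = algebraMap Bc F s * algebraMap Bc F s' * ((f : F) * (g : F)) := by ring
        _ = algebraMap Bc F s * algebraMap Bc F s' := by rw [h1, mul_one]
    have h3 : β * β' = s * s' := hinj h2
    have h4 : s * s' ∈ 𝔫 := by rw [← h3]; exact 𝔫.mul_mem_right _ hβ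
    rcases h𝔫.mem_or_mem h4 with h | h
    · exact hs h
    · exact hs' h

end MaxLoc

section Core

universe uF

variable {F : Type uF} [Field F] {C1 C : Type*} [CommRing C1] [CommRing C]
  [Algebra C1 C] [Algebra C1 F] [Algebra C F] [IsScalarTower C1 C F]

/-- `R = B[Z] ⊆ C_𝔫`. -/
theorem h80w_R_sub (𝔫 : Ideal C) [h𝔫 : 𝔫.IsPrime] (Z : C)
    (r : ↥(Algebra.adjoin ↥(h80tLoc (F := F) (𝔫.comap (algebraMap C1 C)))
      {algebraMap C F Z})) :
    (r : F) ∈ h80tLoc (F := F) 𝔫 := by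
  refine h80t_adjoin_le (F := F) 𝔫
    ({(⟨algebraMap C F Z, Algebra.subset_adjoin (Set.mem_singleton _)⟩ :
      ↥(Algebra.adjoin ↥(h80tLoc (F := F) (𝔫.comap (algebraMap C1 C))) {algebraMap C F Z}))} :
      Set _)
    (h80w_adjoin_top (algebraMap C F Z)) (fun b => h80w_B_sub 𝔫 b) ?_ r
  intro t ht
  rw [Set.mem_singleton_iff] at ht
  rw [ht]
  exact h80t_algebraMap_mem 𝔫 Z

/-- **The tower transfer.** -/
theorem h80w_core
    (hC1 : Function.Injective (algebraMap C1 F)) (hC : Function.Injective (algebraMap C F))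
    [IsNoetherianRing C1] [Algebra.IsIntegral C1 C]
    (𝔫 : Ideal C) [h𝔫 : 𝔫.IsMaximal]
    [hBloc : IsLocalRing ↥(h80tLoc (F := F) (𝔫.comap (algebraMap C1 C)))]
    (Z : C) (a : C1) (hS : Z - algebraMap C1 C a ∈ 𝔫)
    (hfrac : ∀ x : C, ∃ (Q : C1[X]) (t : C1), t ≠ 0 ∧ algebraMap C1 C t * x = aeval Z Q)
    (x y π z : C) (e : ℕ)
    (x' y' π' z' : ↥(Algebra.adjoin ↥(h80tLoc (F := F) (𝔫.comap (algebraMap C1 C)))
      {algebraMap C F Z}))
    (hx : (x' : F) = algebraMap C F x) (hy : (y' : F) = algebraMap C F y)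
    (hπ : (π' : F) = algebraMap C F π) (hz : (z' : F) = algebraMap C F z)
    (horacle : ∀ (𝔐 : Ideal ↥(Algebra.adjoin ↥(h80tLoc (F := F) (𝔫.comap (algebraMap C1 C)))
        {algebraMap C F Z})) [𝔐.IsPrime],
      𝔐 = h80rI ↥(h80tLoc (F := F) (𝔫.comap (algebraMap C1 C)))
        ((⟨algebraMap C F Z, Algebra.subset_adjoin (Set.mem_singleton _)⟩ :
          ↥(Algebra.adjoin ↥(h80tLoc (F := F) (𝔫.comap (algebraMap C1 C)))
            {algebraMap C F Z})) -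
          algebraMap ↥(h80tLoc (F := F) (𝔫.comap (algebraMap C1 C)))
            ↥(Algebra.adjoin ↥(h80tLoc (F := F) (𝔫.comap (algebraMap C1 C)))
              {algebraMap C F Z})
            (h80tMap (F := F) (𝔫.comap (algebraMap C1 C)) a)) →
      ∀ (L : Type uF) [CommRing L]
        [Algebra ↥(Algebra.adjoin ↥(h80tLoc (F := F) (𝔫.comap (algebraMap C1 C)))
          {algebraMap C F Z}) L]
        [IsLocalization.AtPrime L 𝔐],
        ∃ (_ : IsLocalRing L) (_ : IsDomain L), IsIntegrallyClosed L ∧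
          maximalIdeal L = Ideal.span {algebraMap _ L x', algebraMap _ L y'} ∧
          ∃ u : Lˣ, algebraMap _ L π' = u * algebraMap _ L z' ^ e) :
    x ∈ 𝔫 ∧ y ∈ 𝔫 ∧ (∀ w ∈ 𝔫, ∃ u, u ∉ 𝔫 ∧ u * w ∈ Ideal.span {x, y}) ∧
      ∃ s c : C, s ∉ 𝔫 ∧ s * z ^ e = c * π := by
  classical
  haveI h𝔫p : 𝔫.IsPrime := h𝔫.isPrime
  haveI hn1p : (𝔫.comap (algebraMap C1 C)).IsPrime := Ideal.comap_isPrime _ _
  haveI hBnoe : IsNoetherianRing ↥(h80tLoc (F := F) (𝔫.comap (algebraMap C1 C))) := h80t_isNoetherianRing hC1 (𝔫.comap (algebraMap C1 C))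
  haveI hCloc : IsLocalRing ↥(h80tLoc (F := F) 𝔫) := h80t_isLocalRing hC 𝔫
  set f1 : C1 →+* ↥(h80tLoc (F := F) (𝔫.comap (algebraMap C1 C))) := h80tMap (F := F) (𝔫.comap (algebraMap C1 C)) with hf1
  set ZR : ↥(Algebra.adjoin ↥(h80tLoc (F := F) (𝔫.comap (algebraMap C1 C))) {(algebraMap C F Z)}) :=
    ⟨(algebraMap C F Z), Algebra.subset_adjoin (Set.mem_singleton _)⟩ with hZR
  have hgen : Algebra.adjoin ↥(h80tLoc (F := F) (𝔫.comap (algebraMap C1 C))) {ZR} = ⊤ := h80w_adjoin_top (algebraMap C F Z)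
  have hRinj : Function.Injective
      (algebraMap ↥(Algebra.adjoin ↥(h80tLoc (F := F) (𝔫.comap (algebraMap C1 C))) {(algebraMap C F Z)}) F) :=
    Subtype.val_injective
  have hsubR : ∀ r : ↥(Algebra.adjoin ↥(h80tLoc (F := F) (𝔫.comap (algebraMap C1 C))) {(algebraMap C F Z)}),
      algebraMap ↥(Algebra.adjoin ↥(h80tLoc (F := F) (𝔫.comap (algebraMap C1 C))) {(algebraMap C F Z)}) F r ∈ h80tLoc (F := F) 𝔫 :=
    fun r => h80w_R_sub 𝔫 Z r
  -- the prime `𝔐` of `R` under the closed point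
  set ι : ↥(Algebra.adjoin ↥(h80tLoc (F := F) (𝔫.comap (algebraMap C1 C))) {(algebraMap C F Z)}) →+* ↥(h80tLoc (F := F) 𝔫) :=
    (algebraMap ↥(Algebra.adjoin ↥(h80tLoc (F := F) (𝔫.comap (algebraMap C1 C))) {(algebraMap C F Z)}) F).codRestrict
      (h80tLoc (F := F) 𝔫) hsubR with hι
  have hιcoe : ∀ r, ((ι r : ↥(h80tLoc (F := F) 𝔫)) : F) = (r : F) := fun r => rfl
  set 𝔐 : Ideal ↥(Algebra.adjoin ↥(h80tLoc (F := F) (𝔫.comap (algebraMap C1 C))) {(algebraMap C F Z)}) :=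
    (maximalIdeal ↥(h80tLoc (F := F) 𝔫)).comap ι with h𝔐
  haveI h𝔐p : 𝔐.IsPrime := Ideal.comap_isPrime ι _
  set SR : ↥(Algebra.adjoin ↥(h80tLoc (F := F) (𝔫.comap (algebraMap C1 C))) {(algebraMap C F Z)}) :=
    ZR - algebraMap ↥(h80tLoc (F := F) (𝔫.comap (algebraMap C1 C))) ↥(Algebra.adjoin ↥(h80tLoc (F := F) (𝔫.comap (algebraMap C1 C))) {(algebraMap C F Z)})
      (f1 a) with hSR
  have hgenS : Algebra.adjoin ↥(h80tLoc (F := F) (𝔫.comap (algebraMap C1 C))) {SR} = ⊤ :=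
    h80q_adjoin_sub ZR (f1 a) hgen
  have hmem𝔐 : ∀ r : ↥(Algebra.adjoin ↥(h80tLoc (F := F) (𝔫.comap (algebraMap C1 C))) {(algebraMap C F Z)}),
      r ∈ 𝔐 ↔ ∃ s β : C, s ∉ 𝔫 ∧ β ∈ 𝔫 ∧ algebraMap C F s * (r : F) = algebraMap C F β := by
    intro r
    rw [h𝔐, Ideal.mem_comap]
    exact h80t_mem_maximalIdeal_iff (F := F) hC 𝔫 (ι r)
  have hSR𝔐 : SR ∈ 𝔐 := by
    rw [hmem𝔐]
    refine ⟨1, Z - algebraMap C1 C a, (Ideal.ne_top_iff_one 𝔫).mp h𝔫p.ne_top, hS, ?_⟩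
    rw [map_one, one_mul, map_sub, ← IsScalarTower.algebraMap_apply]
    rfl
  have hB𝔐 : ∀ b : ↥(h80tLoc (F := F) (𝔫.comap (algebraMap C1 C))),
      algebraMap ↥(h80tLoc (F := F) (𝔫.comap (algebraMap C1 C))) ↥(Algebra.adjoin ↥(h80tLoc (F := F) (𝔫.comap (algebraMap C1 C))) {(algebraMap C F Z)}) b ∈ 𝔐 ↔
        b ∈ maximalIdeal ↥(h80tLoc (F := F) (𝔫.comap (algebraMap C1 C))) := by
    intro b
    constructor
    · intro hb
      by_contra hbm
      have hbu : IsUnit b := by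
        by_contra hnu
        exact hbm ((IsLocalRing.mem_maximalIdeal b).mpr hnu)
      have h1 : IsUnit (algebraMap ↥(h80tLoc (F := F) (𝔫.comap (algebraMap C1 C)))
          ↥(Algebra.adjoin ↥(h80tLoc (F := F) (𝔫.comap (algebraMap C1 C))) {(algebraMap C F Z)}) b) := hbu.map _
      exact h𝔐p.ne_top (Ideal.eq_top_of_isUnit_mem _ hb h1)
    · intro hb
      rw [h80t_mem_maximalIdeal_iff (F := F) hC1 (𝔫.comap (algebraMap C1 C)) b] at hb
      obtain ⟨s, β, hs, hβ, hsβ⟩ := hb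
      rw [hmem𝔐]
      refine ⟨algebraMap C1 C s, algebraMap C1 C β, fun h => hs (Ideal.mem_comap.mpr h),
        Ideal.mem_comap.mp hβ, ?_⟩
      rw [← IsScalarTower.algebraMap_apply, ← IsScalarTower.algebraMap_apply]
      exact hsβ
  have h𝔐eq : 𝔐 = h80rI ↥(h80tLoc (F := F) (𝔫.comap (algebraMap C1 C))) SR := by
    apply le_antisymm
    · intro r hr
      obtain ⟨b, c, rfl⟩ := h80r_exists_const SR hgenS r
      have hSc : SR * c ∈ 𝔐 := 𝔐.mul_mem_right _ hSR𝔐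
      have hb : algebraMap ↥(h80tLoc (F := F) (𝔫.comap (algebraMap C1 C)))
          ↥(Algebra.adjoin ↥(h80tLoc (F := F) (𝔫.comap (algebraMap C1 C))) {(algebraMap C F Z)}) b ∈ 𝔐 := by
        have := 𝔐.sub_mem hr hSc
        simpa using this
      exact Ideal.add_mem _ (Ideal.mem_sup_left (Ideal.mem_map_of_mem _ ((hB𝔐 b).mp hb)))
        (Ideal.mul_mem_right _ _ (Ideal.mem_sup_right (Ideal.subset_span
          (Set.mem_singleton _))))
    · refine sup_le ?_ ?_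
      · rw [Ideal.map_le_iff_le_comap]
        intro b hb
        exact Ideal.mem_comap.mpr ((hB𝔐 b).mpr hb)
      · rw [Ideal.span_le]
        intro r hr
        rw [Set.mem_singleton_iff] at hr
        rw [hr]
        exact hSR𝔐
  -- the local ring `L = R_𝔐 ⊆ F`
  letI algL := h80tAlg (F := F) 𝔐
  haveI hLloc := h80t_isLocalization (F := F) hRinj 𝔐
  obtain ⟨hlocL, hdomL, hicL, hmaxL, u, hu⟩ := horacle 𝔐 h𝔐eq ↥(h80tLoc (F := F) 𝔐)
  haveI := hlocL
  haveI := hdomL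
  haveI := hicL
  have hLinj : Function.Injective (algebraMap ↥(h80tLoc (F := F) 𝔐) F) :=
    Subtype.val_injective
  set g : C1 →+* ↥(h80tLoc (F := F) 𝔐) :=
    (h80tMap (F := F) 𝔐).comp
      ((algebraMap ↥(h80tLoc (F := F) (𝔫.comap (algebraMap C1 C)))
        ↥(Algebra.adjoin ↥(h80tLoc (F := F) (𝔫.comap (algebraMap C1 C))) {(algebraMap C F Z)})).comp f1) with hg
  have hgcoe : ∀ t : C1, algebraMap ↥(h80tLoc (F := F) 𝔐) F (g t) = algebraMap C1 F t :=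
    fun t => rfl
  have hint' : ∀ b : C, IsIntegral ↥(h80tLoc (F := F) 𝔐) (algebraMap C F b) :=
    fun b => h80w_isIntegral g hgcoe b
  have hfrac' : ∀ b : C, ∃ r₁ r₂ : ↥(h80tLoc (F := F) 𝔐), r₂ ≠ 0 ∧
      algebraMap C F b * algebraMap ↥(h80tLoc (F := F) 𝔐) F r₂ =
        algebraMap ↥(h80tLoc (F := F) 𝔐) F r₁ := by
    intro b
    obtain ⟨Q, t, ht, hQ⟩ := hfrac b
    refine ⟨h80tMap (F := F) 𝔐 (aeval ZR (Q.map f1)), g t, ?_, ?_⟩
    · intro h0
      apply ht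
      apply hC1
      have := congrArg (fun x : ↥(h80tLoc (F := F) 𝔐) => (x : F)) h0
      rw [map_zero]
      exact this
    · have h1 := h80w_aeval_coe (F := F) (𝔫.comap (algebraMap C1 C)) Z Q
      rw [← hQ, map_mul, ← IsScalarTower.algebraMap_apply] at h1
      rw [hgcoe, mul_comm]
      exact h1.symm
  have hBR : ∀ b : C, ∃ r : ↥(h80tLoc (F := F) 𝔐),
      algebraMap ↥(h80tLoc (F := F) 𝔐) F r = algebraMap C F b :=
    fun b => h80t_exists_of_frac hLinj hint' hfrac' b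
  have hsubL : ∀ l : ↥(h80tLoc (F := F) 𝔐),
      algebraMap ↥(h80tLoc (F := F) 𝔐) F l ∈ h80tLoc (F := F) 𝔫 := by
    intro l
    obtain ⟨m, r, hm, hmr⟩ := l.2
    -- `m` is a unit of `C_𝔫`
    have hmu : IsUnit (ι m) := by
      by_contra hnu
      exact hm (Ideal.mem_comap.mpr ((IsLocalRing.mem_maximalIdeal (ι m)).mpr hnu))
    obtain ⟨v, hv⟩ := hmu.exists_left_inv
    have hv' : (v : F) * (m : F) = 1 := by
      have := congrArg (fun x : ↥(h80tLoc (F := F) 𝔫) => (x : F)) hv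
      exact this
    have h1 : (l : F) = (v : F) * (r : F) := by
      have hmr' : (m : F) * (l : F) = (r : F) := hmr
      calc (l : F) = ((v : F) * (m : F)) * (l : F) := by rw [hv', one_mul]
        _ = (v : F) * ((m : F) * (l : F)) := by ring
        _ = (v : F) * (r : F) := by rw [hmr']
    show (l : F) ∈ h80tLoc (F := F) 𝔫
    rw [h1]
    exact Subring.mul_mem _ v.2 (hsubR r)
  have hx' : algebraMap ↥(h80tLoc (F := F) 𝔐) F (algebraMap _ ↥(h80tLoc (F := F) 𝔐) x') =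
      algebraMap C F x := hx
  have hy' : algebraMap ↥(h80tLoc (F := F) 𝔐) F (algebraMap _ ↥(h80tLoc (F := F) 𝔐) y') =
      algebraMap C F y := hy
  have hπ' : algebraMap ↥(h80tLoc (F := F) 𝔐) F (algebraMap _ ↥(h80tLoc (F := F) 𝔐) π') =
      algebraMap C F π := hπ
  have hz' : algebraMap ↥(h80tLoc (F := F) 𝔐) F (algebraMap _ ↥(h80tLoc (F := F) 𝔐) z') =
      algebraMap C F z := hz
  obtain ⟨h1, h2, h3⟩ := h80t_two_gen_exact 𝔫 hLinj hC hBR hsubL x y _ _ hx' hy' hmaxL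
  exact ⟨h1, h2, h3, h80t_ram_exact 𝔫 hC hsubL π z _ _ hπ' hz' e u hu⟩

end Core

end Fermat.Agent.S36
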