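import Mathlib
import Fermat.Agent.S36.H80TowerCore

/-!
# S36, block REG, row R-ORD (helper80): the points of `C₂₀` and `C₁₁`, chart form

`F` a field, `C₁ → C → F` rings (the charts of level `M q`, `M q²` over the inertia ring),
`𝔫` a maximal ideal of `C` over a smooth point `𝔫₁ = 𝔫 ∩ C₁` of the component `C_∞` of level
`M q`: `𝔫₁ = (q, X - c)` locally, `Y - X ^ q ∈ q C₁` locally, and `X - X ^ (q²) ∉ 𝔫₁`
(non-exceptional point).  `G̃ = (T - Y ^ q) (T ^ q - Y) + q s`, `G̃(X) = 0 = G̃(Z)`, `Z ≠ X`,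
no nonzero polynomial of degree `< q` over `C₁` kills `Z`.

* `h80w_hmin` : the degree hypothesis passes to the local ring `B = (C₁)_𝔫₁`.
* `h80w_ord20` : if `Z - X ^ (q²) ∈ 𝔫` then `𝔫 = (q, X - c)` locally.
* `h80w_ord11` : if `Z - X ∈ 𝔫` and `G̃'(X) = q κ` locally with `κ ∉ 𝔫₁`, then
  `𝔫 = (Z - X, X - c)` locally and `s (Z - X) ^ (q - 1) = c' q` with `s ∉ 𝔫`.
-/

set_option autoImplicit false
set_option linter.unusedSectionVars false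
set_option linter.unnecessarySimpa false
set_option linter.style.haveILetI false
set_option linter.style.longLine false

open IsLocalRing Polynomial

namespace Fermat.Agent.S36

section Tower2

universe uF

variable {F : Type uF} [Field F] {C1 C : Type*} [CommRing C1] [CommRing C]
  [Algebra C1 C] [Algebra C1 F] [Algebra C F] [IsScalarTower C1 C F]

/-- the degree hypothesis passes from `C₁` to the local ring `B`. -/
theorem h80w_hmin
    (hC1 : Function.Injective (algebraMap C1 F)) (hC : Function.Injective (algebraMap C F))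
    (𝔫1 : Ideal C1) [h𝔫1 : 𝔫1.IsPrime] (Z : C) (q : ℕ)
    (hmin : ∀ P : C1[X], P ≠ 0 → aeval Z P = 0 → q ≤ P.natDegree)
    (P : (↥(h80tLoc (F := F) 𝔫1))[X]) (hP0 : P ≠ 0)
    (hP : aeval (⟨algebraMap C F Z, Algebra.subset_adjoin (Set.mem_singleton _)⟩ :
        ↥(Algebra.adjoin ↥(h80tLoc (F := F) 𝔫1) {algebraMap C F Z})) P = 0) :
    q ≤ P.natDegree := by
  classical
  haveI : IsDomain C1 := hC1.isDomain (algebraMap C1 F)
  letI := h80tAlg (F := F) 𝔫1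
  haveI := h80t_isLocalization (F := F) hC1 𝔫1
  have hle : 𝔫1.primeCompl ≤ nonZeroDivisors C1 := by
    intro x hx
    rw [mem_nonZeroDivisors_iff_ne_zero]
    rintro rfl
    exact hx 𝔫1.zero_mem
  set P₀ : C1[X] := IsLocalization.integerNormalization 𝔫1.primeCompl P with hP₀
  have hP₀0 : P₀ ≠ 0 := fun h =>
    hP0 ((IsLocalization.integerNormalization_eq_zero_iff hle P).mp h)
  have hdeg : P₀.natDegree ≤ P.natDegree := by
    have h1 := IsLocalization.integerNormalization_support 𝔫1.primeCompl P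
    exact Polynomial.le_natDegree_of_mem_supp _ (h1 (Polynomial.natDegree_mem_support_of_nonzero hP₀0))
  have hF : eval₂ (algebraMap ↥(h80tLoc (F := F) 𝔫1) F) (algebraMap C F Z) P = 0 := by
    have h1 := congrArg (fun x : ↥(Algebra.adjoin ↥(h80tLoc (F := F) 𝔫1) {algebraMap C F Z}) =>
      (x : F)) hP
    simp only [Polynomial.aeval_subalgebra_coe] at h1
    rw [Polynomial.aeval_def] at h1
    simpa using h1
  have h2 := IsLocalization.integerNormalization_eval₂_eq_zero (M := 𝔫1.primeCompl)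
    (algebraMap ↥(h80tLoc (F := F) 𝔫1) F) P hF
  have h3 : (algebraMap ↥(h80tLoc (F := F) 𝔫1) F).comp
      (algebraMap C1 ↥(h80tLoc (F := F) 𝔫1)) = algebraMap C1 F := RingHom.ext fun x => rfl
  rw [h3, ← Polynomial.aeval_def, Polynomial.aeval_algebraMap_apply] at h2
  have h4 : aeval Z P₀ = 0 := hC (by rw [h2, map_zero])
  exact le_trans (hmin P₀ hP₀0 h4) hdeg

/-! ## Data in the local ring `B = (C₁)_𝔫₁` -/

section BData

theorem h80w_natCast_ne_zero (𝔫1 : Ideal C1) [h𝔫1 : 𝔫1.IsPrime] (q : ℕ) (hqF : (q : F) ≠ 0) :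
    ((q : ℕ) : ↥(h80tLoc (F := F) 𝔫1)) ≠ 0 := by
  intro h
  apply hqF
  have := congrArg (fun x : ↥(h80tLoc (F := F) 𝔫1) => (x : F)) h
  simpa using this

/-- a relation `t₀ (u - v) = q w` with `t₀ ∉ 𝔫₁` gives `u = v + q w'` in `B`. -/
theorem h80w_rel_B (hC1 : Function.Injective (algebraMap C1 F))
    (𝔫1 : Ideal C1) [h𝔫1 : 𝔫1.IsPrime] (q : ℕ) (u v w t₀ : C1) (ht₀ : t₀ ∉ 𝔫1)
    (h : t₀ * (u - v) = (q : C1) * w) :
    ∃ w' : ↥(h80tLoc (F := F) 𝔫1), h80tMap (F := F) 𝔫1 u =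
      h80tMap (F := F) 𝔫1 v + ((q : ℕ) : ↥(h80tLoc (F := F) 𝔫1)) * w' := by
  obtain ⟨e, he⟩ := h80t_isUnit_map (F := F) hC1 𝔫1 t₀ ht₀
  refine ⟨h80tMap (F := F) 𝔫1 w * ((e⁻¹ : (↥(h80tLoc (F := F) 𝔫1))ˣ) :
    ↥(h80tLoc (F := F) 𝔫1)), ?_⟩
  have h1 := congrArg (h80tMap (F := F) 𝔫1) h
  rw [map_mul, map_mul, map_sub, map_natCast, ← he] at h1
  have h2 : h80tMap (F := F) 𝔫1 u - h80tMap (F := F) 𝔫1 v =
      ((e⁻¹ : (↥(h80tLoc (F := F) 𝔫1))ˣ) : ↥(h80tLoc (F := F) 𝔫1)) *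
        ((e : ↥(h80tLoc (F := F) 𝔫1)) *
          (h80tMap (F := F) 𝔫1 u - h80tMap (F := F) 𝔫1 v)) := by
    rw [← mul_assoc, Units.inv_mul, one_mul]
  rw [h1] at h2
  rw [← sub_eq_iff_eq_add', h2]
  ring

theorem h80w_GX_B (𝔫1 : Ideal C1) [h𝔫1 : 𝔫1.IsPrime] (q : ℕ) (X Y : C1) (s : C1[X]) (hGX : (h80qG q Y s).eval X = 0) :
    (h80qG q (h80tMap (F := F) 𝔫1 Y) (s.map (h80tMap (F := F) 𝔫1))).eval
      (h80tMap (F := F) 𝔫1 X) = 0 := by
  rw [← h80q_G_map, Polynomial.eval_map, Polynomial.eval₂_at_apply, hGX, map_zero]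

theorem h80w_maxB (hC1 : Function.Injective (algebraMap C1 F))
    (𝔫1 : Ideal C1) [h𝔫1 : 𝔫1.IsPrime] (q : ℕ) (t : C1) (hq1 : (q : C1) ∈ 𝔫1) (ht1 : t ∈ 𝔫1)
    (hmax1 : ∀ w ∈ 𝔫1, ∃ u, u ∉ 𝔫1 ∧ u * w ∈ Ideal.span {(q : C1), t}) :
    letI := h80t_isLocalRing (F := F) hC1 𝔫1
    maximalIdeal ↥(h80tLoc (F := F) 𝔫1) =
      Ideal.span {((q : ℕ) : ↥(h80tLoc (F := F) 𝔫1)), h80tMap (F := F) 𝔫1 t} := by
  have h1 := h80t_maximalIdeal_eq_span_pair (F := F) hC1 𝔫1 (q : C1) t hq1 ht1 hmax1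
  rw [map_natCast] at h1
  exact h1

theorem h80w_nilB (hC1 : Function.Injective (algebraMap C1 F))
    (𝔫1 : Ideal C1) [h𝔫1 : 𝔫1.IsPrime] (q : ℕ) (t : C1)
    (hmax1 : ∀ w ∈ 𝔫1, ∃ u, u ∉ 𝔫1 ∧ u * w ∈ Ideal.span {(q : C1), t})
    (P : Ideal C1) (hP : P.IsPrime) (hqP : (q : C1) ∈ P) (hPle : P ≤ 𝔫1) (hPne : P ≠ 𝔫1)
    (n : ℕ) :
    (h80tMap (F := F) 𝔫1 t) ^ n ∉
      Ideal.span {((q : ℕ) : ↥(h80tLoc (F := F) 𝔫1))} := by
  have h1 := h80t_not_pow_mem (F := F) hC1 𝔫1 (q : C1) t hmax1 P hP hqP hPle hPne n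
  rw [map_natCast] at h1
  exact h1

/-- the unit `κ` in `B`. -/
theorem h80w_kappa_B (hC1 : Function.Injective (algebraMap C1 F))
    (𝔫1 : Ideal C1) [h𝔫1 : 𝔫1.IsPrime] (q : ℕ) (X Y : C1) (s : C1[X]) (t₁ κ : C1)
    (ht₁ : t₁ ∉ 𝔫1) (hκ : κ ∉ 𝔫1)
    (hκeq : t₁ * (derivative (h80qG q Y s)).eval X = (q : C1) * κ) :
    ∃ κ' : ↥(h80tLoc (F := F) 𝔫1), IsUnit κ' ∧
      (derivative (h80qG q (h80tMap (F := F) 𝔫1 Y) (s.map (h80tMap (F := F) 𝔫1)))).eval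
        (h80tMap (F := F) 𝔫1 X) = ((q : ℕ) : ↥(h80tLoc (F := F) 𝔫1)) * κ' := by
  obtain ⟨e, he⟩ := h80t_isUnit_map (F := F) hC1 𝔫1 t₁ ht₁
  have hκu := h80t_isUnit_map (F := F) hC1 𝔫1 κ hκ
  refine ⟨h80tMap (F := F) 𝔫1 κ * ((e⁻¹ : (↥(h80tLoc (F := F) 𝔫1))ˣ) :
    ↥(h80tLoc (F := F) 𝔫1)), hκu.mul (Units.isUnit _), ?_⟩
  rw [← h80q_G_map, Polynomial.derivative_map, Polynomial.eval_map, Polynomial.eval₂_at_apply]
  have h1 := congrArg (h80tMap (F := F) 𝔫1) hκeq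
  rw [map_mul, map_mul, map_natCast, ← he] at h1
  have h2 : h80tMap (F := F) 𝔫1 ((derivative (h80qG q Y s)).eval X) =
      ((e⁻¹ : (↥(h80tLoc (F := F) 𝔫1))ˣ) : ↥(h80tLoc (F := F) 𝔫1)) *
        ((e : ↥(h80tLoc (F := F) 𝔫1)) *
          h80tMap (F := F) 𝔫1 ((derivative (h80qG q Y s)).eval X)) := by
    rw [← mul_assoc, Units.inv_mul, one_mul]
  rw [h1] at h2
  rw [h2]
  ring

end BData

/-- injectivity of `B → R`. -/
theorem h80w_BR_injective (𝔫1 : Ideal C1) [𝔫1.IsPrime] (z : F) :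
    Function.Injective (algebraMap ↥(h80tLoc (F := F) 𝔫1)
      ↥(Algebra.adjoin ↥(h80tLoc (F := F) 𝔫1) {z})) := by
  intro a b hab
  have := congrArg (fun x : ↥(Algebra.adjoin ↥(h80tLoc (F := F) 𝔫1) {z}) => (x : F)) hab
  exact Subtype.ext this

/-- `G̃(Z) = 0` in `R`. -/
theorem h80w_GZ_R (𝔫1 : Ideal C1) [𝔫1.IsPrime] (q : ℕ) (Y : C1) (s : C1[X]) (Z : C)
    (hGZ : aeval Z (h80qG q Y s) = 0) :
    aeval (⟨algebraMap C F Z, Algebra.subset_adjoin (Set.mem_singleton _)⟩ :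
        ↥(Algebra.adjoin ↥(h80tLoc (F := F) 𝔫1) {algebraMap C F Z}))
      (h80qG q (h80tMap (F := F) 𝔫1 Y) (s.map (h80tMap (F := F) 𝔫1))) = 0 := by
  apply Subtype.ext
  rw [← h80q_G_map]
  have h1 := h80w_aeval_coe (F := F) 𝔫1 Z (h80qG q Y s)
  rw [hGZ, map_zero] at h1
  exact h1

/-- `Z ≠ X` in `R`. -/
theorem h80w_ne_R (hC : Function.Injective (algebraMap C F)) (𝔫1 : Ideal C1) [𝔫1.IsPrime]
    (X : C1) (Z : C) (hne : Z ≠ algebraMap C1 C X) :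
    (⟨algebraMap C F Z, Algebra.subset_adjoin (Set.mem_singleton _)⟩ :
        ↥(Algebra.adjoin ↥(h80tLoc (F := F) 𝔫1) {algebraMap C F Z})) ≠
      algebraMap ↥(h80tLoc (F := F) 𝔫1)
        ↥(Algebra.adjoin ↥(h80tLoc (F := F) 𝔫1) {algebraMap C F Z})
        (h80tMap (F := F) 𝔫1 X) := by
  intro h
  apply hne
  apply hC
  have := congrArg
    (fun x : ↥(Algebra.adjoin ↥(h80tLoc (F := F) 𝔫1) {algebraMap C F Z}) => (x : F)) h
  rw [← IsScalarTower.algebraMap_apply]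
  exact this

/-- **Points of `C₂₀`** (non-exceptional), chart form: `𝔫 = (q, X - c)` locally. -/
theorem h80w_ord20
    (hC1 : Function.Injective (algebraMap C1 F)) (hC : Function.Injective (algebraMap C F))
    [IsNoetherianRing C1] [Algebra.IsIntegral C1 C]
    (𝔫 : Ideal C) [h𝔫 : 𝔫.IsMaximal]
    (q : ℕ) (hq : q.Prime) (hqF : (q : F) ≠ 0)
    (X Y c : C1) (s : C1[X]) (hs : s.natDegree ≤ q)
    (hGX : (h80qG q Y s).eval X = 0)
    (Z : C) (hGZ : aeval Z (h80qG q Y s) = 0) (hne : Z ≠ algebraMap C1 C X)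
    (t₀ y₁ : C1) (ht₀ : t₀ ∉ 𝔫.comap (algebraMap C1 C))
    (hYX : t₀ * (Y - X ^ q) = (q : C1) * y₁)
    (hq1 : (q : C1) ∈ 𝔫.comap (algebraMap C1 C))
    (ht1 : X - c ∈ 𝔫.comap (algebraMap C1 C))
    (hmax1 : ∀ w ∈ 𝔫.comap (algebraMap C1 C), ∃ t, t ∉ 𝔫.comap (algebraMap C1 C) ∧
      t * w ∈ Ideal.span {(q : C1), X - c})
    (P : Ideal C1) (hP : P.IsPrime) (hqP : (q : C1) ∈ P)
    (hPle : P ≤ 𝔫.comap (algebraMap C1 C)) (hPne : P ≠ 𝔫.comap (algebraMap C1 C))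
    (hexc : X - X ^ (q * q) ∉ 𝔫.comap (algebraMap C1 C))
    (hmin : ∀ P : C1[X], P ≠ 0 → aeval Z P = 0 → q ≤ P.natDegree)
    (hfrac : ∀ x : C, ∃ (Q : C1[X]) (t : C1), t ≠ 0 ∧ algebraMap C1 C t * x = aeval Z Q)
    (hkind : Z - algebraMap C1 C (X ^ (q * q)) ∈ 𝔫) :
    ((q : ℕ) : C) ∈ 𝔫 ∧ algebraMap C1 C (X - c) ∈ 𝔫 ∧
      ∀ w ∈ 𝔫, ∃ u, u ∉ 𝔫 ∧ u * w ∈ Ideal.span {((q : ℕ) : C), algebraMap C1 C (X - c)} := by
  classical
  haveI h𝔫p : 𝔫.IsPrime := h𝔫.isPrime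
  haveI hn1p : (𝔫.comap (algebraMap C1 C)).IsPrime := Ideal.comap_isPrime _ _
  haveI hBloc : IsLocalRing ↥(h80tLoc (F := F) (𝔫.comap (algebraMap C1 C))) :=
    h80t_isLocalRing hC1 _
  haveI hBnoe : IsNoetherianRing ↥(h80tLoc (F := F) (𝔫.comap (algebraMap C1 C))) :=
    h80t_isNoetherianRing hC1 _
  have hq0 := h80w_natCast_ne_zero (F := F) (𝔫.comap (algebraMap C1 C)) q hqF
  obtain ⟨y₁B, hYB⟩ := h80w_rel_B (F := F) hC1 (𝔫.comap (algebraMap C1 C)) q Y (X ^ q) y₁ t₀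
    ht₀ hYX
  rw [map_pow] at hYB
  have hGXB := h80w_GX_B (F := F) (𝔫.comap (algebraMap C1 C)) q X Y s hGX
  have hmaxB := h80w_maxB (F := F) hC1 (𝔫.comap (algebraMap C1 C)) q (X - c) hq1 ht1 hmax1
  rw [map_sub] at hmaxB
  have hnilB : ∀ n : ℕ, (h80tMap (F := F) (𝔫.comap (algebraMap C1 C)) X -
      h80tMap (F := F) (𝔫.comap (algebraMap C1 C)) c) ^ n ∉
      Ideal.span {((q : ℕ) : ↥(h80tLoc (F := F) (𝔫.comap (algebraMap C1 C))))} := by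
    intro n
    have h1 := h80w_nilB (F := F) hC1 (𝔫.comap (algebraMap C1 C)) q (X - c) hmax1 P hP hqP
      hPle hPne n
    rw [map_sub] at h1
    exact h1
  have hexcB : IsUnit (h80tMap (F := F) (𝔫.comap (algebraMap C1 C)) X -
      h80tMap (F := F) (𝔫.comap (algebraMap C1 C)) X ^ (q * q)) := by
    have h1 := h80t_isUnit_map (F := F) hC1 (𝔫.comap (algebraMap C1 C)) (X - X ^ (q * q)) hexc
    rw [map_sub, map_pow] at h1
    exact h1
  have hsB : (s.map (h80tMap (F := F) (𝔫.comap (algebraMap C1 C)))).natDegree ≤ q :=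
    le_trans natDegree_map_le hs
  have hgen := h80w_adjoin_top (B := ↥(h80tLoc (F := F) (𝔫.comap (algebraMap C1 C))))
    (algebraMap C F Z)
  have hinj := h80w_BR_injective (F := F) (𝔫.comap (algebraMap C1 C)) (algebraMap C F Z)
  have hGZR := h80w_GZ_R (F := F) (𝔫.comap (algebraMap C1 C)) q Y s Z hGZ
  have hneR := h80w_ne_R (F := F) hC (𝔫.comap (algebraMap C1 C)) X Z hne
  have hminB := fun P hP0 hPZ =>
    h80w_hmin (F := F) hC1 hC (𝔫.comap (algebraMap C1 C)) Z q hmin P hP0 hPZ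
  have hx : ((algebraMap ↥(h80tLoc (F := F) (𝔫.comap (algebraMap C1 C)))
      ↥(Algebra.adjoin ↥(h80tLoc (F := F) (𝔫.comap (algebraMap C1 C))) {algebraMap C F Z})
      ((q : ℕ) : ↥(h80tLoc (F := F) (𝔫.comap (algebraMap C1 C)))) :
        ↥(Algebra.adjoin ↥(h80tLoc (F := F) (𝔫.comap (algebraMap C1 C)))
          {algebraMap C F Z})) : F) = algebraMap C F ((q : ℕ) : C) := by
    rw [map_natCast, map_natCast]
    rfl
  have hy : ((algebraMap ↥(h80tLoc (F := F) (𝔫.comap (algebraMap C1 C)))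
      ↥(Algebra.adjoin ↥(h80tLoc (F := F) (𝔫.comap (algebraMap C1 C))) {algebraMap C F Z})
      (h80tMap (F := F) (𝔫.comap (algebraMap C1 C)) X -
        h80tMap (F := F) (𝔫.comap (algebraMap C1 C)) c) :
        ↥(Algebra.adjoin ↥(h80tLoc (F := F) (𝔫.comap (algebraMap C1 C)))
          {algebraMap C F Z})) : F) = algebraMap C F (algebraMap C1 C (X - c)) := by
    rw [map_sub, map_sub, map_sub, ← IsScalarTower.algebraMap_apply C1 C F,
      ← IsScalarTower.algebraMap_apply C1 C F]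
    rfl
  have hcore := h80w_core (F := F) hC1 hC 𝔫 Z (X ^ (q * q)) hkind hfrac ((q : ℕ) : C)
    (algebraMap C1 C (X - c)) ((q : ℕ) : C) ((q : ℕ) : C) 1 _ _ _ _ hx hy hx hx (by
      intro 𝔐 h𝔐p h𝔐eq L _ _ _
      rw [map_pow] at h𝔐eq
      obtain ⟨hloc, hdom, -, hmaxL, -, -, -, hic⟩ :=
        h80q_ord20 hinj q hq hq0 _ _ y₁B _ _ hsB hYB hGXB hmaxB hnilB hexcB _ hgen hGZR hneR
          hminB 𝔐 h𝔐eq L
      exact ⟨hloc, hdom, hic, hmaxL, 1, by rw [Units.val_one, one_mul, pow_one]⟩)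
  exact ⟨hcore.1, hcore.2.1, hcore.2.2.1⟩

/-- **Points of `C₁₁`** (non-exceptional), chart form: `𝔫 = (Z - X, X - c)` locally and
`s (Z - X) ^ (q - 1) = c' q` with `s ∉ 𝔫`. -/
theorem h80w_ord11
    (hC1 : Function.Injective (algebraMap C1 F)) (hC : Function.Injective (algebraMap C F))
    [IsNoetherianRing C1] [Algebra.IsIntegral C1 C]
    (𝔫 : Ideal C) [h𝔫 : 𝔫.IsMaximal]
    (q : ℕ) (hq : q.Prime) (hqF : (q : F) ≠ 0)
    (X Y c : C1) (s : C1[X]) (hs : s.natDegree ≤ q)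
    (hGX : (h80qG q Y s).eval X = 0)
    (Z : C) (hGZ : aeval Z (h80qG q Y s) = 0) (hne : Z ≠ algebraMap C1 C X)
    (t₀ y₁ : C1) (ht₀ : t₀ ∉ 𝔫.comap (algebraMap C1 C))
    (hYX : t₀ * (Y - X ^ q) = (q : C1) * y₁)
    (hq1 : (q : C1) ∈ 𝔫.comap (algebraMap C1 C))
    (ht1 : X - c ∈ 𝔫.comap (algebraMap C1 C))
    (hmax1 : ∀ w ∈ 𝔫.comap (algebraMap C1 C), ∃ t, t ∉ 𝔫.comap (algebraMap C1 C) ∧
      t * w ∈ Ideal.span {(q : C1), X - c})
    (P : Ideal C1) (hP : P.IsPrime) (hqP : (q : C1) ∈ P)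
    (hPle : P ≤ 𝔫.comap (algebraMap C1 C)) (hPne : P ≠ 𝔫.comap (algebraMap C1 C))
    (hexc : X - X ^ (q * q) ∉ 𝔫.comap (algebraMap C1 C))
    (t₁ κ : C1) (ht₁ : t₁ ∉ 𝔫.comap (algebraMap C1 C)) (hκ : κ ∉ 𝔫.comap (algebraMap C1 C))
    (hκeq : t₁ * (derivative (h80qG q Y s)).eval X = (q : C1) * κ)
    (hmin : ∀ P : C1[X], P ≠ 0 → aeval Z P = 0 → q ≤ P.natDegree)
    (hfrac : ∀ x : C, ∃ (Q : C1[X]) (t : C1), t ≠ 0 ∧ algebraMap C1 C t * x = aeval Z Q)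
    (hkind : Z - algebraMap C1 C X ∈ 𝔫) :
    Z - algebraMap C1 C X ∈ 𝔫 ∧ algebraMap C1 C (X - c) ∈ 𝔫 ∧
      (∀ w ∈ 𝔫, ∃ u, u ∉ 𝔫 ∧
        u * w ∈ Ideal.span {Z - algebraMap C1 C X, algebraMap C1 C (X - c)}) ∧
      ∃ s' c' : C, s' ∉ 𝔫 ∧ s' * (Z - algebraMap C1 C X) ^ (q - 1) = c' * ((q : ℕ) : C) := by
  classical
  haveI h𝔫p : 𝔫.IsPrime := h𝔫.isPrime
  haveI hn1p : (𝔫.comap (algebraMap C1 C)).IsPrime := Ideal.comap_isPrime _ _
  haveI hBloc : IsLocalRing ↥(h80tLoc (F := F) (𝔫.comap (algebraMap C1 C))) :=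
    h80t_isLocalRing hC1 _
  haveI hBnoe : IsNoetherianRing ↥(h80tLoc (F := F) (𝔫.comap (algebraMap C1 C))) :=
    h80t_isNoetherianRing hC1 _
  have hq0 := h80w_natCast_ne_zero (F := F) (𝔫.comap (algebraMap C1 C)) q hqF
  obtain ⟨y₁B, hYB⟩ := h80w_rel_B (F := F) hC1 (𝔫.comap (algebraMap C1 C)) q Y (X ^ q) y₁ t₀
    ht₀ hYX
  rw [map_pow] at hYB
  have hGXB := h80w_GX_B (F := F) (𝔫.comap (algebraMap C1 C)) q X Y s hGX
  have hmaxB := h80w_maxB (F := F) hC1 (𝔫.comap (algebraMap C1 C)) q (X - c) hq1 ht1 hmax1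
  rw [map_sub] at hmaxB
  have hnilB : ∀ n : ℕ, (h80tMap (F := F) (𝔫.comap (algebraMap C1 C)) X -
      h80tMap (F := F) (𝔫.comap (algebraMap C1 C)) c) ^ n ∉
      Ideal.span {((q : ℕ) : ↥(h80tLoc (F := F) (𝔫.comap (algebraMap C1 C))))} := by
    intro n
    have h1 := h80w_nilB (F := F) hC1 (𝔫.comap (algebraMap C1 C)) q (X - c) hmax1 P hP hqP
      hPle hPne n
    rw [map_sub] at h1
    exact h1
  have hexcB : IsUnit (h80tMap (F := F) (𝔫.comap (algebraMap C1 C)) X -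
      h80tMap (F := F) (𝔫.comap (algebraMap C1 C)) X ^ (q * q)) := by
    have h1 := h80t_isUnit_map (F := F) hC1 (𝔫.comap (algebraMap C1 C)) (X - X ^ (q * q)) hexc
    rw [map_sub, map_pow] at h1
    exact h1
  obtain ⟨κB, hκB, hκBeq⟩ := h80w_kappa_B (F := F) hC1 (𝔫.comap (algebraMap C1 C)) q X Y s t₁ κ
    ht₁ hκ hκeq
  have hsB : (s.map (h80tMap (F := F) (𝔫.comap (algebraMap C1 C)))).natDegree ≤ q :=
    le_trans natDegree_map_le hs
  have hgen := h80w_adjoin_top (B := ↥(h80tLoc (F := F) (𝔫.comap (algebraMap C1 C))))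
    (algebraMap C F Z)
  have hinj := h80w_BR_injective (F := F) (𝔫.comap (algebraMap C1 C)) (algebraMap C F Z)
  have hGZR := h80w_GZ_R (F := F) (𝔫.comap (algebraMap C1 C)) q Y s Z hGZ
  have hneR := h80w_ne_R (F := F) hC (𝔫.comap (algebraMap C1 C)) X Z hne
  have hminB := fun P hP0 hPZ =>
    h80w_hmin (F := F) hC1 hC (𝔫.comap (algebraMap C1 C)) Z q hmin P hP0 hPZ
  have hπ : ((algebraMap ↥(h80tLoc (F := F) (𝔫.comap (algebraMap C1 C)))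
      ↥(Algebra.adjoin ↥(h80tLoc (F := F) (𝔫.comap (algebraMap C1 C))) {algebraMap C F Z})
      ((q : ℕ) : ↥(h80tLoc (F := F) (𝔫.comap (algebraMap C1 C)))) :
        ↥(Algebra.adjoin ↥(h80tLoc (F := F) (𝔫.comap (algebraMap C1 C)))
          {algebraMap C F Z})) : F) = algebraMap C F ((q : ℕ) : C) := by
    rw [map_natCast, map_natCast]
    rfl
  have hy : ((algebraMap ↥(h80tLoc (F := F) (𝔫.comap (algebraMap C1 C)))
      ↥(Algebra.adjoin ↥(h80tLoc (F := F) (𝔫.comap (algebraMap C1 C))) {algebraMap C F Z})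
      (h80tMap (F := F) (𝔫.comap (algebraMap C1 C)) X -
        h80tMap (F := F) (𝔫.comap (algebraMap C1 C)) c) :
        ↥(Algebra.adjoin ↥(h80tLoc (F := F) (𝔫.comap (algebraMap C1 C)))
          {algebraMap C F Z})) : F) = algebraMap C F (algebraMap C1 C (X - c)) := by
    rw [map_sub, map_sub, map_sub, ← IsScalarTower.algebraMap_apply C1 C F,
      ← IsScalarTower.algebraMap_apply C1 C F]
    rfl
  have hx : (((⟨algebraMap C F Z, Algebra.subset_adjoin (Set.mem_singleton _)⟩ :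
        ↥(Algebra.adjoin ↥(h80tLoc (F := F) (𝔫.comap (algebraMap C1 C)))
          {algebraMap C F Z})) -
      algebraMap ↥(h80tLoc (F := F) (𝔫.comap (algebraMap C1 C)))
        ↥(Algebra.adjoin ↥(h80tLoc (F := F) (𝔫.comap (algebraMap C1 C))) {algebraMap C F Z})
        (h80tMap (F := F) (𝔫.comap (algebraMap C1 C)) X) :
        ↥(Algebra.adjoin ↥(h80tLoc (F := F) (𝔫.comap (algebraMap C1 C)))
          {algebraMap C F Z})) : F) = algebraMap C F (Z - algebraMap C1 C X) := by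
    rw [map_sub, ← IsScalarTower.algebraMap_apply C1 C F]
    rfl
  have hcore := h80w_core (F := F) hC1 hC 𝔫 Z X hkind hfrac (Z - algebraMap C1 C X)
    (algebraMap C1 C (X - c)) ((q : ℕ) : C) (Z - algebraMap C1 C X) (q - 1) _ _ _ _ hx hy hπ hx
    (by
      intro 𝔐 h𝔐p h𝔐eq L _ _ _
      obtain ⟨hloc, hdom, -, hmaxL, hu, -, -, hic⟩ :=
        h80q_ord11 hinj q hq hq0 _ _ y₁B _ _ hsB hYB hGXB hmaxB hnilB hexcB κB hκB hκBeq _ hgen
          hGZR hneR hminB 𝔐 h𝔐eq L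
      exact ⟨hloc, hdom, hic, hmaxL, hu⟩)
  exact hcore

end Tower2

end Fermat.Agent.S36
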