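import Fermat.Agent.S36.H80OrdIface
import Fermat.Agent.S36.H80OrdTower2
import Fermat.Agent.S36.H40Gen
import Fermat.Agent.S36.H62Dim
import Fermat.Agent.LGC.H55Kron

/-!
# S36, block REG, row R-ORD (helper80): base lemmas for the instantiation

`Λ₀ = h62rChart A M (jB M)`, `B₁ = h62rChart A (M q) (jSS M q)`,
`B₂ = h62rChart A (M q²) (jB (M q²))`.

* `h80x_ord0_hom` : the chart form `h80w_ord0` in ring-homomorphism form (`C` a subring of the
  field `F`, `ι : C1 →+* C` injective and integral).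
* `h80x_kron` : the Kronecker remainder `r` of a rational `u` has rational coefficients.
* `h80x_relations` : the Kronecker relations in the charts over `A₀`, with a remainder
  `r ∈ Λ₀[T]`.
* `h80x_hfrac` : R-GEN (helper40) in chart form.
* `h80x_param` : a non-constant rational local parameter.
-/

set_option autoImplicit false
set_option linter.unusedSectionVars false
set_option linter.style.haveILetI false
set_option linter.style.longLine false
set_option linter.unusedVariables false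

open AlgebraicCurve ModularCurve IsLocalRing Polynomial

noncomputable section

namespace Fermat.Agent.S36

open Fermat.Agent.S37 Fermat.Agent.Red.GG Fermat.Agent.LGC Fermat.Agent.Red.Kron
  Fermat.Agent.Red.GV

/-! ## Ring-homomorphism form of the chart theorems -/

section HomForm

variable {F : Type*} [Field F] {C1 : Type*} [CommRing C1]

/-- evaluation in a subring. -/
theorem h80x_coe_eval (C : Subring F) (p : C[X]) (x : C) :
    ((p.eval x : C) : F) = (p.map C.subtype).eval (x : F) := by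
  rw [Polynomial.eval_map]
  exact (Polynomial.eval₂_at_apply C.subtype x).symm

/-- **Points of `C₀₂`, ring-homomorphism form.** -/
theorem h80x_ord0_hom (C : Subring F) (ι : C1 →+* C) (hι : Function.Injective ι)
    [IsNoetherianRing C1] (hint : ι.IsIntegral)
    (𝔫 : Ideal C) [h𝔫 : 𝔫.IsMaximal]
    (q : ℕ) (hq : q.Prime) (hqF : (q : F) ≠ 0)
    (X Y c' : C1) (s : C1[X]) (hs : s.natDegree ≤ q)
    (hGX : (h80qG q Y s).eval X = 0)
    (Z : C) (hGZ : (h80qG q (ι Y) (s.map ι)).eval Z = 0) (hne : Z ≠ ι X)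
    (t₀ x₁ : C1) (ht₀ : t₀ ∉ 𝔫.comap ι)
    (hXY : t₀ * (X - Y ^ q) = (q : C1) * x₁)
    (hq1 : (q : C1) ∈ 𝔫.comap ι)
    (ht1 : Y - c' ^ q ∈ 𝔫.comap ι)
    (hmax1 : ∀ w ∈ 𝔫.comap ι, ∃ t, t ∉ 𝔫.comap ι ∧
      t * w ∈ Ideal.span {(q : C1), Y - c' ^ q})
    (P : Ideal C1) (hP : P.IsPrime) (hqP : (q : C1) ∈ P)
    (hPle : P ≤ 𝔫.comap ι) (hPne : P ≠ 𝔫.comap ι)
    (hfrac : ∀ x : C, ∃ (Q : C1[X]) (t : C1), t ≠ 0 ∧ ι t * x = (Q.map ι).eval Z) :
    (q : C) ∈ 𝔫 ∧ Z - ι c' ∈ 𝔫 ∧
      ∀ w ∈ 𝔫, ∃ u, u ∉ 𝔫 ∧ u * w ∈ Ideal.span {(q : C), Z - ι c'} := by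
  letI : Algebra C1 C := ι.toAlgebra
  letI : Algebra C1 F := (C.subtype.comp ι).toAlgebra
  haveI : IsScalarTower C1 C F := IsScalarTower.of_algebraMap_eq (fun _ => rfl)
  haveI : Algebra.IsIntegral C1 C := ⟨hint⟩
  have hC1 : Function.Injective (algebraMap C1 F) :=
    Subtype.val_injective.comp hι
  have hC : Function.Injective (algebraMap C F) := Subtype.val_injective
  have hGZ' : aeval Z (h80qG q Y s) = 0 := by
    rw [Polynomial.aeval_def, Polynomial.eval₂_eq_eval_map, h80q_G_map]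
    exact hGZ
  have hfrac' : ∀ x : C, ∃ (Q : C1[X]) (t : C1), t ≠ 0 ∧
      algebraMap C1 C t * x = aeval Z Q := by
    intro x
    obtain ⟨Q, t, ht, h⟩ := hfrac x
    refine ⟨Q, t, ht, ?_⟩
    rw [Polynomial.aeval_def, Polynomial.eval₂_eq_eval_map]
    exact h
  exact h80w_ord0 (F := F) hC1 hC 𝔫 q hq hqF X Y c' s hs hGX Z hGZ' hne t₀ x₁ ht₀ hXY hq1 ht1
    hmax1 P hP hqP hPle hPne hfrac'

end HomForm

/-! ## The rational Kronecker remainder -/

section Kron

variable (A : ValuationSubring Kbar) {M q : ℕ} [NeZero M] [NeZero q]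

/-- rational functions form a subfield: division by `q`. -/
theorem h80x_isRat_of_natCast_mul (x : FF M) (hq0 : q ≠ 0) (h : IsRat ((q : FF M) * x)) :
    IsRat x := by
  have hq' : ((q : ℕ) : FF M) ≠ 0 := Nat.cast_ne_zero.mpr hq0
  have hmem : (q : FF M) * x ∈ h53d_F0 M ⊤ := fun σ _ => (Fermat.Agent.Red.GV.Soft.isRat_iff_gal_fixed M _).mp h σ
  have hqm : ((q : ℕ) : FF M) ∈ h53d_F0 M ⊤ := natCast_mem _ q
  have h1 : x ∈ h53d_F0 M ⊤ := by
    have h2 := (h53d_F0 M ⊤).mul_mem ((h53d_F0 M ⊤).inv_mem hqm) hmem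
    rwa [← mul_assoc, inv_mul_cancel₀ hq', one_mul] at h2
  exact (Fermat.Agent.Red.GV.Soft.isRat_iff_gal_fixed M _).mpr fun σ => h1 σ (Subgroup.mem_top σ)

/-- **Kronecker modulo `q` with a rational remainder.** -/
theorem h80x_kron (hq : q.Prime) (hM : ¬ q ∣ M) (hA : A.LiesOverPrime q) (u : FF M)
    (hu : u ∈ modelFin M A) (hrat : IsRat u) :
    ∃ r : (FF M)[X], (∀ n, r.coeff n ∈ modelFin M A) ∧ (∀ n, IsRat (r.coeff n)) ∧
      r.natDegree ≤ q ∧
      ((X - C (u ^ q)) * (X ^ q - C u) + C ((q : ℕ) : FF M) * r).eval₂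
        (heckeAlphaBar Kbar M q).toRingHom (heckeBetaBar Kbar M q u) = 0 := by
  obtain ⟨r, hr, hdeg, heq⟩ := h55k_charpoly_eq M q A hq hM hA u hu hrat
  refine ⟨r, hr, fun n => ?_, hdeg, ?_⟩
  · have h1 := h55k_isRat_coeff M q hq hM u hrat n
    have h2 : (h55k_Psi M q u - h55k_P0 M q u).coeff n = (q : FF M) * r.coeff n := by
      rw [heq, h55k_P0, add_sub_cancel_left, coeff_C_mul]
    rw [h2] at h1
    exact h80x_isRat_of_natCast_mul (r.coeff n) hq.ne_zero h1
  · rw [← heq]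
    exact h44g_eval₂_charpolyAlong (heckeAlphaBar Kbar M q) _ _

end Kron

/-! ## The Kronecker relations in the charts over `A₀` -/

section Rel

variable (A : ValuationSubring Kbar) {M q : ℕ} [NeZero M] [NeZero q]

/-- a rational function of the chart over `A` lies in the chart over `A₀`. -/
theorem h80x_mem_chart_of_isRat {N : ℕ} {t x : FF N} (hx : x ∈ modelAt N A t) (hrat : IsRat x) :
    x ∈ h62rChart A N t :=
  h62r_mem_chart.mpr ⟨hx, fun σ _ => (Fermat.Agent.Red.GV.Soft.isRat_iff_gal_fixed N x).mp hrat σ⟩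

/-- the relation at the level `M q`, in `FF (M q)`, in expanded form. -/
theorem h80x_rel_FF (hq : q.Prime) (hM : ¬ q ∣ M) (u : FF M) (r : (FF M)[X])
    (h0 : ((X - C (u ^ q)) * (X ^ q - C u) + C ((q : ℕ) : FF M) * r).eval₂
        (heckeAlphaBar Kbar M q).toRingHom (heckeBetaBar Kbar M q u) = 0) :
    ((heckeBetaBar Kbar M q u - heckeAlphaBar Kbar M q u ^ q) *
        (heckeBetaBar Kbar M q u ^ q - heckeAlphaBar Kbar M q u)
        + (q : FF (M * q)) * (r.map (heckeAlphaBar Kbar M q).toRingHom).eval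
            (heckeBetaBar Kbar M q u) = 0) ∧
    ((heckeAlphaBar Kbar M q u - heckeBetaBar Kbar M q u ^ q) *
        (heckeAlphaBar Kbar M q u ^ q - heckeBetaBar Kbar M q u)
        + (q : FF (M * q)) * (r.map (heckeBetaBar Kbar M q).toRingHom).eval
            (heckeAlphaBar Kbar M q u) = 0) := by
  constructor
  · have h1 := h0
    rw [h67i_eval₂, ← Polynomial.eval_map] at h1
    exact h1
  · have hw := congrArg (kFricke M q hq hM).toAlgHom.toRingHom h0
    rw [Polynomial.hom_eval₂, map_zero] at hw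
    have hwa : (kFricke M q hq hM).toAlgHom.toRingHom.comp (heckeAlphaBar Kbar M q).toRingHom
        = (heckeBetaBar Kbar M q).toRingHom :=
      RingHom.ext fun x => kFricke_alpha M q hq hM x
    have hwb : (kFricke M q hq hM).toAlgHom.toRingHom (heckeBetaBar Kbar M q u)
        = heckeAlphaBar Kbar M q u := kFricke_beta M q hq hM u
    rw [hwa, hwb, h67i_eval₂, ← Polynomial.eval_map] at hw
    exact hw

/-- the relations at the level `M q²`, in `FF (M q²)`, in expanded form. -/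
theorem h80x_rel_FF2 (hq : q.Prime) (hM : ¬ q ∣ M) (u : FF M) (r : (FF M)[X])
    (h0 : ((X - C (u ^ q)) * (X ^ q - C u) + C ((q : ℕ) : FF M) * r).eval₂
        (heckeAlphaBar Kbar M q).toRingHom (heckeBetaBar Kbar M q u) = 0) :
    ((h67i_e1 M q u - h67i_e0 M q u ^ q) * (h67i_e1 M q u ^ q - h67i_e0 M q u)
        + (q : FF (M * q * q)) * (r.map (h67i_e0 M q)).eval (h67i_e1 M q u) = 0) ∧
    ((h67i_e0 M q u - h67i_e1 M q u ^ q) * (h67i_e0 M q u ^ q - h67i_e1 M q u)
        + (q : FF (M * q * q)) * (r.map (h67i_e1 M q)).eval (h67i_e0 M q u) = 0) ∧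
    ((h67i_e2 M q u - h67i_e1 M q u ^ q) * (h67i_e2 M q u ^ q - h67i_e1 M q u)
        + (q : FF (M * q * q)) * (r.map (h67i_e1 M q)).eval (h67i_e2 M q u) = 0) := by
  refine ⟨?_, ?_, ?_⟩
  · have h1 := congrArg (heckeAlphaBar Kbar (M * q) q).toRingHom h0
    rw [Polynomial.hom_eval₂, map_zero, h67i_eval₂, ← Polynomial.eval_map] at h1
    exact h1
  · have hw := congrArg (kFricke M q hq hM).toAlgHom.toRingHom h0
    rw [Polynomial.hom_eval₂, map_zero] at hw
    have hwa : (kFricke M q hq hM).toAlgHom.toRingHom.comp (heckeAlphaBar Kbar M q).toRingHom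
        = (heckeBetaBar Kbar M q).toRingHom :=
      RingHom.ext fun x => kFricke_alpha M q hq hM x
    have hwb : (kFricke M q hq hM).toAlgHom.toRingHom (heckeBetaBar Kbar M q u)
        = heckeAlphaBar Kbar M q u := kFricke_beta M q hq hM u
    rw [hwa, hwb] at hw
    have h1 := congrArg (heckeAlphaBar Kbar (M * q) q).toRingHom hw
    rw [Polynomial.hom_eval₂, map_zero, h67i_eval₂, ← Polynomial.eval_map] at h1
    exact h1
  · have h1 := congrArg (heckeBetaBar Kbar (M * q) q).toRingHom h0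
    rw [Polynomial.hom_eval₂, map_zero, ← h67i_e1_eq', h67i_eval₂, ← Polynomial.eval_map] at h1
    exact h1

/-- **The Kronecker relations in the charts over `A₀`**, with a rational remainder. -/
theorem h80x_relations (hq : q.Prime) (hM : ¬ q ∣ M) (hA : A.LiesOverPrime q)
    (u : h62rChart A M (jB M)) (hrat : IsRat (u : FF M)) :
    ∃ r : (h62rChart A M (jB M))[X], r.natDegree ≤ q ∧
      (∀ n, IsRat ((r.coeff n : h62rChart A M (jB M)) : FF M)) ∧
      (h80qG q (h62rAlpha A M u) (r.map (h62rAlpha A M))).eval (h62rBeta A M hq hM hA u) = 0 ∧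
      (h80qG q (h62rBeta A M hq hM hA u) (r.map (h62rBeta A M hq hM hA))).eval
        (h62rAlpha A M u) = 0 ∧
      (h80qG q (h59y_e0 A M u) (r.map (h59y_e0 A M))).eval (h59y_e1 A M hq hM hA u) = 0 ∧
      (h80qG q (h59y_e1 A M hq hM hA u) (r.map (h59y_e1 A M hq hM hA))).eval
        (h59y_e0 A M u) = 0 ∧
      (h80qG q (h59y_e1 A M hq hM hA u) (r.map (h59y_e1 A M hq hM hA))).eval
        (h59y_e2 A M hq hM hA u) = 0 := by
  obtain ⟨r₀, hr₀, hr₀rat, hdeg, h0⟩ :=
    h80x_kron A hq hM hA (u : FF M) (h62r_mem_chart.mp u.2).1 hrat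
  have hlift : r₀ ∈ Polynomial.lifts (h62rChart A M (jB M)).subtype := by
    rw [Polynomial.lifts_iff_coeff_lifts]
    intro n
    exact ⟨⟨r₀.coeff n, h80x_mem_chart_of_isRat A (hr₀ n) (hr₀rat n)⟩, rfl⟩
  obtain ⟨r, hr⟩ := hlift
  have hr' : r.map (h62rChart A M (jB M)).subtype = r₀ := hr
  have hinj : Function.Injective ((h62rChart A M (jB M)).subtype) := Subtype.val_injective
  obtain ⟨hR1, hR2⟩ := h80x_rel_FF hq hM (u : FF M) r₀ h0
  obtain ⟨hS1, hS2, hS3⟩ := h80x_rel_FF2 hq hM (u : FF M) r₀ h0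
  have eα : (r.map (h62rAlpha A M)).map (h62rChart A (M * q) (jSS M q)).subtype
      = r₀.map (heckeAlphaBar Kbar M q).toRingHom := by
    rw [← hr', Polynomial.map_map, Polynomial.map_map]
    congr 1
  have eβ : (r.map (h62rBeta A M hq hM hA)).map (h62rChart A (M * q) (jSS M q)).subtype
      = r₀.map (heckeBetaBar Kbar M q).toRingHom := by
    rw [← hr', Polynomial.map_map, Polynomial.map_map]
    congr 1
  have e0 : (r.map (h59y_e0 A M)).map (h62rChart A (M * q * q) (jB (M * q * q))).subtype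
      = r₀.map (h67i_e0 M q) := by
    rw [← hr', Polynomial.map_map, Polynomial.map_map]
    congr 1
  have e1 : (r.map (h59y_e1 A M hq hM hA)).map
      (h62rChart A (M * q * q) (jB (M * q * q))).subtype = r₀.map (h67i_e1 M q) := by
    rw [← hr', Polynomial.map_map, Polynomial.map_map]
    congr 1
  refine ⟨r, ?_, fun n => ?_, ?_, ?_, ?_, ?_, ?_⟩
  · rw [← Polynomial.natDegree_map_eq_of_injective hinj r, hr']
    exact hdeg
  · have h1 := hr₀rat n
    rw [← hr', Polynomial.coeff_map] at h1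
    exact h1
  · apply Subtype.ext
    rw [h80x_coe_eval, h80q_G_map, h80q_G_eval, eα]
    exact hR1
  · apply Subtype.ext
    rw [h80x_coe_eval, h80q_G_map, h80q_G_eval, eβ]
    exact hR2
  · apply Subtype.ext
    rw [h80x_coe_eval, h80q_G_map, h80q_G_eval, e0]
    exact hS1
  · apply Subtype.ext
    rw [h80x_coe_eval, h80q_G_map, h80q_G_eval, e1]
    exact hS2
  · apply Subtype.ext
    rw [h80x_coe_eval, h80q_G_map, h80q_G_eval, e1]
    exact hS3

end Rel

/-! ## R-GEN in chart form, and the local parameter -/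

section Gen

variable (A : ValuationSubring Kbar) {M q : ℕ} [NeZero M] [NeZero q]

/-- **R-GEN in chart form** (helper40's `h40g_gen_jB`). -/
theorem h80x_hfrac (hq : q.Prime) (hM : ¬ q ∣ M) (hA : A.LiesOverPrime q)
    (u : h62rChart A M (jB M)) (hu : (u : FF M) ∉ Set.range (cst M))
    (x : h62rChart A (M * q * q) (jB (M * q * q))) :
    ∃ (Q : (h62rChart A (M * q) (jSS M q))[X]) (t : h62rChart A (M * q) (jSS M q)), t ≠ 0 ∧
      h59y_a2 A M t * x = (Q.map (h59y_a2 A M)).eval (h59y_e2 A M hq hM hA u) := by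
  obtain ⟨P, s, hs0, hs, hP, hdeg, h⟩ := h40g_gen_jB M q A hq hM (u : FF M)
    (h62r_mem_chart.mp u.2).2 hu (x : FF (M * q * q)) (h62r_mem_chart.mp x.2).2
  have hj : jSS M q = jB (M * q) := h59y_jSS_eq M
  rw [← hj] at hs hP
  have hlift : P ∈ Polynomial.lifts (h62rChart A (M * q) (jSS M q)).subtype := by
    rw [Polynomial.lifts_iff_coeff_lifts]
    intro n
    exact ⟨⟨P.coeff n, hP n⟩, rfl⟩
  obtain ⟨Q, hQ⟩ := hlift
  have hQ' : Q.map (h62rChart A (M * q) (jSS M q)).subtype = P := hQ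
  refine ⟨Q, ⟨s, hs⟩, ?_, ?_⟩
  · intro h0
    apply hs0
    exact congrArg Subtype.val h0
  · apply Subtype.ext
    rw [h80x_coe_eval]
    have e : (Q.map (h59y_a2 A M)).map (h62rChart A (M * q * q) (jB (M * q * q))).subtype
        = P.map (h40gA (M * q) q) := by
      rw [← hQ', Polynomial.map_map, Polynomial.map_map]
      congr 1
    rw [e, Polynomial.eval_map]
    exact h

/-- **a non-constant rational local parameter.** -/
theorem h80x_param (𝔰 : Ideal (h62rChart A M (jB M)))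
    (hq𝔰 : (q : h62rChart A M (jB M)) ∈ 𝔰)
    (u₀ : h62rChart A M (jB M)) (hrat : IsRat (u₀ : FF M)) (hu₀ : u₀ ∈ 𝔰)
    (hgen : h62rLocGen 𝔰 (Ideal.span {(q : h62rChart A M (jB M)), u₀})) :
    ∃ u : h62rChart A M (jB M), IsRat (u : FF M) ∧ (u : FF M) ∉ Set.range (cst M) ∧ u ∈ 𝔰 ∧
      h62rLocGen 𝔰 (Ideal.span {(q : h62rChart A M (jB M)), u}) := by
  by_cases hc : (u₀ : FF M) ∈ Set.range (cst M)
  · obtain ⟨c, hc⟩ := hc
    let J : h62rChart A M (jB M) := ⟨jB M, h62r_mem_chart.mpr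
      ⟨Fermat.Agent.Red.ModelO.h85_self_mem_modelAt M A (jB M),
        fun σ _ => Fermat.Agent.S37.GalI.gal_smul_jB σ⟩⟩
    have hq0 : ((q : ℕ) : FF M) ≠ 0 := Nat.cast_ne_zero.mpr (NeZero.ne q)
    refine ⟨u₀ + (q : h62rChart A M (jB M)) * J, ?_, ?_, ?_, ?_⟩
    · have h1 : (u₀ : FF M) ∈ h53d_F0 M ⊤ :=
        fun σ _ => (Fermat.Agent.Red.GV.Soft.isRat_iff_gal_fixed M _).mp hrat σ
      have h2 : jB M ∈ h53d_F0 M ⊤ := fun σ _ => Fermat.Agent.S37.GalI.gal_smul_jB σ
      have h3 : (u₀ : FF M) + ((q : ℕ) : FF M) * jB M ∈ h53d_F0 M ⊤ :=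
        (h53d_F0 M ⊤).add_mem h1 ((h53d_F0 M ⊤).mul_mem (natCast_mem _ q) h2)
      exact (Fermat.Agent.Red.GV.Soft.isRat_iff_gal_fixed M _).mpr
        fun σ => h3 σ (Subgroup.mem_top σ)
    · rintro ⟨c', hc'⟩
      apply h40g_jB_not_cst M
      refine ⟨(c' - c) / ((q : ℕ) : Kbar), ?_⟩
      have h1 : (cst M c' : FF M) = (u₀ : FF M) + ((q : ℕ) : FF M) * jB M := hc'
      have hqK : ((q : ℕ) : Kbar) ≠ 0 := Nat.cast_ne_zero.mpr (NeZero.ne q)
      have h2 : ((q : ℕ) : FF M) * jB M = cst M c' - cst M c := by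
        rw [h1, hc]; ring
      have h3 : cst M ((q : ℕ) : Kbar) = ((q : ℕ) : FF M) := map_natCast _ q
      have h4 : cst M ((c' - c) / ((q : ℕ) : Kbar)) * ((q : ℕ) : FF M) = jB M * ((q : ℕ) : FF M) := by
        rw [← h3, ← map_mul, div_mul_cancel₀ _ hqK, map_sub, ← h2, h3]
        ring
      exact mul_right_cancel₀ hq0 h4
    · exact 𝔰.add_mem hu₀ (𝔰.mul_mem_right _ hq𝔰)
    · intro z hz
      obtain ⟨s, hs, hsz⟩ := hgen z hz
      refine ⟨s, hs, ?_⟩
      have hle : Ideal.span {(q : h62rChart A M (jB M)), u₀} ≤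
          Ideal.span {(q : h62rChart A M (jB M)), u₀ + (q : h62rChart A M (jB M)) * J} := by
        rw [Ideal.span_le]
        intro w hw
        rcases hw with hw | hw
        · rw [hw]
          exact Ideal.subset_span (Set.mem_insert _ _)
        · rw [Set.mem_singleton_iff] at hw
          have h1 : u₀ = (u₀ + (q : h62rChart A M (jB M)) * J)
              - J * (q : h62rChart A M (jB M)) := by ring
          have h2 : (u₀ + (q : h62rChart A M (jB M)) * J) - J * (q : h62rChart A M (jB M)) ∈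
              Ideal.span {(q : h62rChart A M (jB M)),
                u₀ + (q : h62rChart A M (jB M)) * J} :=
            Ideal.sub_mem _ (Ideal.subset_span (Set.mem_insert_of_mem _ rfl))
              (Ideal.mul_mem_left _ _ (Ideal.subset_span (Set.mem_insert _ _)))
          rw [← h1] at h2
          rw [hw]
          exact h2
      exact hle hsz
  · exact ⟨u₀, hrat, hc, hu₀, hgen⟩

end Gen

end Fermat.Agent.S36
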