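import Fermat.Agent.S36.H12TorUniq
import Fermat.Agent.S36.H67Tower
import Fermat.Agent.S36.H80FinBase
import Fermat.Agent.S36.H40FinNode
import Fermat.Agent.S36.H60L1Final
import Fermat.Agent.S36.H71TorExp
import Fermat.Agent.S36.H62FinIface

/-!
# S36, rows R-TOWER-SS / T-UNIT / T-NORM (helper12): the tower over a node, instantiated

`h67t_tower` (helper67, abstract) at `ι = α₂ : chart₀(M q) → chart₀(M q²)` with
`X₁ = α u`, `Y₁ = β u`, `Z = e₂ u` (`u` the rational coordinate of the node datum), the rational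
Kronecker remainder of helper80 (`h80x_relations`), R-GEN of helper40 (`h80x_hfrac`), the
dimension witness `h62m_L1Dim`.

* `h12x_tower_hom` : `h67t_tower` in ring-homomorphism form.
* `h12x_tower_node` : the full conclusion at a point over a node.
* `h12x_towerUniq : H12TowerUniq`, `h12x_towerGen : H71TowerGen`, `h12x_finNode : H62FinNode`.
* `h12x_torUnit : H11TorUnit` (leaf T-UNIT, unconditional).
-/

set_option autoImplicit false
set_option linter.unusedSectionVars false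
set_option linter.style.haveILetI false
set_option linter.style.longLine false
set_option linter.unusedVariables false

open AlgebraicCurve ModularCurve IsLocalRing Polynomial

noncomputable section

namespace Fermat.Agent.S36

open Fermat.Agent.S37 Fermat.Agent.Red.GG Fermat.Agent.LGC Fermat.Agent.Red.Kron

section HomForm

variable {F : Type*} [Field F] {C1 : Type*} [CommRing C1] [IsDomain C1] [IsNoetherianRing C1]

/-- **the tower over a node, ring-homomorphism form** (`h67t_tower` for a subring `C` of `F`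
and an injective integral `ι : C1 →+* C`). -/
theorem h12x_tower_hom (C : Subring F) (ι : C1 →+* C) (hι : Function.Injective ι)
    (hint : ι.IsIntegral)
    (𝔫 : Ideal C) [h𝔫 : 𝔫.IsMaximal]
    (q : ℕ) (hq2 : 2 ≤ q) (hq𝔫 : (q : C) ∈ 𝔫)
    (X1 Y1 ρ : C1) (hX1 : ι X1 ∈ 𝔫) (hY1 : ι Y1 ∈ 𝔫) (hρ : ι ρ ∉ 𝔫)
    (hgen1 : ∀ b : C1, ι b ∈ 𝔫 → ∃ t : C1, ι t ∉ 𝔫 ∧ t * b ∈ Ideal.span {X1, Y1})
    (P : Ideal C1) [hP : P.IsPrime] (hP0 : P ≠ ⊥) (hP𝔫 : ∀ b ∈ P, ι b ∈ 𝔫)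
    (hPne : ∃ b, ι b ∈ 𝔫 ∧ b ∉ P)
    (hf : (Y1 - X1 ^ q) * (Y1 ^ q - X1) + (q : C1) * ρ = 0)
    (s : C1[X]) (hsdeg : s.natDegree ≤ q)
    (hGX : (X1 - Y1 ^ q) * (X1 ^ q - Y1) + (q : C1) * s.eval X1 = 0)
    (Z : C) (hZX : Z ≠ ι X1)
    (hGZ : (Z - ι Y1 ^ q) * (Z ^ q - ι Y1) + (q : C) * (s.map ι).eval Z = 0)
    (hfrac : ∀ b : C, ∃ (p : C1[X]) (d : C1), d ≠ 0 ∧ ι d * b = (p.map ι).eval Z) :
    Z ∈ 𝔫 ∧
    (∀ z ∈ 𝔫, ∃ t, t ∉ 𝔫 ∧ t * z ∈ Ideal.span {ι X1, Z}) ∧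
    (∀ 𝔫' : Ideal C, 𝔫'.IsMaximal → 𝔫'.comap ι = 𝔫.comap ι → 𝔫' = 𝔫) ∧
    (∀ b : C, ∃ (p : C1[X]) (d : C1), ι d ∉ 𝔫 ∧ ι d * b = (p.map ι).eval Z) := by
  letI : Algebra C1 F := (C.subtype.comp ι).toAlgebra
  have hC1 : Function.Injective (algebraMap C1 F) := Subtype.val_injective.comp hι
  have hC : Function.Injective (algebraMap C F) := Subtype.val_injective
  have hint' : ∀ b : C, IsIntegral C1 (algebraMap C F b) := by
    intro b
    obtain ⟨p, hp, h0⟩ := hint b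
    refine ⟨p, hp, ?_⟩
    have h1 := congrArg C.subtype h0
    rw [Polynomial.hom_eval₂, map_zero] at h1
    exact h1
  exact h67t_tower (F := F) hC1 hC ι (fun b => rfl) hint' 𝔫 q hq2 hq𝔫 X1 Y1 ρ hX1 hY1 hρ hgen1
    P hP0 hP𝔫 hPne hf s hsdeg hGX Z hZX hGZ hfrac

end HomForm

section Node

variable (A : ValuationSubring Kbar) {M q : ℕ} [NeZero M] [NeZero q]

set_option maxHeartbeats 1600000 in
/-- **the tower over a node** (full conclusion, chart vocabulary, `ι = h59y_a2`). -/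
theorem h12x_tower_node (hq : q.Prime) (hM : ¬ q ∣ M) (haux : auxLevel q ∣ M)
    (hA : A.LiesOverPrime q)
    (𝔫₂ : Ideal (h62rChart A (M * q * q) (jB (M * q * q)))) (h𝔫₂ : 𝔫₂.IsMaximal)
    (hq𝔫₂ : (q : h62rChart A (M * q * q) (jB (M * q * q))) ∈ 𝔫₂)
    (hnode : H62NodeDatum A M hq hM hA (𝔫₂.comap (h59y_a2 A M))) :
    ∃ u : h62rChart A M (jB M), IsRat (u : FF M) ∧
      h62rAlpha A M u ∈ 𝔫₂.comap (h59y_a2 A M) ∧
      h62rBeta A M hq hM hA u ∈ 𝔫₂.comap (h59y_a2 A M) ∧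
      h59y_e2 A M hq hM hA u ∈ 𝔫₂ ∧
      (∀ z ∈ 𝔫₂, ∃ t, t ∉ 𝔫₂ ∧
        t * z ∈ Ideal.span {h59y_a2 A M (h62rAlpha A M u), h59y_e2 A M hq hM hA u}) ∧
      (∀ 𝔫' : Ideal (h62rChart A (M * q * q) (jB (M * q * q))), 𝔫'.IsMaximal →
        𝔫'.comap (h59y_a2 A M) = 𝔫₂.comap (h59y_a2 A M) → 𝔫' = 𝔫₂) ∧
      (∀ b : h62rChart A (M * q * q) (jB (M * q * q)),
        ∃ (p : (h62rChart A (M * q) (jSS M q))[X]) (d : h62rChart A (M * q) (jSS M q)),
          h59y_a2 A M d ∉ 𝔫₂ ∧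
          h59y_a2 A M d * b = (p.map (h59y_a2 A M)).eval (h59y_e2 A M hq hM hA u)) ∧
      (h59y_a2 A M (h62rBeta A M hq hM hA u) - h59y_a2 A M (h62rAlpha A M u) ^ q) *
        (h59y_a2 A M (h62rBeta A M hq hM hA u) ^ q - h59y_a2 A M (h62rAlpha A M u))
          ∈ Ideal.span {(q : h62rChart A (M * q * q) (jB (M * q * q)))} ∧
      (h59y_e2 A M hq hM hA u - h59y_a2 A M (h62rBeta A M hq hM hA u) ^ q) *
        (h59y_e2 A M hq hM hA u ^ q - h59y_a2 A M (h62rBeta A M hq hM hA u))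
          ∈ Ideal.span {(q : h62rChart A (M * q * q) (jB (M * q * q)))} := by
  obtain ⟨h𝔫₁, hq₁⟩ := h59y_comap_a2 A M 𝔫₂ h𝔫₂ hq𝔫₂
  haveI h𝔫₁p : (𝔫₂.comap (h59y_a2 A M)).IsPrime := h𝔫₁.isPrime
  obtain ⟨u, hurat, hunc, hX, hY, ⟨ρ, hρ, hrel⟩, hgen⟩ :=
    h40x_node_not_cst A M hq hM hA _ h𝔫₁p hnode
  obtain ⟨r, hdeg, -, -, hR2, -, -, hR4⟩ := h80x_relations A hq hM hA u hurat
  obtain ⟨P, hP, hP0, hPle, hPne, -⟩ := h62m_L1Dim q hq M hM haux A hA _ h𝔫₁ hq₁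
  haveI : IsNoetherianRing (h62rChart A (M * q) (jSS M q)) :=
    h59n_isNoetherianRing_chart (N := M * q) A hq hA (jSS M q) (Or.inl (h59y_jSS_eq M))
  haveI := h𝔫₂
  haveI := hP
  -- the relations in the shape of the tower
  have hGX : (h62rAlpha A M u - h62rBeta A M hq hM hA u ^ q) *
      (h62rAlpha A M u ^ q - h62rBeta A M hq hM hA u)
      + (q : h62rChart A (M * q) (jSS M q)) *
        (r.map (h62rBeta A M hq hM hA)).eval (h62rAlpha A M u) = 0 := by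
    rw [← h80q_G_eval]
    exact hR2
  have hGZ : (h59y_e2 A M hq hM hA u - h59y_a2 A M (h62rBeta A M hq hM hA u) ^ q) *
      (h59y_e2 A M hq hM hA u ^ q - h59y_a2 A M (h62rBeta A M hq hM hA u))
      + (q : h62rChart A (M * q * q) (jB (M * q * q))) *
        ((r.map (h62rBeta A M hq hM hA)).map (h59y_a2 A M)).eval (h59y_e2 A M hq hM hA u)
        = 0 := by
    rw [← h80q_G_eval, Polynomial.map_map]
    exact hR4
  have hne : h59y_e2 A M hq hM hA u ≠ h59y_a2 A M (h62rAlpha A M u) := by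
    intro h
    apply h40g_Z_not_mem_range M q hq hM (u : FF M) hunc
    exact ⟨heckeAlphaBar Kbar M q (u : FF M), (congrArg Subtype.val h).symm⟩
  have hgen1 : ∀ b : h62rChart A (M * q) (jSS M q), h59y_a2 A M b ∈ 𝔫₂ →
      ∃ t : h62rChart A (M * q) (jSS M q), h59y_a2 A M t ∉ 𝔫₂ ∧
        t * b ∈ Ideal.span {h62rAlpha A M u, h62rBeta A M hq hM hA u} := by
    intro b hb
    obtain ⟨t, ht, htb⟩ := hgen b (Ideal.mem_comap.mpr hb)
    exact ⟨t, fun h => ht (Ideal.mem_comap.mpr h), htb⟩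
  have hPne' : ∃ b, h59y_a2 A M b ∈ 𝔫₂ ∧ b ∉ P := by
    by_contra hcon
    apply hPne
    apply le_antisymm hPle
    intro b hb
    by_contra hbP
    exact hcon ⟨b, Ideal.mem_comap.mp hb, hbP⟩
  obtain ⟨h1, h2, h3, h4⟩ := h12x_tower_hom (F := FF (M * q * q))
    (h62rChart A (M * q * q) (jB (M * q * q))) (h59y_a2 A M) (h59y_a2_injective A M)
    (h59y_a2_isIntegral A M) 𝔫₂ q hq.two_le hq𝔫₂
    (h62rAlpha A M u) (h62rBeta A M hq hM hA u) ρ
    (Ideal.mem_comap.mp hX) (Ideal.mem_comap.mp hY) (fun h => hρ (Ideal.mem_comap.mpr h))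
    hgen1 P hP0 (fun b hb => Ideal.mem_comap.mp (hPle hb)) hPne' hrel
    (r.map (h62rBeta A M hq hM hA)) (natDegree_map_le.trans hdeg) hGX
    (h59y_e2 A M hq hM hA u) hne hGZ (h80x_hfrac A hq hM hA u hunc)
  refine ⟨u, hurat, hX, hY, h1, h2, h3, h4, ?_, ?_⟩
  · rw [Ideal.mem_span_singleton']
    refine ⟨- h59y_a2 A M ρ, ?_⟩
    have h5 := congrArg (h59y_a2 A M) hrel
    rw [map_add, map_mul, map_mul, map_sub, map_sub, map_pow, map_pow, map_natCast,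
      map_zero] at h5
    linear_combination - h5
  · rw [Ideal.mem_span_singleton']
    refine ⟨- ((r.map (h62rBeta A M hq hM hA)).map (h59y_a2 A M)).eval
      (h59y_e2 A M hq hM hA u), ?_⟩
    linear_combination - hGZ

end Node

/-! ## The frozen Props -/

/-- **tower uniqueness** (`H12TowerUniq`, unconditional). -/
theorem h12x_towerUniq : H12TowerUniq := by
  intro q hq M _ hM haux
  haveI : NeZero q := ⟨hq.ne_zero⟩
  intro A hA 𝔫₂ h𝔫₂ hq𝔫₂ hnode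
  rw [h80i_A2_eq] at hnode ⊢
  obtain ⟨u, -, -, -, -, -, h3, -⟩ := h12x_tower_node A hq hM haux hA 𝔫₂ h𝔫₂ hq𝔫₂ hnode
  exact h3

/-- **tower generation** (`H71TowerGen`, unconditional). -/
theorem h12x_towerGen : H71TowerGen := by
  intro q hq M _ hM haux
  haveI : NeZero q := ⟨hq.ne_zero⟩
  intro A hA 𝔫₂ h𝔫₂ hq𝔫₂ hnode
  rw [h80i_A2_eq] at hnode ⊢
  obtain ⟨u, hurat, hX, hY, hZ, -, -, h4, -⟩ :=
    h12x_tower_node A hq hM haux hA 𝔫₂ h𝔫₂ hq𝔫₂ hnode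
  exact ⟨u, hurat, hX, hY, h59y_e2 A M hq hM hA u, h59y_coe_e2 A M hq hM hA u, hZ, h4⟩

/-- **R-TOWER-SS** (`H62FinNode`, unconditional): the triple datum at a point over a node. -/
theorem h12x_finNode : H62FinNode := by
  intro q hq M _ hM haux
  haveI : NeZero q := ⟨hq.ne_zero⟩
  intro A hA 𝔫₂ h𝔫₂ hq𝔫₂ hnode
  rw [h80i_A2_eq] at hnode
  obtain ⟨u, hurat, hX, hY, hZ, h2, -, -, hr1, hr2⟩ :=
    h12x_tower_node A hq hM haux hA 𝔫₂ h𝔫₂ hq𝔫₂ hnode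
  exact Or.inl ⟨h59y_a2 A M (h62rAlpha A M u), h59y_a2 A M (h62rBeta A M hq hM hA u),
    h59y_e2 A M hq hM hA u, Ideal.mem_comap.mp hX, hZ, h2, hr1, hr2⟩

/-- **T-UNIT** (`H11TorUnit`, unconditional). -/
theorem h12x_torUnit : H11TorUnit :=
  h12w_torUnit_of h60r_H62L1 h12x_towerUniq

end Fermat.Agent.S36
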