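import Fermat.Agent.S36.H53DescIface
import Fermat.Agent.S24.DegLe
import Fermat.Agent.Jac.Desc0Core

/-!
# S36, block GATE / REG-BASE (helper13): `F₀ = FF N ^ I` is finite over `K₀(j)`

`I` any subgroup of `G_ℚ`, `K₀ = ℚ̄ ^ I`, `F₀ = h53d_F0 N I` the `I`-invariant functions,
`h13gE0 N I = K₀(j)` (the subfield of `FF N` generated by the constants of `K₀` and `j`).

* `h13g_coeff_mem` : the `q`-expansion coefficients of an `I`-invariant function lie in `K₀`.
* `h13g_functional` : **linear disjointness** of `F₀` and `ℚ̄` over `K₀`, functional form: a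
  `ℚ̄`-linear relation between elements of `F₀` stays a relation if a `K₀`-linear functional
  `ℚ̄ → K₀` is applied to the coefficients.
* `h13g_span_top` : `F₀` spans `FF N` over `ℚ̄(j)`.
* `h13g_F0_finite` : **there is a finite subset `T` of `F₀` such that every element of `F₀` is
  a `K₀(j)`-linear combination of `T`.**

Consumers: finiteness / noetherianity of the charts over `A₀[j]` (trace dual basis,
`Red/ModelO/FiniteVal.lean` over `O = A₀`), Dedekind property of the generic fibre.
-/

set_option autoImplicit false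
set_option linter.unusedSectionVars false

open AlgebraicCurve ModularCurve Polynomial IntermediateField

noncomputable section

namespace Fermat.Agent.S36

open Fermat.Agent.S37 (Kbar GQ FF cst gal jB)

variable (N : ℕ) (I : Subgroup GQ)

/-- `K₀(j)`: the subfield of `FF N` generated by the `I`-fixed constants and `j`. -/
def h13gE0 [NeZero N] : Subfield (FF N) :=
  Subfield.closure ((fun a : Kbar => cst N a) '' {a | ∀ σ ∈ I, σ a = a} ∪ {jB N})

variable {N I}

/-- the `q`-expansion coefficients of an `I`-invariant function are `I`-fixed. -/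
theorem h13g_coeff_mem {x : FF N} (hx : x ∈ h53d_F0 N I) (n : ℤ) :
    (x : LaurentSeries Kbar).coeff n ∈ IntermediateField.fixedField I := by
  rw [IntermediateField.mem_fixedField_iff]
  intro σ hσ
  have h1 := congrArg (fun z : FF N => (z : LaurentSeries Kbar).coeff n) (hx σ hσ)
  simp only [coe_arithmeticGalois_smul, coeffMap_coeff] at h1
  exact h1

theorem h13g_coe_cst_mul (c : Kbar) (x : FF N) (n : ℤ) :
    ((cst N c * x : FF N) : LaurentSeries Kbar).coeff n =
      c * (x : LaurentSeries Kbar).coeff n := by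
  have h1 : ((cst N c * x : FF N) : LaurentSeries Kbar) =
      HahnSeries.C c * (x : LaurentSeries Kbar) := by
    rw [MulMemClass.coe_mul]
    congr 1
    show algebraMap Kbar (LaurentSeries Kbar) c = _
    rw [algebraMap_laurentSeries_eq_single]
    rfl
  rw [h1, Fermat.Agent.Jac.h49_coeff_C_mul]

theorem h13g_coe_sum {P : Type*} (s : Finset P) (f : P → FF N) (n : ℤ) :
    ((∑ p ∈ s, f p : FF N) : LaurentSeries Kbar).coeff n =
      ∑ p ∈ s, ((f p : FF N) : LaurentSeries Kbar).coeff n := by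
  classical
  induction s using Finset.induction_on with
  | empty => simp
  | insert a s ha ih =>
    rw [Finset.sum_insert ha, Finset.sum_insert ha, ← ih]
    rfl

/-- **linear disjointness, functional form.** -/
theorem h13g_functional {P : Type*} (s : Finset P) (g : P → Kbar) (y : P → FF N)
    (hy : ∀ p ∈ s, y p ∈ h53d_F0 N I) (h : ∑ p ∈ s, cst N (g p) * y p = 0)
    (lam : Kbar →ₗ[IntermediateField.fixedField I] IntermediateField.fixedField I) :
    ∑ p ∈ s, cst N ((lam (g p) : IntermediateField.fixedField I) : Kbar) * y p = 0 := by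
  classical
  apply Subtype.ext
  ext n
  rw [h13g_coe_sum]
  simp only [h13g_coe_cst_mul]
  have h0 : ∑ p ∈ s, g p * ((y p : FF N) : LaurentSeries Kbar).coeff n = 0 := by
    have h1 := congrArg (fun z : FF N => (z : LaurentSeries Kbar).coeff n) h
    simp only [h13g_coe_sum, h13g_coe_cst_mul] at h1
    exact h1
  -- the coefficients as elements of `K₀`
  set κ : P → IntermediateField.fixedField I := fun p =>
    if hp : p ∈ s then ⟨((y p : FF N) : LaurentSeries Kbar).coeff n, h13g_coeff_mem (hy p hp) n⟩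
    else 0 with hκ
  have hκs : ∀ p ∈ s, ((κ p : IntermediateField.fixedField I) : Kbar) =
      ((y p : FF N) : LaurentSeries Kbar).coeff n := by
    intro p hp
    simp only [hκ, dif_pos hp]
  have h2 : ∑ p ∈ s, κ p • g p = 0 := by
    rw [← h0]
    refine Finset.sum_congr rfl fun p hp => ?_
    rw [Algebra.smul_def, mul_comm, ← hκs p hp]
    rfl
  have h3 : ∑ p ∈ s, κ p * lam (g p) = 0 := by
    have := congrArg lam h2
    rw [map_sum, map_zero] at this
    rw [← this]
    refine Finset.sum_congr rfl fun p _ => ?_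
    rw [map_smul, smul_eq_mul]
  have h4 := congrArg (fun z : IntermediateField.fixedField I => (z : Kbar)) h3
  simp only [AddSubmonoidClass.coe_finsetSum, MulMemClass.coe_mul, ZeroMemClass.coe_zero] at h4
  show _ = (0 : LaurentSeries Kbar).coeff n
  rw [HahnSeries.coeff_zero, ← h4]
  refine Finset.sum_congr rfl fun p hp => ?_
  rw [hκs p hp, mul_comm]

/-! ## `F₀` spans `FF N` over `ℚ̄(j)` -/

section Span

variable [NeZero N]

theorem h13g_coeffEmb_mem_F0 {f : LaurentSeries ℚ} (hf : f ∈ modularFunctionFieldFull N) :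
    (⟨coeffEmb Kbar f, coeffEmb_mem_laurentBaseChange Kbar hf⟩ : FF N) ∈ h53d_F0 N I := by
  intro σ _
  apply Subtype.ext
  rw [coe_arithmeticGalois_smul]
  exact coeffMap_coeffEmb σ f

theorem h13g_jB_mem_F0 : jB N ∈ h53d_F0 N I := by
  intro σ _
  apply Subtype.ext
  rw [coe_arithmeticGalois_smul]
  exact coeffMap_coeffEmb σ jq

theorem h13g_inv_mem_aux {K L : Type*} [Field K] [Field L] [Algebra K L] (A : Subalgebra K L)
    {x : L} (hx : IsAlgebraic K x) (hxA : x ∈ A) : x⁻¹ ∈ A :=
  Subalgebra.inv_mem_of_algebraic (A := A) (x := ⟨x, hxA⟩) hx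

theorem h13g_adjoin_top :
    Algebra.adjoin Kbar⟮jB N⟯ (h53d_F0 N I : Set (FF N)) = ⊤ := by
  have hfd : FiniteDimensional Kbar⟮jB N⟯ (FF N) := (Fermat.Agent.S24.finrank_le_index N).1
  have halg : Algebra.IsAlgebraic Kbar⟮jB N⟯ (FF N) := Algebra.IsAlgebraic.of_finite _ _
  set SA := Algebra.adjoin Kbar⟮jB N⟯ (h53d_F0 N I : Set (FF N)) with hSA
  have key : ∀ y : LaurentSeries Kbar,
      y ∈ Subfield.closure (Set.range (algebraMap Kbar (LaurentSeries Kbar)) ∪
          (⇑(coeffEmb Kbar) '' (modularFunctionFieldFull N : Set (LaurentSeries ℚ)))) →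
      ∀ h : y ∈ modularFunctionFieldBar N, (⟨y, h⟩ : FF N) ∈ SA := by
    intro y hy
    induction hy using Subfield.closure_induction with
    | mem y hy =>
      intro h
      rcases hy with ⟨c, rfl⟩ | ⟨f, hf, rfl⟩
      · have e : (⟨algebraMap Kbar (LaurentSeries Kbar) c, h⟩ : FF N) =
            algebraMap Kbar⟮jB N⟯ (FF N) (algebraMap Kbar Kbar⟮jB N⟯ c) := rfl
        rw [e]
        exact SA.algebraMap_mem _
      · exact Algebra.subset_adjoin (h13g_coeffEmb_mem_F0 hf)
    | one =>
      intro h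
      have e : (⟨1, h⟩ : FF N) = 1 := rfl
      rw [e]
      exact SA.one_mem
    | add x y hx hy ihx ihy =>
      intro h
      have hx' : x ∈ modularFunctionFieldBar N := mem_laurentBaseChange_iff.mpr hx
      have hy' : y ∈ modularFunctionFieldBar N := mem_laurentBaseChange_iff.mpr hy
      have e : (⟨x + y, h⟩ : FF N) = (⟨x, hx'⟩ : FF N) + ⟨y, hy'⟩ := rfl
      rw [e]
      exact SA.add_mem (ihx hx') (ihy hy')
    | neg x hx ihx =>
      intro h
      have hx' : x ∈ modularFunctionFieldBar N := mem_laurentBaseChange_iff.mpr hx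
      have e : (⟨-x, h⟩ : FF N) = -(⟨x, hx'⟩ : FF N) := rfl
      rw [e]
      exact SA.neg_mem (ihx hx')
    | inv x hx ihx =>
      intro h
      have hx' : x ∈ modularFunctionFieldBar N := mem_laurentBaseChange_iff.mpr hx
      have e : (⟨x⁻¹, h⟩ : FF N) = (⟨x, hx'⟩ : FF N)⁻¹ := rfl
      rw [e]
      exact h13g_inv_mem_aux SA (halg.isAlgebraic _) (ihx hx')
    | mul x y hx hy ihx ihy =>
      intro h
      have hx' : x ∈ modularFunctionFieldBar N := mem_laurentBaseChange_iff.mpr hx
      have hy' : y ∈ modularFunctionFieldBar N := mem_laurentBaseChange_iff.mpr hy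
      have e : (⟨x * y, h⟩ : FF N) = (⟨x, hx'⟩ : FF N) * ⟨y, hy'⟩ := rfl
      rw [e]
      exact SA.mul_mem (ihx hx') (ihy hy')
  refine eq_top_iff.mpr fun x _ => ?_
  exact key x.1 (mem_laurentBaseChange_iff.mp x.2) x.2

/-- `F₀` spans `FF N` over `ℚ̄(j)`. -/
theorem h13g_span_top :
    Submodule.span Kbar⟮jB N⟯ (h53d_F0 N I : Set (FF N)) = ⊤ := by
  have h1 := Algebra.adjoin_eq_span (R := Kbar⟮jB N⟯) (s := (h53d_F0 N I : Set (FF N)))
  have h2 : (Submonoid.closure (h53d_F0 N I : Set (FF N)) : Set (FF N)) =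
      (h53d_F0 N I : Set (FF N)) := by
    have := Submonoid.closure_eq (h53d_F0 N I).toSubring.toSubmonoid
    exact congrArg (fun S : Submonoid (FF N) => (S : Set (FF N))) this
  rw [h2, h13g_adjoin_top] at h1
  rw [← h1]
  rfl

/-- a finite subset of `F₀` spanning `FF N` over `ℚ̄(j)`. -/
theorem h13g_exists_span_finset :
    ∃ T : Finset (FF N), (∀ t ∈ T, t ∈ h53d_F0 N I) ∧
      Submodule.span Kbar⟮jB N⟯ (T : Set (FF N)) = ⊤ := by
  have hfd : FiniteDimensional Kbar⟮jB N⟯ (FF N) := (Fermat.Agent.S24.finrank_le_index N).1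
  have hfg : (Submodule.span Kbar⟮jB N⟯ (h53d_F0 N I : Set (FF N))).FG := by
    rw [h13g_span_top]
    exact Module.finite_def.mp hfd
  obtain ⟨T, hT, hspan⟩ := (Submodule.fg_span_iff_fg_span_finset_subset _).mp hfg
  exact ⟨T, fun t ht => hT ht, by rw [← hspan, h13g_span_top]⟩

end Span

/-! ## Functionals on polynomial coefficients -/

section Twist

variable [NeZero N]

/-- apply the functional `c ↦ lam (a * c)` to the coefficients of a polynomial. -/
def h13gTw (lam : Kbar →ₗ[IntermediateField.fixedField I] IntermediateField.fixedField I)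
    (a : Kbar) (p : Kbar[X]) : Kbar[X] :=
  ∑ k ∈ Finset.range (p.natDegree + 1),
    Polynomial.monomial k ((lam (a * p.coeff k) : IntermediateField.fixedField I) : Kbar)

theorem h13g_tw_coeff
    (lam : Kbar →ₗ[IntermediateField.fixedField I] IntermediateField.fixedField I)
    (a : Kbar) (p : Kbar[X]) (k : ℕ) :
    (h13gTw lam a p).coeff k = ((lam (a * p.coeff k) : IntermediateField.fixedField I) : Kbar) := by
  classical
  rw [h13gTw, Polynomial.finsetSum_coeff]
  simp only [Polynomial.coeff_monomial]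
  rw [Finset.sum_ite_eq' (Finset.range (p.natDegree + 1)) k]
  split_ifs with hk
  · rfl
  · have h1 : p.coeff k = 0 := by
      apply Polynomial.coeff_eq_zero_of_natDegree_lt
      rw [Finset.mem_range] at hk
      omega
    rw [h1, mul_zero, map_zero]
    rfl

theorem h13g_tw_natDegree
    (lam : Kbar →ₗ[IntermediateField.fixedField I] IntermediateField.fixedField I)
    (a : Kbar) (p : Kbar[X]) : (h13gTw lam a p).natDegree ≤ p.natDegree := by
  rw [Polynomial.natDegree_le_iff_coeff_eq_zero]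
  intro k hk
  rw [h13g_tw_coeff, Polynomial.coeff_eq_zero_of_natDegree_lt hk, mul_zero, map_zero]
  rfl

theorem h13g_aeval_mul (p : Kbar[X]) {n : ℕ} (hn : p.natDegree < n) (y : FF N) :
    aeval (jB N) p * y = ∑ k ∈ Finset.range n, cst N (p.coeff k) * (jB N ^ k * y) := by
  rw [Polynomial.aeval_eq_sum_range' hn, Finset.sum_mul]
  refine Finset.sum_congr rfl fun k _ => ?_
  rw [Algebra.smul_def, mul_assoc]

/-- **linear disjointness, polynomial form.** -/
theorem h13g_functional_poly {P : Type*} (s : Finset P) (p : P → Kbar[X]) (y : P → FF N)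
    (hy : ∀ i ∈ s, y i ∈ h53d_F0 N I) (h : ∑ i ∈ s, aeval (jB N) (p i) * y i = 0)
    (lam : Kbar →ₗ[IntermediateField.fixedField I] IntermediateField.fixedField I) (a : Kbar) :
    ∑ i ∈ s, aeval (jB N) (h13gTw lam a (p i)) * y i = 0 := by
  classical
  set n : ℕ := s.sup (fun i => (p i).natDegree) + 1 with hn
  have hdeg : ∀ i ∈ s, (p i).natDegree < n := by
    intro i hi
    have h0 : (p i).natDegree ≤ s.sup (fun i => (p i).natDegree) :=
      Finset.le_sup (f := fun i => (p i).natDegree) hi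
    omega
  have hdeg' : ∀ i ∈ s, (h13gTw lam a (p i)).natDegree < n := fun i hi =>
    lt_of_le_of_lt (h13g_tw_natDegree lam a (p i)) (hdeg i hi)
  have h1 := h13g_functional (I := I) (s ×ˢ Finset.range n)
    (fun ik : P × ℕ => a * (p ik.1).coeff ik.2) (fun ik : P × ℕ => jB N ^ ik.2 * y ik.1)
    (fun ik hik => (h53d_F0 N I).mul_mem ((h53d_F0 N I).pow_mem h13g_jB_mem_F0 _)
      (hy ik.1 (Finset.mem_product.mp hik).1)) ?_ lam
  · rw [Finset.sum_product] at h1
    rw [← h1]
    refine Finset.sum_congr rfl fun i hi => ?_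
    rw [h13g_aeval_mul _ (hdeg' i hi)]
    refine Finset.sum_congr rfl fun k _ => ?_
    rw [h13g_tw_coeff]
  · rw [Finset.sum_product]
    have h2 : ∀ i ∈ s, ∑ k ∈ Finset.range n,
        cst N (a * (p i).coeff k) * (jB N ^ k * y i) = cst N a * (aeval (jB N) (p i) * y i) := by
      intro i hi
      rw [h13g_aeval_mul _ (hdeg i hi), Finset.mul_sum]
      refine Finset.sum_congr rfl fun k _ => ?_
      rw [cst, map_mul]
      ring
    rw [Finset.sum_congr rfl h2, ← Finset.mul_sum, h, mul_zero]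

/-- polynomials in `j` with coefficients in `K₀` lie in `K₀(j)`. -/
theorem h13g_aeval_mem_E0 (p : Kbar[X]) (hp : ∀ k, ∀ σ ∈ I, σ (p.coeff k) = p.coeff k) :
    aeval (jB N) p ∈ h13gE0 N I := by
  rw [Polynomial.aeval_eq_sum_range]
  refine Subfield.sum_mem _ fun k _ => ?_
  rw [Algebra.smul_def]
  refine Subfield.mul_mem _ ?_ (Subfield.pow_mem _ ?_ k)
  · exact Subfield.subset_closure (Or.inl ⟨p.coeff k, hp k, rfl⟩)
  · exact Subfield.subset_closure (Or.inr rfl)

theorem h13g_tw_fixed
    (lam : Kbar →ₗ[IntermediateField.fixedField I] IntermediateField.fixedField I)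
    (a : Kbar) (p : Kbar[X]) (k : ℕ) (σ : GQ) (hσ : σ ∈ I) :
    σ ((h13gTw lam a p).coeff k) = (h13gTw lam a p).coeff k := by
  rw [h13g_tw_coeff]
  exact (IntermediateField.mem_fixedField_iff _ _).mp (lam (a * p.coeff k)).2 σ hσ

end Twist

/-! ## The finite spanning set -/

section Final

variable [NeZero N]

theorem h13g_frac (c : Kbar⟮jB N⟯) : ∃ r s : Kbar[X], aeval (jB N) s ≠ 0 ∧
    (c : FF N) * aeval (jB N) s = aeval (jB N) r := by
  obtain ⟨r, s, h⟩ := (IntermediateField.mem_adjoin_simple_iff Kbar (c : FF N)).mp c.2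
  by_cases hs : aeval (jB N) s = 0
  · refine ⟨0, 1, by simp, ?_⟩
    rw [h, hs, div_zero]
    simp
  · exact ⟨r, s, hs, by rw [h]; field_simp⟩

variable (N I)

/-- **`F₀` is finite over `K₀(j)`**: a finite subset `T` of `F₀` such that every element of
`F₀` is a `K₀(j)`-linear combination of `T`. -/
theorem h13g_F0_finite :
    ∃ T : Finset (FF N), (∀ t ∈ T, t ∈ h53d_F0 N I) ∧
      ∀ x ∈ h53d_F0 N I, ∃ c : FF N → FF N,
        (∀ t, c t ∈ h13gE0 N I) ∧ x = ∑ t ∈ T, c t * t := by
  classical
  obtain ⟨T, hT, hspan⟩ := h13g_exists_span_finset (N := N) (I := I)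
  refine ⟨T, hT, fun x hx => ?_⟩
  have hxs : x ∈ Submodule.span Kbar⟮jB N⟯ (T : Set (FF N)) := by
    rw [hspan]
    trivial
  obtain ⟨c, -, hc⟩ := Submodule.mem_span_finset.mp hxs
  choose r s hs hrs using fun t => h13g_frac (c t)
  obtain ⟨D, hD⟩ : ∃ D : Kbar[X], D = ∏ t ∈ T, s t := ⟨_, rfl⟩
  have hD0 : aeval (jB N) D ≠ 0 := by
    rw [hD, map_prod]
    exact Finset.prod_ne_zero_iff.mpr fun t _ => hs t
  obtain ⟨R, hR⟩ : ∃ R : FF N → Kbar[X], ∀ t, R t = r t * ∏ t' ∈ T.erase t, s t' :=
    ⟨_, fun _ => rfl⟩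
  have hRt : ∀ t ∈ T, aeval (jB N) (R t) = (c t : FF N) * aeval (jB N) D := by
    intro t ht
    have h1 : D = s t * ∏ t' ∈ T.erase t, s t' := by
      rw [hD]
      exact (Finset.mul_prod_erase T s ht).symm
    rw [h1, map_mul, hR, map_mul, ← hrs t]
    ring
  -- the relation over `Option (FF N)`
  obtain ⟨p, hpn, hps⟩ : ∃ p : Option (FF N) → Kbar[X], p none = D ∧ ∀ t, p (some t) = -R t :=
    ⟨fun o => o.elim D (fun t => -R t), rfl, fun _ => rfl⟩
  obtain ⟨y, hyn, hys⟩ : ∃ y : Option (FF N) → FF N, y none = x ∧ ∀ t, y (some t) = t :=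
    ⟨fun o => o.elim x id, rfl, fun _ => rfl⟩
  have hyF : ∀ o ∈ Finset.insertNone T, y o ∈ h53d_F0 N I := by
    intro o ho
    cases o with
    | none => rw [hyn]; exact hx
    | some t =>
      rw [Finset.some_mem_insertNone] at ho
      rw [hys]
      exact hT t ho
  have hrel : ∑ o ∈ Finset.insertNone T, aeval (jB N) (p o) * y o = 0 := by
    rw [Finset.sum_insertNone, hpn, hyn]
    simp only [hps, hys, map_neg, neg_mul]
    rw [Finset.sum_neg_distrib, ← hc, Finset.mul_sum, ← sub_eq_add_neg, ← Finset.sum_sub_distrib]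
    refine Finset.sum_eq_zero fun t ht => ?_
    rw [hRt t ht, Algebra.smul_def]
    have e : algebraMap (↥Kbar⟮jB N⟯) (FF N) (c t) = (c t : FF N) := rfl
    rw [e]
    ring
  -- the functional
  have hDne : D ≠ 0 := by
    rintro h
    rw [h, map_zero] at hD0
    exact hD0 rfl
  obtain ⟨k₀, hk₀⟩ : ∃ k, D.coeff k ≠ 0 := by
    by_contra hcon
    push Not at hcon
    exact hDne (Polynomial.ext fun k => by rw [hcon k, Polynomial.coeff_zero])
  obtain ⟨lam, hlam⟩ := Module.Projective.exists_dual_ne_zero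
    (IntermediateField.fixedField I) (one_ne_zero : (1 : Kbar) ≠ 0)
  obtain ⟨a, ha⟩ : ∃ a : Kbar, a = (D.coeff k₀)⁻¹ := ⟨_, rfl⟩
  have hrel' := h13g_functional_poly (I := I) (Finset.insertNone T) p y hyF hrel lam a
  rw [Finset.sum_insertNone, hpn, hyn] at hrel'
  simp only [hps, hys] at hrel'
  have hD' : aeval (jB N) (h13gTw lam a D) ≠ 0 := by
    intro h0
    have h1 := (transcendental_iff.mp (Fermat.Agent.S24.transcendental_jBar N)) _ h0
    have h2 := congrArg (fun q : Kbar[X] => q.coeff k₀) h1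
    simp only [h13g_tw_coeff, Polynomial.coeff_zero] at h2
    rw [ha, inv_mul_cancel₀ hk₀] at h2
    apply hlam
    exact Subtype.ext h2
  refine ⟨fun t => -(aeval (jB N) (h13gTw lam a (-R t))) * (aeval (jB N) (h13gTw lam a D))⁻¹,
    fun t => ?_, ?_⟩
  · refine Subfield.mul_mem _ (Subfield.neg_mem _ ?_) (Subfield.inv_mem _ ?_)
    · exact h13g_aeval_mem_E0 _ fun k σ hσ => h13g_tw_fixed lam a _ k σ hσ
    · exact h13g_aeval_mem_E0 _ fun k σ hσ => h13g_tw_fixed lam a _ k σ hσ
  · have h3 : ∑ t ∈ T, aeval (jB N) (h13gTw lam a (-R t)) * t =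
        -(aeval (jB N) (h13gTw lam a D) * x) := by
      rw [eq_neg_iff_add_eq_zero, add_comm]
      exact hrel'
    have h4 : ∑ t ∈ T, -(aeval (jB N) (h13gTw lam a (-R t))) *
        (aeval (jB N) (h13gTw lam a D))⁻¹ * t =
        -(aeval (jB N) (h13gTw lam a D))⁻¹ *
          ∑ t ∈ T, aeval (jB N) (h13gTw lam a (-R t)) * t := by
      rw [Finset.mul_sum]
      refine Finset.sum_congr rfl fun t _ => ?_
      ring
    rw [h4, h3]
    field_simp

end Final

end Fermat.Agent.S36
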