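import Fermat.Agent.LGC.GateSSLoc

/-!
# S36, block GATE (helper13): the abstract gate from SEMI-LOCAL data

`h63_gate_asm_loc` (`LGC/GateSSLoc.lean`) asks, at every closed point `𝔫` of the special fibre of
a chart `B`, for `g ∈ 1 + π V` with `w / g ^ r` a unit at `𝔫`; the congruence `g ≡ 1` is GLOBAL
(on all components of the special fibre, also on those which do not pass through `𝔫`).

Here the congruence is only required semi-locally at `𝔫`: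

  `∃ g ≠ 0, ∃ s ∈ B ∖ 𝔫,  s (g - 1) ∈ π V,  s w / g ^ r ∈ B,  s g ^ r / w ∈ B`.

(`s (g - 1) ∈ π V` with `s ∉ 𝔫` says that `g ≡ 1` modulo `π` at the components through `𝔫`.)
This is what local factoriality + the structure of the special fibre at `𝔫` give directly.

* `h13g_exists_e` : the step (E) of the gate with the local hypothesis
  `∃ b ∈ B ∖ 𝔫, ∃ e ∈ L, e - b ∈ 𝔪_V`;
* `h13g_gate_asm_semi` : the abstract gate.

Mathlib + `Red/Gate*.lean` only.  No sections, no rationality of the places: usable over a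
discrete valuation ring with non-rational horizontal points.
-/

set_option autoImplicit false
set_option linter.unusedSectionVars false

open WithZero IsLocalRing

namespace Fermat.Agent.S36

open Fermat.Agent.Red Fermat.Agent.LGC

section E

variable {O F : Type*} [CommRing O] [Field F] [Algebra O F]

/-- **(E)**, general form: if at every maximal ideal `𝔫` of `B` there are `b ∈ B ∖ 𝔫` and
`e ∈ L(B, w)` with `e ≡ b` modulo `𝔪_V`, then `L(B, w)` contains an element `≡ 1`. -/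
theorem h13g_exists_e (B : Subalgebra O F) (w : F) (p : ℕ) (hp0 : 0 < p)
    (hroot : ∀ x : F, x ^ p ∈ B → x ∈ B)
    (mV : AddSubgroup F) (hmV : ∀ b ∈ B, ∀ x ∈ mV, b * x ∈ mV)
    (hloc : ∀ 𝔫 : Ideal B, 𝔫.IsMaximal →
      ∃ b : B, b ∉ 𝔫 ∧ ∃ e : F, e ^ p * w⁻¹ ∈ B ∧ e - (b : F) ∈ mV) :
    ∃ e : F, e ^ p * w⁻¹ ∈ B ∧ e - 1 ∈ mV := by
  set L := h26L B w p hp0 hroot with hL
  let J : Ideal B :=
    { carrier := {b | ∃ e : F, e ∈ L ∧ e - (b : F) ∈ mV}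
      zero_mem' := ⟨0, L.zero_mem, by simp [mV.zero_mem]⟩
      add_mem' := by
        rintro a b ⟨e, he, hea⟩ ⟨e', he', heb⟩
        refine ⟨e + e', L.add_mem he he', ?_⟩
        have : e + e' - ((a + b : B) : F) = (e - (a : F)) + (e' - (b : F)) := by
          push_cast; ring
        rw [this]
        exact mV.add_mem hea heb
      smul_mem' := by
        rintro a b ⟨e, he, heb⟩
        refine ⟨(a : F) * e, h26_mul_mem_L a.2 he, ?_⟩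
        have : (a : F) * e - ((a • b : B) : F) = (a : F) * (e - (b : F)) := by
          rw [smul_eq_mul]; push_cast; ring
        rw [this]
        exact hmV _ a.2 _ heb }
  have hJ : J = ⊤ := by
    by_contra hne
    obtain ⟨𝔫, h𝔫, hle⟩ := Ideal.exists_le_maximal J hne
    obtain ⟨b, hb, e, he, heb⟩ := hloc 𝔫 h𝔫
    exact hb (hle ⟨e, he, heb⟩)
  have h1 : (1 : B) ∈ J := by rw [hJ]; trivial
  obtain ⟨e, he, he1⟩ := h1
  exact ⟨e, he, by simpa using he1⟩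

end E

section Asm

variable {A : Type*} [CommRing A] [IsDomain A] [ValuationRing A]
  {F : Type*} [Field F] [Algebra A F]

/-- the semi-local datum in the form consumed by `h13g_exists_e`. -/
theorem h13g_local_for_e {B : Subalgebra A F} {V : Subring F}
    (harch : ∀ c ∈ maximalIdeal A, c ≠ 0 → ∀ a : A, a ≠ 0 → ∃ k : ℕ, a ∣ c ^ k)
    (π : A) (hπ0 : π ≠ 0) (w : F) (r : ℕ) (hr : 0 < r)
    (hloc : ∀ 𝔫 : Ideal B, 𝔫.IsMaximal → (maximalIdeal A).map (algebraMap A B) ≤ 𝔫 →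
      ∃ g : F, g ≠ 0 ∧ ∃ s : B, s ∉ 𝔫 ∧ (s : F) * (g - 1) ∈ h26mV π V ∧
        (s : F) * (w * (g ^ r)⁻¹) ∈ B ∧ (s : F) * (g ^ r * w⁻¹) ∈ B)
    (𝔫 : Ideal B) (h𝔫 : 𝔫.IsMaximal) :
    ∃ b : B, b ∉ 𝔫 ∧ ∃ e : F, e ^ r * w⁻¹ ∈ B ∧ e - (b : F) ∈ h26mV π V := by
  have := h𝔫.isPrime
  by_cases hπ𝔫 : algebraMap A B π ∈ 𝔫
  · obtain ⟨g, -, s, hs, hsg, -, h2⟩ := hloc 𝔫 h𝔫 (h26_map_le_of_mem harch π hπ0 𝔫 hπ𝔫)
    refine ⟨s, hs, (s : F) * g, ?_, ?_⟩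
    · obtain ⟨r', rfl⟩ : ∃ r', r = r' + 1 := ⟨r - 1, by omega⟩
      have h3 : ((s : F) * g) ^ (r' + 1) * w⁻¹ =
          (s : F) ^ r' * ((s : F) * (g ^ (r' + 1) * w⁻¹)) := by
        rw [mul_pow, pow_succ (s : F)]; ring
      rw [h3]
      exact mul_mem (pow_mem s.2 r') h2
    · have e : (s : F) * g - (s : F) = (s : F) * (g - 1) := by ring
      rw [e]
      exact hsg
  · refine ⟨algebraMap A B π, hπ𝔫, 0, ?_, ?_⟩
    · rw [zero_pow hr.ne', zero_mul]; exact B.zero_mem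
    · rw [zero_sub]
      exact (h26mV π V).neg_mem ⟨1, V.one_mem, by simp⟩

/-- the semi-local datum at the closed points of the special fibre gives the local generation
of `L` at all closed points (form consumed by `h26_L_gen_of_local`). -/
theorem h13g_local_for_L {B : Subalgebra A F} {V : Subring F} {ι : Type*}
    {v : ι → Valuation F ℤᵐ⁰} (hC : H26Chart B V v)
    (harch : ∀ c ∈ maximalIdeal A, c ≠ 0 → ∀ a : A, a ≠ 0 → ∃ k : ℕ, a ∣ c ^ k)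
    (hgen : ∀ 𝔫 : Ideal B, 𝔫.IsMaximal → ¬ (maximalIdeal A).map (algebraMap A B) ≤ 𝔫 →
      ∀ i k, h26Centered B v 𝔫 i → h26Centered B v 𝔫 k → i = k)
    (w : F) (r : ℕ) (hr : 0 < r) (hrw : ∀ i, ∃ n : ℤ, v i w = exp (-((r : ℤ) * n)))
    (π : A)
    (hloc : ∀ 𝔫 : Ideal B, 𝔫.IsMaximal → (maximalIdeal A).map (algebraMap A B) ≤ 𝔫 →
      ∃ g : F, g ≠ 0 ∧ ∃ s : B, s ∉ 𝔫 ∧ (s : F) * (g - 1) ∈ h26mV π V ∧
        (s : F) * (w * (g ^ r)⁻¹) ∈ B ∧ (s : F) * (g ^ r * w⁻¹) ∈ B)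
    (𝔫 : Ideal B) (h𝔫 : 𝔫.IsMaximal) :
    ∃ s : B, s ∉ 𝔫 ∧ ∃ g : F, g ≠ 0 ∧ ((s : F) * g) ^ r * w⁻¹ ∈ B ∧
      ((s : F) * g⁻¹) ^ r * w ∈ B := by
  classical
  have := h𝔫.isPrime
  have key : ∃ g : F, g ≠ 0 ∧ ∃ s : B, s ∉ 𝔫 ∧
      (s : F) * (w * (g ^ r)⁻¹) ∈ B ∧ (s : F) * (g ^ r * w⁻¹) ∈ B := by
    by_cases hle : (maximalIdeal A).map (algebraMap A B) ≤ 𝔫
    · obtain ⟨g, hg0, s, hs, -, h1, h2⟩ := hloc 𝔫 h𝔫 hle
      exact ⟨g, hg0, s, hs, h1, h2⟩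
    · refine h26_local_generic hC 𝔫 ?_ (hgen 𝔫 h𝔫 hle) w r hrw
      intro a ha ha𝔫
      have ha0 : a ≠ 0 := fun h => ha (by rw [h, map_zero])
      apply hle
      rw [Ideal.map_le_iff_le_comap]
      intro m hm
      rw [Ideal.mem_comap]
      by_cases hm0 : m = 0
      · rw [hm0, map_zero]; exact 𝔫.zero_mem
      obtain ⟨k, b, hk⟩ := harch m hm hm0 a ha0
      have h1 : algebraMap A B m ^ k ∈ 𝔫 := by
        rw [← map_pow, hk, map_mul]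
        exact 𝔫.mul_mem_right _ ha𝔫
      exact h𝔫.isPrime.mem_of_pow_mem k h1
  obtain ⟨g, hg0, s, hs, h1, h2⟩ := key
  refine ⟨s, hs, g, hg0, ?_, ?_⟩
  · obtain ⟨r', rfl⟩ : ∃ r', r = r' + 1 := ⟨r - 1, by omega⟩
    have h3 : ((s : F) * g) ^ (r' + 1) * w⁻¹ =
        (s : F) ^ r' * ((s : F) * (g ^ (r' + 1) * w⁻¹)) := by
      rw [mul_pow, pow_succ (s : F)]; ring
    rw [h3]
    exact mul_mem (pow_mem s.2 r') h2
  · obtain ⟨r', rfl⟩ : ∃ r', r = r' + 1 := ⟨r - 1, by omega⟩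
    have h3 : ((s : F) * g⁻¹) ^ (r' + 1) * w =
        (s : F) ^ r' * ((s : F) * (w * (g ^ (r' + 1))⁻¹)) := by
      rw [mul_pow, pow_succ (s : F), inv_pow]; ring
    rw [h3]
    exact mul_mem (pow_mem s.2 r') h1

/-- **Abstract assembly of the gate from semi-local data.** -/
theorem h13g_gate_asm_semi
    (hAF : Function.Injective (algebraMap A F))
    (harch : ∀ c ∈ maximalIdeal A, c ≠ 0 → ∀ a : A, a ≠ 0 → ∃ k : ℕ, a ∣ c ^ k)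
    (V : Subring F)
    (hVnt : ∀ m ∈ maximalIdeal A, ∀ x ∈ V, algebraMap A F m * x ≠ 1)
    (j : F) (hj : j ≠ 0) (B₀ Binf Bm : Subalgebra A F)
    (hj₀ : j ∈ B₀) (hjinf : j⁻¹ ∈ Binf) (h0m : B₀ ≤ Bm) (hinfm : Binf ≤ Bm)
    (hm0 : ∀ x ∈ Bm, ∃ k : ℕ, j ^ k * x ∈ B₀)
    (hminf : ∀ x ∈ Bm, ∃ k : ℕ, j⁻¹ ^ k * x ∈ Binf)
    (r : ℕ) (hr : 0 < r) (hrA : IsUnit (r : A))
    (hroot₀ : ∀ x : F, x ^ r ∈ B₀ → x ∈ B₀)
    (hrootinf : ∀ x : F, x ^ r ∈ Binf → x ∈ Binf)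
    (hrootm : ∀ x : F, x ^ r ∈ Bm → x ∈ Bm)
    (hqepm : ∀ a : A, algebraMap A F a ≠ 0 → ∀ x ∈ V, a • x ∈ Bm → x ∈ Bm)
    {ι₀ ι₁ : Type*} (v₀ : ι₀ → Valuation F ℤᵐ⁰) (v₁ : ι₁ → Valuation F ℤᵐ⁰)
    (hC₀ : H26Chart B₀ V v₀) (hC₁ : H26Chart Binf V v₁)
    (hgen₀ : ∀ 𝔫 : Ideal B₀, 𝔫.IsMaximal → ¬ (maximalIdeal A).map (algebraMap A B₀) ≤ 𝔫 →
      ∀ i k, h26Centered B₀ v₀ 𝔫 i → h26Centered B₀ v₀ 𝔫 k → i = k)
    (S : Finset F) (hS : ∀ s ∈ S, s ∈ B₀)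
    (hfin : ∀ x ∈ B₀, x ∈ Submodule.span A {y : F | ∃ a : ℕ, ∃ s ∈ S, y = j ^ a * s})
    (w : F) (hw0 : w ≠ 0)
    (hrw₀ : ∀ i, ∃ n : ℤ, v₀ i w = exp (-((r : ℤ) * n)))
    (π : A) (hπ : π ∈ maximalIdeal A) (hπ0 : π ≠ 0) (hwU : w ∈ h26U π V)
    (hloc₀ : ∀ 𝔫 : Ideal B₀, 𝔫.IsMaximal → (maximalIdeal A).map (algebraMap A B₀) ≤ 𝔫 →
      ∃ g : F, g ≠ 0 ∧ ∃ s : B₀, s ∉ 𝔫 ∧ (s : F) * (g - 1) ∈ h26mV π V ∧
        (s : F) * (w * (g ^ r)⁻¹) ∈ B₀ ∧ (s : F) * (g ^ r * w⁻¹) ∈ B₀)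
    (hloc₁ : ∀ 𝔫 : Ideal Binf, 𝔫.IsMaximal → (maximalIdeal A).map (algebraMap A Binf) ≤ 𝔫 →
      ∃ g : F, g ≠ 0 ∧ ∃ s : Binf, s ∉ 𝔫 ∧ (s : F) * (g - 1) ∈ h26mV π V ∧
        (s : F) * (w * (g ^ r)⁻¹) ∈ Binf ∧ (s : F) * (g ^ r * w⁻¹) ∈ Binf) :
    ∃ t : F, t ≠ 0 ∧ t ^ r * w⁻¹ ∈ B₀ ∧ t ^ r * w⁻¹ ∈ Binf := by
  classical
  have hAV : ∀ a : A, algebraMap A F a ∈ V := fun a => hC₀.hBV _ (B₀.algebraMap_mem a)
  have hπF : algebraMap A F π ≠ 0 := fun h => hπ0 (hAF (by rw [h, map_zero]))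
  have hVπ : algebraMap A F π ∈ V := hAV π
  have hVinv : ∀ x ∈ V, (1 + algebraMap A F π * x)⁻¹ ∈ V := hC₀.hVunit π hπ
  have hVntπ : ∀ x ∈ V, algebraMap A F π * x ≠ 1 := hVnt π hπ
  -- the elements `e₀`, `e∞`
  have hmVstable : ∀ (B : Subalgebra A F), (∀ x ∈ B, x ∈ V) →
      ∀ b ∈ B, ∀ x ∈ h26mV π V, b * x ∈ h26mV π V := by
    rintro B hBV b hb _ ⟨y, hy, rfl⟩
    exact ⟨b * y, mul_mem (hBV b hb) hy, by ring⟩
  obtain ⟨e₀, he₀, he₀m⟩ := h13g_exists_e B₀ w r hr hroot₀ (h26mV π V)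
    (hmVstable B₀ hC₀.hBV) (fun 𝔫 h𝔫 => h13g_local_for_e harch π hπ0 w r hr hloc₀ 𝔫 h𝔫)
  obtain ⟨einf, heinf, heinfm⟩ := h13g_exists_e Binf w r hr hrootinf (h26mV π V)
    (hmVstable Binf hC₁.hBV) (fun 𝔫 h𝔫 => h13g_local_for_e harch π hπ0 w r hr hloc₁ 𝔫 h𝔫)
  have he₀U : e₀ ∈ h26U π V := by
    obtain ⟨y, hy, h⟩ := he₀m
    exact ⟨y, hy, by rw [← h]; ring⟩
  have heinfU : einf ∈ h26U π V := by
    obtain ⟨y, hy, h⟩ := heinfm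
    exact ⟨y, hy, by rw [← h]; ring⟩
  -- generators of `L₀`
  obtain ⟨T, hT, hgen⟩ := h26_L_gen_of_local B₀ j w hw0 r hr hroot₀ S hS hfin
    (fun 𝔫 h𝔫 => h13g_local_for_L hC₀ harch hgen₀ w r hr hrw₀ π hloc₀ 𝔫 h𝔫)
  -- `H¹` is finitely generated up to `L₀ + L∞`
  obtain ⟨G, hG, hGle⟩ := h26_H1_fg (h26L B₀ w r hr hroot₀) (h26L Binf w r hr hrootinf)
    (h26L Bm w r hr hrootm) j hj
    (fun f hf => h26_mul_mem_L hj₀ hf) (fun f hf => h26_mul_mem_L hjinf hf) (h26_L_mono h0m)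
    (fun f hf => h26_L_exists_pow j hj₀ hm0 hf)
    (fun f hf => h26_L_exists_pow j⁻¹ hjinf hminf hf) T hT hgen
  -- bounded torsion
  obtain ⟨k, hk⟩ := h26_pow_torsion_bound π hπ0 (harch π hπ hπ0)
    (h26L B₀ w r hr hroot₀ ⊔ h26L Binf w r hr hrootinf) G hG
  -- the gate
  refine h26_gate_core π r hr hrA V hVπ hVinv hVntπ B₀ Binf Bm h0m hinfm hC₀.hBV hC₁.hBV
    hroot₀ hrootinf hrootm ?_ ?_ ?_ w hwU ⟨k, fun f hf hn => hk f (hGle hf) hn⟩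
    e₀ he₀ he₀U einf heinf heinfU
  · intro x hx h
    exact hC₀.hQEP π hπF x hx (by rw [Algebra.smul_def]; exact h)
  · intro x hx h
    exact hC₁.hQEP π hπF x hx (by rw [Algebra.smul_def]; exact h)
  · intro x hx h
    exact hqepm π hπF x hx (by rw [Algebra.smul_def]; exact h)

end Asm

end Fermat.Agent.S36
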