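import Fermat.Agent.S36.H6VExactFinal
import Fermat.Agent.S36.H88VInt
import Fermat.Agent.S36.H85MidAll

/-!
# S36, block (V): the frozen leaves `H74Int` (V-INT) and `H20VComplete` (VN-L1), closed

`h6v_vExact` (V-EXACT, helper6) + the adapters of helper88 (`S36/H88VInt.lean`) + `H74MidAll`
(helper85, `S36/H85MidAll.lean`).
-/

set_option autoImplicit false

noncomputable section

namespace Fermat.Agent.S36

/-- V-EXACT (forward) in the frozen shape of helper88. -/
theorem h6v_h88VExact : H88VExact :=
  fun q hq M _ hqM A hA => h6v_vExact q hq M hqM A hA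

/-- **V-INT**: the exact frozen Prop `H74Int` of `S36/H74VIface.lean`. -/
theorem h6v_h74Int : H74Int := h88v_int_of_exact h6v_h88VExact

/-- **VN-L1**: the exact frozen Prop `H20VComplete` of `S36/H20VertSkel.lean`. -/
theorem h6v_h20VComplete : H20VComplete := h88v_vcomplete h85m_midAll h6v_h74Int

end Fermat.Agent.S36
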