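import Fermat.Agent.S36.H25GlueIface
import Fermat.Agent.S36.H6VInt
import Fermat.Agent.S36.H3Hden
import Fermat.Agent.S36.H93ApproxRes
import Fermat.Agent.S36.H88VInt
import Fermat.Agent.S36.H3Gate92V

/-!
# S36, row L-GLUE-DICT (helper13, prefix `h13d_`): the leaf `H25GlueDict`

`h13d_glueDict : H25GlueDict` (the exact frozen `Prop` of `S36/H25GlueIface.lean`),
unconditional: every vertical prime `P` through a closed point `𝔫 ∋ q` of the chart `j` of level
`M q²` over `A₀` lies in the centre of a vertical embedding whose component passes through `𝔫`.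

Proof.  Fix the three embeddings `E20`, `E11 = E11^ζ`, `E02`, and let `O_i` be the valuation
subring of `FF (M q²)` cut out by the Gauss ring along `E_i` (pull-back of `h93a_GV`).

* `V ⊆ O_i`: `V` is integral over the Gauss ring of the level `M`, which `E_i` maps into the
  Gauss ring of `ℚ̄((t))`, and a valuation subring is integrally closed.
* If `P` were in no centre `Q_i ⊆ 𝔫`, prime avoidance gives `x ∈ P`, `x ≠ 0`, which is a unit
  of every centred `O_i`; for a non-centred `i` pick `c_i ∈ Q_i ∖ 𝔫`, and let `c` be the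
  product of the `c_i`.  The valuations have rank one, so `y = c ^ k / x ∈ O_i` for all `i`
  and a large `k`; by V-COMPLETE (`h6v_h20VComplete`) `y ∈ V₀`, by `hden` (`h3k_hden`)
  `s y ∈ B` with `s ∉ P`, and `s c ^ k = x (s y) ∈ P` contradicts `c ∉ 𝔫`.
-/

set_option autoImplicit false
set_option linter.unusedSectionVars false
set_option linter.style.haveILetI false

open AlgebraicCurve ModularCurve

noncomputable section

namespace Fermat.Agent.S36

open Fermat.Agent.S37 (Kbar GQ FF cst jB gal modelAt degen auxLevel)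
open Fermat.Agent.Red.GV (embA redA gaussV)
open Fermat.Agent.Red.GV.Soft
open Fermat.Agent.Red.Kron (kFricke twistK kFricke_alpha kFricke_beta)

/-! ## Valuation subrings: generalities -/

section Abs

variable {F : Type*} [Field F]

/-- an element which is integral along a ring homomorphism into a valuation subring lies in
it. -/
theorem h13d_mem_of_isIntegralElem {R : Type*} [CommRing R] (O : ValuationSubring F)
    (f : R →+* F) (hf : ∀ r, f r ∈ O) {x : F} (hx : f.IsIntegralElem x) : x ∈ O := by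
  obtain ⟨p, hp, hpx⟩ := hx
  let ι : R →+* O := f.codRestrict O.toSubring hf
  have h : IsIntegral O x := by
    refine ⟨p.map ι, hp.map ι, ?_⟩
    rw [Polynomial.eval₂_map]
    exact hpx
  obtain ⟨y, rfl⟩ := (IsIntegrallyClosed.isIntegral_iff (R := O) (K := F)).mp h
  exact y.2

/-- the centre of a valuation subring `O` on a subring `B ⊆ O`. -/
def h13dQ (B : Subring F) (O : ValuationSubring F) (hB : ∀ b ∈ B, b ∈ O) : Ideal B where
  carrier := {b | (b : F) ∈ O.nonunits}
  add_mem' := by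
    intro a b ha hb
    have ha' : O.valuation (a : F) < 1 := (ValuationSubring.mem_nonunits_iff O).mp ha
    have hb' : O.valuation (b : F) < 1 := (ValuationSubring.mem_nonunits_iff O).mp hb
    exact (ValuationSubring.mem_nonunits_iff O).mpr (Valuation.map_add_lt _ ha' hb')
  zero_mem' := by
    show ((0 : B) : F) ∈ O.nonunits
    rw [ValuationSubring.mem_nonunits_iff]
    simp
  smul_mem' := by
    intro c x hx
    have hx' : O.valuation (x : F) < 1 := (ValuationSubring.mem_nonunits_iff O).mp hx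
    have hc : O.valuation (c : F) ≤ 1 := (O.valuation_le_one_iff _).mpr (hB c c.2)
    show ((c * x : B) : F) ∈ O.nonunits
    rw [ValuationSubring.mem_nonunits_iff, Subring.coe_mul, map_mul]
    exact mul_lt_one_of_nonneg_of_lt_one_right hc zero_le hx'

theorem h13d_mem_Q (B : Subring F) (O : ValuationSubring F) (hB : ∀ b ∈ B, b ∈ O) (b : B) :
    b ∈ h13dQ B O hB ↔ (b : F) ∈ O.nonunits :=
  Iff.rfl

theorem h13d_not_mem_Q (B : Subring F) (O : ValuationSubring F) (hB : ∀ b ∈ B, b ∈ O) (b : B) :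
    b ∉ h13dQ B O hB ↔ O.valuation (b : F) = 1 := by
  rw [h13d_mem_Q, ValuationSubring.mem_nonunits_iff, not_lt]
  constructor
  · intro h
    exact le_antisymm ((O.valuation_le_one_iff _).mpr (hB b b.2)) h
  · intro h
    exact h.ge

theorem h13d_Q_isPrime (B : Subring F) (O : ValuationSubring F) (hB : ∀ b ∈ B, b ∈ O) :
    (h13dQ B O hB).IsPrime := by
  refine ⟨?_, ?_⟩
  · intro htop
    have h1 : (1 : B) ∈ h13dQ B O hB := by rw [htop]; trivial
    rw [h13d_mem_Q, ValuationSubring.mem_nonunits_iff, Subring.coe_one, map_one] at h1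
    exact lt_irrefl _ h1
  · intro a b hab
    by_contra hcon
    rw [not_or] at hcon
    have ha := (h13d_not_mem_Q B O hB a).mp hcon.1
    have hb := (h13d_not_mem_Q B O hB b).mp hcon.2
    rw [h13d_mem_Q, ValuationSubring.mem_nonunits_iff, Subring.coe_mul, map_mul, ha, hb,
      mul_one] at hab
    exact lt_irrefl _ hab

end Abs

/-! ## The valuation subring of an embedding -/

section Emb

variable {q : ℕ} (hq : q.Prime) (A : ValuationSubring Kbar) (hA : A.LiesOverPrime q) {N : ℕ}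
  (E : FF N →+* LaurentSeries Kbar) (hE : ∀ u, E u ∈ dfField (K := Kbar))

/-- the valuation subring of `FF N` of the embedding `E` (pull-back of the Gauss ring). -/
def h13dO : ValuationSubring (FF N) :=
  (h93a_GV q hq A hA).comap (E.codRestrict (dfField (K := Kbar)) hE)

theorem h13d_mem_O (x : FF N) : x ∈ h13dO hq A hA E hE ↔ E x ∈ h20v_G A :=
  Iff.rfl

/-- the nonunits are the Gauss-small functions. -/
theorem h13d_nonunits_iff (x : FF N) :
    x ∈ (h13dO hq A hA E hE).nonunits ↔ h11l_Small A E x := by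
  have e1 : x ∈ (h13dO hq A hA E hE).nonunits ↔
      (E.codRestrict (dfField (K := Kbar)) hE) x ∈ (h93a_GV q hq A hA).nonunits :=
    h93a_mem_nonunits_comap (h93a_GV q hq A hA) (E.codRestrict (dfField (K := Kbar)) hE) x
  have e2 := h93a_mem_nonunits_GV q hq A hA ((E.codRestrict (dfField (K := Kbar)) hE) x)
  have e3 : (((E.codRestrict (dfField (K := Kbar)) hE) x : dfField (K := Kbar)) :
      LaurentSeries Kbar) = E x := rfl
  rw [e3] at e2
  rw [e1, e2]
  constructor
  · intro h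
    have hmem : E x ∈ softOT A (IsLocalRing.residue A) := by
      rcases h with h | h
      · rw [h]
        exact zero_mem _
      · by_contra hx
        have hdfx : E x ∈ dfField (K := Kbar) := hE x
        have := (h93a_GV q hq A hA).mem_or_inv_mem ⟨E x, hdfx⟩
        rcases this with h1 | h1
        · exact hx h1
        · exact h h1
    refine ⟨hmem, ?_⟩
    exact (softRedT_eq_zero_iff (⟨E x, hmem⟩ : softOT A (IsLocalRing.residue A))).mpr h
  · rintro ⟨hmem, h0⟩
    exact (softRedT_eq_zero_iff (⟨E x, hmem⟩ : softOT A (IsLocalRing.residue A))).mp h0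

/-- the valuation has rank one. -/
theorem h13d_arch :
    ∀ x ∈ (h13dO hq A hA E hE).nonunits, ∀ y : FF N, y ≠ 0 →
      ∃ n : ℕ, x ^ n / y ∈ (h13dO hq A hA E hE).nonunits :=
  h93a_arch_comap _ _ (h93a_GV_arch q hq A hA)

end Emb

/-! ## The ring `V` at the vertical embeddings -/

section Level

variable {M q : ℕ} [NeZero M] [NeZero q]

theorem h13d_G_E20 (A : ValuationSubring Kbar) (y : FF M) (hy : y ∈ gaussV A M) :
    h20n_E20 M q (degen (h92c_dvd M q) y) ∈ h20v_G A := by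
  have h1 : y ∈ softV A M := gaussV_le_softV A M hy
  exact (degen_mem_softV_iff A (h92c_dvd M q) y).mpr h1

theorem h13d_degen_eq (y : FF M) :
    degen (h92c_dvd M q) y =
      heckeAlphaBar Kbar (M * q) q (heckeAlphaBar Kbar M q y) := by
  have h := congrArg (fun f : FF M →+* FF (M * q * q) => f y) (h88v_degen_eq_aa (M := M) (q := q))
  exact h.trans (h88v_aa_apply M q y)

theorem h13d_G_E11 (hq : q.Prime) (hqM : ¬ q ∣ M) (A : ValuationSubring Kbar) (ζ : Kbar)
    (E : FF (M * q * q) →+* LaurentSeries Kbar) (hE : h20n_IsE11 M q hq hqM ζ E)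
    (y : FF M) (hy : y ∈ gaussV A M) : E (degen (h92c_dvd M q) y) ∈ h20v_G A := by
  have h1 : y ∈ softV A M := gaussV_le_softV A M hy
  rw [h13d_degen_eq, hE.1]
  exact (alpha_mem_softV_iff A q y).mpr h1

theorem h13d_G_E02 (hq : q.Prime) (hqM : ¬ q ∣ M) (A : ValuationSubring Kbar)
    (E : FF (M * q * q) →+* LaurentSeries Kbar) (hE : h20n_IsE02 M q hq hqM E)
    (y : FF M) (hy : y ∈ gaussV A M) : E (degen (h92c_dvd M q) y) ∈ h20v_G A := by
  have h1 : y ∈ softV A M := gaussV_le_softV A M hy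
  rw [h13d_degen_eq, hE.1, kFricke_alpha]
  exact mem_softOT_qExpand A _ q (beta_mem_softV A q y h1)

/-- the vertical embeddings map the Gauss ring of the level `M` into the Gauss ring. -/
theorem h13d_G_of_isVE (hq : q.Prime) (hqM : ¬ q ∣ M) (A : ValuationSubring Kbar)
    (E : FF (M * q * q) →+* LaurentSeries Kbar) (hE : h11l_IsVE M q hq hqM E) :
    ∀ y ∈ gaussV A M, E (degen (h92c_dvd M q) y) ∈ h20v_G A := by
  intro y hy
  rcases hE with rfl | ⟨ζ, -, hE⟩ | hE
  · exact h13d_G_E20 A y hy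
  · exact h13d_G_E11 hq hqM A ζ E hE y hy
  · exact h13d_G_E02 hq hqM A E hE y hy

/-- the ring `V` lies in the valuation subring of every embedding which maps the Gauss ring of
the level `M` into the Gauss ring of `ℚ̄((t))`. -/
theorem h13d_V_le (hq : q.Prime) (A : ValuationSubring Kbar) (hA : A.LiesOverPrime q)
    (E : FF (M * q * q) →+* LaurentSeries Kbar) (hE : ∀ u, E u ∈ dfField (K := Kbar))
    (hG : ∀ y ∈ gaussV A M, E (degen (h92c_dvd M q) y) ∈ h20v_G A) {y : FF (M * q * q)}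
    (hy : y ∈ h92c_V A M q) : y ∈ h13dO hq A hA E hE := by
  have hy' : y ∈ h3vV A (degen (h92c_dvd M q)) := hy
  rw [h3v_mem_V_iff] at hy'
  exact h13d_mem_of_isIntegralElem (h13dO hq A hA E hE) (h3v_f A (degen (h92c_dvd M q)))
    (fun r => hG r.1 r.2) hy'

/-- the vertical embeddings take values in the fractions of discrete series. -/
theorem h13d_df_of_isVE (hq : q.Prime) (hqM : ¬ q ∣ M)
    (E : FF (M * q * q) →+* LaurentSeries Kbar) (hE : h11l_IsVE M q hq hqM E) :
    ∀ u, E u ∈ dfField (K := Kbar) := by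
  intro u
  rcases hE with rfl | ⟨ζ, hζ, hE⟩ | hE
  · exact FF_le_dfField (M * q * q) u
  · exact h12e_embDF q hq M hqM E (Or.inl ⟨ζ, hζ.pow_eq_one, hE⟩) u
  · exact h12e_embDF q hq M hqM E (Or.inr hE) u

end Level

/-! ## The dictionary -/

section Main

variable {M q : ℕ} [NeZero M] [NeZero q]

theorem h13d_natCast_ne_zero (hq : q.Prime) (N : ℕ) [NeZero N] :
    ((q : ℕ) : FF N) ≠ 0 := by
  rw [h3w_natCast_eq N q]
  intro h
  have h1 : ((q : ℕ) : Kbar) = 0 :=
    (algebraMap Kbar (FF N)).injective (h.trans (map_zero _).symm)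
  exact hq.ne_zero (Nat.cast_eq_zero.mp h1)

set_option maxHeartbeats 1600000 in
/-- **L-GLUE-DICT at one closed point.** -/
theorem h13d_dictAt (hq : q.Prime) (hqM : ¬ q ∣ M) (haux : auxLevel q ∣ M)
    (A : ValuationSubring Kbar) (hA : A.LiesOverPrime q)
    (𝔫 : Ideal (h92c_Chart A (M * q * q) (jB (M * q * q)))) (h𝔫 : 𝔫.IsMaximal) :
    H25GlueDictAt A M q hq hqM (jB (M * q * q)) 𝔫 := by
  classical
  intro P hP
  obtain ⟨hPprime, hqP, hP𝔫, hPne⟩ := hP
  have hPmax : ¬ P.IsMaximal := fun hmax => hPne (hmax.eq_of_le h𝔫.ne_top hP𝔫)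
  haveI : 𝔫.IsPrime := h𝔫.isPrime
  -- the three embeddings
  haveI : NeZero (q : ℚ) := ⟨by exact_mod_cast hq.ne_zero⟩
  obtain ⟨ζ, hζ⟩ := HasEnoughRootsOfUnity.exists_primitiveRoot Kbar q
  obtain ⟨E11, hE11⟩ := (h20n_embExists q hq M hqM).1 ζ hζ.pow_eq_one (hζ.ne_one hq.one_lt)
  obtain ⟨E02, hE02⟩ := (h20n_embExists q hq M hqM).2
  obtain ⟨Ev, hEv0, hEv1, hEv2⟩ : ∃ Ev : Fin 3 → (FF (M * q * q) →+* LaurentSeries Kbar),
      Ev 0 = h20n_E20 M q ∧ Ev 1 = E11 ∧ Ev 2 = E02 :=
    ⟨![h20n_E20 M q, E11, E02], rfl, rfl, rfl⟩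
  have hVE : ∀ i, h11l_IsVE M q hq hqM (Ev i) := by
    intro i
    fin_cases i
    · exact Or.inl hEv0
    · exact Or.inr (Or.inl ⟨ζ, hζ, by rw [show Ev (⟨1, by decide⟩ : Fin 3) = E11 from hEv1]; exact hE11⟩)
    · exact Or.inr (Or.inr (by rw [show Ev (⟨2, by decide⟩ : Fin 3) = E02 from hEv2]; exact hE02))
  have hdf : ∀ i u, Ev i u ∈ dfField (K := Kbar) := fun i =>
    h13d_df_of_isVE hq hqM (Ev i) (hVE i)
  obtain ⟨O, hO⟩ : ∃ O : Fin 3 → ValuationSubring (FF (M * q * q)),
      ∀ i, O i = h13dO hq A hA (Ev i) (hdf i) := ⟨_, fun _ => rfl⟩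
  have hV : ∀ i, ∀ y ∈ h92c_V A M q, y ∈ O i := by
    intro i y hy
    rw [hO i]
    exact h13d_V_le hq A hA (Ev i) (hdf i) (h13d_G_of_isVE hq hqM A (Ev i) (hVE i)) hy
  have hsmall : ∀ i (x : FF (M * q * q)), x ∈ (O i).nonunits ↔ h11l_Small A (Ev i) x := by
    intro i x
    rw [hO i]
    exact h13d_nonunits_iff hq A hA (Ev i) (hdf i) x
  have harch : ∀ i, ∀ x ∈ (O i).nonunits, ∀ y : FF (M * q * q), y ≠ 0 →
      ∃ n : ℕ, x ^ n / y ∈ (O i).nonunits := by
    intro i
    rw [hO i]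
    exact h13d_arch hq A hA (Ev i) (hdf i)
  have hBO : ∀ i, ∀ b ∈ h92c_Chart A (M * q * q) (jB (M * q * q)), b ∈ O i :=
    fun i b hb => hV i b (h3w_chart_le_V0 hq hqM hA hb).1
  -- by contradiction
  by_contra hcon
  have hnot : ∀ i, h11l_Centred A (jB (M * q * q)) 𝔫 (Ev i) →
      ¬ P ≤ h13dQ (h92c_Chart A (M * q * q) (jB (M * q * q))) (O i) (hBO i) := by
    intro i hc hle
    refine hcon ⟨Ev i, hVE i, hc, fun b hb => (hsmall i _).mp (hle hb), fun x hx => ?_⟩
    have h1 := hV i x hx.1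
    rw [hO i] at h1
    exact h1
  -- prime avoidance
  obtain ⟨x, hxP, hx0, hxQ⟩ : ∃ x : h92c_Chart A (M * q * q) (jB (M * q * q)), x ∈ P ∧
      (x : FF (M * q * q)) ≠ 0 ∧ ∀ i, h11l_Centred A (jB (M * q * q)) 𝔫 (Ev i) →
        x ∉ h13dQ (h92c_Chart A (M * q * q) (jB (M * q * q))) (O i) (hBO i) := by
    by_cases hS : ∃ i, h11l_Centred A (jB (M * q * q)) 𝔫 (Ev i)
    · obtain ⟨i₀, hi₀⟩ := hS
      have h1 : ¬ ((P : Set (h92c_Chart A (M * q * q) (jB (M * q * q)))) ⊆
          ⋃ i ∈ ((Finset.univ.filter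
            (fun i => h11l_Centred A (jB (M * q * q)) 𝔫 (Ev i)) : Finset (Fin 3)) : Set (Fin 3)),
            (h13dQ (h92c_Chart A (M * q * q) (jB (M * q * q))) (O i) (hBO i) :
              Set (h92c_Chart A (M * q * q) (jB (M * q * q))))) := by
        rw [Ideal.subset_union_prime i₀ i₀ (fun i _ _ _ => h13d_Q_isPrime _ (O i) (hBO i))]
        rintro ⟨i, hi, hle⟩
        exact hnot i (Finset.mem_filter.mp hi).2 hle
      obtain ⟨x, hxP, hx⟩ := Set.not_subset.mp h1
      have hxQ : ∀ i, h11l_Centred A (jB (M * q * q)) 𝔫 (Ev i) →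
          x ∉ h13dQ (h92c_Chart A (M * q * q) (jB (M * q * q))) (O i) (hBO i) := by
        intro i hc hxi
        apply hx
        rw [Set.mem_iUnion₂]
        exact ⟨i, Finset.mem_coe.mpr (Finset.mem_filter.mpr ⟨Finset.mem_univ _, hc⟩), hxi⟩
      refine ⟨x, hxP, ?_, hxQ⟩
      intro h0
      apply hxQ i₀ hi₀
      rw [h13d_mem_Q, h0, ValuationSubring.mem_nonunits_iff, map_zero]
      exact zero_lt_one
    · refine ⟨((q : ℕ) : h92c_Chart A (M * q * q) (jB (M * q * q))), hqP, ?_,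
        fun i hc => absurd ⟨i, hc⟩ hS⟩
      rw [Subring.coe_natCast]
      exact h13d_natCast_ne_zero hq (M * q * q)
  -- the multipliers at the non-centred embeddings
  have hex : ∀ i, ∃ c : h92c_Chart A (M * q * q) (jB (M * q * q)), c ∉ 𝔫 ∧
      (h11l_Centred A (jB (M * q * q)) 𝔫 (Ev i) ∨ (c : FF (M * q * q)) ∈ (O i).nonunits) := by
    intro i
    by_cases hc : h11l_Centred A (jB (M * q * q)) 𝔫 (Ev i)
    · exact ⟨1, fun h1 => h𝔫.ne_top ((Ideal.eq_top_iff_one _).mpr h1), Or.inl hc⟩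
    · unfold h11l_Centred at hc
      rw [not_forall] at hc
      obtain ⟨b, hb⟩ := hc
      rw [Classical.not_imp] at hb
      exact ⟨b, hb.2, Or.inr ((hsmall i _).mpr hb.1)⟩
  choose c hc𝔫 hcQ using hex
  obtain ⟨C, hC⟩ : ∃ C : h92c_Chart A (M * q * q) (jB (M * q * q)), C = ∏ i, c i := ⟨_, rfl⟩
  have hC𝔫 : C ∉ 𝔫 := by
    rw [hC]
    intro h
    obtain ⟨i, -, hi⟩ := (Ideal.IsPrime.prod_mem_iff).mp h
    exact hc𝔫 i hi
  have hCval : ∀ i, (O i).valuation (C : FF (M * q * q)) ≤ 1 := fun i =>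
    ((O i).valuation_le_one_iff _).mpr (hBO i C C.2)
  have hCnon : ∀ i, ¬ h11l_Centred A (jB (M * q * q)) 𝔫 (Ev i) →
      (C : FF (M * q * q)) ∈ (O i).nonunits := by
    intro i hnc
    have h1 : (c i : FF (M * q * q)) ∈ (O i).nonunits := (hcQ i).resolve_left hnc
    have h2 : c i ∈ h13dQ (h92c_Chart A (M * q * q) (jB (M * q * q))) (O i) (hBO i) := h1
    have h3 : C ∈ h13dQ (h92c_Chart A (M * q * q) (jB (M * q * q))) (O i) (hBO i) := by
      rw [hC, ← Finset.mul_prod_erase Finset.univ c (Finset.mem_univ i)]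
      exact Ideal.mul_mem_right _ _ h2
    exact h3
  -- the exponent
  have hexk : ∀ i, ∃ k : ℕ, ∀ K : ℕ, k ≤ K →
      (C : FF (M * q * q)) ^ K / (x : FF (M * q * q)) ∈ O i := by
    intro i
    by_cases hc : h11l_Centred A (jB (M * q * q)) 𝔫 (Ev i)
    · refine ⟨0, fun K _ => ?_⟩
      have hvx : (O i).valuation (x : FF (M * q * q)) = 1 :=
        (h13d_not_mem_Q _ (O i) (hBO i) x).mp (hxQ i hc)
      rw [← (O i).valuation_le_one_iff, map_div₀, map_pow, hvx, div_one]
      exact pow_le_one' (hCval i) K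
    · obtain ⟨k, hk⟩ := harch i _ (hCnon i hc) (x : FF (M * q * q)) hx0
      refine ⟨k, fun K hK => ?_⟩
      have e : (C : FF (M * q * q)) ^ K / (x : FF (M * q * q)) =
          (C : FF (M * q * q)) ^ (K - k) * ((C : FF (M * q * q)) ^ k / (x : FF (M * q * q))) := by
        rw [← mul_div_assoc, ← pow_add, Nat.sub_add_cancel hK]
      rw [e]
      exact (O i).mul_mem _ _ (pow_mem (hBO i C C.2) _) ((O i).nonunits_le hk)
  choose k hk using hexk
  obtain ⟨K, hK⟩ : ∃ K : ℕ, ∀ i, k i ≤ K :=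
    ⟨∑ i, k i, fun i => Finset.single_le_sum (fun _ _ => Nat.zero_le _) (Finset.mem_univ i)⟩
  obtain ⟨y, hy⟩ : ∃ y : FF (M * q * q),
      y = (C : FF (M * q * q)) ^ K / (x : FF (M * q * q)) := ⟨_, rfl⟩
  have hyO : ∀ i, y ∈ O i := fun i => by
    rw [hy]
    exact hk i K (hK i)
  have hyF : y ∈ h92c_F0 A (M * q * q) := by
    rw [hy]
    exact div_mem (pow_mem C.2.2 K) x.2.2
  -- V-COMPLETE
  have hyInt : h20v_Int M q A E11 E02 y := by
    refine ⟨?_, ?_, ?_⟩
    · have h1 := hyO 0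
      rw [hO 0, h13d_mem_O, hEv0] at h1
      exact h1
    · have h1 := hyO 1
      rw [hO 1, h13d_mem_O, hEv1] at h1
      exact h1
    · have h1 := hyO 2
      rw [hO 2, h13d_mem_O, hEv2] at h1
      exact h1
  have hyV : y ∈ h92c_V A M q :=
    h6v_h20VComplete q hq M hqM haux A hA ζ E11 E02 ⟨hζ, hE11, hE02⟩ y hyF hyInt
  -- `hden`
  obtain ⟨s, hsP, hsy⟩ := h3k_hden hq hqM hA P hPprime hPmax hqP y ⟨hyV, hyF⟩
  have hmem : x * ⟨(s : FF (M * q * q)) * y, hsy⟩ ∈ P := Ideal.mul_mem_right _ _ hxP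
  have heq : x * (⟨(s : FF (M * q * q)) * y, hsy⟩ :
      h92c_Chart A (M * q * q) (jB (M * q * q))) = s * C ^ K := by
    apply Subtype.ext
    show (x : FF (M * q * q)) * ((s : FF (M * q * q)) * y) =
      (s : FF (M * q * q)) * (C : FF (M * q * q)) ^ K
    rw [hy]
    field_simp
  rw [heq] at hmem
  rcases hPprime.mem_or_mem hmem with h | h
  · exact hsP h
  · exact hC𝔫 (hP𝔫 (hPprime.mem_of_pow_mem K h))

/-- **L-GLUE-DICT.** -/
theorem h13d_glueDict : H25GlueDict := by
  intro q hq M _ hqM haux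
  haveI : NeZero q := ⟨hq.ne_zero⟩
  intro A hA 𝔫 h𝔫 _
  exact h13d_dictAt hq hqM haux A hA 𝔫 h𝔫

end Main

end Fermat.Agent.S36
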