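import Mathlib

/-!
# S36, block GATE (helper13): the local lemma ("Lemma A") in ring form, and the glueing lemma

Mathlib only.

* `h13g_lemmaA_ring` : let `S` be a commutative ring (the semi-local ring of the components of
  the special fibre through a closed point), `Q` an ideal containing the prime number `q`
  (`Q = q S`), `J i` ideals with `Q ≤ J i` and `⋂ J i ≤ Q` (`J i` = congruence modulo `q` along
  the `i`-th component), `U` a submonoid (the units of the local ring `R` of the chart at the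
  point), `M` a set with `U + M ⊆ U` (the maximal ideal of `R`).  Let `G ∈ S` with
  `G ^ m u ≡ 1` modulo `Q`, `u ∈ U`, `m` prime to `q`.  If the branch values of `G` are equal
  (`(G - c - y i) ^ E ∈ J i` with `c ∈ U`) and the `y i ^ k` glue modulo the `J i` to elements of
  `M` for `k` large, then `G η ≡ 1` modulo `Q` for some `η ∈ U`.
  (Frobenius is additive modulo `q`; Bezout for `m` and `q ^ N`.)
* `h13g_glue_ring` : the glueing hypothesis from pairwise primary ideals: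
  `𝔫 ^ K ≤ I i ⊔ I j` for `i ≠ j`.
-/

set_option autoImplicit false

namespace Fermat.Agent.S36

section LemmaA

variable {S : Type*} [CommRing S]

/-- Frobenius is additive modulo an ideal containing `q`. -/
theorem h13g_add_pow_sub (q : ℕ) (hq : q.Prime) (Q : Ideal S) (hqQ : (q : S) ∈ Q) (N : ℕ)
    (a b : S) : (a + b) ^ q ^ N - (a ^ q ^ N + b ^ q ^ N) ∈ Q := by
  obtain ⟨r, hr⟩ := exists_add_pow_prime_pow_eq hq a b N
  have e : (a + b) ^ q ^ N - (a ^ q ^ N + b ^ q ^ N) = (a * b * r) * (q : S) := by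
    rw [hr]; ring
  rw [e]
  exact Q.mul_mem_left _ hqQ

/-- **Lemma A, ring form.** -/
theorem h13g_lemmaA_ring (q : ℕ) (hq : q.Prime) (m : ℕ) (hmq : Nat.Coprime m q)
    (Q : Ideal S) (hqQ : (q : S) ∈ Q)
    {ι : Type*} (J : ι → Ideal S) (hQJ : ∀ i, Q ≤ J i) (hJQ : ∀ x, (∀ i, x ∈ J i) → x ∈ Q)
    (U : Submonoid S) (M : Set S) (hUM : ∀ c ∈ U, ∀ y ∈ M, c + y ∈ U)
    (G u : S) (hu : u ∈ U) (hGu : G ^ m * u - 1 ∈ Q)
    (c : S) (hc : c ∈ U) (y : ι → S) (E : ℕ) (hbr : ∀ i, (G - c - y i) ^ E ∈ J i)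
    (K : ℕ) (hglue : ∀ k, K ≤ k → ∃ b ∈ M, ∀ i, b - y i ^ k ∈ J i) :
    ∃ η ∈ U, G * η - 1 ∈ Q := by
  -- the exponent
  set N : ℕ := max E K + 1 with hN
  have hNlt : max E K + 1 < q ^ N := Nat.lt_pow_self hq.one_lt
  have hE : E ≤ q ^ N := by
    have := le_max_left E K
    omega
  have hK : K ≤ q ^ N := by
    have := le_max_right E K
    omega
  have h1 : 1 < q ^ N := by omega
  obtain ⟨b, hbM, hb⟩ := hglue (q ^ N) hK
  -- `(G - c) ^ (q ^ N) ≡ b` modulo `Q`
  have hstep1 : (G - c) ^ q ^ N - b ∈ Q := by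
    refine hJQ _ fun i => ?_
    have hz : (G - c - y i) ^ q ^ N ∈ J i := by
      have e : (G - c - y i) ^ q ^ N = (G - c - y i) ^ (q ^ N - E) * (G - c - y i) ^ E := by
        rw [← pow_add]
        congr 1
        omega
      rw [e]
      exact (J i).mul_mem_left _ (hbr i)
    have hF := hQJ i (h13g_add_pow_sub q hq Q hqQ N (y i) (G - c - y i))
    have e : (G - c) ^ q ^ N - b =
        ((y i + (G - c - y i)) ^ q ^ N - (y i ^ q ^ N + (G - c - y i) ^ q ^ N))
          + (G - c - y i) ^ q ^ N - (b - y i ^ q ^ N) := by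
      have : y i + (G - c - y i) = G - c := by ring
      rw [this]
      ring
    rw [e]
    exact (J i).sub_mem ((J i).add_mem hF hz) (hb i)
  -- `G ^ (q ^ N) ≡ c ^ (q ^ N) + b` modulo `Q`
  have hstep2 : G ^ q ^ N - (c ^ q ^ N + b) ∈ Q := by
    have hF := h13g_add_pow_sub q hq Q hqQ N (G - c) c
    have e : G ^ q ^ N - (c ^ q ^ N + b) =
        (((G - c) + c) ^ q ^ N - ((G - c) ^ q ^ N + c ^ q ^ N)) + ((G - c) ^ q ^ N - b) := by
      have : G - c + c = G := by ring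
      rw [this]
      ring
    rw [e]
    exact Q.add_mem hF hstep1
  have hb' : c ^ q ^ N + b ∈ U := hUM _ (U.pow_mem hc _) b hbM
  -- Bezout
  have hcop : Nat.Coprime m (q ^ N) := Nat.Coprime.pow_right N hmq
  obtain ⟨a, ha⟩ := Nat.exists_mul_mod_eq_one_of_coprime hcop h1
  obtain ⟨d, hd⟩ : ∃ d : ℕ, m * a = q ^ N * d + 1 := by
    refine ⟨m * a / q ^ N, ?_⟩
    have := Nat.div_add_mod (m * a) (q ^ N)
    omega
  refine ⟨(c ^ q ^ N + b) ^ d * u ^ a, U.mul_mem (U.pow_mem hb' d) (U.pow_mem hu a), ?_⟩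
  -- computation in the quotient
  rw [← Ideal.Quotient.eq_zero_iff_mem] at hGu hstep2 ⊢
  simp only [map_sub, map_mul, map_pow, map_add, map_one, sub_eq_zero] at hGu hstep2 ⊢
  rw [← hstep2]
  calc Ideal.Quotient.mk Q G * (((Ideal.Quotient.mk Q G) ^ q ^ N) ^ d *
        (Ideal.Quotient.mk Q u) ^ a)
      = ((Ideal.Quotient.mk Q G) ^ m * Ideal.Quotient.mk Q u) ^ a := by
        rw [mul_pow, ← pow_mul, ← pow_mul, hd, pow_succ]
        ring
    _ = 1 := by rw [hGu, one_pow]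

end LemmaA

section Glue

variable {R : Type*} [CommRing R]

theorem h13g_prod_sup_le {ι : Type*} (T : Finset ι) (I₀ : Ideal R) (I : ι → Ideal R) :
    ∏ j ∈ T, (I₀ ⊔ I j) ≤ I₀ ⊔ ∏ j ∈ T, I j := by
  classical
  induction T using Finset.induction_on with
  | empty => simp
  | insert a T ha ih =>
    rw [Finset.prod_insert ha, Finset.prod_insert ha]
    refine (Ideal.mul_mono le_rfl ih).trans ?_
    intro x hx
    refine Submodule.mul_induction_on hx ?_ ?_
    · intro u hu v hv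
      obtain ⟨u₁, hu₁, u₂, hu₂, rfl⟩ := Submodule.mem_sup.mp hu
      obtain ⟨v₁, hv₁, v₂, hv₂, rfl⟩ := Submodule.mem_sup.mp hv
      have e : (u₁ + u₂) * (v₁ + v₂) = (u₁ * (v₁ + v₂) + u₂ * v₁) + u₂ * v₂ := by ring
      rw [e]
      exact Submodule.add_mem_sup
        (I₀.add_mem (I₀.mul_mem_right _ hu₁) (I₀.mul_mem_left _ hv₁))
        (Ideal.mul_mem_mul hu₂ hv₂)
    · intro u v hu hv
      exact Ideal.add_mem _ hu hv

theorem h13g_pow_le_prod {ι : Type*} (T : Finset ι) (𝔞 : Ideal R) (I : ι → Ideal R)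
    (h : ∀ j ∈ T, 𝔞 ≤ I j) : 𝔞 ^ T.card ≤ ∏ j ∈ T, I j := by
  classical
  induction T using Finset.induction_on with
  | empty => simp
  | insert a T ha ih =>
    rw [Finset.prod_insert ha, Finset.card_insert_of_notMem ha, pow_succ']
    exact Ideal.mul_mono (h a (Finset.mem_insert_self a T))
      (ih fun j hj => h j (Finset.mem_insert_of_mem hj))

/-- **the glueing lemma**: if the ideals `I i ≤ 𝔫` are pairwise primary to `𝔫`
(`𝔫 ^ K ≤ I i ⊔ I j` for `i ≠ j`), then for `z i ∈ 𝔫` the powers `z i ^ k`, `k` large, glue: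
there is `b ∈ 𝔫` with `b ≡ z i ^ k` modulo `I i` for all `i`. -/
theorem h13g_glue_ring {ι : Type*} [Fintype ι] [Nonempty ι]
    (𝔫 : Ideal R) (I : ι → Ideal R) (hI : ∀ i, I i ≤ 𝔫)
    (K : ℕ) (hK : ∀ i j, i ≠ j → 𝔫 ^ K ≤ I i ⊔ I j)
    (z : ι → R) (hz : ∀ i, z i ∈ 𝔫) (k : ℕ) (hk : K * Fintype.card ι + 1 ≤ k) :
    ∃ b ∈ 𝔫, ∀ i, b - z i ^ k ∈ I i := by
  classical
  have hdec : ∀ i, ∃ t : R, (∀ j, j ≠ i → t ∈ I j) ∧ z i ^ k - t ∈ I i := by
    intro i
    set T : Finset ι := Finset.univ.erase i with hT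
    have h1 : (𝔫 ^ K) ^ T.card ≤ I i ⊔ ∏ j ∈ T, I j :=
      (h13g_pow_le_prod T (𝔫 ^ K) (fun j => I i ⊔ I j) fun j hj =>
        hK i j (Finset.ne_of_mem_erase hj).symm).trans (h13g_prod_sup_le T (I i) I)
    have hcard : K * T.card ≤ k := by
      have : T.card ≤ Fintype.card ι := by
        rw [hT]
        exact (Finset.card_erase_le).trans (le_of_eq Finset.card_univ)
      have := Nat.mul_le_mul_left K this
      omega
    have h2 : z i ^ k ∈ I i ⊔ ∏ j ∈ T, I j := by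
      refine h1 ?_
      rw [← pow_mul]
      exact Ideal.pow_le_pow_right hcard (Ideal.pow_mem_pow (hz i) k)
    obtain ⟨x, hx, t, ht, hxt⟩ := Submodule.mem_sup.mp h2
    refine ⟨t, fun j hj => ?_, ?_⟩
    · have := Ideal.prod_le_inf (s := T) (f := I) ht
      rw [Submodule.mem_finsetInf] at this
      exact this j (Finset.mem_erase.mpr ⟨hj, Finset.mem_univ j⟩)
    · rw [← hxt]
      simpa using hx
  choose t ht1 ht2 using hdec
  have hmem : ∀ i, ∑ j, t j - z i ^ k ∈ I i := by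
    intro i
    have e : ∑ j, t j - z i ^ k = ∑ j ∈ Finset.univ.erase i, t j - (z i ^ k - t i) := by
      rw [← Finset.add_sum_erase Finset.univ t (Finset.mem_univ i)]
      ring
    rw [e]
    exact (I i).sub_mem ((I i).sum_mem fun j hj => ht1 j i (Finset.ne_of_mem_erase hj).symm)
      (ht2 i)
  refine ⟨∑ j, t j, ?_, hmem⟩
  obtain ⟨i₀⟩ := (inferInstance : Nonempty ι)
  have h1 : z i₀ ^ k ∈ 𝔫 := 𝔫.pow_mem_of_mem (hz i₀) k (by omega)
  have h2 := hI i₀ (hmem i₀)
  have e : ∑ j, t j = (∑ j, t j - z i₀ ^ k) + z i₀ ^ k := by ring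
  rw [e]
  exact 𝔫.add_mem h2 h1

end Glue

end Fermat.Agent.S36
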