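import Fermat.Agent.S36.H13LocSemi
import Fermat.Agent.S36.H13LemmaA

/-!
# S36, block GATE (helper13): the semi-local datum of the gate from equal branch values

`B` a chart over the valuation ring `A`, `V` the Gauss ring, `𝔫` a closed point of the special
fibre, `W i` (`i : τ`, `τ` finite) the discrete valuations of the components of the special fibre
through `𝔫`, `π ∣ q` in `A`, `q` the residue characteristic, `r` prime to `q`.

`h13g_datum_of_branch` : let `w ∈ 1 + π V` with a local factorisation `w = ε g₀ ^ r`,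
`ε ∈ B_𝔫^×` (`h13g_factor`).  Assume
* (branch values) there are `c ∈ B_𝔫^×` and `y i ∈ B_𝔫` with `W i (g₀ - c - y i) < 1`
  (the reduction of `g₀` on the `i`-th branch is the reduction of `c + y i`), and
* (glueing) for `k` large there is `b ∈ 𝔫 B_𝔫` with `b ≡ y i ^ k` modulo `π` on the `i`-th branch
  (automatic for one branch; `h13g_glue_ring` for pairwise primary branches; it forces
  `y i ∈ 𝔫 B_𝔫`, i.e. the branch values of `g₀` at `𝔫` are all equal to `c(𝔫)`).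
Then the semi-local datum of `h13g_gate_asm_semi` exists at `𝔫`.

No sections, no rationality, nilpotents of the special fibre allowed (`W i π` arbitrary).
-/

set_option autoImplicit false
set_option linter.unusedSectionVars false

open WithZero IsLocalRing

namespace Fermat.Agent.S36

open Fermat.Agent.Red Fermat.Agent.LGC

variable {A : Type*} [CommRing A] [IsDomain A] [ValuationRing A]
  {F : Type*} [Field F] [Algebra A F]
  {B : Subalgebra A F} {V : Subring F}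

/-- `x` is a unit of `B_𝔫`. -/
def h13g_UnitAt (B : Subalgebra A F) (𝔫 : Ideal B) (x : F) : Prop :=
  x ≠ 0 ∧ ∃ s : B, s ∉ 𝔫 ∧ (s : F) * x ∈ B ∧ (s : F) * x⁻¹ ∈ B

/-- `x` lies in the maximal ideal of `B_𝔫`. -/
def h13g_MaxAt (B : Subalgebra A F) (𝔫 : Ideal B) (x : F) : Prop :=
  ∃ s : B, s ∉ 𝔫 ∧ ∃ n : B, n ∈ 𝔫 ∧ (s : F) * x = n

/-- `x ≡ 0` modulo `π` at the components through `𝔫`. -/
def h13g_CongAt (B : Subalgebra A F) (V : Subring F) (𝔫 : Ideal B) (π : A) (x : F) : Prop :=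
  ∃ s : B, s ∉ 𝔫 ∧ (s : F) * x ∈ h26mV π V

theorem h13g_unitAt_one (𝔫 : Ideal B) [h𝔫 : 𝔫.IsPrime] : h13g_UnitAt B 𝔫 1 :=
  ⟨one_ne_zero, 1, (Ideal.ne_top_iff_one 𝔫).mp h𝔫.ne_top, by simp [B.one_mem], by
    simp [B.one_mem]⟩

theorem h13g_unitAt_mul (𝔫 : Ideal B) [h𝔫 : 𝔫.IsPrime] {x y : F}
    (hx : h13g_UnitAt B 𝔫 x) (hy : h13g_UnitAt B 𝔫 y) : h13g_UnitAt B 𝔫 (x * y) := by
  obtain ⟨hx0, s, hs, h1, h2⟩ := hx
  obtain ⟨hy0, t, ht, h3, h4⟩ := hy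
  refine ⟨mul_ne_zero hx0 hy0, s * t, fun h => (h𝔫.mem_or_mem h).elim hs ht, ?_, ?_⟩
  · have e : ((s * t : B) : F) * (x * y) = ((s : F) * x) * ((t : F) * y) := by
      push_cast; ring
    rw [e]; exact B.mul_mem h1 h3
  · have e : ((s * t : B) : F) * (x * y)⁻¹ = ((s : F) * x⁻¹) * ((t : F) * y⁻¹) := by
      push_cast; rw [mul_inv]; ring
    rw [e]; exact B.mul_mem h2 h4

theorem h13g_unitAt_inLoc (hBV : ∀ x ∈ B, x ∈ V) (𝔫 : Ideal B) {x : F}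
    (hx : h13g_UnitAt B 𝔫 x) : h13g_InLoc B V 𝔫 x := by
  obtain ⟨-, s, hs, h1, -⟩ := hx
  exact ⟨s, hs, hBV _ h1⟩

theorem h13g_maxAt_inLoc (hBV : ∀ x ∈ B, x ∈ V) (𝔫 : Ideal B) {x : F}
    (hx : h13g_MaxAt B 𝔫 x) : h13g_InLoc B V 𝔫 x := by
  obtain ⟨s, hs, n, -, h⟩ := hx
  exact ⟨s, hs, by rw [h]; exact hBV _ n.2⟩

/-- `B_𝔫` is local. -/
theorem h13g_unitAt_add_maxAt (𝔫 : Ideal B) [h𝔫 : 𝔫.IsPrime] {c y : F}
    (hc : h13g_UnitAt B 𝔫 c) (hy : h13g_MaxAt B 𝔫 y) : h13g_UnitAt B 𝔫 (c + y) := by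
  obtain ⟨hc0, s, hs, h1, h2⟩ := hc
  obtain ⟨t, ht, n, hn, hty⟩ := hy
  have hs0 : (s : F) ≠ 0 := by
    intro h
    have : s = 0 := Subtype.ext h
    exact hs (this ▸ 𝔫.zero_mem)
  have ht0 : (t : F) ≠ 0 := by
    intro h
    have : t = 0 := Subtype.ext h
    exact ht (this ▸ 𝔫.zero_mem)
  -- `β = s c`, `β' = s c⁻¹`, `β β' = s ^ 2`
  set β : B := ⟨(s : F) * c, h1⟩ with hβ
  set β' : B := ⟨(s : F) * c⁻¹, h2⟩ with hβ'
  have hββ' : β * β' = s * s := by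
    apply Subtype.ext
    push_cast
    simp only [hβ, hβ']
    field_simp
  have hβ𝔫 : β ∉ 𝔫 := by
    intro h
    have : s * s ∈ 𝔫 := hββ' ▸ 𝔫.mul_mem_right β' h
    exact (h𝔫.mem_or_mem this).elim hs hs
  -- the numerator
  set ν : B := t * β + s * n with hν
  have hν𝔫 : ν ∉ 𝔫 := by
    intro h
    have h3 : t * β ∈ 𝔫 := by
      have : t * β = ν - s * n := by rw [hν]; ring
      rw [this]
      exact 𝔫.sub_mem h (𝔫.mul_mem_left s hn)
    exact (h𝔫.mem_or_mem h3).elim ht hβ𝔫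
  have hνF : (ν : F) = (s : F) * (t : F) * (c + y) := by
    rw [hν]
    push_cast
    rw [← hty]
    simp only [hβ]
    ring
  have hν0 : (ν : F) ≠ 0 := by
    intro h
    have : ν = 0 := Subtype.ext h
    exact hν𝔫 (this ▸ 𝔫.zero_mem)
  have hcy0 : c + y ≠ 0 := by
    intro h
    rw [h, mul_zero] at hνF
    exact hν0 hνF
  refine ⟨hcy0, s * t * ν, ?_, ?_, ?_⟩
  · intro h
    rcases h𝔫.mem_or_mem h with h' | h'
    · exact (h𝔫.mem_or_mem h').elim hs ht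
    · exact hν𝔫 h'
  · have e : ((s * t * ν : B) : F) * (c + y) = ((ν * ν : B) : F) := by
      push_cast
      rw [hνF]
      ring
    rw [e]
    exact (ν * ν).2
  · have e : ((s * t * ν : B) : F) * (c + y)⁻¹ = ((s * t * (s * t) : B) : F) := by
      push_cast
      rw [hνF]
      field_simp
    rw [e]
    exact (s * t * (s * t)).2

section Ring

variable (hBV : ∀ x ∈ B, x ∈ V) (𝔫 : Ideal B) [h𝔫 : 𝔫.IsPrime]

/-- the semi-local ring of the components of the special fibre through `𝔫`. -/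
def h13gLocV : Subring F where
  carrier := {x | h13g_InLoc B V 𝔫 x}
  mul_mem' := fun hx hy => h13g_inLoc_mul 𝔫 hx hy
  one_mem' := h13g_inLoc_one 𝔫
  add_mem' := fun hx hy => h13g_inLoc_add hBV 𝔫 hx hy
  zero_mem' := h13g_inLoc_of_mem 𝔫 V.zero_mem
  neg_mem' := by
    rintro x ⟨c, hc, h⟩
    exact ⟨c, hc, by rw [mul_neg]; exact V.neg_mem h⟩

theorem h13g_mem_locV (x : F) : x ∈ h13gLocV hBV 𝔫 ↔ h13g_InLoc B V 𝔫 x := Iff.rfl

end Ring

section Main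

variable (hBV : ∀ x ∈ B, x ∈ V) (𝔫 : Ideal B) [h𝔫 : 𝔫.IsPrime]

include hBV

theorem h13g_val_unit (W : Valuation F ℤᵐ⁰) (hWV : ∀ x ∈ V, W x ≤ 1)
    (hWc : ∀ b : B, W (b : F) < 1 → b ∈ 𝔫) {s : B} (hs : s ∉ 𝔫) : W (s : F) = 1 :=
  le_antisymm (hWV _ (hBV _ s.2)) (not_lt.mp fun h => hs (hWc s h))

theorem h13g_val_le_one (W : Valuation F ℤᵐ⁰) (hWV : ∀ x ∈ V, W x ≤ 1)
    (hWc : ∀ b : B, W (b : F) < 1 → b ∈ 𝔫) {x : F} (hx : h13g_InLoc B V 𝔫 x) : W x ≤ 1 := by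
  obtain ⟨c, hc, hcx⟩ := hx
  have := hWV _ hcx
  rwa [map_mul, h13g_val_unit hBV 𝔫 W hWV hWc hc, one_mul] at this

/-- the units of `B_𝔫`, as a submonoid of the semi-local ring. -/
def h13gLocU : Submonoid (h13gLocV hBV 𝔫) where
  carrier := {x | h13g_UnitAt B 𝔫 (x : F)}
  mul_mem' := fun {x y} hx hy => by
    change h13g_UnitAt B 𝔫 ((x * y : h13gLocV hBV 𝔫) : F)
    push_cast
    exact h13g_unitAt_mul 𝔫 hx hy
  one_mem' := by
    change h13g_UnitAt B 𝔫 ((1 : h13gLocV hBV 𝔫) : F)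
    push_cast
    exact h13g_unitAt_one 𝔫

/-- the ideal `π V_𝔫` of the semi-local ring. -/
def h13gLocQ (π : A) : Ideal (h13gLocV hBV 𝔫) where
  carrier := {x | h13g_CongAt B V 𝔫 π (x : F)}
  add_mem' := by
    rintro x y ⟨s, hs, hsx⟩ ⟨t, ht, hty⟩
    refine ⟨s * t, fun h => (h𝔫.mem_or_mem h).elim hs ht, ?_⟩
    obtain ⟨u, hu, hue⟩ := hsx
    obtain ⟨u', hu', hue'⟩ := hty
    refine ⟨(t : F) * u + (s : F) * u', V.add_mem (V.mul_mem (hBV _ t.2) hu)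
      (V.mul_mem (hBV _ s.2) hu'), ?_⟩
    have e : ((s * t : B) : F) * ((x + y : h13gLocV hBV 𝔫) : F) =
        (t : F) * ((s : F) * (x : F)) + (s : F) * ((t : F) * (y : F)) := by
      push_cast; ring
    rw [e, hue, hue']
    ring
  zero_mem' := ⟨1, (Ideal.ne_top_iff_one 𝔫).mp h𝔫.ne_top, 0, V.zero_mem, by simp⟩
  smul_mem' := by
    rintro a x ⟨s, hs, u, hu, hue⟩
    obtain ⟨c, hc, hca⟩ := a.2
    refine ⟨c * s, fun h => (h𝔫.mem_or_mem h).elim hc hs, ((c : F) * (a : F)) * u,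
      V.mul_mem hca hu, ?_⟩
    have e : ((c * s : B) : F) * ((a • x : h13gLocV hBV 𝔫) : F) =
        ((c : F) * (a : F)) * ((s : F) * (x : F)) := by
      rw [smul_eq_mul]
      push_cast; ring
    rw [e, hue]
    ring

/-- congruence modulo `π` along one branch, as an ideal of the semi-local ring. -/
def h13gLocJ (π : A) (W : Valuation F ℤᵐ⁰) (hWV : ∀ x ∈ V, W x ≤ 1)
    (hWc : ∀ b : B, W (b : F) < 1 → b ∈ 𝔫) : Ideal (h13gLocV hBV 𝔫) where
  carrier := {x | W (x : F) ≤ W (algebraMap A F π)}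
  add_mem' := by
    intro x y hx hy
    change W ((x + y : h13gLocV hBV 𝔫) : F) ≤ _
    push_cast
    exact (W.map_add _ _).trans (max_le hx hy)
  zero_mem' := by
    change W ((0 : h13gLocV hBV 𝔫) : F) ≤ _
    simp
  smul_mem' := by
    intro a x hx
    change W ((a • x : h13gLocV hBV 𝔫) : F) ≤ _
    rw [smul_eq_mul]
    push_cast
    rw [map_mul]
    exact (mul_le_mul' (h13g_val_le_one hBV 𝔫 W hWV hWc a.2) hx).trans (by rw [one_mul])

/-- **the semi-local datum of the gate from equal branch values.** -/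
theorem h13g_datum_of_branch
    (π : A) (hπ0 : algebraMap A F π ≠ 0) (q : ℕ) (hq : q.Prime) (hπq : π ∣ (q : A))
    {τ : Type*} [Finite τ] (W : τ → Valuation F ℤᵐ⁰)
    (hWV : ∀ i, ∀ x ∈ V, W i x ≤ 1)
    (hWc : ∀ i, ∀ b : B, W i (b : F) < 1 → b ∈ 𝔫)
    (hWloc : ∀ x : F, (∀ i, W i x ≤ 1) → h13g_InLoc B V 𝔫 x)
    (w : F) (hw0 : w ≠ 0) (hwU : w ∈ h26U π V) (r : ℕ) (hrq : Nat.Coprime r q)
    (g₀ : F) (hg₀ : g₀ ≠ 0) (hg₀loc : h13g_InLoc B V 𝔫 g₀)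
    (s₀ : B) (hs₀ : s₀ ∉ 𝔫)
    (h1 : (s₀ : F) * (w * (g₀ ^ r)⁻¹) ∈ B) (h2 : (s₀ : F) * (g₀ ^ r * w⁻¹) ∈ B)
    (c : F) (hc : h13g_UnitAt B 𝔫 c)
    (y : τ → F) (hy : ∀ i, h13g_InLoc B V 𝔫 (y i))
    (hbr : ∀ i, W i (g₀ - c - y i) < 1)
    (K : ℕ) (hglue : ∀ k, K ≤ k → ∃ b : F, h13g_MaxAt B 𝔫 b ∧
      ∀ i, W i (b - y i ^ k) ≤ W i (algebraMap A F π)) :
    ∃ g : F, g ≠ 0 ∧ ∃ s : B, s ∉ 𝔫 ∧ (s : F) * (g - 1) ∈ h26mV π V ∧
      (s : F) * (w * (g ^ r)⁻¹) ∈ B ∧ (s : F) * (g ^ r * w⁻¹) ∈ B := by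
  classical
  have := Fintype.ofFinite τ
  -- the exponent `E`
  have hEex : ∀ i, ∃ E : ℕ, ∀ z : F, W i z < 1 → W i z ^ E ≤ W i (algebraMap A F π) := by
    intro i
    have hπi : W i (algebraMap A F π) ≠ 0 := (W i).ne_zero_iff.mpr hπ0
    obtain ⟨n, hn⟩ : ∃ n : ℤ, W i (algebraMap A F π) = exp n := ⟨_, (exp_log hπi).symm⟩
    refine ⟨(-n).toNat, fun z hz => ?_⟩
    rcases eq_or_ne (W i z) 0 with h0 | h0
    · rw [h0]
      rcases Nat.eq_zero_or_pos (-n).toNat with hE | hE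
      · rw [hE, pow_zero, hn]
        have : 0 ≤ n := by omega
        rw [← exp_zero]
        exact exp_le_exp.mpr this
      · rw [zero_pow hE.ne']
        exact zero_le
    · obtain ⟨k, hk⟩ : ∃ k : ℤ, W i z = exp k := ⟨_, (exp_log h0).symm⟩
      rw [hk, ← exp_zero, exp_lt_exp] at hz
      rw [hk, hn, ← exp_nsmul, exp_le_exp, nsmul_eq_mul]
      have h1 : ((-n).toNat : ℤ) * k ≤ ((-n).toNat : ℤ) * (-1) :=
        mul_le_mul_of_nonneg_left (by omega) (by positivity)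
      have h2 : -n ≤ ((-n).toNat : ℤ) := Int.self_le_toNat _
      linarith
  choose E' hE' using hEex
  set E : ℕ := Finset.univ.sup E' with hE
  have hEi : ∀ i, ∀ z : F, W i z < 1 → W i z ^ E ≤ W i (algebraMap A F π) := by
    intro i z hz
    have h3 : E' i ≤ E := Finset.le_sup (f := E') (Finset.mem_univ i)
    have h4 : W i z ^ E ≤ W i z ^ E' i := pow_le_pow_right_of_le_one' hz.le h3
    exact h4.trans (hE' i z hz)
  -- the ring data
  set S := h13gLocV hBV 𝔫 with hS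
  set Q : Ideal S := h13gLocQ hBV 𝔫 π with hQ
  set J : τ → Ideal S := fun i => h13gLocJ hBV 𝔫 π (W i) (hWV i) (hWc i) with hJ
  set U : Submonoid S := h13gLocU hBV 𝔫 with hU
  set M : Set S := {x | h13g_MaxAt B 𝔫 (x : F)} with hM
  have hone : (1 : B) ∉ 𝔫 := (Ideal.ne_top_iff_one 𝔫).mp h𝔫.ne_top
  have hqQ : (q : S) ∈ Q := by
    obtain ⟨a, ha⟩ := hπq
    refine ⟨1, hone, algebraMap A F a, hBV _ (B.algebraMap_mem a), ?_⟩
    have : ((q : S) : F) = algebraMap A F (q : A) := by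
      rw [map_natCast]
      push_cast
      rfl
    rw [this, ha, map_mul]
    simp
  have hQJ : ∀ i, Q ≤ J i := by
    rintro i x ⟨s, hs, u, hu, hue⟩
    change W i (x : F) ≤ W i (algebraMap A F π)
    have h3 : W i ((s : F) * (x : F)) = W i (x : F) := by
      rw [map_mul, h13g_val_unit hBV 𝔫 (W i) (hWV i) (hWc i) hs, one_mul]
    rw [← h3, hue, map_mul]
    exact (mul_le_mul' le_rfl (hWV i u hu)).trans (by rw [mul_one])
  have hJQ : ∀ x : S, (∀ i, x ∈ J i) → x ∈ Q := by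
    intro x hx
    have h3 : h13g_InLoc B V 𝔫 ((x : F) * (algebraMap A F π)⁻¹) := by
      refine hWloc _ fun i => ?_
      have h4 : W i (x : F) ≤ W i (algebraMap A F π) := hx i
      have hπi : W i (algebraMap A F π) ≠ 0 := (W i).ne_zero_iff.mpr hπ0
      rw [map_mul, map_inv₀]
      calc W i (x : F) * (W i (algebraMap A F π))⁻¹
          ≤ W i (algebraMap A F π) * (W i (algebraMap A F π))⁻¹ := mul_le_mul' h4 le_rfl
        _ = 1 := mul_inv_cancel₀ hπi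
    obtain ⟨s, hs, hsx⟩ := h3
    refine ⟨s, hs, _, hsx, ?_⟩
    field_simp
  have hUM : ∀ c ∈ U, ∀ y ∈ M, c + y ∈ U := by
    intro c hc y hy
    change h13g_UnitAt B 𝔫 ((c + y : S) : F)
    push_cast
    exact h13g_unitAt_add_maxAt 𝔫 hc hy
  -- the elements
  have hε : h13g_UnitAt B 𝔫 (w * (g₀ ^ r)⁻¹) := by
    refine ⟨mul_ne_zero hw0 (inv_ne_zero (pow_ne_zero r hg₀)), s₀, hs₀, h1, ?_⟩
    have e : (w * (g₀ ^ r)⁻¹)⁻¹ = g₀ ^ r * w⁻¹ := by
      rw [mul_inv, inv_inv, mul_comm]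
    rw [e]
    exact h2
  set G : S := ⟨g₀, hg₀loc⟩ with hG
  set u : S := ⟨w * (g₀ ^ r)⁻¹, h13g_unitAt_inLoc hBV 𝔫 hε⟩ with hu
  set cS : S := ⟨c, h13g_unitAt_inLoc hBV 𝔫 hc⟩ with hcS
  set yS : τ → S := fun i => ⟨y i, hy i⟩ with hyS
  have huU : u ∈ U := hε
  have hcU : cS ∈ U := hc
  have hGu : G ^ r * u - 1 ∈ Q := by
    obtain ⟨v, hv, hve⟩ := hwU
    refine ⟨1, hone, v, hv, ?_⟩
    have e : ((G ^ r * u - 1 : S) : F) = w - 1 := by
      push_cast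
      simp only [hG, hu]
      field_simp
    rw [e, hve]
    simp
  have hbrS : ∀ i, (G - cS - yS i) ^ E ∈ J i := by
    intro i
    change W i (((G - cS - yS i) ^ E : S) : F) ≤ W i (algebraMap A F π)
    push_cast
    rw [map_pow]
    exact hEi i _ (hbr i)
  have hglueS : ∀ k, K ≤ k → ∃ b ∈ M, ∀ i, b - yS i ^ k ∈ J i := by
    intro k hk
    obtain ⟨b, hb, hbi⟩ := hglue k hk
    refine ⟨⟨b, h13g_maxAt_inLoc hBV 𝔫 hb⟩, hb, fun i => ?_⟩
    change W i (((⟨b, h13g_maxAt_inLoc hBV 𝔫 hb⟩ - yS i ^ k : S)) : F) ≤ _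
    push_cast
    exact hbi i
  obtain ⟨η, hηU, hη⟩ := h13g_lemmaA_ring q hq r hrq Q hqQ J hQJ hJQ U M hUM G u huU hGu
    cS hcU yS E hbrS K hglueS
  obtain ⟨hη0, s₁, hs₁, hη1, hη2⟩ := hηU
  obtain ⟨s₂, hs₂, hcong⟩ := hη
  have e : ((G * η - 1 : S) : F) = g₀ * (η : F) - 1 := by
    push_cast
    rfl
  rw [e] at hcong
  exact h13g_semi_datum hBV 𝔫 π w r g₀ hg₀ s₀ hs₀ h1 h2 (η : F) hη0 s₁ hs₁ hη1 hη2 s₂ hs₂ hcong

end Main

end Fermat.Agent.S36
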