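import Fermat.Agent.S36.H13GateSemi
import Fermat.Agent.LGC.LocalDD89

/-!
# S36, block GATE (helper13): the semi-local datum of the gate from local principality

`B` a chart, `V` the (semi-local) Gauss ring, `𝔫` a closed point of the special fibre.

* `h13g_InLoc B V 𝔫 x` : `∃ c ∈ B ∖ 𝔫, c x ∈ V` ("`x` is integral at the components of the special
  fibre through `𝔫`");
* `h13g_unit_at` : a function which is a unit at the components through `𝔫` and at the places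
  centered at `𝔫` is a unit of `B_𝔫` (normality, in the form `hQEP` + `h26_stepC`);
* `h13g_factor` : **local factorisation** `w = ε g₀ ^ r`, `ε ∈ B_𝔫^×`, from local principality
  at `𝔫` (generators `G_i` of the horizontal primes through `𝔫` which are units at the
  components through `𝔫`; automatic if `B_𝔫` is factorial);
* `h13g_semi_datum` : the semi-local datum of `h13g_gate_asm_semi` from the local factorisation
  and a unit `η` of `B_𝔫` with `g₀ η ≡ 1` modulo `π` at the components through `𝔫`.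

No sections, no rationality of the places.
-/

set_option autoImplicit false
set_option linter.unusedSectionVars false

open WithZero IsLocalRing

namespace Fermat.Agent.S36

open Fermat.Agent.Red Fermat.Agent.LGC

variable {A : Type*} [CommRing A] [IsDomain A] [ValuationRing A]
  {F : Type*} [Field F] [Algebra A F]
  {B : Subalgebra A F} {V : Subring F} {ι : Type*} {v : ι → Valuation F ℤᵐ⁰}

/-- `x` is integral at the components of the special fibre through `𝔫`. -/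
def h13g_InLoc (B : Subalgebra A F) (V : Subring F) (𝔫 : Ideal B) (x : F) : Prop :=
  ∃ c : B, c ∉ 𝔫 ∧ (c : F) * x ∈ V

theorem h13g_inLoc_of_mem (𝔫 : Ideal B) [h𝔫 : 𝔫.IsPrime] {x : F} (hx : x ∈ V) :
    h13g_InLoc B V 𝔫 x :=
  ⟨1, (Ideal.ne_top_iff_one 𝔫).mp h𝔫.ne_top, by simpa using hx⟩

theorem h13g_inLoc_one (𝔫 : Ideal B) [h𝔫 : 𝔫.IsPrime] : h13g_InLoc B V 𝔫 1 :=
  h13g_inLoc_of_mem 𝔫 V.one_mem

theorem h13g_inLoc_mul (𝔫 : Ideal B) [h𝔫 : 𝔫.IsPrime] {x y : F}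
    (hx : h13g_InLoc B V 𝔫 x) (hy : h13g_InLoc B V 𝔫 y) : h13g_InLoc B V 𝔫 (x * y) := by
  obtain ⟨c, hc, hcx⟩ := hx
  obtain ⟨d, hd, hdy⟩ := hy
  refine ⟨c * d, fun h => (h𝔫.mem_or_mem h).elim hc hd, ?_⟩
  have e : ((c * d : B) : F) * (x * y) = ((c : F) * x) * ((d : F) * y) := by
    push_cast; ring
  rw [e]
  exact V.mul_mem hcx hdy

theorem h13g_inLoc_add (hBV : ∀ x ∈ B, x ∈ V) (𝔫 : Ideal B) [h𝔫 : 𝔫.IsPrime] {x y : F}
    (hx : h13g_InLoc B V 𝔫 x) (hy : h13g_InLoc B V 𝔫 y) : h13g_InLoc B V 𝔫 (x + y) := by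
  obtain ⟨c, hc, hcx⟩ := hx
  obtain ⟨d, hd, hdy⟩ := hy
  refine ⟨c * d, fun h => (h𝔫.mem_or_mem h).elim hc hd, ?_⟩
  have e : ((c * d : B) : F) * (x + y) = (d : F) * ((c : F) * x) + (c : F) * ((d : F) * y) := by
    push_cast; ring
  rw [e]
  exact V.add_mem (V.mul_mem (hBV _ d.2) hcx) (V.mul_mem (hBV _ c.2) hdy)

theorem h13g_inLoc_pow (𝔫 : Ideal B) [h𝔫 : 𝔫.IsPrime] {x : F}
    (hx : h13g_InLoc B V 𝔫 x) (n : ℕ) : h13g_InLoc B V 𝔫 (x ^ n) := by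
  induction n with
  | zero => rw [pow_zero]; exact h13g_inLoc_one 𝔫
  | succ n ih => rw [pow_succ]; exact h13g_inLoc_mul 𝔫 ih hx

theorem h13g_inLoc_zpow (𝔫 : Ideal B) [h𝔫 : 𝔫.IsPrime] {x : F}
    (hx : h13g_InLoc B V 𝔫 x) (hx' : h13g_InLoc B V 𝔫 x⁻¹) (n : ℤ) :
    h13g_InLoc B V 𝔫 (x ^ n) := by
  obtain ⟨k, rfl | rfl⟩ := n.eq_nat_or_neg
  · rw [zpow_natCast]; exact h13g_inLoc_pow 𝔫 hx k
  · rw [zpow_neg, zpow_natCast, ← inv_pow]; exact h13g_inLoc_pow 𝔫 hx' k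

theorem h13g_inLoc_prod (𝔫 : Ideal B) [h𝔫 : 𝔫.IsPrime] {α : Type*} (T : Finset α)
    (f : α → F) (hf : ∀ i ∈ T, h13g_InLoc B V 𝔫 (f i)) :
    h13g_InLoc B V 𝔫 (∏ i ∈ T, f i) := by
  classical
  induction T using Finset.induction_on with
  | empty => rw [Finset.prod_empty]; exact h13g_inLoc_one 𝔫
  | insert a T ha ih =>
    rw [Finset.prod_insert ha]
    exact h13g_inLoc_mul 𝔫 (hf a (Finset.mem_insert_self a T))
      (ih fun i hi => hf i (Finset.mem_insert_of_mem hi))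

/-- **units of `B_𝔫`**: a function which is a unit at the components through `𝔫` and at the
places centered at `𝔫` is a unit of `B_𝔫`. -/
theorem h13g_unit_at (hC : H26Chart B V v) (𝔫 : Ideal B) [h𝔫 : 𝔫.IsPrime] (u : F)
    (hu : h13g_InLoc B V 𝔫 u) (hu' : h13g_InLoc B V 𝔫 u⁻¹)
    (h1 : ∀ k, h26Centered B v 𝔫 k → v k u = 1) :
    ∃ s : B, s ∉ 𝔫 ∧ (s : F) * u ∈ B ∧ (s : F) * u⁻¹ ∈ B := by
  have key : ∀ x : F, h13g_InLoc B V 𝔫 x → (∀ k, h26Centered B v 𝔫 k → v k x ≤ 1) →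
      ∃ s : B, s ∉ 𝔫 ∧ (s : F) * x ∈ B := by
    intro x hx hx1
    obtain ⟨a, ha, s, hs, h⟩ := h26_stepC hC.hfin hC.hint hC.hB 𝔫 x hx1
    obtain ⟨c, hc, hcx⟩ := hx
    refine ⟨c * s, fun h => (h𝔫.mem_or_mem h).elim hc hs, ?_⟩
    have e : ((c * s : B) : F) * x = (s : F) * ((c : F) * x) := by push_cast; ring
    have hV : ((c * s : B) : F) * x ∈ V := by
      rw [e]; exact V.mul_mem (hC.hBV _ s.2) hcx
    refine hC.hQEP a ha _ hV ?_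
    have e2 : a • (((c * s : B) : F) * x) = (c : F) * (a • ((s : F) * x)) := by
      rw [Algebra.smul_def, Algebra.smul_def]; push_cast; ring
    rw [e2]
    exact B.mul_mem c.2 h
  obtain ⟨s₁, hs₁, h1'⟩ := key u hu (fun k hk => (h1 k hk).le)
  obtain ⟨s₂, hs₂, h2'⟩ := key u⁻¹ hu' (fun k hk => by rw [map_inv₀, h1 k hk, inv_one])
  refine ⟨s₁ * s₂, fun h => (h𝔫.mem_or_mem h).elim hs₁ hs₂, ?_, ?_⟩
  · have e : ((s₁ * s₂ : B) : F) * u = (s₂ : F) * ((s₁ : F) * u) := by push_cast; ring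
    rw [e]; exact B.mul_mem s₂.2 h1'
  · have e : ((s₁ * s₂ : B) : F) * u⁻¹ = (s₁ : F) * ((s₂ : F) * u⁻¹) := by push_cast; ring
    rw [e]; exact B.mul_mem s₁.2 h2'

/-- **local factorisation** at a closed point with local principality. -/
theorem h13g_factor (hC : H26Chart B V v) (𝔫 : Ideal B) [h𝔫 : 𝔫.IsPrime]
    (hLP : ∀ i, h26Centered B v 𝔫 i → ∃ G : F, h13g_InLoc B V 𝔫 G ∧ h13g_InLoc B V 𝔫 G⁻¹ ∧
      v i G = exp (-1 : ℤ) ∧ ∀ k, h26Centered B v 𝔫 k → k ≠ i → v k G = 1)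
    (w : F) (hw0 : w ≠ 0) (r : ℕ) (hrw : ∀ i, ∃ n : ℤ, v i w = exp (-((r : ℤ) * n)))
    (hw : h13g_InLoc B V 𝔫 w) (hw' : h13g_InLoc B V 𝔫 w⁻¹) :
    ∃ g₀ : F, g₀ ≠ 0 ∧ h13g_InLoc B V 𝔫 g₀ ∧ h13g_InLoc B V 𝔫 g₀⁻¹ ∧ ∃ s : B, s ∉ 𝔫 ∧
      (s : F) * (w * (g₀ ^ r)⁻¹) ∈ B ∧ (s : F) * (g₀ ^ r * w⁻¹) ∈ B := by
  classical
  have hex : ∀ i : ι, ∃ G : F, h26Centered B v 𝔫 i →
      h13g_InLoc B V 𝔫 G ∧ h13g_InLoc B V 𝔫 G⁻¹ ∧
      v i G = exp (-1 : ℤ) ∧ ∀ k, h26Centered B v 𝔫 k → k ≠ i → v k G = 1 := by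
    intro i
    by_cases hi : h26Centered B v 𝔫 i
    · obtain ⟨G, hG⟩ := hLP i hi
      exact ⟨G, fun _ => hG⟩
    · exact ⟨1, fun h => (hi h).elim⟩
  choose G hG using hex
  choose n hn using hrw
  set Z : Finset ι := (h26_finite_support hC w hw0).toFinset with hZ
  have hZmem : ∀ i, i ∈ Z ↔ v i w ≠ 1 := by
    intro i
    rw [hZ, Set.Finite.mem_toFinset]
    rfl
  set T : Finset ι := Z.filter (fun i => h26Centered B v 𝔫 i) with hT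
  have hTc : ∀ i ∈ T, h26Centered B v 𝔫 i := fun i hi => (Finset.mem_filter.mp hi).2
  set G₀ : F := ∏ i ∈ T, G i ^ (n i) with hG₀
  have hGT : ∀ i ∈ T, v i (G i) = exp (-1 : ℤ) ∧
      ∀ k, h26Centered B v 𝔫 k → k ≠ i → v k (G i) = 1 :=
    fun i hi => (hG i (hTc i hi)).2.2
  have hGi0 : ∀ i ∈ T, G i ≠ 0 := by
    intro i hi h0
    have h1 := (hGT i hi).1
    rw [h0, map_zero] at h1
    exact exp_ne_zero h1.symm
  have hG₀0 : G₀ ≠ 0 := by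
    rw [hG₀, Finset.prod_ne_zero_iff]
    exact fun i hi => zpow_ne_zero _ (hGi0 i hi)
  have hvG₀ : ∀ k, h26Centered B v 𝔫 k →
      (k ∈ T → v k G₀ = exp (-(n k))) ∧ (k ∉ T → v k G₀ = 1) :=
    fun k hk => h89d_val_prod T G n (fun i => h26Centered B v 𝔫 i) hGT k hk
  have hG₀loc : h13g_InLoc B V 𝔫 G₀ :=
    h13g_inLoc_prod 𝔫 T _ fun i hi =>
      h13g_inLoc_zpow 𝔫 (hG i (hTc i hi)).1 (hG i (hTc i hi)).2.1 (n i)
  have hG₀loc' : h13g_InLoc B V 𝔫 G₀⁻¹ := by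
    have e : G₀⁻¹ = ∏ i ∈ T, (G i)⁻¹ ^ (n i) := by
      rw [hG₀, ← Finset.prod_inv_distrib]
      exact Finset.prod_congr rfl fun i _ => by rw [inv_zpow]
    rw [e]
    exact h13g_inLoc_prod 𝔫 T _ fun i hi =>
      h13g_inLoc_zpow 𝔫 (hG i (hTc i hi)).2.1 (by rw [inv_inv]; exact (hG i (hTc i hi)).1) (n i)
  -- `u = w / G₀ ^ r` is a unit at `𝔫`
  have hval : ∀ k, h26Centered B v 𝔫 k → v k (w * (G₀ ^ r)⁻¹) = 1 := by
    intro k hk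
    rw [map_mul, map_inv₀, map_pow]
    by_cases hkT : k ∈ T
    · rw [(hvG₀ k hk).1 hkT, hn k, ← exp_nsmul, ← exp_neg, ← exp_add]
      have : -((r : ℤ) * n k) + -(r • -(n k)) = 0 := by
        simp
      rw [this, exp_zero]
    · rw [(hvG₀ k hk).2 hkT, one_pow, inv_one, mul_one]
      by_contra hne
      exact hkT (Finset.mem_filter.mpr ⟨(hZmem k).mpr hne, hk⟩)
  have huloc : h13g_InLoc B V 𝔫 (w * (G₀ ^ r)⁻¹) := by
    rw [← inv_pow]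
    exact h13g_inLoc_mul 𝔫 hw (h13g_inLoc_pow 𝔫 hG₀loc' r)
  have huloc' : h13g_InLoc B V 𝔫 (w * (G₀ ^ r)⁻¹)⁻¹ := by
    have e : (w * (G₀ ^ r)⁻¹)⁻¹ = w⁻¹ * G₀ ^ r := by
      rw [mul_inv, inv_inv]
    rw [e]
    exact h13g_inLoc_mul 𝔫 hw' (h13g_inLoc_pow 𝔫 hG₀loc r)
  obtain ⟨s, hs, h1, h2⟩ := h13g_unit_at hC 𝔫 _ huloc huloc' hval
  refine ⟨G₀, hG₀0, hG₀loc, hG₀loc', s, hs, h1, ?_⟩
  have e : G₀ ^ r * w⁻¹ = (w * (G₀ ^ r)⁻¹)⁻¹ := by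
    rw [mul_inv, inv_inv, mul_comm]
  rw [e]
  exact h2

/-- **the semi-local datum of the gate** from a local factorisation `w = ε g₀ ^ r` and a unit
`η` of `B_𝔫` with `g₀ η ≡ 1` modulo `π` at the components through `𝔫`. -/
theorem h13g_semi_datum (hBV : ∀ x ∈ B, x ∈ V) (𝔫 : Ideal B) [h𝔫 : 𝔫.IsPrime] (π : A)
    (w : F) (r : ℕ) (g₀ : F) (hg₀ : g₀ ≠ 0) (s₀ : B) (hs₀ : s₀ ∉ 𝔫)
    (h1 : (s₀ : F) * (w * (g₀ ^ r)⁻¹) ∈ B) (h2 : (s₀ : F) * (g₀ ^ r * w⁻¹) ∈ B)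
    (η : F) (hη0 : η ≠ 0) (s₁ : B) (hs₁ : s₁ ∉ 𝔫)
    (hη : (s₁ : F) * η ∈ B) (hη' : (s₁ : F) * η⁻¹ ∈ B)
    (s₂ : B) (hs₂ : s₂ ∉ 𝔫) (hcong : (s₂ : F) * (g₀ * η - 1) ∈ h26mV π V) :
    ∃ g : F, g ≠ 0 ∧ ∃ s : B, s ∉ 𝔫 ∧ (s : F) * (g - 1) ∈ h26mV π V ∧
      (s : F) * (w * (g ^ r)⁻¹) ∈ B ∧ (s : F) * (g ^ r * w⁻¹) ∈ B := by
  have hs : s₀ * s₁ ^ r * s₂ ∉ 𝔫 := by
    intro h
    rcases h𝔫.mem_or_mem h with h' | h'
    · rcases h𝔫.mem_or_mem h' with h'' | h''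
      · exact hs₀ h''
      · exact hs₁ (h𝔫.mem_of_pow_mem r h'')
    · exact hs₂ h'
  refine ⟨g₀ * η, mul_ne_zero hg₀ hη0, s₀ * s₁ ^ r * s₂, hs, ?_, ?_, ?_⟩
  · obtain ⟨y, hy, hye⟩ := hcong
    refine ⟨((s₀ * s₁ ^ r : B) : F) * y, V.mul_mem (hBV _ (s₀ * s₁ ^ r).2) hy, ?_⟩
    have e : ((s₀ * s₁ ^ r * s₂ : B) : F) * (g₀ * η - 1) =
        ((s₀ * s₁ ^ r : B) : F) * ((s₂ : F) * (g₀ * η - 1)) := by
      push_cast; ring
    rw [e, hye]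
    ring
  · have e : ((s₀ * s₁ ^ r * s₂ : B) : F) * (w * ((g₀ * η) ^ r)⁻¹) =
        (s₂ : F) * (((s₀ : F) * (w * (g₀ ^ r)⁻¹)) * ((s₁ : F) * η⁻¹) ^ r) := by
      push_cast
      rw [mul_pow, mul_pow, mul_inv, inv_pow]
      ring
    rw [e]
    exact B.mul_mem s₂.2 (B.mul_mem h1 (B.pow_mem hη' r))
  · have e : ((s₀ * s₁ ^ r * s₂ : B) : F) * ((g₀ * η) ^ r * w⁻¹) =
        (s₂ : F) * (((s₀ : F) * (g₀ ^ r * w⁻¹)) * ((s₁ : F) * η) ^ r) := by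
      push_cast
      rw [mul_pow, mul_pow]
      ring
    rw [e]
    exact B.mul_mem s₂.2 (B.mul_mem h2 (B.pow_mem hη r))

end Fermat.Agent.S36
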