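import Mathlib

/-!
# S36, block REG (helper16): factoriality of a two-generator noetherian local ring

Elementary substitute for Auslander-Buchsbaum in dimension two (Mathlib only).

* `h16r_prime_eq_span` : Nakayama core.  `𝔭` a finitely generated prime, `x ∉ 𝔭` in the Jacobson
  radical, `f ∈ 𝔭` with `𝔭 ≤ (f) + (x)`; then `𝔭 = (f)`.
* `h16r_exists_span_of_maximal_principal` : in a noetherian local ring with principal maximal
  ideal every ideal is principal.
* `h16r_prime_principal` : `O` noetherian local, `𝔪 = (x, y)`, `𝔭` prime, `x ∉ 𝔭`; then `𝔭`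
  is principal.
* `h16r_ufd` : if moreover `O` is a domain and `x` is a prime element, `O` is a UFD.
* `h16r_exists_factor` : the local factorisation datum: in the situation of `h16r_ufd`, every
  nonzero `a` is `u * x ^ n * ∏ (generators of primes not containing x)`.
-/

set_option autoImplicit false

open IsLocalRing

namespace Fermat.Agent.S36

/-- **Nakayama core.** -/
theorem h16r_prime_eq_span {O : Type*} [CommRing O] (x f : O) (𝔭 : Ideal O) [h𝔭 : 𝔭.IsPrime]
    (hfg : 𝔭.FG) (hxJ : x ∈ Ideal.jacobson (⊥ : Ideal O)) (hx : x ∉ 𝔭) (hf : f ∈ 𝔭)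
    (hle : 𝔭 ≤ Ideal.span {f} ⊔ Ideal.span {x}) : 𝔭 = Ideal.span {f} := by
  apply le_antisymm
  · have h1 : 𝔭 ≤ Ideal.span {f} ⊔ Ideal.span {x} • 𝔭 := by
      intro p hp
      obtain ⟨a, ha, b, hb, hab⟩ := Submodule.mem_sup.mp (hle hp)
      obtain ⟨c, rfl⟩ := Ideal.mem_span_singleton'.mp ha
      obtain ⟨d, rfl⟩ := Ideal.mem_span_singleton'.mp hb
      have hdx : d * x ∈ 𝔭 := by
        have h2 : d * x = p - c * f := by rw [← hab]; ring
        rw [h2]; exact 𝔭.sub_mem hp (𝔭.mul_mem_left _ hf)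
      have hd : d ∈ 𝔭 := (h𝔭.mem_or_mem hdx).resolve_right hx
      refine Submodule.mem_sup.mpr
        ⟨c * f, Ideal.mem_span_singleton'.mpr ⟨c, rfl⟩, d * x, ?_, hab⟩
      rw [mul_comm]
      exact Ideal.mul_mem_mul (Ideal.mem_span_singleton_self x) hd
    exact Submodule.le_of_le_smul_of_le_jacobson_bot hfg
      ((Ideal.span_singleton_le_iff_mem _).mpr hxJ) h1
  · exact (Ideal.span_singleton_le_iff_mem _).mpr hf

/-- in a noetherian local ring with principal maximal ideal every ideal is principal. -/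
theorem h16r_exists_span_of_maximal_principal {R : Type*} [CommRing R] [IsLocalRing R]
    [IsNoetherianRing R] (y : R) (hy : maximalIdeal R = Ideal.span {y}) (I : Ideal R) :
    ∃ g ∈ I, I = Ideal.span {g} := by
  classical
  by_cases hI : I = ⊥
  · exact ⟨0, I.zero_mem, by simp [hI]⟩
  have hinf := Ideal.iInf_pow_eq_bot_of_isLocalRing (maximalIdeal R) Ideal.IsPrime.ne_top'
  have hex : ∃ n, ¬ I ≤ maximalIdeal R ^ n := by
    by_contra h
    simp only [not_exists, not_not] at h
    apply hI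
    rw [eq_bot_iff, ← hinf]
    exact le_iInf h
  have hn : ¬ I ≤ maximalIdeal R ^ Nat.find hex := Nat.find_spec hex
  have hn0 : Nat.find hex ≠ 0 := by
    intro h0
    apply hn
    rw [h0, pow_zero, Ideal.one_eq_top]
    exact le_top
  obtain ⟨k, hk⟩ := Nat.exists_eq_succ_of_ne_zero hn0
  have hk' : I ≤ maximalIdeal R ^ k := by
    by_contra h
    exact Nat.find_min hex (by omega : k < Nat.find hex) h
  have hpow : ∀ m, maximalIdeal R ^ m = Ideal.span {y ^ m} := fun m => by
    rw [hy, Ideal.span_singleton_pow]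
  obtain ⟨i, hiI, hi⟩ := SetLike.not_le_iff_exists.mp hn
  have hik := hk' hiI
  rw [hpow] at hik
  obtain ⟨u, hu⟩ := Ideal.mem_span_singleton'.mp hik
  have hu_unit : IsUnit u := by
    by_contra hnu
    have hum : u ∈ maximalIdeal R := (IsLocalRing.mem_maximalIdeal u).mpr hnu
    rw [hy] at hum
    obtain ⟨c, rfl⟩ := Ideal.mem_span_singleton'.mp hum
    apply hi
    rw [hk, hpow]
    refine Ideal.mem_span_singleton'.mpr ⟨c, ?_⟩
    rw [← hu, pow_succ]
    ring
  have hyk : y ^ k ∈ I := by
    have h1 : y ^ k = ↑(hu_unit.unit⁻¹) * i := by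
      rw [← hu, ← mul_assoc, IsUnit.val_inv_mul, one_mul]
    rw [h1]
    exact I.mul_mem_left _ hiI
  refine ⟨y ^ k, hyk, le_antisymm ?_ ?_⟩
  · rw [← hpow]; exact hk'
  · exact (Ideal.span_singleton_le_iff_mem _).mpr hyk

/-- **Factoriality lemma.**  `O` noetherian local with maximal ideal `(x, y)`, `𝔭` a prime not
containing `x`: then `𝔭` is principal. -/
theorem h16r_prime_principal {O : Type*} [CommRing O] [IsLocalRing O] [IsNoetherianRing O]
    (x y : O) (hm : maximalIdeal O = Ideal.span {x, y}) (𝔭 : Ideal O) [h𝔭 : 𝔭.IsPrime]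
    (hx : x ∉ 𝔭) : ∃ f ∈ 𝔭, 𝔭 = Ideal.span {f} := by
  classical
  have hxm : x ∈ maximalIdeal O := by
    rw [hm]; exact Ideal.subset_span (by simp)
  have hym : y ∈ maximalIdeal O := by
    rw [hm]; exact Ideal.subset_span (by simp)
  have hne : Ideal.span {x} ≠ ⊤ := by
    intro h
    have h1 : (1 : O) ∈ Ideal.span {x} := by rw [h]; trivial
    have h2 : (1 : O) ∈ maximalIdeal O :=
      ((Ideal.span_singleton_le_iff_mem _).mpr hxm) h1
    exact (Ideal.ne_top_iff_one _).mp Ideal.IsPrime.ne_top' h2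
  let R := O ⧸ Ideal.span {x}
  have : Nontrivial R := Ideal.Quotient.nontrivial_iff.mpr hne
  have : IsLocalRing R :=
    IsLocalRing.of_surjective' (Ideal.Quotient.mk (Ideal.span {x})) Ideal.Quotient.mk_surjective
  have hyR : maximalIdeal R = Ideal.span {Ideal.Quotient.mk (Ideal.span {x}) y} := by
    apply le_antisymm
    · intro r hr
      obtain ⟨o, rfl⟩ := Ideal.Quotient.mk_surjective r
      have ho : o ∈ maximalIdeal O := by
        rw [IsLocalRing.mem_maximalIdeal, mem_nonunits_iff]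
        intro hu
        exact (IsLocalRing.mem_maximalIdeal _).mp hr (hu.map _)
      rw [hm, Ideal.mem_span_pair] at ho
      obtain ⟨a, b, rfl⟩ := ho
      refine Ideal.mem_span_singleton'.mpr ⟨Ideal.Quotient.mk _ b, ?_⟩
      rw [map_add, map_mul, map_mul]
      have hx0 : Ideal.Quotient.mk (Ideal.span {x}) x = 0 :=
        Ideal.Quotient.eq_zero_iff_mem.mpr (Ideal.mem_span_singleton_self x)
      rw [hx0, mul_zero, zero_add]
    · rw [Ideal.span_singleton_le_iff_mem, IsLocalRing.mem_maximalIdeal, mem_nonunits_iff]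
      intro hu
      obtain ⟨c, hc⟩ := hu.exists_right_inv
      obtain ⟨c', rfl⟩ := Ideal.Quotient.mk_surjective c
      rw [← map_mul, ← map_one (Ideal.Quotient.mk (Ideal.span {x})), Ideal.Quotient.eq] at hc
      have h1 : y * c' - 1 ∈ maximalIdeal O :=
        ((Ideal.span_singleton_le_iff_mem _).mpr hxm) hc
      have h2 : (1 : O) ∈ maximalIdeal O := by
        have h3 : (1 : O) = y * c' - (y * c' - 1) := by ring
        rw [h3]
        exact (maximalIdeal O).sub_mem ((maximalIdeal O).mul_mem_right _ hym) h1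
      exact (Ideal.ne_top_iff_one _).mp Ideal.IsPrime.ne_top' h2
  obtain ⟨g, hgI, hg⟩ := h16r_exists_span_of_maximal_principal _ hyR
    (𝔭.map (Ideal.Quotient.mk (Ideal.span {x})))
  obtain ⟨f, hf, rfl⟩ :=
    (Ideal.mem_map_iff_of_surjective _ Ideal.Quotient.mk_surjective).mp hgI
  refine ⟨f, hf, h16r_prime_eq_span x f 𝔭 (IsNoetherian.noetherian 𝔭) ?_ hx hf ?_⟩
  · rw [IsLocalRing.jacobson_eq_maximalIdeal ⊥ bot_ne_top]
    exact hxm
  · intro p hp
    have h1 : Ideal.Quotient.mk (Ideal.span {x}) p ∈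
        𝔭.map (Ideal.Quotient.mk (Ideal.span {x})) := Ideal.mem_map_of_mem _ hp
    rw [hg] at h1
    obtain ⟨c, hc⟩ := Ideal.mem_span_singleton'.mp h1
    obtain ⟨c', rfl⟩ := Ideal.Quotient.mk_surjective c
    rw [← map_mul, Ideal.Quotient.eq] at hc
    refine Submodule.mem_sup.mpr ⟨c' * f, Ideal.mem_span_singleton'.mpr ⟨c', rfl⟩,
      p - c' * f, ?_, by ring⟩
    have h2 : p - c' * f = -(c' * f - p) := by ring
    rw [h2]
    exact (Ideal.span {x}).neg_mem hc

/-- **the local rings of the model are factorial.** -/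
theorem h16r_ufd {O : Type*} [CommRing O] [IsDomain O] [IsLocalRing O] [IsNoetherianRing O]
    (x y : O) (hm : maximalIdeal O = Ideal.span {x, y}) (hx : Prime x) :
    UniqueFactorizationMonoid O := by
  refine UniqueFactorizationMonoid.iff_exists_prime_mem_of_isPrime.mpr fun I hI hIp => ?_
  by_cases hxI : x ∈ I
  · exact ⟨x, hxI, hx⟩
  · obtain ⟨f, hf, hIf⟩ := h16r_prime_principal x y hm I hxI
    refine ⟨f, hf, ?_⟩
    have hf0 : f ≠ 0 := by
      rintro rfl
      apply hI
      rw [hIf]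
      simp
    rw [← Ideal.span_singleton_prime hf0, ← hIf]
    exact hIp

end Fermat.Agent.S36
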