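import Mathlib

/-!
# S36, block (G) (helper16): the LOCAL LEMMA of the gate (blueprint BP5), abstract form

Mathlib only.

* `h16g_local_lemma` : `R` a local ring, `S` an `R`-algebra, `φ ∈ S` with `φ ^ m = u ∈ R`,
  `u ≡ 1` modulo `𝔪_R`, `m` a unit of `R`.  If `φ - 1` lies in the Jacobson radical of `R[φ]`,
  then `φ` lies in the image of `R`.
* `h16g_glue` : the same conclusion from **branch data**: finitely many ideals `K a` of `S`
  (the branches through the point) whose product is nilpotent, and on every branch `φ` agrees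
  with an element of `R` which is `≡ 1` modulo `𝔪_R`.
-/

set_option autoImplicit false

open IsLocalRing

namespace Fermat.Agent.S36

section

variable {R S : Type*} [CommRing R] [CommRing S] [Algebra R S]

/-- geometric sum identity `φ ^ m - 1 = (φ - 1) * ∑_{i < m} φ ^ i`. -/
theorem h16g_geom (φ : S) (m : ℕ) :
    φ ^ m - 1 = (φ - 1) * ∑ i ∈ Finset.range m, φ ^ i := by
  rw [mul_comm]
  exact (geom_sum_mul φ m).symm

/-- `∑_{i < m} φ ^ i - m ∈ (φ - 1)`. -/
theorem h16g_geom_sub (φ : S) (m : ℕ) :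
    ∃ c : S, ∑ i ∈ Finset.range m, φ ^ i = (m : S) + (φ - 1) * c := by
  induction m with
  | zero => exact ⟨0, by simp⟩
  | succ n ih =>
    obtain ⟨c, hc⟩ := ih
    have h2 : φ ^ n = 1 + (φ - 1) * ∑ i ∈ Finset.range n, φ ^ i := by
      have h1 := h16g_geom φ n
      linear_combination h1
    refine ⟨c + ∑ i ∈ Finset.range n, φ ^ i, ?_⟩
    rw [Finset.sum_range_succ]
    push_cast
    linear_combination hc + h2

/-- **LOCAL LEMMA.** -/
theorem h16g_local_lemma [IsLocalRing R] (φ : S) (m : ℕ) (hmu : IsUnit (m : R))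
    (u : R) (hu : φ ^ m = algebraMap R S u) (hu1 : u - 1 ∈ maximalIdeal R)
    (hjac : (⟨φ, Algebra.self_mem_adjoin_singleton R φ⟩ - 1 : Algebra.adjoin R {φ}) ∈
      Ideal.jacobson (⊥ : Ideal (Algebra.adjoin R {φ}))) :
    ∃ r : R, algebraMap R S r = φ := by
  classical
  set S' := Algebra.adjoin R {φ} with hS'
  set φ' : S' := ⟨φ, Algebra.self_mem_adjoin_singleton R φ⟩ with hφ'
  have hm0 : m ≠ 0 := by
    rintro rfl
    simp only [Nat.cast_zero, isUnit_zero_iff] at hmu
    exact zero_ne_one hmu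
  -- `φ'` is integral, `S'` is a finite `R`-module
  have hφpow : φ' ^ m = algebraMap R S' u := by
    apply Subtype.ext
    simp [hφ', hu]
  have hint : IsIntegral R φ := by
    refine ⟨Polynomial.X ^ m - Polynomial.C u, Polynomial.monic_X_pow_sub_C u hm0, ?_⟩
    simp [hu]
  have hfin : Module.Finite R S' := by
    have : (Algebra.adjoin R {φ}).toSubmodule.FG := hint.fg_adjoin_singleton
    exact Module.Finite.of_fg this
  -- the geometric sum is a unit of `S'`
  obtain ⟨c, hc⟩ := h16g_geom_sub φ' m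
  have hT : IsUnit (∑ i ∈ Finset.range m, φ' ^ i) := by
    rw [hc]
    have hmS : IsUnit ((m : S')) := by
      have := hmu.map (algebraMap R S')
      simpa using this
    obtain ⟨w, hw⟩ := hmS
    have h1 : (φ' - 1) * c * ↑w⁻¹ ∈ Ideal.jacobson (⊥ : Ideal S') :=
      Ideal.mul_mem_right _ _ (Ideal.mul_mem_right _ _ hjac)
    have h2 := (Ideal.mem_jacobson_bot.mp h1) 1
    have h3 : (m : S') + (φ' - 1) * c = ↑w * ((φ' - 1) * c * ↑w⁻¹ * 1 + 1) := by
      rw [mul_add, mul_one, mul_one, hw]
      have : (m : S') * ((φ' - 1) * c * ↑w⁻¹) = (φ' - 1) * c * ((m : S') * ↑w⁻¹) := by ring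
      rw [this, ← hw, Units.mul_inv, mul_one, add_comm]
    rw [h3]
    exact w.isUnit.mul h2
  -- `φ' - 1 ∈ 𝔪_R S'`
  have hφ1 : φ' - 1 ∈ (maximalIdeal R).map (algebraMap R S') := by
    obtain ⟨T, hT'⟩ := hT
    have h1 : φ' - 1 = algebraMap R S' (u - 1) * ↑T⁻¹ := by
      have h2 : algebraMap R S' (u - 1) = (φ' - 1) * ↑T := by
        rw [map_sub, map_one, ← hφpow, hT', h16g_geom]
      rw [h2, mul_assoc, Units.mul_inv, mul_one]
    rw [h1]
    exact Ideal.mul_mem_right _ _ (Ideal.mem_map_of_mem _ hu1)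
  -- Nakayama
  have hle : (⊤ : Submodule R S') ≤
      LinearMap.range (Algebra.linearMap R S') ⊔ (maximalIdeal R) • (⊤ : Submodule R S') := by
    rw [Ideal.smul_top_eq_map]
    intro z _
    -- every element of `S'` is `≡` an element of `R` modulo `𝔪_R S'`
    have key : ∀ z : S', ∃ r : R, z - algebraMap R S' r ∈
        (maximalIdeal R).map (algebraMap R S') := by
      intro z
      obtain ⟨z, hz⟩ := z
      induction hz using Algebra.adjoin_induction with
      | mem x hx =>
        rw [Set.mem_singleton_iff] at hx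
        subst hx
        exact ⟨1, by rw [map_one]; exact hφ1⟩
      | algebraMap r =>
        refine ⟨r, ?_⟩
        have : (⟨algebraMap R S r, Subalgebra.algebraMap_mem _ r⟩ : S') = algebraMap R S' r :=
          rfl
        rw [this, sub_self]
        exact Ideal.zero_mem _
      | add x y hx hy ihx ihy =>
        obtain ⟨a, ha⟩ := ihx
        obtain ⟨b, hb⟩ := ihy
        refine ⟨a + b, ?_⟩
        have : (⟨x + y, Subalgebra.add_mem _ hx hy⟩ : S') - algebraMap R S' (a + b) =
            ((⟨x, hx⟩ : S') - algebraMap R S' a) + ((⟨y, hy⟩ : S') - algebraMap R S' b) := by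
          rw [map_add]
          apply Subtype.ext
          simp only [Subalgebra.coe_sub, Subalgebra.coe_add]
          ring
        rw [this]
        exact Ideal.add_mem _ ha hb
      | mul x y hx hy ihx ihy =>
        obtain ⟨a, ha⟩ := ihx
        obtain ⟨b, hb⟩ := ihy
        refine ⟨a * b, ?_⟩
        have : (⟨x * y, Subalgebra.mul_mem _ hx hy⟩ : S') - algebraMap R S' (a * b) =
            ((⟨x, hx⟩ : S') - algebraMap R S' a) * (⟨y, hy⟩ : S') +
              algebraMap R S' a * ((⟨y, hy⟩ : S') - algebraMap R S' b) := by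
          rw [map_mul]
          apply Subtype.ext
          simp only [Subalgebra.coe_sub, Subalgebra.coe_add, Subalgebra.coe_mul]
          ring
        rw [this]
        exact Ideal.add_mem _ (Ideal.mul_mem_right _ _ ha) (Ideal.mul_mem_left _ _ hb)
    obtain ⟨r, hr⟩ := key z
    refine Submodule.mem_sup.mpr ⟨algebraMap R S' r, ⟨r, rfl⟩, z - algebraMap R S' r, ?_, by ring⟩
    exact hr
  have hN := Submodule.le_of_le_smul_of_le_jacobson_bot (R := R) (M := S')
    (I := maximalIdeal R) (N := LinearMap.range (Algebra.linearMap R S')) (N' := ⊤)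
    hfin.fg_top (by rw [IsLocalRing.jacobson_eq_maximalIdeal ⊥ bot_ne_top]) hle
  obtain ⟨r, hr⟩ := hN (Submodule.mem_top : φ' ∈ ⊤)
  refine ⟨r, ?_⟩
  have := congrArg (Subtype.val) hr
  simpa [hφ'] using this

/-- **GLUE.**  Branch form of the local lemma: `K a` are finitely many ideals of `S` (the
branches through the point) whose intersection consists of nilpotents, and on every branch `φ`
agrees with an element `r a` of `R` which is `≡ 1` modulo `𝔪_R`. -/
theorem h16g_glue [IsLocalRing R] {ι : Type*} [Fintype ι] (K : ι → Ideal S)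
    (hK : ∀ z : S, (∀ a, z ∈ K a) → IsNilpotent z)
    (φ : S) (m : ℕ) (hmu : IsUnit (m : R))
    (u : R) (hu : φ ^ m = algebraMap R S u) (hu1 : u - 1 ∈ maximalIdeal R)
    (hbr : ∀ a, ∃ r : R, r - 1 ∈ maximalIdeal R ∧ φ - algebraMap R S r ∈ K a) :
    ∃ r : R, algebraMap R S r = φ := by
  classical
  have hm0 : m ≠ 0 := by
    rintro rfl
    simp only [Nat.cast_zero, isUnit_zero_iff] at hmu
    exact zero_ne_one hmu
  refine h16g_local_lemma φ m hmu u hu hu1 ?_
  set S' := Algebra.adjoin R {φ} with hS'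
  set φ' : S' := ⟨φ, Algebra.self_mem_adjoin_singleton R φ⟩ with hφ'
  have hint : IsIntegral R φ := by
    refine ⟨Polynomial.X ^ m - Polynomial.C u, Polynomial.monic_X_pow_sub_C u hm0, ?_⟩
    simp [hu]
  have hintS' : Algebra.IsIntegral R S' := by
    have hfin : Module.Finite R S' := Module.Finite.of_fg hint.fg_adjoin_singleton
    infer_instance
  rw [Ideal.jacobson, Ideal.mem_sInf]
  rintro 𝔐 ⟨-, h𝔐⟩
  have h𝔐p : 𝔐.IsPrime := h𝔐.isPrime
  -- `𝔐` lies over `𝔪_R`
  have hcomap : 𝔐.comap (algebraMap R S') = maximalIdeal R := by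
    have h1 : (𝔐.comap (algebraMap R S')).IsMaximal :=
      Ideal.isMaximal_comap_of_isIntegral_of_isMaximal 𝔐
    exact IsLocalRing.eq_maximalIdeal h1
  -- some branch is contained in `𝔐`
  have hprod : (Finset.univ : Finset ι).prod (fun a => (K a).comap S'.val.toRingHom) ≤ 𝔐 := by
    intro z hz
    have hz' : ∀ a, z ∈ (K a).comap S'.val.toRingHom := by
      intro a
      have hle : (Finset.univ : Finset ι).prod (fun a => (K a).comap S'.val.toRingHom) ≤
          (K a).comap S'.val.toRingHom :=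
        Ideal.prod_le_inf.trans
          (Finset.inf_le (f := fun a => (K a).comap S'.val.toRingHom) (Finset.mem_univ a))
      exact hle hz
    have hnil : IsNilpotent (z : S) := hK z (fun a => by simpa using hz' a)
    obtain ⟨n, hn⟩ := hnil
    have hzn : z ^ n = 0 := by
      apply Subtype.ext
      simpa using hn
    exact h𝔐p.mem_of_pow_mem n (by rw [hzn]; exact 𝔐.zero_mem)
  obtain ⟨a, -, ha⟩ := (Ideal.IsPrime.prod_le h𝔐p).mp hprod
  obtain ⟨r, hr1, hr⟩ := hbr a
  have h1 : φ' - algebraMap R S' r ∈ 𝔐 := by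
    apply ha
    rw [Ideal.mem_comap]
    simpa [hφ'] using hr
  have h2 : algebraMap R S' (r - 1) ∈ 𝔐 := by
    rw [← Ideal.mem_comap, hcomap]
    exact hr1
  have h3 : φ' - 1 = (φ' - algebraMap R S' r) + algebraMap R S' (r - 1) := by
    rw [map_sub, map_one]; ring
  rw [h3]
  exact 𝔐.add_mem h1 h2

/-- the element produced by `h16g_glue` is a unit of `R`. -/
theorem h16g_glue_unit [IsLocalRing R] [Nontrivial S] (φ : S) (m : ℕ) (hm : m ≠ 0)
    (u : R) (hu : φ ^ m = algebraMap R S u) (hu1 : u - 1 ∈ maximalIdeal R)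
    (r : R) (hr : algebraMap R S r = φ) : IsUnit r := by
  by_contra hnu
  have hrm : r ∈ maximalIdeal R := (IsLocalRing.mem_maximalIdeal r).mpr hnu
  have h1 : r ^ m ∈ maximalIdeal R := Ideal.pow_mem_of_mem _ hrm m (Nat.pos_of_ne_zero hm)
  have h2 : IsUnit (u - r ^ m) := by
    by_contra h
    have h3 : u - r ^ m ∈ maximalIdeal R := (IsLocalRing.mem_maximalIdeal _).mpr h
    have h4 : (1 : R) ∈ maximalIdeal R := by
      have h5 : (1 : R) = (u - r ^ m) + r ^ m - (u - 1) := by ring
      rw [h5]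
      exact (maximalIdeal R).sub_mem ((maximalIdeal R).add_mem h3 h1) hu1
    exact (Ideal.ne_top_iff_one _).mp Ideal.IsPrime.ne_top' h4
  have h6 : algebraMap R S (u - r ^ m) = 0 := by
    rw [map_sub, map_pow, hr, hu, sub_self]
  have h7 := h2.map (algebraMap R S)
  rw [h6] at h7
  exact not_isUnit_zero h7

end

end Fermat.Agent.S36
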