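import Mathlib
import Fermat.Agent.Red.LocalFact
import Fermat.Agent.S36.H16Factorial

/-!
# S36, block REG (helper16): local principality at a two-generator closed point (chart form)

`h16r_lp_of_two_gen` : in the vocabulary of `Red/LocalFact.lean` (`H26Chart B V v`): let `𝔫` be
a prime of a noetherian chart `B` whose localisation has maximal ideal `(x, y)` (the chart is
regular at `𝔫`; NO constants are needed: the uniformiser of the base lies in `(x, y)`), and let
`i` be a place centered at `𝔫` at which `x` is a unit.  Then there is `G ∈ B` with a simple zero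
at `i` and no other zero among the places centered at `𝔫`.

This is the conclusion of `LGC.LPSmoothStatement` / `LGC.LPNodeStatement`, without sections
(the places need not be rational over the base).
-/

set_option autoImplicit false
set_option linter.unusedSectionVars false

open WithZero IsLocalRing

namespace Fermat.Agent.S36

open Fermat.Agent.Red

section Chart

variable {A : Type*} [CommRing A] [IsLocalRing A] {F : Type*} [Field F] [Algebra A F]
  {B : Subalgebra A F} {V : Subring F} {ι : Type*} {v : ι → Valuation F ℤᵐ⁰}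

/-- the centre of the place `i` on the chart `B`. -/
def h16rCentre (hB : ∀ b ∈ B, ∀ i, v i b ≤ 1) (i : ι) : Ideal B where
  carrier := {b | v i (b : F) < 1}
  add_mem' := by
    intro a b ha hb
    simp only [Set.mem_ofPred_eq] at ha hb ⊢
    push_cast
    exact lt_of_le_of_lt ((v i).map_add _ _) (max_lt ha hb)
  zero_mem' := by simp
  smul_mem' := by
    intro c b hb
    simp only [Set.mem_ofPred_eq, smul_eq_mul] at hb ⊢
    push_cast
    rw [map_mul]
    exact lt_of_le_of_lt (mul_le_of_le_one_left' (hB c c.2 i)) hb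

theorem h16r_mem_centre (hB : ∀ b ∈ B, ∀ i, v i b ≤ 1) (i : ι) (b : B) :
    b ∈ h16rCentre hB i ↔ v i (b : F) < 1 := Iff.rfl

theorem h16r_centre_isPrime (hB : ∀ b ∈ B, ∀ i, v i b ≤ 1) (i : ι) :
    (h16rCentre hB i).IsPrime := by
  refine ⟨?_, ?_⟩
  · rw [Ne, Ideal.eq_top_iff_one, h16r_mem_centre]
    simp
  · intro a b hab
    rw [h16r_mem_centre] at hab
    by_contra h
    push Not at h
    rw [h16r_mem_centre, h16r_mem_centre] at h
    have ha : v i (a : F) = 1 := le_antisymm (hB a a.2 i) (not_lt.mp h.1)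
    have hb : v i (b : F) = 1 := le_antisymm (hB b b.2 i) (not_lt.mp h.2)
    have : v i ((a * b : B) : F) = 1 := by
      push_cast
      rw [map_mul, ha, hb, one_mul]
    rw [this] at hab
    exact lt_irrefl _ hab

/-- **LP from regularity.** -/
theorem h16r_lp_of_two_gen (hC : H26Chart B V v) [IsNoetherianRing B]
    (𝔫 : Ideal B) [h𝔫 : 𝔫.IsPrime] (x y : B) (hx : x ∈ 𝔫) (hy : y ∈ 𝔫)
    (hgen : ∀ z ∈ 𝔫, ∃ s, s ∉ 𝔫 ∧ s * z ∈ Ideal.span {x, y})
    (i : ι) (hi : h26Centered B v 𝔫 i) (hxi : v i (x : F) = 1) :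
    ∃ G : B, v i (G : F) = exp (-1 : ℤ) ∧
      ∀ k, h26Centered B v 𝔫 k → k ≠ i → v k (G : F) = 1 := by
  classical
  have hB := hC.hB
  set 𝔭 : Ideal B := h16rCentre hB i with h𝔭def
  have h𝔭 : 𝔭.IsPrime := h16r_centre_isPrime hB i
  have h𝔭𝔫 : 𝔭 ≤ 𝔫 := fun b hb => hi b hb
  -- units of the valuations at the places centered at `𝔫`
  have hval1 : ∀ k, h26Centered B v 𝔫 k → ∀ s : B, s ∉ 𝔫 → v k (s : F) = 1 := by
    intro k hk s hs
    refine le_antisymm (hB s s.2 k) (not_lt.mp fun h => hs (hk s h))
  -- the local ring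
  let O := Localization.AtPrime 𝔫
  have hmO : maximalIdeal O = Ideal.span {algebraMap B O x, algebraMap B O y} := by
    rw [← Localization.AtPrime.map_eq_maximalIdeal]
    apply le_antisymm
    · rw [Ideal.map_le_iff_le_comap]
      intro z hz
      obtain ⟨s, hs, hsz⟩ := hgen z hz
      rw [Ideal.mem_comap]
      have hsu : IsUnit (algebraMap B O s) :=
        IsLocalization.map_units O (⟨s, hs⟩ : 𝔫.primeCompl)
      have h1 : algebraMap B O (s * z) ∈
          Ideal.span {algebraMap B O x, algebraMap B O y} := by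
        have h2 : Ideal.span {algebraMap B O x, algebraMap B O y} =
            (Ideal.span {x, y}).map (algebraMap B O) := by
          rw [Ideal.map_span]
          congr 1
          simp [Set.image_pair]
        rw [h2]
        exact Ideal.mem_map_of_mem _ hsz
      rw [map_mul] at h1
      have h3 : algebraMap B O z = ↑(hsu.unit⁻¹) * (algebraMap B O s * algebraMap B O z) := by
        rw [← mul_assoc, IsUnit.val_inv_mul, one_mul]
      rw [h3]
      exact Ideal.mul_mem_left _ _ h1
    · rw [Ideal.span_le]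
      intro z hz
      rcases hz with rfl | rfl
      · exact Ideal.mem_map_of_mem _ hx
      · exact Ideal.mem_map_of_mem _ hy
  have hdisj : Disjoint (𝔫.primeCompl : Set B) (𝔭 : Set B) := by
    rw [Set.disjoint_left]
    intro b hb hb'
    exact hb (h𝔭𝔫 hb')
  have hPprime : (𝔭.map (algebraMap B O)).IsPrime :=
    IsLocalization.isPrime_of_isPrime_disjoint 𝔫.primeCompl O 𝔭 h𝔭 hdisj
  have hcomap : (𝔭.map (algebraMap B O)).comap (algebraMap B O) = 𝔭 :=
    IsLocalization.under_map_of_isPrime_disjoint 𝔫.primeCompl O h𝔭 hdisj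
  have hxP : algebraMap B O x ∉ 𝔭.map (algebraMap B O) := by
    intro h
    have h1 : x ∈ (𝔭.map (algebraMap B O)).comap (algebraMap B O) := Ideal.mem_comap.mpr h
    rw [hcomap, h𝔭def, h16r_mem_centre, hxi] at h1
    exact lt_irrefl _ h1
  obtain ⟨f, hfP, hPf⟩ := h16r_prime_principal (algebraMap B O x) (algebraMap B O y) hmO
    (𝔭.map (algebraMap B O)) hxP
  -- a generator in `B`
  obtain ⟨G, s, hGs⟩ := IsLocalization.exists_mk'_eq 𝔫.primeCompl f
  have hsu : IsUnit (algebraMap B O (s : B)) := IsLocalization.map_units O s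
  have hGf : algebraMap B O G = f * algebraMap B O (s : B) := by
    rw [← hGs, IsLocalization.mk'_spec]
  have hGP : algebraMap B O G ∈ 𝔭.map (algebraMap B O) := by
    rw [hGf]
    exact Ideal.mul_mem_right _ _ hfP
  have hG𝔭 : G ∈ 𝔭 := by
    rw [← hcomap]
    exact Ideal.mem_comap.mpr hGP
  have hPG : 𝔭.map (algebraMap B O) = Ideal.span {algebraMap B O G} := by
    rw [hPf]
    apply le_antisymm
    · rw [Ideal.span_singleton_le_iff_mem]
      have h1 : f = algebraMap B O G * ↑(hsu.unit⁻¹) := by
        rw [hGf, mul_assoc, IsUnit.mul_val_inv, mul_one]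
      rw [h1]
      exact Ideal.mul_mem_right _ _ (Ideal.mem_span_singleton_self _)
    · rw [Ideal.span_singleton_le_iff_mem, hGf]
      exact Ideal.mul_mem_right _ _ (Ideal.mem_span_singleton_self _)
  -- every element of `𝔭` is locally a multiple of `G`
  have hdiv : ∀ b ∈ 𝔭, ∃ t : B, t ∉ 𝔫 ∧ ∃ c : B, t * b = c * G := by
    intro b hb
    have h1 : algebraMap B O b ∈ Ideal.span {algebraMap B O G} := by
      rw [← hPG]
      exact Ideal.mem_map_of_mem _ hb
    obtain ⟨c, hc⟩ := Ideal.mem_span_singleton'.mp h1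
    obtain ⟨c₀, t, hct⟩ := IsLocalization.exists_mk'_eq 𝔫.primeCompl c
    have h2 : algebraMap B O ((t : B) * b) = algebraMap B O (c₀ * G) := by
      rw [map_mul, map_mul, ← hc, ← hct, ← mul_assoc, mul_comm (algebraMap B O (t : B)),
        IsLocalization.mk'_spec]
    obtain ⟨t', ht'⟩ := (IsLocalization.eq_iff_exists 𝔫.primeCompl O).mp h2
    refine ⟨(t' : B) * (t : B), ?_, (t' : B) * c₀, ?_⟩
    · exact fun h => (h𝔫.mem_or_mem h).elim t'.2 t.2
    · rw [mul_assoc, ht', mul_assoc]
  have hGlt : v i (G : F) < 1 := hG𝔭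
  refine ⟨G, ?_, ?_⟩
  · obtain ⟨b, hb⟩ := hC.hunif i
    have hb𝔭 : b ∈ 𝔭 := by
      rw [h𝔭def, h16r_mem_centre, hb]
      exact exp_lt_exp.mpr (by norm_num) |>.trans_eq exp_zero
    obtain ⟨t, ht, c, hc⟩ := hdiv b hb𝔭
    have h1 : v i ((t : F) * (b : F)) = v i ((c : F) * (G : F)) := by
      have := congrArg (fun z : B => v i (z : F)) hc
      simpa using this
    rw [map_mul, map_mul, hval1 i hi t ht, one_mul, hb] at h1
    refine h26_eq_exp_neg_one ?_ hGlt
    rw [h1]
    exact mul_le_of_le_one_left' (hB c c.2 i)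
  · intro k hk hki
    by_contra hne
    have hlt : v k (G : F) < 1 := lt_of_le_of_ne (hB G G.2 k) hne
    apply hki
    symm
    apply hC.hinj i k
    intro b hb
    obtain ⟨t, ht, c, hc⟩ := hdiv b hb
    have h1 : v k ((t : F) * (b : F)) = v k ((c : F) * (G : F)) := by
      have := congrArg (fun z : B => v k (z : F)) hc
      simpa using this
    rw [map_mul, map_mul, hval1 k hk t ht, one_mul] at h1
    rw [h1]
    exact lt_of_le_of_lt (mul_le_of_le_one_left' (hB c c.2 k)) hlt

end Chart

end Fermat.Agent.S36
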