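import Fermat.Agent.S36.H66Chart
import Fermat.Agent.S36.H13LocSemi

/-!
# S36 / GATE: the semi-local datum of the gate from REG + TOR data (helper66)

`h66c_hloc` : at a closed point `𝔫` of the special fibre of a chart `B`, the datum `hloc` of
`h13g_gate_asm_semi` (`S36/H13GateSemi.lean`)

  `∃ g ≠ 0, ∃ s ∈ B ∖ 𝔫, s (g - 1) ∈ π V ∧ s w / g ^ r ∈ B ∧ s g ^ r / w ∈ B`

from a local factorisation `w = ε g₀ ^ r` (output of `h13g_factor`), the REG data of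
`h66c_semi` and the compatibility `hcomp` of the branch values of `g₀` (block TOR).
`h66c_hloc_unibranch` : the same at a point on one component (no `hcomp`).
-/

set_option autoImplicit false
set_option linter.unusedSectionVars false

open IsLocalRing

namespace Fermat.Agent.S36

open Fermat.Agent.Red

variable {A : Type*} [CommRing A] [IsDomain A] [ValuationRing A]
  {F : Type*} [Field F] [Algebra A F]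

/-- **the semi-local datum of the gate at a closed point**, from REG + TOR data. -/
theorem h66c_hloc (B : Subalgebra A F) (V : Subring F) (hBV : ∀ x ∈ B, x ∈ V) (𝔫 : Ideal B)
    [h𝔫 : 𝔫.IsPrime] (π : A) (q : ℕ) (hq : q.Prime)
    (πO : h66cO B 𝔫) (hπO : (πO : F) = algebraMap A F π) (hπq : πO ∣ (q : h66cO B 𝔫))
    {ι : Type*} [Fintype ι] (f : ι → h66cO B 𝔫) (e : ι → ℕ) (he : ∀ i, e i ≠ 0)
    (hprime : ∀ i, Prime (f i)) (hna : ∀ i j, i ≠ j → ¬ f i ∣ f j)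
    (hπ : Associated πO (∏ i, f i ^ e i))
    (hpair : ∀ i j, i ≠ j → ∃ n, maximalIdeal (h66cO B 𝔫) ^ n ≤ Ideal.span {f i, f j})
    (hval : ∀ i, ∀ x y : h66cO B 𝔫, (∃ t, f i ∣ y - x * t) ∨ (∃ t, f i ∣ x - y * t))
    (hden : ∀ v ∈ h66cV B V hBV 𝔫, ∃ s : h66cO B 𝔫, (∀ j, ¬ f j ∣ s) ∧ (s : F) * v ∈ h66cO B 𝔫)
    (hinv : ∀ s : h66cO B 𝔫, (∀ j, ¬ f j ∣ s) → ((s : F))⁻¹ ∈ h66cV B V hBV 𝔫)
    (r : ℕ) (hr : r.Coprime q)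
    (w : F) (hw0 : w ≠ 0) (hw : w ∈ h26U π V)
    (g₀ : F) (hg₀ : g₀ ≠ 0) (hg₀V : h13g_InLoc B V 𝔫 g₀)
    (s₀ : B) (hs₀ : s₀ ∉ 𝔫) (h1 : (s₀ : F) * (w * (g₀ ^ r)⁻¹) ∈ B)
    (h2 : (s₀ : F) * (g₀ ^ r * w⁻¹) ∈ B)
    (hcomp : ∀ a : ι → h66cO B 𝔫,
      (∀ i, ∃ y ∈ h66cV B V hBV 𝔫, g₀ = (a i : F) + (f i : F) * y) →
      ∀ i j, a i - a j ∈ maximalIdeal (h66cO B 𝔫)) :
    ∃ g : F, g ≠ 0 ∧ ∃ s : B, s ∉ 𝔫 ∧ (s : F) * (g - 1) ∈ h26mV π V ∧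
      (s : F) * (w * (g ^ r)⁻¹) ∈ B ∧ (s : F) * (g ^ r * w⁻¹) ∈ B := by
  obtain ⟨η, hη0, s₁, hs₁, hη, hη', s₂, hs₂, y, hy, hcong⟩ :=
    h66c_semi B V hBV 𝔫 π q hq πO hπO hπq f e he hprime hna hπ hpair hval hden hinv r hr w hw0
      hw g₀ hg₀ hg₀V s₀ hs₀ h1 h2 hcomp
  exact h13g_semi_datum hBV 𝔫 π w r g₀ hg₀ s₀ hs₀ h1 h2 η hη0 s₁ hs₁ hη hη' s₂ hs₂
    ⟨y, hy, hcong⟩

/-- **the semi-local datum of the gate at a closed point on one component** (REG data only). -/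
theorem h66c_hloc_unibranch (B : Subalgebra A F) (V : Subring F) (hBV : ∀ x ∈ B, x ∈ V)
    (𝔫 : Ideal B) [h𝔫 : 𝔫.IsPrime] (π : A) (q : ℕ) (hq : q.Prime)
    (πO : h66cO B 𝔫) (hπO : (πO : F) = algebraMap A F π) (hπq : πO ∣ (q : h66cO B 𝔫))
    (g : h66cO B 𝔫) (e : ℕ) (he : e ≠ 0) (hg : Prime g) (hπ : Associated πO (g ^ e))
    (hval : ∀ x y : h66cO B 𝔫, (∃ t, g ∣ y - x * t) ∨ (∃ t, g ∣ x - y * t))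
    (hden : ∀ v ∈ h66cV B V hBV 𝔫, ∃ s : h66cO B 𝔫, ¬ g ∣ s ∧ (s : F) * v ∈ h66cO B 𝔫)
    (hinv : ∀ s : h66cO B 𝔫, ¬ g ∣ s → ((s : F))⁻¹ ∈ h66cV B V hBV 𝔫)
    (r : ℕ) (hr : r.Coprime q)
    (w : F) (hw0 : w ≠ 0) (hw : w ∈ h26U π V)
    (g₀ : F) (hg₀ : g₀ ≠ 0) (hg₀V : h13g_InLoc B V 𝔫 g₀)
    (s₀ : B) (hs₀ : s₀ ∉ 𝔫) (h1 : (s₀ : F) * (w * (g₀ ^ r)⁻¹) ∈ B)
    (h2 : (s₀ : F) * (g₀ ^ r * w⁻¹) ∈ B) :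
    ∃ g' : F, g' ≠ 0 ∧ ∃ s : B, s ∉ 𝔫 ∧ (s : F) * (g' - 1) ∈ h26mV π V ∧
      (s : F) * (w * (g' ^ r)⁻¹) ∈ B ∧ (s : F) * (g' ^ r * w⁻¹) ∈ B := by
  obtain ⟨η, hη0, s₁, hs₁, hη, hη', s₂, hs₂, y, hy, hcong⟩ :=
    h66c_semi_unibranch B V hBV 𝔫 π q hq πO hπO hπq g e he hg hπ hval hden hinv r hr w hw0
      hw g₀ hg₀ hg₀V s₀ hs₀ h1 h2
  exact h13g_semi_datum hBV 𝔫 π w r g₀ hg₀ s₀ hs₀ h1 h2 η hη0 s₁ hs₁ hη hη' s₂ hs₂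
    ⟨y, hy, hcong⟩

end Fermat.Agent.S36
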