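import Mathlib
import Fermat.Agent.S36.H16RegLoc
import Fermat.Agent.S36.H16LPReg
import Fermat.Agent.S36.H66ChartGate

/-!
# S36, block LOC (helper16): local principality and the local factorisation from REG

Abstract (`Red/LocalFact` vocabulary `H26Chart B V v`, `H62RegAt`, `h13g_InLoc`).

* `h16l_lp_inLoc` : the hypothesis `hLP` of `h13g_factor` (`S36/H13LocSemi.lean`) at a closed
  point `𝔫` with `H62RegAt 𝔫 π`: every place `i` centered at `𝔫` has a generator `G ∈ B` with a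
  simple zero at `i`, no other zero among the places centered at `𝔫`, and `G`, `G⁻¹` integral at
  the components through `𝔫`.
* `h16l_factor` : the local factorisation `w = ε g₀ ^ r` at `𝔫`.
* `h16l_hloc_one` : **the semi-local datum of the gate at a one-branch closed point** from REG
  and the chart / Gauss ring compatibility at the vertical prime through `𝔫`.
-/

set_option autoImplicit false
set_option linter.unusedSectionVars false
set_option linter.style.haveILetI false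

open WithZero IsLocalRing

namespace Fermat.Agent.S36

open Fermat.Agent.Red Fermat.Agent.LGC

variable {A : Type*} [CommRing A] [IsDomain A] [ValuationRing A]
  {F : Type*} [Field F] [Algebra A F]
  {B : Subalgebra A F} {V : Subring F} {ι : Type*} {v : ι → Valuation F ℤᵐ⁰}

/-- **local principality with integrality at the components** from REG. -/
theorem h16l_lp_inLoc (hC : H26Chart B V v) [IsNoetherianRing B] (𝔫 : Ideal B)
    [h𝔫 : 𝔫.IsPrime] (π : B) (hπ0 : π ≠ 0) (hπv : ∀ i, v i (π : F) = 1)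
    (hreg : H62RegAt 𝔫 π)
    {κ : Type*} [Nonempty κ] (P : κ → Ideal B) (hPprime : ∀ j, (P j).IsPrime)
    (hπP : ∀ j, π ∈ P j) (hP𝔫 : ∀ j, P j ≤ 𝔫) (hPne : ∀ j, P j ≠ 𝔫)
    (hinv : ∀ s : B, (∀ j, s ∉ P j) → h13g_InLoc B V 𝔫 ((s : F))⁻¹) :
    ∀ i, h26Centered B v 𝔫 i → ∃ G : F, h13g_InLoc B V 𝔫 G ∧ h13g_InLoc B V 𝔫 G⁻¹ ∧
      v i G = exp (-1 : ℤ) ∧ ∀ k, h26Centered B v 𝔫 k → k ≠ i → v k G = 1 := by
  classical
  intro i hi
  haveI := h16l_isNoetherianRing B 𝔫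
  have hB := hC.hB
  -- the vertical primes are principal
  have hex : ∀ j, ∃ a b : h66cO B 𝔫, a ≠ 0 ∧ (P j).map (h16lIncl B 𝔫) = Ideal.span {a} ∧
      maximalIdeal (h66cO B 𝔫) = Ideal.span {a, b} ∧ ∀ n : ℕ, b ^ n ∉ Ideal.span {a} :=
    fun j =>
      haveI := hPprime j
      h16l_vertical_gen B 𝔫 π hπ0 hreg.two_gen (P j) (hπP j) (hP𝔫 j) (hPne j)
        (hreg.branch (P j) (hPprime j) (hπP j) (hP𝔫 j) (hPne j))
  choose f b hf0 hPf hm hnil using hex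
  have hprime : ∀ j, Prime (f j) := fun j =>
    (h80u_prime_of_two_gen (f j) (b j) (hf0 j) (hm j) (hnil j)).1
  -- the centre of the place `i`
  set 𝔭 : Ideal B := h16rCentre hB i with h𝔭def
  haveI h𝔭 : 𝔭.IsPrime := h16r_centre_isPrime hB i
  have h𝔭𝔫 : 𝔭 ≤ 𝔫 := fun c hc => hi c hc
  have hπ𝔭 : π ∉ 𝔭 := by
    rw [h𝔭def, h16r_mem_centre, hπv i]
    exact lt_irrefl _
  haveI h𝔭O : (𝔭.map (h16lIncl B 𝔫)).IsPrime := h16l_map_isPrime B 𝔫 𝔭 h𝔭𝔫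
  have hf𝔭 : ∀ j, f j ∉ 𝔭.map (h16lIncl B 𝔫) := by
    intro j hfj
    apply hπ𝔭
    rw [← h16l_incl_mem_map_iff B 𝔫 𝔭 h𝔭𝔫]
    have h1 : h16lIncl B 𝔫 π ∈ Ideal.span {f j} := by
      rw [← hPf j]
      exact Ideal.mem_map_of_mem _ (hπP j)
    exact (Ideal.span_singleton_le_iff_mem _).mpr hfj h1
  obtain ⟨j₀⟩ := (inferInstance : Nonempty κ)
  obtain ⟨g, -, h𝔭g⟩ := h16r_prime_principal (f j₀) (b j₀) (hm j₀)
    (𝔭.map (h16lIncl B 𝔫)) (hf𝔭 j₀)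
  -- a generator in `B`
  obtain ⟨s, hs, hsg⟩ := g.2
  set G : B := ⟨_, hsg⟩ with hGdef
  have hGg : h16lIncl B 𝔫 G = h16lIncl B 𝔫 s * g := Subtype.ext rfl
  have hsu := h16l_isUnit_incl B 𝔫 hs
  have h𝔭G : 𝔭.map (h16lIncl B 𝔫) = Ideal.span {h16lIncl B 𝔫 G} := by
    rw [h𝔭g, hGg]
    exact Ideal.span_singleton_eq_span_singleton.mpr (associated_unit_mul_right _ _ hsu)
  have hG𝔭 : G ∈ 𝔭 := by
    rw [← h16l_incl_mem_map_iff B 𝔫 𝔭 h𝔭𝔫, h𝔭G]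
    exact Ideal.mem_span_singleton_self _
  have hdiv : ∀ c ∈ 𝔭, ∃ t : B, t ∉ 𝔫 ∧ ∃ d : B, t * c = d * G := by
    intro c hc
    have h1 : h16lIncl B 𝔫 c ∈ Ideal.span {h16lIncl B 𝔫 G} := by
      rw [← h𝔭G]
      exact Ideal.mem_map_of_mem _ hc
    obtain ⟨z, hz⟩ := Ideal.mem_span_singleton'.mp h1
    obtain ⟨t, ht, htz⟩ := z.2
    refine ⟨t, ht, ⟨_, htz⟩, ?_⟩
    apply Subtype.ext
    have h2 : (z : F) * (G : F) = (c : F) := congrArg (fun z : h66cO B 𝔫 => (z : F)) hz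
    show (t : F) * (c : F) = ((t : F) * (z : F)) * (G : F)
    rw [← h2]
    ring
  have hval1 : ∀ k, h26Centered B v 𝔫 k → ∀ s : B, s ∉ 𝔫 → v k (s : F) = 1 := by
    intro k hk s hs
    refine le_antisymm (hB s s.2 k) (not_lt.mp fun h => hs (hk s h))
  have hGlt : v i (G : F) < 1 := hG𝔭
  have hvi : v i (G : F) = exp (-1 : ℤ) := by
    obtain ⟨c, hc⟩ := hC.hunif i
    have hc𝔭 : c ∈ 𝔭 := by
      rw [h𝔭def, h16r_mem_centre, hc]
      exact exp_lt_exp.mpr (by norm_num) |>.trans_eq exp_zero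
    obtain ⟨t, ht, d, hd⟩ := hdiv c hc𝔭
    have h1 : v i ((t : F) * (c : F)) = v i ((d : F) * (G : F)) := by
      have := congrArg (fun z : B => v i (z : F)) hd
      simpa using this
    rw [map_mul, map_mul, hval1 i hi t ht, one_mul, hc] at h1
    refine h26_eq_exp_neg_one ?_ hGlt
    rw [h1]
    exact mul_le_of_le_one_left' (hB d d.2 i)
  have hG0 : h16lIncl B 𝔫 G ≠ 0 := by
    intro h0
    have h1 : (G : F) = 0 := congrArg (fun z : h66cO B 𝔫 => (z : F)) h0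
    rw [h1, map_zero] at hvi
    exact exp_ne_zero hvi.symm
  have hGprime : Prime (h16lIncl B 𝔫 G) :=
    (Ideal.span_singleton_prime hG0).mp (h𝔭G ▸ h𝔭O)
  refine ⟨(G : F), h13g_inLoc_of_mem 𝔫 (hC.hBV _ G.2), ?_, hvi, ?_⟩
  · refine hinv G fun j hGj => hf𝔭 j ?_
    have hd : f j ∣ h16lIncl B 𝔫 G := by
      rw [← Ideal.mem_span_singleton, ← hPf j]
      exact Ideal.mem_map_of_mem _ hGj
    have hassoc : Associated (f j) (h16lIncl B 𝔫 G) :=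
      (hprime j).associated_of_dvd hGprime hd
    rw [h𝔭G, Ideal.mem_span_singleton]
    exact hassoc.symm.dvd
  · intro k hk hki
    by_contra hne
    have hlt : v k (G : F) < 1 := lt_of_le_of_ne (hB G G.2 k) hne
    apply hki
    symm
    apply hC.hinj i k
    intro c hc
    obtain ⟨t, ht, d, hd⟩ := hdiv c hc
    have h1 : v k ((t : F) * (c : F)) = v k ((d : F) * (G : F)) := by
      have := congrArg (fun z : B => v k (z : F)) hd
      simpa using this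
    rw [map_mul, map_mul, hval1 k hk t ht, one_mul] at h1
    rw [h1]
    exact lt_of_le_of_lt (mul_le_of_le_one_left' (hB d d.2 k)) hlt

/-- **the local factorisation** `w = ε g₀ ^ r` at a closed point with REG. -/
theorem h16l_factor (hC : H26Chart B V v) [IsNoetherianRing B] (𝔫 : Ideal B)
    [h𝔫 : 𝔫.IsPrime] (π : B) (hπ0 : π ≠ 0) (hπv : ∀ i, v i (π : F) = 1)
    (hreg : H62RegAt 𝔫 π)
    {κ : Type*} [Nonempty κ] (P : κ → Ideal B) (hPprime : ∀ j, (P j).IsPrime)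
    (hπP : ∀ j, π ∈ P j) (hP𝔫 : ∀ j, P j ≤ 𝔫) (hPne : ∀ j, P j ≠ 𝔫)
    (hinv : ∀ s : B, (∀ j, s ∉ P j) → h13g_InLoc B V 𝔫 ((s : F))⁻¹)
    (w : F) (hw0 : w ≠ 0) (r : ℕ) (hrw : ∀ i, ∃ n : ℤ, v i w = exp (-((r : ℤ) * n)))
    (hw : h13g_InLoc B V 𝔫 w) (hw' : h13g_InLoc B V 𝔫 w⁻¹) :
    ∃ g₀ : F, g₀ ≠ 0 ∧ h13g_InLoc B V 𝔫 g₀ ∧ h13g_InLoc B V 𝔫 g₀⁻¹ ∧ ∃ s : B, s ∉ 𝔫 ∧
      (s : F) * (w * (g₀ ^ r)⁻¹) ∈ B ∧ (s : F) * (g₀ ^ r * w⁻¹) ∈ B :=
  h13g_factor hC 𝔫 (h16l_lp_inLoc hC 𝔫 π hπ0 hπv hreg P hPprime hπP hP𝔫 hPne hinv)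
    w hw0 r hrw hw hw'


/-- **the semi-local datum of the gate at a one-branch closed point**, from REG and the
compatibility of the chart with the Gauss ring at the vertical prime `P` through `𝔫`:
`hden` (`V ⊆ B_P`) and `hinv` (an element of `B ∖ P` is invertible in `V_𝔫`). -/
theorem h16l_hloc_one (hC : H26Chart B V v) [IsNoetherianRing B] (𝔫 : Ideal B)
    [h𝔫 : 𝔫.IsPrime] (π : A) (hπm : π ∈ maximalIdeal A) (hπ0 : algebraMap A F π ≠ 0)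
    (hπv : ∀ i, v i (algebraMap A F π) = 1)
    (q : ℕ) (hq : q.Prime) (hπq : algebraMap A B π ∣ (q : B))
    (hreg : H62RegAt 𝔫 (algebraMap A B π))
    (P : Ideal B) [hP : P.IsPrime] (hπP : algebraMap A B π ∈ P) (hP𝔫 : P ≤ 𝔫) (hPne : P ≠ 𝔫)
    (hcov : ∀ P' : Ideal B, P'.IsPrime → algebraMap A B π ∈ P' → P' ≤ 𝔫 → P ≤ P')
    (hden : ∀ x ∈ V, ∃ s : B, s ∉ P ∧ (s : F) * x ∈ B)
    (hinv : ∀ s : B, s ∉ P → h13g_InLoc B V 𝔫 ((s : F))⁻¹)
    (r : ℕ) (hr : r.Coprime q) (w : F) (hw0 : w ≠ 0) (hw : w ∈ h26U π V)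
    (hrw : ∀ i, ∃ n : ℤ, v i w = exp (-((r : ℤ) * n))) :
    ∃ g : F, g ≠ 0 ∧ ∃ s : B, s ∉ 𝔫 ∧ (s : F) * (g - 1) ∈ h26mV π V ∧
      (s : F) * (w * (g ^ r)⁻¹) ∈ B ∧ (s : F) * (g ^ r * w⁻¹) ∈ B := by
  classical
  have hπB0 : algebraMap A B π ≠ 0 := by
    intro h
    apply hπ0
    have h1 : ((algebraMap A B π : B) : F) = 0 := by rw [h]; rfl
    exact h1
  have hπvB : ∀ i, v i ((algebraMap A B π : B) : F) = 1 := hπv
  have hwV : w ∈ V := by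
    obtain ⟨y, hy, rfl⟩ := hw
    exact V.add_mem V.one_mem (V.mul_mem (hC.hBV _ (algebraMap A B π).2) hy)
  have hwV' : w⁻¹ ∈ V := by
    obtain ⟨y, hy, rfl⟩ := hw
    exact hC.hVunit π hπm y hy
  obtain ⟨g₀, hg₀, hg₀V, -, s₀, hs₀, h1, h2⟩ :=
    h16l_factor hC 𝔫 (algebraMap A B π) hπB0 hπvB hreg (fun _ : Unit => P) (fun _ => hP)
      (fun _ => hπP) (fun _ => hP𝔫) (fun _ => hPne) (fun s hs => hinv s (hs ()))
      w hw0 r hrw (h13g_inLoc_of_mem 𝔫 hwV) (h13g_inLoc_of_mem 𝔫 hwV')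
  obtain ⟨-, g, e, he, hg, -, hπ, hval, hdvd⟩ :=
    h16l_reg_data_one B 𝔫 (algebraMap A B π) hπB0 hreg P hπP hP𝔫 hPne hcov
  have hπqO : h16lIncl B 𝔫 (algebraMap A B π) ∣ (q : h66cO B 𝔫) := by
    have h3 := map_dvd (h16lIncl B 𝔫) hπq
    rwa [map_natCast] at h3
  have hnd : ∀ c : B, c ∉ P → ¬ g ∣ h16lIncl B 𝔫 c := by
    intro c hc hd
    obtain ⟨s', hs', b, hb, hsb⟩ := (hdvd _).mp hd
    have h3 : s' * c = b := Subtype.ext (by push_cast; exact hsb)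
    have h4 : s' * c ∈ P := by rw [h3]; exact hb
    rcases hP.mem_or_mem h4 with h5 | h5
    · exact hs' (hP𝔫 h5)
    · exact hc h5
  refine h66c_hloc_unibranch B V hC.hBV 𝔫 π q hq (h16lIncl B 𝔫 (algebraMap A B π)) rfl hπqO
    g e he hg hπ hval ?_ ?_ r hr w hw0 hw g₀ hg₀ hg₀V s₀ hs₀ h1 h2
  · rintro x ⟨c, hc, hcx⟩
    obtain ⟨s, hs, hsx⟩ := hden _ hcx
    refine ⟨h16lIncl B 𝔫 (s * c), hnd _ fun h => ?_, ?_⟩
    · rcases hP.mem_or_mem h with h5 | h5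
      · exact hs h5
      · exact hc (hP𝔫 h5)
    · apply h66c_B_le_O
      have e1 : ((h16lIncl B 𝔫 (s * c) : h66cO B 𝔫) : F) * x = (s : F) * ((c : F) * x) := by
        show ((s * c : B) : F) * x = _
        push_cast
        ring
      rw [e1]
      exact hsx
  · intro z hz
    obtain ⟨t, ht, htz⟩ := z.2
    have hb : (⟨_, htz⟩ : B) ∉ P := by
      intro hb
      exact hz ((hdvd z).mpr ⟨t, ht, ⟨_, htz⟩, hb, rfl⟩)
    obtain ⟨c, hc, hcb⟩ := hinv _ hb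
    refine ⟨c, hc, ?_⟩
    have ht0 : (t : F) ≠ 0 := h66c_coe_ne_zero ht
    have e1 : (c : F) * ((z : F))⁻¹ = (t : F) * ((c : F) * ((t : F) * (z : F))⁻¹) := by
      rw [mul_inv]
      field_simp
    rw [e1]
    exact V.mul_mem (hC.hBV _ t.2) hcb

end Fermat.Agent.S36
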