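/-
S36 (wave 4), block (V): the frozen Props `H74K1` and `H74Zeta` (row V-K1), from `H23Tame`
(helper23).
-/
import Fermat.Agent.S36.H74VIface
import Fermat.Agent.S36.H23Tame

set_option autoImplicit false

namespace Fermat.Agent.S36

/-- **V-K1.** The value group of `A` on `K₀(ζ_q)` is generated by the value of `1 - ζ`. -/
theorem h23t_H74K1 : H74K1 := by
  intro q hq A hA ζ hζ x hx hfix
  obtain ⟨n, hn⟩ := h23t_exists_zpow hq A hA hζ hx hfix
  refine ⟨-n, ?_⟩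
  rw [zpow_neg, ← div_eq_mul_inv]
  exact hn

/-- **V-ZETA.** `q = unit · (1 - ζ)^(q-1)`. -/
theorem h23t_H74Zeta : H74Zeta := by
  intro q hq A hA ζ hζ
  have hπ : (1 - ζ) ≠ 0 := by
    intro h0
    have h1 : ζ = 1 := (sub_eq_zero.mp h0).symm
    rw [h1] at hζ
    exact hq.one_lt.ne' (hζ.unique IsPrimitiveRoot.one)
  have hqQ : ((q : ℕ) : AlgebraicClosure ℚ) ≠ 0 := by exact_mod_cast hq.ne_zero
  have hne : ((q : ℕ) : AlgebraicClosure ℚ) * ((1 - ζ) ^ (q - 1))⁻¹ ≠ 0 :=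
    mul_ne_zero hqQ (inv_ne_zero (pow_ne_zero _ hπ))
  rw [h23t_unit_iff A hne, map_mul, map_inv₀, map_pow, h23t_val_q hq A hζ]
  exact mul_inv_cancel₀ (pow_ne_zero _ ((Valuation.ne_zero_iff _).mpr hπ))

end Fermat.Agent.S36
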