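import Fermat.Agent.S36.H74VIface

/-!
# S36, block (V), leaf V-ABS-VAL (helper57): `H74AbsVal`

A subring `W` of a field `F` with a "uniformiser" `z` (`z ∈ W`, `z⁻¹ ∉ W`, every `x ≠ 0` is
`z ^ n * unit of W`) is the valuation ring of a `ℤᵐ⁰`-valued valuation `v` with
`v z = exp (-1)`.

* `h57a_exists_valuation` : the statement for a field in any universe, with the formula
  `v x = exp n ↔ z ^ n * x` is a unit of `W`.
* `h57a_absVal : H74AbsVal`.
-/

set_option autoImplicit false

open WithZero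

noncomputable section

namespace Fermat.Agent.S36

section

variable {F : Type*} [Field F] (W : Subring F) (z : F)

/-- `x` is a unit of `W`. -/
def h57a_IsU (x : F) : Prop := x ∈ W ∧ x⁻¹ ∈ W

variable {W z}

theorem h57a_isU_one : h57a_IsU W (1 : F) := ⟨W.one_mem, by rw [inv_one]; exact W.one_mem⟩

theorem h57a_isU_mul {x y : F} (hx : h57a_IsU W x) (hy : h57a_IsU W y) : h57a_IsU W (x * y) :=
  ⟨W.mul_mem hx.1 hy.1, by rw [mul_inv]; exact W.mul_mem hx.2 hy.2⟩

theorem h57a_isU_inv {x : F} (hx : h57a_IsU W x) : h57a_IsU W x⁻¹ :=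
  ⟨hx.2, by rw [inv_inv]; exact hx.1⟩

theorem h57a_z_ne_zero (hz' : z⁻¹ ∉ W) : z ≠ 0 := by
  rintro rfl
  rw [inv_zero] at hz'
  exact hz' W.zero_mem

/-- a positive power of `z⁻¹` is not in `W`. -/
theorem h57a_zpow_neg_not_mem (hz : z ∈ W) (hz' : z⁻¹ ∉ W) {k : ℕ} (hk : 0 < k) :
    (z ^ k)⁻¹ ∉ W := by
  intro h
  apply hz'
  have hz0 := h57a_z_ne_zero hz'
  have : z⁻¹ = z ^ (k - 1) * (z ^ k)⁻¹ := by
    obtain ⟨j, rfl⟩ : ∃ j, k = j + 1 := ⟨k - 1, by omega⟩
    rw [Nat.add_sub_cancel, pow_succ, mul_inv, ← mul_assoc, mul_inv_cancel₀ (pow_ne_zero _ hz0),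
      one_mul]
  rw [this]
  exact W.mul_mem (W.pow_mem hz _) h

/-- `z ^ n` is in `W` iff `0 ≤ n`. -/
theorem h57a_zpow_mem_iff (hz : z ∈ W) (hz' : z⁻¹ ∉ W) (n : ℤ) : z ^ n ∈ W ↔ 0 ≤ n := by
  constructor
  · intro h
    by_contra hn
    have hn := not_le.mp hn
    obtain ⟨k, hk⟩ : ∃ k : ℕ, n = -(k : ℤ) := ⟨(-n).toNat, by omega⟩
    have hk0 : 0 < k := by omega
    rw [hk, zpow_neg, zpow_natCast] at h
    exact h57a_zpow_neg_not_mem hz hz' hk0 h
  · intro h
    obtain ⟨k, rfl⟩ := Int.eq_ofNat_of_zero_le h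
    rw [zpow_natCast]
    exact W.pow_mem hz _

/-- uniqueness of the exponent. -/
theorem h57a_exp_unique (hz : z ∈ W) (hz' : z⁻¹ ∉ W) {x : F} (hx : x ≠ 0) {n n' : ℤ}
    (h : h57a_IsU W (z ^ n * x)) (h' : h57a_IsU W (z ^ n' * x)) : n = n' := by
  have hz0 := h57a_z_ne_zero hz'
  have key : ∀ a b : ℤ, h57a_IsU W (z ^ a * x) → h57a_IsU W (z ^ b * x) → a ≤ b := by
    intro a b ha hb
    have h1 : z ^ (b - a) ∈ W := by
      have : z ^ (b - a) = (z ^ b * x) * (z ^ a * x)⁻¹ := by
        rw [zpow_sub₀ hz0, mul_inv, div_eq_mul_inv]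
        field_simp
      rw [this]
      exact W.mul_mem hb.1 ha.2
    have := (h57a_zpow_mem_iff hz hz' _).mp h1
    omega
  exact le_antisymm (key _ _ h h') (key _ _ h' h)

end

/-- **V-ABS-VAL**, any universe, with the defining formula of the valuation. -/
theorem h57a_exists_valuation {F : Type*} [Field F] (W : Subring F) (z : F) (hz : z ∈ W)
    (hz' : z⁻¹ ∉ W)
    (hex : ∀ x : F, x ≠ 0 → ∃ n : ℤ, z ^ n * x ∈ W ∧ (z ^ n * x)⁻¹ ∈ W) :
    ∃ v : Valuation F ℤᵐ⁰, (∀ x : F, v x ≤ 1 ↔ x ∈ W) ∧ v z = exp (-1 : ℤ) ∧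
      (∀ (x : F) (n : ℤ), x ≠ 0 → (v x = exp n ↔ z ^ n * x ∈ W ∧ (z ^ n * x)⁻¹ ∈ W)) := by
  classical
  have hz0 := h57a_z_ne_zero hz'
  -- the exponent
  let e : F → ℤ := fun x => if hx : x = 0 then 0 else Classical.choose (hex x hx)
  have he : ∀ x : F, x ≠ 0 → h57a_IsU W (z ^ e x * x) := by
    intro x hx
    have := Classical.choose_spec (hex x hx)
    show z ^ e x * x ∈ W ∧ (z ^ e x * x)⁻¹ ∈ W
    simp only [e, dif_neg hx]
    exact this
  have he_eq : ∀ (x : F) (n : ℤ), x ≠ 0 → h57a_IsU W (z ^ n * x) → e x = n := fun x n hx h =>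
    h57a_exp_unique hz hz' hx (he x hx) h
  have he_mul : ∀ x y : F, x ≠ 0 → y ≠ 0 → e (x * y) = e x + e y := by
    intro x y hx hy
    apply he_eq _ _ (mul_ne_zero hx hy)
    have h := h57a_isU_mul (he x hx) (he y hy)
    have : z ^ (e x + e y) * (x * y) = z ^ e x * x * (z ^ e y * y) := by
      rw [zpow_add₀ hz0]; ring
    rw [this]
    exact h
  have he_one : e 1 = 0 := by
    apply he_eq _ _ one_ne_zero
    rw [zpow_zero, one_mul]
    exact h57a_isU_one
  -- membership in `W`
  have hmem : ∀ x : F, x ≠ 0 → (x ∈ W ↔ e x ≤ 0) := by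
    intro x hx
    have hu := he x hx
    have hx' : x = z ^ (-e x) * (z ^ e x * x) := by
      rw [← mul_assoc, ← zpow_add₀ hz0, neg_add_cancel, zpow_zero, one_mul]
    constructor
    · intro hxW
      have h1 : z ^ (-e x) ∈ W := by
        have : z ^ (-e x) = x * (z ^ e x * x)⁻¹ := by
          rw [mul_inv, zpow_neg]
          field_simp
        rw [this]
        exact W.mul_mem hxW hu.2
      have := (h57a_zpow_mem_iff hz hz' _).mp h1
      omega
    · intro hle
      rw [hx']
      exact W.mul_mem ((h57a_zpow_mem_iff hz hz' _).mpr (by omega)) hu.1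
  have hadd : ∀ x y : F, x ≠ 0 → y ≠ 0 → x + y ≠ 0 → e x ≤ e y → e (x + y) ≤ e y := by
    intro x y hx hy hxy hle
    have hu0 : x / y ≠ 0 := div_ne_zero hx hy
    have h1 : e x = e (x / y) + e y := by
      rw [← he_mul _ _ hu0 hy, div_mul_cancel₀ _ hy]
    have h2 : x / y ∈ W := (hmem _ hu0).mpr (by omega)
    have h3 : 1 + x / y ≠ 0 := by
      intro h
      apply hxy
      have : x + y = (1 + x / y) * y := by field_simp; ring
      rw [this, h, zero_mul]
    have h4 : e (1 + x / y) ≤ 0 := (hmem _ h3).mp (W.add_mem W.one_mem h2)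
    have h5 : e (x + y) = e (1 + x / y) + e y := by
      rw [← he_mul _ _ h3 hy]
      congr 1
      field_simp
      ring
    omega
  let v : Valuation F ℤᵐ⁰ :=
    { toFun := fun x => if x = 0 then 0 else exp (e x)
      map_zero' := by simp
      map_one' := by simp [he_one]
      map_mul' := by
        intro x y
        by_cases hx : x = 0
        · simp [hx]
        by_cases hy : y = 0
        · simp [hy]
        simp only [hx, hy, mul_ne_zero hx hy, if_false]
        rw [he_mul x y hx hy, exp_add]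
      map_add_le_max' := by
        intro x y
        by_cases hx : x = 0
        · simp [hx]
        by_cases hy : y = 0
        · simp [hy]
        by_cases hxy : x + y = 0
        · simp [hxy]
        simp only [hx, hy, hxy, if_false]
        rcases le_total (e x) (e y) with h | h
        · exact le_max_of_le_right (exp_le_exp.mpr (hadd x y hx hy hxy h))
        · refine le_max_of_le_left (exp_le_exp.mpr ?_)
          rw [add_comm]
          exact hadd y x hy hx (by rwa [add_comm]) h }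
  have hv : ∀ x : F, x ≠ 0 → v x = exp (e x) := fun x hx => by
    show (if x = 0 then (0 : ℤᵐ⁰) else exp (e x)) = exp (e x)
    rw [if_neg hx]
  refine ⟨v, ?_, ?_, ?_⟩
  · intro x
    by_cases hx : x = 0
    · subst hx
      simp [W.zero_mem]
    · rw [hv x hx, hmem x hx, ← exp_zero, exp_le_exp]
  · rw [hv z hz0]
    congr 1
    apply he_eq z _ hz0
    rw [zpow_neg, zpow_one, inv_mul_cancel₀ hz0]
    exact h57a_isU_one
  · intro x n hx
    rw [hv x hx]
    constructor
    · intro h
      have : e x = n := exp_injective h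
      rw [← this]
      exact he x hx
    · intro h
      rw [he_eq x n hx h]

/-- **V-ABS-VAL.** -/
theorem h57a_absVal : H74AbsVal := by
  intro F _ W z hz hz' hex
  obtain ⟨v, h1, h2, -⟩ := h57a_exists_valuation W z hz hz' hex
  exact ⟨v, h1, h2⟩

end Fermat.Agent.S36
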