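import Fermat.Agent.S36.H57ZUnit

/-!
# S36, block (V), leaf V-UNIF11 (helper57): `H74Unif11`

`E11^ζ z = j(ζ t) - j(t)`, with coefficients `j_n (ζ^n - 1)`; hence
`(1 - ζ)⁻¹ · E11^ζ z` is a series with coefficients in `A` and coefficient `ζ⁻¹` at `t⁻¹`:
a Gauss unit (`h57u_unif11 : H74Unif11`).
-/

set_option autoImplicit false

open AlgebraicCurve ModularCurve

noncomputable section

namespace Fermat.Agent.S36

open Fermat.Agent.S37 (Kbar GQ FF cst gal jB)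
open Fermat.Agent.Red.GV.Soft (softOT softV)
open Fermat.Agent.Red.GV (jK)
open Fermat.Agent.Red.Kron (kFricke twistK)

/-- a root of unity lies in every valuation subring. -/
theorem h57u_zeta_mem (A : ValuationSubring Kbar) {ζ : Kbar} {q : ℕ} (hq : 0 < q)
    (hζ : ζ ^ q = 1) : ζ ∈ A := by
  rcases A.mem_or_inv_mem ζ with h | h
  · exact h
  · have h1 : ζ = (ζ⁻¹) ^ (q - 1) := by
      have hζ0 : ζ ≠ 0 := by
        rintro rfl
        rw [zero_pow hq.ne'] at hζ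
        exact zero_ne_one hζ
      have h2 : ζ * ζ ^ (q - 1) = 1 := by
        rw [← pow_succ', Nat.sub_add_cancel hq, hζ]
      rw [inv_pow]
      exact eq_inv_of_mul_eq_one_left h2
    rw [h1]
    exact pow_mem h _

/-- `(ζ^n - 1) / (1 - ζ) ∈ A` for every `n : ℤ`. -/
theorem h57u_quot_mem (A : ValuationSubring Kbar) {ζ : Kbar} {q : ℕ} (hq : 0 < q)
    (hζ : ζ ^ q = 1) (hζ1 : ζ ≠ 1) (n : ℤ) : (1 - ζ)⁻¹ * (ζ ^ n - 1) ∈ A := by
  have hζA := h57u_zeta_mem A hq hζ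
  have hne : (1 - ζ) ≠ 0 := sub_ne_zero.mpr (Ne.symm hζ1)
  have hq0 : (q : ℤ) ≠ 0 := by exact_mod_cast hq.ne'
  obtain ⟨k, hk⟩ := Int.eq_ofNat_of_zero_le (Int.emod_nonneg n hq0)
  have h1 : ζ ^ n = ζ ^ k := by
    have h2 : n = (q : ℤ) * (n / q) + (k : ℤ) := by
      rw [← hk]
      exact (Int.mul_ediv_add_emod n q).symm
    have hζ0 : ζ ≠ 0 := by
      rintro rfl
      rw [zero_pow hq.ne'] at hζ
      exact zero_ne_one hζ
    rw [h2, zpow_add₀ hζ0, zpow_mul, zpow_natCast, zpow_natCast, hζ, one_zpow, one_mul]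
  rw [h1]
  have h3 : (1 - ζ)⁻¹ * (ζ ^ k - 1) = -∑ i ∈ Finset.range k, ζ ^ i := by
    rw [← geom_sum_mul ζ k]
    field_simp
    ring
  rw [h3]
  exact neg_mem (sum_mem fun i _ => pow_mem hζA i)

section Level

variable (M q : ℕ) [NeZero M] [NeZero q]

theorem h57u_E11_z (hq : q.Prime) (hqM : ¬ q ∣ M) (ζ : Kbar)
    (E : FF (M * q * q) →+* LaurentSeries Kbar)
    (hE : h20n_IsE11 M q hq hqM ζ E) :
    E (h74w_z M q) = twistK ζ (jK Kbar) - jK Kbar := by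
  unfold h74w_z
  rw [map_sub, hE.1, hE.2, Fermat.Agent.Red.Kron.kFricke_beta, coe_heckeAlphaBar,
    Fermat.Agent.Red.GV.coe_jB]

theorem h57u_E11_cst (hq : q.Prime) (hqM : ¬ q ∣ M) (ζ : Kbar)
    (E : FF (M * q * q) →+* LaurentSeries Kbar)
    (hE : h20n_IsE11 M q hq hqM ζ E) (c : Kbar) :
    E (cst (M * q * q) c) = HahnSeries.C c := by
  have h2 : heckeAlphaBar Kbar (M * q) q (cst (M * q) c) = cst (M * q * q) c :=
    (heckeAlphaBar Kbar (M * q) q).commutes c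
  rw [← h2, hE.1, Fermat.Agent.Red.GV.Soft.soft_coe_cst]

end Level

/-- the coefficients of `C c * (j(ζ t) - j(t))`. -/
theorem h57u_coeff (c ζ : Kbar) (n : ℤ) :
    (HahnSeries.C c * (twistK ζ (jK Kbar) - jK Kbar)).coeff n =
      (c * (ζ ^ n - 1)) * (jK Kbar).coeff n := by
  rw [HahnSeries.C_mul_eq_smul, HahnSeries.coeff_smul, HahnSeries.coeff_sub,
    Fermat.Agent.Red.Kron.coeff_twistK, smul_eq_mul]
  ring

/-- **V-UNIF11.** -/
theorem h57u_unif11 : H74Unif11 := by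
  intro q hq M _ hqM
  have : NeZero q := ⟨hq.ne_zero⟩
  intro A _ ζ hζ E hE
  have hζq : ζ ^ q = 1 := hζ.pow_eq_one
  have hζ1 : ζ ≠ 1 := hζ.ne_one hq.one_lt
  have hζ0 : ζ ≠ 0 := hζ.ne_zero hq.ne_zero
  have hne : (1 - ζ) ≠ 0 := sub_ne_zero.mpr (Ne.symm hζ1)
  have hζA := h57u_zeta_mem A hq.pos hζq
  have hEx : E (cst (M * q * q) (1 - ζ)⁻¹ * h74w_z M q) =
      HahnSeries.C (1 - ζ)⁻¹ * (twistK ζ (jK Kbar) - jK Kbar) := by
    rw [map_mul, h57u_E11_cst M q hq hqM ζ E hE, h57u_E11_z M q hq hqM ζ E hE]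
  have hc1 : (HahnSeries.C (1 - ζ)⁻¹ * (twistK ζ (jK Kbar) - jK Kbar)).coeff (-1 : ℤ) = ζ⁻¹ := by
    rw [h57u_coeff, h57z_jK_coeff_neg_one, mul_one, zpow_neg_one]
    field_simp
  have hU := h57z_unit_of_coeff A
    (HahnSeries.C (1 - ζ)⁻¹ * (twistK ζ (jK Kbar) - jK Kbar))
    (fun n => by
      rw [h57u_coeff]
      exact A.mul_mem _ _ (h57u_quot_mem A hq.pos hζq hζ1 n) (h57z_jK_coeff_mem A n))
    (-1 : ℤ)
    (by rw [hc1, inv_inv]; exact hζA)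
    (by rw [hc1]; exact inv_ne_zero hζ0)
  refine ⟨?_, ?_⟩
  · show E (cst (M * q * q) (1 - ζ)⁻¹ * h74w_z M q) ∈ _
    rw [hEx]
    exact hU.1
  · show E (cst (M * q * q) (1 - ζ)⁻¹ * h74w_z M q)⁻¹ ∈ _
    rw [map_inv₀, hEx]
    exact hU.2

end Fermat.Agent.S36
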