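import Fermat.Agent.S36.H74VIface

/-!
# S36, block (V), leaves V-ZUNIT and V-UNIF11 (helper57): `H74ZUnit`, `H74Unif11`

`z = j(t^(q²)) - j(t)` (`h74w_z`).

* `E20 z = j(t^(q²)) - j(t)`, `E02 z = j(t) - j(t^(q²))`: integral series with coefficient `±1`
  at `t^(-q²)`, hence Gauss units (`h57z_zUnit : H74ZUnit`).
* `E11^ζ z = j(ζ t) - j(t) = (1 - ζ) · s`, `s` an integral series with coefficient `ζ⁻¹` at
  `t⁻¹` (`h57z_unif11 : H74Unif11`).
-/

set_option autoImplicit false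

open AlgebraicCurve ModularCurve

noncomputable section

namespace Fermat.Agent.S36

open Fermat.Agent.S37 (Kbar GQ FF cst gal jB)
open Fermat.Agent.Red.GV.Soft (softOT softV)
open Fermat.Agent.Red.GV (jK)
open Fermat.Agent.Red.Kron (kFricke twistK)

/-- a series with coefficients in `A`, one of which is a unit of `A`, is a Gauss unit. -/
theorem h57z_unit_of_coeff (A : ValuationSubring Kbar) (x : LaurentSeries Kbar)
    (hx : ∀ n, x.coeff n ∈ A) (n₀ : ℤ) (h0 : (x.coeff n₀)⁻¹ ∈ A) (hne : x.coeff n₀ ≠ 0) :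
    x ∈ softOT A (IsLocalRing.residue A) ∧ x⁻¹ ∈ softOT A (IsLocalRing.residue A) := by
  obtain ⟨y, rfl⟩ := (Fermat.Agent.Red.GV.exists_embA_eq_iff A x).mpr hx
  have hred : Fermat.Agent.Red.GV.redA (IsLocalRing.residue A) y ≠ 0 := by
    intro h
    have h1 := congrArg (fun s => HahnSeries.coeff s n₀) h
    simp only [Fermat.Agent.Red.GV.h36_redA_coeff, HahnSeries.coeff_zero] at h1
    rw [IsLocalRing.residue_eq_zero_iff] at h1
    have hu : IsUnit (y.coeff n₀) := by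
      rw [isUnit_iff_exists_inv]
      refine ⟨⟨_, h0⟩, Subtype.ext ?_⟩
      show ((y.coeff n₀ : A) : Kbar) * ((Fermat.Agent.Red.GV.embA A y).coeff n₀)⁻¹ = 1
      rw [Fermat.Agent.Red.GV.h36_embA_coeff]
      rw [Fermat.Agent.Red.GV.h36_embA_coeff] at hne
      exact mul_inv_cancel₀ hne
    exact h1 hu
  have hw := Fermat.Agent.Red.GV.Soft.isWit_of_embA A (IsLocalRing.residue A) y
  exact ⟨⟨_, _, hw⟩, ⟨_, _, hw.inv hred⟩⟩

/-! ### coefficients -/

theorem h57z_jK_coeff_mem (A : ValuationSubring Kbar) (n : ℤ) : (jK Kbar).coeff n ∈ A := by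
  rw [← Fermat.Agent.Red.GV.embA_jqModC A, Fermat.Agent.Red.GV.h36_embA_coeff]
  exact ((jqModC A).coeff n).2

theorem h57z_jK_coeff_neg_one : (jK Kbar).coeff (-1 : ℤ) = 1 :=
  ModularCurve.coeff_jqModC_neg_one Kbar

theorem h57z_jK_coeff_of_lt {n : ℤ} (hn : n < -1) : (jK Kbar).coeff n = 0 :=
  ModularCurve.coeff_jqModC_of_lt Kbar hn

theorem h57z_qExpand_coeff_mem (A : ValuationSubring Kbar) (N : ℕ) [NeZero N]
    (f : LaurentSeries Kbar) (hf : ∀ n, f.coeff n ∈ A) (n : ℤ) :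
    (qExpand Kbar N f).coeff n ∈ A := by
  by_cases h : (N : ℤ) ∣ n
  · obtain ⟨k, rfl⟩ := h
    rw [qExpand_coeff_mul]
    exact hf k
  · rw [qExpand_coeff_of_not_dvd N f h]
    exact A.zero_mem

/-- the series `j(t^(q²)) - j(t)`. -/
def h57z_S (q : ℕ) [NeZero q] : LaurentSeries Kbar :=
  qExpand Kbar q (qExpand Kbar q (jK Kbar)) - jK Kbar

theorem h57z_S_coeff_mem (A : ValuationSubring Kbar) (q : ℕ) [NeZero q] (n : ℤ) :
    (h57z_S q).coeff n ∈ A := by
  unfold h57z_S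
  rw [HahnSeries.coeff_sub]
  exact A.sub_mem (h57z_qExpand_coeff_mem A q _
    (h57z_qExpand_coeff_mem A q _ (h57z_jK_coeff_mem A)) n) (h57z_jK_coeff_mem A n)

theorem h57z_S_coeff (q : ℕ) [NeZero q] (hq : 2 ≤ q) :
    (h57z_S q).coeff (-((q : ℤ) * q)) = 1 := by
  unfold h57z_S
  have h1 : -((q : ℤ) * q) = (q : ℤ) * ((q : ℤ) * (-1)) := by ring
  have h2 : -((q : ℤ) * q) < -1 := by
    have : (2 : ℤ) ≤ q := by exact_mod_cast hq
    nlinarith
  rw [HahnSeries.coeff_sub, h57z_jK_coeff_of_lt h2, sub_zero, h1, qExpand_coeff_mul,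
    qExpand_coeff_mul, h57z_jK_coeff_neg_one]

theorem h57z_S_unit (A : ValuationSubring Kbar) (q : ℕ) [NeZero q] (hq : 2 ≤ q) :
    h57z_S q ∈ softOT A (IsLocalRing.residue A) ∧
      (h57z_S q)⁻¹ ∈ softOT A (IsLocalRing.residue A) := by
  refine h57z_unit_of_coeff A _ (h57z_S_coeff_mem A q) (-((q : ℤ) * q)) ?_ ?_
  · rw [h57z_S_coeff q hq, inv_one]
    exact A.one_mem
  · rw [h57z_S_coeff q hq]
    exact one_ne_zero

theorem h57z_neg_unit (A : ValuationSubring Kbar) {x : LaurentSeries Kbar}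
    (hx : x ∈ softOT A (IsLocalRing.residue A) ∧ x⁻¹ ∈ softOT A (IsLocalRing.residue A)) :
    -x ∈ softOT A (IsLocalRing.residue A) ∧ (-x)⁻¹ ∈ softOT A (IsLocalRing.residue A) := by
  refine ⟨neg_mem hx.1, ?_⟩
  rw [inv_neg]
  exact neg_mem hx.2

/-! ### the expansions of `z` -/

section Level

variable (M q : ℕ) [NeZero M] [NeZero q]

theorem h57z_coe_z :
    ((h74w_z M q : FF (M * q * q)) : LaurentSeries Kbar) = h57z_S q := by
  unfold h74w_z h57z_S
  show ((heckeBetaBar Kbar (M * q) q (heckeBetaBar Kbar M q (jB M)) : FF (M * q * q)) :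
      LaurentSeries Kbar) -
    ((heckeAlphaBar Kbar (M * q) q (heckeAlphaBar Kbar M q (jB M)) : FF (M * q * q)) :
      LaurentSeries Kbar) = _
  rw [coe_heckeBetaBar, coe_heckeBetaBar, coe_heckeAlphaBar,
    coe_heckeAlphaBar, Fermat.Agent.Red.GV.coe_jB]

theorem h57z_E02_z (hq : q.Prime) (hqM : ¬ q ∣ M) (E0 : FF (M * q * q) →+* LaurentSeries Kbar)
    (hE0 : h20n_IsE02 M q hq hqM E0) : E0 (h74w_z M q) = -h57z_S q := by
  unfold h74w_z h57z_S
  rw [map_sub, hE0.1, hE0.2, Fermat.Agent.Red.Kron.kFricke_beta,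
    Fermat.Agent.Red.Kron.kFricke_alpha, coe_heckeAlphaBar, coe_heckeBetaBar,
    Fermat.Agent.Red.GV.coe_jB]
  ring

end Level

/-- **V-ZUNIT.** -/
theorem h57z_zUnit : H74ZUnit := by
  intro q hq M _ hqM
  have : NeZero q := ⟨hq.ne_zero⟩
  intro A _
  have hS := h57z_S_unit A q hq.two_le
  refine ⟨?_, ?_⟩
  · have hE : h20n_E20 M q (h74w_z M q) = h57z_S q := by
      unfold h20n_E20
      rw [IntermediateField.algebraMap_apply, h57z_coe_z]
    refine ⟨?_, ?_⟩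
    · show h20n_E20 M q (h74w_z M q) ∈ _
      rw [hE]
      exact hS.1
    · show h20n_E20 M q (h74w_z M q)⁻¹ ∈ _
      rw [map_inv₀, hE]
      exact hS.2
  · intro E0 hE0
    have hE := h57z_E02_z M q hq hqM E0 hE0
    have hS' := h57z_neg_unit A hS
    refine ⟨?_, ?_⟩
    · show E0 (h74w_z M q) ∈ _
      rw [hE]
      exact hS'.1
    · show E0 (h74w_z M q)⁻¹ ∈ _
      rw [map_inv₀, hE]
      exact hS'.2

end Fermat.Agent.S36
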