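import Mathlib

/-!
# S36 (no-regret leaf, blocks N / T / G): weak approximation for discrete valuations

Mathlib only.  For a finite family `v : ι → Valuation F ℤᵐ⁰` of nontrivial, pairwise independent
valuations of a field `F` (independence in the `hinj` form of the charts: for `i ≠ k` there is
`x` with `v i x < 1` and `1 ≤ v k x`):

* `h90w_weak_approx` : for all targets `a i` and precisions `n i : ℤ` there is `x : F` with
  `v i (x - a i) < exp (n i)` for all `i`;
* `h90w_weak_approx'` : the same with arbitrary nonzero bounds `ε i : ℤᵐ⁰`;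
* `h90w_exists_val` : prescribed values: `x ≠ 0` with `v i x = v i (a i)` (`a i ≠ 0`);
* `h90w_exists_exp` : if every `v i` has a uniformiser: `x ≠ 0` with `v i x = exp (k i)`;
* `h90w_exists_residue` : prescribed residues: `v i (x - a i) < 1` (so `v i x ≤ 1`, and
  `v i x = 1` where `v i (a i) = 1`);
* `h90w_exists_mul_approx` : multiplicative form `v i (x / a i - 1) < ε i`, `x ≠ 0`;
* `h90w_hind_of_hinj` : the independence hypothesis from the `hinj` field of a chart.

The proof is Mathlib's abstract weak approximation theorem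
`AbsoluteValue.denseRange_algebraMap_pi` applied to the real absolute values `2 ^ log (v i x)`.
-/

set_option autoImplicit false

open WithZero

namespace Fermat.Agent.S36

variable {F : Type*} [Field F]

/-- the real absolute value `x ↦ 2 ^ log (v x)` attached to a `ℤᵐ⁰`-valued valuation. -/
noncomputable def h90wAbs (v : Valuation F ℤᵐ⁰) : AbsoluteValue F ℝ where
  toFun x := (WithZeroMulInt.toNNReal (e := 2) (by norm_num) (v x) : ℝ)
  map_mul' x y := by simp [map_mul]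
  nonneg' x := NNReal.coe_nonneg _
  eq_zero' x := by
    constructor
    · intro h
      have h1 : WithZeroMulInt.toNNReal (e := 2) (by norm_num) (v x) = 0 := by exact_mod_cast h
      by_contra hx
      exact WithZeroMulInt.toNNReal_ne_zero (by norm_num) ((Valuation.ne_zero_iff v).mpr hx) h1
    · rintro rfl
      simp
  add_le' x y := by
    have hmono := (WithZeroMulInt.toNNReal_strictMono (e := 2) (by norm_num)).monotone
    have h1 : v (x + y) ≤ max (v x) (v y) := Valuation.map_add v x y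
    have h2 := hmono h1
    rw [Monotone.map_max hmono] at h2
    have h3 : (WithZeroMulInt.toNNReal (e := 2) (by norm_num) (v (x + y)) : ℝ)
        ≤ max (WithZeroMulInt.toNNReal (e := 2) (by norm_num) (v x) : ℝ)
          (WithZeroMulInt.toNNReal (e := 2) (by norm_num) (v y) : ℝ) := by
      exact_mod_cast h2
    refine h3.trans ?_
    exact max_le_add_of_nonneg (NNReal.coe_nonneg _) (NNReal.coe_nonneg _)

theorem h90wAbs_apply (v : Valuation F ℤᵐ⁰) (x : F) :
    h90wAbs v x = (WithZeroMulInt.toNNReal (e := 2) (by norm_num) (v x) : ℝ) := rfl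

theorem h90wAbs_lt_one_iff (v : Valuation F ℤᵐ⁰) (x : F) :
    h90wAbs v x < 1 ↔ v x < 1 := by
  rw [h90wAbs_apply]
  have h := WithZeroMulInt.toNNReal_lt_one_iff (e := 2) (m := v x) (by norm_num)
  rw [← h]
  exact_mod_cast Iff.rfl

/-- **Weak approximation** for finitely many nontrivial, pairwise independent `ℤᵐ⁰`-valued
valuations of a field. -/
theorem h90w_weak_approx {ι : Type*} [Finite ι] (v : ι → Valuation F ℤᵐ⁰)
    (hnt : ∀ i, ∃ x : F, v i x ≠ 0 ∧ v i x ≠ 1)
    (hind : ∀ i k, i ≠ k → ∃ x : F, v i x < 1 ∧ 1 ≤ v k x)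
    (a : ι → F) (n : ι → ℤ) :
    ∃ x : F, ∀ i, v i (x - a i) < exp (n i) := by
  classical
  have := Fintype.ofFinite ι
  have hNT : ∀ i, (h90wAbs (v i)).IsNontrivial := by
    intro i
    obtain ⟨x, hx0, hx1⟩ := hnt i
    refine ⟨x, (Valuation.ne_zero_iff (v i)).mp hx0, ?_⟩
    rw [h90wAbs_apply]
    intro h
    have h1 : WithZeroMulInt.toNNReal (e := 2) (by norm_num) (v i x) = 1 := by exact_mod_cast h
    exact hx1 ((WithZeroMulInt.toNNReal_eq_one_iff (v i x) (by norm_num) (by norm_num)).mp h1)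
  have hNE : Pairwise fun i j ↦ ¬(h90wAbs (v i)).IsEquiv (h90wAbs (v j)) := by
    intro i j hij hequiv
    obtain ⟨x, hx1, hx2⟩ := hind i j hij
    have := (hequiv.lt_one_iff).mp ((h90wAbs_lt_one_iff _ _).mpr hx1)
    exact absurd ((h90wAbs_lt_one_iff _ _).mp this) (not_lt.mpr hx2)
  have hd := AbsoluteValue.denseRange_algebraMap_pi hNT hNE
  -- the radius
  set ρ : ι → ℝ := fun i => (WithZeroMulInt.toNNReal (e := 2) (by norm_num) (exp (n i)) : ℝ)
    with hρ
  have hρpos : ∀ i, 0 < ρ i := fun i => by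
    rw [hρ]
    exact_mod_cast WithZeroMulInt.toNNReal_pos (e := 2) (by norm_num) (exp_ne_zero)
  obtain ⟨r, hr0, hr⟩ : ∃ r : ℝ, 0 < r ∧ ∀ i, r ≤ ρ i := by
    by_cases hne : Nonempty ι
    · refine ⟨Finset.univ.inf' Finset.univ_nonempty ρ, ?_,
        fun i => Finset.inf'_le _ (Finset.mem_univ i)⟩
      rw [Finset.lt_inf'_iff]
      exact fun i _ => hρpos i
    · exact ⟨1, one_pos, fun i => (hne ⟨i⟩).elim⟩
  obtain ⟨y, hy⟩ :=
    Metric.denseRange_iff.mp hd (fun i => WithAbs.toAbs (h90wAbs (v i)) (a i)) r hr0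
  refine ⟨y, fun i => ?_⟩
  have h1 := (dist_pi_lt_iff hr0).mp hy i
  rw [dist_eq_norm, WithAbs.norm_eq_apply_ofAbs] at h1
  have h2 : h90wAbs (v i) (a i - y) < ρ i := lt_of_lt_of_le h1 (hr i)
  rw [h90wAbs_apply, hρ] at h2
  have h3 : WithZeroMulInt.toNNReal (e := 2) (by norm_num) (v i (a i - y))
      < WithZeroMulInt.toNNReal (e := 2) (by norm_num) (exp (n i)) := by exact_mod_cast h2
  have h4 := (WithZeroMulInt.toNNReal_strictMono (e := 2) (by norm_num)).lt_iff_lt.mp h3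
  rwa [Valuation.map_sub_swap] at h4

section Corollaries

variable {ι : Type*} [Finite ι] (v : ι → Valuation F ℤᵐ⁰)

/-- weak approximation with arbitrary nonzero bounds. -/
theorem h90w_weak_approx'
    (hnt : ∀ i, ∃ x : F, v i x ≠ 0 ∧ v i x ≠ 1)
    (hind : ∀ i k, i ≠ k → ∃ x : F, v i x < 1 ∧ 1 ≤ v k x)
    (a : ι → F) (ε : ι → ℤᵐ⁰) (hε : ∀ i, ε i ≠ 0) :
    ∃ x : F, ∀ i, v i (x - a i) < ε i := by
  obtain ⟨x, hx⟩ := h90w_weak_approx v hnt hind a (fun i => log (ε i))
  refine ⟨x, fun i => ?_⟩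
  have := hx i
  rwa [exp_log (hε i)] at this

/-- prescribed values. -/
theorem h90w_exists_val
    (hnt : ∀ i, ∃ x : F, v i x ≠ 0 ∧ v i x ≠ 1)
    (hind : ∀ i k, i ≠ k → ∃ x : F, v i x < 1 ∧ 1 ≤ v k x)
    [Nonempty ι] (a : ι → F) (ha : ∀ i, a i ≠ 0) :
    ∃ x : F, x ≠ 0 ∧ ∀ i, v i x = v i (a i) := by
  obtain ⟨x, hx⟩ := h90w_weak_approx' v hnt hind a (fun i => v i (a i))
    (fun i => (Valuation.ne_zero_iff (v i)).mpr (ha i))
  have hval : ∀ i, v i x = v i (a i) := fun i => Valuation.map_eq_of_sub_lt (v i) (hx i)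
  refine ⟨x, ?_, hval⟩
  obtain ⟨i⟩ := ‹Nonempty ι›
  intro h0
  have := hval i
  rw [h0, map_zero] at this
  exact (Valuation.ne_zero_iff (v i)).mpr (ha i) this.symm

/-- prescribed orders, if every valuation has a uniformiser. -/
theorem h90w_exists_exp
    (hunif : ∀ i, ∃ π : F, v i π = exp (-1 : ℤ))
    (hind : ∀ i k, i ≠ k → ∃ x : F, v i x < 1 ∧ 1 ≤ v k x)
    [Nonempty ι] (k : ι → ℤ) :
    ∃ x : F, x ≠ 0 ∧ ∀ i, v i x = exp (k i) := by
  choose π hπ using hunif
  have hπ0 : ∀ i, π i ≠ 0 := fun i => by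
    rw [← Valuation.ne_zero_iff (v i), hπ i]
    exact exp_ne_zero
  have hnt : ∀ i, ∃ x : F, v i x ≠ 0 ∧ v i x ≠ 1 := fun i => by
    refine ⟨π i, (Valuation.ne_zero_iff (v i)).mpr (hπ0 i), ?_⟩
    rw [hπ i, ← exp_zero, Ne, exp_inj]
    norm_num
  obtain ⟨x, hx0, hx⟩ := h90w_exists_val v hnt hind (fun i => π i ^ (-(k i)))
    (fun i => zpow_ne_zero _ (hπ0 i))
  refine ⟨x, hx0, fun i => ?_⟩
  rw [hx i, map_zpow₀, hπ i, ← exp_zsmul]
  congr 1
  simp

/-- prescribed residues: targets in the valuation rings. -/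
theorem h90w_exists_residue
    (hnt : ∀ i, ∃ x : F, v i x ≠ 0 ∧ v i x ≠ 1)
    (hind : ∀ i k, i ≠ k → ∃ x : F, v i x < 1 ∧ 1 ≤ v k x)
    (a : ι → F) (ha : ∀ i, v i (a i) ≤ 1) :
    ∃ x : F, (∀ i, v i (x - a i) < 1) ∧ (∀ i, v i x ≤ 1) ∧
      ∀ i, v i (a i) = 1 → v i x = 1 := by
  obtain ⟨x, hx⟩ := h90w_weak_approx' v hnt hind a (fun _ => 1) (fun _ => one_ne_zero)
  refine ⟨x, hx, fun i => ?_, fun i hi => ?_⟩
  · have : x = (x - a i) + a i := by ring
    rw [this]
    exact (Valuation.map_add _ _ _).trans (max_le (hx i).le (ha i))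
  · have h1 : v i (x - a i) < v i (a i) := by rw [hi]; exact hx i
    rw [Valuation.map_eq_of_sub_lt (v i) h1, hi]

/-- multiplicative weak approximation. -/
theorem h90w_exists_mul_approx
    (hnt : ∀ i, ∃ x : F, v i x ≠ 0 ∧ v i x ≠ 1)
    (hind : ∀ i k, i ≠ k → ∃ x : F, v i x < 1 ∧ 1 ≤ v k x)
    [Nonempty ι] (a : ι → F) (ha : ∀ i, a i ≠ 0) (ε : ι → ℤᵐ⁰) (hε : ∀ i, ε i ≠ 0)
    (hε1 : ∀ i, ε i ≤ 1) :
    ∃ x : F, x ≠ 0 ∧ ∀ i, v i (x / a i - 1) < ε i := by
  have hva : ∀ i, v i (a i) ≠ 0 := fun i => (Valuation.ne_zero_iff (v i)).mpr (ha i)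
  obtain ⟨x, hx⟩ := h90w_weak_approx' v hnt hind a (fun i => ε i * v i (a i))
    (fun i => mul_ne_zero (hε i) (hva i))
  have key : ∀ i, v i (x / a i - 1) < ε i := by
    intro i
    have h1 : x / a i - 1 = (x - a i) / a i := by
      field_simp [ha i]
    rw [h1, map_div₀, div_lt_iff₀ (zero_lt_iff.mpr (hva i))]
    exact hx i
  refine ⟨x, ?_, key⟩
  obtain ⟨i⟩ := ‹Nonempty ι›
  intro h0
  have h2 := key i
  rw [h0, zero_div, zero_sub, Valuation.map_neg, map_one] at h2
  exact absurd h2 (not_lt.mpr (hε1 i))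

omit [Finite ι] in
/-- the independence hypothesis from the `hinj` field of a chart. -/
theorem h90w_hind_of_hinj {S : Set F}
    (hinj : ∀ i k, (∀ b ∈ S, v i b < 1 → v k b < 1) → i = k) :
    ∀ i k, i ≠ k → ∃ x : F, v i x < 1 ∧ 1 ≤ v k x := by
  intro i k hik
  by_contra h
  apply hik
  apply hinj
  intro b _ hb
  by_contra hk
  exact h ⟨b, hb, not_lt.mp hk⟩

end Corollaries

end Fermat.Agent.S36
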