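import Fermat.Agent.S36.H20VertSkel
import Fermat.Agent.S36.H74VIface
import Fermat.Agent.S36.H90WeakApprox

/-!
# S36, block (V) + (N), leaf VN-L4 (helper90): functions of `F₀` with prescribed valuations

`h90v_approxVal : H74Val → H74Unif11 → H20ApproxVal`.

`H74Val` (output of block (V), helper74) packages the three vertical valuations
`Wv : Fin 3 → Valuation F₀ ℤᵐ⁰` of `F₀ = FF(M q q)^I` (`W20`, `W11`, `W02`), with uniformisers
`q`, `z = j(t^(q²)) - j(t)`, `q` and separating elements.  They are pairwise independent, so the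
weak approximation theorem (`h90w_exists_exp`, `S36/H90WeakApprox.lean`) gives `h ∈ F₀` with
`Wv i h = exp (n i)`.  `H74Unif11` (`z / (1 - ζ)` is a Gauss unit at `E11^ζ`) translates the
valuation at `W11` into the normalisation by `1 - ζ` of `h20v_HasVal`.
-/

set_option autoImplicit false
set_option linter.style.haveILetI false

open AlgebraicCurve ModularCurve WithZero

noncomputable section

namespace Fermat.Agent.S36

open Fermat.Agent.S37 (Kbar GQ FF cst gal jB)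
open Fermat.Agent.Red.GV.Soft (softOT softV)
open Fermat.Agent.S36.V28 (h28v_F0 h28v_IFixed)

/-- a Gauss unit at `E` in the sense of `h74w_Unit` is a unit in the sense of `h20v_Unit`. -/
theorem h90v_unit_of {N : ℕ} (A : ValuationSubring Kbar) (E : FF N →+* LaurentSeries Kbar)
    (x : FF N) (hx : x ≠ 0) (h : h74w_Unit A E x) : h20v_Unit A (E x) := by
  refine ⟨?_, h.1, ?_⟩
  · exact (map_ne_zero_iff E E.injective).mpr hx
  · have := h.2
    unfold h74w_Int at this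
    rwa [map_inv₀] at this

theorem h90v_unit_mul {N : ℕ} (A : ValuationSubring Kbar) (E : FF N →+* LaurentSeries Kbar)
    {x y : FF N} (hx : h74w_Unit A E x) (hy : h74w_Unit A E y) : h74w_Unit A E (x * y) := by
  refine ⟨?_, ?_⟩
  · unfold h74w_Int
    rw [map_mul]
    exact mul_mem hx.1 hy.1
  · unfold h74w_Int
    rw [mul_inv, map_mul]
    exact mul_mem hx.2 hy.2

theorem h90v_unit_inv {N : ℕ} (A : ValuationSubring Kbar) (E : FF N →+* LaurentSeries Kbar)
    {x : FF N} (hx : h74w_Unit A E x) : h74w_Unit A E x⁻¹ :=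
  ⟨hx.2, by rw [inv_inv]; exact hx.1⟩

theorem h90v_unit_one {N : ℕ} (A : ValuationSubring Kbar) (E : FF N →+* LaurentSeries Kbar) :
    h74w_Unit A E 1 := by
  refine ⟨?_, ?_⟩
  · unfold h74w_Int
    rw [map_one]
    exact one_mem _
  · unfold h74w_Int
    rw [inv_one, map_one]
    exact one_mem _

theorem h90v_unit_pow {N : ℕ} (A : ValuationSubring Kbar) (E : FF N →+* LaurentSeries Kbar)
    {x : FF N} (hx : h74w_Unit A E x) (n : ℕ) : h74w_Unit A E (x ^ n) := by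
  induction n with
  | zero => rw [pow_zero]; exact h90v_unit_one A E
  | succ k ih => rw [pow_succ]; exact h90v_unit_mul A E ih hx

theorem h90v_unit_zpow {N : ℕ} (A : ValuationSubring Kbar) (E : FF N →+* LaurentSeries Kbar)
    {x : FF N} (hx : h74w_Unit A E x) (n : ℤ) : h74w_Unit A E (x ^ n) := by
  obtain ⟨k, rfl | rfl⟩ := n.eq_nat_or_neg
  · rw [zpow_natCast]
    exact h90v_unit_pow A E hx k
  · rw [zpow_neg, zpow_natCast]
    exact h90v_unit_inv A E (h90v_unit_pow A E hx k)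

/-- the function `z = j(t^(q²)) - j(t)` is fixed by the whole Galois group. -/
theorem h90v_gal_z (M q : ℕ) [NeZero M] [NeZero q] (σ : GQ) :
    gal (M * q * q) σ • h74w_z M q = h74w_z M q := by
  have hα : ∀ (N : ℕ) [NeZero N] (x : FF N),
      gal (N * q) σ • heckeAlphaBar Kbar N q x = heckeAlphaBar Kbar N q (gal N σ • x) :=
    fun N _ x => Fermat.Agent.Red.HKGal.intertwines_heckeAlphaBar N q σ x
  have hβ : ∀ (N : ℕ) [NeZero N] (x : FF N),
      gal (N * q) σ • heckeBetaBar Kbar N q x = heckeBetaBar Kbar N q (gal N σ • x) :=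
    fun N _ x => Fermat.Agent.Red.HKGal.intertwines_heckeBetaBar N q σ x
  unfold h74w_z
  rw [smul_sub, hα (M * q), hα M, hβ (M * q), hβ M, Fermat.Agent.S37.GalI.gal_smul_jB]

/-- valuations in `ℤᵐ⁰` of integral powers. -/
theorem h90v_val_zpow {F : Type*} [Field F] (v : Valuation F ℤᵐ⁰) (π x : F) (a n : ℤ)
    (hπ : v π = exp (-a)) (hx : v x = exp (a * n)) : v (π ^ n * x) = 1 := by
  rw [map_mul, map_zpow₀, hπ, hx, ← exp_zsmul, ← exp_add]
  rw [← exp_zero]
  congr 1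
  simp only [smul_eq_mul]
  ring

theorem h90v_field_id {F : Type*} [Field F] (a Z x : F) (hZ : Z ≠ 0) (n : ℤ) :
    a ^ n * x = ((a⁻¹ * Z) ^ n)⁻¹ * (Z ^ n * x) := by
  rw [mul_zpow, inv_zpow, mul_inv, inv_inv, mul_assoc,
    inv_mul_cancel_left₀ (zpow_ne_zero _ hZ)]

/-- **VN-L4.**  Functions of `F₀` with prescribed valuations at `E20`, `E11^ζ`, `E02`. -/
theorem h90v_approxVal (hV : H74Val) (hU : H74Unif11) : H20ApproxVal := by
  intro q hq M _ hqM _
  haveI : NeZero q := ⟨hq.ne_zero⟩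
  intro A hA ζ E11 E02 hT n₂₀ n₁₁ n₀₂
  obtain ⟨Wv, h0, h1, h2, hq0, hq1, hq2, hz, ⟨y, hy0, hy2⟩, ⟨y', hy'2, hy'0⟩⟩ :=
    hV q hq M hqM A hA ζ hT.prim E11 hT.e11 E02 hT.e02
  -- the uniformiser `z` of `W11` as an element of `F₀`
  let z0 : h28v_F0 A (M * q * q) := ⟨h74w_z M q, fun σ _ => h90v_gal_z M q σ⟩
  obtain ⟨hz0, hz1, hz2⟩ := hz z0 rfl
  have hz0ne : z0 ≠ 0 := by
    intro h
    rw [h, map_zero] at hz1
    exact exp_ne_zero hz1.symm
  -- the element `q / z ^ (q - 1)`: a uniformiser at `W20`, `W02`, a unit at `W11`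
  set c : h28v_F0 A (M * q * q) := (q : h28v_F0 A (M * q * q)) * (z0 ^ (q - 1))⁻¹ with hc
  have hc0 : Wv 0 c = exp (-1 : ℤ) := by
    rw [hc, map_mul, map_inv₀, map_pow, hz0, one_pow, inv_one, mul_one, hq0]
  have hc2 : Wv 2 c = exp (-1 : ℤ) := by
    rw [hc, map_mul, map_inv₀, map_pow, hz2, one_pow, inv_one, mul_one, hq2]
  have hc1 : Wv 1 c = 1 := by
    rw [hc, map_mul, map_inv₀, map_pow, hz1, hq1, ← exp_nsmul, ← exp_neg, ← exp_add,
      ← exp_zero]
    congr 1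
    have h1q : 1 ≤ q := hq.one_lt.le
    simp only [nsmul_eq_mul, Nat.cast_sub h1q, Nat.cast_one]
    ring
  have hlt : exp (-1 : ℤ) < (1 : ℤᵐ⁰) := by
    rw [← exp_zero, exp_lt_exp]
    norm_num
  -- uniformisers
  have hunif : ∀ i, ∃ π : h28v_F0 A (M * q * q), Wv i π = exp (-1 : ℤ) := by
    intro i
    fin_cases i
    · exact ⟨_, hq0⟩
    · exact ⟨_, hz1⟩
    · exact ⟨_, hq2⟩
  -- independence
  have hind : ∀ i k, i ≠ k → ∃ x : h28v_F0 A (M * q * q), Wv i x < 1 ∧ 1 ≤ Wv k x := by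
    intro i k hik
    fin_cases i <;> fin_cases k
    · exact absurd rfl hik
    · exact ⟨c, by show Wv 0 c < 1; rw [hc0]; exact hlt, by show 1 ≤ Wv 1 c; rw [hc1]⟩
    · exact ⟨y, hy0, by show 1 ≤ Wv 2 y; rw [hy2]⟩
    · exact ⟨z0, by show Wv 1 z0 < 1; rw [hz1]; exact hlt, by show 1 ≤ Wv 0 z0; rw [hz0]⟩
    · exact absurd rfl hik
    · exact ⟨z0, by show Wv 1 z0 < 1; rw [hz1]; exact hlt, by show 1 ≤ Wv 2 z0; rw [hz2]⟩
    · exact ⟨y', hy'2, by show 1 ≤ Wv 0 y'; rw [hy'0]⟩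
    · exact ⟨c, by show Wv 2 c < 1; rw [hc2]; exact hlt, by show 1 ≤ Wv 1 c; rw [hc1]⟩
    · exact absurd rfl hik
  obtain ⟨x, hx0, hx⟩ := h90w_exists_exp Wv hunif hind ![n₂₀, n₁₁, n₀₂]
  have hx20 : Wv 0 x = exp n₂₀ := hx 0
  have hx11 : Wv 1 x = exp n₁₁ := hx 1
  have hx02 : Wv 2 x = exp n₀₂ := hx 2
  have hxF : (x : FF (M * q * q)) ≠ 0 := fun h => hx0 (Subtype.ext h)
  refine ⟨(x : FF (M * q * q)), x.2, hxF, ?_, ?_, ?_⟩
  · -- `E20`
    set w : h28v_F0 A (M * q * q) := (q : h28v_F0 A (M * q * q)) ^ n₂₀ * x with hw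
    have hw1 : Wv 0 w = 1 :=
      h90v_val_zpow (Wv 0) _ x 1 n₂₀ hq0 (by rw [one_mul]; exact hx20)
    have hwc : (w : FF (M * q * q)) = cst (M * q * q) (((q : ℕ) : Kbar) ^ n₂₀) * x := by
      have e1 : cst (M * q * q) (((q : ℕ) : Kbar) ^ n₂₀) = ((q : ℕ) : FF (M * q * q)) ^ n₂₀ := by
        show algebraMap Kbar (FF (M * q * q)) _ = _
        rw [map_zpow₀, map_natCast]
      rw [e1, hw]
      rfl
    have hw0 : (w : FF (M * q * q)) ≠ 0 := by
      intro h
      have : w = 0 := Subtype.ext h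
      rw [this, map_zero] at hw1
      exact zero_ne_one hw1
    rw [← hwc]
    refine h90v_unit_of A _ _ hw0 ⟨?_, ?_⟩
    · exact (h0 w).mp hw1.le
    · have h3 : Wv 0 w⁻¹ ≤ 1 := by rw [map_inv₀, hw1, inv_one]
      exact (h0 w⁻¹).mp h3
  · -- `E11`
    set w : h28v_F0 A (M * q * q) := z0 ^ n₁₁ * x with hw
    have hw1 : Wv 1 w = 1 :=
      h90v_val_zpow (Wv 1) _ x 1 n₁₁ hz1 (by rw [one_mul]; exact hx11)
    have hζ1 : (1 : Kbar) - ζ ≠ 0 := by
      intro h
      exact hT.prim.ne_one hq.one_lt (sub_eq_zero.mp h).symm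
    have hzF : h74w_z M q ≠ 0 := fun h => hz0ne (Subtype.ext h)
    have hwU : h74w_Unit A E11 (w : FF (M * q * q)) := by
      refine ⟨(h1 w).mp hw1.le, ?_⟩
      have h3 : Wv 1 w⁻¹ ≤ 1 := by rw [map_inv₀, hw1, inv_one]
      exact (h1 w⁻¹).mp h3
    have hUz := hU q hq M hqM A hA ζ hT.prim E11 hT.e11
    have hwc : cst (M * q * q) ((1 - ζ) ^ n₁₁) * (x : FF (M * q * q)) =
        ((cst (M * q * q) (1 - ζ)⁻¹ * h74w_z M q) ^ n₁₁)⁻¹ * (w : FF (M * q * q)) := by
      have hwv : (w : FF (M * q * q)) = h74w_z M q ^ n₁₁ * (x : FF (M * q * q)) := by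
        rw [hw]
        rfl
      have e1 : cst (M * q * q) ((1 - ζ) ^ n₁₁) = cst (M * q * q) (1 - ζ) ^ n₁₁ := by
        show algebraMap Kbar (FF (M * q * q)) _ = _
        rw [map_zpow₀]
      have e2 : cst (M * q * q) (1 - ζ)⁻¹ = (cst (M * q * q) (1 - ζ))⁻¹ := by
        show algebraMap Kbar (FF (M * q * q)) _ = _
        rw [map_inv₀]
      rw [hwv, e1, e2]
      exact h90v_field_id _ _ _ hzF n₁₁
    rw [hwc]
    have hne : ((cst (M * q * q) (1 - ζ)⁻¹ * h74w_z M q) ^ n₁₁)⁻¹ * (w : FF (M * q * q)) ≠ 0 := by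
      rw [← hwc]
      refine mul_ne_zero ?_ hxF
      exact (map_ne_zero_iff _ (algebraMap Kbar (FF (M * q * q))).injective).mpr
        (zpow_ne_zero _ hζ1)
    exact h90v_unit_of A _ _ hne
      (h90v_unit_mul A E11 (h90v_unit_inv A E11 (h90v_unit_zpow A E11 hUz n₁₁)) hwU)
  · -- `E02`
    set w : h28v_F0 A (M * q * q) := (q : h28v_F0 A (M * q * q)) ^ n₀₂ * x with hw
    have hw1 : Wv 2 w = 1 :=
      h90v_val_zpow (Wv 2) _ x 1 n₀₂ hq2 (by rw [one_mul]; exact hx02)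
    have hwc : (w : FF (M * q * q)) = cst (M * q * q) (((q : ℕ) : Kbar) ^ n₀₂) * x := by
      have e1 : cst (M * q * q) (((q : ℕ) : Kbar) ^ n₀₂) = ((q : ℕ) : FF (M * q * q)) ^ n₀₂ := by
        show algebraMap Kbar (FF (M * q * q)) _ = _
        rw [map_zpow₀, map_natCast]
      rw [e1, hw]
      rfl
    have hw0 : (w : FF (M * q * q)) ≠ 0 := by
      intro h
      have : w = 0 := Subtype.ext h
      rw [this, map_zero] at hw1
      exact zero_ne_one hw1
    rw [← hwc]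
    refine h90v_unit_of A _ _ hw0 ⟨?_, ?_⟩
    · exact (h2 w).mp hw1.le
    · have h3 : Wv 2 w⁻¹ ≤ 1 := by rw [map_inv₀, hw1, inv_one]
      exact (h2 w⁻¹).mp h3

end Fermat.Agent.S36
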