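import Fermat.Agent.S36.V28Disc
import Fermat.Agent.S36.H74VIface

/-!
# S36 (V), row V-DISC: the frozen Props `H74Disc02` and `H74Disc11` (helper28)

* `h28f_unit_iff` : `h74w_Unit A E x ↔ h28d_IsSU A (E x)`.
* `h28f_H74Disc02 : H74Disc02` (unconditional; from `h28d_W02_exists_zpow`).
* `h28f_H74Disc11_of : H74Unif11 → H74Disc11` (from `h28d_W11_exists_zpow`:
  `z ^ n · x = (z / (1 - ζ)) ^ n · ((1 - ζ) ^ n · x)`).
-/

set_option autoImplicit false
set_option linter.unusedSectionVars false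
set_option linter.style.haveILetI false

open ModularCurve AlgebraicCurve

noncomputable section

namespace Fermat.Agent.S36.V28

open Fermat.Agent.S37 (Kbar GQ FF cst gal jB)
open Fermat.Agent.Red.GV.Soft (softOT softV)
open Fermat.Agent.S36 (h74w_Int h74w_Unit h74w_z H74Disc02 H74Disc11 H74Unif11 H74ZUnit
  h20n_IsE11 h20n_IsE02 h20n_E20)

theorem h28f_unit_iff (A : ValuationSubring Kbar) {N : ℕ}
    (E : FF N →+* LaurentSeries Kbar) (x : FF N) :
    h74w_Unit A E x ↔ h28d_IsSU A (E x) := by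
  unfold h74w_Unit h74w_Int h28d_IsSU
  rw [map_inv₀]

/-- **V-DISC02** (frozen Prop of `H74VIface`). -/
theorem h28f_H74Disc02 : H74Disc02 := by
  intro q hq M _ hqM A hA E0 hE0 x hx0 hx
  haveI : NeZero q := ⟨hq.ne_zero⟩
  obtain ⟨n, hn⟩ := h28d_W02_exists_zpow A hq hqM hA E0 hE0 x hx hx0
  exact ⟨n, (h28f_unit_iff A E0 _).mpr hn⟩

/-- **V-DISC11** from **V-UNIF11**. -/
theorem h28f_H74Disc11_of (hU : H74Unif11) : H74Disc11 := by
  intro q hq M _ hqM A hA ζ hζ E hE x hx0 hx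
  haveI : NeZero q := ⟨hq.ne_zero⟩
  have hU' := (h28f_unit_iff A E _).mp (hU q hq M hqM A hA ζ hζ E hE)
  obtain ⟨n, hn⟩ := h28d_W11_exists_zpow A hq hqM hA ζ hζ E hE x hx hx0
  refine ⟨n, (h28f_unit_iff A E _).mpr ?_⟩
  have hζ1 : (1 : Kbar) - ζ ≠ 0 := by
    intro h
    have h1 : ζ = 1 := (sub_eq_zero.mp h).symm
    exact hq.one_lt.ne' (hζ.unique (h1 ▸ IsPrimitiveRoot.one))
  have hc : cst (M * q * q) ((1 : Kbar) - ζ) ≠ 0 := by
    rw [Ne, map_eq_zero_iff _ (algebraMap Kbar (FF (M * q * q))).injective]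
    exact hζ1
  have key : h74w_z M q ^ n * x =
      (cst (M * q * q) (1 - ζ)⁻¹ * h74w_z M q) ^ n * (cst (M * q * q) ((1 - ζ) ^ n) * x) := by
    have e1 : cst (M * q * q) ((1 - ζ) ^ n) = cst (M * q * q) (1 - ζ) ^ n :=
      map_zpow₀ (algebraMap Kbar (FF (M * q * q))) _ _
    have e2 : cst (M * q * q) (1 - ζ)⁻¹ = (cst (M * q * q) (1 - ζ))⁻¹ :=
      map_inv₀ (algebraMap Kbar (FF (M * q * q))) _
    rw [e1, e2, mul_zpow, inv_zpow]
    have hcn : cst (M * q * q) ((1 : Kbar) - ζ) ^ n ≠ 0 := zpow_ne_zero _ hc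
    field_simp
  rw [key, map_mul, map_zpow₀]
  exact (hU'.zpow n).mul hn

end Fermat.Agent.S36.V28
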