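import Fermat.Agent.S36.H74VIface
import Fermat.Agent.S36.H57AbsVal
import Fermat.Agent.S36.H57ZUnit
import Fermat.Agent.S36.H57Unif11
import Fermat.Agent.S36.H23K1
import Fermat.Agent.S36.V28DiscFinal
import Fermat.Agent.S36.H90ApproxVal
import Fermat.Agent.LGC.H55Kron

/-!
# S36, block (V), leaf V-VAL (helper55, second seat): `H74Val`

The three vertical valuations `Wv : Fin 3 → Valuation F₀ ℤᵐ⁰` of `F₀ = FF (M q q)^I`:
pull-backs of the Gauss ring along `E20`, `E11^ζ`, `E02`, with uniformisers `q`, `z`, `q`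
(`h57a_exists_valuation`).  Separating elements for `W20`, `W02`:

* `f = j(t^q) - j(t)^q` at `E20`  is `≡ 0` (Frobenius), at `E02` it is
  `j(t^q) - j(t^(q²))^q`, a Gauss unit;
* `g = Y - Z^q` (`Z = j(t^(q²))`) has the opposite behaviour.
-/

set_option autoImplicit false
set_option linter.style.haveILetI false
set_option linter.unusedSectionVars false

open AlgebraicCurve ModularCurve WithZero

noncomputable section

namespace Fermat.Agent.S36

open Fermat.Agent.S37 (Kbar GQ FF cst gal jB)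
open Fermat.Agent.Red.GV.Soft (softOT softV softRedT IsWit)
open Fermat.Agent.Red.GV (jK embA redA)
open Fermat.Agent.Red.Kron (kFricke twistK)
open Fermat.Agent.S36.V28 (h28v_F0 h28v_IFixed h28v_exists_zpow)

/-! ## Part 1: the two series -/

section Series

variable (A : ValuationSubring Kbar) (q : ℕ) [NeZero q]

/-- `j(t^q) - j(t)^q` over `A`. -/
def h55vv_sA : LaurentSeries A := qExpand A q (jqModC A) - jqModC A ^ q

/-- `j(t^q) - j(t^(q²))^q` over `A`. -/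
def h55vv_sB : LaurentSeries A :=
  qExpand A q (jqModC A) - (qExpand A q (qExpand A q (jqModC A))) ^ q

/-- `j(t^q) - j(t)^q`. -/
def h55vv_SA : LaurentSeries Kbar := qExpand Kbar q (jK Kbar) - jK Kbar ^ q

/-- `j(t^q) - j(t^(q²))^q`. -/
def h55vv_SB : LaurentSeries Kbar :=
  qExpand Kbar q (jK Kbar) - (qExpand Kbar q (qExpand Kbar q (jK Kbar))) ^ q

theorem h55vv_embA_sA : embA A (h55vv_sA A q) = h55vv_SA q := by
  unfold h55vv_sA h55vv_SA
  rw [map_sub, map_pow]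
  unfold embA
  rw [ModularCurve.coeffMap_qExpand, coeffMap_jqModC]
  rfl

theorem h55vv_embA_sB : embA A (h55vv_sB A q) = h55vv_SB q := by
  unfold h55vv_sB h55vv_SB
  rw [map_sub, map_pow]
  unfold embA
  rw [ModularCurve.coeffMap_qExpand, ModularCurve.coeffMap_qExpand,
    ModularCurve.coeffMap_qExpand, coeffMap_jqModC]
  rfl

variable {q}

theorem h55vv_frob (hq : q.Prime) (hA : A.LiesOverPrime q)
    (r : LaurentSeries (ZMod q)) (x : LaurentSeries (IsLocalRing.ResidueField A))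
    (hx : ∀ κ : ZMod q →+* IsLocalRing.ResidueField A, coeffMap κ r = x) :
    x ^ q = qExpand (IsLocalRing.ResidueField A) q x := by
  haveI : Fact q.Prime := ⟨hq⟩
  have hπ := Fermat.Agent.Red.GV.isResidueMap_residue A q hA
  haveI : CharP (IsLocalRing.ResidueField A) q := Fermat.Agent.Red.GV.Base.h80_charP A _ q hπ
  set κ : ZMod q →+* IsLocalRing.ResidueField A := ZMod.castHom (dvd_refl q) _ with hκ
  rw [← hx κ]
  exact Fermat.Agent.LGC.h55k_pow_eq_qExpand q κ r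

theorem h55vv_redA_sA (hq : q.Prime) (hA : A.LiesOverPrime q) :
    redA (IsLocalRing.residue A) (h55vv_sA A q) = 0 := by
  unfold h55vv_sA
  rw [map_sub, map_pow]
  unfold redA
  rw [ModularCurve.coeffMap_qExpand, coeffMap_jqModC]
  rw [h55vv_frob A hq hA (jqModC (ZMod q)) (jqModC (IsLocalRing.ResidueField A))
    (fun κ => coeffMap_jqModC κ), sub_self]

theorem h55vv_redA_sB (hq : q.Prime) (hA : A.LiesOverPrime q) :
    redA (IsLocalRing.residue A) (h55vv_sB A q) ≠ 0 := by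
  unfold h55vv_sB
  rw [map_sub, map_pow]
  unfold redA
  rw [ModularCurve.coeffMap_qExpand, ModularCurve.coeffMap_qExpand,
    ModularCurve.coeffMap_qExpand, coeffMap_jqModC]
  rw [h55vv_frob A hq hA (qExpand (ZMod q) q (qExpand (ZMod q) q (jqModC (ZMod q))))
    (qExpand _ q (qExpand _ q (jqModC (IsLocalRing.ResidueField A))))
    (fun κ => by
      rw [ModularCurve.coeffMap_qExpand, ModularCurve.coeffMap_qExpand, coeffMap_jqModC])]
  intro h
  have h1 := congrArg (fun s => HahnSeries.coeff s (-(q : ℤ))) h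
  simp only [HahnSeries.coeff_sub, HahnSeries.coeff_zero] at h1
  have e1 : -(q : ℤ) = (q : ℤ) * (-1) := by ring
  have hnd : ¬ (q : ℤ) ∣ (-1 : ℤ) := by
    intro hd
    have h2 : (q : ℤ) ∣ 1 := (Int.dvd_neg).mp hd
    have h3 : q ∣ 1 := by exact_mod_cast h2
    exact hq.one_lt.ne' (Nat.dvd_one.mp h3)
  rw [e1, qExpand_coeff_mul, qExpand_coeff_mul, qExpand_coeff_of_not_dvd q _ hnd,
    ModularCurve.coeff_jqModC_neg_one, sub_zero] at h1
  exact one_ne_zero h1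

/-- `S_A` is Gauss-integral with reduction `0`. -/
theorem h55vv_SA_red (hq : q.Prime) (hA : A.LiesOverPrime q) :
    ∃ h : h55vv_SA q ∈ softOT A (IsLocalRing.residue A),
      softRedT A (IsLocalRing.residue A) ⟨_, h⟩ = 0 := by
  have hmem : h55vv_SA q ∈ softOT A (IsLocalRing.residue A) := by
    rw [← h55vv_embA_sA A q]
    exact Fermat.Agent.Red.GV.Soft.embA_mem_softOT A _ _
  refine ⟨hmem, ?_⟩
  rw [Fermat.Agent.Red.GV.Soft.softRedT_of_embA ⟨_, hmem⟩ (h55vv_sA A q) (h55vv_embA_sA A q),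
    h55vv_redA_sA A hq hA]

/-- `S_B` is a Gauss unit. -/
theorem h55vv_SB_unit (hq : q.Prime) (hA : A.LiesOverPrime q) :
    h55vv_SB q ∈ softOT A (IsLocalRing.residue A) ∧
      (h55vv_SB q)⁻¹ ∈ softOT A (IsLocalRing.residue A) := by
  have hw := Fermat.Agent.Red.GV.Soft.isWit_of_embA A (IsLocalRing.residue A) (h55vv_sB A q)
  rw [h55vv_embA_sB A q] at hw
  exact ⟨⟨_, _, hw⟩, ⟨_, _, hw.inv (h55vv_redA_sB A hq hA)⟩⟩

end Series

/-! ## Part 2: the separating functions -/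

section Sep

variable (M q : ℕ) [NeZero M] [NeZero q]

/-- `f = j(t^q) - j(t)^q` at level `M q q`. -/
def h55vv_f : FF (M * q * q) :=
  heckeAlphaBar Kbar (M * q) q (heckeBetaBar Kbar M q (jB M)) -
    heckeAlphaBar Kbar (M * q) q (heckeAlphaBar Kbar M q (jB M)) ^ q

/-- `g = j(t^q) - j(t^(q²))^q` at level `M q q`. -/
def h55vv_g : FF (M * q * q) :=
  heckeAlphaBar Kbar (M * q) q (heckeBetaBar Kbar M q (jB M)) -
    heckeBetaBar Kbar (M * q) q (heckeBetaBar Kbar M q (jB M)) ^ q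

theorem h55vv_gal_f (σ : GQ) : gal (M * q * q) σ • h55vv_f M q = h55vv_f M q := by
  have hα : ∀ (N : ℕ) [NeZero N] (x : FF N),
      gal (N * q) σ • heckeAlphaBar Kbar N q x = heckeAlphaBar Kbar N q (gal N σ • x) :=
    fun N _ x => Fermat.Agent.Red.HKGal.intertwines_heckeAlphaBar N q σ x
  have hβ : ∀ (N : ℕ) [NeZero N] (x : FF N),
      gal (N * q) σ • heckeBetaBar Kbar N q x = heckeBetaBar Kbar N q (gal N σ • x) :=
    fun N _ x => Fermat.Agent.Red.HKGal.intertwines_heckeBetaBar N q σ x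
  unfold h55vv_f
  rw [smul_sub, smul_pow', hα (M * q), hα (M * q), hα M, hβ M,
    Fermat.Agent.S37.GalI.gal_smul_jB]

theorem h55vv_gal_g (σ : GQ) : gal (M * q * q) σ • h55vv_g M q = h55vv_g M q := by
  have hα : ∀ (N : ℕ) [NeZero N] (x : FF N),
      gal (N * q) σ • heckeAlphaBar Kbar N q x = heckeAlphaBar Kbar N q (gal N σ • x) :=
    fun N _ x => Fermat.Agent.Red.HKGal.intertwines_heckeAlphaBar N q σ x
  have hβ : ∀ (N : ℕ) [NeZero N] (x : FF N),
      gal (N * q) σ • heckeBetaBar Kbar N q x = heckeBetaBar Kbar N q (gal N σ • x) :=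
    fun N _ x => Fermat.Agent.Red.HKGal.intertwines_heckeBetaBar N q σ x
  unfold h55vv_g
  rw [smul_sub, smul_pow', hα (M * q), hβ (M * q), hβ M,
    Fermat.Agent.S37.GalI.gal_smul_jB]

theorem h55vv_coe_f : ((h55vv_f M q : FF (M * q * q)) : LaurentSeries Kbar) = h55vv_SA q := by
  unfold h55vv_f h55vv_SA
  show ((heckeAlphaBar Kbar (M * q) q (heckeBetaBar Kbar M q (jB M)) : FF (M * q * q)) :
      LaurentSeries Kbar) -
    ((heckeAlphaBar Kbar (M * q) q (heckeAlphaBar Kbar M q (jB M)) : FF (M * q * q)) :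
      LaurentSeries Kbar) ^ q = _
  rw [coe_heckeAlphaBar, coe_heckeBetaBar, coe_heckeAlphaBar, coe_heckeAlphaBar,
    Fermat.Agent.Red.GV.coe_jB]

theorem h55vv_coe_g : ((h55vv_g M q : FF (M * q * q)) : LaurentSeries Kbar) = h55vv_SB q := by
  unfold h55vv_g h55vv_SB
  show ((heckeAlphaBar Kbar (M * q) q (heckeBetaBar Kbar M q (jB M)) : FF (M * q * q)) :
      LaurentSeries Kbar) -
    ((heckeBetaBar Kbar (M * q) q (heckeBetaBar Kbar M q (jB M)) : FF (M * q * q)) :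
      LaurentSeries Kbar) ^ q = _
  rw [coe_heckeAlphaBar, coe_heckeBetaBar, coe_heckeBetaBar, coe_heckeBetaBar,
    Fermat.Agent.Red.GV.coe_jB]

theorem h55vv_E02_f (hq : q.Prime) (hqM : ¬ q ∣ M) (E0 : FF (M * q * q) →+* LaurentSeries Kbar)
    (hE0 : h20n_IsE02 M q hq hqM E0) : E0 (h55vv_f M q) = h55vv_SB q := by
  unfold h55vv_f h55vv_SB
  rw [map_sub, map_pow, hE0.1, hE0.1, Fermat.Agent.Red.Kron.kFricke_beta,
    Fermat.Agent.Red.Kron.kFricke_alpha, coe_heckeAlphaBar, coe_heckeBetaBar,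
    Fermat.Agent.Red.GV.coe_jB]

theorem h55vv_E02_g (hq : q.Prime) (hqM : ¬ q ∣ M) (E0 : FF (M * q * q) →+* LaurentSeries Kbar)
    (hE0 : h20n_IsE02 M q hq hqM E0) : E0 (h55vv_g M q) = h55vv_SA q := by
  unfold h55vv_g h55vv_SA
  rw [map_sub, map_pow, hE0.1, hE0.2, Fermat.Agent.Red.Kron.kFricke_beta,
    coe_heckeAlphaBar, Fermat.Agent.Red.GV.coe_jB]

end Sep

/-! ## Part 3: valuations from the pull-back of the Gauss ring -/

section Val

variable (A : ValuationSubring Kbar) {N : ℕ} (E : FF N →+* LaurentSeries Kbar)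

/-- the pull-back of the Gauss ring to `F₀` along `E`. -/
def h55vvW : Subring (h28v_F0 A N) :=
  (softOT A (IsLocalRing.residue A)).comap (E.comp (h28v_F0 A N).subtype)

theorem h55vv_mem_W (x : h28v_F0 A N) : x ∈ h55vvW A E ↔ h74w_Int A E (x : FF N) := Iff.rfl

/-- the valuation of `F₀` attached to `E` and a uniformiser `π`. -/
theorem h55vv_exists (π : h28v_F0 A N) (hπ : h74w_Int A E (π : FF N))
    (hπ' : ¬ h74w_Int A E ((π : FF N)⁻¹))
    (hex : ∀ x : FF N, x ≠ 0 → h28v_IFixed A N x →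
      ∃ n : ℤ, h74w_Unit A E ((π : FF N) ^ n * x)) :
    ∃ v : Valuation (h28v_F0 A N) ℤᵐ⁰,
      (∀ x : h28v_F0 A N, v x ≤ 1 ↔ h74w_Int A E (x : FF N)) ∧ v π = exp (-1 : ℤ) ∧
      (∀ (x : h28v_F0 A N) (n : ℤ), x ≠ 0 →
        (v x = exp n ↔ h74w_Unit A E ((π : FF N) ^ n * (x : FF N)))) := by
  have hc : ∀ (x : h28v_F0 A N) (n : ℤ),
      (((π ^ n * x : h28v_F0 A N)) : FF N) = (π : FF N) ^ n * (x : FF N) := by
    intro x n
    push_cast
    rfl
  have hci : ∀ (x : h28v_F0 A N) (n : ℤ),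
      ((((π ^ n * x)⁻¹ : h28v_F0 A N)) : FF N) = ((π : FF N) ^ n * (x : FF N))⁻¹ := by
    intro x n
    push_cast
    rfl
  have hW : ∀ (x : h28v_F0 A N) (n : ℤ),
      (π ^ n * x ∈ h55vvW A E ∧ (π ^ n * x)⁻¹ ∈ h55vvW A E) ↔
        h74w_Unit A E ((π : FF N) ^ n * (x : FF N)) := by
    intro x n
    rw [h55vv_mem_W, h55vv_mem_W, hc, hci]
    rfl
  obtain ⟨v, h1, h2, h3⟩ := h57a_exists_valuation (h55vvW A E) π
    ((h55vv_mem_W A E π).mpr hπ)
    (by
      intro h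
      apply hπ'
      have := (h55vv_mem_W A E π⁻¹).mp h
      simpa using this)
    (by
      intro x hx
      have hx' : (x : FF N) ≠ 0 := fun h => hx (Subtype.ext h)
      obtain ⟨n, hn⟩ := hex (x : FF N) hx' x.2
      exact ⟨n, (hW x n).mpr hn⟩)
  refine ⟨v, h1, h2, ?_⟩
  intro x n hx
  rw [h3 x n hx, hW]

variable {A E}

/-- `v x = 1` iff `x` is a Gauss unit at `E`. -/
theorem h55vv_eq_one_iff {π : h28v_F0 A N} {v : Valuation (h28v_F0 A N) ℤᵐ⁰}
    (h3 : ∀ (x : h28v_F0 A N) (n : ℤ), x ≠ 0 →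
      (v x = exp n ↔ h74w_Unit A E ((π : FF N) ^ n * (x : FF N))))
    (x : h28v_F0 A N) (hx : x ≠ 0) : v x = 1 ↔ h74w_Unit A E (x : FF N) := by
  have h := h3 x 0 hx
  rw [zpow_zero, one_mul, exp_zero] at h
  exact h

/-- `v x < 1` if `x` is Gauss-integral at `E` and `x⁻¹` is not. -/
theorem h55vv_lt_one {v : Valuation (h28v_F0 A N) ℤᵐ⁰}
    (h1 : ∀ x : h28v_F0 A N, v x ≤ 1 ↔ h74w_Int A E (x : FF N))
    (x : h28v_F0 A N) (hx : h74w_Int A E (x : FF N))
    (hx' : ¬ h74w_Int A E ((x : FF N)⁻¹)) : v x < 1 := by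
  have hle : v x ≤ 1 := (h1 x).mpr hx
  rcases lt_or_eq_of_le hle with h | h
  · exact h
  · exfalso
    apply hx'
    have h2 : v x⁻¹ ≤ 1 := by
      rw [map_inv₀, h, inv_one]
    have := (h1 x⁻¹).mp h2
    simpa using this

end Val

/-! ## Part 4: constants -/

section Const

variable (A : ValuationSubring Kbar)

theorem h55vv_C_mem_iff (c : Kbar) :
    HahnSeries.C c ∈ softOT A (IsLocalRing.residue A) ↔ c ∈ A := by
  apply Fermat.Agent.Red.GV.Soft.C_mem_softOT_iff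
  intro a ha
  rw [IsLocalRing.residue_eq_zero_iff]
  exact (ValuationSubring.coe_mem_nonunits_iff).mp ha

theorem h55vv_q_mem {q : ℕ} (hA : A.LiesOverPrime q) : ((q : ℕ) : Kbar) ∈ A :=
  A.nonunits_subset hA

theorem h55vv_q_inv_not_mem {q : ℕ} (hq : q.Prime) (hA : A.LiesOverPrime q) :
    (((q : ℕ) : Kbar))⁻¹ ∉ A := by
  intro h
  have h1 : A.valuation ((q : ℕ) : Kbar) < 1 := (ValuationSubring.mem_nonunits_iff A).mp hA
  have h2 : A.valuation (((q : ℕ) : Kbar))⁻¹ ≤ 1 := (A.valuation_le_one_iff _).mpr h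
  rw [map_inv₀] at h2
  have hq0 : ((q : ℕ) : Kbar) ≠ 0 := Nat.cast_ne_zero.mpr hq.ne_zero
  have h3 : A.valuation ((q : ℕ) : Kbar) ≠ 0 := (Valuation.ne_zero_iff _).mpr hq0
  have h4 : 1 ≤ A.valuation ((q : ℕ) : Kbar) := by
    have := (inv_le_one₀ (zero_lt_iff.mpr h3)).mp h2
    exact this
  exact absurd h1 (not_lt.mpr h4)

/-- the image of `q` under any embedding is the constant `q`. -/
theorem h55vv_E_q {N : ℕ} (E : FF N →+* LaurentSeries Kbar) (q : ℕ) :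
    E ((q : ℕ) : FF N) = HahnSeries.C ((q : ℕ) : Kbar) := by
  rw [map_natCast, map_natCast]

theorem h55vv_q_int {N : ℕ} (E : FF N →+* LaurentSeries Kbar) {q : ℕ}
    (hA : A.LiesOverPrime q) : h74w_Int A E ((q : ℕ) : FF N) := by
  unfold h74w_Int
  rw [h55vv_E_q, h55vv_C_mem_iff]
  exact h55vv_q_mem A hA

theorem h55vv_q_inv_not_int {N : ℕ} (E : FF N →+* LaurentSeries Kbar) {q : ℕ}
    (hq : q.Prime) (hA : A.LiesOverPrime q) : ¬ h74w_Int A E (((q : ℕ) : FF N))⁻¹ := by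
  unfold h74w_Int
  rw [map_inv₀, h55vv_E_q, ← map_inv₀ (HahnSeries.C : Kbar →+* LaurentSeries Kbar),
    h55vv_C_mem_iff]
  exact h55vv_q_inv_not_mem A hq hA

/-- a constant which is a unit of `A` is a Gauss unit at `E` (if `E (cst c) = C c`). -/
theorem h55vv_unit_cst {N : ℕ} (E : FF N →+* LaurentSeries Kbar) (c : Kbar)
    (hE : E (cst N c) = HahnSeries.C c) (hc : c ∈ A) (hc' : c⁻¹ ∈ A) :
    h74w_Unit A E (cst N c) := by
  refine ⟨?_, ?_⟩
  · unfold h74w_Int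
    rw [hE, h55vv_C_mem_iff]
    exact hc
  · unfold h74w_Int
    rw [map_inv₀, hE, ← map_inv₀ (HahnSeries.C : Kbar →+* LaurentSeries Kbar),
      h55vv_C_mem_iff]
    exact hc'

end Const

/-! ## Part 5: the assembly -/

section Asm

variable (A : ValuationSubring Kbar) (M q : ℕ) [NeZero M] [NeZero q]

theorem h55vv_cst_zpow (N : ℕ) (n : ℤ) :
    cst N ((((q : ℕ) : Kbar)) ^ n) = (((q : ℕ) : FF N)) ^ n := by
  show algebraMap Kbar (FF N) _ = _
  rw [map_zpow₀, map_natCast]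

theorem h55vv_SB_ne_zero (hq : q.Prime) (hA : A.LiesOverPrime q) : h55vv_SB q ≠ 0 := by
  intro h
  apply h55vv_redA_sB A hq hA
  have h1 : h55vv_sB A q = 0 := by
    apply Fermat.Agent.Red.GV.embA_injective A
    rw [h55vv_embA_sB, h, map_zero]
  rw [h1, map_zero]

theorem h55vv_g_ne_zero (hq : q.Prime) (hA : A.LiesOverPrime q) : h55vv_g M q ≠ 0 := by
  intro h
  apply h55vv_SB_ne_zero A q hq hA
  rw [← h55vv_coe_g M q, h]
  rfl

theorem h55vv_f_ne_zero (hq : q.Prime) (hqM : ¬ q ∣ M) (hA : A.LiesOverPrime q)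
    (E0 : FF (M * q * q) →+* LaurentSeries Kbar) (hE0 : h20n_IsE02 M q hq hqM E0) :
    h55vv_f M q ≠ 0 := by
  intro h
  apply h55vv_SB_ne_zero A q hq hA
  rw [← h55vv_E02_f M q hq hqM E0 hE0, h, map_zero]

theorem h55vv_SA_ne_zero (hq : q.Prime) (hqM : ¬ q ∣ M) (hA : A.LiesOverPrime q)
    (E0 : FF (M * q * q) →+* LaurentSeries Kbar) (hE0 : h20n_IsE02 M q hq hqM E0) :
    h55vv_SA q ≠ 0 := by
  rw [← h55vv_E02_g M q hq hqM E0 hE0]
  exact (map_ne_zero_iff E0 E0.injective).mpr (h55vv_g_ne_zero A M q hq hA)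

theorem h55vv_SA_inv_not_mem (hq : q.Prime) (hqM : ¬ q ∣ M) (hA : A.LiesOverPrime q)
    (E0 : FF (M * q * q) →+* LaurentSeries Kbar) (hE0 : h20n_IsE02 M q hq hqM E0) :
    (h55vv_SA q)⁻¹ ∉ softOT A (IsLocalRing.residue A) := by
  obtain ⟨h, hred⟩ := h55vv_SA_red A hq hA
  rcases (Fermat.Agent.Red.GV.Soft.softRedT_eq_zero_iff
    (⟨_, h⟩ : softOT A (IsLocalRing.residue A))).mp hred with h0 | h1
  · exact absurd h0 (h55vv_SA_ne_zero A M q hq hqM hA E0 hE0)
  · exact h1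

/-- `(1 - ζ)⁻¹ ∉ A`. -/
theorem h55vv_one_sub_zeta_inv_not_mem (hq : q.Prime) (hA : A.LiesOverPrime q) (ζ : Kbar)
    (hζ : IsPrimitiveRoot ζ q) : ((1 : Kbar) - ζ)⁻¹ ∉ A := by
  intro h
  apply h55vv_q_inv_not_mem A hq hA
  obtain ⟨-, h2⟩ := h23t_H74Zeta q hq A hA ζ hζ
  have hq0 : ((q : ℕ) : Kbar) ≠ 0 := Nat.cast_ne_zero.mpr hq.ne_zero
  have hne : (1 : Kbar) - ζ ≠ 0 := by
    intro h0
    exact hζ.ne_one hq.one_lt (sub_eq_zero.mp h0).symm
  have e : (((q : ℕ) : Kbar))⁻¹ =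
      (((q : ℕ) : Kbar) * ((1 - ζ) ^ (q - 1))⁻¹)⁻¹ * ((1 - ζ)⁻¹) ^ (q - 1) := by
    rw [mul_inv, inv_inv, inv_pow, mul_assoc, mul_inv_cancel₀ (pow_ne_zero _ hne), mul_one]
  rw [e]
  exact A.mul_mem _ _ h2 (pow_mem h _)

/-- `z = j(t^(q²)) - j(t) ≠ 0`. -/
theorem h55v_z_ne_zero' (hq : q.Prime) : h74w_z M q ≠ 0 := by
  intro h
  have h1 := h57z_coe_z M q
  rw [h] at h1
  have h2 : (h57z_S q).coeff (-((q : ℤ) * q)) = 0 := by
    rw [← h1]
    rfl
  rw [h57z_S_coeff q hq.two_le] at h2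
  exact one_ne_zero h2

/-- **V-VAL.** -/
theorem h55vv_val : H74Val := by
  intro q hq M _ hqM
  haveI : NeZero q := ⟨hq.ne_zero⟩
  intro A hA ζ hζ E hE E0 hE0
  have hU := h57u_unif11 q hq M hqM A hA ζ hζ E hE
  have hZ := h57z_zUnit q hq M hqM A hA
  have hZeta := h23t_H74Zeta q hq A hA ζ hζ
  have hq0K : ((q : ℕ) : Kbar) ≠ 0 := Nat.cast_ne_zero.mpr hq.ne_zero
  have hne : (1 : Kbar) - ζ ≠ 0 := by
    intro h0
    exact hζ.ne_one hq.one_lt (sub_eq_zero.mp h0).symm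
  have hcst : ∀ c : Kbar, c ≠ 0 → cst (M * q * q) c ≠ 0 := by
    intro c hc h
    apply hc
    have h2 : algebraMap Kbar (FF (M * q * q)) c = algebraMap Kbar (FF (M * q * q)) 0 := by
      rw [map_zero]
      exact h
    exact (algebraMap Kbar (FF (M * q * q))).injective h2
  have ha0 : cst (M * q * q) (1 - ζ) ≠ 0 := hcst _ hne
  have hz0 : h74w_z M q ≠ 0 := h55v_z_ne_zero' M q hq
  have hf0 := h55vv_f_ne_zero A M q hq hqM hA E0 hE0
  have hg0 := h55vv_g_ne_zero A M q hq hA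
  -- the elements of `F₀`
  set qF : h28v_F0 A (M * q * q) := ((q : ℕ) : h28v_F0 A (M * q * q)) with hqFdef
  set zF : h28v_F0 A (M * q * q) := ⟨h74w_z M q, fun σ _ => h90v_gal_z M q σ⟩ with hzFdef
  set fF : h28v_F0 A (M * q * q) := ⟨h55vv_f M q, fun σ _ => h55vv_gal_f M q σ⟩ with hfFdef
  set gF : h28v_F0 A (M * q * q) := ⟨h55vv_g M q, fun σ _ => h55vv_gal_g M q σ⟩ with hgFdef
  have hqF : (qF : FF (M * q * q)) = ((q : ℕ) : FF (M * q * q)) := rfl
  have hzF : (zF : FF (M * q * q)) = h74w_z M q := rfl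
  have hqF0 : qF ≠ 0 := by
    intro h
    have h1 : (qF : FF (M * q * q)) = 0 := by rw [h]; rfl
    rw [hqF] at h1
    have h2 : cst (M * q * q) ((q : ℕ) : Kbar) = 0 := by
      show algebraMap Kbar (FF (M * q * q)) _ = 0
      rw [map_natCast]
      exact h1
    exact hcst _ hq0K h2
  have hzF0 : zF ≠ 0 := fun h => hz0 (congrArg Subtype.val h)
  have hfF0 : fF ≠ 0 := fun h => hf0 (congrArg Subtype.val h)
  have hgF0 : gF ≠ 0 := fun h => hg0 (congrArg Subtype.val h)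
  -- `W20`
  obtain ⟨v0, h01, h02, h03⟩ := h55vv_exists A (h20n_E20 M q) qF
    (h55vv_q_int A _ hA) (h55vv_q_inv_not_int A _ hq hA)
    (by
      intro x hx hfix
      obtain ⟨n, h1, h2⟩ := h28v_exists_zpow A (M * q * q) hq hA x hx hfix
      refine ⟨n, ?_⟩
      rw [hqF, ← h55vv_cst_zpow]
      refine ⟨h1, ?_⟩
      exact h2)
  -- `W11`
  have hzInt : h74w_Int A E (h74w_z M q) := by
    have e : h74w_z M q = cst (M * q * q) (1 - ζ) * (cst (M * q * q) (1 - ζ)⁻¹ * h74w_z M q) := by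
      have e3 : cst (M * q * q) (1 - ζ)⁻¹ = (cst (M * q * q) (1 - ζ))⁻¹ :=
        map_inv₀ (algebraMap Kbar (FF (M * q * q))) _
      rw [e3, mul_inv_cancel_left₀ ha0]
    unfold h74w_Int
    rw [e, map_mul, h57u_E11_cst M q hq hqM ζ E hE]
    refine mul_mem ?_ hU.1
    rw [h55vv_C_mem_iff]
    exact A.sub_mem A.one_mem (h57u_zeta_mem A hq.pos hζ.pow_eq_one)
  have hzInt' : ¬ h74w_Int A E (h74w_z M q)⁻¹ := by
    intro h
    apply h55vv_one_sub_zeta_inv_not_mem A q hq hA ζ hζ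
    rw [← h55vv_C_mem_iff, ← h57u_E11_cst M q hq hqM ζ E hE]
    have e : cst (M * q * q) (1 - ζ)⁻¹ =
        (h74w_z M q)⁻¹ * (cst (M * q * q) (1 - ζ)⁻¹ * h74w_z M q) := by
      rw [mul_comm (cst (M * q * q) (1 - ζ)⁻¹), inv_mul_cancel_left₀ hz0]
    rw [e, map_mul]
    exact mul_mem h hU.1
  obtain ⟨v1, h11, h12, h13⟩ := h55vv_exists A E zF hzInt hzInt'
    (by
      intro x hx hfix
      exact V28.h28f_H74Disc11_of h57u_unif11 q hq M hqM A hA ζ hζ E hE x hx hfix)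
  -- `W02`
  obtain ⟨v2, h21, h22, h23⟩ := h55vv_exists A E0 qF
    (h55vv_q_int A _ hA) (h55vv_q_inv_not_int A _ hq hA)
    (by
      intro x hx hfix
      obtain ⟨n, hn⟩ := V28.h28f_H74Disc02 q hq M hqM A hA E0 hE0 x hx hfix
      refine ⟨n, ?_⟩
      rw [hqF, ← h55vv_cst_zpow]
      exact hn)
  refine ⟨![v0, v1, v2], ?_, ?_, ?_, ?_, ?_, ?_, ?_, ?_, ?_⟩
  · intro x
    exact h01 x
  · intro x
    exact h11 x
  · intro x
    exact h21 x
  · exact h02
  · -- `W11 (q) = exp (-(q - 1))`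
    show v1 qF = exp (-((q : ℤ) - 1))
    rw [h13 qF _ hqF0]
    have hk : -((q : ℤ) - 1) = -(((q - 1 : ℕ)) : ℤ) := by
      rw [Nat.cast_sub hq.one_lt.le]
      simp
    have hcc : cst (M * q * q) (((q : ℕ) : Kbar) * ((1 - ζ) ^ (q - 1))⁻¹) =
        ((q : ℕ) : FF (M * q * q)) * (cst (M * q * q) (1 - ζ) ^ (q - 1))⁻¹ := by
      show algebraMap Kbar (FF (M * q * q)) _ = _
      rw [map_mul, map_natCast, map_inv₀, map_pow]
    have e : (zF : FF (M * q * q)) ^ (-((q : ℤ) - 1)) * (qF : FF (M * q * q)) =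
        (cst (M * q * q) (1 - ζ)⁻¹ * h74w_z M q) ^ (-(((q - 1 : ℕ)) : ℤ)) *
          cst (M * q * q) (((q : ℕ) : Kbar) * ((1 - ζ) ^ (q - 1))⁻¹) := by
      rw [hzF, hqF, hk, hcc, zpow_neg, zpow_neg, zpow_natCast, zpow_natCast, mul_pow]
      have e3 : cst (M * q * q) (1 - ζ)⁻¹ = (cst (M * q * q) (1 - ζ))⁻¹ :=
        map_inv₀ (algebraMap Kbar (FF (M * q * q))) _
      rw [e3, inv_pow]
      have h1 : cst (M * q * q) (1 - ζ) ^ (q - 1) ≠ 0 := pow_ne_zero _ ha0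
      have h2 : h74w_z M q ^ (q - 1) ≠ 0 := pow_ne_zero _ hz0
      field_simp
    rw [e]
    exact h90v_unit_mul A E (h90v_unit_zpow A E hU _)
      (h55vv_unit_cst A E _ (h57u_E11_cst M q hq hqM ζ E hE _) hZeta.1 hZeta.2)
  · exact h22
  · intro z0 hz0'
    have hz0F : z0 = zF := Subtype.ext hz0'
    subst hz0F
    refine ⟨?_, h12, ?_⟩
    · exact (h55vv_eq_one_iff h03 zF hzF0).mpr hZ.1
    · exact (h55vv_eq_one_iff h23 zF hzF0).mpr (hZ.2 E0 hE0)
  · refine ⟨fF, ?_, ?_⟩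
    · apply h55vv_lt_one h01 fF
      · show ((h55vv_f M q : FF (M * q * q)) : LaurentSeries Kbar) ∈ _
        rw [h55vv_coe_f]
        exact (h55vv_SA_red A hq hA).1
      · show ¬ (((h55vv_f M q)⁻¹ : FF (M * q * q)) : LaurentSeries Kbar) ∈ _
        have e : (((h55vv_f M q)⁻¹ : FF (M * q * q)) : LaurentSeries Kbar) =
            (h55vv_SA q)⁻¹ := by
          rw [← h55vv_coe_f M q]
          exact map_inv₀ (algebraMap (FF (M * q * q)) (LaurentSeries Kbar)) _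
        rw [e]
        exact h55vv_SA_inv_not_mem A M q hq hqM hA E0 hE0
    · apply (h55vv_eq_one_iff h23 fF hfF0).mpr
      have hu := h55vv_SB_unit A hq hA
      refine ⟨?_, ?_⟩
      · show E0 (h55vv_f M q) ∈ _
        rw [h55vv_E02_f M q hq hqM E0 hE0]
        exact hu.1
      · show E0 (h55vv_f M q)⁻¹ ∈ _
        rw [map_inv₀, h55vv_E02_f M q hq hqM E0 hE0]
        exact hu.2
  · refine ⟨gF, ?_, ?_⟩
    · apply h55vv_lt_one h21 gF
      · show E0 (h55vv_g M q) ∈ _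
        rw [h55vv_E02_g M q hq hqM E0 hE0]
        exact (h55vv_SA_red A hq hA).1
      · show ¬ E0 (h55vv_g M q)⁻¹ ∈ _
        rw [map_inv₀, h55vv_E02_g M q hq hqM E0 hE0]
        exact h55vv_SA_inv_not_mem A M q hq hqM hA E0 hE0
    · apply (h55vv_eq_one_iff h03 gF hgF0).mpr
      have hu := h55vv_SB_unit A hq hA
      refine ⟨?_, ?_⟩
      · show ((h55vv_g M q : FF (M * q * q)) : LaurentSeries Kbar) ∈ _
        rw [h55vv_coe_g]
        exact hu.1
      · show (((h55vv_g M q)⁻¹ : FF (M * q * q)) : LaurentSeries Kbar) ∈ _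
        have e : (((h55vv_g M q)⁻¹ : FF (M * q * q)) : LaurentSeries Kbar) =
            (h55vv_SB q)⁻¹ := by
          rw [← h55vv_coe_g M q]
          exact map_inv₀ (algebraMap (FF (M * q * q)) (LaurentSeries Kbar)) _
        rw [e]
        exact hu.2

end Asm

end Fermat.Agent.S36
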