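import Fermat.Agent.S36.H23VCompGauss
import Fermat.Agent.S36.H55VVal
import Fermat.Agent.S36.H88VFinal
import Fermat.Agent.S36.H20Emb

/-!
# S36, row LOC-VCOMP (helper23, prefix `h23i_`): `H86LocVComp`

`h23i_locVComp : H86LocVComp` (the frozen Prop of `S36/H86LocOneIface.lean`), unconditional.

* `h23i_factor` : content factorisation `p = ϖ ^ n · p₁`, `p₁` with a coefficient not divisible
  by `ϖ`, over a domain in which every nonzero element is `ϖ ^ n · unit`.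
* `H23ValPkg` : the packaged vertical valuations (the body of `H74Val`).
* `h23i_locData` : the structure `H23LocData` (`S36/H23LocAbs.lean`) on the contract objects:
  `F₀ = FF(M q q)^I`, `B = h92c_Chart A (M q q) t`, `V = h92c_V0 A M q`, `π = q`.
* `h23i_vcompAt` : `H86LocVCompAt A M q t` from the chart inputs (V-QEP, `hBV`, Gauss property).
-/

set_option autoImplicit false
set_option linter.style.haveILetI false
set_option linter.unusedSectionVars false
set_option linter.unusedVariables false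

open AlgebraicCurve ModularCurve WithZero IsLocalRing Polynomial

noncomputable section

namespace Fermat.Agent.S36

open Fermat.Agent.S37 (Kbar GQ FF cst gal jB modelAt degen auxLevel coe_degen)
open Fermat.Agent.Red.GV
open Fermat.Agent.Red.GV.Soft
open Fermat.Agent.S36.V28 (h28v_F0 h28v_IFixed)

/-- content factorisation over a domain with a "uniformiser". -/
theorem h23i_factor {R : Type*} [CommRing R] [IsDomain R] (ϖ : R) (hϖ0 : ϖ ≠ 0)
    (hnu : ¬ IsUnit ϖ)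
    (hϖ : ∀ x : R, x ≠ 0 → ∃ (n : ℕ) (u : R), IsUnit u ∧ x = ϖ ^ n * u)
    (p : R[X]) (hp : p ≠ 0) :
    ∃ (n : ℕ) (p₁ : R[X]), p = C (ϖ ^ n) * p₁ ∧ ∃ i, ¬ ϖ ∣ p₁.coeff i := by
  have key : ∀ n₀ : ℕ, ∀ p : R[X], (∃ i u, IsUnit u ∧ p.coeff i = ϖ ^ n₀ * u) →
      ∃ (n : ℕ) (p₁ : R[X]), p = C (ϖ ^ n) * p₁ ∧ ∃ i, ¬ ϖ ∣ p₁.coeff i := by
    intro n₀
    induction n₀ with
    | zero =>
      rintro p ⟨i, u, hu, hpi⟩
      refine ⟨0, p, by rw [pow_zero, C_1, one_mul], i, ?_⟩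
      rw [hpi, pow_zero, one_mul]
      intro h
      exact hnu (isUnit_of_dvd_unit h hu)
    | succ n₀ ih =>
      rintro p ⟨i, u, hu, hpi⟩
      by_cases h : ∀ j, ϖ ∣ p.coeff j
      · obtain ⟨p', hp'⟩ := (Polynomial.C_dvd_iff_dvd_coeff ϖ p).mpr h
        have h1 : p'.coeff i = ϖ ^ n₀ * u := by
          have h2 : ϖ * p'.coeff i = ϖ * (ϖ ^ n₀ * u) := by
            rw [← coeff_C_mul, ← hp', hpi]
            ring
          exact mul_left_cancel₀ hϖ0 h2
        obtain ⟨n, p₁, hp₁, hi⟩ := ih p' ⟨i, u, hu, h1⟩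
        refine ⟨n + 1, p₁, ?_, hi⟩
        rw [hp', hp₁, pow_succ, C_mul]
        ring
      · obtain ⟨j, hj⟩ := not_forall.mp h
        exact ⟨0, p, by rw [pow_zero, C_1, one_mul], j, hj⟩
  obtain ⟨i, hi⟩ : ∃ i, p.coeff i ≠ 0 := by
    by_contra hcon
    apply hp
    ext i
    by_contra h
    exact hcon ⟨i, h⟩
  obtain ⟨n, u, hu, hx⟩ := hϖ _ hi
  exact key n p ⟨i, u, hu, hx⟩

theorem h23i_fin3 (k : Fin 3) : k = 0 ∨ k = 1 ∨ k = 2 := by
  fin_cases k <;> simp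

theorem h23i_exp_neg_one_lt : exp (-1 : ℤ) < (1 : ℤᵐ⁰) := by
  rw [← exp_zero, exp_lt_exp]
  norm_num

section Inst

variable (A : ValuationSubring Kbar) (M q : ℕ) [NeZero M] [NeZero q]

/-- the packaged vertical valuations of `F₀` (the body of `H74Val`). -/
structure H23ValPkg (hq : q.Prime) (hqM : ¬ q ∣ M)
    (E11 E02 : FF (M * q * q) →+* LaurentSeries Kbar)
    (Wv : Fin 3 → Valuation (h28v_F0 A (M * q * q)) ℤᵐ⁰) : Prop where
  h0 : ∀ x : h28v_F0 A (M * q * q), Wv 0 x ≤ 1 ↔ (x : FF (M * q * q)) ∈ softV A (M * q * q)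
  h1 : ∀ x : h28v_F0 A (M * q * q), Wv 1 x ≤ 1 ↔ h74w_Int A E11 (x : FF (M * q * q))
  h2 : ∀ x : h28v_F0 A (M * q * q), Wv 2 x ≤ 1 ↔ h74w_Int A E02 (x : FF (M * q * q))
  hq0 : Wv 0 (q : h28v_F0 A (M * q * q)) = exp (-1 : ℤ)
  hq1 : Wv 1 (q : h28v_F0 A (M * q * q)) = exp (-((q : ℤ) - 1))
  hq2 : Wv 2 (q : h28v_F0 A (M * q * q)) = exp (-1 : ℤ)
  hz : ∀ z0 : h28v_F0 A (M * q * q), (z0 : FF (M * q * q)) = h74w_z M q →
    Wv 0 z0 = 1 ∧ Wv 1 z0 = exp (-1 : ℤ) ∧ Wv 2 z0 = 1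
  hy : ∃ y : h28v_F0 A (M * q * q), Wv 0 y < 1 ∧ Wv 2 y = 1
  hy' : ∃ y : h28v_F0 A (M * q * q), Wv 2 y < 1 ∧ Wv 0 y = 1

/-- the functions of `A₀[t]` are values of the evaluation map. -/
theorem h23i_adj0_le_range (N : ℕ) (t : FF N) {s : FF N} (hs : s ∈ h59cRingAdj0 N A t) :
    ∃ p : Polynomial (h59bA0 A), h59nEv N A t p = s := by
  have hle : h59cRingAdj0 N A t ≤ (h59nEv N A t).range := by
    apply Subring.closure_le.mpr
    rintro y (⟨a, ha, rfl⟩ | hy)
    · rw [← h59n_range_iota A] at ha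
      obtain ⟨o, rfl⟩ := ha
      exact ⟨C o, h59nEv_C N A t o⟩
    · rw [Set.mem_singleton_iff] at hy
      rw [hy]
      exact ⟨X, h59nEv_X N A t⟩
  exact hle hs

/-- the values of the evaluation map lie in `A₀[t]`. -/
theorem h23i_ev_mem_adj0 (N : ℕ) (t : FF N) (p : Polynomial (h59bA0 A)) :
    h59nEv N A t p ∈ h59cRingAdj0 N A t := by
  induction p using Polynomial.induction_on' with
  | add p q hp hq =>
    rw [map_add]
    exact add_mem hp hq
  | monomial n a =>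
    rw [← C_mul_X_pow_eq_monomial, map_mul, map_pow, h59nEv_C, h59nEv_X]
    refine mul_mem (h59c_cst_mem_adj (h59cA0 A) t ?_) (pow_mem (h59c_self_mem_adj (h59cA0 A) t) n)
    rw [← h59n_range_iota A]
    exact ⟨a, rfl⟩

theorem h23i_ev_C_natCast (N : ℕ) (t : FF N) (n : ℕ) :
    h59nEv N A t (C (((q : ℕ) : h59bA0 A) ^ n)) = ((q : ℕ) : FF N) ^ n := by
  rw [C_pow, map_pow]
  congr 1
  rw [Polynomial.C_eq_natCast, map_natCast]

variable {A M q}

/-- **the structure `H23LocData` on the contract objects.** -/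
theorem h23i_locData (hq : q.Prime) (hqM : ¬ q ∣ M) (haux : auxLevel q ∣ M)
    (hA : A.LiesOverPrime q) (ζ : Kbar) (hζ : IsPrimitiveRoot ζ q)
    (E11 E02 : FF (M * q * q) →+* LaurentSeries Kbar)
    (hE11 : h20n_IsE11 M q hq hqM ζ E11) (hE02 : h20n_IsE02 M q hq hqM E02)
    (Wv : Fin 3 → Valuation (h28v_F0 A (M * q * q)) ℤᵐ⁰)
    (hW : H23ValPkg A M q hq hqM E11 E02 Wv)
    (t : FF (M * q * q))
    (ht : ∀ σ ∈ A.inertiaSubgroupIn ℚ, gal (M * q * q) σ • t = t)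
    (halg : ∀ y : FF (M * q * q), IsAlgebraic (Algebra.adjoin Kbar {t}) y)
    (hBV : ∀ x ∈ h92c_Chart A (M * q * q) t, x ∈ h92c_V0 A M q)
    (hqep : ∀ (k : ℕ) (x : FF (M * q * q)), x ∈ h92c_V0 A M q →
      ((q : ℕ) : FF (M * q * q)) ^ k * x ∈ h92c_Chart A (M * q * q) t →
      x ∈ h92c_Chart A (M * q * q) t)
    (hG : ∀ p : Polynomial (h59bA0 A), (∃ i, p.coeff i ∉ maximalIdeal (h59bA0 A)) →
      h59nEv (M * q * q) A t p ≠ 0 ∧ h59nEv (M * q * q) A t p ∈ h92c_V0 A M q ∧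
        (h59nEv (M * q * q) A t p)⁻¹ ∈ h92c_V0 A M q) :
    H23LocData (h28v_F0 A (M * q * q)) (h92c_Chart A (M * q * q) t) (h92c_V0 A M q) Wv
      ((q : ℕ) : FF (M * q * q)) := by
  haveI : CharZero (FF (M * q * q)) :=
    charZero_of_injective_algebraMap (algebraMap Kbar (FF (M * q * q))).injective
  -- the elements of `V₀` are integral at the three valuations
  have hVle : ∀ x : h28v_F0 A (M * q * q), (x : FF (M * q * q)) ∈ h92c_V0 A M q →
      ∀ k, Wv k x ≤ 1 := by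
    intro x hx k
    rcases h23i_fin3 k with rfl | rfl | rfl
    · exact (hW.h0 x).mpr (h23i_int20 A M q hq hA _ hx.1)
    · exact (hW.h1 x).mpr (h23i_int11 A M q hq hqM hA ζ hζ.pow_eq_one E11 hE11 _ hx.1)
    · exact (hW.h2 x).mpr (h23i_int02 A M q hq hqM hA E02 hE02 _ hx.1)
  have hVunit : ∀ x : h28v_F0 A (M * q * q), x ≠ 0 → (x : FF (M * q * q)) ∈ h92c_V0 A M q →
      (x : FF (M * q * q))⁻¹ ∈ h92c_V0 A M q → ∀ k, Wv k x = 1 := by
    intro x hx0 hx hxi k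
    have h1 := hVle x hx k
    have h2 := hVle x⁻¹ (by rw [Subfield.coe_inv]; exact hxi) k
    rw [map_inv₀] at h2
    have hpos : 0 < Wv k x := zero_lt_iff.mpr ((Valuation.ne_zero_iff _).mpr hx0)
    exact le_antisymm h1 ((inv_le_one₀ hpos).mp h2)
  refine
    { hBF := fun x hx => hx.2
      hBV := hBV
      hV := ?_
      hπB := natCast_mem _ q
      hπ0 := Nat.cast_ne_zero.mpr hq.ne_zero
      hπ := ?_
      hQEP := ?_
      hscale := ?_
      hsep := ?_ }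
  · -- hV
    intro x
    constructor
    · intro hx
      exact ⟨hx.2, fun k => hVle ⟨x, hx.2⟩ hx k⟩
    · rintro ⟨hx, hk⟩
      refine ⟨?_, hx⟩
      exact h88v_vcomplete_final q hq M hqM haux A hA ζ E11 E02 ⟨hζ, hE11, hE02⟩ x hx
        ⟨(hW.h0 ⟨x, hx⟩).mp (hk 0), (hW.h1 ⟨x, hx⟩).mp (hk 1), (hW.h2 ⟨x, hx⟩).mp (hk 2)⟩
  · -- hπ
    intro h k
    have e : (⟨((q : ℕ) : FF (M * q * q)), h⟩ : h28v_F0 A (M * q * q)) =
        ((q : ℕ) : h28v_F0 A (M * q * q)) := Subtype.ext rfl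
    rw [e]
    rcases h23i_fin3 k with rfl | rfl | rfl
    · rw [hW.hq0]
      exact h23i_exp_neg_one_lt
    · rw [hW.hq1, ← exp_zero, exp_lt_exp]
      have h2 : (2 : ℤ) ≤ (q : ℤ) := by exact_mod_cast hq.two_le
      linarith
    · rw [hW.hq2]
      exact h23i_exp_neg_one_lt
  · -- hQEP
    intro x hx h
    exact hqep 1 x hx (by rw [pow_one]; exact h)
  · -- hscale
    intro x
    obtain ⟨s, hsAdj, hs0, hsB, hsx⟩ := h40g_den A (M * q * q) t halg ht (x : FF (M * q * q)) x.2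
    obtain ⟨p, rfl⟩ := h23i_adj0_le_range A (M * q * q) t hsAdj
    have hp0 : p ≠ 0 := by
      rintro rfl
      exact hs0 (map_zero _)
    obtain ⟨n, p₁, hp₁, i, hi⟩ := h23i_factor ((q : ℕ) : h59bA0 A)
      (by exact_mod_cast hq.ne_zero) (h59b_q_not_isUnit A hq hA)
      (fun y hy => h59b_exists_pow_mul_unit A hq hA y hy) p hp0
    have hi' : p₁.coeff i ∉ maximalIdeal (h59bA0 A) := by
      rw [h59b_maximalIdeal A hq hA, Ideal.mem_span_singleton]
      exact hi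
    obtain ⟨hd0, hdV, hdVi⟩ := hG p₁ ⟨i, hi'⟩
    have hs_eq : h59nEv (M * q * q) A t p =
        ((q : ℕ) : FF (M * q * q)) ^ n * h59nEv (M * q * q) A t p₁ := by
      rw [hp₁, map_mul, h23i_ev_C_natCast]
    have hdB : h59nEv (M * q * q) A t p₁ ∈ h92c_Chart A (M * q * q) t :=
      hqep n _ hdV (by rw [← hs_eq]; exact hsB)
    refine ⟨⟨h59nEv (M * q * q) A t p₁, hdV.2⟩, hdB,
      hVunit ⟨_, hdV.2⟩ (fun h => hd0 (congrArg Subtype.val h)) hdV hdVi, n, ?_⟩
    show ((q : ℕ) : FF (M * q * q)) ^ n * h59nEv (M * q * q) A t p₁ * (x : FF (M * q * q)) ∈ _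
    rw [← hs_eq]
    exact hsx
  · -- hsep
    intro k
    obtain ⟨z0, hz0e⟩ : ∃ z0 : h28v_F0 A (M * q * q), (z0 : FF (M * q * q)) = h74w_z M q :=
      ⟨⟨h74w_z M q, fun σ _ => h90v_gal_z M q σ⟩, rfl⟩
    obtain ⟨hz0, hz1, hz2⟩ := hW.hz z0 hz0e
    obtain ⟨y, hy0, hy2⟩ := hW.hy
    obtain ⟨y', hy'2, hy'0⟩ := hW.hy'
    have hcorr : ∀ u : h28v_F0 A (M * q * q), Wv 1 u ≠ 0 → ∃ m : ℤ,
        Wv 1 (u * z0 ^ m) = 1 := by
      intro u hu
      refine ⟨log (Wv 1 u), ?_⟩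
      rw [map_mul, map_zpow₀, hz1, ← exp_zsmul]
      conv_lhs => rw [← exp_log hu]
      rw [log_exp, ← exp_add, ← exp_zero]
      congr 1
      simp
    have hne : ∀ (i : Fin 3) (u : h28v_F0 A (M * q * q)), Wv i u = 1 → u ≠ 0 := by
      rintro i u hu rfl
      rw [map_zero] at hu
      exact zero_ne_one hu
    rcases h23i_fin3 k with rfl | rfl | rfl
    · have hy1 : Wv 1 y ≠ 0 := (Valuation.ne_zero_iff _).mpr (hne 2 y hy2)
      obtain ⟨m, hm⟩ := hcorr y hy1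
      refine ⟨y * z0 ^ m, ?_, ?_⟩
      · rw [map_mul, map_zpow₀, hz0, one_zpow, mul_one]
        exact hy0
      · intro k' hk'
        rcases h23i_fin3 k' with rfl | rfl | rfl
        · exact absurd rfl hk'
        · exact hm
        · rw [map_mul, map_zpow₀, hz2, one_zpow, mul_one]
          exact hy2
    · refine ⟨z0, ?_, ?_⟩
      · rw [hz1]
        exact h23i_exp_neg_one_lt
      · intro k' hk'
        rcases h23i_fin3 k' with rfl | rfl | rfl
        · exact hz0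
        · exact absurd rfl hk'
        · exact hz2
    · have hy1 : Wv 1 y' ≠ 0 := (Valuation.ne_zero_iff _).mpr (hne 0 y' hy'0)
      obtain ⟨m, hm⟩ := hcorr y' hy1
      refine ⟨y' * z0 ^ m, ?_, ?_⟩
      · rw [map_mul, map_zpow₀, hz2, one_zpow, mul_one]
        exact hy'2
      · intro k' hk'
        rcases h23i_fin3 k' with rfl | rfl | rfl
        · rw [map_mul, map_zpow₀, hz0, one_zpow, mul_one]
          exact hy'0
        · exact hm
        · exact absurd rfl hk'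

/-- **LOC-VCOMP at the chart `t`** from the chart inputs. -/
theorem h23i_vcompAt (hq : q.Prime) (hqM : ¬ q ∣ M) (haux : auxLevel q ∣ M)
    (hA : A.LiesOverPrime q) (ζ : Kbar) (hζ : IsPrimitiveRoot ζ q)
    (E11 E02 : FF (M * q * q) →+* LaurentSeries Kbar)
    (hE11 : h20n_IsE11 M q hq hqM ζ E11) (hE02 : h20n_IsE02 M q hq hqM E02)
    (Wv : Fin 3 → Valuation (h28v_F0 A (M * q * q)) ℤᵐ⁰)
    (hW : H23ValPkg A M q hq hqM E11 E02 Wv)
    (t : FF (M * q * q))
    (ht : ∀ σ ∈ A.inertiaSubgroupIn ℚ, gal (M * q * q) σ • t = t)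
    (halg : ∀ y : FF (M * q * q), IsAlgebraic (Algebra.adjoin Kbar {t}) y)
    (hBV : ∀ x ∈ h92c_Chart A (M * q * q) t, x ∈ h92c_V0 A M q)
    (hqep : ∀ (k : ℕ) (x : FF (M * q * q)), x ∈ h92c_V0 A M q →
      ((q : ℕ) : FF (M * q * q)) ^ k * x ∈ h92c_Chart A (M * q * q) t →
      x ∈ h92c_Chart A (M * q * q) t)
    (hG : ∀ p : Polynomial (h59bA0 A), (∃ i, p.coeff i ∉ maximalIdeal (h59bA0 A)) →
      h59nEv (M * q * q) A t p ≠ 0 ∧ h59nEv (M * q * q) A t p ∈ h92c_V0 A M q ∧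
        (h59nEv (M * q * q) A t p)⁻¹ ∈ h92c_V0 A M q) :
    H86LocVCompAt A M q t := by
  have hD := h23i_locData hq hqM haux hA ζ hζ E11 E02 hE11 hE02 Wv hW t ht halg hBV hqep hG
  -- the evaluation map into the chart
  have hrange : ∀ p, h59nEv (M * q * q) A t p ∈ h92c_Chart A (M * q * q) t :=
    fun p => h40g_ringAdj0_le_chart A (M * q * q) t ht (h23i_ev_mem_adj0 A (M * q * q) t p)
  set φ : Polynomial (h59bA0 A) →+* h92c_Chart A (M * q * q) t :=
    (h59nEv (M * q * q) A t).codRestrict _ hrange with hφ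
  have hint : φ.IsIntegral := by
    intro b
    obtain ⟨P, hPm, hP⟩ := ((h59n_mem_chart_iff (M * q * q) A t (b : FF (M * q * q))).mp b.2).2
    refine ⟨P, hPm, Subtype.ext ?_⟩
    have h1 := Polynomial.hom_eval₂ P φ (h92c_Chart A (M * q * q) t).subtype b
    exact h1.trans hP
  have hGk : ∀ k (p : Polynomial (h59bA0 A)),
      φ p ∈ h23vP hD k ↔ ∀ i, p.coeff i ∈ maximalIdeal (h59bA0 A) := by
    intro k p
    constructor
    · intro hmem
      by_contra hcon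
      obtain ⟨i, hi⟩ := not_forall.mp hcon
      have hu := hG p ⟨i, hi⟩
      have h1 : φ p ∉ h23vP hD k := by
        rw [h23v_notMem_P]
        have hxV : ((h23lB hD.hBF (φ p) : h28v_F0 A (M * q * q)) : FF (M * q * q)) ∈
            h92c_V0 A M q := hu.2.1
        have hxVi : ((h23lB hD.hBF (φ p) : h28v_F0 A (M * q * q)) : FF (M * q * q))⁻¹ ∈
            h92c_V0 A M q := hu.2.2
        have h1 := (h23l_mem_V hD _).mp hxV k
        have h2 := (h23l_mem_V hD (h23lB hD.hBF (φ p))⁻¹).mp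
          (by rw [Subfield.coe_inv]; exact hxVi) k
        rw [map_inv₀] at h2
        have hx0 : h23lB hD.hBF (φ p) ≠ 0 := fun h => hu.1 (congrArg Subtype.val h)
        have hpos : 0 < Wv k (h23lB hD.hBF (φ p)) :=
          zero_lt_iff.mpr ((Valuation.ne_zero_iff _).mpr hx0)
        exact le_antisymm h1 ((inv_le_one₀ hpos).mp h2)
      exact h1 hmem
    · intro hall
      have hdvd : ∀ i, ((q : ℕ) : h59bA0 A) ∣ p.coeff i := by
        intro i
        have := hall i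
        rwa [h59b_maximalIdeal A hq hA, Ideal.mem_span_singleton] at this
      obtain ⟨p', hp'⟩ := (Polynomial.C_dvd_iff_dvd_coeff _ _).mpr hdvd
      rw [hp', map_mul]
      have hq_mem : φ (C ((q : ℕ) : h59bA0 A)) ∈ h23vP hD k := by
        have e : φ (C ((q : ℕ) : h59bA0 A)) =
            ⟨((q : ℕ) : FF (M * q * q)), hD.hπB⟩ := by
          apply Subtype.ext
          show h59nEv (M * q * q) A t (C ((q : ℕ) : h59bA0 A)) = _
          have := h23i_ev_C_natCast A q (M * q * q) t 1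
          rw [pow_one, pow_one] at this
          exact this
        rw [e]
        exact h23v_pi_mem_P hD k
      exact Ideal.mul_mem_right _ _ hq_mem
  have hnm : ∀ k, ¬ (h23vP hD k).IsMaximal := fun k => by
    haveI := h23vP_isPrime hD k
    exact h23v_not_isMaximal_of_gauss (maximalIdeal (h59bA0 A))
      (IsLocalRing.maximalIdeal.isMaximal _).ne_top φ hint (h23vP hD k) (hGk k)
  have hdim : ∀ k (Q : Ideal (h92c_Chart A (M * q * q) t)), Q.IsPrime → h23vP hD k < Q →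
      Q.IsMaximal := fun k Q hQ hlt => by
    haveI := h23vP_isPrime hD k
    haveI := hQ
    exact h23v_isMaximal_of_gauss (maximalIdeal (h59bA0 A)) φ hint (h23vP hD k) (hGk k) Q hlt
  have e : (⟨((q : ℕ) : FF (M * q * q)), hD.hπB⟩ : h92c_Chart A (M * q * q) t) =
      ((q : ℕ) : h92c_Chart A (M * q * q) t) := Subtype.ext rfl
  refine ⟨?_, ?_, ?_⟩
  · intro 𝔫 h𝔫 hq𝔫
    have h := h23v_hex hD hnm 𝔫 h𝔫 (by rw [e]; exact hq𝔫)
    rw [e] at h
    exact h
  · intro P hP hPm hqP v hv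
    exact h23v_hden hD hdim P hP hPm (by rw [e]; exact hqP) v hv
  · intro 𝔫 h𝔫 hq𝔫 s hs
    refine h23v_hinv hD hnm 𝔫 h𝔫 (by rw [e]; exact hq𝔫) s ?_
    intro P hP
    exact hs P (by rw [← e]; exact hP)

end Inst

/-- **LOC-VCOMP** (frozen Prop of `S36/H86LocOneIface.lean`), unconditional. -/
theorem h23i_locVComp : H86LocVComp := by
  intro q hq M _ hqM haux
  haveI : NeZero q := ⟨hq.ne_zero⟩
  intro A hA
  obtain ⟨ζ, hζ⟩ := HasEnoughRootsOfUnity.exists_primitiveRoot Kbar q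
  obtain ⟨hex11, E02, hE02⟩ := h20n_embExists q hq M hqM
  obtain ⟨E11, hE11⟩ := hex11 ζ hζ.pow_eq_one (hζ.ne_one hq.one_lt)
  obtain ⟨Wv, h0, h1, h2, hq0, hq1, hq2, hz, hy, hy'⟩ :=
    h55vv_val q hq M hqM A hA ζ hζ E11 hE11 E02 hE02
  have hW : H23ValPkg A M q hq hqM E11 E02 Wv := ⟨h0, h1, h2, hq0, hq1, hq2, hz, hy, hy'⟩
  refine ⟨?_, ?_⟩
  · exact h23i_vcompAt hq hqM haux hA ζ hζ E11 E02 hE11 hE02 Wv hW (jB (M * q * q))
      (fun σ _ => Fermat.Agent.S37.GalI.gal_smul_jB (N := M * q * q) σ)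
      (Fermat.Agent.Red.SM.HAlg.h81a_halg_jB (M * q * q))
      (h84q_chart_le_V0_fin A M q hq hqM hA)
      (fun k x hx h => h84q_qep_chart_pow_fin A M q hq hqM hA k x hx h)
      (h23i_gauss_fin A M q hq hqM hA)
  · exact h23i_vcompAt hq hqM haux hA ζ hζ E11 E02 hE11 hE02 Wv hW (jB (M * q * q))⁻¹
      (fun σ _ => Fermat.Agent.S37.GalI.gal_smul_jB_inv (N := M * q * q) σ)
      (Fermat.Agent.Red.SM.HAlg.h81a_halg_jB_inv (M * q * q))
      (h84q_chart_le_V0_inf A M q hq hqM hA)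
      (fun k x hx h => h84q_qep_chart_pow_inf A M q hq hqM hA k x hx h)
      (h23i_gauss_inf A M q hq hqM hA)

end Fermat.Agent.S36
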