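import Fermat.Agent.S36.H70ChartRes
import Fermat.Agent.S36.H16TorRoot

/-!
# S36, block TOR, leaf T-ROOT-RAT (helper70): closed points of the special fibre are rational

`h70r_torRat : H16TorRat` (exact frozen Prop of `S36/H16TorRoot.lean`, unconditional): every
function of the chart `j` of level `M q q` over `A₀` is congruent modulo a maximal ideal
`𝔫 ∋ q` to a constant of `A₀`.  This is the landed `h70o_chart_res_elt`
(`S36/H70ChartRes.lean`) at `x = jB`, through `h92c_Chart = h62rChart` (definitional).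

`h70r_torRat_at` is the same statement for every inertia-fixed chart coordinate `t` and every
level `N` (for instance `t = (jB N)⁻¹`).
-/

set_option autoImplicit false
set_option linter.style.haveILetI false

open AlgebraicCurve ModularCurve IsLocalRing

noncomputable section

namespace Fermat.Agent.S36

open Fermat.Agent.S37 (Kbar GQ FF cst gal jB modelAt auxLevel)
open Fermat.Agent.S37.GalI (gal_smul_jB gal_smul_jB_inv)

/-- rationality of the closed points of the special fibre of any chart over `A₀` whose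
coordinate is fixed by the inertia group. -/
theorem h70r_torRat_at {q : ℕ} (hq : q.Prime) (A : ValuationSubring Kbar)
    (hA : A.LiesOverPrime q) (N : ℕ) (t : FF N)
    (htfix : ∀ σ ∈ A.inertiaSubgroupIn ℚ, gal N σ • t = t)
    (𝔫 : Ideal (h92c_Chart A N t)) (h𝔫 : 𝔫.IsMaximal)
    (hq𝔫 : ((q : ℕ) : h92c_Chart A N t) ∈ 𝔫) (x : h92c_Chart A N t) :
    ∃ a : Kbar, a ∈ A ∧ (∀ σ ∈ A.inertiaSubgroupIn ℚ, σ a = a) ∧
      ∃ c : h92c_Chart A N t, (c : FF N) = cst N a ∧ x - c ∈ 𝔫 := by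
  obtain ⟨a, ha, hmem⟩ := h70o_chart_res_elt hq A hA N t htfix 𝔫 (h𝔫 := h𝔫) hq𝔫 x
  exact ⟨a, ha.1, ha.2, ⟨cst N a, h70o_cst_mem_chart A N t ha⟩, rfl, hmem⟩

/-- **T-ROOT-RAT** (exact frozen Prop, unconditional). -/
theorem h70r_torRat : H16TorRat := by
  intro q hq M _ _ _
  haveI : NeZero q := ⟨hq.ne_zero⟩
  intro A hA 𝔫 h𝔫 hq𝔫 x
  exact h70r_torRat_at hq A hA (M * q * q) (jB (M * q * q))
    (fun σ _ => gal_smul_jB σ) 𝔫 h𝔫 hq𝔫 x

/-- the same at the chart `1/j`. -/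
theorem h70r_torRat_inv {q : ℕ} (hq : q.Prime) (A : ValuationSubring Kbar)
    (hA : A.LiesOverPrime q) (N : ℕ) [NeZero N]
    (𝔫 : Ideal (h92c_Chart A N (jB N)⁻¹)) (h𝔫 : 𝔫.IsMaximal)
    (hq𝔫 : ((q : ℕ) : h92c_Chart A N (jB N)⁻¹) ∈ 𝔫) (x : h92c_Chart A N (jB N)⁻¹) :
    ∃ a : Kbar, a ∈ A ∧ (∀ σ ∈ A.inertiaSubgroupIn ℚ, σ a = a) ∧
      ∃ c : h92c_Chart A N (jB N)⁻¹, (c : FF N) = cst N a ∧ x - c ∈ 𝔫 :=
  h70r_torRat_at hq A hA N (jB N)⁻¹ (fun σ _ => gal_smul_jB_inv σ) 𝔫 h𝔫 hq𝔫 x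

end Fermat.Agent.S36
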