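import Fermat.Agent.S36.H53DescIface
import Fermat.Agent.S24.DegLe
import Fermat.Agent.S24.FICore
import Fermat.Agent.Red.SM.DictVal

/-!
# S36, block (D) DESCENT, row D-EXT (helper50): `DescExt`

A valuation subring `O ≠ ⊤` of `F0 = F^I` containing the `I`-invariant constants is the
restriction to `F0` of a place of `F = FF N`.

* `h50x_exists_extension` : a valuation subring of a subfield `F0 ⊆ F` is the restriction of a
  valuation subring of `F` (Mathlib: valuation rings are the maximal local subrings for
  domination).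
* `h50x_mem_of_isIntegral` : a valuation subring containing the image of a ring `A` contains
  every element integral over `A`.
* `h50x_exists_place_eq` : a valuation subring `W ≠ ⊤` of `FF N` containing the constants is
  the valuation ring of a place.
* `h50x_descExt : DescExt`.
-/

set_option autoImplicit false

open AlgebraicCurve ModularCurve IsDedekindDomain IntermediateField

noncomputable section

namespace Fermat.Agent.S36

open Fermat.Agent.S37 (Kbar GQ FF cst gal)

section Abstract

variable {F : Type*} [Field F]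

/-- A valuation subring of a subfield `F0` of `F` is the restriction to `F0` of a valuation
subring of `F`. -/
theorem h50x_exists_extension (F0 : Subfield F) (O : ValuationSubring F0) :
    ∃ O1 : ValuationSubring F, ∀ f : F0, f ∈ O ↔ (f : F) ∈ O1 := by
  have : IsLocalRing O.toSubring := O.isLocalRing
  let L : LocalSubring F := LocalSubring.map F0.subtype ⟨O.toSubring⟩
  obtain ⟨B, hle, hloc⟩ := L.exists_le_valuationSubring
  refine ⟨B, fun f => ⟨fun hf => hle ⟨f, hf, rfl⟩, fun hf => ?_⟩⟩
  by_contra hfO
  have hf0 : f ≠ 0 := fun h => hfO (h ▸ O.zero_mem)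
  have hinv : f⁻¹ ∈ O := (O.mem_or_inv_mem f).resolve_left hfO
  have hy : ((f⁻¹ : F0) : F) ∈ L.toSubring := ⟨f⁻¹, hinv, rfl⟩
  have hu : IsUnit (Subring.inclusion hle ⟨((f⁻¹ : F0) : F), hy⟩) := by
    refine isUnit_iff_exists_inv.mpr ⟨⟨(f : F), hf⟩, Subtype.ext ?_⟩
    show ((f⁻¹ : F0) : F) * (f : F) = 1
    rw [← Subfield.coe_mul, inv_mul_cancel₀ hf0, Subfield.coe_one]
  have hu' : IsUnit (⟨((f⁻¹ : F0) : F), hy⟩ : L.toSubring) := hloc.map_nonunit _ hu
  obtain ⟨⟨z, g, hg, rfl⟩, hz⟩ := isUnit_iff_exists_inv.mp hu'
  have h1 : ((f⁻¹ : F0) : F) * (F0.subtype g) = 1 := congrArg Subtype.val hz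
  have h2 : f⁻¹ * g = 1 := by
    apply Subtype.ext
    rw [Subfield.coe_mul, Subfield.coe_one]
    exact h1
  have h3 : g = f := by
    rw [← mul_one f, ← h2, ← mul_assoc, mul_inv_cancel₀ hf0, one_mul]
  exact hfO (h3 ▸ hg)

/-- A valuation subring containing the image of `A` contains the elements integral over `A`. -/
theorem h50x_mem_of_isIntegral {A : Type*} [CommRing A] [Algebra A F] (W : ValuationSubring F)
    (hA : ∀ a : A, algebraMap A F a ∈ W) {b : F} (hb : IsIntegral A b) : b ∈ W := by
  let φ : A →+* W := (algebraMap A F).codRestrict W.toSubring hA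
  let _ : Algebra A W := φ.toAlgebra
  have : IsScalarTower A W F := IsScalarTower.of_algebraMap_eq fun _ => rfl
  have hb' : IsIntegral W b := hb.tower_top
  obtain ⟨z, hz⟩ := (IsIntegrallyClosed.isIntegral_iff (R := W) (K := F)).mp hb'
  rw [← hz]
  exact z.2

end Abstract

section Dict

open scoped IntermediateField.algebraAdjoinAdjoin

variable {K F : Type*} [Field K] [Field F] [Algebra K F]

/-- a valuation subring containing the constants and `x` contains `K[x]`. -/
theorem h50x_adjoin_le (x : F) (W : ValuationSubring F) (hK : ∀ a : K, algebraMap K F a ∈ W)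
    (hxW : x ∈ W) (a : Algebra.adjoin K {x}) : (a : F) ∈ W := by
  let S : Subalgebra K F :=
    { W.toSubring.toSubsemiring with
      algebraMap_mem' := hK }
  have hle : Algebra.adjoin K {x} ≤ S := Algebra.adjoin_le (by
    intro y hy
    rw [Set.mem_singleton_iff] at hy
    rw [hy]
    exact hxW)
  exact hle a.2

/-- a valuation subring `W ≠ ⊤` containing the constants and the coordinate `x` is the
valuation ring of a place. -/
theorem h50x_exists_place_eq_of_mem [CharZero K] (x : F) (hx : Transcendental K x)
    [FiniteDimensional K⟮x⟯ F] (W : ValuationSubring F)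
    (hK : ∀ a : K, algebraMap K F a ∈ W) (hxW : x ∈ W) (hW : W ≠ ⊤) :
    ∃ v : Place K F, v.toValuationSubring = W := by
  have hPID := Fermat.Agent.S24.FICore.isPrincipalIdealRing_adjoin x hx
  have hDed : IsDedekindDomain (integralClosure (Algebra.adjoin K {x}) F) :=
    integralClosure.isDedekindDomain (Algebra.adjoin K {x}) K⟮x⟯ F
  have hFrac : IsFractionRing (integralClosure (Algebra.adjoin K {x}) F) F :=
    integralClosure.isFractionRing_of_finite_extension K⟮x⟯ F
  have hBW : ∀ b : integralClosure (Algebra.adjoin K {x}) F,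
      algebraMap (integralClosure (Algebra.adjoin K {x}) F) F b ∈ W := fun b =>
    h50x_mem_of_isIntegral W (h50x_adjoin_le x W hK hxW) b.2
  obtain ⟨P, hP⟩ := Fermat.Agent.Red.SM.h25d_exists_heightOne W hBW hW
  exact ⟨Place.ofHeightOneSpectrum (K := K) (F := F) P, hP⟩

/-- every valuation subring `W ≠ ⊤` of a function field containing the constants is the
valuation ring of a place. -/
theorem h50x_exists_place_eq [CharZero K] (x : F) (hx : Transcendental K x)
    [FiniteDimensional K⟮x⟯ F] (W : ValuationSubring F)
    (hK : ∀ a : K, algebraMap K F a ∈ W) (hW : W ≠ ⊤) :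
    ∃ v : Place K F, v.toValuationSubring = W := by
  rcases W.mem_or_inv_mem x with h | h
  · exact h50x_exists_place_eq_of_mem x hx W hK h hW
  · have hx' : Transcendental K x⁻¹ := fun h => hx (by simpa using h.inv)
    have hfin : FiniteDimensional K⟮x⁻¹⟯ F := by
      have he : K⟮x⁻¹⟯ = K⟮x⟯ := by
        apply le_antisymm
        · rw [adjoin_simple_le_iff]
          exact inv_mem (mem_adjoin_simple_self K x)
        · rw [adjoin_simple_le_iff]
          have := inv_mem (mem_adjoin_simple_self K x⁻¹)
          rwa [inv_inv] at this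
      rw [he]
      infer_instance
    exact h50x_exists_place_eq_of_mem x⁻¹ hx' W hK h hW

end Dict

/-- **D-EXT.** -/
theorem h50x_descExt : DescExt := by
  intro N _ I O hO hK0
  obtain ⟨O1, hO1⟩ := h50x_exists_extension (h53d_F0 N I) O
  -- `O1 ≠ ⊤`
  have hO1top : O1 ≠ ⊤ := by
    intro htop
    apply hO
    refine SetLike.ext fun f => ⟨fun _ => ValuationSubring.mem_top f, fun _ => ?_⟩
    rw [hO1 f, htop]
    exact ValuationSubring.mem_top _
  -- the rational constants are in `O1`
  have hQ : ∀ r : ℚ, algebraMap ℚ (FF N) r ∈ O1 := by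
    intro r
    have hc : cst N (algebraMap ℚ Kbar r) ∈ h53d_F0 N I := by
      intro σ _
      rw [SemilinearAut.smul_algebraMap]
      congr 1
      exact σ.commutes r
    have h1 := hK0 (algebraMap ℚ Kbar r) hc
    have h2 := (hO1 _).mp h1
    have h3 : cst N (algebraMap ℚ Kbar r) = algebraMap ℚ (FF N) r :=
      (IsScalarTower.algebraMap_apply ℚ Kbar (FF N) r).symm
    rw [← h3]
    exact h2
  -- all constants are in `O1`
  have hK : ∀ c : Kbar, cst N c ∈ O1 := by
    intro c
    have hc : IsIntegral ℚ c := ((AlgebraicClosure.isAlgebraic ℚ).isAlgebraic c).isIntegral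
    have hc' : IsIntegral ℚ (cst N c) := hc.algebraMap
    exact h50x_mem_of_isIntegral O1 hQ hc'
  have := (Fermat.Agent.S24.finrank_le_index N).1
  obtain ⟨v, hv⟩ := h50x_exists_place_eq (K := Kbar) (Fermat.Agent.S24.jBar N)
    (Fermat.Agent.S24.transcendental_jBar N) O1 hK hO1top
  exact ⟨v, fun f => by rw [hv]; exact hO1 f⟩

end Fermat.Agent.S36
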