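import Fermat.Agent.S36.H53Den
import Fermat.Agent.S36.H66ChartSub
import Fermat.Agent.S36.H50DescExt
import Fermat.Agent.PT.Glob.H55InertVal

/-!
# S36, GATE (helper53): the horizontal primes of the charts `B₀(t)` are centres of places

`A` a valuation subring of `ℚ̄` over `q`, `I` its inertia group, `F₀ = FF N ^ I`,
`B₀(t) = modelAt N A t ∩ F₀` (`h92c_Chart`), `t ∈ F₀`.

* `h53p_centre` : for a prime ideal `𝔭 ≠ ⊥` of `B₀(t)` with `q ∉ 𝔭` there is a place `v` of
  `FF N` over `ℚ̄`, regular at `t`, with `ord_v b ≥ 1` for all `b ∈ 𝔭`.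

(The local ring `B₀(t)_𝔭` is dominated by a valuation subring `W` of `FF N`; it contains `ℚ`
since `q` is invertible and the rational numbers are `q ^ j` times units of `A ∩ ℚ`; so `W`
contains `ℚ̄`, and `W ≠ ⊤` since `𝔭 ≠ ⊥`.)
-/

set_option autoImplicit false
set_option synthInstance.maxHeartbeats 400000
set_option linter.unusedSectionVars false

open AlgebraicCurve ModularCurve WithZero IsLocalRing

noncomputable section

namespace Fermat.Agent.S36

open Fermat.Agent.S37 (Kbar GQ FF cst gal modelAt)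
open Fermat.Agent.Red.Desc (Ge)
open Fermat.Agent.Red Fermat.Agent.Red.GG

variable {N : ℕ} [NeZero N]

omit [NeZero N] in
/-- the constants of `A` fixed by `I` lie in the chart. -/
theorem h53p_cst_mem_chart (A : ValuationSubring Kbar) (t : FF N) {c : Kbar} (hc : c ∈ A)
    (hfix : ∀ σ ∈ A.inertiaSubgroupIn ℚ, σ c = c) : cst N c ∈ h92c_Chart A N t := by
  refine ⟨h53p_cst_mem_modelAt A t hc, ?_⟩
  intro σ hσ
  rw [Fermat.Agent.S37.GalI.gal_smul_cst, hfix σ hσ]

omit [NeZero N] in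
theorem h53p_t_mem_chart (A : ValuationSubring Kbar) (t : FF N) (htF : t ∈ h92c_F0 A N) :
    t ∈ h92c_Chart A N t :=
  ⟨ModelO.h85_self_mem_modelAt N A t, htF⟩

/-- a valuation subring of `FF N` containing the chart and the inverse of `q` contains the
constants. -/
theorem h53p_cst_mem_of_inv {q : ℕ} (hq : q.Prime) (A : ValuationSubring Kbar)
    (hA : A.LiesOverPrime q) (t : FF N) (W : ValuationSubring (FF N))
    (hBW : ∀ b ∈ h92c_Chart A N t, b ∈ W) (hqW : (cst N (q : Kbar))⁻¹ ∈ W) (c : Kbar) :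
    cst N c ∈ W := by
  set W' : ValuationSubring Kbar := W.comap (algebraMap Kbar (FF N)) with hW'
  have hmem : ∀ x : Kbar, x ∈ W' ↔ cst N x ∈ W := fun x => Iff.rfl
  have hq0 : (q : Kbar) ≠ 0 := Nat.cast_ne_zero.mpr hq.ne_zero
  have hqW' : (q : Kbar) ∈ W' := natCast_mem W' q
  have hqinvW' : (q : Kbar)⁻¹ ∈ W' := by
    rw [hmem]
    have h1 : cst N ((q : Kbar)⁻¹) = (cst N (q : Kbar))⁻¹ := map_inv₀ (algebraMap Kbar (FF N)) _
    rw [h1]
    exact hqW
  have hrat : ∀ r : ℚ, algebraMap ℚ Kbar r ∈ W' := by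
    intro r
    rcases eq_or_ne r 0 with rfl | hr
    · rw [map_zero]; exact W'.zero_mem
    have hx0 : algebraMap ℚ Kbar r ≠ 0 := by
      rw [Ne, map_eq_zero]; exact hr
    obtain ⟨j, u, hu, -, hxu⟩ := Fermat.Agent.PT.Glob.h55v_kInertVal q hq A hA
      (algebraMap ℚ Kbar r) hx0 (fun σ _ => σ.commutes r)
    have hufix : ∀ σ ∈ A.inertiaSubgroupIn ℚ, σ u = u := by
      intro σ _
      have hu_eq : u = algebraMap ℚ Kbar r * ((q : Kbar) ^ j)⁻¹ := by
        rw [hxu]
        field_simp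
      rw [hu_eq, map_mul, map_inv₀, map_zpow₀, map_natCast, σ.commutes]
    have huW : u ∈ W' := by
      rw [hmem]
      exact hBW _ (h53p_cst_mem_chart A t hu hufix)
    rw [hxu]
    refine W'.mul_mem _ _ ?_ huW
    exact Fermat.Agent.Red.h26_zpow_mem W'.toSubring hqW' hqinvW' j
  have hint : IsIntegral ℚ c := ((AlgebraicClosure.isAlgebraic ℚ).isAlgebraic c).isIntegral
  exact (hmem c).mp (h50x_mem_of_isIntegral W' hrat hint)

/-- **the centre**: a horizontal prime of the chart `B₀(t)` is contained in the centre of a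
place of `FF N` which is regular at `t`. -/
theorem h53p_centre {q : ℕ} (hq : q.Prime) (A : ValuationSubring Kbar) (hA : A.LiesOverPrime q)
    (t : FF N) (htF : t ∈ h92c_F0 A N)
    (𝔭 : Ideal (h92c_Chart A N t)) [h𝔭 : 𝔭.IsPrime] (hbot : 𝔭 ≠ ⊥)
    (hq𝔭 : ((q : ℕ) : h92c_Chart A N t) ∉ 𝔭) :
    ∃ v : Place Kbar (FF N), t ∈ v.toValuationSubring ∧ ∀ b ∈ 𝔭, Ge v 1 (b : FF N) := by
  obtain ⟨W, hle, hloc⟩ :=
    (LocalSubring.mk (h66sO (h92c_Chart A N t) 𝔭)).exists_le_valuationSubring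
  have hle' : ∀ x ∈ h66sO (h92c_Chart A N t) 𝔭, x ∈ W := fun x hx => hle hx
  have hBW : ∀ b ∈ h92c_Chart A N t, b ∈ W := fun b hb => hle' b (h66s_B_le_O hb)
  have hqW : (cst N (q : Kbar))⁻¹ ∈ W := by
    have h1 := h66s_inv_mem_O (B := h92c_Chart A N t) (𝔫 := 𝔭) hq𝔭
    have h2 : ((((q : ℕ) : h92c_Chart A N t)) : FF N) = cst N (q : Kbar) := by
      rw [Subring.coe_natCast]
      exact (map_natCast (algebraMap Kbar (FF N)) q).symm
    rw [h2] at h1
    exact hle' _ h1
  have hK : ∀ c : Kbar, cst N c ∈ W := h53p_cst_mem_of_inv hq A hA t W hBW hqW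
  -- non-units
  have hnon : ∀ b ∈ 𝔭, (b : FF N) ≠ 0 → ((b : FF N))⁻¹ ∉ W := by
    intro b hb hb0 hinv
    have hbO : (b : FF N) ∈ h66sO (h92c_Chart A N t) 𝔭 := h66s_B_le_O b.2
    have hmax : (⟨(b : FF N), hbO⟩ : h66sO (h92c_Chart A N t) 𝔭) ∈
        maximalIdeal (h66sO (h92c_Chart A N t) 𝔭) := by
      rw [h66s_mem_maximalIdeal_iff]
      exact ⟨1, b, (Ideal.ne_top_iff_one 𝔭).mp h𝔭.ne_top, hb, by simp⟩
    have hunit : IsUnit (Subring.inclusion hle (⟨(b : FF N), hbO⟩ :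
        h66sO (h92c_Chart A N t) 𝔭)) := by
      refine IsUnit.of_mul_eq_one ⟨((b : FF N))⁻¹, hinv⟩ (Subtype.ext ?_)
      show (b : FF N) * ((b : FF N))⁻¹ = 1
      exact mul_inv_cancel₀ hb0
    have := hloc.map_nonunit _ hunit
    exact (mem_maximalIdeal _).mp hmax this
  have hW : W ≠ ⊤ := by
    intro hW
    obtain ⟨b, hb, hb0⟩ := Submodule.exists_mem_ne_zero_of_ne_bot hbot
    have hb0' : (b : FF N) ≠ 0 := fun h => hb0 (Subtype.ext h)
    apply hnon b hb hb0'
    rw [hW]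
    exact ValuationSubring.mem_top _
  obtain ⟨v, hv⟩ := h18c_place_of N W hK hW
  refine ⟨v, ?_, ?_⟩
  · rw [hv]
    exact hBW _ (h53p_t_mem_chart A t htF)
  · intro b hb
    rcases eq_or_ne (b : FF N) 0 with h0 | h0
    · exact Or.inl h0
    have hbW : (b : FF N) ∈ v.toValuationSubring := by rw [hv]; exact hBW _ b.2
    have hbinv : ((b : FF N))⁻¹ ∉ v.toValuationSubring := by rw [hv]; exact hnon b hb h0
    have hmax : (⟨(b : FF N), hbW⟩ : v.toValuationSubring) ∈
        maximalIdeal v.toValuationSubring := by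
      rw [mem_maximalIdeal, mem_nonunits_iff]
      intro hu
      apply hbinv
      obtain ⟨y, hy⟩ := hu.exists_right_inv
      have h1 : (b : FF N) * (y : FF N) = 1 := by
        have := congrArg (Subtype.val : v.toValuationSubring → FF N) hy
        simpa using this
      have h2 : ((b : FF N))⁻¹ = (y : FF N) := by
        rw [← mul_one ((b : FF N))⁻¹, ← h1, ← mul_assoc, inv_mul_cancel₀ h0, one_mul]
      rw [h2]
      exact y.2
    exact Fermat.Agent.Red.Desc.ge_one_of_mem_maximalIdeal hmax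

end Fermat.Agent.S36
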