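import Fermat.Agent.S36.H11TorSkel
import Fermat.Agent.S36.H6VConv
import Fermat.Agent.S36.H81Base
import Fermat.Agent.S36.H71NewGateX
import Fermat.Agent.S36.H53Centre
import Fermat.Agent.S36.H93ApproxRes
import Fermat.Agent.S36.V28Disc

/-!
# S36, row T-BASIC: the frozen Prop `H11TorBasic` (helper28, prefix `h28t_`)

* `h28t_mem_of_modelAt` : an element of the chart `modelAt N A t` is Gauss-integral at every
  embedding `E` with values in `dfField` which is Gauss-integral on the constants of `A` and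
  on `t` (valuative criterion `h85_mem_modelAt_iff_forall` + `h6v_W`).
* `h28t_jB_eq_X` : `jB (M q q) = α (α (jB M))`.
* `h28t_torBasic : H11TorBasic` (exact frozen Prop of `S36/H11TorSkel.lean`), unconditional.
-/

set_option autoImplicit false
set_option linter.unusedSectionVars false
set_option linter.style.haveILetI false

open ModularCurve AlgebraicCurve

noncomputable section

namespace Fermat.Agent.S36.V28

open Fermat.Agent.S05 Fermat.Agent.S37 Fermat.Agent.Red.GV Fermat.Agent.Red.GV.Soft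
open Fermat.Agent.Red.Kron (kFricke twistK kFricke_alpha kFricke_beta)
open Fermat.Agent.Red.KR (normAlong)
open Fermat.Agent.S36

/-- **valuative criterion at an embedding.** -/
theorem h28t_mem_of_modelAt {q : ℕ} (hq : q.Prime) (A : ValuationSubring Kbar)
    (hA : A.LiesOverPrime q) {N : ℕ} (E : FF N →+* LaurentSeries Kbar)
    (hDF : ∀ x : FF N, E x ∈ dfField (K := Kbar))
    (hcst : ∀ a : Kbar, E (cst N a) = HahnSeries.C a) (t : FF N)
    (ht : E t ∈ softOT A (IsLocalRing.residue A)) {b : FF N} (hb : b ∈ modelAt N A t) :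
    E b ∈ softOT A (IsLocalRing.residue A) := by
  refine (Fermat.Agent.Red.ModelO.h85_mem_modelAt_iff_forall N A t b).1 hb
    (h6v_W q hq A hA E hDF) (fun a ha => ?_) ht
  show E (cst N a) ∈ softOT A (IsLocalRing.residue A)
  rw [hcst]
  exact C_mem_softOT A _ ⟨a, ha⟩

section Level

variable (M q : ℕ) [NeZero M] [NeZero q]

theorem h28t_jB_eq_X : jB (M * q * q) = h93aX M q := by
  apply Subtype.ext
  rw [h93a_coe_X, coe_jB]
  rfl

theorem h28t_jB_eq_alpha : jB (M * q) = heckeAlphaBar Kbar M q (jB M) := by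
  apply Subtype.ext
  rw [coe_heckeAlphaBar, coe_jB, coe_jB]

end Level

/-- **T-BASIC** (frozen Prop of `H11TorSkel`). -/
theorem h28t_torBasic : H11TorBasic := by
  intro q hq M _ hqM _ A hA
  haveI : NeZero q := ⟨hq.ne_zero⟩
  refine ⟨?_, ?_, ?_, ?_, ?_, ?_⟩
  · -- (1) constants
    intro a ha hfix
    exact ⟨h53p_cst_mem_chart A _ ha hfix, h53p_cst_mem_chart A _ ha hfix⟩
  · -- (2) the chart of level `M q q` is Gauss-integral at the vertical embeddings
    intro b hb E hE
    have hbm : b ∈ modelAt (M * q * q) A (jB (M * q * q)) := hb.1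
    rcases hE with rfl | ⟨ζ, hζ, hE⟩ | hE
    · refine h28t_mem_of_modelAt hq A hA (h20n_E20 M q) (fun x => FF_le_dfField _ x)
        (fun a => soft_coe_cst (M * q * q) a) _ ?_ hbm
      obtain ⟨⟨s, hs, -⟩, -, -⟩ := h93a_img20 (q := q) M A
      rw [h28t_jB_eq_X, hs]
      exact embA_mem_softOT A _ s
    · refine h28t_mem_of_modelAt hq A hA E
        (h12e_embDF q hq M hqM E (Or.inl ⟨ζ, hζ.pow_eq_one, hE⟩))
        (fun a => h28d_E11_cst hq hqM ζ E hE a) _ ?_ hbm
      obtain ⟨⟨s, hs, -⟩, -, -⟩ := h93a_img11 M hq hqM A hA ζ hζ.pow_eq_one E hE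
      rw [h28t_jB_eq_X, hs]
      exact embA_mem_softOT A _ s
    · refine h28t_mem_of_modelAt hq A hA E
        (h12e_embDF q hq M hqM E (Or.inr hE))
        (fun a => h28d_E02_cst hq hqM E hE a) _ ?_ hbm
      obtain ⟨⟨s, hs, -⟩, -, -⟩ := h93a_img02 M hq hqM A E hE
      rw [h28t_jB_eq_X, hs]
      exact embA_mem_softOT A _ s
  · -- (3) the chart of level `M q` is Gauss-integral at `E_∞`, `E_0`
    intro b hb
    have hbm : b ∈ modelAt (M * q) A (jB (M * q)) := hb.1
    constructor
    · refine h28t_mem_of_modelAt hq A hA (h11t_Einf M q) (fun x => FF_le_dfField _ x)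
        (fun a => soft_coe_cst (M * q) a) _ ?_ hbm
      show ((jB (M * q) : FF (M * q)) : LaurentSeries Kbar) ∈ _
      rw [coe_jB]
      have h1 : embA A (h93aJ q A 0) = jK Kbar := h93a_embA_J q A 0
      rw [← h1]
      exact embA_mem_softOT A _ _
    · refine h28t_mem_of_modelAt hq A hA (h11t_Ezero M q hq hqM)
        (fun x => FF_le_dfField _ (kFricke M q hq hqM x))
        (fun a => ?_) _ ?_ hbm
      · show ((kFricke M q hq hqM (cst (M * q) a) : FF (M * q)) : LaurentSeries Kbar) = _
        rw [(kFricke M q hq hqM).commutes a]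
        exact soft_coe_cst (M * q) a
      · show ((kFricke M q hq hqM (jB (M * q)) : FF (M * q)) : LaurentSeries Kbar) ∈ _
        rw [h28t_jB_eq_alpha, kFricke_alpha, coe_heckeBetaBar, coe_jB]
        have h1 : embA A (h93aJ q A 1) = qExpand Kbar q (jK Kbar) := h93a_embA_J q A 1
        rw [← h1]
        exact embA_mem_softOT A _ _
  · -- (4) the maximal ideal of `A₀` is generated by `q`
    intro a ha hinv hfix
    have haK : a ∈ h81a_K0 A := (h81a_mem_K0 A a).2 hfix
    have hnu : (⟨a, haK⟩ : h81a_K0 A) ∈ (h81a_A0 A).nonunits := by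
      rw [h81a_mem_nonunits_A0, h93a_mem_nonunits_iff]
      exact Or.inr hinv
    obtain ⟨y, hy, hxy⟩ := (h81a_mem_nonunits_iff_dvd hq hA _).1 hnu
    refine ⟨(y : Kbar), (h81a_mem_A0 A y).1 hy, (h81a_mem_K0 A _).1 y.2, ?_⟩
    have h := congrArg (fun z : h81a_K0 A => (z : Kbar)) hxy
    simpa using h
  · -- (5) roots of unity of order prime to `q`
    intro m ξ hqm hξ
    have hm : 0 < m := by
      rcases Nat.eq_zero_or_pos m with rfl | h
      · exact absurd (dvd_zero q) hqm
      · exact h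
    have hξ0 : ξ ≠ 0 := by
      rintro rfl
      rw [zero_pow hm.ne'] at hξ
      exact zero_ne_one hξ
    have hint : IsIntegral ℤ ξ :=
      ⟨Polynomial.X ^ m - 1, Polynomial.monic_X_pow_sub_C (1 : ℤ) hm.ne', by simp [hξ]⟩
    have hξA : ξ ∈ A := Fermat.Agent.S54.mem_valuationSubring_of_isIntegral A hint
    have hinv : ξ⁻¹ = ξ ^ (m - 1) := by
      have h1 : ξ * ξ ^ (m - 1) = 1 := by
        rw [← pow_succ', Nat.sub_add_cancel hm, hξ]
      exact inv_eq_of_mul_eq_one_right h1
    refine ⟨hξ0, hξA, ?_, (h81a_mem_K0 A ξ).1 (h81a_root_of_unity_mem hq hA hm hqm hξ)⟩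
    rw [hinv]
    exact pow_mem hξA _
  · -- (6) norms of `I`-invariant functions
    intro x hx
    constructor
    · intro σ hσ
      rw [h71x_gal_normAlong (heckeAlphaBar Kbar (M * q) q)
        (fun τ y => h83g_gal_alpha (M * q) q τ y) σ x, hx σ hσ]
    · intro σ hσ
      rw [h71x_gal_normAlong (heckeBetaBar Kbar (M * q) q)
        (fun τ y => h83g_gal_beta (M * q) q τ y) σ x, hx σ hσ]

end Fermat.Agent.S36.V28
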