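import Fermat.Agent.S36.H16TorRoot
import Fermat.Agent.S36.H70ChartRes
import Fermat.Agent.S36.H93ApproxRes
import Fermat.Agent.S36.V28TorBasic

/-!
# S36, row T-ROOT-CEN: the frozen Prop `H16TorCentre` (helper28, prefix `h28k_`)

No closed point `𝔫 ∋ q` of the chart `j` of level `M q q` over `A₀` is contained in the centre
of a vertical embedding `E`: by `h70o_chart_res_elt` (helper70) `j ≡ a` modulo `𝔫` for a constant
`a ∈ A₀`, and `E (j - a) = j(t^(q^i)) - a` has nonzero reduction (coefficient `1` at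
`t^(-q^i)`).

* `h28k_J_coeff` : the coefficient of `j(t^(q^i))` at `-(q^i)` is `1`.
* `h28k_not_small` : `j - a` is not Gauss-small at a vertical embedding.
* `h28k_torCentre : H16TorCentre` (exact frozen Prop), unconditional.
-/

set_option autoImplicit false
set_option linter.unusedSectionVars false
set_option linter.style.haveILetI false

open ModularCurve AlgebraicCurve

noncomputable section

namespace Fermat.Agent.S36.V28

open Fermat.Agent.S05 Fermat.Agent.S37 Fermat.Agent.Red.GV Fermat.Agent.Red.GV.Soft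
open Fermat.Agent.Red.Kron (kFricke twistK kFricke_alpha kFricke_beta)
open Fermat.Agent.S36

theorem h28k_J_coeff (q : ℕ) [NeZero q] (R : Type) [CommRing R] (i : ℕ) :
    (h93aJ q R i).coeff (-((q : ℤ) ^ i)) = 1 := by
  induction i with
  | zero =>
    rw [h93aJ_zero, pow_zero]
    exact ModularCurve.coeff_jqModC_neg_one R
  | succ n ih =>
    rw [h93aJ_succ]
    have e : -((q : ℤ) ^ (n + 1)) = (q : ℤ) * (-((q : ℤ) ^ n)) := by ring
    rw [e, qExpand_coeff_mul]
    exact ih

theorem h28k_J_sub_C_ne (q : ℕ) [NeZero q] (hq : q.Prime) (k : Type) [Field k] (i : ℕ) (c : k) :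
    h93aJ q k i - HahnSeries.C c ≠ 0 := by
  intro h
  have h1 := congrArg (fun s : LaurentSeries k => s.coeff (-((q : ℤ) ^ i))) h
  simp only [HahnSeries.coeff_sub, HahnSeries.coeff_zero] at h1
  rw [h28k_J_coeff] at h1
  have hne : -((q : ℤ) ^ i) ≠ 0 := by
    have : (0 : ℤ) < (q : ℤ) ^ i := pow_pos (by exact_mod_cast hq.pos) i
    omega
  rw [HahnSeries.C_apply, HahnSeries.coeff_single_of_ne hne, sub_zero] at h1
  exact one_ne_zero h1

section Level

variable {M q : ℕ} [NeZero M] [NeZero q] (A : ValuationSubring Kbar)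

/-- `j - a` is not Gauss-small at an embedding `E` with `E j = j(t^(q^i))`. -/
theorem h28k_not_small_of (hq : q.Prime) {N : ℕ} (E : FF N →+* LaurentSeries Kbar)
    (hcst : ∀ c : Kbar, E (cst N c) = HahnSeries.C c) (x : FF N) (i : ℕ)
    (s : LaurentSeries A) (hs : E x = embA A s)
    (hred : redA (IsLocalRing.residue A) s = h93aJ q (IsLocalRing.ResidueField A) i)
    {a : Kbar} (ha : a ∈ A) : ¬ h11l_Small A E (x - cst N a) := by
  rintro ⟨hmem, hzero⟩
  have e : embA A (s - HahnSeries.C (⟨a, ha⟩ : A)) = E (x - cst N a) := by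
    rw [map_sub, map_sub, hcst, hs, h1g_embA_C]
  have h1 := softRedT_of_embA (A := A) (π := IsLocalRing.residue A) ⟨_, hmem⟩ _ e
  rw [hzero, map_sub, hred, h1g_redA_C] at h1
  exact h28k_J_sub_C_ne q hq _ i _ h1.symm

end Level

/-- **T-ROOT-CEN** (frozen Prop of `H16TorRoot`). -/
theorem h28k_torCentre : H16TorCentre := by
  intro q hq M _ hqM _
  haveI : NeZero q := ⟨hq.ne_zero⟩
  intro A hA E hE 𝔫 hmax hq𝔫
  haveI := hmax
  have hjfix : ∀ σ ∈ A.inertiaSubgroupIn ℚ,
      gal (M * q * q) σ • jB (M * q * q) = jB (M * q * q) :=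
    fun σ _ => Fermat.Agent.S37.GalI.gal_smul_jB σ
  obtain ⟨a, ha, hmem⟩ := h70o_chart_res_elt hq A hA (M * q * q) (jB (M * q * q)) hjfix 𝔫
    (h𝔫 := hmax) hq𝔫
    ⟨jB (M * q * q), h70o_self_mem_chart A (M * q * q) (jB (M * q * q)) hjfix⟩
  refine ⟨_, hmem, ?_⟩
  show ¬ h11l_Small A E (jB (M * q * q) - cst (M * q * q) a)
  rw [h28t_jB_eq_X]
  rcases hE with rfl | ⟨ζ, hζ, hE⟩ | hE
  · obtain ⟨⟨s, hs, hred⟩, -, -⟩ := h93a_img20 (q := q) M A
    exact h28k_not_small_of A hq (h20n_E20 M q) (fun c => soft_coe_cst (M * q * q) c) _ 0 s hs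
      hred ha.1
  · obtain ⟨⟨s, hs, hred⟩, -, -⟩ := h93a_img11 M hq hqM A hA ζ hζ.pow_eq_one E hE
    exact h28k_not_small_of A hq E (fun c => h28d_E11_cst hq hqM ζ E hE c) _ 0 s hs hred ha.1
  · obtain ⟨⟨s, hs, hred⟩, -, -⟩ := h93a_img02 M hq hqM A E hE
    exact h28k_not_small_of A hq E (fun c => h28d_E02_cst hq hqM E hE c) _ 2 s hs hred ha.1

end Fermat.Agent.S36.V28
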