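import Fermat.Agent.S36.H16TorRootWire
import Fermat.Agent.S36.H23VCompInst
import Fermat.Agent.S36.V28TorCen
import Fermat.Agent.S36.H70TorRat

/-!
# S36, row T-ROOT (helper16): `H11TorRoot` from REG only

All other inputs are landed: `H86LocVComp` (`h23i_locVComp`, helper23), `H16TorCentre`
(`V28.h28k_torCentre`, helper28), `H16TorRat` (`h70r_torRat`, helper70), `H86LocFactAbs`,
`H86LocHor`, `H11TorBasic`.
-/

set_option autoImplicit false

namespace Fermat.Agent.S36

/-- **T-ROOT** from REG only. -/
theorem h16t_torRoot_of_reg (hReg : H62RegStatement) : H11TorRoot :=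
  h16t_torRoot_wired hReg h23i_locVComp V28.h28k_torCentre h70r_torRat

end Fermat.Agent.S36
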