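import Fermat.Agent.S36.H16TorRoot
import Fermat.Agent.S36.H86LocFact
import Fermat.Agent.S36.H37LocHor
import Fermat.Agent.S36.V28TorBasic

/-!
# S36, row T-ROOT (helper16): `H11TorRoot` wired to the landed leaves

`h16t_torRoot_wired : H62RegStatement → H86LocVComp → H16TorCentre → H16TorRat → H11TorRoot`
(`H86LocFactAbs`, `H86LocHor`, `H11TorBasic` are landed: `h86l_locFactAbs`, `h37w_locHor`,
`V28.h28t_torBasic`).
-/

set_option autoImplicit false

namespace Fermat.Agent.S36

/-- **T-ROOT** from REG, LOC-VCOMP and the two leaves `T-ROOT-CEN`, `T-ROOT-RAT`. -/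
theorem h16t_torRoot_wired (hReg : H62RegStatement) (hV : H86LocVComp) (hCen : H16TorCentre)
    (hRat : H16TorRat) : H11TorRoot :=
  h16t_torRoot_of h86l_locFactAbs hReg hV h37w_locHor V28.h28t_torBasic hCen hRat

end Fermat.Agent.S36
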