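/-
S36 (wave 4), block (N): the frozen Prop `H20Cyc` (row N-CYC), from `H23Tame` (helper23).
-/
import Fermat.Agent.S36.H20NormSkel
import Fermat.Agent.S36.H23Tame

set_option autoImplicit false

namespace Fermat.Agent.S36

/-- **N-CYC.** The inertia group at `q` acts transitively on the primitive `q`-th roots of
unity. -/
theorem h23t_H20Cyc : H20Cyc :=
  fun _ hq A hA _ _ hζ hζ' => h23t_cyc hq A hA hζ hζ'

end Fermat.Agent.S36
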