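import Fermat.Agent.S36.H20VertSkel
import Fermat.Agent.S36.H55DescPow
import Fermat.Agent.S36.H40NormA
import Fermat.Agent.S36.H40NormC
import Fermat.Agent.S36.H71NormB
import Fermat.Agent.S36.H93NormD
import Fermat.Agent.S36.H83EmbGal
import Fermat.Agent.S36.H20Emb
import Fermat.Agent.S36.H49RedA
import Fermat.Agent.S36.H23Cyc
import Fermat.Agent.S36.V28Fix
import Fermat.Agent.LGC.Res44
import Fermat.Agent.Red.GV.SoftGal

/-!
# S36, row VN-L3 (helper17, second seat): `H20CompGroup`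

The valuations `(n₂₀, n₁₁, n₀₂)` of a new function `u ∈ F₀` of level `M q q` satisfy
`m ∣ n₂₀ + n₁₁ - q n₀₂` and `m ∣ q n₂₀ - (n₁₁ + n₀₂)`.

Proof (unit calculus in the Gauss ring `G = softOT A`; no valuation function is needed).
* `Nm_α u = c g ^ m` with `c ∈ K₀`, `g ∈ F₀(M q)` (`h55p_descPow`; the norm of an `I`-fixed
  function is `I`-fixed: `h17c_gal_norm`).  `c = q ^ a ·` unit, `q ^ k g` and `q ^ k' (w g)`
  are units at `∞` (`h28v_exists_zpow` at the level `M q`; `w` the Fricke involution).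
* norm formula (a): `Nm_α u = E20 u · ∏_b E11^{ζ^b} u`; the `E11^{ζ^b}` are conjugate under
  inertia (`H20Cyc`, `H20EmbGal`), `∏_b (1 - ζ^b) = q`: `q ^ (n₂₀ + n₁₁) Nm_α u` is a unit.
* norm formula (d): `(w Nm_α u)(t^q) = ∏_b (E02 u)(ζ^b t)`: `q ^ (q n₀₂) (w Nm_α u)(t^q)` is a
  unit.  Comparing: `n₂₀ + n₁₁ = m k - a`, `q n₀₂ = m k' - a`.
* the same with (b), (c) for `Nm_β`.
-/

set_option autoImplicit false
set_option linter.unusedSectionVars false
set_option linter.style.haveILetI false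

open AlgebraicCurve ModularCurve

noncomputable section

namespace Fermat.Agent.S36

open Fermat.Agent.S37 (Kbar GQ FF cst gal auxLevel)
open Fermat.Agent.Red.KR (normAlong)
open Fermat.Agent.Red.Kron (kFricke twistK)
open Fermat.Agent.Red.GV.Soft (softOT softV)
open Fermat.Agent.Red.GV

/-! ## Units of the Gauss ring -/

section Units

variable (A : ValuationSubring Kbar)

theorem h17c_unit_one : h20v_Unit A 1 :=
  ⟨one_ne_zero, one_mem _, by rw [inv_one]; exact one_mem _⟩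

theorem h17c_unit_mul {s t : LaurentSeries Kbar} (hs : h20v_Unit A s) (ht : h20v_Unit A t) :
    h20v_Unit A (s * t) :=
  ⟨mul_ne_zero hs.1 ht.1, mul_mem hs.2.1 ht.2.1, by
    rw [mul_inv]; exact mul_mem hs.2.2 ht.2.2⟩

theorem h17c_unit_inv {s : LaurentSeries Kbar} (hs : h20v_Unit A s) : h20v_Unit A s⁻¹ :=
  ⟨inv_ne_zero hs.1, hs.2.2, by rw [inv_inv]; exact hs.2.1⟩

theorem h17c_unit_pow {s : LaurentSeries Kbar} (hs : h20v_Unit A s) (n : ℕ) :
    h20v_Unit A (s ^ n) :=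
  ⟨pow_ne_zero n hs.1, pow_mem hs.2.1 n, by rw [← inv_pow]; exact pow_mem hs.2.2 n⟩

theorem h17c_unit_prod {ι : Type*} (S : Finset ι) (f : ι → LaurentSeries Kbar)
    (h : ∀ i ∈ S, h20v_Unit A (f i)) : h20v_Unit A (∏ i ∈ S, f i) := by
  classical
  induction S using Finset.induction_on with
  | empty => simpa using h17c_unit_one A
  | insert a S ha ih =>
    rw [Finset.prod_insert ha]
    exact h17c_unit_mul A (h a (Finset.mem_insert_self a S))
      (ih fun i hi => h i (Finset.mem_insert_of_mem hi))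

theorem h17c_C_ne_zero {c : Kbar} (hc : c ≠ 0) : (HahnSeries.C c : LaurentSeries Kbar) ≠ 0 :=
  (map_ne_zero_iff _ (HahnSeries.C : Kbar →+* LaurentSeries Kbar).injective).mpr hc

theorem h17c_C_inv (c : Kbar) :
    (HahnSeries.C c : LaurentSeries Kbar)⁻¹ = HahnSeries.C c⁻¹ :=
  (map_inv₀ (HahnSeries.C : Kbar →+* LaurentSeries Kbar) c).symm

theorem h17c_unit_C_iff (c : Kbar) :
    h20v_Unit A (HahnSeries.C c) ↔ c ≠ 0 ∧ c ∈ A ∧ c⁻¹ ∈ A := by
  unfold h20v_Unit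
  rw [h17c_C_inv, Soft.C_mem_softOT_iff (A := A) (π := IsLocalRing.residue A)
      (Soft.residue_eq_zero_of_nonunit A),
    Soft.C_mem_softOT_iff (A := A) (π := IsLocalRing.residue A)
      (Soft.residue_eq_zero_of_nonunit A)]
  constructor
  · rintro ⟨h0, h1, h2⟩
    refine ⟨?_, h1, h2⟩
    rintro rfl
    exact h0 (map_zero _)
  · rintro ⟨h0, h1, h2⟩
    exact ⟨h17c_C_ne_zero h0, h1, h2⟩

theorem h17c_C_mul (c d : Kbar) :
    (HahnSeries.C (c * d) : LaurentSeries Kbar) = HahnSeries.C c * HahnSeries.C d :=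
  map_mul (HahnSeries.C : Kbar →+* LaurentSeries Kbar) c d

/-- two normalisations of the same series differ by a unit of `A`. -/
theorem h17c_unit_cancel {c d : Kbar} {s : LaurentSeries Kbar}
    (h1 : h20v_Unit A (HahnSeries.C c * s)) (h2 : h20v_Unit A (HahnSeries.C d * s)) :
    c / d ∈ A ∧ (c / d)⁻¹ ∈ A := by
  have hs : s ≠ 0 := right_ne_zero_of_mul h1.1
  have hd' : (HahnSeries.C d : LaurentSeries Kbar) ≠ 0 := left_ne_zero_of_mul h2.1
  have h3 := h17c_unit_mul A h1 (h17c_unit_inv A h2)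
  have e : HahnSeries.C c * s * (HahnSeries.C d * s)⁻¹ = HahnSeries.C (c / d) := by
    rw [div_eq_mul_inv, h17c_C_mul, ← h17c_C_inv]
    field_simp
  rw [e] at h3
  exact ((h17c_unit_C_iff A _).mp h3).2

variable {A}

theorem h17c_inv_not_mem {x : Kbar} (hx0 : x ≠ 0) (hx : x ∈ A.nonunits) : x⁻¹ ∉ A := by
  intro h
  rw [ValuationSubring.mem_nonunits_iff] at hx
  have h1 : A.valuation x⁻¹ ≤ 1 := (A.valuation_le_one_iff _).mpr h
  rw [map_inv₀] at h1
  have h0 : A.valuation x ≠ 0 := (map_ne_zero A.valuation).mpr hx0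
  have h2 : 1 ≤ A.valuation x := by
    have := (inv_le_one₀ (zero_lt_iff.mpr h0)).mp h1
    exact this
  exact absurd hx (not_lt.mpr h2)

/-- `q ^ i` is a unit of `A` only for `i = 0`. -/
theorem h17c_zpow_unit {q : ℕ} (hq : q.Prime) (hA : A.LiesOverPrime q) {i : ℤ}
    (h : ((q : ℕ) : Kbar) ^ i ∈ A ∧ (((q : ℕ) : Kbar) ^ i)⁻¹ ∈ A) : i = 0 := by
  by_contra hi
  have hq0 : ((q : ℕ) : Kbar) ≠ 0 := Nat.cast_ne_zero.mpr hq.ne_zero
  rcases lt_or_gt_of_ne hi with hlt | hgt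
  · have h1 : ((q : ℕ) : Kbar) ^ (-i) ∈ A.nonunits :=
      Soft.natCast_zpow_mem_nonunits A hA (by omega)
    have h2 := h17c_inv_not_mem (zpow_ne_zero _ hq0) h1
    rw [zpow_neg, inv_inv] at h2
    exact h2 h.1
  · have h1 : ((q : ℕ) : Kbar) ^ i ∈ A.nonunits :=
      Soft.natCast_zpow_mem_nonunits A hA hgt
    exact h17c_inv_not_mem (zpow_ne_zero _ hq0) h1 h.2

/-- comparison of two normalisations by powers of `q`. -/
theorem h17c_exp_eq {q : ℕ} (hq : q.Prime) (hA : A.LiesOverPrime q) {i j : ℤ}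
    {s : LaurentSeries Kbar}
    (h1 : h20v_Unit A (HahnSeries.C (((q : ℕ) : Kbar) ^ i) * s))
    (h2 : h20v_Unit A (HahnSeries.C (((q : ℕ) : Kbar) ^ j) * s)) : i = j := by
  have hq0 : ((q : ℕ) : Kbar) ≠ 0 := Nat.cast_ne_zero.mpr hq.ne_zero
  have h3 := h17c_unit_cancel A h1 h2
  rw [← zpow_sub₀ hq0] at h3
  have := h17c_zpow_unit hq hA h3
  omega

/-- products of normalised units. -/
theorem h17c_unit_prod_C {ι : Type*} (S : Finset ι) (c : ι → Kbar)
    (f : ι → LaurentSeries Kbar) (n : ℤ)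
    (h : ∀ i ∈ S, h20v_Unit A (HahnSeries.C (c i ^ n) * f i)) :
    h20v_Unit A (HahnSeries.C ((∏ i ∈ S, c i) ^ n) * ∏ i ∈ S, f i) := by
  have h1 := h17c_unit_prod A S _ h
  rw [Finset.prod_mul_distrib, ← map_prod, Finset.prod_zpow] at h1
  exact h1

/-! ## Transport of units -/

variable (A)

theorem h17c_unit_qExpand (n : ℕ) [NeZero n] {s : LaurentSeries Kbar} (hs : h20v_Unit A s) :
    h20v_Unit A (qExpand Kbar n s) :=
  ⟨(map_ne_zero (qExpand Kbar n)).mpr hs.1,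
    Soft.mem_softOT_qExpand A (IsLocalRing.residue A) n hs.2.1, by
    rw [← map_inv₀]
    exact Soft.mem_softOT_qExpand A (IsLocalRing.residue A) n hs.2.2⟩

theorem h17c_qExpand_C (n : ℕ) [NeZero n] (c : Kbar) :
    qExpand Kbar n (HahnSeries.C c : LaurentSeries Kbar) = HahnSeries.C c := by
  rw [HahnSeries.C_apply, qExpand_single, mul_zero]

theorem h17c_unit_twist {ω : Kbar} (hωA : ω ∈ A) (hωA' : ω⁻¹ ∈ A) (hω0 : ω ≠ 0)
    {s : LaurentSeries Kbar} (hs : h20v_Unit A s) : h20v_Unit A (twistK ω s) := by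
  let ωu : Aˣ :=
    { val := ⟨ω, hωA⟩
      inv := ⟨ω⁻¹, hωA'⟩
      val_inv := Subtype.ext (mul_inv_cancel₀ hω0)
      inv_val := Subtype.ext (inv_mul_cancel₀ hω0) }
  have h1 : twistK ω s ∈ h20v_G A :=
    Fermat.Agent.LGC.h44r_twistK_mem_softOT (A := A) (π := IsLocalRing.residue A) ωu hs.2.1
  have h2 : twistK ω s⁻¹ ∈ h20v_G A :=
    Fermat.Agent.LGC.h44r_twistK_mem_softOT (A := A) (π := IsLocalRing.residue A) ωu hs.2.2
  have e : (twistK ω s)⁻¹ = twistK ω s⁻¹ :=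
    (map_inv₀ (Fermat.Agent.Red.Kron.twistHom ω hω0) s).symm
  refine ⟨?_, h1, ?_⟩
  · exact (map_ne_zero (Fermat.Agent.Red.Kron.twistHom ω hω0)).mpr hs.1
  · rw [e]
    exact h2

theorem h17c_twist_C_mul {ω : Kbar} (hω0 : ω ≠ 0) (c : Kbar) (s : LaurentSeries Kbar) :
    twistK ω (HahnSeries.C c * s) = HahnSeries.C c * twistK ω s := by
  rw [Fermat.Agent.Red.Kron.twistK_mul hω0, Fermat.Agent.Red.Kron.twistK_C]

theorem h17c_unit_coeffMap {σ : GQ} (hσ : σ ∈ A.inertiaSubgroupIn ℚ) {s : LaurentSeries Kbar}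
    (hs : h20v_Unit A s) : h20v_Unit A (coeffMap (σ : Kbar →+* Kbar) s) := by
  have hD := mem_decomp_of_mem_inertia A hσ
  refine ⟨(map_ne_zero (coeffMap (σ : Kbar →+* Kbar))).mpr hs.1,
    Soft.mem_softOT_coeffMap (σ : Kbar →+* Kbar) (decompA A σ hD) (coe_decompA A σ hD)
      (decompK A σ hD) (residue_decompA A σ hD) hs.2.1, ?_⟩
  rw [← map_inv₀]
  exact Soft.mem_softOT_coeffMap (σ : Kbar →+* Kbar) (decompA A σ hD) (coe_decompA A σ hD)
      (decompK A σ hD) (residue_decompA A σ hD) hs.2.2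

/-- roots of unity are units of `A`. -/
theorem h17c_root_mem {ω : Kbar} {n : ℕ} (hn : 0 < n) (hω : ω ^ n = 1) :
    ω ∈ A ∧ ω⁻¹ ∈ A ∧ ω ≠ 0 := by
  obtain ⟨k, rfl⟩ : ∃ k, n = k + 1 := ⟨n - 1, by omega⟩
  have hω0 : ω ≠ 0 := by
    rintro rfl
    rw [zero_pow hn.ne'] at hω
    exact zero_ne_one hω
  have hinv : ω⁻¹ = ω ^ k := by
    rw [pow_succ] at hω
    exact (eq_inv_of_mul_eq_one_left hω).symm
  have hωA : ω ∈ A := by
    rcases A.mem_or_inv_mem ω with h | h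
    · exact h
    · have : ω = (ω⁻¹) ^ k := by
        rw [inv_pow, ← hinv, inv_inv]
      rw [this]
      exact pow_mem h k
  refine ⟨hωA, ?_, hω0⟩
  rw [hinv]
  exact pow_mem hωA k

/-- twisting a normalised unit by a root of unity. -/
theorem h17c_unit_twist_C {ω : Kbar} {n : ℕ} (hn : 0 < n) (hω : ω ^ n = 1) (c : Kbar)
    {s : LaurentSeries Kbar} (hs : h20v_Unit A (HahnSeries.C c * s)) :
    h20v_Unit A (HahnSeries.C c * twistK ω s) := by
  obtain ⟨h1, h2, h0⟩ := h17c_root_mem A hn hω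
  have := h17c_unit_twist A h1 h2 h0 hs
  rwa [h17c_twist_C_mul h0] at this

/-- the expansion of a constant multiple. -/
theorem h17c_coe_cst_mul (N : ℕ) (c : Kbar) (x : FF N) :
    ((cst N c * x : FF N) : LaurentSeries Kbar) = HahnSeries.C c * (x : LaurentSeries Kbar) := by
  show ((cst N c : FF N) : LaurentSeries Kbar) * (x : LaurentSeries Kbar) = _
  rw [Soft.soft_coe_cst]

/-- a unit of the Gauss valuation ring of `FF N` is a Gauss unit. -/
theorem h17c_unit_of_softV (N : ℕ) {x : FF N} (hx0 : x ≠ 0) (h1 : x ∈ softV A N)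
    (h2 : x⁻¹ ∈ softV A N) : h20v_Unit A (x : LaurentSeries Kbar) :=
  ⟨fun h => hx0 (Subtype.ext h), h1, h2⟩

end Units

/-! ## Norms and the Galois action -/

section Norm

variable {K F F' : Type*} [Field K] [Field F] [Field F'] [Algebra K F] [Algebra K F']

/-- the norm along `φ` commutes with semilinear automorphisms which commute with `φ`. -/
theorem h17c_gal_norm (φ : F →ₐ[K] F') (g : SemilinearAut K F) (g' : SemilinearAut K F')
    (h : SemilinearAut.IntertwinesAlong (φ : F →+* F') g g') (y : F') :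
    g • normAlong φ y = normAlong φ (g' • y) := by
  unfold normAlong
  letI := algebraAlong φ
  have he : RingHom.comp (algebraMap F F') (↑(SemilinearAut.toRingAut g) : F →+* F) =
      RingHom.comp (↑(SemilinearAut.toRingAut g') : F' →+* F') (algebraMap F F') := by
    ext x
    exact (h x).symm
  have h1 := Algebra.norm_eq_of_equiv_equiv (SemilinearAut.toRingAut g)
    (SemilinearAut.toRingAut g') he y
  rw [h1]
  exact (SemilinearAut.toRingAut g).apply_symm_apply _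

end Norm

/-! ## Cyclotomic products -/

theorem h17c_prod_one_sub {q : ℕ} (hq : q.Prime) {ζ : Kbar} (hζ : IsPrimitiveRoot ζ q) :
    ∏ b ∈ Finset.Ioo 0 q, (1 - ζ ^ b) = ((q : ℕ) : Kbar) := by
  obtain ⟨n, rfl⟩ : ∃ n, q = n + 1 := ⟨q - 1, by have := hq.pos; omega⟩
  have h := IsPrimitiveRoot.prod_one_sub_pow_eq_order hζ
  rw [Nat.cast_add, Nat.cast_one, ← h]
  refine Finset.prod_nbij' (fun b => b - 1) (fun k => k + 1) ?_ ?_ ?_ ?_ ?_
  · intro b hb
    rw [Finset.mem_Ioo] at hb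
    rw [Finset.mem_range]
    omega
  · intro k hk
    rw [Finset.mem_range] at hk
    rw [Finset.mem_Ioo]
    omega
  · intro b hb
    rw [Finset.mem_Ioo] at hb
    show b - 1 + 1 = b
    omega
  · intro k _
    show k + 1 - 1 = k
    omega
  · intro b hb
    rw [Finset.mem_Ioo] at hb
    show 1 - ζ ^ b = 1 - ζ ^ (b - 1 + 1)
    rw [Nat.sub_add_cancel hb.1]

theorem h17c_prod_one_sub_rev {q : ℕ} (hq : q.Prime) {ζ : Kbar} (hζ : IsPrimitiveRoot ζ q) :
    ∏ b ∈ Finset.Ioo 0 q, (1 - ζ ^ (q - b)) = ((q : ℕ) : Kbar) := by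
  rw [← h17c_prod_one_sub hq hζ]
  refine Finset.prod_nbij' (fun b => q - b) (fun b => q - b) ?_ ?_ ?_ ?_ ?_
  · intro b hb
    rw [Finset.mem_Ioo] at hb ⊢
    omega
  · intro b hb
    rw [Finset.mem_Ioo] at hb ⊢
    omega
  · intro b hb
    rw [Finset.mem_Ioo] at hb
    show q - (q - b) = b
    omega
  · intro b hb
    rw [Finset.mem_Ioo] at hb
    show q - (q - b) = b
    omega
  · intro b _
    rfl

/-! ## The level `M q q` -/

section Level

variable (M q : ℕ) [NeZero M] [NeZero q]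

/-- An embedding of type `E02` is the identity on the constants. -/
theorem h17c_E02_cst (hq : q.Prime) (hqM : ¬ q ∣ M)
    (E : FF (M * q * q) →+* LaurentSeries Kbar) (hE : h20n_IsE02 M q hq hqM E) (c : Kbar) :
    E (cst (M * q * q) c) = HahnSeries.C c := by
  have h1 : cst (M * q * q) c = heckeBetaBar Kbar (M * q) q (cst (M * q) c) :=
    ((heckeBetaBar Kbar (M * q) q).commutes c).symm
  have h2 : kFricke M q hq hqM (cst (M * q) c) = cst (M * q) c :=
    (kFricke M q hq hqM).commutes c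
  rw [h1, hE.2, h2]
  exact Soft.soft_coe_cst (M * q) c

theorem h17c_gal_cst (N : ℕ) (σ : GQ) (c : Kbar) : gal N σ • cst N c = cst N (σ c) := by
  rw [SemilinearAut.smul_algebraMap, baseAut_arithmeticGalois]
  rfl

/-- the conjugate embeddings `E11^{ζ^b}` have the same valuation on `F₀`. -/
theorem h17c_conj (hq : q.Prime) (hqM : ¬ q ∣ M) (A : ValuationSubring Kbar)
    (hA : A.LiesOverPrime q) {ζ : Kbar} (hζ : IsPrimitiveRoot ζ q)
    {E11 : FF (M * q * q) →+* LaurentSeries Kbar} (hE11 : h20n_IsE11 M q hq hqM ζ E11)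
    {u : FF (M * q * q)} (hu : u ∈ h92c_F0 A (M * q * q)) {n : ℤ}
    (hval : h20v_Unit A (E11 (cst (M * q * q) ((1 - ζ) ^ n) * u)))
    {b : ℕ} (hb0 : 0 < b) (hbq : b < q)
    {E' : FF (M * q * q) →+* LaurentSeries Kbar} (hE' : h20n_IsE11 M q hq hqM (ζ ^ b) E') :
    h20v_Unit A (HahnSeries.C ((1 - ζ ^ b) ^ n) * E' u) := by
  have hprim : IsPrimitiveRoot (ζ ^ b) q :=
    hζ.pow_of_coprime b
      ((Nat.coprime_comm.mp ((Nat.Prime.coprime_iff_not_dvd hq).mpr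
        (Nat.not_dvd_of_pos_of_lt hb0 hbq))))
  obtain ⟨σ, hσ, hσζ⟩ := h23t_H20Cyc q hq A hA ζ (ζ ^ b) hζ hprim
  have hE'' : h20n_IsE11 M q hq hqM (σ ζ) E' := by
    rw [hσζ]
    exact hE'
  have h1 := ((h83g_embGal h20n_embUnique) q hq M hqM σ).1 ζ E11 E' hE11 hE''
    (cst (M * q * q) ((1 - ζ) ^ n) * u)
  have h2 : gal (M * q * q) σ • (cst (M * q * q) ((1 - ζ) ^ n) * u) =
      cst (M * q * q) ((1 - ζ ^ b) ^ n) * u := by
    rw [smul_mul', hu σ hσ, h17c_gal_cst, map_zpow₀, map_sub, map_one, hσζ]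
  rw [h2, map_mul, h49r_E11_cst M q hq hqM (σ ζ) E' hE'' _] at h1
  rw [h1]
  exact h17c_unit_coeffMap A hσ hval

/-- **The norms at the level `M q`.**  An `I`-fixed `m`-th power `X ≠ 0` of `FF (M q)` has
valuations `e` at `∞` and `e'` at `0` with `e ≡ e'` modulo `m`. -/
theorem h17c_pow_norm (hq : q.Prime) (hqM : ¬ q ∣ M) (A : ValuationSubring Kbar)
    (hA : A.LiesOverPrime q) (m : ℕ) (X : FF (M * q)) (hX0 : X ≠ 0)
    (hXF : X ∈ h92c_F0 A (M * q)) (hXpow : ∃ h : FF (M * q), X = h ^ m) :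
    ∃ e e' : ℤ, (m : ℤ) ∣ e - e' ∧
      h20v_Unit A (HahnSeries.C (((q : ℕ) : Kbar) ^ e) * (X : LaurentSeries Kbar)) ∧
      h20v_Unit A (HahnSeries.C (((q : ℕ) : Kbar) ^ e') *
        ((kFricke M q hq hqM X : FF (M * q)) : LaurentSeries Kbar)) := by
  have hq0 : ((q : ℕ) : Kbar) ≠ 0 := Nat.cast_ne_zero.mpr hq.ne_zero
  obtain ⟨h, hh⟩ := hXpow
  obtain ⟨c', g', hc', hg', hX⟩ := h55p_descPow (M * q) (A.inertiaSubgroupIn ℚ) m X h 1 hX0 hXF
    (by
      show X = algebraMap Kbar (FF (M * q)) 1 * h ^ m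
      rw [map_one, one_mul]; exact hh)
  have hc0 : c' ≠ 0 := by
    rintro rfl
    have hX' : X = algebraMap Kbar (FF (M * q)) 0 * g' ^ m := hX
    rw [map_zero, zero_mul] at hX'
    exact hX0 hX'
  obtain ⟨g, hg0, hgF, hXg⟩ : ∃ g : FF (M * q), g ≠ 0 ∧ g ∈ h92c_F0 A (M * q) ∧
      X = cst (M * q) c' * g ^ m := by
    by_cases hg0 : g' = 0
    · refine ⟨1, one_ne_zero, one_mem _, ?_⟩
      have hm : m = 0 := by
        by_contra hm
        rw [hg0, zero_pow hm, mul_zero] at hX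
        exact hX0 hX
      rw [hX, hm, pow_zero, pow_zero]
    · exact ⟨g', hg0, hg', hX⟩
  obtain ⟨a, ha1, ha2⟩ := h23u_exists_zpow hq A hA hc0 hc'
  have hca0 : c' / ((q : ℕ) : Kbar) ^ a ≠ 0 := div_ne_zero hc0 (zpow_ne_zero _ hq0)
  have hUc : h20v_Unit A (HahnSeries.C (c' / ((q : ℕ) : Kbar) ^ a)) :=
    (h17c_unit_C_iff A _).mpr ⟨hca0, ha1, ha2⟩
  have hunit : ∀ (Z y : FF (M * q)), y ≠ 0 → y ∈ h92c_F0 A (M * q) →
      Z = cst (M * q) c' * y ^ m → ∃ k : ℤ,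
        h20v_Unit A (HahnSeries.C (((q : ℕ) : Kbar) ^ (k * m - a)) * (Z : LaurentSeries Kbar)) := by
    intro Z y hy0 hyF hZ
    obtain ⟨k, hk1, hk2⟩ := V28.h28v_exists_zpow A (M * q) hq hA y hy0 hyF
    have hky0 : cst (M * q) (((q : ℕ) : Kbar) ^ k) * y ≠ 0 :=
      mul_ne_zero ((map_ne_zero _).mpr (zpow_ne_zero _ hq0)) hy0
    have hUy := h17c_unit_of_softV A (M * q) hky0 hk1 hk2
    rw [h17c_coe_cst_mul] at hUy
    refine ⟨k, ?_⟩
    have hcoe : (Z : LaurentSeries Kbar) =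
        HahnSeries.C c' * (y : LaurentSeries Kbar) ^ m := by
      rw [hZ, h17c_coe_cst_mul]
      rfl
    have key : HahnSeries.C (((q : ℕ) : Kbar) ^ (k * m - a)) * (Z : LaurentSeries Kbar) =
        HahnSeries.C (c' / ((q : ℕ) : Kbar) ^ a) *
          (HahnSeries.C (((q : ℕ) : Kbar) ^ k) * (y : LaurentSeries Kbar)) ^ m := by
      rw [hcoe, mul_pow, ← map_pow, ← mul_assoc, ← mul_assoc, ← h17c_C_mul, ← h17c_C_mul]
      congr 2
      rw [zpow_sub₀ hq0, zpow_mul, zpow_natCast]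
      field_simp
    rw [key]
    exact h17c_unit_mul A hUc (h17c_unit_pow A hUy m)
  have hwg0 : kFricke M q hq hqM g ≠ 0 := (map_ne_zero _).mpr hg0
  have hwgF : kFricke M q hq hqM g ∈ h92c_F0 A (M * q) := by
    intro σ hσ
    rw [← Fermat.Agent.Red.Kron.kFricke_gal, hgF σ hσ]
  have hwX : kFricke M q hq hqM X = cst (M * q) c' * (kFricke M q hq hqM g) ^ m := by
    rw [hXg, map_mul, map_pow]
    congr 1
    exact (kFricke M q hq hqM).commutes c'
  obtain ⟨k, hk⟩ := hunit X g hg0 hgF hXg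
  obtain ⟨k', hk'⟩ := hunit _ _ hwg0 hwgF hwX
  refine ⟨k * m - a, k' * m - a, ⟨k - k', by ring⟩, hk, hk'⟩

/-- the standard expansion of a normalised function. -/
theorem h17c_E20_unit (A : ValuationSubring Kbar) (c : Kbar) (u : FF (M * q * q))
    (h : h20v_Unit A (h20n_E20 M q (cst (M * q * q) c * u))) :
    h20v_Unit A (HahnSeries.C c * (u : LaurentSeries Kbar)) := by
  rw [← h17c_coe_cst_mul]
  exact h

/-- a power of a power of `q`. -/
theorem h17c_zpow_pow (n : ℤ) :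
    (∏ _b ∈ Finset.range q, ((q : ℕ) : Kbar)) ^ n = ((q : ℕ) : Kbar) ^ ((q : ℤ) * n) := by
  rw [Finset.prod_const, Finset.card_range, zpow_mul, zpow_natCast]

end Level

/-! ## The component group -/

/-- **(L3) N1-VAL.** -/
theorem h17c_compGroup : H20CompGroup := by
  intro q hq M _ hqM _
  have hq0' : NeZero q := ⟨hq.ne_zero⟩
  intro A hA ζ E11 E02 hT m u hu hu0 hNP n₂₀ n₁₁ n₀₂ hval
  obtain ⟨hv20, hv11, hv02⟩ := hval
  have hζ : IsPrimitiveRoot ζ q := hT.prim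
  have hE11 : h20n_IsE11 M q hq hqM ζ E11 := hT.e11
  have hE02 : h20n_IsE02 M q hq hqM E02 := hT.e02
  have hqK : ((q : ℕ) : Kbar) ≠ 0 := Nat.cast_ne_zero.mpr hq.ne_zero
  obtain ⟨hE11ex, -⟩ := h20n_embExists q hq M hqM
  have hprim : ∀ b : ℕ, 0 < b → b < q → IsPrimitiveRoot (ζ ^ b) q := fun b hb0 hbq =>
    hζ.pow_of_coprime b
      ((Nat.coprime_comm.mp ((Nat.Prime.coprime_iff_not_dvd hq).mpr
        (Nat.not_dvd_of_pos_of_lt hb0 hbq))))
  -- the family of embeddings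
  have hfam : ∀ b : ℕ, ∃ E' : FF (M * q * q) →+* LaurentSeries Kbar,
      (0 < b → b < q → h20n_IsE11 M q hq hqM (ζ ^ b) E') := by
    intro b
    by_cases hb : 0 < b ∧ b < q
    · obtain ⟨E', hE'⟩ := hE11ex (ζ ^ b) ((hprim b hb.1 hb.2).pow_eq_one)
        ((hprim b hb.1 hb.2).ne_one hq.one_lt)
      exact ⟨E', fun _ _ => hE'⟩
    · exact ⟨E11, fun h0 hq' => absurd ⟨h0, hq'⟩ hb⟩
  choose Efam hEfam using hfam
  have hconj : ∀ b : ℕ, 0 < b → b < q →
      h20v_Unit A (HahnSeries.C ((1 - ζ ^ b) ^ n₁₁) * Efam b u) := fun b hb0 hbq =>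
    h17c_conj M q hq hqM A hA hζ hE11 hu hv11 hb0 hbq (hEfam b hb0 hbq)
  have hU20 : h20v_Unit A (HahnSeries.C (((q : ℕ) : Kbar) ^ n₂₀) * (u : LaurentSeries Kbar)) :=
    h17c_E20_unit M q A _ u hv20
  have hU02 : h20v_Unit A (HahnSeries.C (((q : ℕ) : Kbar) ^ n₀₂) * E02 u) := by
    rw [map_mul, h17c_E02_cst M q hq hqM E02 hE02] at hv02
    exact hv02
  have hζpow : ∀ b : ℕ, (ζ ^ b) ^ q = 1 := by
    intro b
    rw [← pow_mul, mul_comm, pow_mul, hζ.pow_eq_one, one_pow]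
  -- the norms
  have hX0 : normAlong (heckeAlphaBar Kbar (M * q) q) u ≠ 0 := h92c_norm_ne_zero _ hu0
  have hY0 : normAlong (heckeBetaBar Kbar (M * q) q) u ≠ 0 := h92c_norm_ne_zero _ hu0
  have hXF : normAlong (heckeAlphaBar Kbar (M * q) q) u ∈ h92c_F0 A (M * q) := by
    intro σ hσ
    rw [h17c_gal_norm (heckeAlphaBar Kbar (M * q) q) (gal (M * q) σ) (gal (M * q * q) σ)
      (Fermat.Agent.Red.HKGal.intertwines_heckeAlphaBar (M * q) q σ) u, hu σ hσ]
  have hYF : normAlong (heckeBetaBar Kbar (M * q) q) u ∈ h92c_F0 A (M * q) := by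
    intro σ hσ
    rw [h17c_gal_norm (heckeBetaBar Kbar (M * q) q) (gal (M * q) σ) (gal (M * q * q) σ)
      (Fermat.Agent.Red.HKGal.intertwines_heckeBetaBar (M * q) q σ) u, hu σ hσ]
  obtain ⟨e, e', hee', hXe, hXe'⟩ := h17c_pow_norm M q hq hqM A hA m _ hX0 hXF hNP.1
  obtain ⟨f, f', hff', hYf, hYf'⟩ := h17c_pow_norm M q hq hqM A hA m _ hY0 hYF hNP.2
  -- (a)
  have hA1 : h20v_Unit A (HahnSeries.C (((q : ℕ) : Kbar) ^ (n₂₀ + n₁₁)) *
      ((normAlong (heckeAlphaBar Kbar (M * q) q) u : FF (M * q)) : LaurentSeries Kbar)) := by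
    have hN := h40na_normA q hq M hqM ζ hζ Efam hEfam u
    have hP := h17c_unit_prod_C (A := A) (Finset.Ioo 0 q) (fun b => 1 - ζ ^ b)
      (fun b => Efam b u) n₁₁ (fun b hb => by
        rw [Finset.mem_Ioo] at hb
        exact hconj b hb.1 hb.2)
    rw [h17c_prod_one_sub hq hζ] at hP
    have h1 := h17c_unit_mul A hU20 hP
    have e1 : HahnSeries.C (((q : ℕ) : Kbar) ^ (n₂₀ + n₁₁)) *
        ((normAlong (heckeAlphaBar Kbar (M * q) q) u : FF (M * q)) : LaurentSeries Kbar) =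
        HahnSeries.C (((q : ℕ) : Kbar) ^ n₂₀) * (u : LaurentSeries Kbar) *
          (HahnSeries.C (((q : ℕ) : Kbar) ^ n₁₁) * ∏ b ∈ Finset.Ioo 0 q, Efam b u) := by
      rw [hN, zpow_add₀ hqK, h17c_C_mul]
      ring
    rw [e1]
    exact h1
  have eq1 : n₂₀ + n₁₁ = e := h17c_exp_eq hq hA hA1 hXe
  -- (d)
  have hD1 : h20v_Unit A (HahnSeries.C (((q : ℕ) : Kbar) ^ ((q : ℤ) * n₀₂)) *
      qExpand Kbar q ((kFricke M q hq hqM (normAlong (heckeAlphaBar Kbar (M * q) q) u) :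
        FF (M * q)) : LaurentSeries Kbar)) := by
    have hN := h93n_normD q hq M hqM ζ hζ E02 hE02 u
    have hP := h17c_unit_prod_C (A := A) (Finset.range q) (fun _ => ((q : ℕ) : Kbar))
      (fun b => twistK (ζ ^ b) (E02 u)) n₀₂ (fun b _ =>
        h17c_unit_twist_C A hq.pos (hζpow b) _ hU02)
    rw [h17c_zpow_pow] at hP
    rw [hN]
    exact hP
  have hD2 : h20v_Unit A (HahnSeries.C (((q : ℕ) : Kbar) ^ e') *
      qExpand Kbar q ((kFricke M q hq hqM (normAlong (heckeAlphaBar Kbar (M * q) q) u) :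
        FF (M * q)) : LaurentSeries Kbar)) := by
    have h1 := h17c_unit_qExpand A q hXe'
    rwa [map_mul, h17c_qExpand_C] at h1
  have eq2 : (q : ℤ) * n₀₂ = e' := h17c_exp_eq hq hA hD1 hD2
  -- (b)
  have hB1 : h20v_Unit A (HahnSeries.C (((q : ℕ) : Kbar) ^ ((q : ℤ) * n₂₀)) *
      qExpand Kbar q ((normAlong (heckeBetaBar Kbar (M * q) q) u : FF (M * q)) :
        LaurentSeries Kbar)) := by
    have hN := h71m_normB q hq (M * q) (dvd_mul_left q M) ζ hζ u
    have hP := h17c_unit_prod_C (A := A) (Finset.range q) (fun _ => ((q : ℕ) : Kbar))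
      (fun b => twistK (ζ ^ b) (u : LaurentSeries Kbar)) n₂₀ (fun b _ =>
        h17c_unit_twist_C A hq.pos (hζpow b) _ hU20)
    rw [h17c_zpow_pow] at hP
    rw [hN]
    exact hP
  have hB2 : h20v_Unit A (HahnSeries.C (((q : ℕ) : Kbar) ^ f) *
      qExpand Kbar q ((normAlong (heckeBetaBar Kbar (M * q) q) u : FF (M * q)) :
        LaurentSeries Kbar)) := by
    have h1 := h17c_unit_qExpand A q hYf
    rwa [map_mul, h17c_qExpand_C] at h1
  have eq3 : (q : ℤ) * n₂₀ = f := h17c_exp_eq hq hA hB1 hB2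
  -- (c)
  have hC1 : h20v_Unit A (HahnSeries.C (((q : ℕ) : Kbar) ^ (n₀₂ + n₁₁)) *
      ((kFricke M q hq hqM (normAlong (heckeBetaBar Kbar (M * q) q) u) : FF (M * q)) :
        LaurentSeries Kbar)) := by
    have hN := h40nc_normC q hq M hqM ζ hζ E02 hE02 Efam hEfam u
    have hP := h17c_unit_prod_C (A := A) (Finset.Ioo 0 q) (fun b => 1 - ζ ^ (q - b))
      (fun b => twistK (ζ ^ b) (Efam (q - b) u)) n₁₁ (fun b hb => by
        rw [Finset.mem_Ioo] at hb
        exact h17c_unit_twist_C A hq.pos (hζpow b) _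
          (hconj (q - b) (by omega) (by omega)))
    rw [h17c_prod_one_sub_rev hq hζ] at hP
    have h1 := h17c_unit_mul A hU02 hP
    have e1 : HahnSeries.C (((q : ℕ) : Kbar) ^ (n₀₂ + n₁₁)) *
        ((kFricke M q hq hqM (normAlong (heckeBetaBar Kbar (M * q) q) u) : FF (M * q)) :
          LaurentSeries Kbar) =
        HahnSeries.C (((q : ℕ) : Kbar) ^ n₀₂) * E02 u *
          (HahnSeries.C (((q : ℕ) : Kbar) ^ n₁₁) *
            ∏ b ∈ Finset.Ioo 0 q, twistK (ζ ^ b) (Efam (q - b) u)) := by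
      rw [hN, zpow_add₀ hqK, h17c_C_mul]
      ring
    rw [e1]
    exact h1
  have eq4 : n₀₂ + n₁₁ = f' := h17c_exp_eq hq hA hC1 hYf'
  constructor
  · have : n₂₀ + n₁₁ - (q : ℤ) * n₀₂ = e - e' := by rw [eq1, eq2]
    rw [this]
    exact hee'
  · have : (q : ℤ) * n₂₀ - (n₁₁ + n₀₂) = f - f' := by rw [eq3, ← eq4]; ring
    rw [this]
    exact hff'

end Fermat.Agent.S36
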