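import Fermat.Agent.S36.H20NormSkel
import Fermat.Agent.Red.ESTF.Cong

/-!
# S36, block (N), leaf N-FROB (helper43): `(σ y)(t^q) ≡ c · y(t)^q` for a Frobenius `σ`

`h43f_frob : H20Frob` (the frozen interface of `S36/H20NormSkel.lean`), unconditional.

Proof: scale `y = c₀⁻¹ a / b` with `a, b ∈ A((t))` of nonzero reduction
(`Red.GV.Soft.exists_scale_FF`); then `(σ a)(t^q)` reduces to `ā(t)^q` (Frobenius acts as the
`q`-th power on the residue field, freshman's dream `h76_pow_char_eq_qExpand`), the same for `b`,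
and `c = σ c₀ / c₀ ^ q`.

* `h43f_series` : the series form for `Y = c₀⁻¹ a / b` (any series, not only modular functions).
-/

set_option autoImplicit false

open ModularCurve AlgebraicCurve

noncomputable section

namespace Fermat.Agent.S36

open Fermat.Agent.S37 (Kbar GQ FF cst gal)
open Fermat.Agent.Red.GV
open Fermat.Agent.Red.ESTF

/-- **N-FROB, series form.**  If `C c₀ · Y = a / b` with `a, b ∈ A((t))` of nonzero reduction,
then `C (σ c₀ / c₀ ^ q) · (σ Y)(t^q) / Y ^ q ≡ 1` for a Frobenius `σ` at `A`. -/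
theorem h43f_series (q : ℕ) (hq : q.Prime) (A : ValuationSubring Kbar) (hA : A.LiesOverPrime q)
    (σ : GQ) (hσ : A.IsFrobeniusAt σ q) (Y : LaurentSeries Kbar) (hY : Y ≠ 0)
    (c₀ : Kbar) (hc₀ : c₀ ≠ 0) (a b : LaurentSeries A)
    (ha : redA (IsLocalRing.residue A) a ≠ 0) (hb : redA (IsLocalRing.residue A) b ≠ 0)
    (hab : embA A a = HahnSeries.C c₀ * Y * embA A b) :
    haveI : NeZero q := ⟨hq.ne_zero⟩
    h20n_CongOneS A
      (HahnSeries.C (σ c₀ / c₀ ^ q) * qExpand Kbar q (coeffMap (σ : Kbar →+* Kbar) Y) *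
        (Y ^ q)⁻¹) := by
  have : NeZero q := ⟨hq.ne_zero⟩
  have : Fact q.Prime := ⟨hq⟩
  have hπ := isResidueMap_residue A q hA
  have : CharP (IsLocalRing.ResidueField A) q := Base.h80_charP A _ q hπ
  have : ExpChar (IsLocalRing.ResidueField A) q := ExpChar.prime hq
  have hD := (Fermat.Agent.Bridge.memDecomp A σ).mp hσ.mem_decompositionSubgroup
  have hσA : ∀ x ∈ A, σ x ∈ A := fun x hx => (hD x).mpr hx
  set aσ : LaurentSeries A := qExpand A q (coeffMap (h76_resA A σ hσA) a) with haσ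
  set bσ : LaurentSeries A := qExpand A q (coeffMap (h76_resA A σ hσA) b) with hbσ
  -- reductions
  have hra : redA (IsLocalRing.residue A) aσ = (redA (IsLocalRing.residue A) a) ^ q := by
    rw [h76_pow_char_eq_qExpand, ← h76_redA_resA_frob A hA σ hσ hσA, haσ]
    exact coeffMap_qExpand (IsLocalRing.residue A) q _
  have hrb : redA (IsLocalRing.residue A) bσ = (redA (IsLocalRing.residue A) b) ^ q := by
    rw [h76_pow_char_eq_qExpand, ← h76_redA_resA_frob A hA σ hσ hσA, hbσ]
    exact coeffMap_qExpand (IsLocalRing.residue A) q _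
  -- embeddings
  have hC : ∀ c : Kbar, coeffMap (σ : Kbar →+* Kbar) (HahnSeries.C c) = HahnSeries.C (σ c) := by
    intro c
    simp only [HahnSeries.C_apply, coeffMap_single]
    rfl
  have hqC : ∀ c : Kbar, qExpand Kbar q (HahnSeries.C c) = HahnSeries.C c := by
    intro c
    exact qExpand_C (R := Kbar) (N := q) c
  have hea : embA A aσ = HahnSeries.C (σ c₀) *
      qExpand Kbar q (coeffMap (σ : Kbar →+* Kbar) Y) * embA A bσ := by
    have h1 : embA A aσ = qExpand Kbar q (coeffMap (σ : Kbar →+* Kbar) (embA A a)) := by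
      rw [haσ, ← h76_embA_resA A σ hσA a]
      exact coeffMap_qExpand A.subtype q _
    have h2 : embA A bσ = qExpand Kbar q (coeffMap (σ : Kbar →+* Kbar) (embA A b)) := by
      rw [hbσ, ← h76_embA_resA A σ hσA b]
      exact coeffMap_qExpand A.subtype q _
    rw [h1, h2, hab, map_mul, map_mul, map_mul, map_mul, hC, hqC]
  refine ⟨aσ * b ^ q, a ^ q * bσ, ?_, ?_, ?_⟩
  · show redA (IsLocalRing.residue A) (a ^ q * bσ) ≠ 0
    rw [map_mul, map_pow, hrb]
    exact mul_ne_zero (pow_ne_zero _ ha) (pow_ne_zero _ hb)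
  · show embA A (aσ * b ^ q) = _ * embA A (a ^ q * bσ)
    rw [map_mul, map_mul, map_pow, map_pow, hea, hab]
    have hYq : Y ^ q ≠ 0 := pow_ne_zero _ hY
    have hcq : c₀ ^ q ≠ 0 := pow_ne_zero _ hc₀
    have hCdiv : HahnSeries.C (σ c₀ / c₀ ^ q) * (HahnSeries.C c₀) ^ q
        = (HahnSeries.C (σ c₀) : LaurentSeries Kbar) := by
      rw [← map_pow, ← map_mul, div_mul_cancel₀ _ hcq]
    calc HahnSeries.C (σ c₀) * qExpand Kbar q (coeffMap (σ : Kbar →+* Kbar) Y) * embA A bσ
          * embA A b ^ q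
        = (HahnSeries.C (σ c₀ / c₀ ^ q) * (HahnSeries.C c₀) ^ q)
            * qExpand Kbar q (coeffMap (σ : Kbar →+* Kbar) Y) * ((Y ^ q)⁻¹ * Y ^ q)
            * embA A b ^ q * embA A bσ := by
          rw [hCdiv, inv_mul_cancel₀ hYq]; ring
      _ = HahnSeries.C (σ c₀ / c₀ ^ q) * qExpand Kbar q (coeffMap (σ : Kbar →+* Kbar) Y)
            * (Y ^ q)⁻¹ * ((HahnSeries.C c₀ * Y * embA A b) ^ q * embA A bσ) := by
          ring
  · show redA (IsLocalRing.residue A) (aσ * b ^ q) = redA (IsLocalRing.residue A) (a ^ q * bσ)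
    rw [map_mul, map_mul, map_pow, map_pow, hra, hrb]

/-- **N-FROB** (frozen interface `H20Frob`): `(σ y)(t^q) ≡ c · y(t)^q` for a Frobenius `σ` at
`A` and every nonzero modular function `y` of any level. -/
theorem h43f_frob : H20Frob := by
  intro q hq A hA σ hσ N _ y hy
  obtain ⟨c₀, a, b, hc₀, ha, hb, hab⟩ := Soft.exists_scale_FF A N hq hA y hy
  have hY : (y : LaurentSeries Kbar) ≠ 0 := fun h0 => hy (Subtype.ext h0)
  have hab' : embA A a = HahnSeries.C c₀ * (y : LaurentSeries Kbar) * embA A b := by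
    rw [hab]
    congr 1
    show ((cst N c₀ : FF N) : LaurentSeries Kbar) * (y : LaurentSeries Kbar) = _
    rw [Soft.soft_coe_cst]
  have hcq : c₀ ^ q ≠ 0 := pow_ne_zero _ hc₀
  have hσc : σ c₀ ≠ 0 := by
    intro h
    exact hc₀ ((map_eq_zero σ).mp h)
  refine ⟨σ c₀ / c₀ ^ q, div_ne_zero hσc hcq, ?_⟩
  exact h43f_series q hq A hA σ hσ (y : LaurentSeries Kbar) hY c₀ hc₀ a b ha hb hab'

end Fermat.Agent.S36
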