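import Fermat.Agent.S36.H71NewGateX
import Fermat.Agent.S36.H20VertSkel
import Fermat.Agent.S36.H1Gauss
import Fermat.Agent.S36.H43Frob
import Fermat.Agent.S36.H71NormB
import Fermat.Agent.S36.H16RedD
import Fermat.Agent.S36.H93NormD
import Fermat.Agent.S36.H12EmbDF
import Fermat.Agent.S36.H49RedA
import Fermat.Agent.S36.H20Emb
import Fermat.Agent.S36.H40NormA
import Fermat.Agent.S36.H34Cyc
import Fermat.Agent.S36.V28Fix
import Fermat.Agent.S18.ResAlgClosed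

/-!
# S36, `H92Vert`, leaf (L5) `H20Roots` (helper71): local `m`-th roots in `F₀`

`h71x_roots : H20Roots` (exact frozen Prop of `S36/H20VertSkel.lean`, unconditional).

A new function `u ∈ F₀ = FF(M q q)^I` which is a unit at the three vertical valuations has
local `m`-th roots in `F₀`: `u ≡ g₂₀ ^ m` at `E20`, `u ^ (q-1) ≡ g₁₁ ^ m` at `E11`,
`u ≡ g₀₂ ^ m` at `E02`.

Proof.  `Nm_α u`, `Nm_β u` are fixed by `I` (`h71x_gal_normAlong`), hence
`Nm_α u = c_a g_a ^ m`, `Nm_β u = c_b g_b ^ m` with `g_a, g_b ∈ F₀(M q)` (`h55p_descPow`).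
The explicit toric witnesses of `S36/H71NewGateX.lean` are `α (σ⁻¹ g_b)`, `β (w σ⁻¹ w g_a)`,
`α (g_a / σ⁻¹ g_b)` (`σ` a Frobenius), all images of functions of `F₀(M q)`; on those the Gauss
valuation is discrete with uniformiser `q` (`h28v_exists_zpow`), so the constant of the
congruence is `q ^ n` times a unit of `A`, and the residue of the unit is an `m`-th power of the
residue of an element of `K₀ ∩ A` (the residue field is algebraically closed, and `A₀ → k` is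
onto).
-/

set_option autoImplicit false
set_option linter.style.haveILetI false

open AlgebraicCurve ModularCurve

noncomputable section

namespace Fermat.Agent.S36

open Fermat.Agent.S37 (Kbar GQ FF cst gal auxLevel)
open Fermat.Agent.Red.KR (normAlong)
open Fermat.Agent.Red.Kron (kFricke twistK)
open Fermat.Agent.Red.GV (embA redA)
open Fermat.Agent.Red.GV.Soft

/-! ## The landed leaves of block (N) -/

theorem h71x_redD : H20RedD := h16n_redDAssembly h93n_normD h12e_embDF h1g_twist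

theorem h71x_redA : H20RedA :=
  h49r_redAAssembly h20n_embExists (h83g_embGal h20n_embUnique) h12e_embDF h40na_normA
    h34y_cyc h1g_inert

/-! ## Constants -/

theorem h71x_cst_zero (N : ℕ) : cst N 0 = 0 := map_zero (algebraMap Kbar (FF N))

theorem h71x_cst_one (N : ℕ) : cst N 1 = 1 := map_one (algebraMap Kbar (FF N))

theorem h71x_cst_pow (N : ℕ) (c : Kbar) (n : ℕ) : cst N (c ^ n) = cst N c ^ n :=
  map_pow (algebraMap Kbar (FF N)) c n

theorem h71x_cst_ne_zero (N : ℕ) {c : Kbar} (hc : c ≠ 0) : cst N c ≠ 0 :=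
  (map_ne_zero (algebraMap Kbar (FF N))).2 hc

/-! ## Absorbing the constant -/

section Absorb

variable {q : ℕ}

theorem h71x_cong_ne_zero {A : ValuationSubring Kbar} {s : LaurentSeries Kbar}
    (hs : h20n_CongOneS A s) : s ≠ 0 := by
  intro h0
  obtain ⟨hsG, hs1⟩ := (h64a_cong_iff A s).mp hs
  have : (⟨s, hsG⟩ : softOT A (IsLocalRing.residue A)) = 0 := Subtype.ext h0
  rw [this, map_zero] at hs1
  exact zero_ne_one hs1

theorem h71x_cong_C {A : ValuationSubring Kbar} {c : Kbar} (hc : c ∈ A)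
    (h1 : IsLocalRing.residue A ⟨c, hc⟩ = 1) : h20n_CongOneS A (HahnSeries.C c) := by
  rw [h64a_cong_iff]
  refine ⟨C_mem_softOT A _ ⟨c, hc⟩, ?_⟩
  rw [softRedT_C A _ ⟨c, hc⟩, h1, map_one]

/-- **absorption of the constant** (series form). -/
theorem h71x_absorb (hq : q.Prime) (A : ValuationSubring Kbar) (hA : A.LiesOverPrime q)
    {m : ℕ} (hm : m ≠ 0) {U Y : LaurentSeries Kbar} (hU : h20v_Unit A U)
    (hY : h20v_Unit A Y) {d : Kbar}
    (hcong : h20n_CongOneS A (HahnSeries.C d * U * (Y ^ m)⁻¹)) :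
    ∃ e : Kbar, e ≠ 0 ∧ e ∈ A ∧ (∀ τ ∈ A.inertiaSubgroupIn ℚ, τ e = e) ∧
      h20n_CongOneS A (U * ((HahnSeries.C e * Y) ^ m)⁻¹) := by
  obtain ⟨hsG, -⟩ := (h64a_cong_iff A _).mp hcong
  obtain ⟨hsiG, -⟩ := (h64a_cong_iff A _).mp (h64a_cong_inv hcong)
  have hs0 := h71x_cong_ne_zero hcong
  have hCd0 : (HahnSeries.C d : LaurentSeries Kbar) ≠ 0 :=
    left_ne_zero_of_mul (left_ne_zero_of_mul hs0)
  have hd : d ≠ 0 := by
    rintro rfl
    exact hCd0 (map_zero _)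
  have hU0 : U ≠ 0 := right_ne_zero_of_mul (left_ne_zero_of_mul hs0)
  have hYm0 : (Y ^ m)⁻¹ ≠ 0 := right_ne_zero_of_mul hs0
  have hY0 : Y ≠ 0 := by
    rintro rfl
    rw [zero_pow hm, inv_zero] at hYm0
    exact hYm0 rfl
  have hCd : (HahnSeries.C d : LaurentSeries Kbar) ∈ softOT A (IsLocalRing.residue A) := by
    have e : (HahnSeries.C d : LaurentSeries Kbar) =
        (HahnSeries.C d * U * (Y ^ m)⁻¹) * Y ^ m * U⁻¹ := by
      field_simp
    rw [e]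
    exact mul_mem (mul_mem hsG (pow_mem hY.2.1 m)) hU.2.2
  have hCdi : (HahnSeries.C d⁻¹ : LaurentSeries Kbar) ∈ softOT A (IsLocalRing.residue A) := by
    have e : (HahnSeries.C d⁻¹ : LaurentSeries Kbar) =
        (HahnSeries.C d * U * (Y ^ m)⁻¹)⁻¹ * Y⁻¹ ^ m * U := by
      rw [map_inv₀, inv_pow]
      field_simp
    rw [e]
    exact mul_mem (mul_mem hsiG (pow_mem hY.2.2 m)) hU.2.1
  have hdA : d ∈ A := (C_mem_softOT_iff A _ (residue_eq_zero_of_nonunit A) d).mp hCd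
  have hdiA : d⁻¹ ∈ A := (C_mem_softOT_iff A _ (residue_eq_zero_of_nonunit A) d⁻¹).mp hCdi
  have hr1 : IsLocalRing.residue A ⟨d, hdA⟩ * IsLocalRing.residue A ⟨d⁻¹, hdiA⟩ = 1 := by
    rw [← map_mul]
    have : (⟨d, hdA⟩ * ⟨d⁻¹, hdiA⟩ : A) = 1 := Subtype.ext (mul_inv_cancel₀ hd)
    rw [this, map_one]
  haveI : IsAlgClosed (IsLocalRing.ResidueField A) :=
    Fermat.Agent.S18.h72_residueField_isAlgClosed A
  obtain ⟨ρ, hρ⟩ := IsAlgClosed.exists_pow_nat_eq (IsLocalRing.residue A ⟨d⁻¹, hdiA⟩)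
    (Nat.pos_of_ne_zero hm)
  obtain ⟨a, ha⟩ := IsLocalRing.residue_surjective (R := A) ρ
  obtain ⟨e, heA, hefix, hae⟩ := h23u_residue hq A hA a.2
  have hres : IsLocalRing.residue A ⟨e, heA⟩ = ρ := by
    rw [← ha]
    symm
    rw [← sub_eq_zero, ← map_sub]
    exact residue_eq_zero_of_nonunit A (a - ⟨e, heA⟩) hae
  have hρ0 : ρ ≠ 0 := by
    rintro rfl
    rw [zero_pow hm] at hρ
    rw [← hρ, mul_zero] at hr1
    exact zero_ne_one hr1
  have he0 : e ≠ 0 := by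
    rintro rfl
    apply hρ0
    rw [← hres]
    have : (⟨0, heA⟩ : A) = 0 := rfl
    rw [this, map_zero]
  refine ⟨e, he0, heA, hefix, ?_⟩
  have hc1 : h20n_CongOneS A (HahnSeries.C (d * e ^ m)) := by
    have hmem : d * e ^ m ∈ A := A.mul_mem _ _ hdA (pow_mem heA m)
    refine h71x_cong_C hmem ?_
    have : (⟨d * e ^ m, hmem⟩ : A) = ⟨d, hdA⟩ * ⟨e, heA⟩ ^ m := rfl
    rw [this, map_mul, map_pow, hres, hρ, hr1]
  refine h64a_cong_of_eq (h64a_cong_mul hcong (h64a_cong_inv hc1)) ?_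
  have hCe0 : (HahnSeries.C e : LaurentSeries Kbar) ≠ 0 := (map_ne_zero _).2 he0
  rw [map_mul, map_pow, mul_pow]
  field_simp

/-- a function of `softV` with inverse in `softV` has a Gauss unit as `q`-expansion. -/
theorem h71x_unit_of_softV (A : ValuationSubring Kbar) (N : ℕ) {x : FF N} (hx0 : x ≠ 0)
    (hx : x ∈ Fermat.Agent.Red.GV.Soft.softV A N) (hxi : x⁻¹ ∈ Fermat.Agent.Red.GV.Soft.softV A N) :
    h20v_Unit A (x : LaurentSeries Kbar) :=
  ⟨h64a_coe_ne_zero N hx0, hx, hxi⟩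

/-- **absorption of the constant** (function form): if `d · U ≡ (c₀ · y) ^ m` with `U` a Gauss
unit and `y` a nonzero function of level `N` fixed by inertia, then `U ≡ Y ^ m` for a nonzero
function `Y` of level `N` fixed by inertia. -/
theorem h71x_absorb_level (hq : q.Prime) (A : ValuationSubring Kbar) (hA : A.LiesOverPrime q)
    {m : ℕ} (hm : m ≠ 0) (N : ℕ) [NeZero N] {U : LaurentSeries Kbar} (hU : h20v_Unit A U)
    {y : FF N} (hy0 : y ≠ 0) (hyF : y ∈ h92c_F0 A N) {c₀ d : Kbar} (hc₀ : c₀ ≠ 0)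
    (hcong : h20n_CongOneS A
      (HahnSeries.C d * U * ((HahnSeries.C c₀ * (y : LaurentSeries Kbar)) ^ m)⁻¹)) :
    ∃ Y : FF N, Y ≠ 0 ∧ Y ∈ h92c_F0 A N ∧
      h20n_CongOneS A (U * ((Y : LaurentSeries Kbar) ^ m)⁻¹) := by
  obtain ⟨n, hn1, hn2⟩ := Fermat.Agent.S36.V28.h28v_exists_zpow A N hq hA y hy0 hyF
  have hq0 : ((q : ℕ) : Kbar) ≠ 0 := Nat.cast_ne_zero.mpr hq.ne_zero
  have hqn0 : ((q : ℕ) : Kbar) ^ n ≠ 0 := zpow_ne_zero _ hq0
  set Y₁ : FF N := cst N (((q : ℕ) : Kbar) ^ n) * y with hY₁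
  have hY₁0 : Y₁ ≠ 0 := mul_ne_zero (h71x_cst_ne_zero N hqn0) hy0
  have hY₁U : h20v_Unit A (Y₁ : LaurentSeries Kbar) := h71x_unit_of_softV A N hY₁0 hn1 hn2
  have hcoe : (Y₁ : LaurentSeries Kbar) =
      HahnSeries.C (((q : ℕ) : Kbar) ^ n) * (y : LaurentSeries Kbar) := by
    rw [hY₁, h71x_coe_mul, Fermat.Agent.Red.GV.Soft.soft_coe_cst]
  have hy0' : (y : LaurentSeries Kbar) ≠ 0 := h64a_coe_ne_zero N hy0
  have hCq0 : (HahnSeries.C (((q : ℕ) : Kbar) ^ n) : LaurentSeries Kbar) ≠ 0 :=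
    (map_ne_zero _).2 hqn0
  have hCc0 : (HahnSeries.C c₀ : LaurentSeries Kbar) ≠ 0 := (map_ne_zero _).2 hc₀
  -- rewrite the congruence with `Y₁`
  have hcong' : h20n_CongOneS A
      (HahnSeries.C (d * ((((q : ℕ) : Kbar) ^ n) ^ m * (c₀ ^ m)⁻¹)) * U *
        ((Y₁ : LaurentSeries Kbar) ^ m)⁻¹) := by
    refine h64a_cong_of_eq hcong ?_
    rw [hcoe, map_mul, map_mul, map_inv₀, map_pow, map_pow, mul_pow, mul_pow]
    field_simp
  obtain ⟨e, he0, heA, hefix, he⟩ := h71x_absorb hq A hA hm hU hY₁U hcong'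
  have hqfix : ∀ τ ∈ A.inertiaSubgroupIn ℚ, τ (((q : ℕ) : Kbar) ^ n) = ((q : ℕ) : Kbar) ^ n := by
    intro τ _
    rw [map_zpow₀, map_natCast]
  refine ⟨cst N e * Y₁, mul_ne_zero (h71x_cst_ne_zero N he0) hY₁0, ?_, ?_⟩
  · exact mul_mem (h71x_cst_mem _ N hefix) (mul_mem (h71x_cst_mem _ N hqfix) hyF)
  · rw [h71x_coe_mul, Fermat.Agent.Red.GV.Soft.soft_coe_cst]
    exact he

end Absorb

/-! ## The main theorem -/

/-- `E (u ^ k)` is a Gauss unit if `E (cst (π ^ 0) * u)` is. -/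
theorem h71x_unit_pow {N : ℕ} (A : ValuationSubring Kbar) (E : FF N →+* LaurentSeries Kbar)
    (π : Kbar) {u : FF N} (h : h20v_Unit A (E (cst N (π ^ (0 : ℤ)) * u))) (k : ℕ) :
    h20v_Unit A (E u ^ k) := by
  have e : cst N (π ^ (0 : ℤ)) * u = u := by
    rw [zpow_zero, h71x_cst_one, one_mul]
  rw [e] at h
  refine ⟨pow_ne_zero _ h.1, pow_mem h.2.1 k, ?_⟩
  rw [← inv_pow]
  exact pow_mem h.2.2 k

/-- **(L5) N2-RES.** -/
theorem h71x_roots : H20Roots := by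
  intro q hq M _ hqM _ 
  haveI : NeZero q := ⟨hq.ne_zero⟩
  intro A hA ζ E11 E02 hT m hqm u huF hu hNP hVal
  have hm0 : m ≠ 0 := by
    rintro rfl
    exact hqm (dvd_zero q)
  obtain ⟨σ, hσ⟩ := Fermat.Agent.S54.exists_isFrobeniusAt_of_liesOverPrime hq A hA
  have hσD : σ ∈ A.decompositionSubgroup ℚ := hσ.mem_decompositionSubgroup
  obtain ⟨⟨h, hh⟩, ⟨h', hh'⟩⟩ := hNP
  set I := A.inertiaSubgroupIn ℚ with hI
  -- descent of the roots of the norms
  have hNa0 := h71x_norm_ne_zero_a (M := M) (q := q) hu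
  have hNb0 := h71x_norm_ne_zero_b (M := M) (q := q) hu
  obtain ⟨ca, ga, -, hgaF, hga⟩ := h55p_descPow (M * q) I m _ h 1 hNa0
    (h71x_norm_alpha_mem I (M * q) q huF)
    (by rw [hh, h71x_cst_one, one_mul])
  obtain ⟨cb, gb, -, hgbF, hgb⟩ := h55p_descPow (M * q) I m _ h' 1 hNb0
    (h71x_norm_beta_mem I (M * q) q huF)
    (by rw [hh', h71x_cst_one, one_mul])
  have hca0 : ca ≠ 0 := by
    rintro rfl
    rw [h71x_cst_zero, zero_mul] at hga
    exact hNa0 hga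
  have hcb0 : cb ≠ 0 := by
    rintro rfl
    rw [h71x_cst_zero, zero_mul] at hgb
    exact hNb0 hgb
  have hga0 : ga ≠ 0 := by
    rintro rfl
    rw [zero_pow hm0, mul_zero] at hga
    exact hNa0 hga
  have hgb0 : gb ≠ 0 := by
    rintro rfl
    rw [zero_pow hm0, mul_zero] at hgb
    exact hNb0 hgb
  obtain ⟨ea, hea0, hea⟩ := h71x_exists_root hm0 hca0
  obtain ⟨eb, heb0, heb⟩ := h71x_exists_root hm0 hcb0
  have hha : normAlong (heckeAlphaBar Kbar (M * q) q) u = (cst (M * q) ea * ga) ^ m := by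
    rw [hga, mul_pow, ← h71x_cst_pow, hea]
  have hhb : normAlong (heckeBetaBar Kbar (M * q) q) u = (cst (M * q) eb * gb) ^ m := by
    rw [hgb, mul_pow, ← h71x_cst_pow, heb]
  -- the functions of level `M q` fixed by inertia
  set yb : FF (M * q) := gal (M * q) σ⁻¹ • gb with hyb
  have hybF : yb ∈ h92c_F0 A (M * q) := h71x_smul_inv_mem A (M * q) σ hσD hgbF
  have hyb0 : yb ≠ 0 := h64a_gal_inv_ne_zero (M * q) σ hgb0
  set ya : FF (M * q) := gal (M * q) σ⁻¹ • (kFricke M q hq hqM ga) with hya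
  have hyaF : ya ∈ h92c_F0 A (M * q) :=
    h71x_smul_inv_mem A (M * q) σ hσD (h71x_fricke_mem I M q hq hqM hgaF)
  have hya0 : ya ≠ 0 :=
    h64a_gal_inv_ne_zero (M * q) σ ((map_ne_zero (kFricke M q hq hqM)).2 hga0)
  have hsb : gal (M * q) σ⁻¹ • (cst (M * q) eb * gb) = cst (M * q) (σ⁻¹ eb) * yb := by
    rw [smul_mul', h71x_gal_cst]
  have hsa : gal (M * q) σ⁻¹ • (kFricke M q hq hqM (cst (M * q) ea * ga)) =
      cst (M * q) (σ⁻¹ ea) * ya := by
    rw [map_mul, Fermat.Agent.Red.Kron.kFricke_cst, smul_mul', h71x_gal_cst]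
  have hσb0 : σ⁻¹ eb ≠ 0 := (map_ne_zero _).2 heb0
  have hσa0 : σ⁻¹ ea ≠ 0 := (map_ne_zero _).2 hea0
  have hE20 : ∀ x : FF (M * q * q), h20n_E20 M q x = (x : LaurentSeries Kbar) := by
    intro x
    unfold h20n_E20
    exact IntermediateField.algebraMap_apply _ x
  -- (20)
  obtain ⟨d₁, -, hc₁⟩ := h71x_tor20_core h1g_root h43f_frob h71m_redB hq A hA σ hσ m hm0 u hu
    _ hhb
  rw [hsb, h71x_coe_mul, Fermat.Agent.Red.GV.Soft.soft_coe_cst] at hc₁
  have hU20 : h20v_Unit A ((u : FF (M * q * q)) : LaurentSeries Kbar) := by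
    have := h71x_unit_pow A (h20n_E20 M q) ((q : ℕ) : Kbar) hVal.1 1
    rwa [pow_one, hE20] at this
  obtain ⟨Y20, hY20, hY20F, hr20⟩ :=
    h71x_absorb_level hq A hA hm0 (M * q) hU20 hyb0 hybF hσb0 hc₁
  -- (02)
  obtain ⟨d₂, -, hc₂⟩ := h71x_tor02_core h12e_embDF h1g_root h43f_frob h71x_redD hq hqM A hA
    σ hσ m hm0 u hu _ hha E02 hT.e02
  rw [hsa, h71x_coe_mul, Fermat.Agent.Red.GV.Soft.soft_coe_cst] at hc₂
  have hU02 : h20v_Unit A (E02 u) := by
    have := h71x_unit_pow A E02 ((q : ℕ) : Kbar) hVal.2.2 1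
    rwa [pow_one] at this
  obtain ⟨Y02, hY02, hY02F, hr02⟩ :=
    h71x_absorb_level hq A hA hm0 (M * q) hU02 hya0 hyaF hσa0 hc₂
  -- (11)
  have hinv : ∀ τ ∈ A.inertiaSubgroupIn ℚ, ∃ c : Kbar, c ≠ 0 ∧
      gal (M * q * q) τ • u = cst (M * q * q) c * u := by
    intro τ hτ
    exact ⟨1, one_ne_zero, by rw [h71x_cst_one, one_mul]; exact huF τ hτ⟩
  obtain ⟨d₃, -, hc₃⟩ := h71x_tor11_core h1g_root h43f_frob h71m_redB h71x_redA hq hqM A hA
    σ hσ m hm0 u hu _ hha _ hhb hinv ζ E11 hT.prim hT.e11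
  rw [hsb, h71x_coe_mul, h71x_coe_mul, Fermat.Agent.Red.GV.Soft.soft_coe_cst,
    Fermat.Agent.Red.GV.Soft.soft_coe_cst] at hc₃
  have hU11 : h20v_Unit A (E11 u ^ (q - 1)) := h71x_unit_pow A E11 (1 - ζ) hVal.2.1 (q - 1)
  set z : FF (M * q) := ga * yb⁻¹ with hz
  have hzF : z ∈ h92c_F0 A (M * q) := mul_mem hgaF (inv_mem hybF)
  have hz0 : z ≠ 0 := mul_ne_zero hga0 (inv_ne_zero hyb0)
  have hc₃' : h20n_CongOneS A (HahnSeries.C d₃ * E11 u ^ (q - 1) *
      ((HahnSeries.C (ea * (σ⁻¹ eb)⁻¹) * (z : LaurentSeries Kbar)) ^ m)⁻¹) := by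
    refine h64a_cong_of_eq hc₃ ?_
    rw [hz, h71x_coe_mul, h71x_coe_inv, map_mul, map_inv₀]
    have h1 : (HahnSeries.C (σ⁻¹ eb) : LaurentSeries Kbar) ≠ 0 := (map_ne_zero _).2 hσb0
    have h2 : (yb : LaurentSeries Kbar) ≠ 0 := h64a_coe_ne_zero _ hyb0
    congr 2
    field_simp
  obtain ⟨Y11, hY11, hY11F, hr11⟩ :=
    h71x_absorb_level hq A hA hm0 (M * q) hU11 hz0 hzF
      (mul_ne_zero hea0 (inv_ne_zero hσb0)) hc₃'
  -- the three roots
  refine ⟨heckeAlphaBar Kbar (M * q) q Y20, heckeAlphaBar Kbar (M * q) q Y11,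
    heckeBetaBar Kbar (M * q) q (kFricke M q hq hqM Y02),
    h71x_alpha_mem I (M * q) q hY20F, h71x_alpha_mem I (M * q) q hY11F,
    h71x_beta_mem I (M * q) q (h71x_fricke_mem I M q hq hqM hY02F),
    (map_ne_zero _).2 hY20, (map_ne_zero _).2 hY11,
    (map_ne_zero _).2 ((map_ne_zero _).2 hY02), ?_, ?_, ?_⟩
  · rw [map_mul, map_inv₀, map_pow, hE20, hE20, coe_heckeAlphaBar]
    exact hr20
  · rw [map_mul, map_inv₀, map_pow, map_pow, hT.e11.1]
    exact hr11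
  · rw [map_mul, map_inv₀, map_pow, hT.e02.2, Fermat.Agent.Red.Kron.kFricke_kFricke]
    exact hr02

end Fermat.Agent.S36
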