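import Fermat.Agent.S36.H57Unif11
import Fermat.Agent.S36.V28DiscFinal

/-!
# S36, block (V), row V-DISC closed (helper57 + helper28)

The four frozen Props of row V-DISC of `S36/H74VIface.lean`, unconditional:

* `h57v_disc02 : H74Disc02` (helper28, `V28.h28f_H74Disc02`),
* `h57v_unif11 : H74Unif11` (`h57u_unif11`),
* `h57v_zUnit : H74ZUnit` (`h57z_zUnit`),
* `h57v_disc11 : H74Disc11` (helper28's `V28.h28f_H74Disc11_of` applied to `h57u_unif11`).
-/

set_option autoImplicit false

namespace Fermat.Agent.S36

theorem h57v_disc02 : H74Disc02 := V28.h28f_H74Disc02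

theorem h57v_unif11 : H74Unif11 := h57u_unif11

theorem h57v_zUnit : H74ZUnit := h57z_zUnit

theorem h57v_disc11 : H74Disc11 := V28.h28f_H74Disc11_of h57u_unif11

end Fermat.Agent.S36
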