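import Fermat.Agent.S36.V28Disc
import Fermat.Agent.S36.H20VertSkel

/-!
# S36 (V+N), leaf VN-L2: the frozen Prop `H20Val` (helper28)

Every nonzero function of `F₀ = FF (M q q)^I` has integral valuations `(n₂₀, n₁₁, n₀₂)` at the
three vertical embeddings `E20`, `E11^ζ`, `E02`: adapter of `V28Disc`
(`h28d_W20_exists_zpow`, `h28d_W11_exists_zpow`, `h28d_W02_exists_zpow`).

* `h28f_H20Val : H20Val` (exact frozen Prop of `S36/H20VertSkel.lean`), unconditional.
-/

set_option autoImplicit false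
set_option linter.unusedSectionVars false
set_option linter.style.haveILetI false

open ModularCurve AlgebraicCurve

noncomputable section

namespace Fermat.Agent.S36.V28

open Fermat.Agent.S37 (Kbar GQ FF cst gal jB)
open Fermat.Agent.Red.GV.Soft (softOT softV)
open Fermat.Agent.S36 (H20Val h20v_HasVal h20v_Unit h20v_G h20v_Triple h92c_F0
  h20n_IsE11 h20n_IsE02 h20n_E20)

/-- **VN-L2** (frozen Prop of `H20VertSkel`). -/
theorem h28f_H20Val : H20Val := by
  intro q hq M _ hqM _ A hA ζ E11 E02 hT u hu hu0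
  haveI : NeZero q := ⟨hq.ne_zero⟩
  have hfix : h28v_IFixed A (M * q * q) u := hu
  obtain ⟨n₂₀, h20⟩ := h28d_W20_exists_zpow A hq hA u hfix hu0
  obtain ⟨n₁₁, h11⟩ := h28d_W11_exists_zpow A hq hqM hA ζ hT.prim E11 hT.e11 u hfix hu0
  obtain ⟨n₀₂, h02⟩ := h28d_W02_exists_zpow A hq hqM hA E02 hT.e02 u hfix hu0
  have hq0 : ((q : ℕ) : Kbar) ≠ 0 := Nat.cast_ne_zero.mpr hq.ne_zero
  have hζ1 : (1 : Kbar) - ζ ≠ 0 := by
    intro h
    have h1 : ζ = 1 := (sub_eq_zero.mp h).symm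
    exact hq.one_lt.ne' (hT.prim.unique (h1 ▸ IsPrimitiveRoot.one))
  have hne : ∀ (E : FF (M * q * q) →+* LaurentSeries Kbar) (c : Kbar), c ≠ 0 →
      E (cst (M * q * q) c * u) ≠ 0 := by
    intro E c hc
    rw [Ne, map_eq_zero_iff E E.injective]
    exact mul_ne_zero (by
      rw [Ne, map_eq_zero_iff _ (algebraMap Kbar (FF (M * q * q))).injective]
      exact hc) hu0
  exact ⟨n₂₀, n₁₁, n₀₂, ⟨hne _ _ (zpow_ne_zero _ hq0), h20.1, h20.2⟩,
    ⟨hne _ _ (zpow_ne_zero _ hζ1), h11.1, h11.2⟩,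
    ⟨hne _ _ (zpow_ne_zero _ hq0), h02.1, h02.2⟩⟩

end Fermat.Agent.S36.V28
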