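import Fermat.Agent.S36.H90ApproxVal
import Fermat.Agent.S36.H93ApproxRes
import Fermat.Agent.S36.V28Val
import Fermat.Agent.S36.H57VDisc

/-!
# S36, block (V) + (N), leaf VN-L4 (helper90): `H20ApproxVal`, UNCONDITIONAL

`h90v_approxVal_final : H20ApproxVal` (frozen Prop of `S36/H20VertSkel.lean`): for all integers
`n₂₀, n₁₁, n₀₂` there is a function `h ≠ 0` of `F₀` such that `q ^ n₂₀ · h`, `(1 - ζ) ^ n₁₁ · h`,
`q ^ n₀₂ · h` are Gauss units at `E20`, `E11^ζ`, `E02`.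

Explicit construction (no approximation theorem): with the separating functions of helper93
(`S36/H93ApproxRes.lean`) `S₀ = Z - Y ^ q`, `S₁ = Z - X`, `S₂ = X - Y ^ q`
(`X = j(t)`, `Y = j(t^q)`, `Z = j(t^(q²))`), which are nonunits exactly at `E20`, `E11`, `E02`,

  `s₀ = q + S₀ ^ 2`,  `z = S₁`,  `s₂ = q + S₂ ^ 2`

have the valuation vectors `(1, 0, 0)`, `(0, 1, 0)`, `(0, 0, 1)`: the valuation at `E20`, `E02`
of a function of `F₀` is an integral multiple of the valuation of `q` (landed `H20Val`), and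
`z / (1 - ζ)` is a Gauss unit at `E11^ζ` (landed `H74Unif11`).  Then
`h = s₀ ^ (-n₂₀) z ^ (-n₁₁) s₂ ^ (-n₀₂)`.
-/

set_option autoImplicit false
set_option linter.style.haveILetI false
set_option linter.unusedSectionVars false

open AlgebraicCurve ModularCurve

noncomputable section

namespace Fermat.Agent.S36

open Fermat.Agent.S37 (Kbar GQ FF cst gal jB auxLevel)
open Fermat.Agent.Red.GV (embA)
open Fermat.Agent.Red.GV.Soft

/-! ## Valuation arithmetic -/

section Val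

variable {F Γ : Type*} [Field F] [LinearOrderedCommGroupWithZero Γ] (v : Valuation F Γ)

/-- if `v π < 1`, `v S < 1` and the value of `S` is an integral power of the value of `π`,
then `v (π + S ^ 2) = v π`. -/
theorem h90v_val_unif {π S : F} (hπ0 : π ≠ 0) (hπ : v π < 1) (hS : v S < 1)
    (hdisc : ∃ a : ℤ, v (π ^ a * S) = 1) : v (π + S ^ 2) = v π := by
  obtain ⟨a, ha⟩ := hdisc
  have hvπ0 : v π ≠ 0 := (Valuation.ne_zero_iff v).mpr hπ0
  have hvπpos : 0 < v π := zero_lt_iff.mpr hvπ0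
  rw [map_mul, map_zpow₀] at ha
  -- `v S = (v π) ^ (-a)`
  have hSval : v S = v π ^ (-a) := by
    rw [zpow_neg]
    exact eq_inv_of_mul_eq_one_right ha
  -- `-a ≥ 1`
  have ha1 : 1 ≤ -a := by
    by_contra hcon
    have hle : -a ≤ 0 := by omega
    have h1 : 1 ≤ v π ^ (-a) := by
      obtain ⟨k, hk⟩ : ∃ k : ℕ, -a = -(k : ℤ) := ⟨(a).toNat, by omega⟩
      rw [hk, zpow_neg, zpow_natCast]
      exact (one_le_inv₀ (pow_pos hvπpos k)).mpr (pow_le_one₀ (le_of_lt hvπpos) hπ.le)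
    rw [← hSval] at h1
    exact absurd hS (not_lt.mpr h1)
  have hSle : v S ≤ v π := by
    obtain ⟨k, hk⟩ : ∃ k : ℕ, -a = (k : ℤ) + 1 := ⟨(-a - 1).toNat, by omega⟩
    rw [hSval, hk, zpow_add_one₀ hvπ0, zpow_natCast]
    calc v π ^ k * v π ≤ 1 * v π :=
          mul_le_mul' (pow_le_one₀ (le_of_lt hvπpos) hπ.le) le_rfl
      _ = v π := one_mul _
  have hlt : v (S ^ 2) < v π := by
    rw [map_pow, pow_two]
    calc v S * v S ≤ v π * v S := mul_le_mul' hSle le_rfl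
      _ < v π * 1 := mul_lt_mul_of_pos_left hS hvπpos
      _ = v π := mul_one _
  exact Valuation.map_add_eq_of_lt_left v hlt

/-- if `v π < 1` and `v S = 1` then `v (π + S ^ 2) = 1`. -/
theorem h90v_val_unit {π S : F} (hπ : v π < 1) (hS : v S = 1) : v (π + S ^ 2) = 1 := by
  have h1 : v (S ^ 2) = 1 := by rw [map_pow, hS, one_pow]
  have h2 : v π < v (S ^ 2) := by rw [h1]; exact hπ
  rw [Valuation.map_add_eq_of_lt_right v h2, h1]

end Val

/-! ## Valuation subrings -/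

section VS

variable {F : Type*} [Field F] (O : ValuationSubring F)

theorem h90v_valuation_eq_one {x : F} (hx : x ∈ O) (hnu : x ∉ O.nonunits) :
    O.valuation x = 1 := by
  have h1 : O.valuation x ≤ 1 := (ValuationSubring.valuation_le_one_iff O x).mpr hx
  have h2 : ¬ O.valuation x < 1 := fun h => hnu ((ValuationSubring.mem_nonunits_iff O).mpr h)
  exact le_antisymm h1 (not_lt.mp h2)

theorem h90v_mem_of_valuation_eq_one {x : F} (hx : O.valuation x = 1) : x ∈ O ∧ x⁻¹ ∈ O := by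
  refine ⟨(ValuationSubring.valuation_le_one_iff O x).mp hx.le, ?_⟩
  apply (ValuationSubring.valuation_le_one_iff O x⁻¹).mp
  rw [map_inv₀, hx, inv_one]

end VS

/-! ## The theorem -/

section Main

variable (M : ℕ) {q : ℕ} [NeZero M] [NeZero q]

/-- membership in the valuation subring of an embedding. -/
theorem h90v_mem_O_iff (hq : q.Prime) (A : ValuationSubring Kbar) (hA : A.LiesOverPrime q)
    {N : ℕ} (E : FF N →+* LaurentSeries Kbar) (hE : ∀ u, E u ∈ dfField (K := Kbar))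
    (x : h92c_F0 A N) : x ∈ h93aO q hq A hA E hE ↔ h74w_Int A E (x : FF N) :=
  Iff.rfl

/-- a function of `F₀` of valuation one at `E` is a Gauss unit at `E`. -/
theorem h90v_unit_of_val (hq : q.Prime) (A : ValuationSubring Kbar) (hA : A.LiesOverPrime q)
    {N : ℕ} (E : FF N →+* LaurentSeries Kbar) (hE : ∀ u, E u ∈ dfField (K := Kbar))
    (x : h92c_F0 A N) (hx : (h93aO q hq A hA E hE).valuation x = 1) :
    h74w_Unit A E (x : FF N) := by
  obtain ⟨h1, h2⟩ := h90v_mem_of_valuation_eq_one _ hx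
  exact ⟨(h90v_mem_O_iff hq A hA E hE x).mp h1, (h90v_mem_O_iff hq A hA E hE x⁻¹).mp h2⟩

/-- a Gauss unit at `E` has valuation one. -/
theorem h90v_val_of_unit (hq : q.Prime) (A : ValuationSubring Kbar) (hA : A.LiesOverPrime q)
    {N : ℕ} (E : FF N →+* LaurentSeries Kbar) (hE : ∀ u, E u ∈ dfField (K := Kbar))
    (x : h92c_F0 A N) (hx : h20v_Unit A (E (x : FF N))) :
    (h93aO q hq A hA E hE).valuation x = 1 := by
  have h1 : x ∈ h93aO q hq A hA E hE := (h90v_mem_O_iff hq A hA E hE x).mpr hx.2.1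
  have h2 : x⁻¹ ∈ h93aO q hq A hA E hE := by
    apply (h90v_mem_O_iff hq A hA E hE x⁻¹).mpr
    show E ((x⁻¹ : h92c_F0 A N) : FF N) ∈ _
    rw [Subfield.coe_inv, map_inv₀]
    exact hx.2.2
  have h3 := (ValuationSubring.valuation_le_one_iff _ x).mpr h1
  have h4 := (ValuationSubring.valuation_le_one_iff _ x⁻¹).mpr h2
  rw [map_inv₀] at h4
  have hx0 : x ≠ 0 := by
    rintro rfl
    exact hx.1 (by simp)
  have hpos : 0 < (h93aO q hq A hA E hE).valuation x :=
    zero_lt_iff.mpr ((Valuation.ne_zero_iff _).mpr hx0)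
  exact le_antisymm h3 ((inv_le_one₀ hpos).mp h4)

/-- the prime `q` is a nonzero nonunit of the valuation subring of an embedding. -/
theorem h90v_q_nonunit (hq : q.Prime) (A : ValuationSubring Kbar) (hA : A.LiesOverPrime q)
    {N : ℕ} (E : FF N →+* LaurentSeries Kbar) (hE : ∀ u, E u ∈ dfField (K := Kbar)) :
    ((q : ℕ) : h92c_F0 A N) ≠ 0 ∧
      (h93aO q hq A hA E hE).valuation ((q : ℕ) : h92c_F0 A N) < 1 := by
  have h1 : ((q : ℕ) : h92c_F0 A N) ∈ (h93aO q hq A hA E hE).nonunits := by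
    rw [h93aO, h93a_mem_nonunits_comap, map_natCast]
    exact h93a_q_nonunit q hq A hA
  refine ⟨?_, (ValuationSubring.mem_nonunits_iff _).mp h1⟩
  intro h0
  have h2 : (((q : ℕ) : h92c_F0 A N) : FF N) = 0 := by rw [h0]; rfl
  have h3 : (((q : ℕ) : h92c_F0 A N) : FF N) = algebraMap Kbar (FF N) ((q : ℕ) : Kbar) := by
    rw [map_natCast]
    rfl
  rw [h3] at h2
  have h4 : ((q : ℕ) : Kbar) = 0 := (algebraMap Kbar (FF N)).injective (by rw [h2, map_zero])
  exact hq.ne_zero (Nat.cast_eq_zero.mp h4)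

/-- the coercion of `q ^ n * x`. -/
theorem h90v_coe_zpow_mul (A : ValuationSubring Kbar) (N : ℕ) (n : ℤ) (x : h92c_F0 A N) :
    ((((q : ℕ) : h92c_F0 A N) ^ n * x : h92c_F0 A N) : FF N) =
      cst N (((q : ℕ) : Kbar) ^ n) * (x : FF N) := by
  have e1 : cst N (((q : ℕ) : Kbar) ^ n) = ((q : ℕ) : FF N) ^ n := by
    show algebraMap Kbar (FF N) _ = _
    rw [map_zpow₀, map_natCast]
  rw [e1]
  rfl

/-- **VN-L4**, unconditional.  Functions of `F₀` with prescribed valuations at `E20`, `E11^ζ`,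
`E02`. -/
theorem h90v_approxVal_final : H20ApproxVal := by
  intro q hq M _ hqM haux
  haveI : NeZero q := ⟨hq.ne_zero⟩
  intro A hA ζ E11 E02 hT n₂₀ n₁₁ n₀₂
  have hE20 : ∀ u, h20n_E20 M q u ∈ dfField (K := Kbar) := fun u => FF_le_dfField _ u
  have hE11 : ∀ u, E11 u ∈ dfField (K := Kbar) := fun u =>
    h12e_embDF q hq M hqM E11 (Or.inl ⟨ζ, hT.prim.pow_eq_one, hT.e11⟩) u
  have hE02 : ∀ u, E02 u ∈ dfField (K := Kbar) := fun u =>
    h12e_embDF q hq M hqM E02 (Or.inr hT.e02) u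
  set O₀ := h93aO q hq A hA (h20n_E20 M q) hE20 with hO₀
  set O₁ := h93aO q hq A hA E11 hE11 with hO₁
  set O₂ := h93aO q hq A hA E02 hE02 with hO₂
  -- the separation
  have hk := h93a_J_ne hq (IsLocalRing.ResidueField A)
  have i0 := h93a_img20 (q := q) M A
  have i1 := h93a_img11 M hq hqM A hA ζ hT.prim.pow_eq_one E11 hT.e11
  have i2 := h93a_img02 M hq hqM A E02 hT.e02
  obtain ⟨a00, a01, a02⟩ := h93a_sep_iff M hq A hA _ hE20 0 2 i0
  obtain ⟨a10, a11, a12⟩ := h93a_sep_iff M hq A hA _ hE11 0 0 i1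
  obtain ⟨a20, a21, a22⟩ := h93a_sep_iff M hq A hA _ hE02 2 0 i2
  have s00 : h93aS M A 0 ∈ O₀.nonunits := a00.mpr rfl
  have s01 : h93aS M A 0 ∉ O₁.nonunits := fun h => hk (a10.mp h).symm
  have s02 : h93aS M A 0 ∉ O₂.nonunits := fun h => hk (a20.mp h).symm
  have s10 : h93aS M A 1 ∉ O₀.nonunits := fun h => hk (a01.mp h)
  have s12 : h93aS M A 1 ∉ O₂.nonunits := fun h => hk (a21.mp h).symm
  have s20 : h93aS M A 2 ∉ O₀.nonunits := fun h => hk (a02.mp h).symm
  have s21 : h93aS M A 2 ∉ O₁.nonunits := fun h => hk (a12.mp h).symm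
  have s22 : h93aS M A 2 ∈ O₂.nonunits := a22.mpr rfl
  -- integrality of the separating functions
  obtain ⟨⟨t00, e00, -⟩, ⟨t01, e01, -⟩, ⟨t02, e02, -⟩⟩ := h93a_img_sep M hq A hA _ 0 2 i0
  obtain ⟨⟨t10, e10, -⟩, ⟨t11, e11, -⟩, ⟨t12, e12, -⟩⟩ := h93a_img_sep M hq A hA _ 0 0 i1
  obtain ⟨⟨t20, e20, -⟩, ⟨t21, e21, -⟩, ⟨t22, e22, -⟩⟩ := h93a_img_sep M hq A hA _ 2 0 i2
  have hmem : ∀ {N : ℕ} (E : FF N →+* LaurentSeries Kbar) (hE : ∀ u, E u ∈ dfField (K := Kbar))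
      (x : h92c_F0 A N) (t : LaurentSeries A), E (x : FF N) = embA A t →
      x ∈ h93aO q hq A hA E hE := by
    intro N E hE x t h
    apply (h90v_mem_O_iff hq A hA E hE x).mpr
    show E (x : FF N) ∈ _
    rw [h]
    exact embA_mem_softOT A _ t
  -- the values of the separating functions
  have v01 : O₁.valuation (h93aS M A 0) = 1 :=
    h90v_valuation_eq_one O₁ (hmem _ hE11 _ _ e10) s01
  have v02 : O₂.valuation (h93aS M A 0) = 1 :=
    h90v_valuation_eq_one O₂ (hmem _ hE02 _ _ e20) s02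
  have v10 : O₀.valuation (h93aS M A 1) = 1 :=
    h90v_valuation_eq_one O₀ (hmem _ hE20 _ _ e01) s10
  have v12 : O₂.valuation (h93aS M A 1) = 1 :=
    h90v_valuation_eq_one O₂ (hmem _ hE02 _ _ e21) s12
  have v20 : O₀.valuation (h93aS M A 2) = 1 :=
    h90v_valuation_eq_one O₀ (hmem _ hE20 _ _ e02) s20
  have v21 : O₁.valuation (h93aS M A 2) = 1 :=
    h90v_valuation_eq_one O₁ (hmem _ hE11 _ _ e12) s21
  have v00 : O₀.valuation (h93aS M A 0) < 1 := (ValuationSubring.mem_nonunits_iff _).mp s00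
  have v22 : O₂.valuation (h93aS M A 2) < 1 := (ValuationSubring.mem_nonunits_iff _).mp s22
  have hS0 : (h93aS M A 0 : h92c_F0 A (M * q * q)) ≠ 0 := by
    intro h
    rw [h, map_zero] at v01
    exact zero_ne_one v01
  have hS1 : (h93aS M A 1 : h92c_F0 A (M * q * q)) ≠ 0 := by
    intro h
    rw [h, map_zero] at v10
    exact zero_ne_one v10
  have hS2 : (h93aS M A 2 : h92c_F0 A (M * q * q)) ≠ 0 := by
    intro h
    rw [h, map_zero] at v20
    exact zero_ne_one v20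
  -- the prime `q`
  obtain ⟨hq0, q0⟩ := h90v_q_nonunit hq A hA (h20n_E20 M q) hE20
  obtain ⟨-, q1⟩ := h90v_q_nonunit hq A hA E11 hE11
  obtain ⟨-, q2⟩ := h90v_q_nonunit hq A hA E02 hE02
  -- discreteness at `E20` and `E02`
  obtain ⟨b₀, -, -, hb₀, -, -⟩ := V28.h28f_H20Val q hq M hqM haux A hA ζ E11 E02 hT
    ((h93aS M A 0 : h92c_F0 A (M * q * q)) : FF (M * q * q)) (h93aS M A 0).2
    (fun h => hS0 (Subtype.ext h))
  obtain ⟨-, -, b₂, -, -, hb₂⟩ := V28.h28f_H20Val q hq M hqM haux A hA ζ E11 E02 hT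
    ((h93aS M A 2 : h92c_F0 A (M * q * q)) : FF (M * q * q)) (h93aS M A 2).2
    (fun h => hS2 (Subtype.ext h))
  have d0 : O₀.valuation (((q : ℕ) : h92c_F0 A (M * q * q)) ^ b₀ * h93aS M A 0) = 1 := by
    apply h90v_val_of_unit hq A hA (h20n_E20 M q) hE20
    rw [h90v_coe_zpow_mul]
    exact hb₀
  have d2 : O₂.valuation (((q : ℕ) : h92c_F0 A (M * q * q)) ^ b₂ * h93aS M A 2) = 1 := by
    apply h90v_val_of_unit hq A hA E02 hE02
    rw [h90v_coe_zpow_mul]
    exact hb₂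
  -- the three uniformisers
  set π : h92c_F0 A (M * q * q) := ((q : ℕ) : h92c_F0 A (M * q * q)) with hπ
  set s₀ : h92c_F0 A (M * q * q) := π + h93aS M A 0 ^ 2 with hs₀
  set s₂ : h92c_F0 A (M * q * q) := π + h93aS M A 2 ^ 2 with hs₂
  set z : h92c_F0 A (M * q * q) := h93aS M A 1 with hz
  have w00 : O₀.valuation s₀ = O₀.valuation π := h90v_val_unif _ hq0 q0 v00 ⟨b₀, d0⟩
  have w01 : O₁.valuation s₀ = 1 := h90v_val_unit _ q1 v01
  have w02 : O₂.valuation s₀ = 1 := h90v_val_unit _ q2 v02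
  have w20 : O₀.valuation s₂ = 1 := h90v_val_unit _ q0 v20
  have w21 : O₁.valuation s₂ = 1 := h90v_val_unit _ q1 v21
  have w22 : O₂.valuation s₂ = O₂.valuation π := h90v_val_unif _ hq0 q2 v22 ⟨b₂, d2⟩
  have hπ0v : O₀.valuation π ≠ 0 := (Valuation.ne_zero_iff _).mpr hq0
  have hπ2v : O₂.valuation π ≠ 0 := (Valuation.ne_zero_iff _).mpr hq0
  have hz1v : O₁.valuation z ≠ 0 := (Valuation.ne_zero_iff _).mpr hS1
  have hs₀0 : s₀ ≠ 0 := by
    intro h
    rw [h, map_zero] at w01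
    exact zero_ne_one w01
  have hs₂0 : s₂ ≠ 0 := by
    intro h
    rw [h, map_zero] at w21
    exact zero_ne_one w21
  -- the function
  set h : h92c_F0 A (M * q * q) := s₀ ^ (-n₂₀) * z ^ (-n₁₁) * s₂ ^ (-n₀₂) with hh
  have hh0 : h ≠ 0 :=
    mul_ne_zero (mul_ne_zero (zpow_ne_zero _ hs₀0) (zpow_ne_zero _ hS1)) (zpow_ne_zero _ hs₂0)
  have hhF : (h : FF (M * q * q)) ≠ 0 := fun h0 => hh0 (Subtype.ext h0)
  have u0 : O₀.valuation (π ^ n₂₀ * h) = 1 := by
    rw [hh, map_mul, map_mul, map_mul, map_zpow₀, map_zpow₀, map_zpow₀, map_zpow₀, w00, v10,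
      w20, one_zpow, one_zpow, mul_one, mul_one, zpow_neg, mul_inv_cancel₀ (zpow_ne_zero _ hπ0v)]
  have u1 : O₁.valuation (z ^ n₁₁ * h) = 1 := by
    rw [hh, map_mul, map_mul, map_mul, map_zpow₀, map_zpow₀, map_zpow₀, map_zpow₀, w01, w21,
      one_zpow, one_zpow, mul_one, one_mul, zpow_neg, mul_inv_cancel₀ (zpow_ne_zero _ hz1v)]
  have u2 : O₂.valuation (π ^ n₀₂ * h) = 1 := by
    rw [hh, map_mul, map_mul, map_mul, map_zpow₀, map_zpow₀, map_zpow₀, map_zpow₀, w02, v12,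
      w22, one_zpow, one_zpow, mul_one, one_mul, zpow_neg, mul_inv_cancel₀ (zpow_ne_zero _ hπ2v)]
  refine ⟨(h : FF (M * q * q)), h.2, hhF, ?_, ?_, ?_⟩
  · -- `E20`
    have hU := h90v_unit_of_val hq A hA (h20n_E20 M q) hE20 _ u0
    rw [h90v_coe_zpow_mul] at hU
    refine h90v_unit_of A _ _ (mul_ne_zero ?_ hhF) hU
    exact (map_ne_zero_iff _ (algebraMap Kbar (FF (M * q * q))).injective).mpr
      (zpow_ne_zero _ (Nat.cast_ne_zero.mpr hq.ne_zero))
  · -- `E11`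
    have hU := h90v_unit_of_val hq A hA E11 hE11 _ u1
    have hζ1 : (1 : Kbar) - ζ ≠ 0 := by
      intro h
      exact hT.prim.ne_one hq.one_lt (sub_eq_zero.mp h).symm
    have hzc : (z : FF (M * q * q)) = h74w_z M q := rfl
    have hzF : h74w_z M q ≠ 0 := by
      rw [← hzc]
      exact fun h0 => hS1 (Subtype.ext h0)
    have hUz := h57v_unif11 q hq M hqM A hA ζ hT.prim E11 hT.e11
    have hwv : ((z ^ n₁₁ * h : h92c_F0 A (M * q * q)) : FF (M * q * q)) =
        h74w_z M q ^ n₁₁ * (h : FF (M * q * q)) := rfl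
    have hwc : cst (M * q * q) ((1 - ζ) ^ n₁₁) * (h : FF (M * q * q)) =
        ((cst (M * q * q) (1 - ζ)⁻¹ * h74w_z M q) ^ n₁₁)⁻¹ *
          ((z ^ n₁₁ * h : h92c_F0 A (M * q * q)) : FF (M * q * q)) := by
      have e1 : cst (M * q * q) ((1 - ζ) ^ n₁₁) = cst (M * q * q) (1 - ζ) ^ n₁₁ := by
        show algebraMap Kbar (FF (M * q * q)) _ = _
        rw [map_zpow₀]
      have e2 : cst (M * q * q) (1 - ζ)⁻¹ = (cst (M * q * q) (1 - ζ))⁻¹ := by
        show algebraMap Kbar (FF (M * q * q)) _ = _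
        rw [map_inv₀]
      rw [hwv, e1, e2]
      exact h90v_field_id _ _ _ hzF n₁₁
    rw [hwc]
    have hne : ((cst (M * q * q) (1 - ζ)⁻¹ * h74w_z M q) ^ n₁₁)⁻¹ *
        ((z ^ n₁₁ * h : h92c_F0 A (M * q * q)) : FF (M * q * q)) ≠ 0 := by
      rw [← hwc]
      refine mul_ne_zero ?_ hhF
      exact (map_ne_zero_iff _ (algebraMap Kbar (FF (M * q * q))).injective).mpr
        (zpow_ne_zero _ hζ1)
    exact h90v_unit_of A _ _ hne
      (h90v_unit_mul A E11 (h90v_unit_inv A E11 (h90v_unit_zpow A E11 hUz n₁₁)) hU)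
  · -- `E02`
    have hU := h90v_unit_of_val hq A hA E02 hE02 _ u2
    rw [h90v_coe_zpow_mul] at hU
    refine h90v_unit_of A _ _ (mul_ne_zero ?_ hhF) hU
    exact (map_ne_zero_iff _ (algebraMap Kbar (FF (M * q * q))).injective).mpr
      (zpow_ne_zero _ (Nat.cast_ne_zero.mpr hq.ne_zero))

end Main

end Fermat.Agent.S36
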