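import Fermat.Agent.S36.H27VertAsm
import Fermat.Agent.S36.H20Emb
import Fermat.Agent.S36.H88VFinal
import Fermat.Agent.S36.V28Val
import Fermat.Agent.S36.H17CompGroup
import Fermat.Agent.S36.H90ApproxValFinal
import Fermat.Agent.S36.H71Roots
import Fermat.Agent.S36.H93ApproxRes
import Fermat.Agent.S36.H75Unip

/-!
# S36, block (V) + (N): `H92Vert`, unconditional (wire of the landed leaves; helper17)

`h17w_vert : H92Vert` from helper27's assembly `h27a_vertAssembly : H20VertAssembly` and the
landed leaves `L1` (helper88), `L2` (helper28), `L3` (helper17), `L4` (helper90), `L5`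
(helper71), `L6` (helper93), `L7` (helper75) and `h20n_embExists` (helper20).
This file is also the co-importability check of the eight leaves.
-/

set_option autoImplicit false

namespace Fermat.Agent.S36

/-- **(V) + (N).**  The block `H92Vert` of the chain `S36/H92Chain.lean`. -/
theorem h17w_vert : H92Vert :=
  h27a_vertAssembly h20n_embExists h88v_vcomplete_final V28.h28f_H20Val h17c_compGroup
    h90v_approxVal_final h71x_roots h93a_approxRes h75u_unip

end Fermat.Agent.S36
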