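import Mathlib
import Fermat.Agent.S36.H62RegCrit

/-!
# S36, block REG, row R-CUSP (helper18): the abstract one-branch transfer

Mathlib + `H62RegCrit` only.  Valuation language of the gate (`v : ι → Valuation F ℤᵐ⁰`).

Setting: `F` a field, `B ⊆ F` a chart, `v j` the vertical valuations (`B ⊆ ⋂ 𝒪(v j)`), `π ∈ B` the
uniformiser of the base (`π = q`), `hQEP : x ∈ ⋂ 𝒪(v j), π x ∈ B ⟹ x ∈ B`, `𝔫` a prime of `B`
containing `π`, `i₀` the component through `𝔫` and `u ∈ B ∖ 𝔫` a multiplier vanishing on the other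
components (`v j u < 1` for `j ≠ i₀`).

* `h18c_div_mem` : `num ∈ B`, `v j num ≤ v j π` for all `j` ⟹ `num ∈ π B`.
* `h18c_small_mem` : `x ∈ B`, `v i₀ x < 1` ⟹ `x ∈ 𝔫` (the component `i₀` passes through `𝔫`).
* `h18c_princ` : **the vertical prime is principal at `𝔫`**: if `S · S' = π · p` with
  `S, S', p ∈ B`, `p ∉ 𝔫`, `v i₀ S = exp (-1)`, then every `x ∈ B` with `v i₀ x < 1` is a multiple
  of `S` locally at `𝔫`.  (`S = π`, `S' = p = 1` if `v i₀ π = exp (-1)`.)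
* `h18c_ram` : `s · S ^ e = c · π` with `s ∉ 𝔫` if `v i₀ π = exp (-e)`.
* `h18c_contr` : the contraction of `𝔫 B_𝔫` along a ring map `φ : Λ → B_𝔫`; it is a prime ideal.
* `h18c_one_branch` : **the transfer**: if moreover `Λ` (the chart of the lower level) has local
  parameters (`hLP`) and `B = φ (Λ) + {v i₀ < 1}` locally at `𝔫` (`hsurj`), then
  `𝔫 = (S, t)` locally at `𝔫` and `s · S ^ e = c · π`: the datum of `h62r_regAt_one`.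
* `h18c_regAt` : `H62RegAt 𝔫 π` for noetherian `B`.
-/

set_option autoImplicit false
set_option linter.unusedSectionVars false
set_option linter.unusedVariables false

open WithZero

namespace Fermat.Agent.S36

theorem h18c_le_exp_of_lt_one {x : ℤᵐ⁰} (h : x < 1) : x ≤ exp (-1 : ℤ) := by
  have h1 : exp (-1 : ℤ) * exp (1 : ℤ) = 1 := by
    rw [← exp_add]; simp
  rw [← h1] at h
  exact (lt_mul_exp_iff_le exp_ne_zero).mp h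

theorem h18c_pow_le_exp {x : ℤᵐ⁰} (h : x < 1) (n : ℕ) : x ^ n ≤ exp (-(n : ℤ)) := by
  have h1 : x ^ n ≤ exp (-1 : ℤ) ^ n := pow_le_pow_left' (h18c_le_exp_of_lt_one h) n
  have h2 : exp (-1 : ℤ) ^ n = exp (-(n : ℤ)) := by
    rw [← exp_nsmul]; simp
  rwa [h2] at h1

section Abs

variable {F : Type*} [Field F] {ι : Type*} (v : ι → Valuation F ℤᵐ⁰) (B : Subring F)

/-- `num ∈ B`, `v j num ≤ v j π` for all `j` ⟹ `num ∈ π B`. -/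
theorem h18c_div_mem (π : F) (hπ0 : π ≠ 0)
    (hQEP : ∀ x : F, (∀ j, v j x ≤ 1) → π * x ∈ B → x ∈ B)
    (num : F) (hnum : num ∈ B) (h : ∀ j, v j num ≤ v j π) :
    ∃ y : B, num = π * (y : F) := by
  have hy : num / π ∈ B := by
    apply hQEP
    · intro j
      rw [map_div₀]
      have hpos : 0 < v j π := by
        rw [pos_iff_ne_zero, Ne, Valuation.zero_iff]
        exact hπ0
      exact (div_le_one₀ hpos).mpr (h j)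
    · rw [mul_div_cancel₀ _ hπ0]
      exact hnum
  exact ⟨⟨_, hy⟩, (mul_div_cancel₀ _ hπ0).symm⟩

variable (hB : ∀ b ∈ B, ∀ j, v j b ≤ 1)
  (π : F) (hπB : π ∈ B) (hπ0 : π ≠ 0)
  (E₀ : ℕ) (hπv : ∀ j, exp (-(E₀ : ℤ)) ≤ v j π)
  (hQEP : ∀ x : F, (∀ j, v j x ≤ 1) → π * x ∈ B → x ∈ B)
  (𝔫 : Ideal B) [h𝔫 : 𝔫.IsPrime] (hπ𝔫 : (⟨π, hπB⟩ : B) ∈ 𝔫)
  (i₀ : ι) (u : B) (hu : u ∉ 𝔫) (huv : ∀ j, j ≠ i₀ → v j (u : F) < 1)

include hB hπv huv in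
/-- the basic estimate: `v j (a · u ^ E₀) ≤ v j π` for `j ≠ i₀`, `a ∈ B`. -/
theorem h18c_est_ne (a : F) (ha : a ∈ B) (j : ι) (hj : j ≠ i₀) :
    v j (a * (u : F) ^ E₀) ≤ v j π := by
  rw [map_mul, map_pow]
  calc v j a * v j (u : F) ^ E₀ ≤ 1 * exp (-(E₀ : ℤ)) :=
        mul_le_mul' (hB a ha j) (h18c_pow_le_exp (huv j hj) E₀)
    _ = exp (-(E₀ : ℤ)) := one_mul _
    _ ≤ v j π := hπv j

include hB hπ0 hπv hQEP h𝔫 hπ𝔫 hu huv in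
/-- the component `i₀` passes through `𝔫`. -/
theorem h18c_small_mem (x : B) (hx : v i₀ (x : F) < 1) : x ∈ 𝔫 := by
  classical
  have hux : ∀ j, v j ((u : F) * x) < 1 := by
    intro j
    rw [map_mul]
    by_cases hj : j = i₀
    · subst hj
      calc v j (u : F) * v j (x : F) ≤ 1 * v j (x : F) :=
            mul_le_mul' (hB _ u.2 j) le_rfl
        _ = v j (x : F) := one_mul _
        _ < 1 := hx
    · calc v j (u : F) * v j (x : F) ≤ v j (u : F) * 1 :=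
            mul_le_mul' le_rfl (hB _ x.2 j)
        _ = v j (u : F) := mul_one _
        _ < 1 := huv j hj
  have hnum : ∀ j, v j (((u : F) * x) ^ E₀) ≤ v j π := by
    intro j
    rw [map_pow]
    exact (h18c_pow_le_exp (hux j) E₀).trans (hπv j)
  obtain ⟨y, hy⟩ := h18c_div_mem v B π hπ0 hQEP (((u : F) * x) ^ E₀)
    (pow_mem (mul_mem u.2 x.2) _) hnum
  have h1 : (u * x) ^ E₀ = ⟨π, hπB⟩ * y := by
    apply Subtype.ext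
    push_cast
    exact hy
  have h2 : (u * x) ^ E₀ ∈ 𝔫 := by
    rw [h1]
    exact 𝔫.mul_mem_right _ hπ𝔫
  have h3 : u * x ∈ 𝔫 := h𝔫.mem_of_pow_mem _ h2
  exact (h𝔫.mem_or_mem h3).resolve_left hu

variable (S S' p : B) (hSS : (S : F) * S' = π * p) (hp : p ∉ 𝔫)
  (hSv : v i₀ (S : F) = exp (-1 : ℤ))

include hB hπ0 hπv hQEP h𝔫 hu huv hSS hp hSv in
/-- **the vertical prime is principal at `𝔫`.** -/
theorem h18c_princ (x : B) (hx : v i₀ (x : F) < 1) :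
    ∃ s : B, s ∉ 𝔫 ∧ s * x ∈ Ideal.span {S} := by
  classical
  -- the numerator `x · S' · u ^ E₀`
  have hvS' : exp (-1 : ℤ) * v i₀ (S' : F) = v i₀ π * v i₀ (p : F) := by
    rw [← hSv, ← map_mul, ← map_mul, hSS]
  have hnum : ∀ j, v j ((x : F) * S' * (u : F) ^ E₀) ≤ v j π := by
    intro j
    by_cases hj : j = i₀
    · subst hj
      rw [map_mul, map_mul, map_pow]
      have h1 : v j (x : F) * v j (S' : F) ≤ v j π := by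
        calc v j (x : F) * v j (S' : F) ≤ exp (-1 : ℤ) * v j (S' : F) :=
              mul_le_mul' (h18c_le_exp_of_lt_one hx) le_rfl
          _ = v j π * v j (p : F) := hvS'
          _ ≤ v j π * 1 := mul_le_mul' le_rfl (hB _ p.2 j)
          _ = v j π := mul_one _
      calc v j (x : F) * v j (S' : F) * v j (u : F) ^ E₀ ≤ v j π * 1 :=
            mul_le_mul' h1 (pow_le_one' (hB _ u.2 j) _)
        _ = v j π := mul_one _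
    · exact h18c_est_ne v B hB π E₀ hπv i₀ u huv _ (mul_mem x.2 S'.2) j hj
  obtain ⟨y, hy⟩ := h18c_div_mem v B π hπ0 hQEP _
    (mul_mem (mul_mem x.2 S'.2) (pow_mem u.2 _)) hnum
  refine ⟨p * u ^ E₀, fun h => (h𝔫.mem_or_mem h).elim hp (fun h' => hu (h𝔫.mem_of_pow_mem _ h')),
    ?_⟩
  have h2 : p * u ^ E₀ * x = y * S := by
    apply Subtype.ext
    push_cast
    have h3 : π * ((p : F) * (u : F) ^ E₀ * x) = π * ((y : F) * S) := by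
      calc π * ((p : F) * (u : F) ^ E₀ * x) = (x : F) * (u : F) ^ E₀ * (π * p) := by ring
        _ = (x : F) * (u : F) ^ E₀ * ((S : F) * S') := by rw [hSS]
        _ = (S : F) * ((x : F) * S' * (u : F) ^ E₀) := by ring
        _ = (S : F) * (π * y) := by rw [hy]
        _ = π * ((y : F) * S) := by ring
    exact mul_left_cancel₀ hπ0 h3
  rw [h2]
  exact Ideal.mul_mem_left _ _ (Ideal.mem_span_singleton_self _)

include hB hπ0 hπv hQEP h𝔫 hu huv hSv in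
/-- **ramification**: `s · S ^ e = c · π` with `s ∉ 𝔫`. -/
theorem h18c_ram (e : ℕ) (hπi : v i₀ π = exp (-(e : ℤ))) :
    ∃ s c : B, s ∉ 𝔫 ∧ s * S ^ e = c * ⟨π, hπB⟩ := by
  classical
  have hnum : ∀ j, v j ((S : F) ^ e * (u : F) ^ E₀) ≤ v j π := by
    intro j
    by_cases hj : j = i₀
    · subst hj
      rw [map_mul, map_pow, map_pow, hSv, hπi]
      have h1 : exp (-1 : ℤ) ^ e = exp (-(e : ℤ)) := by
        rw [← exp_nsmul]; simp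
      rw [h1]
      calc exp (-(e : ℤ)) * v j (u : F) ^ E₀ ≤ exp (-(e : ℤ)) * 1 :=
            mul_le_mul' le_rfl (pow_le_one' (hB _ u.2 j) _)
        _ = exp (-(e : ℤ)) := mul_one _
    · exact h18c_est_ne v B hB π E₀ hπv i₀ u huv _ (pow_mem S.2 _) j hj
  obtain ⟨y, hy⟩ := h18c_div_mem v B π hπ0 hQEP _
    (mul_mem (pow_mem S.2 _) (pow_mem u.2 _)) hnum
  refine ⟨u ^ E₀, y, fun h' => hu (h𝔫.mem_of_pow_mem _ h'), ?_⟩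
  apply Subtype.ext
  push_cast
  rw [mul_comm ((u : F) ^ E₀), hy, mul_comm]

end Abs

/-! ## The contraction along a map into the local ring -/

section Contr

variable {F : Type*} [Field F] (B : Subring F) (𝔫 : Ideal B)
  {F' : Type*} [Field F'] (Λ : Subring F') (φ : F' →+* F)

/-- the contraction of `𝔫 B_𝔫` along `φ : Λ → B_𝔫 ⊆ F`. -/
def h18c_contr [h𝔫 : 𝔫.IsPrime] (hloc : ∀ x : Λ, ∃ s : B, s ∉ 𝔫 ∧ (s : F) * φ x ∈ B) :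
    Ideal Λ where
  carrier := {x | ∃ s : B, s ∉ 𝔫 ∧ ∃ b ∈ 𝔫, ((b : B) : F) = (s : F) * φ x}
  zero_mem' := ⟨1, (Ideal.ne_top_iff_one 𝔫).mp h𝔫.ne_top, 0, 𝔫.zero_mem, by simp⟩
  add_mem' := by
    rintro x₁ x₂ ⟨s₁, hs₁, b₁, hb₁, e₁⟩ ⟨s₂, hs₂, b₂, hb₂, e₂⟩
    refine ⟨s₁ * s₂, fun h => (h𝔫.mem_or_mem h).elim hs₁ hs₂, s₂ * b₁ + s₁ * b₂,
      𝔫.add_mem (𝔫.mul_mem_left _ hb₁) (𝔫.mul_mem_left _ hb₂), ?_⟩
    push_cast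
    rw [e₁, e₂, map_add]
    ring
  smul_mem' := by
    rintro c x ⟨s, hs, b, hb, e⟩
    obtain ⟨sc, hsc, hc⟩ := hloc c
    refine ⟨sc * s, fun h => (h𝔫.mem_or_mem h).elim hsc hs, ⟨_, hc⟩ * b,
      𝔫.mul_mem_left _ hb, ?_⟩
    push_cast
    rw [e, smul_eq_mul]
    push_cast
    rw [map_mul]
    ring

theorem h18c_mem_contr [h𝔫 : 𝔫.IsPrime] (hloc : ∀ x : Λ, ∃ s : B, s ∉ 𝔫 ∧ (s : F) * φ x ∈ B)
    (x : Λ) : x ∈ h18c_contr B 𝔫 Λ φ hloc ↔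
      ∃ s : B, s ∉ 𝔫 ∧ ∃ b ∈ 𝔫, ((b : B) : F) = (s : F) * φ x := Iff.rfl

/-- an element outside the contraction has every numerator outside `𝔫`. -/
theorem h18c_not_mem_of_not_mem_contr [h𝔫 : 𝔫.IsPrime]
    (hloc : ∀ x : Λ, ∃ s : B, s ∉ 𝔫 ∧ (s : F) * φ x ∈ B) {x : Λ}
    (hx : x ∉ h18c_contr B 𝔫 Λ φ hloc) {s b : B} (hs : s ∉ 𝔫) (e : (b : F) = (s : F) * φ x) :
    b ∉ 𝔫 := fun hb => hx ⟨s, hs, b, hb, e⟩

/-- the contraction is a prime ideal. -/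
theorem h18c_contr_isPrime [h𝔫 : 𝔫.IsPrime]
    (hloc : ∀ x : Λ, ∃ s : B, s ∉ 𝔫 ∧ (s : F) * φ x ∈ B) :
    (h18c_contr B 𝔫 Λ φ hloc).IsPrime := by
  rw [Ideal.isPrime_iff]
  refine ⟨?_, ?_⟩
  · rw [Ideal.ne_top_iff_one]
    rintro ⟨s, hs, b, hb, e⟩
    apply hs
    have h1 : b = s := by
      apply Subtype.ext
      rw [e]
      simp
    rw [← h1]
    exact hb
  · intro x y hxy
    obtain ⟨s, hs, b, hb, e⟩ := hxy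
    obtain ⟨sx, hsx, hbx⟩ := hloc x
    obtain ⟨sy, hsy, hby⟩ := hloc y
    have h1 : (⟨_, hbx⟩ : B) * ⟨_, hby⟩ * s = sx * sy * b := by
      apply Subtype.ext
      push_cast
      rw [e]
      push_cast
      rw [map_mul]
      ring
    have h2 : (⟨_, hbx⟩ : B) * ⟨_, hby⟩ * s ∈ 𝔫 := by
      rw [h1]
      exact 𝔫.mul_mem_left _ hb
    rcases h𝔫.mem_or_mem h2 with h | h
    · rcases h𝔫.mem_or_mem h with h | h
      · exact Or.inl ⟨sx, hsx, _, h, rfl⟩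
      · exact Or.inr ⟨sy, hsy, _, h, rfl⟩
    · exact absurd h hs

end Contr

/-! ## The transfer -/

section Transfer

variable {F : Type*} [Field F] {ι : Type*} (v : ι → Valuation F ℤᵐ⁰) (B : Subring F)
  (𝔫 : Ideal B) [h𝔫 : 𝔫.IsPrime] (i₀ : ι)
  {F' : Type*} [Field F'] (Λ : Subring F') (φ : F' →+* F)

include h𝔫 in
/-- **the transfer of the local parameter.**  `J = {v i₀ < 1} ∩ B` is `(S)` locally at `𝔫`
(`hJ`), contains `π` (`hπJ`), `B = φ (Λ) + J` locally at `𝔫` (`hsurj`) and the primes of `Λ`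
over `(π', τ')` have a local parameter (`hLP`).  Then `𝔫 = (S, t)` locally at `𝔫`. -/
theorem h18c_transfer (hB0 : ∀ b : B, v i₀ (b : F) ≤ 1)
    (π : B) (S : B) (hπJ : v i₀ (π : F) < 1)
    (hJ𝔫 : ∀ x : B, v i₀ (x : F) < 1 → x ∈ 𝔫)
    (hJ : ∀ x : B, v i₀ (x : F) < 1 → ∃ s : B, s ∉ 𝔫 ∧ s * x ∈ Ideal.span {S})
    (π' τ' : Λ) (hφπ : φ (π' : F') = (π : F))
    (hτ : ∃ s : B, s ∉ 𝔫 ∧ ∃ b ∈ 𝔫, ((b : B) : F) = (s : F) * φ (τ' : F'))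
    (hloc : ∀ x : Λ, ∃ s : B, s ∉ 𝔫 ∧ (s : F) * φ x ∈ B)
    (hsurj : ∀ w ∈ 𝔫, ∃ (l : Λ) (s s' b : B), s ∉ 𝔫 ∧ s' ∉ 𝔫 ∧
      (b : F) = (s' : F) * φ (l : F') ∧ v i₀ ((s : F) * (w : F) - (b : F)) < 1)
    (hLP : ∀ 𝔰 : Ideal Λ, 𝔰.IsPrime → π' ∈ 𝔰 → τ' ∈ 𝔰 →
      ∃ t₁ ∈ 𝔰, ∀ y ∈ 𝔰, ∃ σ, σ ∉ 𝔰 ∧ σ * y ∈ Ideal.span {t₁, π'}) :
    ∃ t ∈ 𝔫, ∀ w ∈ 𝔫, ∃ s, s ∉ 𝔫 ∧ s * w ∈ Ideal.span {S, t} := by
  classical
  have hπ𝔫 : π ∈ 𝔫 := hJ𝔫 π hπJ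
  have hπ𝔰 : π' ∈ h18c_contr B 𝔫 Λ φ hloc :=
    ⟨1, (Ideal.ne_top_iff_one 𝔫).mp h𝔫.ne_top, π, hπ𝔫, by rw [hφπ]; simp⟩
  obtain ⟨t₁, ht₁, hgen⟩ := hLP (h18c_contr B 𝔫 Λ φ hloc)
    (h18c_contr_isPrime B 𝔫 Λ φ hloc) hπ𝔰 hτ
  obtain ⟨s₁, hs₁, t, ht, e₁⟩ := ht₁
  refine ⟨t, ht, fun w hw => ?_⟩
  obtain ⟨l, s, s', b, hs, hs', eb, hsmall⟩ := hsurj w hw
  -- `d = s w - b ∈ J ⊆ 𝔫`
  set d : B := s * w - b with hd
  have hdF : (d : F) = (s : F) * (w : F) - (b : F) := by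
    rw [hd]; push_cast; rfl
  have hdv : v i₀ (d : F) < 1 := by
    rw [hdF]
    exact hsmall
  have hd𝔫 : d ∈ 𝔫 := hJ𝔫 d hdv
  have hb𝔫 : b ∈ 𝔫 := by
    have h1 : b = s * w - d := by rw [hd]; ring
    rw [h1]
    exact 𝔫.sub_mem (𝔫.mul_mem_left _ hw) hd𝔫
  have hl : l ∈ h18c_contr B 𝔫 Λ φ hloc := ⟨s', hs', b, hb𝔫, eb⟩
  obtain ⟨σ, hσ, hσl⟩ := hgen l hl
  obtain ⟨a, c, hac⟩ := Ideal.mem_span_pair.mp hσl
  obtain ⟨sσ, hsσ, hbσ⟩ := hloc σ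
  have hbσ𝔫 : (⟨_, hbσ⟩ : B) ∉ 𝔫 :=
    h18c_not_mem_of_not_mem_contr B 𝔫 Λ φ hloc hσ hsσ rfl
  obtain ⟨sa, hsa, hba⟩ := hloc a
  obtain ⟨sc, hsc, hbc⟩ := hloc c
  -- `μ b = A t + C π`
  set μ : B := ⟨_, hbσ⟩ * sa * sc * s₁ with hμ
  have hμ𝔫 : μ ∉ 𝔫 := by
    intro h
    rcases h𝔫.mem_or_mem h with h | h
    · rcases h𝔫.mem_or_mem h with h | h
      · rcases h𝔫.mem_or_mem h with h | h
        · exact hbσ𝔫 h
        · exact hsa h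
      · exact hsc h
    · exact hs₁ h
  have hφ : φ (σ : F') * φ (l : F') = φ (a : F') * φ (t₁ : F') + φ (c : F') * (π : F) := by
    have h1 : φ ((a * t₁ + c * π' : Λ) : F') = φ ((σ * l : Λ) : F') :=
      congrArg (fun z : Λ => φ (z : F')) hac
    push_cast at h1
    rw [map_add, map_mul, map_mul, hφπ] at h1
    rw [← map_mul]
    exact h1.symm
  set Ac : B := sc * s' * sσ * ⟨_, hba⟩ with hAc
  set Cc : B := sa * s₁ * s' * sσ * ⟨_, hbc⟩ with hCc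
  have key : μ * b = Ac * t + Cc * π := by
    apply Subtype.ext
    rw [hμ, hAc, hCc]
    push_cast
    rw [eb, e₁]
    linear_combination ((sσ : F) * (sa : F) * (sc : F) * (s₁ : F) * (s' : F)) * hφ
  -- `j = μ d + C π ∈ J`
  set j : B := μ * d + Cc * π with hj
  have hjv : v i₀ (j : F) < 1 := by
    have hjF : (j : F) = (μ : F) * (d : F) + (Cc : F) * (π : F) := by
      rw [hj]; push_cast; rfl
    rw [hjF]
    refine lt_of_le_of_lt (Valuation.map_add _ _ _) (max_lt ?_ ?_)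
    · rw [map_mul]
      calc v i₀ (μ : F) * v i₀ (d : F) ≤ 1 * v i₀ (d : F) := mul_le_mul' (hB0 μ) le_rfl
        _ = v i₀ (d : F) := one_mul _
        _ < 1 := hdv
    · rw [map_mul]
      calc v i₀ (Cc : F) * v i₀ (π : F) ≤ 1 * v i₀ (π : F) := mul_le_mul' (hB0 Cc) le_rfl
        _ = v i₀ (π : F) := one_mul _
        _ < 1 := hπJ
  obtain ⟨sJ, hsJ, hsJj⟩ := hJ j hjv
  refine ⟨sJ * μ * s, fun h => (h𝔫.mem_or_mem h).elim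
    (fun h' => (h𝔫.mem_or_mem h').elim hsJ hμ𝔫) hs, ?_⟩
  have h3 : sJ * μ * s * w = (sJ * Ac) * t + sJ * j := by
    have h4 : μ * (s * w) = μ * b + μ * d := by rw [hd]; ring
    calc sJ * μ * s * w = sJ * (μ * (s * w)) := by ring
      _ = sJ * (μ * b + μ * d) := by rw [h4]
      _ = sJ * (Ac * t + Cc * π + μ * d) := by rw [key]
      _ = (sJ * Ac) * t + sJ * j := by rw [hj]; ring
  rw [h3]
  refine Ideal.add_mem _ (Ideal.mul_mem_left _ _ (Ideal.subset_span (by simp))) ?_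
  exact (Ideal.span_mono (by intro x hx; simp only [Set.mem_singleton_iff] at hx; simp [hx]))
    hsJj

end Transfer


/-! ## The one-branch datum -/

section Main

variable {F : Type*} [Field F] {ι : Type*} (v : ι → Valuation F ℤᵐ⁰) (B : Subring F)
  {F' : Type*} [Field F'] (Λ : Subring F') (φ : F' →+* F)

/-- **R-CUSP, abstract form: the one-branch datum.**  `𝔫 = (S, t)` locally at `𝔫` and
`s · S ^ e = c · π` with `s ∉ 𝔫`. -/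
theorem h18c_one_branch
    (hB : ∀ b ∈ B, ∀ j, v j b ≤ 1)
    (π : F) (hπB : π ∈ B) (hπ0 : π ≠ 0)
    (E₀ : ℕ) (hπv : ∀ j, exp (-(E₀ : ℤ)) ≤ v j π)
    (hQEP : ∀ x : F, (∀ j, v j x ≤ 1) → π * x ∈ B → x ∈ B)
    (𝔫 : Ideal B) [h𝔫 : 𝔫.IsPrime] (hπ𝔫 : (⟨π, hπB⟩ : B) ∈ 𝔫)
    (i₀ : ι) (e : ℕ) (he : 0 < e) (hπi : v i₀ π = exp (-(e : ℤ)))
    (u : B) (hu : u ∉ 𝔫) (huv : ∀ j, j ≠ i₀ → v j (u : F) < 1)
    (S S' p : B) (hSS : (S : F) * S' = π * p) (hp : p ∉ 𝔫)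
    (hSv : v i₀ (S : F) = exp (-1 : ℤ))
    (π' τ' : Λ) (hφπ : φ (π' : F') = π)
    (hτ : ∃ s : B, s ∉ 𝔫 ∧ ∃ b ∈ 𝔫, ((b : B) : F) = (s : F) * φ (τ' : F'))
    (hloc : ∀ x : Λ, ∃ s : B, s ∉ 𝔫 ∧ (s : F) * φ x ∈ B)
    (hsurj : ∀ w ∈ 𝔫, ∃ (l : Λ) (s s' b : B), s ∉ 𝔫 ∧ s' ∉ 𝔫 ∧
      (b : F) = (s' : F) * φ (l : F') ∧ v i₀ ((s : F) * (w : F) - (b : F)) < 1)
    (hLP : ∀ 𝔰 : Ideal Λ, 𝔰.IsPrime → π' ∈ 𝔰 → τ' ∈ 𝔰 →
      ∃ t₁ ∈ 𝔰, ∀ y ∈ 𝔰, ∃ σ, σ ∉ 𝔰 ∧ σ * y ∈ Ideal.span {t₁, π'}) :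
    S ∈ 𝔫 ∧ ∃ t ∈ 𝔫, (∀ w ∈ 𝔫, ∃ s, s ∉ 𝔫 ∧ s * w ∈ Ideal.span {S, t}) ∧
      ∃ (e' : ℕ) (s c : B), s ∉ 𝔫 ∧ s * S ^ e' = c * ⟨π, hπB⟩ := by
  have hJ𝔫 : ∀ x : B, v i₀ (x : F) < 1 → x ∈ 𝔫 := fun x hx =>
    h18c_small_mem v B hB π hπB hπ0 E₀ hπv hQEP 𝔫 hπ𝔫 i₀ u hu huv x hx
  have hS1 : v i₀ (S : F) < 1 := by
    rw [hSv, ← exp_zero, exp_lt_exp]
    norm_num
  have hπJ : v i₀ ((⟨π, hπB⟩ : B) : F) < 1 := by
    show v i₀ π < 1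
    rw [hπi, ← exp_zero, exp_lt_exp]
    have : (0 : ℤ) < e := by exact_mod_cast he
    linarith
  obtain ⟨t, ht, hgen⟩ := h18c_transfer v B 𝔫 i₀ Λ φ (fun b => hB _ b.2 i₀) ⟨π, hπB⟩ S hπJ hJ𝔫
    (fun x hx => h18c_princ v B hB π hπ0 E₀ hπv hQEP 𝔫 i₀ u hu huv S S' p hSS hp hSv x hx)
    π' τ' hφπ hτ hloc hsurj hLP
  obtain ⟨s, c, hs, hsc⟩ := h18c_ram v B hB π hπB hπ0 E₀ hπv hQEP 𝔫 i₀ u hu huv S hSv e hπi
  exact ⟨hJ𝔫 S hS1, t, ht, hgen, e, s, c, hs, hsc⟩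

/-- **R-CUSP, abstract form: `H62RegAt`.** -/
theorem h18c_regAt [IsNoetherianRing B]
    (hB : ∀ b ∈ B, ∀ j, v j b ≤ 1)
    (π : F) (hπB : π ∈ B) (hπ0 : π ≠ 0)
    (E₀ : ℕ) (hπv : ∀ j, exp (-(E₀ : ℤ)) ≤ v j π)
    (hQEP : ∀ x : F, (∀ j, v j x ≤ 1) → π * x ∈ B → x ∈ B)
    (𝔫 : Ideal B) [h𝔫 : 𝔫.IsPrime] (hπ𝔫 : (⟨π, hπB⟩ : B) ∈ 𝔫)
    (i₀ : ι) (e : ℕ) (he : 0 < e) (hπi : v i₀ π = exp (-(e : ℤ)))
    (u : B) (hu : u ∉ 𝔫) (huv : ∀ j, j ≠ i₀ → v j (u : F) < 1)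
    (S S' p : B) (hSS : (S : F) * S' = π * p) (hp : p ∉ 𝔫)
    (hSv : v i₀ (S : F) = exp (-1 : ℤ))
    (π' τ' : Λ) (hφπ : φ (π' : F') = π)
    (hτ : ∃ s : B, s ∉ 𝔫 ∧ ∃ b ∈ 𝔫, ((b : B) : F) = (s : F) * φ (τ' : F'))
    (hloc : ∀ x : Λ, ∃ s : B, s ∉ 𝔫 ∧ (s : F) * φ x ∈ B)
    (hsurj : ∀ w ∈ 𝔫, ∃ (l : Λ) (s s' b : B), s ∉ 𝔫 ∧ s' ∉ 𝔫 ∧
      (b : F) = (s' : F) * φ (l : F') ∧ v i₀ ((s : F) * (w : F) - (b : F)) < 1)
    (hLP : ∀ 𝔰 : Ideal Λ, 𝔰.IsPrime → π' ∈ 𝔰 → τ' ∈ 𝔰 →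
      ∃ t₁ ∈ 𝔰, ∀ y ∈ 𝔰, ∃ σ, σ ∉ 𝔰 ∧ σ * y ∈ Ideal.span {t₁, π'}) :
    H62RegAt 𝔫 (⟨π, hπB⟩ : B) := by
  obtain ⟨hS, t, ht, hgen, e', s, c, hs, hsc⟩ := h18c_one_branch v B Λ φ hB π hπB hπ0 E₀ hπv
    hQEP 𝔫 hπ𝔫 i₀ e he hπi u hu huv S S' p hSS hp hSv π' τ' hφπ hτ hloc hsurj hLP
  exact h62r_regAt_one 𝔫 _ S t hS ht hgen ⟨e', s, c, hs, hsc⟩

end Main

end Fermat.Agent.S36
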