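import Mathlib
import Fermat.Agent.S36.H62RegCrit
import Fermat.Agent.S36.H18CuspAbs

/-!
# S36, block REG, row R-CUSP (helper18): the abstract one-branch transfer, ring-hom form

The same statements as `S36/H18CuspAbs.lean`, for a chart `B` given as a commutative ring with an
injective ring homomorphism `incl : B →+* F` into the field `F` carrying the vertical valuations
(`F = F₀`, the functions fixed by inertia), and a lower chart `Λ` with a ring homomorphism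
`ψ : Λ →+* F`.  No subrings, no transport of ideals.

* `h18d_div_mem`, `h18d_small_mem`, `h18d_princ`, `h18d_ram`, `h18d_contr`, `h18d_transfer`,
* `h18d_one_branch` : the datum `𝔫 = (S, t)` locally, `s · S ^ e = c · π`, `s ∉ 𝔫`;
* `h18d_regAt` : `H62RegAt 𝔫 π` for noetherian `B`.

Mathlib + `H62RegCrit` + `H18CuspAbs` (two order lemmas) only.
-/

set_option autoImplicit false
set_option linter.unusedSectionVars false
set_option linter.unusedVariables false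

open WithZero

namespace Fermat.Agent.S36

section Abs

variable {F : Type*} [Field F] {ι : Type*} (v : ι → Valuation F ℤᵐ⁰)
  {B : Type*} [CommRing B] (incl : B →+* F) (hincl : Function.Injective incl)

/-- `num ∈ B`, `v j num ≤ v j π` for all `j` ⟹ `num ∈ π B`. -/
theorem h18d_div_mem (π : F) (hπ0 : π ≠ 0)
    (hQEP : ∀ x : F, (∀ j, v j x ≤ 1) → (∃ b : B, incl b = π * x) → ∃ b : B, incl b = x)
    (num : B) (h : ∀ j, v j (incl num) ≤ v j π) :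
    ∃ y : B, incl num = π * incl y := by
  have hy : ∃ b : B, incl b = incl num / π := by
    apply hQEP
    · intro j
      rw [map_div₀]
      have hpos : 0 < v j π := by
        rw [pos_iff_ne_zero, Ne, Valuation.zero_iff]
        exact hπ0
      exact (div_le_one₀ hpos).mpr (h j)
    · exact ⟨num, by rw [mul_div_cancel₀ _ hπ0]⟩
  obtain ⟨y, hy⟩ := hy
  exact ⟨y, by rw [hy, mul_div_cancel₀ _ hπ0]⟩

variable (hB : ∀ (b : B) (j : ι), v j (incl b) ≤ 1)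
  (π : B) (hπ0 : incl π ≠ 0)
  (E₀ : ℕ) (hπv : ∀ j, exp (-(E₀ : ℤ)) ≤ v j (incl π))
  (hQEP : ∀ x : F, (∀ j, v j x ≤ 1) → (∃ b : B, incl b = incl π * x) → ∃ b : B, incl b = x)
  (𝔫 : Ideal B) [h𝔫 : 𝔫.IsPrime] (hπ𝔫 : π ∈ 𝔫)
  (i₀ : ι) (u : B) (hu : u ∉ 𝔫) (huv : ∀ j, j ≠ i₀ → v j (incl u) < 1)

include hB hπv huv in
/-- the basic estimate: `v j (a · u ^ E₀) ≤ v j π` for `j ≠ i₀`, `a ∈ B`. -/
theorem h18d_est_ne (a : B) (j : ι) (hj : j ≠ i₀) :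
    v j (incl (a * u ^ E₀)) ≤ v j (incl π) := by
  rw [map_mul, map_pow, map_mul, map_pow]
  calc v j (incl a) * v j (incl u) ^ E₀ ≤ 1 * exp (-(E₀ : ℤ)) :=
        mul_le_mul' (hB a j) (h18c_pow_le_exp (huv j hj) E₀)
    _ = exp (-(E₀ : ℤ)) := one_mul _
    _ ≤ v j (incl π) := hπv j

include hincl hB hπ0 hπv hQEP h𝔫 hπ𝔫 hu huv in
/-- the component `i₀` passes through `𝔫`. -/
theorem h18d_small_mem (x : B) (hx : v i₀ (incl x) < 1) : x ∈ 𝔫 := by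
  classical
  have hux : ∀ j, v j (incl (u * x)) < 1 := by
    intro j
    rw [map_mul, map_mul]
    by_cases hj : j = i₀
    · subst hj
      calc v j (incl u) * v j (incl x) ≤ 1 * v j (incl x) :=
            mul_le_mul' (hB u j) le_rfl
        _ = v j (incl x) := one_mul _
        _ < 1 := hx
    · calc v j (incl u) * v j (incl x) ≤ v j (incl u) * 1 :=
            mul_le_mul' le_rfl (hB x j)
        _ = v j (incl u) := mul_one _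
        _ < 1 := huv j hj
  have hnum : ∀ j, v j (incl ((u * x) ^ E₀)) ≤ v j (incl π) := by
    intro j
    rw [map_pow, map_pow]
    exact (h18c_pow_le_exp (hux j) E₀).trans (hπv j)
  obtain ⟨y, hy⟩ := h18d_div_mem v incl (incl π) hπ0 hQEP ((u * x) ^ E₀) hnum
  have h1 : (u * x) ^ E₀ = π * y := by
    apply hincl
    rw [hy, map_mul]
  have h2 : (u * x) ^ E₀ ∈ 𝔫 := by
    rw [h1]
    exact 𝔫.mul_mem_right _ hπ𝔫
  have h3 : u * x ∈ 𝔫 := h𝔫.mem_of_pow_mem _ h2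
  exact (h𝔫.mem_or_mem h3).resolve_left hu

variable (S S' p : B) (hSS : S * S' = π * p) (hp : p ∉ 𝔫)
  (hSv : v i₀ (incl S) = exp (-1 : ℤ))

include hincl hB hπ0 hπv hQEP h𝔫 hu huv hSS hp hSv in
/-- **the vertical prime is principal at `𝔫`.** -/
theorem h18d_princ (x : B) (hx : v i₀ (incl x) < 1) :
    ∃ s : B, s ∉ 𝔫 ∧ s * x ∈ Ideal.span {S} := by
  classical
  have hvS' : exp (-1 : ℤ) * v i₀ (incl S') = v i₀ (incl π) * v i₀ (incl p) := by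
    rw [← hSv, ← map_mul, ← map_mul, ← map_mul, ← map_mul, hSS]
  have hnum : ∀ j, v j (incl (x * S' * u ^ E₀)) ≤ v j (incl π) := by
    intro j
    by_cases hj : j = i₀
    · subst hj
      rw [map_mul, map_mul, map_pow, map_mul, map_mul, map_pow]
      have h1 : v j (incl x) * v j (incl S') ≤ v j (incl π) := by
        calc v j (incl x) * v j (incl S') ≤ exp (-1 : ℤ) * v j (incl S') :=
              mul_le_mul' (h18c_le_exp_of_lt_one hx) le_rfl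
          _ = v j (incl π) * v j (incl p) := hvS'
          _ ≤ v j (incl π) * 1 := mul_le_mul' le_rfl (hB p j)
          _ = v j (incl π) := mul_one _
      calc v j (incl x) * v j (incl S') * v j (incl u) ^ E₀ ≤ v j (incl π) * 1 :=
            mul_le_mul' h1 (pow_le_one' (hB u j) _)
        _ = v j (incl π) := mul_one _
    · exact h18d_est_ne v incl hB π E₀ hπv i₀ u huv (x * S') j hj
  obtain ⟨y, hy⟩ := h18d_div_mem v incl (incl π) hπ0 hQEP _ hnum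
  refine ⟨p * u ^ E₀, fun h => (h𝔫.mem_or_mem h).elim hp (fun h' => hu (h𝔫.mem_of_pow_mem _ h')),
    ?_⟩
  have hy' : x * S' * u ^ E₀ = π * y := by
    apply hincl
    rw [hy, map_mul]
  have h2 : p * u ^ E₀ * x = y * S := by
    have hπ0' : π ≠ 0 := by
      rintro rfl
      exact hπ0 (map_zero _)
    have hdom : ∀ a b : B, π * a = π * b → a = b := by
      intro a b hab
      apply hincl
      have := congrArg incl hab
      rw [map_mul, map_mul] at this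
      exact mul_left_cancel₀ hπ0 this
    apply hdom
    calc π * (p * u ^ E₀ * x) = x * u ^ E₀ * (π * p) := by ring
      _ = x * u ^ E₀ * (S * S') := by rw [hSS]
      _ = S * (x * S' * u ^ E₀) := by ring
      _ = S * (π * y) := by rw [hy']
      _ = π * (y * S) := by ring
  rw [h2]
  exact Ideal.mul_mem_left _ _ (Ideal.mem_span_singleton_self _)

include hincl hB hπ0 hπv hQEP h𝔫 hu huv hSv in
/-- **ramification**: `s · S ^ e = c · π` with `s ∉ 𝔫`. -/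
theorem h18d_ram (e : ℕ) (hπi : v i₀ (incl π) = exp (-(e : ℤ))) :
    ∃ s c : B, s ∉ 𝔫 ∧ s * S ^ e = c * π := by
  classical
  have hnum : ∀ j, v j (incl (S ^ e * u ^ E₀)) ≤ v j (incl π) := by
    intro j
    by_cases hj : j = i₀
    · subst hj
      rw [map_mul, map_pow, map_pow, map_mul, map_pow, map_pow, hSv, hπi]
      have h1 : exp (-1 : ℤ) ^ e = exp (-(e : ℤ)) := by
        rw [← exp_nsmul]; simp
      rw [h1]
      calc exp (-(e : ℤ)) * v j (incl u) ^ E₀ ≤ exp (-(e : ℤ)) * 1 :=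
            mul_le_mul' le_rfl (pow_le_one' (hB u j) _)
        _ = exp (-(e : ℤ)) := mul_one _
    · exact h18d_est_ne v incl hB π E₀ hπv i₀ u huv (S ^ e) j hj
  obtain ⟨y, hy⟩ := h18d_div_mem v incl (incl π) hπ0 hQEP _ hnum
  refine ⟨u ^ E₀, y, fun h' => hu (h𝔫.mem_of_pow_mem _ h'), ?_⟩
  apply hincl
  rw [mul_comm (u ^ E₀), hy, map_mul, mul_comm]

end Abs

/-! ## The contraction along a map into the local ring -/

section Contr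

variable {F : Type*} [Field F] {B : Type*} [CommRing B] (incl : B →+* F) (𝔫 : Ideal B)
  {Λ : Type*} [CommRing Λ] (ψ : Λ →+* F)

/-- the contraction of `𝔫 B_𝔫` along `ψ : Λ → B_𝔫 ⊆ F`. -/
def h18d_contr [h𝔫 : 𝔫.IsPrime] (hloc : ∀ x : Λ, ∃ s : B, s ∉ 𝔫 ∧ ∃ b : B, incl b = incl s * ψ x) :
    Ideal Λ where
  carrier := {x | ∃ s : B, s ∉ 𝔫 ∧ ∃ b ∈ 𝔫, incl b = incl s * ψ x}
  zero_mem' := ⟨1, (Ideal.ne_top_iff_one 𝔫).mp h𝔫.ne_top, 0, 𝔫.zero_mem, by simp⟩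
  add_mem' := by
    rintro x₁ x₂ ⟨s₁, hs₁, b₁, hb₁, e₁⟩ ⟨s₂, hs₂, b₂, hb₂, e₂⟩
    refine ⟨s₁ * s₂, fun h => (h𝔫.mem_or_mem h).elim hs₁ hs₂, s₂ * b₁ + s₁ * b₂,
      𝔫.add_mem (𝔫.mul_mem_left _ hb₁) (𝔫.mul_mem_left _ hb₂), ?_⟩
    rw [map_add, map_mul, map_mul, map_mul, e₁, e₂, map_add]
    ring
  smul_mem' := by
    rintro c x ⟨s, hs, b, hb, e⟩
    obtain ⟨sc, hsc, bc, hc⟩ := hloc c
    refine ⟨sc * s, fun h => (h𝔫.mem_or_mem h).elim hsc hs, bc * b,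
      𝔫.mul_mem_left _ hb, ?_⟩
    rw [map_mul, map_mul, hc, e, smul_eq_mul, map_mul]
    ring

theorem h18d_mem_contr [h𝔫 : 𝔫.IsPrime]
    (hloc : ∀ x : Λ, ∃ s : B, s ∉ 𝔫 ∧ ∃ b : B, incl b = incl s * ψ x)
    (x : Λ) : x ∈ h18d_contr incl 𝔫 ψ hloc ↔
      ∃ s : B, s ∉ 𝔫 ∧ ∃ b ∈ 𝔫, incl b = incl s * ψ x := Iff.rfl

/-- an element outside the contraction has every numerator outside `𝔫`. -/
theorem h18d_not_mem_of_not_mem_contr [h𝔫 : 𝔫.IsPrime]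
    (hloc : ∀ x : Λ, ∃ s : B, s ∉ 𝔫 ∧ ∃ b : B, incl b = incl s * ψ x) {x : Λ}
    (hx : x ∉ h18d_contr incl 𝔫 ψ hloc) {s b : B} (hs : s ∉ 𝔫) (e : incl b = incl s * ψ x) :
    b ∉ 𝔫 := fun hb => hx ⟨s, hs, b, hb, e⟩

/-- the contraction is a prime ideal. -/
theorem h18d_contr_isPrime (hincl : Function.Injective incl) [h𝔫 : 𝔫.IsPrime]
    (hloc : ∀ x : Λ, ∃ s : B, s ∉ 𝔫 ∧ ∃ b : B, incl b = incl s * ψ x) :
    (h18d_contr incl 𝔫 ψ hloc).IsPrime := by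
  rw [Ideal.isPrime_iff]
  refine ⟨?_, ?_⟩
  · rw [Ideal.ne_top_iff_one]
    rintro ⟨s, hs, b, hb, e⟩
    apply hs
    have h1 : b = s := by
      apply hincl
      rw [e]
      simp
    rw [← h1]
    exact hb
  · intro x y hxy
    obtain ⟨s, hs, b, hb, e⟩ := hxy
    obtain ⟨sx, hsx, bx, hbx⟩ := hloc x
    obtain ⟨sy, hsy, by', hby⟩ := hloc y
    have h1 : bx * by' * s = sx * sy * b := by
      apply hincl
      rw [map_mul, map_mul, map_mul, map_mul, hbx, hby, e, map_mul]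
      ring
    have h2 : bx * by' * s ∈ 𝔫 := by
      rw [h1]
      exact 𝔫.mul_mem_left _ hb
    rcases h𝔫.mem_or_mem h2 with h | h
    · rcases h𝔫.mem_or_mem h with h | h
      · exact Or.inl ⟨sx, hsx, _, h, hbx⟩
      · exact Or.inr ⟨sy, hsy, _, h, hby⟩
    · exact absurd h hs

end Contr

/-! ## The transfer -/

section Transfer

variable {F : Type*} [Field F] {ι : Type*} (v : ι → Valuation F ℤᵐ⁰)
  {B : Type*} [CommRing B] (incl : B →+* F) (hincl : Function.Injective incl)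
  (𝔫 : Ideal B) [h𝔫 : 𝔫.IsPrime] (i₀ : ι)
  {Λ : Type*} [CommRing Λ] (ψ : Λ →+* F)

include hincl h𝔫 in
/-- **the transfer of the local parameter.** -/
theorem h18d_transfer (hB0 : ∀ b : B, v i₀ (incl b) ≤ 1)
    (π : B) (S : B) (hπJ : v i₀ (incl π) < 1)
    (hJ𝔫 : ∀ x : B, v i₀ (incl x) < 1 → x ∈ 𝔫)
    (hJ : ∀ x : B, v i₀ (incl x) < 1 → ∃ s : B, s ∉ 𝔫 ∧ s * x ∈ Ideal.span {S})
    (π' τ' : Λ) (hφπ : ψ π' = incl π)
    (hτ : ∃ s : B, s ∉ 𝔫 ∧ ∃ b ∈ 𝔫, incl b = incl s * ψ τ')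
    (hloc : ∀ x : Λ, ∃ s : B, s ∉ 𝔫 ∧ ∃ b : B, incl b = incl s * ψ x)
    (hsurj : ∀ w ∈ 𝔫, ∃ (l : Λ) (s s' b : B), s ∉ 𝔫 ∧ s' ∉ 𝔫 ∧
      incl b = incl s' * ψ l ∧ v i₀ (incl s * incl w - incl b) < 1)
    (hLP : ∀ 𝔰 : Ideal Λ, 𝔰.IsPrime → π' ∈ 𝔰 → τ' ∈ 𝔰 →
      ∃ t₁ ∈ 𝔰, ∀ y ∈ 𝔰, ∃ σ, σ ∉ 𝔰 ∧ σ * y ∈ Ideal.span {t₁, π'}) :
    ∃ t ∈ 𝔫, ∀ w ∈ 𝔫, ∃ s, s ∉ 𝔫 ∧ s * w ∈ Ideal.span {S, t} := by
  classical
  have hπ𝔫 : π ∈ 𝔫 := hJ𝔫 π hπJ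
  have hπ𝔰 : π' ∈ h18d_contr incl 𝔫 ψ hloc :=
    ⟨1, (Ideal.ne_top_iff_one 𝔫).mp h𝔫.ne_top, π, hπ𝔫, by rw [hφπ]; simp⟩
  obtain ⟨t₁, ht₁, hgen⟩ := hLP (h18d_contr incl 𝔫 ψ hloc)
    (h18d_contr_isPrime incl 𝔫 ψ hincl hloc) hπ𝔰 hτ
  obtain ⟨s₁, hs₁, t, ht, e₁⟩ := ht₁
  refine ⟨t, ht, fun w hw => ?_⟩
  obtain ⟨l, s, s', b, hs, hs', eb, hsmall⟩ := hsurj w hw
  set d : B := s * w - b with hd
  have hdF : incl d = incl s * incl w - incl b := by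
    rw [hd, map_sub, map_mul]
  have hdv : v i₀ (incl d) < 1 := by
    rw [hdF]
    exact hsmall
  have hd𝔫 : d ∈ 𝔫 := hJ𝔫 d hdv
  have hb𝔫 : b ∈ 𝔫 := by
    have h1 : b = s * w - d := by rw [hd]; ring
    rw [h1]
    exact 𝔫.sub_mem (𝔫.mul_mem_left _ hw) hd𝔫
  have hl : l ∈ h18d_contr incl 𝔫 ψ hloc := ⟨s', hs', b, hb𝔫, eb⟩
  obtain ⟨σ, hσ, hσl⟩ := hgen l hl
  obtain ⟨a, c, hac⟩ := Ideal.mem_span_pair.mp hσl
  obtain ⟨sσ, hsσ, bσ, hbσ⟩ := hloc σ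
  have hbσ𝔫 : bσ ∉ 𝔫 :=
    h18d_not_mem_of_not_mem_contr incl 𝔫 ψ hloc hσ hsσ hbσ
  obtain ⟨sa, hsa, ba, hba⟩ := hloc a
  obtain ⟨sc, hsc, bc, hbc⟩ := hloc c
  set μ : B := bσ * sa * sc * s₁ with hμ
  have hμ𝔫 : μ ∉ 𝔫 := by
    intro h
    rcases h𝔫.mem_or_mem h with h | h
    · rcases h𝔫.mem_or_mem h with h | h
      · rcases h𝔫.mem_or_mem h with h | h
        · exact hbσ𝔫 h
        · exact hsa h
      · exact hsc h
    · exact hs₁ h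
  have hφ : ψ σ * ψ l = ψ a * ψ t₁ + ψ c * incl π := by
    have h1 : ψ (a * t₁ + c * π') = ψ (σ * l) := congrArg ψ hac
    rw [map_add, map_mul, map_mul, map_mul, hφπ] at h1
    exact h1.symm
  set Ac : B := sc * s' * sσ * ba with hAc
  set Cc : B := sa * s₁ * s' * sσ * bc with hCc
  have key : μ * b = Ac * t + Cc * π := by
    apply hincl
    rw [hμ, hAc, hCc]
    simp only [map_mul, map_add]
    rw [eb, e₁, hbσ, hba, hbc]
    linear_combination (incl sσ * incl sa * incl sc * incl s₁ * incl s') * hφ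
  set j : B := μ * d + Cc * π with hj
  have hjv : v i₀ (incl j) < 1 := by
    have hjF : incl j = incl μ * incl d + incl Cc * incl π := by
      rw [hj]
      simp only [map_add, map_mul]
    rw [hjF]
    refine lt_of_le_of_lt (Valuation.map_add _ _ _) (max_lt ?_ ?_)
    · rw [map_mul]
      calc v i₀ (incl μ) * v i₀ (incl d) ≤ 1 * v i₀ (incl d) := mul_le_mul' (hB0 μ) le_rfl
        _ = v i₀ (incl d) := one_mul _
        _ < 1 := hdv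
    · rw [map_mul]
      calc v i₀ (incl Cc) * v i₀ (incl π) ≤ 1 * v i₀ (incl π) := mul_le_mul' (hB0 Cc) le_rfl
        _ = v i₀ (incl π) := one_mul _
        _ < 1 := hπJ
  obtain ⟨sJ, hsJ, hsJj⟩ := hJ j hjv
  refine ⟨sJ * μ * s, fun h => (h𝔫.mem_or_mem h).elim
    (fun h' => (h𝔫.mem_or_mem h').elim hsJ hμ𝔫) hs, ?_⟩
  have h3 : sJ * μ * s * w = (sJ * Ac) * t + sJ * j := by
    have h4 : μ * (s * w) = μ * b + μ * d := by rw [hd]; ring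
    calc sJ * μ * s * w = sJ * (μ * (s * w)) := by ring
      _ = sJ * (μ * b + μ * d) := by rw [h4]
      _ = sJ * (Ac * t + Cc * π + μ * d) := by rw [key]
      _ = (sJ * Ac) * t + sJ * j := by rw [hj]; ring
  rw [h3]
  refine Ideal.add_mem _ (Ideal.mul_mem_left _ _ (Ideal.subset_span (by simp))) ?_
  exact (Ideal.span_mono (by intro x hx; simp only [Set.mem_singleton_iff] at hx; simp [hx]))
    hsJj

end Transfer

/-! ## The one-branch datum -/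

section Main

variable {F : Type*} [Field F] {ι : Type*} (v : ι → Valuation F ℤᵐ⁰)
  {B : Type*} [CommRing B] (incl : B →+* F) (hincl : Function.Injective incl)
  {Λ : Type*} [CommRing Λ] (ψ : Λ →+* F)

include hincl in
/-- **R-CUSP, abstract form: the one-branch datum.**  `𝔫 = (S, t)` locally at `𝔫` and
`s · S ^ e = c · π` with `s ∉ 𝔫`. -/
theorem h18d_one_branch
    (hB : ∀ (b : B) (j : ι), v j (incl b) ≤ 1)
    (π : B) (hπ0 : incl π ≠ 0)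
    (E₀ : ℕ) (hπv : ∀ j, exp (-(E₀ : ℤ)) ≤ v j (incl π))
    (hQEP : ∀ x : F, (∀ j, v j x ≤ 1) → (∃ b : B, incl b = incl π * x) → ∃ b : B, incl b = x)
    (𝔫 : Ideal B) [h𝔫 : 𝔫.IsPrime] (hπ𝔫 : π ∈ 𝔫)
    (i₀ : ι) (e : ℕ) (he : 0 < e) (hπi : v i₀ (incl π) = exp (-(e : ℤ)))
    (u : B) (hu : u ∉ 𝔫) (huv : ∀ j, j ≠ i₀ → v j (incl u) < 1)
    (S S' p : B) (hSS : S * S' = π * p) (hp : p ∉ 𝔫)
    (hSv : v i₀ (incl S) = exp (-1 : ℤ))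
    (π' τ' : Λ) (hφπ : ψ π' = incl π)
    (hτ : ∃ s : B, s ∉ 𝔫 ∧ ∃ b ∈ 𝔫, incl b = incl s * ψ τ')
    (hloc : ∀ x : Λ, ∃ s : B, s ∉ 𝔫 ∧ ∃ b : B, incl b = incl s * ψ x)
    (hsurj : ∀ w ∈ 𝔫, ∃ (l : Λ) (s s' b : B), s ∉ 𝔫 ∧ s' ∉ 𝔫 ∧
      incl b = incl s' * ψ l ∧ v i₀ (incl s * incl w - incl b) < 1)
    (hLP : ∀ 𝔰 : Ideal Λ, 𝔰.IsPrime → π' ∈ 𝔰 → τ' ∈ 𝔰 →
      ∃ t₁ ∈ 𝔰, ∀ y ∈ 𝔰, ∃ σ, σ ∉ 𝔰 ∧ σ * y ∈ Ideal.span {t₁, π'}) :
    S ∈ 𝔫 ∧ ∃ t ∈ 𝔫, (∀ w ∈ 𝔫, ∃ s, s ∉ 𝔫 ∧ s * w ∈ Ideal.span {S, t}) ∧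
      ∃ (e' : ℕ) (s c : B), s ∉ 𝔫 ∧ s * S ^ e' = c * π := by
  have hJ𝔫 : ∀ x : B, v i₀ (incl x) < 1 → x ∈ 𝔫 := fun x hx =>
    h18d_small_mem v incl hincl hB π hπ0 E₀ hπv hQEP 𝔫 hπ𝔫 i₀ u hu huv x hx
  have hS1 : v i₀ (incl S) < 1 := by
    rw [hSv, ← exp_zero, exp_lt_exp]
    norm_num
  have hπJ : v i₀ (incl π) < 1 := by
    rw [hπi, ← exp_zero, exp_lt_exp]
    have : (0 : ℤ) < e := by exact_mod_cast he
    linarith
  obtain ⟨t, ht, hgen⟩ := h18d_transfer v incl hincl 𝔫 i₀ ψ (fun b => hB b i₀) π S hπJ hJ𝔫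
    (fun x hx => h18d_princ v incl hincl hB π hπ0 E₀ hπv hQEP 𝔫 i₀ u hu huv S S' p hSS hp hSv
      x hx)
    π' τ' hφπ hτ hloc hsurj hLP
  obtain ⟨s, c, hs, hsc⟩ := h18d_ram v incl hincl hB π hπ0 E₀ hπv hQEP 𝔫 i₀ u hu huv S hSv e hπi
  exact ⟨hJ𝔫 S hS1, t, ht, hgen, e, s, c, hs, hsc⟩

include hincl in
/-- **R-CUSP, abstract form: `H62RegAt`.** -/
theorem h18d_regAt [IsNoetherianRing B]
    (hB : ∀ (b : B) (j : ι), v j (incl b) ≤ 1)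
    (π : B) (hπ0 : incl π ≠ 0)
    (E₀ : ℕ) (hπv : ∀ j, exp (-(E₀ : ℤ)) ≤ v j (incl π))
    (hQEP : ∀ x : F, (∀ j, v j x ≤ 1) → (∃ b : B, incl b = incl π * x) → ∃ b : B, incl b = x)
    (𝔫 : Ideal B) [h𝔫 : 𝔫.IsPrime] (hπ𝔫 : π ∈ 𝔫)
    (i₀ : ι) (e : ℕ) (he : 0 < e) (hπi : v i₀ (incl π) = exp (-(e : ℤ)))
    (u : B) (hu : u ∉ 𝔫) (huv : ∀ j, j ≠ i₀ → v j (incl u) < 1)
    (S S' p : B) (hSS : S * S' = π * p) (hp : p ∉ 𝔫)
    (hSv : v i₀ (incl S) = exp (-1 : ℤ))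
    (π' τ' : Λ) (hφπ : ψ π' = incl π)
    (hτ : ∃ s : B, s ∉ 𝔫 ∧ ∃ b ∈ 𝔫, incl b = incl s * ψ τ')
    (hloc : ∀ x : Λ, ∃ s : B, s ∉ 𝔫 ∧ ∃ b : B, incl b = incl s * ψ x)
    (hsurj : ∀ w ∈ 𝔫, ∃ (l : Λ) (s s' b : B), s ∉ 𝔫 ∧ s' ∉ 𝔫 ∧
      incl b = incl s' * ψ l ∧ v i₀ (incl s * incl w - incl b) < 1)
    (hLP : ∀ 𝔰 : Ideal Λ, 𝔰.IsPrime → π' ∈ 𝔰 → τ' ∈ 𝔰 →
      ∃ t₁ ∈ 𝔰, ∀ y ∈ 𝔰, ∃ σ, σ ∉ 𝔰 ∧ σ * y ∈ Ideal.span {t₁, π'}) :
    H62RegAt 𝔫 π := by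
  obtain ⟨hS, t, ht, hgen, e', s, c, hs, hsc⟩ := h18d_one_branch v incl hincl ψ hB π hπ0 E₀ hπv
    hQEP 𝔫 hπ𝔫 i₀ e he hπi u hu huv S S' p hSS hp hSv π' τ' hφπ hτ hloc hsurj hLP
  exact h62r_regAt_one 𝔫 _ S t hS ht hgen ⟨e', s, c, hs, hsc⟩

end Main

end Fermat.Agent.S36
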