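import Fermat.Agent.S36.H92Chain
import Fermat.Agent.LGC.QEP28
import Fermat.Agent.Red.CH0

/-!
# S36, block (V), leaf V-QEP (helper27)

QEP at the level `M q²` with respect to the vertical ring `V = h92c_V A M q` (the functions of
`FF (M q²)` integral over the Gauss valuation ring of the level `M`, `q ∤ M`):

  `x ∈ V`, `a ≠ 0` in `A`, `a x ∈ modelAt (M q²) A t`  ⟹  `x ∈ modelAt (M q²) A t`

for `t = j`, `j⁻¹`; and the same for the charts over the inertia ring
(`h92c_Chart`, `h92c_V0`).  These are the fields `hQEP` of the gate for the three charts.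

Proof (as `LGC/QEP28.lean` at the level `M ℓ`): the coefficients of the characteristic
polynomial of `x` over `FF M` are Gauss-integral; those of `a x` are in the chart of level `M`;
QEP at the level `M` (good reduction); so `x` is integral over the chart of level `M`.
-/

set_option autoImplicit false
set_option linter.unusedSectionVars false

open AlgebraicCurve ModularCurve Polynomial

noncomputable section

namespace Fermat.Agent.S36

open Fermat.Agent.S37 Fermat.Agent.Red Fermat.Agent.Red.GV Fermat.Agent.Red.TRK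
  Fermat.Agent.LGC

variable (A : ValuationSubring Kbar) (M q : ℕ) [NeZero M] [NeZero q]

set_option synthInstance.maxHeartbeats 400000 in
set_option maxHeartbeats 1000000 in
/-- **V-QEP, abstract form**: from the valuation-ring property of `gaussV A M` and QEP at the
level `M` for the chart `t₀`. -/
theorem h27v_qep_of (t₀ : FF M)
    (hV : ∀ y : FF M, y ∈ gaussV A M ∨ y⁻¹ ∈ gaussV A M)
    (hQ : ∀ y : FF M, y ∈ gaussV A M → ∀ c : Kbar, c ∈ A → c ≠ 0 →
      cst M c * y ∈ modelAt M A t₀ → y ∈ modelAt M A t₀)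
    (a : Kbar) (haA : a ∈ A) (ha : a ≠ 0) (x : FF (M * q * q)) (hx : x ∈ h92c_V A M q)
    (hax : cst (M * q * q) a * x ∈ modelAt (M * q * q) A (degen (h92c_dvd M q) t₀)) :
    x ∈ modelAt (M * q * q) A (degen (h92c_dvd M q) t₀) := by
  set φ : FF M →ₐ[Kbar] FF (M * q * q) := degen (h92c_dvd M q) with hφ
  have hfin : FiniteAlong Kbar φ := Fermat.Agent.Red.CH0.finiteAlong_degen (h92c_dvd M q)
  -- (1) the coefficients of the characteristic polynomial of `x` are Gauss-integral
  have h1 : ∀ m, (charpolyAlong φ hfin x).coeff m ∈ gaussV A M :=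
    fun m => h28q_coeff_mem_of_isIntegral φ hfin (gaussV A M) hV x hx m
  -- (2) the coefficients of the characteristic polynomial of `a x` are in the chart
  have h2 : ∀ m, (charpolyAlong φ hfin (cst (M * q * q) a * x)).coeff m ∈ modelAt M A t₀ :=
    fun m => h87_coeff_mem_modelAt φ hfin A t₀ hax m
  -- (3) scaling
  have hca : cst M a ≠ 0 := by
    rw [Ne, map_eq_zero_iff _ (algebraMap Kbar (FF M)).injective]
    exact ha
  have hcst : φ (cst M a) = cst (M * q * q) a := φ.commutes a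
  -- (4) the coefficients of the characteristic polynomial of `x` are in the chart
  have h4 : ∀ m, (charpolyAlong φ hfin x).coeff m ∈ modelAt M A t₀ := by
    intro m
    obtain ⟨k, hk⟩ := h28q_charpolyAlong_coeff_mul φ hfin (cst M a) hca x m
    have h5 := h2 m
    rw [← hcst, hk, ← map_pow] at h5
    exact hQ _ (h1 m) _ (pow_mem haA _) (pow_ne_zero _ ha) h5
  -- (5) `x` is integral over the chart of level `M`
  exact h28q_isIntegral_of_root φ (ringAdj M A t₀) (ringAdj (M * q * q) A (φ t₀))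
    (fun y hy => Fermat.Agent.Red.KR.map_mem_modelAt φ A hy)
    _ (charpolyAlong_monic _ hfin x) h4 x
    (h44g_eval₂_charpolyAlong φ hfin x)

variable {q}

/-- **V-QEP, finite chart** `t = j`. -/
theorem h27v_qep_fin (hq : q.Prime) (hM : ¬ q ∣ M) (hA : A.LiesOverPrime q)
    (a : Kbar) (haA : a ∈ A) (ha : a ≠ 0) (x : FF (M * q * q)) (hx : x ∈ h92c_V A M q)
    (hax : cst (M * q * q) a * x ∈ modelAt (M * q * q) A (jB (M * q * q))) :
    x ∈ modelAt (M * q * q) A (jB (M * q * q)) := by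
  have hj : degen (h92c_dvd M q) (jB M) = jB (M * q * q) :=
    Fermat.Agent.Red.CH0.degen_jBar (h92c_dvd M q)
  rw [← hj] at hax ⊢
  exact h27v_qep_of A M q (jB M) (mem_or_inv_mem_gaussV A M hq hM hA)
    (fun y hy c hcA hc hcy => mem_modelFin_of_cst_mul A M hq hM hA y hy c hcA hc hcy)
    a haA ha x hx hax

/-- **V-QEP, chart at infinity** `t = j⁻¹`. -/
theorem h27v_qep_inf (hq : q.Prime) (hM : ¬ q ∣ M) (hA : A.LiesOverPrime q)
    (a : Kbar) (haA : a ∈ A) (ha : a ≠ 0) (x : FF (M * q * q)) (hx : x ∈ h92c_V A M q)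
    (hax : cst (M * q * q) a * x ∈ modelAt (M * q * q) A (jB (M * q * q))⁻¹) :
    x ∈ modelAt (M * q * q) A (jB (M * q * q))⁻¹ := by
  have hj : degen (h92c_dvd M q) (jB M)⁻¹ = (jB (M * q * q))⁻¹ := by
    rw [map_inv₀, Fermat.Agent.Red.CH0.degen_jBar (h92c_dvd M q)]
  rw [← hj] at hax ⊢
  exact h27v_qep_of A M q (jB M)⁻¹ (mem_or_inv_mem_gaussV A M hq hM hA)
    (fun y hy c hcA hc hcy => mem_modelInf_of_cst_mul A M hq hM hA y hy c hcA hc hcy)
    a haA ha x hx hax

/-- **V-QEP for the charts over the inertia ring**, finite chart: `x ∈ V₀`, `a x ∈ B₀(j)`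
⟹ `x ∈ B₀(j)`. -/
theorem h27v_qep_chart_fin (hq : q.Prime) (hM : ¬ q ∣ M) (hA : A.LiesOverPrime q)
    (a : Kbar) (haA : a ∈ A) (ha : a ≠ 0) (x : FF (M * q * q)) (hx : x ∈ h92c_V0 A M q)
    (hax : cst (M * q * q) a * x ∈ h92c_Chart A (M * q * q) (jB (M * q * q))) :
    x ∈ h92c_Chart A (M * q * q) (jB (M * q * q)) :=
  ⟨h27v_qep_fin A M hq hM hA a haA ha x hx.1 hax.1, hx.2⟩

/-- **V-QEP for the charts over the inertia ring**, chart at infinity. -/
theorem h27v_qep_chart_inf (hq : q.Prime) (hM : ¬ q ∣ M) (hA : A.LiesOverPrime q)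
    (a : Kbar) (haA : a ∈ A) (ha : a ≠ 0) (x : FF (M * q * q)) (hx : x ∈ h92c_V0 A M q)
    (hax : cst (M * q * q) a * x ∈ h92c_Chart A (M * q * q) (jB (M * q * q))⁻¹) :
    x ∈ h92c_Chart A (M * q * q) (jB (M * q * q))⁻¹ :=
  ⟨h27v_qep_inf A M hq hM hA a haA ha x hx.1 hax.1, hx.2⟩

/-- the modulus `q`: `x ∈ V₀`, `q x ∈ B₀(t)` ⟹ `x ∈ B₀(t)` (`t = j`). -/
theorem h27v_qep_q_fin (hq : q.Prime) (hM : ¬ q ∣ M) (hA : A.LiesOverPrime q)
    (x : FF (M * q * q)) (hx : x ∈ h92c_V0 A M q)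
    (hax : (q : FF (M * q * q)) * x ∈ h92c_Chart A (M * q * q) (jB (M * q * q))) :
    x ∈ h92c_Chart A (M * q * q) (jB (M * q * q)) := by
  have hqA : ((q : ℕ) : Kbar) ∈ A := natCast_mem A q
  have hq0 : ((q : ℕ) : Kbar) ≠ 0 := Nat.cast_ne_zero.mpr hq.ne_zero
  have hc : cst (M * q * q) ((q : ℕ) : Kbar) = (q : FF (M * q * q)) := map_natCast _ q
  rw [← hc] at hax
  exact h27v_qep_chart_fin A M hq hM hA _ hqA hq0 x hx hax

/-- the modulus `q`, chart at infinity. -/
theorem h27v_qep_q_inf (hq : q.Prime) (hM : ¬ q ∣ M) (hA : A.LiesOverPrime q)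
    (x : FF (M * q * q)) (hx : x ∈ h92c_V0 A M q)
    (hax : (q : FF (M * q * q)) * x ∈ h92c_Chart A (M * q * q) (jB (M * q * q))⁻¹) :
    x ∈ h92c_Chart A (M * q * q) (jB (M * q * q))⁻¹ := by
  have hqA : ((q : ℕ) : Kbar) ∈ A := natCast_mem A q
  have hq0 : ((q : ℕ) : Kbar) ≠ 0 := Nat.cast_ne_zero.mpr hq.ne_zero
  have hc : cst (M * q * q) ((q : ℕ) : Kbar) = (q : FF (M * q * q)) := map_natCast _ q
  rw [← hc] at hax
  exact h27v_qep_chart_inf A M hq hM hA _ hqA hq0 x hx hax

end Fermat.Agent.S36
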