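import Fermat.Agent.S36.H18CuspIface
import Fermat.Agent.S36.H18CuspAbs2
import Fermat.Agent.S36.H27VQep
import Fermat.Agent.S36.H83EmbGal
import Fermat.Agent.Red.ModelO.ValCrit

/-!
# S36, block REG, row R-CUSP-ASM (helper18): the cusp case of REG from its leaves

`h18c_cuspAssembly : H18cCuspAssembly` (the frozen `Prop` of `S36/H18CuspIface.lean`): from the
embeddings (`H20EmbExists`), the packaged vertical valuations (`H74Val`), completeness
(`H20VComplete`) and the eight cusp leaves, the one-branch datum at every cusp of the chart at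
infinity of level `M q²` over the inertia ring.  Proof: instantiate the abstract one-branch
transfer `h18d_one_branch` (`S36/H18CuspAbs2.lean`) with `F = F₀`, `B = B₀`, `Λ = Λ₀`,
`ψ = αα` or `ββ`, at the component selected by the partition of unity.
-/

set_option autoImplicit false
set_option linter.unusedVariables false
set_option linter.unusedSectionVars false

open AlgebraicCurve ModularCurve WithZero

noncomputable section

namespace Fermat.Agent.S36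

open Fermat.Agent.S37 (Kbar GQ FF cst gal jB auxLevel)
open Fermat.Agent.Red.GV.Soft (softOT softV)
open Fermat.Agent.S36.V28 (h28v_F0 h28v_IFixed)

/-! ## Order lemmas -/

/-- in `ℤᵐ⁰`: `x ^ n = exp (-n)`, `0 < n` ⟹ `x = exp (-1)`. -/
theorem h18a_eq_exp_of_pow (x : ℤᵐ⁰) (n : ℕ) (hn : 0 < n)
    (h : x ^ n = exp (-(n : ℤ))) : x = exp (-1 : ℤ) := by
  have hx0 : x ≠ 0 := by
    rintro rfl
    rw [zero_pow hn.ne'] at h
    exact (WithZero.exp_ne_zero).symm h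
  obtain ⟨k, rfl⟩ : ∃ k : ℤ, x = exp k := ⟨WithZero.log x, (WithZero.exp_log hx0).symm⟩
  rw [← WithZero.exp_nsmul, WithZero.exp_inj] at h
  rw [WithZero.exp_inj]
  have hn' : (n : ℤ) ≠ 0 := by exact_mod_cast hn.ne'
  have h2 : (n : ℤ) * k = (n : ℤ) * (-1) := by
    rw [nsmul_eq_mul] at h
    rw [h]; ring
  exact mul_left_cancel₀ hn' h2

/-- glue: smallness in the Gauss ring gives value `< 1`. -/
theorem h18a_lt_one {F L : Type*} [Field F] [Field L] (w : Valuation F ℤᵐ⁰) (G : Subring L)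
    (E : F →+* L) (hw : ∀ y : F, w y ≤ 1 ↔ E y ∈ G) (x : F)
    (hs : E x ∈ G ∧ (E x = 0 ∨ (E x)⁻¹ ∉ G)) : w x < 1 := by
  by_contra hlt
  rw [not_lt] at hlt
  have hx0 : x ≠ 0 := by
    rintro rfl
    rw [map_zero] at hlt
    exact absurd hlt (by simp)
  have hwx0 : w x ≠ 0 := by
    rw [Ne, Valuation.zero_iff]; exact hx0
  have hinv : w x⁻¹ ≤ 1 := by
    rw [map_inv₀]
    exact inv_le_one_of_one_le₀ hlt
  have hE := (hw x⁻¹).mp hinv
  rw [map_inv₀] at hE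
  rcases hs.2 with h0 | h1
  · exact hx0 ((map_eq_zero E).mp h0)
  · exact h1 hE

/-! ## The maps -/

/-- the inclusion of a chart over the inertia ring into the field of fixed functions. -/
def h18a_incl (A : ValuationSubring Kbar) (N : ℕ) (t : FF N) :
    h62rChart A N t →+* h28v_F0 A N :=
  (h62rChart A N t).subtype.codRestrict (h28v_F0 A N) (fun b => b.2.2)

theorem h18a_incl_coe (A : ValuationSubring Kbar) (N : ℕ) (t : FF N) (b : h62rChart A N t) :
    ((h18a_incl A N t b : h28v_F0 A N) : FF N) = (b : FF N) := rfl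

theorem h18a_incl_inj (A : ValuationSubring Kbar) (N : ℕ) (t : FF N) :
    Function.Injective (h18a_incl A N t) := by
  intro a b h
  apply Subtype.ext
  have h1 : ((h18a_incl A N t a : h28v_F0 A N) : FF N) = ((h18a_incl A N t b : h28v_F0 A N) : FF N) :=
    congrArg Subtype.val h
  exact h1

section Level

variable (A : ValuationSubring Kbar) (M q : ℕ) [NeZero M] [NeZero q]

theorem h18a_aa_fixed (l : FF M) (hl : ∀ σ ∈ A.inertiaSubgroupIn ℚ, gal M σ • l = l) :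
    h18c_aa M q l ∈ h28v_F0 A (M * q * q) := by
  intro σ hσ
  show gal (M * q * q) σ • (heckeAlphaBar Kbar (M * q) q (heckeAlphaBar Kbar M q l)) = _
  rw [h83g_gal_alpha, h83g_gal_alpha, hl σ hσ]
  rfl

theorem h18a_bb_fixed (l : FF M) (hl : ∀ σ ∈ A.inertiaSubgroupIn ℚ, gal M σ • l = l) :
    h18c_bb M q l ∈ h28v_F0 A (M * q * q) := by
  intro σ hσ
  show gal (M * q * q) σ • (heckeBetaBar Kbar (M * q) q (heckeBetaBar Kbar M q l)) = _
  rw [h83g_gal_beta, h83g_gal_beta, hl σ hσ]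
  rfl

/-- `αα` on the chart at infinity of level `M`, with values in the fixed functions. -/
def h18a_psiA : h62rChart A M (jB M)⁻¹ →+* h28v_F0 A (M * q * q) :=
  ((h18c_aa M q).comp (h62rChart A M (jB M)⁻¹).subtype).codRestrict (h28v_F0 A (M * q * q))
    (fun l => h18a_aa_fixed A M q (l : FF M) l.2.2)

/-- `ββ` on the chart at infinity of level `M`, with values in the fixed functions. -/
def h18a_psiB : h62rChart A M (jB M)⁻¹ →+* h28v_F0 A (M * q * q) :=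
  ((h18c_bb M q).comp (h62rChart A M (jB M)⁻¹).subtype).codRestrict (h28v_F0 A (M * q * q))
    (fun l => h18a_bb_fixed A M q (l : FF M) l.2.2)

theorem h18a_psiA_coe (l : h62rChart A M (jB M)⁻¹) :
    ((h18a_psiA A M q l : h28v_F0 A (M * q * q)) : FF (M * q * q)) = h18c_aa M q (l : FF M) :=
  rfl

theorem h18a_psiB_coe (l : h62rChart A M (jB M)⁻¹) :
    ((h18a_psiB A M q l : h28v_F0 A (M * q * q)) : FF (M * q * q)) = h18c_bb M q (l : FF M) :=
  rfl

/-- `1/j` of level `M` as an element of the chart at infinity. -/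
def h18a_tau (N : ℕ) [NeZero N] : h62rChart A N (jB N)⁻¹ :=
  ⟨(jB N)⁻¹, Fermat.Agent.Red.ModelO.h85_self_mem_modelAt N A (jB N)⁻¹,
    fun σ _ => Fermat.Agent.S37.GalI.gal_smul_jB_inv σ⟩

theorem h18a_aa_jinv : h18c_aa M q (jB M)⁻¹ = (jB (M * q * q))⁻¹ := by
  show heckeAlphaBar Kbar (M * q) q (heckeAlphaBar Kbar M q (jB M)⁻¹) = _
  rw [map_inv₀, map_inv₀]
  have h1 : heckeAlphaBar Kbar M q (jB M) = jB (M * q) :=
    Fermat.Agent.Red.HKMod.heckeAlphaBar_jBar M q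
  have h2 : heckeAlphaBar Kbar (M * q) q (jB (M * q)) = jB (M * q * q) :=
    Fermat.Agent.Red.HKMod.heckeAlphaBar_jBar (M * q) q
  rw [h1, h2]

end Level

/-! ## The assembly -/

set_option maxHeartbeats 1600000 in
set_option synthInstance.maxHeartbeats 400000 in
/-- **R-CUSP-ASM.**  The cusp case of REG from its leaves. -/
theorem h18c_cuspAssembly : H18cCuspAssembly := by
  intro hEmb hVal hComp hInt hPart hRes20 hRes11 hRes02 hUnit hLPM hBeta q hq M _ hqM haux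
  have : NeZero q := ⟨hq.ne_zero⟩
  intro A hA 𝔫 hcusp
  have : NeZero ((q : ℕ) : Kbar) := ⟨by exact_mod_cast hq.ne_zero⟩
  obtain ⟨ζ, hζ⟩ := HasEnoughRootsOfUnity.exists_primitiveRoot Kbar q
  obtain ⟨E11, hE11⟩ := (hEmb q hq M hqM).1 ζ hζ.pow_eq_one (hζ.ne_one hq.one_lt)
  obtain ⟨E02, hE02⟩ := (hEmb q hq M hqM).2
  have hT : h20v_Triple M q hq hqM ζ E11 E02 := ⟨hζ, hE11, hE02⟩
  obtain ⟨Wv, hW0, hW1, hW2, hq0, hq1, hq2, -, -, -⟩ :=
    hVal q hq M hqM A hA ζ hζ E11 hE11 E02 hE02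
  -- the chart is Gauss-integral
  have hB : ∀ (b : h62rChart A (M * q * q) (jB (M * q * q))⁻¹) (j : Fin 3),
      Wv j (h18a_incl A (M * q * q) (jB (M * q * q))⁻¹ b) ≤ 1 := by
    intro b j
    obtain ⟨h0, h1, h2⟩ := hInt q hq M hqM haux A hA ζ E11 E02 hT (b : FF (M * q * q)) b.2
    fin_cases j
    · exact (hW0 _).mpr h0
    · exact (hW1 _).mpr h1
    · exact (hW2 _).mpr h2
  -- the uniformiser `q`
  have hinclq : h18a_incl A (M * q * q) (jB (M * q * q))⁻¹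
      ((q : ℕ) : h62rChart A (M * q * q) (jB (M * q * q))⁻¹) =
      ((q : ℕ) : h28v_F0 A (M * q * q)) := map_natCast _ q
  have hπ0 : h18a_incl A (M * q * q) (jB (M * q * q))⁻¹
      ((q : ℕ) : h62rChart A (M * q * q) (jB (M * q * q))⁻¹) ≠ 0 := by
    rw [hinclq]
    intro h0
    rw [h0, map_zero] at hq0
    exact WithZero.exp_ne_zero hq0.symm
  have hq2' : 2 ≤ q := hq.two_le
  have hcastq : (((q - 1 : ℕ) : ℕ) : ℤ) = (q : ℤ) - 1 := by
    rw [Nat.cast_sub hq.one_lt.le]; rfl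
  have hπv : ∀ j : Fin 3, exp (-(((q - 1 : ℕ) : ℕ) : ℤ)) ≤
      Wv j (h18a_incl A (M * q * q) (jB (M * q * q))⁻¹
        ((q : ℕ) : h62rChart A (M * q * q) (jB (M * q * q))⁻¹)) := by
    intro j
    rw [hinclq, hcastq]
    fin_cases j
    · show _ ≤ Wv 0 _
      rw [hq0, WithZero.exp_le_exp]
      omega
    · show _ ≤ Wv 1 _
      rw [hq1]
    · show _ ≤ Wv 2 _
      rw [hq2, WithZero.exp_le_exp]
      omega
  -- QEP
  have hQEP : ∀ x : h28v_F0 A (M * q * q), (∀ j, Wv j x ≤ 1) →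
      (∃ b : h62rChart A (M * q * q) (jB (M * q * q))⁻¹,
        h18a_incl A (M * q * q) (jB (M * q * q))⁻¹ b =
          h18a_incl A (M * q * q) (jB (M * q * q))⁻¹
            ((q : ℕ) : h62rChart A (M * q * q) (jB (M * q * q))⁻¹) * x) →
      ∃ b : h62rChart A (M * q * q) (jB (M * q * q))⁻¹,
        h18a_incl A (M * q * q) (jB (M * q * q))⁻¹ b = x := by
    intro x hx hb
    obtain ⟨b, hb⟩ := hb
    have hint : h20v_Int M q A E11 E02 (x : FF (M * q * q)) :=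
      ⟨(hW0 x).mp (hx 0), (hW1 x).mp (hx 1), (hW2 x).mp (hx 2)⟩
    have hV : (x : FF (M * q * q)) ∈ h92c_V A M q :=
      hComp q hq M hqM haux A hA ζ E11 E02 hT (x : FF (M * q * q)) x.2 hint
    have hV0 : (x : FF (M * q * q)) ∈ h92c_V0 A M q := ⟨hV, x.2⟩
    have hb' : (b : FF (M * q * q)) = ((q : ℕ) : FF (M * q * q)) * (x : FF (M * q * q)) := by
      have h1 := congrArg (Subtype.val) hb
      rw [hinclq] at h1
      exact h1
    have hax : ((q : ℕ) : FF (M * q * q)) * (x : FF (M * q * q)) ∈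
        h92c_Chart A (M * q * q) (jB (M * q * q))⁻¹ := by
      rw [← hb']
      exact b.2
    have hmem := h27v_qep_q_inf A M hq hqM hA (x : FF (M * q * q)) hV0 hax
    exact ⟨⟨(x : FF (M * q * q)), hmem⟩, Subtype.ext rfl⟩
  -- the point
  have hprime : 𝔫.IsPrime := hcusp.1.isPrime
  have hπ𝔫 : ((q : ℕ) : h62rChart A (M * q * q) (jB (M * q * q))⁻¹) ∈ 𝔫 := hcusp.2.1
  have hone : (1 : h62rChart A (M * q * q) (jB (M * q * q))⁻¹) ∉ 𝔫 :=
    fun h => hprime.ne_top ((Ideal.eq_top_iff_one _).mpr h)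
  have hincl1 : h18a_incl A (M * q * q) (jB (M * q * q))⁻¹ 1 = 1 := map_one _
  -- the local parameter of the level `M`
  have hLP : ∀ 𝔰 : Ideal (h62rChart A M (jB M)⁻¹), 𝔰.IsPrime →
      ((q : ℕ) : h62rChart A M (jB M)⁻¹) ∈ 𝔰 → h18a_tau A M ∈ 𝔰 →
      ∃ t₁ ∈ 𝔰, ∀ y ∈ 𝔰, ∃ σ, σ ∉ 𝔰 ∧
        σ * y ∈ Ideal.span {t₁, ((q : ℕ) : h62rChart A M (jB M)⁻¹)} := by
    intro 𝔰 h𝔰 hq𝔰 hτ𝔰
    refine hLPM q hq M hqM haux A hA 𝔰 h𝔰 hq𝔰 ?_
    intro b hb
    have hbt : b = h18a_tau A M := Subtype.ext hb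
    rw [hbt]
    exact hτ𝔰
  -- the glue: smallness gives value `< 1`
  have hg0 : ∀ x : h28v_F0 A (M * q * q), h18c_Small A (h20n_E20 M q (x : FF (M * q * q))) →
      Wv 0 x < 1 := fun x hx =>
    h18a_lt_one (Wv 0) (h20v_G A) ((h20n_E20 M q).comp (h28v_F0 A (M * q * q)).subtype)
      (fun y => hW0 y) x hx
  have hg1 : ∀ x : h28v_F0 A (M * q * q), h18c_Small A (E11 (x : FF (M * q * q))) →
      Wv 1 x < 1 := fun x hx =>
    h18a_lt_one (Wv 1) (h20v_G A) (E11.comp (h28v_F0 A (M * q * q)).subtype)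
      (fun y => hW1 y) x hx
  have hg2 : ∀ x : h28v_F0 A (M * q * q), h18c_Small A (E02 (x : FF (M * q * q))) →
      Wv 2 x < 1 := fun x hx =>
    h18a_lt_one (Wv 2) (h20v_G A) (E02.comp (h28v_F0 A (M * q * q)).subtype)
      (fun y => hW2 y) x hx
  -- `ψ (q) = q`
  have hφA : h18a_psiA A M q ((q : ℕ) : h62rChart A M (jB M)⁻¹) =
      h18a_incl A (M * q * q) (jB (M * q * q))⁻¹
        ((q : ℕ) : h62rChart A (M * q * q) (jB (M * q * q))⁻¹) :=
    (map_natCast _ q).trans hinclq.symm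
  have hφB : h18a_psiB A M q ((q : ℕ) : h62rChart A M (jB M)⁻¹) =
      h18a_incl A (M * q * q) (jB (M * q * q))⁻¹
        ((q : ℕ) : h62rChart A (M * q * q) (jB (M * q * q))⁻¹) :=
    (map_natCast _ q).trans hinclq.symm
  -- `αα`: no denominators
  have hτA : ∃ s : h62rChart A (M * q * q) (jB (M * q * q))⁻¹, s ∉ 𝔫 ∧ ∃ b ∈ 𝔫,
      h18a_incl A (M * q * q) (jB (M * q * q))⁻¹ b =
        h18a_incl A (M * q * q) (jB (M * q * q))⁻¹ s * h18a_psiA A M q (h18a_tau A M) := by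
    refine ⟨1, hone, h18a_tau A (M * q * q), hcusp.2.2 _ rfl, ?_⟩
    rw [hincl1, one_mul]
    exact Subtype.ext (h18a_aa_jinv M q).symm
  have hlocA : ∀ x : h62rChart A M (jB M)⁻¹,
      ∃ s : h62rChart A (M * q * q) (jB (M * q * q))⁻¹, s ∉ 𝔫 ∧
        ∃ b : h62rChart A (M * q * q) (jB (M * q * q))⁻¹,
          h18a_incl A (M * q * q) (jB (M * q * q))⁻¹ b =
            h18a_incl A (M * q * q) (jB (M * q * q))⁻¹ s * h18a_psiA A M q x := by
    intro x
    refine ⟨1, hone, ⟨h18c_aa M q (x : FF M), (hBeta q hq M hqM haux A hA).1 _ x.2⟩, ?_⟩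
    rw [hincl1, one_mul]
    exact Subtype.ext rfl
  -- `ββ`: denominators which are units at the cusps
  have hτB : ∃ s : h62rChart A (M * q * q) (jB (M * q * q))⁻¹, s ∉ 𝔫 ∧ ∃ b ∈ 𝔫,
      h18a_incl A (M * q * q) (jB (M * q * q))⁻¹ b =
        h18a_incl A (M * q * q) (jB (M * q * q))⁻¹ s * h18a_psiB A M q (h18a_tau A M) := by
    obtain ⟨sβ, bβ, hbβ, hcβ⟩ := (hBeta q hq M hqM haux A hA).2.2
    exact ⟨sβ, (hcβ 𝔫 hcusp).1, bβ, (hcβ 𝔫 hcusp).2, Subtype.ext hbβ⟩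
  have hlocB : ∀ x : h62rChart A M (jB M)⁻¹,
      ∃ s : h62rChart A (M * q * q) (jB (M * q * q))⁻¹, s ∉ 𝔫 ∧
        ∃ b : h62rChart A (M * q * q) (jB (M * q * q))⁻¹,
          h18a_incl A (M * q * q) (jB (M * q * q))⁻¹ b =
            h18a_incl A (M * q * q) (jB (M * q * q))⁻¹ s * h18a_psiB A M q x := by
    intro x
    obtain ⟨s, hs, hc⟩ := (hBeta q hq M hqM haux A hA).2.1 _ x.2
    exact ⟨s, hc 𝔫 hcusp, ⟨_, hs⟩, Subtype.ext rfl⟩
  -- the partition of unity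
  obtain ⟨u₂₀, u₁₁, u₀₂, h20_11, h20_02, h11_20, h11_02, h02_20, h02_11, hpart⟩ :=
    hPart q hq M hqM haux A hA ζ E11 E02 hT
  rcases hpart 𝔫 hcusp with hu | hu | hu
  · -- the component `C₂₀`
    have huv : ∀ j : Fin 3, j ≠ 0 →
        Wv j (h18a_incl A (M * q * q) (jB (M * q * q))⁻¹ u₂₀) < 1 := by
      intro j hj
      fin_cases j
      · exact absurd rfl hj
      · exact hg1 _ h20_11
      · exact hg2 _ h20_02
    have hπi : Wv 0 (h18a_incl A (M * q * q) (jB (M * q * q))⁻¹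
        ((q : ℕ) : h62rChart A (M * q * q) (jB (M * q * q))⁻¹)) = exp (-((1 : ℕ) : ℤ)) := by
      rw [hinclq, hq0]; rfl
    have hSv : Wv 0 (h18a_incl A (M * q * q) (jB (M * q * q))⁻¹
        ((q : ℕ) : h62rChart A (M * q * q) (jB (M * q * q))⁻¹)) = exp (-1 : ℤ) := by
      rw [hinclq, hq0]
    have hsurj : ∀ w ∈ 𝔫, ∃ (l : h62rChart A M (jB M)⁻¹)
        (s s' b : h62rChart A (M * q * q) (jB (M * q * q))⁻¹), s ∉ 𝔫 ∧ s' ∉ 𝔫 ∧
        h18a_incl A (M * q * q) (jB (M * q * q))⁻¹ b =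
          h18a_incl A (M * q * q) (jB (M * q * q))⁻¹ s' * h18a_psiA A M q l ∧
        Wv 0 (h18a_incl A (M * q * q) (jB (M * q * q))⁻¹ s *
          h18a_incl A (M * q * q) (jB (M * q * q))⁻¹ w -
          h18a_incl A (M * q * q) (jB (M * q * q))⁻¹ b) < 1 := by
      intro w hw
      obtain ⟨l, hl, hsm⟩ := hRes20 q hq M hqM haux A hA ζ E11 E02 hT (w : FF (M * q * q))
        (u₂₀ : FF (M * q * q)) w.2 u₂₀.2 h20_11 h20_02
      refine ⟨⟨l, hl⟩, u₂₀, 1, ⟨h18c_aa M q l, (hBeta q hq M hqM haux A hA).1 _ hl⟩, hu, hone,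
        ?_, ?_⟩
      · rw [hincl1, one_mul]
        exact Subtype.ext rfl
      · exact hg0 _ hsm
    obtain ⟨h1, t, ht, hgen, e', s, c, hs, hsc⟩ :=
      h18d_one_branch Wv (h18a_incl A (M * q * q) (jB (M * q * q))⁻¹)
        (h18a_incl_inj A (M * q * q) (jB (M * q * q))⁻¹) (h18a_psiA A M q) hB
        ((q : ℕ) : h62rChart A (M * q * q) (jB (M * q * q))⁻¹) hπ0 (q - 1) hπv hQEP 𝔫 hπ𝔫
        0 1 one_pos hπi u₂₀ hu huv
        ((q : ℕ) : h62rChart A (M * q * q) (jB (M * q * q))⁻¹) 1 1 rfl hone hSv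
        ((q : ℕ) : h62rChart A M (jB M)⁻¹) (h18a_tau A M) hφA hτA hlocA hsurj hLP
    exact ⟨_, t, h1, ht, hgen, e', s, c, hs, hsc⟩
  · -- the component `C₁₁`
    have huv : ∀ j : Fin 3, j ≠ 1 →
        Wv j (h18a_incl A (M * q * q) (jB (M * q * q))⁻¹ u₁₁) < 1 := by
      intro j hj
      fin_cases j
      · exact hg0 _ h11_20
      · exact absurd rfl hj
      · exact hg2 _ h11_02
    have hπi : Wv 1 (h18a_incl A (M * q * q) (jB (M * q * q))⁻¹
        ((q : ℕ) : h62rChart A (M * q * q) (jB (M * q * q))⁻¹)) =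
        exp (-(((q - 1 : ℕ) : ℕ) : ℤ)) := by
      rw [hinclq, hq1, hcastq]
    obtain ⟨S, S', p, hSS, hSunit, hpc⟩ := hUnit q hq M hqM haux A hA ζ E11 E02 hT
    have hSv : Wv 1 (h18a_incl A (M * q * q) (jB (M * q * q))⁻¹ S) = exp (-1 : ℤ) := by
      set y : h28v_F0 A (M * q * q) :=
        h18a_incl A (M * q * q) (jB (M * q * q))⁻¹ S ^ (q - 1) *
          ((q : ℕ) : h28v_F0 A (M * q * q))⁻¹ with hy
      have hycoe : (y : FF (M * q * q)) =
          (S : FF (M * q * q)) ^ (q - 1) * ((q : ℕ) : FF (M * q * q))⁻¹ := rfl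
      have hy1 : Wv 1 y ≤ 1 := (hW1 y).mpr (by
        show E11 (y : FF (M * q * q)) ∈ h20v_G A
        rw [hycoe]; exact hSunit.2.1)
      have hy2 : Wv 1 y⁻¹ ≤ 1 := (hW1 y⁻¹).mpr (by
        show E11 ((y⁻¹ : h28v_F0 A (M * q * q)) : FF (M * q * q)) ∈ h20v_G A
        have hcoe : ((y⁻¹ : h28v_F0 A (M * q * q)) : FF (M * q * q)) =
            ((S : FF (M * q * q)) ^ (q - 1) * ((q : ℕ) : FF (M * q * q))⁻¹)⁻¹ := rfl
        rw [hcoe, map_inv₀]; exact hSunit.2.2)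
      have hy0 : y ≠ 0 := by
        intro h0
        apply hSunit.1
        rw [← hycoe, h0]
        exact map_zero E11
      have hwy0 : Wv 1 y ≠ 0 := by
        rw [Ne, Valuation.zero_iff]; exact hy0
      have hy3 : Wv 1 y = 1 := by
        refine le_antisymm hy1 ?_
        rw [map_inv₀] at hy2
        exact (inv_le_one₀ (zero_lt_iff.mpr hwy0)).mp hy2
      have hq1' : Wv 1 ((q : ℕ) : h28v_F0 A (M * q * q)) ≠ 0 := by
        rw [hq1]; exact WithZero.exp_ne_zero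
      have hpow : Wv 1 (h18a_incl A (M * q * q) (jB (M * q * q))⁻¹ S) ^ (q - 1) =
          exp (-(((q - 1 : ℕ) : ℕ) : ℤ)) := by
        rw [hy, map_mul, map_pow, map_inv₀, hq1] at hy3
        rw [hcastq]
        have h5 := congrArg (fun z => z * exp (-((q : ℤ) - 1))) hy3
        beta_reduce at h5
        rw [mul_assoc, inv_mul_cancel₀ WithZero.exp_ne_zero, mul_one, one_mul] at h5
        exact h5
      exact h18a_eq_exp_of_pow _ (q - 1) (by omega) hpow
    have hsurj : ∀ w ∈ 𝔫, ∃ (l : h62rChart A M (jB M)⁻¹)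
        (s s' b : h62rChart A (M * q * q) (jB (M * q * q))⁻¹), s ∉ 𝔫 ∧ s' ∉ 𝔫 ∧
        h18a_incl A (M * q * q) (jB (M * q * q))⁻¹ b =
          h18a_incl A (M * q * q) (jB (M * q * q))⁻¹ s' * h18a_psiA A M q l ∧
        Wv 1 (h18a_incl A (M * q * q) (jB (M * q * q))⁻¹ s *
          h18a_incl A (M * q * q) (jB (M * q * q))⁻¹ w -
          h18a_incl A (M * q * q) (jB (M * q * q))⁻¹ b) < 1 := by
      intro w hw
      obtain ⟨l, hl, hsm⟩ := hRes11 q hq M hqM haux A hA ζ E11 E02 hT (w : FF (M * q * q))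
        (u₁₁ : FF (M * q * q)) w.2 u₁₁.2 h11_20 h11_02
      refine ⟨⟨l, hl⟩, u₁₁, 1, ⟨h18c_aa M q l, (hBeta q hq M hqM haux A hA).1 _ hl⟩, hu, hone,
        ?_, ?_⟩
      · rw [hincl1, one_mul]
        exact Subtype.ext rfl
      · exact hg1 _ hsm
    obtain ⟨h1, t, ht, hgen, e', s, c, hs, hsc⟩ :=
      h18d_one_branch Wv (h18a_incl A (M * q * q) (jB (M * q * q))⁻¹)
        (h18a_incl_inj A (M * q * q) (jB (M * q * q))⁻¹) (h18a_psiA A M q) hB
        ((q : ℕ) : h62rChart A (M * q * q) (jB (M * q * q))⁻¹) hπ0 (q - 1) hπv hQEP 𝔫 hπ𝔫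
        1 (q - 1) (by omega) hπi u₁₁ hu huv
        S S' p hSS (hpc 𝔫 hcusp) hSv
        ((q : ℕ) : h62rChart A M (jB M)⁻¹) (h18a_tau A M) hφA hτA hlocA hsurj hLP
    exact ⟨_, t, h1, ht, hgen, e', s, c, hs, hsc⟩
  · -- the component `C₀₂`
    have huv : ∀ j : Fin 3, j ≠ 2 →
        Wv j (h18a_incl A (M * q * q) (jB (M * q * q))⁻¹ u₀₂) < 1 := by
      intro j hj
      fin_cases j
      · exact hg0 _ h02_20
      · exact hg1 _ h02_11
      · exact absurd rfl hj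
    have hπi : Wv 2 (h18a_incl A (M * q * q) (jB (M * q * q))⁻¹
        ((q : ℕ) : h62rChart A (M * q * q) (jB (M * q * q))⁻¹)) = exp (-((1 : ℕ) : ℤ)) := by
      rw [hinclq, hq2]; rfl
    have hSv : Wv 2 (h18a_incl A (M * q * q) (jB (M * q * q))⁻¹
        ((q : ℕ) : h62rChart A (M * q * q) (jB (M * q * q))⁻¹)) = exp (-1 : ℤ) := by
      rw [hinclq, hq2]
    have hsurj : ∀ w ∈ 𝔫, ∃ (l : h62rChart A M (jB M)⁻¹)
        (s s' b : h62rChart A (M * q * q) (jB (M * q * q))⁻¹), s ∉ 𝔫 ∧ s' ∉ 𝔫 ∧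
        h18a_incl A (M * q * q) (jB (M * q * q))⁻¹ b =
          h18a_incl A (M * q * q) (jB (M * q * q))⁻¹ s' * h18a_psiB A M q l ∧
        Wv 2 (h18a_incl A (M * q * q) (jB (M * q * q))⁻¹ s *
          h18a_incl A (M * q * q) (jB (M * q * q))⁻¹ w -
          h18a_incl A (M * q * q) (jB (M * q * q))⁻¹ b) < 1 := by
      intro w hw
      obtain ⟨l, hl, hsm⟩ := hRes02 q hq M hqM haux A hA ζ E11 E02 hT (w : FF (M * q * q))
        (u₀₂ : FF (M * q * q)) w.2 u₀₂.2 h02_20 h02_11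
      obtain ⟨s'', hs'', hc''⟩ := (hBeta q hq M hqM haux A hA).2.1 l hl
      have hs''n : s'' ∉ 𝔫 := hc'' 𝔫 hcusp
      have hbeq : h18a_incl A (M * q * q) (jB (M * q * q))⁻¹
          (⟨(s'' : FF (M * q * q)) * h18c_bb M q l, hs''⟩ :
            h62rChart A (M * q * q) (jB (M * q * q))⁻¹) =
          h18a_incl A (M * q * q) (jB (M * q * q))⁻¹ s'' * h18a_psiB A M q ⟨l, hl⟩ :=
        Subtype.ext rfl
      refine ⟨⟨l, hl⟩, s'' * u₀₂, s'', ⟨_, hs''⟩, ?_, hs''n, hbeq, ?_⟩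
      · intro hmem
        rcases hprime.mem_or_mem hmem with h | h
        · exact hs''n h
        · exact hu h
      · rw [hbeq, map_mul]
        have hfac : h18a_incl A (M * q * q) (jB (M * q * q))⁻¹ s'' *
            h18a_incl A (M * q * q) (jB (M * q * q))⁻¹ u₀₂ *
            h18a_incl A (M * q * q) (jB (M * q * q))⁻¹ w -
            h18a_incl A (M * q * q) (jB (M * q * q))⁻¹ s'' * h18a_psiB A M q ⟨l, hl⟩ =
            h18a_incl A (M * q * q) (jB (M * q * q))⁻¹ s'' *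
            (h18a_incl A (M * q * q) (jB (M * q * q))⁻¹ u₀₂ *
            h18a_incl A (M * q * q) (jB (M * q * q))⁻¹ w - h18a_psiB A M q ⟨l, hl⟩) := by
          ring
        rw [hfac, map_mul]
        have hlt : Wv 2 (h18a_incl A (M * q * q) (jB (M * q * q))⁻¹ u₀₂ *
            h18a_incl A (M * q * q) (jB (M * q * q))⁻¹ w - h18a_psiB A M q ⟨l, hl⟩) < 1 :=
          hg2 _ hsm
        exact lt_of_le_of_lt (mul_le_mul' (hB s'' 2) le_rfl) (by rw [one_mul]; exact hlt)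
    obtain ⟨h1, t, ht, hgen, e', s, c, hs, hsc⟩ :=
      h18d_one_branch Wv (h18a_incl A (M * q * q) (jB (M * q * q))⁻¹)
        (h18a_incl_inj A (M * q * q) (jB (M * q * q))⁻¹) (h18a_psiB A M q) hB
        ((q : ℕ) : h62rChart A (M * q * q) (jB (M * q * q))⁻¹) hπ0 (q - 1) hπv hQEP 𝔫 hπ𝔫
        2 1 one_pos hπi u₀₂ hu huv
        ((q : ℕ) : h62rChart A (M * q * q) (jB (M * q * q))⁻¹) 1 1 rfl hone hSv
        ((q : ℕ) : h62rChart A M (jB M)⁻¹) (h18a_tau A M) hφB hτB hlocB hsurj hLP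
    exact ⟨_, t, h1, ht, hgen, e', s, c, hs, hsc⟩

end Fermat.Agent.S36
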