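import Fermat.Agent.S36.H18CuspAsm
import Fermat.Agent.S36.H62RegLeaves

/-!
# S36, block REG, row R-CUSP (helper18): the leaf `H62LeafCusp` of R-ASM from the cusp leaves

* `h18c_leafCusp_of_cusp : H18cCusp → H62LeafCusp` (adapter to helper62's frozen leaf);
* `h18c_leafCusp_of_leaves` : `H62LeafCusp` from `H20EmbExists`, `H74Val`, `H20VComplete` and
  the eight cusp leaves of `S36/H18CuspIface.lean`.
-/

set_option autoImplicit false
set_option linter.unusedVariables false

open AlgebraicCurve ModularCurve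

noncomputable section

namespace Fermat.Agent.S36

open Fermat.Agent.S37 (Kbar GQ FF cst gal jB auxLevel)

/-- adapter: the one-branch datum at every cusp is helper62's leaf `H62LeafCusp`. -/
theorem h18c_leafCusp_of_cusp (h : H18cCusp) : H62LeafCusp := by
  intro q hq M _ hqM haux
  have : NeZero q := ⟨hq.ne_zero⟩
  intro A hA 𝔫 h𝔫 hq𝔫 hx
  obtain ⟨x, hx𝔫, hxj⟩ := hx
  have hcusp : h18c_IsCusp A (M * q * q) q 𝔫 := by
    refine ⟨h𝔫, hq𝔫, fun b hb => ?_⟩
    have hbx : b = x := Subtype.ext (hb.trans hxj.symm)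
    rw [hbx]
    exact hx𝔫
  exact Or.inr (h q hq M hqM haux A hA 𝔫 hcusp)

/-- `H62LeafCusp` from the leaves of R-CUSP. -/
theorem h18c_leafCusp_of_leaves (hEmb : H20EmbExists) (hVal : H74Val) (hComp : H20VComplete)
    (hInt : H18cInt) (hPart : H18cPart) (hRes20 : H18cRes20) (hRes11 : H18cRes11)
    (hRes02 : H18cRes02) (hUnit : H18cUnit11) (hLPM : H18cLPM) (hBeta : H18cBeta) :
    H62LeafCusp :=
  h18c_leafCusp_of_cusp
    (h18c_cuspAssembly hEmb hVal hComp hInt hPart hRes20 hRes11 hRes02 hUnit hLPM hBeta)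

end Fermat.Agent.S36
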