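import Fermat.Agent.S36.H92Chain
import Fermat.Agent.S36.H81Base
import Fermat.Agent.S36.H59ChartInt
import Fermat.Agent.S36.H24DescGen
import Fermat.Agent.Red.ModelO.RatFinite
import Fermat.Agent.Red.ModelO.Mid
import Fermat.Agent.Red.ModelO.FiniteModel

/-!
# S36, H92GATE (helper37): finiteness of the chart `B₀ = modelAt ∩ F₀` over `A₀[j]`,
root closedness and the overlap chart

`A` a valuation subring of `ℚ̄` over `q`, `I` its inertia group, `K₀ = ℚ̄^I = h81a_K0 A`,
`A₀ = A ∩ K₀ = h81a_A0 A` (a discrete valuation ring, `h81a_isDVR`), `F₀ = h92c_F0 A N`.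

* `h37v_phi A N : A₀ →+* F₀` (the constants), `h37v_j A N : F₀` (the `j`-function),
  `h37v_ev A N t : A₀[X] →+* F₀`, `X ↦ t`.
* `h37v_isIntegralElem_iff` : for `x : F₀`, `x` is integral over `A₀[t]` iff
  `(x : FF N) ∈ modelAt N A t`, i.e. the chart `h92c_Chart A N t` is the integral closure
  of `A₀[t]` in `F₀`.
* `h37v_hfin` : **hfin over `A₀`**: the chart `h92c_Chart A N j` is generated as an
  `A₀[j]`-module by a finite subset `S` of itself (`A₀[j]` noetherian and integrally closed,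
  `F₀ / K₀(j)` finite by D-GEN).  `h37v_hfin_inv`: the same for `1/j`.
* `h37v_hfin_span` : the same in the `Submodule.span` form of `h26y_gate_asm_semi`, for any
  algebra structure whose `algebraMap` is `h37v_phi`.
* `h37v_hroot`, `h37v_hroot_mid` : root closedness of the three charts inside `F₀`.
* `h37v_Mid`, `h37v_hm0`, `h37v_hminf`, `h37v_fin_le_mid`, `h37v_inf_le_mid` : the overlap chart.
-/

set_option autoImplicit false
set_option linter.style.haveILetI false

open Polynomial AlgebraicCurve ModularCurve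

noncomputable section

namespace Fermat.Agent.S36

open Fermat.Agent.S37 (Kbar GQ FF cst jB gal modelAt modelFin modelInf IsRat)
open Fermat.Agent.Red.ModelO

/-! ## Constants and `j` in `F₀` -/

theorem h37v_cst_mem_F0 (A : ValuationSubring Kbar) (N : ℕ) {c : Kbar}
    (hc : ∀ σ ∈ A.inertiaSubgroupIn ℚ, σ c = c) : cst N c ∈ h92c_F0 A N := by
  intro σ hσ
  rw [Fermat.Agent.S37.GalI.gal_smul_cst, hc σ hσ]

theorem h37v_jB_mem_F0 (A : ValuationSubring Kbar) (N : ℕ) [NeZero N] :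
    jB N ∈ h92c_F0 A N := fun σ _ => Fermat.Agent.S37.GalI.gal_smul_jB σ

theorem h37v_ratEmb_mem_F0 (A : ValuationSubring Kbar) (N : ℕ) [NeZero N] (y : FQ N) :
    h85ratEmb N y ∈ h92c_F0 A N := fun σ _ => h85_gal_smul_ratEmb N σ y

/-- the constants `A₀ → F₀`. -/
def h37v_phi (A : ValuationSubring Kbar) (N : ℕ) : ↥(h81a_A0 A) →+* ↥(h92c_F0 A N) :=
  RingHom.codRestrict
    ((algebraMap Kbar (FF N)).comp
      ((algebraMap (h81a_K0 A) Kbar).comp (h81a_A0 A).subtype))
    (h92c_F0 A N)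
    (fun a => h37v_cst_mem_F0 A N ((h81a_mem_K0 A _).mp (a : h81a_K0 A).2))

@[simp]
theorem h37v_phi_coe (A : ValuationSubring Kbar) (N : ℕ) (a : ↥(h81a_A0 A)) :
    ((h37v_phi A N a : ↥(h92c_F0 A N)) : FF N) = cst N ((a : h81a_K0 A) : Kbar) := rfl

/-- evaluation `A₀[X] → F₀`, `X ↦ t`. -/
def h37v_ev (A : ValuationSubring Kbar) (N : ℕ) (t : ↥(h92c_F0 A N)) :
    (↥(h81a_A0 A))[X] →+* ↥(h92c_F0 A N) :=
  eval₂RingHom (h37v_phi A N) t

/-- the inclusion `A₀ → A`. -/
def h37v_incl (A : ValuationSubring Kbar) : ↥(h81a_A0 A) →+* ↥A where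
  toFun a := ⟨((a : h81a_K0 A) : Kbar), a.2⟩
  map_one' := rfl
  map_mul' _ _ := rfl
  map_zero' := rfl
  map_add' _ _ := rfl

theorem h37v_incl_injective (A : ValuationSubring Kbar) :
    Function.Injective (h37v_incl A) := by
  intro a b h
  apply Subtype.ext
  apply Subtype.ext
  exact congrArg (fun x : ↥A => (x : Kbar)) h

/-- the evaluation over `A₀`, seen in `FF N`, is the evaluation over `A`. -/
theorem h37v_ev_coe (A : ValuationSubring Kbar) (N : ℕ) (t : ↥(h92c_F0 A N))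
    (P : (↥(h81a_A0 A))[X]) :
    ((h37v_ev A N t P : ↥(h92c_F0 A N)) : FF N) =
      h85ev N A (t : FF N) (P.map (h37v_incl A)) := by
  have h1 : ((h37v_ev A N t P : ↥(h92c_F0 A N)) : FF N) =
      (h92c_F0 A N).subtype (eval₂ (h37v_phi A N) t P) := rfl
  rw [h1, hom_eval₂]
  show _ = eval₂ (h85cstHom N A) (t : FF N) (P.map (h37v_incl A))
  rw [eval₂_map]
  rfl

theorem h37v_ev_comp (A : ValuationSubring Kbar) (N : ℕ) (t : ↥(h92c_F0 A N)) :
    (h92c_F0 A N).subtype.comp (h37v_ev A N t) =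
      (h85ev N A (t : FF N)).comp (mapRingHom (h37v_incl A)) := by
  ext P
  · simp [h37v_ev, h85ev, h37v_incl]
  · simp [h37v_ev, h85ev]

/-! ## Injectivity of the evaluation -/

theorem h37v_ev_injective (A : ValuationSubring Kbar) (N : ℕ) [NeZero N]
    (t : ↥(h92c_F0 A N)) (ht : Function.Injective (h85ev N A (t : FF N))) :
    Function.Injective (h37v_ev A N t) := by
  intro P Q hPQ
  have h1 : h85ev N A (t : FF N) (P.map (h37v_incl A)) =
      h85ev N A (t : FF N) (Q.map (h37v_incl A)) := by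
    rw [← h37v_ev_coe, ← h37v_ev_coe, hPQ]
  exact Polynomial.map_injective _ (h37v_incl_injective A) (ht h1)

/-- the `j`-function as an element of `F₀`. -/
def h37v_j (A : ValuationSubring Kbar) (N : ℕ) [NeZero N] : ↥(h92c_F0 A N) :=
  ⟨jB N, h37v_jB_mem_F0 A N⟩

theorem h37v_ev_inv_injective (M : ℕ) [NeZero M] (A : ValuationSubring Kbar) :
    Function.Injective (h85ev M A (jB M)⁻¹) := by
  rw [injective_iff_map_eq_zero]
  intro P hP
  rw [h85ev_eq_aeval] at hP
  have htr : Transcendental Kbar (jB M)⁻¹ := by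
    intro halg
    have h2 := halg.inv
    rw [inv_inv] at h2
    exact Fermat.Agent.S24.transcendental_jBar M h2
  have h1 := (transcendental_iff_injective.mp htr)
  have h2 : P.map (algebraMap A Kbar) = 0 := h1 (hP.trans (map_zero _).symm)
  exact Polynomial.map_injective _ (FaithfulSMul.algebraMap_injective A Kbar)
    (h2.trans (Polynomial.map_zero _).symm)

/-! ## The chart is the integral closure of `A₀[t]` in `F₀` -/

theorem h37v_ringAdj0_le_range (A : ValuationSubring Kbar) (N : ℕ) (t : ↥(h92c_F0 A N)) :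
    h59cRingAdj0 N A (t : FF N) ≤ ((h92c_F0 A N).subtype.comp (h37v_ev A N t)).range := by
  unfold h59cRingAdj0 h59cAdj
  rw [Subring.closure_le]
  rintro x (⟨a, ha, rfl⟩ | hx)
  · have haK : a ∈ h81a_K0 A := (h81a_mem_K0 A a).mpr ha.2
    refine ⟨C (⟨⟨a, haK⟩, ha.1⟩ : ↥(h81a_A0 A)), ?_⟩
    simp [h37v_ev]
  · rw [Set.mem_singleton_iff] at hx
    subst hx
    exact ⟨X, by simp [h37v_ev]⟩

set_option synthInstance.maxHeartbeats 400000 in
/-- **the chart is the integral closure of `A₀[t]` in `F₀`.** -/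
theorem h37v_isIntegralElem_iff (A : ValuationSubring Kbar) (N : ℕ) (t x : ↥(h92c_F0 A N)) :
    (h37v_ev A N t).IsIntegralElem x ↔ (x : FF N) ∈ modelAt N A (t : FF N) := by
  constructor
  · rintro ⟨p, hp, hroot⟩
    rw [h85_mem_modelAt_iff_isIntegralElem]
    refine ⟨p.map (mapRingHom (h37v_incl A)), hp.map _, ?_⟩
    rw [eval₂_map, ← h37v_ev_comp]
    have h1 : eval₂ ((h92c_F0 A N).subtype.comp (h37v_ev A N t)) (x : FF N) p =
        (h92c_F0 A N).subtype (eval₂ (h37v_ev A N t) x p) := by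
      rw [hom_eval₂]
      rfl
    rw [h1, hroot, map_zero]
  · intro hx
    have h1 : IsIntegral (h59cRingAdj0 N A (t : FF N)) (x : FF N) :=
      (h59c_mem_modelAt_iff N A (t : FF N) (x : FF N)).mp hx
    have h2 := h85_isIntegral_mono (h37v_ringAdj0_le_range A N t) h1
    rw [h85_isIntegral_range_iff] at h2
    obtain ⟨p, hp, hroot⟩ := h2
    refine ⟨p, hp, ?_⟩
    have h3 : eval₂ ((h92c_F0 A N).subtype.comp (h37v_ev A N t)) (x : FF N) p =
        (h92c_F0 A N).subtype (eval₂ (h37v_ev A N t) x p) := by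
      rw [hom_eval₂]
      rfl
    rw [h3] at hroot
    exact Subtype.ext hroot

/-! ## `F₀` is finite over `K₀(t)` -/

/-- the rational functions `F_ℚ → F₀`. -/
def h37v_rat (A : ValuationSubring Kbar) (N : ℕ) [NeZero N] : FQ N →+* ↥(h92c_F0 A N) :=
  RingHom.codRestrict (h85ratEmb N) (h92c_F0 A N) (h37v_ratEmb_mem_F0 A N)

@[simp]
theorem h37v_rat_coe (A : ValuationSubring Kbar) (N : ℕ) [NeZero N] (y : FQ N) :
    ((h37v_rat A N y : ↥(h92c_F0 A N)) : FF N) = h85ratEmb N y := rfl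

theorem h37v_rat_injective (A : ValuationSubring Kbar) (N : ℕ) [NeZero N] :
    Function.Injective (h37v_rat A N) := (h37v_rat A N).injective

theorem h37v_rat_jQ (A : ValuationSubring Kbar) (N : ℕ) [NeZero N] :
    h37v_rat A N (h85jQ N) = h37v_j A N := Subtype.ext (h85ratEmb_jQ N)

/-- a constant of `K₀`, as an element of `F₀`. -/
def h37v_cst0 (A : ValuationSubring Kbar) (N : ℕ) (c : Kbar)
    (hc : ∀ σ ∈ A.inertiaSubgroupIn ℚ, σ c = c) : ↥(h92c_F0 A N) :=
  ⟨cst N c, h37v_cst_mem_F0 A N hc⟩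

theorem h37v_cst0_mem_closure (A : ValuationSubring Kbar) (N : ℕ) (t : ↥(h92c_F0 A N))
    (c : Kbar) (hc : ∀ σ ∈ A.inertiaSubgroupIn ℚ, σ c = c) :
    h37v_cst0 A N c hc ∈ Subfield.closure (Set.range (h37v_ev A N t)) := by
  have hcK : c ∈ h81a_K0 A := (h81a_mem_K0 A c).mpr hc
  rcases (h81a_A0 A).mem_or_inv_mem (⟨c, hcK⟩ : h81a_K0 A) with h | h
  · refine Subfield.subset_closure ⟨C (⟨⟨c, hcK⟩, h⟩ : ↥(h81a_A0 A)), ?_⟩
    apply Subtype.ext
    simp [h37v_ev, h37v_cst0]
  · have h1 : (h37v_ev A N t) (C (⟨(⟨c, hcK⟩ : h81a_K0 A)⁻¹, h⟩ : ↥(h81a_A0 A))) ∈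
        Subfield.closure (Set.range (h37v_ev A N t)) := Subfield.subset_closure ⟨_, rfl⟩
    have h2 := inv_mem h1
    have h3 : ((h37v_ev A N t) (C (⟨(⟨c, hcK⟩ : h81a_K0 A)⁻¹, h⟩ : ↥(h81a_A0 A))))⁻¹ =
        h37v_cst0 A N c hc := by
      apply Subtype.ext
      simp [h37v_ev, h37v_cst0]
    rwa [h3] at h2

theorem h37v_t_mem_closure (A : ValuationSubring Kbar) (N : ℕ) (t : ↥(h92c_F0 A N)) :
    t ∈ Subfield.closure (Set.range (h37v_ev A N t)) :=
  Subfield.subset_closure ⟨X, by simp [h37v_ev]⟩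

theorem h37v_rat_mem_closure (A : ValuationSubring Kbar) (N : ℕ) [NeZero N]
    (t : ↥(h92c_F0 A N)) (ht : t = h37v_j A N ∨ t = (h37v_j A N)⁻¹) {r : FQ N}
    (hr : r ∈ h85QjSet N) :
    h37v_rat A N r ∈ Subfield.closure (Set.range (h37v_ev A N t)) := by
  have hj : h85jQ N ∈ (Subfield.closure (Set.range (h37v_ev A N t))).comap (h37v_rat A N) := by
    rw [Subfield.mem_comap, h37v_rat_jQ]
    rcases ht with h | h
    · rw [← h]
      exact h37v_t_mem_closure A N t
    · have h1 := inv_mem (h37v_t_mem_closure A N t)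
      rw [h, inv_inv] at h1
      rw [h]
      exact h1
  exact h85_Qj_subsetC N _ hj hr

/-- **`F₀` is spanned by a finite set over `K₀(t)`** (from D-GEN and the finiteness of `F_ℚ`
over `ℚ(j)`). -/
theorem h37v_exists_span (A : ValuationSubring Kbar) (N : ℕ) [NeZero N]
    (t : ↥(h92c_F0 A N)) (ht : t = h37v_j A N ∨ t = (h37v_j A N)⁻¹) :
    ∃ T : Finset ↥(h92c_F0 A N), ∀ x : ↥(h92c_F0 A N),
      ∃ c : ↥(h92c_F0 A N) → ↥(h92c_F0 A N),
        (∀ u, c u ∈ Subfield.closure (Set.range (h37v_ev A N t))) ∧ x = ∑ u ∈ T, c u * u := by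
  classical
  obtain ⟨TQ, hTQ⟩ := h85_exists_span_Qj N
  refine ⟨TQ.image (h37v_rat A N), fun x => ?_⟩
  obtain ⟨n, c, e, hc, he, hx⟩ := h24g_descGen N (A.inertiaSubgroupIn ℚ) (x : FF N) x.2
  have hy : ∀ i, ∃ y : FQ N, h85ratEmb N y = e i := fun i => h85_exists_ratEmb_of_isRat (he i)
  choose y hy using hy
  have hr : ∀ i, ∃ r : FQ N → FQ N, (∀ u, r u ∈ h85QjSet N) ∧ y i = ∑ u ∈ TQ, r u * u :=
    fun i => hTQ (y i)
  choose r hr hyr using hr
  set g : ↥(h92c_F0 A N) → FQ N := Function.invFun (h37v_rat A N) with hg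
  have hgl : ∀ u, g (h37v_rat A N u) = u :=
    Function.leftInverse_invFun (h37v_rat_injective A N)
  refine ⟨fun v => ∑ i, h37v_cst0 A N (c i) (hc i) * h37v_rat A N (r i (g v)), fun v => ?_, ?_⟩
  · refine Subfield.sum_mem _ fun i _ => mul_mem (h37v_cst0_mem_closure A N t _ _) ?_
    exact h37v_rat_mem_closure A N t ht (hr i _)
  · rw [Finset.sum_image (fun a _ b _ h => h37v_rat_injective A N h)]
    have hx' : x = ∑ i, h37v_cst0 A N (c i) (hc i) * h37v_rat A N (y i) := by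
      apply Subtype.ext
      rw [hx]
      simp only [h37v_cst0, AddSubmonoidClass.coe_finsetSum, MulMemClass.coe_mul, h37v_rat_coe,
        hy]
    rw [hx']
    simp only [hgl, Finset.sum_mul]
    rw [Finset.sum_comm]
    refine Finset.sum_congr rfl fun i _ => ?_
    conv_lhs => rw [hyr i, map_sum, Finset.mul_sum]
    refine Finset.sum_congr rfl fun u _ => ?_
    rw [map_mul, mul_assoc]

/-! ## hfin over `A₀` -/

/-- **hfin over `A₀`** (ring-homomorphism form): the chart `modelAt N A t ∩ F₀`, `t = j, 1/j`,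
is generated as an `A₀[t]`-module by a finite subset of itself. -/
theorem h37v_hfin_gen {q : ℕ} (hq : q.Prime) {A : ValuationSubring Kbar}
    (hA : A.LiesOverPrime q) (N : ℕ) [NeZero N] (t : ↥(h92c_F0 A N))
    (ht : t = h37v_j A N ∨ t = (h37v_j A N)⁻¹) :
    ∃ S : Finset ↥(h92c_F0 A N), (∀ s ∈ S, (s : FF N) ∈ modelAt N A (t : FF N)) ∧
      ∀ x : ↥(h92c_F0 A N), (x : FF N) ∈ modelAt N A (t : FF N) →
        ∃ c : ↥(h92c_F0 A N) → (↥(h81a_A0 A))[X], x = ∑ s ∈ S, h37v_ev A N t (c s) * s := by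
  haveI : IsDiscreteValuationRing ↥(h81a_A0 A) := h81a_isDVR hq hA
  haveI : CharZero ↥(h92c_F0 A N) :=
    charZero_of_injective_algebraMap (algebraMap ℚ ↥(h92c_F0 A N)).injective
  have hinj : Function.Injective (h37v_ev A N t) := by
    apply h37v_ev_injective
    rcases ht with h | h
    · rw [h]
      exact h85ev_jB_injective N A
    · rw [h]
      exact h37v_ev_inv_injective N A
  obtain ⟨T, hT⟩ := h37v_exists_span A N t ht
  obtain ⟨S, hS, hgen⟩ := h85_exists_finset_gen_of_noetherian (h37v_phi A N) t hinj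
    (Subfield.closure (Set.range (h37v_ev A N t)) : Set ↥(h92c_F0 A N)) (le_refl _) T hT
  refine ⟨S, fun s hs => (h37v_isIntegralElem_iff A N t s).mp (hS s hs), fun x hx => ?_⟩
  exact hgen x ((h37v_isIntegralElem_iff A N t x).mpr hx)

end Fermat.Agent.S36
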