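import Fermat.Agent.S36.H18CuspIface
import Fermat.Agent.S36.H27TorTwist
import Fermat.Agent.S36.H37GateFin
import Fermat.Agent.LGC.Cusp21Loc
import Fermat.Agent.LGC.Res44

/-!
# S36, block REG, row R-CUSP-PART (helper27): `H18cPart`

`h27p_cuspPart : H18cPart` (the exact frozen `Prop` of `S36/H18CuspIface.lean`): the partition
of unity at the cusps of the chart at infinity `B₀ = h62rChart A (M q²) (1/j)`.

With `y = j(q^q) / j^q = h21c_y M q`, `t = 1/j`, `g = y^q - t^(q²-1)` of level `M q`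
(`h21c_soft_facts`: `1 - y` is small at `W_∞`, `w g` is small at `W_∞`), `α, β` the two
degeneracy maps to the level `M q²` and `S = s(1/j)` an inertia-fixed denominator (`s(0) = 1`):

* `u₀₂ = α (1 - y)`, `u₂₀ = S^E · β g`, `u₁₁ = S^E' · β (1 - y) · α g`.

Reusable:
* `h27p_small_iff` (`h18c_Small ↔ h27t_S`), `h27p_S_qExpand`, `h27p_S_twistK`,
  `h27p_S_of_nonunit`;
* `h27p_exists_mult` : the inertia-fixed multiplier: `β (B₀(M q)) ⊆ B₀(M q²)[1/S]`,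
  `S = s(1/j)`, `s ∈ A₀[X]`, `s(0) = 1`;
* `h27p_ev_sub_one_mem` : `S - 1 ∈ 𝔫` at every cusp.
-/

set_option autoImplicit false
set_option linter.unusedSectionVars false
set_option linter.style.haveILetI false
set_option linter.unusedSimpArgs false

open AlgebraicCurve ModularCurve Polynomial

noncomputable section

namespace Fermat.Agent.S36

open Fermat.Agent.S37 (Kbar GQ FF cst jB gal modelAt degen auxLevel)
open Fermat.Agent.Red.GV Fermat.Agent.Red.GV.Soft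
open Fermat.Agent.Red.Kron (kFricke twistK)

/-! ## Gauss-small series -/

section Small

variable {A : ValuationSubring Kbar}

theorem h27p_small_iff (s : LaurentSeries Kbar) : h18c_Small A s ↔ h27t_S A s := by
  constructor
  · rintro ⟨h1, h2⟩
    exact ⟨h1, (softRedT_eq_zero_iff ⟨s, h1⟩).mpr h2⟩
  · rintro ⟨h1, h2⟩
    exact ⟨h1, (softRedT_eq_zero_iff ⟨s, h1⟩).mp h2⟩

theorem h27p_S_mul_right {s t : LaurentSeries Kbar} (hs : h27t_S A s)
    (ht : t ∈ softOT A (IsLocalRing.residue A)) : h27t_S A (s * t) := by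
  rw [mul_comm]
  exact h27t_S_mul ht hs

theorem h27p_S_qExpand (n : ℕ) [NeZero n] {s : LaurentSeries Kbar} (hs : h27t_S A s) :
    h27t_S A (qExpand Kbar n s) := by
  obtain ⟨h1, h2⟩ := hs
  have h3 : qExpand Kbar n s ∈ softOT A (IsLocalRing.residue A) :=
    mem_softOT_qExpand A _ n h1
  refine ⟨h3, ?_⟩
  have h4 := softRedT_qExpand A (IsLocalRing.residue A) n ⟨s, h1⟩ h3
  rw [h4, h2, map_zero]

theorem h27p_S_twistK {ζ : Kbar} (hζ0 : ζ ≠ 0) (hζ : ζ ∈ A) (hζ' : ζ⁻¹ ∈ A)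
    {s : LaurentSeries Kbar} (hs : h27t_S A s) : h27t_S A (twistK ζ s) := by
  obtain ⟨h1, h2⟩ := hs
  let u : Aˣ := ⟨⟨ζ, hζ⟩, ⟨ζ⁻¹, hζ'⟩, Subtype.ext (mul_inv_cancel₀ hζ0),
    Subtype.ext (inv_mul_cancel₀ hζ0)⟩
  have h3 : twistK ζ s ∈ softOT A (IsLocalRing.residue A) :=
    Fermat.Agent.LGC.h44r_twistK_mem_softOT u h1
  exact ⟨h3, Fermat.Agent.LGC.h44r_softRedT_twistK_eq_zero u ⟨s, h1⟩ h2 h3⟩

theorem h27p_G_twistK {ζ : Kbar} (hζ0 : ζ ≠ 0) (hζ : ζ ∈ A) (hζ' : ζ⁻¹ ∈ A)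
    {s : LaurentSeries Kbar} (hs : s ∈ softOT A (IsLocalRing.residue A)) :
    twistK ζ s ∈ softOT A (IsLocalRing.residue A) := by
  let u : Aˣ := ⟨⟨ζ, hζ⟩, ⟨ζ⁻¹, hζ'⟩, Subtype.ext (mul_inv_cancel₀ hζ0),
    Subtype.ext (inv_mul_cancel₀ hζ0)⟩
  exact Fermat.Agent.LGC.h44r_twistK_mem_softOT u hs

/-- a non-unit of the Gauss valuation ring of `FF N` has a Gauss-small `q`-expansion. -/
theorem h27p_S_of_nonunit {N ℓ : ℕ} (hℓ : ℓ.Prime) (hA : A.LiesOverPrime ℓ) {f : FF N}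
    (hf : f ∈ (softRing A N hℓ hA).nonunits) : h27t_S A (f : LaurentSeries Kbar) := by
  have hf1 : f ∈ softV A N := (softRing A N hℓ hA).nonunits_le hf
  have h0 : softR A N ⟨f, hf1⟩ = 0 := (softR_eq_zero_iff_mem_nonunits A N hℓ hA ⟨f, hf1⟩).mpr hf
  exact ⟨hf1, h0⟩

end Small

/-! ## The inertia-fixed multiplier -/

section Mult

variable (A : ValuationSubring Kbar) (M q : ℕ) [NeZero M] [NeZero q]

/-- `t₀ = 1/j` of level `M q²`, as an element of `F₀`. -/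
def h27p_t0 : ↥(h92c_F0 A (M * q * q)) := (h37v_j A (M * q * q))⁻¹

theorem h27p_t0_coe : ((h27p_t0 A M q : ↥(h92c_F0 A (M * q * q))) : FF (M * q * q)) =
    (jB (M * q * q))⁻¹ := rfl

/-- the polynomial `s(1/j)` of level `M q²`, in `FF (M q²)`. -/
def h27p_S (s : Polynomial ↥(h81a_A0 A)) : FF (M * q * q) :=
  ((h37v_ev A (M * q * q) (h27p_t0 A M q) s : ↥(h92c_F0 A (M * q * q))) : FF (M * q * q))

/-- `j₀` is integral over `A[j₁]` at the level `M q²`. -/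
theorem h27p_meBeta2 (hq : q.Prime) (hqM : ¬ q ∣ M) (hA : A.LiesOverPrime q) :
    jB (M * q * q) ∈ modelAt (M * q * q) A (heckeBetaBar Kbar (M * q) q (jB (M * q))) := by
  have h1 : jB (M * q) ∈ modelAt (M * q) A (heckeBetaBar Kbar M q (jB M)) :=
    Fermat.Agent.Red.KR.meBeta Fermat.Agent.Red.KR.meAlpha M q hq hqM A hA
  have h2 := Fermat.Agent.Red.KR.map_mem_modelAt (heckeAlphaBar Kbar (M * q) q) A h1
  have e1 : heckeAlphaBar Kbar (M * q) q (jB (M * q)) = jB (M * q * q) :=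
    Fermat.Agent.Red.HKMod.heckeAlphaBar_jBar (M * q) q
  have e2 : heckeAlphaBar Kbar (M * q) q (heckeBetaBar Kbar M q (jB M)) =
      heckeBetaBar Kbar (M * q) q (jB (M * q)) := by
    rw [h20n_square, Fermat.Agent.Red.HKMod.heckeAlphaBar_jBar M q]
  rw [e1, e2] at h2
  exact h2

/-- **the inertia-fixed multiplier**: `β (B₀(M q)) ⊆ B₀(M q²)[1/S]`, `S = s(1/j)`,
`s ∈ A₀[X]`, `s(0) = 1`. -/
theorem h27p_exists_mult (hq : q.Prime) (hqM : ¬ q ∣ M) (hA : A.LiesOverPrime q) :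
    ∃ s : Polynomial ↥(h81a_A0 A), s.coeff 0 = 1 ∧
      ∀ f : FF (M * q), f ∈ h62rChart A (M * q) (jB (M * q))⁻¹ → ∃ E : ℕ,
        h27p_S A M q s ^ E * heckeBetaBar Kbar (M * q) q f ∈
          h62rChart A (M * q * q) (jB (M * q * q))⁻¹ := by
  -- `Y = j₀`, `J = j₁` in `F₀`
  obtain ⟨Y, hYdef⟩ : ∃ Y : ↥(h92c_F0 A (M * q * q)), Y = h37v_j A (M * q * q) := ⟨_, rfl⟩
  have hJF : heckeBetaBar Kbar (M * q) q (jB (M * q)) ∈ h92c_F0 A (M * q * q) :=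
    h71x_beta_mem _ _ _ (h37v_jB_mem_F0 A (M * q))
  obtain ⟨J, hJdef⟩ : ∃ J : ↥(h92c_F0 A (M * q * q)),
      J = ⟨heckeBetaBar Kbar (M * q) q (jB (M * q)), hJF⟩ := ⟨_, rfl⟩
  have hYc : (Y : FF (M * q * q)) = jB (M * q * q) := by rw [hYdef]; rfl
  have hJc : (J : FF (M * q * q)) = heckeBetaBar Kbar (M * q) q (jB (M * q)) := by
    rw [hJdef]
  have hY0 : Y ≠ 0 := by
    intro h0
    have h1 : (Y : FF (M * q * q)) = 0 := by rw [h0]; rfl
    rw [hYc] at h1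
    exact Fermat.Agent.LGC.h21c_jB_ne_zero (M * q * q) h1
  have hJ0 : J ≠ 0 := by
    intro h0
    have h1 : (J : FF (M * q * q)) = 0 := by rw [h0]; rfl
    rw [hJc] at h1
    exact Fermat.Agent.LGC.h21c_beta_jB_ne_zero (M * q) q h1
  have hint : (eval₂RingHom (h37v_phi A (M * q * q)) J).IsIntegralElem Y := by
    refine (h37v_isIntegralElem_iff A (M * q * q) J Y).mpr ?_
    rw [hYc, hJc]
    exact h27p_meBeta2 A M q hq hqM hA
  obtain ⟨s, hs0, hsU⟩ := Fermat.Agent.Red.KR.reflect (↥(h81a_A0 A)) (↥(h92c_F0 A (M * q * q)))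
    (h37v_phi A (M * q * q)) J Y hJ0 hY0 hint
  refine ⟨s, hs0, fun f hf => ?_⟩
  obtain ⟨hf1, hf2⟩ := hf
  have hβF : heckeBetaBar Kbar (M * q) q f ∈ h92c_F0 A (M * q * q) :=
    h71x_beta_mem _ _ _ hf2
  have hβf : (eval₂RingHom (h37v_phi A (M * q * q)) J⁻¹).IsIntegralElem
      (⟨heckeBetaBar Kbar (M * q) q f, hβF⟩ : ↥(h92c_F0 A (M * q * q))) := by
    refine (h37v_isIntegralElem_iff A (M * q * q) J⁻¹ _).mpr ?_
    have h1 := Fermat.Agent.Red.KR.map_mem_modelAt (heckeBetaBar Kbar (M * q) q) A hf1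
    rw [map_inv₀] at h1
    have e : ((J⁻¹ : ↥(h92c_F0 A (M * q * q))) : FF (M * q * q)) =
        (heckeBetaBar Kbar (M * q) q (jB (M * q)))⁻¹ := by
      rw [← hJc]
      rfl
    rw [e]
    exact h1
  obtain ⟨E, hE⟩ := Fermat.Agent.Red.KR.mult (↥(h81a_A0 A)) (↥(h92c_F0 A (M * q * q)))
    (h37v_phi A (M * q * q)) J⁻¹ Y⁻¹ s hsU _ hβf
  refine ⟨E, ?_⟩
  have h2 := (h37v_isIntegralElem_iff A (M * q * q) Y⁻¹ _).mp hE
  have e2 : ((Y⁻¹ : ↥(h92c_F0 A (M * q * q))) : FF (M * q * q)) = (jB (M * q * q))⁻¹ := by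
    rw [← hYc]
    rfl
  rw [e2] at h2
  have hYt : Y⁻¹ = h27p_t0 A M q := by rw [hYdef]; rfl
  refine ⟨?_, ?_⟩
  · have e3 : h27p_S A M q s ^ E * heckeBetaBar Kbar (M * q) q f =
        ((eval₂ (h37v_phi A (M * q * q)) Y⁻¹ s ^ E *
          (⟨heckeBetaBar Kbar (M * q) q f, hβF⟩ : ↥(h92c_F0 A (M * q * q))) :
            ↥(h92c_F0 A (M * q * q))) : FF (M * q * q)) := by
      rw [hYt]
      rfl
    rw [e3]
    exact h2
  · exact mul_mem (pow_mem (h37v_ev A (M * q * q) (h27p_t0 A M q) s).2 E) hβF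

/-- `S = s(1/j)` lies in the chart. -/
theorem h27p_S_mem_chart (s : Polynomial ↥(h81a_A0 A)) :
    h27p_S A M q s ∈ h62rChart A (M * q * q) (jB (M * q * q))⁻¹ := by
  refine ⟨?_, (h37v_ev A (M * q * q) (h27p_t0 A M q) s).2⟩
  exact (h37v_isIntegralElem_iff A (M * q * q) (h27p_t0 A M q)
    (h37v_ev A (M * q * q) (h27p_t0 A M q) s)).mp (RingHom.isIntegralElem_map _)

/-- `s(1/j) - 1 = s'(1/j) · (1/j)` when `s(0) = 1`. -/
theorem h27p_S_sub_one (s : Polynomial ↥(h81a_A0 A)) (hs : s.coeff 0 = 1) :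
    h27p_S A M q s = h27p_S A M q s.divX * (jB (M * q * q))⁻¹ + 1 := by
  have h1 : h37v_ev A (M * q * q) (h27p_t0 A M q) s =
      h37v_ev A (M * q * q) (h27p_t0 A M q) s.divX * h27p_t0 A M q + 1 := by
    conv_lhs => rw [← Polynomial.divX_mul_X_add s]
    rw [map_add, map_mul, hs]
    simp [h37v_ev]
  unfold h27p_S
  rw [h1]
  rfl

/-- the image of a polynomial in `t` with coefficients in `A` under an embedding `E` with
`E t` Gauss-integral is Gauss-integral. -/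
theorem h27p_E_ev_mem {N : ℕ} {E : FF N →+* LaurentSeries Kbar}
    (hE : ∀ c : Kbar, E (cst N c) = HahnSeries.C c) {t : FF N}
    (ht : E t ∈ softOT A (IsLocalRing.residue A)) (P : Polynomial A) :
    E (Fermat.Agent.Red.ModelO.h85ev N A t P) ∈ softOT A (IsLocalRing.residue A) := by
  induction P using Polynomial.induction_on' with
  | add p r hp hr =>
    rw [map_add, map_add]
    exact add_mem hp hr
  | monomial n a =>
    have e : Fermat.Agent.Red.ModelO.h85ev N A t (monomial n a) = cst N (a : Kbar) * t ^ n := by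
      simp [Fermat.Agent.Red.ModelO.h85ev, eval₂_monomial]
    rw [e, map_mul, map_pow, hE]
    exact mul_mem (C_mem_softOT A _ a) (pow_mem ht n)

theorem h27p_E_S_mem {E : FF (M * q * q) →+* LaurentSeries Kbar}
    (hE : ∀ c : Kbar, E (cst (M * q * q) c) = HahnSeries.C c)
    (ht : E (jB (M * q * q))⁻¹ ∈ softOT A (IsLocalRing.residue A))
    (s : Polynomial ↥(h81a_A0 A)) :
    E (h27p_S A M q s) ∈ softOT A (IsLocalRing.residue A) := by
  unfold h27p_S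
  rw [h37v_ev_coe]
  exact h27p_E_ev_mem A hE ht _

/-- `α` maps the chart at infinity of level `M q` to the chart at infinity of level `M q²`. -/
theorem h27p_alpha_mem {f : FF (M * q)} (hf : f ∈ h62rChart A (M * q) (jB (M * q))⁻¹) :
    heckeAlphaBar Kbar (M * q) q f ∈ h62rChart A (M * q * q) (jB (M * q * q))⁻¹ := by
  refine ⟨?_, h71x_alpha_mem _ _ _ hf.2⟩
  have h1 := Fermat.Agent.Red.KR.map_mem_modelAt (heckeAlphaBar Kbar (M * q) q) A hf.1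
  rw [map_inv₀, Fermat.Agent.Red.HKMod.heckeAlphaBar_jBar (M * q) q] at h1
  exact h1

end Mult

/-! ## The partition of unity -/

section Abstract

/-- the covering argument, in a commutative ring. -/
theorem h27p_cover {B : Type*} [CommRing B] (𝔫 : Ideal B) (hmax : 𝔫.IsMaximal)
    (T₀ Sb Db Y₁ Q P R₁ G₁ U : B) (q k E₁ E₂ E₃ : ℕ) (hq : q ≠ 0) (hk : k ≠ 0)
    (hT : T₀ ∈ 𝔫) (eS : Sb = Db * T₀ + 1) (eU : U = 1 - Y₁) (eG : G₁ = Y₁ ^ q - T₀ ^ k)
    (eR : Y₁ * R₁ = Sb ^ E₃ * T₀ ^ q)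
    (eI : Q * Sb ^ (E₂ * q + E₃ * k) =
      Sb ^ E₁ * ((Sb ^ E₂ - P) ^ q * Sb ^ (E₃ * k) - Sb ^ (E₂ * q) * R₁ ^ k)) :
    Q ∉ 𝔫 ∨ P * G₁ ∉ 𝔫 ∨ U ∉ 𝔫 := by
  by_contra hcon
  rw [not_or, not_or, not_not, not_not, not_not] at hcon
  obtain ⟨h20, h11, h02⟩ := hcon
  have hne : (1 : B) ∉ 𝔫 := fun h1 => hmax.ne_top ((Ideal.eq_top_iff_one 𝔫).mpr h1)
  have key : ∀ x : B, Ideal.Quotient.mk 𝔫 x = 0 ↔ x ∈ 𝔫 :=
    fun x => Ideal.Quotient.eq_zero_iff_mem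
  obtain ⟨φ, hφ⟩ : ∃ φ : B →+* (B ⧸ 𝔫), φ = Ideal.Quotient.mk 𝔫 := ⟨_, rfl⟩
  rw [← hφ] at key
  have h10 : (1 : B ⧸ 𝔫) ≠ 0 := by
    intro h
    rw [← map_one φ, key] at h
    exact hne h
  have vT : φ T₀ = 0 := (key T₀).mpr hT
  have vS : φ Sb = 1 := by rw [eS, map_add, map_mul, vT, mul_zero, zero_add, map_one]
  have vY : φ Y₁ = 1 := by
    have h := (key U).mpr h02
    rw [eU, map_sub, map_one, sub_eq_zero] at h
    exact h.symm
  have vG : φ G₁ = 1 := by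
    rw [eG, map_sub, map_pow, map_pow, vY, vT, one_pow, zero_pow hk, sub_zero]
  have vP : φ P = 0 := by
    have h := (key (P * G₁)).mpr h11
    rw [map_mul, vG, mul_one] at h
    exact h
  have vQ : φ Q = 0 := (key Q).mpr h20
  have vR : φ R₁ = 0 := by
    have h := congrArg φ eR
    rw [map_mul, map_mul, map_pow, map_pow, vY, vT, one_mul, zero_pow hq, mul_zero] at h
    exact h
  have h := congrArg φ eI
  simp only [map_mul, map_pow, map_sub, vQ, vS, vP, vR, one_pow, zero_pow hk, zero_mul,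
    mul_zero, sub_zero, mul_one] at h
  exact h10 h.symm

/-- the identity behind the covering argument. -/
theorem h27p_identity {F : Type*} [Field F] (S b c : F) (q k E₁ E₂ E₃ : ℕ) :
    S ^ E₁ * (b ^ q - c ^ k) * S ^ (E₂ * q + E₃ * k) =
      S ^ E₁ * ((S ^ E₂ - S ^ E₂ * (1 - b)) ^ q * S ^ (E₃ * k) -
        S ^ (E₂ * q) * (S ^ E₃ * c) ^ k) := by
  have e1 : S ^ E₂ - S ^ E₂ * (1 - b) = S ^ E₂ * b := by ring
  rw [e1]
  ring

end Abstract

section Main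

/-- `α y · β t = t₀ ^ q`. -/
theorem h27p_relation (M q : ℕ) [NeZero M] [NeZero q] :
    heckeAlphaBar Kbar (M * q) q (Fermat.Agent.LGC.h21c_y M q) *
      heckeBetaBar Kbar (M * q) q (jB (M * q))⁻¹ = ((jB (M * q * q))⁻¹) ^ q := by
  have e1 : heckeAlphaBar Kbar (M * q) q (heckeBetaBar Kbar M q (jB M)) =
      heckeBetaBar Kbar (M * q) q (jB (M * q)) := by
    rw [h20n_square, Fermat.Agent.Red.HKMod.heckeAlphaBar_jBar M q]
  have e2 : heckeAlphaBar Kbar (M * q) q (jB (M * q))⁻¹ = (jB (M * q * q))⁻¹ := by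
    rw [map_inv₀, Fermat.Agent.Red.HKMod.heckeAlphaBar_jBar (M * q) q]
  have h0 : heckeBetaBar Kbar (M * q) q (jB (M * q)) ≠ 0 :=
    Fermat.Agent.LGC.h21c_beta_jB_ne_zero (M * q) q
  have e3 : Fermat.Agent.LGC.h21c_y M q =
      heckeBetaBar Kbar M q (jB M) * ((jB (M * q))⁻¹) ^ q := rfl
  rw [e3, map_mul, map_pow, e1, e2, map_inv₀,
    mul_right_comm (heckeBetaBar Kbar (M * q) q (jB (M * q))), mul_inv_cancel₀ h0, one_mul]

variable (A : ValuationSubring Kbar) (M q : ℕ) [NeZero M] [NeZero q]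

/-- the data of level `M q`: `y`, `t`, and the facts about them. -/
theorem h27p_level_facts (hq : q.Prime) (hqM : ¬ q ∣ M) (hA : A.LiesOverPrime q) :
    ∃ y t : FF (M * q), t = (jB (M * q))⁻¹ ∧
      y ∈ h62rChart A (M * q) (jB (M * q))⁻¹ ∧ t ∈ h62rChart A (M * q) (jB (M * q))⁻¹ ∧
      y ∈ softV A (M * q) ∧ kFricke M q hq hqM y ∈ softV A (M * q) ∧
      t ∈ softV A (M * q) ∧ kFricke M q hq hqM t ∈ softV A (M * q) ∧
      h27t_S A ((1 - y : FF (M * q)) : LaurentSeries Kbar) ∧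
      h27t_S A ((kFricke M q hq hqM (y ^ q - t ^ (q * q - 1)) : FF (M * q)) :
        LaurentSeries Kbar) ∧
      heckeAlphaBar Kbar (M * q) q y * heckeBetaBar Kbar (M * q) q t =
        ((jB (M * q * q))⁻¹) ^ q := by
  obtain ⟨hy, hwy, ht, hwt, h1y, hwg⟩ := Fermat.Agent.LGC.h21c_soft_facts A M q hq hqM hA
  have hyC : Fermat.Agent.LGC.h21c_y M q ∈ modelAt (M * q) A (jB (M * q))⁻¹ :=
    (Fermat.Agent.LGC.h21c_mem_chart_iff A M q _).mp
      (Fermat.Agent.LGC.h21c_y_mem_chart A M q hq hqM hA)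
  have htF : (jB (M * q))⁻¹ ∈ h92c_F0 A (M * q) := inv_mem (h37v_jB_mem_F0 A (M * q))
  have hyF : Fermat.Agent.LGC.h21c_y M q ∈ h92c_F0 A (M * q) :=
    mul_mem (h71x_beta_mem _ _ _ (h37v_jB_mem_F0 A M)) (pow_mem htF q)
  refine ⟨Fermat.Agent.LGC.h21c_y M q, (jB (M * q))⁻¹, rfl, ⟨hyC, hyF⟩,
    ⟨Fermat.Agent.Red.ModelO.h85_self_mem_modelAt (M * q) A _, htF⟩, hy, hwy, ht, hwt,
    h27p_S_of_nonunit hq hA h1y, h27p_S_of_nonunit hq hA hwg, h27p_relation M q⟩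

theorem h27p_E20_apply (x : FF (M * q * q)) :
    h20n_E20 M q x = (x : LaurentSeries Kbar) := by
  unfold h20n_E20
  exact IntermediateField.algebraMap_apply _ x

theorem h27p_E20_alpha (f : FF (M * q)) :
    h20n_E20 M q (heckeAlphaBar Kbar (M * q) q f) = (f : LaurentSeries Kbar) := by
  rw [h27p_E20_apply]
  exact coe_heckeAlphaBar (M * q) q f

theorem h27p_E20_beta (f : FF (M * q)) :
    h20n_E20 M q (heckeBetaBar Kbar (M * q) q f) = qExpand Kbar q (f : LaurentSeries Kbar) := by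
  rw [h27p_E20_apply]
  exact coe_heckeBetaBar (M * q) q f

/-- Gauss-integrality of `S = s(1/j)` at the three embeddings. -/
theorem h27p_S_int (hq : q.Prime) (hqM : ¬ q ∣ M) {ζ : Kbar}
    {E11 E02 : FF (M * q * q) →+* LaurentSeries Kbar}
    (hE11 : h20n_IsE11 M q hq hqM ζ E11) (hE02 : h20n_IsE02 M q hq hqM E02)
    (ht : (jB (M * q))⁻¹ ∈ softV A (M * q))
    (hwt : kFricke M q hq hqM (jB (M * q))⁻¹ ∈ softV A (M * q))
    (s : Polynomial ↥(h81a_A0 A)) :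
    h20n_E20 M q (h27p_S A M q s) ∈ softOT A (IsLocalRing.residue A) ∧
      E11 (h27p_S A M q s) ∈ softOT A (IsLocalRing.residue A) ∧
      E02 (h27p_S A M q s) ∈ softOT A (IsLocalRing.residue A) := by
  have hαt : heckeAlphaBar Kbar (M * q) q (jB (M * q))⁻¹ = (jB (M * q * q))⁻¹ := by
    rw [map_inv₀, Fermat.Agent.Red.HKMod.heckeAlphaBar_jBar (M * q) q]
  have hG20t : h20n_E20 M q (jB (M * q * q))⁻¹ ∈ softOT A (IsLocalRing.residue A) := by
    rw [← hαt, h27p_E20_alpha]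
    exact ht
  have hG11t : E11 (jB (M * q * q))⁻¹ ∈ softOT A (IsLocalRing.residue A) := by
    rw [← hαt, hE11.1]
    exact ht
  have hG02t : E02 (jB (M * q * q))⁻¹ ∈ softOT A (IsLocalRing.residue A) := by
    rw [← hαt, hE02.1]
    exact mem_softOT_qExpand A _ q hwt
  exact ⟨h27p_E_S_mem A M q h27a_E20_cst hG20t s,
    h27p_E_S_mem A M q (h27a_E11_cst hE11) hG11t s,
    h27p_E_S_mem A M q (h27a_E02_cst hE02) hG02t s⟩

end Main

/-- **R-CUSP-PART.** -/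
theorem h27p_cuspPart : H18cPart := by
  intro q hq M _ hqM haux
  have : NeZero q := ⟨hq.ne_zero⟩
  intro A hA ζ E11 E02 hT
  obtain ⟨hζ, hE11, hE02⟩ := hT
  -- `ζ` is a unit of `A`
  have hζ0 : ζ ≠ 0 := hζ.ne_zero hq.ne_zero
  have hζv : A.valuation ζ = 1 := h27a_val_root hq.pos hζ.pow_eq_one
  have hζA : ζ ∈ A := (A.valuation_le_one_iff _).mp hζv.le
  have hζA' : ζ⁻¹ ∈ A := (A.valuation_le_one_iff _).mp (by rw [map_inv₀, hζv, inv_one])
  have hk : q * q - 1 ≠ 0 := by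
    have := hq.two_le
    have h4 : 2 * 2 ≤ q * q := Nat.mul_le_mul this this
    omega
  -- level `M q`
  obtain ⟨y, t, htd, hyB, htB, hy, hwy, ht, hwt, hs1y, hswg, hrel⟩ :=
    h27p_level_facts A M q hq hqM hA
  have hαt : heckeAlphaBar Kbar (M * q) q t = (jB (M * q * q))⁻¹ := by
    rw [htd, map_inv₀, Fermat.Agent.Red.HKMod.heckeAlphaBar_jBar (M * q) q]
  have h1yB : 1 - y ∈ h62rChart A (M * q) (jB (M * q))⁻¹ := sub_mem (one_mem _) hyB
  have hgB : y ^ q - t ^ (q * q - 1) ∈ h62rChart A (M * q) (jB (M * q))⁻¹ :=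
    sub_mem (pow_mem hyB _) (pow_mem htB _)
  have hgV : ((y ^ q - t ^ (q * q - 1) : FF (M * q)) : LaurentSeries Kbar) ∈
      softOT A (IsLocalRing.residue A) :=
    (sub_mem (pow_mem hy _) (pow_mem ht _) : y ^ q - t ^ (q * q - 1) ∈ softV A (M * q))
  have hw1y : ((kFricke M q hq hqM (1 - y) : FF (M * q)) : LaurentSeries Kbar) ∈
      softOT A (IsLocalRing.residue A) := by
    have h : kFricke M q hq hqM (1 - y) ∈ softV A (M * q) := by
      rw [map_sub, map_one]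
      exact sub_mem (one_mem _) hwy
    exact h
  -- the multiplier
  obtain ⟨s, hs0, hmult⟩ := h27p_exists_mult A M q hq hqM hA
  obtain ⟨E₁, hQ⟩ := hmult _ hgB
  obtain ⟨E₂, hP⟩ := hmult _ h1yB
  obtain ⟨E₃, hR⟩ := hmult _ htB
  have hSint := h27p_S_int A M q hq hqM hE11 hE02 (htd ▸ ht) (htd ▸ hwt) s
  have hSB := h27p_S_mem_chart A M q s
  have hS1 := h27p_S_sub_one A M q s hs0
  have hDB := h27p_S_mem_chart A M q s.divX
  obtain ⟨S, hSdef⟩ : ∃ S : FF (M * q * q), S = h27p_S A M q s := ⟨_, rfl⟩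
  rw [← hSdef] at hQ hP hR hSint hSB hS1
  obtain ⟨hS20, hS11, hS02⟩ := hSint
  -- the chart elements
  have hαgB := h27p_alpha_mem A M q hgB
  have hα1yB := h27p_alpha_mem A M q h1yB
  have hαyB := h27p_alpha_mem A M q hyB
  have ht0B : (jB (M * q * q))⁻¹ ∈ h62rChart A (M * q * q) (jB (M * q * q))⁻¹ :=
    ⟨Fermat.Agent.Red.ModelO.h85_self_mem_modelAt _ A _,
      (inv_mem (h37v_jB_mem_F0 A (M * q * q)) : (jB (M * q * q))⁻¹ ∈ h92c_F0 A (M * q * q))⟩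
  obtain ⟨Q, hQv⟩ : ∃ x : h62rChart A (M * q * q) (jB (M * q * q))⁻¹,
      (x : FF (M * q * q)) = S ^ E₁ * heckeBetaBar Kbar (M * q) q (y ^ q - t ^ (q * q - 1)) :=
    ⟨⟨_, hQ⟩, rfl⟩
  obtain ⟨P, hPv⟩ : ∃ x : h62rChart A (M * q * q) (jB (M * q * q))⁻¹,
      (x : FF (M * q * q)) = S ^ E₂ * heckeBetaBar Kbar (M * q) q (1 - y) := ⟨⟨_, hP⟩, rfl⟩
  obtain ⟨R₁, hRv⟩ : ∃ x : h62rChart A (M * q * q) (jB (M * q * q))⁻¹,
      (x : FF (M * q * q)) = S ^ E₃ * heckeBetaBar Kbar (M * q) q t := ⟨⟨_, hR⟩, rfl⟩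
  obtain ⟨G₁, hGv⟩ : ∃ x : h62rChart A (M * q * q) (jB (M * q * q))⁻¹,
      (x : FF (M * q * q)) = heckeAlphaBar Kbar (M * q) q (y ^ q - t ^ (q * q - 1)) :=
    ⟨⟨_, hαgB⟩, rfl⟩
  obtain ⟨U, hUv⟩ : ∃ x : h62rChart A (M * q * q) (jB (M * q * q))⁻¹,
      (x : FF (M * q * q)) = heckeAlphaBar Kbar (M * q) q (1 - y) := ⟨⟨_, hα1yB⟩, rfl⟩
  obtain ⟨Y₁, hYv⟩ : ∃ x : h62rChart A (M * q * q) (jB (M * q * q))⁻¹,
      (x : FF (M * q * q)) = heckeAlphaBar Kbar (M * q) q y := ⟨⟨_, hαyB⟩, rfl⟩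
  obtain ⟨T₀, hTv⟩ : ∃ x : h62rChart A (M * q * q) (jB (M * q * q))⁻¹,
      (x : FF (M * q * q)) = (jB (M * q * q))⁻¹ := ⟨⟨_, ht0B⟩, rfl⟩
  obtain ⟨Sb, hSv⟩ : ∃ x : h62rChart A (M * q * q) (jB (M * q * q))⁻¹,
      (x : FF (M * q * q)) = S := ⟨⟨_, hSB⟩, rfl⟩
  obtain ⟨Db, hDv⟩ : ∃ x : h62rChart A (M * q * q) (jB (M * q * q))⁻¹,
      (x : FF (M * q * q)) = h27p_S A M q s.divX := ⟨⟨_, hDB⟩, rfl⟩
  refine ⟨Q, P * G₁, U, ?_, ?_, ?_, ?_, ?_, ?_, ?_⟩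
  · -- `E11 u₂₀`
    rw [h27p_small_iff, hQv, map_mul, map_pow, hE11.2]
    exact h27t_S_mul (pow_mem hS11 _) (h27p_S_twistK hζ0 hζA hζA' hswg)
  · -- `E02 u₂₀`
    rw [h27p_small_iff, hQv, map_mul, map_pow, hE02.2]
    exact h27t_S_mul (pow_mem hS02 _) hswg
  · -- `E20 u₁₁`
    rw [h27p_small_iff, Subring.coe_mul, hPv, hGv, map_mul, map_mul, map_pow, h27p_E20_beta,
      h27p_E20_alpha]
    exact h27p_S_mul_right (h27t_S_mul (pow_mem hS20 _) (h27p_S_qExpand q hs1y)) hgV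
  · -- `E02 u₁₁`
    rw [h27p_small_iff, Subring.coe_mul, hPv, hGv, map_mul, map_mul, map_pow, hE02.2, hE02.1]
    exact h27t_S_mul (mul_mem (pow_mem hS02 _) hw1y) (h27p_S_qExpand q hswg)
  · -- `E20 u₀₂`
    rw [h27p_small_iff, hUv, h27p_E20_alpha]
    exact hs1y
  · -- `E11 u₀₂`
    rw [h27p_small_iff, hUv, hE11.1]
    exact hs1y
  · -- the covering
    intro 𝔫 h𝔫
    obtain ⟨hmax, -, ht𝔫⟩ := h𝔫
    refine h27p_cover 𝔫 hmax T₀ Sb Db Y₁ Q P R₁ G₁ U q (q * q - 1) E₁ E₂ E₃ hq.ne_zero hk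
      (ht𝔫 T₀ hTv) ?_ ?_ ?_ ?_ ?_
    · apply Subtype.ext
      rw [Subring.coe_add, Subring.coe_mul, Subring.coe_one, hSv, hDv, hTv]
      exact hS1
    · apply Subtype.ext
      rw [AddSubgroupClass.coe_sub, Subring.coe_one, hUv, hYv, map_sub, map_one]
    · apply Subtype.ext
      rw [AddSubgroupClass.coe_sub, Subring.coe_pow, Subring.coe_pow, hGv, hYv, hTv, map_sub,
        map_pow, map_pow, hαt]
    · apply Subtype.ext
      rw [Subring.coe_mul, Subring.coe_mul, Subring.coe_pow, Subring.coe_pow, hYv, hRv, hSv,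
        hTv, ← hrel]
      ring
    · apply Subtype.ext
      simp only [Subring.coe_mul, Subring.coe_pow, AddSubgroupClass.coe_sub, hQv, hSv, hPv,
        hRv, map_sub, map_pow, map_one]
      exact h27p_identity S _ _ q (q * q - 1) E₁ E₂ E₃

end Fermat.Agent.S36
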