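import Mathlib

/-!
# S36, block REG, row R-CUSP-LPM (helper3): abstract lemmas

Setting of `S36/H62RedIsoAbs.lean`: `ι : B₀ →+* B`, `𝔪` an ideal of `B`, `π ∈ B₀` with
`surj : ∀ b, ∃ b₀, b - ι b₀ ∈ 𝔪` and `inj : ∀ x, ι x ∈ 𝔪 → ∃ y, x = π * y`.

* `h3l_exists_prime` : every PRIME ideal `𝔰₀ ∋ π` of `B₀` is the contraction of a prime ideal
  `𝔫 ⊇ 𝔪` of `B` (prime version of `h62d_exists_max`).
* `h3l_isMaximal_of_dedekind` : if `B ⧸ 𝔪` is a Dedekind domain, a prime `𝔫 ⊇ 𝔪` containing an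
  element outside `𝔪` is maximal.

Mathlib only.
-/

set_option autoImplicit false

namespace Fermat.Agent.S36

section Prime

variable {B₀ B : Type*} [CommRing B₀] [CommRing B] (ι : B₀ →+* B) (𝔪 : Ideal B) (π : B₀)

/-- approximation of an element of `ι(𝔰₀) B + 𝔪` lying in the image of `ι`. -/
theorem h3l_contr (surj : ∀ b : B, ∃ b₀ : B₀, b - ι b₀ ∈ 𝔪)
    (inj : ∀ x : B₀, ι x ∈ 𝔪 → ∃ y, x = π * y)
    (𝔰₀ : Ideal B₀) (hπ : π ∈ 𝔰₀) (x : B₀) (hx : ι x ∈ 𝔰₀.map ι ⊔ 𝔪) : x ∈ 𝔰₀ := by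
  obtain ⟨w, hw, m, hm, hsum⟩ := Submodule.mem_sup.mp hx
  -- `w ∈ ι(𝔰₀) B` is congruent modulo `𝔪` to `ι w₀`, `w₀ ∈ 𝔰₀`
  have key : ∀ w ∈ 𝔰₀.map ι, ∃ w₀ ∈ 𝔰₀, w - ι w₀ ∈ 𝔪 := by
    intro w hw
    rw [Ideal.map] at hw
    induction hw using Submodule.span_induction with
    | mem x hx =>
      obtain ⟨x₀, hx₀, rfl⟩ := hx
      exact ⟨x₀, hx₀, by simp⟩
    | zero => exact ⟨0, Ideal.zero_mem _, by simp⟩
    | add x y _ _ hx hy =>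
      obtain ⟨x₀, hx₀, hx'⟩ := hx
      obtain ⟨y₀, hy₀, hy'⟩ := hy
      refine ⟨x₀ + y₀, Ideal.add_mem _ hx₀ hy₀, ?_⟩
      have h1 : x + y - ι (x₀ + y₀) = (x - ι x₀) + (y - ι y₀) := by rw [map_add]; ring
      rw [h1]
      exact 𝔪.add_mem hx' hy'
    | smul a x _ hx =>
      obtain ⟨x₀, hx₀, hx'⟩ := hx
      obtain ⟨a₀, ha₀⟩ := surj a
      refine ⟨a₀ * x₀, Ideal.mul_mem_left _ _ hx₀, ?_⟩
      have h1 : a • x - ι (a₀ * x₀) = a * (x - ι x₀) + (a - ι a₀) * ι x₀ := by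
        rw [map_mul, smul_eq_mul]; ring
      rw [h1]
      exact 𝔪.add_mem (𝔪.mul_mem_left _ hx') (𝔪.mul_mem_right _ ha₀)
  obtain ⟨w₀, hw₀, hww⟩ := key w hw
  have h1 : ι (x - w₀) ∈ 𝔪 := by
    have h2 : ι (x - w₀) = (w - ι w₀) + m := by
      rw [map_sub, ← hsum]; ring
    rw [h2]
    exact 𝔪.add_mem hww hm
  obtain ⟨y, hy⟩ := inj _ h1
  have h3 : x = w₀ + π * y := by linear_combination hy
  rw [h3]
  exact 𝔰₀.add_mem hw₀ (𝔰₀.mul_mem_right _ hπ)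

/-- every prime ideal `𝔰₀ ∋ π` of `B₀` is the contraction of a prime ideal `𝔫 ⊇ 𝔪` of `B`. -/
theorem h3l_exists_prime (surj : ∀ b : B, ∃ b₀ : B₀, b - ι b₀ ∈ 𝔪)
    (inj : ∀ x : B₀, ι x ∈ 𝔪 → ∃ y, x = π * y)
    (𝔰₀ : Ideal B₀) [h𝔰₀ : 𝔰₀.IsPrime] (hπ : π ∈ 𝔰₀) :
    ∃ 𝔫 : Ideal B, 𝔫.IsPrime ∧ 𝔪 ≤ 𝔫 ∧ 𝔫.comap ι = 𝔰₀ := by
  set J : Ideal B := 𝔰₀.map ι ⊔ 𝔪 with hJ
  have hcontr : ∀ x : B₀, ι x ∈ J → x ∈ 𝔰₀ := h3l_contr ι 𝔪 π surj inj 𝔰₀ hπ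
  have h𝔪J : 𝔪 ≤ J := le_sup_right
  have hmem : ∀ x : B₀, x ∈ 𝔰₀ → ι x ∈ J := fun x hx =>
    Ideal.mem_sup_left (Ideal.mem_map_of_mem ι hx)
  refine ⟨J, ⟨?_, ?_⟩, h𝔪J, ?_⟩
  · intro h
    apply h𝔰₀.ne_top
    rw [Ideal.eq_top_iff_one]
    apply hcontr
    rw [map_one, h]
    exact Submodule.mem_top
  · intro a b hab
    obtain ⟨a₀, ha₀⟩ := surj a
    obtain ⟨b₀, hb₀⟩ := surj b
    have h1 : ι (a₀ * b₀) ∈ J := by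
      have h2 : ι (a₀ * b₀) = a * b - (a - ι a₀) * b - ι a₀ * (b - ι b₀) := by
        rw [map_mul]; ring
      rw [h2]
      exact J.sub_mem (J.sub_mem hab (J.mul_mem_right _ (h𝔪J ha₀)))
        (J.mul_mem_left _ (h𝔪J hb₀))
    rcases h𝔰₀.mem_or_mem (hcontr _ h1) with h | h
    · left
      have h3 : a = (a - ι a₀) + ι a₀ := by ring
      rw [h3]
      exact J.add_mem (h𝔪J ha₀) (hmem _ h)
    · right
      have h3 : b = (b - ι b₀) + ι b₀ := by ring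
      rw [h3]
      exact J.add_mem (h𝔪J hb₀) (hmem _ h)
  · ext x
    rw [Ideal.mem_comap]
    exact ⟨hcontr x, hmem x⟩

end Prime

/-- if `B ⧸ 𝔪` is a Dedekind domain, a prime `𝔫 ⊇ 𝔪` containing an element outside `𝔪` is
maximal. -/
theorem h3l_isMaximal_of_dedekind {B : Type*} [CommRing B] (𝔪 : Ideal B)
    [IsDedekindDomain (B ⧸ 𝔪)] (𝔫 : Ideal B) [h𝔫 : 𝔫.IsPrime] (h𝔪𝔫 : 𝔪 ≤ 𝔫)
    (x : B) (hx : x ∈ 𝔫) (hx𝔪 : x ∉ 𝔪) : 𝔫.IsMaximal := by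
  have hsurj : Function.Surjective (Ideal.Quotient.mk 𝔪) := Ideal.Quotient.mk_surjective
  have hker : RingHom.ker (Ideal.Quotient.mk 𝔪) ≤ 𝔫 := by rwa [Ideal.mk_ker]
  have hP : (𝔫.map (Ideal.Quotient.mk 𝔪)).IsPrime :=
    Ideal.map_isPrime_of_surjective hsurj hker
  have hP0 : 𝔫.map (Ideal.Quotient.mk 𝔪) ≠ ⊥ := by
    intro h
    have h1 : Ideal.Quotient.mk 𝔪 x ∈ 𝔫.map (Ideal.Quotient.mk 𝔪) := Ideal.mem_map_of_mem _ hx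
    rw [h, Ideal.mem_bot, Ideal.Quotient.eq_zero_iff_mem] at h1
    exact hx𝔪 h1
  have hPmax : (𝔫.map (Ideal.Quotient.mk 𝔪)).IsMaximal := hP.isMaximal hP0
  have hcm : (𝔫.map (Ideal.Quotient.mk 𝔪)).comap (Ideal.Quotient.mk 𝔪) = 𝔫 := by
    rw [Ideal.comap_map_of_surjective _ hsurj, ← RingHom.ker_eq_comap_bot]
    exact sup_eq_left.mpr hker
  rw [← hcm]
  exact Ideal.comap_isMaximal_of_surjective _ hsurj

end Fermat.Agent.S36
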