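import Fermat.Agent.S36.H18CuspIface
import Fermat.Agent.S36.H25RedIsoInst
import Fermat.Agent.S36.H3CuspLPMAbs
import Fermat.Agent.LGC.H13LevelM
import Fermat.Agent.Red.H3LocalUnif

/-!
# S36, block REG, row R-CUSP-LPM (helper3): `H18cLPM`

The cusps of the chart at infinity `Λ₀ = h62rChart A M (1/j)` of the good level `M` over the
inertia ring `A₀` have a local parameter: for every prime `𝔰` of `Λ₀` with `q ∈ 𝔰`, `1/j ∈ 𝔰`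
there is `t₁ ∈ 𝔰` with `𝔰 = (t₁, q)` locally at `𝔰`.

Proof: `𝔰` is the contraction of a prime `𝔫 ⊇ 𝔪_A Λ` of the chart `Λ` over `A` (reduction
isomorphism R-REDISO, `h25i_redIso_M_inf`; `h3l_exists_prime`); `Λ ⧸ 𝔪_A Λ` is a Dedekind domain
(`h13l_hded_inf`) and `1/j ∈ 𝔫 ∖ 𝔪_A Λ` (Gauss reduction of `1/j` is `1/j ≠ 0`), so `𝔫` is
maximal; a local uniformiser `t` of `𝔫` modulo `𝔪_A Λ` (`h3_exists_local_uniformizer`) is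
approximated by `t₁ ∈ Λ₀` and descends (`h62d_gen_single`).

* `h3lT` : `1/j` in `Λ₀`;  `h3l_T_not_mem` : `1/j ∉ 𝔪_A Λ`.
* `h3l_cusp_isMaximal` : a prime of `Λ₀` containing `q` and `1/j` is maximal.
* `h3l_lpm : H18cLPM`.
-/

set_option autoImplicit false
set_option linter.unusedSectionVars false
set_option linter.style.haveILetI false

open AlgebraicCurve ModularCurve IsLocalRing

noncomputable section

namespace Fermat.Agent.S36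

open Fermat.Agent.S37 Fermat.Agent.Red Fermat.Agent.Red.GG Fermat.Agent.Red.GV Fermat.Agent.LGC
  Fermat.Agent.S28

variable (A : ValuationSubring Kbar) (M : ℕ) [NeZero M]

/-- `1/j` as an element of the chart at infinity over the inertia ring. -/
def h3lT : h62rChart A M (jB M)⁻¹ :=
  ⟨(jB M)⁻¹, h62r_mem_chart.mpr
    ⟨ModelO.h85_self_mem_modelAt M A (jB M)⁻¹, fun σ _ => GalI.gal_smul_jB_inv σ⟩⟩

@[simp]
theorem h3lT_coe : ((h3lT A M : h62rChart A M (jB M)⁻¹) : FF M) = (jB M)⁻¹ := rfl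

variable {A M} {q : ℕ}

/-- `1/j` does not lie in `𝔪_A Λ`. -/
theorem h3l_T_not_mem (hq : q.Prime) (hM : ¬ q ∣ M) (hA : A.LiesOverPrime q) :
    h62rIncl A M (jB M)⁻¹ (h3lT A M) ∉ h62rM A M (jB M)⁻¹ := by
  intro h
  have hV : modelAt M A (jB M)⁻¹ ≤ gaussV A M := modelInf_le_gaussV A M hq hM hA
  rw [h62rM, h13l_map_maxExt] at h
  set tR : modelAt M A (jB M)⁻¹ :=
    ⟨(jB M)⁻¹, ModelO.h85_self_mem_modelAt M A (jB M)⁻¹⟩ with htR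
  have h1 : h62rIncl A M (jB M)⁻¹ (h3lT A M) =
      ((h13l_toChart M A (jB M)⁻¹ : modelAt M A (jB M)⁻¹ ≃+* chart M A (jB M)⁻¹) :
        modelAt M A (jB M)⁻¹ →+* chart M A (jB M)⁻¹) tR := rfl
  rw [h1] at h
  have h2 : tR ∈ maxExt A (modelAt M A (jB M)⁻¹) := by
    obtain ⟨y, hy, hyx⟩ := (Ideal.mem_map_iff_of_surjective _
      (h13l_toChart M A (jB M)⁻¹).surjective).mp h
    have h3 : y = tR := (h13l_toChart M A (jB M)⁻¹).injective hyx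
    rwa [← h3]
  have h3 := h67_maxExt_le_ker M A (jB M)⁻¹ hA hV h2
  rw [RingHom.mem_ker, h67red_apply] at h3
  have h4 := h67_gaussR_jB_inv M A (hV tR.2)
  have h5 : (jK (IsLocalRing.ResidueField A))⁻¹ = 0 := by
    rw [← h4]; exact h3
  exact inv_ne_zero (jqModC_ne_zero_of_nontrivial _) h5

/-- the prime of the chart over `A` above a cusp of the chart over `A₀`, with the local
parameter data. -/
theorem h3l_exists_above (hq : q.Prime) (hM : ¬ q ∣ M) (haux : auxLevel q ∣ M)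
    (hA : A.LiesOverPrime q) (𝔰₀ : Ideal (h62rChart A M (jB M)⁻¹)) (h𝔰₀ : 𝔰₀.IsPrime)
    (hq𝔰₀ : (q : h62rChart A M (jB M)⁻¹) ∈ 𝔰₀) (hT : h3lT A M ∈ 𝔰₀) :
    ∃ 𝔫 : Ideal (chart M A (jB M)⁻¹), 𝔫.IsMaximal ∧ h62rM A M (jB M)⁻¹ ≤ 𝔫 ∧
      𝔫.comap (h62rIncl A M (jB M)⁻¹) = 𝔰₀ := by
  haveI : NeZero q := ⟨hq.ne_zero⟩
  obtain ⟨surj, inj⟩ := h25i_redIso_M_inf (A := A) (M := M) hq hM hA
  obtain ⟨𝔫, h𝔫p, h𝔪𝔫, hcomap⟩ := h3l_exists_prime (h62rIncl A M (jB M)⁻¹)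
    (h62rM A M (jB M)⁻¹) (q : h62rChart A M (jB M)⁻¹) surj inj 𝔰₀ hq𝔰₀
  haveI hded : IsDedekindDomain (chart M A (jB M)⁻¹ ⧸ h62rM A M (jB M)⁻¹) :=
    h13l_hded_inf M A hq hM haux hA
  have hx : h62rIncl A M (jB M)⁻¹ (h3lT A M) ∈ 𝔫 := by
    rw [← hcomap] at hT
    exact Ideal.mem_comap.mp hT
  exact ⟨𝔫, h3l_isMaximal_of_dedekind (h62rM A M (jB M)⁻¹) 𝔫 h𝔪𝔫 _ hx
    (h3l_T_not_mem hq hM hA), h𝔪𝔫, hcomap⟩

/-- a prime of the chart at infinity over `A₀` of the good level containing `q` and `1/j` is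
maximal. -/
theorem h3l_cusp_isMaximal (hq : q.Prime) (hM : ¬ q ∣ M) (haux : auxLevel q ∣ M)
    (hA : A.LiesOverPrime q) (𝔰₀ : Ideal (h62rChart A M (jB M)⁻¹)) (h𝔰₀ : 𝔰₀.IsPrime)
    (hq𝔰₀ : (q : h62rChart A M (jB M)⁻¹) ∈ 𝔰₀) (hT : h3lT A M ∈ 𝔰₀) : 𝔰₀.IsMaximal := by
  haveI : NeZero q := ⟨hq.ne_zero⟩
  obtain ⟨surj, inj⟩ := h25i_redIso_M_inf (A := A) (M := M) hq hM hA
  obtain ⟨𝔫, h𝔫max, h𝔪𝔫, hcomap⟩ := h3l_exists_above hq hM haux hA 𝔰₀ h𝔰₀ hq𝔰₀ hT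
  rw [← hcomap]
  exact h62d_comap_isMaximal (h62rIncl A M (jB M)⁻¹) (h62rM A M (jB M)⁻¹) surj 𝔫 h𝔪𝔫

/-- **R-CUSP-LPM.** -/
theorem h3l_lpm : H18cLPM := by
  intro q hq M _ hM haux A hA 𝔰₀ h𝔰₀ hq𝔰₀ hj𝔰₀
  haveI : NeZero q := ⟨hq.ne_zero⟩
  have hT : h3lT A M ∈ 𝔰₀ := hj𝔰₀ _ rfl
  obtain ⟨surj, inj⟩ := h25i_redIso_M_inf (A := A) (M := M) hq hM hA
  obtain ⟨𝔫, h𝔫max, h𝔪𝔫, hcomap⟩ := h3l_exists_above hq hM haux hA 𝔰₀ h𝔰₀ hq𝔰₀ hT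
  haveI hded : IsDedekindDomain (chart M A (jB M)⁻¹ ⧸ h62rM A M (jB M)⁻¹) :=
    h13l_hded_inf M A hq hM haux hA
  have hnf : ¬ IsField (chart M A (jB M)⁻¹ ⧸ h62rM A M (jB M)⁻¹) := h13l_hnf_inf M A hq hM hA
  obtain ⟨t, ht, -, s, hs, hall⟩ :=
    h3_exists_local_uniformizer (h62rM A M (jB M)⁻¹) hnf 𝔫 h𝔪𝔫
  obtain ⟨t₀, ht₀⟩ := surj t
  have ht₀𝔫 : h62rIncl A M (jB M)⁻¹ t₀ ∈ 𝔫 := by
    have h1 : h62rIncl A M (jB M)⁻¹ t₀ = t - (t - h62rIncl A M (jB M)⁻¹ t₀) := by ring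
    rw [h1]
    exact 𝔫.sub_mem ht (h𝔪𝔫 ht₀)
  have hle : Ideal.span {t} ⊔ h62rM A M (jB M)⁻¹ ≤
      Ideal.span {h62rIncl A M (jB M)⁻¹ t₀} ⊔ h62rM A M (jB M)⁻¹ := by
    rw [sup_le_iff]
    refine ⟨?_, le_sup_right⟩
    rw [Ideal.span_singleton_le_iff_mem]
    have h1 : t = h62rIncl A M (jB M)⁻¹ t₀ + (t - h62rIncl A M (jB M)⁻¹ t₀) := by ring
    rw [h1]
    exact Submodule.add_mem_sup (Ideal.mem_span_singleton_self _) ht₀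
  have h3 := h62d_gen_single (h62rIncl A M (jB M)⁻¹) (h62rM A M (jB M)⁻¹)
    (q : h62rChart A M (jB M)⁻¹) surj inj 𝔫 h𝔪𝔫 t₀
    (fun z hz => ⟨s, hs, hle (hall z hz)⟩)
  rw [hcomap] at h3
  refine ⟨t₀, ?_, fun y hy => ?_⟩
  · rw [← hcomap]
    exact Ideal.mem_comap.mpr ht₀𝔫
  · obtain ⟨σ, hσ, hσy⟩ := h3 y hy
    refine ⟨σ, hσ, ?_⟩
    rw [Ideal.span_pair_comm]
    exact hσy

end Fermat.Agent.S36
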