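import Fermat.Agent.S36.H44SurjGen
import Fermat.Agent.S36.H44FrickeChart2
import Fermat.Agent.S36.H83EmbGal
import Fermat.Agent.S36.H34Cyc
import Fermat.Agent.LGC.CompInf44
import Fermat.Agent.LGC.H60Comp
import Fermat.Agent.LGC.H60CompInf

/-!
# S36 / V-SURJ: residue degree one at the three vertical valuations of `F₂ = F_{Mqq}`

`q` prime, `q ∤ M`, `A` a valuation subring of `ℚ̄` over `q`, `r = j mod 𝔪_A ∈ k((t))`.
`E20 = coe`, `E11^ζ` (`h20n_IsE11`), `E02 = E20 ∘ w₂` (`h44s_fricke2`).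

* `h44s_res20` : if `x ∈ F₂` is Gauss-integral at `E20` and at all `E11^ζ`, then
  `red_{20} x = red y` for a Gauss-integral function `y` of level `M`.
* `h44s_res11` : if moreover `x` is fixed by the inertia group, then `red_{11} x = red y` for a
  Gauss-integral function `y` of level `M`.
* `h44s_surj20_fin`, `h44s_surj20_inf`, `h44s_surj02_fin`, `h44s_surj02_inf`,
  `h44s_surj11_fin`, `h44s_surj11_inf` : the same on the charts, with `y` in the chart of
  level `M` (`auxLevel q ∣ M`).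
-/

set_option autoImplicit false
set_option linter.style.haveILetI false
set_option linter.unusedSectionVars false
set_option synthInstance.maxHeartbeats 400000

open AlgebraicCurve ModularCurve IsLocalRing Polynomial

noncomputable section

namespace Fermat.Agent.S36

open Fermat.Agent.S37 Fermat.Agent.Red Fermat.Agent.Red.GV Fermat.Agent.Red.GV.Soft
  Fermat.Agent.Red.TRK Fermat.Agent.Red.Kron Fermat.Agent.LGC

variable (A : ValuationSubring Kbar) (M q : ℕ) [NeZero M] [NeZero q]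

/-! ## Values of the middle embeddings -/

section Values

variable {M q} {hq : q.Prime} {hM : ¬ q ∣ M} {ζ : Kbar}
  {E : FF (M * q * q) →+* LaurentSeries Kbar}

theorem h44s_E11_cst (hE : h20n_IsE11 M q hq hM ζ E) (c : Kbar) :
    E (cst (M * q * q) c) = HahnSeries.C c := by
  have e : cst (M * q * q) c = heckeAlphaBar Kbar (M * q) q (cst (M * q) c) :=
    ((heckeAlphaBar Kbar (M * q) q).commutes c).symm
  rw [e, hE.1, soft_coe_cst]

theorem h44s_E11_aa (hE : h20n_IsE11 M q hq hM ζ E) (x : FF M) :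
    E (h44s_aa M q x) = (x : LaurentSeries Kbar) := by
  rw [h44s_aa_apply, hE.1, coe_heckeAlphaBar]

theorem h44s_E11_ab (hE : h20n_IsE11 M q hq hM ζ E) (x : FF M) :
    E (h44s_ab M q x) = qExpand Kbar q (x : LaurentSeries Kbar) := by
  rw [h44s_ab_apply, hE.1, coe_heckeBetaBar]

theorem h44s_E11_bb (hE : h20n_IsE11 M q hq hM ζ E) (x : FF M) :
    E (h44s_bb M q x) = twistK ζ (x : LaurentSeries Kbar) := by
  rw [h44s_bb_apply, hE.2, kFricke_beta, coe_heckeAlphaBar]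

theorem h44s_E11_DF (hE : h20n_IsE11 M q hq hM ζ E) (hζ : ζ ^ q = 1) (u : FF (M * q * q)) :
    E u ∈ dfField (K := Kbar) :=
  h12e_embDF q hq M hM E (Or.inl ⟨ζ, hζ, hE⟩) u

end Values

/-! ## The reductions of `j(t)`, `j(t^q)`, `j(t^(q²))` and the separating elements -/

section Sep

variable {A}

theorem h44s_red_J : h44s_Red A ((jB M : FF M) : LaurentSeries Kbar)
    (jqModC (IsLocalRing.ResidueField A)) := by
  have hj : jB M ∈ softV A M := gaussV_le_softV A M (jB_mem_gaussV A M)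
  exact (h44s_red_of_softV (jB M) hj).congr rfl (h44r_softR_jB A M hj)

theorem h44s_jq_qq (hq : q.Prime) (hA : A.LiesOverPrime q) :
    qExpand (IsLocalRing.ResidueField A) (q * q) (jqModC (IsLocalRing.ResidueField A)) =
      jqModC (IsLocalRing.ResidueField A) ^ (q ^ 2) := by
  haveI : Fact q.Prime := ⟨hq⟩
  haveI := h1g_charP q hq A hA
  haveI : ExpChar (IsLocalRing.ResidueField A) q := ExpChar.prime hq
  rw [sq, pow_mul, h44r_jqModC_pow _ q, ← map_pow, h44r_jqModC_pow _ q, qExpand_qExpand]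

/-- the separating element for `W20`: `e = j(t^(q²)) - j(t)`. -/
def h44s_e20 : FF (M * q * q) := h44s_bb M q (jB M) - h44s_aa M q (jB M)

/-- the separating element for `W11`: `e = j(t^(q²)) - j(t^q)^q`. -/
def h44s_e11 : FF (M * q * q) := h44s_bb M q (jB M) - h44s_ab M q (jB M) ^ q

theorem h44s_e20_coe (hq : q.Prime) (hA : A.LiesOverPrime q) :
    h44s_Red A ((h44s_e20 M q : FF (M * q * q)) : LaurentSeries Kbar)
      (jqModC (IsLocalRing.ResidueField A) ^ (q ^ 2) - jqModC (IsLocalRing.ResidueField A)) := by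
  have h1 := ((h44s_red_J (A := A) M).qExpand (q * q)).sub (h44s_red_J (A := A) M)
  rw [h44s_jq_qq q hq hA] at h1
  refine h1.congr ?_ rfl
  have e : ((h44s_e20 M q : FF (M * q * q)) : LaurentSeries Kbar) =
      ((h44s_bb M q (jB M) : FF (M * q * q)) : LaurentSeries Kbar) -
        ((h44s_aa M q (jB M) : FF (M * q * q)) : LaurentSeries Kbar) := rfl
  rw [e, h44s_coe_bb, h44s_coe_aa]

theorem h44s_e20_mid (hq : q.Prime) (hM : ¬ q ∣ M) (hA : A.LiesOverPrime q) {ζ : Kbar}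
    (hζ : ζ ^ q = 1) {E : FF (M * q * q) →+* LaurentSeries Kbar}
    (hE : h20n_IsE11 M q hq hM ζ E) :
    h44s_Red A (E (h44s_e20 M q)) 0 := by
  have h1 := ((h44s_red_J (A := A) M).twist hq hA ζ 1 (by rw [pow_one]; exact hζ)).sub
    (h44s_red_J (A := A) M)
  rw [sub_self] at h1
  refine h1.congr ?_ rfl
  rw [h44s_e20, map_sub, h44s_E11_bb hE, h44s_E11_aa hE]

theorem h44s_e11_coe (hq : q.Prime) (hA : A.LiesOverPrime q) :
    h44s_Red A ((h44s_e11 M q : FF (M * q * q)) : LaurentSeries Kbar) 0 := by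
  haveI : Fact q.Prime := ⟨hq⟩
  haveI := h1g_charP q hq A hA
  haveI : ExpChar (IsLocalRing.ResidueField A) q := ExpChar.prime hq
  have h1 := ((h44s_red_J (A := A) M).qExpand (q * q)).sub
    (((h44s_red_J (A := A) M).qExpand q).pow q)
  have e : qExpand (IsLocalRing.ResidueField A) (q * q) (jqModC (IsLocalRing.ResidueField A)) -
      qExpand (IsLocalRing.ResidueField A) q (jqModC (IsLocalRing.ResidueField A)) ^ q = 0 := by
    rw [h44s_jq_qq q hq hA, ← h44r_jqModC_pow _ q, ← pow_mul, ← sq, sub_self]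
  rw [e] at h1
  refine h1.congr ?_ rfl
  have e : ((h44s_e11 M q : FF (M * q * q)) : LaurentSeries Kbar) =
      ((h44s_bb M q (jB M) : FF (M * q * q)) : LaurentSeries Kbar) -
        ((h44s_ab M q (jB M) : FF (M * q * q)) : LaurentSeries Kbar) ^ q := rfl
  rw [e, h44s_coe_bb, h44s_coe_ab]

theorem h44s_e11_mid (hq : q.Prime) (hM : ¬ q ∣ M) (hA : A.LiesOverPrime q) {ζ : Kbar}
    (hζ : ζ ^ q = 1) {E : FF (M * q * q) →+* LaurentSeries Kbar}
    (hE : h20n_IsE11 M q hq hM ζ E) :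
    h44s_Red A (E (h44s_e11 M q))
      (jqModC (IsLocalRing.ResidueField A) - jqModC (IsLocalRing.ResidueField A) ^ (q ^ 2)) := by
  haveI : Fact q.Prime := ⟨hq⟩
  haveI := h1g_charP q hq A hA
  haveI : ExpChar (IsLocalRing.ResidueField A) q := ExpChar.prime hq
  have h1 := ((h44s_red_J (A := A) M).twist hq hA ζ 1 (by rw [pow_one]; exact hζ)).sub
    (((h44s_red_J (A := A) M).qExpand q).pow q)
  rw [← h44r_jqModC_pow _ q, ← pow_mul, ← sq] at h1
  refine h1.congr ?_ rfl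
  rw [h44s_e11, map_sub, map_pow, h44s_E11_bb hE, h44s_E11_ab hE]

end Sep

/-! ## The trace along `α₂` and the descent of the reductions to the level `M` -/

section Trace

variable {A}

/-- the trace along `α₂` in terms of reductions. -/
theorem h44s_red_tr2 (hq : q.Prime) (hM : ¬ q ∣ M) (ζ : Kbar)
    (E : ℕ → (FF (M * q * q) →+* LaurentSeries Kbar))
    (hE : ∀ b : ℕ, 0 < b → b < q → h20n_IsE11 M q hq hM (ζ ^ b) (E b))
    (hζ : IsPrimitiveRoot ζ q) (x : FF (M * q * q))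
    (ρ : Fin q → LaurentSeries (IsLocalRing.ResidueField A))
    (h : ∀ i : Fin q, h44s_Red A (h44sFam M q E i x) (ρ i)) :
    h44s_Red A ((h44s_tr2 M q x : FF (M * q)) : LaurentSeries Kbar) (∑ i : Fin q, ρ i) := by
  rw [h44s_coe_tr2 M q hq hM ζ E hE hζ x]
  exact h44s_red_sum Finset.univ _ _ (fun i _ => h i)

/-- descent: a function `t` of level `M q` with `red t = ρ · (r^(q²) - r)` gives a
Gauss-integral function of level `M` with reduction `ρ`. -/
theorem h44s_exists_of_red (hq : q.Prime) (hM : ¬ q ∣ M) (hA : A.LiesOverPrime q)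
    (t : FF (M * q)) (ρ : LaurentSeries (IsLocalRing.ResidueField A))
    (ht : h44s_Red A (t : LaurentSeries Kbar)
      (ρ * (jqModC (IsLocalRing.ResidueField A) ^ (q ^ 2) -
        jqModC (IsLocalRing.ResidueField A)))) :
    ∃ (y : FF M) (hy : y ∈ softV A M), softR A M ⟨y, hy⟩ = ρ := by
  obtain ⟨htV, htr⟩ := ht.softV
  obtain ⟨y₁, hy₁, h1⟩ := h44r_residue_degree_one A M q hq hM hA t htV
  have hj : jB M ∈ softV A M := gaussV_le_softV A M (jB_mem_gaussV A M)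
  have hrj : softR A M ⟨jB M, hj⟩ = jqModC (IsLocalRing.ResidueField A) :=
    h44r_softR_jB A M hj
  have hd : jB M ^ (q ^ 2) - jB M ∈ softV A M := sub_mem (pow_mem hj _) hj
  have hrd : softR A M ⟨_, hd⟩ = jqModC (IsLocalRing.ResidueField A) ^ (q ^ 2) -
      jqModC (IsLocalRing.ResidueField A) := by
    have e : (⟨_, hd⟩ : softV A M) = ⟨jB M, hj⟩ ^ (q ^ 2) - ⟨jB M, hj⟩ := rfl
    rw [e, map_sub (softR A M), map_pow (softR A M), hrj]
  have hD0 : jqModC (IsLocalRing.ResidueField A) ^ (q ^ 2) -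
      jqModC (IsLocalRing.ResidueField A) ≠ 0 := by
    intro h0
    apply h44r_jqModC_sub_ne_zero (IsLocalRing.ResidueField A) (q ^ 2)
      (by nlinarith [hq.two_le])
    rw [← neg_sub, h0, neg_zero]
  obtain ⟨hd0, hdi⟩ := (softR_ne_zero_iff A M ⟨_, hd⟩).mp (by rw [hrd]; exact hD0)
  refine ⟨y₁ * (jB M ^ (q ^ 2) - jB M)⁻¹, mul_mem hy₁ hdi, ?_⟩
  have e : (⟨y₁ * (jB M ^ (q ^ 2) - jB M)⁻¹, mul_mem hy₁ hdi⟩ : softV A M) * ⟨_, hd⟩ =
      ⟨y₁, hy₁⟩ := by
    apply Subtype.ext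
    show y₁ * (jB M ^ (q ^ 2) - jB M)⁻¹ * (jB M ^ (q ^ 2) - jB M) = y₁
    rw [mul_assoc, inv_mul_cancel₀ hd0, mul_one]
  have h2 := congrArg (softR A M) e
  rw [map_mul (softR A M), hrd, h1, htr] at h2
  exact mul_right_cancel₀ hD0 h2

/-- a family of middle embeddings `E11^{ζ^b}`, `0 < b < q`. -/
theorem h44s_exists_family (hq : q.Prime) (hM : ¬ q ∣ M) (ζ : Kbar)
    (hζ : IsPrimitiveRoot ζ q) :
    ∃ E : ℕ → (FF (M * q * q) →+* LaurentSeries Kbar),
      ∀ b : ℕ, 0 < b → b < q → h20n_IsE11 M q hq hM (ζ ^ b) (E b) := by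
  have hex : ∀ b : ℕ, ∃ E : FF (M * q * q) →+* LaurentSeries Kbar,
      0 < b → b < q → h20n_IsE11 M q hq hM (ζ ^ b) E := by
    intro b
    by_cases hb : 0 < b ∧ b < q
    · obtain ⟨E, hE⟩ := h20n_exists_E11 M q hq hM (ζ ^ b)
        (by rw [← pow_mul, mul_comm, pow_mul, hζ.pow_eq_one, one_pow])
        (fun h1 => absurd (Nat.le_of_dvd hb.1 ((hζ.pow_eq_one_iff_dvd b).mp h1))
          (not_le.mpr hb.2))
      exact ⟨E, fun _ _ => hE⟩
    · exact ⟨algebraMap _ _, fun h1 h2 => absurd ⟨h1, h2⟩ hb⟩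
  choose E hE using hex
  exact ⟨E, hE⟩

theorem h44s_isPrimitiveRoot_pow (hq : q.Prime) {ζ : Kbar} (hζ : IsPrimitiveRoot ζ q)
    {b : ℕ} (hb0 : 0 < b) (hbq : b < q) : IsPrimitiveRoot (ζ ^ b) q :=
  hζ.pow_of_coprime b (Nat.Coprime.symm ((Nat.Prime.coprime_iff_not_dvd hq).mpr
    (fun h => absurd (Nat.le_of_dvd hb0 h) (not_le.mpr hbq))))

/-- **residue degree one at `W20`.**  If `x ∈ F₂` is Gauss-integral at `E20` and at all the
middle embeddings, its reduction at `E20` is the reduction of a Gauss-integral function of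
level `M`. -/
theorem h44s_res20 (hq : q.Prime) (hM : ¬ q ∣ M) (hA : A.LiesOverPrime q)
    (x : FF (M * q * q)) (hx : x ∈ softV A (M * q * q))
    (hmid : ∀ (ζ : Kbar) (E : FF (M * q * q) →+* LaurentSeries Kbar), IsPrimitiveRoot ζ q →
      h20n_IsE11 M q hq hM ζ E → E x ∈ softOT A (IsLocalRing.residue A)) :
    ∃ (y : FF M) (hy : y ∈ softV A M),
      softR A M ⟨y, hy⟩ = softR A (M * q * q) ⟨x, hx⟩ := by
  haveI : NeZero ((q : ℕ) : Kbar) := ⟨by exact_mod_cast NeZero.ne q⟩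
  obtain ⟨ζ, hζ⟩ := HasEnoughRootsOfUnity.exists_primitiveRoot Kbar q
  obtain ⟨E, hE⟩ := h44s_exists_family M q hq hM ζ hζ
  obtain ⟨D, hD⟩ : ∃ D, D = jqModC (IsLocalRing.ResidueField A) ^ (q ^ 2) -
      jqModC (IsLocalRing.ResidueField A) := ⟨_, rfl⟩
  have hfam : ∀ i : Fin q, h44s_Red A (h44sFam M q E i (x * h44s_e20 M q))
      (if (i : ℕ) = 0 then softR A (M * q * q) ⟨x, hx⟩ * D else 0) := by
    intro i
    by_cases hi : (i : ℕ) = 0
    · rw [if_pos hi, h44sFam_zero M q E i hi, map_mul, h44s_algebraMap_apply,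
        h44s_algebraMap_apply, hD]
      exact (h44s_red_of_softV x hx).mul (h44s_e20_coe M q hq hA)
    · rw [if_neg hi, h44sFam_pos M q E i hi, map_mul]
      have hb0 : 0 < (i : ℕ) := Nat.pos_of_ne_zero hi
      have hEi := hE i hb0 i.2
      have hζi : (ζ ^ (i : ℕ)) ^ q = 1 := by
        rw [← pow_mul, mul_comm, pow_mul, hζ.pow_eq_one, one_pow]
      have h1 := (h44s_red_of_mem (hmid _ _ (h44s_isPrimitiveRoot_pow q hq hζ hb0 i.2) hEi)).mul
        (h44s_e20_mid M q hq hM hA hζi hEi)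
      rw [mul_zero] at h1
      exact h1
  have htr := h44s_red_tr2 M q hq hM ζ E hE hζ (x * h44s_e20 M q) _ hfam
  rw [Finset.sum_eq_single (⟨0, hq.pos⟩ : Fin q)
    (fun i _ hi => if_neg (fun h0 => hi (Fin.ext h0)))
    (fun h => absurd (Finset.mem_univ _) h), if_pos rfl, hD] at htr
  exact h44s_exists_of_red M q hq hM hA _ _ htr

/-- **residue degree one at `W11`** (functions fixed by inertia).  If `x ∈ F₂` is fixed by the
inertia group and Gauss-integral at `E20` and at `E = E11^ζ`, its reduction at `E` is the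
reduction of a Gauss-integral function of level `M`. -/
theorem h44s_res11 (hq : q.Prime) (hM : ¬ q ∣ M) (hA : A.LiesOverPrime q)
    (ζ₀ : Kbar) (hζ₀ : IsPrimitiveRoot ζ₀ q) (E₀ : FF (M * q * q) →+* LaurentSeries Kbar)
    (hE₀ : h20n_IsE11 M q hq hM ζ₀ E₀)
    (x : FF (M * q * q)) (hx : x ∈ softV A (M * q * q))
    (hfix : ∀ σ ∈ A.inertiaSubgroupIn ℚ, gal (M * q * q) σ • x = x)
    (hxE : E₀ x ∈ softOT A (IsLocalRing.residue A)) :
    ∃ (y : FF M) (hy : y ∈ softV A M),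
      softR A M ⟨y, hy⟩ = softRedT A (IsLocalRing.residue A) ⟨E₀ x, hxE⟩ := by
  haveI : NeZero ((q : ℕ) : Kbar) := ⟨by exact_mod_cast NeZero.ne q⟩
  haveI := h1g_charP_laurent q hq A hA
  obtain ⟨ζ, hζ⟩ := HasEnoughRootsOfUnity.exists_primitiveRoot Kbar q
  obtain ⟨E, hE⟩ := h44s_exists_family M q hq hM ζ hζ
  obtain ⟨ρ, hρ⟩ : ∃ ρ, ρ = softRedT A (IsLocalRing.residue A) ⟨E₀ x, hxE⟩ := ⟨_, rfl⟩
  obtain ⟨D, hD⟩ : ∃ D, D = jqModC (IsLocalRing.ResidueField A) -
      jqModC (IsLocalRing.ResidueField A) ^ (q ^ 2) := ⟨_, rfl⟩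
  -- all the middle reductions are equal
  have hmid : ∀ b : ℕ, 0 < b → b < q → h44s_Red A (E b x) ρ := by
    intro b hb0 hbq
    obtain ⟨σ, hσ, hσζ⟩ := h34y_cyc q hq A hA ζ₀ (ζ ^ b) hζ₀
      (h44s_isPrimitiveRoot_pow q hq hζ hb0 hbq)
    have hEb : h20n_IsE11 M q hq hM (σ ζ₀) (E b) := by
      rw [hσζ]
      exact hE b hb0 hbq
    have h1 := ((h83g_embGal h20n_embUnique) q hq M hM σ).1 ζ₀ E₀ (E b) hE₀ hEb x
    rw [hfix σ hσ] at h1
    rw [h1, hρ]
    exact (h44s_red_of_mem hxE).inertia hσ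
  have hfam : ∀ i : Fin q, h44s_Red A (h44sFam M q E i (x * h44s_e11 M q))
      (if (i : ℕ) = 0 then 0 else ρ * D) := by
    intro i
    by_cases hi : (i : ℕ) = 0
    · rw [if_pos hi, h44sFam_zero M q E i hi, map_mul, h44s_algebraMap_apply,
        h44s_algebraMap_apply]
      have h1 := (h44s_red_of_softV x hx).mul (h44s_e11_coe M q hq hA)
      rw [mul_zero] at h1
      exact h1
    · rw [if_neg hi, h44sFam_pos M q E i hi, map_mul, hD]
      have hb0 : 0 < (i : ℕ) := Nat.pos_of_ne_zero hi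
      have hζi : (ζ ^ (i : ℕ)) ^ q = 1 := by
        rw [← pow_mul, mul_comm, pow_mul, hζ.pow_eq_one, one_pow]
      exact (hmid i hb0 i.2).mul (h44s_e11_mid M q hq hM hA hζi (hE i hb0 i.2))
  have htr := h44s_red_tr2 M q hq hM ζ E hE hζ (x * h44s_e11 M q) _ hfam
  have hsum : (∑ i : Fin q, (if (i : ℕ) = 0 then 0 else ρ * D)) = -(ρ * D) := by
    have h1 : (∑ i : Fin q, (if (i : ℕ) = 0 then 0 else ρ * D)) +
        ∑ i : Fin q, (if (i : ℕ) = 0 then ρ * D else 0) = 0 := by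
      rw [← Finset.sum_add_distrib]
      have h2 : ∀ i : Fin q, (if (i : ℕ) = 0 then 0 else ρ * D) +
          (if (i : ℕ) = 0 then ρ * D else 0) = ρ * D := by
        intro i
        by_cases hi : (i : ℕ) = 0
        · rw [if_pos hi, if_pos hi, zero_add]
        · rw [if_neg hi, if_neg hi, add_zero]
      rw [Finset.sum_congr rfl (fun i _ => h2 i), Finset.sum_const, Finset.card_univ,
        Fintype.card_fin, nsmul_eq_mul, CharP.cast_eq_zero, zero_mul]
    rw [Finset.sum_eq_single (⟨0, hq.pos⟩ : Fin q)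
      (fun i _ hi => if_neg (fun h0 => hi (Fin.ext h0)))
      (fun h => absurd (Finset.mem_univ _) h), if_pos rfl] at h1
    exact eq_neg_of_add_eq_zero_left h1
  rw [hsum] at htr
  have htr' := htr.congr rfl (show -(ρ * D) = ρ * (jqModC (IsLocalRing.ResidueField A) ^ (q ^ 2) -
      jqModC (IsLocalRing.ResidueField A)) by rw [hD]; ring)
  obtain ⟨y, hy, hyρ⟩ := h44s_exists_of_red M q hq hM hA _ _ htr'
  exact ⟨y, hy, hyρ.trans hρ⟩

end Trace

/-! ## Charts: the generic assembly -/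

section Chart

/-- the reduction map on a ring `Λ` of Gauss-integral functions of level `M`. -/
def h44s_phi {Λ : Subring (FF M)} (hΛ : Λ ≤ softV A M) :
    ↥Λ →+* LaurentSeries (IsLocalRing.ResidueField A) :=
  (softR A M).comp (Subring.inclusion hΛ)

theorem h44s_phi_apply {Λ : Subring (FF M)} (hΛ : Λ ≤ softV A M) (x : Λ) :
    h44s_phi A M hΛ x = softR A M ⟨(x : FF M), hΛ x.2⟩ := rfl

/-- the descent property of a chart `Λ` of level `M`: the reduction of a Gauss-integral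
function which is integral over `red Λ` lies in `red Λ` (`red Λ` is integrally closed in the
residue field of the Gauss valuation). -/
def h44s_Desc {Λ : Subring (FF M)} (hΛ : Λ ≤ softV A M) : Prop :=
  ∀ (y : FF M) (hy : y ∈ softV A M),
    (h44s_phi A M hΛ).IsIntegralElem (softR A M ⟨y, hy⟩) →
      ∃ x : Λ, h44s_phi A M hΛ x = softR A M ⟨y, hy⟩

variable {A M q}

/-- the reduction at `E` of a function of the chart `modelAt N A t` is integral over `red Λ`,
if the reduction of the coordinate `t` lies in `red Λ`. -/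
theorem h44s_red_integral_gen {N : ℕ} (E : FF N →+* LaurentSeries Kbar)
    (hcst : ∀ c : Kbar, E (cst N c) = HahnSeries.C c) (t : FF N)
    (ht : E t ∈ softOT A (IsLocalRing.residue A))
    {Λ : Subring (FF M)} (hΛ : Λ ≤ softV A M) (g : Polynomial A →+* Λ)
    (hgC : ∀ a : A, ((g (Polynomial.C a) : Λ) : FF M) = cst M (a : Kbar))
    (hgX : h44s_phi A M hΛ (g Polynomial.X) = softRedT A (IsLocalRing.residue A) ⟨E t, ht⟩)
    {b : FF N} (hb : b ∈ modelAt N A t) (hbE : E b ∈ softOT A (IsLocalRing.residue A)) :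
    (h44s_phi A M hΛ).IsIntegralElem (softRedT A (IsLocalRing.residue A) ⟨E b, hbE⟩) := by
  obtain ⟨P, hP, hPz⟩ := h44s_red_modelAt_integral A E hcst t ht hb hbE
  have hcomp : (softRedT A (IsLocalRing.residue A)).comp (h44s_evE A E hcst t ht) =
      (h44s_phi A M hΛ).comp g := by
    apply Polynomial.ringHom_ext
    · intro a
      rw [RingHom.comp_apply, RingHom.comp_apply, h44s_phi_apply]
      have e1 : h44s_evE A E hcst t ht (Polynomial.C a) =
          ⟨HahnSeries.C (a : Kbar), C_mem_softOT A (IsLocalRing.residue A) a⟩ := by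
        apply Subtype.ext
        rw [h44s_coe_evE, evalF_C, hcst]
      have e2 : (⟨((g (Polynomial.C a) : Λ) : FF M), hΛ (g (Polynomial.C a)).2⟩ : softV A M) =
          ⟨cst M (a : Kbar), (cst_mem_softV_iff A M _).mpr a.2⟩ := Subtype.ext (hgC a)
      rw [e1, e2, softR_cst A M a, softRedT_C]
    · rw [RingHom.comp_apply, RingHom.comp_apply, hgX]
      congr 1
      apply Subtype.ext
      rw [h44s_coe_evE, evalF_X]
  refine ⟨P.map g, hP.map _, ?_⟩
  rw [Polynomial.eval₂_map, ← hcomp]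
  exact hPz

/-- **SURJ20, generic chart.** -/
theorem h44s_surj20_gen (hq : q.Prime) (hM : ¬ q ∣ M) (hA : A.LiesOverPrime q)
    (t : FF (M * q * q)) (ht : t ∈ softV A (M * q * q))
    (htmid : ∀ (ζ : Kbar) (E : FF (M * q * q) →+* LaurentSeries Kbar), IsPrimitiveRoot ζ q →
      h20n_IsE11 M q hq hM ζ E → E t ∈ softOT A (IsLocalRing.residue A))
    {Λ : Subring (FF M)} (hΛ : Λ ≤ softV A M) (hdesc : h44s_Desc A M hΛ)
    (g : Polynomial A →+* Λ)
    (hgC : ∀ a : A, ((g (Polynomial.C a) : Λ) : FF M) = cst M (a : Kbar))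
    (hgX : h44s_phi A M hΛ (g Polynomial.X) = softR A (M * q * q) ⟨t, ht⟩)
    (b : FF (M * q * q)) (hb : b ∈ modelAt (M * q * q) A t) :
    ∃ x ∈ Λ, ∃ h : b - h44s_aa M q x ∈ softV A (M * q * q),
      softR A (M * q * q) ⟨_, h⟩ = 0 := by
  have hbV : b ∈ softV A (M * q * q) := h60i_modelAt_le_softV hq hA (M * q * q) ⟨t, ht⟩ hb
  have hbmid : ∀ (ζ : Kbar) (E : FF (M * q * q) →+* LaurentSeries Kbar), IsPrimitiveRoot ζ q →
      h20n_IsE11 M q hq hM ζ E → E b ∈ softOT A (IsLocalRing.residue A) :=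
    fun ζ E hζ hE => h44s_modelAt_le A hq hA E (h44s_E11_DF hE hζ.pow_eq_one)
      (h44s_E11_cst hE) t (htmid ζ E hζ hE) hb
  obtain ⟨y, hy, hyb⟩ := h44s_res20 M q hq hM hA b hbV hbmid
  have hint := h44s_red_integral_gen (A := A) (M := M)
    (algebraMap (FF (M * q * q)) (LaurentSeries Kbar)) (fun c => soft_coe_cst (M * q * q) c)
    t ht hΛ g hgC hgX hb hbV
  have hint' : (h44s_phi A M hΛ).IsIntegralElem (softR A M ⟨y, hy⟩) := by
    rw [hyb]
    exact hint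
  obtain ⟨x, hx⟩ := hdesc y hy hint'
  have h1 : h44s_Red A (((h44s_aa M q (x : FF M) : FF (M * q * q))) : LaurentSeries Kbar)
      (softR A (M * q * q) ⟨b, hbV⟩) := by
    rw [h44s_coe_aa, ← hyb, ← hx, h44s_phi_apply]
    exact h44s_red_of_softV (x : FF M) (hΛ x.2)
  have h2 := (h44s_red_of_softV b hbV).sub h1
  rw [sub_self] at h2
  obtain ⟨h, h0⟩ := h44s_Red.softV (N := M * q * q) (x := b - h44s_aa M q (x : FF M)) h2
  exact ⟨x, x.2, h, h0⟩

/-- **SURJ11, generic chart** (functions fixed by inertia). -/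
theorem h44s_surj11_gen (hq : q.Prime) (hM : ¬ q ∣ M) (hA : A.LiesOverPrime q)
    (ζ : Kbar) (hζ : IsPrimitiveRoot ζ q) (E : FF (M * q * q) →+* LaurentSeries Kbar)
    (hE : h20n_IsE11 M q hq hM ζ E)
    (t : FF (M * q * q)) (ht : t ∈ softV A (M * q * q))
    (htE : E t ∈ softOT A (IsLocalRing.residue A))
    {Λ : Subring (FF M)} (hΛ : Λ ≤ softV A M) (hdesc : h44s_Desc A M hΛ)
    (g : Polynomial A →+* Λ)
    (hgC : ∀ a : A, ((g (Polynomial.C a) : Λ) : FF M) = cst M (a : Kbar))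
    (hgX : h44s_phi A M hΛ (g Polynomial.X) =
      softRedT A (IsLocalRing.residue A) ⟨E t, htE⟩)
    (b : FF (M * q * q)) (hb : b ∈ modelAt (M * q * q) A t)
    (hfix : ∀ σ ∈ A.inertiaSubgroupIn ℚ, gal (M * q * q) σ • b = b) :
    ∃ x ∈ Λ, ∃ h : E (b - h44s_aa M q x) ∈ softOT A (IsLocalRing.residue A),
      softRedT A (IsLocalRing.residue A) ⟨_, h⟩ = 0 := by
  have hbV : b ∈ softV A (M * q * q) := h60i_modelAt_le_softV hq hA (M * q * q) ⟨t, ht⟩ hb
  have hbE : E b ∈ softOT A (IsLocalRing.residue A) :=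
    h44s_modelAt_le A hq hA E (h44s_E11_DF hE hζ.pow_eq_one) (h44s_E11_cst hE) t htE hb
  obtain ⟨y, hy, hyb⟩ := h44s_res11 M q hq hM hA ζ hζ E hE b hbV hfix hbE
  have hint := h44s_red_integral_gen (A := A) (M := M) E (h44s_E11_cst hE)
    t htE hΛ g hgC hgX hb hbE
  have hint' : (h44s_phi A M hΛ).IsIntegralElem (softR A M ⟨y, hy⟩) := by
    rw [hyb]
    exact hint
  obtain ⟨x, hx⟩ := hdesc y hy hint'
  have h1 : h44s_Red A (E (h44s_aa M q (x : FF M)))
      (softRedT A (IsLocalRing.residue A) ⟨E b, hbE⟩) := by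
    rw [h44s_E11_aa hE, ← hyb, ← hx, h44s_phi_apply]
    exact h44s_red_of_softV (x : FF M) (hΛ x.2)
  have h2 := (h44s_red_of_mem hbE).sub h1
  rw [sub_self, ← map_sub] at h2
  exact ⟨x, x.2, h2.1, h2.2⟩

/-! ### charts with coordinate `t₀(t)` resp. `t₀(t^(q²))` -/

/-- the evaluation `Q ↦ Q(t₀)` with values in the chart `modelAt M A t₀`. -/
def h44s_evΛ (A : ValuationSubring Kbar) (M : ℕ) (t₀ : FF M) :
    Polynomial A →+* ↥(modelAt M A t₀) :=
  (evalF M A t₀).codRestrict (modelAt M A t₀) (fun Q =>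
    Fermat.Agent.Red.Match.ringAdj_le_modelAt M A t₀ (evalF_mem_ringAdj M A t₀ Q))

theorem h44s_coe_evΛ (t₀ : FF M) (Q : Polynomial A) :
    ((h44s_evΛ A M t₀ Q : modelAt M A t₀) : FF M) = evalF M A t₀ Q := rfl

/-- **SURJ20 on the chart with coordinate `t₀(t)`.** -/
theorem h44s_surj20_aa (hq : q.Prime) (hM : ¬ q ∣ M) (hA : A.LiesOverPrime q)
    (t₀ : FF M) (hΛ : modelAt M A t₀ ≤ softV A M) (hdesc : h44s_Desc A M hΛ)
    (b : FF (M * q * q)) (hb : b ∈ modelAt (M * q * q) A (h44s_aa M q t₀)) :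
    ∃ x ∈ modelAt M A t₀, ∃ h : b - h44s_aa M q x ∈ softV A (M * q * q),
      softR A (M * q * q) ⟨_, h⟩ = 0 := by
  have ht₀ : t₀ ∈ softV A M :=
    hΛ (Fermat.Agent.Red.Match.ringAdj_le_modelAt M A t₀ (self_mem_ringAdj M A t₀))
  have h0 : h44s_Red A ((h44s_aa M q t₀ : FF (M * q * q)) : LaurentSeries Kbar)
      (softR A M ⟨t₀, ht₀⟩) := by
    rw [h44s_coe_aa]
    exact h44s_red_of_softV t₀ ht₀
  obtain ⟨ht, htr⟩ := h44s_Red.softV (N := M * q * q) h0
  refine h44s_surj20_gen hq hM hA (h44s_aa M q t₀) ht ?_ hΛ hdesc (h44s_evΛ A M t₀)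
    (fun a => ?_) ?_ b hb
  · intro ζ E _ hE
    rw [h44s_E11_aa hE]
    exact ht₀
  · rw [h44s_coe_evΛ, evalF_C]
  · rw [htr, h44s_phi_apply]
    congr 1
    exact Subtype.ext (by rw [h44s_coe_evΛ, evalF_X])

/-- **SURJ11 on the chart with coordinate `t₀(t)`** (functions fixed by inertia). -/
theorem h44s_surj11_aa (hq : q.Prime) (hM : ¬ q ∣ M) (hA : A.LiesOverPrime q)
    (ζ : Kbar) (hζ : IsPrimitiveRoot ζ q) (E : FF (M * q * q) →+* LaurentSeries Kbar)
    (hE : h20n_IsE11 M q hq hM ζ E)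
    (t₀ : FF M) (hΛ : modelAt M A t₀ ≤ softV A M) (hdesc : h44s_Desc A M hΛ)
    (b : FF (M * q * q)) (hb : b ∈ modelAt (M * q * q) A (h44s_aa M q t₀))
    (hfix : ∀ σ ∈ A.inertiaSubgroupIn ℚ, gal (M * q * q) σ • b = b) :
    ∃ x ∈ modelAt M A t₀, ∃ h : E (b - h44s_aa M q x) ∈ softOT A (IsLocalRing.residue A),
      softRedT A (IsLocalRing.residue A) ⟨_, h⟩ = 0 := by
  have ht₀ : t₀ ∈ softV A M :=
    hΛ (Fermat.Agent.Red.Match.ringAdj_le_modelAt M A t₀ (self_mem_ringAdj M A t₀))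
  have h0 : h44s_Red A ((h44s_aa M q t₀ : FF (M * q * q)) : LaurentSeries Kbar)
      (softR A M ⟨t₀, ht₀⟩) := by
    rw [h44s_coe_aa]
    exact h44s_red_of_softV t₀ ht₀
  obtain ⟨ht, -⟩ := h44s_Red.softV (N := M * q * q) h0
  have h1 : h44s_Red A (E (h44s_aa M q t₀)) (softR A M ⟨t₀, ht₀⟩) := by
    rw [h44s_E11_aa hE]
    exact h44s_red_of_softV t₀ ht₀
  refine h44s_surj11_gen hq hM hA ζ hζ E hE (h44s_aa M q t₀) ht h1.1 hΛ hdesc
    (h44s_evΛ A M t₀) (fun a => ?_) ?_ b hb hfix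
  · rw [h44s_coe_evΛ, evalF_C]
  · rw [h1.2, h44s_phi_apply]
    congr 1
    exact Subtype.ext (by rw [h44s_coe_evΛ, evalF_X])

/-- **SURJ20 on the chart with coordinate `t₀(t^(q²))`** (`red t₀` with coefficients in
`𝔽_q`). -/
theorem h44s_surj20_bb (hq : q.Prime) (hM : ¬ q ∣ M) (hA : A.LiesOverPrime q)
    (t₀ : FF M) (hΛ : modelAt M A t₀ ≤ softV A M) (hdesc : h44s_Desc A M hΛ)
    (hfrob : ∀ ht₀ : t₀ ∈ softV A M,
      qExpand (IsLocalRing.ResidueField A) (q * q) (softR A M ⟨t₀, ht₀⟩) =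
        softR A M ⟨t₀, ht₀⟩ ^ (q ^ 2))
    (b : FF (M * q * q)) (hb : b ∈ modelAt (M * q * q) A (h44s_bb M q t₀)) :
    ∃ x ∈ modelAt M A t₀, ∃ h : b - h44s_aa M q x ∈ softV A (M * q * q),
      softR A (M * q * q) ⟨_, h⟩ = 0 := by
  have ht₀ : t₀ ∈ softV A M :=
    hΛ (Fermat.Agent.Red.Match.ringAdj_le_modelAt M A t₀ (self_mem_ringAdj M A t₀))
  have h0 : h44s_Red A ((h44s_bb M q t₀ : FF (M * q * q)) : LaurentSeries Kbar)
      (softR A M ⟨t₀, ht₀⟩ ^ (q ^ 2)) := by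
    rw [h44s_coe_bb, ← hfrob ht₀]
    exact (h44s_red_of_softV t₀ ht₀).qExpand (q * q)
  obtain ⟨ht, htr⟩ := h44s_Red.softV (N := M * q * q) h0
  refine h44s_surj20_gen hq hM hA (h44s_bb M q t₀) ht ?_ hΛ hdesc
    ((h44s_evΛ A M t₀).comp (Polynomial.expand A (q ^ 2) : Polynomial A →+* Polynomial A))
    (fun a => ?_) ?_ b hb
  · intro ζ E hζ hE
    rw [h44s_E11_bb hE]
    exact ((h44s_red_of_softV t₀ ht₀).twist hq hA ζ 1 (by rw [pow_one]; exact hζ.pow_eq_one)).1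
  · rw [RingHom.comp_apply]
    show ((h44s_evΛ A M t₀ (Polynomial.expand A (q ^ 2) (Polynomial.C a)) :
      modelAt M A t₀) : FF M) = _
    rw [Polynomial.expand_C, h44s_coe_evΛ, evalF_C]
  · rw [htr, h44s_phi_apply, RingHom.comp_apply]
    have e : (⟨((h44s_evΛ A M t₀ ((Polynomial.expand A (q ^ 2) : Polynomial A →+* Polynomial A)
        Polynomial.X) : modelAt M A t₀) : FF M), hΛ (h44s_evΛ A M t₀ _).2⟩ : softV A M) =
        (⟨t₀, ht₀⟩ : softV A M) ^ (q ^ 2) := by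
      apply Subtype.ext
      show ((h44s_evΛ A M t₀ (Polynomial.expand A (q ^ 2) Polynomial.X) :
        modelAt M A t₀) : FF M) = t₀ ^ (q ^ 2)
      rw [Polynomial.expand_X, h44s_coe_evΛ, map_pow, evalF_X]
    rw [e, map_pow]

/-- **SURJ02 on the chart with coordinate `t₀(t)`**: the component `C02` is reached through
the Fricke involution `w₂`. -/
theorem h44s_surj02_aa (hq : q.Prime) (hM : ¬ q ∣ M) (hA : A.LiesOverPrime q)
    (t₀ : FF M) (hΛ : modelAt M A t₀ ≤ softV A M) (hdesc : h44s_Desc A M hΛ)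
    (hfrob : ∀ ht₀ : t₀ ∈ softV A M,
      qExpand (IsLocalRing.ResidueField A) (q * q) (softR A M ⟨t₀, ht₀⟩) =
        softR A M ⟨t₀, ht₀⟩ ^ (q ^ 2))
    (b : FF (M * q * q)) (hb : b ∈ modelAt (M * q * q) A (h44s_aa M q t₀)) :
    ∃ x ∈ modelAt M A t₀,
      ∃ h : h44s_fricke2 M q hq hM (b - h44s_bb M q x) ∈ softV A (M * q * q),
        softR A (M * q * q) ⟨_, h⟩ = 0 := by
  have h1 := h44s_fricke2_mem_modelAt M q hq hM A hb
  rw [h44s_fricke2_aa] at h1
  obtain ⟨x, hx, h, h0⟩ := h44s_surj20_bb hq hM hA t₀ hΛ hdesc hfrob _ h1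
  have e : h44s_fricke2 M q hq hM (b - h44s_bb M q x) =
      h44s_fricke2 M q hq hM b - h44s_aa M q x := by
    rw [map_sub, h44s_fricke2_bb]
  have h' : h44s_fricke2 M q hq hM (b - h44s_bb M q x) ∈ softV A (M * q * q) := by
    rw [e]
    exact h
  refine ⟨x, hx, h', ?_⟩
  have e2 : (⟨_, h'⟩ : softV A (M * q * q)) = ⟨_, h⟩ := Subtype.ext e
  rw [e2, h0]

/-- **SURJ02 on the chart with coordinate `t₀(t^(q²))`.** -/
theorem h44s_surj02_bb (hq : q.Prime) (hM : ¬ q ∣ M) (hA : A.LiesOverPrime q)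
    (t₀ : FF M) (hΛ : modelAt M A t₀ ≤ softV A M) (hdesc : h44s_Desc A M hΛ)
    (b : FF (M * q * q)) (hb : b ∈ modelAt (M * q * q) A (h44s_bb M q t₀)) :
    ∃ x ∈ modelAt M A t₀,
      ∃ h : h44s_fricke2 M q hq hM (b - h44s_bb M q x) ∈ softV A (M * q * q),
        softR A (M * q * q) ⟨_, h⟩ = 0 := by
  have h1 := h44s_fricke2_mem_modelAt M q hq hM A hb
  rw [h44s_fricke2_bb] at h1
  obtain ⟨x, hx, h, h0⟩ := h44s_surj20_aa hq hM hA t₀ hΛ hdesc _ h1
  have e : h44s_fricke2 M q hq hM (b - h44s_bb M q x) =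
      h44s_fricke2 M q hq hM b - h44s_aa M q x := by
    rw [map_sub, h44s_fricke2_bb]
  have h' : h44s_fricke2 M q hq hM (b - h44s_bb M q x) ∈ softV A (M * q * q) := by
    rw [e]
    exact h
  refine ⟨x, hx, h', ?_⟩
  have e2 : (⟨_, h'⟩ : softV A (M * q * q)) = ⟨_, h⟩ := Subtype.ext e
  rw [e2, h0]

end Chart

/-! ## The finite chart and the chart at infinity -/

section Final

theorem h44s_fin_le (hq : q.Prime) (hM : ¬ q ∣ M) (hA : A.LiesOverPrime q) :
    modelFin M A ≤ softV A M :=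
  fun _ hx => gaussV_le_softV A M (modelFin_le_gaussV A M hq hM hA hx)

theorem h44s_inf_le (hq : q.Prime) (hM : ¬ q ∣ M) (hA : A.LiesOverPrime q) :
    modelInf M A ≤ softV A M :=
  fun _ hx => gaussV_le_softV A M (modelInf_le_gaussV A M hq hM hA hx)

/-- the descent property of the finite chart of level `M` (`Λ / 𝔪_A Λ` is a Dedekind
domain). -/
theorem h44s_desc_fin (hq : q.Prime) (hM : ¬ q ∣ M) (haux : auxLevel q ∣ M)
    (hA : A.LiesOverPrime q) : h44s_Desc A M (h44s_fin_le A M q hq hM hA) := by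
  intro y hy hint
  have hφ : h44s_phi A M (h44s_fin_le A M q hq hM hA) = h44c_phi0 A M q hq hM hA := by
    refine RingHom.ext fun x => ?_
    rw [h44s_phi_apply, h44c_phi0_apply]
    exact softR_eq_gaussR A M _ _ _
  rw [hφ] at hint ⊢
  have hyG : y ∈ gaussV A M := softV_le_gaussV A M hq hM hA hy
  obtain ⟨a, c, ha, hc, hc0, hcV, hcVinv, hyc⟩ := h60c_exists_frac hq hM hA hyG
  refine h44c_exists_red_eq A M q hq hM haux hA (softR A M ⟨y, hy⟩) ⟨c, hc⟩ ⟨a, ha⟩ ?_ ?_ hint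
  · rw [h44c_phi0_apply, Ne, gaussR_eq_zero_iff A M hq hM hA, not_or, not_not]
    exact ⟨hc0, hcVinv⟩
  · rw [h44c_phi0_apply, h44c_phi0_apply, softR_eq_gaussR A M y hy hyG, ← map_mul]
    congr 1
    exact Subtype.ext hyc

/-- the descent property of the chart at infinity of level `M`. -/
theorem h44s_desc_inf (hq : q.Prime) (hM : ¬ q ∣ M) (haux : auxLevel q ∣ M)
    (hA : A.LiesOverPrime q) : h44s_Desc A M (h44s_inf_le A M q hq hM hA) :=
  fun y hy hint => h44i_exists_red_eq A M q hq hM haux hA y hy hint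

theorem h44s_frob_fin (hq : q.Prime) (hA : A.LiesOverPrime q) (ht₀ : jB M ∈ softV A M) :
    qExpand (IsLocalRing.ResidueField A) (q * q) (softR A M ⟨jB M, ht₀⟩) =
      softR A M ⟨jB M, ht₀⟩ ^ (q ^ 2) := by
  rw [h44r_softR_jB A M ht₀]
  exact h44s_jq_qq q hq hA

theorem h44s_frob_inf (hq : q.Prime) (hA : A.LiesOverPrime q)
    (ht₀ : (jB M)⁻¹ ∈ softV A M) :
    qExpand (IsLocalRing.ResidueField A) (q * q) (softR A M ⟨(jB M)⁻¹, ht₀⟩) =
      softR A M ⟨(jB M)⁻¹, ht₀⟩ ^ (q ^ 2) := by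
  have hj : jB M ∈ softV A M := gaussV_le_softV A M (jB_mem_gaussV A M)
  have hj0 : jB M ≠ 0 := by
    intro h0
    have h1 : ((jB M : FF M) : LaurentSeries Kbar).coeff (-1) = 1 := h20n_coe_j_coeff M
    rw [h0] at h1
    have h2 : (((0 : FF M)) : LaurentSeries Kbar).coeff (-1) = 0 := rfl
    rw [h2] at h1
    exact zero_ne_one h1
  have h1 : softR A M ⟨(jB M)⁻¹, ht₀⟩ * softR A M ⟨jB M, hj⟩ = 1 := by
    rw [← map_mul]
    have e : (⟨(jB M)⁻¹, ht₀⟩ : softV A M) * ⟨jB M, hj⟩ = 1 :=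
      Subtype.ext (inv_mul_cancel₀ hj0)
    rw [e, map_one]
  rw [h44r_softR_jB A M hj] at h1
  rw [eq_inv_of_mul_eq_one_left h1, map_inv₀, h44s_jq_qq q hq hA, inv_pow]

variable {A M q}

/-- **SURJ20, finite chart**: `B₂ = α₂α₁(Λ) + P₂₀`. -/
theorem h44s_surj20_fin (hq : q.Prime) (hM : ¬ q ∣ M) (haux : auxLevel q ∣ M)
    (hA : A.LiesOverPrime q) (b : FF (M * q * q)) (hb : b ∈ modelFin (M * q * q) A) :
    ∃ x ∈ modelFin M A, ∃ h : b - h44s_aa M q x ∈ softV A (M * q * q),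
      softR A (M * q * q) ⟨_, h⟩ = 0 := by
  have hb' : b ∈ modelAt (M * q * q) A (h44s_aa M q (jB M)) := by
    rw [h44s_aa_jB]
    exact hb
  exact h44s_surj20_aa hq hM hA (jB M) (h44s_fin_le A M q hq hM hA)
    (h44s_desc_fin A M q hq hM haux hA) b hb'

/-- **SURJ11, finite chart** (functions fixed by inertia): `B₂^I ⊆ α₂α₁(Λ) + P₁₁`. -/
theorem h44s_surj11_fin (hq : q.Prime) (hM : ¬ q ∣ M) (haux : auxLevel q ∣ M)
    (hA : A.LiesOverPrime q) (ζ : Kbar) (hζ : IsPrimitiveRoot ζ q)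
    (E : FF (M * q * q) →+* LaurentSeries Kbar) (hE : h20n_IsE11 M q hq hM ζ E)
    (b : FF (M * q * q)) (hb : b ∈ modelFin (M * q * q) A)
    (hfix : ∀ σ ∈ A.inertiaSubgroupIn ℚ, gal (M * q * q) σ • b = b) :
    ∃ x ∈ modelFin M A, ∃ h : E (b - h44s_aa M q x) ∈ softOT A (IsLocalRing.residue A),
      softRedT A (IsLocalRing.residue A) ⟨_, h⟩ = 0 := by
  have hb' : b ∈ modelAt (M * q * q) A (h44s_aa M q (jB M)) := by
    rw [h44s_aa_jB]
    exact hb
  exact h44s_surj11_aa hq hM hA ζ hζ E hE (jB M) (h44s_fin_le A M q hq hM hA)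
    (h44s_desc_fin A M q hq hM haux hA) b hb' hfix

/-- **SURJ02, finite chart**: `B₂ = β₂β₁(Λ) + P₀₂`. -/
theorem h44s_surj02_fin (hq : q.Prime) (hM : ¬ q ∣ M) (haux : auxLevel q ∣ M)
    (hA : A.LiesOverPrime q) (b : FF (M * q * q)) (hb : b ∈ modelFin (M * q * q) A) :
    ∃ x ∈ modelFin M A,
      ∃ h : h44s_fricke2 M q hq hM (b - h44s_bb M q x) ∈ softV A (M * q * q),
        softR A (M * q * q) ⟨_, h⟩ = 0 := by
  have hb' : b ∈ modelAt (M * q * q) A (h44s_aa M q (jB M)) := by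
    rw [h44s_aa_jB]
    exact hb
  exact h44s_surj02_aa hq hM hA (jB M) (h44s_fin_le A M q hq hM hA)
    (h44s_desc_fin A M q hq hM haux hA) (h44s_frob_fin A M q hq hA) b hb'

/-- **SURJ20, chart at infinity.** -/
theorem h44s_surj20_inf (hq : q.Prime) (hM : ¬ q ∣ M) (haux : auxLevel q ∣ M)
    (hA : A.LiesOverPrime q) (b : FF (M * q * q)) (hb : b ∈ modelInf (M * q * q) A) :
    ∃ x ∈ modelInf M A, ∃ h : b - h44s_aa M q x ∈ softV A (M * q * q),
      softR A (M * q * q) ⟨_, h⟩ = 0 := by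
  have hb' : b ∈ modelAt (M * q * q) A (h44s_aa M q (jB M)⁻¹) := by
    rw [map_inv₀, h44s_aa_jB]
    exact hb
  exact h44s_surj20_aa hq hM hA (jB M)⁻¹ (h44s_inf_le A M q hq hM hA)
    (h44s_desc_inf A M q hq hM haux hA) b hb'

/-- **SURJ11, chart at infinity** (functions fixed by inertia). -/
theorem h44s_surj11_inf (hq : q.Prime) (hM : ¬ q ∣ M) (haux : auxLevel q ∣ M)
    (hA : A.LiesOverPrime q) (ζ : Kbar) (hζ : IsPrimitiveRoot ζ q)
    (E : FF (M * q * q) →+* LaurentSeries Kbar) (hE : h20n_IsE11 M q hq hM ζ E)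
    (b : FF (M * q * q)) (hb : b ∈ modelInf (M * q * q) A)
    (hfix : ∀ σ ∈ A.inertiaSubgroupIn ℚ, gal (M * q * q) σ • b = b) :
    ∃ x ∈ modelInf M A, ∃ h : E (b - h44s_aa M q x) ∈ softOT A (IsLocalRing.residue A),
      softRedT A (IsLocalRing.residue A) ⟨_, h⟩ = 0 := by
  have hb' : b ∈ modelAt (M * q * q) A (h44s_aa M q (jB M)⁻¹) := by
    rw [map_inv₀, h44s_aa_jB]
    exact hb
  exact h44s_surj11_aa hq hM hA ζ hζ E hE (jB M)⁻¹ (h44s_inf_le A M q hq hM hA)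
    (h44s_desc_inf A M q hq hM haux hA) b hb' hfix

/-- **SURJ02, chart at infinity.** -/
theorem h44s_surj02_inf (hq : q.Prime) (hM : ¬ q ∣ M) (haux : auxLevel q ∣ M)
    (hA : A.LiesOverPrime q) (b : FF (M * q * q)) (hb : b ∈ modelInf (M * q * q) A) :
    ∃ x ∈ modelInf M A,
      ∃ h : h44s_fricke2 M q hq hM (b - h44s_bb M q x) ∈ softV A (M * q * q),
        softR A (M * q * q) ⟨_, h⟩ = 0 := by
  have hb' : b ∈ modelAt (M * q * q) A (h44s_aa M q (jB M)⁻¹) := by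
    rw [map_inv₀, h44s_aa_jB]
    exact hb
  exact h44s_surj02_aa hq hM hA (jB M)⁻¹ (h44s_inf_le A M q hq hM hA)
    (h44s_desc_inf A M q hq hM haux hA) (h44s_frob_inf A M q hq hA) b hb'

/-! ### the same in the language of the embedding `E02` -/

/-- the embedding at the cusp `0` is `E20 ∘ w₂`. -/
theorem h44s_E02_eq (hq : q.Prime) (hM : ¬ q ∣ M)
    (E0 : FF (M * q * q) →+* LaurentSeries Kbar) (hE0 : h20n_IsE02 M q hq hM E0)
    (u : FF (M * q * q)) :
    E0 u = ((h44s_fricke2 M q hq hM u : FF (M * q * q)) : LaurentSeries Kbar) := by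
  have h := h20n_embUnique q hq M E0
    ((algebraMap (FF (M * q * q)) (LaurentSeries Kbar)).comp
      ((h44s_fricke2 M q hq hM : FF (M * q * q) ≃ₐ[Kbar] FF (M * q * q)) :
        FF (M * q * q) →+* FF (M * q * q))) ?_ ?_
  · exact RingHom.congr_fun h u
  · intro x
    rw [hE0.1]
    show _ = ((h44s_fricke2 M q hq hM (heckeAlphaBar Kbar (M * q) q x) : FF (M * q * q)) :
      LaurentSeries Kbar)
    rw [h44s_fricke2_alpha, coe_heckeBetaBar]
  · intro x
    rw [hE0.2]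
    show _ = ((h44s_fricke2 M q hq hM (heckeBetaBar Kbar (M * q) q x) : FF (M * q * q)) :
      LaurentSeries Kbar)
    rw [h44s_fricke2_beta, coe_heckeAlphaBar]

/-- **SURJ02, finite chart, `E02` form.** -/
theorem h44s_surj02_fin_E (hq : q.Prime) (hM : ¬ q ∣ M) (haux : auxLevel q ∣ M)
    (hA : A.LiesOverPrime q) (E0 : FF (M * q * q) →+* LaurentSeries Kbar)
    (hE0 : h20n_IsE02 M q hq hM E0) (b : FF (M * q * q)) (hb : b ∈ modelFin (M * q * q) A) :
    ∃ x ∈ modelFin M A, ∃ h : E0 (b - h44s_bb M q x) ∈ softOT A (IsLocalRing.residue A),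
      softRedT A (IsLocalRing.residue A) ⟨_, h⟩ = 0 := by
  obtain ⟨x, hx, h, h0⟩ := h44s_surj02_fin hq hM haux hA b hb
  have h1 := (h44s_red_of_softV _ h).congr (h44s_E02_eq hq hM E0 hE0 _).symm h0
  exact ⟨x, hx, h1.1, h1.2⟩

/-- **SURJ02, chart at infinity, `E02` form.** -/
theorem h44s_surj02_inf_E (hq : q.Prime) (hM : ¬ q ∣ M) (haux : auxLevel q ∣ M)
    (hA : A.LiesOverPrime q) (E0 : FF (M * q * q) →+* LaurentSeries Kbar)
    (hE0 : h20n_IsE02 M q hq hM E0) (b : FF (M * q * q)) (hb : b ∈ modelInf (M * q * q) A) :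
    ∃ x ∈ modelInf M A, ∃ h : E0 (b - h44s_bb M q x) ∈ softOT A (IsLocalRing.residue A),
      softRedT A (IsLocalRing.residue A) ⟨_, h⟩ = 0 := by
  obtain ⟨x, hx, h, h0⟩ := h44s_surj02_inf hq hM haux hA b hb
  have h1 := (h44s_red_of_softV _ h).congr (h44s_E02_eq hq hM E0 hE0 _).symm h0
  exact ⟨x, hx, h1.1, h1.2⟩

end Final

end Fermat.Agent.S36
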