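import Fermat.Agent.S36.H18CuspIface
import Fermat.Agent.S36.H44Surj
import Fermat.Agent.S36.H12RedIso2

/-!
# S36 / REG, rows R-CUSP-RES20, R-CUSP-RES11, R-CUSP-RES02, R-CUSP-INT (helper44)

The frozen leaves `H18cRes20`, `H18cRes11`, `H18cRes02`, `H18cInt` of `S36/H18CuspIface.lean`
from the landed residue-degree-one statements of `S36/H44Surj.lean` (V-SURJ) and the descent
`B = B₀ + 𝔪_A B` of the chart at infinity of the level `M` (helper12, `h12r_approx_inf`).
The smallness hypotheses on the multiplier `u` are not needed.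
-/

set_option autoImplicit false
set_option linter.style.haveILetI false
set_option linter.unusedSectionVars false
set_option linter.unusedVariables false
set_option synthInstance.maxHeartbeats 400000

open AlgebraicCurve ModularCurve IsLocalRing Polynomial

noncomputable section

namespace Fermat.Agent.S36

open Fermat.Agent.S37 Fermat.Agent.Red Fermat.Agent.Red.GV Fermat.Agent.Red.GV.Soft
  Fermat.Agent.Red.TRK Fermat.Agent.Red.Kron Fermat.Agent.LGC

variable {A : ValuationSubring Kbar}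

/-- `h18c_Small` is "Gauss-integral with reduction `0`". -/
theorem h44s_small_iff (s : LaurentSeries Kbar) : h18c_Small A s ↔ h44s_Red A s 0 := by
  constructor
  · rintro ⟨hs, h⟩
    exact ⟨hs, (softRedT_eq_zero_iff (⟨s, hs⟩ : softOT A (IsLocalRing.residue A))).mpr h⟩
  · rintro ⟨hs, h⟩
    exact ⟨hs, (softRedT_eq_zero_iff (⟨s, hs⟩ : softOT A (IsLocalRing.residue A))).mp h⟩

variable {M q : ℕ} [NeZero M] [NeZero q]

/-- the elements of `𝔪_A Λ` (chart at infinity of the level `M`) have reduction `0`. -/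
theorem h44s_red_of_J (hq : q.Prime) (hM : ¬ q ∣ M) (hA : A.LiesOverPrime q) {y : FF M}
    (hy : y ∈ h12rJ A M (jB M)⁻¹) : h44s_Red A ((y : FF M) : LaurentSeries Kbar) 0 := by
  obtain ⟨c, hc, x', hx', rfl⟩ := hy
  have hx'V : x' ∈ softV A M := h44s_inf_le A M q hq hM hA hx'
  have hcV : cst M c ∈ softV A M := (cst_mem_softV_iff A M c).mpr (A.nonunits_subset hc)
  have h1 := (h44s_red_of_softV (cst M c) hcV).mul (h44s_red_of_softV x' hx'V)
  rw [softR_cst_of_nonunit A M c hc hcV, zero_mul] at h1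
  exact h1

/-- descent of the chart at infinity of the level `M` to the inertia ring, up to functions of
reduction `0`. -/
theorem h44s_descend_inf (hq : q.Prime) (hM : ¬ q ∣ M) (hA : A.LiesOverPrime q) {l' : FF M}
    (hl' : l' ∈ modelInf M A) :
    ∃ l ∈ h62rChart A M (jB M)⁻¹, h44s_Red A (((l' - l : FF M)) : LaurentSeries Kbar) 0 := by
  obtain ⟨l, hl, hJ⟩ := h12r_approx_inf A M q hq hM hA l' hl'
  exact ⟨l, hl, h44s_red_of_J hq hM hA hJ⟩

/-- **R-CUSP-RES20.** -/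
theorem h44s_cuspRes20 : H18cRes20 := by
  intro q hq M _ hqM haux
  haveI : NeZero q := ⟨hq.ne_zero⟩
  intro A hA ζ E11 E02 hT x u hx hu _ _
  have hb : u * x ∈ modelInf (M * q * q) A :=
    mul_mem (h62r_mem_chart.mp hu).1 (h62r_mem_chart.mp hx).1
  obtain ⟨l', hl', h, h0⟩ := h44s_surj20_inf hq hqM haux hA (u * x) hb
  obtain ⟨l, hl, hred⟩ := h44s_descend_inf hq hqM hA hl'
  refine ⟨l, hl, ?_⟩
  rw [h44s_small_iff]
  have h1 : h44s_Red A (((u * x - h44s_aa M q l' : FF (M * q * q))) : LaurentSeries Kbar) 0 :=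
    (h44s_red_of_softV _ h).congr rfl h0
  have h2 : h44s_Red A (((h44s_aa M q (l' - l) : FF (M * q * q))) : LaurentSeries Kbar) 0 := by
    rw [h44s_coe_aa]
    exact hred
  have h3 := h1.add h2
  rw [add_zero] at h3
  refine h3.congr ?_ rfl
  show ((((u * x - h44s_aa M q l') + h44s_aa M q (l' - l) : FF (M * q * q))) :
    LaurentSeries Kbar) = (((u * x - h44s_aa M q l : FF (M * q * q))) : LaurentSeries Kbar)
  rw [map_sub]
  congr 1
  ring

/-- **R-CUSP-RES11.** -/
theorem h44s_cuspRes11 : H18cRes11 := by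
  intro q hq M _ hqM haux
  haveI : NeZero q := ⟨hq.ne_zero⟩
  intro A hA ζ E11 E02 hT x u hx hu _ _
  have hb : u * x ∈ modelInf (M * q * q) A :=
    mul_mem (h62r_mem_chart.mp hu).1 (h62r_mem_chart.mp hx).1
  have hfix : ∀ σ ∈ A.inertiaSubgroupIn ℚ, gal (M * q * q) σ • (u * x) = u * x := by
    intro σ hσ
    rw [smul_mul', (h62r_mem_chart.mp hu).2 σ hσ, (h62r_mem_chart.mp hx).2 σ hσ]
  obtain ⟨l', hl', h, h0⟩ := h44s_surj11_inf hq hqM haux hA ζ hT.prim E11 hT.e11 (u * x) hb hfix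
  obtain ⟨l, hl, hred⟩ := h44s_descend_inf hq hqM hA hl'
  refine ⟨l, hl, ?_⟩
  rw [h44s_small_iff]
  have h1 : h44s_Red A (E11 (u * x - h44s_aa M q l')) 0 := ⟨h, h0⟩
  have h2 : h44s_Red A (E11 (h44s_aa M q (l' - l))) 0 := by
    rw [h44s_E11_aa hT.e11]
    exact hred
  have h3 := h1.add h2
  rw [add_zero, ← map_add] at h3
  refine h3.congr ?_ rfl
  congr 1
  rw [map_sub]
  show u * x - h44s_aa M q l' + (h44s_aa M q l' - h44s_aa M q l) = u * x - h44s_aa M q l
  ring

/-- **R-CUSP-RES02.** -/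
theorem h44s_cuspRes02 : H18cRes02 := by
  intro q hq M _ hqM haux
  haveI : NeZero q := ⟨hq.ne_zero⟩
  intro A hA ζ E11 E02 hT x u hx hu _ _
  have hb : u * x ∈ modelInf (M * q * q) A :=
    mul_mem (h62r_mem_chart.mp hu).1 (h62r_mem_chart.mp hx).1
  obtain ⟨l', hl', h, h0⟩ := h44s_surj02_inf_E hq hqM haux hA E02 hT.e02 (u * x) hb
  obtain ⟨l, hl, hred⟩ := h44s_descend_inf hq hqM hA hl'
  refine ⟨l, hl, ?_⟩
  rw [h44s_small_iff]
  have h1 : h44s_Red A (E02 (u * x - h44s_bb M q l')) 0 := ⟨h, h0⟩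
  have h2 : h44s_Red A (E02 (h44s_bb M q (l' - l))) 0 := by
    rw [h44s_E02_eq hq hqM E02 hT.e02, h44s_fricke2_bb, h44s_coe_aa]
    exact hred
  have h3 := h1.add h2
  rw [add_zero, ← map_add] at h3
  refine h3.congr ?_ rfl
  congr 1
  rw [map_sub]
  show u * x - h44s_bb M q l' + (h44s_bb M q l' - h44s_bb M q l) = u * x - h44s_bb M q l
  ring

/-- **R-CUSP-INT.** -/
theorem h44s_cuspInt : H18cInt := by
  intro q hq M _ hqM haux
  haveI : NeZero q := ⟨hq.ne_zero⟩
  intro A hA ζ E11 E02 hT x hx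
  have hxm : x ∈ modelAt (M * q * q) A (jB (M * q * q))⁻¹ := (h62r_mem_chart.mp hx).1
  have hxa : x ∈ modelAt (M * q * q) A (h44s_aa M q (jB M)⁻¹) := by
    rw [map_inv₀, h44s_aa_jB]
    exact hxm
  have ht₀ : (jB M)⁻¹ ∈ softV A M :=
    h44s_inf_le A M q hq hqM hA (Fermat.Agent.Red.Match.ringAdj_le_modelAt M A _
      (self_mem_ringAdj M A _))
  have h0 : h44s_Red A ((h44s_aa M q (jB M)⁻¹ : FF (M * q * q)) : LaurentSeries Kbar)
      (softR A M ⟨(jB M)⁻¹, ht₀⟩) := by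
    rw [h44s_coe_aa]
    exact h44s_red_of_softV _ ht₀
  refine ⟨?_, ?_, ?_⟩
  · obtain ⟨hta, -⟩ := h44s_Red.softV (N := M * q * q) h0
    exact h60i_modelAt_le_softV hq hA (M * q * q) ⟨_, hta⟩ hxa
  · refine h44s_modelAt_le A hq hA E11 (h44s_E11_DF hT.e11 hT.prim.pow_eq_one)
      (h44s_E11_cst hT.e11) _ ?_ hxa
    rw [h44s_E11_aa hT.e11]
    exact ht₀
  · rw [h44s_E02_eq hq hqM E02 hT.e02]
    have h1 := h44s_fricke2_mem_modelAt M q hq hqM A hxa
    rw [h44s_fricke2_aa] at h1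
    have h2 : h44s_Red A ((h44s_bb M q (jB M)⁻¹ : FF (M * q * q)) : LaurentSeries Kbar)
        (qExpand (IsLocalRing.ResidueField A) (q * q) (softR A M ⟨(jB M)⁻¹, ht₀⟩)) := by
      rw [h44s_coe_bb]
      exact (h44s_red_of_softV _ ht₀).qExpand (q * q)
    obtain ⟨htb, -⟩ := h44s_Red.softV (N := M * q * q) h2
    exact h60i_modelAt_le_softV hq hA (M * q * q) ⟨_, htb⟩ h1

end Fermat.Agent.S36
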