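import Mathlib
import Fermat.Agent.S36.H18CuspIface
import Fermat.Agent.S36.H59Base2
import Fermat.Agent.Red.KR.Reflect

/-!
# S36, block REG, leaf R-CUSP-BETA (helper59): `H18cBeta`

`Λ₀ = h62rChart A M (1/j)`, `B₀ = h62rChart A (M q q) (1/j)` (charts at infinity over the inertia
ring), `t₀ = 1/j₀`, `t₂ = ββ (1/j) = 1/j(t^{q²})`.

* `h59w_reflect_fine` (abstract, Mathlib + `Red/KR/Reflect`): if `Y` is integral over `A[J]`,
  there are `s ∈ A[T]`, `s(0) = 1`, and `D`, `c_k ∈ A[T]` with `b = s(1/Y) · (1/J)` integral over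
  `A[1/Y]` and `b ^ D = (1/Y) · ∑_{k < D} c_k(1/Y) b ^ k`;
* `h59w_jB_mem_bb` : `j₀` is integral over `A[j₂]` at the level `M q q`;
* `h59w_cuspBeta : H18cBeta` (the frozen leaf).
-/

set_option autoImplicit false
set_option linter.style.haveILetI false
set_option linter.unusedSectionVars false

open Polynomial AlgebraicCurve ModularCurve

noncomputable section

namespace Fermat.Agent.S36

open Fermat.Agent.S37 (Kbar GQ FF cst gal jB modelAt modelFin ringAdj auxLevel)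
open Fermat.Agent.LGC (jSS)
open Fermat.Agent.Red.KR (h40kr_rev h40kr_lead h40kr_rev_coeff h40kr_rev_natDegree_le
  h40kr_lead_coeff_zero h40kr_rev_eval)

/-! ### Abstract: the fine form of REFLECT -/

section Abstract

/-- the lower coefficients of the bi-reversed polynomial of a monic polynomial have no
constant term. -/
theorem h59w_rev_coeff_coeff_zero {A : Type*} [CommRing A] (p : Polynomial (Polynomial A))
    (n D : ℕ) (hn : p.coeff n = 1) (k : ℕ) (hk : k < D) :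
    ((h40kr_rev p n D).coeff k).coeff 0 = 0 := by
  rw [h40kr_rev, finsetSum_coeff, finsetSum_coeff]
  refine Finset.sum_eq_zero fun i hi => ?_
  rw [finsetSum_coeff, finsetSum_coeff]
  refine Finset.sum_eq_zero fun k' hk' => ?_
  have hi' : i ≤ n := Nat.lt_succ_iff.mp (Finset.mem_range.mp hi)
  have hk'' : k' ≤ D := Nat.lt_succ_iff.mp (Finset.mem_range.mp hk')
  rw [coeff_C_mul_X_pow]
  split_ifs with h
  · rw [coeff_C_mul_X_pow]
    split_ifs with h'
    · have hin : i = n := by omega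
      have hk0 : k' ≠ 0 := by omega
      rw [hin, hn, coeff_one, if_neg hk0]
    · rfl
  · exact coeff_zero 0

/-- **REFLECT, fine form.** -/
theorem h59w_reflect_fine {A L : Type} [CommRing A] [Field L] (ι : A →+* L) (J Y : L)
    (hJ : J ≠ 0) (hY : Y ≠ 0) (hint : (eval₂RingHom ι J).IsIntegralElem Y) :
    ∃ s : Polynomial A, s.coeff 0 = 1 ∧
      (eval₂RingHom ι Y⁻¹).IsIntegralElem (eval₂ ι Y⁻¹ s * J⁻¹) ∧
      ∃ (D : ℕ) (c : ℕ → Polynomial A),
        (eval₂ ι Y⁻¹ s * J⁻¹) ^ D =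
          Y⁻¹ * ∑ k ∈ Finset.range D, eval₂ ι Y⁻¹ (c k) * (eval₂ ι Y⁻¹ s * J⁻¹) ^ k := by
  obtain ⟨p, hp, hpe⟩ := hint
  have : Nontrivial A := by
    refine ⟨⟨0, 1, fun h => ?_⟩⟩
    have := congrArg ι h
    rw [map_zero, map_one] at this
    exact zero_ne_one this
  set n := p.natDegree with hn
  set D0 := (Finset.range (n + 1)).sup (fun i => (p.coeff i).natDegree) with hD0def
  have hD0 : ∀ i, (p.coeff i).natDegree ≤ D0 := by
    intro i
    by_cases hi : i ≤ n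
    · exact Finset.le_sup (f := fun i => (p.coeff i).natDegree)
        (Finset.mem_range.mpr (Nat.lt_succ_of_le hi))
    · rw [coeff_eq_zero_of_natDegree_lt (not_le.mp hi), natDegree_zero]
      exact Nat.zero_le _
  have hD : ∀ i, (p.coeff i).natDegree ≤ D0 + 1 := fun i => (hD0 i).trans (Nat.le_succ _)
  have hpn : p.coeff n = 1 := by
    rw [hn, coeff_natDegree, hp.leadingCoeff]
  have hlead1 : (p.coeff n).coeff 0 = 1 := by
    rw [hpn, coeff_one_zero]
  have hs0 : (h40kr_lead p n).coeff 0 = 1 := h40kr_lead_coeff_zero p n hlead1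
  have hsne : h40kr_lead p n ≠ 0 := by
    intro h
    rw [h, coeff_zero] at hs0
    exact zero_ne_one hs0
  have hdeg : (h40kr_rev p n (D0 + 1)).natDegree = D0 + 1 := by
    refine le_antisymm (h40kr_rev_natDegree_le p n (D0 + 1)) ?_
    refine le_natDegree_of_ne_zero ?_
    rw [h40kr_rev_coeff]
    exact hsne
  have hlc : (h40kr_rev p n (D0 + 1)).leadingCoeff = h40kr_lead p n := by
    rw [leadingCoeff, hdeg, h40kr_rev_coeff]
  have hzero : eval₂ (eval₂RingHom ι Y⁻¹) J⁻¹ (h40kr_rev p n (D0 + 1)) = 0 := by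
    rw [h40kr_rev_eval ι p n (D0 + 1) hJ hY le_rfl hD, hpe, mul_zero]
  have hintegral : (eval₂RingHom ι Y⁻¹).IsIntegralElem (eval₂ ι Y⁻¹ (h40kr_lead p n) * J⁻¹) := by
    have h := RingHom.isIntegralElem_leadingCoeff_mul (eval₂RingHom ι Y⁻¹)
      (h40kr_rev p n (D0 + 1)) J⁻¹ hzero
    rw [hlc, coe_eval₂RingHom] at h
    exact h
  -- the expansion of the relation
  have hsum : eval₂ ι Y⁻¹ (h40kr_lead p n) * J⁻¹ ^ (D0 + 1)
      + ∑ k ∈ Finset.range (D0 + 1),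
          eval₂ ι Y⁻¹ ((h40kr_rev p n (D0 + 1)).coeff k) * J⁻¹ ^ k = 0 := by
    have h := eval₂_eq_sum_range' (eval₂RingHom ι Y⁻¹)
      (Nat.lt_succ_of_le (h40kr_rev_natDegree_le p n (D0 + 1))) J⁻¹
    rw [hzero, Finset.sum_range_succ, h40kr_rev_coeff] at h
    rw [add_comm]
    exact h.symm
  have hdiv : ∀ k, k < D0 + 1 → eval₂ ι Y⁻¹ ((h40kr_rev p n (D0 + 1)).coeff k)
      = Y⁻¹ * eval₂ ι Y⁻¹ ((h40kr_rev p n (D0 + 1)).coeff k).divX := by
    intro k hk
    have h0 := h59w_rev_coeff_coeff_zero p n (D0 + 1) hpn k hk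
    have h1 := divX_mul_X_add ((h40kr_rev p n (D0 + 1)).coeff k)
    rw [h0, C_0, add_zero] at h1
    conv_lhs => rw [← h1]
    rw [eval₂_mul, eval₂_X, mul_comm]
  refine ⟨h40kr_lead p n, hs0, hintegral, D0 + 1,
    fun k => -(((h40kr_rev p n (D0 + 1)).coeff k).divX * h40kr_lead p n ^ (D0 - k)), ?_⟩
  set S := eval₂ ι Y⁻¹ (h40kr_lead p n) with hS
  have key : (S * J⁻¹) ^ (D0 + 1) = S ^ D0 * (S * J⁻¹ ^ (D0 + 1)) := by
    rw [mul_pow, pow_succ S D0]
    ring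
  have hsum' : S * J⁻¹ ^ (D0 + 1) = -∑ k ∈ Finset.range (D0 + 1),
      eval₂ ι Y⁻¹ ((h40kr_rev p n (D0 + 1)).coeff k) * J⁻¹ ^ k :=
    eq_neg_of_add_eq_zero_left hsum
  rw [key, hsum', mul_neg, Finset.mul_sum, Finset.mul_sum, ← Finset.sum_neg_distrib]
  refine Finset.sum_congr rfl fun k hk => ?_
  have hk' : k < D0 + 1 := Finset.mem_range.mp hk
  have hk'' : k ≤ D0 := Nat.lt_succ_iff.mp hk'
  rw [hdiv k hk', eval₂_neg, eval₂_mul, eval₂_pow, ← hS, mul_pow]
  have hpow : S ^ D0 = S ^ (D0 - k) * S ^ k := by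
    rw [← pow_add, Nat.sub_add_cancel hk'']
  rw [hpow]
  ring

end Abstract

/-! ### Integrality over `A₀[t]` -/

section Model

variable (N : ℕ) (A : ValuationSubring Kbar)

/-- integrality over `A[t]` is integrality over `A₀[t]`. -/
theorem h59w_mem_modelAt_iff (t x : FF N) :
    x ∈ modelAt N A t ↔ (h59nEv N A t).IsIntegralElem x := by
  rw [h59c_mem_modelAt_iff]
  exact h59n_adj_isIntegral_iff_elem (L := FF N)
    ((algebraMap (h59bK0 A) Kbar).comp (h59bA0 A).subtype) (h59cA0 A) (h59n_range_iota A) t x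

theorem h59w_jB_ne_zero [NeZero N] : jB N ≠ 0 := by
  intro h
  have htr := Fermat.Agent.S24.transcendental_jBar N
  apply htr
  have h0 : Fermat.Agent.S24.jBar N = 0 := h
  rw [h0]
  exact isAlgebraic_zero

end Model

/-! ### `j₀` is integral over `A[j₂]` -/

section Levels

variable (A : ValuationSubring Kbar) (M : ℕ) {q : ℕ} [NeZero M] [NeZero q]

theorem h59w_bb_apply (x : FF M) :
    h18c_bb M q x = heckeBetaBar Kbar (M * q) q (heckeBetaBar Kbar M q x) := rfl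

theorem h59w_aa_apply (x : FF M) :
    h18c_aa M q x = heckeAlphaBar Kbar (M * q) q (heckeAlphaBar Kbar M q x) := rfl

/-- `j₀` is integral over `A[j₂]` at the level `M q q`. -/
theorem h59w_jB_mem_bb (hq : q.Prime) (hM : ¬ q ∣ M) (hA : A.LiesOverPrime q) :
    jB (M * q * q) ∈ modelAt (M * q * q) A (h18c_bb M q (jB M)) := by
  have h1 : jB (M * q) ∈ modelAt (M * q) A (heckeBetaBar Kbar M q (jB M)) :=
    Fermat.Agent.Red.KR.meBeta Fermat.Agent.Red.KR.meAlpha M q hq hM A hA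
  have h2 := Fermat.Agent.Red.KR.map_mem_modelAt (heckeBetaBar Kbar (M * q) q) A h1
  rw [← h59y_jSS_eq] at h2
  exact Fermat.Agent.Red.KR.h66_modelAt_le_of_mem (M * q * q) A h2
    (h59y_jB_mem_e1 A M hq hM hA)

theorem h59w_bb_jB_ne_zero : h18c_bb M q (jB M) ≠ 0 := by
  intro h
  exact h59w_jB_ne_zero M ((map_eq_zero_iff (h18c_bb M q) (h18c_bb M q).injective).mp h)

/-- `ββ` commutes with the Galois actions. -/
theorem h59w_gal_bb (σ : GQ) (x : FF M) :
    gal (M * q * q) σ • h18c_bb M q x = h18c_bb M q (gal M σ • x) := by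
  rw [h59w_bb_apply, h59w_bb_apply, h59z_gal_beta, h59z_gal_beta]

/-- `αα (Λ₀) ⊆ B₀` (charts at infinity). -/
theorem h59w_aa_mem {l : FF M} (hl : l ∈ h62rChart A M (jB M)⁻¹) :
    h18c_aa M q l ∈ h62rChart A (M * q * q) (jB (M * q * q))⁻¹ :=
  h59z_alpha_mem_chart_inf (M * q) q A (h59z_alpha_mem_chart_inf M q A hl)

/-- `ββ` maps the chart at infinity of level `M` into the chart at `t₂`. -/
theorem h59w_bb_mem {l : FF M} (hl : l ∈ h62rChart A M (jB M)⁻¹) :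
    h18c_bb M q l ∈ h62rChart A (M * q * q) (h18c_bb M q (jB M))⁻¹ := by
  have h := h59z_beta_mem_chart (M * q) q A (h59z_beta_mem_chart M q A hl)
  rw [map_inv₀, map_inv₀] at h
  exact h

end Levels

/-! ### The polynomial functions of `1/j` in the chart at infinity -/

section EvB

variable (N : ℕ) [NeZero N] (A : ValuationSubring Kbar)

/-- `A₀[T] → B₀`, `T ↦ 1/j`. -/
def h59wEvB : Polynomial (h59bA0 A) →+* h62rChart A N (jB N)⁻¹ :=
  RingHom.codRestrict (h59nEv N A (jB N)⁻¹) (h62rChart A N (jB N)⁻¹)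
    (h59zEv_mem_chart N A (jB N)⁻¹ (fun σ _ => h59z_jB_inv_fixed N σ))

theorem h59w_coe_evB (P : Polynomial (h59bA0 A)) :
    ((h59wEvB N A P : h62rChart A N (jB N)⁻¹) : FF N) = eval₂ (h59nPsi N A) (jB N)⁻¹ P := rfl

theorem h59w_coe_evB_X :
    ((h59wEvB N A X : h62rChart A N (jB N)⁻¹) : FF N) = (jB N)⁻¹ := by
  rw [h59w_coe_evB, eval₂_X]

/-- `s(1/j)` with `s(0) = 1` is a unit at every cusp. -/
theorem h59w_evB_not_mem (q : ℕ) (s : Polynomial (h59bA0 A)) (hs0 : s.coeff 0 = 1)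
    (𝔫 : Ideal (h62rChart A N (jB N)⁻¹)) (h𝔫 : h18c_IsCusp A N q 𝔫) :
    h59wEvB N A s ∉ 𝔫 := by
  obtain ⟨hmax, -, ht⟩ := h𝔫
  intro hs
  have hX : h59wEvB N A X ∈ 𝔫 := ht _ (h59w_coe_evB_X N A)
  have h1 : h59wEvB N A s = h59wEvB N A s.divX * h59wEvB N A X + 1 := by
    conv_lhs => rw [← divX_mul_X_add s, hs0]
    rw [map_add, map_mul, C_1, map_one]
  have h2 : (1 : h62rChart A N (jB N)⁻¹) ∈ 𝔫 := by
    have h3 : (1 : h62rChart A N (jB N)⁻¹)
        = h59wEvB N A s - h59wEvB N A s.divX * h59wEvB N A X := by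
      rw [h1]
      ring
    rw [h3]
    exact 𝔫.sub_mem hs (𝔫.mul_mem_left _ hX)
  exact hmax.ne_top ((Ideal.eq_top_iff_one 𝔫).mpr h2)

end EvB

/-! ### The leaf -/

/-- **R-CUSP-BETA** : the frozen leaf `H18cBeta`. -/
theorem h59w_cuspBeta : H18cBeta := by
  intro q hq M _ hqM _
  haveI : NeZero q := ⟨hq.ne_zero⟩
  intro A hA
  -- REFLECT over `A₀`
  have hint : (eval₂RingHom (h59nPsi (M * q * q) A) (h18c_bb M q (jB M))).IsIntegralElem
      (jB (M * q * q)) :=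
    (h59w_mem_modelAt_iff (M * q * q) A _ _).mp (h59w_jB_mem_bb A M hq hqM hA)
  obtain ⟨s, hs0, hsb, D, c, hD⟩ := h59w_reflect_fine (h59nPsi (M * q * q) A)
    (h18c_bb M q (jB M)) (jB (M * q * q)) (h59w_bb_jB_ne_zero M) (h59w_jB_ne_zero (M * q * q)) hint
  -- `t₂` is inertia-fixed
  have ht2F : (h18c_bb M q (jB M))⁻¹ ∈ h53d_F0 (M * q * q) (A.inertiaSubgroupIn ℚ) := by
    intro σ _
    have h1 : gal (M * q * q) σ • h18c_bb M q (jB M)⁻¹ = h18c_bb M q (jB M)⁻¹ := by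
      rw [h59w_gal_bb, h59z_jB_inv_fixed]
    rw [map_inv₀] at h1
    exact h1
  have hSF : ∀ P : Polynomial (h59bA0 A), eval₂ (h59nPsi (M * q * q) A) (jB (M * q * q))⁻¹ P
      ∈ h53d_F0 (M * q * q) (A.inertiaSubgroupIn ℚ) := fun P => (h59wEvB (M * q * q) A P).2.2
  -- the element `b = s(t₀) t₂` of `B₀`
  have hbmem : eval₂ (h59nPsi (M * q * q) A) (jB (M * q * q))⁻¹ s * (h18c_bb M q (jB M))⁻¹
      ∈ h62rChart A (M * q * q) (jB (M * q * q))⁻¹ :=
    ⟨(h59w_mem_modelAt_iff (M * q * q) A _ _).mpr hsb,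
      (h53d_F0 (M * q * q) (A.inertiaSubgroupIn ℚ)).mul_mem (hSF s) ht2F⟩
  refine ⟨fun l hl => h59w_aa_mem A M hl, fun l hl => ?_, ?_⟩
  · -- MULT
    obtain ⟨hlF, hlint⟩ := (h59n_mem_chart_iff (M * q * q) A _ _).mp (h59w_bb_mem A M hl)
    obtain ⟨E, hE⟩ := Fermat.Agent.Red.KR.mult (h59bA0 A) (FF (M * q * q))
      (h59nPsi (M * q * q) A) (h18c_bb M q (jB M))⁻¹ (jB (M * q * q))⁻¹ s hsb
      (h18c_bb M q l) hlint
    refine ⟨h59wEvB (M * q * q) A s ^ E, ⟨?_, ?_⟩, fun 𝔫 h𝔫 hmem => ?_⟩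
    · rw [SubmonoidClass.coe_pow, h59w_coe_evB]
      exact (h59w_mem_modelAt_iff (M * q * q) A _ _).mpr hE
    · rw [SubmonoidClass.coe_pow, h59w_coe_evB]
      exact (h53d_F0 (M * q * q) (A.inertiaSubgroupIn ℚ)).mul_mem
        ((h53d_F0 (M * q * q) (A.inertiaSubgroupIn ℚ)).pow_mem (hSF s) E) hlF
    · haveI := h𝔫.1.isPrime
      exact h59w_evB_not_mem (M * q * q) A q s hs0 𝔫 h𝔫
        (Ideal.IsPrime.mem_of_pow_mem inferInstance E hmem)
  · refine ⟨h59wEvB (M * q * q) A s, ⟨_, hbmem⟩, ?_, fun 𝔫 h𝔫 => ?_⟩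
    · rw [h59w_coe_evB, map_inv₀]
    · refine ⟨h59w_evB_not_mem (M * q * q) A q s hs0 𝔫 h𝔫, ?_⟩
      haveI := h𝔫.1.isPrime
      have hX : h59wEvB (M * q * q) A X ∈ 𝔫 := h𝔫.2.2 _ (h59w_coe_evB_X (M * q * q) A)
      have hpow : (⟨_, hbmem⟩ : h62rChart A (M * q * q) (jB (M * q * q))⁻¹) ^ D
          = h59wEvB (M * q * q) A X * ∑ k ∈ Finset.range D, h59wEvB (M * q * q) A (c k) *
              (⟨_, hbmem⟩ : h62rChart A (M * q * q) (jB (M * q * q))⁻¹) ^ k := by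
        apply Subtype.ext
        push_cast
        rw [h59w_coe_evB_X]
        exact hD
      refine Ideal.IsPrime.mem_of_pow_mem inferInstance D ?_
      rw [hpow]
      exact 𝔫.mul_mem_right _ hX

end Fermat.Agent.S36
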