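import Fermat.Agent.S36.H18CuspLeaf
import Fermat.Agent.S36.H20Emb
import Fermat.Agent.S36.H55VVal
import Fermat.Agent.S36.H88VFinal
import Fermat.Agent.S36.H44CuspRes
import Fermat.Agent.S36.H27CuspPart
import Fermat.Agent.S36.H3CuspLPM
import Fermat.Agent.S36.H59CuspBeta

/-!
# S36, block REG, row R-CUSP (helper18): the cusp case of REG from the ONE open leaf

All the leaves of R-CUSP but `H18cUnit11` are landed (helper44: `H18cInt`, `H18cRes20/11/02`;
helper27: `H18cPart`; helper3: `H18cLPM`; helper59: `H18cBeta`; helper55: `H74Val`; helper88: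
`H20VComplete`; helper20: `H20EmbExists`).  Hence:

* `h18c_cusp_of_unit11 : H18cUnit11 → H18cCusp`;
* `h18c_leafCusp_of_unit11 : H18cUnit11 → H62LeafCusp`.
-/

set_option autoImplicit false

noncomputable section

namespace Fermat.Agent.S36

/-- the cusp case of REG from the certificate at the middle cusps. -/
theorem h18c_cusp_of_unit11 (hUnit : H18cUnit11) : H18cCusp :=
  h18c_cuspAssembly h20n_embExists h55vv_val h88v_vcomplete_final h44s_cuspInt h27p_cuspPart
    h44s_cuspRes20 h44s_cuspRes11 h44s_cuspRes02 hUnit h3l_lpm h59w_cuspBeta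

/-- helper62's leaf `H62LeafCusp` from the certificate at the middle cusps. -/
theorem h18c_leafCusp_of_unit11 (hUnit : H18cUnit11) : H62LeafCusp :=
  h18c_leafCusp_of_cusp (h18c_cusp_of_unit11 hUnit)

end Fermat.Agent.S36
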