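import Fermat.Agent.S36.H62RegLeaves
import Fermat.Agent.S36.H59Noeth

/-!
# S36, block REG (helper62): the leaf `H62LeafNoeth` (from helper59's `h59n_isNoetherianRing_chart`)
-/

set_option autoImplicit false

open AlgebraicCurve ModularCurve

noncomputable section

namespace Fermat.Agent.S36

open Fermat.Agent.S37 (Kbar GQ FF jB modelAt auxLevel)

/-- **R-BASE0 (noetherian part)**, unconditional. -/
theorem h62r_leafNoeth : H62LeafNoeth := by
  intro q hq M _ _ _
  haveI : NeZero q := ⟨hq.ne_zero⟩
  intro A hA
  exact ⟨h59n_isNoetherianRing_chart (N := M * q * q) (A := A) hq hA _ (Or.inl rfl),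
    h59n_isNoetherianRing_chart (N := M * q * q) (A := A) hq hA _ (Or.inr rfl)⟩

/-- **R-ASM** with the noetherian leaf discharged. -/
theorem h62r_regStatement_of' (hF : H62LeafFin) (hC : H62LeafCusp) (hO : H62LeafOverlap) :
    H62RegStatement :=
  h62r_regStatement_of h62r_leafNoeth hF hC hO

end Fermat.Agent.S36
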