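import Fermat.Agent.S36.H11LocSkel
import Fermat.Agent.S36.H62RegLeaves
import Fermat.Agent.S37.Inertia
import Fermat.Agent.Red.ModelO.ValCrit

/-!
# S36, row L-CUSP: the cusps are one-branch points (helper95, prefix `h95s_` / `H95Cusp`)

Target: `H11LocCusp` (`S36/H11LocSkel.lean`, helper11), a leaf of `H92Loc`.

The leaf `H62LeafCusp` of REG (`S36/H62RegLeaves.lean`, helper62) asks for `H62Datum 𝔫 q` at the
cusps, a disjunction "triple datum or one-branch datum".  The triple datum does not bound the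
number of vertical branches, so `H11LocCusp` needs the second disjunct:

* `h95s_OneDatum 𝔫 π` : the one-branch datum (`𝔫 = (z, t)` locally, `s z ^ e = c π`, `s ∉ 𝔫`);
* `h95s_oneBranch_of_datum` : (abstract, noetherian) the one-branch datum gives
  `h11l_OneBranch π 𝔫` (both vertical primes through `𝔫` are `(z)` locally:
  `h62r_prime_loc_eq`);
* `H95CuspOne` : **frozen leaf** = the one-branch datum at the cusps (what the cusp analysis
  R-CUSP produces: `z = q`, `e = 1` on `C₂₀`, `C₀₂`; `e = q - 1` on `C₁₁`);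
* `h95s_leafCusp_of : H95CuspOne → H62LeafCusp`;
* `h95s_locCusp_of : H62LeafNoeth → H95CuspOne → H11LocCusp`;
* `h95s_locCusp_of_reg : H62RegStatement → H95CuspOne → H11LocCusp`.

Every declaration is a definition, a frozen interface `Prop`, or a proved theorem; nothing is
assumed.
-/

set_option autoImplicit false

open AlgebraicCurve ModularCurve

noncomputable section

namespace Fermat.Agent.S36

open Fermat.Agent.S37 (Kbar GQ FF cst jB gal modelAt auxLevel)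

/-! ## The abstract statement -/

section Abstract

variable {B : Type*} [CommRing B]

/-- the one-branch datum at the point `𝔫` of the fibre `π = 0`: `𝔫 = (z, t)` locally and
`s z ^ e = c π` with `s ∉ 𝔫`. -/
def h95s_OneDatum (𝔫 : Ideal B) (π : B) : Prop :=
  ∃ z t : B, z ∈ 𝔫 ∧ t ∈ 𝔫 ∧
    (∀ w ∈ 𝔫, ∃ s, s ∉ 𝔫 ∧ s * w ∈ Ideal.span {z, t}) ∧
    ∃ (e : ℕ) (s c : B), s ∉ 𝔫 ∧ s * z ^ e = c * π

/-- under the one-branch datum every vertical prime through `𝔫` contains `z`. -/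
theorem h95s_z_mem (𝔫 : Ideal B) (π : B) (z : B) (e : ℕ) (s c : B) (hs : s ∉ 𝔫)
    (hsz : s * z ^ e = c * π) (P : Ideal B) (hP : P.IsPrime) (hπ : π ∈ P) (hle : P ≤ 𝔫) :
    z ∈ P := by
  have h1 : s * z ^ e ∈ P := by
    rw [hsz]
    exact Ideal.mul_mem_left _ _ hπ
  rcases hP.mem_or_mem h1 with h | h
  · exact absurd (hle h) hs
  · exact hP.mem_of_pow_mem e h

/-- two primes below `𝔫` which are both `(z)` locally at `𝔫` are equal. -/
theorem h95s_eq_of_loc (𝔫 : Ideal B) (z : B) (P P' : Ideal B) (hP' : P'.IsPrime)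
    (hz' : z ∈ P') (hle' : P' ≤ 𝔫)
    (h : ∀ b ∈ P, ∃ s, s ∉ 𝔫 ∧ s * b ∈ Ideal.span {z}) : P ≤ P' := by
  intro b hb
  obtain ⟨s, hs, hsb⟩ := h b hb
  have h3 : s * b ∈ P' := by
    obtain ⟨c, hc⟩ := Ideal.mem_span_singleton'.mp hsb
    rw [← hc]
    exact Ideal.mul_mem_left _ _ hz'
  rcases hP'.mem_or_mem h3 with h | h
  · exact absurd (hle' h) hs
  · exact h

/-- **the one-branch datum gives one branch** (noetherian chart). -/
theorem h95s_oneBranch_of_datum [IsNoetherianRing B] (𝔫 : Ideal B) [𝔫.IsPrime] (π : B)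
    (h : h95s_OneDatum 𝔫 π) : h11l_OneBranch π 𝔫 := by
  obtain ⟨z, t, -, ht, hgen, e, s, c, hs, hsz⟩ := h
  intro P P' hP hP' hπ hπ' hle hle' hne hne'
  haveI := hP
  haveI := hP'
  have hzP : z ∈ P := h95s_z_mem 𝔫 π z e s c hs hsz P hP hπ hle
  have hzP' : z ∈ P' := h95s_z_mem 𝔫 π z e s c hs hsz P' hP' hπ' hle'
  have h1 := h62r_prime_loc_eq 𝔫 z t ht hgen P hzP hle hne
  have h2 := h62r_prime_loc_eq 𝔫 z t ht hgen P' hzP' hle' hne'
  exact le_antisymm (h95s_eq_of_loc 𝔫 z P P' hP' hzP' hle' h1)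
    (h95s_eq_of_loc 𝔫 z P' P hP hzP hle h2)

/-- the one-branch datum is a datum of REG. -/
theorem h95s_datum_of_one (𝔫 : Ideal B) (q : ℕ) (h : h95s_OneDatum 𝔫 (q : B)) :
    H62Datum 𝔫 q :=
  Or.inr h

end Abstract

/-! ## The modular statement -/

/-- **frozen leaf (R-CUSP, strong form).**  The one-branch datum at the cusps: the closed
points `𝔫 ∋ q, j⁻¹` of the chart at infinity. -/
def H95CuspOne : Prop :=
  ∀ (q : ℕ) (hq : q.Prime) (M : ℕ) [NeZero M], ¬ q ∣ M → auxLevel q ∣ M →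
    haveI : NeZero q := ⟨hq.ne_zero⟩
    ∀ A : ValuationSubring Kbar, A.LiesOverPrime q →
      ∀ 𝔫 : Ideal (h62rChart A (M * q * q) (jB (M * q * q))⁻¹), 𝔫.IsMaximal →
        (q : h62rChart A (M * q * q) (jB (M * q * q))⁻¹) ∈ 𝔫 →
        (∃ x ∈ 𝔫, (x : FF (M * q * q)) = (jB (M * q * q))⁻¹) →
          h95s_OneDatum 𝔫 (q : h62rChart A (M * q * q) (jB (M * q * q))⁻¹)

/-- the strong form gives the leaf of REG. -/
theorem h95s_leafCusp_of (h : H95CuspOne) : H62LeafCusp := by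
  intro q hq M _ hqM haux
  haveI : NeZero q := ⟨hq.ne_zero⟩
  intro A hA 𝔫 h𝔫 hq𝔫 hc
  exact h95s_datum_of_one 𝔫 q (h q hq M hqM haux A hA 𝔫 h𝔫 hq𝔫 hc)

/-- `j⁻¹` is an element of the chart at infinity. -/
theorem h95s_jInv_mem (A : ValuationSubring Kbar) (N : ℕ) [NeZero N] :
    (jB N)⁻¹ ∈ h62rChart A N (jB N)⁻¹ :=
  ⟨Fermat.Agent.Red.ModelO.h85_self_mem_modelAt N A (jB N)⁻¹,
    fun σ _ => Fermat.Agent.S37.GalI.gal_smul_jB_inv σ⟩

/-- **L-CUSP at one chart.** -/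
theorem h95s_locCusp_at (A : ValuationSubring Kbar) (N q : ℕ) [NeZero N]
    (hN : IsNoetherianRing (h62rChart A N (jB N)⁻¹))
    (𝔫 : Ideal (h62rChart A N (jB N)⁻¹)) (h𝔫 : 𝔫.IsMaximal)
    (hj : ∀ b : h62rChart A N (jB N)⁻¹, (b : FF N) = (jB N)⁻¹ → b ∈ 𝔫)
    (hone : (∃ x ∈ 𝔫, (x : FF N) = (jB N)⁻¹) →
      h95s_OneDatum 𝔫 (q : h62rChart A N (jB N)⁻¹)) :
    h11l_OneBranch (q : h62rChart A N (jB N)⁻¹) 𝔫 := by
  haveI := hN
  haveI : 𝔫.IsPrime := h𝔫.isPrime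
  exact h95s_oneBranch_of_datum 𝔫 _
    (hone ⟨⟨(jB N)⁻¹, h95s_jInv_mem A N⟩, hj _ rfl, rfl⟩)

/-- **L-CUSP** from the noetherian leaf and the one-branch datum at the cusps. -/
theorem h95s_locCusp_of (hN : H62LeafNoeth) (h : H95CuspOne) : H11LocCusp := by
  intro q hq M _ hqM haux
  haveI : NeZero q := ⟨hq.ne_zero⟩
  intro A hA 𝔫 h𝔫 hq𝔫 hj
  exact h95s_locCusp_at A (M * q * q) q (hN q hq M hqM haux A hA).2 𝔫 h𝔫 hj
    (h q hq M hqM haux A hA 𝔫 h𝔫 hq𝔫)

/-- **L-CUSP** from REG and the one-branch datum at the cusps. -/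
theorem h95s_locCusp_of_reg (hR : H62RegStatement) (h : H95CuspOne) : H11LocCusp := by
  intro q hq M _ hqM haux
  haveI : NeZero q := ⟨hq.ne_zero⟩
  intro A hA 𝔫 h𝔫 hq𝔫 hj
  exact h95s_locCusp_at A (M * q * q) q (hR q hq M hqM haux A hA).2.1 𝔫 h𝔫 hj
    (h q hq M hqM haux A hA 𝔫 h𝔫 hq𝔫)

end Fermat.Agent.S36
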