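import Fermat.Agent.S36.H18CuspIface
import Fermat.Agent.S36.H95Cusp
import Fermat.Agent.S36.H62LeafNoeth

/-!
# S36, rows R-CUSP / L-CUSP (helper3): adapters from `H18cCusp`

The output `H18cCusp` of the cusp analysis R-CUSP (helper18, `S36/H18CuspIface.lean`) is, up to
the shape of the hypothesis "`1/j ∈ 𝔫`", the strong leaf `H95CuspOne` of helper95
(`S36/H95Cusp.lean`).

* `h3l_cuspOne_of : H18cCusp → H95CuspOne`;
* `h3l_leafCusp_of : H18cCusp → H62LeafCusp` (the cusp leaf of REG);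
* `h3l_locCusp_of : H18cCusp → H11LocCusp` (the leaf L-CUSP of `H92Loc`).
-/

set_option autoImplicit false
set_option linter.style.haveILetI false

open AlgebraicCurve ModularCurve

noncomputable section

namespace Fermat.Agent.S36

open Fermat.Agent.S37 (Kbar GQ FF cst jB gal modelAt auxLevel)

/-- **R-CUSP ⟹ the strong cusp leaf.** -/
theorem h3l_cuspOne_of (h : H18cCusp) : H95CuspOne := by
  intro q hq M _ hqM haux
  haveI : NeZero q := ⟨hq.ne_zero⟩
  intro A hA 𝔫 h𝔫 hq𝔫 hc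
  obtain ⟨x, hx, hxj⟩ := hc
  refine h q hq M hqM haux A hA 𝔫 ⟨h𝔫, hq𝔫, fun b hb => ?_⟩
  have hbx : b = x := Subtype.ext (hb.trans hxj.symm)
  rw [hbx]
  exact hx

/-- **R-CUSP ⟹ the cusp leaf of REG.** -/
theorem h3l_leafCusp_of (h : H18cCusp) : H62LeafCusp :=
  h95s_leafCusp_of (h3l_cuspOne_of h)

/-- **R-CUSP ⟹ L-CUSP.** -/
theorem h3l_locCusp_of (h : H18cCusp) : H11LocCusp :=
  h95s_locCusp_of h62r_leafNoeth (h3l_cuspOne_of h)

end Fermat.Agent.S36
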