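import Fermat.Agent.S36.H18CuspWire
import Fermat.Agent.S36.H3CuspWire

/-!
# S36, block REG, row R-CUSP (helper18): the strong cusp leaves from the ONE open leaf

* `h18c_cuspOne_of_unit11 : H18cUnit11 → H95CuspOne` (the cusp input of `h92f_s36_of`);
* `h18c_locCusp_of_unit11 : H18cUnit11 → H11LocCusp`.
-/

set_option autoImplicit false

noncomputable section

namespace Fermat.Agent.S36

/-- the strong cusp leaf of helper95 from the certificate at the middle cusps. -/
theorem h18c_cuspOne_of_unit11 (hUnit : H18cUnit11) : H95CuspOne :=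
  h3l_cuspOne_of (h18c_cusp_of_unit11 hUnit)

/-- the leaf L-CUSP of `H92Loc` from the certificate at the middle cusps. -/
theorem h18c_locCusp_of_unit11 (hUnit : H18cUnit11) : H11LocCusp :=
  h3l_locCusp_of (h18c_cusp_of_unit11 hUnit)

end Fermat.Agent.S36
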