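import Mathlib

/-!
# S36 / NORM-ABS (helper18): the norm modulo the maximal ideal, abstractly

Mathlib only.  `R` a local ring with residue field `k = R ⧸ 𝔪`, `S` a finite free `R`-algebra
(e.g. `R` a DVR of a field `K`, `S` its integral closure in a finite separable extension `L`).

* `h18n_norm_quotient_mk` : `Nm_{(S/𝔪S)/k} (x̄) = (Nm_{S/R} x)‾` (the norm analogue of
  `Algebra.trace_quotient_mk`).
* `h18n_norm_eq_pow_of_isNilpotent_sub` : for a finite `k`-algebra `T`, `x - c` nilpotent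
  implies `Nm_{T/k} x = c ^ dim_k T`.
* `h18n_norm_crt2` : `Nm_{T/k} x = Nm_{(T/J₁)/k} x̄ · Nm_{(T/J₂)/k} x̄` for coprime ideals with
  `J₁ ⊓ J₂ = ⊥`.
* `h18n_norm_two_points` : a finite `k`-algebra with exactly two points `ε₁, ε₂ : T → k`:
  `Nm x = ε₁(x)^d₁ · ε₂(x)^d₂`, `d₁ + d₂ = dim T`, and `d_i = 1` if `ε_i` is a reduced point.
* `h18n_residue_norm_two` : **the formula `(Nm x)‾ = ε₁(x) · ε₂(x)^(n-1)`** for a finite free
  `R`-algebra `S` of rank `n` with two `k`-points over `𝔪`, the first one unramified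
  (`r_∞(Nm_α u) = r₂₀(u) · r₁₁(u)^(q-1)`).
* `h18n_residue_norm_one` : one point: `(Nm x)‾ = ε(x)^n` (totally ramified case).
-/

set_option autoImplicit false

open IsLocalRing Module

noncomputable section

namespace Fermat.Agent.S36

section Quotient

variable {R S : Type*} [CommRing R] [CommRing S] [Algebra R S]

local notation "p" => maximalIdeal R
local notation "pS" => Ideal.map (algebraMap R S) p

variable [Module.Free R S] [Module.Finite R S]

/-- **the norm commutes with reduction modulo the maximal ideal**. -/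
theorem h18n_norm_quotient_mk [IsLocalRing R] (x : S) :
    Algebra.norm (R ⧸ p) (Ideal.Quotient.mk pS x) =
      Ideal.Quotient.mk p (Algebra.norm R x) := by
  classical
  let ι := Module.Free.ChooseBasisIndex R S
  let b : Module.Basis ι R S := Module.Free.chooseBasis R S
  rw [Algebra.norm_eq_matrix_det b, Algebra.norm_eq_matrix_det (basisQuotient b),
    RingHom.map_det]
  congr 1
  ext i j
  simp only [Algebra.leftMulMatrix_apply, Algebra.coe_lmul_eq_mul, LinearMap.toMatrix_apply,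
    basisQuotient_apply, LinearMap.mul_apply', RingHom.mapMatrix_apply, Matrix.map_apply,
    ← map_mul, basisQuotient_repr]

/-- the special fibre is finite. -/
theorem h18n_finite_quotient [IsLocalRing R] : Module.Finite (R ⧸ p) (S ⧸ pS) :=
  Module.Finite.of_basis (basisQuotient (Module.Free.chooseBasis R S))

/-- the rank of the special fibre. -/
theorem h18n_finrank_quotient [IsLocalRing R] :
    finrank (R ⧸ p) (S ⧸ pS) = finrank R S := by
  classical
  let ι := Module.Free.ChooseBasisIndex R S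
  let b : Module.Basis ι R S := Module.Free.chooseBasis R S
  rw [finrank_eq_card_basis b, finrank_eq_card_basis (basisQuotient b)]

end Quotient

section Nilpotent

variable {k T : Type*} [Field k] [CommRing T] [Algebra k T] [Module.Finite k T]

/-- for a finite-dimensional `k`-algebra `T`: if `x - c` is nilpotent then
`Nm_{T/k} x = c ^ dim_k T`. -/
theorem h18n_norm_eq_pow_of_isNilpotent_sub (x : T) (c : k)
    (h : IsNilpotent (x - algebraMap k T c)) :
    Algebra.norm k x = c ^ finrank k T := by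
  have hn : IsNilpotent (Algebra.lmul k T (algebraMap k T c - x)) := by
    have h' : IsNilpotent (algebraMap k T c - x) := by
      have : algebraMap k T c - x = -(x - algebraMap k T c) := by ring
      rw [this]; exact h.neg
    exact h'.map (Algebra.lmul k T)
  have hch := IsNilpotent.charpoly_eq_X_pow_finrank hn
  have hev := LinearMap.eval_charpoly (Algebra.lmul k T (algebraMap k T c - x)) c
  rw [hch] at hev
  simp only [Polynomial.eval_pow, Polynomial.eval_X] at hev
  rw [Algebra.norm_apply, hev]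
  congr 1
  ext y
  simp [Algebra.algebraMap_eq_smul_one]

/-- **CRT for the norm**, two coprime ideals with zero intersection. -/
theorem h18n_norm_crt2 (J₁ J₂ : Ideal T) (hco : IsCoprime J₁ J₂) (hbot : J₁ ⊓ J₂ = ⊥) :
    (∀ x : T, Algebra.norm k x =
      Algebra.norm k (Ideal.Quotient.mk J₁ x) * Algebra.norm k (Ideal.Quotient.mk J₂ x)) ∧
    finrank k T = finrank k (T ⧸ J₁) + finrank k (T ⧸ J₂) := by
  let φ : T →ₗ[k] (T ⧸ J₁) × (T ⧸ J₂) :=
    LinearMap.prod (Ideal.Quotient.mkₐ k J₁).toLinearMap (Ideal.Quotient.mkₐ k J₂).toLinearMap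
  have hφ : ∀ y, φ y = (Ideal.Quotient.mk J₁ y, Ideal.Quotient.mk J₂ y) := fun y => rfl
  have hinj : Function.Injective φ := by
    rw [injective_iff_map_eq_zero]
    intro y hy
    rw [hφ] at hy
    have h1 : y ∈ J₁ := Ideal.Quotient.eq_zero_iff_mem.1 (congrArg Prod.fst hy)
    have h2 : y ∈ J₂ := Ideal.Quotient.eq_zero_iff_mem.1 (congrArg Prod.snd hy)
    have h3 : y ∈ J₁ ⊓ J₂ := ⟨h1, h2⟩
    rw [hbot] at h3
    exact h3
  have hsurj : Function.Surjective φ := by
    rintro ⟨a, b⟩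
    obtain ⟨a, rfl⟩ := Ideal.Quotient.mk_surjective a
    obtain ⟨b, rfl⟩ := Ideal.Quotient.mk_surjective b
    obtain ⟨u, hu, v, hv, huv⟩ := Ideal.isCoprime_iff_exists.1 hco
    refine ⟨v * a + u * b, ?_⟩
    rw [hφ]
    refine Prod.ext ?_ ?_
    · show Ideal.Quotient.mk J₁ (v * a + u * b) = Ideal.Quotient.mk J₁ a
      rw [Ideal.Quotient.eq]
      have : v * a + u * b - a = u * (b - a) := by
        have hv' : v = 1 - u := by rw [← huv]; ring
        rw [hv']; ring
      rw [this]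
      exact J₁.mul_mem_right _ hu
    · show Ideal.Quotient.mk J₂ (v * a + u * b) = Ideal.Quotient.mk J₂ b
      rw [Ideal.Quotient.eq]
      have : v * a + u * b - b = v * (a - b) := by
        have hu' : u = 1 - v := by rw [← huv]; ring
        rw [hu']; ring
      rw [this]
      exact J₂.mul_mem_right _ hv
  let e : T ≃ₗ[k] (T ⧸ J₁) × (T ⧸ J₂) := LinearEquiv.ofBijective φ ⟨hinj, hsurj⟩
  have he : ∀ y, e y = (Ideal.Quotient.mk J₁ y, Ideal.Quotient.mk J₂ y) := fun y => rfl
  refine ⟨fun x => ?_, ?_⟩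
  · have hconj : (e : T →ₗ[k] (T ⧸ J₁) × (T ⧸ J₂)) ∘ₗ (Algebra.lmul k T x) ∘ₗ
        (e.symm : (T ⧸ J₁) × (T ⧸ J₂) →ₗ[k] T) =
        LinearMap.prodMap (Algebra.lmul k (T ⧸ J₁) (Ideal.Quotient.mk J₁ x))
          (Algebra.lmul k (T ⧸ J₂) (Ideal.Quotient.mk J₂ x)) := by
      apply LinearMap.ext
      intro z
      obtain ⟨y, rfl⟩ := e.surjective z
      have h1 : ((e : T →ₗ[k] (T ⧸ J₁) × (T ⧸ J₂)) ∘ₗ (Algebra.lmul k T x) ∘ₗ
          (e.symm : (T ⧸ J₁) × (T ⧸ J₂) →ₗ[k] T)) (e y) = e (x * y) := by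
        simp only [LinearMap.coe_comp, LinearEquiv.coe_coe, Function.comp_apply,
          LinearEquiv.symm_apply_apply, Algebra.coe_lmul_eq_mul, LinearMap.mul_apply']
      rw [h1, he, he, LinearMap.prodMap_apply]
      simp only [Algebra.coe_lmul_eq_mul, LinearMap.mul_apply', map_mul]
    rw [Algebra.norm_apply, ← LinearMap.det_conj _ e, hconj, LinearMap.det_prodMap]
    rfl
  · rw [e.finrank_eq, finrank_prod]

/-- **a finite `k`-algebra with exactly two `k`-points.** -/
theorem h18n_norm_two_points (ε₁ ε₂ : T →ₐ[k] k)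
    (hunit : ∀ y : T, ε₁ y ≠ 0 → ε₂ y ≠ 0 → IsUnit y)
    (hne : ∃ y : T, ε₁ y = 0 ∧ ε₂ y ≠ 0) :
    ∃ d₁ d₂ : ℕ, d₁ + d₂ = finrank k T ∧ 0 < d₁ ∧ 0 < d₂ ∧
      ((∀ y, ε₁ y = 0 → ∃ s, ε₁ s ≠ 0 ∧ s * y = 0) → d₁ = 1) ∧
      ((∀ y, ε₂ y = 0 → ∃ s, ε₂ s ≠ 0 ∧ s * y = 0) → d₂ = 1) ∧
      ∀ x : T, Algebra.norm k x = ε₁ x ^ d₁ * ε₂ x ^ d₂ := by
  classical
  set P₁ : Ideal T := RingHom.ker (ε₁ : T →+* k) with hP₁
  set P₂ : Ideal T := RingHom.ker (ε₂ : T →+* k) with hP₂
  have hmem₁ : ∀ y, y ∈ P₁ ↔ ε₁ y = 0 := fun y => RingHom.mem_ker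
  have hmem₂ : ∀ y, y ∈ P₂ ↔ ε₂ y = 0 := fun y => RingHom.mem_ker
  -- the intersection is in the Jacobson radical, hence nilpotent
  have hjac : P₁ ⊓ P₂ ≤ (⊥ : Ideal T).jacobson := by
    intro y hy
    rw [Ideal.mem_jacobson_bot]
    intro z
    have h1 : ε₁ y = 0 := (hmem₁ y).1 hy.1
    have h2 : ε₂ y = 0 := (hmem₂ y).1 hy.2
    apply hunit
    · rw [map_add, map_mul, h1, zero_mul, zero_add, map_one]; exact one_ne_zero
    · rw [map_add, map_mul, h2, zero_mul, zero_add, map_one]; exact one_ne_zero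
  have : IsArtinianRing T := IsArtinianRing.of_finite k T
  obtain ⟨N₀, hN₀⟩ := IsArtinianRing.isNilpotent_jacobson_bot (R := T)
  set N := N₀ + 1 with hN
  have hNil : (P₁ ⊓ P₂) ^ N = ⊥ := by
    apply le_bot_iff.1
    calc (P₁ ⊓ P₂) ^ N ≤ (⊥ : Ideal T).jacobson ^ N := Ideal.pow_right_mono hjac N
      _ = (⊥ : Ideal T).jacobson ^ N₀ * (⊥ : Ideal T).jacobson := by rw [hN, pow_succ]
      _ = ⊥ := by rw [hN₀]; simp
  -- coprimality
  have hco : IsCoprime P₁ P₂ := by
    obtain ⟨y, hy1, hy2⟩ := hne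
    rw [Ideal.isCoprime_iff_exists]
    refine ⟨(ε₂ y)⁻¹ • y, ?_, 1 - (ε₂ y)⁻¹ • y, ?_, by ring⟩
    · rw [hmem₁, map_smul, hy1, smul_zero]
    · rw [hmem₂, map_sub, map_one, map_smul, smul_eq_mul, inv_mul_cancel₀ hy2, sub_self]
  have hcoN : IsCoprime (P₁ ^ N) (P₂ ^ N) := hco.pow
  have hbot : P₁ ^ N ⊓ P₂ ^ N = ⊥ := by
    rw [← Ideal.mul_eq_inf_of_isCoprime hcoN, ← mul_pow]
    apply le_bot_iff.1
    rw [← hNil]
    exact Ideal.pow_right_mono Ideal.mul_le_inf N
  obtain ⟨hnorm, hrank⟩ := h18n_norm_crt2 (k := k) (P₁ ^ N) (P₂ ^ N) hcoN hbot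
  -- the two factors
  have hle₁ : P₁ ^ N ≤ P₁ := Ideal.pow_le_self (by omega)
  have hle₂ : P₂ ^ N ≤ P₂ := Ideal.pow_le_self (by omega)
  have hfac : ∀ (P : Ideal T) (ε : T →ₐ[k] k), (∀ y, y ∈ P ↔ ε y = 0) → ∀ x : T,
      Algebra.norm k (Ideal.Quotient.mk (P ^ N) x) = ε x ^ finrank k (T ⧸ P ^ N) := by
    intro P ε hmem x
    apply h18n_norm_eq_pow_of_isNilpotent_sub
    refine ⟨N, ?_⟩
    have h1 : x - algebraMap k T (ε x) ∈ P := by
      rw [hmem, map_sub, AlgHom.commutes, Algebra.algebraMap_self_apply, sub_self]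
    have h2 : (x - algebraMap k T (ε x)) ^ N ∈ P ^ N := Ideal.pow_mem_pow h1 N
    have h3 : Ideal.Quotient.mk (P ^ N) x - algebraMap k (T ⧸ P ^ N) (ε x) =
        Ideal.Quotient.mk (P ^ N) (x - algebraMap k T (ε x)) := by
      rw [map_sub]; rfl
    rw [h3, ← map_pow]
    exact Ideal.Quotient.eq_zero_iff_mem.2 h2
  have hpos : ∀ (P : Ideal T) (ε : T →ₐ[k] k), (∀ y, y ∈ P ↔ ε y = 0) →
      0 < finrank k (T ⧸ P ^ N) := by
    intro P ε hmem
    have hne_top : P ^ N ≠ ⊤ := by
      intro h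
      have h1 : (1 : T) ∈ P := Ideal.pow_le_self (I := P) (n := N) (by omega)
        (by rw [h]; exact Submodule.mem_top)
      have h2 := (hmem 1).1 h1
      rw [map_one] at h2
      exact one_ne_zero h2
    have : Nontrivial (T ⧸ P ^ N) := Ideal.Quotient.nontrivial_iff.2 hne_top
    exact Module.finrank_pos
  have hone : ∀ (P : Ideal T) (ε : T →ₐ[k] k), (∀ y, y ∈ P ↔ ε y = 0) →
      (∀ y, ε y = 0 → ∃ s, ε s ≠ 0 ∧ s * y = 0) → finrank k (T ⧸ P ^ N) = 1 := by
    intro P ε hmem hred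
    have hPle : P ≤ P ^ N := by
      intro y hy
      obtain ⟨s, hs, hsy⟩ := hred y ((hmem y).1 hy)
      -- `s` is invertible modulo `P ^ N`
      have h1 : algebraMap k T (ε s) - s ∈ P := by
        rw [hmem, map_sub, AlgHom.commutes, Algebra.algebraMap_self_apply, sub_self]
      have h2 : (algebraMap k T (ε s) - s) ^ N ∈ P ^ N := Ideal.pow_mem_pow h1 N
      obtain ⟨g, hg⟩ : s ∣ (algebraMap k T (ε s)) ^ N - (algebraMap k T (ε s) - s) ^ N := by
        have := sub_dvd_pow_sub_pow (algebraMap k T (ε s)) (algebraMap k T (ε s) - s) N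
        simpa using this
      have h3 : (algebraMap k T (ε s)) ^ N * y ∈ P ^ N := by
        have : (algebraMap k T (ε s)) ^ N * y =
            (algebraMap k T (ε s) - s) ^ N * y + g * (s * y) := by
          have hg' : (algebraMap k T (ε s)) ^ N = (algebraMap k T (ε s) - s) ^ N + s * g := by
            rw [← hg]; ring
          rw [hg']; ring
        rw [this, hsy, mul_zero, add_zero]
        exact (P ^ N).mul_mem_right _ h2
      have h4 : y = algebraMap k T ((ε s)⁻¹ ^ N) * ((algebraMap k T (ε s)) ^ N * y) := by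
        rw [← mul_assoc, ← map_pow, ← map_mul, ← mul_pow, inv_mul_cancel₀ hs, one_pow, map_one,
          one_mul]
      rw [h4]
      exact (P ^ N).mul_mem_left _ h3
    have hne_top : P ^ N ≠ ⊤ := by
      intro h
      have h1 : (1 : T) ∈ P := Ideal.pow_le_self (I := P) (n := N) (by omega)
        (by rw [h]; exact Submodule.mem_top)
      have h2 := (hmem 1).1 h1
      rw [map_one] at h2
      exact one_ne_zero h2
    have : Nontrivial (T ⧸ P ^ N) := Ideal.Quotient.nontrivial_iff.2 hne_top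
    refine finrank_eq_one (1 : T ⧸ P ^ N) one_ne_zero ?_
    intro w
    obtain ⟨y, rfl⟩ := Ideal.Quotient.mk_surjective w
    refine ⟨ε y, ?_⟩
    have h1 : y - algebraMap k T (ε y) ∈ P := by
      rw [hmem, map_sub, AlgHom.commutes, Algebra.algebraMap_self_apply, sub_self]
    have h2 : Ideal.Quotient.mk (P ^ N) y = Ideal.Quotient.mk (P ^ N) (algebraMap k T (ε y)) :=
      Ideal.Quotient.eq.2 (hPle h1)
    rw [h2, Algebra.smul_def, mul_one]
    rfl
  refine ⟨finrank k (T ⧸ P₁ ^ N), finrank k (T ⧸ P₂ ^ N), hrank.symm, hpos P₁ ε₁ hmem₁,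
    hpos P₂ ε₂ hmem₂, hone P₁ ε₁ hmem₁, hone P₂ ε₂ hmem₂, fun x => ?_⟩
  rw [hnorm x, hfac P₁ ε₁ hmem₁ x, hfac P₂ ε₂ hmem₂ x]

/-- **a finite `k`-algebra with exactly one `k`-point.** -/
theorem h18n_norm_one_point (ε : T →ₐ[k] k)
    (hunit : ∀ y : T, ε y ≠ 0 → IsUnit y) (x : T) :
    Algebra.norm k x = ε x ^ finrank k T := by
  apply h18n_norm_eq_pow_of_isNilpotent_sub
  have hjac : x - algebraMap k T (ε x) ∈ (⊥ : Ideal T).jacobson := by
    rw [Ideal.mem_jacobson_bot]
    intro z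
    apply hunit
    rw [map_add, map_mul, map_sub, AlgHom.commutes, Algebra.algebraMap_self_apply, sub_self,
      zero_mul, zero_add, map_one]
    exact one_ne_zero
  have : IsArtinianRing T := IsArtinianRing.of_finite k T
  obtain ⟨N₀, hN₀⟩ := IsArtinianRing.isNilpotent_jacobson_bot (R := T)
  refine ⟨N₀, ?_⟩
  have h := Ideal.pow_mem_pow hjac N₀
  rw [hN₀] at h
  exact h

end Nilpotent

section Residue

variable {R S : Type*} [CommRing R] [CommRing S] [Algebra R S] [IsLocalRing R]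
  [Module.Free R S] [Module.Finite R S]

local notation "p" => maximalIdeal R
local notation "pS" => Ideal.map (algebraMap R S) p

attribute [local instance] Ideal.Quotient.field

/-- a residue map `S → k` extending `R → k` descends to the special fibre `S ⧸ 𝔪S`. -/
def h18n_epsBar (ε : S →+* R ⧸ p)
    (hε : ∀ r : R, ε (algebraMap R S r) = Ideal.Quotient.mk p r) :
    (S ⧸ pS) →ₐ[R ⧸ p] (R ⧸ p) :=
  { Ideal.Quotient.lift pS ε (by
      intro a ha
      have hle : pS ≤ RingHom.ker ε := by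
        rw [Ideal.map_le_iff_le_comap]
        intro r hr
        rw [Ideal.mem_comap, RingHom.mem_ker, hε]
        exact Ideal.Quotient.eq_zero_iff_mem.2 hr
      exact RingHom.mem_ker.1 (hle ha)) with
    commutes' := by
      intro c
      obtain ⟨r, rfl⟩ := Ideal.Quotient.mk_surjective c
      simp only [Ideal.Quotient.algebraMap_quotient_map_quotient, RingHom.toMonoidHom_eq_coe,
        OneHom.toFun_eq_coe, MonoidHom.toOneHom_coe, MonoidHom.coe_coe, Ideal.Quotient.lift_mk,
        hε, Algebra.algebraMap_self_apply] }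

omit [Module.Free R S] [Module.Finite R S] in
theorem h18n_epsBar_mk (ε : S →+* R ⧸ p)
    (hε : ∀ r : R, ε (algebraMap R S r) = Ideal.Quotient.mk p r) (x : S) :
    h18n_epsBar ε hε (Ideal.Quotient.mk pS x) = ε x := rfl

/-- **the norm modulo `𝔪`, two points over `𝔪` with residue field `k`**: exponents `d₁, d₂`
with `d₁ + d₂ = rank`, and `d_i = 1` if the point `ε_i` is unramified. -/
theorem h18n_residue_norm_two (ε₁ ε₂ : S →+* R ⧸ p)
    (hε₁ : ∀ r : R, ε₁ (algebraMap R S r) = Ideal.Quotient.mk p r)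
    (hε₂ : ∀ r : R, ε₂ (algebraMap R S r) = Ideal.Quotient.mk p r)
    (hunit : ∀ y : S, ε₁ y ≠ 0 → ε₂ y ≠ 0 → IsUnit y)
    (hne : ∃ y : S, ε₁ y = 0 ∧ ε₂ y ≠ 0) :
    ∃ d₁ d₂ : ℕ, d₁ + d₂ = finrank R S ∧ 0 < d₁ ∧ 0 < d₂ ∧
      ((∀ y, ε₁ y = 0 → ∃ s, ε₁ s ≠ 0 ∧ s * y ∈ pS) → d₁ = 1) ∧
      ((∀ y, ε₂ y = 0 → ∃ s, ε₂ s ≠ 0 ∧ s * y ∈ pS) → d₂ = 1) ∧
      ∀ x : S, Ideal.Quotient.mk p (Algebra.norm R x) = ε₁ x ^ d₁ * ε₂ x ^ d₂ := by
  have : Module.Finite (R ⧸ p) (S ⧸ pS) := h18n_finite_quotient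
  obtain ⟨d₁, d₂, hd, h1, h2, hu1, hu2, hN⟩ :=
    h18n_norm_two_points (k := R ⧸ p) (T := S ⧸ pS) (h18n_epsBar ε₁ hε₁) (h18n_epsBar ε₂ hε₂)
      (by
        intro y hy1 hy2
        obtain ⟨y, rfl⟩ := Ideal.Quotient.mk_surjective y
        exact (hunit y hy1 hy2).map (Ideal.Quotient.mk pS))
      (by
        obtain ⟨y, hy1, hy2⟩ := hne
        exact ⟨Ideal.Quotient.mk pS y, hy1, hy2⟩)
  refine ⟨d₁, d₂, by rw [hd, h18n_finrank_quotient], h1, h2, ?_, ?_, ?_⟩
  · intro h
    apply hu1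
    intro y hy
    obtain ⟨y, rfl⟩ := Ideal.Quotient.mk_surjective y
    obtain ⟨s, hs, hsy⟩ := h y hy
    exact ⟨Ideal.Quotient.mk pS s, hs, by
      rw [← map_mul]; exact Ideal.Quotient.eq_zero_iff_mem.2 hsy⟩
  · intro h
    apply hu2
    intro y hy
    obtain ⟨y, rfl⟩ := Ideal.Quotient.mk_surjective y
    obtain ⟨s, hs, hsy⟩ := h y hy
    exact ⟨Ideal.Quotient.mk pS s, hs, by
      rw [← map_mul]; exact Ideal.Quotient.eq_zero_iff_mem.2 hsy⟩
  · intro x
    rw [← h18n_norm_quotient_mk, hN]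
    rfl

/-- **the norm modulo `𝔪`: `(Nm x)‾ = ε₁(x) · ε₂(x)^(n-1)`** when there are two points over
`𝔪` with residue field `k` and the first one is unramified. -/
theorem h18n_residue_norm_two_unr (ε₁ ε₂ : S →+* R ⧸ p)
    (hε₁ : ∀ r : R, ε₁ (algebraMap R S r) = Ideal.Quotient.mk p r)
    (hε₂ : ∀ r : R, ε₂ (algebraMap R S r) = Ideal.Quotient.mk p r)
    (hunit : ∀ y : S, ε₁ y ≠ 0 → ε₂ y ≠ 0 → IsUnit y)
    (hne : ∃ y : S, ε₁ y = 0 ∧ ε₂ y ≠ 0)
    (hunr : ∀ y, ε₁ y = 0 → ∃ s, ε₁ s ≠ 0 ∧ s * y ∈ pS) (x : S) :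
    Ideal.Quotient.mk p (Algebra.norm R x) = ε₁ x * ε₂ x ^ (finrank R S - 1) := by
  obtain ⟨d₁, d₂, hd, -, -, hu1, -, hN⟩ := h18n_residue_norm_two ε₁ ε₂ hε₁ hε₂ hunit hne
  have h1 : d₁ = 1 := hu1 hunr
  have h2 : d₂ = finrank R S - 1 := by omega
  rw [hN x, h1, h2, pow_one]

/-- **the norm modulo `𝔪`, one point over `𝔪` with residue field `k`** (totally ramified):
`(Nm x)‾ = ε(x)^n`. -/
theorem h18n_residue_norm_one (ε : S →+* R ⧸ p)
    (hε : ∀ r : R, ε (algebraMap R S r) = Ideal.Quotient.mk p r)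
    (hunit : ∀ y : S, ε y ≠ 0 → IsUnit y) (x : S) :
    Ideal.Quotient.mk p (Algebra.norm R x) = ε x ^ finrank R S := by
  have : Module.Finite (R ⧸ p) (S ⧸ pS) := h18n_finite_quotient
  rw [← h18n_norm_quotient_mk, h18n_norm_one_point (k := R ⧸ p) (T := S ⧸ pS)
    (h18n_epsBar ε hε) (by
      intro y hy
      obtain ⟨y, rfl⟩ := Ideal.Quotient.mk_surjective y
      exact (hunit y hy).map (Ideal.Quotient.mk pS)), h18n_finrank_quotient]
  rfl

end Residue

section PurelyInseparable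

open Polynomial

variable {k k' : Type*} [Field k] [Field k'] [Algebra k k'] [FiniteDimensional k k']

/-- **the norm of a purely inseparable extension is the power map**:
`Nm_{k'/k} y = y ^ [k' : k]`. -/
theorem h18n_norm_purelyInseparable [IsPurelyInseparable k k'] (y : k') :
    algebraMap k k' (Algebra.norm k y) = y ^ finrank k k' := by
  classical
  have hint : IsIntegral k y := Algebra.IsIntegral.isIntegral y
  obtain ⟨n, c, hmin⟩ := IsPurelyInseparable.minpoly_eq_X_pow_sub_C k (ringExpChar k) y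
  set Q := ringExpChar k ^ n with hQ
  have hQpos : 0 < Q := by
    rcases expChar_is_prime_or_one k (ringExpChar k) with h | h
    · exact pow_pos h.pos n
    · rw [hQ, h, one_pow]; exact one_pos
  have hdeg : (minpoly k y).natDegree = Q := by
    rw [hmin, natDegree_X_pow_sub_C]
  have hyQ : y ^ Q = algebraMap k k' c := by
    have h := minpoly.aeval k y
    rw [hmin] at h
    simp only [map_sub, map_pow, aeval_X, aeval_C] at h
    exact sub_eq_zero.1 h
  have hcoeff : (minpoly k y).coeff 0 = -c := by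
    rw [hmin, coeff_sub, coeff_X_pow, coeff_C_zero, if_neg (by omega), zero_sub]
  -- the sign
  have hsign : ((-1 : k) ^ Q) * (-c) = c := by
    rcases Nat.even_or_odd Q with hev | hodd
    · -- `Q` even: the characteristic is `2`
      have h2 : (2 : k) = 0 := by
        rcases expChar_is_prime_or_one k (ringExpChar k) with h | h
        · have hpe : Even (ringExpChar k) := by
            by_contra hne
            have hodd' : Odd (ringExpChar k) := Nat.not_even_iff_odd.1 hne
            exact (Nat.not_even_iff_odd.2 (hodd'.pow (n := n))) hev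
          have hp2 : ringExpChar k = 2 := (Nat.Prime.even_iff h).1 hpe
          have hE : ExpChar k 2 := ringExpChar.of_eq hp2
          have hC : CharP k 2 := by
            cases hE
            assumption
          exact_mod_cast CharP.cast_eq_zero k 2
        · exfalso
          rw [hQ, h, one_pow] at hev
          exact Nat.not_even_one hev
      have hneg : (-c : k) = c := by
        have : c + c = 0 := by rw [← two_mul, h2, zero_mul]
        exact neg_eq_of_add_eq_zero_left this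
      rw [hev.neg_one_pow, one_mul, hneg]
    · rw [hodd.neg_one_pow]; ring
  have hgen : Algebra.norm k (IntermediateField.AdjoinSimple.gen k y) = c := by
    have h := Algebra.PowerBasis.norm_gen_eq_coeff_zero_minpoly
      (IntermediateField.adjoin.powerBasis hint)
    rw [IntermediateField.adjoin.powerBasis_gen, IntermediateField.adjoin.powerBasis_dim,
      IntermediateField.minpoly_gen, hdeg, hcoeff] at h
    rw [h, hsign]
  rw [Algebra.norm_eq_norm_adjoin k y, hgen, map_pow, ← hyQ, ← pow_mul]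
  congr 1
  rw [← hdeg, ← IntermediateField.adjoin.finrank hint]
  exact Module.finrank_mul_finrank k (IntermediateField.adjoin k {y}) k'

end PurelyInseparable

section Inseparable

variable {R S : Type*} [CommRing R] [CommRing S] [Algebra R S] [IsLocalRing R]
  [Module.Free R S] [Module.Finite R S]

local notation "p" => maximalIdeal R
local notation "pS" => Ideal.map (algebraMap R S) p

attribute [local instance] Ideal.Quotient.field

/-- **the norm modulo `𝔪`, one unramified point with purely inseparable residue extension**: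
if `𝔪S` is maximal and every element of `S` has a `q^n`-th power in `R + 𝔪S` (`q` the residue
characteristic exponent), then `Nm x ≡ x ^ rank` modulo `𝔪S`
(`r_0(Nm_α u) = r₀₂(u)^q`). -/
theorem h18n_norm_sub_pow_mem (q : ℕ) [ExpChar (R ⧸ p) q] (hmax : (pS : Ideal S).IsMaximal)
    (hpi : ∀ y : S, ∃ n : ℕ, ∃ r : R, y ^ q ^ n - algebraMap R S r ∈ pS) (x : S) :
    algebraMap R S (Algebra.norm R x) - x ^ finrank R S ∈ pS := by
  have hfin : Module.Finite (R ⧸ p) (S ⧸ pS) := h18n_finite_quotient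
  letI : Field (S ⧸ pS) := Ideal.Quotient.field pS
  have hins : IsPurelyInseparable (R ⧸ p) (S ⧸ pS) := by
    rw [isPurelyInseparable_iff_pow_mem (R ⧸ p) q]
    intro y
    obtain ⟨y, rfl⟩ := Ideal.Quotient.mk_surjective y
    obtain ⟨n, r, hr⟩ := hpi y
    refine ⟨n, Ideal.Quotient.mk p r, ?_⟩
    rw [Ideal.Quotient.algebraMap_quotient_map_quotient, ← map_pow]
    exact (Ideal.Quotient.eq.2 hr).symm
  have h := h18n_norm_purelyInseparable (k := R ⧸ p) (k' := S ⧸ pS) (Ideal.Quotient.mk pS x)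
  rw [h18n_norm_quotient_mk, Ideal.Quotient.algebraMap_quotient_map_quotient,
    h18n_finrank_quotient, ← map_pow] at h
  exact Ideal.Quotient.eq.1 h

end Inseparable

end Fermat.Agent.S36
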