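/-
S36 (wave 4), block (V), leaf V-K1 (helper85), part 2: the inertia field with a primitive
`q`-th root of unity adjoined.

`A` a valuation subring of `ℚ̄` over the prime `q`, `I = A.inertiaSubgroupIn ℚ`,
`K₀ = ℚ̄^I = h23u_K0 A` (helper23), `ζ` a primitive `q`-th root of unity, `π = 1 - ζ`.

* `h85k_pi_pow` : `q / π ^ (q - 1)` is a unit of `A`;
* `h85k_pi_mem_nonunits` : `π ∈ 𝔪_A`;
* `h85k_K1` : every `x ≠ 0` of `K₀(ζ)` is `π ^ n` times a unit of `A` (value group `ℤ v(π)`);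
* `h85k_K1_unique` : the exponent `n` is unique;
* `h85k_isClosed_inertia` : the inertia group is closed in `G_ℚ`;
* `h85k_fixingSubgroup_K0` : `Gal(ℚ̄/K₀) = I`;
* `h85k_mem_adjoin_of_fixed` : an element fixed by all `σ ∈ I` with `σ ζ = ζ` lies in `K₀(ζ)`
  (any `ζ`);
* `h85k_K1_fixed` : `V-K1` for elements fixed by the stabiliser of `ζ` in `I`;
* `h85k_div_mem_fixed` : such an element of `𝔪_A` is divisible by `π` in `A`.
-/
import Mathlib
import Fermat.Agent.S36.H85K1Core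
import Fermat.Agent.S36.H23InertiaDVR
import Fermat.Agent.Bridge.H47Inertia

set_option autoImplicit false
set_option linter.style.haveILetI false

open scoped Pointwise

namespace Fermat.Agent.S36

section Adjoin

variable {q : ℕ} (hq : q.Prime) (A : ValuationSubring (AlgebraicClosure ℚ))
  (hA : A.LiesOverPrime q)

include hq hA

/-- the value group of `A` on the inertia field is `v(q) ^ ℤ`. -/
theorem h85k_val_K0 (a : h23u_K0 A) (ha : a ≠ 0) :
    ∃ n : ℤ, A.valuation (algebraMap (h23u_K0 A) (AlgebraicClosure ℚ) a) =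
      A.valuation ((q : ℕ) : AlgebraicClosure ℚ) ^ n := by
  have ha0 : (a : AlgebraicClosure ℚ) ≠ 0 := fun h => ha (Subtype.ext h)
  have hq0 : ((q : ℕ) : AlgebraicClosure ℚ) ≠ 0 := by exact_mod_cast hq.ne_zero
  obtain ⟨n, h1, h2⟩ := h23u_exists_zpow hq A hA ha0 ((h23u_mem_K0_iff A a).mp a.2)
  exact ⟨n, h85k_val_of_unit A hq0 ha0 h1 h2⟩

/-- **V-K1.**  Every nonzero element of `K₀(ζ)` is `(1 - ζ) ^ n` times a unit of `A`. -/
theorem h85k_K1 {ζ : AlgebraicClosure ℚ} (hζ : IsPrimitiveRoot ζ q) {x : AlgebraicClosure ℚ}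
    (hx : x ∈ IntermediateField.adjoin (h23u_K0 A) {ζ}) (hx0 : x ≠ 0) :
    ∃ n : ℤ, x / (1 - ζ) ^ n ∈ A ∧ (x / (1 - ζ) ^ n)⁻¹ ∈ A := by
  obtain ⟨n, hn⟩ := h85k_val_adjoin A hq hA hζ (h85k_val_K0 hq A hA) hx hx0
  have hπ : (1 : AlgebraicClosure ℚ) - ζ ≠ 0 := by
    rw [sub_ne_zero]
    exact fun h => hζ.ne_one hq.one_lt h.symm
  exact ⟨n, h85k_unit_of_val A hπ hn⟩

omit hA in
/-- `π = 1 - ζ ≠ 0`. -/
theorem h85k_pi_ne_zero {ζ : AlgebraicClosure ℚ} (hζ : IsPrimitiveRoot ζ q) :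
    (1 : AlgebraicClosure ℚ) - ζ ≠ 0 := by
  rw [sub_ne_zero]
  exact fun h => hζ.ne_one hq.one_lt h.symm

/-- `π = 1 - ζ` lies in the maximal ideal of `A`. -/
theorem h85k_pi_mem_nonunits {ζ : AlgebraicClosure ℚ} (hζ : IsPrimitiveRoot ζ q) :
    (1 : AlgebraicClosure ℚ) - ζ ∈ A.nonunits :=
  (ValuationSubring.mem_nonunits_iff (A := A)).mpr (h85k_val_pi_lt_one A hq hζ hA)

omit hA in
/-- `q = π ^ (q - 1) · unit`. -/
theorem h85k_pi_pow {ζ : AlgebraicClosure ℚ} (hζ : IsPrimitiveRoot ζ q) :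
    ((q : ℕ) : AlgebraicClosure ℚ) / (1 - ζ) ^ (q - 1) ∈ A ∧
      (((q : ℕ) : AlgebraicClosure ℚ) / (1 - ζ) ^ (q - 1))⁻¹ ∈ A := by
  have h := h85k_val_q A hq hζ
  have h2 := h85k_unit_of_val A (h85k_pi_ne_zero hq hζ) (n := ((q - 1 : ℕ) : ℤ))
    (x := ((q : ℕ) : AlgebraicClosure ℚ)) (by rw [zpow_natCast]; exact h)
  rwa [zpow_natCast] at h2

/-- the exponent in `h85k_K1` is unique. -/
theorem h85k_K1_unique {ζ : AlgebraicClosure ℚ} (hζ : IsPrimitiveRoot ζ q)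
    {x : AlgebraicClosure ℚ} (hx0 : x ≠ 0) {n n' : ℤ}
    (h1 : x / (1 - ζ) ^ n ∈ A) (h2 : (x / (1 - ζ) ^ n)⁻¹ ∈ A)
    (h1' : x / (1 - ζ) ^ n' ∈ A) (h2' : (x / (1 - ζ) ^ n')⁻¹ ∈ A) : n = n' := by
  have hπ := h85k_pi_ne_zero hq hζ
  have e := h85k_val_of_unit A hπ hx0 h1 h2
  have e' := h85k_val_of_unit A hπ hx0 h1' h2'
  rw [e] at e'
  have hπ0 : 0 < A.valuation (1 - ζ) := zero_lt_iff.mpr (h85k_val_pi_ne_zero A hq hζ)
  exact zpow_right_injective₀ hπ0 (h85k_val_pi_lt_one A hq hζ hA).ne e'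

end Adjoin

/-! ## The inertia group is closed -/

section Closed

/-- evaluation at an element is locally constant on `G_ℚ`. -/
theorem h85k_isOpen_eval (z y : AlgebraicClosure ℚ) :
    IsOpen {σ : AlgebraicClosure ℚ ≃ₐ[ℚ] AlgebraicClosure ℚ | σ z = y} := by
  haveI : Algebra.IsAlgebraic ℚ (AlgebraicClosure ℚ) := Fermat.Agent.S54.isAlgebraic_Qbar
  rw [isOpen_iff_forall_mem_open]
  intro σ₀ hσ₀
  have hopen : IsOpen ((MulAction.stabilizer
      (AlgebraicClosure ℚ ≃ₐ[ℚ] AlgebraicClosure ℚ) z :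
        Set (AlgebraicClosure ℚ ≃ₐ[ℚ] AlgebraicClosure ℚ))) :=
    stabilizer_isOpen_of_isIntegral (K := ℚ) (L := AlgebraicClosure ℚ) z
  refine ⟨(fun τ => σ₀⁻¹ * τ) ⁻¹' (MulAction.stabilizer
      (AlgebraicClosure ℚ ≃ₐ[ℚ] AlgebraicClosure ℚ) z :
        Set (AlgebraicClosure ℚ ≃ₐ[ℚ] AlgebraicClosure ℚ)), ?_,
    hopen.preimage (continuous_const_mul σ₀⁻¹), ?_⟩
  · intro τ hτ
    have h : (σ₀⁻¹ * τ) • z = z := hτ
    have h2 := congrArg (fun x => σ₀ • x) h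
    simp only [smul_smul, mul_inv_cancel_left] at h2
    show τ z = y
    rw [← hσ₀]
    exact h2
  · show σ₀⁻¹ * σ₀ ∈ MulAction.stabilizer _ _
    rw [inv_mul_cancel]
    exact one_mem _

theorem h85k_isClosed_eval (z : AlgebraicClosure ℚ) (S : Set (AlgebraicClosure ℚ)) :
    IsClosed {σ : AlgebraicClosure ℚ ≃ₐ[ℚ] AlgebraicClosure ℚ | σ z ∈ S} := by
  rw [← isOpen_compl_iff]
  have e : {σ : AlgebraicClosure ℚ ≃ₐ[ℚ] AlgebraicClosure ℚ | σ z ∈ S}ᶜ =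
      ⋃ y ∈ Sᶜ, {σ : AlgebraicClosure ℚ ≃ₐ[ℚ] AlgebraicClosure ℚ | σ z = y} := by
    ext σ
    simp only [Set.mem_compl_iff, Set.mem_ofPred_eq, Set.mem_iUnion, exists_prop, exists_eq_right']
  rw [e]
  exact isOpen_biUnion fun y _ => h85k_isOpen_eval z y

theorem h85k_isClosed_inv_eval (z : AlgebraicClosure ℚ) (S : Set (AlgebraicClosure ℚ)) :
    IsClosed {σ : AlgebraicClosure ℚ ≃ₐ[ℚ] AlgebraicClosure ℚ | σ⁻¹ z ∈ S} :=
  (h85k_isClosed_eval z S).preimage continuous_inv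

/-- **The inertia group is closed.** -/
theorem h85k_isClosed_inertia (A : ValuationSubring (AlgebraicClosure ℚ)) :
    IsClosed ((A.inertiaSubgroupIn ℚ : Subgroup (AlgebraicClosure ℚ ≃ₐ[ℚ] AlgebraicClosure ℚ)) :
      Set (AlgebraicClosure ℚ ≃ₐ[ℚ] AlgebraicClosure ℚ)) := by
  have e : ((A.inertiaSubgroupIn ℚ : Subgroup (AlgebraicClosure ℚ ≃ₐ[ℚ] AlgebraicClosure ℚ)) :
      Set (AlgebraicClosure ℚ ≃ₐ[ℚ] AlgebraicClosure ℚ)) =
      (⋂ x : AlgebraicClosure ℚ,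
        {σ : AlgebraicClosure ℚ ≃ₐ[ℚ] AlgebraicClosure ℚ | σ⁻¹ x ∈ {y | y ∈ A ↔ x ∈ A}}) ∩
      (⋂ z : AlgebraicClosure ℚ,
        {σ : AlgebraicClosure ℚ ≃ₐ[ℚ] AlgebraicClosure ℚ |
          σ z ∈ {y | z ∈ A → y - z ∈ A.nonunits}}) := by
    ext σ
    rw [SetLike.mem_coe, Fermat.Agent.Bridge.H47.mem_inertiaSubgroupIn_iff]
    simp only [Set.mem_inter_iff, Set.mem_iInter, Set.mem_ofPred_eq]
    constructor
    · rintro ⟨h1, h2⟩
      refine ⟨fun x => ?_, fun z hz => h2 z hz⟩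
      have h3 : σ • A = A := h1
      have h4 : x ∈ σ • A ↔ σ⁻¹ • x ∈ A :=
        ValuationSubring.mem_pointwise_smul_iff_inv_smul_mem
      rw [h3] at h4
      exact h4.symm
    · rintro ⟨h1, h2⟩
      refine ⟨?_, fun z hz => h2 z hz⟩
      show σ • A = A
      apply SetLike.ext
      intro x
      rw [ValuationSubring.mem_pointwise_smul_iff_inv_smul_mem]
      exact h1 x
  rw [e]
  exact (isClosed_iInter fun x => h85k_isClosed_inv_eval x _).inter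
    (isClosed_iInter fun z => h85k_isClosed_eval z _)

/-- **`Gal(ℚ̄/K₀) = I`.** -/
theorem h85k_fixingSubgroup_K0 (A : ValuationSubring (AlgebraicClosure ℚ)) :
    (h23u_K0 A).fixingSubgroup = A.inertiaSubgroupIn ℚ := by
  haveI : IsGalois ℚ (AlgebraicClosure ℚ) := Fermat.Agent.S54.isGalois_Qbar
  exact InfiniteGalois.fixingSubgroup_fixedField
    (⟨A.inertiaSubgroupIn ℚ, h85k_isClosed_inertia A⟩ :
      ClosedSubgroup (AlgebraicClosure ℚ ≃ₐ[ℚ] AlgebraicClosure ℚ))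

/-- An element fixed by every inertia element fixing `ζ` lies in `K₀(ζ)`. -/
theorem h85k_mem_adjoin_of_fixed (A : ValuationSubring (AlgebraicClosure ℚ))
    (ζ : AlgebraicClosure ℚ) {x : AlgebraicClosure ℚ}
    (hx : ∀ σ ∈ A.inertiaSubgroupIn ℚ, σ ζ = ζ → σ x = x) :
    x ∈ IntermediateField.adjoin (h23u_K0 A) {ζ} := by
  haveI : IsGalois ℚ (AlgebraicClosure ℚ) := Fermat.Agent.S54.isGalois_Qbar
  set E : IntermediateField ℚ (AlgebraicClosure ℚ) :=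
    (IntermediateField.adjoin (h23u_K0 A) {ζ}).restrictScalars ℚ with hE
  have hK0E : h23u_K0 A ≤ E := by
    intro y hy
    rw [hE, IntermediateField.mem_restrictScalars]
    exact (IntermediateField.adjoin (h23u_K0 A) {ζ}).algebraMap_mem ⟨y, hy⟩
  have hζE : ζ ∈ E := by
    rw [hE, IntermediateField.mem_restrictScalars]
    exact IntermediateField.mem_adjoin_simple_self _ ζ
  have h1 : x ∈ IntermediateField.fixedField E.fixingSubgroup := by
    rw [IntermediateField.mem_fixedField_iff]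
    intro σ hσ
    rw [IntermediateField.mem_fixingSubgroup_iff] at hσ
    have hσI : σ ∈ A.inertiaSubgroupIn ℚ := by
      rw [← h85k_fixingSubgroup_K0, IntermediateField.mem_fixingSubgroup_iff]
      exact fun y hy => hσ y (hK0E hy)
    exact hx σ hσI (hσ ζ hζE)
  rw [InfiniteGalois.fixedField_fixingSubgroup] at h1
  exact h1

end Closed

section Fixed

variable {q : ℕ} (hq : q.Prime) (A : ValuationSubring (AlgebraicClosure ℚ))
  (hA : A.LiesOverPrime q)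

include hq hA

/-- **V-K1, fixed form.**  A nonzero element fixed by the stabiliser of `ζ` in the inertia group
is `(1 - ζ) ^ n` times a unit of `A`. -/
theorem h85k_K1_fixed {ζ : AlgebraicClosure ℚ} (hζ : IsPrimitiveRoot ζ q) {x : AlgebraicClosure ℚ}
    (hx : ∀ σ ∈ A.inertiaSubgroupIn ℚ, σ ζ = ζ → σ x = x) (hx0 : x ≠ 0) :
    ∃ n : ℤ, x / (1 - ζ) ^ n ∈ A ∧ (x / (1 - ζ) ^ n)⁻¹ ∈ A :=
  h85k_K1 hq A hA hζ (h85k_mem_adjoin_of_fixed A ζ hx) hx0

/-- An element of `𝔪_A` fixed by the stabiliser of `ζ` in the inertia group is divisible by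
`π = 1 - ζ` in `A`. -/
theorem h85k_div_mem_fixed {ζ : AlgebraicClosure ℚ} (hζ : IsPrimitiveRoot ζ q)
    {x : AlgebraicClosure ℚ}
    (hx : ∀ σ ∈ A.inertiaSubgroupIn ℚ, σ ζ = ζ → σ x = x) (hxA : x ∈ A.nonunits) :
    x / (1 - ζ) ∈ A := by
  by_cases hx0 : x = 0
  · rw [hx0, zero_div]; exact A.zero_mem
  obtain ⟨n, h1, h2⟩ := h85k_K1_fixed hq A hA hζ hx hx0
  have hπ := h85k_pi_ne_zero hq hζ
  have hv := h85k_val_of_unit A hπ hx0 h1 h2
  have hπ1 := h85k_val_pi_lt_one A hq hζ hA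
  have hπ0 : 0 < A.valuation (1 - ζ) := zero_lt_iff.mpr (h85k_val_pi_ne_zero A hq hζ)
  have hxlt : A.valuation x < 1 := (ValuationSubring.mem_nonunits_iff (A := A)).mp hxA
  have hn : 1 ≤ n := by
    by_contra hcon
    have hn0 : n ≤ 0 := by omega
    have : 1 ≤ A.valuation (1 - ζ) ^ n := by
      rw [← zpow_zero (A.valuation (1 - ζ))]
      exact zpow_le_zpow_right_of_le_one₀ hπ0 hπ1.le hn0
    rw [← hv] at this
    exact absurd hxlt (not_lt.mpr this)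
  rw [← ValuationSubring.valuation_le_one_iff, map_div₀, hv,
    div_le_one₀ hπ0]
  calc A.valuation (1 - ζ) ^ n ≤ A.valuation (1 - ζ) ^ (1 : ℤ) :=
        zpow_le_zpow_right_of_le_one₀ hπ0 hπ1.le hn
    _ = A.valuation (1 - ζ) := zpow_one _

end Fixed

end Fermat.Agent.S36
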