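/-
S36 (wave 4), block (V): the frozen interfaces `H74K1` (V-K1) and `H74Zeta` (V-ZETA) of
`S36/H74VIface.lean`, proved from `S36/H85K1.lean` (helper85).
-/
import Mathlib
import Fermat.Agent.S36.H74VIface
import Fermat.Agent.S36.H85K1

set_option autoImplicit false

namespace Fermat.Agent.S36

/-- **V-K1.** -/
theorem h85k_H74K1 : H74K1 := by
  intro q hq A hA ζ hζ x hx0 hfix
  obtain ⟨n, h1, h2⟩ := h85k_K1_fixed hq A hA hζ hfix hx0
  refine ⟨-n, ?_, ?_⟩
  · rw [zpow_neg, ← div_eq_mul_inv]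
    exact h1
  · rw [zpow_neg, ← div_eq_mul_inv]
    exact h2

/-- **V-ZETA.** -/
theorem h85k_H74Zeta : H74Zeta := by
  intro q hq A hA ζ hζ
  obtain ⟨h1, h2⟩ := h85k_pi_pow hq A hζ
  refine ⟨?_, ?_⟩
  · rw [← div_eq_mul_inv]
    exact h1
  · rw [← div_eq_mul_inv]
    exact h2

end Fermat.Agent.S36
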