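import Fermat.Agent.S36.H18CuspIface
import Fermat.Agent.LGC.H60CompInf
import Fermat.Agent.LGC.Unip
import Fermat.Agent.Red.ModelO.Hinj85
import Fermat.Agent.Red.Kron.Fricke
import Fermat.Agent.S28.RAsm

/-!
# S36, block REG, row R-CUSP-UNIT11 (helper90): the level one

The last step of the norm route to the certificate `S · S' = q · p` at the middle cusps: the
norm of `S` to the level `1` is `q · z` with `z` a function of `FF 1 = ℚ̄(j)`, and `z` is a unit
at EVERY cusp of EVERY level.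

* `h90u_evalF_injective` : `A[X] → FF N`, `X ↦ 1/j`, is injective;
* `h90u_level1_frac`     : every function of level `1` is a quotient of polynomials in `1/j`
  with coefficients in `A`;
* `h90u_level1_poly`     : the chart at infinity of level `1` is `A[1/j]`
  (`A[X]` is integrally closed);
* `h90u_coeff_zero_eval₂`: the constant coefficient of `P(τ)`, `τ` a series of positive order;
* `h90u_softR_evalF`     : the reduction of `P(1/j)` is `P̄(1/j̄)`;
* `h90u_level1_unit`     : a function `z` of level `1`, integral over `A[1/j]`, fixed by the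
  inertia group, Gauss-integral with a reduction of nonzero constant coefficient, is a unit at
  every cusp (maximal ideal containing `q` and `1/j`) of the chart at infinity of every level
  `N` over the inertia ring: `z = c + (1/j) r`, `c` a unit of `A₀`.
-/

set_option autoImplicit false
set_option linter.unusedVariables false
set_option linter.style.haveILetI false

open AlgebraicCurve ModularCurve WithZero Polynomial

noncomputable section

namespace Fermat.Agent.S36

open Fermat.Agent.S37 (Kbar GQ FF cst gal jB auxLevel modelAt degen coe_degen)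
open Fermat.Agent.Red.GV (evalF evalF_C evalF_X)
open Fermat.Agent.Red.GV.Soft (softV softR)

/-- the evaluation `A[X] → FF N`, `X ↦ 1/j` is injective. -/
theorem h90u_evalF_injective (A : ValuationSubring Kbar) (N : ℕ) [NeZero N] :
    Function.Injective (evalF N A (jB N)⁻¹) := by
  rw [injective_iff_map_eq_zero]
  intro P hP
  have htr := Fermat.Agent.Red.ModelO.h85_transcendental_jB_inv N
  have h1 : Polynomial.aeval (jB N)⁻¹ (P.map A.subtype) = 0 := by
    rw [Polynomial.aeval_def, Polynomial.eval₂_map]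
    exact hP
  have h2 : P.map A.subtype = 0 := by
    by_contra h
    exact htr ⟨_, h, h1⟩
  exact (Polynomial.map_eq_zero_iff (Subtype.val_injective)).mp h2

/-- every function of level `1` is a quotient of polynomials in `1/j` over `A`. -/
theorem h90u_level1_frac (A : ValuationSubring Kbar) (x : FF 1) :
    ∃ a b : Polynomial A, b ≠ 0 ∧
      x * evalF 1 A (jB 1)⁻¹ b = evalF 1 A (jB 1)⁻¹ a := by
  have hinj := h90u_evalF_injective A 1
  have hne : ∀ b : Polynomial A, b ≠ 0 → evalF 1 A (jB 1)⁻¹ b ≠ 0 := fun b hb h =>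
    hb (hinj (h.trans (map_zero _).symm))
  refine Fermat.Agent.Red.Kron.kFF_induction 1 (P := fun x => ∃ a b : Polynomial A, b ≠ 0 ∧
      x * evalF 1 A (jB 1)⁻¹ b = evalF 1 A (jB 1)⁻¹ a) ?_ ?_ ?_ ?_ ?_ x
  · intro c
    rcases A.mem_or_inv_mem c with hc | hc
    · exact ⟨C ⟨c, hc⟩, 1, one_ne_zero, by rw [map_one, mul_one, evalF_C]⟩
    · by_cases hc0 : c = 0
      · refine ⟨0, 1, one_ne_zero, ?_⟩
        rw [hc0]
        show algebraMap Kbar (FF 1) 0 * _ = _
        rw [map_zero, map_zero, zero_mul]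
      · refine ⟨1, C ⟨c⁻¹, hc⟩, ?_, ?_⟩
        · intro h
          have h1 := Polynomial.C_eq_zero.mp h
          exact hc0 (inv_eq_zero.mp (congrArg Subtype.val h1))
        · rw [evalF_C, map_one, ← map_mul]
          show algebraMap Kbar (FF 1) (c * c⁻¹) = 1
          rw [mul_inv_cancel₀ hc0, map_one]
  · intro d _ hd
    have hd1 : d = 1 := Nat.dvd_one.mp hd
    subst hd1
    have hj : Fermat.Agent.S24.jdBar 1 1 hd = jB 1 := by
      apply Subtype.ext
      show coeffEmb Kbar (qExpand ℚ 1 jq) = coeffEmb Kbar jq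
      rw [qExpand_one_apply]
    refine ⟨1, X, Polynomial.X_ne_zero, ?_⟩
    rw [evalF_X, map_one, hj]
    have h0 : jB 1 ≠ 0 := by
      intro h
      have := Fermat.Agent.Red.ModelO.h85_transcendental_jB_inv 1
      rw [h, inv_zero] at this
      exact this ⟨Polynomial.X, Polynomial.X_ne_zero, by simp⟩
    exact mul_inv_cancel₀ h0
  · rintro x y ⟨a, b, hb, hab⟩ ⟨c, d, hd, hcd⟩
    refine ⟨a * d + c * b, b * d, mul_ne_zero hb hd, ?_⟩
    rw [map_add, map_mul, map_mul, map_mul, ← hab, ← hcd]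
    ring
  · rintro x ⟨a, b, hb, hab⟩
    by_cases ha : a = 0
    · refine ⟨0, 1, one_ne_zero, ?_⟩
      rw [ha, map_zero] at hab
      have hx : x = 0 := (mul_eq_zero.mp hab).resolve_right (hne b hb)
      rw [hx, inv_zero, zero_mul, map_zero]
    · refine ⟨b, a, ha, ?_⟩
      have hx : x ≠ 0 := by
        intro hx
        rw [hx, zero_mul] at hab
        exact hne a ha hab.symm
      rw [← hab]
      field_simp
  · rintro x y ⟨a, b, hb, hab⟩ ⟨c, d, hd, hcd⟩
    refine ⟨a * c, b * d, mul_ne_zero hb hd, ?_⟩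
    rw [map_mul, map_mul, ← hab, ← hcd]
    ring

/-- **the chart at infinity of level `1` is `A[1/j]`.** -/
theorem h90u_level1_poly (A : ValuationSubring Kbar) (z : FF 1)
    (hz : z ∈ modelAt 1 A (jB 1)⁻¹) :
    ∃ P : Polynomial A, evalF 1 A (jB 1)⁻¹ P = z := by
  have hinj := h90u_evalF_injective A 1
  letI : Algebra (Polynomial A) (FF 1) := (evalF 1 A (jB 1)⁻¹).toAlgebra
  have halg : ∀ P : Polynomial A, algebraMap (Polynomial A) (FF 1) P = evalF 1 A (jB 1)⁻¹ P :=
    fun _ => rfl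
  haveI : IsFractionRing (Polynomial A) (FF 1) := by
    refine ⟨?_, ?_, ?_⟩
    · rintro ⟨y, hy⟩
      have hy0 : y ≠ 0 := nonZeroDivisors.ne_zero hy
      have : evalF 1 A (jB 1)⁻¹ y ≠ 0 := fun h => hy0 (hinj (h.trans (map_zero _).symm))
      exact IsUnit.mk0 _ this
    · intro x
      obtain ⟨a, b, hb, hab⟩ := h90u_level1_frac A x
      exact ⟨⟨a, ⟨b, mem_nonZeroDivisors_of_ne_zero hb⟩⟩, hab⟩
    · intro x y hxy
      exact ⟨1, by rw [hinj hxy]⟩
  have hint : IsIntegral (Polynomial A) z :=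
    (Fermat.Agent.Red.KR.mem_modelAt_iff_evalF A _ z).mp hz
  obtain ⟨P, hP⟩ := IsIntegrallyClosed.isIntegral_iff.mp hint
  exact ⟨P, hP⟩

/-- the constant coefficient of a power of a series of positive order. -/
theorem h90u_coeff_zero_pow {k : Type*} [Field k] (τ : LaurentSeries k) (hτ : 0 < τ.order)
    (n : ℕ) : (τ ^ n).coeff 0 = if n = 0 then 1 else 0 := by
  by_cases hn : n = 0
  · subst hn
    rw [pow_zero, if_pos rfl]
    rw [HahnSeries.coeff_one, if_pos rfl]
  · rw [if_neg hn]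
    apply HahnSeries.coeff_eq_zero_of_lt_order
    rw [HahnSeries.order_pow]
    have : 0 < n := Nat.pos_of_ne_zero hn
    rw [nsmul_eq_mul]
    positivity

/-- the constant coefficient of `P(τ)` for a series `τ` of positive order is `P(0)`. -/
theorem h90u_coeff_zero_eval₂ {R k : Type*} [CommRing R] [Field k] (f : R →+* k)
    (τ : LaurentSeries k) (hτ : 0 < τ.order) (P : Polynomial R) :
    (Polynomial.eval₂ ((HahnSeries.C : k →+* LaurentSeries k).comp f) τ P).coeff 0 =
      f (P.coeff 0) := by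
  induction P using Polynomial.induction_on' with
  | add p q hp hq =>
    rw [Polynomial.eval₂_add, HahnSeries.coeff_add, hp, hq, Polynomial.coeff_add, map_add]
  | monomial n a =>
    rw [Polynomial.eval₂_monomial, RingHom.comp_apply, HahnSeries.C_mul_eq_smul,
      HahnSeries.coeff_smul, h90u_coeff_zero_pow τ hτ n, Polynomial.coeff_monomial]
    by_cases hn : n = 0
    · rw [if_pos hn, if_pos hn, smul_eq_mul, mul_one]
    · rw [if_neg hn, if_neg hn, smul_zero, map_zero]

theorem h90u_evalF_mem_softV {q : ℕ} (hq : q.Prime) (A : ValuationSubring Kbar)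
    (hA : A.LiesOverPrime q) (N : ℕ) [NeZero N] (hN : ¬ q ∣ N) (P : Polynomial A) :
    evalF N A (jB N)⁻¹ P ∈ softV A N := by
  haveI : NeZero q := ⟨hq.ne_zero⟩
  have ht : (jB N)⁻¹ ∈ softV A N := Fermat.Agent.LGC.h60i_jinv_mem_softV hq hN hA
  induction P using Polynomial.induction_on' with
  | add p r hp hr => rw [map_add]; exact Subring.add_mem _ hp hr
  | monomial n a =>
    rw [← Polynomial.C_mul_X_pow_eq_monomial, map_mul, map_pow, evalF_C, evalF_X]
    exact Subring.mul_mem _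
      ((Fermat.Agent.Red.GV.Soft.cst_mem_softV_iff A N _).mpr a.2) (Subring.pow_mem _ ht n)

theorem h90u_softR_evalF {q : ℕ} (hq : q.Prime) (A : ValuationSubring Kbar)
    (hA : A.LiesOverPrime q) (N : ℕ) [NeZero N] (hN : ¬ q ∣ N) (P : Polynomial A)
    (h : evalF N A (jB N)⁻¹ P ∈ softV A N) :
    softR A N ⟨evalF N A (jB N)⁻¹ P, h⟩ =
      Polynomial.eval₂ ((HahnSeries.C : IsLocalRing.ResidueField A →+* _).comp
        (IsLocalRing.residue A)) (jqModC (IsLocalRing.ResidueField A))⁻¹ P := by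
  haveI : NeZero q := ⟨hq.ne_zero⟩
  have ht : (jB N)⁻¹ ∈ softV A N := Fermat.Agent.LGC.h60i_jinv_mem_softV hq hN hA
  set ψ : Polynomial A →+* LaurentSeries (IsLocalRing.ResidueField A) :=
    (softR A N).comp ((evalF N A (jB N)⁻¹).codRestrict (softV A N)
      (h90u_evalF_mem_softV hq A hA N hN)) with hψ
  have key : ψ = Polynomial.eval₂RingHom ((HahnSeries.C : IsLocalRing.ResidueField A →+* _).comp
        (IsLocalRing.residue A)) (jqModC (IsLocalRing.ResidueField A))⁻¹ := by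
    apply Polynomial.ringHom_ext
    · intro a
      rw [Polynomial.coe_eval₂RingHom, Polynomial.eval₂_C, hψ, RingHom.comp_apply]
      have e : (evalF N A (jB N)⁻¹).codRestrict (softV A N)
          (h90u_evalF_mem_softV hq A hA N hN) (C a) =
          ⟨cst N (a : Kbar), (Fermat.Agent.Red.GV.Soft.cst_mem_softV_iff A N _).mpr a.2⟩ :=
        Subtype.ext (evalF_C N A _ a)
      rw [e, Fermat.Agent.Red.GV.Soft.softR_cst]
      rfl
    · rw [Polynomial.coe_eval₂RingHom, Polynomial.eval₂_X, hψ, RingHom.comp_apply]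
      have e : (evalF N A (jB N)⁻¹).codRestrict (softV A N)
          (h90u_evalF_mem_softV hq A hA N hN) X = ⟨(jB N)⁻¹, ht⟩ :=
        Subtype.ext (evalF_X N A _)
      rw [e, Fermat.Agent.LGC.h60i_softR_jinv]
  have := congrArg (fun f : Polynomial A →+* LaurentSeries (IsLocalRing.ResidueField A) => f P) key
  exact this

theorem h90u_order_jqModC_inv (k : Type) [Field k] : ((jqModC k)⁻¹ : LaurentSeries k).order = 1 := by
  have h1 : (jqModC k) ≠ 0 := jqModC_ne_zero_of_nontrivial k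
  have h2 : (jqModC k)⁻¹ * jqModC k = 1 := inv_mul_cancel₀ h1
  have h3 := HahnSeries.order_mul (inv_ne_zero h1) h1
  rw [h2, HahnSeries.order_one, Fermat.Agent.S28.Asm.order_jqModC' k] at h3
  omega

/-- **Level one.**  A function of level `1` which is integral over `A[1/j]`, fixed by the
inertia group and whose reduction at `∞` has a nonzero constant coefficient is a unit at every
cusp of the chart at infinity over the inertia ring, at every level. -/
theorem h90u_level1_unit {q : ℕ} (hq : q.Prime) (A : ValuationSubring Kbar)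
    (hA : A.LiesOverPrime q) (z : FF 1) (hz : z ∈ modelAt 1 A (jB 1)⁻¹)
    (hfix : ∀ σ ∈ A.inertiaSubgroupIn ℚ, gal 1 σ • z = z)
    (hzV : z ∈ softV A 1) (hz0 : (softR A 1 ⟨z, hzV⟩).coeff 0 ≠ 0)
    (N : ℕ) [NeZero N] :
    ∃ p : h62rChart A N (jB N)⁻¹, (p : FF N) = degen (one_dvd N) z ∧
      ∀ 𝔫 : Ideal (h62rChart A N (jB N)⁻¹), h18c_IsCusp A N q 𝔫 → p ∉ 𝔫 := by
  haveI : NeZero q := ⟨hq.ne_zero⟩
  have hq1 : ¬ q ∣ 1 := fun h => hq.one_lt.ne' (Nat.dvd_one.mp h)
  obtain ⟨P, hP⟩ := h90u_level1_poly A z hz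
  -- the constant coefficient
  set c : A := P.coeff 0 with hc
  have hres : IsLocalRing.residue A c ≠ 0 := by
    have h1 := h90u_softR_evalF hq A hA 1 hq1 P (by rw [hP]; exact hzV)
    have h2 := h90u_coeff_zero_eval₂ (IsLocalRing.residue A)
      ((jqModC (IsLocalRing.ResidueField A))⁻¹)
      (by rw [h90u_order_jqModC_inv]; exact one_pos) P
    have h3 : softR A 1 ⟨z, hzV⟩ = softR A 1 ⟨evalF 1 A (jB 1)⁻¹ P, by rw [hP]; exact hzV⟩ := by
      congr 1
      exact Subtype.ext hP.symm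
    rw [h3, h1, h2] at hz0
    exact hz0
  have hcu : IsUnit c := by
    by_contra h
    exact hres ((IsLocalRing.residue_eq_zero_iff c).mpr ((IsLocalRing.mem_maximalIdeal c).mpr h))
  have hc0 : (c : Kbar) ≠ 0 := by
    intro h
    apply hres
    have : c = 0 := Subtype.ext h
    rw [this, map_zero]
  have hcinv : (c : Kbar)⁻¹ ∈ A := by
    obtain ⟨u, hu⟩ := hcu
    have h1 : (c : Kbar) * (((u⁻¹ : Aˣ) : A) : Kbar) = 1 := by
      rw [← hu]
      exact congrArg Subtype.val u.mul_inv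
    rw [← eq_inv_of_mul_eq_one_right h1]
    exact Subtype.mem _
  -- the constant coefficient is fixed by inertia
  have hcoe : ((z : FF 1) : LaurentSeries Kbar).coeff 0 = (c : Kbar) := by
    rw [← hP, Fermat.Agent.Red.GV.coe_evalF]
    have hord : 0 < (((jB 1)⁻¹ : FF 1) : LaurentSeries Kbar).order := by
      have e : (((jB 1)⁻¹ : FF 1) : LaurentSeries Kbar) = (jqModC Kbar)⁻¹ := by
        have h1 : (((jB 1)⁻¹ : FF 1) : LaurentSeries Kbar) =
            ((jB 1 : FF 1) : LaurentSeries Kbar)⁻¹ := rfl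
        rw [h1, Fermat.Agent.Red.GV.coe_jB]
        rfl
      rw [e, h90u_order_jqModC_inv]
      exact one_pos
    exact h90u_coeff_zero_eval₂ A.subtype _ hord P
  have hcfix : ∀ σ ∈ A.inertiaSubgroupIn ℚ, σ (c : Kbar) = (c : Kbar) := by
    intro σ hσ
    have h1 : ((gal 1 σ • z : FF 1) : LaurentSeries Kbar).coeff 0 =
        ((z : FF 1) : LaurentSeries Kbar).coeff 0 := by rw [hfix σ hσ]
    rw [coe_arithmeticGalois_smul, coeffMap_coeff, hcoe] at h1
    exact h1
  -- the elements of the chart of level `N`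
  have hdt : degen (one_dvd N) (jB 1)⁻¹ = (jB N)⁻¹ := by
    rw [map_inv₀, Fermat.Agent.Red.CH0.degen_jBar (one_dvd N)]
  have hfixN : ∀ x : FF 1, (∀ σ ∈ A.inertiaSubgroupIn ℚ, gal 1 σ • x = x) →
      ∀ σ ∈ A.inertiaSubgroupIn ℚ, gal N σ • degen (one_dvd N) x = degen (one_dvd N) x := by
    intro x hx σ hσ
    rw [← Fermat.Agent.LGC.h63_degen_gal, hx σ hσ]
  have hmodN : ∀ x : FF 1, x ∈ modelAt 1 A (jB 1)⁻¹ →
      degen (one_dvd N) x ∈ modelAt N A (jB N)⁻¹ := by
    intro x hx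
    have := Fermat.Agent.Red.KR.map_mem_modelAt (degen (one_dvd N)) A hx
    rwa [hdt] at this
  have hcstfix : ∀ σ ∈ A.inertiaSubgroupIn ℚ, gal 1 σ • cst 1 (c : Kbar) = cst 1 (c : Kbar) := by
    intro σ hσ
    rw [Fermat.Agent.S37.GalI.gal_smul_cst, hcfix σ hσ]
  have hcstinvfix : ∀ σ ∈ A.inertiaSubgroupIn ℚ,
      gal 1 σ • cst 1 (c : Kbar)⁻¹ = cst 1 (c : Kbar)⁻¹ := by
    intro σ hσ
    rw [Fermat.Agent.S37.GalI.gal_smul_cst, map_inv₀, hcfix σ hσ]
  have htfix : ∀ σ ∈ A.inertiaSubgroupIn ℚ, gal 1 σ • (jB 1)⁻¹ = (jB 1)⁻¹ := fun σ _ =>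
    Fermat.Agent.S37.GalI.gal_smul_jB_inv σ
  set r : FF 1 := evalF 1 A (jB 1)⁻¹ P.divX with hr
  have hzr : z = cst 1 (c : Kbar) + (jB 1)⁻¹ * r := by
    rw [← hP, hr, ← evalF_C 1 A (jB 1)⁻¹ c]
    conv_lhs => rw [← Polynomial.divX_mul_X_add P]
    rw [map_add, map_mul, evalF_X]
    ring
  have hj0 : (jB 1 : FF 1) ≠ 0 := by
    intro h
    have := Fermat.Agent.Red.ModelO.h85_transcendental_jB_inv 1
    rw [h, inv_zero] at this
    exact this ⟨Polynomial.X, Polynomial.X_ne_zero, by simp⟩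
  have hrfix : ∀ σ ∈ A.inertiaSubgroupIn ℚ, gal 1 σ • r = r := by
    intro σ hσ
    have e : r = (z - cst 1 (c : Kbar)) * jB 1 := by
      rw [hzr]
      field_simp
      ring
    rw [e, smul_mul', smul_sub, hfix σ hσ, hcstfix σ hσ, Fermat.Agent.S37.GalI.gal_smul_jB]
  have hrmod : r ∈ modelAt 1 A (jB 1)⁻¹ :=
    Fermat.Agent.Red.Match.ringAdj_le_modelAt 1 A _
      (Fermat.Agent.Red.GV.evalF_mem_ringAdj 1 A _ _)
  have htmod : (jB 1)⁻¹ ∈ modelAt 1 A (jB 1)⁻¹ :=
    Fermat.Agent.Red.Match.ringAdj_le_modelAt 1 A _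
      (Fermat.Agent.Red.Match.self_mem_ringAdj 1 A _)
  -- assemble
  have mk : ∀ x : FF 1, x ∈ modelAt 1 A (jB 1)⁻¹ →
      (∀ σ ∈ A.inertiaSubgroupIn ℚ, gal 1 σ • x = x) →
      degen (one_dvd N) x ∈ h62rChart A N (jB N)⁻¹ := fun x hx hxf =>
    h62r_mem_chart.mpr ⟨hmodN x hx, hfixN x hxf⟩
  refine ⟨⟨degen (one_dvd N) z, mk z hz hfix⟩, rfl, ?_⟩
  intro 𝔫 h𝔫 hp
  obtain ⟨hmax, -, htn⟩ := h𝔫
  have ht𝔫 : (⟨degen (one_dvd N) (jB 1)⁻¹, mk _ htmod htfix⟩ : h62rChart A N (jB N)⁻¹) ∈ 𝔫 :=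
    htn _ hdt
  have hc𝔫 : (⟨degen (one_dvd N) (cst 1 (c : Kbar)),
      mk _ (Fermat.Agent.Red.Match.cst_mem_modelAt 1 A _ c.2) hcstfix⟩ :
      h62rChart A N (jB N)⁻¹) ∈ 𝔫 := by
    have e : (⟨degen (one_dvd N) (cst 1 (c : Kbar)),
        mk _ (Fermat.Agent.Red.Match.cst_mem_modelAt 1 A _ c.2) hcstfix⟩ :
        h62rChart A N (jB N)⁻¹) =
        ⟨degen (one_dvd N) z, mk z hz hfix⟩ -
          ⟨degen (one_dvd N) (jB 1)⁻¹, mk _ htmod htfix⟩ *
            ⟨degen (one_dvd N) r, mk r hrmod hrfix⟩ := by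
      apply Subtype.ext
      show degen (one_dvd N) (cst 1 (c : Kbar)) =
        degen (one_dvd N) z - degen (one_dvd N) (jB 1)⁻¹ * degen (one_dvd N) r
      rw [← map_mul, ← map_sub, hzr]
      congr 1
      ring
    rw [e]
    exact 𝔫.sub_mem hp (𝔫.mul_mem_right _ ht𝔫)
  have h1 : (1 : h62rChart A N (jB N)⁻¹) ∈ 𝔫 := by
    have e : (1 : h62rChart A N (jB N)⁻¹) =
        ⟨degen (one_dvd N) (cst 1 (c : Kbar)),
          mk _ (Fermat.Agent.Red.Match.cst_mem_modelAt 1 A _ c.2) hcstfix⟩ *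
        ⟨degen (one_dvd N) (cst 1 (c : Kbar)⁻¹),
          mk _ (Fermat.Agent.Red.Match.cst_mem_modelAt 1 A _ hcinv) hcstinvfix⟩ := by
      apply Subtype.ext
      show (1 : FF N) = degen (one_dvd N) (cst 1 (c : Kbar)) *
        degen (one_dvd N) (cst 1 (c : Kbar)⁻¹)
      rw [← map_mul, ← map_mul, mul_inv_cancel₀ hc0, map_one, map_one]
    rw [e]
    exact 𝔫.mul_mem_right _ hc𝔫
  exact hmax.ne_top ((Ideal.eq_top_iff_one 𝔫).mpr h1)

/-- **Level one, norm form.**  If `ν = c · z` is a function of level `1`, integral over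
`A[1/j]` and fixed by the inertia group, with `0 ≠ c ∈ A` fixed by the inertia group (for
instance `c = q`) and `z` Gauss-integral with a reduction of nonzero constant coefficient, then
`z` is a unit at every cusp of the chart at infinity of every level. -/
theorem h90u_level1_unit_of_mul {q : ℕ} (hq : q.Prime) (A : ValuationSubring Kbar)
    (hA : A.LiesOverPrime q) (ν z : FF 1) (c : Kbar) (hcA : c ∈ A) (hc0 : c ≠ 0)
    (hcfix : ∀ σ ∈ A.inertiaSubgroupIn ℚ, σ c = c)
    (hν : ν ∈ modelAt 1 A (jB 1)⁻¹)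
    (hfix : ∀ σ ∈ A.inertiaSubgroupIn ℚ, gal 1 σ • ν = ν)
    (hνz : ν = cst 1 c * z)
    (hzV : z ∈ softV A 1) (hz0 : (softR A 1 ⟨z, hzV⟩).coeff 0 ≠ 0)
    (N : ℕ) [NeZero N] :
    ∃ p : h62rChart A N (jB N)⁻¹, (p : FF N) = degen (one_dvd N) z ∧
      ∀ 𝔫 : Ideal (h62rChart A N (jB N)⁻¹), h18c_IsCusp A N q 𝔫 → p ∉ 𝔫 := by
  haveI : NeZero q := ⟨hq.ne_zero⟩
  have hq1 : ¬ q ∣ 1 := fun h => hq.one_lt.ne' (Nat.dvd_one.mp h)
  have hzG : z ∈ Fermat.Agent.Red.GV.gaussV A 1 := by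
    rw [← Fermat.Agent.Red.GV.Soft.softV_eq_gaussV A 1 hq hq1 hA]
    exact hzV
  have hz : z ∈ modelAt 1 A (jB 1)⁻¹ :=
    Fermat.Agent.Red.GV.mem_modelInf_of_cst_mul A 1 hq hq1 hA z hzG c hcA hc0 (by rw [← hνz]; exact hν)
  have hcst0 : cst 1 c ≠ 0 := by
    intro h
    exact hc0 ((algebraMap Kbar (FF 1)).injective (h.trans (map_zero _).symm))
  have hzfix : ∀ σ ∈ A.inertiaSubgroupIn ℚ, gal 1 σ • z = z := by
    intro σ hσ
    have h1 := hfix σ hσ
    rw [hνz, smul_mul', Fermat.Agent.S37.GalI.gal_smul_cst, hcfix σ hσ] at h1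
    exact mul_left_cancel₀ hcst0 h1
  exact h90u_level1_unit hq A hA z hz hzfix hzV hz0 N

end Fermat.Agent.S36
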