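import Fermat.Agent.S36.H20U11Norm
import Fermat.Agent.S36.H18CuspIface
import Fermat.Agent.S36.H90CuspLevel1
import Fermat.Agent.S36.H59Base0
import Fermat.Agent.S36.H20Emb
import Fermat.Agent.S36.H85VK1
import Fermat.Agent.S35.H31Desc
import Fermat.Agent.Red.KR.NormFin
import Fermat.Agent.Red.KR.MEAlpha

/-!
# S36, REG, row R-CUSP-UNIT11 (helper20): end-to-end assembly of the certificate

`H20U11Cert` (the only input, at the level `1 · q · q`): one function `S₁` of the chart at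
infinity over the inertia ring whose expansions at `E20`, `E02` are units of `A⟦t⟧` and whose
expansion at every `E11^ζ` is `(1 - ζ) · unit`.

`h20u_unit11_of_cert : H20U11Cert → H18cUnit11`:
* `Nm S₁ = q · z` at the level `1`, `z` a unit of `A⟦t⟧` (`h20u_norm_gauss`);
* `p := z` is a unit at every cusp of every level (helper90, `h90u_level1_unit_of_mul`);
* `S₁' := Nm S₁ / S₁` is integral (`h20u_adj`: the adjugate, Cayley–Hamilton);
* transport to the level `M q²` along the degeneracy inclusion; `E11 ∘ degen` is an `E11` of the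
  level `1 · q · q` (`h20u_isE11_degen`);
* `(1 - ζ)^(q-1) / q` is a unit of `A` (`h85k_H74Zeta`).
-/

set_option autoImplicit false
set_option linter.style.haveILetI false
set_option linter.unusedSectionVars false
set_option linter.unusedVariables false

open AlgebraicCurve ModularCurve Polynomial

noncomputable section

namespace Fermat.Agent.S36

open Fermat.Agent.S37 (Kbar GQ FF cst gal jB auxLevel modelAt degen coe_degen)
open Fermat.Agent.Red.KR (normAlong map_mem_modelAt)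
open Fermat.Agent.Red.Kron (kFricke twistK)
open Fermat.Agent.Red.TRK (charpolyAlong)

/-! ## The adjugate -/

/-- **the adjugate is integral**: `g · g' = φ (Nm_φ g)` with `g'` integral over `A[φ x]` when
`g` is. -/
theorem h20u_adj {N M' : ℕ} (φ : FF N →ₐ[Kbar] FF M')
    (hfin : FiniteAlong Kbar φ)
    (A : ValuationSubring Kbar) (x : FF N) {g : FF M'} (hg : g ∈ modelAt M' A (φ x)) :
    ∃ g' ∈ modelAt M' A (φ x), g * g' = φ (normAlong φ g) := by
  set χ := charpolyAlong φ hfin (-g) with hχ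
  have hc0 : normAlong φ g = χ.coeff 0 := by
    have h := Fermat.Agent.Red.KR.h66_normAlong_neg_eq_coeff_zero φ hfin (-g)
    rwa [neg_neg] at h
  have hCH : χ.eval₂ (φ : FF N →+* FF M') (-g) = 0 :=
    Fermat.Agent.Red.KR.h69m_eval₂_charpolyAlong φ hfin (-g)
  have hsplit : χ = χ.divX * X + C (χ.coeff 0) := (Polynomial.divX_mul_X_add χ).symm
  have hmem : (χ.divX).eval₂ (φ : FF N →+* FF M') (-g) ∈ modelAt M' A (φ x) := by
    rw [Polynomial.eval₂_eq_sum_range]
    refine Subring.sum_mem _ (fun i _ => ?_)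
    refine Subring.mul_mem _ ?_ (Subring.pow_mem _ (Subring.neg_mem _ hg) i)
    rw [Polynomial.coeff_divX]
    exact map_mem_modelAt φ A
      (Fermat.Agent.Red.TRK.h87_coeff_mem_modelAt φ hfin A x (Subring.neg_mem _ hg) (i + 1))
  refine ⟨(χ.divX).eval₂ (φ : FF N →+* FF M') (-g), hmem, ?_⟩
  rw [hsplit, Polynomial.eval₂_add, Polynomial.eval₂_mul, Polynomial.eval₂_X,
    Polynomial.eval₂_C] at hCH
  rw [hc0]
  have h2 : (φ : FF N →+* FF M') (χ.coeff 0) = φ (χ.coeff 0) := rfl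
  rw [h2] at hCH
  linear_combination -hCH

/-! ## The two-step norm and its cofactor -/

section Cofactor

variable (M q : ℕ) [NeZero M] [NeZero q] (A : ValuationSubring Kbar)

theorem h20u_alpha_jB_inv (N : ℕ) [NeZero N] :
    heckeAlphaBar Kbar N q (jB N)⁻¹ = (jB (N * q))⁻¹ := by
  rw [map_inv₀, h59z_alpha_jB]

/-- the norm along a Galois-equivariant homomorphism of an `I`-invariant function is
`I`-invariant. -/
theorem h20u_norm_mem_F0 {N N' : ℕ} (φ : FF N →ₐ[Kbar] FF N')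
    (hφ : ∀ (σ : GQ) (x : FF N), gal N' σ • φ x = φ (gal N σ • x)) {u : FF N'}
    (hu : u ∈ h53d_F0 N' (A.inertiaSubgroupIn ℚ)) :
    normAlong φ u ∈ h53d_F0 N (A.inertiaSubgroupIn ℚ) := by
  intro σ hσ
  let _ := algebraAlong φ
  have h := Algebra.norm_eq_of_equiv_equiv (A₁ := FF N) (B₁ := FF N') (A₂ := FF N)
    (B₂ := FF N') (SemilinearAut.toRingAut (gal N σ)) (SemilinearAut.toRingAut (gal N' σ))
    (RingHom.ext fun x => by
      show φ (gal N σ • x) = gal N' σ • φ x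
      exact (hφ σ x).symm) u
  have h1 : Algebra.norm (FF N) (gal N' σ • u) = gal N σ • Algebra.norm (FF N) u := by
    rw [h]
    exact (RingEquiv.apply_symm_apply (SemilinearAut.toRingAut (gal N σ)) _).symm
  have h2 : gal N' σ • u = u := hu σ hσ
  rw [h2] at h1
  exact h1.symm

/-- the norm along `α` maps the chart at infinity over `A₀` to the chart at infinity. -/
theorem h20u_norm_mem_chart (N : ℕ) [NeZero N] {y : FF (N * q)}
    (hy : y ∈ h62rChart A (N * q) (jB (N * q))⁻¹) :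
    normAlong (heckeAlphaBar Kbar N q) y ∈ h62rChart A N (jB N)⁻¹ := by
  refine ⟨?_, h20u_norm_mem_F0 A _ (h59z_gal_alpha N q) hy.2⟩
  have h1 : y ∈ modelAt (N * q) A (heckeAlphaBar Kbar N q (jB N)⁻¹) := by
    rw [h20u_alpha_jB_inv]
    exact hy.1
  exact Fermat.Agent.Red.KR.h66_normAlong_mem_modelAt (heckeAlphaBar Kbar N q)
    (Fermat.Agent.Red.HKMod.finiteAlong_heckeAlphaBar N q) A (jB N)⁻¹ h1

/-- the cofactor along one `α`. -/
theorem h20u_adj_alpha (N : ℕ) [NeZero N] {y : FF (N * q)}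
    (hy : y ∈ modelAt (N * q) A (jB (N * q))⁻¹) :
    ∃ y' ∈ modelAt (N * q) A (jB (N * q))⁻¹,
      y * y' = heckeAlphaBar Kbar N q (normAlong (heckeAlphaBar Kbar N q) y) := by
  have h1 : y ∈ modelAt (N * q) A (heckeAlphaBar Kbar N q (jB N)⁻¹) := by
    rw [h20u_alpha_jB_inv]
    exact hy
  obtain ⟨y', hy', h⟩ := h20u_adj (heckeAlphaBar Kbar N q)
    (Fermat.Agent.Red.HKMod.finiteAlong_heckeAlphaBar N q) A (jB N)⁻¹ h1
  rw [h20u_alpha_jB_inv] at hy'
  exact ⟨y', hy', h⟩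

/-- **the two-step norm and its cofactor in the charts over `A₀`.** -/
theorem h20u_cofactor {S : FF (M * q * q)}
    (hS : S ∈ h62rChart A (M * q * q) (jB (M * q * q))⁻¹) (hS0 : S ≠ 0) :
    normAlong (heckeAlphaBar Kbar M q) (normAlong (heckeAlphaBar Kbar (M * q) q) S) ∈
        h62rChart A M (jB M)⁻¹ ∧
      ∃ S' ∈ h62rChart A (M * q * q) (jB (M * q * q))⁻¹,
        S * S' = heckeAlphaBar Kbar (M * q) q (heckeAlphaBar Kbar M q
          (normAlong (heckeAlphaBar Kbar M q)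
            (normAlong (heckeAlphaBar Kbar (M * q) q) S))) := by
  have hv := h20u_norm_mem_chart q A (M * q) hS
  have hN := h20u_norm_mem_chart q A M hv
  refine ⟨hN, ?_⟩
  obtain ⟨S'', hS'', h1⟩ := h20u_adj_alpha q A (M * q) hS.1
  obtain ⟨v', hv', h2⟩ := h20u_adj_alpha q A M hv.1
  have hv'2 : heckeAlphaBar Kbar (M * q) q v' ∈ modelAt (M * q * q) A (jB (M * q * q))⁻¹ := by
    have := map_mem_modelAt (heckeAlphaBar Kbar (M * q) q) A hv'
    rwa [h20u_alpha_jB_inv] at this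
  have heq : S * (S'' * heckeAlphaBar Kbar (M * q) q v') =
      heckeAlphaBar Kbar (M * q) q (heckeAlphaBar Kbar M q
        (normAlong (heckeAlphaBar Kbar M q)
          (normAlong (heckeAlphaBar Kbar (M * q) q) S))) := by
    rw [← mul_assoc, h1, ← map_mul, h2]
  refine ⟨S'' * heckeAlphaBar Kbar (M * q) q v', ⟨Subring.mul_mem _ hS'' hv'2, ?_⟩, heq⟩
  -- invariance under inertia
  have hF : heckeAlphaBar Kbar (M * q) q (heckeAlphaBar Kbar M q
        (normAlong (heckeAlphaBar Kbar M q)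
          (normAlong (heckeAlphaBar Kbar (M * q) q) S))) ∈
      h53d_F0 (M * q * q) (A.inertiaSubgroupIn ℚ) := by
    intro σ hσ
    rw [h59z_gal_alpha, h59z_gal_alpha, hN.2 σ hσ]
  have hSF : S ∈ h53d_F0 (M * q * q) (A.inertiaSubgroupIn ℚ) := hS.2
  have h3 : S'' * heckeAlphaBar Kbar (M * q) q v' =
      heckeAlphaBar Kbar (M * q) q (heckeAlphaBar Kbar M q
        (normAlong (heckeAlphaBar Kbar M q)
          (normAlong (heckeAlphaBar Kbar (M * q) q) S))) * S⁻¹ := by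
    rw [← heq]
    field_simp
  show S'' * heckeAlphaBar Kbar (M * q) q v' ∈ h53d_F0 (M * q * q) (A.inertiaSubgroupIn ℚ)
  rw [h3]
  exact mul_mem hF (inv_mem hSF)

end Cofactor

/-! ## Transport of the middle embedding -/

theorem h20u_not_dvd_one {q : ℕ} (hq : q.Prime) : ¬ q ∣ 1 :=
  fun h => hq.one_lt.ne' (Nat.dvd_one.mp h)

theorem h20u_dvd (M q : ℕ) : 1 * q * q ∣ M * q * q :=
  Nat.mul_dvd_mul_right (Nat.mul_dvd_mul_right (one_dvd M) q) q

/-- `E11 ∘ degen` is an `E11` of the level `1 · q · q`. -/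
theorem h20u_isE11_degen (M q : ℕ) [NeZero M] [NeZero q] (hq : q.Prime) (hqM : ¬ q ∣ M)
    (ζ : Kbar) (E : FF (M * q * q) →+* LaurentSeries Kbar)
    (hE : h20n_IsE11 M q hq hqM ζ E) :
    h20n_IsE11 1 q hq (h20u_not_dvd_one hq) ζ
      (E.comp ((degen (h20u_dvd M q) : FF (1 * q * q) →ₐ[Kbar] FF (M * q * q)) :
        FF (1 * q * q) →+* FF (M * q * q))) := by
  have h2 : 1 * q ∣ M * q := Nat.mul_dvd_mul_right (one_dvd M) q
  refine ⟨fun x => ?_, fun x => ?_⟩
  · have h := Fermat.Agent.S35.h31s_degen_alpha q h2 x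
    show E (degen (h20u_dvd M q) (heckeAlphaBar Kbar (1 * q) q x)) = _
    rw [show degen (h20u_dvd M q) (heckeAlphaBar Kbar (1 * q) q x) =
      heckeAlphaBar Kbar (M * q) q (degen h2 x) from h, hE.1, coe_degen]
  · have h := Fermat.Agent.S35.h31s_degen_beta q h2 x
    show E (degen (h20u_dvd M q) (heckeBetaBar Kbar (1 * q) q x)) = _
    rw [show degen (h20u_dvd M q) (heckeBetaBar Kbar (1 * q) q x) =
      heckeBetaBar Kbar (M * q) q (degen h2 x) from h, hE.2,
      Fermat.Agent.S35.h31s_kFricke_degen q hq (h20u_not_dvd_one hq) hqM (one_dvd M) x,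
      coe_degen]

/-! ## The certificate and the assembly -/

/-- **the certificate at the level `1 · q · q`** (the only input of the assembly): a function
`S₁` of the chart at infinity over the inertia ring whose expansions at `E20` and `E02` are units
of `A⟦t⟧` and whose expansion at every `E11^ζ` is `(1 - ζ) · unit`. -/
def H20U11Cert : Prop :=
  ∀ (q : ℕ) (hq : q.Prime) (A : ValuationSubring Kbar), A.LiesOverPrime q →
    haveI : NeZero q := ⟨hq.ne_zero⟩
    ∃ S : FF (1 * q * q),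
      S ∈ h62rChart A (1 * q * q) (jB (1 * q * q))⁻¹ ∧
      h20u_UPS A (S : LaurentSeries Kbar) ∧
      (∀ E0 : FF (1 * q * q) →+* LaurentSeries Kbar,
        h20n_IsE02 1 q hq (h20u_not_dvd_one hq) E0 → h20u_UPS A (E0 S)) ∧
      (∀ ζ : Kbar, IsPrimitiveRoot ζ q → ∀ E : FF (1 * q * q) →+* LaurentSeries Kbar,
        h20n_IsE11 1 q hq (h20u_not_dvd_one hq) ζ E →
          ∃ w, h20u_UPS A w ∧ E S = HahnSeries.C (1 - ζ) * w)

theorem h20u_degen_mem_chart (M q : ℕ) [NeZero M] [NeZero q] (A : ValuationSubring Kbar)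
    {x : FF (1 * q * q)} (hx : x ∈ h62rChart A (1 * q * q) (jB (1 * q * q))⁻¹) :
    degen (h20u_dvd M q) x ∈ h62rChart A (M * q * q) (jB (M * q * q))⁻¹ := by
  have h := h59z_map_mem_chart (degen (h20u_dvd M q))
    (fun σ y => (Fermat.Agent.LGC.h63_degen_gal (h20u_dvd M q) σ y).symm) A hx
  rwa [map_inv₀, Fermat.Agent.Red.CH0.degen_jBar (h20u_dvd M q)] at h

/-- **R-CUSP-UNIT11 from the certificate at the level `1 · q · q`.** -/
theorem h20u_unit11_of_cert (h : H20U11Cert) : H18cUnit11 := by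
  intro q hq M _ hqM haux
  haveI : NeZero q := ⟨hq.ne_zero⟩
  intro A hA ζ E11 E02 hT
  obtain ⟨S1, hS1, h20, h02, h11⟩ := h q hq A hA
  have hq1 := h20u_not_dvd_one hq
  have hqq : 0 < q * q := Nat.mul_pos hq.pos hq.pos
  haveI : NeZero (q * q) := ⟨hqq.ne'⟩
  obtain ⟨ξ, hξ⟩ := HasEnoughRootsOfUnity.exists_primitiveRoot Kbar (q * q)
  have hζ' : IsPrimitiveRoot (ξ ^ q) q := hξ.pow hqq rfl
  obtain ⟨hex11, ⟨E0, hE0⟩⟩ := h20n_embExists q hq 1 hq1
  have hprim : ∀ b : ℕ, 0 < b → b < q → IsPrimitiveRoot ((ξ ^ q) ^ b) q := by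
    intro b hb0 hbq
    refine hζ'.pow_of_coprime b ?_
    exact (Nat.Coprime.symm ((Nat.Prime.coprime_iff_not_dvd hq).mpr
      (fun hd => absurd (Nat.le_of_dvd hb0 hd) (not_le.mpr hbq))))
  have hfam : ∀ b : ℕ, ∃ E : FF (1 * q * q) →+* LaurentSeries Kbar,
      (0 < b → b < q → h20n_IsE11 1 q hq hq1 ((ξ ^ q) ^ b) E) := by
    intro b
    by_cases hb : 0 < b ∧ b < q
    · obtain ⟨E, hE⟩ := hex11 ((ξ ^ q) ^ b) (hprim b hb.1 hb.2).pow_eq_one
        ((hprim b hb.1 hb.2).ne_one hq.one_lt)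
      exact ⟨E, fun _ _ => hE⟩
    · exact ⟨E0, fun h1 h2 => absurd ⟨h1, h2⟩ hb⟩
  choose E hE using hfam
  -- the norm
  obtain ⟨W, hW, hNW⟩ := h20u_norm_gauss q hq 1 hq1 A ξ hξ E0 hE0 E hE S1 h20
    (fun b hb0 hbq => h11 _ (hprim b hb0 hbq) (E b) (hE b hb0 hbq)) (h02 E0 hE0)
  have hS10 : S1 ≠ 0 := by
    rintro rfl
    exact (h20u_ups_unit h20).1 (by simp)
  obtain ⟨hN, S1', hS1', hmul⟩ := h20u_cofactor 1 q A hS1 hS10
  set N1 : FF 1 := normAlong (heckeAlphaBar Kbar 1 q)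
    (normAlong (heckeAlphaBar Kbar (1 * q) q) S1) with hN1
  have hq0 : ((q : ℕ) : Kbar) ≠ 0 := by exact_mod_cast hq.ne_zero
  set z : FF 1 := cst 1 (((q : ℕ) : Kbar)⁻¹) * N1 with hz
  have hνz : N1 = cst 1 ((q : ℕ) : Kbar) * z := by
    rw [hz, ← mul_assoc, ← map_mul, mul_inv_cancel₀ hq0, map_one, one_mul]
  have hzW : ((z : FF 1) : LaurentSeries Kbar) = W := by
    have h1 : ((z : FF 1) : LaurentSeries Kbar) =
        ((cst 1 (((q : ℕ) : Kbar)⁻¹) : FF 1) : LaurentSeries Kbar) *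
          ((N1 : FF 1) : LaurentSeries Kbar) := rfl
    rw [h1, Fermat.Agent.Red.GV.Soft.soft_coe_cst, hNW, ← mul_assoc, ← map_mul,
      inv_mul_cancel₀ hq0, map_one, one_mul]
  obtain ⟨f, hf, hfW⟩ := hW
  have hemb : Fermat.Agent.Red.GV.embA A (HahnSeries.ofPowerSeries ℤ A f) =
      ((z : FF 1) : LaurentSeries Kbar) := by
    rw [hzW, ← hfW]
    rfl
  have hzV : z ∈ Fermat.Agent.Red.GV.Soft.softV A 1 :=
    Fermat.Agent.Red.GV.Soft.mem_softV_of_embA A 1 z _ hemb
  have hz0 : (Fermat.Agent.Red.GV.Soft.softR A 1 ⟨z, hzV⟩).coeff 0 ≠ 0 := by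
    rw [Fermat.Agent.Red.GV.Soft.softR_of_embA A 1 ⟨z, hzV⟩ _ hemb]
    show (coeffMap (IsLocalRing.residue A) (HahnSeries.ofPowerSeries ℤ A f)).coeff 0 ≠ 0
    rw [coeffMap_coeff]
    have h1 : (HahnSeries.ofPowerSeries ℤ A f).coeff 0 = PowerSeries.constantCoeff f := by
      have := PowerSeries.coeff_coe (R := A) f 0
      simpa using this
    rw [h1]
    intro h0
    have h2 : PowerSeries.constantCoeff f ∈ IsLocalRing.maximalIdeal A :=
      (IsLocalRing.residue_eq_zero_iff _).mp h0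
    exact h2 (PowerSeries.isUnit_iff_constantCoeff.mp hf)
  have hqA : ((q : ℕ) : Kbar) ∈ A := natCast_mem A q
  obtain ⟨p, hp, hpn⟩ := h90u_level1_unit_of_mul hq A hA N1 z ((q : ℕ) : Kbar) hqA hq0
    (fun σ _ => map_natCast σ q) hN.1 hN.2 hνz hzV hz0 (M * q * q)
  -- the certificate at the level `M q q`
  refine ⟨⟨degen (h20u_dvd M q) S1, h20u_degen_mem_chart M q A hS1⟩,
    ⟨degen (h20u_dvd M q) S1', h20u_degen_mem_chart M q A hS1'⟩, p, ?_, ?_, hpn⟩
  · apply Subtype.ext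
    show degen (h20u_dvd M q) S1 * degen (h20u_dvd M q) S1' =
      ((q : h62rChart A (M * q * q) (jB (M * q * q))⁻¹) : FF (M * q * q)) * (p : FF (M * q * q))
    rw [← map_mul, hmul, hp]
    apply Subtype.ext
    have h1 : (((q : h62rChart A (M * q * q) (jB (M * q * q))⁻¹) : FF (M * q * q)) *
        degen (one_dvd (M * q * q)) z : FF (M * q * q)) =
        cst (M * q * q) ((q : ℕ) : Kbar) * degen (one_dvd (M * q * q)) z := by
      congr 1
      exact (map_natCast (algebraMap Kbar (FF (M * q * q))) q).symm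
    rw [h1]
    show ((degen (h20u_dvd M q) (heckeAlphaBar Kbar (1 * q) q (heckeAlphaBar Kbar 1 q N1)) :
        FF (M * q * q)) : LaurentSeries Kbar) =
      ((cst (M * q * q) ((q : ℕ) : Kbar) : FF (M * q * q)) : LaurentSeries Kbar) *
        ((degen (one_dvd (M * q * q)) z : FF (M * q * q)) : LaurentSeries Kbar)
    rw [coe_degen, coe_heckeAlphaBar, coe_heckeAlphaBar, coe_degen,
      Fermat.Agent.Red.GV.Soft.soft_coe_cst, hzW, hNW, ← hfW]
  · -- the Gauss unit at `E11`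
    have hE' := h20u_isE11_degen M q hq hqM ζ E11 hT.e11
    obtain ⟨w, hw, hEw⟩ := h11 ζ hT.prim _ hE'
    have hEw' : E11 (degen (h20u_dvd M q) S1) = HahnSeries.C (1 - ζ) * w := hEw
    have hEq : E11 (((q : ℕ) : FF (M * q * q))) = HahnSeries.C ((q : ℕ) : Kbar) := by
      rw [map_natCast, map_natCast]
    show h20v_Unit A (E11 ((degen (h20u_dvd M q) S1) ^ (q - 1) *
      (((q : ℕ) : FF (M * q * q)))⁻¹))
    rw [map_mul, map_pow, map_inv₀, hEw', hEq, mul_pow, ← map_pow, ← map_inv₀,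
      mul_right_comm, ← map_mul]
    obtain ⟨hz1, hz2⟩ := h85k_H74Zeta q hq A hA ζ hT.prim
    have hζ1 : (1 - ζ) ≠ 0 := sub_ne_zero.mpr (Ne.symm (hT.prim.ne_one hq.one_lt))
    have hc : (1 - ζ) ^ (q - 1) * (((q : ℕ) : Kbar))⁻¹ =
        (((q : ℕ) : Kbar) * ((1 - ζ) ^ (q - 1))⁻¹)⁻¹ := by
      rw [mul_inv, inv_inv, mul_comm]
    refine h20g_unit_mul (h20g_unit_C ?_ ?_ ?_) (h20u_ups_unit (h20u_ups_pow hw _))
    · exact mul_ne_zero (pow_ne_zero _ hζ1) (inv_ne_zero hq0)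
    · rw [hc]; exact hz2
    · rw [hc, inv_inv]; exact hz1

end Fermat.Agent.S36
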