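import Fermat.Agent.S36.H76CuspInt
import Fermat.Agent.S36.H34Cyc
import Fermat.Agent.S36.H20Gauss
import Fermat.Agent.Red.ESTF.Cong

/-!
# S36, block REG, row R-CUSP-UNIT11 (helper76): the expansions of `S` at the three cusps

`S = σ · y₁ · (1 - j₀/j₂) + (1 - y₁)` has the expansions
* at `E20`  : a unit of `A[[t]]`                         (`h76u_E20_S`),
* at `E11^ζ`: `(1 - ζ)` times a unit of `A[[t]]`         (`h76u_E11_S`),
* at `E02`  : a unit of `A[[t]]`                         (`h76u_E02_S`).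
-/

set_option autoImplicit false
set_option linter.style.haveILetI false
set_option linter.unusedSectionVars false
set_option synthInstance.maxHeartbeats 400000

open ModularCurve AlgebraicCurve Polynomial

noncomputable section

namespace Fermat.Agent.S36

open Fermat.Agent.S37 (Kbar GQ FF cst gal jB modelAt)
open Fermat.Agent.Red.Kron (kFricke kFricke_alpha kFricke_beta twistK)

/-! ## series -/

section Series

variable (A : ValuationSubring Kbar)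

/-- the inclusion `A₀ → ℚ̄`. -/
def h76u_incl : ↥(h81a_A0 A) →+* Kbar :=
  (algebraMap (h81a_K0 A) Kbar).comp (h81a_A0 A).subtype

theorem h76u_incl_mem (a : h81a_A0 A) : h76u_incl A a ∈ A := a.2

/-- the series of the multiplier. -/
def h76u_sigser (s : (h81a_A0 A)[X]) (E : ℕ) (τ : LaurentSeries Kbar) : LaurentSeries Kbar :=
  eval₂ ((HahnSeries.C : Kbar →+* LaurentSeries Kbar).comp (h76u_incl A)) τ s ^ E

theorem h76u_sigser_ps1 (s : (h81a_A0 A)[X]) (E : ℕ) (hs : s.coeff 0 = 1)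
    {τ : LaurentSeries Kbar} (hτ : h76u_PS0 A τ) : h76u_PS1 A (h76u_sigser A s E τ) :=
  (h76u_PS1_eval₂ (h76u_incl A) (h76u_incl_mem A) s hs hτ).pow E

/-- the series of `S` in terms of the series of `j₀, j₁, j₂`. -/
def h76u_Sser (s : (h81a_A0 A)[X]) (E q : ℕ) (a₀ a₁ a₂ : LaurentSeries Kbar) :
    LaurentSeries Kbar :=
  h76u_sigser A s E a₀⁻¹ * (a₁ * a₀⁻¹ ^ q) * (1 - a₀ * a₂⁻¹) + (1 - a₁ * a₀⁻¹ ^ q)

variable {q : ℕ}

theorem h76u_jq_ne_zero : jqModC Kbar ≠ 0 := by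
  obtain ⟨v, hv, h⟩ := h76u_Mon_jq (K := Kbar) (⊤ : ValuationSubring Kbar)
  rw [h]
  refine mul_ne_zero ?_ hv.ne_zero
  intro h0
  have := congrArg (fun s : LaurentSeries Kbar => s.coeff (-1)) h0
  simp at this

/-- `y₁ = 1 - q d` at `E20`, `E11`. -/
theorem h76u_yser (hq : q.Prime) :
    haveI : NeZero q := ⟨hq.ne_zero⟩
    ∃ d : LaurentSeries Kbar, h76u_PS0 A d ∧
      qExpand Kbar q (jqModC Kbar) * (jqModC Kbar)⁻¹ ^ q = 1 - HahnSeries.C (q : Kbar) * d := by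
  haveI : NeZero q := ⟨hq.ne_zero⟩
  obtain ⟨d, hd, h⟩ := h76u_frob (K := Kbar) A hq
  refine ⟨d, hd, ?_⟩
  rw [h, inv_pow]
  have hne : jqModC Kbar ^ q ≠ 0 := pow_ne_zero _ h76u_jq_ne_zero
  field_simp

theorem h76u_natCast_mem (n : ℕ) : (n : Kbar) ∈ A := natCast_mem A n

/-- the expansion at `E20`. -/
theorem h76u_Sser_E20 (hq : q.Prime) (s : (h81a_A0 A)[X]) (E : ℕ) (hs : s.coeff 0 = 1) :
    haveI : NeZero q := ⟨hq.ne_zero⟩
    h76u_PS1 A (h76u_Sser A s E q (jqModC Kbar) (qExpand Kbar q (jqModC Kbar))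
      (qExpand Kbar q (qExpand Kbar q (jqModC Kbar)))) := by
  haveI : NeZero q := ⟨hq.ne_zero⟩
  obtain ⟨d, hd, hy⟩ := h76u_yser A hq
  have hJ := h76u_Mon_jq (K := Kbar) A
  have hτ : h76u_PS0 A (jqModC Kbar)⁻¹ := (h76u_Mon_jq_inv A).ps0 one_pos
  have hσ := h76u_sigser_ps1 A s E hs hτ
  have hqd : h76u_PS0 A (HahnSeries.C (q : Kbar) * d) :=
    h76u_PS0.ps_mul (h76u_PS_C (h76u_natCast_mem A q)) hd
  have hx : h76u_PS0 A (jqModC Kbar * (qExpand Kbar q (qExpand Kbar q (jqModC Kbar)))⁻¹) := by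
    have h1 := hJ.mul ((hJ.qExpand q).qExpand q).inv
    refine h1.ps0 ?_
    have h2 : (2 : ℤ) ≤ q := by exact_mod_cast hq.two_le
    nlinarith
  unfold h76u_Sser
  rw [hy]
  refine h76u_PS1.add_ps0 ((hσ.mul (h76u_PS1_one.sub_ps0 hqd)).mul (h76u_PS1_one.sub_ps0 hx)) ?_
  have e : (1 : LaurentSeries Kbar) - (1 - HahnSeries.C (q : Kbar) * d) =
      HahnSeries.C (q : Kbar) * d := by ring
  rw [e]
  exact hqd

/-- `q = (1 - ζ) c` with `c ∈ A`. -/
theorem h76u_exists_cofactor (hq : q.Prime) {ζ : Kbar} (hζ : IsPrimitiveRoot ζ q) :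
    ∃ c : Kbar, c ∈ A ∧ (q : Kbar) = (1 - ζ) * c := by
  classical
  have hmem : ζ ∈ primitiveRoots q Kbar := (mem_primitiveRoots hq.pos).2 hζ
  refine ⟨∏ z ∈ (primitiveRoots q Kbar).erase ζ, (1 - z), ?_, ?_⟩
  · refine prod_mem fun z hz => ?_
    have hz' := (mem_primitiveRoots hq.pos).1 (Finset.mem_of_mem_erase hz)
    exact sub_mem A.one_mem
      (Fermat.Agent.Red.ESTF.h76_root_mem A hq.ne_zero hz'.pow_eq_one)
  · rw [Finset.mul_prod_erase _ _ hmem]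
    exact (h34y_prod_one_sub hq hζ).symm

/-- the expansion at `E11^ζ`. -/
theorem h76u_Sser_E11 (hq : q.Prime) {ζ : Kbar} (hζ : IsPrimitiveRoot ζ q)
    (s : (h81a_A0 A)[X]) (E : ℕ) (hs : s.coeff 0 = 1) :
    haveI : NeZero q := ⟨hq.ne_zero⟩
    ∃ v : LaurentSeries Kbar, h76u_PS1 A v ∧
      h76u_Sser A s E q (jqModC Kbar) (qExpand Kbar q (jqModC Kbar)) (twistK ζ (jqModC Kbar)) =
        HahnSeries.C (1 - ζ) * v := by
  haveI : NeZero q := ⟨hq.ne_zero⟩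
  obtain ⟨d, hd, hy⟩ := h76u_yser A hq
  have hζA : ζ ∈ A := Fermat.Agent.Red.ESTF.h76_root_mem A hq.ne_zero hζ.pow_eq_one
  have hζ0 : ζ ≠ 0 := hζ.ne_zero hq.ne_zero
  have hζ1 : ζ ≠ 1 := hζ.ne_one hq.one_lt
  obtain ⟨v, hv, hcyc⟩ := h76u_cyc (K := Kbar) A hζA hζ0 hζ1
  obtain ⟨c, hc, hqc⟩ := h76u_exists_cofactor A hq hζ
  have hτ : h76u_PS0 A (jqModC Kbar)⁻¹ := (h76u_Mon_jq_inv A).ps0 one_pos
  have hσ := h76u_sigser_ps1 A s E hs hτ
  have hqd : h76u_PS0 A (HahnSeries.C (q : Kbar) * d) :=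
    h76u_PS0.ps_mul (h76u_PS_C (h76u_natCast_mem A q)) hd
  have hcd : h76u_PS0 A (HahnSeries.C c * d) := h76u_PS0.ps_mul (h76u_PS_C hc) hd
  have hTne : twistK ζ (jqModC Kbar) ≠ 0 := by
    intro h0
    apply h76u_jq_ne_zero
    have := Fermat.Agent.Red.Kron.twistK_injective hζ0 (h0.trans
      (Fermat.Agent.Red.Kron.twistK_zero ζ).symm)
    exact this
  have hx : 1 - jqModC Kbar * (twistK ζ (jqModC Kbar))⁻¹ = HahnSeries.C (1 - ζ) * v := by
    have h1 : 1 - jqModC Kbar * (twistK ζ (jqModC Kbar))⁻¹ =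
        (twistK ζ (jqModC Kbar) - jqModC Kbar) * (twistK ζ (jqModC Kbar))⁻¹ := by
      field_simp
    rw [h1, hcyc]
    field_simp
  refine ⟨h76u_sigser A s E (jqModC Kbar)⁻¹ * (1 - HahnSeries.C (q : Kbar) * d) * v +
      HahnSeries.C c * d,
    h76u_PS1.add_ps0 ((hσ.mul (h76u_PS1_one.sub_ps0 hqd)).mul hv) hcd, ?_⟩
  unfold h76u_Sser
  rw [hy, hx]
  have e : (HahnSeries.C (q : Kbar) : LaurentSeries Kbar) =
      HahnSeries.C (1 - ζ) * HahnSeries.C c := by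
    rw [← map_mul, ← hqc]
  have e2 : (1 : LaurentSeries Kbar) - (1 - HahnSeries.C (q : Kbar) * d) =
      HahnSeries.C (1 - ζ) * (HahnSeries.C c * d) := by
    rw [e]
    ring
  rw [e2]
  ring

/-- the expansion at `E02`. -/
theorem h76u_Sser_E02 (hq : q.Prime) (s : (h81a_A0 A)[X]) (E : ℕ) (hs : s.coeff 0 = 1) :
    haveI : NeZero q := ⟨hq.ne_zero⟩
    h76u_PS1 A (h76u_Sser A s E q (qExpand Kbar q (qExpand Kbar q (jqModC Kbar)))
      (qExpand Kbar q (jqModC Kbar)) (jqModC Kbar)) := by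
  haveI : NeZero q := ⟨hq.ne_zero⟩
  have hJ := h76u_Mon_jq (K := Kbar) A
  have h2 : (2 : ℤ) ≤ q := by exact_mod_cast hq.two_le
  have ha0 := (hJ.qExpand q).qExpand q
  have hτ : h76u_PS0 A (qExpand Kbar q (qExpand Kbar q (jqModC Kbar)))⁻¹ := by
    refine ha0.inv.ps0 ?_
    nlinarith
  have hσ := h76u_sigser_ps1 A s E hs hτ
  have hy : h76u_PS0 A (qExpand Kbar q (jqModC Kbar) *
      (qExpand Kbar q (qExpand Kbar q (jqModC Kbar)))⁻¹ ^ q) := by
    refine ((hJ.qExpand q).mul (ha0.inv.pow q)).ps0 ?_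
    have h3 : (0 : ℤ) < (q : ℤ) * q - 1 := by nlinarith
    have h4 : (q : ℤ) * -1 + (q : ℤ) * -((q : ℤ) * ((q : ℤ) * -1)) = q * ((q : ℤ) * q - 1) := by
      ring
    rw [h4]
    positivity
  have hyx : h76u_PS0 A (qExpand Kbar q (jqModC Kbar) *
      (qExpand Kbar q (qExpand Kbar q (jqModC Kbar)))⁻¹ ^ q *
      (qExpand Kbar q (qExpand Kbar q (jqModC Kbar)) * (jqModC Kbar)⁻¹)) := by
    refine (((hJ.qExpand q).mul (ha0.inv.pow q)).mul (ha0.mul hJ.inv)).ps0 ?_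
    have h4 : (q : ℤ) * -1 + (q : ℤ) * -((q : ℤ) * ((q : ℤ) * -1)) +
        ((q : ℤ) * ((q : ℤ) * -1) + - -1) = ((q : ℤ) - 1) * (((q : ℤ) - 1) * ((q : ℤ) + 1)) := by
      ring
    rw [h4]
    have h5 : (0 : ℤ) < (q : ℤ) - 1 := by omega
    positivity
  unfold h76u_Sser
  set a₀ := qExpand Kbar q (qExpand Kbar q (jqModC Kbar)) with ha₀
  set a₁ := qExpand Kbar q (jqModC Kbar) with ha₁
  have e : h76u_sigser A s E a₀⁻¹ * (a₁ * a₀⁻¹ ^ q) * (1 - a₀ * (jqModC Kbar)⁻¹) +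
      (1 - a₁ * a₀⁻¹ ^ q) =
      (1 - a₁ * a₀⁻¹ ^ q) + h76u_sigser A s E a₀⁻¹ *
        (a₁ * a₀⁻¹ ^ q - a₁ * a₀⁻¹ ^ q * (a₀ * (jqModC Kbar)⁻¹)) := by
    ring
  rw [e]
  exact h76u_PS1.add_ps0 (h76u_PS1_one.sub_ps0 hy) (h76u_PS0.ps_mul hσ.ps (hy.sub hyx))

end Series

/-! ## the expansions of `S` -/

section Expand

variable (M q : ℕ) [NeZero M] [NeZero q] (A : ValuationSubring Kbar)

theorem h76u_coe_cst (N : ℕ) (c : Kbar) :
    ((cst N c : FF N) : LaurentSeries Kbar) = HahnSeries.C c := by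
  show algebraMap Kbar (LaurentSeries Kbar) c = HahnSeries.C c
  rw [algebraMap_laurentSeries_eq_single]
  rfl

/-- the image of `S` under a ring homomorphism which is the identity on the constants. -/
theorem h76u_map_S (Φ : FF (M * q * q) →+* LaurentSeries Kbar)
    (hΦ : ∀ c : Kbar, Φ (cst (M * q * q) c) = HahnSeries.C c)
    (s : (h81a_A0 A)[X]) (E : ℕ) :
    Φ (h76u_S M q A s E) =
      h76u_Sser A s E q (Φ (jB (M * q * q))) (Φ (h76u_j1 M q)) (Φ (h76u_j2 M q)) := by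
  have hσ : Φ (h64c_ev A (M * q * q) (h76u_t0 M q) s) =
      eval₂ ((HahnSeries.C : Kbar →+* LaurentSeries Kbar).comp (h76u_incl A))
        (Φ (jB (M * q * q)))⁻¹ s := by
    unfold h64c_ev
    rw [coe_eval₂RingHom, Polynomial.hom_eval₂, h76u_t0, map_inv₀]
    congr 1
    ext a : 1
    exact hΦ _
  unfold h76u_S h76u_Sser h76u_sigser h76u_sig h76u_y1 h76u_x
  rw [map_add, map_mul, map_mul, map_sub, map_sub, map_one, map_mul, map_mul, map_pow, map_pow,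
    hσ, h76u_t0, map_inv₀, map_inv₀]

theorem h76u_coe_j0 : ((jB (M * q * q) : FF (M * q * q)) : LaurentSeries Kbar) = jqModC Kbar :=
  Fermat.Agent.Red.GV.coe_jB (M * q * q)

theorem h76u_coe_j1 :
    ((h76u_j1 M q : FF (M * q * q)) : LaurentSeries Kbar) = qExpand Kbar q (jqModC Kbar) := by
  rw [h76u_j1, coe_heckeAlphaBar, coe_heckeBetaBar]
  congr 1
  exact Fermat.Agent.Red.GV.coe_jB M

theorem h76u_coe_j2 :
    ((h76u_j2 M q : FF (M * q * q)) : LaurentSeries Kbar) =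
      qExpand Kbar q (qExpand Kbar q (jqModC Kbar)) := by
  rw [h76u_j2, coe_heckeBetaBar, coe_heckeBetaBar]
  congr 2
  exact Fermat.Agent.Red.GV.coe_jB M

/-- **the expansion of `S` at `E20`.** -/
theorem h76u_E20_S (hq : q.Prime) (s : (h81a_A0 A)[X]) (E : ℕ) (hs : s.coeff 0 = 1) :
    h76u_PS1 A ((h76u_S M q A s E : FF (M * q * q)) : LaurentSeries Kbar) := by
  have h := h76u_map_S M q A (algebraMap (FF (M * q * q)) (LaurentSeries Kbar))
    (fun c => h76u_coe_cst (M * q * q) c) s E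
  have h1 : ((h76u_S M q A s E : FF (M * q * q)) : LaurentSeries Kbar) =
      h76u_Sser A s E q (jqModC Kbar) (qExpand Kbar q (jqModC Kbar))
        (qExpand Kbar q (qExpand Kbar q (jqModC Kbar))) := by
    refine h.trans ?_
    congr 1
    · exact h76u_coe_j0 M q
    · exact h76u_coe_j1 M q
    · exact h76u_coe_j2 M q
  rw [h1]
  exact h76u_Sser_E20 A hq s E hs

/-- the expansion of `S` does not depend on the level. -/
theorem h76u_coe_S (s : (h81a_A0 A)[X]) (E : ℕ) :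
    ((h76u_S M q A s E : FF (M * q * q)) : LaurentSeries Kbar) =
      h76u_Sser A s E q (jqModC Kbar) (qExpand Kbar q (jqModC Kbar))
        (qExpand Kbar q (qExpand Kbar q (jqModC Kbar))) := by
  have h := h76u_map_S M q A (algebraMap (FF (M * q * q)) (LaurentSeries Kbar))
    (fun c => h76u_coe_cst (M * q * q) c) s E
  refine h.trans ?_
  congr 1
  · exact h76u_coe_j0 M q
  · exact h76u_coe_j1 M q
  · exact h76u_coe_j2 M q

theorem h76u_cst_eq_alpha (c : Kbar) :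
    cst (M * q * q) c = heckeAlphaBar Kbar (M * q) q (cst (M * q) c) :=
  ((heckeAlphaBar Kbar (M * q) q).commutes c).symm

/-- **the expansion of `S` at `E11^ζ`.** -/
theorem h76u_E11_S (hq : q.Prime) (hqM : ¬ q ∣ M) {ζ : Kbar} (hζ : IsPrimitiveRoot ζ q)
    (Φ : FF (M * q * q) →+* LaurentSeries Kbar) (hΦ : h20n_IsE11 M q hq hqM ζ Φ)
    (s : (h81a_A0 A)[X]) (E : ℕ) (hs : s.coeff 0 = 1) :
    ∃ v : LaurentSeries Kbar, h76u_PS1 A v ∧ Φ (h76u_S M q A s E) = HahnSeries.C (1 - ζ) * v := by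
  have hcst : ∀ c : Kbar, Φ (cst (M * q * q) c) = HahnSeries.C c := by
    intro c
    rw [h76u_cst_eq_alpha, hΦ.1]
    exact h76u_coe_cst _ c
  have h0 : Φ (jB (M * q * q)) = jqModC Kbar := by
    rw [h76u_jB_eq, hΦ.1]
    exact Fermat.Agent.Red.GV.coe_jB (M * q)
  have h1 : Φ (h76u_j1 M q) = qExpand Kbar q (jqModC Kbar) := by
    rw [h76u_j1, hΦ.1, coe_heckeBetaBar]
    congr 1
    exact Fermat.Agent.Red.GV.coe_jB M
  have h2 : Φ (h76u_j2 M q) = twistK ζ (jqModC Kbar) := by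
    rw [h76u_j2, hΦ.2, kFricke_beta, coe_heckeAlphaBar]
    congr 1
    exact Fermat.Agent.Red.GV.coe_jB M
  rw [h76u_map_S M q A Φ hcst s E, h0, h1, h2]
  exact h76u_Sser_E11 A hq hζ s E hs

/-- **the expansion of `S` at `E02`.** -/
theorem h76u_E02_S (hq : q.Prime) (hqM : ¬ q ∣ M)
    (Φ : FF (M * q * q) →+* LaurentSeries Kbar) (hΦ : h20n_IsE02 M q hq hqM Φ)
    (s : (h81a_A0 A)[X]) (E : ℕ) (hs : s.coeff 0 = 1) :
    h76u_PS1 A (Φ (h76u_S M q A s E)) := by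
  have hcst : ∀ c : Kbar, Φ (cst (M * q * q) c) = HahnSeries.C c := by
    intro c
    rw [h76u_cst_eq_alpha, hΦ.1]
    have e : kFricke M q hq hqM (cst (M * q) c) = cst (M * q) c :=
      (kFricke M q hq hqM).commutes c
    rw [e, h76u_coe_cst, qExpand_C]
  have h0 : Φ (jB (M * q * q)) = qExpand Kbar q (qExpand Kbar q (jqModC Kbar)) := by
    rw [h76u_jB_eq, hΦ.1, h76u_jB1_eq, kFricke_alpha, coe_heckeBetaBar]
    congr 2
    exact Fermat.Agent.Red.GV.coe_jB M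
  have h1 : Φ (h76u_j1 M q) = qExpand Kbar q (jqModC Kbar) := by
    rw [h76u_j1, hΦ.1, kFricke_beta, coe_heckeAlphaBar]
    congr 1
    exact Fermat.Agent.Red.GV.coe_jB M
  have h2 : Φ (h76u_j2 M q) = jqModC Kbar := by
    rw [h76u_j2, hΦ.2, kFricke_beta, coe_heckeAlphaBar]
    exact Fermat.Agent.Red.GV.coe_jB M
  rw [h76u_map_S M q A Φ hcst s E, h0, h1, h2]
  exact h76u_Sser_E02 A hq s E hs

end Expand

end Fermat.Agent.S36
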