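import Fermat.Agent.S36.H76CuspInt
import Fermat.Agent.S36.H76CuspExp
import Fermat.Agent.S36.H20U11Asm
import Fermat.Agent.S36.H18CuspWire2

/-!
# S36, block REG, row R-CUSP (helper18): the certificate at the middle cusps and the cusp case

Bridge between the landed pieces of R-CUSP-UNIT11:

* helper76 (`S36/H76CuspInt.lean`, `S36/H76CuspExp.lean`): the function
  `S = σ y₁ (1 - j₀/j₂) + (1 - y₁)`, its membership in the chart at infinity over the inertia
  ring and its expansions at `E20`, `E11^ζ`, `E02` (`h76u_PS1` form);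
* helper20 (`S36/H20U11Asm.lean`): `h20u_unit11_of_cert : H20U11Cert → H18cUnit11`
  (`h20u_UPS` form).

Results:

* `h18u_ups_of_ps1` : `h76u_PS1 A s → h20u_UPS A s`;
* `h18u_cert : H20U11Cert`, `h18u_unit11 : H18cUnit11`;
* `h18c_cusp : H18cCusp`, `h18c_cuspOne : H95CuspOne`, `h18c_leafCusp : H62LeafCusp`,
  `h18c_locCusp : H11LocCusp` — the cusp case of REG, unconditional.
-/

set_option autoImplicit false

open AlgebraicCurve ModularCurve

noncomputable section

namespace Fermat.Agent.S36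

open Fermat.Agent.S37 (Kbar)

/-- the two notions of "unit of `A⟦t⟧`" agree. -/
theorem h18u_ups_of_ps1 {A : ValuationSubring Kbar} {s : LaurentSeries Kbar}
    (h : h76u_PS1 A s) : h20u_UPS A s := by
  rw [h76u_PS1_iff, h76u_PS_iff] at h
  rw [h20u_ups_iff]
  exact ⟨h.1.2, h.1.1, h.2.1, h.2.2⟩

/-- **the certificate at the level `1 · q · q`.** -/
theorem h18u_cert : H20U11Cert := by
  intro q hq A hA
  have : NeZero q := ⟨hq.ne_zero⟩
  obtain ⟨s, E, hs0, hZ⟩ := h76u_exists_mult 1 q A hq (h20u_not_dvd_one hq) hA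
  refine ⟨h76u_S 1 q A s E, h76u_S_mem 1 q A hq (h20u_not_dvd_one hq) hA s E hZ, ?_, ?_, ?_⟩
  · exact h18u_ups_of_ps1 (h76u_E20_S 1 q A hq s E hs0)
  · intro E0 hE0
    exact h18u_ups_of_ps1 (h76u_E02_S 1 q A hq (h20u_not_dvd_one hq) E0 hE0 s E hs0)
  · intro ζ hζ Φ hΦ
    obtain ⟨v, hv, hveq⟩ := h76u_E11_S 1 q A hq (h20u_not_dvd_one hq) hζ Φ hΦ s E hs0
    exact ⟨v, h18u_ups_of_ps1 hv, hveq⟩

/-- **R-CUSP-UNIT11.** -/
theorem h18u_unit11 : H18cUnit11 := h20u_unit11_of_cert h18u_cert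

/-- **R-CUSP**: the one-branch datum at every cusp of the chart at infinity of level `M q²`. -/
theorem h18c_cusp : H18cCusp := h18c_cusp_of_unit11 h18u_unit11

/-- the strong cusp leaf. -/
theorem h18c_cuspOne : H95CuspOne := h18c_cuspOne_of_unit11 h18u_unit11

/-- the cusp leaf of REG. -/
theorem h18c_leafCusp : H62LeafCusp := h18c_leafCusp_of_unit11 h18u_unit11

/-- the leaf L-CUSP of `H92Loc`. -/
theorem h18c_locCusp : H11LocCusp := h18c_locCusp_of_unit11 h18u_unit11

end Fermat.Agent.S36
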