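import Fermat.Agent.S36.H20NormSkel
import Fermat.Agent.S36.H71NormBeta

/-!
# S36, block (N), row N-NORM-C (helper19)

`h19c_normC : H20NormC` : for `u ∈ F₂ = FF (M q q)`, `w` the Fricke involution of `F₁ = FF (M q)`,

  `(w (Nm_β u))(t) = E02 u · ∏_{0 < b < q} (E11^{ζ^(q-b)} u)(ζ^b t)`.

The `q` embeddings of `F₂` on the right restrict along `β` to the embedding `x ↦ (w x)(t)` of
`F₁`; they are pairwise distinct on `α j` (coefficient of `t⁻¹`), and `[F₂ : β F₁] = q`.
Exact frozen `Prop` of `S36/H20NormSkel.lean`.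
-/

set_option autoImplicit false
set_option linter.style.haveILetI false
set_option linter.unusedSectionVars false

open AlgebraicCurve ModularCurve

noncomputable section

namespace Fermat.Agent.S36

open Fermat.Agent.S37 (Kbar GQ FF cst gal)
open Fermat.Agent.Red.KR (normAlong)
open Fermat.Agent.Red.Kron
open Fermat.Agent.Red.HKComm

/-- **N-NORM-C.** -/
theorem h19c_normC : H20NormC := by
  intro q hq M _ hqM
  haveI : NeZero q := ⟨hq.ne_zero⟩
  intro ζ hζ E0 hE0 E hE u
  letI := algebraAlong (heckeBetaBar Kbar (M * q) q)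
  haveI : FiniteDimensional (FF (M * q)) (FF (M * q * q)) :=
    Fermat.Agent.Red.HKMod.finiteAlong_heckeBetaBar (M * q) q
  haveI : Algebra.IsSeparable (FF (M * q)) (FF (M * q * q)) := inferInstance
  have hζ0 : ∀ b : ℕ, ζ ^ b ≠ 0 := fun b => pow_ne_zero _ (hζ.ne_zero (NeZero.ne q))
  -- the base embedding `x ↦ (w x)(t)`
  let ι : FF (M * q) →+* LaurentSeries Kbar :=
    (algebraMap (FF (M * q)) (LaurentSeries Kbar)).comp
      ((kFricke M q hq hqM : FF (M * q) ≃ₐ[Kbar] FF (M * q)) : FF (M * q) →+* FF (M * q))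
  -- the family of embeddings
  let f : ℕ → (FF (M * q * q) →+* LaurentSeries Kbar) := fun b =>
    if b = 0 then E0 else (twistHom (ζ ^ b) (hζ0 b)).comp (E (q - b))
  have hf0 : f 0 = E0 := if_pos rfl
  have hfb : ∀ b : ℕ, b ≠ 0 → f b = (twistHom (ζ ^ b) (hζ0 b)).comp (E (q - b)) :=
    fun b hb => if_neg hb
  have hEb : ∀ b : ℕ, b ≠ 0 → b < q → h20n_IsE11 M q hq hqM (ζ ^ (q - b)) (E (q - b)) :=
    fun b hb hbq => hE (q - b) (Nat.sub_pos_of_lt hbq) (Nat.sub_lt hq.pos (Nat.pos_of_ne_zero hb))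
  -- restriction along `β`
  have hcomm : ∀ (b : Fin q) (x : FF (M * q)),
      f b (algebraMap (FF (M * q)) (FF (M * q * q)) x) = ι x := by
    intro b x
    have hx : algebraMap (FF (M * q)) (FF (M * q * q)) x = heckeBetaBar Kbar (M * q) q x := rfl
    rw [hx]
    by_cases hb : (b : ℕ) = 0
    · rw [hb, hf0, hE0.2 x]
      rfl
    · rw [hfb b hb, RingHom.comp_apply, (hEb b hb b.2).2 x, twistHom_apply, twistK_twistK,
        ← pow_add, Nat.sub_add_cancel b.2.le, hζ.pow_eq_one, twistK_one_left]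
      rfl
  -- distinctness on `α j`
  have hval0 : (f 0 (heckeAlphaBar Kbar (M * q) q (Fermat.Agent.S24.jBar (M * q)))).coeff (-1) = 0 := by
    rw [hf0, hE0.1]
    apply qExpand_coeff_of_not_dvd
    intro hdvd
    have h1 : (q : ℤ) ∣ 1 := (dvd_neg.mp hdvd)
    have h2 : q ∣ 1 := by exact_mod_cast h1
    exact hq.one_lt.ne' (Nat.dvd_one.mp h2)
  have hvalb : ∀ b : ℕ, b ≠ 0 → b < q →
      (f b (heckeAlphaBar Kbar (M * q) q (Fermat.Agent.S24.jBar (M * q)))).coeff (-1) = (ζ ^ b)⁻¹ := by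
    intro b hb hbq
    rw [hfb b hb, RingHom.comp_apply, (hEb b hb hbq).1, twistHom_apply, coeff_twistK,
      h71m_coeff_jBar_neg_one, one_mul, zpow_neg_one]
  have hinj : Function.Injective (fun b : Fin q => f b) := by
    intro a b hab
    have h1 : (f a (heckeAlphaBar Kbar (M * q) q (Fermat.Agent.S24.jBar (M * q)))).coeff (-1) =
        (f b (heckeAlphaBar Kbar (M * q) q (Fermat.Agent.S24.jBar (M * q)))).coeff (-1) := by
      have := congrArg (fun e : FF (M * q * q) →+* LaurentSeries Kbar =>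
        (e (heckeAlphaBar Kbar (M * q) q (Fermat.Agent.S24.jBar (M * q)))).coeff (-1)) hab
      exact this
    apply Fin.ext
    by_cases ha : (a : ℕ) = 0
    · by_cases hb : (b : ℕ) = 0
      · rw [ha, hb]
      · exfalso
        rw [ha, hval0, hvalb b hb b.2] at h1
        exact inv_ne_zero (hζ0 b) h1.symm
    · by_cases hb : (b : ℕ) = 0
      · exfalso
        rw [hb, hval0, hvalb a ha a.2] at h1
        exact inv_ne_zero (hζ0 a) h1
      · rw [hvalb a ha a.2, hvalb b hb b.2] at h1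
        exact hζ.pow_inj a.2 b.2 (inv_injective h1)
  have hcard : Fintype.card (Fin q) = Module.finrank (FF (M * q)) (FF (M * q * q)) := by
    rw [Fintype.card_fin]
    exact (h71m_finrank_beta (M * q) q hq (dvd_mul_left q M)).symm
  have key := norm_eq_prod_of_embeddings (K := FF (M * q)) (L := FF (M * q * q)) ι
    (fun b : Fin q => f b) hinj hcomm hcard u
  have hLHS : ((kFricke M q hq hqM (normAlong (heckeBetaBar Kbar (M * q) q) u) : FF (M * q)) :
      LaurentSeries Kbar) = ι (Algebra.norm (FF (M * q)) u) := rfl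
  rw [hLHS, key, Fin.prod_univ_eq_prod_range (fun b : ℕ => f b u) q, Finset.range_eq_Ico,
    Finset.prod_eq_prod_Ico_succ_bot hq.pos, hf0]
  congr 1
  have hIco : Finset.Ico (0 + 1) q = Finset.Ioo 0 q := by
    ext b
    simp only [Finset.mem_Ico, Finset.mem_Ioo]
    omega
  rw [hIco]
  refine Finset.prod_congr rfl (fun b hb => ?_)
  have hb0 : b ≠ 0 := (Finset.mem_Ioo.mp hb).1.ne'
  rw [hfb b hb0]
  rfl

end Fermat.Agent.S36
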