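import Mathlib.RingTheory.Trace.Quotient
import Mathlib.RingTheory.Norm.Transitivity
import Mathlib.RingTheory.Ideal.Quotient.Operations
import Mathlib.RingTheory.DedekindDomain.Ideal.Lemmas
import Mathlib.FieldTheory.PurelyInseparable.Basic
import Mathlib.LinearAlgebra.Determinant

/-!
# S36 / block N (helper19): the abstract norm lemma (residue of a norm)

Mathlib only.  `A` a local ring with maximal ideal `𝔭` and residue field `k = A ⧸ 𝔭`, `B` a
Dedekind domain which is a finite free `A`-algebra (e.g. `A` a DVR, `B` its integral closure in a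
finite separable extension of `Frac A`).  If `𝔭 B = P₁ ⋯ Pₙ` (maximal ideals, with repetitions),
then for every `u : B`

  `(Algebra.norm A u mod 𝔭) = ∏ᵢ N_{(B ⧸ Pᵢ) / k} (u mod Pᵢ)`.

In particular `𝔭 B = P₁ ^ a * P₂ ^ b` gives `N(u) mod 𝔭 = N₁(u mod P₁) ^ a * N₂(u mod P₂) ^ b`.
-/

set_option autoImplicit false

open Module IsLocalRing

namespace Fermat.Agent.S36


section Chi

variable (k : Type*) {V : Type*} [Field k] [CommRing V] [Algebra k V]

/-- the determinant over `k` of the action of `u : V` on a `V`-module `M`. -/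
noncomputable def h19n_chi (M : Type*) [AddCommGroup M] [Module V M] [Module k M]
    [IsScalarTower k V M] (u : V) : k :=
  LinearMap.det ((Algebra.lsmul k k M) u)

variable {k}
variable {M M' : Type*} [AddCommGroup M] [Module V M] [Module k M] [IsScalarTower k V M]
  [AddCommGroup M'] [Module V M'] [Module k M'] [IsScalarTower k V M']

theorem h19n_chi_equiv (e : M ≃ₗ[V] M') (u : V) : h19n_chi k M u = h19n_chi k M' u := by
  unfold h19n_chi
  rw [← LinearMap.det_conj ((Algebra.lsmul k k M) u) (e.restrictScalars k)]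
  congr 1
  ext x
  simp

theorem h19n_chi_self (u : V) : h19n_chi k V u = Algebra.norm k u := by
  unfold h19n_chi
  rw [Algebra.norm_apply]
  rfl

theorem h19n_chi_quot (P : Ideal V) (u : V) :
    h19n_chi k (V ⧸ P) u = Algebra.norm k (Ideal.Quotient.mk P u) := by
  unfold h19n_chi
  rw [Algebra.norm_apply]
  rfl


theorem h19n_chi_submodule [FiniteDimensional k M] (W : Submodule V M) (u : V) :
    h19n_chi k M u = h19n_chi k W u * h19n_chi k (M ⧸ W) u := by
  unfold h19n_chi
  set e : M →ₗ[k] M := (Algebra.lsmul k k M) u with he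
  set W' : Submodule k M := W.restrictScalars k with hW'
  have hst : W' ≤ W'.comap e := by
    intro x hx
    rw [Submodule.mem_comap]
    change u • x ∈ W
    exact W.smul_mem u hx
  rw [LinearMap.det_eq_det_mul_det W' e hst]
  congr 1

/-- the chain step: if `J / J𝔓 ≅ V / 𝔓` (generated by `a`), then
`χ (V / J𝔓) = χ (V / J) χ (V / 𝔓)`. -/
theorem h19n_chi_quot_mul [FiniteDimensional k V] (J P : Ideal V) (a : V) (ha : a ∈ J)
    (hsurj : ∀ y ∈ J, ∃ x, y - a * x ∈ J * P) (hker : ∀ x, a * x ∈ J * P → x ∈ P) (u : V) :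
    h19n_chi k (V ⧸ (J * P)) u = h19n_chi k (V ⧸ J) u * h19n_chi k (V ⧸ P) u := by
  have hle : J * P ≤ J := Ideal.mul_le_right (I := P) (J := J) |> fun h => (mul_comm P J ▸ h)
  -- the image of `J` in `V ⧸ J * P`
  set W : Submodule V (V ⧸ (J * P)) := Submodule.map (Submodule.mkQ (J * P)) J with hW
  rw [h19n_chi_submodule (k := k) W u, mul_comm]
  congr 1
  · -- the quotient is `V ⧸ J`
    exact h19n_chi_equiv (Submodule.quotientQuotientEquivQuotient (J * P) J hle) u
  · -- the submodule is `V ⧸ P`
    let φ : V →ₗ[V] W :=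
      { toFun := fun x => ⟨Submodule.mkQ (J * P) (a * x),
          Submodule.mem_map_of_mem (J.mul_mem_right x ha)⟩
        map_add' := fun x y => by
          apply Subtype.ext
          simp [mul_add]
        map_smul' := fun c x => by
          apply Subtype.ext
          change Submodule.mkQ (J * P) (a * (c • x)) = c • Submodule.mkQ (J * P) (a * x)
          rw [← LinearMap.map_smul, smul_eq_mul, smul_eq_mul, mul_left_comm] }
    have hφs : Function.Surjective φ := by
      rintro ⟨w, hw⟩
      obtain ⟨y, hy, rfl⟩ := Submodule.mem_map.mp hw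
      obtain ⟨x, hx⟩ := hsurj y hy
      refine ⟨x, Subtype.ext ?_⟩
      change Submodule.mkQ (J * P) (a * x) = Submodule.mkQ (J * P) y
      rw [Submodule.mkQ_apply, Submodule.mkQ_apply, eq_comm, Submodule.Quotient.eq]
      exact hx
    have hφk : LinearMap.ker φ = P := by
      ext x
      rw [LinearMap.mem_ker]
      constructor
      · intro h
        apply hker x
        have := congrArg Subtype.val h
        change Submodule.mkQ (J * P) (a * x) = 0 at this
        rwa [Submodule.mkQ_apply, Submodule.Quotient.mk_eq_zero] at this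
      · intro hx
        apply Subtype.ext
        change Submodule.mkQ (J * P) (a * x) = 0
        rw [Submodule.mkQ_apply, Submodule.Quotient.mk_eq_zero]
        exact Ideal.mul_mem_mul ha hx
    have e1 : (V ⧸ LinearMap.ker φ) ≃ₗ[V] W := φ.quotKerEquivOfSurjective hφs
    have e2 : (V ⧸ LinearMap.ker φ) ≃ₗ[V] (V ⧸ P) := Submodule.quotEquivOfEq _ _ hφk
    exact h19n_chi_equiv (e1.symm.trans e2) u

end Chi



section Ded

variable {B : Type*} [CommRing B] [IsDedekindDomain B]

/-- In a Dedekind domain, `I / I P` is generated by one element and is isomorphic to `B / P`. -/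
theorem h19n_exists_gen (I P : Ideal B) (hI : I ≠ ⊥) (hP : P.IsMaximal) (hP0 : P ≠ ⊥) :
    ∃ a ∈ I, (∀ y ∈ I, ∃ x, y - a * x ∈ I * P) ∧ (∀ x, a * x ∈ I * P → x ∈ P) := by
  have hlt : I * P < I := by
    refine lt_of_le_of_ne (Ideal.mul_le_right (I := P) (J := I) |> fun h => (mul_comm P I ▸ h)) ?_
    intro h
    have h1 : I * P = I * 1 := by rw [mul_one]; exact h
    have h2 : P = 1 := mul_left_cancel₀ hI h1
    exact hP.ne_top (by rw [h2, Ideal.one_eq_top])
  obtain ⟨a, haI, haIP⟩ := SetLike.exists_of_lt hlt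
  refine ⟨a, haI, ?_, ?_⟩
  · -- surjectivity
    set J : Ideal B := Ideal.span {a} ⊔ I * P with hJ
    have hJI : J ≤ I := sup_le ((Ideal.span_singleton_le_iff_mem I).mpr haI) hlt.le
    have hIPJ : I * P ≤ J := le_sup_right
    have haJ : a ∈ J := Ideal.mem_sup_left (Ideal.mem_span_singleton_self a)
    obtain ⟨J', hJ'⟩ := Ideal.dvd_iff_le.mpr hJI
    have hdvd : I * J' ∣ I * P := by rw [← hJ']; exact Ideal.dvd_iff_le.mpr hIPJ
    have hJ'P : J' ∣ P := (mul_dvd_mul_iff_left hI).mp hdvd
    have hPprime : Prime P := Ideal.prime_of_isPrime hP0 hP.isPrime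
    rcases (hPprime.irreducible.dvd_iff).mp hJ'P with hu | hass
    · -- J' is a unit
      have hJ'top : J' = ⊤ := Ideal.isUnit_iff.mp hu
      have hJeq : J = I := by rw [hJ', hJ'top, Ideal.mul_top]
      intro y hy
      rw [← hJeq, hJ] at hy
      obtain ⟨z, hz, w, hw, rfl⟩ := Submodule.mem_sup.mp hy
      obtain ⟨x, rfl⟩ := Ideal.mem_span_singleton'.mp hz
      refine ⟨x, ?_⟩
      have : x * a + w - a * x = w := by ring
      rw [this]
      exact hw
    · exfalso
      have : J' = P := (associated_iff_eq.mp hass).symm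
      rw [this] at hJ'
      exact haIP (hJ' ▸ haJ)
  · -- kernel
    set K : Ideal B := Submodule.comap (LinearMap.mulLeft B a) (I * P) with hK
    have hPK : P ≤ K := by
      intro x hx
      rw [hK, Submodule.mem_comap]
      exact Ideal.mul_mem_mul haI hx
    have hKtop : K ≠ ⊤ := by
      intro h
      have h1 : (1 : B) ∈ K := h ▸ Submodule.mem_top
      rw [hK, Submodule.mem_comap] at h1
      simp only [LinearMap.mulLeft_apply, mul_one] at h1
      exact haIP h1
    have hKP : P = K := hP.eq_of_le hKtop hPK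
    intro x hx
    rw [hKP, hK, Submodule.mem_comap]
    exact hx

end Ded



section LemD

variable {R S : Type*} [CommRing R] [CommRing S] [Algebra R S]
variable [Module.Free R S] [Module.Finite R S]

attribute [local instance] Ideal.Quotient.field

/-- reduction of the norm modulo the maximal ideal (norm analogue of
`Algebra.trace_quotient_mk`). -/
theorem h19n_norm_quotient_mk [IsLocalRing R] (x : S) :
    Algebra.norm (R ⧸ maximalIdeal R) (Ideal.Quotient.mk ((maximalIdeal R).map (algebraMap R S)) x) =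
      Ideal.Quotient.mk (maximalIdeal R) (Algebra.norm R x) := by
  let ι := Module.Free.ChooseBasisIndex R S
  let b : Module.Basis ι R S := Module.Free.chooseBasis R S
  classical
  rw [Algebra.norm_eq_matrix_det b, Algebra.norm_eq_matrix_det (basisQuotient b), RingHom.map_det]
  congr 1
  ext i j
  simp only [Algebra.leftMulMatrix_apply, Algebra.coe_lmul_eq_mul, LinearMap.toMatrix_apply,
    basisQuotient_apply, LinearMap.mul_apply', RingHom.mapMatrix_apply, Matrix.map_apply, ← map_mul,
    basisQuotient_repr]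

end LemD


section Main

variable {A B : Type*} [CommRing A] [IsLocalRing A] [CommRing B] [IsDedekindDomain B]
  [Algebra A B] [Module.Free A B] [Module.Finite A B]

attribute [local instance] Ideal.Quotient.field

local notation "pB" => Ideal.map (algebraMap A B) (maximalIdeal A)

omit [IsDedekindDomain B] in
theorem h19n_finiteDimensional :
    FiniteDimensional (A ⧸ maximalIdeal A) (B ⧸ pB) :=
  Module.Finite.of_basis (basisQuotient (Module.Free.chooseBasis A B))

/-- the residue norm at `P` (no `LiesOver` instance needed): the determinant over `k = A ⧸ 𝔭` of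
the multiplication by `u` on `B ⧸ P`, the latter written as a quotient of `B ⧸ 𝔭 B`. -/
noncomputable def h19n_resNorm (A : Type*) {B : Type*} [CommRing A] [IsLocalRing A] [CommRing B]
    [Algebra A B] (P : Ideal B) (u : B) : A ⧸ maximalIdeal A :=
  h19n_chi (A ⧸ maximalIdeal A)
    ((B ⧸ Ideal.map (algebraMap A B) (maximalIdeal A)) ⧸
      P.map (Ideal.Quotient.mk (Ideal.map (algebraMap A B) (maximalIdeal A))))
    (Ideal.Quotient.mk (Ideal.map (algebraMap A B) (maximalIdeal A)) u)

theorem h19n_chi_list (L : List (Ideal B)) (hL : ∀ P ∈ L, P.IsMaximal ∧ P ≠ ⊥)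
    (hle : pB ≤ L.prod) (u : B) :
    h19n_chi (A ⧸ maximalIdeal A) ((B ⧸ pB) ⧸ (L.prod).map (Ideal.Quotient.mk pB))
      (Ideal.Quotient.mk pB u) = (L.map (fun P => h19n_resNorm A P u)).prod := by
  have : FiniteDimensional (A ⧸ maximalIdeal A) (B ⧸ pB) := h19n_finiteDimensional
  induction L with
  | nil =>
    simp only [List.prod_nil, List.map_nil]
    have hsub : Subsingleton ((B ⧸ pB) ⧸ (1 : Ideal B).map (Ideal.Quotient.mk pB)) := by
      rw [Ideal.one_eq_top, Ideal.map_top]
      exact Ideal.Quotient.subsingleton_iff.mpr rfl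
    unfold h19n_chi
    exact LinearMap.det_eq_one_of_subsingleton _
  | cons P L ih =>
    have hP := hL P (List.mem_cons_self)
    have hL' : ∀ Q ∈ L, Q.IsMaximal ∧ Q ≠ ⊥ := fun Q hQ => hL Q (List.mem_cons_of_mem _ hQ)
    rw [List.prod_cons] at hle
    have hI0 : L.prod ≠ ⊥ := by
      rw [← Ideal.zero_eq_bot]
      exact List.prod_ne_zero (fun h0 => (hL' 0 h0).2 Ideal.zero_eq_bot)
    have hle' : pB ≤ L.prod :=
      hle.trans (Ideal.mul_le_right (I := P) (J := L.prod))
    have hleIP : pB ≤ L.prod * P := by rwa [mul_comm]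
    obtain ⟨a, haI, hsurj, hker⟩ := h19n_exists_gen L.prod P hI0 hP.1 hP.2
    rw [List.map_cons, List.prod_cons (a := h19n_resNorm A P u), mul_comm (h19n_resNorm A P u),
      ← ih hL' hle']
    have hmap : (P :: L).prod.map (Ideal.Quotient.mk pB) =
        L.prod.map (Ideal.Quotient.mk pB) * P.map (Ideal.Quotient.mk pB) := by
      rw [List.prod_cons, mul_comm, Ideal.map_mul]
    rw [h19n_chi_equiv (Submodule.quotEquivOfEq _ _ hmap)]
    refine h19n_chi_quot_mul (k := A ⧸ maximalIdeal A) _ _ (Ideal.Quotient.mk pB a)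
      (Ideal.mem_map_of_mem _ haI) ?_ ?_ _
    · intro y hy
      obtain ⟨y, hyI, rfl⟩ := (Ideal.mem_map_iff_of_surjective _
        Ideal.Quotient.mk_surjective).mp hy
      obtain ⟨x, hx⟩ := hsurj y hyI
      refine ⟨Ideal.Quotient.mk pB x, ?_⟩
      rw [← Ideal.map_mul, ← map_mul, ← map_sub]
      exact Ideal.mem_map_of_mem _ hx
    · intro x hx
      obtain ⟨x, rfl⟩ := Ideal.Quotient.mk_surjective x
      rw [← Ideal.map_mul, ← map_mul] at hx
      obtain ⟨z, hz, hzx⟩ := (Ideal.mem_map_iff_of_surjective _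
        Ideal.Quotient.mk_surjective).mp hx
      have hdiff : z - a * x ∈ pB := Ideal.Quotient.eq.mp hzx
      have hax : a * x ∈ L.prod * P := by
        have : a * x = z - (z - a * x) := by ring
        rw [this]
        exact Ideal.sub_mem _ hz (hleIP hdiff)
      exact Ideal.mem_map_of_mem _ (hker x hax)

/-- **The abstract norm lemma, list form.**  If `𝔭 B = P₁ ⋯ Pₙ`, then
`N(u) mod 𝔭 = ∏ᵢ resNorm Pᵢ u`. -/
theorem h19n_residue_norm_list (L : List (Ideal B)) (hL : ∀ P ∈ L, P.IsMaximal ∧ P ≠ ⊥)
    (hprod : L.prod = pB) (u : B) :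
    Ideal.Quotient.mk (maximalIdeal A) (Algebra.norm A u) =
      (L.map (fun P => h19n_resNorm A P u)).prod := by
  rw [← h19n_chi_list L hL hprod.ge u, ← h19n_norm_quotient_mk, ← h19n_chi_self]
  have hbot : (L.prod).map (Ideal.Quotient.mk pB) = ⊥ := by
    rw [hprod, Ideal.map_quotient_self]
  exact h19n_chi_equiv (Submodule.quotEquivOfEqBot _ hbot).symm _


omit [IsDedekindDomain B] [Module.Free A B] [Module.Finite A B] in
/-- for `P` lying over `𝔭`, the residue norm is the norm of the residue field extension. -/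
theorem h19n_resNorm_eq (P : Ideal B) [P.LiesOver (maximalIdeal A)] (u : B) :
    h19n_resNorm A P u = Algebra.norm (A ⧸ maximalIdeal A) (Ideal.Quotient.mk P u) := by
  have hle : pB ≤ P := by
    rw [Ideal.map_le_iff_le_comap]
    exact (Ideal.LiesOver.over (P := P) (p := maximalIdeal A)).le
  unfold h19n_resNorm
  rw [h19n_chi_quot]
  let e0 : ((B ⧸ pB) ⧸ P.map (Ideal.Quotient.mk pB)) ≃+* B ⧸ P :=
    DoubleQuot.quotQuotEquivQuotOfLE hle
  let e : ((B ⧸ pB) ⧸ P.map (Ideal.Quotient.mk pB)) ≃ₐ[A ⧸ maximalIdeal A] B ⧸ P :=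
    AlgEquiv.ofRingEquiv (f := e0) (by
      intro c
      obtain ⟨c, rfl⟩ := Ideal.Quotient.mk_surjective c
      rw [Ideal.Quotient.algebraMap_mk_of_liesOver]
      exact DoubleQuot.quotQuotEquivQuotOfLE_quotQuotMk (algebraMap A B c) hle)
  rw [← Algebra.norm_eq_of_algEquiv e]
  congr 1

/-- **The abstract norm lemma, one prime.**  If `𝔭 B = P ^ e`, then
`N(u) mod 𝔭 = N_{(B ⧸ P) / k}(u mod P) ^ e`. -/
theorem h19n_residue_norm_one (P : Ideal B) [P.LiesOver (maximalIdeal A)] (hP : P.IsMaximal)
    (hP0 : P ≠ ⊥) (e : ℕ) (h : pB = P ^ e) (u : B) :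
    Ideal.Quotient.mk (maximalIdeal A) (Algebra.norm A u) =
      Algebra.norm (A ⧸ maximalIdeal A) (Ideal.Quotient.mk P u) ^ e := by
  rw [h19n_residue_norm_list (List.replicate e P) (fun Q hQ => by
    rw [List.eq_of_mem_replicate hQ]; exact ⟨hP, hP0⟩) (by rw [List.prod_replicate, h]) u,
    List.map_replicate, List.prod_replicate, h19n_resNorm_eq]

/-- **The abstract norm lemma, two primes.**  If `𝔭 B = P₁ ^ a * P₂ ^ b`, then
`N(u) mod 𝔭 = N₁(u mod P₁) ^ a * N₂(u mod P₂) ^ b`. -/
theorem h19n_residue_norm_two (P₁ P₂ : Ideal B) [P₁.LiesOver (maximalIdeal A)]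
    [P₂.LiesOver (maximalIdeal A)] (hP₁ : P₁.IsMaximal) (hP₂ : P₂.IsMaximal)
    (h₁ : P₁ ≠ ⊥) (h₂ : P₂ ≠ ⊥) (a b : ℕ) (h : pB = P₁ ^ a * P₂ ^ b) (u : B) :
    Ideal.Quotient.mk (maximalIdeal A) (Algebra.norm A u) =
      Algebra.norm (A ⧸ maximalIdeal A) (Ideal.Quotient.mk P₁ u) ^ a *
        Algebra.norm (A ⧸ maximalIdeal A) (Ideal.Quotient.mk P₂ u) ^ b := by
  rw [h19n_residue_norm_list (List.replicate a P₁ ++ List.replicate b P₂) (fun Q hQ => by
    rcases List.mem_append.mp hQ with hQ | hQ
    · rw [List.eq_of_mem_replicate hQ]; exact ⟨hP₁, h₁⟩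
    · rw [List.eq_of_mem_replicate hQ]; exact ⟨hP₂, h₂⟩)
    (by rw [List.prod_append, List.prod_replicate, List.prod_replicate, h]) u,
    List.map_append, List.prod_append, List.map_replicate, List.map_replicate,
    List.prod_replicate, List.prod_replicate, h19n_resNorm_eq, h19n_resNorm_eq]

end Main

section Insep

open Polynomial IntermediateField

variable {K L : Type*} [Field K] [Field L] [Algebra K L]

/-- the norm of a purely inseparable finite extension is the `[L : K]`-th power. -/
theorem h19n_norm_purelyInseparable [FiniteDimensional K L] [IsPurelyInseparable K L] (x : L) :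
    algebraMap K L (Algebra.norm K x) = x ^ finrank K L := by
  obtain ⟨q, hq⟩ := ExpChar.exists K
  obtain ⟨n, hn⟩ := IsPurelyInseparable.minpoly_eq_X_sub_C_pow K q x
  have hsplit : ((minpoly K x).map (algebraMap K L)).Splits := by
    rw [hn]
    exact (Polynomial.Splits.X_sub_C x).pow _
  rw [Algebra.norm_eq_prod_roots L hsplit]
  have hroots : (minpoly K x).aroots L = (q ^ n) • ({x} : Multiset L) := by
    rw [Polynomial.aroots_def, hn, Polynomial.roots_pow, Polynomial.roots_X_sub_C]
  have hx : IsIntegral K x := IsIntegral.of_finite K x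
  have hdeg : finrank K K⟮x⟯ = q ^ n := by
    rw [adjoin.finrank hx]
    have := congrArg Polynomial.natDegree hn
    rw [Polynomial.natDegree_map, Polynomial.natDegree_pow, Polynomial.natDegree_X_sub_C,
      mul_one] at this
    exact this
  rw [hroots, Multiset.prod_nsmul, Multiset.prod_singleton, ← pow_mul, ← hdeg,
    Module.finrank_mul_finrank]

/-- the norm of an extension of degree one is the identity. -/
theorem h19n_norm_of_bijective {k k' : Type*} [Field k] [CommRing k'] [Algebra k k']
    (h : Function.Bijective (algebraMap k k')) (x : k') :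
    algebraMap k k' (Algebra.norm k x) = x := by
  let e : k ≃ₐ[k] k' := AlgEquiv.ofBijective (Algebra.ofId k k') h
  rw [← Algebra.norm_eq_of_algEquiv e.symm, Algebra.norm_self]
  exact e.apply_symm_apply x

end Insep


end Fermat.Agent.S36
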