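import Fermat.Agent.S36.H64ChartNoeth
import Fermat.Agent.S36.H69BaseRes
import Fermat.Agent.S36.H92Chain

/-!
# S36, row T-ROOT (second seat helper19, prefix `h19r_`): the closed points of the special fibre
of a chart over the inertia ring are rational

`A₀ = A ∩ K₀` the inertia ring (`h81a_A0 A`), `B = h92c_Chart A N t` with `t ∈ F₀`, `𝔫` a maximal
ideal of `B` containing `q`.

* `h19r_surj_of_adjoin` : (Mathlib only) a field `κ` which is integral over `k[x]`, `k`
  algebraically closed, is `k`.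
* `h19rIota : A₀ →+* B` : the constants.
* `h19r_closed_rational` : **`B / 𝔫 = A₀ / q`**: every `b ∈ B` is congruent modulo `𝔫` to a
  constant of `A₀`.
* `h19r_closed_rational'` : the same in elementwise form (`a ∈ A` fixed by inertia, `cst a`).
-/

set_option autoImplicit false
set_option linter.unusedSectionVars false
set_option linter.style.haveILetI false

open AlgebraicCurve ModularCurve IsLocalRing Polynomial

noncomputable section

namespace Fermat.Agent.S36

open Fermat.Agent.S37 (Kbar GQ FF cst jB gal modelAt)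

/-- a field which is integral over `k[x]`, `k` algebraically closed, is `k`. -/
theorem h19r_surj_of_adjoin {k κ : Type*} [Field k] [IsAlgClosed k] [Field κ] [Algebra k κ]
    (x : κ) (h : ∀ y : κ, IsIntegral (Algebra.adjoin k {x}) y) :
    Function.Surjective (algebraMap k κ) := by
  classical
  haveI hint : Algebra.IsIntegral (Algebra.adjoin k {x}) κ := ⟨h⟩
  have hS : IsField (Algebra.adjoin k {x}) :=
    isField_of_isIntegral_of_isField (R := Algebra.adjoin k {x}) (S := κ)
      Subtype.val_injective (Field.toIsField κ)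
  -- `x` is algebraic over `k`
  have hx : IsIntegral k x := by
    by_cases hx0 : x = 0
    · rw [hx0]; exact isIntegral_zero
    have hxS : x ∈ Algebra.adjoin k {x} := Algebra.subset_adjoin (Set.mem_singleton x)
    have hne : (⟨x, hxS⟩ : Algebra.adjoin k {x}) ≠ 0 := fun h0 =>
      hx0 (congrArg Subtype.val h0)
    obtain ⟨b, hb⟩ := hS.mul_inv_cancel hne
    have hb' : x * (b : κ) = 1 := congrArg Subtype.val hb
    have hbmem : (b : κ) ∈ (aeval (R := k) x).range := by
      rw [← Algebra.adjoin_singleton_eq_range_aeval]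
      exact b.2
    obtain ⟨f, hf⟩ := hbmem
    rw [← isAlgebraic_iff_isIntegral]
    refine ⟨X * f - 1, ?_, ?_⟩
    · intro h0
      have h1 := congrArg (fun p : k[X] => p.coeff 0) h0
      simp at h1
    · rw [map_sub, map_mul, aeval_X, map_one]
      have hf' : (aeval x) f = (b : κ) := hf
      rw [hf', hb', sub_self]
  haveI h1 : Algebra.IsIntegral k (Algebra.adjoin k {x}) :=
    Algebra.IsIntegral.adjoin (fun y hy => by rw [Set.mem_singleton_iff.mp hy]; exact hx)
  haveI : Algebra.IsIntegral k κ := Algebra.IsIntegral.trans (Algebra.adjoin k {x})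
  exact (IsAlgClosed.algebraMap_bijective_of_isIntegral (k := k) (K := κ)).2

section Chart

variable {q : ℕ} {A : ValuationSubring Kbar} (N : ℕ) [NeZero N] (t : FF N)

/-- the constants `A₀ → B`. -/
def h19rIota : h81a_A0 A →+* h92c_Chart A N t :=
  (h64c_cst A N).codRestrict (h92c_Chart A N t) fun a =>
    ⟨Fermat.Agent.Red.ModelO.h85_cst_mem_modelAt N A t ((h81a_mem_A0 A _).mp a.2),
      h64c_cst_fixed A N a⟩

theorem h19r_coe_iota (a : h81a_A0 A) :
    ((h19rIota N t a : h92c_Chart A N t) : FF N) = cst N ((a : h81a_K0 A) : Kbar) := rfl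

variable {N t}

/-- the natural number `q` is the image of `q ∈ A₀`. -/
theorem h19r_iota_natCast (n : ℕ) : h19rIota (A := A) N t (n : h81a_A0 A) = (n : h92c_Chart A N t) :=
  map_natCast _ n

/-- **the closed points of the special fibre are rational over `A₀ / q`.** -/
theorem h19r_closed_rational (hq : q.Prime) (hA : A.LiesOverPrime q)
    (ht : t ∈ h92c_F0 A N)
    (𝔫 : Ideal (h92c_Chart A N t)) [h𝔫 : 𝔫.IsMaximal]
    (hq𝔫 : ((q : ℕ) : h92c_Chart A N t) ∈ 𝔫) (b : h92c_Chart A N t) :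
    ∃ a : h81a_A0 A, b - h19rIota N t a ∈ 𝔫 := by
  classical
  letI : Field (h92c_Chart A N t ⧸ 𝔫) := Ideal.Quotient.field 𝔫
  set mk := Ideal.Quotient.mk 𝔫 with hmk
  set θ : h81a_A0 A →+* (h92c_Chart A N t ⧸ 𝔫) := mk.comp (h19rIota N t) with hθ
  haveI hloc : IsLocalHom θ := by
    constructor
    intro a ha
    by_contra hnu
    obtain ⟨c, hc⟩ := h81a_dvd_of_not_isUnit hq hA hnu
    have h0 : θ a = 0 := by
      rw [hc, map_mul, hθ, RingHom.comp_apply, h19r_iota_natCast,
        (Ideal.Quotient.eq_zero_iff_mem).mpr hq𝔫, zero_mul]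
    rw [h0] at ha
    exact not_isUnit_zero ha
  letI alg : Algebra (ResidueField (h81a_A0 A)) (h92c_Chart A N t ⧸ 𝔫) :=
    (ResidueField.lift θ).toAlgebra
  haveI : IsAlgClosed (ResidueField (h81a_A0 A)) := h69b_residue_isAlgClosed hq hA
  have halg : ∀ a : h81a_A0 A,
      algebraMap (ResidueField (h81a_A0 A)) (h92c_Chart A N t ⧸ 𝔫) (residue _ a) = θ a :=
    fun a => ResidueField.lift_residue_apply θ a
  -- the coordinate
  have htB : t ∈ h92c_Chart A N t :=
    ⟨Fermat.Agent.Red.ModelO.h85_self_mem_modelAt N A t, ht⟩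
  set tB : h92c_Chart A N t := ⟨t, htB⟩ with htBdef
  set x : h92c_Chart A N t ⧸ 𝔫 := mk tB with hx
  -- evaluation `A₀[X] → B`
  set ψ : (h81a_A0 A)[X] →+* h92c_Chart A N t := eval₂RingHom (h19rIota N t) tB with hψ
  have hψev : ∀ P : (h81a_A0 A)[X], ((ψ P : h92c_Chart A N t) : FF N) = h64c_ev A N t P := by
    intro P
    have e : (h92c_Chart A N t).subtype.comp ψ = h64c_ev A N t := by
      apply Polynomial.ringHom_ext
      · intro a
        simp only [hψ, RingHom.comp_apply, coe_eval₂RingHom, eval₂_C, h64c_ev_C]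
        rfl
      · simp only [hψ, RingHom.comp_apply, coe_eval₂RingHom, eval₂_X, h64c_ev_X]
        rfl
    exact RingHom.congr_fun e P
  -- `mk ∘ ψ` takes its values in `k₀[x]`
  have hρ : ∀ P : (h81a_A0 A)[X],
      mk (ψ P) = aeval x (P.map (residue (h81a_A0 A))) := by
    intro P
    have e : mk.comp ψ = ((aeval x : (ResidueField (h81a_A0 A))[X] →ₐ[_] _) : _ →+* _).comp
        (mapRingHom (residue (h81a_A0 A))) := by
      apply Polynomial.ringHom_ext
      · intro a
        simp only [hψ, RingHom.comp_apply, coe_eval₂RingHom, eval₂_C, coe_mapRingHom, map_C,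
          RingHom.coe_coe, aeval_C, halg, hθ]
      · simp only [hψ, RingHom.comp_apply, coe_eval₂RingHom, eval₂_X, coe_mapRingHom, map_X,
          RingHom.coe_coe, aeval_X, hx]
    exact RingHom.congr_fun e P
  have hsurj : Function.Surjective
      (algebraMap (ResidueField (h81a_A0 A)) (h92c_Chart A N t ⧸ 𝔫)) := by
    apply h19r_surj_of_adjoin x
    intro y
    obtain ⟨b', rfl⟩ := Ideal.Quotient.mk_surjective y
    obtain ⟨P, hPm, hP⟩ := (h64c_mem_modelAt_iff A N t (b' : FF N)).mp b'.2.1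
    -- `eval₂ ψ b' P = 0` in `B`
    have h1 : eval₂ ψ b' P = 0 := by
      apply Subtype.ext
      have h2 := Polynomial.hom_eval₂ P ψ (h92c_Chart A N t).subtype b'
      have e : (h92c_Chart A N t).subtype.comp ψ = h64c_ev A N t :=
        RingHom.ext fun Q => hψev Q
      rw [e] at h2
      show (h92c_Chart A N t).subtype (eval₂ ψ b' P) = 0
      rw [h2]
      exact hP
    have h3 : eval₂ (mk.comp ψ) (mk b') P = 0 := by
      rw [← Polynomial.hom_eval₂, h1, map_zero]
    -- the polynomial over `k₀[x]`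
    set g : (h81a_A0 A)[X] →+* Algebra.adjoin (ResidueField (h81a_A0 A)) {x} :=
      (mk.comp ψ).codRestrict (Algebra.adjoin (ResidueField (h81a_A0 A)) {x}).toSubring
        (fun Q => by
          show mk (ψ Q) ∈ Algebra.adjoin (ResidueField (h81a_A0 A)) {x}
          rw [hρ]
          exact aeval_mem_adjoin_singleton _ x) with hg
    refine ⟨P.map g, hPm.map g, ?_⟩
    rw [Polynomial.eval₂_map]
    have e : (algebraMap (Algebra.adjoin (ResidueField (h81a_A0 A)) {x})
        (h92c_Chart A N t ⧸ 𝔫)).comp g = mk.comp ψ := RingHom.ext fun Q => rfl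
    rw [e]
    exact h3
  obtain ⟨c, hc⟩ := hsurj (mk b)
  obtain ⟨a, rfl⟩ := residue_surjective c
  refine ⟨a, ?_⟩
  rw [halg, hθ, RingHom.comp_apply] at hc
  rw [← Ideal.Quotient.eq_zero_iff_mem, map_sub, ← hmk, hc, sub_self]

/-- elementwise form: the value at `𝔫` of a function `b ∉ 𝔫` is a unit of `A₀`. -/
theorem h19r_closed_rational' (hq : q.Prime) (hA : A.LiesOverPrime q)
    (ht : t ∈ h92c_F0 A N)
    (𝔫 : Ideal (h92c_Chart A N t)) [h𝔫 : 𝔫.IsMaximal]
    (hq𝔫 : ((q : ℕ) : h92c_Chart A N t) ∈ 𝔫) (b : h92c_Chart A N t) (hb : b ∉ 𝔫) :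
    ∃ a : Kbar, (a ∈ A ∧ a⁻¹ ∈ A ∧ ∀ σ ∈ A.inertiaSubgroupIn ℚ, σ a = a) ∧
      ∃ c : h92c_Chart A N t, (c : FF N) = cst N a ∧ c ∉ 𝔫 ∧ b - c ∈ 𝔫 := by
  obtain ⟨a, ha⟩ := h19r_closed_rational hq hA ht 𝔫 hq𝔫 b
  have hc𝔫 : h19rIota N t a ∉ 𝔫 := by
    intro h
    apply hb
    have : b = (b - h19rIota N t a) + h19rIota N t a := by ring
    rw [this]
    exact 𝔫.add_mem ha h
  have hau : IsUnit a := by
    by_contra hnu
    obtain ⟨c, hc⟩ := h81a_dvd_of_not_isUnit hq hA hnu
    apply hc𝔫
    rw [hc, map_mul, h19r_iota_natCast]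
    exact 𝔫.mul_mem_right _ hq𝔫
  obtain ⟨a', ha'⟩ := hau.exists_right_inv
  have hinv : (((a : h81a_K0 A)) : Kbar)⁻¹ = (((a' : h81a_K0 A)) : Kbar) := by
    have h1 : (((a : h81a_K0 A)) : Kbar) * (((a' : h81a_K0 A)) : Kbar) = 1 := by
      have := congrArg (fun z : h81a_A0 A => (((z : h81a_K0 A)) : Kbar)) ha'
      simpa using this
    exact inv_eq_of_mul_eq_one_right h1
  refine ⟨((a : h81a_K0 A) : Kbar), ⟨(h81a_mem_A0 A _).mp a.2, ?_, ?_⟩,
    h19rIota N t a, rfl, hc𝔫, ha⟩
  · rw [hinv]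
    exact (h81a_mem_A0 A _).mp a'.2
  · exact (h81a_mem_K0 A _).mp (a : h81a_K0 A).2

end Chart

end Fermat.Agent.S36
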