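import Fermat.Agent.S36.H11TorSkel
import Fermat.Agent.S36.H6VConv

/-!
# S36, row T-ROOT (second seat helper19, prefix `h19r_`): the dictionary between Gauss-smallness
at an embedding and the primes of a chart

`E : FF N →+* ℚ̄((t))` any ring homomorphism, `h11l_Small A E x` (`S36/H11LocSkel.lean`):
`E x` is Gauss-integral with reduction `0`.

* calculus of `h11l_Small`: `h19r_small_zero/_add/_neg/_sub/_mul`, saturation
  `h19r_small_of_mul` (`r` Gauss-integral and not small, `r x` small ⟹ `x` small),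
  `h19r_not_small_of_inv`, `h19r_small_natCast` (`q` is small);
* `h19rPE A E B hBE` : the prime ideal `{b ∈ B | h11l_Small A E b}` of a subring `B` of `FF N`
  whose elements are Gauss-integral at `E`.

Mathlib + `Red/GV/SoftOT` + `H11LocSkel`.
-/

set_option autoImplicit false
set_option linter.unusedSectionVars false
set_option linter.style.haveILetI false

open AlgebraicCurve ModularCurve

noncomputable section

namespace Fermat.Agent.S36

open Fermat.Agent.S37 (Kbar GQ FF cst jB gal modelAt degen auxLevel)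
open Fermat.Agent.Red.GV (embA redA)
open Fermat.Agent.Red.GV.Soft (softOT softRedT softRedT_ne_zero_iff softRedT_eq_zero_iff)

section Small

variable (A : ValuationSubring Kbar) {N : ℕ} (E : FF N →+* LaurentSeries Kbar)

theorem h19r_small_iff (x : FF N) :
    h11l_Small A E x ↔ E x ∈ softOT A (IsLocalRing.residue A) ∧
      (E x = 0 ∨ (E x)⁻¹ ∉ softOT A (IsLocalRing.residue A)) := by
  constructor
  · rintro ⟨h, h0⟩
    exact ⟨h, (softRedT_eq_zero_iff ⟨E x, h⟩).mp h0⟩
  · rintro ⟨h, h0⟩
    exact ⟨h, (softRedT_eq_zero_iff ⟨E x, h⟩).mpr h0⟩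

variable {A E}

theorem h19r_small_int {x : FF N} (h : h11l_Small A E x) :
    E x ∈ softOT A (IsLocalRing.residue A) := h.1

theorem h19r_small_zero : h11l_Small A E 0 := by
  rw [h19r_small_iff]
  exact ⟨by rw [map_zero]; exact Subring.zero_mem _, Or.inl (map_zero E)⟩

theorem h19r_small_add {x y : FF N} (hx : h11l_Small A E x) (hy : h11l_Small A E y) :
    h11l_Small A E (x + y) := by
  obtain ⟨hx1, hx2⟩ := hx
  obtain ⟨hy1, hy2⟩ := hy
  have h : E (x + y) ∈ softOT A (IsLocalRing.residue A) := by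
    rw [map_add]; exact Subring.add_mem _ hx1 hy1
  refine ⟨h, ?_⟩
  have e : (⟨E (x + y), h⟩ : softOT A (IsLocalRing.residue A)) = ⟨E x, hx1⟩ + ⟨E y, hy1⟩ :=
    Subtype.ext (map_add E x y)
  rw [e, map_add, hx2, hy2, add_zero]

theorem h19r_small_mul {z x : FF N} (hz : E z ∈ softOT A (IsLocalRing.residue A))
    (hx : h11l_Small A E x) : h11l_Small A E (z * x) := by
  obtain ⟨hx1, hx2⟩ := hx
  have h : E (z * x) ∈ softOT A (IsLocalRing.residue A) := by
    rw [map_mul]; exact Subring.mul_mem _ hz hx1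
  refine ⟨h, ?_⟩
  have e : (⟨E (z * x), h⟩ : softOT A (IsLocalRing.residue A)) = ⟨E z, hz⟩ * ⟨E x, hx1⟩ :=
    Subtype.ext (map_mul E z x)
  rw [e, map_mul, hx2, mul_zero]

theorem h19r_small_neg {x : FF N} (hx : h11l_Small A E x) : h11l_Small A E (-x) := by
  have h1 : E (-1 : FF N) ∈ softOT A (IsLocalRing.residue A) := by
    rw [map_neg, map_one]; exact Subring.neg_mem _ (Subring.one_mem _)
  have := h19r_small_mul h1 hx
  rwa [neg_one_mul] at this

theorem h19r_small_sub {x y : FF N} (hx : h11l_Small A E x) (hy : h11l_Small A E y) :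
    h11l_Small A E (x - y) := by
  rw [sub_eq_add_neg]
  exact h19r_small_add hx (h19r_small_neg hy)

/-- **saturation**: `r` Gauss-integral and not small, `r x` small ⟹ `x` small. -/
theorem h19r_small_of_mul {r x : FF N} (hr : E r ∈ softOT A (IsLocalRing.residue A))
    (hnr : ¬ h11l_Small A E r) (h : h11l_Small A E (r * x)) : h11l_Small A E x := by
  have hne : softRedT A (IsLocalRing.residue A) ⟨E r, hr⟩ ≠ 0 := fun h0 => hnr ⟨hr, h0⟩
  obtain ⟨hr0, hrinv⟩ := (softRedT_ne_zero_iff ⟨E r, hr⟩).mp hne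
  have hr0' : r ≠ 0 := by
    rintro rfl
    exact hr0 (map_zero E)
  have hinv : E r⁻¹ ∈ softOT A (IsLocalRing.residue A) := by
    rw [map_inv₀]; exact hrinv
  have := h19r_small_mul hinv h
  rwa [← mul_assoc, inv_mul_cancel₀ hr0', one_mul] at this

theorem h19r_not_small_one : ¬ h11l_Small A E (1 : FF N) := by
  rintro ⟨h, h0⟩
  have e : (⟨E 1, h⟩ : softOT A (IsLocalRing.residue A)) = 1 := Subtype.ext (map_one E)
  rw [e, map_one] at h0
  exact one_ne_zero h0

/-- a Gauss unit is not small. -/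
theorem h19r_not_small_of_inv {x : FF N} (hx0 : x ≠ 0)
    (hx' : E x⁻¹ ∈ softOT A (IsLocalRing.residue A)) : ¬ h11l_Small A E x := by
  intro h
  have := h19r_small_mul hx' h
  rw [inv_mul_cancel₀ hx0] at this
  exact h19r_not_small_one this

/-- Gauss-integral and not small ⟹ the inverse is Gauss-integral. -/
theorem h19r_inv_int {r : FF N} (hr : E r ∈ softOT A (IsLocalRing.residue A))
    (hnr : ¬ h11l_Small A E r) : E r⁻¹ ∈ softOT A (IsLocalRing.residue A) := by
  have hne : softRedT A (IsLocalRing.residue A) ⟨E r, hr⟩ ≠ 0 := fun h0 => hnr ⟨hr, h0⟩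
  rw [map_inv₀]
  exact ((softRedT_ne_zero_iff ⟨E r, hr⟩).mp hne).2

end Small

/-! ## The prime of a chart attached to an embedding -/

section PE

variable (A : ValuationSubring Kbar) {N : ℕ} (E : FF N →+* LaurentSeries Kbar)
  (B : Subring (FF N)) (hBE : ∀ b ∈ B, E b ∈ softOT A (IsLocalRing.residue A))

/-- the reduction `B → k((t))` along `E`. -/
def h19rRed : B →+* LaurentSeries (IsLocalRing.ResidueField A) :=
  (softRedT A (IsLocalRing.residue A)).comp
    ((E.comp B.subtype).codRestrict (softOT A (IsLocalRing.residue A)) fun b => hBE b b.2)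

/-- the prime ideal of the functions of `B` which are Gauss-small at `E`. -/
def h19rPE : Ideal B := RingHom.ker (h19rRed A E B hBE)

instance h19r_PE_isPrime : (h19rPE A E B hBE).IsPrime := RingHom.ker_isPrime _

theorem h19r_mem_PE (b : B) : b ∈ h19rPE A E B hBE ↔ h11l_Small A E (b : FF N) := by
  rw [h19rPE, RingHom.mem_ker]
  constructor
  · intro h
    exact ⟨hBE b b.2, h⟩
  · rintro ⟨_, h⟩
    exact h

/-- `h11l_Centred` is `P_E ≤ 𝔫`. -/
theorem h19r_PE_le_iff (𝔫 : Ideal B) :
    h19rPE A E B hBE ≤ 𝔫 ↔ ∀ b : B, h11l_Small A E (b : FF N) → b ∈ 𝔫 := by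
  constructor
  · intro h b hb
    exact h ((h19r_mem_PE A E B hBE b).mpr hb)
  · intro h b hb
    exact h b ((h19r_mem_PE A E B hBE b).mp hb)

end PE

end Fermat.Agent.S36
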