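import Fermat.Agent.S36.H19TorDict
import Fermat.Agent.S36.H3Gate92V
import Fermat.Agent.S36.H88VInt
import Fermat.Agent.S36.H85MidAll
import Fermat.Agent.S36.H20Emb

/-!
# S36, row T-ROOT (second seat helper19, prefix `h19r_`): the Gauss ring `V` and the vertical
embeddings

Level `N = M q²`, `E` one of the vertical embeddings `E20`, `E11^ζ`, `E02` (`h11l_IsVE`).

* `h19r_V_int` : **`V ⊆ W_E`**: a function integral over the Gauss ring of the level `M` is
  Gauss-integral at `E`.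
* `h19r_chart_int` : the charts `j`, `j⁻¹` over the inertia ring are Gauss-integral at `E`.
* `h19r_small_indep` : on `F₀`, smallness at `E` depends only on the kind of `E`
  (V-MIDALL for `E11^ζ`, uniqueness for `E02`).
-/

set_option autoImplicit false
set_option linter.unusedSectionVars false
set_option linter.style.haveILetI false

open AlgebraicCurve ModularCurve

noncomputable section

namespace Fermat.Agent.S36

open Fermat.Agent.S37 (Kbar GQ FF cst jB gal modelAt degen auxLevel)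
open Fermat.Agent.Red.GV (embA redA gaussV)
open Fermat.Agent.Red.GV.Soft (softOT softRedT softV dfField)
open Fermat.Agent.Red.Kron (kFricke)

section Level

variable {A : ValuationSubring Kbar} {M q : ℕ} [NeZero M] [NeZero q]

/-- the Gauss ring of the level `M` is Gauss-integral at the vertical embeddings. -/
theorem h19r_G_int (hq : q.Prime) (hqM : ¬ q ∣ M)
    (E : FF (M * q * q) →+* LaurentSeries Kbar) (hE : h11l_IsVE M q hq hqM E)
    (g : FF M) (hg : g ∈ gaussV A M) :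
    E (degen (h92c_dvd M q) g) ∈ softOT A (IsLocalRing.residue A) := by
  have hgs : g ∈ softV A M := Fermat.Agent.Red.GV.Soft.gaussV_le_softV A M hg
  have hdeg : degen (h92c_dvd M q) g =
      heckeAlphaBar Kbar (M * q) q (heckeAlphaBar Kbar M q g) := by
    have := congrArg (fun f : FF M →+* FF (M * q * q) => f g) (h88v_degen_eq_aa M q)
    exact this
  rcases hE with rfl | ⟨ζ, hζ, hE⟩ | hE
  · -- `E20`
    show ((degen (h92c_dvd M q) g : FF (M * q * q)) : LaurentSeries Kbar) ∈ _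
    rw [Fermat.Agent.S37.coe_degen]
    exact (Fermat.Agent.Red.GV.Soft.mem_softV_iff A M g).mp hgs
  · -- `E11`
    rw [hdeg, hE.1, coe_heckeAlphaBar]
    exact (Fermat.Agent.Red.GV.Soft.mem_softV_iff A M g).mp hgs
  · -- `E02`
    rw [hdeg, hE.1, Fermat.Agent.Red.Kron.kFricke_alpha]
    apply Fermat.Agent.Red.GV.Soft.mem_softOT_qExpand
    exact (Fermat.Agent.Red.GV.Soft.mem_softV_iff A (M * q) _).mp
      (Fermat.Agent.Red.GV.Soft.beta_mem_softV A q g hgs)

/-- the vertical embeddings take their values in `dfField`. -/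
theorem h19r_df (hq : q.Prime) (hqM : ¬ q ∣ M)
    (E : FF (M * q * q) →+* LaurentSeries Kbar) (hE : h11l_IsVE M q hq hqM E)
    (u : FF (M * q * q)) : E u ∈ dfField (K := Kbar) := by
  rcases hE with rfl | ⟨ζ, hζ, hE⟩ | hE
  · exact Fermat.Agent.Red.GV.Soft.FF_le_dfField (M * q * q) u
  · exact h12e_embDF q hq M hqM E (Or.inl ⟨ζ, hζ.pow_eq_one, hE⟩) u
  · exact h12e_embDF q hq M hqM E (Or.inr hE) u

/-- **`V ⊆ W_E`.** -/
theorem h19r_V_int (hq : q.Prime) (hqM : ¬ q ∣ M) (hA : A.LiesOverPrime q)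
    (E : FF (M * q * q) →+* LaurentSeries Kbar) (hE : h11l_IsVE M q hq hqM E)
    (x : FF (M * q * q)) (hx : x ∈ h92c_V A M q) :
    E x ∈ softOT A (IsLocalRing.residue A) := by
  have hDF := h19r_df hq hqM E hE
  refine (h6v_mem_W q hq A hA E hDF x).mp
    (Fermat.Agent.LGC.h63r_mem_of_isIntegral_le (h6v_W q hq A hA E hDF) (h92c_G A M q) ?_ hx)
  rintro y ⟨g, hg, rfl⟩
  exact h19r_G_int hq hqM E hE g hg

/-- the finite chart is Gauss-integral at the vertical embeddings. -/
theorem h19r_chart_int (hq : q.Prime) (hqM : ¬ q ∣ M) (hA : A.LiesOverPrime q)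
    (E : FF (M * q * q) →+* LaurentSeries Kbar) (hE : h11l_IsVE M q hq hqM E) :
    ∀ b ∈ h92c_Chart A (M * q * q) (jB (M * q * q)),
      E b ∈ softOT A (IsLocalRing.residue A) :=
  fun b hb => h19r_V_int hq hqM hA E hE b (h3w_chart_le_V0 hq hqM hA hb).1

/-- on `F₀`, smallness at `E11^ζ` does not depend on `ζ`. -/
theorem h19r_small_indep11 (hq : q.Prime) (hqM : ¬ q ∣ M) (hA : A.LiesOverPrime q)
    {ζ ζ' : Kbar} (hζ : IsPrimitiveRoot ζ q) (hζ' : IsPrimitiveRoot ζ' q)
    {E E' : FF (M * q * q) →+* LaurentSeries Kbar} (hE : h20n_IsE11 M q hq hqM ζ E)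
    (hE' : h20n_IsE11 M q hq hqM ζ' E') {x : FF (M * q * q)}
    (hx : x ∈ h92c_F0 A (M * q * q)) (h : h11l_Small A E x) : h11l_Small A E' x := by
  by_cases hx0 : x = 0
  · rw [hx0]; exact h19r_small_zero
  have hxi : x⁻¹ ∈ h92c_F0 A (M * q * q) := inv_mem hx
  have h1 : E' x ∈ softOT A (IsLocalRing.residue A) :=
    h85m_midAll q hq M hqM A hA ζ ζ' hζ hζ' E E' hE hE' x hx h.1
  rw [h19r_small_iff]
  refine ⟨h1, Or.inr fun hinv => ?_⟩
  have h2 : E x⁻¹ ∈ softOT A (IsLocalRing.residue A) := by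
    refine h85m_midAll q hq M hqM A hA ζ' ζ hζ' hζ E' E hE' hE x⁻¹ hxi ?_
    show E' x⁻¹ ∈ _
    rw [map_inv₀]; exact hinv
  exact h19r_not_small_of_inv hx0 h2 h

/-- the embedding `E02` is unique. -/
theorem h19r_E02_unique (hq : q.Prime) (hqM : ¬ q ∣ M)
    {E E' : FF (M * q * q) →+* LaurentSeries Kbar} (hE : h20n_IsE02 M q hq hqM E)
    (hE' : h20n_IsE02 M q hq hqM E') : E = E' :=
  h20n_embUnique q hq M E E' (fun x => by rw [hE.1, hE'.1]) (fun x => by rw [hE.2, hE'.2])

set_option synthInstance.maxHeartbeats 400000 in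
/-- `j - a` is a unit of `V` for every `a ∈ A`. -/
theorem h19r_jB_sub_cst (hq : q.Prime) (hqM : ¬ q ∣ M) (hA : A.LiesOverPrime q)
    {a : Kbar} (ha : a ∈ A) :
    jB (M * q * q) - cst (M * q * q) a ≠ 0 ∧
      (jB (M * q * q) - cst (M * q * q) a)⁻¹ ∈ h92c_V A M q := by
  have hj : jB M ∈ gaussV A M := Fermat.Agent.Red.GV.jB_mem_gaussV A M
  have hc : cst M a ∈ gaussV A M :=
    Fermat.Agent.Red.GV.algebraMap_mem_gaussSubring A (IsLocalRing.residue A) M ⟨a, ha⟩
  have hx₀ : jB M - cst M a ∈ gaussV A M := sub_mem hj hc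
  have hred : Fermat.Agent.Red.GV.gaussR A M ⟨jB M - cst M a, hx₀⟩ ≠ 0 := by
    have e : (⟨jB M - cst M a, hx₀⟩ : gaussV A M) = ⟨jB M, hj⟩ - ⟨cst M a, hc⟩ := rfl
    rw [e, map_sub, Fermat.Agent.Red.GV.gaussR_jB A M]
    have h3 := Fermat.Agent.Red.GV.gaussRed_algebraMap A (IsLocalRing.residue A) M ⟨a, ha⟩
    have h4 : Fermat.Agent.Red.GV.gaussR A M ⟨cst M a, hc⟩ =
        HahnSeries.C (IsLocalRing.residue A ⟨a, ha⟩) := h3
    rw [h4]
    intro h0
    have h5 := congrArg (fun s : LaurentSeries (IsLocalRing.ResidueField A) => s.coeff (-1)) h0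
    simp only [HahnSeries.coeff_sub, HahnSeries.coeff_zero] at h5
    rw [ModularCurve.coeff_jqModC_neg_one, HahnSeries.C_apply,
      HahnSeries.coeff_single_of_ne (by norm_num)] at h5
    simp at h5
  haveI : Fact q.Prime := ⟨hq⟩
  have hinv : (jB M - cst M a)⁻¹ ∈ gaussV A M :=
    Fermat.Agent.Red.GV.inv_mem_gaussSubring_of_gaussRed_ne_zero A _ M q
      (Fermat.Agent.Red.GV.isResidueMap_residue A q hA) hqM ⟨jB M - cst M a, hx₀⟩ hred
  have hne : jB M - cst M a ≠ 0 := by
    intro h0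
    apply hred
    have e : (⟨jB M - cst M a, hx₀⟩ : gaussV A M) = 0 := Subtype.ext h0
    rw [e, map_zero]
  have hdeg : degen (h92c_dvd M q) (jB M - cst M a) =
      jB (M * q * q) - cst (M * q * q) a := by
    rw [map_sub, h3w_degen_jB M q,
      show degen (h92c_dvd M q) (cst M a) = cst (M * q * q) a from
        (degen (h92c_dvd M q)).commutes a]
  refine ⟨?_, ?_⟩
  · rw [← hdeg]
    exact (map_ne_zero _).mpr hne
  · have h1 : (jB (M * q * q) - cst (M * q * q) a)⁻¹ ∈ h92c_G A M q := by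
      refine ⟨(jB M - cst M a)⁻¹, hinv, ?_⟩
      change (degen (h92c_dvd M q)) (jB M - cst M a)⁻¹ = _
      rw [map_inv₀, hdeg]
    change IsIntegral (h92c_G A M q) (jB (M * q * q) - cst (M * q * q) a)⁻¹
    exact (isIntegral_algebraMap (R := h92c_G A M q) (A := FF (M * q * q)) (x := ⟨_, h1⟩) : _)

/-- `j - a` is not small at the vertical embeddings. -/
theorem h19r_jB_sub_cst_not_small (hq : q.Prime) (hqM : ¬ q ∣ M) (hA : A.LiesOverPrime q)
    (E : FF (M * q * q) →+* LaurentSeries Kbar) (hE : h11l_IsVE M q hq hqM E)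
    {a : Kbar} (ha : a ∈ A) :
    ¬ h11l_Small A E (jB (M * q * q) - cst (M * q * q) a) := by
  obtain ⟨h0, hinv⟩ := h19r_jB_sub_cst (M := M) hq hqM hA ha
  exact h19r_not_small_of_inv h0 (h19r_V_int hq hqM hA E hE _ hinv)

end Level

end Fermat.Agent.S36
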