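import Fermat.Agent.S36.H19TorRootAbs
import Fermat.Agent.S36.H19TorDictV
import Fermat.Agent.S36.H19TorClosed

/-!
# S36, row T-ROOT (second seat helper19, prefix `h19r_`): `H11TorRoot` from REG + LOC leaves

`h19r_torRoot_of : H62RegStatement → H86LocVComp → H86LocHor → H86LocFrac → H11TorRoot`
(exact frozen Prop of `S36/H11TorSkel.lean`).

Proof: the abstract root `h19r_root_abs` (local factorisation `h86l_locFactAbs` + the branch is a
valuation ring) at the closed point; the vertical primes of the chart through `𝔫` are the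
Small-ideals `h19rPE` of the vertical embeddings centred at `𝔫` (they are not maximal because
`j - a` is a unit of `V` for every constant `a`, and the closed points are rational); the branch
values are constants of `A₀` (`h19r_closed_rational'`); at an embedding which is not centred at
`𝔫` every branch value is allowed.
-/

set_option autoImplicit false
set_option linter.unusedSectionVars false
set_option linter.style.haveILetI false

open AlgebraicCurve ModularCurve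

noncomputable section

namespace Fermat.Agent.S36

open Fermat.Agent.S37 (Kbar GQ FF cst jB gal modelAt degen auxLevel)
open Fermat.Agent.Red.GV.Soft (softOT softRedT)

section Level

variable {A : ValuationSubring Kbar} {M q : ℕ} [NeZero M] [NeZero q]

/-- `q` is small at every embedding. -/
theorem h19r_small_q (hA : A.LiesOverPrime q) {N : ℕ} (E : FF N →+* LaurentSeries Kbar) :
    h11l_Small A E ((q : ℕ) : FF N) := by
  have hqA : ((q : ℕ) : Kbar) ∈ A := natCast_mem A q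
  have e : E ((q : ℕ) : FF N) = HahnSeries.C (((⟨(q : Kbar), hqA⟩ : A)) : Kbar) := by
    rw [map_natCast]
    exact (map_natCast (HahnSeries.C : Kbar →+* LaurentSeries Kbar) q).symm
  have hmem : E ((q : ℕ) : FF N) ∈ softOT A (IsLocalRing.residue A) := by
    rw [e]
    exact Fermat.Agent.Red.GV.Soft.C_mem_softOT A _ _
  refine ⟨hmem, ?_⟩
  have h1 : (⟨E ((q : ℕ) : FF N), hmem⟩ : softOT A (IsLocalRing.residue A)) =
      ⟨HahnSeries.C (((⟨(q : Kbar), hqA⟩ : A)) : Kbar),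
        Fermat.Agent.Red.GV.Soft.C_mem_softOT A _ _⟩ := Subtype.ext e
  rw [h1, Fermat.Agent.Red.GV.Soft.softRedT_C]
  have h2 : IsLocalRing.residue A ⟨(q : Kbar), hqA⟩ = 0 := by
    rw [IsLocalRing.residue_eq_zero_iff, ← ValuationSubring.coe_mem_nonunits_iff]
    exact hA
  rw [h2, map_zero]

/-- a constant of `A₀` as an element of the chart. -/
theorem h19r_cst_mem_chart {N : ℕ} [NeZero N] (t : FF N) {a : Kbar} (ha : a ∈ A)
    (hfix : ∀ σ ∈ A.inertiaSubgroupIn ℚ, σ a = a) : cst N a ∈ h92c_Chart A N t :=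
  ⟨Fermat.Agent.Red.ModelO.h85_cst_mem_modelAt N A t ha,
    h64c_cstK_fixed A N ⟨a, (h81a_mem_K0 A a).mpr hfix⟩⟩

/-- the Small-ideal of a vertical embedding centred at `𝔫` is a vertical prime through `𝔫`. -/
theorem h19r_PE_isVert (hq : q.Prime) (hqM : ¬ q ∣ M) (hA : A.LiesOverPrime q)
    (𝔫 : Ideal (h92c_Chart A (M * q * q) (jB (M * q * q)))) [h𝔫 : 𝔫.IsMaximal]
    (hq𝔫 : ((q : ℕ) : h92c_Chart A (M * q * q) (jB (M * q * q))) ∈ 𝔫)
    (E : FF (M * q * q) →+* LaurentSeries Kbar)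
    (hE : h11l_IsVE M q hq hqM E) (hcen : h11l_Centred A (jB (M * q * q)) 𝔫 E) :
    h86l_IsVert 𝔫 ((q : ℕ) : h92c_Chart A (M * q * q) (jB (M * q * q)))
      (h19rPE A E _ (h19r_chart_int hq hqM hA E hE)) := by
  refine ⟨inferInstance, ?_, ?_, ?_⟩
  · rw [h19r_mem_PE]
    have : (((q : ℕ) : h92c_Chart A (M * q * q) (jB (M * q * q))) : FF (M * q * q)) =
        ((q : ℕ) : FF (M * q * q)) := by push_cast; rfl
    rw [this]
    exact h19r_small_q hA E
  · exact (h19r_PE_le_iff A E _ _ 𝔫).mpr hcen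
  · intro heq
    have hjF : jB (M * q * q) ∈ h92c_F0 A (M * q * q) := fun σ _ =>
      Fermat.Agent.S37.GalI.gal_smul_jB σ
    have hjB : jB (M * q * q) ∈ h92c_Chart A (M * q * q) (jB (M * q * q)) :=
      ⟨Fermat.Agent.Red.ModelO.h85_self_mem_modelAt _ A _, hjF⟩
    obtain ⟨a, ha⟩ := h19r_closed_rational hq hA hjF 𝔫 hq𝔫 ⟨_, hjB⟩
    rw [← heq, h19r_mem_PE] at ha
    exact h19r_jB_sub_cst_not_small hq hqM hA E hE ((h81a_mem_A0 A _).mp a.2) ha

/-- **non-centred embeddings**: if `E` is not centred at `𝔫`, every chart element is a branch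
value of `G` along `E`. -/
theorem h19r_bv_of_not_centred (hq : q.Prime) (hqM : ¬ q ∣ M) (hA : A.LiesOverPrime q)
    (𝔫 : Ideal (h92c_Chart A (M * q * q) (jB (M * q * q)))) [h𝔫 : 𝔫.IsMaximal]
    (E : FF (M * q * q) →+* LaurentSeries Kbar) (hE : h11l_IsVE M q hq hqM E)
    (hncen : ¬ h11l_Centred A (jB (M * q * q)) 𝔫 E) (G : FF (M * q * q))
    (hGV : ∃ c : h92c_Chart A (M * q * q) (jB (M * q * q)), c ∉ 𝔫 ∧
      (c : FF (M * q * q)) * G ∈ h92c_V0 A M q)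
    (c : h92c_Chart A (M * q * q) (jB (M * q * q))) :
    h11l_BV A (jB (M * q * q)) 𝔫 E G c := by
  haveI : 𝔫.IsPrime := h𝔫.isPrime
  unfold h11l_Centred at hncen
  simp only [not_forall] at hncen
  obtain ⟨p₀, hp₀s, hp₀⟩ := hncen
  obtain ⟨c₀, hc₀, hc₀G⟩ := hGV
  obtain ⟨p₁, i, hi, hp₁⟩ := h𝔫.exists_inv hp₀
  have hs : c₀ * p₀ ∉ 𝔫 := fun h => (Ideal.IsPrime.mem_or_mem ‹_› h).elim hc₀ hp₀
  refine ⟨c * (c₀ * p₀) * p₁ * p₀, c₀ * p₀, hs, ?_, ?_⟩
  · have h1 : h11l_Small A E ((c₀ : FF (M * q * q)) * G * (p₀ : FF (M * q * q))) :=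
      h19r_small_mul (h19r_V_int hq hqM hA E hE _ hc₀G.1) hp₀s
    have h2 : h11l_Small A E (((c * (c₀ * p₀) * p₁ :
        h92c_Chart A (M * q * q) (jB (M * q * q))) : FF (M * q * q)) * (p₀ : FF (M * q * q))) :=
      h19r_small_mul (h19r_chart_int hq hqM hA E hE _ (c * (c₀ * p₀) * p₁).2) hp₀s
    have h3 := h19r_small_sub h1 h2
    have e : ((c₀ * p₀ : h92c_Chart A (M * q * q) (jB (M * q * q))) : FF (M * q * q)) * G -
        ((c * (c₀ * p₀) * p₁ * p₀ : h92c_Chart A (M * q * q) (jB (M * q * q))) :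
          FF (M * q * q)) =
        (c₀ : FF (M * q * q)) * G * (p₀ : FF (M * q * q)) -
        ((c * (c₀ * p₀) * p₁ : h92c_Chart A (M * q * q) (jB (M * q * q))) : FF (M * q * q)) *
          (p₀ : FF (M * q * q)) := by
      push_cast
      ring
    rw [e]
    exact h3
  · have e : c * (c₀ * p₀) * p₁ * p₀ - c * (c₀ * p₀) = - (c * (c₀ * p₀) * i) := by
      have : p₁ * p₀ = 1 - i := by rw [← hp₁]; ring
      calc c * (c₀ * p₀) * p₁ * p₀ - c * (c₀ * p₀)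
          = c * (c₀ * p₀) * (p₁ * p₀) - c * (c₀ * p₀) := by ring
        _ = - (c * (c₀ * p₀) * i) := by rw [this]; ring
    rw [e]
    exact 𝔫.neg_mem (𝔫.mul_mem_left _ hi)

/-- **centred embeddings**: a branch unit at the Small-ideal of `E` gives a branch value. -/
theorem h19r_small_of_branch (hq : q.Prime) (hqM : ¬ q ∣ M) (hA : A.LiesOverPrime q)
    (𝔫 : Ideal (h92c_Chart A (M * q * q) (jB (M * q * q))))
    (E : FF (M * q * q) →+* LaurentSeries Kbar) (hE : h11l_IsVE M q hq hqM E)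
    (G : FF (M * q * q))
    (hbr : h19r_BranchUnit (h92c_Chart A (M * q * q) (jB (M * q * q))) 𝔫
      (h19rPE A E _ (h19r_chart_int hq hqM hA E hE)) G) :
    ∃ b s : h92c_Chart A (M * q * q) (jB (M * q * q)), s ∉ 𝔫 ∧ b ∉ 𝔫 ∧
      h11l_Small A E ((s : FF (M * q * q)) * G - (b : FF (M * q * q))) := by
  obtain ⟨b, s, hs, hb, r, hr, p, hp, hrp⟩ := hbr
  refine ⟨b, s, hs, hb, ?_⟩
  rw [h19r_mem_PE] at hr hp
  refine h19r_small_of_mul (h19r_chart_int hq hqM hA E hE _ r.2) hr ?_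
  rw [hrp]
  exact hp

/-- `1` is a unit constant. -/
theorem h19r_isC_one (A : ValuationSubring Kbar) : h11t_IsC A 1 :=
  ⟨one_ne_zero, A.one_mem, by rw [inv_one]; exact A.one_mem, fun σ _ => map_one σ⟩

/-- **one kind of branch**: for a family `K` of vertical embeddings on which smallness of
`I`-invariant functions does not depend on the member, `G` has a constant branch value. -/
theorem h19r_kind (hq : q.Prime) (hqM : ¬ q ∣ M) (hA : A.LiesOverPrime q)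
    (𝔫 : Ideal (h92c_Chart A (M * q * q) (jB (M * q * q)))) [h𝔫 : 𝔫.IsMaximal]
    (hq𝔫 : ((q : ℕ) : h92c_Chart A (M * q * q) (jB (M * q * q))) ∈ 𝔫)
    (K : (FF (M * q * q) →+* LaurentSeries Kbar) → Prop)
    (hK : ∀ E, K E → h11l_IsVE M q hq hqM E)
    (hind : ∀ E E', K E → K E' → ∀ x ∈ h92c_F0 A (M * q * q),
      h11l_Small A E x → h11l_Small A E' x)
    (G : FF (M * q * q)) (hGF : G ∈ h92c_F0 A (M * q * q))
    (hGV : ∃ c : h92c_Chart A (M * q * q) (jB (M * q * q)), c ∉ 𝔫 ∧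
      (c : FF (M * q * q)) * G ∈ h92c_V0 A M q)
    (hbr : ∀ P : Ideal (h92c_Chart A (M * q * q) (jB (M * q * q))),
      h86l_IsVert 𝔫 ((q : ℕ) : h92c_Chart A (M * q * q) (jB (M * q * q))) P →
        h19r_BranchUnit (h92c_Chart A (M * q * q) (jB (M * q * q))) 𝔫 P G) :
    ∃ a : Kbar, h11t_IsC A a ∧
      ∀ E, K E → h11t_cBV A (jB (M * q * q)) 𝔫 E G a := by
  haveI : 𝔫.IsPrime := h𝔫.isPrime
  have hjF : jB (M * q * q) ∈ h92c_F0 A (M * q * q) := fun σ _ =>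
    Fermat.Agent.S37.GalI.gal_smul_jB σ
  by_cases hex : ∃ E₁, K E₁ ∧ h11l_Centred A (jB (M * q * q)) 𝔫 E₁
  · obtain ⟨E₁, hK₁, hcen⟩ := hex
    obtain ⟨b, s, hs, hb, hsm⟩ := h19r_small_of_branch hq hqM hA 𝔫 E₁ (hK E₁ hK₁) G
      (hbr _ (h19r_PE_isVert hq hqM hA 𝔫 hq𝔫 E₁ (hK E₁ hK₁) hcen))
    obtain ⟨s', i, hi, hs'⟩ := h𝔫.exists_inv hs
    have hbs' : b * s' ∉ 𝔫 := by
      intro h
      rcases Ideal.IsPrime.mem_or_mem ‹_› h with h | h
      · exact hb h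
      · apply h𝔫.ne_top
        rw [Ideal.eq_top_iff_one, ← hs']
        exact 𝔫.add_mem (𝔫.mul_mem_right _ h) hi
    obtain ⟨a, haC, c, hca, hc𝔫, hbc⟩ := h19r_closed_rational' hq hA hjF 𝔫 hq𝔫 (b * s') hbs'
    have ha0 : a ≠ 0 := by
      rintro rfl
      apply hc𝔫
      have hc0 : c = 0 := Subtype.ext (by rw [hca]; exact map_zero _)
      rw [hc0]
      exact 𝔫.zero_mem
    refine ⟨a, ⟨ha0, haC⟩, fun E hKE => ⟨c, hca, b, s, hs, ?_, ?_⟩⟩
    · refine hind E₁ E hK₁ hKE _ ?_ hsm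
      exact (h92c_F0 A (M * q * q)).sub_mem ((h92c_F0 A (M * q * q)).mul_mem s.2.2 hGF) b.2.2
    · have e : b - c * s = b * i + (b * s' - c) * s := by
        have : s' * s = 1 - i := by rw [← hs']; ring
        calc b - c * s = b * (1 - s' * s) + (b * s' - c) * s := by ring
          _ = b * i + (b * s' - c) * s := by rw [this]; ring
      rw [e]
      exact 𝔫.add_mem (𝔫.mul_mem_left _ hi) (𝔫.mul_mem_right _ hbc)
  · simp only [not_exists, not_and] at hex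
    refine ⟨1, h19r_isC_one A, fun E hKE => ⟨1, ?_, ?_⟩⟩
    · exact (map_one (algebraMap Kbar (FF (M * q * q)))).symm
    · exact h19r_bv_of_not_centred hq hqM hA 𝔫 E (hK E hKE) (hex E hKE) G hGV 1

end Level

/-- **T-ROOT** from the regularity statement and the local leaves `LOC-VCOMP`, `LOC-HOR`,
`LOC-FRAC`. -/
theorem h19r_torRoot_of (hReg : H62RegStatement) (hVC : H86LocVComp) (hHor : H86LocHor)
    (hFrac : H86LocFrac) : H11TorRoot := by
  intro q hq M _ hqM haux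
  haveI : NeZero q := ⟨hq.ne_zero⟩
  intro A hA m hm w hw0 hwF hwU hdiv 𝔫 hSS
  obtain ⟨h𝔫max, hq𝔫, -⟩ := hSS
  haveI := h𝔫max
  obtain ⟨hReg1, -⟩ := hReg q hq M hqM haux A hA
  obtain ⟨⟨hex, hden, hinv⟩, -⟩ := hVC q hq M hqM haux A hA
  obtain ⟨hHor1, -⟩ := hHor q hq M hqM haux A hA
  obtain ⟨⟨hNoeth, hFr⟩, -, hBV, -, hUinv⟩ := hFrac q hq M hqM haux A hA
  haveI := hNoeth
  have hm0 : m ≠ 0 := by
    rintro rfl
    exact hm (dvd_zero q)
  have hqF : ((q : ℕ) : FF (M * q * q)) ≠ 0 := Nat.cast_ne_zero.mpr hq.ne_zero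
  obtain ⟨G, hG0, hGfrac, hGV, hroot, hbr⟩ :=
    h19r_root_abs (h92c_Chart A (M * q * q) (jB (M * q * q))) (h92c_V0 A M q) hBV 𝔫 q hq hq𝔫 hqF
      (hReg1.2 𝔫 h𝔫max hq𝔫) (hex 𝔫 h𝔫max hq𝔫)
      (fun P hP v hv => hden P hP.1
        (fun hPmax => hP.2.2.2 (hPmax.eq_of_le h𝔫max.ne_top hP.2.2.1)) hP.2.1 v hv)
      (hinv 𝔫 h𝔫max hq𝔫) m hm0 w hw0 ((hFr w).mp hwF) hwU (hUinv w hwU)
      (fun 𝔭 h𝔭 hne hq𝔭 _ => hHor1 𝔭 h𝔭 hne hq𝔭 m w hw0 hwF hdiv)
  have hGF : G ∈ h92c_F0 A (M * q * q) := (hFr G).mpr hGfrac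
  refine ⟨G, ⟨hGF, hG0, hroot⟩, ?_⟩
  obtain ⟨a₀, ha₀, h₀⟩ := h19r_kind hq hqM hA 𝔫 hq𝔫 (fun E => E = h20n_E20 M q)
    (fun E hE => Or.inl hE) (fun E E' hE hE' x _ hx => by rw [hE']; rw [hE] at hx; exact hx)
    G hGF hGV hbr
  obtain ⟨a₁, ha₁, h₁⟩ := h19r_kind hq hqM hA 𝔫 hq𝔫
    (fun E => ∃ ζ : Kbar, IsPrimitiveRoot ζ q ∧ h20n_IsE11 M q hq hqM ζ E)
    (fun E hE => Or.inr (Or.inl hE))
    (fun E E' hE hE' x hx hsm => by
      obtain ⟨ζ, hζ, hEζ⟩ := hE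
      obtain ⟨ζ', hζ', hEζ'⟩ := hE'
      exact h19r_small_indep11 hq hqM hA hζ hζ' hEζ hEζ' hx hsm)
    G hGF hGV hbr
  obtain ⟨a₂, ha₂, h₂⟩ := h19r_kind hq hqM hA 𝔫 hq𝔫 (fun E => h20n_IsE02 M q hq hqM E)
    (fun E hE => Or.inr (Or.inr hE))
    (fun E E' hE hE' x _ hx => by rw [← h19r_E02_unique hq hqM hE hE']; exact hx)
    G hGF hGV hbr
  exact ⟨a₀, a₁, a₂, ha₀, ha₁, ha₂, h₀ _ rfl, fun ζ E hζ hE => h₁ E ⟨ζ, hζ, hE⟩,
    fun E hE => h₂ E hE⟩

end Fermat.Agent.S36
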