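import Fermat.Agent.S36.H86LocFact
import Fermat.Agent.S36.H16RegSub

/-!
# S36, row T-ROOT (second seat helper19, prefix `h19r_`): the abstract core

Vocabulary of `S36/H86LocOneIface.lean`: `B ≤ V` subrings of a field `F`, `B` noetherian, `𝔫` a
closed point of the fibre `π = 0` with `H62RegAt 𝔫 π`, `P` a vertical prime through `𝔫`
(`h86l_IsVert`), `V ⊆ B_P` (`hden`).

* `h19r_BranchUnit B 𝔫 P G` : the reduction of `G` along `P` is a unit of the local ring of the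
  branch `B / P` at `𝔫`: there are `b, s ∈ B ∖ 𝔫` with `s G - b ∈ P B_P`.
* `h19r_branch` : if `w ∈ 1 + π V` and `w = ε G ^ m` with `ε` a unit of `B_𝔫`, `m ≠ 0`, and
  `G ∈ V_𝔫`, then `h19r_BranchUnit B 𝔫 P G` (the branch `B_𝔫 / P` is a valuation ring).
* `h19r_root_abs` : **T-ROOT (abstract)**: under the hypotheses of `H86LocFactAbs`, a function
  `w ∈ 1 + q V` has a local `m`-th root `G` at `𝔫` with `h19r_BranchUnit` along every vertical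
  prime through `𝔫`.

Mathlib + landed `H86LocFact` (helper86), `H16RegSub` (helper16), `H80Ufd` (helper80).
-/

set_option autoImplicit false
set_option linter.unusedSectionVars false
set_option linter.style.haveILetI false

open IsLocalRing

namespace Fermat.Agent.S36

section H19RootAbs

variable {F : Type} [Field F] (B V : Subring F)

/-- the reduction of `G` along the prime `P` is a unit of the local ring of the branch at `𝔫`: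
`s G - b ∈ P B_P` with `b, s ∈ B ∖ 𝔫`. -/
def h19r_BranchUnit (𝔫 P : Ideal B) (G : F) : Prop :=
  ∃ b s : B, s ∉ 𝔫 ∧ b ∉ 𝔫 ∧ ∃ r : B, r ∉ P ∧ ∃ p : B, p ∈ P ∧
    (r : F) * ((s : F) * G - (b : F)) = (p : F)

/-- **the branch value of a local root is a unit of the branch.** -/
theorem h19r_branch [IsNoetherianRing B] (𝔫 : Ideal B) [h𝔫 : 𝔫.IsPrime] (π : B) (hπ0 : π ≠ 0)
    (hreg : H62RegAt 𝔫 π) (P : Ideal B) (hP : h86l_IsVert 𝔫 π P)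
    (hden : ∀ v ∈ V, ∃ s : B, s ∉ P ∧ (s : F) * v ∈ B)
    (m : ℕ) (hm : m ≠ 0) (w G : F) (hG0 : G ≠ 0)
    (hwU : ∃ y ∈ V, w = 1 + (π : F) * y)
    (hGV : ∃ c : B, c ∉ 𝔫 ∧ (c : F) * G ∈ V)
    (hroot : ∃ s₀ : B, s₀ ∉ 𝔫 ∧ (s₀ : F) * (w * (G ^ m)⁻¹) ∈ B ∧
      (s₀ : F) * (G ^ m * w⁻¹) ∈ B) (hw0 : w ≠ 0) :
    h19r_BranchUnit B 𝔫 P G := by
  classical
  obtain ⟨hPp, hπP, hPle, hPne⟩ := hP
  haveI := hPp
  haveI : IsNoetherianRing (h66sO B 𝔫) := h16s_isNoetherianRing B 𝔫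
  obtain ⟨a, b₀, ha0, hPa, hmax, hnil⟩ := h16s_vertical_gen B 𝔫 π hπ0 hreg.two_gen P hπP hPle
    hPne (hreg.branch P hPp hπP hPle hPne)
  obtain ⟨hprime, hPIR⟩ := h80u_prime_of_two_gen a b₀ ha0 hmax hnil
  have hval := h16l_hval_of_pir a hprime hPIR
  have hdvd : ∀ b : B, a ∣ h16sIncl B 𝔫 b ↔ b ∈ P := fun b => by
    rw [← Ideal.mem_span_singleton, ← hPa, h16s_incl_mem_map_iff B 𝔫 P hPle]
  have ham : a ∈ maximalIdeal (h66sO B 𝔫) := by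
    rw [hmax]; exact Ideal.subset_span (by simp)
  -- the data
  obtain ⟨c, hc, hcG⟩ := hGV
  obtain ⟨s₁, hs₁, hs₁G⟩ := hden _ hcG
  obtain ⟨y, hy, hwy⟩ := hwU
  obtain ⟨s₂, hs₂, hs₂y⟩ := hden y hy
  obtain ⟨s₀, hs₀, hε, hε'⟩ := hroot
  have hcP : c ∉ P := fun h => hc (hPle h)
  have hr₁ : s₁ * c ∉ P := fun h => (hPp.mem_or_mem h).elim hs₁ hcP
  set r₁ : B := s₁ * c with hr₁def
  set β₁ : B := ⟨(s₁ : F) * ((c : F) * G), hs₁G⟩ with hβ₁def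
  set y₂ : B := ⟨(s₂ : F) * y, hs₂y⟩ with hy₂def
  have hβ : (β₁ : F) = (r₁ : F) * G := by
    simp only [hβ₁def, hr₁def]; push_cast; ring
  set ε : h66sO B 𝔫 := ⟨w * (G ^ m)⁻¹, s₀, hs₀, hε⟩ with hεdef
  set ε' : h66sO B 𝔫 := ⟨G ^ m * w⁻¹, s₀, hs₀, hε'⟩ with hε'def
  have hGm : G ^ m ≠ 0 := pow_ne_zero _ hG0
  have hεε' : ε * ε' = 1 := by
    apply Subtype.ext
    show w * (G ^ m)⁻¹ * (G ^ m * w⁻¹) = 1
    field_simp
  have hεu : IsUnit ε := IsUnit.of_mul_eq_one _ hεε'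
  -- the key identity in `O`
  have hkey : h16sIncl B 𝔫 s₂ * h16sIncl B 𝔫 β₁ ^ m * ε =
      h16sIncl B 𝔫 r₁ ^ m * (h16sIncl B 𝔫 s₂ + h16sIncl B 𝔫 π * h16sIncl B 𝔫 y₂) := by
    apply Subtype.ext
    show (s₂ : F) * (β₁ : F) ^ m * (w * (G ^ m)⁻¹) =
      (r₁ : F) ^ m * ((s₂ : F) + (π : F) * (y₂ : F))
    rw [hβ, mul_pow]
    have hy₂ : (y₂ : F) = (s₂ : F) * y := rfl
    have hGG : G ^ m * (G ^ m)⁻¹ = 1 := mul_inv_cancel₀ hGm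
    rw [hy₂, hwy]
    linear_combination ((s₂ : F) * (r₁ : F) ^ m * (1 + (π : F) * y)) * hGG
  have haπ : a ∣ h16sIncl B 𝔫 π := (hdvd π).mpr hπP
  have hns₂ : ¬ a ∣ h16sIncl B 𝔫 s₂ := fun h => hs₂ ((hdvd s₂).mp h)
  have hnr₁ : ¬ a ∣ h16sIncl B 𝔫 r₁ ^ m := fun h =>
    hr₁ ((hdvd r₁).mp (hprime.dvd_of_dvd_pow h))
  have hcancel : ∀ z : h66sO B 𝔫,
      a ∣ h16sIncl B 𝔫 s₂ * h16sIncl B 𝔫 r₁ ^ m * z → a ∣ z := by
    intro z hz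
    rcases hprime.dvd_or_dvd hz with h | h
    · rcases hprime.dvd_or_dvd h with h' | h'
      · exact absurd h' hns₂
      · exact absurd h' hnr₁
    · exact h
  have hone : (1 : h66sO B 𝔫) ∉ maximalIdeal (h66sO B 𝔫) := by
    intro h
    exact (Ideal.ne_top_iff_one _).mp (maximalIdeal.isMaximal _).ne_top h
  have hdm : ∀ z : h66sO B 𝔫, a ∣ z → z ∈ maximalIdeal (h66sO B 𝔫) := by
    rintro z ⟨d, rfl⟩
    exact Ideal.mul_mem_right _ _ ham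
  rcases hval (h16sIncl B 𝔫 r₁) (h16sIncl B 𝔫 β₁) with ⟨t, ht⟩ | ⟨t, ht⟩
  · -- `β₁ ≡ r₁ t`
    have h1 : a ∣ h16sIncl B 𝔫 β₁ ^ m - (h16sIncl B 𝔫 r₁ * t) ^ m :=
      ht.trans (sub_dvd_pow_sub_pow _ _ m)
    have h2 : a ∣ h16sIncl B 𝔫 s₂ * h16sIncl B 𝔫 r₁ ^ m * (t ^ m * ε - 1) := by
      have e : h16sIncl B 𝔫 s₂ * h16sIncl B 𝔫 r₁ ^ m * (t ^ m * ε - 1) =
          h16sIncl B 𝔫 r₁ ^ m * h16sIncl B 𝔫 y₂ * h16sIncl B 𝔫 π -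
            h16sIncl B 𝔫 s₂ * ε * (h16sIncl B 𝔫 β₁ ^ m - (h16sIncl B 𝔫 r₁ * t) ^ m) := by
        have := hkey
        linear_combination this
      rw [e]
      exact dvd_sub (Dvd.dvd.mul_left haπ _) (Dvd.dvd.mul_left h1 _)
    have h3 : a ∣ t ^ m * ε - 1 := hcancel _ h2
    have htu : IsUnit t := by
      by_contra hnu
      have htm : t ∈ maximalIdeal (h66sO B 𝔫) := hnu
      have h4 : t ^ m * ε ∈ maximalIdeal (h66sO B 𝔫) :=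
        Ideal.mul_mem_right _ _ (Ideal.pow_mem_of_mem _ htm m (Nat.pos_of_ne_zero hm))
      have h5 := hdm _ h3
      apply hone
      have : (1 : h66sO B 𝔫) = t ^ m * ε - (t ^ m * ε - 1) := by ring
      rw [this]
      exact Ideal.sub_mem _ h4 h5
    obtain ⟨s, b, hs, hb, hsb⟩ := (h66s_isUnit_iff t).mp htu
    have h6 : a ∣ h16sIncl B 𝔫 (s * β₁ - r₁ * b) := by
      have e : h16sIncl B 𝔫 (s * β₁ - r₁ * b) =
          h16sIncl B 𝔫 s * (h16sIncl B 𝔫 β₁ - h16sIncl B 𝔫 r₁ * t) := by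
        apply Subtype.ext
        show ((s * β₁ - r₁ * b : B) : F) = (s : F) * ((β₁ : F) - (r₁ : F) * (t : F))
        push_cast
        rw [← hsb]; ring
      rw [e]
      exact Dvd.dvd.mul_left ht _
    refine ⟨b, s, hs, hb, r₁, hr₁, s * β₁ - r₁ * b, (hdvd _).mp h6, ?_⟩
    push_cast
    rw [hβ]; ring
  · -- `r₁ ≡ β₁ t`
    have h1 : a ∣ h16sIncl B 𝔫 r₁ ^ m - (h16sIncl B 𝔫 β₁ * t) ^ m :=
      ht.trans (sub_dvd_pow_sub_pow _ _ m)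
    have h2 : a ∣ h16sIncl B 𝔫 s₂ * h16sIncl B 𝔫 r₁ ^ m * (ε - t ^ m) := by
      have e : h16sIncl B 𝔫 s₂ * h16sIncl B 𝔫 r₁ ^ m * (ε - t ^ m) =
          h16sIncl B 𝔫 s₂ * ε * (h16sIncl B 𝔫 r₁ ^ m - (h16sIncl B 𝔫 β₁ * t) ^ m) +
            t ^ m * h16sIncl B 𝔫 r₁ ^ m * h16sIncl B 𝔫 y₂ * h16sIncl B 𝔫 π := by
        have := hkey
        linear_combination (t ^ m) * this
      rw [e]
      exact dvd_add (Dvd.dvd.mul_left h1 _) (Dvd.dvd.mul_left haπ _)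
    have h3 : a ∣ ε - t ^ m := hcancel _ h2
    have htu : IsUnit t := by
      by_contra hnu
      have htm : t ∈ maximalIdeal (h66sO B 𝔫) := hnu
      have h4 : t ^ m ∈ maximalIdeal (h66sO B 𝔫) :=
        Ideal.pow_mem_of_mem _ htm m (Nat.pos_of_ne_zero hm)
      have h5 := hdm _ h3
      have h7 : ε ∈ maximalIdeal (h66sO B 𝔫) := by
        have : ε = (ε - t ^ m) + t ^ m := by ring
        rw [this]
        exact Ideal.add_mem _ h5 h4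
      exact h7 hεu
    obtain ⟨s, b, hs, hb, hsb⟩ := (h66s_isUnit_iff t).mp htu
    have h6 : a ∣ h16sIncl B 𝔫 (s * r₁ - β₁ * b) := by
      have e : h16sIncl B 𝔫 (s * r₁ - β₁ * b) =
          h16sIncl B 𝔫 s * (h16sIncl B 𝔫 r₁ - h16sIncl B 𝔫 β₁ * t) := by
        apply Subtype.ext
        show ((s * r₁ - β₁ * b : B) : F) = (s : F) * ((r₁ : F) - (β₁ : F) * (t : F))
        push_cast
        rw [← hsb]; ring
      rw [e]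
      exact Dvd.dvd.mul_left ht _
    refine ⟨s, b, hb, hs, r₁, hr₁, -(s * r₁ - β₁ * b), P.neg_mem ((hdvd _).mp h6), ?_⟩
    push_cast
    rw [hβ]; ring

/-- **T-ROOT (abstract).**  Under the hypotheses of `H86LocFactAbs`, a function `w ∈ 1 + q V`
with `w⁻¹ ∈ V` has at `𝔫` a local `m`-th root `G ∈ V_𝔫` (up to a unit of `B_𝔫`) whose reduction
along every vertical prime through `𝔫` is a unit of the branch. -/
theorem h19r_root_abs (hBV : ∀ x ∈ B, x ∈ V) [IsNoetherianRing B]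
    (𝔫 : Ideal B) [h𝔫 : 𝔫.IsMaximal] (q : ℕ) (hq : q.Prime) (hq𝔫 : ((q : ℕ) : B) ∈ 𝔫)
    (hqF : ((q : ℕ) : F) ≠ 0) (hreg : H62RegAt 𝔫 ((q : ℕ) : B))
    (hex : ∃ P : Ideal B, h86l_IsVert 𝔫 ((q : ℕ) : B) P)
    (hden : ∀ P : Ideal B, h86l_IsVert 𝔫 ((q : ℕ) : B) P →
      ∀ v ∈ V, ∃ s : B, s ∉ P ∧ (s : F) * v ∈ B)
    (hinv : ∀ s : B, (∀ P : Ideal B, h86l_IsVert 𝔫 ((q : ℕ) : B) P → s ∉ P) →
      ∃ c : B, c ∉ 𝔫 ∧ (c : F) * ((s : F))⁻¹ ∈ V)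
    (m : ℕ) (hm : m ≠ 0) (w : F) (hw0 : w ≠ 0) (hwfrac : h86l_IsFrac B w)
    (hwU : ∃ y ∈ V, w = 1 + ((q : ℕ) : F) * y) (hw'V : w⁻¹ ∈ V)
    (hhor : ∀ 𝔭 : Ideal B, 𝔭.IsPrime → 𝔭 ≠ ⊥ → ((q : ℕ) : B) ∉ 𝔭 → 𝔭 ≤ 𝔫 →
      ∃ G : F, G ≠ 0 ∧ h86l_IsFrac B G ∧ ∃ s : B, s ∉ 𝔭 ∧
        (s : F) * (w * (G ^ m)⁻¹) ∈ B ∧ (s : F) * (G ^ m * w⁻¹) ∈ B) :
    ∃ G : F, G ≠ 0 ∧ h86l_IsFrac B G ∧ (∃ c : B, c ∉ 𝔫 ∧ (c : F) * G ∈ V) ∧
      (∃ s₀ : B, s₀ ∉ 𝔫 ∧ (s₀ : F) * (w * (G ^ m)⁻¹) ∈ B ∧ (s₀ : F) * (G ^ m * w⁻¹) ∈ B) ∧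
      ∀ P : Ideal B, h86l_IsVert 𝔫 ((q : ℕ) : B) P → h19r_BranchUnit B 𝔫 P G := by
  have hwV : w ∈ V := by
    obtain ⟨y, hy, rfl⟩ := hwU
    exact V.add_mem V.one_mem (V.mul_mem (hBV _ ((q : ℕ) : B).2) hy)
  obtain ⟨G, hG0, hGfrac, hGV, hroot⟩ := h86l_locFactAbs B V hBV 𝔫 q hq hq𝔫 hqF hreg hex hden
    hinv m w hw0 hwfrac hwV hw'V hhor
  have hqB : ((q : ℕ) : B) ≠ 0 := by
    intro h
    apply hqF
    have := congrArg (Subtype.val : B → F) h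
    simpa using this
  haveI : 𝔫.IsPrime := h𝔫.isPrime
  refine ⟨G, hG0, hGfrac, hGV, hroot, fun P hP => ?_⟩
  refine h19r_branch B V 𝔫 ((q : ℕ) : B) hqB hreg P hP (hden P hP) m hm w G hG0 ?_ hGV hroot hw0
  obtain ⟨y, hy, hwy⟩ := hwU
  exact ⟨y, hy, by rw [hwy]; push_cast; rfl⟩

end H19RootAbs

end Fermat.Agent.S36
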