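import Fermat.Agent.S36.H3Hex
import Fermat.Agent.S36.V28Val
import Fermat.Agent.S36.H88VFinal
import Fermat.Agent.S36.H95Bridge
import Fermat.Agent.S36.H78TorBasic

/-!
# S36, row LOC-VCOMP: the conjunct `hinv` of `H86LocVCompAt` (helper78, second seat)

`hinv`: at a closed point `𝔫 ∋ q` of the chart `B = B₀(t)` (`t = j, j⁻¹`, level `M q²`), a
function `s ∈ B` outside all the vertical primes through `𝔫` has `c / s ∈ V₀` for some
`c ∈ B ∖ 𝔫`.

Direct route (no packaged valuations).  For a vertical embedding `E` (`E20`, `E11^ζ`, `E02`)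
let `P_E = ker (B → G → κ((t)))` be the centre of `E` on `B` (`G` the Gauss ring, `κ` the
residue field of `A`).
* `P_E` is a prime containing `q`; it is not maximal: `B` is integral over `A₀[t]`, a closed
  point `𝔫` contains `g (t)` for some `g ∈ A₀[X]` with non-zero reduction, and the reduction of
  `E t` is transcendental over `κ` (`h78i_exists_unit`);
* if `P_E ≤ 𝔫` then `P_E` is a vertical prime through `𝔫`, so `s ∉ P_E` and `E s` is a unit of
  `G`; if not, pick `c_E ∈ P_E ∖ 𝔫`: by discreteness (`H20Val`, landed) `E (c_E ^ k / s) ∈ G`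
  for `k` large (`h78i_claim`);
* `c = c₂₀ c₁₁ c₀₂`: `c / s` is integral at the three embeddings, hence in `V`
  (`H20VComplete`, landed).
-/

set_option autoImplicit false
set_option linter.unusedSectionVars false
set_option linter.style.haveILetI false
set_option synthInstance.maxHeartbeats 400000

open AlgebraicCurve ModularCurve IsLocalRing Polynomial

noncomputable section

namespace Fermat.Agent.S36

open Fermat.Agent.S37 (Kbar GQ FF cst jB gal modelAt ringAdj degen auxLevel)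
open Fermat.Agent.Red.GV Fermat.Agent.Red.GV.Soft
open Fermat.Agent.Red.Kron (kFricke kFricke_alpha)

/-! ## The centre of a vertical embedding on a chart -/

section Abs

variable {A : ValuationSubring Kbar} {N : ℕ} {t : FF N}
  {E : FF N →+* LaurentSeries Kbar}

/-- an embedding datum on the chart `B₀(t)`: `E` is the identity on constants, the chart is
Gauss-integral at `E`, and the reduction of `E t` is transcendental over the residue field. -/
structure h78i_Emb (A : ValuationSubring Kbar) (N : ℕ) (t : FF N)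
    (E : FF N →+* LaurentSeries Kbar) : Prop where
  cst : ∀ a : Kbar, E (cst N a) = HahnSeries.C a
  int : ∀ b ∈ h92c_Chart A N t, E b ∈ softOT A (IsLocalRing.residue A)
  tr : ∀ h : E t ∈ softOT A (IsLocalRing.residue A),
    Transcendental (IsLocalRing.ResidueField A)
      (softRedT A (IsLocalRing.residue A) ⟨E t, h⟩)

/-- the reduction map of the chart along `E`. -/
def h78iRed (hE : h78i_Emb A N t E) :
    ↥(h92c_Chart A N t) →+* LaurentSeries (IsLocalRing.ResidueField A) :=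
  (softRedT A (IsLocalRing.residue A)).comp
    ((E.comp (h92c_Chart A N t).subtype).codRestrict (softOT A (IsLocalRing.residue A))
      (fun b => hE.int b b.2))

theorem h78iRed_apply (hE : h78i_Emb A N t E) (b : ↥(h92c_Chart A N t)) :
    h78iRed hE b = softRedT A (IsLocalRing.residue A) ⟨E b, hE.int b b.2⟩ := rfl

/-- the reduction of `q` vanishes. -/
theorem h78iRed_natCast {q : ℕ} (hA : A.LiesOverPrime q) (hE : h78i_Emb A N t E) :
    h78iRed hE ((q : ℕ) : ↥(h92c_Chart A N t)) = 0 := by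
  have hqA : ((q : ℕ) : Kbar) ∈ A := natCast_mem A q
  have h1 : E (((q : ℕ) : ↥(h92c_Chart A N t)) : FF N) = HahnSeries.C ((q : ℕ) : Kbar) := by
    have h2 : ((((q : ℕ) : ↥(h92c_Chart A N t)) : FF N)) = cst N ((q : ℕ) : Kbar) := by
      rw [show cst N ((q : ℕ) : Kbar) = ((q : ℕ) : FF N) from map_natCast _ q]
      rfl
    rw [h2, hE.cst]
  have h3 : ∀ (x : LaurentSeries Kbar) (hx : x ∈ softOT A (IsLocalRing.residue A)),
      x = HahnSeries.C ((q : ℕ) : Kbar) →
      softRedT A (IsLocalRing.residue A) ⟨x, hx⟩ = 0 := by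
    rintro x hx rfl
    rw [softRedT_C A (IsLocalRing.residue A) ⟨_, hqA⟩ hx,
      residue_eq_zero_of_nonunit A ⟨_, hqA⟩ hA, map_zero]
  exact h3 _ _ h1

/-- a function of the chart with non-zero reduction is a Gauss unit. -/
theorem h78iRed_ne_zero (hE : h78i_Emb A N t E) {b : ↥(h92c_Chart A N t)}
    (hb : h78iRed hE b ≠ 0) : (E b)⁻¹ ∈ softOT A (IsLocalRing.residue A) :=
  ((softRedT_ne_zero_iff (⟨E b, hE.int b b.2⟩ : softOT A (IsLocalRing.residue A))).mp hb).2

/-- a Gauss unit has non-zero reduction. -/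
theorem h78i_unit_red {x : LaurentSeries Kbar} (hx0 : x ≠ 0)
    (hx : x ∈ softOT A (IsLocalRing.residue A))
    (hx' : x⁻¹ ∈ softOT A (IsLocalRing.residue A)) :
    softRedT A (IsLocalRing.residue A) ⟨x, hx⟩ ≠ 0 :=
  (softRedT_ne_zero_iff (⟨x, hx⟩ : softOT A (IsLocalRing.residue A))).mpr ⟨hx0, hx'⟩

end Abs

/-! ## The centre is not a closed point -/

section NotMax

variable {A : ValuationSubring Kbar} {N : ℕ} [NeZero N] {t : FF N}
  {E : FF N →+* LaurentSeries Kbar}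

/-- the residue map of `A₀`. -/
def h78iRes0 (A : ValuationSubring Kbar) : ↥(h59bA0 A) →+* IsLocalRing.ResidueField A :=
  (IsLocalRing.residue A).comp (h59bIncl A)

/-- the reduction of `g (t)`, `g ∈ A₀[X]`. -/
theorem h78iRed_ev (hE : h78i_Emb A N t E)
    (ht : ∀ σ ∈ A.inertiaSubgroupIn ℚ, gal N σ • t = t) (g : Polynomial ↥(h59bA0 A)) :
    h78iRed hE (h3kEv N t ht g) =
      Polynomial.aeval (h78iRed hE (h3kEv N t ht X)) (g.map (h78iRes0 A)) := by
  have key : (h78iRed hE).comp (h3kEv N t ht) =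
      ((Polynomial.aeval (h78iRed hE (h3kEv N t ht X))).toRingHom).comp
        (Polynomial.mapRingHom (h78iRes0 A)) := by
    refine Polynomial.ringHom_ext (fun a => ?_) ?_
    · show h78iRed hE (h3kEv N t ht (C a)) =
        Polynomial.aeval (h78iRed hE (h3kEv N t ht X)) ((C a).map (h78iRes0 A))
      rw [Polynomial.map_C, Polynomial.aeval_C, h78iRed_apply]
      have haA : (((a : ↥(h59bK0 A)) : Kbar)) ∈ A := (h59bIncl A a).2
      have h1 : E ((h3kEv N t ht (C a) : ↥(h92c_Chart A N t)) : FF N) =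
          HahnSeries.C (((a : ↥(h59bK0 A)) : Kbar)) := by
        rw [h3kEv_coe, h59nEv_C, hE.cst]
      have h3 : ∀ (x : LaurentSeries Kbar) (hx : x ∈ softOT A (IsLocalRing.residue A)),
          x = HahnSeries.C (((a : ↥(h59bK0 A)) : Kbar)) →
          softRedT A (IsLocalRing.residue A) ⟨x, hx⟩ =
            HahnSeries.C (IsLocalRing.residue A (h59bIncl A a)) := by
        rintro x hx rfl
        exact softRedT_C A (IsLocalRing.residue A) (h59bIncl A a) hx
      rw [h3 _ _ h1, algebraMap_laurentSeries_eq_single]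
      rfl
    · show h78iRed hE (h3kEv N t ht X) =
        Polynomial.aeval (h78iRed hE (h3kEv N t ht X)) ((X : Polynomial _).map (h78iRes0 A))
      rw [Polynomial.map_X, Polynomial.aeval_X]
  exact RingHom.congr_fun key g

/-- the reduction of `t`. -/
theorem h78iRed_X (hE : h78i_Emb A N t E)
    (ht : ∀ σ ∈ A.inertiaSubgroupIn ℚ, gal N σ • t = t) :
    Transcendental (IsLocalRing.ResidueField A) (h78iRed hE (h3kEv N t ht X)) := by
  rw [h78iRed_apply]
  have h1 : ((h3kEv N t ht X : ↥(h92c_Chart A N t)) : FF N) = t := by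
    rw [h3kEv_coe, h59nEv_X]
  have h3 : ∀ (x : FF N) (hx : E x ∈ softOT A (IsLocalRing.residue A)), x = t →
      Transcendental (IsLocalRing.ResidueField A)
        (softRedT A (IsLocalRing.residue A) ⟨E x, hx⟩) := by
    rintro x hx rfl
    exact hE.tr hx
  exact h3 _ _ h1

/-- a polynomial whose reduction vanishes is divisible by `q`. -/
theorem h78i_mem_span_of_map {q : ℕ} (hq : q.Prime) (hA : A.LiesOverPrime q)
    {g : Polynomial ↥(h59bA0 A)} (hg : g.map (h78iRes0 A) = 0) :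
    g ∈ Ideal.span {(C ((q : ℕ) : ↥(h59bA0 A)) : Polynomial ↥(h59bA0 A))} := by
  have h1 : Ideal.span {(C ((q : ℕ) : ↥(h59bA0 A)) : Polynomial ↥(h59bA0 A))} =
      Ideal.map (C : ↥(h59bA0 A) →+* Polynomial ↥(h59bA0 A))
        (Ideal.span {((q : ℕ) : ↥(h59bA0 A))}) := by
    rw [Ideal.map_span, Set.image_singleton]
  rw [h1, Ideal.mem_map_C_iff]
  intro n
  have h2 : h78iRes0 A (g.coeff n) = 0 := by
    have := congrArg (fun p => Polynomial.coeff p n) hg
    simpa [Polynomial.coeff_map] using this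
  have h3 : h59bIncl A (g.coeff n) ∈ maximalIdeal A :=
    (IsLocalRing.residue_eq_zero_iff _).mp h2
  rw [← h59b_maximalIdeal A hq hA]
  exact (h59bIncl_mem_maximalIdeal_iff A _).mp h3

/-- **the centre of `E` is not a closed point**: every closed point of the special fibre
contains a function with non-zero reduction along `E`. -/
theorem h78i_exists_unit {q : ℕ} (hq : q.Prime) (hA : A.LiesOverPrime q)
    (hE : h78i_Emb A N t E) (ht : ∀ σ ∈ A.inertiaSubgroupIn ℚ, gal N σ • t = t)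
    (𝔫 : Ideal ↥(h92c_Chart A N t)) (h𝔫 : 𝔫.IsMaximal)
    (hq𝔫 : ((q : ℕ) : ↥(h92c_Chart A N t)) ∈ 𝔫) :
    ∃ b : ↥(h92c_Chart A N t), b ∈ 𝔫 ∧ h78iRed hE b ≠ 0 := by
  classical
  haveI := h59b_isDVR A hq hA
  letI : Algebra (Polynomial ↥(h59bA0 A)) ↥(h92c_Chart A N t) := (h3kEv N t ht).toAlgebra
  haveI : Algebra.IsIntegral (Polynomial ↥(h59bA0 A)) ↥(h92c_Chart A N t) :=
    ⟨h3kEv_isIntegral N t ht⟩
  haveI : 𝔫.IsPrime := h𝔫.isPrime
  haveI h𝔫' : (𝔫.under (Polynomial ↥(h59bA0 A))).IsMaximal :=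
    Ideal.isMaximal_comap_of_isIntegral_of_isMaximal (R := Polynomial ↥(h59bA0 A)) 𝔫
  have hle : Ideal.span {(C ((q : ℕ) : ↥(h59bA0 A)) : Polynomial ↥(h59bA0 A))} ≤
      𝔫.under (Polynomial ↥(h59bA0 A)) := by
    rw [Ideal.span_singleton_le_iff_mem, Ideal.under_def, Ideal.mem_comap]
    show h3kEv N t ht (C ((q : ℕ) : ↥(h59bA0 A))) ∈ 𝔫
    rw [h3kEv_C_natCast]
    exact hq𝔫
  have hne : Ideal.span {(C ((q : ℕ) : ↥(h59bA0 A)) : Polynomial ↥(h59bA0 A))} ≠
      𝔫.under (Polynomial ↥(h59bA0 A)) := by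
    intro h
    exact h3k_span_C_not_isMaximal ((q : ℕ) : ↥(h59bA0 A))
      (h59b_irreducible A hq hA).not_isUnit (h ▸ h𝔫')
  obtain ⟨g, hg𝔫, hgq⟩ := SetLike.exists_of_lt (lt_of_le_of_ne hle hne)
  refine ⟨h3kEv N t ht g, hg𝔫, ?_⟩
  rw [h78iRed_ev hE ht g]
  intro h0
  have hg0 : g.map (h78iRes0 A) ≠ 0 := fun h => hgq (h78i_mem_span_of_map hq hA h)
  exact h78iRed_X hE ht ⟨g.map (h78iRes0 A), hg0, h0⟩

end NotMax

/-! ## The local claim at one embedding -/

section Claim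

variable {A : ValuationSubring Kbar} {N : ℕ} [NeZero N] {t : FF N}
  {E : FF N →+* LaurentSeries Kbar}

/-- `C (π ^ e) ∈ G` for `e ≥ 0`. -/
theorem h78i_C_zpow_mem {π : Kbar} (hπ : π ∈ A) {e : ℤ} (he : 0 ≤ e) :
    HahnSeries.C (π ^ e) ∈ softOT A (IsLocalRing.residue A) := by
  obtain ⟨n, rfl⟩ := Int.eq_ofNat_of_zero_le he
  rw [zpow_natCast]
  exact C_mem_softOT A _ ⟨π ^ n, pow_mem hπ n⟩

/-- **the claim at `E`**: there is `c ∈ B ∖ 𝔫` such that `d c / s` is Gauss-integral at `E` for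
every `d ∈ B`. -/
theorem h78i_claim {q : ℕ} (hq : q.Prime) (hA : A.LiesOverPrime q)
    (hE : h78i_Emb A N t E) (ht : ∀ σ ∈ A.inertiaSubgroupIn ℚ, gal N σ • t = t)
    {π : Kbar} (hπA : π ∈ A) (hπ0 : π ≠ 0)
    (hdisc : ∀ u : FF N, u ∈ h92c_F0 A N → u ≠ 0 →
      ∃ n : ℤ, h20v_Unit A (E (cst N (π ^ n) * u)))
    (𝔫 : Ideal ↥(h92c_Chart A N t)) (h𝔫 : 𝔫.IsMaximal)
    (hq𝔫 : ((q : ℕ) : ↥(h92c_Chart A N t)) ∈ 𝔫)
    (s : ↥(h92c_Chart A N t)) (hs0 : s ≠ 0)
    (hs : ∀ P : Ideal ↥(h92c_Chart A N t),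
      h86l_IsVert 𝔫 ((q : ℕ) : ↥(h92c_Chart A N t)) P → s ∉ P) :
    ∃ c : ↥(h92c_Chart A N t), c ∉ 𝔫 ∧ ∀ d : ↥(h92c_Chart A N t),
      E ((d : FF N) * (c : FF N) * ((s : FF N))⁻¹) ∈ softOT A (IsLocalRing.residue A) := by
  classical
  haveI : 𝔫.IsPrime := h𝔫.isPrime
  have hPprime : (RingHom.ker (h78iRed hE)).IsPrime := RingHom.ker_isPrime (h78iRed hE)
  have hqP : ((q : ℕ) : ↥(h92c_Chart A N t)) ∈ RingHom.ker (h78iRed hE) :=
    (RingHom.mem_ker).mpr (h78iRed_natCast hA hE)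
  have hs0' : (s : FF N) ≠ 0 := fun h => hs0 (Subtype.ext h)
  by_cases hle : RingHom.ker (h78iRed hE) ≤ 𝔫
  · -- the centre passes through `𝔫`
    have hne : RingHom.ker (h78iRed hE) ≠ 𝔫 := by
      intro h
      obtain ⟨b, hb, hb0⟩ := h78i_exists_unit hq hA hE ht 𝔫 h𝔫 hq𝔫
      rw [← h] at hb
      exact hb0 ((RingHom.mem_ker).mp hb)
    have hsP : s ∉ RingHom.ker (h78iRed hE) := hs _ ⟨hPprime, hqP, hle, hne⟩
    have hsu : (E s)⁻¹ ∈ softOT A (IsLocalRing.residue A) :=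
      h78iRed_ne_zero hE (fun h => hsP ((RingHom.mem_ker).mpr h))
    refine ⟨1, (Ideal.ne_top_iff_one 𝔫).mp h𝔫.ne_top, fun d => ?_⟩
    rw [map_mul, map_mul, map_inv₀]
    exact mul_mem (mul_mem (hE.int d d.2) (hE.int _ (1 : ↥(h92c_Chart A N t)).2)) hsu
  · -- the centre does not pass through `𝔫`
    obtain ⟨c0, hc0P, hc0𝔫⟩ := SetLike.not_le_iff_exists.mp hle
    have hc00 : (c0 : FF N) ≠ 0 := by
      intro h
      apply hc0𝔫
      have : c0 = 0 := Subtype.ext h
      rw [this]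
      exact 𝔫.zero_mem
    obtain ⟨n, hn⟩ := hdisc s s.2.2 hs0'
    obtain ⟨m, hm⟩ := hdisc c0 c0.2.2 hc00
    have e1 : E (cst N (π ^ n) * s) = HahnSeries.C (π ^ n) * E s := by rw [map_mul, hE.cst]
    have e2 : E (cst N (π ^ m) * c0) = HahnSeries.C (π ^ m) * E c0 := by rw [map_mul, hE.cst]
    rw [e1] at hn
    rw [e2] at hm
    have hmem2 := hE.int c0 c0.2
    have hred0 : softRedT A (IsLocalRing.residue A) ⟨E c0, hmem2⟩ = 0 :=
      (RingHom.mem_ker).mp hc0P
    -- `m ≤ -1`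
    have hm1 : m ≤ -1 := by
      by_contra hcon
      have hm0 : 0 ≤ m := by omega
      have hmem1 := h78i_C_zpow_mem (A := A) hπA hm0
      have hz : softRedT A (IsLocalRing.residue A)
          ⟨HahnSeries.C (π ^ m) * E c0, mul_mem hmem1 hmem2⟩ = 0 := by
        have e : (⟨HahnSeries.C (π ^ m) * E c0, mul_mem hmem1 hmem2⟩ :
            softOT A (IsLocalRing.residue A)) = ⟨HahnSeries.C (π ^ m), hmem1⟩ * ⟨E c0, hmem2⟩ :=
          rfl
        rw [e, map_mul, hred0, mul_zero]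
      exact h78i_unit_red hm.1 (mul_mem hmem1 hmem2) hm.2.2 hz
    refine ⟨c0 ^ (-n).toNat, fun h => hc0𝔫 (h𝔫.isPrime.mem_of_pow_mem _ h), fun d => ?_⟩
    have hexp : 0 ≤ n - m * ((-n).toNat : ℤ) := by
      have hk : -n ≤ (((-n).toNat : ℕ) : ℤ) := Int.self_le_toNat (-n)
      have hk0 : (0 : ℤ) ≤ (((-n).toNat : ℕ) : ℤ) := Int.natCast_nonneg _
      nlinarith
    have hEs : E s ≠ 0 := (_root_.map_ne_zero E).mpr hs0'
    have hCn : (HahnSeries.C (π ^ n) : LaurentSeries Kbar) ≠ 0 :=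
      (_root_.map_ne_zero (HahnSeries.C : Kbar →+* LaurentSeries Kbar)).mpr
        (zpow_ne_zero _ hπ0)
    have hCm : (HahnSeries.C (π ^ m) : LaurentSeries Kbar) ≠ 0 :=
      (_root_.map_ne_zero (HahnSeries.C : Kbar →+* LaurentSeries Kbar)).mpr
        (zpow_ne_zero _ hπ0)
    have key : E ((d : FF N) * ((c0 ^ (-n).toNat : ↥(h92c_Chart A N t)) : FF N) *
        ((s : FF N))⁻¹) =
        E d * (HahnSeries.C (π ^ m) * E c0) ^ (-n).toNat * (HahnSeries.C (π ^ n) * E s)⁻¹ *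
          HahnSeries.C (π ^ (n - m * ((-n).toNat : ℤ))) := by
      have hc : ((c0 ^ (-n).toNat : ↥(h92c_Chart A N t)) : FF N) = (c0 : FF N) ^ (-n).toNat :=
        rfl
      rw [hc, map_mul, map_mul, map_inv₀, map_pow, zpow_sub₀ hπ0, zpow_mul, zpow_natCast,
        map_div₀, map_pow]
      field_simp
      rw [mul_pow]
      ring
    rw [key]
    exact mul_mem (mul_mem (mul_mem (hE.int d d.2) (pow_mem hm.2.1 _)) hn.2.2)
      (h78i_C_zpow_mem hπA hexp)

end Claim

/-! ## `hinv` from the embedding data -/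

section Hinv

variable {M q : ℕ} [NeZero M] [NeZero q] {A : ValuationSubring Kbar}

/-- a root of unity is integral. -/
theorem h78i_zeta_mem (A : ValuationSubring Kbar) {ζ : Kbar} {n : ℕ} (hn : 0 < n)
    (hζ : ζ ^ n = 1) : ζ ∈ A := by
  rcases A.mem_or_inv_mem ζ with h | h
  · exact h
  · have h1 : ζ = (ζ⁻¹) ^ (n - 1) := by
      have h2 : ζ * ζ ^ (n - 1) = 1 := by
        rw [← pow_succ', Nat.sub_add_cancel hn, hζ]
      rw [inv_pow]
      exact eq_inv_of_mul_eq_one_left h2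
    rw [h1]
    exact pow_mem h _

/-- **`hinv` at a chart `t`** from the embedding data at the three vertical embeddings. -/
theorem h78i_hinv_of (hq : q.Prime) (hqM : ¬ q ∣ M) (haux : auxLevel q ∣ M)
    (hA : A.LiesOverPrime q) (t : FF (M * q * q))
    (ht : ∀ σ ∈ A.inertiaSubgroupIn ℚ, gal (M * q * q) σ • t = t)
    (htr : Transcendental Kbar t)
    (hEmb : ∀ E : FF (M * q * q) →+* LaurentSeries Kbar, h11l_IsVE M q hq hqM E →
      h78i_Emb A (M * q * q) t E) :
    ∀ 𝔫 : Ideal (h92c_Chart A (M * q * q) t), 𝔫.IsMaximal →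
      ((q : ℕ) : h92c_Chart A (M * q * q) t) ∈ 𝔫 →
      ∀ s : h92c_Chart A (M * q * q) t,
        (∀ P : Ideal (h92c_Chart A (M * q * q) t),
          h86l_IsVert 𝔫 ((q : ℕ) : h92c_Chart A (M * q * q) t) P → s ∉ P) →
        ∃ c : h92c_Chart A (M * q * q) t, c ∉ 𝔫 ∧
          (c : FF (M * q * q)) * ((s : FF (M * q * q)))⁻¹ ∈ h92c_V0 A M q := by
  intro 𝔫 h𝔫 hq𝔫 s hs
  obtain ⟨ζ, E11, E02, hT⟩ := h95v_exists_triple q hq M hqM
  obtain ⟨P0, hP0⟩ := h3k_hex_of hq hA (M * q * q) t ht htr 𝔫 h𝔫 hq𝔫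
  have hs0 : s ≠ 0 := fun h => hs P0 hP0 (h ▸ P0.zero_mem)
  have hval := fun (u : FF (M * q * q)) (hu : u ∈ h92c_F0 A (M * q * q)) (hu0 : u ≠ 0) =>
    Fermat.Agent.S36.V28.h28f_H20Val q hq M hqM haux A hA ζ E11 E02 hT u hu hu0
  have hE20 : h78i_Emb A (M * q * q) t (h20n_E20 M q) := hEmb _ (Or.inl rfl)
  have hE11 : h78i_Emb A (M * q * q) t E11 := hEmb _ (Or.inr (Or.inl ⟨ζ, hT.prim, hT.e11⟩))
  have hE02 : h78i_Emb A (M * q * q) t E02 := hEmb _ (Or.inr (Or.inr hT.e02))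
  have hqA : ((q : ℕ) : Kbar) ∈ A := natCast_mem A q
  have hq0 : ((q : ℕ) : Kbar) ≠ 0 := Nat.cast_ne_zero.mpr hq.ne_zero
  have hζA : (1 : Kbar) - ζ ∈ A :=
    A.sub_mem A.one_mem (h78i_zeta_mem A hq.pos hT.prim.pow_eq_one)
  have hζ0 : (1 : Kbar) - ζ ≠ 0 := by
    intro h
    have h1 : ζ = 1 := (sub_eq_zero.mp h).symm
    exact hq.one_lt.ne' (hT.prim.unique (h1 ▸ IsPrimitiveRoot.one))
  obtain ⟨c20, hc20, h20⟩ := h78i_claim hq hA hE20 ht hqA hq0
    (fun u hu hu0 => by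
      obtain ⟨n₂₀, n₁₁, n₀₂, h⟩ := hval u hu hu0
      exact ⟨n₂₀, h.1⟩) 𝔫 h𝔫 hq𝔫 s hs0 hs
  obtain ⟨c11, hc11, h11⟩ := h78i_claim hq hA hE11 ht hζA hζ0
    (fun u hu hu0 => by
      obtain ⟨n₂₀, n₁₁, n₀₂, h⟩ := hval u hu hu0
      exact ⟨n₁₁, h.2.1⟩) 𝔫 h𝔫 hq𝔫 s hs0 hs
  obtain ⟨c02, hc02, h02⟩ := h78i_claim hq hA hE02 ht hqA hq0
    (fun u hu hu0 => by
      obtain ⟨n₂₀, n₁₁, n₀₂, h⟩ := hval u hu hu0
      exact ⟨n₀₂, h.2.2⟩) 𝔫 h𝔫 hq𝔫 s hs0 hs
  haveI : 𝔫.IsPrime := h𝔫.isPrime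
  refine ⟨c20 * c11 * c02, ?_, ?_⟩
  · intro h
    rcases (h𝔫.isPrime.mem_or_mem h) with h' | h'
    · rcases (h𝔫.isPrime.mem_or_mem h') with h'' | h''
      · exact hc20 h''
      · exact hc11 h''
    · exact hc02 h'
  · have hxF : ((c20 * c11 * c02 : ↥(h92c_Chart A (M * q * q) t)) : FF (M * q * q)) *
        ((s : FF (M * q * q)))⁻¹ ∈ h92c_F0 A (M * q * q) :=
      mul_mem (c20 * c11 * c02 : ↥(h92c_Chart A (M * q * q) t)).2.2 (inv_mem s.2.2)
    refine ⟨?_, hxF⟩
    refine h88v_vcomplete_final q hq M hqM haux A hA ζ E11 E02 hT _ hxF ⟨?_, ?_, ?_⟩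
    · have e : ((c20 * c11 * c02 : ↥(h92c_Chart A (M * q * q) t)) : FF (M * q * q)) *
          ((s : FF (M * q * q)))⁻¹ =
          ((c11 * c02 : ↥(h92c_Chart A (M * q * q) t)) : FF (M * q * q)) *
            (c20 : FF (M * q * q)) * ((s : FF (M * q * q)))⁻¹ := by
        push_cast
        ring
      rw [e]
      exact h20 (c11 * c02)
    · have e : ((c20 * c11 * c02 : ↥(h92c_Chart A (M * q * q) t)) : FF (M * q * q)) *
          ((s : FF (M * q * q)))⁻¹ =
          ((c20 * c02 : ↥(h92c_Chart A (M * q * q) t)) : FF (M * q * q)) *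
            (c11 : FF (M * q * q)) * ((s : FF (M * q * q)))⁻¹ := by
        push_cast
        ring
      rw [e]
      exact h11 (c20 * c02)
    · have e : ((c20 * c11 * c02 : ↥(h92c_Chart A (M * q * q) t)) : FF (M * q * q)) *
          ((s : FF (M * q * q)))⁻¹ =
          ((c20 * c11 : ↥(h92c_Chart A (M * q * q) t)) : FF (M * q * q)) *
            (c02 : FF (M * q * q)) * ((s : FF (M * q * q)))⁻¹ := by
        push_cast
        ring
      rw [e]
      exact h02 (c20 * c11)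

end Hinv

/-! ## The embedding data of the two charts -/

section Inst

variable {M q : ℕ} [NeZero M] [NeZero q] (A : ValuationSubring Kbar)

/-- the vertical embeddings are the identity on the constants. -/
theorem h78i_cst (hq : q.Prime) (hqM : ¬ q ∣ M) {E : FF (M * q * q) →+* LaurentSeries Kbar}
    (hE : h11l_IsVE M q hq hqM E) (a : Kbar) : E (cst (M * q * q) a) = HahnSeries.C a := by
  rcases hE with rfl | ⟨ζ, hζ, hE⟩ | hE
  · exact soft_coe_cst (M * q * q) a
  · exact Fermat.Agent.S36.V28.h28d_E11_cst hq hqM ζ E hE a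
  · exact Fermat.Agent.S36.V28.h28d_E02_cst hq hqM E hE a

/-- the vertical embeddings take values in `dfField`. -/
theorem h78i_DF (hq : q.Prime) (hqM : ¬ q ∣ M) {E : FF (M * q * q) →+* LaurentSeries Kbar}
    (hE : h11l_IsVE M q hq hqM E) (x : FF (M * q * q)) : E x ∈ dfField (K := Kbar) := by
  rcases hE with rfl | ⟨ζ, hζ, hE⟩ | hE
  · exact FF_le_dfField (M * q * q) x
  · exact h12e_embDF q hq M hqM E (Or.inl ⟨ζ, hζ.pow_eq_one, hE⟩) x
  · exact h12e_embDF q hq M hqM E (Or.inr hE) x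

/-- transport of the transcendence of a reduction along an equality. -/
theorem h78i_tr_congr {x y : LaurentSeries Kbar} (hxy : x = y)
    (hy : y ∈ softOT A (IsLocalRing.residue A))
    (h : Transcendental (IsLocalRing.ResidueField A)
      (softRedT A (IsLocalRing.residue A) ⟨y, hy⟩)) :
    ∃ hx : x ∈ softOT A (IsLocalRing.residue A),
      Transcendental (IsLocalRing.ResidueField A)
        (softRedT A (IsLocalRing.residue A) ⟨x, hx⟩) := by
  subst hxy
  exact ⟨hy, h⟩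

/-- `q ↦ q ^ n` preserves transcendence. -/
theorem h78i_tr_qExpand (k : Type) [Field k] (n : ℕ) [NeZero n] {x : LaurentSeries k}
    (hx : Transcendental k x) : Transcendental k (qExpand k n x) := by
  intro h
  have h' : IsAlgebraic k (qExpandAlgHomC k n x) := h
  exact hx ((isAlgebraic_algHom_iff (qExpandAlgHomC k n) (qExpand_injective (R := k) n)).mp h')

/-- the reduction of `j` of any level is transcendental. -/
theorem h78i_tr_jB (N : ℕ) [NeZero N] (hj : jB N ∈ softV A N) :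
    Transcendental (IsLocalRing.ResidueField A) (softR A N ⟨jB N, hj⟩) := by
  rw [Fermat.Agent.LGC.h44r_softR_jB A N hj]
  exact h36_transcendental_jK (IsLocalRing.ResidueField A)

/-- **the reduction of `E j` is transcendental** at every vertical embedding. -/
theorem h78i_red_j (hq : q.Prime) (hqM : ¬ q ∣ M)
    {E : FF (M * q * q) →+* LaurentSeries Kbar} (hE : h11l_IsVE M q hq hqM E) :
    ∃ hx : E (jB (M * q * q)) ∈ softOT A (IsLocalRing.residue A),
      Transcendental (IsLocalRing.ResidueField A)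
        (softRedT A (IsLocalRing.residue A) ⟨E (jB (M * q * q)), hx⟩) := by
  have hj0 : jB M ∈ softV A M := gaussV_le_softV A M (jB_mem_gaussV A M)
  have hj1 : jB (M * q) ∈ softV A (M * q) := gaussV_le_softV A (M * q) (jB_mem_gaussV A (M * q))
  have hj2 : jB (M * q * q) ∈ softV A (M * q * q) :=
    gaussV_le_softV A (M * q * q) (jB_mem_gaussV A (M * q * q))
  rcases hE with rfl | ⟨ζ, hζ, hE⟩ | hE
  · exact ⟨hj2, h78i_tr_jB A (M * q * q) hj2⟩
  · refine h78i_tr_congr A ?_ hj1 (h78i_tr_jB A (M * q) hj1)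
    rw [h78b_jB_two, hE.1]
    rfl
  · have hβ : heckeBetaBar Kbar M q (jB M) ∈ softV A (M * q) := beta_mem_softV A q _ hj0
    have hx' : qExpand Kbar q
        ((softIncl A (M * q) ⟨heckeBetaBar Kbar M q (jB M), hβ⟩ :
          softOT A (IsLocalRing.residue A)) : LaurentSeries Kbar) ∈
        softOT A (IsLocalRing.residue A) :=
      mem_softOT_qExpand A _ q (softIncl A (M * q) ⟨_, hβ⟩).2
    refine h78i_tr_congr A ?_ hx' ?_
    · rw [h78b_jB_two, hE.1, h78b_jB_one, kFricke_alpha]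
      rfl
    · rw [softRedT_qExpand A (IsLocalRing.residue A) q
        (softIncl A (M * q) ⟨heckeBetaBar Kbar M q (jB M), hβ⟩) hx']
      refine h78i_tr_qExpand _ q ?_
      have h1 : softRedT A (IsLocalRing.residue A)
          (softIncl A (M * q) ⟨heckeBetaBar Kbar M q (jB M), hβ⟩) =
          qExpand (IsLocalRing.ResidueField A) q (softR A M ⟨jB M, hj0⟩) :=
        softR_beta A q ⟨jB M, hj0⟩ hβ
      rw [h1]
      exact h78i_tr_qExpand _ q (h78i_tr_jB A M hj0)

/-- the inverse of a Gauss-integral series with transcendental reduction. -/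
theorem h78i_inv_of_tr {x : LaurentSeries Kbar} (hx : x ∈ softOT A (IsLocalRing.residue A))
    (htr : Transcendental (IsLocalRing.ResidueField A)
      (softRedT A (IsLocalRing.residue A) ⟨x, hx⟩)) :
    x⁻¹ ∈ softOT A (IsLocalRing.residue A) ∧
      ∀ h : x⁻¹ ∈ softOT A (IsLocalRing.residue A),
        Transcendental (IsLocalRing.ResidueField A)
          (softRedT A (IsLocalRing.residue A) ⟨x⁻¹, h⟩) := by
  have hr0 : softRedT A (IsLocalRing.residue A) ⟨x, hx⟩ ≠ 0 := by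
    intro h0
    rw [h0] at htr
    exact htr isAlgebraic_zero
  have h1 := (softRedT_ne_zero_iff (⟨x, hx⟩ : softOT A (IsLocalRing.residue A))).mp hr0
  refine ⟨h1.2, fun h => ?_⟩
  have h2 : (⟨x⁻¹, h⟩ : softOT A (IsLocalRing.residue A)) * ⟨x, hx⟩ = 1 :=
    Subtype.ext (inv_mul_cancel₀ h1.1)
  have h3 := congrArg (softRedT A (IsLocalRing.residue A)) h2
  rw [map_mul, map_one] at h3
  rw [eq_inv_of_mul_eq_one_left h3]
  exact fun halg => htr (IsAlgebraic.inv_iff.mp halg)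

/-- the embedding datum of the finite chart. -/
theorem h78i_emb_j (hq : q.Prime) (hqM : ¬ q ∣ M) (hA : A.LiesOverPrime q)
    {E : FF (M * q * q) →+* LaurentSeries Kbar} (hE : h11l_IsVE M q hq hqM E) :
    h78i_Emb A (M * q * q) (jB (M * q * q)) E where
  cst := h78i_cst hq hqM hE
  int := fun b hb => h78b_int_two A hq hqM hA hb hE
  tr := fun h => by
    obtain ⟨hx, htr⟩ := h78i_red_j A hq hqM hE
    exact htr

/-- the embedding datum of the chart at infinity. -/
theorem h78i_emb_jinv (hq : q.Prime) (hqM : ¬ q ∣ M) (hA : A.LiesOverPrime q)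
    {E : FF (M * q * q) →+* LaurentSeries Kbar} (hE : h11l_IsVE M q hq hqM E) :
    h78i_Emb A (M * q * q) (jB (M * q * q))⁻¹ E := by
  obtain ⟨hx, htr⟩ := h78i_red_j A hq hqM hE
  obtain ⟨hinv, htr'⟩ := h78i_inv_of_tr A hx htr
  have hmap : E (jB (M * q * q))⁻¹ = (E (jB (M * q * q)))⁻¹ := map_inv₀ E _
  refine ⟨h78i_cst hq hqM hE, fun b hb => ?_, fun h => ?_⟩
  · refine (h6v_mem_W q hq A hA E (h78i_DF hq hqM hE) b).1
      (h78b_modelAt_le A (M * q * q) (jB (M * q * q))⁻¹ _ (fun a ha => ?_) ?_ hb.1)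
    · rw [h6v_mem_W, h78i_cst hq hqM hE]
      exact C_mem_softOT A _ ⟨a, ha⟩
    · rw [h6v_mem_W, hmap]
      exact hinv
  · have h3 : ∀ (x : LaurentSeries Kbar) (hx' : x ∈ softOT A (IsLocalRing.residue A)),
        x = (E (jB (M * q * q)))⁻¹ →
        Transcendental (IsLocalRing.ResidueField A)
          (softRedT A (IsLocalRing.residue A) ⟨x, hx'⟩) := by
      rintro x hx' rfl
      exact htr' hx'
    exact h3 _ h hmap

end Inst

/-! ## The leaf -/

section Leaf

variable {M q : ℕ} [NeZero M] [NeZero q] {A : ValuationSubring Kbar}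

/-- **`hinv` (finite chart)**, in the exact shape of the third conjunct of `H86LocVCompAt`. -/
theorem h78i_hinv (hq : q.Prime) (hqM : ¬ q ∣ M) (haux : auxLevel q ∣ M)
    (hA : A.LiesOverPrime q) :
    ∀ 𝔫 : Ideal (h92c_Chart A (M * q * q) (jB (M * q * q))), 𝔫.IsMaximal →
      ((q : ℕ) : h92c_Chart A (M * q * q) (jB (M * q * q))) ∈ 𝔫 →
      ∀ s : h92c_Chart A (M * q * q) (jB (M * q * q)),
        (∀ P : Ideal (h92c_Chart A (M * q * q) (jB (M * q * q))),
          h86l_IsVert 𝔫 ((q : ℕ) : h92c_Chart A (M * q * q) (jB (M * q * q))) P → s ∉ P) →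
        ∃ c : h92c_Chart A (M * q * q) (jB (M * q * q)), c ∉ 𝔫 ∧
          (c : FF (M * q * q)) * ((s : FF (M * q * q)))⁻¹ ∈ h92c_V0 A M q :=
  h78i_hinv_of hq hqM haux hA (jB (M * q * q))
    (fun σ _ => Fermat.Agent.S37.GalI.gal_smul_jB σ)
    (Fermat.Agent.S24.transcendental_jBar (M * q * q))
    (fun _ hE => h78i_emb_j A hq hqM hA hE)

/-- **`hinv` (chart at infinity)**, in the exact shape of the third conjunct of
`H86LocVCompAt`. -/
theorem h78i_hinvInv (hq : q.Prime) (hqM : ¬ q ∣ M) (haux : auxLevel q ∣ M)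
    (hA : A.LiesOverPrime q) :
    ∀ 𝔫 : Ideal (h92c_Chart A (M * q * q) (jB (M * q * q))⁻¹), 𝔫.IsMaximal →
      ((q : ℕ) : h92c_Chart A (M * q * q) (jB (M * q * q))⁻¹) ∈ 𝔫 →
      ∀ s : h92c_Chart A (M * q * q) (jB (M * q * q))⁻¹,
        (∀ P : Ideal (h92c_Chart A (M * q * q) (jB (M * q * q))⁻¹),
          h86l_IsVert 𝔫 ((q : ℕ) : h92c_Chart A (M * q * q) (jB (M * q * q))⁻¹) P → s ∉ P) →
        ∃ c : h92c_Chart A (M * q * q) (jB (M * q * q))⁻¹, c ∉ 𝔫 ∧
          (c : FF (M * q * q)) * ((s : FF (M * q * q)))⁻¹ ∈ h92c_V0 A M q :=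
  h78i_hinv_of hq hqM haux hA (jB (M * q * q))⁻¹
    (fun σ _ => Fermat.Agent.S37.GalI.gal_smul_jB_inv σ)
    (fun h => Fermat.Agent.S24.transcendental_jBar (M * q * q) (IsAlgebraic.inv_iff.mp h))
    (fun _ hE => h78i_emb_jinv A hq hqM hA hE)

end Leaf

/-- **LOC-VCOMP** (frozen Prop of `S36/H86LocOneIface.lean`): `hex` and `hden` are helper3's
`h3k_hex`, `h3k_hden` (`S36/H3Hex.lean`, `S36/H3Hden.lean`), `hinv` is `h78i_hinv`. -/
theorem h78i_locVComp : H86LocVComp := by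
  intro q hq M _ hqM haux
  haveI : NeZero q := ⟨hq.ne_zero⟩
  intro A hA
  exact ⟨⟨h3k_hex hq hA, h3k_hden hq hqM hA, h78i_hinv hq hqM haux hA⟩,
    ⟨h3k_hexInv hq hA, h3k_hdenInv hq hqM hA, h78i_hinvInv hq hqM haux hA⟩⟩

end Fermat.Agent.S36
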