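import Fermat.Agent.S36.H19TorRoot
import Fermat.Agent.S36.H78Hinv
import Fermat.Agent.S36.H37LocHor
import Fermat.Agent.S36.H40LocFrac

/-!
# S36, row T-ROOT (helper19): `H11TorRoot` from the regularity statement alone

`h19r_torRoot_wired : H62RegStatement → H11TorRoot`: the landed leaves `LOC-VCOMP`
(`h78i_locVComp`), `LOC-HOR` (`h37w_locHor`), `LOC-FRAC` (`h40f_locFrac`) plugged into
`h19r_torRoot_of`.
-/

set_option autoImplicit false

namespace Fermat.Agent.S36

/-- **T-ROOT** from the regularity statement. -/
theorem h19r_torRoot_wired (hReg : H62RegStatement) : H11TorRoot :=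
  h19r_torRoot_of hReg h78i_locVComp h37w_locHor h40f_locFrac

end Fermat.Agent.S36
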