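import Fermat.Agent.Jac.OS
import Fermat.Agent.S37.Defs

/-!
# S36, step (D): descent of invariant Kummer classes to invariant functions

`F = FF N = ℚ̄(X₀(N)) ⊆ ℚ̄((q))`, `I` any subgroup of `G_ℚ` (in the application: the inertia
group of a place of `ℚ̄` over `q`), `m > 0`.

If the class of `u` modulo constants and `m`-th powers is `I`-invariant, i.e.
`σ u = c_σ h_σ ^ m u` for every `σ ∈ I`, then `u` can be replaced by `u' = c g ^ m u` with
`σ u' = u'` for every `σ ∈ I` (`h1d_descent`).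

Proof: the normalised (leading `q`-coefficient `1`) roots `f_σ` form an honest `1`-cocycle
(`ℚ̄` is algebraically closed in `F`), trivial on `I ∩ G_L` for a finite Galois `L / ℚ`
fixing `u`; Hilbert 90 by a Poincaré series `∑ f_γ γ(c)`, `c ∈ L` (Dedekind independence);
finally renormalise the leading coefficient.
-/

set_option autoImplicit false

open AlgebraicCurve ModularCurve IntermediateField

noncomputable section

namespace Fermat.Agent.S36

open Fermat.Agent.S37 (Kbar GQ FF cst gal)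

/-! ### The leading coefficient -/

/-- the leading coefficient of the `q`-expansion. -/
def h1d_lead {N : ℕ} (x : FF N) : Kbar := (x : LaurentSeries Kbar).leadingCoeff

theorem h1d_lead_mul {N : ℕ} (x y : FF N) : h1d_lead (x * y) = h1d_lead x * h1d_lead y := by
  unfold h1d_lead
  exact HahnSeries.leadingCoeff_mul _ _

theorem h1d_lead_one {N : ℕ} : h1d_lead (1 : FF N) = 1 := by
  unfold h1d_lead
  exact HahnSeries.leadingCoeff_one

theorem h1d_lead_zero {N : ℕ} : h1d_lead (0 : FF N) = 0 := by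
  unfold h1d_lead
  exact HahnSeries.leadingCoeff_zero

theorem h1d_lead_ne_zero {N : ℕ} {x : FF N} (hx : x ≠ 0) : h1d_lead x ≠ 0 := by
  unfold h1d_lead
  rw [HahnSeries.leadingCoeff_ne_zero]
  exact fun h => hx (Subtype.ext h)

theorem h1d_ne_zero_of_lead {N : ℕ} {x : FF N} (hx : h1d_lead x = 1) : x ≠ 0 := by
  rintro rfl
  rw [h1d_lead_zero] at hx
  exact zero_ne_one hx

theorem h1d_lead_pow {N : ℕ} (x : FF N) (k : ℕ) : h1d_lead (x ^ k) = h1d_lead x ^ k := by
  induction k with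
  | zero => rw [pow_zero, pow_zero, h1d_lead_one]
  | succ k ih => rw [pow_succ, pow_succ, h1d_lead_mul, ih]

theorem h1d_lead_cst {N : ℕ} (c : Kbar) : h1d_lead (cst N c) = c := by
  unfold h1d_lead
  show (algebraMap Kbar (LaurentSeries Kbar) c).leadingCoeff = c
  have h : algebraMap Kbar (LaurentSeries Kbar) c = HahnSeries.single 0 c := by
    have h1 : algebraMap Kbar (PowerSeries Kbar) c = PowerSeries.C c := by simp
    rw [HahnSeries.algebraMap_apply', h1, HahnSeries.ofPowerSeries_C]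
    rfl
  rw [h]
  exact HahnSeries.leadingCoeff_of_single

theorem h1d_lead_gal {N : ℕ} (σ : GQ) (x : FF N) :
    h1d_lead (gal N σ • x) = σ (h1d_lead x) := by
  unfold h1d_lead
  rw [coe_arithmeticGalois_smul]
  by_cases hx : (x : LaurentSeries Kbar) = 0
  · rw [hx, map_zero, HahnSeries.leadingCoeff_zero, map_zero]
  · have hx' : coeffMap (σ : Kbar →+* Kbar) (x : LaurentSeries Kbar) ≠ 0 := by
      intro h
      apply hx
      ext k
      have := congrArg (fun y => HahnSeries.coeff y k) h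
      simp only [coeffMap_coeff, HahnSeries.coeff_zero] at this
      exact (map_eq_zero_iff (σ : Kbar →+* Kbar) σ.injective).mp this
    have hord : (coeffMap (σ : Kbar →+* Kbar) (x : LaurentSeries Kbar)).order
        = (x : LaurentSeries Kbar).order := by
      apply le_antisymm
      · apply HahnSeries.order_le_of_coeff_ne_zero
        rw [coeffMap_coeff]
        intro h
        exact hx (HahnSeries.coeff_order_eq_zero.mp
          ((map_eq_zero_iff (σ : Kbar →+* Kbar) σ.injective).mp h))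
      · apply HahnSeries.order_le_of_coeff_ne_zero
        intro h
        apply hx'
        apply HahnSeries.coeff_order_eq_zero.mp
        rw [coeffMap_coeff, h, map_zero]
    rw [HahnSeries.leadingCoeff_eq, HahnSeries.leadingCoeff_eq, hord, coeffMap_coeff]
    rfl

theorem h1d_gal_cst {N : ℕ} (σ : GQ) (c : Kbar) : gal N σ • cst N c = cst N (σ c) := by
  rw [SemilinearAut.smul_algebraMap]
  rfl

theorem h1d_gal_mul {N : ℕ} (σ τ : GQ) (x : FF N) :
    gal N (σ * τ) • x = gal N σ • gal N τ • x := by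
  rw [show gal N (σ * τ) = gal N σ * gal N τ from map_mul _ σ τ, mul_smul]

theorem h1d_gal_ne_zero {N : ℕ} (σ : GQ) {x : FF N} (hx : x ≠ 0) : gal N σ • x ≠ 0 := by
  intro h
  apply hx
  have := congrArg (fun y => (gal N σ)⁻¹ • y) h
  simpa using this

/-! ### Constants -/

theorem h1d_cst_ne_zero {N : ℕ} {c : Kbar} (hc : c ≠ 0) : cst N c ≠ 0 :=
  (map_ne_zero (algebraMap Kbar (FF N))).mpr hc

theorem h1d_cst_mul {N : ℕ} (a b : Kbar) : cst N (a * b) = cst N a * cst N b :=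
  map_mul _ _ _

theorem h1d_cst_one {N : ℕ} : cst N 1 = 1 := map_one _

theorem h1d_cst_inv {N : ℕ} (a : Kbar) : cst N a⁻¹ = (cst N a)⁻¹ := map_inv₀ _ _

theorem h1d_cst_pow {N : ℕ} (a : Kbar) (k : ℕ) : cst N (a ^ k) = cst N a ^ k :=
  map_pow _ _ _

/-- `ℚ̄` is algebraically closed in `F`: a root of a constant is a constant. -/
theorem h1d_const_of_pow {N : ℕ} {m : ℕ} (hm : 0 < m) {x : FF N} {c : Kbar}
    (h : x ^ m = cst N c) : ∃ a : Kbar, x = cst N a := by
  have halg : IsAlgebraic Kbar x := by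
    refine ⟨Polynomial.X ^ m - Polynomial.C c, Polynomial.X_pow_sub_C_ne_zero hm c, ?_⟩
    rw [map_sub, map_pow, Polynomial.aeval_X, Polynomial.aeval_C, h, sub_self]
  have hint : IsIntegral Kbar x := halg.isIntegral
  have hirr := minpoly.irreducible hint
  have hdeg := IsAlgClosed.degree_eq_one_of_irreducible Kbar hirr
  obtain ⟨a, ha⟩ := minpoly.mem_range_of_degree_eq_one Kbar x hdeg
  exact ⟨a, ha.symm⟩

/-- two normalised functions whose `m`-th powers differ by a constant are equal. -/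
theorem h1d_unique {N : ℕ} {m : ℕ} (hm : 0 < m) {g g' : FF N} (hg : h1d_lead g = 1)
    (hg' : h1d_lead g' = 1) {c : Kbar} (h : g ^ m = cst N c * g' ^ m) : g = g' := by
  have hg'0 : g' ≠ 0 := h1d_ne_zero_of_lead hg'
  have h1 : (g / g') ^ m = cst N c := by
    rw [div_pow, h, mul_div_assoc, div_self (pow_ne_zero m hg'0), mul_one]
  obtain ⟨a, ha⟩ := h1d_const_of_pow hm h1
  have h2 : g = cst N a * g' := by
    rw [← ha, div_mul_cancel₀ _ hg'0]
  have h3 : a = 1 := by
    have := congrArg h1d_lead h2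
    rw [h1d_lead_mul, h1d_lead_cst, hg, hg', mul_one] at this
    exact this.symm
  rw [h2, h3, h1d_cst_one, one_mul]

/-! ### The cocycle of normalised roots -/

theorem h1d_exists_cocycle {N : ℕ} (I : Subgroup GQ) {m : ℕ} (u : FF N)
    (hI : ∀ σ ∈ I, ∃ (c : Kbar) (h : FF N), c ≠ 0 ∧ h ≠ 0 ∧
      gal N σ • u = cst N c * h ^ m * u) :
    ∃ (f : GQ → FF N) (cc : GQ → Kbar), ∀ σ ∈ I, h1d_lead (f σ) = 1 ∧ cc σ ≠ 0 ∧
      gal N σ • u = cst N (cc σ) * f σ ^ m * u := by
  classical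
  have key : ∀ σ : GQ, ∃ (g : FF N) (d : Kbar), σ ∈ I → (h1d_lead g = 1 ∧ d ≠ 0 ∧
      gal N σ • u = cst N d * g ^ m * u) := by
    intro σ
    by_cases hσ : σ ∈ I
    · obtain ⟨c, h, hc, hh, e⟩ := hI σ hσ
      have hl : h1d_lead h ≠ 0 := h1d_lead_ne_zero hh
      refine ⟨cst N (h1d_lead h)⁻¹ * h, c * (h1d_lead h) ^ m, fun _ => ⟨?_, ?_, ?_⟩⟩
      · rw [h1d_lead_mul, h1d_lead_cst, inv_mul_cancel₀ hl]
      · exact mul_ne_zero hc (pow_ne_zero m hl)
      · have h1 : cst N (c * (h1d_lead h) ^ m) * (cst N (h1d_lead h)⁻¹ * h) ^ m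
            = cst N c * h ^ m := by
          rw [mul_pow, ← h1d_cst_pow, ← mul_assoc, ← h1d_cst_mul, mul_assoc, ← mul_pow,
            mul_inv_cancel₀ hl, one_pow, mul_one]
        rw [h1, e]
    · exact ⟨1, 1, fun h => absurd h hσ⟩
  choose f cc hf using key
  exact ⟨f, cc, fun σ hσ => hf σ hσ⟩

theorem h1d_cocycle {N : ℕ} (I : Subgroup GQ) {m : ℕ} (hm : 0 < m) {u : FF N} (hu : u ≠ 0)
    {f : GQ → FF N} {cc : GQ → Kbar}
    (hf : ∀ σ ∈ I, h1d_lead (f σ) = 1 ∧ cc σ ≠ 0 ∧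
      gal N σ • u = cst N (cc σ) * f σ ^ m * u)
    {σ τ : GQ} (hσ : σ ∈ I) (hτ : τ ∈ I) :
    f (σ * τ) = f σ * gal N σ • f τ := by
  obtain ⟨l1, c1, e1⟩ := hf σ hσ
  obtain ⟨l2, c2, e2⟩ := hf τ hτ
  obtain ⟨l3, c3, e3⟩ := hf (σ * τ) (I.mul_mem hσ hτ)
  have hlead : h1d_lead (f σ * gal N σ • f τ) = 1 := by
    rw [h1d_lead_mul, h1d_lead_gal, l1, l2, map_one, one_mul]
  have h1 : gal N (σ * τ) • u
      = cst N (σ (cc τ) * cc σ) * (f σ * gal N σ • f τ) ^ m * u := by
    rw [h1d_gal_mul, e2, smul_mul', smul_mul', smul_pow', h1d_gal_cst, e1, h1d_cst_mul]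
    ring
  rw [e3] at h1
  have h2 := mul_right_cancel₀ hu h1
  have hc3 : cst N (cc (σ * τ)) ≠ 0 := h1d_cst_ne_zero c3
  apply h1d_unique hm l3 hlead (c := (cc (σ * τ))⁻¹ * (σ (cc τ) * cc σ))
  rw [h1d_cst_mul, h1d_cst_inv, mul_assoc, ← h2, inv_mul_cancel_left₀ hc3]

/-! ### The descent -/

set_option synthInstance.maxHeartbeats 400000 in
set_option maxHeartbeats 1000000 in
/-- **(D), function form.**  If the class of `u` modulo constants and `m`-th powers is
invariant under the subgroup `I` of `G_ℚ`, then `u` has an `I`-invariant representative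
`c · g ^ m · u`. -/
theorem h1d_descent (N : ℕ) (I : Subgroup GQ) {m : ℕ} (hm : 0 < m) (u : FF N) (hu : u ≠ 0)
    (hI : ∀ σ ∈ I, ∃ (c : Kbar) (h : FF N), c ≠ 0 ∧ h ≠ 0 ∧
      gal N σ • u = cst N c * h ^ m * u) :
    ∃ (c : Kbar) (g : FF N), c ≠ 0 ∧ g ≠ 0 ∧
      ∀ σ ∈ I, gal N σ • (cst N c * g ^ m * u) = cst N c * g ^ m * u := by
  classical
  obtain ⟨f, cc, hf⟩ := h1d_exists_cocycle I u hI
  -- the fixing field
  obtain ⟨L₀, hL₀fin, hL₀⟩ := Fermat.Agent.Jac.h18_exists_fixing_field N u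
  have : FiniteDimensional ℚ L₀ := hL₀fin
  have : Algebra.IsAlgebraic ℚ Kbar := AlgebraicClosure.isAlgebraic ℚ
  have : IsAlgClosure ℚ Kbar := ⟨inferInstance, inferInstance⟩
  have : Normal ℚ Kbar := IsAlgClosure.normal ℚ Kbar
  set L : IntermediateField ℚ Kbar := IntermediateField.normalClosure ℚ L₀ Kbar with hLdef
  have : FiniteDimensional ℚ L := normalClosure.is_finiteDimensional ℚ L₀ Kbar
  have : Normal ℚ L := normalClosure.normal ℚ L₀ Kbar
  have hLL : L₀ ≤ L := IntermediateField.le_normalClosure L₀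
  have hfix : ∀ σ : GQ, (∀ y ∈ L, σ y = y) → gal N σ • u = u :=
    fun σ hσ => hL₀ σ (fun y hy => hσ y (hLL hy))
  -- restriction to `L`
  set res : GQ →* (L ≃ₐ[ℚ] L) := AlgEquiv.restrictNormalHom L with hres
  have hres_apply : ∀ (σ : GQ) (x : L), ((res σ x : L) : Kbar) = σ (x : Kbar) :=
    fun σ x => AlgEquiv.restrictNormal_commutes σ L x
  -- `f` is trivial on the kernel of the restriction
  have hker : ∀ σ ∈ I, res σ = 1 → f σ = 1 := by
    intro σ hσ h1
    obtain ⟨l, c, e⟩ := hf σ hσ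
    have hσu : gal N σ • u = u := hfix σ (fun y hy => by
      have := hres_apply σ ⟨y, hy⟩
      rw [h1] at this
      exact this.symm)
    rw [hσu] at e
    have e' : (1 : FF N) * u = cst N (cc σ) * f σ ^ m * u := by rw [one_mul]; exact e
    have e2 := mul_right_cancel₀ hu e'
    apply h1d_unique hm l h1d_lead_one (c := (cc σ)⁻¹)
    rw [one_pow, mul_one, h1d_cst_inv]
    exact eq_inv_of_mul_eq_one_right e2.symm
  -- `f` depends only on the restriction
  have hdep : ∀ σ ∈ I, ∀ τ ∈ I, res σ = res τ → f σ = f τ := by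
    intro σ hσ τ hτ h
    have hh : σ⁻¹ * τ ∈ I := I.mul_mem (I.inv_mem hσ) hτ
    have h1 : res (σ⁻¹ * τ) = 1 := by rw [map_mul, map_inv, h, inv_mul_cancel]
    have := h1d_cocycle I hm hu hf hσ hh
    rw [mul_inv_cancel_left, hker _ hh h1, smul_one, mul_one] at this
    exact this.symm
  -- the finite group `Γ`, image of `I`
  let Γ : Subgroup (L ≃ₐ[ℚ] L) := I.map res
  have : Finite (L ≃ₐ[ℚ] L) := inferInstance
  have : Fintype Γ := Fintype.ofFinite Γ
  have hlift : ∀ γ : Γ, ∃ σ : GQ, σ ∈ I ∧ res σ = γ := fun γ => by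
    obtain ⟨σ, hσ, e⟩ := Subgroup.mem_map.mp γ.2
    exact ⟨σ, hσ, e⟩
  choose s hsI hsres using hlift
  -- the characters `c ↦ γ c`
  let χ : Γ → (L →* FF N) := fun γ =>
    { toFun := fun c => cst N (((γ : L ≃ₐ[ℚ] L) c : L) : Kbar)
      map_one' := by
        rw [map_one, IntermediateField.coe_one, h1d_cst_one]
      map_mul' := fun a b => by
        rw [map_mul, IntermediateField.coe_mul, h1d_cst_mul] }
  have hχ : ∀ (γ : Γ) (c : L), χ γ c = cst N (((γ : L ≃ₐ[ℚ] L) c : L) : Kbar) :=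
    fun _ _ => rfl
  have hχinj : Function.Injective χ := by
    intro γ γ' h
    apply Subtype.ext
    apply AlgEquiv.ext
    intro c
    have h1 := DFunLike.congr_fun h c
    rw [hχ, hχ] at h1
    exact Subtype.ext ((algebraMap Kbar (FF N)).injective h1)
  have hLI := (linearIndependent_monoidHom L (FF N)).comp χ hχinj
  have hne : ∃ c : L, ∑ γ : Γ, f (s γ) * χ γ c ≠ 0 := by
    by_contra hcon
    simp only [not_exists, not_not] at hcon
    have hzero : ∑ γ : Γ, f (s γ) • ((fun g : L →* FF N => (g : L → FF N)) ∘ χ) γ = 0 := by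
      funext c
      simp only [Finset.sum_apply, Pi.smul_apply, Function.comp_apply, smul_eq_mul,
        Pi.zero_apply]
      exact hcon c
    have := Fintype.linearIndependent_iff.mp hLI (fun γ => f (s γ)) hzero (1 : Γ)
    exact h1d_ne_zero_of_lead (hf _ (hsI 1)).1 this
  obtain ⟨c, hc⟩ := hne
  set h : FF N := ∑ γ : Γ, f (s γ) * χ γ c with hh
  -- the transformation law of the Poincaré series
  have htr : ∀ τ ∈ I, f τ * gal N τ • h = h := by
    intro τ hτ
    have hτΓ : res τ ∈ Γ := Subgroup.mem_map_of_mem res hτ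
    rw [hh, Finset.smul_sum, Finset.mul_sum]
    rw [← Equiv.sum_comp (Equiv.mulLeft (⟨res τ, hτΓ⟩ : Γ)) (fun γ => f (s γ) * χ γ c)]
    refine Finset.sum_congr rfl fun γ _ => ?_
    rw [smul_mul']
    have h1 : f (s (Equiv.mulLeft (⟨res τ, hτΓ⟩ : Γ) γ)) = f τ * gal N τ • f (s γ) := by
      rw [← h1d_cocycle I hm hu hf hτ (hsI γ)]
      apply hdep _ (hsI _) _ (I.mul_mem hτ (hsI γ))
      rw [hsres, map_mul, hsres]
      rfl
    have h2 : gal N τ • χ γ c = χ (Equiv.mulLeft (⟨res τ, hτΓ⟩ : Γ) γ) c := by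
      rw [hχ, hχ, h1d_gal_cst]
      congr 1
      exact (hres_apply τ _).symm
    rw [h1, h2, mul_assoc]
  have hh0 : h ≠ 0 := hc
  have hw0 : h ^ m * u ≠ 0 := mul_ne_zero (pow_ne_zero m hh0) hu
  -- `w = h ^ m * u` is invariant up to constants
  have hw : ∀ τ ∈ I, gal N τ • (h ^ m * u) = cst N (cc τ) * (h ^ m * u) := by
    intro τ hτ
    obtain ⟨l, c0, e⟩ := hf τ hτ
    have hfτ : f τ ≠ 0 := h1d_ne_zero_of_lead l
    have e1 : gal N τ • h = (f τ)⁻¹ * h := by
      rw [eq_inv_mul_iff_mul_eq₀ hfτ]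
      exact htr τ hτ
    rw [smul_mul', smul_pow', e1, e, mul_pow, inv_pow]
    have hfm : f τ ^ m ≠ 0 := pow_ne_zero m hfτ
    field_simp
  -- renormalise
  have ha : h1d_lead (h ^ m * u) ≠ 0 := h1d_lead_ne_zero hw0
  refine ⟨(h1d_lead (h ^ m * u))⁻¹, h, inv_ne_zero ha, hh0, fun τ hτ => ?_⟩
  have hcc : cc τ ≠ 0 := (hf τ hτ).2.1
  have hτa : τ (h1d_lead (h ^ m * u)) = cc τ * h1d_lead (h ^ m * u) := by
    have h1 : h1d_lead (gal N τ • (h ^ m * u)) = τ (h1d_lead (h ^ m * u)) :=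
      h1d_lead_gal _ _
    have h2 : h1d_lead (cst N (cc τ) * (h ^ m * u)) = cc τ * h1d_lead (h ^ m * u) := by
      rw [h1d_lead_mul, h1d_lead_cst]
    rw [← h1, hw τ hτ, h2]
  rw [mul_assoc, smul_mul', h1d_gal_cst, hw τ hτ, map_inv₀, hτa, ← mul_assoc, ← h1d_cst_mul,
    mul_inv, mul_comm (cc τ)⁻¹, mul_assoc, inv_mul_cancel₀ hcc, mul_one]

end Fermat.Agent.S36
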