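import Fermat.Agent.S36.H20U11Asm
import Fermat.Agent.S36.H76CuspExp

/-!
# S36, REG, row R-CUSP-UNIT11: the leaf `H18cUnit11`, unconditional (helper20 wiring)

`h20u_unit11 : H18cUnit11` (the exact frozen `Prop` of `S36/H18CuspIface.lean`) =
`h20u_unit11_of_cert` (helper20, `S36/H20U11Asm.lean`) applied to the certificate at the level
`1 · q · q` given by helper76's function `S = σ y₁ (1 - j₀/j₂) + (1 - y₁)`:
membership `h76u_exists_mult` + `h76u_S_mem` (`S36/H76CuspInt.lean`) and the three expansions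
`h76u_E20_S`, `h76u_E11_S`, `h76u_E02_S` (`S36/H76CuspExp.lean`), all at `M = 1`.
-/

set_option autoImplicit false
set_option linter.style.haveILetI false
set_option linter.unusedSectionVars false
set_option linter.unusedVariables false

open AlgebraicCurve ModularCurve

noncomputable section

namespace Fermat.Agent.S36

open Fermat.Agent.S37 (Kbar GQ FF cst gal jB)

/-- helper76's units of `A⟦t⟧` are helper20's. -/
theorem h20u_ups_of_PS1 {A : ValuationSubring Kbar} {s : LaurentSeries Kbar}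
    (h : h76u_PS1 A s) : h20u_UPS A s := by
  rw [h20u_ups_iff]
  rw [h76u_PS1_iff] at h
  obtain ⟨⟨f, rfl⟩, h0, hi⟩ := h
  refine ⟨fun n => ?_, fun n hn => h76u_ps_coeff_neg A f hn, h0, hi⟩
  rcases lt_or_ge n 0 with hn | hn
  · rw [h76u_ps_coeff_neg A f hn]
    exact A.zero_mem
  · obtain ⟨k, rfl⟩ := Int.eq_ofNat_of_zero_le hn
    rw [h76u_ps_coeff_nat]
    exact (PowerSeries.coeff k f).2

/-- **the certificate at the level `1 · q · q`.** -/
theorem h20u_cert : H20U11Cert := by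
  intro q hq A hA
  haveI : NeZero q := ⟨hq.ne_zero⟩
  have hq1 := h20u_not_dvd_one hq
  obtain ⟨s, E, hs, hZ⟩ := h76u_exists_mult 1 q A hq hq1 hA
  refine ⟨h76u_S 1 q A s E, h76u_S_mem 1 q A hq hq1 hA s E hZ,
    h20u_ups_of_PS1 (h76u_E20_S 1 q A hq s E hs),
    fun E0 hE0 => h20u_ups_of_PS1 (h76u_E02_S 1 q A hq hq1 E0 hE0 s E hs),
    fun ζ hζ Φ hΦ => ?_⟩
  obtain ⟨v, hv, hΦv⟩ := h76u_E11_S 1 q A hq hq1 hζ Φ hΦ s E hs
  exact ⟨v, h20u_ups_of_PS1 hv, hΦv⟩

/-- **R-CUSP-UNIT11**, unconditional. -/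
theorem h20u_unit11 : H18cUnit11 :=
  h20u_unit11_of_cert h20u_cert

end Fermat.Agent.S36
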