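import Fermat.Agent.Red.NormLocDed

/-!
# S36, block (N): the residue of a norm (Mathlib + `Red/NormLocDed` only)

* `h22n_det_lsmul` : `k` a field, `T` a commutative `k`-algebra, `π : T → κ` a surjective
  `k`-algebra map onto a finite field extension `κ` of `k`, `V` a `T`-module, finite dimensional
  over `k`, killed by a power of `ker π`.  Then `dim_k V = m · [κ : k]` and the determinant
  of the multiplication by `t` on `V` is `N_{κ/k}(π t) ^ m`.
* `h22n_norm_quotient_pow` : `B` Dedekind, finite free over `A`, `P ∣ p B`: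
  `N_{(B / P ^ e) / (A / p)} (b) = N_{(B / P) / (A / p)} (b) ^ e`.
* `h22n_norm_mk_eq_prod` : **the residue of the norm**
  `N_{B/A}(b) mod p = ∏_{P ∣ p} N_{(B / P) / (A / p)} (b mod P) ^ e(P)`   (any inertia degrees).
* `h22n_norm_eq_pow_of_pow_mem` : in characteristic `q`, if `[κ : k] = q` and `y ^ q ∈ k`
  then `N_{κ/k}(y) = y ^ q` (purely inseparable residue extensions of degree `q`).
-/

set_option autoImplicit false
set_option linter.deprecated false
set_option linter.unusedSectionVars false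

open Polynomial UniqueFactorizationMonoid Module

namespace Fermat.Agent.S36

universe u v w x

section Generic

variable {k : Type u} [Field k] {T : Type v} [CommRing T] [Algebra k T]
  {κ : Type w} [Field κ] [Algebra k κ]

/-- the `k`-linear map `κ → V`, `π t ↦ t • v`, for `v` killed by `ker π`. -/
noncomputable def h22n_orbit (π : T →ₐ[k] κ) (hπ : Function.Surjective π)
    {V : Type x} [AddCommGroup V] [Module k V] [Module T V] [IsScalarTower k T V]
    (v : V) (hv : ∀ y ∈ RingHom.ker (π : T →+* κ), y • v = 0) : κ →ₗ[k] V :=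
  ((LinearMap.ker π.toLinearMap).liftQ ((LinearMap.toSpanSingleton T V v).restrictScalars k)
      (fun y hy => hv y hy)).comp
    (π.toLinearMap.quotKerEquivOfSurjective hπ).symm.toLinearMap

theorem h22n_orbit_apply (π : T →ₐ[k] κ) (hπ : Function.Surjective π)
    {V : Type x} [AddCommGroup V] [Module k V] [Module T V] [IsScalarTower k T V]
    (v : V) (hv : ∀ y ∈ RingHom.ker (π : T →+* κ), y • v = 0) (t : T) :
    h22n_orbit π hπ v hv (π t) = t • v := by
  unfold h22n_orbit
  have h : (π.toLinearMap.quotKerEquivOfSurjective hπ).symm (π t)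
      = (LinearMap.ker π.toLinearMap).mkQ t := by
    rw [LinearEquiv.symm_apply_eq]
    rfl
  rw [LinearMap.comp_apply, LinearEquiv.coe_coe, h]
  rfl

theorem h22n_orbit_injective (π : T →ₐ[k] κ) (hπ : Function.Surjective π)
    {V : Type x} [AddCommGroup V] [Module k V] [Module T V] [IsScalarTower k T V]
    (v : V) (hv : ∀ y ∈ RingHom.ker (π : T →+* κ), y • v = 0) (hv0 : v ≠ 0) :
    Function.Injective (h22n_orbit π hπ v hv) := by
  rw [← LinearMap.ker_eq_bot, LinearMap.ker_eq_bot']
  intro c hc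
  by_contra hc0
  obtain ⟨t, rfl⟩ := hπ c
  obtain ⟨s, hs⟩ := hπ (π t)⁻¹
  rw [h22n_orbit_apply] at hc
  have h1 : s * t - 1 ∈ RingHom.ker (π : T →+* κ) := by
    rw [RingHom.mem_ker]
    show π (s * t - 1) = 0
    rw [map_sub, map_mul, hs, inv_mul_cancel₀ hc0, map_one, sub_self]
  have h2 := hv (s * t - 1) h1
  rw [sub_smul, mul_smul, hc, smul_zero, one_smul, zero_sub, neg_eq_zero] at h2
  exact hv0 h2

theorem h22n_exists_killed (Q : Ideal T) {V : Type x} [AddCommGroup V] [Module T V]
    [Nontrivial V] (hnil : ∃ n : ℕ, ∀ y ∈ Q ^ n, ∀ v : V, y • v = 0) :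
    ∃ v : V, v ≠ 0 ∧ ∀ y ∈ Q, y • v = 0 := by
  classical
  have hn := Nat.find_spec hnil
  have hn0 : Nat.find hnil ≠ 0 := by
    intro h0
    obtain ⟨v, hv⟩ := exists_ne (0 : V)
    have h1 := hn 1 (by rw [h0, pow_zero, Ideal.one_eq_top]; exact Submodule.mem_top) v
    rw [one_smul] at h1
    exact hv h1
  obtain ⟨n', hn'⟩ := Nat.exists_eq_succ_of_ne_zero hn0
  have hmin := Nat.find_min hnil (m := n') (by omega)
  obtain ⟨y, hmin⟩ := not_forall.mp hmin
  obtain ⟨hy, hmin⟩ := Classical.not_imp.mp hmin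
  obtain ⟨v0, hyv⟩ := not_forall.mp hmin
  refine ⟨y • v0, hyv, fun z hz => ?_⟩
  rw [← mul_smul]
  apply hn
  rw [hn', pow_succ']
  exact Ideal.mul_mem_mul hz hy

theorem h22n_det_lsmul_aux [FiniteDimensional k κ] (π : T →ₐ[k] κ)
    (hπ : Function.Surjective π) (d : ℕ) :
    ∀ (V : Type x) [AddCommGroup V] [Module k V] [Module T V] [IsScalarTower k T V]
      [FiniteDimensional k V], finrank k V = d →
      (∃ n : ℕ, ∀ y ∈ (RingHom.ker (π : T →+* κ)) ^ n, ∀ v : V, y • v = 0) →
      ∃ m : ℕ, finrank k V = m * finrank k κ ∧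
        ∀ t : T, LinearMap.det (Algebra.lsmul k k V t) = (Algebra.norm k (π t)) ^ m := by
  induction d using Nat.strong_induction_on with
  | _ d ih =>
  intro V _ _ _ _ _ hd hnil
  rcases Nat.eq_zero_or_pos d with h0 | hpos
  · subst h0
    refine ⟨0, by rw [hd, zero_mul], fun t => ?_⟩
    rw [pow_zero]
    exact LinearMap.det_eq_one_of_finrank_eq_zero hd _
  · have : Nontrivial V := Module.nontrivial_of_finrank_pos (R := k) (hd ▸ hpos)
    obtain ⟨v, hv0, hv⟩ := h22n_exists_killed (RingHom.ker (π : T →+* κ)) hnil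
    let WT : Submodule T V := Submodule.span T {v}
    let W : Submodule k V := WT.restrictScalars k
    have hφinj := h22n_orbit_injective π hπ v hv hv0
    have hrange : LinearMap.range (h22n_orbit π hπ v hv) = W := by
      ext w
      constructor
      · rintro ⟨c, rfl⟩
        obtain ⟨t, rfl⟩ := hπ c
        rw [h22n_orbit_apply]
        exact WT.smul_mem t (Submodule.mem_span_singleton_self v)
      · intro hw
        obtain ⟨t, rfl⟩ := Submodule.mem_span_singleton.mp hw
        exact ⟨π t, h22n_orbit_apply π hπ v hv t⟩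
    let eW : κ ≃ₗ[k] W :=
      (LinearEquiv.ofInjective (h22n_orbit π hπ v hv) hφinj).trans (LinearEquiv.ofEq _ _ hrange)
    have heW : ∀ c : κ, ((eW c : W) : V) = h22n_orbit π hπ v hv c := fun c => rfl
    have hfin' : FiniteDimensional k (V ⧸ WT) :=
      Module.Finite.equiv (Submodule.Quotient.restrictScalarsEquiv k WT)
    have hdimW : finrank k W = finrank k κ := (LinearEquiv.finrank_eq eW).symm
    have hdimQ : finrank k (V ⧸ W) = finrank k (V ⧸ WT) :=
      LinearEquiv.finrank_eq (Submodule.Quotient.restrictScalarsEquiv k WT)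
    have hdim : finrank k V = finrank k κ + finrank k (V ⧸ WT) := by
      rw [← hdimW, ← hdimQ, add_comm]
      exact (Submodule.finrank_quotient_add_finrank W).symm
    have hκpos : 0 < finrank k κ := finrank_pos
    have hnil' : ∃ n : ℕ, ∀ y ∈ (RingHom.ker (π : T →+* κ)) ^ n, ∀ v' : V ⧸ WT, y • v' = 0 := by
      obtain ⟨n, hn⟩ := hnil
      refine ⟨n, fun y hy v' => ?_⟩
      obtain ⟨v1, rfl⟩ := Submodule.mkQ_surjective WT v'
      rw [← map_smul, hn y hy v1, map_zero]
    obtain ⟨m', hm', hdet'⟩ := ih (finrank k (V ⧸ WT)) (by omega) (V ⧸ WT) rfl hnil'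
    have hdim2 : finrank k V = (m' + 1) * finrank k κ := by rw [hdim, hm']; ring
    refine ⟨m' + 1, hdim2, fun t => ?_⟩
    have he : W ≤ W.comap (Algebra.lsmul k k V t) := fun w hw => WT.smul_mem t hw
    rw [LinearMap.det_eq_det_mul_det W _ he, pow_succ']
    congr 1
    · have h1 : eW.conj (Algebra.lmul k κ (π t)) = (Algebra.lsmul k k V t).restrict he := by
        apply LinearMap.ext
        intro w
        obtain ⟨c, rfl⟩ := eW.surjective w
        rw [LinearEquiv.conj_apply_apply, LinearEquiv.symm_apply_apply]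
        apply Subtype.ext
        obtain ⟨s, rfl⟩ := hπ c
        rw [heW, LinearMap.restrict_coe_apply, heW, h22n_orbit_apply]
        show h22n_orbit π hπ v hv (π t * π s) = t • s • v
        rw [← map_mul, h22n_orbit_apply, mul_smul]
      rw [← h1, LinearEquiv.conj_apply, LinearMap.comp_assoc, LinearMap.det_conj]
      rfl
    · have h2 : (Submodule.Quotient.restrictScalarsEquiv k WT).symm.conj
          (Algebra.lsmul k k (V ⧸ WT) t) = W.mapQ W (Algebra.lsmul k k V t) he := by
        apply LinearMap.ext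
        intro w
        obtain ⟨v1, rfl⟩ := Submodule.mkQ_surjective W w
        rfl
      rw [← h2, LinearEquiv.conj_apply, LinearMap.comp_assoc, LinearMap.det_conj, hdet']

/-- **the determinant on a module killed by a power of a maximal ideal.** -/
theorem h22n_det_lsmul [FiniteDimensional k κ] (π : T →ₐ[k] κ) (hπ : Function.Surjective π)
    (V : Type x) [AddCommGroup V] [Module k V] [Module T V] [IsScalarTower k T V]
    [FiniteDimensional k V]
    (hnil : ∃ n : ℕ, ∀ y ∈ (RingHom.ker (π : T →+* κ)) ^ n, ∀ v : V, y • v = 0) :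
    ∃ m : ℕ, finrank k V = m * finrank k κ ∧
      ∀ t : T, LinearMap.det (Algebra.lsmul k k V t) = (Algebra.norm k (π t)) ^ m :=
  h22n_det_lsmul_aux π hπ _ V rfl hnil

/-- the same for the algebra itself: `T` a finite dimensional `k`-algebra, `(ker π) ^ n = 0`. -/
theorem h22n_norm_of_nilpotent [FiniteDimensional k κ] [FiniteDimensional k T] (π : T →ₐ[k] κ)
    (hπ : Function.Surjective π) (hnil : ∃ n : ℕ, (RingHom.ker (π : T →+* κ)) ^ n = ⊥) :
    ∃ m : ℕ, finrank k T = m * finrank k κ ∧
      ∀ t : T, Algebra.norm k t = (Algebra.norm k (π t)) ^ m := by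
  obtain ⟨n, hn⟩ := hnil
  obtain ⟨m, hm, hdet⟩ := h22n_det_lsmul π hπ T
    ⟨n, fun y hy v => by rw [hn, Ideal.mem_bot] at hy; rw [hy, zero_smul]⟩
  refine ⟨m, hm, fun t => ?_⟩
  rw [← hdet t, Algebra.norm_apply]
  rfl

end Generic

section Dedekind

attribute [local instance] Ideal.Quotient.field
attribute [local instance] Ideal.Quotient.algebraQuotientOfRamificationIdxNeZero

variable {A : Type*} [CommRing A] (p : Ideal A) [hpmax : p.IsMaximal]
variable {B : Type*} [CommRing B] [IsDedekindDomain B] [Algebra A B] [Module.Finite A B]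
  [Module.Free A B]

theorem h22n_isMaximal (P : (factors (p.map (algebraMap A B))).toFinset) :
    (P : Ideal B).IsMaximal :=
  Ideal.IsPrime.isMaximal (Ideal.Factors.isPrime p P) (Ideal.Factors.ne_bot p P)

attribute [local instance] h22n_isMaximal

/-- the canonical map `B / P ^ e → B / P` as a map of `A / p`-algebras. -/
noncomputable def h22n_factor (P : (factors (p.map (algebraMap A B))).toFinset) :
    (B ⧸ (P : Ideal B) ^ p.ramificationIdx' (P : Ideal B)) →ₐ[A ⧸ p] (B ⧸ (P : Ideal B)) :=
  { Ideal.Quotient.factor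
      (Ideal.pow_le_self (Ideal.Factors.ramificationIdx_ne_zero p P)) with
    commutes' := by
      intro c
      obtain ⟨a, rfl⟩ := Ideal.Quotient.mk_surjective c
      rfl }

theorem h22n_factor_mk (P : (factors (p.map (algebraMap A B))).toFinset) (b : B) :
    h22n_factor p P (Ideal.Quotient.mk _ b) = Ideal.Quotient.mk (P : Ideal B) b := rfl

theorem h22n_factor_surjective (P : (factors (p.map (algebraMap A B))).toFinset) :
    Function.Surjective (h22n_factor p P) := by
  intro c
  obtain ⟨b, rfl⟩ := Ideal.Quotient.mk_surjective c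
  exact ⟨Ideal.Quotient.mk _ b, rfl⟩

theorem h22n_ker_factor_pow (P : (factors (p.map (algebraMap A B))).toFinset) :
    (RingHom.ker ((h22n_factor p P) :
        (B ⧸ (P : Ideal B) ^ p.ramificationIdx' (P : Ideal B)) →+* (B ⧸ (P : Ideal B))))
      ^ p.ramificationIdx' (P : Ideal B) = ⊥ := by
  have h1 : RingHom.ker ((h22n_factor p P) :
        (B ⧸ (P : Ideal B) ^ p.ramificationIdx' (P : Ideal B)) →+* (B ⧸ (P : Ideal B)))
      ≤ (P : Ideal B).map (Ideal.Quotient.mk ((P : Ideal B) ^ p.ramificationIdx' (P : Ideal B))) := by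
    intro y hy
    obtain ⟨b, rfl⟩ := Ideal.Quotient.mk_surjective y
    rw [RingHom.mem_ker] at hy
    have hb : b ∈ (P : Ideal B) := Ideal.Quotient.eq_zero_iff_mem.mp hy
    exact Ideal.mem_map_of_mem _ hb
  rw [eq_bot_iff]
  refine (Ideal.pow_right_mono h1 _).trans ?_
  rw [← Ideal.map_pow, Ideal.map_quotient_self]

/-- **the norm on `B / P ^ e`.** -/
theorem h22n_norm_quotient_pow (P : (factors (p.map (algebraMap A B))).toFinset) (b : B) :
    Algebra.norm (A ⧸ p)
        (Ideal.Quotient.mk ((P : Ideal B) ^ p.ramificationIdx' (P : Ideal B)) b)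
      = Algebra.norm (A ⧸ p) (Ideal.Quotient.mk (P : Ideal B) b)
          ^ p.ramificationIdx' (P : Ideal B) := by
  obtain ⟨m, hm, hnorm⟩ := h22n_norm_of_nilpotent (h22n_factor p P)
    (h22n_factor_surjective p P) ⟨_, h22n_ker_factor_pow p P⟩
  have h1 := Ideal.finrank_prime_pow_ramificationIdx (p := p) (P := (P : Ideal B))
    (Ideal.Factors.ne_bot p P) (Ideal.Factors.ramificationIdx_ne_zero p P)
  have hpos : 0 < finrank (A ⧸ p) (B ⧸ (P : Ideal B)) := finrank_pos
  have h2 : m = p.ramificationIdx' (P : Ideal B) := by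
    have h3 : m * finrank (A ⧸ p) (B ⧸ (P : Ideal B))
        = p.ramificationIdx' (P : Ideal B) * finrank (A ⧸ p) (B ⧸ (P : Ideal B)) :=
      hm.symm.trans h1
    exact Nat.eq_of_mul_eq_mul_right hpos h3
  rw [hnorm, h2]
  rfl

/-- `(-1) ^ deg g * g(0)`: the "norm" of a monic polynomial. -/
def h22n_nu {R : Type*} [CommRing R] (g : R[X]) : R := (-1) ^ g.natDegree * g.coeff 0

theorem h22n_det_eq_nu {R M : Type*} [CommRing R] [Nontrivial R] [AddCommGroup M] [Module R M]
    [Module.Free R M] [Module.Finite R M] (f : M →ₗ[R] M) :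
    LinearMap.det f = h22n_nu f.charpoly := by
  rw [h22n_nu, LinearMap.charpoly_natDegree, LinearMap.det_eq_sign_charpoly_coeff]

theorem h22n_nu_map {R S : Type*} [CommRing R] [CommRing S] [Nontrivial S] (φ : R →+* S)
    (g : R[X]) (hg : g.Monic) : h22n_nu (g.map φ) = φ (h22n_nu g) := by
  rw [h22n_nu, h22n_nu, hg.natDegree_map, coeff_map, map_mul, map_pow, map_neg, map_one]

theorem h22n_nu_prod {R ι : Type*} [CommRing R] (s : Finset ι) (g : ι → R[X])
    (hg : ∀ i ∈ s, (g i).Monic) : h22n_nu (∏ i ∈ s, g i) = ∏ i ∈ s, h22n_nu (g i) := by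
  simp only [h22n_nu]
  rw [natDegree_prod_of_monic _ _ hg, coeff_zero_prod, Finset.prod_mul_distrib,
    Finset.prod_pow_eq_pow_sum]

/-- **The residue of the norm.**  `B` a Dedekind domain, finite and free over `A`, `p` a maximal
ideal of `A` with `p B ≠ 0`.  Then for every `b ∈ B`
`N_{B/A}(b) mod p = ∏_{P ∣ p} N_{(B/P)/(A/p)}(b mod P) ^ e(P)`. -/
theorem h22n_norm_mk_eq_prod (hpB : p.map (algebraMap A B) ≠ ⊥) (b : B) :
    Ideal.Quotient.mk p (Algebra.norm A b)
      = ∏ P : (factors (p.map (algebraMap A B))).toFinset,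
          Algebra.norm (A ⧸ p) (Ideal.Quotient.mk (P : Ideal B) b)
            ^ p.ramificationIdx' (P : Ideal B) := by
  have hA : Nontrivial A := by
    by_contra h
    rw [not_nontrivial_iff_subsingleton] at h
    exact hpmax.ne_top (Subsingleton.elim _ _)
  have := Fermat.Agent.Red.NormLoc.finite_quotient_map (B := B) p
  have := Fermat.Agent.Red.NormLoc.free_quotient_map (B := B) p
  have h1 := Fermat.Agent.Red.NormLoc.charpoly_lmul_map_mk p b
  rw [Fermat.Agent.Red.NormLoc.charpoly_lmul_quotient_eq_prod p hpB] at h1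
  rw [Algebra.norm_apply, h22n_det_eq_nu, ← h22n_nu_map _ _ (LinearMap.charpoly_monic _), h1,
    h22n_nu_prod _ _ (fun P _ => LinearMap.charpoly_monic _)]
  refine Finset.prod_congr rfl fun P _ => ?_
  rw [← h22n_det_eq_nu, ← Algebra.norm_apply, h22n_norm_quotient_pow]

/-- at a prime `P` where `b ≡ c mod P` with `c ∈ A`, the local factor is `c ^ f(P)`. -/
theorem h22n_norm_mk_of_sub_mem (P : (factors (p.map (algebraMap A B))).toFinset) (b : B)
    (c : A) (hc : b - algebraMap A B c ∈ (P : Ideal B)) :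
    Algebra.norm (A ⧸ p) (Ideal.Quotient.mk (P : Ideal B) b)
      = Ideal.Quotient.mk p c ^ finrank (A ⧸ p) (B ⧸ (P : Ideal B)) := by
  have h1 : Ideal.Quotient.mk (P : Ideal B) b
      = algebraMap (A ⧸ p) (B ⧸ (P : Ideal B)) (Ideal.Quotient.mk p c) := by
    rw [Ideal.Quotient.algebraMap_quotient_of_ramificationIdx_neZero]
    exact Ideal.Quotient.eq.mpr hc
  rw [h1, Algebra.norm_algebraMap]

end Dedekind

section Insep

/-- In characteristic `q`: if `[κ : k] = q` and `y ^ q = a ∈ k` then `N_{κ/k}(y) = a`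
(norms in purely inseparable extensions of degree `q`). -/
theorem h22n_norm_eq_of_pow_eq {k κ : Type*} [Field k] [Field κ] [Algebra k κ] (q : ℕ)
    [hq : Fact q.Prime] [CharP k q] (hdeg : finrank k κ = q) (y : κ) (a : k)
    (ha : algebraMap k κ a = y ^ q) : Algebra.norm k y = a := by
  have h1 : (Algebra.norm k y) ^ q = a ^ q := by
    rw [← map_pow, ← ha, Algebra.norm_algebraMap, hdeg]
  exact frobenius_inj k q h1

/-- the same, read in `κ`: `N_{κ/k}(y) = y ^ q`. -/
theorem h22n_norm_eq_pow_of_pow_mem {k κ : Type*} [Field k] [Field κ] [Algebra k κ] (q : ℕ)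
    [hq : Fact q.Prime] [CharP k q] (hdeg : finrank k κ = q) (y : κ)
    (hy : y ^ q ∈ (algebraMap k κ).range) : algebraMap k κ (Algebra.norm k y) = y ^ q := by
  obtain ⟨a, ha⟩ := hy
  rw [h22n_norm_eq_of_pow_eq q hdeg y a ha, ha]

end Insep

end Fermat.Agent.S36
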