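/-
S36 (wave 4), block LOC: the hypotheses `hden` / `hinv` of Lemma A in chart form
(`h66s_datum`, `h66s_datum_unibranch`, helper66), abstractly (helper23, prefix `h23l_`).

`F` a field, `F₀` a subfield, `B ≤ V` subrings of `F` contained in `F₀` (`B` the chart over the
inertia ring, `V` the semi-local Gauss ring), `Wv : κ → Valuation F₀ ℤᵐ⁰` the finitely many
vertical valuations.  Compatibility data `H23LocData`:

* `hV`     : `V = {x ∈ F₀ | ∀ k, Wv k x ≤ 1}`;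
* `hπ`     : `Wv k π < 1` for all `k` (`π = q`);
* `hQEP`   : `x ∈ V`, `π x ∈ B` ⟹ `x ∈ B`;
* `hscale` : every `x ∈ F₀` has a denominator `π ^ n d`, `d ∈ B` a unit at all `Wv k`;
* `hsep`   : for every `k` there is `u ∈ F₀` with `Wv k u < 1` and `Wv k' u = 1` (`k' ≠ k`).

Then at every prime `𝔫` of `B` and for every family `f i` of pairwise non-associated prime
elements of `B_𝔫` with `π ~ ∏ f i ^ e i`:

* `h23l_hden` : every `v ∈ V_𝔫` has a denominator `s ∈ B_𝔫` prime to all `f i`;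
* `h23l_hinv` : every `s ∈ B_𝔫` prime to all `f i` is invertible in `V_𝔫`;
* `h23l_centre` : (completeness) every prime of `B` containing `π` contains the centre of some
  `Wv k`;
* `h23l_dict` : the vertical primes `(f j)` of `B_𝔫` are exactly the centres of the `Wv k`
  centred at `𝔫`.

Mathlib + `H66ChartSub` (definitions `h66sO`, `h66sV`) + `Red/LocalFact`
(`h26_exists_pow_mul_le_one`).
-/
import Mathlib
import Fermat.Agent.S36.H66ChartSub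
import Fermat.Agent.Red.LocalFact

set_option autoImplicit false
set_option linter.unusedSectionVars false
set_option linter.style.haveILetI false

open WithZero IsLocalRing

namespace Fermat.Agent.S36

section LocAbs

variable {F : Type*} [Field F]

/-- the compatibility data between a chart `B`, the semi-local Gauss ring `V` and the vertical
valuations `Wv k` of the subfield `F₀`. -/
structure H23LocData (F₀ : Subfield F) (B V : Subring F) {κ : Type*}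
    (Wv : κ → Valuation F₀ ℤᵐ⁰) (π : F) : Prop where
  hBF : ∀ x ∈ B, x ∈ F₀
  hBV : ∀ x ∈ B, x ∈ V
  hV : ∀ x : F, x ∈ V ↔ ∃ hx : x ∈ F₀, ∀ k, Wv k ⟨x, hx⟩ ≤ 1
  hπB : π ∈ B
  hπ0 : π ≠ 0
  hπ : ∀ (h : π ∈ F₀) (k : κ), Wv k ⟨π, h⟩ < 1
  hQEP : ∀ x ∈ V, π * x ∈ B → x ∈ B
  hscale : ∀ x : F₀, ∃ d : F₀, (d : F) ∈ B ∧ (∀ k, Wv k d = 1) ∧
    ∃ n : ℕ, π ^ n * (d : F) * (x : F) ∈ B
  hsep : ∀ k, ∃ u : F₀, Wv k u < 1 ∧ ∀ k', k' ≠ k → Wv k' u = 1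

variable {F₀ : Subfield F} {B V : Subring F} {κ : Type*} {Wv : κ → Valuation F₀ ℤᵐ⁰} {π : F}

/-- the inclusion `B → F₀`. -/
def h23lB (hBF : ∀ x ∈ B, x ∈ F₀) : B →+* F₀ where
  toFun b := ⟨(b : F), hBF _ b.2⟩
  map_one' := rfl
  map_mul' _ _ := rfl
  map_zero' := rfl
  map_add' _ _ := rfl

@[simp] theorem h23lB_coe (hBF : ∀ x ∈ B, x ∈ F₀) (b : B) : ((h23lB hBF b : F₀) : F) = b := rfl

/-- the inclusion `B_𝔫 → F₀`. -/
def h23lO (hBF : ∀ x ∈ B, x ∈ F₀) (𝔫 : Ideal B) [𝔫.IsPrime] : h66sO B 𝔫 →+* F₀ where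
  toFun x := ⟨(x : F), h66s_O_le_subfield F₀ hBF x.2⟩
  map_one' := rfl
  map_mul' _ _ := rfl
  map_zero' := rfl
  map_add' _ _ := rfl

@[simp] theorem h23lO_coe (hBF : ∀ x ∈ B, x ∈ F₀) (𝔫 : Ideal B) [𝔫.IsPrime] (x : h66sO B 𝔫) :
    ((h23lO hBF 𝔫 x : F₀) : F) = x := rfl

/-- the inclusion `B → B_𝔫`. -/
def h23lBO (𝔫 : Ideal B) [𝔫.IsPrime] : B →+* h66sO B 𝔫 where
  toFun b := ⟨(b : F), h66s_B_le_O b.2⟩
  map_one' := rfl
  map_mul' _ _ := rfl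
  map_zero' := rfl
  map_add' _ _ := rfl

@[simp] theorem h23lBO_coe (𝔫 : Ideal B) [𝔫.IsPrime] (b : B) :
    ((h23lBO 𝔫 b : h66sO B 𝔫) : F) = b := rfl

theorem h23lO_BO (hBF : ∀ x ∈ B, x ∈ F₀) (𝔫 : Ideal B) [𝔫.IsPrime] (b : B) :
    h23lO hBF 𝔫 (h23lBO 𝔫 b) = h23lB hBF b := rfl

section Data

variable (hD : H23LocData F₀ B V Wv π)
include hD

/-- membership in `V` for elements of `F₀`. -/
theorem h23l_mem_V (x : F₀) : (x : F) ∈ V ↔ ∀ k, Wv k x ≤ 1 := by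
  rw [hD.hV]
  constructor
  · rintro ⟨_, h⟩
    exact h
  · intro h
    exact ⟨x.2, h⟩

/-- the elements of `B` are integral at all `Wv k`. -/
theorem h23l_val_le_one (b : B) (k : κ) : Wv k (h23lB hD.hBF b) ≤ 1 :=
  (h23l_mem_V hD (h23lB hD.hBF b)).mp (hD.hBV _ b.2) k

/-- `hQEP` for powers of `π`. -/
theorem h23l_qep_pow (n : ℕ) : ∀ x ∈ V, π ^ n * x ∈ B → x ∈ B := by
  induction n with
  | zero =>
    intro x _ h
    simpa using h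
  | succ n ih =>
    intro x hx h
    have h1 : π ^ n * x ∈ V := V.mul_mem (V.pow_mem (hD.hBV _ hD.hπB) n) hx
    have h2 : π * (π ^ n * x) ∈ B := by
      have e : π * (π ^ n * x) = π ^ (n + 1) * x := by ring
      rw [e]
      exact h
    exact ih x hx (hD.hQEP _ h1 h2)

/-- every element of `V` has a denominator in `B` which is a unit at all `Wv k`. -/
theorem h23l_exists_den (x : F₀) (hx : (x : F) ∈ V) :
    ∃ d : F₀, (d : F) ∈ B ∧ (∀ k, Wv k d = 1) ∧ (d : F) * (x : F) ∈ B := by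
  obtain ⟨d, hdB, hd, n, hn⟩ := hD.hscale x
  refine ⟨d, hdB, hd, ?_⟩
  refine h23l_qep_pow hD n _ (V.mul_mem (hD.hBV _ hdB) hx) ?_
  rw [← mul_assoc]
  exact hn

/-- separating elements in `B`. -/
theorem h23l_sep_B (k : κ) :
    ∃ b : B, Wv k (h23lB hD.hBF b) < 1 ∧ ∀ k', k' ≠ k → Wv k' (h23lB hD.hBF b) = 1 := by
  classical
  obtain ⟨u, hu, hu'⟩ := hD.hsep k
  have huV : (u : F) ∈ V := by
    rw [h23l_mem_V hD]
    intro k'
    by_cases hk : k' = k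
    · subst hk
      exact hu.le
    · exact (hu' k' hk).le
  obtain ⟨d, hdB, hd, hdu⟩ := h23l_exists_den hD u huV
  refine ⟨⟨_, hdu⟩, ?_, ?_⟩
  · have e : h23lB hD.hBF ⟨_, hdu⟩ = d * u := Subtype.ext rfl
    rw [e, map_mul, hd k, one_mul]
    exact hu
  · intro k' hk'
    have e : h23lB hD.hBF ⟨_, hdu⟩ = d * u := Subtype.ext rfl
    rw [e, map_mul, hd k', one_mul]
    exact hu' k' hk'

/-- **Completeness.** Every prime of `B` containing `π` contains the centre of some `Wv k`. -/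
theorem h23l_centre [Fintype κ] (P : Ideal B) [hP : P.IsPrime]
    (hπP : (⟨π, hD.hπB⟩ : B) ∈ P) :
    ∃ k, ∀ b : B, Wv k (h23lB hD.hBF b) < 1 → b ∈ P := by
  classical
  by_contra hcon
  have hcon' : ∀ k, ∃ b : B, Wv k (h23lB hD.hBF b) < 1 ∧ b ∉ P := by
    intro k
    by_contra hk
    apply hcon
    refine ⟨k, fun b hb => ?_⟩
    by_contra hbP
    exact hk ⟨b, hb, hbP⟩
  choose bk hbk hbkP using hcon'
  set b : B := ∏ k, bk k with hb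
  have hbP : b ∉ P := by
    rw [hb, Ideal.IsPrime.prod_mem_iff]
    rintro ⟨k, -, hk⟩
    exact hbkP k hk
  have hvb : ∀ k, Wv k (h23lB hD.hBF b) < 1 := by
    intro k
    rw [hb, map_prod, map_prod, ← Finset.mul_prod_erase Finset.univ _ (Finset.mem_univ k)]
    have h1 : ∏ k' ∈ Finset.univ.erase k, Wv k (h23lB hD.hBF (bk k')) ≤ 1 :=
      Finset.prod_le_one' (fun k' _ => h23l_val_le_one hD (bk k') k)
    calc Wv k (h23lB hD.hBF (bk k)) * ∏ k' ∈ Finset.univ.erase k, Wv k (h23lB hD.hBF (bk k'))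
        ≤ Wv k (h23lB hD.hBF (bk k)) * 1 := by gcongr
      _ = Wv k (h23lB hD.hBF (bk k)) := mul_one _
      _ < 1 := hbk k
  -- a power of `b` is divisible by `π` at all `Wv k`
  have hπF : π ∈ F₀ := hD.hBF _ hD.hπB
  have hπv : ∀ k, Wv k ⟨π, hπF⟩ ≠ 0 := fun k =>
    (Valuation.ne_zero_iff _).mpr (fun h => hD.hπ0 (congrArg Subtype.val h))
  have hex : ∀ k, ∃ N : ℕ, Wv k (h23lB hD.hBF b) ^ N * (Wv k ⟨π, hπF⟩)⁻¹ ≤ 1 :=
    fun k => Fermat.Agent.Red.h26_exists_pow_mul_le_one _ _ (hvb k)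
  choose N hN using hex
  set n : ℕ := ∑ k, N k with hn
  have hNn : ∀ k, N k ≤ n := fun k =>
    Finset.single_le_sum (f := N) (fun _ _ => Nat.zero_le _) (Finset.mem_univ k)
  have hpow : ∀ k, Wv k (h23lB hD.hBF b) ^ n * (Wv k ⟨π, hπF⟩)⁻¹ ≤ 1 := by
    intro k
    have h1 : Wv k (h23lB hD.hBF b) ^ n ≤ Wv k (h23lB hD.hBF b) ^ N k :=
      pow_le_pow_right_of_le_one' (hvb k).le (hNn k)
    calc Wv k (h23lB hD.hBF b) ^ n * (Wv k ⟨π, hπF⟩)⁻¹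
        ≤ Wv k (h23lB hD.hBF b) ^ N k * (Wv k ⟨π, hπF⟩)⁻¹ := by gcongr
      _ ≤ 1 := hN k
  -- `x = b ^ n / π ∈ V`
  set x : F₀ := h23lB hD.hBF b ^ n * (⟨π, hπF⟩ : F₀)⁻¹ with hx
  have hxV : (x : F) ∈ V := by
    rw [h23l_mem_V hD]
    intro k
    rw [hx, map_mul, map_pow, map_inv₀]
    exact hpow k
  have hπx : π * (x : F) = ((b ^ n : B) : F) := by
    rw [hx]
    push_cast
    rw [h23lB_coe]
    field_simp [hD.hπ0]
  have hxB : (x : F) ∈ B := hD.hQEP _ hxV (by rw [hπx]; exact (b ^ n).2)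
  have hbn : b ^ n ∈ P := by
    have e : b ^ n = ⟨π, hD.hπB⟩ * ⟨(x : F), hxB⟩ := Subtype.ext hπx.symm
    rw [e]
    exact P.mul_mem_right _ hπP
  exact hbP (hP.mem_of_pow_mem n hbn)

/-! ### The local ring `B_𝔫` -/

variable (𝔫 : Ideal B) [h𝔫 : 𝔫.IsPrime]

/-- `s ∉ 𝔫` is a unit at the valuations centred at `𝔫`. -/
theorem h23l_val_eq_one_of_notMem (k : κ)
    (hcen : ∀ b : B, Wv k (h23lB hD.hBF b) < 1 → b ∈ 𝔫) {s : B} (hs : s ∉ 𝔫) :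
    Wv k (h23lB hD.hBF s) = 1 := by
  refine le_antisymm (h23l_val_le_one hD s k) ?_
  by_contra h
  exact hs (hcen s (not_le.mp h))

/-- the elements of `B_𝔫` are integral at the valuations centred at `𝔫`. -/
theorem h23l_valO_le (k : κ)
    (hcen : ∀ b : B, Wv k (h23lB hD.hBF b) < 1 → b ∈ 𝔫) (x : h66sO B 𝔫) :
    Wv k (h23lO hD.hBF 𝔫 x) ≤ 1 := by
  obtain ⟨s, hs, hsx⟩ := x.2
  have h1 : Wv k (h23lB hD.hBF s) = 1 := h23l_val_eq_one_of_notMem hD 𝔫 k hcen hs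
  have h2 : h23lB hD.hBF s * h23lO hD.hBF 𝔫 x = h23lB hD.hBF ⟨_, hsx⟩ := Subtype.ext rfl
  have h3 := h23l_val_le_one hD ⟨_, hsx⟩ k
  rw [← h2, map_mul, h1, one_mul] at h3
  exact h3

omit hD in
/-- the image of `s ∉ 𝔫` is a unit of `B_𝔫`. -/
theorem h23l_isUnit_BO {s : B} (hs : s ∉ 𝔫) : IsUnit (h23lBO 𝔫 s) := by
  rw [h66s_isUnit_iff]
  exact ⟨1, s, (Ideal.ne_top_iff_one 𝔫).mp h𝔫.ne_top, hs, by simp⟩

omit hD in
/-- a prime element of `B_𝔫` dividing `s x`, `s ∉ 𝔫`, divides `x`. -/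
theorem h23l_dvd_of_dvd_mul {p x : h66sO B 𝔫} (hp : Prime p) {s : B} (hs : s ∉ 𝔫)
    (h : p ∣ h23lBO 𝔫 s * x) : p ∣ x := by
  rcases hp.dvd_or_dvd h with h1 | h1
  · exact absurd (isUnit_of_dvd_unit h1 (h23l_isUnit_BO 𝔫 hs)) hp.not_isUnit
  · exact h1

omit hD in
/-- an element of `B` divisible in `B_𝔫` by a non-unit lies in `𝔫`. -/
theorem h23l_mem_of_dvd {p : h66sO B 𝔫} (hp : ¬ IsUnit p) {b : B} (h : p ∣ h23lBO 𝔫 b) :
    b ∈ 𝔫 := by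
  by_contra hb
  exact hp (isUnit_of_dvd_unit h (h23l_isUnit_BO 𝔫 hb))

variable {ι : Type*} [Fintype ι] (f : ι → h66sO B 𝔫) (e : ι → ℕ)
  (hprime : ∀ i, Prime (f i)) (hna : ∀ i j, i ≠ j → ¬ f i ∣ f j)
  (πO : h66sO B 𝔫) (hπO : (πO : F) = π) (hπf : Associated πO (∏ i, f i ^ e i))

include hprime hπO hπf in
/-- a valuation centred at `𝔫` is `< 1` at some `f j`. -/
theorem h23l_exists_lt (k : κ)
    (hcen : ∀ b : B, Wv k (h23lB hD.hBF b) < 1 → b ∈ 𝔫) :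
    ∃ j, Wv k (h23lO hD.hBF 𝔫 (f j)) < 1 := by
  classical
  by_contra hcon
  have h1 : ∀ j, Wv k (h23lO hD.hBF 𝔫 (f j)) = 1 := by
    intro j
    refine le_antisymm (h23l_valO_le hD 𝔫 k hcen (f j)) ?_
    by_contra h
    exact hcon ⟨j, not_le.mp h⟩
  obtain ⟨u, hu⟩ := hπf
  have hπF : π ∈ F₀ := hD.hBF _ hD.hπB
  have h2 : h23lO hD.hBF 𝔫 πO = ⟨π, hπF⟩ := Subtype.ext hπO
  have h3 : Wv k (h23lO hD.hBF 𝔫 (πO * u)) = 1 := by
    rw [hu, map_prod, map_prod]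
    refine Finset.prod_eq_one fun j _ => ?_
    rw [map_pow, map_pow, h1 j, one_pow]
  have h4 : Wv k (h23lO hD.hBF 𝔫 (u : h66sO B 𝔫)) ≤ 1 := h23l_valO_le hD 𝔫 k hcen _
  have h5 := hD.hπ hπF k
  rw [map_mul, map_mul, h2] at h3
  have h6 : Wv k ⟨π, hπF⟩ * Wv k (h23lO hD.hBF 𝔫 (u : h66sO B 𝔫)) < 1 := by
    calc Wv k ⟨π, hπF⟩ * Wv k (h23lO hD.hBF 𝔫 (u : h66sO B 𝔫))
        ≤ Wv k ⟨π, hπF⟩ * 1 := by gcongr
      _ = Wv k ⟨π, hπF⟩ := mul_one _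
      _ < 1 := h5
  rw [h3] at h6
  exact lt_irrefl _ h6

include hprime hna hπO hπf in
/-- **Dictionary.** Every vertical prime `(f j)` of `B_𝔫` is the centre of some `Wv k`. -/
theorem h23l_dict [Fintype κ] (he : ∀ i, e i ≠ 0) (j : ι) :
    ∃ k, (∀ b : B, Wv k (h23lB hD.hBF b) < 1 → b ∈ 𝔫) ∧
      ∀ x : h66sO B 𝔫, Wv k (h23lO hD.hBF 𝔫 x) < 1 ↔ f j ∣ x := by
  classical
  -- the prime `P_j = (f j) ∩ B`
  have hprimeI : (Ideal.span {f j}).IsPrime :=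
    (Ideal.span_singleton_prime (hprime j).ne_zero).mpr (hprime j)
  haveI : ((Ideal.span {f j}).comap (h23lBO 𝔫)).IsPrime := Ideal.comap_isPrime _ _
  have hfπ : f j ∣ πO := by
    have h1 : f j ∣ ∏ i, f i ^ e i :=
      dvd_trans (dvd_pow_self (f j) (he j)) (Finset.dvd_prod_of_mem _ (Finset.mem_univ j))
    exact (hπf.dvd_iff_dvd_right).mpr h1
  have hπP : (⟨π, hD.hπB⟩ : B) ∈ (Ideal.span {f j}).comap (h23lBO 𝔫) := by
    rw [Ideal.mem_comap, Ideal.mem_span_singleton]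
    have e1 : h23lBO 𝔫 ⟨π, hD.hπB⟩ = πO := Subtype.ext hπO.symm
    rw [e1]
    exact hfπ
  obtain ⟨k, hk⟩ := h23l_centre hD _ hπP
  have hk' : ∀ b : B, Wv k (h23lB hD.hBF b) < 1 → f j ∣ h23lBO 𝔫 b := by
    intro b hb
    have := hk b hb
    rwa [Ideal.mem_comap, Ideal.mem_span_singleton] at this
  have hcen : ∀ b : B, Wv k (h23lB hD.hBF b) < 1 → b ∈ 𝔫 :=
    fun b hb => h23l_mem_of_dvd 𝔫 (hprime j).not_isUnit (hk' b hb)
  -- `Wv k x < 1 → f j ∣ x` on `B_𝔫`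
  have hdvd : ∀ x : h66sO B 𝔫, Wv k (h23lO hD.hBF 𝔫 x) < 1 → f j ∣ x := by
    intro x hx
    obtain ⟨s, hs, hsx⟩ := x.2
    have h2 : h23lB hD.hBF s * h23lO hD.hBF 𝔫 x = h23lB hD.hBF ⟨_, hsx⟩ := Subtype.ext rfl
    have h3 : Wv k (h23lB hD.hBF ⟨_, hsx⟩) < 1 := by
      rw [← h2, map_mul]
      calc Wv k (h23lB hD.hBF s) * Wv k (h23lO hD.hBF 𝔫 x)
          ≤ 1 * Wv k (h23lO hD.hBF 𝔫 x) := by
            gcongr
            exact h23l_val_le_one hD s k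
        _ = Wv k (h23lO hD.hBF 𝔫 x) := one_mul _
        _ < 1 := hx
    have h4 := hk' _ h3
    have h5 : h23lBO 𝔫 ⟨_, hsx⟩ = h23lBO 𝔫 s * x := Subtype.ext rfl
    rw [h5] at h4
    exact h23l_dvd_of_dvd_mul 𝔫 (hprime j) hs h4
  -- `Wv k (f j) < 1`
  obtain ⟨j', hj'⟩ := h23l_exists_lt hD 𝔫 f e hprime πO hπO hπf k hcen
  have hjj : j' = j := by
    by_contra hne
    exact hna j j' (fun h => hne h.symm) (hdvd _ hj')
  subst hjj
  refine ⟨k, hcen, fun x => ⟨hdvd x, ?_⟩⟩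
  rintro ⟨y, rfl⟩
  rw [map_mul, map_mul]
  calc Wv k (h23lO hD.hBF 𝔫 (f j')) * Wv k (h23lO hD.hBF 𝔫 y)
      ≤ Wv k (h23lO hD.hBF 𝔫 (f j')) * 1 := by
        gcongr
        exact h23l_valO_le hD 𝔫 k hcen y
    _ = Wv k (h23lO hD.hBF 𝔫 (f j')) := mul_one _
    _ < 1 := hj'

include hprime hna hπO hπf in
/-- **`hden`.** Every element of `V_𝔫` has a denominator in `B_𝔫` prime to all the `f j`. -/
theorem h23l_hden [Fintype κ] (he : ∀ i, e i ≠ 0) :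
    ∀ v ∈ h66sV B V hD.hBV 𝔫,
      ∃ s : h66sO B 𝔫, (∀ j, ¬ f j ∣ s) ∧ (s : F) * v ∈ h66sO B 𝔫 := by
  rintro v ⟨c, hc, hcv⟩
  have hcvF : (c : F) * v ∈ F₀ := ((hD.hV _).mp hcv).1
  obtain ⟨d, hdB, hd, hdx⟩ := h23l_exists_den hD ⟨_, hcvF⟩ hcv
  refine ⟨⟨(d : F), h66s_B_le_O hdB⟩, fun j hj => ?_, ?_⟩
  · obtain ⟨k, -, hk⟩ := h23l_dict hD 𝔫 f e hprime hna πO hπO hπf he j
    have h1 := (hk _).mpr hj
    have e1 : h23lO hD.hBF 𝔫 ⟨(d : F), h66s_B_le_O hdB⟩ = d := Subtype.ext rfl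
    rw [e1, hd k] at h1
    exact lt_irrefl _ h1
  · refine ⟨c, hc, ?_⟩
    have e1 : (c : F) * ((d : F) * v) = (d : F) * ((c : F) * v) := by ring
    show (c : F) * ((d : F) * v) ∈ B
    rw [e1]
    exact hdx

include hprime hna hπO hπf in
/-- **`hinv`.** Every element of `B_𝔫` prime to all the `f j` is invertible in `V_𝔫`. -/
theorem h23l_hinv [Fintype κ] (he : ∀ i, e i ≠ 0) :
    ∀ s : h66sO B 𝔫, (∀ j, ¬ f j ∣ s) → ((s : F))⁻¹ ∈ h66sV B V hD.hBV 𝔫 := by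
  classical
  intro s hs
  by_cases hs0 : (s : F) = 0
  · rw [hs0, inv_zero]
    exact Subring.zero_mem _
  have hs0' : h23lO hD.hBF 𝔫 s ≠ 0 := fun h => hs0 (congrArg Subtype.val h)
  -- at a valuation centred at `𝔫`, `s` is a unit
  have hA : ∀ k, (∀ b : B, Wv k (h23lB hD.hBF b) < 1 → b ∈ 𝔫) →
      Wv k (h23lO hD.hBF 𝔫 s) = 1 := by
    intro k hcen
    refine le_antisymm (h23l_valO_le hD 𝔫 k hcen s) ?_
    by_contra hlt
    have hlt' : Wv k (h23lO hD.hBF 𝔫 s) < 1 := not_le.mp hlt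
    obtain ⟨j, hj⟩ := h23l_exists_lt hD 𝔫 f e hprime πO hπO hπf k hcen
    obtain ⟨k₁, hcen₁, hk₁⟩ := h23l_dict hD 𝔫 f e hprime hna πO hπO hπf he j
    have hkk : k₁ = k := by
      by_contra hne
      obtain ⟨b₁, hb₁, hb₁'⟩ := h23l_sep_B hD k₁
      have h1 : f j ∣ h23lBO 𝔫 b₁ := (hk₁ _).mp hb₁
      obtain ⟨y, hy⟩ := h1
      have h2 : Wv k (h23lB hD.hBF b₁) = 1 := hb₁' k (fun h => hne h.symm)
      have h3 : h23lB hD.hBF b₁ = h23lO hD.hBF 𝔫 (f j * y) := by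
        rw [← hy]
        rfl
      rw [h3, map_mul, map_mul] at h2
      have h4 : Wv k (h23lO hD.hBF 𝔫 (f j)) * Wv k (h23lO hD.hBF 𝔫 y) < 1 := by
        calc Wv k (h23lO hD.hBF 𝔫 (f j)) * Wv k (h23lO hD.hBF 𝔫 y)
            ≤ Wv k (h23lO hD.hBF 𝔫 (f j)) * 1 := by
              gcongr
              exact h23l_valO_le hD 𝔫 k hcen y
          _ = Wv k (h23lO hD.hBF 𝔫 (f j)) := mul_one _
          _ < 1 := hj
      rw [h2] at h4
      exact lt_irrefl _ h4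
    subst hkk
    exact hs j ((hk₁ _).mp hlt')
  -- the local multipliers
  have hex : ∀ k, ∃ (c : B) (n : ℕ), c ∉ 𝔫 ∧ Wv k (h23lB hD.hBF c) ≤ 1 ∧
      Wv k (h23lB hD.hBF c) ^ n * Wv k (h23lO hD.hBF 𝔫 s)⁻¹ ≤ 1 := by
    intro k
    by_cases hcen : ∀ b : B, Wv k (h23lB hD.hBF b) < 1 → b ∈ 𝔫
    · refine ⟨1, 0, (Ideal.ne_top_iff_one 𝔫).mp h𝔫.ne_top, h23l_val_le_one hD 1 k, ?_⟩
      rw [pow_zero, one_mul, map_inv₀, hA k hcen, inv_one]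
    · have hcen' : ∃ b : B, Wv k (h23lB hD.hBF b) < 1 ∧ b ∉ 𝔫 := by
        by_contra h
        apply hcen
        intro b hb
        by_contra hb'
        exact h ⟨b, hb, hb'⟩
      obtain ⟨c, hc, hc'⟩ := hcen'
      obtain ⟨n, hn⟩ := Fermat.Agent.Red.h26_exists_pow_mul_le_one _
        (Wv k (h23lO hD.hBF 𝔫 s)⁻¹) hc
      exact ⟨c, n, hc', hc.le, hn⟩
  choose c n hc hc1 hcn using hex
  set C : B := ∏ k, c k ^ n k with hC
  have hC𝔫 : C ∉ 𝔫 := by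
    rw [hC, Ideal.IsPrime.prod_mem_iff]
    rintro ⟨k, -, hk⟩
    exact hc k (h𝔫.mem_of_pow_mem _ hk)
  refine ⟨C, hC𝔫, ?_⟩
  have hmem : (C : F) * ((s : F))⁻¹ ∈ F₀ :=
    F₀.mul_mem (hD.hBF _ C.2) (F₀.inv_mem (h23lO hD.hBF 𝔫 s).2)
  rw [hD.hV]
  refine ⟨hmem, fun k => ?_⟩
  have e1 : (⟨(C : F) * ((s : F))⁻¹, hmem⟩ : F₀) = h23lB hD.hBF C * (h23lO hD.hBF 𝔫 s)⁻¹ :=
    Subtype.ext rfl
  rw [e1, map_mul, hC, map_prod, map_prod,
    ← Finset.mul_prod_erase Finset.univ _ (Finset.mem_univ k)]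
  have h1 : ∏ k' ∈ Finset.univ.erase k, Wv k (h23lB hD.hBF (c k' ^ n k')) ≤ 1 := by
    refine Finset.prod_le_one' fun k' _ => ?_
    rw [map_pow, map_pow]
    exact pow_le_one' (h23l_val_le_one hD (c k') k) _
  calc Wv k (h23lB hD.hBF (c k ^ n k)) *
        (∏ k' ∈ Finset.univ.erase k, Wv k (h23lB hD.hBF (c k' ^ n k'))) *
        Wv k (h23lO hD.hBF 𝔫 s)⁻¹
      ≤ Wv k (h23lB hD.hBF (c k ^ n k)) * 1 * Wv k (h23lO hD.hBF 𝔫 s)⁻¹ := by gcongr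
    _ = Wv k (h23lB hD.hBF (c k)) ^ n k * Wv k (h23lO hD.hBF 𝔫 s)⁻¹ := by
        rw [mul_one, map_pow, map_pow]
    _ ≤ 1 := hcn k

omit [Fintype ι] in
/-- **`hden`, one component.** -/
theorem h23l_hden_uni [Fintype κ] (g : h66sO B 𝔫) (e₀ : ℕ) (he₀ : e₀ ≠ 0) (hg : Prime g)
    (πO : h66sO B 𝔫) (hπO : (πO : F) = π) (hπg : Associated πO (g ^ e₀)) :
    ∀ v ∈ h66sV B V hD.hBV 𝔫, ∃ s : h66sO B 𝔫, ¬ g ∣ s ∧ (s : F) * v ∈ h66sO B 𝔫 := by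
  intro v hv
  obtain ⟨s, hs, hsv⟩ := h23l_hden hD 𝔫 (fun _ : Unit => g) (fun _ => e₀) (fun _ => hg)
    (fun i j hij => absurd (Subsingleton.elim i j) hij) πO hπO (by simpa using hπg)
    (fun _ => he₀) v hv
  exact ⟨s, hs (), hsv⟩

omit [Fintype ι] in
/-- **`hinv`, one component.** -/
theorem h23l_hinv_uni [Fintype κ] (g : h66sO B 𝔫) (e₀ : ℕ) (he₀ : e₀ ≠ 0) (hg : Prime g)
    (πO : h66sO B 𝔫) (hπO : (πO : F) = π) (hπg : Associated πO (g ^ e₀)) :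
    ∀ s : h66sO B 𝔫, ¬ g ∣ s → ((s : F))⁻¹ ∈ h66sV B V hD.hBV 𝔫 := by
  intro s hs
  exact h23l_hinv hD 𝔫 (fun _ : Unit => g) (fun _ => e₀) (fun _ => hg)
    (fun i j hij => absurd (Subsingleton.elim i j) hij) πO hπO (by simpa using hπg)
    (fun _ => he₀) s (fun _ => hs)

end Data

end LocAbs

end Fermat.Agent.S36
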