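import Mathlib
import Fermat.Agent.S36.H23LocAbs
import Fermat.Agent.S36.H86LocOneIface

/-!
# S36, row LOC-VCOMP (helper23, prefix `h23v_`): the abstract part

Setting of `S36/H23LocAbs.lean`: a chart `B`, the semi-local Gauss ring `V` (subrings of a field
`F`), the vertical valuations `Wv k` of the subfield `F₀`, packaged in `H23LocData`.

* `h23vP hD k` : the centre of `Wv k` on `B` (a prime ideal containing `π`).
* `h23v_hex`, `h23v_hden`, `h23v_hinv` : the three conjuncts of `H86LocVCompAt`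
  (`S36/H86LocOneIface.lean`) in abstract form, from `H23LocData` and
  - `hnm`  : the centres are not maximal,
  - `hdim` : every prime strictly above a centre is maximal.
* `h23v_not_isMaximal_of_gauss`, `h23v_isMaximal_of_gauss` : `hnm` and `hdim` for a prime `P` of a
  ring `S` integral over the image of `φ : R[X] → S` such that `φ p ∈ P ↔ p ≡ 0 mod 𝔪`
  (the Gauss property), `𝔪` a maximal ideal of `R`.
-/

set_option autoImplicit false
set_option linter.style.haveILetI false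

open WithZero IsLocalRing Polynomial

noncomputable section

namespace Fermat.Agent.S36

section GaussDim

variable {R S : Type*} [CommRing R] [CommRing S]

theorem h23v_not_isMaximal_of_gauss (m : Ideal R) (hm : m ≠ ⊤) (φ : R[X] →+* S)
    (hint : φ.IsIntegral) (P : Ideal S) [P.IsPrime]
    (hG : ∀ p : R[X], φ p ∈ P ↔ ∀ i, p.coeff i ∈ m) : ¬ P.IsMaximal := by
  intro hP
  have hc : (P.comap φ).IsMaximal := Ideal.isMaximal_comap_of_isIntegral_of_isMaximal' φ hint P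
  have hX : (X : R[X]) ∉ P.comap φ := by
    rw [Ideal.mem_comap, hG]
    intro h
    have h1 := h 1
    rw [coeff_X_one] at h1
    exact hm ((Ideal.eq_top_iff_one m).mpr h1)
  obtain ⟨y, i, hi, hyi⟩ := hc.exists_inv hX
  have h0 := congrArg (fun p : R[X] => p.coeff 0) hyi
  simp only [coeff_add, mul_coeff_zero, coeff_X_zero, mul_zero, zero_add, coeff_one_zero] at h0
  have h1 : i.coeff 0 ∈ m := (hG i).mp hi 0
  rw [h0] at h1
  exact hm ((Ideal.eq_top_iff_one m).mpr h1)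

theorem h23v_isMaximal_of_gauss (m : Ideal R) [hm : m.IsMaximal] (φ : R[X] →+* S)
    (hint : φ.IsIntegral) (P : Ideal S) [P.IsPrime]
    (hG : ∀ p : R[X], φ p ∈ P ↔ ∀ i, p.coeff i ∈ m)
    (Q : Ideal S) [Q.IsPrime] (hPQ : P < Q) : Q.IsMaximal := by
  classical
  have hlt : P.comap φ < Q.comap φ := by
    letI := φ.toAlgebra
    obtain ⟨x, hxQ, hxP⟩ := Set.exists_of_ssubset hPQ
    exact Ideal.comap_lt_comap_of_integral_mem_sdiff hPQ.le ⟨hxQ, hxP⟩ (hint x)
  letI : Field (R ⧸ m) := Ideal.Quotient.field m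
  let ψ : R[X] →+* (R ⧸ m)[X] := mapRingHom (Ideal.Quotient.mk m)
  have hψs : Function.Surjective ψ := map_surjective _ Ideal.Quotient.mk_surjective
  have hker : ∀ p, ψ p = 0 ↔ φ p ∈ P := by
    intro p
    rw [hG]
    constructor
    · intro h i
      have h1 := congrArg (fun r => r.coeff i) h
      simp only [ψ, coe_mapRingHom, coeff_map, coeff_zero] at h1
      exact Ideal.Quotient.eq_zero_iff_mem.mp h1
    · intro h
      ext i
      simp only [ψ, coe_mapRingHom, coeff_map, coeff_zero]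
      exact Ideal.Quotient.eq_zero_iff_mem.mpr (h i)
  have hkQ : RingHom.ker ψ ≤ Q.comap φ := fun p hp =>
    hlt.le (Ideal.mem_comap.mpr ((hker p).mp ((RingHom.mem_ker).mp hp)))
  haveI hQ' : (Q.comap φ).IsPrime := Ideal.comap_isPrime φ Q
  have hprime : ((Q.comap φ).map ψ).IsPrime := Ideal.map_isPrime_of_surjective hψs hkQ
  have hne : (Q.comap φ).map ψ ≠ ⊥ := by
    obtain ⟨p, hpQ, hpP⟩ := Set.exists_of_ssubset hlt
    intro h
    have h1 : ψ p ∈ (Q.comap φ).map ψ := Ideal.mem_map_of_mem ψ hpQ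
    rw [h, Ideal.mem_bot] at h1
    exact hpP (Ideal.mem_comap.mpr ((hker p).mp h1))
  have hmax : ((Q.comap φ).map ψ).IsMaximal := IsPrime.to_maximal_ideal hne
  have hcomap : ((Q.comap φ).map ψ).comap ψ = Q.comap φ := by
    rw [Ideal.comap_map_of_surjective ψ hψs]
    exact sup_eq_left.mpr (by rw [← RingHom.ker_eq_comap_bot]; exact hkQ)
  have hQ'max : (Q.comap φ).IsMaximal := by
    rw [← hcomap]
    exact Ideal.comap_isMaximal_of_surjective ψ hψs
  exact Ideal.isMaximal_of_isIntegral_of_isMaximal_comap' φ hint Q hQ'max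

end GaussDim


section VComp

variable {F : Type*} [Field F] {F₀ : Subfield F} {B V : Subring F} {κ : Type*}
  {Wv : κ → Valuation F₀ ℤᵐ⁰} {π : F}

/-- the centre of `Wv k` on the chart `B`. -/
def h23vP (hD : H23LocData F₀ B V Wv π) (k : κ) : Ideal B where
  carrier := {b | Wv k (h23lB hD.hBF b) < 1}
  add_mem' := by
    intro a b ha hb
    show Wv k (h23lB hD.hBF (a + b)) < 1
    rw [map_add]
    exact lt_of_le_of_lt (Valuation.map_add _ _ _) (max_lt ha hb)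
  zero_mem' := by
    show Wv k (h23lB hD.hBF 0) < 1
    rw [map_zero, map_zero]
    exact zero_lt_one
  smul_mem' := by
    intro c b hb
    show Wv k (h23lB hD.hBF (c * b)) < 1
    rw [map_mul, map_mul]
    calc Wv k (h23lB hD.hBF c) * Wv k (h23lB hD.hBF b)
        ≤ 1 * Wv k (h23lB hD.hBF b) := by
          gcongr
          exact h23l_val_le_one hD c k
      _ = Wv k (h23lB hD.hBF b) := one_mul _
      _ < 1 := hb

variable (hD : H23LocData F₀ B V Wv π)

theorem h23v_mem_P (k : κ) (b : B) : b ∈ h23vP hD k ↔ Wv k (h23lB hD.hBF b) < 1 := Iff.rfl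

theorem h23v_notMem_P (k : κ) (b : B) : b ∉ h23vP hD k ↔ Wv k (h23lB hD.hBF b) = 1 := by
  rw [h23v_mem_P, not_lt]
  constructor
  · intro h
    exact le_antisymm (h23l_val_le_one hD b k) h
  · intro h
    exact h.ge

theorem h23vP_isPrime (k : κ) : (h23vP hD k).IsPrime := by
  refine ⟨?_, ?_⟩
  · intro h
    have h1 : (1 : B) ∈ h23vP hD k := by rw [h]; exact Submodule.mem_top
    rw [h23v_mem_P, map_one, map_one] at h1
    exact lt_irrefl _ h1
  · intro a b hab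
    by_contra hcon
    rw [not_or] at hcon
    have ha := (h23v_notMem_P hD k a).mp hcon.1
    have hb := (h23v_notMem_P hD k b).mp hcon.2
    rw [h23v_mem_P, map_mul, map_mul, ha, hb, mul_one] at hab
    exact lt_irrefl _ hab

theorem h23v_pi_mem_P (k : κ) : (⟨π, hD.hπB⟩ : B) ∈ h23vP hD k :=
  hD.hπ _ k

/-- completeness: every prime of `B` containing `π` contains one of the centres. -/
theorem h23v_exists_le [Fintype κ] (P : Ideal B) [P.IsPrime] (hπP : (⟨π, hD.hπB⟩ : B) ∈ P) :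
    ∃ k, h23vP hD k ≤ P := by
  obtain ⟨k, hk⟩ := h23l_centre hD P hπP
  exact ⟨k, fun b hb => hk b hb⟩

/-- **hex**: a vertical prime passes through every closed point of the fibre `π = 0`. -/
theorem h23v_hex [Fintype κ] (hnm : ∀ k, ¬ (h23vP hD k).IsMaximal)
    (𝔫 : Ideal B) (h𝔫 : 𝔫.IsMaximal) (hπ𝔫 : (⟨π, hD.hπB⟩ : B) ∈ 𝔫) :
    ∃ P : Ideal B, h86l_IsVert 𝔫 (⟨π, hD.hπB⟩ : B) P := by
  haveI := h𝔫.isPrime
  obtain ⟨k, hk⟩ := h23v_exists_le hD 𝔫 hπ𝔫
  refine ⟨h23vP hD k, h23vP_isPrime hD k, h23v_pi_mem_P hD k, hk, ?_⟩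
  intro h
  exact hnm k (h ▸ h𝔫)

/-- **hden**: `V ⊆ B_P` for every non-maximal prime `P ∋ π`. -/
theorem h23v_hden [Fintype κ]
    (hdim : ∀ k (Q : Ideal B), Q.IsPrime → h23vP hD k < Q → Q.IsMaximal)
    (P : Ideal B) (hP : P.IsPrime) (hPm : ¬ P.IsMaximal) (hπP : (⟨π, hD.hπB⟩ : B) ∈ P)
    (v : F) (hv : v ∈ V) : ∃ s : B, s ∉ P ∧ (s : F) * v ∈ B := by
  haveI := hP
  obtain ⟨k, hk⟩ := h23v_exists_le hD P hπP
  have hPk : h23vP hD k = P := by
    rcases lt_or_eq_of_le hk with h | h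
    · exact absurd (hdim k P hP h) hPm
    · exact h
  obtain ⟨hx, -⟩ := (hD.hV v).mp hv
  obtain ⟨d, hdB, hd, hdv⟩ := h23l_exists_den hD ⟨v, hx⟩ hv
  refine ⟨⟨(d : F), hdB⟩, ?_, hdv⟩
  rw [← hPk, h23v_notMem_P]
  have e : h23lB hD.hBF ⟨(d : F), hdB⟩ = d := Subtype.ext rfl
  rw [e]
  exact hd k

/-- **hinv**: a function of `B` outside the vertical primes through `𝔫` is a unit of `V_𝔫`. -/
theorem h23v_hinv [Fintype κ] (hnm : ∀ k, ¬ (h23vP hD k).IsMaximal)
    (𝔫 : Ideal B) (h𝔫 : 𝔫.IsMaximal) (hπ𝔫 : (⟨π, hD.hπB⟩ : B) ∈ 𝔫) (s : B)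
    (hs : ∀ P : Ideal B, h86l_IsVert 𝔫 (⟨π, hD.hπB⟩ : B) P → s ∉ P) :
    ∃ c : B, c ∉ 𝔫 ∧ (c : F) * ((s : F))⁻¹ ∈ V := by
  classical
  haveI := h𝔫.isPrime
  obtain ⟨P₀, hP₀⟩ := h23v_hex hD hnm 𝔫 h𝔫 hπ𝔫
  have hs0 : s ≠ 0 := by
    rintro rfl
    exact hs P₀ hP₀ P₀.zero_mem
  have hs0' : h23lB hD.hBF s ≠ 0 := by
    intro h
    apply hs0
    apply Subtype.ext
    have := congrArg (fun x : F₀ => (x : F)) h
    simpa using this
  have hvs : ∀ k, Wv k (h23lB hD.hBF s) ≠ 0 := fun k => (Valuation.ne_zero_iff _).mpr hs0'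
  have hex : ∀ k, ∃ c : B, c ∉ 𝔫 ∧
      Wv k (h23lB hD.hBF c) * (Wv k (h23lB hD.hBF s))⁻¹ ≤ 1 := by
    intro k
    by_cases hk : h23vP hD k ≤ 𝔫
    · refine ⟨1, (Ideal.ne_top_iff_one 𝔫).mp h𝔫.ne_top, ?_⟩
      have hvert : h86l_IsVert 𝔫 (⟨π, hD.hπB⟩ : B) (h23vP hD k) :=
        ⟨h23vP_isPrime hD k, h23v_pi_mem_P hD k, hk, fun h => hnm k (h ▸ h𝔫)⟩
      have h1 := (h23v_notMem_P hD k s).mp (hs _ hvert)
      rw [h1, map_one, map_one, inv_one, mul_one]
    · obtain ⟨c₀, hc₀P, hc₀𝔫⟩ := SetLike.not_le_iff_exists.mp hk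
      obtain ⟨n, hn⟩ := Fermat.Agent.Red.h26_exists_pow_mul_le_one
        (Wv k (h23lB hD.hBF c₀)) ((Wv k (h23lB hD.hBF s))⁻¹) hc₀P
      refine ⟨c₀ ^ n, fun h => hc₀𝔫 (Ideal.IsPrime.mem_of_pow_mem inferInstance n h), ?_⟩
      rw [map_pow, map_pow]
      exact hn
  choose c hc𝔫 hcv using hex
  refine ⟨∏ k, c k, ?_, ?_⟩
  · rw [Ideal.IsPrime.prod_mem_iff]
    rintro ⟨k, -, hk⟩
    exact hc𝔫 k hk
  · have hmem : ((h23lB hD.hBF (∏ k, c k) * (h23lB hD.hBF s)⁻¹ : F₀) : F) ∈ V := by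
      rw [h23l_mem_V hD]
      intro k
      rw [map_mul, map_inv₀, map_prod, map_prod,
        ← Finset.mul_prod_erase Finset.univ _ (Finset.mem_univ k)]
      have h1 : ∏ k' ∈ Finset.univ.erase k, Wv k (h23lB hD.hBF (c k')) ≤ 1 :=
        Finset.prod_le_one' (fun k' _ => h23l_val_le_one hD (c k') k)
      calc Wv k (h23lB hD.hBF (c k)) *
            (∏ k' ∈ Finset.univ.erase k, Wv k (h23lB hD.hBF (c k'))) *
            (Wv k (h23lB hD.hBF s))⁻¹
          ≤ Wv k (h23lB hD.hBF (c k)) * 1 * (Wv k (h23lB hD.hBF s))⁻¹ := by gcongr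
        _ = Wv k (h23lB hD.hBF (c k)) * (Wv k (h23lB hD.hBF s))⁻¹ := by rw [mul_one]
        _ ≤ 1 := hcv k
    exact hmem

end VComp

end Fermat.Agent.S36
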