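import Fermat.Agent.S36.H23VCompAbs
import Fermat.Agent.S36.H74VIface
import Fermat.Agent.S36.H93ApproxRes
import Fermat.Agent.S36.H84VQep
import Fermat.Agent.S36.H40LocFrac
import Fermat.Agent.S36.H88VInt
import Fermat.Agent.S36.H12EmbDF

/-!
# S36, row LOC-VCOMP (helper23, prefix `h23i_`): Gauss-integrality facts on the contract objects

* `h23i_int20`, `h23i_int11`, `h23i_int02` : the functions of `h92c_V` (integral over the Gauss
  ring of the level `M`) are Gauss-integral at `E20`, `E11^ζ`, `E02` (pull-backs of the Gauss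
  valuation ring of `dfField` are valuation subrings of `FF (M q q)`, hence integrally closed).
* `h23i_unitM`, `h23i_unitM_fin`, `h23i_unitM_inf` : a polynomial in `j` (resp. `1/j`) over `A`
  with a unit coefficient is a unit of the Gauss ring of the level `M` (`q ∤ M`).
* `h23i_gauss_fin`, `h23i_gauss_inf` : **Gauss property**: a polynomial in `j` (resp. `1/j`) over
  `A₀` with a unit coefficient is a nonzero function `x` with `x, x⁻¹ ∈ V₀`.
-/

set_option autoImplicit false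
set_option linter.style.haveILetI false
set_option linter.unusedSectionVars false

open AlgebraicCurve ModularCurve WithZero IsLocalRing Polynomial

noncomputable section

namespace Fermat.Agent.S36

open Fermat.Agent.S37 (Kbar GQ FF cst gal jB modelAt degen auxLevel coe_degen)
open Fermat.Agent.Red.GV
open Fermat.Agent.Red.GV.Soft
open Fermat.Agent.Red.Kron (kFricke twistK kFricke_alpha kFricke_beta)
open Fermat.Agent.S36.V28 (h28v_F0 h28v_IFixed)
open Fermat.Agent.LGC (h44v_jB_mem_gaussV h44v_jB_inv_mem_gaussV)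

/-- an element integral over a subring of a valuation subring lies in the valuation subring. -/
theorem h23i_mem_of_isIntegral {L : Type*} [Field L] (W : ValuationSubring L) (G : Subring L)
    (hG : G ≤ W.toSubring) {x : L} (hx : IsIntegral G x) : x ∈ W := by
  obtain ⟨p, hp, hpx⟩ := hx
  have h : IsIntegral W x := by
    refine ⟨p.map (Subring.inclusion hG), hp.map _, ?_⟩
    rw [eval₂_map]
    exact hpx
  obtain ⟨y, rfl⟩ := (IsIntegrallyClosed.isIntegral_iff (R := W) (K := L)).mp h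
  exact y.2

section Level

variable (A : ValuationSubring Kbar) (M q : ℕ) [NeZero M] [NeZero q]

/-- the elements of `V` are Gauss-integral at every embedding `E` with values in `dfField`
at which the Gauss ring of the level `M` is integral. -/
theorem h23i_int_of_mem_V (hq : q.Prime) (hA : A.LiesOverPrime q)
    (E : FF (M * q * q) →+* LaurentSeries Kbar) (hE : ∀ u, E u ∈ dfField (K := Kbar))
    (hG : ∀ y ∈ gaussV A M, E (degen (h92c_dvd M q) y) ∈ h20v_G A)
    (x : FF (M * q * q)) (hx : x ∈ h92c_V A M q) : E x ∈ h20v_G A := by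
  have hle : h92c_G A M q ≤
      ((h93a_GV q hq A hA).comap (E.codRestrict (dfField (K := Kbar)) hE)).toSubring := by
    rintro _ ⟨y, hy, rfl⟩
    exact hG y hy
  exact h23i_mem_of_isIntegral _ _ hle hx

theorem h23i_int20 (hq : q.Prime) (hA : A.LiesOverPrime q)
    (x : FF (M * q * q)) (hx : x ∈ h92c_V A M q) : x ∈ softV A (M * q * q) := by
  have h := h23i_int_of_mem_V A M q hq hA (h20n_E20 M q) (fun u => FF_le_dfField _ u) ?_ x hx
  · exact h
  · intro y hy
    show ((degen (h92c_dvd M q) y : FF (M * q * q)) : LaurentSeries Kbar) ∈ h20v_G A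
    rw [coe_degen]
    exact gaussV_le_softV A M hy

theorem h23i_int11 (hq : q.Prime) (hqM : ¬ q ∣ M) (hA : A.LiesOverPrime q) (ζ : Kbar)
    (hζ : ζ ^ q = 1) (E : FF (M * q * q) →+* LaurentSeries Kbar)
    (hE : h20n_IsE11 M q hq hqM ζ E)
    (x : FF (M * q * q)) (hx : x ∈ h92c_V A M q) : h74w_Int A E x := by
  refine h23i_int_of_mem_V A M q hq hA E
    (h12e_embDF q hq M hqM E (Or.inl ⟨ζ, hζ, hE⟩)) ?_ x hx
  intro y hy
  have h1 : degen (h92c_dvd M q) y = h74w_aa M q y := by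
    rw [← h88v_degen_eq_aa]
    rfl
  rw [h1, h88v_aa_apply, hE.1, coe_heckeAlphaBar]
  exact gaussV_le_softV A M hy

theorem h23i_int02 (hq : q.Prime) (hqM : ¬ q ∣ M) (hA : A.LiesOverPrime q)
    (E : FF (M * q * q) →+* LaurentSeries Kbar)
    (hE : h20n_IsE02 M q hq hqM E)
    (x : FF (M * q * q)) (hx : x ∈ h92c_V A M q) : h74w_Int A E x := by
  refine h23i_int_of_mem_V A M q hq hA E
    (h12e_embDF q hq M hqM E (Or.inr hE)) ?_ x hx
  intro y hy
  have h1 : degen (h92c_dvd M q) y = h74w_aa M q y := by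
    rw [← h88v_degen_eq_aa]
    rfl
  rw [h1, h88v_aa_apply, hE.1, kFricke_alpha, coe_heckeBetaBar]
  exact mem_softOT_qExpand A _ q (mem_softOT_qExpand A _ q (gaussV_le_softV A M hy))

end Level


section LevelM

variable (A : ValuationSubring Kbar) (M : ℕ) [NeZero M] {q : ℕ} [NeZero q]

/-- the constants of `A` in the Gauss ring. -/
def h23iC (hA : A.LiesOverPrime q) : A →+* gaussV A M :=
  ((algebraMap Kbar (FF M)).comp A.subtype).codRestrict (gaussV A M)
    (fun a => (cst_mem_gaussV_iff A M hA _).2 a.2)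

theorem h23i_gaussR_C (hA : A.LiesOverPrime q) (a : A) :
    gaussR A M (h23iC A M hA a) = HahnSeries.C (IsLocalRing.residue A a) :=
  gaussRed_algebraMap A (IsLocalRing.residue A) M a

/-- a polynomial in `t₀` with a unit coefficient is a Gauss unit, if the reduction of `t₀` is
transcendental. -/
theorem h23i_unitM (hq : q.Prime) (hM : ¬ q ∣ M) (hA : A.LiesOverPrime q)
    (t₀ : FF M) (ht₀ : t₀ ∈ gaussV A M)
    (hinj : ∀ Q : Polynomial (IsLocalRing.ResidueField A), Q ≠ 0 →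
      Fermat.Agent.S28.evalC (gaussR A M ⟨t₀, ht₀⟩) Q ≠ 0)
    (P : Polynomial A) (hP : P.map (IsLocalRing.residue A) ≠ 0) :
    evalF M A t₀ P ≠ 0 ∧ evalF M A t₀ P ∈ gaussV A M ∧ (evalF M A t₀ P)⁻¹ ∈ gaussV A M := by
  set ev : Polynomial A →+* gaussV A M := eval₂RingHom (h23iC A M hA) ⟨t₀, ht₀⟩ with hev
  have h1 : ∀ Q : Polynomial A, ((ev Q : gaussV A M) : FF M) = evalF M A t₀ Q := by
    intro Q
    have := Polynomial.hom_eval₂ Q (h23iC A M hA) (gaussV A M).subtype ⟨t₀, ht₀⟩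
    exact this
  have h2 : gaussR A M (ev P) =
      Fermat.Agent.S28.evalC (gaussR A M ⟨t₀, ht₀⟩) (P.map (IsLocalRing.residue A)) := by
    have h3 := Polynomial.hom_eval₂ P (h23iC A M hA) (gaussR A M) ⟨t₀, ht₀⟩
    rw [hev, coe_eval₂RingHom, h3]
    show _ = Polynomial.eval₂ _ _ (P.map (IsLocalRing.residue A))
    rw [Polynomial.eval₂_map]
    congr 1
    ext a : 1
    exact h23i_gaussR_C A M hA a
  have h4 : gaussR A M (ev P) ≠ 0 := by
    rw [h2]
    exact hinj _ hP
  have hmem : evalF M A t₀ P ∈ gaussV A M := by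
    rw [← h1]
    exact (ev P).2
  refine ⟨?_, hmem, ?_⟩
  · intro h0
    apply h4
    rw [gaussR_eq_zero_iff A M hq hM hA]
    left
    rw [h1]
    exact h0
  · by_contra hcon
    apply h4
    rw [gaussR_eq_zero_iff A M hq hM hA]
    right
    rw [h1]
    exact hcon

theorem h23i_gaussR_jB (hq : q.Prime) (hM : ¬ q ∣ M) (hA : A.LiesOverPrime q) :
    gaussR A M ⟨jB M, h44v_jB_mem_gaussV A M q hq hM hA⟩ =
      jqModC (IsLocalRing.ResidueField A) := by
  rw [gaussRed_of_embA A (IsLocalRing.residue A) M _ (jqModC A)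
    (by rw [embA_jqModC]; exact (coe_jB M).symm), redA_jqModC]

theorem h23i_gaussR_jB_inv (hq : q.Prime) (hM : ¬ q ∣ M) (hA : A.LiesOverPrime q) :
    gaussR A M ⟨(jB M)⁻¹, h44v_jB_inv_mem_gaussV A M q hq hM hA⟩ =
      (jqModC (IsLocalRing.ResidueField A))⁻¹ := by
  have hj0 : jB M ≠ 0 := by
    intro h
    have := Fermat.Agent.Red.GG.GGC97_transcendental_jB M
    rw [h] at this
    exact this (isAlgebraic_zero)
  have h1 : (⟨(jB M)⁻¹, h44v_jB_inv_mem_gaussV A M q hq hM hA⟩ : gaussV A M) *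
      ⟨jB M, h44v_jB_mem_gaussV A M q hq hM hA⟩ = 1 := by
    apply Subtype.ext
    show (jB M)⁻¹ * jB M = 1
    exact inv_mul_cancel₀ hj0
  have h2 := congrArg (gaussR A M) h1
  rw [map_mul, map_one, h23i_gaussR_jB A M hq hM hA] at h2
  exact eq_inv_of_mul_eq_one_left h2

theorem h23i_unitM_fin (hq : q.Prime) (hM : ¬ q ∣ M) (hA : A.LiesOverPrime q)
    (P : Polynomial A) (hP : P.map (IsLocalRing.residue A) ≠ 0) :
    evalF M A (jB M) P ≠ 0 ∧ evalF M A (jB M) P ∈ gaussV A M ∧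
      (evalF M A (jB M) P)⁻¹ ∈ gaussV A M := by
  refine h23i_unitM A M hq hM hA (jB M) (h44v_jB_mem_gaussV A M q hq hM hA) ?_ P hP
  intro Q hQ h0
  rw [h23i_gaussR_jB A M hq hM hA] at h0
  apply hQ
  apply evalC_jK_injective (IsLocalRing.ResidueField A)
  rw [map_zero]
  exact h0

theorem h23i_unitM_inf (hq : q.Prime) (hM : ¬ q ∣ M) (hA : A.LiesOverPrime q)
    (P : Polynomial A) (hP : P.map (IsLocalRing.residue A) ≠ 0) :
    evalF M A (jB M)⁻¹ P ≠ 0 ∧ evalF M A (jB M)⁻¹ P ∈ gaussV A M ∧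
      (evalF M A (jB M)⁻¹ P)⁻¹ ∈ gaussV A M := by
  refine h23i_unitM A M hq hM hA (jB M)⁻¹ (h44v_jB_inv_mem_gaussV A M q hq hM hA) ?_ P hP
  intro Q hQ h0
  rw [h23i_gaussR_jB_inv A M hq hM hA] at h0
  apply hQ
  apply evalC_jK_inv_injective (IsLocalRing.ResidueField A)
  rw [map_zero]
  exact h0

end LevelM



section LevelN

variable (A : ValuationSubring Kbar) (M q : ℕ) [NeZero M] [NeZero q]

theorem h23i_ev_eq (N : ℕ) (t : FF N) (p : Polynomial (h59bA0 A)) :
    h59nEv N A t p = evalF N A t (p.map (h59bIncl A)) := by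
  show Polynomial.eval₂ _ t p = Polynomial.eval₂ _ t (p.map (h59bIncl A))
  rw [Polynomial.eval₂_map]
  rfl

theorem h23i_degen_evalF (t₀ : FF M) (P : Polynomial A) :
    degen (h92c_dvd M q) (evalF M A t₀ P) =
      evalF (M * q * q) A (degen (h92c_dvd M q) t₀) P := by
  have h := Polynomial.hom_eval₂ P ((algebraMap Kbar (FF M)).comp A.subtype)
    (degen (h92c_dvd M q)).toRingHom t₀
  show (degen (h92c_dvd M q)).toRingHom (Polynomial.eval₂ _ t₀ P) = Polynomial.eval₂ _ _ P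
  rw [h]
  congr 1

theorem h23i_map_ne_zero (p : Polynomial (h59bA0 A))
    (hp : ∃ i, p.coeff i ∉ maximalIdeal (h59bA0 A)) :
    (p.map (h59bIncl A)).map (IsLocalRing.residue A) ≠ 0 := by
  obtain ⟨i, hi⟩ := hp
  intro h
  have h1 := congrArg (fun r => r.coeff i) h
  simp only [coeff_map, coeff_zero] at h1
  rw [IsLocalRing.residue_eq_zero_iff, h59bIncl_mem_maximalIdeal_iff] at h1
  exact hi h1

theorem h23i_G_le_V : h92c_G A M q ≤ h92c_V A M q := by
  rintro _ ⟨y, hy, rfl⟩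
  rw [← h84q_V_eq, h84q_mem_V_iff]
  exact RingHom.isIntegralElem_map (h84q_f A (degen (h92c_dvd M q))) (x := ⟨y, hy⟩)

theorem h23i_ev_fixed (N : ℕ) [NeZero N] (t : FF N)
    (ht : ∀ σ ∈ A.inertiaSubgroupIn ℚ, gal N σ • t = t) (p : Polynomial (h59bA0 A)) :
    h59nEv N A t p ∈ h92c_F0 A N :=
  h59nK_le_F0 N A t ht (h59nEv_mem_K N A t p)

/-- **Gauss property** (finite chart): a polynomial in `j` over `A₀` with a unit coefficient is a
unit of `V₀`. -/
theorem h23i_gauss_fin (hq : q.Prime) (hM : ¬ q ∣ M) (hA : A.LiesOverPrime q)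
    (p : Polynomial (h59bA0 A)) (hp : ∃ i, p.coeff i ∉ maximalIdeal (h59bA0 A)) :
    h59nEv (M * q * q) A (jB (M * q * q)) p ≠ 0 ∧
      h59nEv (M * q * q) A (jB (M * q * q)) p ∈ h92c_V0 A M q ∧
      (h59nEv (M * q * q) A (jB (M * q * q)) p)⁻¹ ∈ h92c_V0 A M q := by
  obtain ⟨h0, h1, h2⟩ := h23i_unitM_fin A M hq hM hA (p.map (h59bIncl A)) (h23i_map_ne_zero A p hp)
  have hx : h59nEv (M * q * q) A (jB (M * q * q)) p =
      degen (h92c_dvd M q) (evalF M A (jB M) (p.map (h59bIncl A))) := by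
    rw [h23i_ev_eq, h23i_degen_evalF, h84q_degen_jB]
  have hF := h23i_ev_fixed A (M * q * q) (jB (M * q * q))
    (fun σ _ => Fermat.Agent.S37.GalI.gal_smul_jB (N := M * q * q) σ) p
  refine ⟨?_, ⟨h23i_G_le_V A M q ?_, hF⟩,
    ⟨h23i_G_le_V A M q ?_, (h92c_F0 A (M * q * q)).inv_mem hF⟩⟩
  · rw [hx]
    exact (map_ne_zero_iff _ (degen (h92c_dvd M q)).toRingHom.injective).mpr h0
  · rw [hx]
    exact ⟨_, h1, rfl⟩
  · rw [hx, ← map_inv₀]
    exact ⟨_, h2, rfl⟩

/-- **Gauss property** (chart at infinity). -/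
theorem h23i_gauss_inf (hq : q.Prime) (hM : ¬ q ∣ M) (hA : A.LiesOverPrime q)
    (p : Polynomial (h59bA0 A)) (hp : ∃ i, p.coeff i ∉ maximalIdeal (h59bA0 A)) :
    h59nEv (M * q * q) A (jB (M * q * q))⁻¹ p ≠ 0 ∧
      h59nEv (M * q * q) A (jB (M * q * q))⁻¹ p ∈ h92c_V0 A M q ∧
      (h59nEv (M * q * q) A (jB (M * q * q))⁻¹ p)⁻¹ ∈ h92c_V0 A M q := by
  obtain ⟨h0, h1, h2⟩ := h23i_unitM_inf A M hq hM hA (p.map (h59bIncl A)) (h23i_map_ne_zero A p hp)
  have hx : h59nEv (M * q * q) A (jB (M * q * q))⁻¹ p =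
      degen (h92c_dvd M q) (evalF M A (jB M)⁻¹ (p.map (h59bIncl A))) := by
    rw [h23i_ev_eq, h23i_degen_evalF, h84q_degen_jB_inv]
  have hF := h23i_ev_fixed A (M * q * q) (jB (M * q * q))⁻¹
    (fun σ _ => Fermat.Agent.S37.GalI.gal_smul_jB_inv (N := M * q * q) σ) p
  refine ⟨?_, ⟨h23i_G_le_V A M q ?_, hF⟩,
    ⟨h23i_G_le_V A M q ?_, (h92c_F0 A (M * q * q)).inv_mem hF⟩⟩
  · rw [hx]
    exact (map_ne_zero_iff _ (degen (h92c_dvd M q)).toRingHom.injective).mpr h0
  · rw [hx]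
    exact ⟨_, h1, rfl⟩
  · rw [hx, ← map_inv₀]
    exact ⟨_, h2, rfl⟩

end LevelN

end Fermat.Agent.S36
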