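import Mathlib
import Fermat.Agent.S36.H24DescGen
import Fermat.Agent.Red.ModelO.RatFinite

/-!
# S36, leaf FD-F0 (helper24): `F₀` is spanned over `K₀(j)` by finitely many rational functions

`I` any subgroup of `G_ℚ`, `K₀ = ℚ̄^I`, `F₀ = h53d_F0 N I` the `I`-invariant functions.

* `h24g_K0j N I` : the subfield `K₀(j)` of `FF N` generated by the `I`-invariant constants and
  `j`;
* `h24g_K0j_le` : `K₀(j) ≤ F₀`;
* `h24g_exists_span_F0` : there are finitely many functions `e₁, …, eₙ` with rational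
  `q`-expansion (in particular `eᵢ ∈ F₀`) such that every `f ∈ F₀` is `∑ aᵢ eᵢ` with
  `aᵢ ∈ K₀(j)`.

Inputs: `h24g_descGen` (`F₀` is spanned over `K₀` by rational functions) and the landed
`h85_exists_span_Qj` (`FQ N` is finite over `ℚ(j)`).
-/

set_option autoImplicit false

open AlgebraicCurve ModularCurve

noncomputable section

namespace Fermat.Agent.S36

open Fermat.Agent.S37 (Kbar GQ FF cst jB gal IsRat)
open Fermat.Agent.Red.ModelO

/-- `K₀(j)`: the subfield of `FF N` generated by the `I`-invariant constants and `j`. -/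
def h24g_K0j (N : ℕ) [NeZero N] (I : Subgroup GQ) : Subfield (FF N) :=
  Subfield.closure ((fun c : Kbar => cst N c) '' {c | ∀ σ ∈ I, σ c = c} ∪ {jB N})

theorem h24g_cst_mem_K0j (N : ℕ) [NeZero N] (I : Subgroup GQ) {c : Kbar}
    (hc : ∀ σ ∈ I, σ c = c) : cst N c ∈ h24g_K0j N I :=
  Subfield.subset_closure (Or.inl ⟨c, hc, rfl⟩)

theorem h24g_jB_mem_K0j (N : ℕ) [NeZero N] (I : Subgroup GQ) : jB N ∈ h24g_K0j N I :=
  Subfield.subset_closure (Or.inr rfl)

/-- functions with rational `q`-expansion are invariant. -/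
theorem h24g_isRat_mem_F0 (N : ℕ) [NeZero N] (I : Subgroup GQ) {e : FF N} (he : IsRat e) :
    e ∈ h53d_F0 N I :=
  fun σ _ => Fermat.Agent.S37.GalI.gal_smul_of_isRat σ he

/-- `K₀(j) ≤ F₀`. -/
theorem h24g_K0j_le (N : ℕ) [NeZero N] (I : Subgroup GQ) : h24g_K0j N I ≤ h53d_F0 N I := by
  refine Subfield.closure_le.2 ?_
  rintro x (⟨c, hc, rfl⟩ | hx)
  · intro σ hσ
    show gal N σ • cst N c = cst N c
    rw [Fermat.Agent.S37.GalI.gal_smul_cst, hc σ hσ]
  · have hx' : x = jB N := hx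
    rw [hx']
    intro σ _
    exact Fermat.Agent.S37.GalI.gal_smul_jB σ

/-- the image of `ℚ(j)` lies in `K₀(j)`. -/
theorem h24g_ratEmb_Qj_mem (N : ℕ) [NeZero N] (I : Subgroup GQ) {r : FQ N}
    (hr : r ∈ h85QjSet N) : h85ratEmb N r ∈ h24g_K0j N I := by
  have hj : h85jQ N ∈ (h24g_K0j N I).comap (h85ratEmb N) := by
    rw [Subfield.mem_comap, h85ratEmb_jQ]
    exact h24g_jB_mem_K0j N I
  exact h85_Qj_subsetC N ((h24g_K0j N I).comap (h85ratEmb N)) hj hr

/-- **FD-F0.**  `F₀` is spanned over `K₀(j)` by finitely many functions with rational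
`q`-expansion. -/
theorem h24g_exists_span_F0 (N : ℕ) [NeZero N] (I : Subgroup GQ) :
    ∃ (n : ℕ) (e : Fin n → FF N), (∀ i, IsRat (e i)) ∧
      ∀ f ∈ h53d_F0 N I, ∃ a : Fin n → FF N,
        (∀ i, a i ∈ h24g_K0j N I) ∧ f = ∑ i, a i * e i := by
  classical
  obtain ⟨T, hT⟩ := h85_exists_span_Qj N
  refine ⟨T.card, fun k => h85ratEmb N (T.equivFin.symm k).1,
    fun k => h85_isRat_ratEmb N _, ?_⟩
  intro f hf
  obtain ⟨m, c, e', hc, he', hfe⟩ := h24g_descGen N I f hf
  -- the rational functions `e' i` in terms of `T`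
  have hy : ∀ i : Fin m, ∃ d : FQ N → FQ N, (∀ u, d u ∈ h85QjSet N) ∧
      e' i = ∑ u ∈ T, h85ratEmb N (d u) * h85ratEmb N u := by
    intro i
    obtain ⟨y, hy⟩ := h85_exists_ratEmb_of_isRat (he' i)
    obtain ⟨d, hd, hyd⟩ := hT y
    refine ⟨d, hd, ?_⟩
    rw [← hy, hyd, map_sum]
    exact Finset.sum_congr rfl fun u _ => map_mul _ _ _
  choose d hd hde using hy
  refine ⟨fun k => ∑ i : Fin m, cst N (c i) * h85ratEmb N (d i (T.equivFin.symm k).1),
    fun k => ?_, ?_⟩
  · refine Subfield.sum_mem _ fun i _ => ?_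
    exact Subfield.mul_mem _ (h24g_cst_mem_K0j N I (hc i))
      (h24g_ratEmb_Qj_mem N I (hd i _))
  · have h1 : f = ∑ u ∈ T, (∑ i : Fin m, cst N (c i) * h85ratEmb N (d i u)) * h85ratEmb N u := by
      rw [hfe]
      simp_rw [Finset.sum_mul]
      rw [Finset.sum_comm]
      refine Finset.sum_congr rfl fun i _ => ?_
      rw [hde i, Finset.mul_sum]
      exact Finset.sum_congr rfl fun u _ => by ring
    rw [h1, ← Finset.sum_coe_sort T]
    exact (Equiv.sum_comp T.equivFin.symm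
      (fun u : ↥T => (∑ i : Fin m, cst N (c i) * h85ratEmb N (d i u.1)) *
        h85ratEmb N u.1)).symm

end Fermat.Agent.S36
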