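import Mathlib

/-!
# S36, block TOR, row T-NORM-A (helper24): the abstract transfer lemma

Mathlib only.  Language: `L` a field (Laurent series), `G : H24Gauss L` a "Gauss structure":
a subring `S ≤ L` (the Gauss-integral series) and a predicate `Sm` on `L` (the series with
reduction `0`) which is an ideal of `S` whose complement consists of units of `S`.

`B ≤ F`, `B' ≤ F'` subrings of fields (charts of level `M q q`, `M q`), `𝔫`, `𝔫'` ideals,
`φ : F' → F` (a degeneracy map), `E : F → L` (a branch).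

* `h24c_core` : if the branch value of `x` at `𝔫` along `E` is `c₀ = φ c₀'` (witness `b₀ / s₀`)
  and `b₀`, `s₀` are congruent along `E` to functions `b₀' / t₀`, `s₀' / u₀` of the lower level,
  then `E x ∈ S` and there are `b', s' ∈ B'`, `s' ∉ 𝔫'` with
  `E (φ s') * E x ≡ E (φ b')` modulo `Sm` and `b' - c₀' s' ∈ 𝔫'`.
* `h24c_prod` : products of congruences.
-/

set_option autoImplicit false

namespace Fermat.Agent.S36

/-- an abstract Gauss structure on a field `L`. -/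
structure H24Gauss (L : Type*) [Field L] where
  /-- the integral elements -/
  S : Subring L
  /-- the small elements -/
  Sm : L → Prop
  sm_mem : ∀ y, Sm y → y ∈ S
  sm_zero : Sm 0
  sm_add : ∀ y z, Sm y → Sm z → Sm (y + z)
  sm_neg : ∀ y, Sm y → Sm (-y)
  sm_mul : ∀ y z, y ∈ S → Sm z → Sm (y * z)
  inv_mem : ∀ y, y ∈ S → ¬ Sm y → y⁻¹ ∈ S
  not_sm_one : ¬ Sm 1

namespace H24Gauss

variable {L : Type*} [Field L] (G : H24Gauss L)

theorem sm_sub {y z : L} (hy : G.Sm y) (hz : G.Sm z) : G.Sm (y - z) := by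
  rw [sub_eq_add_neg]
  exact G.sm_add _ _ hy (G.sm_neg _ hz)

theorem sm_mul' {y z : L} (hy : G.Sm y) (hz : z ∈ G.S) : G.Sm (y * z) := by
  rw [mul_comm]
  exact G.sm_mul _ _ hz hy

/-- congruence modulo `Sm` is compatible with products. -/
theorem cong_mul {y y' z z' : L} (hy : y ∈ G.S) (hz' : z' ∈ G.S)
    (h : G.Sm (y - z)) (h' : G.Sm (y' - z')) : G.Sm (y * y' - z * z') := by
  have e : y * y' - z * z' = y * (y' - z') + (y - z) * z' := by ring
  rw [e]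
  exact G.sm_add _ _ (G.sm_mul _ _ hy h') (G.sm_mul' h hz')

theorem mem_of_cong {y z : L} (hz : z ∈ G.S) (h : G.Sm (y - z)) : y ∈ G.S := by
  have e : y = (y - z) + z := by ring
  rw [e]
  exact G.S.add_mem (G.sm_mem _ h) hz

/-- products of congruences. -/
theorem cong_prod {ι : Type*} (s : Finset ι) (y z : ι → L)
    (hz : ∀ i ∈ s, z i ∈ G.S) (h : ∀ i ∈ s, G.Sm (y i - z i)) :
    G.Sm (∏ i ∈ s, y i - ∏ i ∈ s, z i) := by
  classical
  induction s using Finset.induction_on with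
  | empty =>
    simp only [Finset.prod_empty, sub_self]
    exact G.sm_zero
  | insert a s ha ih =>
    rw [Finset.prod_insert ha, Finset.prod_insert ha]
    have hy : y a ∈ G.S :=
      G.mem_of_cong (hz a (Finset.mem_insert_self a s)) (h a (Finset.mem_insert_self a s))
    refine G.cong_mul hy ?_ (h a (Finset.mem_insert_self a s))
      (ih (fun i hi => hz i (Finset.mem_insert_of_mem hi))
        (fun i hi => h i (Finset.mem_insert_of_mem hi)))
    exact G.S.prod_mem fun i hi => hz i (Finset.mem_insert_of_mem hi)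

/-- powers of congruences. -/
theorem cong_pow {y z : L} (hz : z ∈ G.S) (h : G.Sm (y - z)) (n : ℕ) :
    G.Sm (y ^ n - z ^ n) := by
  have := G.cong_prod (Finset.range n) (fun _ => y) (fun _ => z) (fun _ _ => hz) (fun _ _ => h)
  simpa using this

/-- cancellation of a unit. -/
theorem mem_of_mul_mem {y z : L} (hy : y ∈ G.S) (hy' : ¬ G.Sm y) (h : y * z ∈ G.S) :
    z ∈ G.S := by
  have hy0 : y ≠ 0 := by
    rintro rfl
    exact hy' G.sm_zero
  have e : z = y⁻¹ * (y * z) := by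
    rw [← mul_assoc, inv_mul_cancel₀ hy0, one_mul]
  rw [e]
  exact G.S.mul_mem (G.inv_mem y hy hy') h

theorem sm_of_mul_sm {y z : L} (hy : y ∈ G.S) (hy' : ¬ G.Sm y) (h : G.Sm (y * z)) :
    G.Sm z := by
  have hy0 : y ≠ 0 := by
    rintro rfl
    exact hy' G.sm_zero
  have e : z = y⁻¹ * (y * z) := by
    rw [← mul_assoc, inv_mul_cancel₀ hy0, one_mul]
  rw [e]
  exact G.sm_mul _ _ (G.inv_mem y hy hy') h

end H24Gauss

section Core

variable {L : Type*} [Field L] (G : H24Gauss L)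
  {F F' : Type*} [Field F] [Field F']

/-- **the transfer lemma.** -/
theorem h24c_core (B : Subring F) (B' : Subring F') (𝔫 : Ideal B) (h𝔫 : 𝔫.IsPrime)
    (𝔫' : Ideal B') (φ : F' →+* F) (hφ : ∀ b' : B', φ (b' : F') ∈ B)
    (E : F →+* L) (hB : ∀ b : B, E (b : F) ∈ G.S)
    (hcen : ∀ b : B, G.Sm (E (b : F)) → b ∈ 𝔫)
    (hund : ∀ b' : B', b' ∈ 𝔫' ↔ ∃ b : B, b ∈ 𝔫 ∧ (b : F) = φ (b' : F'))
    (x : F) (b₀ s₀ c₀ : B) (c₀' : B') (hc : (c₀ : F) = φ (c₀' : F'))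
    (hs₀ : s₀ ∉ 𝔫) (hsm : G.Sm (E ((s₀ : F) * x - (b₀ : F)))) (hval : b₀ - c₀ * s₀ ∈ 𝔫)
    (b₀' t₀ s₀' u₀ : B') (ht₀ : t₀ ∉ 𝔫') (hu₀ : u₀ ∉ 𝔫')
    (h1 : G.Sm (E (φ (t₀ : F') * (b₀ : F) - φ (b₀' : F'))))
    (h2 : G.Sm (E (φ (u₀ : F') * (s₀ : F) - φ (s₀' : F')))) :
    E x ∈ G.S ∧ ∃ b' s' : B', s' ∉ 𝔫' ∧
      G.Sm (E (φ (s' : F')) * E x - E (φ (b' : F'))) ∧ b' - c₀' * s' ∈ 𝔫' := by
  -- the images of `B'` in `B`
  set Φ : B' → B := fun b' => ⟨φ (b' : F'), hφ b'⟩ with hΦ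
  have hΦcoe : ∀ b' : B', ((Φ b' : B) : F) = φ (b' : F') := fun _ => rfl
  have hund' : ∀ b' : B', b' ∈ 𝔫' ↔ Φ b' ∈ 𝔫 := by
    intro b'
    rw [hund]
    constructor
    · rintro ⟨b, hb, hbe⟩
      have : b = Φ b' := Subtype.ext hbe
      rwa [← this]
    · intro h
      exact ⟨Φ b', h, rfl⟩
  -- `ε₁`, `ε₂ ∈ 𝔫`
  have hε₁ : Φ t₀ * b₀ - Φ b₀' ∈ 𝔫 := hcen _ (by
    have : ((Φ t₀ * b₀ - Φ b₀' : B) : F) = φ (t₀ : F') * (b₀ : F) - φ (b₀' : F') := by
      push_cast; rfl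
    rw [this]; exact h1)
  have hε₂ : Φ u₀ * s₀ - Φ s₀' ∈ 𝔫 := hcen _ (by
    have : ((Φ u₀ * s₀ - Φ s₀' : B) : F) = φ (u₀ : F') * (s₀ : F) - φ (s₀' : F') := by
      push_cast; rfl
    rw [this]; exact h2)
  have hΦt₀ : Φ t₀ ∉ 𝔫 := fun h => ht₀ ((hund' _).mpr h)
  have hΦu₀ : Φ u₀ ∉ 𝔫 := fun h => hu₀ ((hund' _).mpr h)
  -- `s₀' ∉ 𝔫'`
  have hs₀' : s₀' ∉ 𝔫' := by
    intro h
    have h3 : Φ s₀' ∈ 𝔫 := (hund' _).mp h
    have h4 : Φ u₀ * s₀ ∈ 𝔫 := by
      have : Φ u₀ * s₀ = (Φ u₀ * s₀ - Φ s₀') + Φ s₀' := by ring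
      rw [this]
      exact 𝔫.add_mem hε₂ h3
    rcases h𝔫.mem_or_mem h4 with h5 | h5
    · exact hΦu₀ h5
    · exact hs₀ h5
  -- `E x ∈ S`
  have hs₀sm : ¬ G.Sm (E (s₀ : F)) := fun h => hs₀ (hcen _ h)
  have hsx : E (s₀ : F) * E x ∈ G.S := by
    have : E (s₀ : F) * E x = E ((s₀ : F) * x - (b₀ : F)) + E (b₀ : F) := by
      rw [map_sub, map_mul]; ring
    rw [this]
    exact G.S.add_mem (G.sm_mem _ hsm) (hB b₀)
  have hx : E x ∈ G.S := G.mem_of_mul_mem (hB s₀) hs₀sm hsx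
  refine ⟨hx, u₀ * b₀', t₀ * s₀', ?_, ?_, ?_⟩
  · intro h
    have h3 : Φ t₀ * Φ s₀' ∈ 𝔫 := by
      have h4 := (hund' _).mp h
      have : Φ (t₀ * s₀') = Φ t₀ * Φ s₀' := Subtype.ext (by
        show φ ((t₀ * s₀' : B') : F') = φ (t₀ : F') * φ (s₀' : F')
        push_cast; rw [map_mul])
      rwa [this] at h4
    rcases h𝔫.mem_or_mem h3 with h5 | h5
    · exact hΦt₀ h5
    · exact hs₀' ((hund' _).mpr h5)
  · have e : E (φ ((t₀ * s₀' : B') : F')) * E x - E (φ ((u₀ * b₀' : B') : F'))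
        = E (φ (u₀ : F')) * E (φ (t₀ : F') * (b₀ : F) - φ (b₀' : F'))
          + E (φ (t₀ : F')) * E (φ (u₀ : F')) * E ((s₀ : F) * x - (b₀ : F))
          - E (φ (t₀ : F')) * E x * E (φ (u₀ : F') * (s₀ : F) - φ (s₀' : F')) := by
      push_cast
      simp only [map_sub, map_mul]
      ring
    rw [e]
    refine G.sm_sub (G.sm_add _ _ (G.sm_mul _ _ (hB (Φ u₀)) h1)
      (G.sm_mul _ _ (G.S.mul_mem (hB (Φ t₀)) (hB (Φ u₀))) hsm)) ?_
    exact G.sm_mul _ _ (G.S.mul_mem (hB (Φ t₀)) hx) h2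
  · rw [hund']
    have e : Φ (u₀ * b₀' - c₀' * (t₀ * s₀'))
        = -(Φ u₀ * (Φ t₀ * b₀ - Φ b₀')) + Φ u₀ * Φ t₀ * (b₀ - c₀ * s₀)
          + c₀ * Φ t₀ * (Φ u₀ * s₀ - Φ s₀') := by
      apply Subtype.ext
      show φ ((u₀ * b₀' - c₀' * (t₀ * s₀') : B') : F') = _
      push_cast
      simp only [hΦcoe, hc, map_sub, map_mul]
      ring
    rw [e]
    exact 𝔫.add_mem (𝔫.add_mem (𝔫.neg_mem (𝔫.mul_mem_left _ hε₁)) (𝔫.mul_mem_left _ hval))
      (𝔫.mul_mem_left _ hε₂)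

end Core

section Val

variable {R : Type*} [CommRing R]

/-- products of values. -/
theorem h24c_val_mul (I : Ideal R) {b s c b' s' c' : R}
    (h : b - c * s ∈ I) (h' : b' - c' * s' ∈ I) : b * b' - (c * c') * (s * s') ∈ I := by
  have e : b * b' - (c * c') * (s * s') = b * (b' - c' * s') + c' * s' * (b - c * s) := by ring
  rw [e]
  exact I.add_mem (I.mul_mem_left _ h') (I.mul_mem_left _ h)

theorem h24c_val_prod (I : Ideal R) {ι : Type*} (t : Finset ι) (b s : ι → R) (c : R)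
    (h : ∀ i ∈ t, b i - c * s i ∈ I) :
    ∏ i ∈ t, b i - c ^ t.card * ∏ i ∈ t, s i ∈ I := by
  classical
  induction t using Finset.induction_on with
  | empty => simp
  | insert a t ha ih =>
    rw [Finset.prod_insert ha, Finset.prod_insert ha, Finset.card_insert_of_notMem ha, pow_succ']
    exact h24c_val_mul I (h a (Finset.mem_insert_self a t))
      (ih fun i hi => h i (Finset.mem_insert_of_mem hi))

theorem h24c_val_pow (I : Ideal R) {b s c : R} (h : b - c * s ∈ I) (n : ℕ) :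
    b ^ n - c ^ n * s ^ n ∈ I := by
  have := h24c_val_prod I (Finset.range n) (fun _ => b) (fun _ => s) c (fun _ _ => h)
  simpa using this

end Val

end Fermat.Agent.S36
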