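import Fermat.Agent.S36.H11TorSkel
import Fermat.Agent.S36.H24TorCore
import Fermat.Agent.S36.H40NormA
import Fermat.Agent.S36.H93NormD
import Fermat.Agent.S36.H20Emb
import Fermat.Agent.S36.H83EmbGal
import Fermat.Agent.LGC.H55Kron
import Fermat.Agent.LGC.Fin71Inst

/-!
# S36, block TOR, row T-NORM-A (helper24, prefix `h24t_` / `H24Tor`)

Target: `H11TorNormA` (frozen in `S36/H11TorSkel.lean`).

* `h24t_G A` : the Gauss structure (`H24Gauss`, `S36/H24TorCore.lean`) of `softOT A`;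
  `h11l_Small A E x ↔ (h24t_G A).Sm (E x)` by `Iff.rfl`.
* `H24TorGenA` (frozen interface, = (TN2) of finding #1065 along `α`, in the vocabulary of
  `H11TorSkel`): at a supersingular point `𝔫` with node `𝔫a = α⁻¹ 𝔫`
  * the three branches `E20`, `E11^ζ`, `E02` are centred at `𝔫`;
  * separable generation along `E20`, `E11^ζ`: every `b ∈ B` is congruent along `E` to
    `α (b' / s')`, `b', s' ∈ B'`, `s' ∉ 𝔫a`;
  * inseparable generation along `E02`: `b ^ q` is congruent along `E02` to `α (b' / s')`.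
* `h24t_normA : H11TorBasic → H24TorGenA → H11TorNormA`, from the landed exact norm formulas
  `h40na_normA`, `h93n_normD`, the embeddings `h20n_embExists` and the twist lemma
  `h55k_twist_root`.
-/

set_option autoImplicit false
set_option linter.unusedSectionVars false
set_option linter.style.haveILetI false

open AlgebraicCurve ModularCurve

noncomputable section

namespace Fermat.Agent.S36

open Fermat.Agent.S37 (Kbar GQ FF cst jB gal modelAt degen auxLevel)
open Fermat.Agent.Red.KR (normAlong)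
open Fermat.Agent.Red.Kron (kFricke twistK)
open Fermat.Agent.Red.GV.Soft (softOT softRedT)

/-! ## The Gauss structure of `softOT` -/

/-- the Gauss structure of `softOT A`. -/
def h24t_G (A : ValuationSubring Kbar) : H24Gauss (LaurentSeries Kbar) where
  S := softOT A (IsLocalRing.residue A)
  Sm y := ∃ h : y ∈ softOT A (IsLocalRing.residue A),
    softRedT A (IsLocalRing.residue A) ⟨y, h⟩ = 0
  sm_mem := fun _ h => h.1
  sm_zero := ⟨zero_mem _, map_zero _⟩
  sm_add := fun y z ⟨hy, hy'⟩ ⟨hz, hz'⟩ => ⟨add_mem hy hz, by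
    have e : (⟨y + z, add_mem hy hz⟩ : softOT A (IsLocalRing.residue A)) = ⟨y, hy⟩ + ⟨z, hz⟩ := rfl
    rw [e, map_add, hy', hz', add_zero]⟩
  sm_neg := fun y ⟨hy, hy'⟩ => ⟨neg_mem hy, by
    have e : (⟨-y, neg_mem hy⟩ : softOT A (IsLocalRing.residue A)) = -⟨y, hy⟩ := rfl
    rw [e, map_neg, hy', neg_zero]⟩
  sm_mul := fun y z hy ⟨hz, hz'⟩ => ⟨mul_mem hy hz, by
    have e : (⟨y * z, mul_mem hy hz⟩ : softOT A (IsLocalRing.residue A)) = ⟨y, hy⟩ * ⟨z, hz⟩ := rfl
    rw [e, map_mul, hz', mul_zero]⟩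
  inv_mem := fun y hy hsm =>
    ((Fermat.Agent.Red.GV.Soft.softRedT_ne_zero_iff
      (⟨y, hy⟩ : softOT A (IsLocalRing.residue A))).mp (fun h => hsm ⟨hy, h⟩)).2
  not_sm_one := fun ⟨h, h'⟩ => by
    have e : (⟨1, h⟩ : softOT A (IsLocalRing.residue A)) = 1 := rfl
    rw [e, map_one] at h'
    exact one_ne_zero h'

theorem h24t_small_iff (A : ValuationSubring Kbar) {N : ℕ} (E : FF N →+* LaurentSeries Kbar)
    (x : FF N) : h11l_Small A E x ↔ (h24t_G A).Sm (E x) := Iff.rfl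

theorem h24t_S_eq (A : ValuationSubring Kbar) :
    (h24t_G A).S = softOT A (IsLocalRing.residue A) := rfl

/-! ## The interface (TN2) along `α` -/

/-- **(TN2) along `α`** at the supersingular points: centredness of the three branches and
generation of the branches of level `M q q` by the branches of level `M q`. -/
def H24TorGenA : Prop :=
  ∀ (q : ℕ) (hq : q.Prime) (M : ℕ) [NeZero M] (hqM : ¬ q ∣ M), auxLevel q ∣ M →
    haveI : NeZero q := ⟨hq.ne_zero⟩
    ∀ A : ValuationSubring Kbar, A.LiesOverPrime q →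
    ∀ 𝔫 : Ideal (h92c_Chart A (M * q * q) (jB (M * q * q))), h11t_IsSS A M q 𝔫 →
    ∀ 𝔫a, h11t_NodeUnder A M q hq hqM (heckeAlphaBar Kbar (M * q) q) 𝔫a 𝔫 →
      (∀ E : FF (M * q * q) →+* LaurentSeries Kbar, h11l_IsVE M q hq hqM E →
        h11l_Centred A (jB (M * q * q)) 𝔫 E) ∧
      (∀ E : FF (M * q * q) →+* LaurentSeries Kbar,
        (E = h20n_E20 M q ∨ ∃ ζ : Kbar, IsPrimitiveRoot ζ q ∧ h20n_IsE11 M q hq hqM ζ E) →
        ∀ b : h92c_Chart A (M * q * q) (jB (M * q * q)),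
          ∃ b' s' : h92c_Chart A (M * q) (jB (M * q)), s' ∉ 𝔫a ∧
            h11l_Small A E (heckeAlphaBar Kbar (M * q) q (s' : FF (M * q)) * (b : FF (M * q * q))
              - heckeAlphaBar Kbar (M * q) q (b' : FF (M * q)))) ∧
      (∀ E : FF (M * q * q) →+* LaurentSeries Kbar, h20n_IsE02 M q hq hqM E →
        ∀ b : h92c_Chart A (M * q * q) (jB (M * q * q)),
          ∃ b' s' : h92c_Chart A (M * q) (jB (M * q)), s' ∉ 𝔫a ∧
            h11l_Small A E
              (heckeAlphaBar Kbar (M * q) q (s' : FF (M * q)) * (b : FF (M * q * q)) ^ q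
              - heckeAlphaBar Kbar (M * q) q (b' : FF (M * q))))

/-! ## Preliminaries -/

section Prelim

variable (A : ValuationSubring Kbar) (M q : ℕ) [NeZero M] [NeZero q]

/-- `α` maps the chart of level `M q` into the chart of level `M q q`. -/
theorem h24t_alpha_mem (x : FF (M * q)) (hx : x ∈ h92c_Chart A (M * q) (jB (M * q))) :
    heckeAlphaBar Kbar (M * q) q x ∈ h92c_Chart A (M * q * q) (jB (M * q * q)) := by
  refine ⟨?_, ?_⟩
  · have h := Fermat.Agent.Red.KR.map_mem_modelAt (heckeAlphaBar Kbar (M * q) q) A hx.1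
    rwa [← Fermat.Agent.LGC.h71i_jB_eq] at h
  · intro σ hσ
    show gal (M * q * q) σ • _ = _
    rw [h83g_gal_alpha]
    exact congrArg _ (hx.2 σ hσ)

theorem h24t_alpha_cst (a : Kbar) :
    heckeAlphaBar Kbar (M * q) q (cst (M * q) a) = cst (M * q * q) a :=
  (heckeAlphaBar Kbar (M * q) q).commutes a

theorem h24t_E20_alpha (y : FF (M * q)) :
    h20n_E20 M q (heckeAlphaBar Kbar (M * q) q y) = h11t_Einf M q y := by
  show ((heckeAlphaBar Kbar (M * q) q y : FF (M * q * q)) : LaurentSeries Kbar) = _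
  rw [coe_heckeAlphaBar]
  rfl

theorem h24t_E11_alpha (hq : q.Prime) (hqM : ¬ q ∣ M) (ζ : Kbar)
    (E : FF (M * q * q) →+* LaurentSeries Kbar) (hE : h20n_IsE11 M q hq hqM ζ E)
    (y : FF (M * q)) :
    E (heckeAlphaBar Kbar (M * q) q y) = h11t_Einf M q y := hE.1 y

theorem h24t_E02_alpha (hq : q.Prime) (hqM : ¬ q ∣ M)
    (E : FF (M * q * q) →+* LaurentSeries Kbar) (hE : h20n_IsE02 M q hq hqM E)
    (y : FF (M * q)) :
    E (heckeAlphaBar Kbar (M * q) q y) = qExpand Kbar q (h11t_Ezero M q hq hqM y) := hE.1 y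

end Prelim

/-! ## Reflection along `t ↦ t ^ n` and twists -/

section Reflect

variable (A : ValuationSubring Kbar) {q : ℕ}

/-- a function whose expansion in `t ^ n` is Gauss-small is Gauss-small. -/
theorem h24t_reflect (hq : q.Prime) (hA : A.LiesOverPrime q) (N : ℕ) (n : ℕ) [NeZero n]
    (y : FF N) (h : (h24t_G A).Sm (qExpand Kbar n (y : LaurentSeries Kbar))) :
    (h24t_G A).Sm (y : LaurentSeries Kbar) := by
  obtain ⟨hmem, hred⟩ := h
  rcases Fermat.Agent.Red.GV.Soft.mem_or_inv_mem_softV A N hq hA y with h1 | h1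
  · have h1' : (y : LaurentSeries Kbar) ∈ softOT A (IsLocalRing.residue A) := h1
    refine ⟨h1', ?_⟩
    have h2 := Fermat.Agent.Red.GV.Soft.softRedT_qExpand A (IsLocalRing.residue A) n
      (⟨(y : LaurentSeries Kbar), h1'⟩ : softOT A (IsLocalRing.residue A)) hmem
    rw [hred] at h2
    have h3 : qExpand (IsLocalRing.ResidueField A) n
        (softRedT A (IsLocalRing.residue A) ⟨(y : LaurentSeries Kbar), h1'⟩) =
        qExpand (IsLocalRing.ResidueField A) n 0 := by rw [← h2, map_zero]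
    exact (qExpand (IsLocalRing.ResidueField A) n).injective h3
  · by_contra hcon
    have hyS : (y : LaurentSeries Kbar) ∉ softOT A (IsLocalRing.residue A) := by
      intro h2
      apply hcon
      refine ⟨h2, ?_⟩
      have h3 := Fermat.Agent.Red.GV.Soft.softRedT_qExpand A (IsLocalRing.residue A) n
        (⟨(y : LaurentSeries Kbar), h2⟩ : softOT A (IsLocalRing.residue A)) hmem
      rw [hred] at h3
      have h4 : qExpand (IsLocalRing.ResidueField A) n
          (softRedT A (IsLocalRing.residue A) ⟨(y : LaurentSeries Kbar), h2⟩) =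
          qExpand (IsLocalRing.ResidueField A) n 0 := by rw [← h3, map_zero]
      exact (qExpand (IsLocalRing.ResidueField A) n).injective h4
    have h1' : (y : LaurentSeries Kbar)⁻¹ ∈ softOT A (IsLocalRing.residue A) := by
      have : ((y⁻¹ : FF N) : LaurentSeries Kbar) ∈ softOT A (IsLocalRing.residue A) := h1
      simpa using this
    have hsm : (h24t_G A).Sm (y : LaurentSeries Kbar)⁻¹ := by
      by_contra hns
      have := (h24t_G A).inv_mem _ h1' hns
      rw [inv_inv] at this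
      exact hyS this
    have hsm' : (h24t_G A).Sm (qExpand Kbar n (y : LaurentSeries Kbar)⁻¹) := by
      obtain ⟨hm, hr⟩ := hsm
      have hm' := Fermat.Agent.Red.GV.Soft.mem_softOT_qExpand A (IsLocalRing.residue A) n hm
      refine ⟨hm', ?_⟩
      rw [Fermat.Agent.Red.GV.Soft.softRedT_qExpand A (IsLocalRing.residue A) n
        (⟨_, hm⟩ : softOT A (IsLocalRing.residue A)) hm', hr, map_zero]
    have hy0 : (y : LaurentSeries Kbar) ≠ 0 := by
      intro h0
      apply hyS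
      rw [h0]
      exact zero_mem _
    have hone := (h24t_G A).sm_mul _ _ hmem hsm'
    rw [← map_mul, mul_inv_cancel₀ hy0, map_one] at hone
    exact (h24t_G A).not_sm_one hone

/-- twisting by a `q`-th root of unity does not change the reduction. -/
theorem h24t_twist (hq : q.Prime) (hA : A.LiesOverPrime q) {ω : Kbar} (hω : ω ^ q = 1)
    {y : LaurentSeries Kbar} (hy : y ∈ (h24t_G A).S) :
    (h24t_G A).Sm (twistK ω y - y) := by
  obtain ⟨h, hr⟩ := Fermat.Agent.LGC.h55k_twist_root A hq hA hω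
    (⟨y, hy⟩ : softOT A (IsLocalRing.residue A))
  refine ⟨sub_mem h hy, ?_⟩
  have e : (⟨twistK ω y - y, sub_mem h hy⟩ : softOT A (IsLocalRing.residue A))
      = ⟨twistK ω y, h⟩ - ⟨y, hy⟩ := rfl
  rw [e, map_sub, hr, sub_self]

end Reflect

/-! ## The branch norm formula along `α` -/

/-- **T-NORM-α** from (TN2) along `α` and the base facts. -/
theorem h24t_normA (hBas : H11TorBasic) (hGen : H24TorGenA) : H11TorNormA := by
  classical
  intro q hq M _ hqM haux
  haveI : NeZero q := ⟨hq.ne_zero⟩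
  intro A hA 𝔫 hSS 𝔫a hNode x hx a₀ a₁ a₂ ha₀ ha₁ ha₂ hBV
  obtain ⟨hcst, hint2, hint1, -, -, -⟩ := hBas q hq M hqM haux A hA
  obtain ⟨hcen, hsep, hinsep⟩ := hGen q hq M hqM haux A hA 𝔫 hSS 𝔫a hNode
  obtain ⟨h𝔫amax, hund, hcinf, hczero⟩ := hNode
  have h𝔫 : 𝔫.IsPrime := hSS.1.isPrime
  have h𝔫a : 𝔫a.IsPrime := h𝔫amax.isPrime
  let φ : FF (M * q) →+* FF (M * q * q) :=
    ((heckeAlphaBar Kbar (M * q) q : FF (M * q) →ₐ[Kbar] FF (M * q * q)) :
      FF (M * q) →+* FF (M * q * q))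
  have hφ : ∀ b' : h92c_Chart A (M * q) (jB (M * q)),
      φ (b' : FF (M * q)) ∈ h92c_Chart A (M * q * q) (jB (M * q * q)) :=
    fun b' => h24t_alpha_mem A M q _ b'.2
  -- constants
  have hcst' : ∀ a : Kbar, h11t_IsC A a →
      cst (M * q) a ∈ h92c_Chart A (M * q) (jB (M * q)) :=
    fun a ha => (hcst a ha.2.1 ha.2.2.2).2
  -- the separable / inseparable step
  have step : ∀ (E : FF (M * q * q) →+* LaurentSeries Kbar), h11l_IsVE M q hq hqM E →
      ∀ (y : FF (M * q * q)) (b₀ s₀ c₀ : h92c_Chart A (M * q * q) (jB (M * q * q)))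
        (c₀' : h92c_Chart A (M * q) (jB (M * q))),
        (c₀ : FF (M * q * q)) = φ (c₀' : FF (M * q)) → s₀ ∉ 𝔫 →
        (h24t_G A).Sm (E ((s₀ : FF (M * q * q)) * y - (b₀ : FF (M * q * q)))) →
        b₀ - c₀ * s₀ ∈ 𝔫 →
        (∃ b' s' : h92c_Chart A (M * q) (jB (M * q)), s' ∉ 𝔫a ∧
          (h24t_G A).Sm (E (φ (s' : FF (M * q)) * (b₀ : FF (M * q * q))
            - φ (b' : FF (M * q))))) →
        (∃ b' s' : h92c_Chart A (M * q) (jB (M * q)), s' ∉ 𝔫a ∧
          (h24t_G A).Sm (E (φ (s' : FF (M * q)) * (s₀ : FF (M * q * q))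
            - φ (b' : FF (M * q))))) →
        E y ∈ (h24t_G A).S ∧ ∃ b' s' : h92c_Chart A (M * q) (jB (M * q)), s' ∉ 𝔫a ∧
          (h24t_G A).Sm (E (φ (s' : FF (M * q))) * E y - E (φ (b' : FF (M * q)))) ∧
          b' - c₀' * s' ∈ 𝔫a := by
    intro E hVE y b₀ s₀ c₀ c₀' hc hs₀ hsm hval ⟨b₀', t₀, ht₀, h1⟩ ⟨s₀', u₀, hu₀, h2⟩
    exact h24c_core (h24t_G A) _ _ 𝔫 h𝔫 𝔫a φ hφ E (fun b => hint2 _ b.2 E hVE)
      (fun b hb => hcen E hVE b hb) hund y b₀ s₀ c₀ c₀' hc hs₀ hsm hval b₀' t₀ s₀' u₀ ht₀ hu₀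
      h1 h2
  obtain ⟨ζ, hζ⟩ := HasEnoughRootsOfUnity.exists_primitiveRoot Kbar q
  refine ⟨?_, ?_⟩
  · -- the branch `C_∞`
    have hprim : ∀ b : ℕ, 0 < b → b < q → IsPrimitiveRoot (ζ ^ b) q := fun b h1 h2 =>
      hζ.pow_of_coprime b
        (hq.coprime_iff_not_dvd.mpr (Nat.not_dvd_of_pos_of_lt h1 h2)).symm
    have hEex : ∀ b : ℕ, ∃ E : FF (M * q * q) →+* LaurentSeries Kbar,
        0 < b → b < q → h20n_IsE11 M q hq hqM (ζ ^ b) E := by
      intro b
      by_cases hb : 0 < b ∧ b < q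
      · obtain ⟨E, hE⟩ := (h20n_embExists q hq M hqM).1 (ζ ^ b)
          ((hprim b hb.1 hb.2).pow_eq_one) ((hprim b hb.1 hb.2).ne_one hq.one_lt)
        exact ⟨E, fun _ _ => hE⟩
      · exact ⟨h20n_E20 M q, fun h1 h2 => absurd ⟨h1, h2⟩ hb⟩
    choose Eb hEb using hEex
    have hnorm := h40na_normA q hq M hqM ζ hζ Eb hEb x
    -- the branch `E20`
    obtain ⟨c0, hc0, b0, s0, hs0, hsm0, hval0⟩ := hBV.1
    obtain ⟨hx0, b0', s0', hs0', hsm0', hval0'⟩ :=
      step (h20n_E20 M q) (Or.inl rfl) x b0 s0 c0 ⟨cst (M * q) a₀, hcst' a₀ ha₀⟩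
        (by rw [hc0]; exact (h24t_alpha_cst M q a₀).symm) hs0 hsm0 hval0
        (hsep _ (Or.inl rfl) b0) (hsep _ (Or.inl rfl) s0)
    -- the branches `E11`
    have hb : ∀ b : ℕ, ∃ b' s' : h92c_Chart A (M * q) (jB (M * q)), 0 < b → b < q →
        Eb b x ∈ (h24t_G A).S ∧ s' ∉ 𝔫a ∧
          (h24t_G A).Sm (h11t_Einf M q (s' : FF (M * q)) * Eb b x
            - h11t_Einf M q (b' : FF (M * q))) ∧
          b' - ⟨cst (M * q) a₁, hcst' a₁ ha₁⟩ * s' ∈ 𝔫a := by
      intro b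
      by_cases hb : 0 < b ∧ b < q
      · have hVE : h11l_IsVE M q hq hqM (Eb b) :=
          Or.inr (Or.inl ⟨ζ ^ b, hprim b hb.1 hb.2, hEb b hb.1 hb.2⟩)
        obtain ⟨c1, hc1, b1, s1, hs1, hsm1, hval1⟩ :=
          hBV.2.1 (ζ ^ b) (Eb b) (hprim b hb.1 hb.2) (hEb b hb.1 hb.2)
        obtain ⟨hx1, b1', s1', hs1', hsm1', hval1'⟩ :=
          step (Eb b) hVE x b1 s1 c1 ⟨cst (M * q) a₁, hcst' a₁ ha₁⟩
            (by rw [hc1]; exact (h24t_alpha_cst M q a₁).symm) hs1 hsm1 hval1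
            (hsep _ (Or.inr ⟨ζ ^ b, hprim b hb.1 hb.2, hEb b hb.1 hb.2⟩) b1)
            (hsep _ (Or.inr ⟨ζ ^ b, hprim b hb.1 hb.2, hEb b hb.1 hb.2⟩) s1)
        refine ⟨b1', s1', fun _ _ => ⟨hx1, hs1', ?_, hval1'⟩⟩
        have e1 := h24t_E11_alpha M q hq hqM (ζ ^ b) (Eb b) (hEb b hb.1 hb.2)
        rw [← e1, ← e1]
        exact hsm1'
      · exact ⟨0, 0, fun h1 h2 => absurd ⟨h1, h2⟩ hb⟩
    choose bf sf hbf using hb
    have hIoo : ∀ b ∈ Finset.Ioo 0 q, 0 < b ∧ b < q := fun b hb => Finset.mem_Ioo.mp hb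
    refine ⟨⟨cst (M * q) (a₀ * a₁ ^ (q - 1)), ?_⟩, rfl, b0' * ∏ b ∈ Finset.Ioo 0 q, bf b,
      s0' * ∏ b ∈ Finset.Ioo 0 q, sf b, ?_, ?_, ?_⟩
    · have : cst (M * q) (a₀ * a₁ ^ (q - 1)) = cst (M * q) a₀ * cst (M * q) a₁ ^ (q - 1) := by
        show algebraMap Kbar (FF (M * q)) _ = algebraMap Kbar (FF (M * q)) _ *
          algebraMap Kbar (FF (M * q)) _ ^ (q - 1)
        rw [map_mul, map_pow]
      rw [this]
      exact mul_mem (hcst' a₀ ha₀) (pow_mem (hcst' a₁ ha₁) _)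
    · intro h
      rcases h𝔫a.mem_or_mem h with h1 | h1
      · exact hs0' h1
      · obtain ⟨b, hb, hb'⟩ := (Ideal.IsPrime.prod_mem_iff).mp h1
        exact (hbf b (hIoo b hb).1 (hIoo b hb).2).2.1 hb'
    · show (h24t_G A).Sm _
      have e20 : ∀ y : FF (M * q), h20n_E20 M q (φ y) = h11t_Einf M q y :=
        fun y => h24t_E20_alpha M q y
      have hn : h11t_Einf M q (normAlong (heckeAlphaBar Kbar (M * q) q) x)
          = h20n_E20 M q x * ∏ b ∈ Finset.Ioo 0 q, Eb b x := hnorm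
      have e : h11t_Einf M q
          (((s0' * ∏ b ∈ Finset.Ioo 0 q, sf b : h92c_Chart A (M * q) (jB (M * q))) :
              FF (M * q)) * normAlong (heckeAlphaBar Kbar (M * q) q) x
            - ((b0' * ∏ b ∈ Finset.Ioo 0 q, bf b : h92c_Chart A (M * q) (jB (M * q))) :
              FF (M * q)))
          = (h11t_Einf M q (s0' : FF (M * q)) * h20n_E20 M q x) *
              ∏ b ∈ Finset.Ioo 0 q, (h11t_Einf M q (sf b : FF (M * q)) * Eb b x)
            - h11t_Einf M q (b0' : FF (M * q)) *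
              ∏ b ∈ Finset.Ioo 0 q, h11t_Einf M q (bf b : FF (M * q)) := by
        rw [map_sub, map_mul, hn]
        push_cast
        rw [map_mul, map_mul, map_prod, map_prod, Finset.prod_mul_distrib]
        ring
      rw [e]
      refine (h24t_G A).cong_mul ?_ ?_ ?_ ?_
      · exact mul_mem (hint1 _ s0'.2).1 hx0
      · exact Subring.prod_mem _ fun b _ => (hint1 _ (bf b).2).1
      · rw [← e20, ← e20]
        exact hsm0'
      · exact (h24t_G A).cong_prod _ _ _ (fun b _ => (hint1 _ (bf b).2).1)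
          (fun b hb => (hbf b (hIoo b hb).1 (hIoo b hb).2).2.2.1)
    · have h1 := h24c_val_prod 𝔫a (Finset.Ioo 0 q) bf sf ⟨cst (M * q) a₁, hcst' a₁ ha₁⟩
        (fun b hb => (hbf b (hIoo b hb).1 (hIoo b hb).2).2.2.2)
      have h2 := h24c_val_mul 𝔫a hval0' h1
      have hcard : (Finset.Ioo 0 q).card = q - 1 := by
        rw [Nat.card_Ioo]; omega
      rw [hcard] at h2
      have e : (⟨cst (M * q) (a₀ * a₁ ^ (q - 1)), by
            have : cst (M * q) (a₀ * a₁ ^ (q - 1))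
                = cst (M * q) a₀ * cst (M * q) a₁ ^ (q - 1) := by
              show algebraMap Kbar (FF (M * q)) _ = algebraMap Kbar (FF (M * q)) _ *
                algebraMap Kbar (FF (M * q)) _ ^ (q - 1)
              rw [map_mul, map_pow]
            rw [this]
            exact mul_mem (hcst' a₀ ha₀) (pow_mem (hcst' a₁ ha₁) _)⟩ :
            h92c_Chart A (M * q) (jB (M * q)))
          = ⟨cst (M * q) a₀, hcst' a₀ ha₀⟩ * ⟨cst (M * q) a₁, hcst' a₁ ha₁⟩ ^ (q - 1) := by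
        apply Subtype.ext
        show algebraMap Kbar (FF (M * q)) _ = algebraMap Kbar (FF (M * q)) _ *
          algebraMap Kbar (FF (M * q)) _ ^ (q - 1)
        rw [map_mul, map_pow]
      rw [e]
      exact h2
  · -- the branch `C_0`
    obtain ⟨E0, hE0⟩ := (h20n_embExists q hq M hqM).2
    have hVE : h11l_IsVE M q hq hqM E0 := Or.inr (Or.inr hE0)
    have hnormD := h93n_normD q hq M hqM ζ hζ E0 hE0 x
    obtain ⟨c2, hc2, b2, s2, hs2, hsm2, hval2⟩ := hBV.2.2 E0 hE0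
    have hs2sm : ¬ (h24t_G A).Sm (E0 (s2 : FF (M * q * q))) := fun h => hs2 (hcen E0 hVE s2 h)
    have hb2S : E0 (b2 : FF (M * q * q)) ∈ (h24t_G A).S := hint2 _ b2.2 E0 hVE
    have hs2S : E0 (s2 : FF (M * q * q)) ∈ (h24t_G A).S := hint2 _ s2.2 E0 hVE
    have hsm2' : (h24t_G A).Sm (E0 (s2 : FF (M * q * q)) * E0 x - E0 (b2 : FF (M * q * q))) := by
      rw [← map_mul, ← map_sub]
      exact hsm2
    have hsxS : E0 (s2 : FF (M * q * q)) * E0 x ∈ (h24t_G A).S :=
      (h24t_G A).mem_of_cong hb2S hsm2'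
    have hxS : E0 x ∈ (h24t_G A).S := (h24t_G A).mem_of_mul_mem hs2S hs2sm hsxS
    -- the `q`-th powers
    have hsmq : (h24t_G A).Sm (E0 (((s2 ^ q : h92c_Chart A (M * q * q) (jB (M * q * q))) :
        FF (M * q * q)) * x ^ q
        - ((b2 ^ q : h92c_Chart A (M * q * q) (jB (M * q * q))) : FF (M * q * q)))) := by
      have h1 := (h24t_G A).cong_pow hb2S hsm2' q
      have e : E0 (((s2 ^ q : h92c_Chart A (M * q * q) (jB (M * q * q))) :
          FF (M * q * q)) * x ^ q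
          - ((b2 ^ q : h92c_Chart A (M * q * q) (jB (M * q * q))) : FF (M * q * q)))
          = (E0 (s2 : FF (M * q * q)) * E0 x) ^ q - E0 (b2 : FF (M * q * q)) ^ q := by
        push_cast
        rw [map_sub, map_mul, map_pow, map_pow, map_pow, mul_pow]
      rw [e]
      exact h1
    have hvalq : b2 ^ q - c2 ^ q * s2 ^ q ∈ 𝔫 := h24c_val_pow 𝔫 hval2 q
    have hsq : s2 ^ q ∉ 𝔫 := fun h => hs2 (h𝔫.mem_of_pow_mem q h)
    have hcq : cst (M * q) (a₂ ^ q) ∈ h92c_Chart A (M * q) (jB (M * q)) := by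
      have : cst (M * q) (a₂ ^ q) = cst (M * q) a₂ ^ q := by
        show algebraMap Kbar (FF (M * q)) _ = algebraMap Kbar (FF (M * q)) _ ^ q
        rw [map_pow]
      rw [this]
      exact pow_mem (hcst' a₂ ha₂) _
    have hcc : ((c2 ^ q : h92c_Chart A (M * q * q) (jB (M * q * q))) : FF (M * q * q))
        = φ ((⟨cst (M * q) (a₂ ^ q), hcq⟩ : h92c_Chart A (M * q) (jB (M * q))) :
          FF (M * q)) := by
      show (c2 : FF (M * q * q)) ^ q = heckeAlphaBar Kbar (M * q) q (cst (M * q) (a₂ ^ q))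
      rw [hc2, h24t_alpha_cst]
      show algebraMap Kbar (FF (M * q * q)) _ ^ q = algebraMap Kbar (FF (M * q * q)) _
      rw [map_pow]
    obtain ⟨-, b', s', hs', hsm', hval'⟩ := step E0 hVE (x ^ q) (b2 ^ q) (s2 ^ q) (c2 ^ q)
      ⟨cst (M * q) (a₂ ^ q), hcq⟩ hcc hsq hsmq hvalq
      (by obtain ⟨b', s', hs', h⟩ := hinsep E0 hE0 b2; exact ⟨b', s', hs', h⟩)
      (by obtain ⟨b', s', hs', h⟩ := hinsep E0 hE0 s2; exact ⟨b', s', hs', h⟩)
    refine ⟨⟨cst (M * q) (a₂ ^ q), hcq⟩, rfl, b', s', hs', ?_, hval'⟩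
    show (h24t_G A).Sm _
    have e02 : ∀ y : FF (M * q), E0 (φ y) = qExpand Kbar q (h11t_Ezero M q hq hqM y) :=
      fun y => h24t_E02_alpha M q hq hqM E0 hE0 y
    have hnD : qExpand Kbar q (h11t_Ezero M q hq hqM
        (normAlong (heckeAlphaBar Kbar (M * q) q) x))
        = ∏ b ∈ Finset.range q, twistK (ζ ^ b) (E0 x) := hnormD
    have htw : (h24t_G A).Sm (∏ b ∈ Finset.range q, twistK (ζ ^ b) (E0 x)
        - ∏ _b ∈ Finset.range q, E0 x) := by
      refine (h24t_G A).cong_prod (Finset.range q) (fun b => twistK (ζ ^ b) (E0 x))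
        (fun _ => E0 x) (fun _ _ => hxS) (fun b _ => ?_)
      refine h24t_twist A hq hA ?_ hxS
      rw [← pow_mul, mul_comm, pow_mul, hζ.pow_eq_one, one_pow]
    rw [Finset.prod_const, Finset.card_range] at htw
    have hS' : qExpand Kbar q (h11t_Ezero M q hq hqM (s' : FF (M * q))) ∈ (h24t_G A).S :=
      Fermat.Agent.Red.GV.Soft.mem_softOT_qExpand A (IsLocalRing.residue A) q
        (hint1 _ s'.2).2
    have key : (h24t_G A).Sm (qExpand Kbar q (h11t_Ezero M q hq hqM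
        ((s' : FF (M * q)) * normAlong (heckeAlphaBar Kbar (M * q) q) x
          - (b' : FF (M * q))))) := by
      have e : qExpand Kbar q (h11t_Ezero M q hq hqM
          ((s' : FF (M * q)) * normAlong (heckeAlphaBar Kbar (M * q) q) x
            - (b' : FF (M * q))))
          = qExpand Kbar q (h11t_Ezero M q hq hqM (s' : FF (M * q))) *
              (∏ b ∈ Finset.range q, twistK (ζ ^ b) (E0 x) - E0 x ^ q)
            + (E0 (φ (s' : FF (M * q))) * E0 (x ^ q) - E0 (φ (b' : FF (M * q)))) := by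
        rw [map_sub, map_mul, map_sub, map_mul, hnD, e02, e02, map_pow]
        ring
      rw [e]
      exact (h24t_G A).sm_add _ _ ((h24t_G A).sm_mul _ _ hS' htw) hsm'
    exact h24t_reflect A hq hA (M * q) q _ key

end Fermat.Agent.S36
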