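import Mathlib

/-!
# S36, row L-GLUE-DICT (helper25): a prime of a chart lies in the centre of a valuation, abstract
form

`B` a commutative ring with an injective map `ι` to a field `K`, `O k` (`k ∈ κ` finite, nonempty)
valuation subrings of `K` of rank one containing `ι B`, `P ≤ 𝔫` nonzero primes of `B`.  Assume
that every `v ∈ ⋂ O k` has a denominator in `B ∖ P` (`hden`: "`⋂ O k ⊆ B_P`").  Then `P` is
contained in the centre on `B` of some `O k` whose centre is contained in `𝔫`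
(`h25d_centre`).

Proof: otherwise prime avoidance gives `0 ≠ x ∈ P`, a unit at all the `O k` centred in `𝔫`; at
the other `O k` choose `c_k ∈ B ∖ 𝔫` in the centre; then `v = ∏ c_k ^ n_k / x ∈ ⋂ O k` (rank
one), and `s v ∈ B` with `s ∉ P` gives `s ∏ c_k ^ n_k ∈ x B ⊆ P`, a contradiction.

Mathlib only.
-/

set_option autoImplicit false

namespace Fermat.Agent.S36

theorem h25d_centre {B K : Type*} [CommRing B] [Field K] (ι : B →+* K)
    (hι : Function.Injective ι) {κ : Type*} [Fintype κ] [Nonempty κ]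
    (O : κ → ValuationSubring K) (hBO : ∀ k (b : B), ι b ∈ O k)
    (harch : ∀ k, ∀ x ∈ (O k).nonunits, ∀ y : K, y ≠ 0 →
      ∃ n : ℕ, x ^ n / y ∈ (O k).nonunits)
    (𝔫 P : Ideal B) [h𝔫 : 𝔫.IsPrime] [hP : P.IsPrime] (hP𝔫 : P ≤ 𝔫) (hP0 : P ≠ ⊥)
    (hden : ∀ v : K, (∀ k, v ∈ O k) → ∃ s : B, s ∉ P ∧ ∃ b : B, ι s * v = ι b) :
    ∃ k, (∀ b : B, ι b ∈ (O k).nonunits → b ∈ 𝔫) ∧ (∀ b ∈ P, ι b ∈ (O k).nonunits) := by
  classical
  by_contra hcon
  push Not at hcon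
  -- the centres
  let φ : ∀ k, B →+* (O k) := fun k => ι.codRestrict (O k) (hBO k)
  let Pc : κ → Ideal B := fun k => (IsLocalRing.maximalIdeal (O k)).comap (φ k)
  have hPc : ∀ k (b : B), b ∈ Pc k ↔ ι b ∈ (O k).nonunits := by
    intro k b
    rw [ValuationSubring.mem_nonunits_iff_exists_mem_maximalIdeal]
    constructor
    · intro h
      exact ⟨hBO k b, h⟩
    · rintro ⟨_, h⟩
      exact h
  have hPcprime : ∀ k, (Pc k).IsPrime := fun k => Ideal.comap_isPrime _ _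
  obtain ⟨k₀⟩ := ‹Nonempty κ›
  let s : Finset κ := Finset.univ.filter (fun k => ∀ b : B, ι b ∈ (O k).nonunits → b ∈ 𝔫)
  have hnot : ¬ ∃ k ∈ s, P ≤ Pc k := by
    rintro ⟨k, hk, hle⟩
    obtain ⟨b, hb, hb'⟩ := hcon k (Finset.mem_filter.mp hk).2
    exact hb' ((hPc k b).mp (hle hb))
  have hnot' : ¬ ((P : Set B) ⊆ ⋃ i ∈ (↑s : Set κ), (Pc i : Set B)) := by
    rw [Ideal.subset_union_prime k₀ k₀ (fun i _ _ _ => hPcprime i)]
    exact hnot
  obtain ⟨x₁, hx₁P, hx₁⟩ := Set.not_subset.mp hnot'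
  have hx₁' : ∀ k, (∀ b : B, ι b ∈ (O k).nonunits → b ∈ 𝔫) → ι x₁ ∉ (O k).nonunits := by
    intro k hk hmem
    apply hx₁
    rw [Set.mem_iUnion₂]
    exact ⟨k, Finset.mem_coe.mpr (Finset.mem_filter.mpr ⟨Finset.mem_univ _, hk⟩),
      (hPc k x₁).mpr hmem⟩
  -- a nonzero `x ∈ P`, unit at the centred valuations
  obtain ⟨x, hxP, hx0, hx⟩ : ∃ x ∈ P, x ≠ 0 ∧
      ∀ k, (∀ b : B, ι b ∈ (O k).nonunits → b ∈ 𝔫) → ι x ∉ (O k).nonunits := by
    by_cases h0 : x₁ = 0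
    · obtain ⟨x', hx'P, hx'0⟩ := Submodule.exists_mem_ne_zero_of_ne_bot hP0
      refine ⟨x', hx'P, hx'0, fun k hk => ?_⟩
      exfalso
      apply hx₁' k hk
      rw [h0, map_zero, ValuationSubring.mem_nonunits_iff, map_zero]
      exact zero_lt_one
    · exact ⟨x₁, hx₁P, h0, hx₁'⟩
  have hιx : ι x ≠ 0 := fun h => hx0 (hι (by rw [h, map_zero]))
  -- the denominators
  have hd : ∀ k, ∃ d : B, d ∉ 𝔫 ∧ ι d / ι x ∈ O k := by
    intro k
    by_cases hk : ∀ b : B, ι b ∈ (O k).nonunits → b ∈ 𝔫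
    · refine ⟨1, (Ideal.ne_top_iff_one 𝔫).mp h𝔫.ne_top, ?_⟩
      rw [map_one, one_div]
      by_contra hinv
      apply hx k hk
      rw [ValuationSubring.mem_nonunits_iff]
      have h1 : (O k).valuation (ι x) ≤ 1 :=
        (ValuationSubring.valuation_le_one_iff _ _).mpr (hBO k x)
      rcases lt_or_eq_of_le h1 with h | h
      · exact h
      · exfalso
        apply hinv
        rw [← ValuationSubring.valuation_le_one_iff, map_inv₀, h, inv_one]
    · push Not at hk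
      obtain ⟨c, hc, hc𝔫⟩ := hk
      obtain ⟨n, hn⟩ := harch k (ι c) hc (ι x) hιx
      refine ⟨c ^ n, fun h => hc𝔫 (h𝔫.mem_of_pow_mem n h), ?_⟩
      rw [map_pow]
      exact (O k).nonunits_le hn
  choose d hd𝔫 hdO using hd
  have hc𝔫 : ∏ k, d k ∉ 𝔫 := by
    intro h
    obtain ⟨k, -, hk⟩ := h𝔫.prod_mem_iff.mp h
    exact hd𝔫 k hk
  have hv : ∀ k, ι (∏ k', d k') / ι x ∈ O k := by
    intro k
    have e : ι (∏ k', d k') / ι x =
        (ι (d k) / ι x) * ι (∏ k' ∈ Finset.univ.erase k, d k') := by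
      rw [← Finset.mul_prod_erase Finset.univ d (Finset.mem_univ k), map_mul]
      ring
    rw [e]
    exact mul_mem (hdO k) (hBO k _)
  obtain ⟨s', hs', b, hb⟩ := hden _ hv
  have h1 : s' * ∏ k, d k = b * x := by
    apply hι
    rw [map_mul, map_mul, ← hb]
    field_simp
  have h2 : s' * ∏ k, d k ∈ P := by
    rw [h1]
    exact P.mul_mem_left _ hxP
  rcases hP.mem_or_mem h2 with h | h
  · exact hs' h
  · exact hc𝔫 (hP𝔫 h)

end Fermat.Agent.S36
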