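import Fermat.Agent.S36.H11LocSkel
import Fermat.Agent.S36.H74VIface
import Fermat.Agent.S36.H86LocOneIface

/-!
# S36, row L-GLUE (helper25): frozen interface of the embedding dictionary

`H25GlueDict` : **the vertical primes of the chart `j` of level `M q²` over `A₀` are centres of
vertical embeddings.**  For every closed point `𝔫 ∋ q` of the chart and every vertical prime
`P` through `𝔫` (`q ∈ P ⊊ 𝔫`, `P` prime) there is a vertical embedding `E` (`E20`, `E11^ζ` or
`E02`: `h11l_IsVE`) such that

* the component of `E` passes through `𝔫` (`h11l_Centred`: a function of the chart which is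
  Gauss-small at `E` lies in `𝔫`),
* every function of `P` is Gauss-small at `E` (`h11l_Small`),
* every function of `V₀ = h92c_V0` is Gauss-integral at `E` (`h74w_Int`).

(True: the three vertical valuations `W₂₀`, `W₁₁`, `W₀₂` of `F₀` are the valuations of the three
components of the special fibre; `V₀` is their intersection (V-EXACT) and `V₀ ⊆ B_P` for every
vertical prime `P` (`H86LocVComp`), so `P` lies in the centre of one of them by prime
avoidance.)

Consumer: `h25g_glue : H62RegStatement → H86LocVComp → H25GlueDict → H11LocGlue`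
(`S36/H25Glue.lean`).  Every declaration is a definition; nothing is assumed.
-/

set_option autoImplicit false

open AlgebraicCurve ModularCurve

noncomputable section

namespace Fermat.Agent.S36

open Fermat.Agent.S37 (Kbar GQ FF cst jB gal modelAt degen auxLevel)

/-- the dictionary at one closed point of the chart `t`. -/
def H25GlueDictAt (A : ValuationSubring Kbar) (M q : ℕ) [NeZero M] [NeZero q] (hq : q.Prime)
    (hqM : ¬ q ∣ M) (t : FF (M * q * q)) (𝔫 : Ideal (h92c_Chart A (M * q * q) t)) : Prop :=
  ∀ P : Ideal (h92c_Chart A (M * q * q) t),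
    h86l_IsVert 𝔫 ((q : ℕ) : h92c_Chart A (M * q * q) t) P →
    ∃ E : FF (M * q * q) →+* LaurentSeries Kbar, h11l_IsVE M q hq hqM E ∧
      h11l_Centred A t 𝔫 E ∧
      (∀ b : h92c_Chart A (M * q * q) t, b ∈ P → h11l_Small A E (b : FF (M * q * q))) ∧
      (∀ x ∈ h92c_V0 A M q, h74w_Int A E x)

/-- **L-GLUE-DICT.**  The vertical primes through the closed points of the special fibre of the
chart `j` are centres of vertical embeddings. -/
def H25GlueDict : Prop :=
  ∀ (q : ℕ) (hq : q.Prime) (M : ℕ) [NeZero M] (hqM : ¬ q ∣ M), auxLevel q ∣ M →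
    haveI : NeZero q := ⟨hq.ne_zero⟩
    ∀ A : ValuationSubring Kbar, A.LiesOverPrime q →
    ∀ 𝔫 : Ideal (h92c_Chart A (M * q * q) (jB (M * q * q))), 𝔫.IsMaximal →
      ((q : ℕ) : h92c_Chart A (M * q * q) (jB (M * q * q))) ∈ 𝔫 →
      H25GlueDictAt A M q hq hqM (jB (M * q * q)) 𝔫

end Fermat.Agent.S36
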