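import Fermat.Agent.S36.H25GlueAbs
import Fermat.Agent.S36.H25GlueIface
import Fermat.Agent.S36.H40LocFrac

/-!
# S36, row L-GLUE (helper25): `H11LocGlue` from REG, the chart/`V₀` compatibility and the
embedding dictionary

`h25g_glue : H62RegStatement → H86LocVComp → H25GlueDict → H11LocGlue`
(exact frozen Prop of `S36/H11LocSkel.lean`).

Proof: Lemma A in chart form (`h66r_datum`, helper66) at the closed point `𝔫`, with
* REG data from `H62RegStatement` (`two_gen`, `branch`, `transversal`),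
* `hex`, `hV1`, `hV2` from `H86LocVComp`,
* `B ⊆ V₀`, `(1 + q V₀)⁻¹ ⊆ V₀` from the landed `h40f_locFrac`,
* the local root `G` of `h11l_EqBV` (it lies in `(V₀)_𝔫` because `V₀` is closed under roots),
* `hcomp` from the equality of the branch values of `G` (`h25g_hcomp`), the component of the
  vertical prime `P` being the one of the embedding `E` given by the dictionary.
-/

set_option autoImplicit false
set_option linter.unusedSectionVars false
set_option linter.style.haveILetI false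

open AlgebraicCurve ModularCurve IsLocalRing

noncomputable section

namespace Fermat.Agent.S36

open Fermat.Agent.S37 (Kbar GQ FF cst jB gal modelAt degen auxLevel)
open Fermat.Agent.Red.GV.Soft (softOT softRedT)

/-! ## Gauss-small functions at an embedding -/

section Small

variable {A : ValuationSubring Kbar} {N : ℕ} {E : FF N →+* LaurentSeries Kbar}

theorem h25g_small_sub {x y : FF N} (hx : h11l_Small A E x) (hy : h11l_Small A E y) :
    h11l_Small A E (x - y) := by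
  obtain ⟨hx, hx0⟩ := hx
  obtain ⟨hy, hy0⟩ := hy
  have hmem : E (x - y) ∈ softOT A (IsLocalRing.residue A) := by
    rw [map_sub]
    exact sub_mem hx hy
  refine ⟨hmem, ?_⟩
  have e : (⟨E (x - y), hmem⟩ : softOT A (IsLocalRing.residue A)) = ⟨E x, hx⟩ - ⟨E y, hy⟩ :=
    Subtype.ext (map_sub E x y)
  rw [e, map_sub, hx0, hy0, sub_zero]

theorem h25g_small_mul {β x : FF N} (hβ : h74w_Int A E β) (hx : h11l_Small A E x) :
    h11l_Small A E (β * x) := by
  obtain ⟨hx, hx0⟩ := hx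
  have hmem : E (β * x) ∈ softOT A (IsLocalRing.residue A) := by
    rw [map_mul]
    exact mul_mem hβ hx
  refine ⟨hmem, ?_⟩
  have e : (⟨E (β * x), hmem⟩ : softOT A (IsLocalRing.residue A)) = ⟨E β, hβ⟩ * ⟨E x, hx⟩ :=
    Subtype.ext (map_mul E β x)
  rw [e, map_mul, hx0, mul_zero]

end Small

/-! ## Roots in `V₀` -/

set_option synthInstance.maxHeartbeats 400000 in
/-- `V₀` is closed under `m`-th roots of functions of `F₀`. -/
theorem h25g_root_mem_V0 (A : ValuationSubring Kbar) (M q : ℕ) [NeZero M] [NeZero q]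
    (m : ℕ) (hm : m ≠ 0) (x : FF (M * q * q)) (hxF : x ∈ h92c_F0 A (M * q * q))
    (hx : x ^ m ∈ h92c_V0 A M q) : x ∈ h92c_V0 A M q := by
  refine ⟨?_, hxF⟩
  have h1 : IsIntegral (h92c_G A M q) (x ^ m) := hx.1
  exact IsIntegral.of_pow (Nat.pos_of_ne_zero hm) h1

/-! ## The glue -/

/-- **L-GLUE at one closed point.** -/
theorem h25g_glueAt (A : ValuationSubring Kbar) (M q : ℕ) [NeZero M] [NeZero q] (hq : q.Prime)
    (hqM : ¬ q ∣ M) (t : FF (M * q * q))
    (hnoeth : IsNoetherianRing (h92c_Chart A (M * q * q) t))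
    (hvc : H86LocVCompAt A M q t)
    (hBV : ∀ x ∈ h92c_Chart A (M * q * q) t, x ∈ h92c_V0 A M q)
    (m : ℕ) (hm : ¬ q ∣ m) (w : FF (M * q * q)) (hw0 : w ≠ 0)
    (hwU : w ∈ h92c_U A M q)
    (𝔫 : Ideal (h92c_Chart A (M * q * q) t)) (h𝔫 : 𝔫.IsMaximal)
    (hq𝔫 : ((q : ℕ) : h92c_Chart A (M * q * q) t) ∈ 𝔫)
    (hreg : H62RegAt 𝔫 ((q : ℕ) : h92c_Chart A (M * q * q) t))
    (hdict : H25GlueDictAt A M q hq hqM t 𝔫)
    (hEq : h11l_EqBV A M q hq hqM t 𝔫 m w) :
    h11l_DatumAt A M q t m w 𝔫 := by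
  classical
  obtain ⟨G, ⟨hGF, hG0, s₀, hs₀, h1, h2⟩, c, -, hbvE⟩ := hEq
  obtain ⟨hex, hden, hinv⟩ := hvc
  haveI : IsNoetherianRing (h92c_Chart A (M * q * q) t) := hnoeth
  haveI : 𝔫.IsPrime := h𝔫.isPrime
  have hqF : ((q : ℕ) : FF (M * q * q)) ≠ 0 := Nat.cast_ne_zero.mpr hq.ne_zero
  have hqB : ((q : ℕ) : h92c_Chart A (M * q * q) t) ≠ 0 := by
    intro h
    apply hqF
    have := congrArg (Subtype.val : h92c_Chart A (M * q * q) t → FF (M * q * q)) h
    simpa using this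
  have hm0 : m ≠ 0 := by
    rintro rfl
    exact hm (dvd_zero q)
  have hcop : m.Coprime q := ((Nat.Prime.coprime_iff_not_dvd hq).mpr hm).symm
  have hBF : ∀ x ∈ h92c_Chart A (M * q * q) t, x ∈ h92c_F0 A (M * q * q) := fun x hx => hx.2
  -- `w` is a unit of `V₀`
  have hwV : w ∈ h92c_V0 A M q := by
    obtain ⟨y, hy, rfl⟩ := hwU
    exact add_mem (one_mem _) (mul_mem (natCast_mem _ q) hy)
  -- the root `G` lies in `(V₀)_𝔫`
  have hGV : ∃ c' : h92c_Chart A (M * q * q) t, c' ∉ 𝔫 ∧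
      (c' : FF (M * q * q)) * G ∈ h92c_V0 A M q :=
    h25g_inLoc_of_pow (h92c_Chart A (M * q * q) t) (h92c_V0 A M q) hBV 𝔫
      (h92c_F0 A (M * q * q)) hBF m hm0
      (fun x hxF hx => h25g_root_mem_V0 A M q m hm0 x hxF hx) w hw0 hwV G hGF s₀ hs₀ h2
  -- the vertical primes through `𝔫` are not maximal
  have hPmax : ∀ P' : Ideal (h92c_Chart A (M * q * q) t),
      h86l_IsVert 𝔫 ((q : ℕ) : h92c_Chart A (M * q * q) t) P' → ¬ P'.IsMaximal := by
    intro P' hP' hmax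
    exact hP'.2.2.2 (hmax.eq_of_le h𝔫.ne_top hP'.2.2.1)
  -- the embeddings of the dictionary
  choose E hEVE hEcen hEP hEV using hdict
  obtain ⟨η, hηO, -, hgη, s, hs, hcong, h1', h2'⟩ :=
    h25g_datum (h92c_Chart A (M * q * q) t) (h92c_V0 A M q) hBV 𝔫 q hq
      ((q : ℕ) : h92c_Chart A (M * q * q) t) hqB (dvd_refl _)
      hreg.two_gen hreg.branch hreg.transversal (hex 𝔫 h𝔫 hq𝔫)
      (fun v hv P' hP' => hden P' hP'.1 (hPmax P' hP') hP'.2.1 v hv)
      (fun b hb => hinv 𝔫 h𝔫 hq𝔫 b hb)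
      m hcop w hw0 (by
        obtain ⟨y, hy, rfl⟩ := hwU
        exact ⟨y, hy, by push_cast; rfl⟩)
      G hG0 hGV s₀ hs₀ h1 h2 c
      (fun i x => h11l_Small A (E i.1 i.2) x)
      (fun i x y hx hy => h25g_small_sub hx hy)
      (fun i β x hx => h25g_small_mul (hEV i.1 i.2 _ (hBV _ β.2)) hx)
      (fun i b hb v hv => by
        have h := h25g_small_mul (hEV i.1 i.2 v hv) (hEP i.1 i.2 b hb)
        have e : (b : FF (M * q * q)) * v = v * (b : FF (M * q * q)) := mul_comm _ _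
        rw [e]
        exact h)
      (fun i b hb => hEcen i.1 i.2 b hb)
      (fun i => hbvE (E i.1 i.2) (hEVE i.1 i.2) (hEcen i.1 i.2))
  refine ⟨G * η, mul_mem hGF (h66s_O_le_subfield _ hBF hηO), hgη, s, hs, ?_, h1', h2'⟩
  obtain ⟨y, hy, hsy⟩ := hcong
  exact ⟨y, hy, by rw [hsy]; push_cast; rfl⟩

/-- **L-GLUE** (exact frozen Prop `H11LocGlue` of `S36/H11LocSkel.lean`). -/
theorem h25g_glue (hReg : H62RegStatement) (hVC : H86LocVComp) (hDict : H25GlueDict) :
    H11LocGlue := by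
  intro q hq M _ hqM haux
  haveI : NeZero q := ⟨hq.ne_zero⟩
  intro A hA m hm w hw0 _ hwU 𝔫 h𝔫 hq𝔫 hEq
  obtain ⟨⟨hnoeth, hregAt⟩, -⟩ := hReg q hq M hqM haux A hA
  obtain ⟨hvc, -⟩ := hVC q hq M hqM haux A hA
  obtain ⟨-, -, hBV, -, -⟩ := h40f_locFrac q hq M hqM haux A hA
  exact h25g_glueAt A M q hq hqM (jB (M * q * q)) hnoeth hvc hBV m hm w hw0 hwU 𝔫 h𝔫 hq𝔫
    (hregAt 𝔫 h𝔫 hq𝔫) (hDict q hq M hqM haux A hA 𝔫 h𝔫 hq𝔫) hEq

end Fermat.Agent.S36
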