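import Mathlib
import Fermat.Agent.S36.H66ChartSub
import Fermat.Agent.S36.H16Factorial

/-!
# S36 / LOC: from REG (regular with normal crossings) to the hypotheses of Lemma A (helper66)

`B` a noetherian chart (a subring of a field `F`), `𝔫` a closed point, `π ∈ 𝔫`, `π ≠ 0`,
`O = h66sO B 𝔫 = B_𝔫`.  A *vertical prime through `𝔫`* is a prime `P` of `B` with
`π ∈ P ≤ 𝔫`, `P ≠ 𝔫`.  REG (`H62RegAt 𝔫 π`, `S36/H62RegIface.lean`) gives

* `two_gen`  : `𝔫 = (x, y)` locally,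
* `branch`   : `𝔫 = P + (t)` locally for every vertical prime `P` through `𝔫`,
* `transversal` : `𝔫 = P + P'` locally for two distinct vertical primes through `𝔫`.

This file turns these into the hypotheses of Lemma A (`h66a_glue_field`, `h66s_datum`).

* `h66r_isLocalization` : `B_𝔫 ⊆ F` is the localisation of `B` at `𝔫`; `B_𝔫` is noetherian.
* `h66r_vert_principal` : a vertical prime is principal in `B_𝔫`: `P B_𝔫 = (f)`, `f` prime,
  `𝔪 = (t, f)`.
* `h66r_glue_data` : **REG ⟹ the data of Lemma A**, indexed by the vertical primes through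
  `𝔫` (finitely many): prime generators `f P`, multiplicities `e P ≠ 0`,
  `π ~ ∏ f P ^ e P`, pairwise `𝔪 = (f P, f P')`, regular branches.
* `h66r_datum` : **the semi-local datum of the gate at `𝔫`** from REG, the compatibility of the
  Gauss ring `V` with the chart (`hV1 : V ⊆ B_P`, `hV2`), a local factorisation
  `w = ε g₀ ^ r` and the compatibility `hcomp` of the branch values (TOR).
* `h66r_datum_one` : the same with at most one vertical prime through `𝔫` (no `hcomp`).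
* `h66r_exists_vert` : a vertical prime through `𝔫` exists (from `hV2` and QEP).

Mathlib + `H66LemmaA` + `H66ChartSub` + `H16Factorial` (helper16).
-/

set_option autoImplicit false
set_option linter.unusedSectionVars false

open IsLocalRing

namespace Fermat.Agent.S36

section Loc

variable {F : Type*} [Field F] (B : Subring F) (𝔫 : Ideal B) [h𝔫 : 𝔫.IsPrime]

/-- `B → B_𝔫`. -/
def h66rIncl : B →+* h66sO B 𝔫 := Subring.inclusion fun _ hx => h66s_B_le_O hx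

instance h66r_algebra : Algebra B (h66sO B 𝔫) := (h66rIncl B 𝔫).toAlgebra

theorem h66r_algebraMap_coe (b : B) : ((algebraMap B (h66sO B 𝔫) b : h66sO B 𝔫) : F) = b := rfl

theorem h66r_algebraMap_injective : Function.Injective (algebraMap B (h66sO B 𝔫)) := by
  intro x y h
  apply Subtype.ext
  have := congrArg (Subtype.val : h66sO B 𝔫 → F) h
  exact this

instance h66r_isLocalization : IsLocalization.AtPrime (h66sO B 𝔫) 𝔫 := by
  rw [IsLocalization.AtPrime, isLocalization_iff]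
  refine ⟨?_, ?_, ?_⟩
  · intro y
    rw [h66s_isUnit_iff]
    exact ⟨1, y.1, (Ideal.ne_top_iff_one 𝔫).mp h𝔫.ne_top, y.2, by
      rw [h66r_algebraMap_coe]; simp⟩
  · intro z
    obtain ⟨s, hs, hsz⟩ := z.2
    refine ⟨(⟨_, hsz⟩, ⟨s, hs⟩), Subtype.ext ?_⟩
    show (z : F) * (s : F) = (s : F) * (z : F)
    ring
  · intro x y h
    exact ⟨1, by rw [h66r_algebraMap_injective B 𝔫 h]⟩

instance h66r_isNoetherianRing [IsNoetherianRing B] : IsNoetherianRing (h66sO B 𝔫) :=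
  IsLocalization.isNoetherianRing 𝔫.primeCompl (h66sO B 𝔫) inferInstance

/-- `x ∈ I B_𝔫` iff `s x ∈ I` for some `s ∉ 𝔫`. -/
theorem h66r_mem_map_iff (I : Ideal B) (x : h66sO B 𝔫) :
    x ∈ I.map (algebraMap B (h66sO B 𝔫)) ↔ ∃ s b : B, s ∉ 𝔫 ∧ b ∈ I ∧ (s : F) * (x : F) = b := by
  rw [IsLocalization.mem_map_algebraMap_iff 𝔫.primeCompl]
  constructor
  · rintro ⟨⟨b, s⟩, h⟩
    refine ⟨s.1, b.1, s.2, b.2, ?_⟩
    have := congrArg (Subtype.val : h66sO B 𝔫 → F) h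
    simp only [Subring.coe_mul, h66r_algebraMap_coe] at this
    rw [mul_comm]
    exact this
  · rintro ⟨s, b, hs, hb, h⟩
    refine ⟨(⟨b, hb⟩, ⟨s, hs⟩), Subtype.ext ?_⟩
    show (x : F) * (s : F) = (b : F)
    rw [mul_comm]
    exact h

/-- "locally generated" in `B` means generated in `B_𝔫`. -/
theorem h66r_maximalIdeal_le_map (I : Ideal B)
    (h : ∀ z ∈ 𝔫, ∃ s, s ∉ 𝔫 ∧ s * z ∈ I) :
    maximalIdeal (h66sO B 𝔫) ≤ I.map (algebraMap B (h66sO B 𝔫)) := by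
  intro x hx
  rw [h66s_mem_maximalIdeal_iff] at hx
  obtain ⟨s, b, hs, hb, hsx⟩ := hx
  obtain ⟨s', hs', hs'b⟩ := h b hb
  rw [h66r_mem_map_iff]
  refine ⟨s' * s, s' * b, fun h => (h𝔫.mem_or_mem h).elim hs' hs, hs'b, ?_⟩
  push_cast
  rw [mul_assoc, hsx]

theorem h66r_map_le_maximalIdeal (I : Ideal B) (hI : I ≤ 𝔫) :
    I.map (algebraMap B (h66sO B 𝔫)) ≤ maximalIdeal (h66sO B 𝔫) := by
  intro x hx
  rw [h66r_mem_map_iff] at hx
  obtain ⟨s, b, hs, hb, hsx⟩ := hx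
  rw [h66s_mem_maximalIdeal_iff]
  exact ⟨s, b, hs, hI hb, hsx⟩

end Loc

section Vert

variable {F : Type*} [Field F] (B : Subring F) [hN : IsNoetherianRing B] (𝔫 : Ideal B)
  [h𝔫 : 𝔫.IsPrime]

/-- `P` is a vertical prime through `𝔫`: a prime of the fibre `π = 0` with `P ⊊ 𝔫`. -/
def h66rVert (π : B) (P : Ideal B) : Prop := P.IsPrime ∧ π ∈ P ∧ P ≤ 𝔫 ∧ P ≠ 𝔫

variable {B 𝔫}

theorem h66r_vert_disjoint {π : B} {P : Ideal B} (hP : h66rVert B 𝔫 π P) :
    Disjoint (𝔫.primeCompl : Set B) (P : Set B) := by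
  rw [Set.disjoint_left]
  intro b hb hb'
  exact hb (hP.2.2.1 hb')

theorem h66r_vert_map_isPrime {π : B} {P : Ideal B} (hP : h66rVert B 𝔫 π P) :
    (P.map (algebraMap B (h66sO B 𝔫))).IsPrime :=
  IsLocalization.isPrime_of_isPrime_disjoint 𝔫.primeCompl (h66sO B 𝔫) P hP.1
    (h66r_vert_disjoint hP)

theorem h66r_vert_comap_map {π : B} {P : Ideal B} (hP : h66rVert B 𝔫 π P) :
    (P.map (algebraMap B (h66sO B 𝔫))).comap (algebraMap B (h66sO B 𝔫)) = P :=
  IsLocalization.under_map_of_isPrime_disjoint 𝔫.primeCompl (h66sO B 𝔫) hP.1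
    (h66r_vert_disjoint hP)

/-- **a vertical prime through `𝔫` is principal in `B_𝔫`**, generated by a prime element `f`
with `𝔪 = (t, f)`. -/
theorem h66r_vert_principal (π : B) (hπ0 : π ≠ 0)
    (x y : B) (hx : x ∈ 𝔫) (hy : y ∈ 𝔫)
    (hxy : ∀ z ∈ 𝔫, ∃ s, s ∉ 𝔫 ∧ s * z ∈ Ideal.span {x, y})
    (P : Ideal B) (hP : h66rVert B 𝔫 π P) (t : B) (ht : t ∈ 𝔫)
    (hPt : ∀ z ∈ 𝔫, ∃ s, s ∉ 𝔫 ∧ s * z ∈ P ⊔ Ideal.span {t}) :
    ∃ f : h66sO B 𝔫, Prime f ∧ P.map (algebraMap B (h66sO B 𝔫)) = Ideal.span {f} ∧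
      maximalIdeal (h66sO B 𝔫) = Ideal.span {algebraMap B (h66sO B 𝔫) t, f} := by
  classical
  set O := h66sO B 𝔫 with hO
  set φ := algebraMap B O with hφ
  set PO := P.map φ with hPO
  have hPOp : PO.IsPrime := h66r_vert_map_isPrime hP
  have hPOm : PO ≤ maximalIdeal O := h66r_map_le_maximalIdeal B 𝔫 P hP.2.2.1
  have hTm : φ t ∈ maximalIdeal O := by
    rw [h66s_mem_maximalIdeal_iff]
    exact ⟨1, t, (Ideal.ne_top_iff_one 𝔫).mp h𝔫.ne_top, ht, by
      rw [h66r_algebraMap_coe]; simp⟩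
  have hXm : ∀ b ∈ 𝔫, φ b ∈ maximalIdeal O := by
    intro b hb
    rw [h66s_mem_maximalIdeal_iff]
    exact ⟨1, b, (Ideal.ne_top_iff_one 𝔫).mp h𝔫.ne_top, hb, by
      rw [h66r_algebraMap_coe]; simp⟩
  -- `t ∉ P`
  have htP : t ∉ P := by
    intro htP
    apply hP.2.2.2
    refine le_antisymm hP.2.2.1 fun z hz => ?_
    obtain ⟨s, hs, hsz⟩ := hPt z hz
    have hle : P ⊔ Ideal.span {t} ≤ P :=
      sup_le le_rfl ((Ideal.span_singleton_le_iff_mem _).mpr htP)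
    rcases hP.1.mem_or_mem (hle hsz) with h | h
    · exact absurd (hP.2.2.1 h) hs
    · exact h
  have hTP : φ t ∉ PO := by
    intro h
    have h1 : t ∈ PO.comap φ := Ideal.mem_comap.mpr h
    rw [h66r_vert_comap_map hP] at h1
    exact htP h1
  -- the two descriptions of the maximal ideal
  have hm1 : maximalIdeal O = Ideal.span {φ x, φ y} := by
    refine le_antisymm ?_ ?_
    · have h1 := h66r_maximalIdeal_le_map B 𝔫 (Ideal.span {x, y}) hxy
      rw [Ideal.map_span, Set.image_pair] at h1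
      exact h1
    · rw [Ideal.span_le]
      intro w hw
      rcases hw with rfl | rfl
      · exact hXm x hx
      · exact hXm y hy
  have hm2 : maximalIdeal O ≤ PO ⊔ Ideal.span {φ t} := by
    have h1 := h66r_maximalIdeal_le_map B 𝔫 (P ⊔ Ideal.span {t}) hPt
    rw [Ideal.map_sup, Ideal.map_span, Set.image_singleton] at h1
    exact h1
  -- decompose `x`, `y`, `t`
  obtain ⟨p₁, hp₁, a', ha', hxe⟩ := Submodule.mem_sup.mp (hm2 (hXm x hx))
  obtain ⟨a, rfl⟩ := Ideal.mem_span_singleton'.mp ha'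
  obtain ⟨p₂, hp₂, b', hb', hye⟩ := Submodule.mem_sup.mp (hm2 (hXm y hy))
  obtain ⟨b, rfl⟩ := Ideal.mem_span_singleton'.mp hb'
  have hT2 : φ t ∈ Ideal.span {φ x, φ y} := by rw [← hm1]; exact hTm
  obtain ⟨c, d, hcd⟩ := Ideal.mem_span_pair.mp hT2
  have hu0 : (1 - c * a - d * b) * φ t = c * p₁ + d * p₂ := by
    have e1 : c * p₁ + d * p₂ = c * (p₁ + a * φ t) + d * (p₂ + b * φ t)
        - (c * a + d * b) * φ t := by ring
    rw [e1, hxe, hye, hcd]
    ring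
  have hu0P : 1 - c * a - d * b ∈ PO := by
    have h1 : (1 - c * a - d * b) * φ t ∈ PO := by
      rw [hu0]
      exact PO.add_mem (PO.mul_mem_left _ hp₁) (PO.mul_mem_left _ hp₂)
    rcases hPOp.mem_or_mem h1 with h | h
    · exact h
    · exact absurd h hTP
  have hunit : IsUnit (c * a + d * b) := by
    have h1 : 1 - (c * a + d * b) ∈ nonunits O := by
      have h2 : 1 - (c * a + d * b) = 1 - c * a - d * b := by ring
      rw [h2]
      exact (mem_maximalIdeal _).mp (hPOm hu0P)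
    have h3 := isUnit_one_sub_self_of_mem_nonunits _ h1
    have h4 : 1 - (1 - (c * a + d * b)) = c * a + d * b := by ring
    rwa [h4] at h3
  -- a generator `p ∈ PO` with `𝔪 = (t, p)`
  have hexp : ∃ p ∈ PO, maximalIdeal O = Ideal.span {φ t, p} := by
    rcases isUnit_or_isUnit_of_isUnit_add hunit with h | h
    · -- `c` is a unit: `p₁ ∈ (t, p₂)`
      have hc : IsUnit c := isUnit_of_mul_isUnit_left h
      obtain ⟨c', hc'⟩ := hc.exists_left_inv
      refine ⟨p₂, hp₂, le_antisymm ?_ ?_⟩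
      · rw [hm1, Ideal.span_le]
        have hp₁e : p₁ = c' * (1 - c * a - d * b) * φ t - c' * d * p₂ := by
          have e1 : c' * (1 - c * a - d * b) * φ t - c' * d * p₂
              = c' * ((1 - c * a - d * b) * φ t) - c' * d * p₂ := by ring
          rw [e1, hu0]
          have e2 : c' * (c * p₁ + d * p₂) - c' * d * p₂ = (c' * c) * p₁ := by ring
          rw [e2, hc', one_mul]
        intro w hw
        rcases hw with rfl | rfl
        · rw [← hxe]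
          refine Ideal.mem_span_pair.mpr ⟨c' * (1 - c * a - d * b) + a, - (c' * d), ?_⟩
          conv_rhs => rw [hp₁e]
          ring
        · rw [← hye]
          exact Ideal.mem_span_pair.mpr ⟨b, 1, by ring⟩
      · rw [Ideal.span_le]
        intro w hw
        rcases hw with rfl | rfl
        · exact hTm
        · exact hPOm hp₂
    · have hd : IsUnit d := isUnit_of_mul_isUnit_left h
      obtain ⟨d', hd'⟩ := hd.exists_left_inv
      refine ⟨p₁, hp₁, le_antisymm ?_ ?_⟩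
      · rw [hm1, Ideal.span_le]
        have hp₂e : p₂ = d' * (1 - c * a - d * b) * φ t - d' * c * p₁ := by
          have e1 : d' * (1 - c * a - d * b) * φ t - d' * c * p₁
              = d' * ((1 - c * a - d * b) * φ t) - d' * c * p₁ := by ring
          rw [e1, hu0]
          have e2 : d' * (c * p₁ + d * p₂) - d' * c * p₁ = (d' * d) * p₂ := by ring
          rw [e2, hd', one_mul]
        intro w hw
        rcases hw with rfl | rfl
        · rw [← hxe]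
          exact Ideal.mem_span_pair.mpr ⟨a, 1, by ring⟩
        · rw [← hye]
          refine Ideal.mem_span_pair.mpr ⟨d' * (1 - c * a - d * b) + b, - (d' * c), ?_⟩
          conv_rhs => rw [hp₂e]
          ring
      · rw [Ideal.span_le]
        intro w hw
        rcases hw with rfl | rfl
        · exact hTm
        · exact hPOm hp₁
  obtain ⟨p, hp, hmp⟩ := hexp
  obtain ⟨f, hfP, hPf⟩ := h16r_prime_principal (φ t) p hmp PO hTP
  have hπP : φ π ∈ PO := Ideal.mem_map_of_mem _ hP.2.1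
  have hφπ0 : φ π ≠ 0 := by
    intro h
    exact hπ0 (h66r_algebraMap_injective B 𝔫 (by rw [h, map_zero]))
  have hf0 : f ≠ 0 := by
    rintro rfl
    rw [hPf, Ideal.mem_span_singleton] at hπP
    exact hφπ0 (zero_dvd_iff.mp hπP)
  refine ⟨f, ?_, hPf, le_antisymm ?_ ?_⟩
  · rw [← Ideal.span_singleton_prime hf0, ← hPf]
    exact hPOp
  · refine le_trans hm2 ?_
    rw [hPf, Ideal.span_insert, sup_comm]
  · rw [Ideal.span_le]
    intro w hw
    rcases hw with rfl | rfl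
    · exact hTm
    · exact hPOm hfP

end Vert

/-! ## Grouping a product of primes by classes -/

/-- if every `p ∈ s` is associated to the representative `r (κ p)` of its class `κ p`, then
`∏ s` is associated to `∏ i, r i ^ #{p ∈ s | κ p = i}`. -/
theorem h66r_prod_group {O : Type*} [CommRing O] {ι : Type*} [Fintype ι] [DecidableEq ι]
    (r : ι → O) (κ : O → ι) (s : Multiset O) (h : ∀ p ∈ s, Associated p (r (κ p))) :
    Associated s.prod (∏ i, r i ^ (s.countP (fun p => κ p = i))) := by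
  classical
  induction s using Multiset.induction_on with
  | empty => simp
  | cons p s ih =>
    have h1 : ∀ i, (p ::ₘ s).countP (fun p => κ p = i)
        = s.countP (fun p => κ p = i) + if κ p = i then 1 else 0 := fun i =>
      Multiset.countP_cons _ _ _
    have h2 : (∏ i, r i ^ ((p ::ₘ s).countP (fun p => κ p = i)))
        = r (κ p) * ∏ i, r i ^ (s.countP (fun p => κ p = i)) := by
      simp only [h1, pow_add, Finset.prod_mul_distrib]
      rw [Finset.prod_pow_boole, if_pos (Finset.mem_univ _), mul_comm]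
    rw [Multiset.prod_cons, h2]
    exact Associated.mul_mul (h p (Multiset.mem_cons_self p s))
      (ih fun q hq => h q (Multiset.mem_cons_of_mem hq))

section Data

variable {F : Type*} [Field F] {B : Subring F} [hN : IsNoetherianRing B] {𝔫 : Ideal B}
  [h𝔫 : 𝔫.IsPrime]

/-- the contraction to `B` of a principal prime `(p) ≠ 𝔪` of `B_𝔫` containing `π` is a vertical
prime through `𝔫`. -/
theorem h66r_vert_of_prime (π : B) (p : h66sO B 𝔫) (hp : Prime p)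
    (hpπ : p ∣ algebraMap B (h66sO B 𝔫) π)
    (hpm : Ideal.span {p} ≠ maximalIdeal (h66sO B 𝔫)) :
    h66rVert B 𝔫 π ((Ideal.span {p}).comap (algebraMap B (h66sO B 𝔫))) := by
  have hprime : (Ideal.span {p}).IsPrime := (Ideal.span_singleton_prime hp.ne_zero).mpr hp
  have hle : Ideal.span {p} ≤ maximalIdeal (h66sO B 𝔫) := by
    rw [Ideal.span_singleton_le_iff_mem, mem_maximalIdeal, mem_nonunits_iff]
    exact hp.not_isUnit
  refine ⟨Ideal.comap_isPrime _ _, ?_, ?_, ?_⟩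
  · rw [Ideal.mem_comap, Ideal.mem_span_singleton]
    exact hpπ
  · intro b hb
    have h1 : algebraMap B (h66sO B 𝔫) b ∈ maximalIdeal (h66sO B 𝔫) :=
      hle (Ideal.mem_comap.mp hb)
    rw [h66s_mem_maximalIdeal_iff] at h1
    obtain ⟨s, b', hs, hb', h2⟩ := h1
    have h3 : s * b = b' := Subtype.ext (by push_cast; exact h2)
    have h4 : s * b ∈ 𝔫 := by rw [h3]; exact hb'
    exact (h𝔫.mem_or_mem h4).resolve_left hs
  · intro h
    apply hpm
    have h1 : ((Ideal.span {p}).comap (algebraMap B (h66sO B 𝔫))).map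
        (algebraMap B (h66sO B 𝔫)) = Ideal.span {p} :=
      IsLocalization.map_under 𝔫.primeCompl (h66sO B 𝔫) _
    rw [h] at h1
    rw [← h1]
    exact le_antisymm (h66r_map_le_maximalIdeal B 𝔫 𝔫 le_rfl)
      (h66r_maximalIdeal_le_map B 𝔫 𝔫 fun z hz =>
        ⟨1, (Ideal.ne_top_iff_one 𝔫).mp h𝔫.ne_top, by rw [one_mul]; exact hz⟩)

/-- **REG ⟹ the data of Lemma A.**  Indexed by the vertical primes through `𝔫`. -/
theorem h66r_glue_data (π : B) (hπ0 : π ≠ 0)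
    (two_gen : ∃ x ∈ 𝔫, ∃ y ∈ 𝔫, ∀ z ∈ 𝔫, ∃ s, s ∉ 𝔫 ∧ s * z ∈ Ideal.span {x, y})
    (branch : ∀ P : Ideal B, P.IsPrime → π ∈ P → P ≤ 𝔫 → P ≠ 𝔫 →
      ∃ t ∈ 𝔫, ∀ z ∈ 𝔫, ∃ s, s ∉ 𝔫 ∧ s * z ∈ P ⊔ Ideal.span {t})
    (transversal : ∀ P P' : Ideal B, P.IsPrime → P'.IsPrime → π ∈ P → π ∈ P' →
      P ≤ 𝔫 → P' ≤ 𝔫 → P ≠ 𝔫 → P' ≠ 𝔫 → P ≠ P' →
      ∀ z ∈ 𝔫, ∃ s, s ∉ 𝔫 ∧ s * z ∈ P ⊔ P')
    (hex : ∃ P : Ideal B, h66rVert B 𝔫 π P) :
    ∃ (_ : Fintype {P : Ideal B // h66rVert B 𝔫 π P})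
      (f : {P : Ideal B // h66rVert B 𝔫 π P} → h66sO B 𝔫)
      (e : {P : Ideal B // h66rVert B 𝔫 π P} → ℕ),
      (∀ i, e i ≠ 0) ∧ (∀ i, Prime (f i)) ∧ (∀ i j, i ≠ j → ¬ f i ∣ f j) ∧
      Associated (algebraMap B (h66sO B 𝔫) π) (∏ i, f i ^ e i) ∧
      (∀ i j, i ≠ j → maximalIdeal (h66sO B 𝔫) ≤ Ideal.span {f i, f j}) ∧
      (∀ i, ∀ x y : h66sO B 𝔫, (∃ t, f i ∣ y - x * t) ∨ (∃ t, f i ∣ x - y * t)) ∧
      (∀ i : {P : Ideal B // h66rVert B 𝔫 π P},
        (i : Ideal B).map (algebraMap B (h66sO B 𝔫)) = Ideal.span {f i}) := by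
  classical
  set O := h66sO B 𝔫 with hO
  set φ := algebraMap B O with hφ
  obtain ⟨x, hx, y, hy, hxy⟩ := two_gen
  -- generators of the vertical primes
  have hgen : ∀ i : {P : Ideal B // h66rVert B 𝔫 π P}, ∃ f : O, Prime f ∧
      (i : Ideal B).map φ = Ideal.span {f} ∧ ∃ t : O, maximalIdeal O = Ideal.span {t, f} := by
    intro i
    obtain ⟨t, ht, hPt⟩ := branch i.1 i.2.1 i.2.2.1 i.2.2.2.1 i.2.2.2.2
    obtain ⟨f, hf, hPf, hm⟩ := h66r_vert_principal π hπ0 x y hx hy hxy i.1 i.2 t ht hPt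
    exact ⟨f, hf, hPf, _, hm⟩
  choose f hfprime hfspan hft using hgen
  have hφπ0 : φ π ≠ 0 := by
    intro h
    exact hπ0 (h66r_algebraMap_injective B 𝔫 (by rw [h, map_zero]))
  have hfπ : ∀ i, f i ∣ φ π := by
    intro i
    rw [← Ideal.mem_span_singleton, ← hfspan i]
    exact Ideal.mem_map_of_mem _ i.2.2.1
  -- recover `i` from `(f i)`
  have hrec : ∀ i : {P : Ideal B // h66rVert B 𝔫 π P},
      (Ideal.span {f i}).comap φ = (i : Ideal B) := by
    intro i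
    rw [← hfspan i]
    exact h66r_vert_comap_map i.2
  have hinj : ∀ i j, Ideal.span {f i} = Ideal.span {f j} → i = j := by
    intro i j h
    apply Subtype.ext
    rw [← hrec i, ← hrec j, h]
  have hfm : ∀ i, Ideal.span {f i} ≠ maximalIdeal O := by
    intro i h
    apply i.2.2.2.2
    rw [← hrec i, h]
    ext b
    rw [Ideal.mem_comap, h66s_mem_maximalIdeal_iff]
    constructor
    · rintro ⟨s, b', hs, hb', h2⟩
      have h3 : s * b = b' := Subtype.ext (by push_cast; exact h2)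
      have h4 : s * b ∈ 𝔫 := by rw [h3]; exact hb'
      exact (h𝔫.mem_or_mem h4).resolve_left hs
    · intro hb
      exact ⟨1, b, (Ideal.ne_top_iff_one 𝔫).mp h𝔫.ne_top, hb, by
        rw [h66r_algebraMap_coe]; simp⟩
  -- `B_𝔫` is factorial
  obtain ⟨P₀, hP₀⟩ := hex
  let i₀ : {P : Ideal B // h66rVert B 𝔫 π P} := ⟨P₀, hP₀⟩
  have hufd : UniqueFactorizationMonoid O := by
    obtain ⟨t, ht⟩ := hft i₀
    refine h16r_ufd (f i₀) t ?_ (hfprime i₀)
    rw [ht, Set.pair_comm]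
  obtain ⟨s, hsprime, hsprod⟩ := UniqueFactorizationMonoid.exists_prime_factors (φ π) hφπ0
  have hsdvd : ∀ p ∈ s, p ∣ φ π := fun p hp =>
    (Multiset.dvd_prod hp).trans hsprod.dvd
  -- a prime factor of `π` generates a vertical prime
  have hspm : ∀ p ∈ s, Ideal.span {p} ≠ maximalIdeal O := by
    intro p hp h
    -- then `f i₀ ∈ (p)`, so `(f i₀) = (p) = 𝔪`
    have h1 : f i₀ ∈ Ideal.span {p} := by
      rw [h]
      obtain ⟨t, ht⟩ := hft i₀
      rw [ht]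
      exact Ideal.subset_span (by simp)
    rw [Ideal.mem_span_singleton] at h1
    have h2 : Associated p (f i₀) := (hsprime p hp).associated_of_dvd (hfprime i₀) h1
    apply hfm i₀
    rw [← h]
    exact (Ideal.span_singleton_eq_span_singleton.mpr h2).symm
  have hsvert : ∀ p ∈ s, h66rVert B 𝔫 π ((Ideal.span {p}).comap φ) := fun p hp =>
    h66r_vert_of_prime π p (hsprime p hp) (hsdvd p hp) (hspm p hp)
  have hsmap : ∀ p : O, ((Ideal.span {p}).comap φ).map φ = Ideal.span {p} := fun p =>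
    IsLocalization.map_under 𝔫.primeCompl O _
  -- every `f i` is associated to a prime factor of `π`
  have hfs : ∀ i, ∃ p ∈ s, Associated (f i) p := by
    intro i
    have h1 : f i ∣ s.prod := (hfπ i).trans hsprod.symm.dvd
    obtain ⟨p, hp, hfp⟩ := (hfprime i).exists_mem_multiset_dvd h1
    exact ⟨p, hp, (hfprime i).associated_of_dvd (hsprime p hp) hfp⟩
  -- finiteness
  have hfin : Finite {P : Ideal B // h66rVert B 𝔫 π P} := by
    let T : Finset (Ideal O) := (s.map fun p => Ideal.span {p}).toFinset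
    have hmemT : ∀ i, Ideal.span {f i} ∈ T := by
      intro i
      obtain ⟨p, hp, hfp⟩ := hfs i
      rw [Multiset.mem_toFinset, Multiset.mem_map]
      exact ⟨p, hp, (Ideal.span_singleton_eq_span_singleton.mpr hfp).symm⟩
    refine Finite.of_injective (fun i => (⟨Ideal.span {f i}, hmemT i⟩ : T)) ?_
    intro i j h
    exact hinj i j (congrArg Subtype.val h)
  let hFT : Fintype {P : Ideal B // h66rVert B 𝔫 π P} := Fintype.ofFinite _
  -- the class of a prime factor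
  let κ : O → {P : Ideal B // h66rVert B 𝔫 π P} := fun p =>
    if h : h66rVert B 𝔫 π ((Ideal.span {p}).comap φ) then ⟨_, h⟩ else i₀
  have hκ : ∀ p ∈ s, ((κ p : {P : Ideal B // h66rVert B 𝔫 π P}) : Ideal B)
      = (Ideal.span {p}).comap φ := by
    intro p hp
    simp only [κ, dif_pos (hsvert p hp)]
  have hκf : ∀ p ∈ s, Associated p (f (κ p)) := by
    intro p hp
    rw [← Ideal.span_singleton_eq_span_singleton, ← hfspan (κ p), hκ p hp, hsmap p]
  refine ⟨hFT, f, fun i => s.countP (fun p => κ p = i), ?_, hfprime, ?_, ?_, ?_, ?_, hfspan⟩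
  · intro i
    obtain ⟨p, hp, hfp⟩ := hfs i
    have h1 : κ p = i := by
      apply hinj
      rw [Ideal.span_singleton_eq_span_singleton]
      exact (hκf p hp).symm.trans hfp.symm
    exact (Multiset.countP_pos.mpr ⟨p, hp, h1⟩).ne'
  · intro i j hij hdvd
    apply hij
    apply hinj
    rw [Ideal.span_singleton_eq_span_singleton]
    exact (hfprime i).associated_of_dvd (hfprime j) hdvd
  · exact hsprod.symm.trans (h66r_prod_group f κ s hκf)
  · intro i j hij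
    have hne : (i : Ideal B) ≠ (j : Ideal B) := fun h => hij (Subtype.ext h)
    have h1 := h66r_maximalIdeal_le_map B 𝔫 ((i : Ideal B) ⊔ (j : Ideal B))
      (transversal i.1 j.1 i.2.1 j.2.1 i.2.2.1 j.2.2.1 i.2.2.2.1 j.2.2.2.1 i.2.2.2.2 j.2.2.2.2 hne)
    rw [Ideal.map_sup, hfspan i, hfspan j] at h1
    rw [Ideal.span_insert]
    exact h1
  · intro i
    obtain ⟨t, ht⟩ := hft i
    exact h66a_hval_of_param (f i) t (hfprime i) ht

end Data

/-! ## The semi-local datum from REG + the compatibility of `V` with the chart -/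

section Final

variable {F : Type*} [Field F]

/-- a vertical prime through `𝔫` exists, if `V` is compatible with the chart (`hV2`, QEP). -/
theorem h66r_exists_vert (B V : Subring F) (𝔫 : Ideal B) (π : B)
    (hπ𝔫 : π ∈ 𝔫) (hπ0 : π ≠ 0)
    (hV2 : ∀ b : B, (∀ P : Ideal B, h66rVert B 𝔫 π P → b ∉ P) →
      ∃ c : B, c ∉ 𝔫 ∧ (c : F) * ((b : F))⁻¹ ∈ V)
    (hqep : ∀ x ∈ V, (π : F) * x ∈ B → x ∈ B) :
    ∃ P : Ideal B, h66rVert B 𝔫 π P := by
  by_contra hno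
  obtain ⟨c, hc, hcV⟩ := hV2 π (fun P hP => absurd ⟨P, hP⟩ hno)
  have hπF : (π : F) ≠ 0 := fun h0 => hπ0 (Subtype.ext h0)
  have h1 : (π : F) * ((c : F) * ((π : F))⁻¹) ∈ B := by
    have e : (π : F) * ((c : F) * ((π : F))⁻¹) = c := by field_simp
    rw [e]; exact c.2
  have h2 := hqep _ hcV h1
  apply hc
  have h3 : c = π * ⟨_, h2⟩ := by
    apply Subtype.ext
    push_cast
    field_simp
  rw [h3]
  exact 𝔫.mul_mem_right _ hπ𝔫

/-- **the semi-local datum at a closed point from REG + TOR.**  `B` a noetherian chart, `𝔫` a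
closed point of the fibre `π = 0` (`π ∣ q`), REG at `𝔫` (`two_gen`, `branch`, `transversal`),
`V` compatible with the chart at `𝔫` (`hV1`, `hV2`), a local factorisation `w = ε g₀ ^ r` of
`w ∈ 1 + π V`, and the compatibility `hcomp` of the branch values of `g₀` along the vertical
primes through `𝔫`.  Output: the body of `h86l_DatumAt` with `g = g₀ η`. -/
theorem h66r_datum (B V : Subring F) [hN : IsNoetherianRing B] (hBV : ∀ x ∈ B, x ∈ V)
    (𝔫 : Ideal B) [h𝔫 : 𝔫.IsPrime] (q : ℕ) (hq : q.Prime) (π : B) (hπ0 : π ≠ 0)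
    (hπq : π ∣ (q : B))
    (two_gen : ∃ x ∈ 𝔫, ∃ y ∈ 𝔫, ∀ z ∈ 𝔫, ∃ s, s ∉ 𝔫 ∧ s * z ∈ Ideal.span {x, y})
    (branch : ∀ P : Ideal B, P.IsPrime → π ∈ P → P ≤ 𝔫 → P ≠ 𝔫 →
      ∃ t ∈ 𝔫, ∀ z ∈ 𝔫, ∃ s, s ∉ 𝔫 ∧ s * z ∈ P ⊔ Ideal.span {t})
    (transversal : ∀ P P' : Ideal B, P.IsPrime → P'.IsPrime → π ∈ P → π ∈ P' →
      P ≤ 𝔫 → P' ≤ 𝔫 → P ≠ 𝔫 → P' ≠ 𝔫 → P ≠ P' →
      ∀ z ∈ 𝔫, ∃ s, s ∉ 𝔫 ∧ s * z ∈ P ⊔ P')
    (hex : ∃ P : Ideal B, h66rVert B 𝔫 π P)
    (hV1 : ∀ v ∈ V, ∀ P : Ideal B, h66rVert B 𝔫 π P → ∃ s : B, s ∉ P ∧ (s : F) * v ∈ B)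
    (hV2 : ∀ b : B, (∀ P : Ideal B, h66rVert B 𝔫 π P → b ∉ P) →
      ∃ c : B, c ∉ 𝔫 ∧ (c : F) * ((b : F))⁻¹ ∈ V)
    (r : ℕ) (hr : r.Coprime q)
    (w : F) (hw0 : w ≠ 0) (hw : ∃ v ∈ V, w = 1 + (π : F) * v)
    (g₀ : F) (hg₀ : g₀ ≠ 0) (hg₀V : ∃ c : B, c ∉ 𝔫 ∧ (c : F) * g₀ ∈ V)
    (s₀ : B) (hs₀ : s₀ ∉ 𝔫) (h1 : (s₀ : F) * (w * (g₀ ^ r)⁻¹) ∈ B)
    (h2 : (s₀ : F) * (g₀ ^ r * w⁻¹) ∈ B)
    (hcomp : ∀ a : {P : Ideal B // h66rVert B 𝔫 π P} → h66sO B 𝔫,
      (∀ i : {P : Ideal B // h66rVert B 𝔫 π P},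
        ∃ p ∈ (i : Ideal B).map (algebraMap B (h66sO B 𝔫)), ∃ y ∈ h66sV B V hBV 𝔫,
          g₀ = (a i : F) + (p : F) * y) →
      ∀ i j, a i - a j ∈ maximalIdeal (h66sO B 𝔫)) :
    ∃ η : F, η ∈ h66sO B 𝔫 ∧ η⁻¹ ∈ h66sO B 𝔫 ∧ g₀ * η ≠ 0 ∧
      ∃ s : B, s ∉ 𝔫 ∧ (∃ y ∈ V, (s : F) * (g₀ * η - 1) = (π : F) * y) ∧
        (s : F) * (w * ((g₀ * η) ^ r)⁻¹) ∈ B ∧ (s : F) * ((g₀ * η) ^ r * w⁻¹) ∈ B := by
  classical
  set O := h66sO B 𝔫 with hO
  set φ := algebraMap B O with hφ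
  obtain ⟨hFT, f, e, he, hfprime, hna, hπass, hpair, hval, hfspan⟩ :=
    h66r_glue_data π hπ0 two_gen branch transversal hex
  -- `f i ∣ φ b ↔ b ∈ P i`
  have hdvd_iff : ∀ (i : {P : Ideal B // h66rVert B 𝔫 π P}) (b : B),
      f i ∣ φ b ↔ b ∈ (i : Ideal B) := by
    intro i b
    rw [← Ideal.mem_span_singleton, ← hfspan i]
    constructor
    · intro h
      have h3 : b ∈ ((i : Ideal B).map φ).comap φ := Ideal.mem_comap.mpr h
      rwa [h66r_vert_comap_map i.2] at h3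
    · exact fun h => Ideal.mem_map_of_mem _ h
  obtain ⟨P₀, hP₀⟩ := hex
  refine h66s_datum B V hBV 𝔫 (π : F) q hq (φ π) rfl (by
      have := map_dvd φ hπq
      rwa [map_natCast] at this)
    f e he hfprime hna hπass (fun i j hij => ⟨1, by rw [pow_one]; exact hpair i j hij⟩) hval
    ?_ ?_ r hr w hw0 hw g₀ hg₀ hg₀V s₀ hs₀ h1 h2 ?_
  · -- hden
    intro v hv
    obtain ⟨c, hc, hcv⟩ := hv
    -- the denominator ideal of `c v`
    let I : Ideal B :=
      { carrier := {b | (b : F) * ((c : F) * v) ∈ B}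
        add_mem' := by
          intro a b ha hb
          simp only [Set.mem_ofPred_eq] at ha hb ⊢
          push_cast
          rw [add_mul]
          exact B.add_mem ha hb
        zero_mem' := by simp [B.zero_mem]
        smul_mem' := by
          intro a b hb
          simp only [Set.mem_ofPred_eq, smul_eq_mul] at hb ⊢
          push_cast
          rw [mul_assoc]
          exact B.mul_mem a.2 hb }
    have hI : ¬ ((I : Set B) ⊆ ⋃ i ∈ ((Finset.univ : Finset {P : Ideal B // h66rVert B 𝔫 π P}) :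
        Set {P : Ideal B // h66rVert B 𝔫 π P}), ((i : Ideal B) : Set B)) := by
      intro hsub
      obtain ⟨i, -, hi⟩ := (Ideal.subset_union_prime (⟨P₀, hP₀⟩ : {P : Ideal B // h66rVert B 𝔫 π P})
        ⟨P₀, hP₀⟩ (fun i _ _ _ => i.2.1)).mp hsub
      obtain ⟨s, hs, hsv⟩ := hV1 _ hcv i.1 i.2
      exact hs (hi hsv)
    rw [Set.not_subset] at hI
    obtain ⟨b, hbI, hb⟩ := hI
    have hb' : ∀ i : {P : Ideal B // h66rVert B 𝔫 π P}, b ∉ (i : Ideal B) := by
      intro i hbi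
      apply hb
      simp only [Finset.coe_univ, Set.mem_univ, Set.iUnion_true, Set.mem_iUnion, SetLike.mem_coe]
      exact ⟨i, hbi⟩
    refine ⟨φ (b * c), fun i hdvd => ?_, ?_⟩
    · rw [hdvd_iff] at hdvd
      rcases i.2.1.mem_or_mem hdvd with h | h
      · exact hb' i h
      · exact hc (i.2.2.2.1 h)
    · have e1 : ((φ (b * c) : O) : F) * v = (b : F) * ((c : F) * v) := by
        rw [h66r_algebraMap_coe]; push_cast; ring
      rw [e1]
      exact h66s_B_le_O hbI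
  · -- hinv
    intro s hs
    obtain ⟨d, hd, hds⟩ := s.2
    have hbP : ∀ P : Ideal B, h66rVert B 𝔫 π P → (⟨_, hds⟩ : B) ∉ P := by
      intro P hP hbP
      apply hs ⟨P, hP⟩
      have h3 : f ⟨P, hP⟩ ∣ φ ⟨_, hds⟩ := (hdvd_iff ⟨P, hP⟩ _).mpr hbP
      have h4 : φ ⟨_, hds⟩ = φ d * s := Subtype.ext rfl
      rw [h4] at h3
      rcases (hfprime ⟨P, hP⟩).dvd_or_dvd h3 with h | h
      · exfalso
        have h5 : d ∈ P := (hdvd_iff ⟨P, hP⟩ d).mp h
        exact hd (hP.2.2.1 h5)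
      · exact h
    obtain ⟨c, hc, hcV⟩ := hV2 ⟨_, hds⟩ hbP
    have hd0 : (d : F) ≠ 0 := h66s_coe_ne_zero hd
    refine ⟨c, hc, ?_⟩
    have e1 : (c : F) * ((s : F))⁻¹ = (d : F) * ((c : F) * ((d : F) * (s : F))⁻¹) := by
      rw [mul_inv]
      field_simp
    rw [e1]
    exact V.mul_mem (hBV _ d.2) hcV
  · -- hcomp
    intro a ha
    refine hcomp a fun i => ?_
    obtain ⟨y, hy, hg⟩ := ha i
    refine ⟨f i, ?_, y, hy, hg⟩
    rw [hfspan i]
    exact Ideal.mem_span_singleton_self _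

/-- **the semi-local datum at a closed point with at most one vertical prime through it**
(REG + compatibility of `V`; no toric condition). -/
theorem h66r_datum_one (B V : Subring F) [hN : IsNoetherianRing B] (hBV : ∀ x ∈ B, x ∈ V)
    (𝔫 : Ideal B) [h𝔫 : 𝔫.IsPrime] (q : ℕ) (hq : q.Prime) (π : B) (hπ0 : π ≠ 0)
    (hπq : π ∣ (q : B))
    (two_gen : ∃ x ∈ 𝔫, ∃ y ∈ 𝔫, ∀ z ∈ 𝔫, ∃ s, s ∉ 𝔫 ∧ s * z ∈ Ideal.span {x, y})
    (branch : ∀ P : Ideal B, P.IsPrime → π ∈ P → P ≤ 𝔫 → P ≠ 𝔫 →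
      ∃ t ∈ 𝔫, ∀ z ∈ 𝔫, ∃ s, s ∉ 𝔫 ∧ s * z ∈ P ⊔ Ideal.span {t})
    (hone : ∀ P P' : Ideal B, h66rVert B 𝔫 π P → h66rVert B 𝔫 π P' → P = P')
    (hex : ∃ P : Ideal B, h66rVert B 𝔫 π P)
    (hV1 : ∀ v ∈ V, ∀ P : Ideal B, h66rVert B 𝔫 π P → ∃ s : B, s ∉ P ∧ (s : F) * v ∈ B)
    (hV2 : ∀ b : B, (∀ P : Ideal B, h66rVert B 𝔫 π P → b ∉ P) →
      ∃ c : B, c ∉ 𝔫 ∧ (c : F) * ((b : F))⁻¹ ∈ V)
    (r : ℕ) (hr : r.Coprime q)
    (w : F) (hw0 : w ≠ 0) (hw : ∃ v ∈ V, w = 1 + (π : F) * v)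
    (g₀ : F) (hg₀ : g₀ ≠ 0) (hg₀V : ∃ c : B, c ∉ 𝔫 ∧ (c : F) * g₀ ∈ V)
    (s₀ : B) (hs₀ : s₀ ∉ 𝔫) (h1 : (s₀ : F) * (w * (g₀ ^ r)⁻¹) ∈ B)
    (h2 : (s₀ : F) * (g₀ ^ r * w⁻¹) ∈ B) :
    ∃ η : F, η ∈ h66sO B 𝔫 ∧ η⁻¹ ∈ h66sO B 𝔫 ∧ g₀ * η ≠ 0 ∧
      ∃ s : B, s ∉ 𝔫 ∧ (∃ y ∈ V, (s : F) * (g₀ * η - 1) = (π : F) * y) ∧
        (s : F) * (w * ((g₀ * η) ^ r)⁻¹) ∈ B ∧ (s : F) * ((g₀ * η) ^ r * w⁻¹) ∈ B := by
  refine h66r_datum B V hBV 𝔫 q hq π hπ0 hπq two_gen branch ?_ hex hV1 hV2 r hr w hw0 hw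
    g₀ hg₀ hg₀V s₀ hs₀ h1 h2 ?_
  · intro P P' hP hP' hπP hπP' hle hle' hne hne' hPP'
    exact absurd (hone P P' ⟨hP, hπP, hle, hne⟩ ⟨hP', hπP', hle', hne'⟩) hPP'
  · intro a _ i j
    have hij : i = j := Subtype.ext (hone i.1 j.1 i.2 j.2)
    rw [hij, sub_self]
    exact Ideal.zero_mem _

end Final

end Fermat.Agent.S36
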