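import Mathlib
import Fermat.Agent.S36.H66RegGlue

/-!
# S36, row L-GLUE (helper25): Lemma A with branch values, abstract form

Vocabulary of `S36/H66ChartSub.lean` / `S36/H66RegGlue.lean`: `B ≤ V` subrings of a field `F`,
`𝔫` a prime of `B`, `O = h66sO B 𝔫`, `V_𝔫 = h66sV B V hBV 𝔫`, `P i` primes of `B` (the vertical
primes through `𝔫`).

* `h25g_hcomp` : **the compatibility `hcomp` of `h66r_datum` from equal branch values.**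
  For every `i` let `Sm i : F → Prop` ("small along the component `i`") be stable under
  differences and under multiplication by `B`, contain `b v` for `b ∈ P i` and `v ∈ V`, and be
  centred at `𝔫` (`b ∈ B`, `Sm i b` ⟹ `b ∈ 𝔫`).  If `g₀` has the branch value `c` along every
  component (`s g₀ - b` small, `b - c s ∈ 𝔫`, `s ∉ 𝔫`), then any residues `a i` of `g₀` modulo
  `P i V_𝔫` are congruent modulo `𝔪_O`.
* `h25g_inLoc_of_pow` : `g₀ ∈ V_𝔫` as soon as `s g₀ ^ m / w ∈ B`, `w ∈ V` and `V` is closed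
  under `m`-th roots of elements of a subfield `F₀ ⊇ B`, `g₀ ∈ F₀`.
* `h25g_datum` : `h66r_datum` with `hcomp` replaced by the branch values.

Mathlib + `H66RegGlue` only.
-/

set_option autoImplicit false
set_option linter.unusedSectionVars false

open IsLocalRing

namespace Fermat.Agent.S36

section Abs

variable {F : Type*} [Field F]

/-- **`hcomp` from equal branch values.** -/
theorem h25g_hcomp (B V : Subring F) (hBV : ∀ x ∈ B, x ∈ V) (𝔫 : Ideal B) [h𝔫 : 𝔫.IsPrime]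
    {ι : Type*} (P : ι → Ideal B) (g₀ : F) (c : B) (Sm : ι → F → Prop)
    (hsub : ∀ i x y, Sm i x → Sm i y → Sm i (x - y))
    (hmul : ∀ i (β : B) x, Sm i x → Sm i ((β : F) * x))
    (hP : ∀ i (b : B), b ∈ P i → ∀ v ∈ V, Sm i ((b : F) * v))
    (hcen : ∀ i (b : B), Sm i (b : F) → b ∈ 𝔫)
    (hbv : ∀ i, ∃ b s : B, s ∉ 𝔫 ∧ Sm i ((s : F) * g₀ - (b : F)) ∧ b - c * s ∈ 𝔫) :
    ∀ a : ι → h66sO B 𝔫,
      (∀ i, ∃ p ∈ (P i).map (algebraMap B (h66sO B 𝔫)), ∃ y ∈ h66sV B V hBV 𝔫,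
        g₀ = (a i : F) + (p : F) * y) →
      ∀ i j, a i - a j ∈ maximalIdeal (h66sO B 𝔫) := by
  intro a ha
  have key : ∀ i, a i - (⟨(c : F), h66s_B_le_O c.2⟩ : h66sO B 𝔫) ∈
      maximalIdeal (h66sO B 𝔫) := by
    intro i
    obtain ⟨p, hp, y, ⟨c', hc', hcy⟩, hg⟩ := ha i
    obtain ⟨σ, hσ, hσa⟩ := (a i).2
    obtain ⟨τ, φ, hτ, hφ, hτp⟩ := (h66r_mem_map_iff B 𝔫 (P i) p).mp hp
    obtain ⟨b, s, hs, hsm, hbc⟩ := hbv i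
    have hT2 : Sm i (((σ * s : B) : F) * ((φ : F) * ((c' : F) * y))) :=
      hmul i (σ * s) _ (hP i φ hφ _ hcy)
    have hT1 : Sm i (((σ * τ * c' : B) : F) * ((s : F) * g₀ - (b : F))) :=
      hmul i (σ * τ * c') _ hsm
    have hT := hsub i _ _ hT1 hT2
    -- the element `b' = s' (a i - c)` of `B`, `s' = σ τ c' s`
    have hb'F : ((σ * τ * c' * s : B) : F) * ((a i : F) - (c : F)) =
        ((τ * c' * s * ⟨_, hσa⟩ - σ * τ * c' * s * c : B) : F) := by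
      push_cast
      ring
    have hdiff : (((τ * c' * s * ⟨_, hσa⟩ - σ * τ * c' * s * c
        - σ * τ * c' * (b - c * s) : B) : B) : F) =
        ((σ * τ * c' : B) : F) * ((s : F) * g₀ - (b : F)) -
          ((σ * s : B) : F) * ((φ : F) * ((c' : F) * y)) := by
      push_cast
      rw [hg, ← hτp]
      ring
    have h1 : τ * c' * s * ⟨_, hσa⟩ - σ * τ * c' * s * c - σ * τ * c' * (b - c * s) ∈ 𝔫 := by
      apply hcen i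
      rw [hdiff]
      exact hT
    have h2 : τ * c' * s * ⟨_, hσa⟩ - σ * τ * c' * s * c ∈ 𝔫 := by
      have e : τ * c' * s * ⟨_, hσa⟩ - σ * τ * c' * s * c =
          (τ * c' * s * ⟨_, hσa⟩ - σ * τ * c' * s * c - σ * τ * c' * (b - c * s))
            + σ * τ * c' * (b - c * s) := by ring
      rw [e]
      exact 𝔫.add_mem h1 (𝔫.mul_mem_left _ hbc)
    have hs' : σ * τ * c' * s ∉ 𝔫 := by
      intro h
      rcases h𝔫.mem_or_mem h with h | h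
      · rcases h𝔫.mem_or_mem h with h | h
        · rcases h𝔫.mem_or_mem h with h | h
          · exact hσ h
          · exact hτ h
        · exact hc' h
      · exact hs h
    rw [h66s_mem_maximalIdeal_iff]
    exact ⟨σ * τ * c' * s, _, hs', h2, hb'F⟩
  intro i j
  have e : a i - a j = (a i - (⟨(c : F), h66s_B_le_O c.2⟩ : h66sO B 𝔫))
      - (a j - (⟨(c : F), h66s_B_le_O c.2⟩ : h66sO B 𝔫)) := by ring
  rw [e]
  exact Ideal.sub_mem _ (key i) (key j)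

/-- a local `m`-th root `g₀ ∈ F₀` of a unit of `V` lies in `V_𝔫`, if `V` is closed under
`m`-th roots of elements of `F₀`. -/
theorem h25g_inLoc_of_pow (B V : Subring F) (hBV : ∀ x ∈ B, x ∈ V) (𝔫 : Ideal B)
    [𝔫.IsPrime] (F₀ : Subfield F) (hBF : ∀ x ∈ B, x ∈ F₀) (m : ℕ) (hm : m ≠ 0)
    (hroot : ∀ x : F, x ∈ F₀ → x ^ m ∈ V → x ∈ V)
    (w : F) (hw0 : w ≠ 0) (hwV : w ∈ V) (g₀ : F) (hg₀ : g₀ ∈ F₀)
    (s₀ : B) (hs₀ : s₀ ∉ 𝔫) (h2 : (s₀ : F) * (g₀ ^ m * w⁻¹) ∈ B) :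
    ∃ c : B, c ∉ 𝔫 ∧ (c : F) * g₀ ∈ V := by
  refine ⟨s₀, hs₀, hroot _ (F₀.mul_mem (hBF _ s₀.2) hg₀) ?_⟩
  have e : ((s₀ : F) * g₀) ^ m = (s₀ : F) ^ (m - 1) * ((s₀ : F) * (g₀ ^ m * w⁻¹)) * w := by
    have hm' : m = (m - 1) + 1 := by omega
    rw [mul_pow]
    nth_rewrite 1 [hm']
    rw [pow_succ]
    field_simp
  rw [e]
  exact V.mul_mem (V.mul_mem (V.pow_mem (hBV _ s₀.2) _) (hBV _ h2)) hwV

/-- **Lemma A with branch values**: `h66r_datum` with `hcomp` replaced by the equality of the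
branch values of `g₀` along the vertical primes through `𝔫`. -/
theorem h25g_datum (B V : Subring F) [hN : IsNoetherianRing B] (hBV : ∀ x ∈ B, x ∈ V)
    (𝔫 : Ideal B) [h𝔫 : 𝔫.IsPrime] (q : ℕ) (hq : q.Prime) (π : B) (hπ0 : π ≠ 0)
    (hπq : π ∣ (q : B))
    (two_gen : ∃ x ∈ 𝔫, ∃ y ∈ 𝔫, ∀ z ∈ 𝔫, ∃ s, s ∉ 𝔫 ∧ s * z ∈ Ideal.span {x, y})
    (branch : ∀ P : Ideal B, P.IsPrime → π ∈ P → P ≤ 𝔫 → P ≠ 𝔫 →
      ∃ t ∈ 𝔫, ∀ z ∈ 𝔫, ∃ s, s ∉ 𝔫 ∧ s * z ∈ P ⊔ Ideal.span {t})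
    (transversal : ∀ P P' : Ideal B, P.IsPrime → P'.IsPrime → π ∈ P → π ∈ P' →
      P ≤ 𝔫 → P' ≤ 𝔫 → P ≠ 𝔫 → P' ≠ 𝔫 → P ≠ P' →
      ∀ z ∈ 𝔫, ∃ s, s ∉ 𝔫 ∧ s * z ∈ P ⊔ P')
    (hex : ∃ P : Ideal B, h66rVert B 𝔫 π P)
    (hV1 : ∀ v ∈ V, ∀ P : Ideal B, h66rVert B 𝔫 π P → ∃ s : B, s ∉ P ∧ (s : F) * v ∈ B)
    (hV2 : ∀ b : B, (∀ P : Ideal B, h66rVert B 𝔫 π P → b ∉ P) →
      ∃ c : B, c ∉ 𝔫 ∧ (c : F) * ((b : F))⁻¹ ∈ V)
    (r : ℕ) (hr : r.Coprime q)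
    (w : F) (hw0 : w ≠ 0) (hw : ∃ v ∈ V, w = 1 + (π : F) * v)
    (g₀ : F) (hg₀ : g₀ ≠ 0) (hg₀V : ∃ c : B, c ∉ 𝔫 ∧ (c : F) * g₀ ∈ V)
    (s₀ : B) (hs₀ : s₀ ∉ 𝔫) (h1 : (s₀ : F) * (w * (g₀ ^ r)⁻¹) ∈ B)
    (h2 : (s₀ : F) * (g₀ ^ r * w⁻¹) ∈ B)
    (c : B) (Sm : {P : Ideal B // h66rVert B 𝔫 π P} → F → Prop)
    (hsub : ∀ i x y, Sm i x → Sm i y → Sm i (x - y))
    (hmul : ∀ i (β : B) x, Sm i x → Sm i ((β : F) * x))
    (hP : ∀ (i : {P : Ideal B // h66rVert B 𝔫 π P}) (b : B), b ∈ (i : Ideal B) →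
      ∀ v ∈ V, Sm i ((b : F) * v))
    (hcen : ∀ i (b : B), Sm i (b : F) → b ∈ 𝔫)
    (hbv : ∀ i, ∃ b s : B, s ∉ 𝔫 ∧ Sm i ((s : F) * g₀ - (b : F)) ∧ b - c * s ∈ 𝔫) :
    ∃ η : F, η ∈ h66sO B 𝔫 ∧ η⁻¹ ∈ h66sO B 𝔫 ∧ g₀ * η ≠ 0 ∧
      ∃ s : B, s ∉ 𝔫 ∧ (∃ y ∈ V, (s : F) * (g₀ * η - 1) = (π : F) * y) ∧
        (s : F) * (w * ((g₀ * η) ^ r)⁻¹) ∈ B ∧ (s : F) * ((g₀ * η) ^ r * w⁻¹) ∈ B :=
  h66r_datum B V hBV 𝔫 q hq π hπ0 hπq two_gen branch transversal hex hV1 hV2 r hr w hw0 hw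
    g₀ hg₀ hg₀V s₀ hs₀ h1 h2
    (h25g_hcomp B V hBV 𝔫 (fun i : {P : Ideal B // h66rVert B 𝔫 π P} => (i : Ideal B))
      g₀ c Sm hsub hmul hP hcen hbv)

end Abs

end Fermat.Agent.S36
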