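import Fermat.Agent.S36.H25GlueIface
import Fermat.Agent.S36.H25DictAbs
import Fermat.Agent.S36.H3Hden
import Fermat.Agent.S36.H88VFinal
import Fermat.Agent.S36.H81TorGlob
import Fermat.Agent.S36.H93ApproxRes
import Fermat.Agent.S36.H20Emb

/-!
# S36, row L-GLUE-DICT (helper25): the embedding dictionary `H25GlueDict`

`h25d_glueDict : H25GlueDict` (exact frozen Prop of `S36/H25GlueIface.lean`), unconditional:
every vertical prime `P` through a closed point `𝔫` of the special fibre of the chart `j` of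
level `M q²` over `A₀` lies in the centre of one of the three vertical embeddings `E20`, `E11^ζ`,
`E02` whose centre lies in `𝔫`; `V₀` is Gauss-integral at the three embeddings.

Proof: `h25d_centre` (prime avoidance, `S36/H25DictAbs.lean`) for the three valuation subrings
`h93aO` of `F₀` (helper93; rank one `h93aO_arch`), with
* `⋂ O k ∩ F₀ = V₀` : V-COMPLETE `h88v_vcomplete_final` (helper88, helper85, helper6),
* `V₀ ⊆ B_P` : `h3k_hden` (helper3),
* `V ⊆ O k` : `h81t_V_int20/11/02` (helper81).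
-/

set_option autoImplicit false
set_option linter.unusedSectionVars false
set_option linter.style.haveILetI false

open AlgebraicCurve ModularCurve IsLocalRing

noncomputable section

namespace Fermat.Agent.S36

open Fermat.Agent.S37 (Kbar GQ FF cst jB gal modelAt degen auxLevel)
open Fermat.Agent.Red.GV.Soft (softOT softRedT dfField FF_le_dfField softRedT_eq_zero_iff)

/-! ## Gauss-small = nonunit of the valuation subring of the embedding -/

section Small

variable {q : ℕ}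

/-- the inclusion of the chart over `A₀` in `F₀`. -/
def h25dIncl (A : ValuationSubring Kbar) (N : ℕ) (t : FF N) :
    h92c_Chart A N t →+* h92c_F0 A N where
  toFun b := ⟨(b : FF N), b.2.2⟩
  map_one' := rfl
  map_mul' _ _ := rfl
  map_zero' := rfl
  map_add' _ _ := rfl

theorem h25d_incl_coe (A : ValuationSubring Kbar) (N : ℕ) (t : FF N) (b : h92c_Chart A N t) :
    ((h25dIncl A N t b : h92c_F0 A N) : FF N) = (b : FF N) := rfl

theorem h25d_incl_injective (A : ValuationSubring Kbar) (N : ℕ) (t : FF N) :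
    Function.Injective (h25dIncl A N t) := fun _ _ h =>
  Subtype.ext (congrArg (fun z : h92c_F0 A N => (z : FF N)) h)

theorem h25d_mem_O (hq : q.Prime) (A : ValuationSubring Kbar) (hA : A.LiesOverPrime q) {N : ℕ}
    (E : FF N →+* LaurentSeries Kbar) (hE : ∀ u, E u ∈ dfField (K := Kbar))
    (x : h92c_F0 A N) :
    x ∈ h93aO q hq A hA E hE ↔ h74w_Int A E (x : FF N) := Iff.rfl

/-- **Gauss-small = nonunit.** -/
theorem h25d_small_iff (hq : q.Prime) (A : ValuationSubring Kbar) (hA : A.LiesOverPrime q)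
    {N : ℕ} (E : FF N →+* LaurentSeries Kbar) (hE : ∀ u, E u ∈ dfField (K := Kbar))
    (x : h92c_F0 A N) :
    x ∈ (h93aO q hq A hA E hE).nonunits ↔ h11l_Small A E (x : FF N) := by
  constructor
  · intro hx
    have hmem : E (x : FF N) ∈ softOT A (IsLocalRing.residue A) :=
      (h25d_mem_O hq A hA E hE x).mp ((h93aO q hq A hA E hE).nonunits_le hx)
    refine ⟨hmem, (softRedT_eq_zero_iff _).mpr ?_⟩
    rw [h93aO, h93a_mem_nonunits_comap, h93a_mem_nonunits_GV] at hx
    exact hx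
  · rintro ⟨hmem, h0⟩
    rw [h93aO, h93a_mem_nonunits_comap, h93a_mem_nonunits_GV]
    exact (softRedT_eq_zero_iff _).mp h0

end Small

/-! ## The dictionary -/

/-- **L-GLUE-DICT** (exact frozen Prop `H25GlueDict`). -/
theorem h25d_glueDict : H25GlueDict := by
  classical
  intro q hq M _ hqM haux
  haveI : NeZero q := ⟨hq.ne_zero⟩
  intro A hA 𝔫 h𝔫 hq𝔫 P hPv
  obtain ⟨hPprime, hqP, hP𝔫, hPne⟩ := hPv
  haveI : 𝔫.IsPrime := h𝔫.isPrime
  haveI : P.IsPrime := hPprime
  -- the triple of embeddings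
  obtain ⟨ζ, hζ⟩ := HasEnoughRootsOfUnity.exists_primitiveRoot Kbar q
  obtain ⟨E11, hE11⟩ := h20n_exists_E11 M q hq hqM ζ hζ.pow_eq_one (hζ.ne_one hq.one_lt)
  obtain ⟨E02, hE02⟩ := h20n_exists_E02 M q hq hqM
  have hT : h20v_Triple M q hq hqM ζ E11 E02 := ⟨hζ, hE11, hE02⟩
  have hDF20 : ∀ u, h20n_E20 M q u ∈ dfField (K := Kbar) := fun u => FF_le_dfField _ u
  have hDF11 : ∀ u, E11 u ∈ dfField (K := Kbar) :=
    h12e_embDF q hq M hqM E11 (Or.inl ⟨ζ, hζ.pow_eq_one, hE11⟩)
  have hDF02 : ∀ u, E02 u ∈ dfField (K := Kbar) := h12e_embDF q hq M hqM E02 (Or.inr hE02)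
  -- the family of embeddings
  obtain ⟨E, hE0, hE1, hE2⟩ : ∃ E : Fin 3 → (FF (M * q * q) →+* LaurentSeries Kbar),
      E 0 = h20n_E20 M q ∧ E 1 = E11 ∧ E 2 = E02 := ⟨![h20n_E20 M q, E11, E02], rfl, rfl, rfl⟩
  have hDF : ∀ k u, E k u ∈ dfField (K := Kbar) := by
    intro k
    fin_cases k
    · show ∀ u, E 0 u ∈ _
      rw [hE0]; exact hDF20
    · show ∀ u, E 1 u ∈ _
      rw [hE1]; exact hDF11
    · show ∀ u, E 2 u ∈ _
      rw [hE2]; exact hDF02
  have hVE : ∀ k, h11l_IsVE M q hq hqM (E k) := by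
    intro k
    fin_cases k
    · show h11l_IsVE M q hq hqM (E 0)
      rw [hE0]; exact Or.inl rfl
    · show h11l_IsVE M q hq hqM (E 1)
      rw [hE1]; exact Or.inr (Or.inl ⟨ζ, hζ, hE11⟩)
    · show h11l_IsVE M q hq hqM (E 2)
      rw [hE2]; exact Or.inr (Or.inr hE02)
  have hVint : ∀ k, ∀ x ∈ h92c_V A M q, h74w_Int A (E k) x := by
    intro k
    fin_cases k
    · show ∀ x ∈ h92c_V A M q, h74w_Int A (E 0) x
      rw [hE0]; exact fun x hx => h81t_V_int20 hq hA hx
    · show ∀ x ∈ h92c_V A M q, h74w_Int A (E 1) x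
      rw [hE1]; exact fun x hx => h81t_V_int11 hq hqM hA hζ.pow_eq_one E11 hE11 hx
    · show ∀ x ∈ h92c_V A M q, h74w_Int A (E 2) x
      rw [hE2]; exact fun x hx => h81t_V_int02 hq hqM hA E02 hE02 hx
  -- the chart lies in `V₀`
  have hBV : ∀ x ∈ h92c_Chart A (M * q * q) (jB (M * q * q)), x ∈ h92c_V0 A M q :=
    fun x hx => h3w_chart_le_V0 hq hqM hA hx
  -- `P ≠ ⊥`
  have hP0 : P ≠ ⊥ := by
    intro h
    rw [h, Ideal.mem_bot] at hqP
    have h1 := congrArg
      (Subtype.val : h92c_Chart A (M * q * q) (jB (M * q * q)) → FF (M * q * q)) hqP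
    have h2 : ((q : ℕ) : FF (M * q * q)) = 0 := by simpa using h1
    exact hq.ne_zero (Nat.cast_eq_zero.mp h2)
  have hPmax : ¬ P.IsMaximal := fun hmax => hPne (hmax.eq_of_le h𝔫.ne_top hP𝔫)
  -- prime avoidance
  obtain ⟨k, hcen, hPk⟩ := h25d_centre (h25dIncl A (M * q * q) (jB (M * q * q)))
    (h25d_incl_injective A _ _) (fun k => h93aO q hq A hA (E k) (hDF k))
    (fun k b => (h25d_mem_O hq A hA (E k) (hDF k) _).mpr (hVint k _ (hBV _ b.2).1))
    (fun k => h93aO_arch hq A hA (E k) (hDF k)) 𝔫 P hP𝔫 hP0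
    (by
      intro v hv
      have h0 : h74w_Int A (h20n_E20 M q) (v : FF (M * q * q)) := by
        have := (h25d_mem_O hq A hA (E 0) (hDF 0) v).mp (hv 0)
        rwa [hE0] at this
      have h1 : h74w_Int A E11 (v : FF (M * q * q)) := by
        have := (h25d_mem_O hq A hA (E 1) (hDF 1) v).mp (hv 1)
        rwa [hE1] at this
      have h2 : h74w_Int A E02 (v : FF (M * q * q)) := by
        have := (h25d_mem_O hq A hA (E 2) (hDF 2) v).mp (hv 2)
        rwa [hE2] at this
      have hvV : (v : FF (M * q * q)) ∈ h92c_V A M q :=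
        h88v_vcomplete_final q hq M hqM haux A hA ζ E11 E02 hT (v : FF (M * q * q)) v.2
          ⟨h0, h1, h2⟩
      obtain ⟨s, hs, hsv⟩ := h3k_hden hq hqM hA P hPprime hPmax hqP (v : FF (M * q * q))
        ⟨hvV, v.2⟩
      exact ⟨s, hs, ⟨_, hsv⟩, Subtype.ext rfl⟩)
  refine ⟨E k, hVE k, fun b hb => ?_, fun b hb => ?_, fun x hx => hVint k x hx.1⟩
  · exact hcen b ((h25d_small_iff hq A hA (E k) (hDF k) (h25dIncl A _ _ b)).mpr hb)
  · exact (h25d_small_iff hq A hA (E k) (hDF k) (h25dIncl A _ _ b)).mp (hPk b hb)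

end Fermat.Agent.S36
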