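import Fermat.Agent.S36.H25Glue
import Fermat.Agent.S36.H25GlueDict

/-!
# S36, row L-GLUE (helper25): `H11LocGlue` from REG and the chart/`V₀` compatibility

`h25g_glue_final : H62RegStatement → H86LocVComp → H11LocGlue` (exact frozen Prop of
`S36/H11LocSkel.lean`): `h25g_glue` with the unconditional dictionary `h25d_glueDict`.
-/

set_option autoImplicit false

namespace Fermat.Agent.S36

/-- **L-GLUE.** -/
theorem h25g_glue_final (hReg : H62RegStatement) (hVC : H86LocVComp) : H11LocGlue :=
  h25g_glue hReg hVC h25d_glueDict

end Fermat.Agent.S36
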