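import Fermat.Agent.S36.H62RegIface
import Fermat.Agent.S36.V28Fix
import Fermat.Agent.LGC.Fin71Final
import Fermat.Agent.LGC.Red63
import Fermat.Agent.Red.BC.Main
import Fermat.Agent.Red.GGChart
import Fermat.Agent.S37.Inertia

/-!
# S36, block REG, row R-REDISO (helper25): the chart over `A₀` has the same special fibre

`A` a valuation subring of `ℚ̄` over the prime `q`, `I = A.inertiaSubgroupIn ℚ`,
`B = modelAt N A t` (the chart over `A`), `B₀ = h62rChart A N t = B ∩ F₀` (the chart over the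
inertia ring `A₀`), `𝔪_A B = h25i_mExt A N t` (as an additive subgroup of `FF N`).

* `h25i_congr_of_bc` : **`B = B₀ + 𝔪_A B`** for every chart with base change (`BCAt N A t`).
* `h25i_inter_of` : **`𝔪_A B ∩ B₀ = q B₀`**, abstract form (inputs: a Gauss ring `V` with
  `hQEP` and divisibility by `q` of the `I`-invariant elements of `𝔪_A B` in `V`).
* levels `M` (`q ∤ M`) and `M q`, charts `t = j`, `t = j⁻¹`:
  `h25i_congr_M_fin`, `h25i_congr_M_inf`, `h25i_congr_Mq_fin`, `h25i_congr_Mq_inf`,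
  `h25i_inter_M_fin`, `h25i_inter_M_inf`, `h25i_inter_Mq_fin`, `h25i_inter_Mq_inf`.
-/

set_option autoImplicit false
set_option linter.unusedSectionVars false
set_option linter.style.haveILetI false

open AlgebraicCurve ModularCurve IsLocalRing

noncomputable section

namespace Fermat.Agent.S36

open Fermat.Agent.S37 (Kbar GQ FF cst gal jB modelAt modelFin modelInf IsRat)
open Fermat.Agent.Red.GV Fermat.Agent.Red.GV.Soft
open Fermat.Agent.LGC (BCAt ssV jSS)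
open Fermat.Agent.Red.Kron (kFricke)

/-! ## The ideal `𝔪_A B` -/

section Basic

variable (A : ValuationSubring Kbar) (N : ℕ) (t : FF N)

/-- `𝔪_A · modelAt N A t`, as an additive subgroup of `FF N`. -/
def h25i_mExt : AddSubgroup (FF N) :=
  AddSubgroup.closure
    {x | ∃ (a : Kbar) (b : FF N), a ∈ A.nonunits ∧ b ∈ modelAt N A t ∧ x = cst N a * b}

variable {A N t}

theorem h25i_gen_mem {a : Kbar} {b : FF N} (ha : a ∈ A.nonunits) (hb : b ∈ modelAt N A t) :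
    cst N a * b ∈ h25i_mExt A N t :=
  AddSubgroup.subset_closure ⟨a, b, ha, hb, rfl⟩

/-- `𝔪_A B ⊆ B`. -/
theorem h25i_mExt_le {x : FF N} (hx : x ∈ h25i_mExt A N t) : x ∈ modelAt N A t := by
  refine AddSubgroup.closure_induction (p := fun x _ => x ∈ modelAt N A t) ?_ ?_ ?_ ?_ hx
  · rintro _ ⟨a, b, ha, hb, rfl⟩
    exact mul_mem (Fermat.Agent.Red.ModelO.h85_cst_mem_modelAt N A t (A.nonunits_subset ha)) hb
  · exact zero_mem _
  · intro x y _ _ hx hy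
    exact add_mem hx hy
  · intro x _ hx
    exact neg_mem hx

/-- `B · 𝔪_A B ⊆ 𝔪_A B`. -/
theorem h25i_mul_mem {b x : FF N} (hb : b ∈ modelAt N A t) (hx : x ∈ h25i_mExt A N t) :
    b * x ∈ h25i_mExt A N t := by
  refine AddSubgroup.closure_induction (p := fun x _ => b * x ∈ h25i_mExt A N t) ?_ ?_ ?_ ?_ hx
  · rintro _ ⟨a, c, ha, hc, rfl⟩
    have e : b * (cst N a * c) = cst N a * (b * c) := by ring
    rw [e]
    exact h25i_gen_mem ha (mul_mem hb hc)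
  · rw [mul_zero]
    exact zero_mem _
  · intro x y _ _ hx hy
    rw [mul_add]
    exact add_mem hx hy
  · intro x _ hx
    rw [mul_neg]
    exact neg_mem hx

/-- a constant of `𝔪_A` lies in `𝔪_A B`. -/
theorem h25i_cst_mem {a : Kbar} (ha : a ∈ A.nonunits) : cst N a ∈ h25i_mExt A N t := by
  have h := h25i_gen_mem (t := t) ha (one_mem (modelAt N A t))
  rwa [mul_one] at h

/-- `B₀ ⊆ B`. -/
theorem h25i_chart0_le {x : FF N} (hx : x ∈ h62rChart A N t) : x ∈ modelAt N A t :=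
  (h62r_mem_chart.mp hx).1

theorem h25i_chart0_fixed {x : FF N} (hx : x ∈ h62rChart A N t) :
    ∀ σ ∈ A.inertiaSubgroupIn ℚ, gal N σ • x = x :=
  (h62r_mem_chart.mp hx).2

end Basic

/-! ## `B = B₀ + 𝔪_A B` -/

section Congr

variable {A : ValuationSubring Kbar} {N : ℕ} {t : FF N}

/-- **`B = B₀ + 𝔪_A B`**: a chart with base change is generated modulo `𝔪_A` by its
inertia-invariant elements. -/
theorem h25i_congr_of_bc {q : ℕ} (hq : q.Prime) (hA : A.LiesOverPrime q) (hBC : BCAt N A t)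
    {x : FF N} (hx : x ∈ modelAt N A t) :
    ∃ x₀ : FF N, x₀ ∈ h62rChart A N t ∧ x - x₀ ∈ h25i_mExt A N t := by
  have key : ∀ y ∈ Subring.closure
      ((fun a : Kbar => cst N a) '' (A : Set Kbar) ∪ {f | IsRat f ∧ f ∈ modelAt N A t}),
      y ∈ modelAt N A t ∧ ∃ y₀ : FF N, y₀ ∈ h62rChart A N t ∧ y - y₀ ∈ h25i_mExt A N t := by
    intro y hy
    induction hy using Subring.closure_induction with
    | mem y hy =>
      rcases hy with ⟨a, ha, rfl⟩ | ⟨hrat, hmem⟩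
      · -- a constant of `A`
        obtain ⟨a', ha', hfix, hcong⟩ := Fermat.Agent.LGC.h57_exists_inertia_fixed (k := ℚ)
          (fun x => Fermat.Agent.LGC.h57_isAlgebraic_int x) A hq hA ha
        refine ⟨Fermat.Agent.Red.ModelO.h85_cst_mem_modelAt N A t ha, cst N a', ?_, ?_⟩
        · refine h62r_mem_chart.mpr
            ⟨Fermat.Agent.Red.ModelO.h85_cst_mem_modelAt N A t ha', fun σ hσ => ?_⟩
          rw [Fermat.Agent.S37.GalI.gal_smul_cst, hfix σ hσ]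
        · have e : (fun a : Kbar => cst N a) a - cst N a' = cst N (a - a') := by
            simp only [map_sub]
          rw [e]
          exact h25i_cst_mem hcong
      · -- a function with rational `q`-expansion
        refine ⟨hmem, y, h62r_mem_chart.mpr
          ⟨hmem, fun σ _ => Fermat.Agent.S37.GalI.gal_smul_of_isRat σ hrat⟩, ?_⟩
        rw [sub_self]
        exact zero_mem _
    | zero =>
      exact ⟨zero_mem _, 0, zero_mem _, by rw [sub_zero]; exact zero_mem _⟩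
    | one =>
      exact ⟨one_mem _, 1, one_mem _, by rw [sub_self]; exact zero_mem _⟩
    | add y z _ _ ihy ihz =>
      obtain ⟨hy, y₀, hy₀, hyy⟩ := ihy
      obtain ⟨hz, z₀, hz₀, hzz⟩ := ihz
      refine ⟨add_mem hy hz, y₀ + z₀, add_mem hy₀ hz₀, ?_⟩
      have e : y + z - (y₀ + z₀) = (y - y₀) + (z - z₀) := by ring
      rw [e]
      exact add_mem hyy hzz
    | neg y _ ihy =>
      obtain ⟨hy, y₀, hy₀, hyy⟩ := ihy
      refine ⟨neg_mem hy, -y₀, neg_mem hy₀, ?_⟩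
      have e : -y - -y₀ = -(y - y₀) := by ring
      rw [e]
      exact neg_mem hyy
    | mul y z _ _ ihy ihz =>
      obtain ⟨hy, y₀, hy₀, hyy⟩ := ihy
      obtain ⟨hz, z₀, hz₀, hzz⟩ := ihz
      refine ⟨mul_mem hy hz, y₀ * z₀, mul_mem hy₀ hz₀, ?_⟩
      have e : y * z - y₀ * z₀ = y * (z - z₀) + z₀ * (y - y₀) := by ring
      rw [e]
      exact add_mem (h25i_mul_mem hy hzz) (h25i_mul_mem (h25i_chart0_le hz₀) hyy)
  exact (key x (hBC hx)).2

end Congr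

/-! ## `𝔪_A B ∩ B₀ = q B₀` -/

section Inter

variable {A : ValuationSubring Kbar} {N : ℕ} {t : FF N}

/-- **`𝔪_A B ∩ B₀ ⊆ q B₀`**, abstract form. -/
theorem h25i_inter_of {q : ℕ} (hq : q.Prime) (V : Subring (FF N))
    (hdiv : ∀ x : FF N, (∀ σ ∈ A.inertiaSubgroupIn ℚ, gal N σ • x = x) →
      x ∈ h25i_mExt A N t → cst N ((q : ℕ) : Kbar)⁻¹ * x ∈ V)
    (hQEP : ∀ x ∈ V, cst N ((q : ℕ) : Kbar) * x ∈ modelAt N A t → x ∈ modelAt N A t)
    {x : FF N} (hx : x ∈ h62rChart A N t) (hxm : x ∈ h25i_mExt A N t) :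
    cst N ((q : ℕ) : Kbar)⁻¹ * x ∈ h62rChart A N t := by
  have hq0 : ((q : ℕ) : Kbar) ≠ 0 := Nat.cast_ne_zero.mpr hq.ne_zero
  have hfix := h25i_chart0_fixed hx
  refine h62r_mem_chart.mpr ⟨?_, fun σ hσ => ?_⟩
  · refine hQEP _ (hdiv x hfix hxm) ?_
    rw [← mul_assoc, ← map_mul, mul_inv_cancel₀ hq0, map_one, one_mul]
    exact h25i_chart0_le hx
  · rw [smul_mul', Fermat.Agent.S37.GalI.gal_smul_cst, hfix σ hσ, map_inv₀, map_natCast]

/-- the converse inclusion `q B₀ ⊆ 𝔪_A B ∩ B₀`. -/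
theorem h25i_q_mul_mem {q : ℕ} (hA : A.LiesOverPrime q) {y : FF N}
    (hy : y ∈ h62rChart A N t) :
    cst N ((q : ℕ) : Kbar) * y ∈ h62rChart A N t ∧
      cst N ((q : ℕ) : Kbar) * y ∈ h25i_mExt A N t := by
  refine ⟨?_, h25i_gen_mem hA (h25i_chart0_le hy)⟩
  refine h62r_mem_chart.mpr ⟨?_, fun σ hσ => ?_⟩
  · exact mul_mem (Fermat.Agent.Red.ModelO.h85_cst_mem_modelAt N A t (A.nonunits_subset hA))
      (h25i_chart0_le hy)
  · rw [smul_mul', Fermat.Agent.S37.GalI.gal_smul_cst, h25i_chart0_fixed hy σ hσ, map_natCast]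

/-- elements of `𝔪_A B` are Gauss-integral with zero reduction, as soon as `B` consists of
Gauss-integral functions. -/
theorem h25i_softR_eq_zero (hBV : ∀ x ∈ modelAt N A t, x ∈ softV A N) {x : FF N}
    (hx : x ∈ h25i_mExt A N t) :
    ∃ h : x ∈ softV A N, softR A N ⟨x, h⟩ = 0 := by
  refine AddSubgroup.closure_induction
    (p := fun x _ => ∃ h : x ∈ softV A N, softR A N ⟨x, h⟩ = 0) ?_ ?_ ?_ ?_ hx
  · rintro _ ⟨a, b, ha, hb, rfl⟩
    have hb' := hBV b hb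
    have ha' : cst N a ∈ softV A N := (cst_mem_softV_iff A N a).mpr (A.nonunits_subset ha)
    refine ⟨mul_mem ha' hb', ?_⟩
    have e : (⟨cst N a * b, mul_mem ha' hb'⟩ : softV A N) = ⟨cst N a, ha'⟩ * ⟨b, hb'⟩ := rfl
    rw [e, map_mul, softR_cst_of_nonunit A N a ha ha', zero_mul]
  · exact ⟨zero_mem _, map_zero _⟩
  · rintro x y _ _ ⟨hx, hx0⟩ ⟨hy, hy0⟩
    refine ⟨add_mem hx hy, ?_⟩
    have e : (⟨x + y, add_mem hx hy⟩ : softV A N) = ⟨x, hx⟩ + ⟨y, hy⟩ := rfl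
    rw [e, map_add, hx0, hy0, add_zero]
  · rintro x _ ⟨hx, hx0⟩
    refine ⟨neg_mem hx, ?_⟩
    have e : (⟨-x, neg_mem hx⟩ : softV A N) = -⟨x, hx⟩ := rfl
    rw [e, map_neg, hx0, neg_zero]

end Inter

/-! ## Level `M`, `q ∤ M` -/

section LevelM

variable {A : ValuationSubring Kbar} {M q : ℕ} [NeZero M]

/-- `B = B₀ + 𝔪_A B`, level `M`, finite chart. -/
theorem h25i_congr_M_fin (hq : q.Prime) (hM : ¬ q ∣ M) (hA : A.LiesOverPrime q)
    {x : FF M} (hx : x ∈ modelAt M A (jB M)) :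
    ∃ x₀ : FF M, x₀ ∈ h62rChart A M (jB M) ∧ x - x₀ ∈ h25i_mExt A M (jB M) :=
  h25i_congr_of_bc hq hA (Fermat.Agent.Red.BC.ifaceBaseChange M q hq hM A hA).1 hx

/-- `B = B₀ + 𝔪_A B`, level `M`, chart at infinity. -/
theorem h25i_congr_M_inf (hq : q.Prime) (hM : ¬ q ∣ M) (hA : A.LiesOverPrime q)
    {x : FF M} (hx : x ∈ modelAt M A (jB M)⁻¹) :
    ∃ x₀ : FF M, x₀ ∈ h62rChart A M (jB M)⁻¹ ∧ x - x₀ ∈ h25i_mExt A M (jB M)⁻¹ :=
  h25i_congr_of_bc hq hA (Fermat.Agent.Red.BC.ifaceBaseChange M q hq hM A hA).2 hx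

/-- divisibility by `q` in the Gauss ring of level `M`. -/
theorem h25i_div_M (hq : q.Prime) (hM : ¬ q ∣ M) (hA : A.LiesOverPrime q) (t : FF M)
    (hBV : ∀ x ∈ modelAt M A t, x ∈ gaussV A M) (x : FF M)
    (hfix : ∀ σ ∈ A.inertiaSubgroupIn ℚ, gal M σ • x = x) (hx : x ∈ h25i_mExt A M t) :
    cst M ((q : ℕ) : Kbar)⁻¹ * x ∈ gaussV A M := by
  obtain ⟨h, h0⟩ := h25i_softR_eq_zero (fun y hy => gaussV_le_softV A M (hBV y hy)) hx
  exact softV_le_gaussV A M hq hM hA (V28.h28v_div_mem_softV A M hq hA x hfix h h0)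

/-- `𝔪_A B ∩ B₀ = q B₀`, level `M`, finite chart. -/
theorem h25i_inter_M_fin (hq : q.Prime) (hM : ¬ q ∣ M) (hA : A.LiesOverPrime q)
    {x : FF M} (hx : x ∈ h62rChart A M (jB M)) (hxm : x ∈ h25i_mExt A M (jB M)) :
    cst M ((q : ℕ) : Kbar)⁻¹ * x ∈ h62rChart A M (jB M) := by
  have hq0 : ((q : ℕ) : Kbar) ≠ 0 := Nat.cast_ne_zero.mpr hq.ne_zero
  refine h25i_inter_of hq (gaussV A M)
    (h25i_div_M hq hM hA (jB M) (fun y hy => modelFin_le_gaussV A M hq hM hA hy))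
    (fun y hy h => ?_) hx hxm
  exact mem_modelFin_of_cst_mul A M hq hM hA y hy _ (A.nonunits_subset hA) hq0 h

/-- `𝔪_A B ∩ B₀ = q B₀`, level `M`, chart at infinity. -/
theorem h25i_inter_M_inf (hq : q.Prime) (hM : ¬ q ∣ M) (hA : A.LiesOverPrime q)
    {x : FF M} (hx : x ∈ h62rChart A M (jB M)⁻¹) (hxm : x ∈ h25i_mExt A M (jB M)⁻¹) :
    cst M ((q : ℕ) : Kbar)⁻¹ * x ∈ h62rChart A M (jB M)⁻¹ := by
  have hq0 : ((q : ℕ) : Kbar) ≠ 0 := Nat.cast_ne_zero.mpr hq.ne_zero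
  refine h25i_inter_of hq (gaussV A M)
    (h25i_div_M hq hM hA (jB M)⁻¹ (fun y hy => modelInf_le_gaussV A M hq hM hA hy))
    (fun y hy h => ?_) hx hxm
  exact mem_modelInf_of_cst_mul A M hq hM hA y hy _ (A.nonunits_subset hA) hq0 h

end LevelM

/-! ## Level `M q`, `q ∤ M` -/

section LevelMq

variable {A : ValuationSubring Kbar} {M q : ℕ} [NeZero M] [NeZero q]

/-- `B = B₀ + 𝔪_A B`, level `M q`, finite chart. -/
theorem h25i_congr_Mq_fin (hq : q.Prime) (hM : ¬ q ∣ M) (hA : A.LiesOverPrime q)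
    {x : FF (M * q)} (hx : x ∈ modelAt (M * q) A (jB (M * q))) :
    ∃ x₀ : FF (M * q), x₀ ∈ h62rChart A (M * q) (jB (M * q)) ∧
      x - x₀ ∈ h25i_mExt A (M * q) (jB (M * q)) := by
  have hBC := Fermat.Agent.LGC.h71_bcAt_fin (A := A) hq hM hA
  rw [Fermat.Agent.LGC.h71i_jSS_eq] at hBC
  exact h25i_congr_of_bc hq hA hBC hx

/-- `B = B₀ + 𝔪_A B`, level `M q`, chart at infinity. -/
theorem h25i_congr_Mq_inf (hq : q.Prime) (hM : ¬ q ∣ M) (hA : A.LiesOverPrime q)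
    {x : FF (M * q)} (hx : x ∈ modelAt (M * q) A (jB (M * q))⁻¹) :
    ∃ x₀ : FF (M * q), x₀ ∈ h62rChart A (M * q) (jB (M * q))⁻¹ ∧
      x - x₀ ∈ h25i_mExt A (M * q) (jB (M * q))⁻¹ := by
  have hBC := Fermat.Agent.LGC.h71_bcAt_inf (A := A) hq hM hA
  rw [Fermat.Agent.LGC.h71i_jSS_eq] at hBC
  exact h25i_congr_of_bc hq hA hBC hx

/-- the Fricke conjugates of the elements of `𝔪_A B` are Gauss-integral with zero reduction,
as soon as `B ⊆ ssV`. -/
theorem h25i_softR_fricke_eq_zero (hq : q.Prime) (hM : ¬ q ∣ M) (hA : A.LiesOverPrime q)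
    (t : FF (M * q)) (hBV : ∀ x ∈ modelAt (M * q) A t, x ∈ ssV A M q) {x : FF (M * q)}
    (hx : x ∈ h25i_mExt A (M * q) t) :
    ∃ h : kFricke M q hq hM x ∈ softV A (M * q),
      softR A (M * q) ⟨kFricke M q hq hM x, h⟩ = 0 := by
  refine AddSubgroup.closure_induction
    (p := fun x _ => ∃ h : kFricke M q hq hM x ∈ softV A (M * q),
      softR A (M * q) ⟨kFricke M q hq hM x, h⟩ = 0) ?_ ?_ ?_ ?_ hx
  · rintro _ ⟨a, b, ha, hb, rfl⟩
    have hb' : kFricke M q hq hM b ∈ softV A (M * q) :=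
      ((Fermat.Agent.LGC.h63r_mem_ssV_iff hq hM hA b).mp (hBV b hb)).2
    have ha' : cst (M * q) a ∈ softV A (M * q) :=
      (cst_mem_softV_iff A (M * q) a).mpr (A.nonunits_subset ha)
    have e0 : kFricke M q hq hM (cst (M * q) a * b) = cst (M * q) a * kFricke M q hq hM b := by
      rw [map_mul, Fermat.Agent.Red.Kron.kFricke_cst]
    have hmem : kFricke M q hq hM (cst (M * q) a * b) ∈ softV A (M * q) := by
      rw [e0]
      exact mul_mem ha' hb'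
    refine ⟨hmem, ?_⟩
    have e : (⟨kFricke M q hq hM (cst (M * q) a * b), hmem⟩ : softV A (M * q)) =
        ⟨cst (M * q) a, ha'⟩ * ⟨kFricke M q hq hM b, hb'⟩ := Subtype.ext e0
    rw [e, map_mul, softR_cst_of_nonunit A (M * q) a ha ha', zero_mul]
  · refine ⟨by rw [map_zero]; exact zero_mem _, ?_⟩
    have e : (⟨kFricke M q hq hM 0, by rw [map_zero]; exact zero_mem _⟩ : softV A (M * q)) = 0 :=
      Subtype.ext (map_zero _)
    rw [e, map_zero]
  · rintro x y _ _ ⟨hx, hx0⟩ ⟨hy, hy0⟩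
    have hmem : kFricke M q hq hM (x + y) ∈ softV A (M * q) := by
      rw [map_add]
      exact add_mem hx hy
    refine ⟨hmem, ?_⟩
    have e : (⟨kFricke M q hq hM (x + y), hmem⟩ : softV A (M * q)) =
        ⟨kFricke M q hq hM x, hx⟩ + ⟨kFricke M q hq hM y, hy⟩ := Subtype.ext (map_add _ _ _)
    rw [e, map_add, hx0, hy0, add_zero]
  · rintro x _ ⟨hx, hx0⟩
    have hmem : kFricke M q hq hM (-x) ∈ softV A (M * q) := by
      rw [map_neg]
      exact neg_mem hx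
    refine ⟨hmem, ?_⟩
    have e : (⟨kFricke M q hq hM (-x), hmem⟩ : softV A (M * q)) =
        -⟨kFricke M q hq hM x, hx⟩ := Subtype.ext (map_neg _ _)
    rw [e, map_neg, hx0, neg_zero]

/-- divisibility by `q` in the semistable Gauss ring of level `M q`. -/
theorem h25i_div_Mq (hq : q.Prime) (hM : ¬ q ∣ M) (hA : A.LiesOverPrime q) (t : FF (M * q))
    (hBV : ∀ x ∈ modelAt (M * q) A t, x ∈ ssV A M q) (x : FF (M * q))
    (hfix : ∀ σ ∈ A.inertiaSubgroupIn ℚ, gal (M * q) σ • x = x)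
    (hx : x ∈ h25i_mExt A (M * q) t) :
    cst (M * q) ((q : ℕ) : Kbar)⁻¹ * x ∈ ssV A M q := by
  rw [Fermat.Agent.LGC.h63r_mem_ssV_iff hq hM hA]
  constructor
  · obtain ⟨h, h0⟩ := h25i_softR_eq_zero
      (fun y hy => ((Fermat.Agent.LGC.h63r_mem_ssV_iff hq hM hA y).mp (hBV y hy)).1) hx
    exact V28.h28v_div_mem_softV A (M * q) hq hA x hfix h h0
  · obtain ⟨h, h0⟩ := h25i_softR_fricke_eq_zero hq hM hA t hBV hx
    have hfix' : ∀ σ ∈ A.inertiaSubgroupIn ℚ,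
        gal (M * q) σ • kFricke M q hq hM x = kFricke M q hq hM x := by
      intro σ hσ
      have h1 := Fermat.Agent.Red.Kron.kFricke_gal M q hq hM σ x
      rw [← h1]
      congr 1
      exact hfix σ hσ
    have h2 := V28.h28v_div_mem_softV A (M * q) hq hA _ hfix' h h0
    rw [map_mul, Fermat.Agent.Red.Kron.kFricke_cst]
    exact h2

/-- `𝔪_A B ∩ B₀ = q B₀`, level `M q`, finite chart. -/
theorem h25i_inter_Mq_fin (hq : q.Prime) (hM : ¬ q ∣ M) (hA : A.LiesOverPrime q)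
    {x : FF (M * q)} (hx : x ∈ h62rChart A (M * q) (jB (M * q)))
    (hxm : x ∈ h25i_mExt A (M * q) (jB (M * q))) :
    cst (M * q) ((q : ℕ) : Kbar)⁻¹ * x ∈ h62rChart A (M * q) (jB (M * q)) := by
  have hq0 : ((q : ℕ) : Kbar) ≠ 0 := Nat.cast_ne_zero.mpr hq.ne_zero
  have hBV := Fermat.Agent.LGC.h44v_hBV_fin A M q hq hM hA
  have hQ := Fermat.Agent.LGC.h44v_hQEP_fin A M q hq hM hA
  rw [Fermat.Agent.LGC.h71i_jSS_eq] at hBV hQ
  refine h25i_inter_of hq (ssV A M q)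
    (h25i_div_Mq hq hM hA (jB (M * q)) (fun y hy => hBV y hy)) (fun y hy h => ?_) hx hxm
  have ha0 : algebraMap A (FF (M * q)) ⟨((q : ℕ) : Kbar), A.nonunits_subset hA⟩ ≠ 0 := by
    show cst (M * q) ((q : ℕ) : Kbar) ≠ 0
    rw [cst, ne_eq, map_eq_zero]
    exact hq0
  refine hQ ⟨((q : ℕ) : Kbar), A.nonunits_subset hA⟩ ha0 y hy ?_
  rw [Fermat.Agent.Red.GG.GGC97_smul_eq]
  exact h

/-- `𝔪_A B ∩ B₀ = q B₀`, level `M q`, chart at infinity. -/
theorem h25i_inter_Mq_inf (hq : q.Prime) (hM : ¬ q ∣ M) (hA : A.LiesOverPrime q)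
    {x : FF (M * q)} (hx : x ∈ h62rChart A (M * q) (jB (M * q))⁻¹)
    (hxm : x ∈ h25i_mExt A (M * q) (jB (M * q))⁻¹) :
    cst (M * q) ((q : ℕ) : Kbar)⁻¹ * x ∈ h62rChart A (M * q) (jB (M * q))⁻¹ := by
  have hq0 : ((q : ℕ) : Kbar) ≠ 0 := Nat.cast_ne_zero.mpr hq.ne_zero
  have hBV := Fermat.Agent.LGC.h44v_hBV_inf A M q hq hM hA
  have hQ := Fermat.Agent.LGC.h44v_hQEP_inf A M q hq hM hA
  rw [Fermat.Agent.LGC.h71i_jSS_eq] at hBV hQ
  refine h25i_inter_of hq (ssV A M q)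
    (h25i_div_Mq hq hM hA (jB (M * q))⁻¹ (fun y hy => hBV y hy)) (fun y hy h => ?_) hx hxm
  have ha0 : algebraMap A (FF (M * q)) ⟨((q : ℕ) : Kbar), A.nonunits_subset hA⟩ ≠ 0 := by
    show cst (M * q) ((q : ℕ) : Kbar) ≠ 0
    rw [cst, ne_eq, map_eq_zero]
    exact hq0
  refine hQ ⟨((q : ℕ) : Kbar), A.nonunits_subset hA⟩ ha0 y hy ?_
  rw [Fermat.Agent.Red.GG.GGC97_smul_eq]
  exact h

end LevelMq

end Fermat.Agent.S36
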