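import Mathlib
import Fermat.Agent.S36.H40Gen
import Fermat.Agent.S36.H59Base2

/-!
# S36, block REG / TOR (helper40, prefix `h40y_`): R-GEN for `β₂`

The mirror image of `S36/H40Gen.lean`: `B₁ = h62rChart A (M q) (jSS M q)`,
`Bc = h62rChart A (M q²) (jB (M q²))`, `β₂ = h59y_b2 : B₁ →+* Bc`, generator
`X = e₀ u = α₂ α₁ u = u(t)` (`u ∈ F_M` non-constant).

* `h40y_field` : **`F₀(M q²) = β₂ (F₀(M q)) (X)`** for an `I`-invariant `X ∉ β₂ (F_{Mq})`.
* `h40y_gen` : every `I`-invariant `x` of level `M q²` is `P(X) / β₂ s`, `P ∈ chart₀(M q, t)[T]`,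
  `deg P < q`, `0 ≠ s ∈ chart₀(M q, t)`.
* `h40y_X_not_mem_range` : `α₂ α₁ u ∉ β₂ (F_{Mq})` for `u` non-constant.
* `h40y_gen_jB`, `h40y_gen_jB_inv` : the two charts of level `M q`.
* `h40y_hfrac` : **the hypothesis `hfrac` of `h67t_tower` for `ι = h59y_b2`, `Z = e₀ u`.**
* `h40y_hfrac_a2` : the hypothesis `hfrac` of `h67t_tower` for `ι = h59y_a2`, `Z = e₂ u`.
-/

set_option autoImplicit false
set_option linter.style.haveILetI false
set_option linter.unusedSectionVars false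

open AlgebraicCurve ModularCurve Polynomial IntermediateField

noncomputable section

namespace Fermat.Agent.S36

open Fermat.Agent.S37 (Kbar GQ FF cst jB gal modelAt ringAdj)
open Fermat.Agent.Red.Kron Fermat.Agent.LGC

/-! ## `F₀(M q²) = β₂ (F₀(M q)) (X)` -/

section Field

variable (M q : ℕ) [NeZero M] [NeZero q]

/-- the degeneracy map `β₂` as a ring homomorphism. -/
abbrev h40yB : FF (M * q) →+* FF (M * q * q) :=
  ((heckeBetaBar Kbar (M * q) q : FF (M * q) →ₐ[Kbar] FF (M * q * q)) :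
    FF (M * q) →+* FF (M * q * q))

/-- existence and uniqueness of the expansion `x = P(X)`, `deg P < q`, over `β₂ (F_{Mq})`. -/
theorem h40y_exists_unique (hq : q.Prime) (hqM : ¬ q ∣ M) (Z : FF (M * q * q))
    (hZ : Z ∉ Set.range (heckeBetaBar Kbar (M * q) q)) :
    (∀ x : FF (M * q * q), ∃ P : (FF (M * q))[X], P.natDegree < q ∧
      P.eval₂ (h40yB M q) Z = x) ∧
    (∀ P P' : (FF (M * q))[X], P.natDegree < q → P'.natDegree < q →
      P.eval₂ (h40yB M q) Z = P'.eval₂ (h40yB M q) Z → P = P') := by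
  letI := algebraAlong (heckeBetaBar Kbar (M * q) q)
  have hdeg : Module.finrank (FF (M * q)) (FF (M * q * q)) = q := h20n_finrank_beta M q hq hqM
  have hZ' : Z ∉ Set.range (algebraMap (FF (M * q)) (FF (M * q * q))) := hZ
  refine ⟨fun x => ?_, fun P P' hP hP' h => ?_⟩
  · obtain ⟨P, hP, hPx⟩ := h40g_exists_poly hq hdeg hZ' x
    exact ⟨P, hP, hPx⟩
  · exact h40g_poly_unique hq hdeg hZ' hP hP' h

/-- **`F₀(M q²) = β₂ (F₀(M q)) (X)`.** -/
theorem h40y_field (hq : q.Prime) (hqM : ¬ q ∣ M) (I : Subgroup GQ) (Z : FF (M * q * q))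
    (hZI : Z ∈ h53d_F0 (M * q * q) I) (hZ : Z ∉ Set.range (heckeBetaBar Kbar (M * q) q))
    (x : FF (M * q * q)) (hx : x ∈ h53d_F0 (M * q * q) I) :
    ∃ P : (FF (M * q))[X], P.natDegree < q ∧ (∀ i, P.coeff i ∈ h53d_F0 (M * q) I) ∧
      P.eval₂ (h40yB M q) Z = x := by
  obtain ⟨hex, huniq⟩ := h40y_exists_unique M q hq hqM Z hZ
  obtain ⟨P, hP, hPx⟩ := hex x
  refine ⟨P, hP, fun i σ hσ => ?_, hPx⟩
  have hcomm : (h40yB M q).comp (h40gGal (M * q) σ) =
      (h40gGal (M * q * q) σ).comp (h40yB M q) := by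
    refine RingHom.ext fun y => ?_
    show heckeBetaBar Kbar (M * q) q (gal (M * q) σ • y) =
      gal (M * q * q) σ • heckeBetaBar Kbar (M * q) q y
    rw [h40g_gal_beta]
  have h1 : (P.map (h40gGal (M * q) σ)).eval₂ (h40yB M q) Z = P.eval₂ (h40yB M q) Z := by
    rw [Polynomial.eval₂_map, hcomm]
    have hZσ : h40gGal (M * q * q) σ Z = Z := hZI σ hσ
    have h2 := Polynomial.hom_eval₂ P (h40yB M q) (h40gGal (M * q * q) σ) Z
    rw [hZσ] at h2
    rw [← h2, hPx]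
    exact hx σ hσ
  have h3 : P.map (h40gGal (M * q) σ) = P :=
    huniq _ _ (lt_of_le_of_lt (Polynomial.natDegree_map_le) hP) hP h1
  have h4 := congrArg (fun p : (FF (M * q))[X] => p.coeff i) h3
  simp only [Polynomial.coeff_map] at h4
  exact h4

end Field

/-! ## R-GEN for `β₂` -/

section Gen

variable (A : ValuationSubring Kbar) (M q : ℕ) [NeZero M] [NeZero q]

/-- **R-GEN for `β₂`.** -/
theorem h40y_gen (hq : q.Prime) (hqM : ¬ q ∣ M) (t : FF (M * q))
    (halg : ∀ y : FF (M * q), IsAlgebraic (Algebra.adjoin Kbar {t}) y)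
    (ht : ∀ σ ∈ A.inertiaSubgroupIn ℚ, gal (M * q) σ • t = t)
    (Z : FF (M * q * q)) (hZI : Z ∈ h53d_F0 (M * q * q) (A.inertiaSubgroupIn ℚ))
    (hZ : Z ∉ Set.range (heckeBetaBar Kbar (M * q) q))
    (x : FF (M * q * q)) (hx : x ∈ h53d_F0 (M * q * q) (A.inertiaSubgroupIn ℚ)) :
    ∃ (P : (FF (M * q))[X]) (s : FF (M * q)), s ≠ 0 ∧ s ∈ h62rChart A (M * q) t ∧
      (∀ i, P.coeff i ∈ h62rChart A (M * q) t) ∧ P.natDegree < q ∧
      heckeBetaBar Kbar (M * q) q s * x = P.eval₂ (h40yB M q) Z := by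
  classical
  obtain ⟨P₀, hdeg, hcoeff, hPx⟩ := h40y_field M q hq hqM _ Z hZI hZ x hx
  obtain ⟨s, hs0, hs, hsa⟩ := h40g_den_finset A (M * q) t halg ht
    ((Finset.range q).image fun i => P₀.coeff i) (fun a ha => by
      obtain ⟨i, -, rfl⟩ := Finset.mem_image.mp ha
      exact hcoeff i)
  refine ⟨C s * P₀, s, hs0, hs, fun i => ?_, ?_, ?_⟩
  · rw [Polynomial.coeff_C_mul]
    by_cases hi : i < q
    · exact hsa _ (Finset.mem_image.mpr ⟨i, Finset.mem_range.mpr hi, rfl⟩)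
    · rw [Polynomial.coeff_eq_zero_of_natDegree_lt (lt_of_lt_of_le hdeg (not_lt.mp hi)),
        mul_zero]
      exact zero_mem _
  · exact lt_of_le_of_lt (Polynomial.natDegree_C_mul_le s P₀) hdeg
  · rw [Polynomial.eval₂_mul, Polynomial.eval₂_C, hPx]
    rfl

end Gen

/-! ## The generator `X = u(t)` -/

section X

variable (M q : ℕ) [NeZero M] [NeZero q]

/-- `X = α₂ α₁ v = v(t)`. -/
def h40yX (v : FF M) : FF (M * q * q) :=
  heckeAlphaBar Kbar (M * q) q (heckeAlphaBar Kbar M q v)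

theorem h40y_X_fixed (I : Subgroup GQ) (v : FF M) (hv : v ∈ h53d_F0 M I) :
    h40yX M q v ∈ h53d_F0 (M * q * q) I := by
  intro σ hσ
  rw [h40yX, h40g_gal_alpha, h40g_gal_alpha, hv σ hσ]

theorem h40y_twistK_one (s : LaurentSeries Kbar) : twistK (1 : Kbar) s = s := by
  ext n
  rw [coeff_twistK, one_zpow, mul_one]

/-- a twist by a `e`-th root of unity does not change `s(t^e)`. -/
theorem h40y_twistK_qExpand (e : ℕ) [NeZero e] (ζ : Kbar) (hζ : ζ ^ e = 1)
    (s : LaurentSeries Kbar) : twistK ζ (qExpand Kbar e s) = qExpand Kbar e s := by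
  ext n
  rw [coeff_twistK]
  by_cases hdvd : (e : ℤ) ∣ n
  · obtain ⟨n₁, rfl⟩ := hdvd
    have h1 : ζ ^ ((e : ℤ) * n₁) = 1 := by
      rw [zpow_mul, zpow_natCast, hζ, one_zpow]
    rw [h1, mul_one]
  · rw [qExpand_coeff_of_not_dvd e _ hdvd, zero_mul]

/-- **the generator of the `β`-tower is not of level `M q`**: for a non-constant `v ∈ F_M`
(`q ∤ M`), `X = v(t) ∉ β₂ (F_{Mq})`. -/
theorem h40y_X_not_mem_range (hq : q.Prime) (hqM : ¬ q ∣ M) (v : FF M)
    (hv : v ∉ Set.range (cst M)) :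
    h40yX M q v ∉ Set.range (heckeBetaBar Kbar (M * q) q) := by
  rintro ⟨y, hy⟩
  apply hv
  haveI : NeZero ((q : ℕ) : Kbar) := ⟨by exact_mod_cast NeZero.ne q⟩
  obtain ⟨ζ, hζ⟩ := HasEnoughRootsOfUnity.exists_primitiveRoot Kbar q
  have hζ0 : ζ ≠ 0 := hζ.ne_zero (NeZero.ne q)
  have hζ1 : ζ ≠ 1 := fun h => hq.one_lt.ne' (by
    have := hζ.unique (h ▸ IsPrimitiveRoot.one)
    exact this)
  obtain ⟨E, hE⟩ := h20n_exists_E11 M q hq hqM ζ hζ.pow_eq_one hζ1
  obtain ⟨E', hE'⟩ := h20n_exists_E02 M q hq hqM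
  -- `E11`: `v = (w y)(ζ t)`
  have h1 : ((v : FF M) : LaurentSeries Kbar) =
      twistK ζ ((kFricke M q hq hqM y : FF (M * q)) : LaurentSeries Kbar) := by
    have h2 : E (h40yX M q v) = ((v : FF M) : LaurentSeries Kbar) := by
      rw [h40yX, hE.1, coe_heckeAlphaBar]
    rw [← h2, ← hy, hE.2]
  -- `E02`: `w y = v(t^(q²))`
  have h3 : ((kFricke M q hq hqM y : FF (M * q)) : LaurentSeries Kbar) =
      qExpand Kbar (q * q) ((v : FF M) : LaurentSeries Kbar) := by
    have h4 : E' (h40yX M q v) = qExpand Kbar (q * q) ((v : FF M) : LaurentSeries Kbar) := by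
      rw [h40yX, hE'.1, kFricke_alpha, coe_heckeBetaBar, qExpand_qExpand]
    rw [← h4, ← hy, hE'.2]
  have hζqq : ζ ^ (q * q) = 1 := by rw [pow_mul, hζ.pow_eq_one, one_pow]
  have h5 : twistK (1 : Kbar) ((v : FF M) : LaurentSeries Kbar) =
      qExpand Kbar (q * q) ((v : FF M) : LaurentSeries Kbar) := by
    rw [h40y_twistK_one]
    conv_lhs => rw [h1, h3]
    exact h40y_twistK_qExpand (q * q) ζ hζqq _
  have hqq : 1 < q * q := by
    have := hq.one_lt
    nlinarith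
  have h6 := h40g_coeff_eq_zero (q * q) hqq 1 one_ne_zero _ h5
  exact ⟨_, (h40g_eq_cst_of_coeff M v h6).symm⟩

/-- **R-GEN for `β₂`, finite chart of level `M q`**, `X = v(t)`. -/
theorem h40y_gen_jB (A : ValuationSubring Kbar) (hq : q.Prime) (hqM : ¬ q ∣ M) (v : FF M)
    (hvI : v ∈ h53d_F0 M (A.inertiaSubgroupIn ℚ)) (hv : v ∉ Set.range (cst M))
    (x : FF (M * q * q)) (hx : x ∈ h53d_F0 (M * q * q) (A.inertiaSubgroupIn ℚ)) :
    ∃ (P : (FF (M * q))[X]) (s : FF (M * q)), s ≠ 0 ∧ s ∈ h62rChart A (M * q) (jB (M * q)) ∧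
      (∀ i, P.coeff i ∈ h62rChart A (M * q) (jB (M * q))) ∧ P.natDegree < q ∧
      heckeBetaBar Kbar (M * q) q s * x = P.eval₂ (h40yB M q) (h40yX M q v) :=
  h40y_gen A M q hq hqM (jB (M * q))
    (Fermat.Agent.Red.SM.HAlg.h81a_halg_jB (M * q))
    (fun σ _ => Fermat.Agent.S37.GalI.gal_smul_jB (N := M * q) σ)
    (h40yX M q v) (h40y_X_fixed M q _ v hvI) (h40y_X_not_mem_range M q hq hqM v hv) x hx

/-- **R-GEN for `β₂`, chart at infinity of level `M q`**, `X = v(t)`. -/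
theorem h40y_gen_jB_inv (A : ValuationSubring Kbar) (hq : q.Prime) (hqM : ¬ q ∣ M) (v : FF M)
    (hvI : v ∈ h53d_F0 M (A.inertiaSubgroupIn ℚ)) (hv : v ∉ Set.range (cst M))
    (x : FF (M * q * q)) (hx : x ∈ h53d_F0 (M * q * q) (A.inertiaSubgroupIn ℚ)) :
    ∃ (P : (FF (M * q))[X]) (s : FF (M * q)), s ≠ 0 ∧ s ∈ h62rChart A (M * q) (jB (M * q))⁻¹ ∧
      (∀ i, P.coeff i ∈ h62rChart A (M * q) (jB (M * q))⁻¹) ∧ P.natDegree < q ∧
      heckeBetaBar Kbar (M * q) q s * x = P.eval₂ (h40yB M q) (h40yX M q v) :=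
  h40y_gen A M q hq hqM (jB (M * q))⁻¹
    (Fermat.Agent.Red.SM.HAlg.h81a_halg_jB_inv (M * q))
    (fun σ _ => Fermat.Agent.S37.GalI.gal_smul_jB_inv (N := M * q) σ)
    (h40yX M q v) (h40y_X_fixed M q _ v hvI) (h40y_X_not_mem_range M q hq hqM v hv) x hx

end X

/-! ## The shape of the tower argument -/

section Frac

variable (A : ValuationSubring Kbar) (M : ℕ) {q : ℕ} [NeZero M] [NeZero q]

/-- the abstract adapter: from the function-field form to the chart form. -/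
theorem h40y_adapter (φ : FF (M * q) →+* FF (M * q * q))
    (ι : h62rChart A (M * q) (jSS M q) →+* h62rChart A (M * q * q) (jB (M * q * q)))
    (hι : ∀ x, ((ι x : h62rChart A (M * q * q) (jB (M * q * q))) : FF (M * q * q)) =
      φ (x : FF (M * q)))
    (Z : h62rChart A (M * q * q) (jB (M * q * q)))
    (b : h62rChart A (M * q * q) (jB (M * q * q)))
    (P : (FF (M * q))[X]) (s : FF (M * q)) (hs0 : s ≠ 0)
    (hs : s ∈ h62rChart A (M * q) (jB (M * q)))
    (hP : ∀ i, P.coeff i ∈ h62rChart A (M * q) (jB (M * q)))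
    (hrel : φ s * (b : FF (M * q * q)) = P.eval₂ φ (Z : FF (M * q * q))) :
    ∃ (p : Polynomial (h62rChart A (M * q) (jSS M q))) (d : h62rChart A (M * q) (jSS M q)),
      d ≠ 0 ∧ ι d * b = (p.map ι).eval Z := by
  have hEq : h62rChart A (M * q) (jB (M * q)) = h62rChart A (M * q) (jSS M q) := by
    rw [Fermat.Agent.LGC.h85s_jSS_eq (M := M) (ℓ := q)]
  rw [hEq] at hs
  have hP' : (↑P.coeffs : Set (FF (M * q))) ⊆ h62rChart A (M * q) (jSS M q) := by
    intro c hc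
    obtain ⟨i, -, rfl⟩ := Polynomial.mem_coeffs_iff.mp hc
    have := hP i
    rw [hEq] at this
    exact this
  refine ⟨P.toSubring _ hP', ⟨s, hs⟩, ?_, ?_⟩
  · intro h
    exact hs0 (congrArg Subtype.val h)
  · apply Subtype.ext
    have h1 : (((P.toSubring _ hP').map ι).eval Z :
          h62rChart A (M * q * q) (jB (M * q * q))) =
        eval₂ ι Z (P.toSubring _ hP') := eval_map _ _
    have h2 : (h62rChart A (M * q * q) (jB (M * q * q))).subtype
          (eval₂ ι Z (P.toSubring _ hP')) =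
        eval₂ ((h62rChart A (M * q * q) (jB (M * q * q))).subtype.comp ι)
          ((h62rChart A (M * q * q) (jB (M * q * q))).subtype Z) (P.toSubring _ hP') :=
      hom_eval₂ _ _ _ _
    have h3 : (h62rChart A (M * q * q) (jB (M * q * q))).subtype.comp ι =
        φ.comp (h62rChart A (M * q) (jSS M q)).subtype :=
      RingHom.ext fun x => hι x
    have h4 : eval₂ (φ.comp (h62rChart A (M * q) (jSS M q)).subtype)
          (Z : FF (M * q * q)) (P.toSubring _ hP') =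
        eval₂ φ (Z : FF (M * q * q)) P := by
      rw [← eval₂_map, Polynomial.map_toSubring]
    have hL : ((ι ⟨s, hs⟩ * b : h62rChart A (M * q * q) (jB (M * q * q))) : FF (M * q * q)) =
        φ s * (b : FF (M * q * q)) := by
      rw [Subring.coe_mul, hι]
    have hR : ((eval₂ ι Z (P.toSubring _ hP') : h62rChart A (M * q * q) (jB (M * q * q))) :
        FF (M * q * q)) = eval₂ φ (Z : FF (M * q * q)) P := by
      rw [h3] at h2
      exact h2.trans h4
    rw [h1, hL, hR]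
    exact hrel

/-- **`hfrac` of the tower argument for `β₂`**: `ι = h59y_b2`, `Z = e₀ u`. -/
theorem h40y_hfrac (hq : q.Prime) (hqM : ¬ q ∣ M) (hA : A.LiesOverPrime q)
    (u : h62rChart A M (jB M)) (hu : (u : FF M) ∉ Set.range (cst M))
    (Z : h62rChart A (M * q * q) (jB (M * q * q)))
    (hZ : (Z : FF (M * q * q)) = h67i_e0 M q (u : FF M)) :
    ∀ b : h62rChart A (M * q * q) (jB (M * q * q)),
      ∃ (p : Polynomial (h62rChart A (M * q) (jSS M q))) (d : h62rChart A (M * q) (jSS M q)),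
        d ≠ 0 ∧ h59y_b2 A M hq hqM hA d * b = (p.map (h59y_b2 A M hq hqM hA)).eval Z := by
  intro b
  obtain ⟨P, s, hs0, hs, hP, -, hrel⟩ := h40y_gen_jB (M := M) (q := q) A hq hqM (u : FF M)
    (h62r_mem_chart.mp u.2).2 hu (b : FF (M * q * q)) (h62r_mem_chart.mp b.2).2
  refine h40y_adapter A M (h40yB M q) (h59y_b2 A M hq hqM hA) (fun x => rfl) Z b P s hs0 hs hP ?_
  rw [hZ]
  exact hrel

/-- **`hfrac` of the tower argument for `α₂`**: `ι = h59y_a2`, `Z = e₂ u`. -/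
theorem h40y_hfrac_a2 (hq : q.Prime) (hqM : ¬ q ∣ M)
    (u : h62rChart A M (jB M)) (hu : (u : FF M) ∉ Set.range (cst M))
    (Z : h62rChart A (M * q * q) (jB (M * q * q)))
    (hZ : (Z : FF (M * q * q)) = h67i_e2 M q (u : FF M)) :
    ∀ b : h62rChart A (M * q * q) (jB (M * q * q)),
      ∃ (p : Polynomial (h62rChart A (M * q) (jSS M q))) (d : h62rChart A (M * q) (jSS M q)),
        d ≠ 0 ∧ h59y_a2 A M d * b = (p.map (h59y_a2 A M)).eval Z := by
  intro b
  obtain ⟨P, s, hs0, hs, hP, -, hrel⟩ := h40g_gen_jB (M := M) (q := q) A hq hqM (u : FF M)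
    (h62r_mem_chart.mp u.2).2 hu (b : FF (M * q * q)) (h62r_mem_chart.mp b.2).2
  refine h40y_adapter A M (h40gA (M * q) q) (h59y_a2 A M) (fun x => rfl) Z b P s hs0 hs hP ?_
  rw [hZ]
  exact hrel

/-- `e₀ u` is not in the image of `β₂` (`u` non-constant). -/
theorem h40y_e0_ne_b2 (hq : q.Prime) (hqM : ¬ q ∣ M) (hA : A.LiesOverPrime q)
    (u : h62rChart A M (jB M)) (hu : (u : FF M) ∉ Set.range (cst M))
    (Z : h62rChart A (M * q * q) (jB (M * q * q)))
    (hZ : (Z : FF (M * q * q)) = h67i_e0 M q (u : FF M))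
    (x : h62rChart A (M * q) (jSS M q)) : Z ≠ h59y_b2 A M hq hqM hA x := by
  intro h
  apply h40y_X_not_mem_range M q hq hqM (u : FF M) hu
  refine ⟨(x : FF (M * q)), ?_⟩
  have h1 := congrArg (fun z : h62rChart A (M * q * q) (jB (M * q * q)) =>
    (z : FF (M * q * q))) h
  simp only [h59y_coe_b2] at h1
  rw [← h1, hZ]
  rfl

/-- `e₂ u` is not in the image of `α₂` (`u` non-constant). -/
theorem h40y_e2_ne_a2 (hq : q.Prime) (hqM : ¬ q ∣ M)
    (u : h62rChart A M (jB M)) (hu : (u : FF M) ∉ Set.range (cst M))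
    (Z : h62rChart A (M * q * q) (jB (M * q * q)))
    (hZ : (Z : FF (M * q * q)) = h67i_e2 M q (u : FF M))
    (x : h62rChart A (M * q) (jSS M q)) : Z ≠ h59y_a2 A M x := by
  intro h
  apply h40g_Z_not_mem_range M q hq hqM (u : FF M) hu
  refine ⟨(x : FF (M * q)), ?_⟩
  have h1 := congrArg (fun z : h62rChart A (M * q * q) (jB (M * q * q)) =>
    (z : FF (M * q * q))) h
  simp only [h59y_coe_a2] at h1
  rw [← h1, hZ]
  rfl

end Frac

end Fermat.Agent.S36
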