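import Mathlib
import Fermat.Agent.S36.H62RegIface
import Fermat.Agent.S36.H59ChartInt
import Fermat.Agent.S36.H24DescGen
import Fermat.Agent.S36.H81Base
import Fermat.Agent.Red.ModelO.RatFinite

/-!
# S36, block REG, row R-BASE0 (helper64): the charts over the inertia ring are noetherian

`A` a valuation subring of `ℚ̄` over the prime `q`, `I` its inertia group, `K0 = ℚ̄^I`,
`A0 = A ∩ K0` (a discrete valuation ring: `h81a_isDVR`), `F0 = FF(N)^I`.

* `h64c_noeth_of_fg` : (Mathlib only) a subring which is a finitely generated module over the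
  image of `O[X]`, `O` noetherian, is a noetherian ring.
* `h64c_ev A N t : A0[X] →+* FF N`, `X ↦ t`, and `h64c_ev0 A N t ht : A0[X] →+* F0`.
* `h64c_mem_chart_iff` : `y ∈ h62rChart A N t ↔ y ∈ F0 ∧ y` integral over `A0[t]`
  (`RingHom.IsIntegralElem` of `h64c_ev`).
* `h64c_exists_span` : **FD-F0**: `F0` is spanned by a finite set over `K0(j)`.
* `h64c_chart_fg` : the chart `h62rChart A N t`, `t = j, 1/j`, is generated over `A0[t]` by
  finitely many of its elements (shape of `hfin` of the gate).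
* `h64c_isNoetherianRing_chart` : `IsNoetherianRing (h62rChart A N t)` for `t = j, 1/j`.
-/

set_option autoImplicit false
set_option linter.style.haveILetI false
set_option linter.unusedSectionVars false

open Polynomial ModularCurve AlgebraicCurve

noncomputable section

namespace Fermat.Agent.S36

open Fermat.Agent.S37 (Kbar GQ FF cst gal IsRat jB modelAt ringAdj)
open Fermat.Agent.Red.ModelO

/-! ### Abstract part -/

/-- a subring which is a finitely generated module over the image of `O[X]` (`O` noetherian) is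
a noetherian ring. -/
theorem h64c_noeth_of_fg {O L : Type*} [CommRing O] [IsNoetherianRing O] [CommRing L]
    (ψ : O[X] →+* L) (B : Subring L) (hψ : ∀ P, ψ P ∈ B)
    (S : Finset L) (hS : ∀ s ∈ S, s ∈ B)
    (hgen : ∀ y ∈ B, ∃ c : L → O[X], y = ∑ s ∈ S, ψ (c s) * s) : IsNoetherianRing B := by
  classical
  let ψB : O[X] →+* B := ψ.codRestrict B hψ
  letI alg : Algebra O[X] B := ψB.toAlgebra
  have hsmul : ∀ (P : O[X]) (b : B), ((P • b : B) : L) = ψ P * (b : L) := fun P b => rfl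
  haveI hfin : Module.Finite O[X] B := by
    refine Module.finite_def.mpr ⟨S.attach.image (fun s => (⟨s.1, hS s.1 s.2⟩ : B)), ?_⟩
    rw [eq_top_iff]
    intro y _
    obtain ⟨c, hc⟩ := hgen y.1 y.2
    have hy : y = ∑ s ∈ S.attach, (c s.1) • (⟨s.1, hS s.1 s.2⟩ : B) := by
      apply Subtype.ext
      rw [hc, ← Finset.sum_attach S]
      rw [AddSubmonoidClass.coe_finsetSum]
      refine Finset.sum_congr rfl fun s _ => ?_
      rw [hsmul]
    rw [hy]
    refine Submodule.sum_mem _ fun s hs => Submodule.smul_mem _ _ (Submodule.subset_span ?_)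
    rw [Finset.coe_image]
    exact ⟨s, hs, rfl⟩
  haveI : IsNoetherian O[X] B := isNoetherian_of_isNoetherianRing_of_finite O[X] B
  exact isNoetherian_of_tower O[X] ‹_›

/-! ### The base maps -/

section Base

variable (A : ValuationSubring Kbar) (N : ℕ)

/-- the constants of `A0` in `FF N`. -/
def h64c_cst : ↥(h81a_A0 A) →+* FF N :=
  (algebraMap Kbar (FF N)).comp ((algebraMap (h81a_K0 A) Kbar).comp (h81a_A0 A).subtype)

theorem h64c_cst_apply (a : h81a_A0 A) :
    h64c_cst A N a = cst N (((a : h81a_K0 A)) : Kbar) := rfl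

theorem h64c_cstK_fixed (c : h81a_K0 A) :
    cst N (c : Kbar) ∈ h53d_F0 N (A.inertiaSubgroupIn ℚ) := by
  intro σ hσ
  show gal N σ • cst N (c : Kbar) = cst N (c : Kbar)
  rw [SemilinearAut.smul_algebraMap, baseAut_arithmeticGalois]
  show cst N (σ (c : Kbar)) = cst N (c : Kbar)
  rw [(h81a_mem_K0 A _).mp c.2 σ hσ]

theorem h64c_cst_fixed (a : h81a_A0 A) :
    h64c_cst A N a ∈ h53d_F0 N (A.inertiaSubgroupIn ℚ) :=
  h64c_cstK_fixed A N (a : h81a_K0 A)

/-- evaluation `A0[X] → FF N`, `X ↦ t`. -/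
def h64c_ev (t : FF N) : (h81a_A0 A)[X] →+* FF N := eval₂RingHom (h64c_cst A N) t

theorem h64c_ev_C (t : FF N) (a : h81a_A0 A) : h64c_ev A N t (C a) = h64c_cst A N a := by
  unfold h64c_ev
  rw [coe_eval₂RingHom, eval₂_C]

theorem h64c_ev_X (t : FF N) : h64c_ev A N t X = t := by
  unfold h64c_ev
  rw [coe_eval₂RingHom, eval₂_X]

/-- the image of `A0[X]` is the subring `A₀[t]` of helper59. -/
theorem h64c_ev_range (t : FF N) : (h64c_ev A N t).range = h59cRingAdj0 N A t := by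
  apply le_antisymm
  · rintro _ ⟨P, rfl⟩
    induction P using Polynomial.induction_on' with
    | add p q hp hq =>
      rw [map_add]
      exact add_mem hp hq
    | monomial n a =>
      rw [← C_mul_X_pow_eq_monomial, map_mul, map_pow, h64c_ev_C, h64c_ev_X]
      refine mul_mem ?_ (pow_mem (h59c_self_mem_adj _ _) n)
      exact h59c_cst_mem_adj _ _
        ⟨a.2, fun σ hσ => (h81a_mem_K0 A _).mp (a : h81a_K0 A).2 σ hσ⟩
  · apply Subring.closure_le.mpr
    rintro z (⟨a, ha, rfl⟩ | hz)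
    · exact ⟨C ⟨⟨a, (h81a_mem_K0 A a).mpr ha.2⟩, ha.1⟩, h64c_ev_C A N t _⟩
    · rw [Set.mem_singleton_iff] at hz
      rw [hz]
      exact ⟨X, h64c_ev_X A N t⟩

/-- the chart `modelAt N A t` is the set of the elements integral over `A0[t]`. -/
theorem h64c_mem_modelAt_iff (t y : FF N) :
    y ∈ modelAt N A t ↔ (h64c_ev A N t).IsIntegralElem y := by
  rw [h59c_mem_modelAt_iff, ← h85_isIntegral_range_iff]
  constructor
  · exact h85_isIntegral_mono (le_of_eq (h64c_ev_range A N t).symm)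
  · exact h85_isIntegral_mono (le_of_eq (h64c_ev_range A N t))

theorem h64c_ev_injective (t : FF N) (ht : Transcendental Kbar t) :
    Function.Injective (h64c_ev A N t) := by
  rw [injective_iff_map_eq_zero]
  intro P hP
  set incl : ↥(h81a_A0 A) →+* Kbar :=
    (algebraMap (h81a_K0 A) Kbar).comp (h81a_A0 A).subtype with hincl
  have hinj : Function.Injective incl := by
    intro a b hab
    apply Subtype.ext
    exact (algebraMap (h81a_K0 A) Kbar).injective hab
  have h1 : aeval t (P.map incl) = 0 := by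
    rw [aeval_def, eval₂_map]
    exact hP
  have h2 : P.map incl = 0 :=
    (transcendental_iff_injective.mp ht) (h1.trans (map_zero _).symm)
  exact Polynomial.map_injective incl hinj (h2.trans (Polynomial.map_zero _).symm)

/-- evaluation `A0[X] → F0`, `X ↦ t`. -/
def h64c_ev0 (t : FF N) (ht : t ∈ h53d_F0 N (A.inertiaSubgroupIn ℚ)) :
    (h81a_A0 A)[X] →+* ↥(h53d_F0 N (A.inertiaSubgroupIn ℚ)) :=
  eval₂RingHom ((h64c_cst A N).codRestrict (h53d_F0 N (A.inertiaSubgroupIn ℚ))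
    (h64c_cst_fixed A N)) ⟨t, ht⟩

theorem h64c_subtype_comp_ev0 (t : FF N) (ht : t ∈ h53d_F0 N (A.inertiaSubgroupIn ℚ)) :
    (h53d_F0 N (A.inertiaSubgroupIn ℚ)).subtype.comp (h64c_ev0 A N t ht) = h64c_ev A N t := by
  apply Polynomial.ringHom_ext
  · intro a
    unfold h64c_ev0 h64c_ev
    rw [RingHom.comp_apply, coe_eval₂RingHom, coe_eval₂RingHom, eval₂_C, eval₂_C]
    rfl
  · unfold h64c_ev0 h64c_ev
    rw [RingHom.comp_apply, coe_eval₂RingHom, coe_eval₂RingHom, eval₂_X, eval₂_X]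
    rfl

theorem h64c_coe_ev0 (t : FF N) (ht : t ∈ h53d_F0 N (A.inertiaSubgroupIn ℚ))
    (P : (h81a_A0 A)[X]) :
    ((h64c_ev0 A N t ht P : h53d_F0 N (A.inertiaSubgroupIn ℚ)) : FF N) = h64c_ev A N t P :=
  RingHom.congr_fun (h64c_subtype_comp_ev0 A N t ht) P

theorem h64c_ev0_injective (t : FF N) (ht : t ∈ h53d_F0 N (A.inertiaSubgroupIn ℚ))
    (htr : Transcendental Kbar t) : Function.Injective (h64c_ev0 A N t ht) := by
  intro P Q hPQ
  apply h64c_ev_injective A N t htr
  rw [← h64c_coe_ev0 A N t ht, ← h64c_coe_ev0 A N t ht, hPQ]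

theorem h64c_isIntegralElem_iff (t : FF N) (ht : t ∈ h53d_F0 N (A.inertiaSubgroupIn ℚ))
    (y : h53d_F0 N (A.inertiaSubgroupIn ℚ)) :
    (h64c_ev0 A N t ht).IsIntegralElem y ↔ (h64c_ev A N t).IsIntegralElem (y : FF N) := by
  have key : ∀ p : (h81a_A0 A)[X][X],
      ((eval₂ (h64c_ev0 A N t ht) y p : h53d_F0 N (A.inertiaSubgroupIn ℚ)) : FF N) =
        eval₂ (h64c_ev A N t) (y : FF N) p := by
    intro p
    have h := Polynomial.hom_eval₂ p (h64c_ev0 A N t ht)
      (h53d_F0 N (A.inertiaSubgroupIn ℚ)).subtype y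
    rw [h64c_subtype_comp_ev0] at h
    exact h
  constructor
  · rintro ⟨p, hp, h0⟩
    refine ⟨p, hp, ?_⟩
    rw [← key, h0]
    rfl
  · rintro ⟨p, hp, h0⟩
    refine ⟨p, hp, ?_⟩
    apply Subtype.ext
    rw [key, h0]
    rfl

/-- membership in the chart over `A0`. -/
theorem h64c_mem_chart_iff (t : FF N) (ht : t ∈ h53d_F0 N (A.inertiaSubgroupIn ℚ)) (y : FF N) :
    y ∈ h62rChart A N t ↔
      ∃ y0 : h53d_F0 N (A.inertiaSubgroupIn ℚ), (y0 : FF N) = y ∧
        (h64c_ev0 A N t ht).IsIntegralElem y0 := by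
  constructor
  · rintro ⟨h1, h2⟩
    refine ⟨⟨y, h2⟩, rfl, ?_⟩
    rw [h64c_isIntegralElem_iff]
    exact (h64c_mem_modelAt_iff A N t y).mp h1
  · rintro ⟨y0, rfl, h⟩
    rw [h64c_isIntegralElem_iff] at h
    exact ⟨(h64c_mem_modelAt_iff A N t _).mpr h, y0.2⟩

end Base

/-! ### `F0` is finite over `K0(j)` -/

section Span

variable (A : ValuationSubring Kbar) (N : ℕ) [NeZero N]

/-- rational functions, as elements of `F0`. -/
def h64c_emb0 : FQ N →+* ↥(h53d_F0 N (A.inertiaSubgroupIn ℚ)) :=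
  (h85ratEmb N).codRestrict (h53d_F0 N (A.inertiaSubgroupIn ℚ))
    (fun y σ _ => h85_gal_smul_ratEmb N σ y)

theorem h64c_coe_emb0 (y : FQ N) :
    ((h64c_emb0 A N y : h53d_F0 N (A.inertiaSubgroupIn ℚ)) : FF N) = h85ratEmb N y := rfl

theorem h64c_emb0_injective : Function.Injective (h64c_emb0 A N) :=
  (h64c_emb0 A N).injective

theorem h64c_jB_fixed : jB N ∈ h53d_F0 N (A.inertiaSubgroupIn ℚ) := by
  intro σ _
  rw [← h85ratEmb_jQ]
  exact h85_gal_smul_ratEmb N σ _

theorem h64c_t_fixed {t : FF N} (htj : t = jB N ∨ t = (jB N)⁻¹) :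
    t ∈ h53d_F0 N (A.inertiaSubgroupIn ℚ) := by
  rcases htj with h | h
  · rw [h]
    exact h64c_jB_fixed A N
  · rw [h]
    exact inv_mem (h64c_jB_fixed A N)

theorem h64c_t_transcendental {t : FF N} (htj : t = jB N ∨ t = (jB N)⁻¹) :
    Transcendental Kbar t := by
  rcases htj with h | h
  · rw [h]
    exact Fermat.Agent.S24.transcendental_jBar N
  · rw [h]
    intro halg
    exact (Fermat.Agent.S24.transcendental_jBar N) (by simpa using halg.inv)

/-- constants of `K0` lie in the field generated by `A0[t]`. -/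
theorem h64c_cstK_mem_closure (t : FF N) (ht : t ∈ h53d_F0 N (A.inertiaSubgroupIn ℚ))
    (c : h81a_K0 A) :
    (⟨cst N (c : Kbar), h64c_cstK_fixed A N c⟩ : h53d_F0 N (A.inertiaSubgroupIn ℚ)) ∈
      Subfield.closure (Set.range (h64c_ev0 A N t ht)) := by
  have hA0 : ∀ a : h81a_A0 A,
      (⟨cst N (((a : h81a_K0 A)) : Kbar), h64c_cstK_fixed A N a⟩ :
        h53d_F0 N (A.inertiaSubgroupIn ℚ)) ∈
        Subfield.closure (Set.range (h64c_ev0 A N t ht)) := by
    intro a
    refine Subfield.subset_closure ⟨C a, ?_⟩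
    apply Subtype.ext
    rw [h64c_coe_ev0, h64c_ev_C]
    rfl
  rcases (h81a_A0 A).mem_or_inv_mem c with h | h
  · exact hA0 ⟨c, h⟩
  · have h1 := inv_mem (hA0 ⟨c⁻¹, h⟩)
    have h2 : (⟨cst N (c : Kbar), h64c_cstK_fixed A N c⟩ :
        h53d_F0 N (A.inertiaSubgroupIn ℚ)) =
        (⟨cst N ((((⟨c⁻¹, h⟩ : h81a_A0 A) : h81a_K0 A)) : Kbar),
          h64c_cstK_fixed A N _⟩ : h53d_F0 N (A.inertiaSubgroupIn ℚ))⁻¹ := by
      apply Subtype.ext
      show cst N (c : Kbar) = (cst N (((c⁻¹ : h81a_K0 A)) : Kbar))⁻¹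
      rw [← map_inv₀ (algebraMap Kbar (FF N))]
      congr 1
      simp
    rw [h2]
    exact h1

theorem h64c_j_mem_closure (t : FF N) (ht : t ∈ h53d_F0 N (A.inertiaSubgroupIn ℚ))
    (htj : t = jB N ∨ t = (jB N)⁻¹) :
    h64c_emb0 A N (h85jQ N) ∈ Subfield.closure (Set.range (h64c_ev0 A N t ht)) := by
  have ht0 : (⟨t, ht⟩ : h53d_F0 N (A.inertiaSubgroupIn ℚ)) ∈
      Subfield.closure (Set.range (h64c_ev0 A N t ht)) := by
    refine Subfield.subset_closure ⟨X, ?_⟩
    apply Subtype.ext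
    rw [h64c_coe_ev0, h64c_ev_X]
  rcases htj with h | h
  · have h2 : h64c_emb0 A N (h85jQ N) = ⟨t, ht⟩ := by
      apply Subtype.ext
      rw [h64c_coe_emb0, h85ratEmb_jQ]
      exact h.symm
    rw [h2]
    exact ht0
  · have h2 : h64c_emb0 A N (h85jQ N) =
        (⟨t, ht⟩ : h53d_F0 N (A.inertiaSubgroupIn ℚ))⁻¹ := by
      apply Subtype.ext
      show ((h64c_emb0 A N (h85jQ N) : h53d_F0 N (A.inertiaSubgroupIn ℚ)) : FF N) = t⁻¹
      rw [h64c_coe_emb0, h85ratEmb_jQ]
      have h3 : t⁻¹ = jB N := by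
        rw [inv_eq_iff_eq_inv]
        exact h
      exact h3.symm
    rw [h2]
    exact inv_mem ht0

theorem h64c_Qj_mem_closure (t : FF N) (ht : t ∈ h53d_F0 N (A.inertiaSubgroupIn ℚ))
    (htj : t = jB N ∨ t = (jB N)⁻¹) {r : FQ N} (hr : r ∈ h85QjSet N) :
    h64c_emb0 A N r ∈ Subfield.closure (Set.range (h64c_ev0 A N t ht)) := by
  have h := h85_Qj_subsetC N
    ((Subfield.closure (Set.range (h64c_ev0 A N t ht))).comap (h64c_emb0 A N))
    (h64c_j_mem_closure A N t ht htj)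
  exact h hr

/-- **FD-F0.**  `F0` is spanned by a finite set over the field generated by `A0[t]`
(`= K0(j)`). -/
theorem h64c_exists_span (t : FF N) (ht : t ∈ h53d_F0 N (A.inertiaSubgroupIn ℚ))
    (htj : t = jB N ∨ t = (jB N)⁻¹) :
    ∃ T : Finset (h53d_F0 N (A.inertiaSubgroupIn ℚ)),
      ∀ x : h53d_F0 N (A.inertiaSubgroupIn ℚ),
        ∃ c : h53d_F0 N (A.inertiaSubgroupIn ℚ) → h53d_F0 N (A.inertiaSubgroupIn ℚ),
          (∀ u, c u ∈ ((Subfield.closure (Set.range (h64c_ev0 A N t ht)) :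
            Subfield (h53d_F0 N (A.inertiaSubgroupIn ℚ))) :
              Set (h53d_F0 N (A.inertiaSubgroupIn ℚ)))) ∧
            x = ∑ u ∈ T, c u * u := by
  classical
  obtain ⟨TQ, hTQ⟩ := h85_exists_span_Qj N
  refine ⟨TQ.image (h64c_emb0 A N), fun x => ?_⟩
  obtain ⟨n, c, e, hc, he, hx⟩ := h24g_descGen N (A.inertiaSubgroupIn ℚ) (x : FF N) x.2
  choose y hy using fun i => h85_exists_ratEmb_of_isRat (he i)
  choose r hr hyr using fun i => hTQ (y i)
  let cK : Fin n → h81a_K0 A := fun i => ⟨c i, (h81a_mem_K0 A _).mpr (hc i)⟩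
  let cF : Fin n → h53d_F0 N (A.inertiaSubgroupIn ℚ) :=
    fun i => ⟨cst N ((cK i : h81a_K0 A) : Kbar), h64c_cstK_fixed A N (cK i)⟩
  let coef : FQ N → h53d_F0 N (A.inertiaSubgroupIn ℚ) :=
    fun u => ∑ i, cF i * h64c_emb0 A N (r i u)
  have hcoef : ∀ u, coef u ∈ Subfield.closure (Set.range (h64c_ev0 A N t ht)) := by
    intro u
    refine sum_mem fun i _ => mul_mem ?_ ?_
    · exact h64c_cstK_mem_closure A N t ht (cK i)
    · exact h64c_Qj_mem_closure A N t ht htj (hr i u)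
  refine ⟨fun v => ∑ u ∈ TQ, if h64c_emb0 A N u = v then coef u else 0, ?_, ?_⟩
  · intro v
    refine sum_mem fun u _ => ?_
    split_ifs
    · exact hcoef u
    · exact zero_mem _
  · rw [Finset.sum_image (fun a _ b _ h => h64c_emb0_injective A N h)]
    have h1 : ∀ u ∈ TQ,
        (∑ u' ∈ TQ, if h64c_emb0 A N u' = h64c_emb0 A N u then coef u' else 0) = coef u := by
      intro u hu
      rw [Finset.sum_eq_single u]
      · rw [if_pos rfl]
      · intro b _ hb
        rw [if_neg]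
        intro h
        exact hb (h64c_emb0_injective A N h)
      · intro h
        exact absurd hu h
    have h1' : ∀ u ∈ TQ,
        (fun v => ∑ u ∈ TQ, if h64c_emb0 A N u = v then coef u else 0) (h64c_emb0 A N u) *
          h64c_emb0 A N u = coef u * h64c_emb0 A N u := by
      intro u hu
      show (∑ u' ∈ TQ, if h64c_emb0 A N u' = h64c_emb0 A N u then coef u' else 0) *
          h64c_emb0 A N u = _
      rw [h1 u hu]
    rw [Finset.sum_congr rfl h1']
    have hx0 : x = ∑ i, cF i * h64c_emb0 A N (y i) := by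
      apply Subtype.ext
      rw [hx, AddSubmonoidClass.coe_finsetSum]
      refine Finset.sum_congr rfl fun i _ => ?_
      rw [← hy i]
      rfl
    rw [hx0]
    have h2 : ∀ i, cF i * h64c_emb0 A N (y i) =
        ∑ u ∈ TQ, cF i * h64c_emb0 A N (r i u) * h64c_emb0 A N u := by
      intro i
      conv_lhs => rw [hyr i]
      rw [map_sum, Finset.mul_sum]
      refine Finset.sum_congr rfl fun u _ => ?_
      rw [map_mul, mul_assoc]
    rw [Finset.sum_congr rfl (fun i _ => h2 i), Finset.sum_comm]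
    refine Finset.sum_congr rfl fun u _ => ?_
    rw [Finset.sum_mul]

end Span

/-! ### The charts are finitely generated over `A0[t]` and noetherian -/

section Main

variable (A : ValuationSubring Kbar) (N : ℕ) [NeZero N]

theorem h64c_ev_mem_chart (t : FF N) (ht : t ∈ h53d_F0 N (A.inertiaSubgroupIn ℚ))
    (P : (h81a_A0 A)[X]) : h64c_ev A N t P ∈ h62rChart A N t :=
  (h64c_mem_chart_iff A N t ht _).mpr
    ⟨h64c_ev0 A N t ht P, h64c_coe_ev0 A N t ht P, RingHom.isIntegralElem_map _⟩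

/-- **the chart over `A0` is a finitely generated `A0[t]`-module** (`t = j, 1/j`), generic
form inside `F0`. -/
theorem h64c_chart_fg0 {q : ℕ} (hq : q.Prime) (hA : A.LiesOverPrime q) (t : FF N)
    (htj : t = jB N ∨ t = (jB N)⁻¹) :
    ∃ S : Finset (h53d_F0 N (A.inertiaSubgroupIn ℚ)),
      (∀ s ∈ S, (h64c_ev0 A N t (h64c_t_fixed A N htj)).IsIntegralElem s) ∧
      ∀ x : h53d_F0 N (A.inertiaSubgroupIn ℚ),
        (h64c_ev0 A N t (h64c_t_fixed A N htj)).IsIntegralElem x →
        ∃ c : h53d_F0 N (A.inertiaSubgroupIn ℚ) → (h81a_A0 A)[X],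
          x = ∑ s ∈ S, h64c_ev0 A N t (h64c_t_fixed A N htj) (c s) * s := by
  haveI := h81a_isDVR hq hA
  haveI : CharZero (FF N) := charZero_of_injective_algebraMap (algebraMap Kbar (FF N)).injective
  haveI : CharZero (h53d_F0 N (A.inertiaSubgroupIn ℚ)) :=
    RingHom.charZero (h53d_F0 N (A.inertiaSubgroupIn ℚ)).subtype
  obtain ⟨T, hT⟩ := h64c_exists_span A N t (h64c_t_fixed A N htj) htj
  exact h85_exists_finset_gen_of_noetherian
    ((h64c_cst A N).codRestrict (h53d_F0 N (A.inertiaSubgroupIn ℚ)) (h64c_cst_fixed A N))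
    ⟨t, h64c_t_fixed A N htj⟩
    (h64c_ev0_injective A N t (h64c_t_fixed A N htj) (h64c_t_transcendental N htj))
    _ (le_refl _) T hT

/-- **the chart over `A0` is a finitely generated `A0[t]`-module** (`t = j, 1/j`). -/
theorem h64c_chart_fg {q : ℕ} (hq : q.Prime) (hA : A.LiesOverPrime q) (t : FF N)
    (htj : t = jB N ∨ t = (jB N)⁻¹) :
    ∃ S : Finset (FF N), (∀ s ∈ S, s ∈ h62rChart A N t) ∧
      ∀ y ∈ h62rChart A N t, ∃ c : FF N → (h81a_A0 A)[X],
        y = ∑ s ∈ S, h64c_ev A N t (c s) * s := by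
  classical
  have ht := h64c_t_fixed A N htj
  obtain ⟨S0, hS0, hgen⟩ := h64c_chart_fg0 A N hq hA t htj
  refine ⟨S0.image Subtype.val, ?_, ?_⟩
  · intro s hs
    obtain ⟨s0, hs0, rfl⟩ := Finset.mem_image.mp hs
    exact (h64c_mem_chart_iff A N t ht _).mpr ⟨s0, rfl, hS0 s0 hs0⟩
  · intro y hy
    obtain ⟨y0, rfl, hy0⟩ := (h64c_mem_chart_iff A N t ht y).mp hy
    obtain ⟨c, hc⟩ := hgen y0 hy0
    refine ⟨fun s => if h : s ∈ h53d_F0 N (A.inertiaSubgroupIn ℚ) then c ⟨s, h⟩ else 0, ?_⟩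
    rw [Finset.sum_image (fun a _ b _ h => Subtype.ext h)]
    conv_lhs => rw [hc]
    rw [AddSubmonoidClass.coe_finsetSum]
    refine Finset.sum_congr rfl fun s _ => ?_
    show ((h64c_ev0 A N t ht (c s) : h53d_F0 N (A.inertiaSubgroupIn ℚ)) : FF N) * (s : FF N) =
      h64c_ev A N t (if h : (s : FF N) ∈ h53d_F0 N (A.inertiaSubgroupIn ℚ) then
        c ⟨(s : FF N), h⟩ else 0) * (s : FF N)
    rw [dif_pos s.2, h64c_coe_ev0]

/-- **R-BASE0 (noetherian).**  The chart `h62rChart A N t` over the inertia ring `A0` is a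
noetherian ring, `t = j, 1/j`. -/
theorem h64c_isNoetherianRing_chart {q : ℕ} (hq : q.Prime) (hA : A.LiesOverPrime q) (t : FF N)
    (htj : t = jB N ∨ t = (jB N)⁻¹) : IsNoetherianRing (h62rChart A N t) := by
  haveI := h81a_isDVR hq hA
  obtain ⟨S, hS, hgen⟩ := h64c_chart_fg A N hq hA t htj
  exact h64c_noeth_of_fg (h64c_ev A N t) (h62rChart A N t)
    (h64c_ev_mem_chart A N t (h64c_t_fixed A N htj)) S hS hgen

theorem h64c_isNoetherianRing_chartFin {q : ℕ} (hq : q.Prime) (hA : A.LiesOverPrime q) :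
    IsNoetherianRing (h62rChart A N (jB N)) :=
  h64c_isNoetherianRing_chart A N hq hA (jB N) (Or.inl rfl)

theorem h64c_isNoetherianRing_chartInf {q : ℕ} (hq : q.Prime) (hA : A.LiesOverPrime q) :
    IsNoetherianRing (h62rChart A N (jB N)⁻¹) :=
  h64c_isNoetherianRing_chart A N hq hA (jB N)⁻¹ (Or.inr rfl)

end Main

end Fermat.Agent.S36
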