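import Fermat.Agent.S36.H67Tower
import Fermat.Agent.S36.H67Inst
import Fermat.Agent.S36.H40FinNode
import Fermat.Agent.S36.H40GenB
import Fermat.Agent.S36.H59Base2
import Fermat.Agent.S36.H12TorUniq
import Fermat.Agent.S36.H64ChartNoeth
import Fermat.Agent.S36.H71TorExp

/-!
# S36, block REG, row R-TOWER-SS (helper25, prefix `h25t_`): the tower wiring

Instantiation of helper67's abstract tower theorem `h67t_tower` (`S36/H67Tower.lean`) at
`B₁ = h62rChart A (M q) (jSS M q)`, `Bc = h62rChart A (M q²) (jB (M q²))` (charts over the inertia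
ring `A₀`), `ι = h62rA2 A M`, `F = FF (M q²)`.

* `h25t_kron_rat` : the Kronecker remainder of a rational `u` has rational coefficients.
* `h25t_rel` : the relations `(GX)` (in `B₁`) and `(GZ)` (in `Bc`) of the tower argument with
  `s ∈ B₁[X]`, `X = α u`, `Y = β u`, `Z = β₂ β u`.
* `h25t_towerAt` : the four outputs of `h67t_tower` at a closed point `𝔫₂ ∋ q` of `Bc` over a
  node of `B₁`.
* `h25t_finNode : H62FinNode`, `h25t_towerUniq : H12TowerUniq`, `h25t_towerGen : H71TowerGen`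
  (exact frozen Props, unconditional).
-/

set_option autoImplicit false
set_option linter.style.haveILetI false
set_option linter.unusedSectionVars false
set_option linter.unusedVariables false

open AlgebraicCurve ModularCurve Polynomial

noncomputable section

namespace Fermat.Agent.S36

open Fermat.Agent.S37 Fermat.Agent.Red.GG Fermat.Agent.LGC
open Fermat.Agent.Red.Kron (kFricke kFricke_alpha kFricke_beta)
open Fermat.Agent.Red.GV.Soft (isRat_iff_gal_fixed)

/-! ## The rational Kronecker remainder -/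

section Kron

variable (M q : ℕ) [NeZero M] [NeZero q] (A : ValuationSubring Kbar)

/-- **Kronecker modulo `q` with a rational remainder.** -/
theorem h25t_kron_rat (hq : q.Prime) (hM : ¬ q ∣ M) (hA : A.LiesOverPrime q) (u : FF M)
    (hu : u ∈ modelFin M A) (hrat : IsRat u) :
    ∃ r : (FF M)[X], (∀ n, r.coeff n ∈ modelFin M A) ∧ (∀ n, IsRat (r.coeff n)) ∧
      r.natDegree ≤ q ∧
      ((X - C (u ^ q)) * (X ^ q - C u) + C ((q : ℕ) : FF M) * r).eval₂
        (heckeAlphaBar Kbar M q).toRingHom (heckeBetaBar Kbar M q u) = 0 := by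
  obtain ⟨r, hr, hdeg, heq⟩ := h55k_charpoly_eq M q A hq hM hA u hu hrat
  have hq0 : ((q : ℕ) : FF M) ≠ 0 := Nat.cast_ne_zero.mpr hq.ne_zero
  refine ⟨r, hr, fun n => ?_, hdeg, ?_⟩
  · have h1 : (h55k_Psi M q u - h55k_P0 M q u).coeff n = ((q : ℕ) : FF M) * r.coeff n := by
      rw [heq, h55k_P0, add_sub_cancel_left, coeff_C_mul]
    have h2 := h55k_isRat_coeff M q hq hM u hrat n
    rw [h1, isRat_iff_gal_fixed] at h2
    rw [isRat_iff_gal_fixed]
    intro σ
    have h3 := h2 σ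
    have h4 : gal M σ • ((q : ℕ) : FF M) = ((q : ℕ) : FF M) := by
      have h5 : ((q : ℕ) : FF M) = cst M ((q : ℕ) : Kbar) := (map_natCast _ q).symm
      rw [h5, GalI.gal_smul_cst, map_natCast]
    rw [smul_mul', h4] at h3
    exact mul_left_cancel₀ hq0 h3
  · rw [← heq]
    exact h44g_eval₂_charpolyAlong (heckeAlphaBar Kbar M q) _ _

end Kron

/-! ## The relations `(GX)`, `(GZ)` in the charts -/

section Rel

theorem h25t_coe_eval_map {R S T : Type*} [CommRing R] [CommRing S] [CommRing T]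
    (f : R →+* S) (g : S →+* T) (p : R[X]) (x : S) :
    g ((p.map f).eval x) = p.eval₂ (g.comp f) (g x) := by
  rw [eval_map, hom_eval₂]

variable (A : ValuationSubring Kbar) (M : ℕ) {q : ℕ} [NeZero M] [NeZero q]

theorem h25t_A2_eq : h62rA2 A M (q := q) = h59y_a2 A M (q := q) :=
  RingHom.ext fun _ => rfl

/-- **the relations `(GX)` and `(GZ)` of the tower argument**, with `s ∈ B₁[X]`. -/
theorem h25t_rel (hq : q.Prime) (hM : ¬ q ∣ M) (hA : A.LiesOverPrime q)
    (u : h62rChart A M (jB M)) (hrat : IsRat (u : FF M)) :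
    ∃ s : (h62rChart A (M * q) (jSS M q))[X], s.natDegree ≤ q ∧
      (h62rAlpha A M u - h62rBeta A M hq hM hA u ^ q) *
          (h62rAlpha A M u ^ q - h62rBeta A M hq hM hA u)
        + (q : h62rChart A (M * q) (jSS M q)) * s.eval (h62rAlpha A M u) = 0 ∧
      (h59y_e2 A M hq hM hA u - h62rA2 A M (h62rBeta A M hq hM hA u) ^ q) *
          (h59y_e2 A M hq hM hA u ^ q - h62rA2 A M (h62rBeta A M hq hM hA u))
        + (q : h62rChart A (M * q * q) (jB (M * q * q))) *
            (s.map (h62rA2 A M)).eval (h59y_e2 A M hq hM hA u) = 0 := by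
  obtain ⟨r, hr, hrat_r, hdeg, h0⟩ :=
    h25t_kron_rat M q A hq hM hA (u : FF M) (h62r_mem_chart.mp u.2).1 hrat
  have hrc : (↑r.coeffs : Set (FF M)) ⊆ h62rChart A M (jB M) := by
    intro c hc
    obtain ⟨i, -, rfl⟩ := Polynomial.mem_coeffs_iff.mp hc
    exact h62r_mem_chart.mpr ⟨hr i, fun σ _ => GalI.gal_smul_of_isRat σ (hrat_r i)⟩
  have hr₀ : (r.toSubring _ hrc).map (h62rChart A M (jB M)).subtype = r :=
    Polynomial.map_toSubring _ _ _
  refine ⟨(r.toSubring _ hrc).map (h62rBeta A M hq hM hA), ?_, ?_, ?_⟩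
  · refine (natDegree_map_le).trans ?_
    rw [Polynomial.natDegree_toSubring]
    exact hdeg
  · -- `(GX)`: the Fricke involution
    have hw := congrArg (kFricke M q hq hM).toAlgHom.toRingHom h0
    rw [Polynomial.hom_eval₂, map_zero] at hw
    have hwa : (kFricke M q hq hM).toAlgHom.toRingHom.comp (heckeAlphaBar Kbar M q).toRingHom
        = (heckeBetaBar Kbar M q).toRingHom :=
      RingHom.ext fun x => kFricke_alpha M q hq hM x
    have hwb : (kFricke M q hq hM).toAlgHom.toRingHom (heckeBetaBar Kbar M q (u : FF M))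
        = heckeAlphaBar Kbar M q (u : FF M) := kFricke_beta M q hq hM (u : FF M)
    rw [hwa, hwb, h67i_eval₂] at hw
    apply Subtype.ext
    have hc := h25t_coe_eval_map (h62rBeta A M hq hM hA)
      (h62rChart A (M * q) (jSS M q)).subtype (r.toSubring _ hrc) (h62rAlpha A M u)
    have hcomp : (h62rChart A (M * q) (jSS M q)).subtype.comp (h62rBeta A M hq hM hA) =
        (heckeBetaBar Kbar M q).toRingHom.comp (h62rChart A M (jB M)).subtype :=
      RingHom.ext fun _ => rfl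
    rw [hcomp, ← eval₂_map, hr₀] at hc
    push_cast
    rw [show (((Polynomial.map (h62rBeta A M hq hM hA) (r.toSubring _ hrc)).eval
        (h62rAlpha A M u) : h62rChart A (M * q) (jSS M q)) : FF (M * q)) = _ from hc]
    exact hw
  · -- `(GZ)`: apply `β₂`
    have h1 := congrArg (heckeBetaBar Kbar (M * q) q).toRingHom h0
    rw [Polynomial.hom_eval₂, map_zero, ← h67i_e1_eq', h67i_eval₂] at h1
    apply Subtype.ext
    have hc := h25t_coe_eval_map (h62rA2 A M (q := q))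
      (h62rChart A (M * q * q) (jB (M * q * q))).subtype
      ((r.toSubring _ hrc).map (h62rBeta A M hq hM hA)) (h59y_e2 A M hq hM hA u)
    have hcomp : ((h62rChart A (M * q * q) (jB (M * q * q))).subtype.comp
        (h62rA2 A M (q := q))).comp (h62rBeta A M hq hM hA) =
        (h67i_e1 M q).comp (h62rChart A M (jB M)).subtype :=
      RingHom.ext fun _ => rfl
    rw [eval₂_map, hcomp, ← eval₂_map, hr₀] at hc
    push_cast
    rw [show (((Polynomial.map (h62rA2 A M (q := q))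
        ((r.toSubring _ hrc).map (h62rBeta A M hq hM hA))).eval
        (h59y_e2 A M hq hM hA u) : h62rChart A (M * q * q) (jB (M * q * q))) :
          FF (M * q * q)) = _ from hc]
    exact h1

end Rel

/-! ## The tower argument at a closed point over a node -/

section Tower

variable {A : ValuationSubring Kbar} {M q : ℕ} [NeZero M] [NeZero q]

/-- **the outputs of the tower argument** at a closed point `𝔫₂ ∋ q` of the chart of level
`M q²` over a node of the chart of level `M q`. -/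
theorem h25t_towerAt (hq : q.Prime) (hM : ¬ q ∣ M) (hA : A.LiesOverPrime q)
    (𝔫₂ : Ideal (h62rChart A (M * q * q) (jB (M * q * q)))) (h𝔫₂ : 𝔫₂.IsMaximal)
    (hq𝔫₂ : (q : h62rChart A (M * q * q) (jB (M * q * q))) ∈ 𝔫₂)
    (u : h62rChart A M (jB M)) (hrat : IsRat (u : FF M))
    (hX : h62rAlpha A M u ∈ 𝔫₂.comap (h62rA2 A M))
    (hY : h62rBeta A M hq hM hA u ∈ 𝔫₂.comap (h62rA2 A M))
    (ρ : h62rChart A (M * q) (jSS M q)) (hρ : ρ ∉ 𝔫₂.comap (h62rA2 A M))
    (hf : (h62rBeta A M hq hM hA u - h62rAlpha A M u ^ q) *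
        (h62rBeta A M hq hM hA u ^ q - h62rAlpha A M u)
        + (q : h62rChart A (M * q) (jSS M q)) * ρ = 0)
    (hgen : h62rLocGen (𝔫₂.comap (h62rA2 A M))
      (Ideal.span {h62rAlpha A M u, h62rBeta A M hq hM hA u})) :
    h59y_e2 A M hq hM hA u ∈ 𝔫₂ ∧
    (∀ z ∈ 𝔫₂, ∃ t, t ∉ 𝔫₂ ∧ t * z ∈ Ideal.span
      {h62rA2 A M (h62rAlpha A M u), h59y_e2 A M hq hM hA u}) ∧
    (∀ 𝔫' : Ideal (h62rChart A (M * q * q) (jB (M * q * q))), 𝔫'.IsMaximal →
      𝔫'.comap (h62rA2 A M) = 𝔫₂.comap (h62rA2 A M) → 𝔫' = 𝔫₂) ∧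
    (∀ b : h62rChart A (M * q * q) (jB (M * q * q)),
      ∃ (p : (h62rChart A (M * q) (jSS M q))[X]) (d : h62rChart A (M * q) (jSS M q)),
        h62rA2 A M d ∉ 𝔫₂ ∧
          h62rA2 A M d * b = (p.map (h62rA2 A M)).eval (h59y_e2 A M hq hM hA u)) ∧
    (h59y_e2 A M hq hM hA u - h62rA2 A M (h62rBeta A M hq hM hA u) ^ q) *
        (h59y_e2 A M hq hM hA u ^ q - h62rA2 A M (h62rBeta A M hq hM hA u)) ∈
      Ideal.span {(q : h62rChart A (M * q * q) (jB (M * q * q)))} := by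
  classical
  haveI := h𝔫₂
  haveI hN : IsNoetherianRing (h62rChart A (M * q) (jSS M q)) :=
    h64c_isNoetherianRing_chart A (M * q) hq hA (jSS M q)
      (Or.inl (Fermat.Agent.LGC.h85s_jSS_eq (M := M) (ℓ := q)))
  letI algB1 : Algebra (h62rChart A (M * q) (jSS M q)) (FF (M * q * q)) :=
    ((heckeAlphaBar Kbar (M * q) q).toRingHom.comp
      (h62rChart A (M * q) (jSS M q)).subtype).toAlgebra
  letI algBc : Algebra (h62rChart A (M * q * q) (jB (M * q * q))) (FF (M * q * q)) :=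
    (h62rChart A (M * q * q) (jB (M * q * q))).subtype.toAlgebra
  have hB1inj : Function.Injective
      (algebraMap (h62rChart A (M * q) (jSS M q)) (FF (M * q * q))) := by
    intro x y hxy
    exact Subtype.ext ((heckeAlphaBar Kbar (M * q) q).toRingHom.injective hxy)
  have hBcinj : Function.Injective
      (algebraMap (h62rChart A (M * q * q) (jB (M * q * q))) (FF (M * q * q))) :=
    Subtype.val_injective
  have hι : ∀ b, algebraMap (h62rChart A (M * q * q) (jB (M * q * q))) (FF (M * q * q))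
      (h62rA2 A M b) = algebraMap (h62rChart A (M * q) (jSS M q)) (FF (M * q * q)) b :=
    fun _ => rfl
  have hint : ∀ b : h62rChart A (M * q * q) (jB (M * q * q)),
      IsIntegral (h62rChart A (M * q) (jSS M q))
        (algebraMap (h62rChart A (M * q * q) (jB (M * q * q))) (FF (M * q * q)) b) := by
    intro b
    obtain ⟨p, hp, hpe⟩ := h59y_a2_isIntegral A M (q := q) b
    refine ⟨p, hp, ?_⟩
    have h1 := congrArg (h62rChart A (M * q * q) (jB (M * q * q))).subtype hpe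
    rw [Polynomial.hom_eval₂, map_zero] at h1
    exact h1
  -- the contraction is a closed point
  have hmax : (𝔫₂.comap (h62rA2 A M)).IsMaximal := by
    rw [h25t_A2_eq]
    exact (h59y_comap_a2 A M 𝔫₂ h𝔫₂ hq𝔫₂).1
  have hq₁ : ((q : ℕ) : h62rChart A (M * q) (jSS M q)) ∈ 𝔫₂.comap (h62rA2 A M) :=
    h40x_natCast_mem_comap A M 𝔫₂ hq𝔫₂
  -- the relations
  obtain ⟨s, hsdeg, hGX, hGZ⟩ := h25t_rel A M hq hM hA u hrat
  -- `u` is not constant
  have hu : (u : FF M) ∉ Set.range (cst M) :=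
    h40x_not_cst A M hq hM hA _ hmax.isPrime u hX ρ hρ hf
  -- the dimension witness
  obtain ⟨P, hP, hP0, hP𝔫, hPne⟩ := h40x_dim_tower A M hq hA 𝔫₂ hmax hq₁
  haveI := hP
  have hZ : ((h59y_e2 A M hq hM hA u : h62rChart A (M * q * q) (jB (M * q * q))) :
      FF (M * q * q)) = h40gZ M q (u : FF M) := rfl
  have hZ' : ((h59y_e2 A M hq hM hA u : h62rChart A (M * q * q) (jB (M * q * q))) :
      FF (M * q * q)) = h67i_e2 M q (u : FF M) := rfl
  have hZX : h59y_e2 A M hq hM hA u ≠ h62rA2 A M (h62rAlpha A M u) := by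
    rw [h25t_A2_eq]
    exact h40y_e2_ne_a2 A M hq hM u hu _ hZ' _
  have hfrac := h40x_hfrac A M hq hM u hu (h59y_e2 A M hq hM hA u) hZ
  have hgen1 : ∀ b : h62rChart A (M * q) (jSS M q), h62rA2 A M b ∈ 𝔫₂ →
      ∃ t : h62rChart A (M * q) (jSS M q), h62rA2 A M t ∉ 𝔫₂ ∧
        t * b ∈ Ideal.span {h62rAlpha A M u, h62rBeta A M hq hM hA u} := by
    intro b hb
    obtain ⟨t, ht, htb⟩ := hgen b (Ideal.mem_comap.mpr hb)
    exact ⟨t, fun h => ht (Ideal.mem_comap.mpr h), htb⟩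
  obtain ⟨h1, h2, h3, h4⟩ := h67t_tower (F := FF (M * q * q))
    (B1 := h62rChart A (M * q) (jSS M q)) (Bc := h62rChart A (M * q * q) (jB (M * q * q)))
    hB1inj hBcinj (h62rA2 A M) hι hint 𝔫₂ q hq.two_le hq𝔫₂
    (h62rAlpha A M u) (h62rBeta A M hq hM hA u) ρ
    (Ideal.mem_comap.mp hX) (Ideal.mem_comap.mp hY) (fun h => hρ (Ideal.mem_comap.mpr h))
    hgen1 P hP0 hP𝔫 hPne hf s hsdeg hGX (h59y_e2 A M hq hM hA u) hZX hGZ hfrac
  refine ⟨h1, h2, h3, h4, ?_⟩
  rw [Ideal.mem_span_singleton]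
  refine ⟨-(s.map (h62rA2 A M)).eval (h59y_e2 A M hq hM hA u), ?_⟩
  linear_combination hGZ

end Tower

/-! ## The frozen leaves -/

/-- **R-TOWER-SS** (exact frozen Prop `H62FinNode`). -/
theorem h25t_finNode : H62FinNode := by
  intro q hq M _ hM haux
  haveI : NeZero q := ⟨hq.ne_zero⟩
  intro A hA 𝔫₂ h𝔫₂ hq𝔫₂ hnode
  obtain ⟨u, hrat, hX, hY, ⟨ρ, hρ, hf⟩, hgen⟩ := hnode
  obtain ⟨h1, h2, -, -, h5⟩ := h25t_towerAt hq hM hA 𝔫₂ h𝔫₂ hq𝔫₂ u hrat hX hY ρ hρ hf hgen
  refine Or.inl ⟨h62rA2 A M (h62rAlpha A M u), h62rA2 A M (h62rBeta A M hq hM hA u),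
    h59y_e2 A M hq hM hA u, Ideal.mem_comap.mp hX, h1, h2, ?_, h5⟩
  rw [Ideal.mem_span_singleton]
  refine ⟨-h62rA2 A M ρ, ?_⟩
  have h := congrArg (h62rA2 A M) hf
  rw [map_add, map_mul, map_mul, map_sub, map_sub, map_pow, map_pow, map_natCast, map_zero] at h
  linear_combination h

/-- **tower uniqueness** (exact frozen Prop `H12TowerUniq`). -/
theorem h25t_towerUniq : H12TowerUniq := by
  intro q hq M _ hM haux
  haveI : NeZero q := ⟨hq.ne_zero⟩
  intro A hA 𝔫₂ h𝔫₂ hq𝔫₂ hnode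
  obtain ⟨u, hrat, hX, hY, ⟨ρ, hρ, hf⟩, hgen⟩ := hnode
  exact (h25t_towerAt hq hM hA 𝔫₂ h𝔫₂ hq𝔫₂ u hrat hX hY ρ hρ hf hgen).2.2.1

/-- **tower generation** (exact frozen Prop `H71TowerGen`). -/
theorem h25t_towerGen : H71TowerGen := by
  intro q hq M _ hM haux
  haveI : NeZero q := ⟨hq.ne_zero⟩
  intro A hA 𝔫₂ h𝔫₂ hq𝔫₂ hnode
  obtain ⟨u, hrat, hX, hY, ⟨ρ, hρ, hf⟩, hgen⟩ := hnode
  obtain ⟨h1, -, -, h4, -⟩ := h25t_towerAt hq hM hA 𝔫₂ h𝔫₂ hq𝔫₂ u hrat hX hY ρ hρ hf hgen
  exact ⟨u, hrat, hX, hY, h59y_e2 A M hq hM hA u, rfl, h1, h4⟩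

end Fermat.Agent.S36
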