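import Mathlib

/-!
# S36, utility leaf WA (helper84): weak approximation with precision for finitely many
`ℤᵐ⁰`-valued valuations

`F` a field, `v : ι → Valuation F ℤᵐ⁰` a family of valuations, `s : Finset ι` a finite set of
indices such that the `v i`, `i ∈ s`, are nontrivial and pairwise independent in the elementary
sense `H84Indep` (for `i ≠ j` in `s` there is `x` with `v i x ≤ 1 < v j x`).

* `h84w_exists_pow_mul_lt` : archimedean property of `ℤᵐ⁰`.
* `h84w_exists_sep` : for `i ∈ s` there is `a` with `1 < v i a` and `v j a < 1` for the other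
  `j ∈ s` (Artin–Whaples).
* `h84w_exists_idem` : approximate idempotents: `e` with `v i (e - 1) < γ i` and `v j e < γ j`
  for the other `j ∈ s`.
* `h84w_approx` : **weak approximation**: for targets `x i` and bounds `γ i ≠ 0` there is `h`
  with `v i (h - x i) < γ i` for all `i ∈ s`.
* `h84w_approx_units` : multiplicative form with precision: for nonzero targets `x i` and
  `n i : ℕ` there is `h ≠ 0` with `v i (h / x i - 1) < exp (-(n i))` for all `i ∈ s`; in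
  particular `v i h = v i (x i)` (`h84w_approx_val`).
* `h84w_pow_prime_sub_one` : the `q`-th power trick along a component of multiplicity `q - 1`:
  if `v (w - 1) ^ q ≤ v q` and `v (w - 1) ≤ 1` then `v (w ^ q - 1) ≤ v q`.
* `Fintype` versions `h84w_approx_univ`, `h84w_approx_units_univ`; three-valuation versions
  `h84w_approx3`, `h84w_approx_units3`.
* `h84w_sep_symm`, `h84w_indep_of_sep` : for nontrivial `ℤᵐ⁰`-valued valuations one separating
  element per pair (in either direction) suffices.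

Mathlib only.
-/

set_option autoImplicit false

open WithZero

namespace Fermat.Agent.S36

section Arch

/-- **Archimedean property of `ℤᵐ⁰`.**  For `x < 1`, any `y` and any `γ ≠ 0`, the products
`x ^ n * y` are `< γ` for all large `n`. -/
theorem h84w_exists_pow_mul_lt {x : ℤᵐ⁰} (hx : x < 1) (y : ℤᵐ⁰) {γ : ℤᵐ⁰} (hγ : γ ≠ 0) :
    ∃ N : ℕ, ∀ n, N ≤ n → x ^ n * y < γ := by
  have hγpos : (0 : ℤᵐ⁰) < γ := zero_lt_iff.mpr hγ
  rcases eq_or_ne y 0 with rfl | hy0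
  · exact ⟨0, fun n _ => by simpa using hγpos⟩
  rcases eq_or_ne x 0 with rfl | hx0
  · refine ⟨1, fun n hn => ?_⟩
    have : n ≠ 0 := by omega
    simpa [zero_pow this] using hγpos
  have h1 : log x < 0 := by
    have h2 : exp (log x) < exp (0 : ℤ) := by
      rw [exp_log hx0, exp_zero]; exact hx
    exact exp_lt_exp.mp h2
  refine ⟨(log y - log γ + 1).toNat, fun n hn => ?_⟩
  have h4 : log y - log γ + 1 ≤ ((log y - log γ + 1).toNat : ℤ) := Int.self_le_toNat _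
  have h5 : ((log y - log γ + 1).toNat : ℤ) ≤ (n : ℤ) := by exact_mod_cast hn
  have h6 : (0 : ℤ) ≤ (n : ℤ) := Int.natCast_nonneg _
  have h3 : n • log x + log y < log γ := by
    rw [nsmul_eq_mul]
    nlinarith
  calc x ^ n * y = exp (n • log x + log y) := by
        rw [exp_add, exp_nsmul, exp_log hx0, exp_log hy0]
    _ < exp (log γ) := exp_lt_exp.mpr h3
    _ = γ := exp_log hγ

/-- uniform version over a finite set. -/
theorem h84w_exists_pow_mul_lt_finset {ι : Type*} (s : Finset ι) (x y γ : ι → ℤᵐ⁰)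
    (hx : ∀ j ∈ s, x j < 1) (hγ : ∀ j ∈ s, γ j ≠ 0) :
    ∃ N : ℕ, ∀ n, N ≤ n → ∀ j ∈ s, x j ^ n * y j < γ j := by
  classical
  have hex : ∀ j : ι, ∃ N : ℕ, j ∈ s → ∀ n, N ≤ n → x j ^ n * y j < γ j := by
    intro j
    by_cases hj : j ∈ s
    · obtain ⟨N, hN⟩ := h84w_exists_pow_mul_lt (hx j hj) (y j) (hγ j hj)
      exact ⟨N, fun _ => hN⟩
    · exact ⟨0, fun h => (hj h).elim⟩
  choose N hN using hex
  refine ⟨s.sup N, fun n hn j hj => hN j hj n ?_⟩
  exact (Finset.le_sup (f := N) hj).trans hn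

end Arch

section WA

variable {F : Type*} [Field F] {ι : Type*}

/-- elementary pairwise independence on the finite set `s`: for `i ≠ j` in `s` there is `x`
with `v i x ≤ 1 < v j x`. -/
def H84Indep (v : ι → Valuation F ℤᵐ⁰) (s : Finset ι) : Prop :=
  ∀ i ∈ s, ∀ j ∈ s, i ≠ j → ∃ x : F, v i x ≤ 1 ∧ 1 < v j x

/-- nontriviality on `s`: every `v i`, `i ∈ s`, takes a value `> 1`. -/
def H84Nontriv (v : ι → Valuation F ℤᵐ⁰) (s : Finset ι) : Prop :=
  ∀ i ∈ s, ∃ x : F, 1 < v i x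

theorem H84Indep.mono {v : ι → Valuation F ℤᵐ⁰} {s t : Finset ι} (h : H84Indep v t)
    (hst : s ⊆ t) : H84Indep v s :=
  fun i hi j hj hij => h i (hst hi) j (hst hj) hij

theorem H84Nontriv.mono {v : ι → Valuation F ℤᵐ⁰} {s t : Finset ι} (h : H84Nontriv v t)
    (hst : s ⊆ t) : H84Nontriv v s :=
  fun i hi => h i (hst hi)

/-- a uniformiser gives nontriviality. -/
theorem h84w_nontriv_of_unif (v : ι → Valuation F ℤᵐ⁰) (s : Finset ι)
    (h : ∀ i ∈ s, ∃ x : F, v i x ≠ 0 ∧ v i x < 1) : H84Nontriv v s := by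
  intro i hi
  obtain ⟨x, hx0, hx1⟩ := h i hi
  refine ⟨x⁻¹, ?_⟩
  rw [map_inv₀]
  exact (one_lt_inv₀ (zero_lt_iff.mpr hx0)).mpr hx1

variable (v : ι → Valuation F ℤᵐ⁰)

/-- the two-valuation case. -/
theorem h84w_pair {s : Finset ι} (hind : H84Indep v s) {i k : ι} (hi : i ∈ s) (hk : k ∈ s)
    (hik : i ≠ k) : ∃ b : F, 1 < v i b ∧ v k b < 1 := by
  obtain ⟨x, hxk, hxi⟩ := hind k hk i hi (Ne.symm hik)
  obtain ⟨y, hyi, hyk⟩ := hind i hi k hk hik
  have hy0 : y ≠ 0 := by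
    rintro rfl
    simp at hyk
  have hvi : v i y ≠ 0 := (Valuation.ne_zero_iff _).mpr hy0
  have hvk : v k y ≠ 0 := (Valuation.ne_zero_iff _).mpr hy0
  refine ⟨x / y, ?_, ?_⟩
  · rw [map_div₀, lt_div_iff₀ (zero_lt_iff.mpr hvi), one_mul]
    exact lt_of_le_of_lt hyi hxi
  · rw [map_div₀, div_lt_one₀ (zero_lt_iff.mpr hvk)]
    exact lt_of_le_of_lt hxk hyk

/-- **Artin–Whaples**, finset form. -/
theorem h84w_exists_sep_aux {s : Finset ι} (hnt : H84Nontriv v s) (hind : H84Indep v s)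
    {i : ι} (hi : i ∈ s) :
    ∀ t : Finset ι, t ⊆ s → i ∉ t → ∃ a : F, 1 < v i a ∧ ∀ j ∈ t, v j a < 1 := by
  classical
  intro t
  induction t using Finset.induction_on with
  | empty =>
    intro _ _
    obtain ⟨a, ha⟩ := hnt i hi
    exact ⟨a, ha, fun j hj => absurd hj (Finset.notMem_empty j)⟩
  | insert k t hkt ih =>
    intro hts hit
    have hks : k ∈ s := hts (Finset.mem_insert_self k t)
    have hts' : t ⊆ s := fun j hj => hts (Finset.mem_insert_of_mem hj)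
    have hit' : i ∉ t := fun h => hit (Finset.mem_insert_of_mem h)
    have hik : i ≠ k := fun h => hit (h ▸ Finset.mem_insert_self i t)
    obtain ⟨a, hai, hat⟩ := ih hts' hit'
    obtain ⟨b, hbi, hbk⟩ := h84w_pair v hind hi hks hik
    have ha0 : a ≠ 0 := by
      rintro rfl
      simp at hai
    -- uniform exponent for the `j ∈ t`
    obtain ⟨N, hN⟩ := h84w_exists_pow_mul_lt_finset t (fun j => v j a) (fun j => v j b)
      (fun _ => 1) hat (fun _ _ => one_ne_zero)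
    rcases lt_trichotomy (v k a) 1 with hka | hka | hka
    · -- `a` works
      refine ⟨a, hai, fun j hj => ?_⟩
      rcases Finset.mem_insert.mp hj with rfl | hj
      · exact hka
      · exact hat j hj
    · -- `a ^ N * b`
      refine ⟨a ^ N * b, ?_, fun j hj => ?_⟩
      · rw [map_mul, map_pow]
        have h1 : (1 : ℤᵐ⁰) ≤ v i a ^ N := one_le_pow₀ hai.le
        calc (1 : ℤᵐ⁰) < v i b := hbi
          _ = 1 * v i b := (one_mul _).symm
          _ ≤ v i a ^ N * v i b := mul_le_mul' h1 le_rfl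
      · rcases Finset.mem_insert.mp hj with rfl | hj
        · rw [map_mul, map_pow, hka, one_pow, one_mul]
          exact hbk
        · rw [map_mul, map_pow]
          exact hN N le_rfl j hj
    · -- `a ^ n * b / (1 + a ^ n)` with `n = N + 1`
      set n : ℕ := N + 1 with hn
      have hn0 : n ≠ 0 := by omega
      have hi1 : 1 < v i (a ^ n) := by
        rw [map_pow]; exact one_lt_pow₀ hai hn0
      have hk1 : 1 < v k (a ^ n) := by
        rw [map_pow]; exact one_lt_pow₀ hka hn0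
      have hsum_i : v i (1 + a ^ n) = v i (a ^ n) := by
        apply Valuation.map_add_eq_of_lt_right
        rw [map_one]; exact hi1
      have hsum_k : v k (1 + a ^ n) = v k (a ^ n) := by
        apply Valuation.map_add_eq_of_lt_right
        rw [map_one]; exact hk1
      have hi0 : v i (a ^ n) ≠ 0 := (zero_lt_one.trans hi1).ne'
      have hk0 : v k (a ^ n) ≠ 0 := (zero_lt_one.trans hk1).ne'
      refine ⟨a ^ n * b / (1 + a ^ n), ?_, fun j hj => ?_⟩
      · rw [map_div₀, map_mul, hsum_i, mul_comm, mul_div_assoc, div_self hi0, mul_one]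
        exact hbi
      · rcases Finset.mem_insert.mp hj with rfl | hj
        · rw [map_div₀, map_mul, hsum_k, mul_comm, mul_div_assoc, div_self hk0, mul_one]
          exact hbk
        · have hj1 : v j (a ^ n) < 1 := by
            rw [map_pow]; exact pow_lt_one₀ zero_le (hat j hj) hn0
          have hsum_j : v j (1 + a ^ n) = 1 := (v j).map_one_add_of_lt hj1
          rw [map_div₀, map_mul, hsum_j, div_one, map_pow]
          exact hN n (by omega) j hj

/-- **Artin–Whaples**: for `i ∈ s` there is `a` with `1 < v i a` and `v j a < 1` for all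
`j ∈ s`, `j ≠ i`. -/
theorem h84w_exists_sep {s : Finset ι} (hnt : H84Nontriv v s) (hind : H84Indep v s)
    {i : ι} (hi : i ∈ s) : ∃ a : F, 1 < v i a ∧ ∀ j ∈ s, j ≠ i → v j a < 1 := by
  classical
  obtain ⟨a, ha, hat⟩ := h84w_exists_sep_aux v hnt hind hi (s.erase i) (Finset.erase_subset i s)
    (Finset.notMem_erase i s)
  exact ⟨a, ha, fun j hj hji => hat j (Finset.mem_erase.mpr ⟨hji, hj⟩)⟩

/-- **Approximate idempotents**: for `i ∈ s` and bounds `γ j ≠ 0` there is `e` with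
`v i (e - 1) < γ i` and `v j e < γ j` for all `j ∈ s`, `j ≠ i`. -/
theorem h84w_exists_idem {s : Finset ι} (hnt : H84Nontriv v s) (hind : H84Indep v s)
    {i : ι} (hi : i ∈ s) (γ : ι → ℤᵐ⁰) (hγ : ∀ j ∈ s, γ j ≠ 0) :
    ∃ e : F, v i (e - 1) < γ i ∧ ∀ j ∈ s, j ≠ i → v j e < γ j := by
  classical
  obtain ⟨a, hai, haj⟩ := h84w_exists_sep v hnt hind hi
  have hai0 : v i a ≠ 0 := (zero_lt_one.trans hai).ne'
  have hinv : (v i a)⁻¹ < 1 := inv_lt_one_of_one_lt₀ hai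
  -- exponents
  obtain ⟨N₁, hN₁⟩ := h84w_exists_pow_mul_lt hinv 1 (hγ i hi)
  obtain ⟨N₂, hN₂⟩ := h84w_exists_pow_mul_lt_finset (s.erase i) (fun j => v j a) (fun _ => 1) γ
    (fun j hj => haj j (Finset.mem_of_mem_erase hj) (Finset.ne_of_mem_erase hj))
    (fun j hj => hγ j (Finset.mem_of_mem_erase hj))
  set n : ℕ := max N₁ N₂ + 1 with hn
  have hn0 : n ≠ 0 := by omega
  have hi1 : 1 < v i (a ^ n) := by
    rw [map_pow]; exact one_lt_pow₀ hai hn0
  have hsum_i : v i (1 + a ^ n) = v i (a ^ n) := by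
    apply Valuation.map_add_eq_of_lt_right
    rw [map_one]; exact hi1
  have hne : (1 : F) + a ^ n ≠ 0 := by
    intro h
    rw [h, map_zero] at hsum_i
    exact (zero_lt_one.trans hi1).ne' hsum_i.symm
  refine ⟨a ^ n / (1 + a ^ n), ?_, fun j hj hji => ?_⟩
  · have he : a ^ n / (1 + a ^ n) - 1 = -(1 + a ^ n)⁻¹ := by
      field_simp
      ring
    rw [he, Valuation.map_neg, map_inv₀, hsum_i, map_pow, ← inv_pow]
    have := hN₁ n (by omega)
    rwa [mul_one] at this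
  · have hj1 : v j (a ^ n) < 1 := by
      rw [map_pow]; exact pow_lt_one₀ zero_le (haj j hj hji) hn0
    have hsum_j : v j (1 + a ^ n) = 1 := (v j).map_one_add_of_lt hj1
    rw [map_div₀, hsum_j, div_one, map_pow]
    have := hN₂ n (by omega) j (Finset.mem_erase.mpr ⟨hji, hj⟩)
    rwa [mul_one] at this

/-- **Weak approximation.**  For targets `x i` and bounds `γ i ≠ 0` (`i ∈ s`) there is `h` with
`v i (h - x i) < γ i` for all `i ∈ s`. -/
theorem h84w_approx {s : Finset ι} (hnt : H84Nontriv v s) (hind : H84Indep v s)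
    (x : ι → F) (γ : ι → ℤᵐ⁰) (hγ : ∀ i ∈ s, γ i ≠ 0) :
    ∃ h : F, ∀ i ∈ s, v i (h - x i) < γ i := by
  classical
  -- bounds for the idempotent `e i`: `Γ i j * v j (x i) < γ j`
  let Γ : ι → ι → ℤᵐ⁰ := fun i j => if v j (x i) = 0 then 1 else γ j / v j (x i)
  have hΓ0 : ∀ i, ∀ j ∈ s, Γ i j ≠ 0 := by
    intro i j hj
    simp only [Γ]
    split_ifs with h0
    · exact one_ne_zero
    · exact div_ne_zero (hγ j hj) h0
  have hΓ : ∀ i, ∀ j ∈ s, ∀ c : ℤᵐ⁰, c < Γ i j → c * v j (x i) < γ j := by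
    intro i j hj c hc
    simp only [Γ] at hc
    split_ifs at hc with h0
    · rw [h0, mul_zero]
      exact zero_lt_iff.mpr (hγ j hj)
    · exact (lt_div_iff₀ (zero_lt_iff.mpr h0)).mp hc
  have hex : ∀ i : ι, ∃ e : F, i ∈ s → (v i (e - 1) < Γ i i ∧ ∀ j ∈ s, j ≠ i → v j e < Γ i j) := by
    intro i
    by_cases hi : i ∈ s
    · obtain ⟨e, he⟩ := h84w_exists_idem v hnt hind hi (Γ i) (hΓ0 i)
      exact ⟨e, fun _ => he⟩
    · exact ⟨0, fun h => (hi h).elim⟩
  choose e he using hex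
  refine ⟨∑ i ∈ s, e i * x i, fun k hk => ?_⟩
  have hsplit : ∑ i ∈ s, e i * x i - x k
      = ∑ i ∈ s, (if i = k then (e k - 1) * x k else e i * x i) := by
    rw [← Finset.add_sum_erase s _ hk, ← Finset.add_sum_erase s (fun i =>
      if i = k then (e k - 1) * x k else e i * x i) hk]
    simp only [if_true]
    have : ∑ i ∈ s.erase k, (if i = k then (e k - 1) * x k else e i * x i)
        = ∑ i ∈ s.erase k, e i * x i := by
      refine Finset.sum_congr rfl fun i hi => ?_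
      rw [if_neg (Finset.ne_of_mem_erase hi)]
    rw [this]
    ring
  rw [hsplit]
  refine Valuation.map_sum_lt (v k) (hγ k hk) fun i hi => ?_
  by_cases hik : i = k
  · rw [if_pos hik, map_mul]
    exact hΓ k k hk _ (he k hk).1
  · rw [if_neg hik, map_mul]
    exact hΓ i k hk _ ((he i hi).2 k hk (Ne.symm hik))

/-- **Weak approximation, multiplicative form with precision.**  For nonzero targets `x i` and
precisions `n i` there is `h ≠ 0` with `v i (h / x i - 1) < exp (-(n i))` for all `i ∈ s`. -/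
theorem h84w_approx_units {s : Finset ι} (hnt : H84Nontriv v s) (hind : H84Indep v s)
    (x : ι → F) (hx : ∀ i ∈ s, x i ≠ 0) (n : ι → ℕ) :
    ∃ h : F, h ≠ 0 ∧ ∀ i ∈ s, v i (h / x i - 1) < exp (-(n i : ℤ)) := by
  classical
  rcases s.eq_empty_or_nonempty with rfl | ⟨i₀, hi₀⟩
  · exact ⟨1, one_ne_zero, fun i hi => absurd hi (Finset.notMem_empty i)⟩
  have hvx : ∀ i ∈ s, v i (x i) ≠ 0 := fun i hi => (Valuation.ne_zero_iff _).mpr (hx i hi)
  obtain ⟨h, hh⟩ := h84w_approx v hnt hind x (fun i => v i (x i) * exp (-(n i : ℤ)))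
    (fun i hi => mul_ne_zero (hvx i hi) exp_ne_zero)
  have key : ∀ i ∈ s, v i (h / x i - 1) < exp (-(n i : ℤ)) := by
    intro i hi
    have he : h / x i - 1 = (h - x i) / x i := by
      field_simp [hx i hi]
    rw [he, map_div₀, div_lt_iff₀ (zero_lt_iff.mpr (hvx i hi)), mul_comm]
    exact hh i hi
  refine ⟨h, ?_, key⟩
  rintro rfl
  have h1 := key i₀ hi₀
  rw [zero_div, zero_sub, Valuation.map_neg, map_one] at h1
  have h2 : exp (-(n i₀ : ℤ)) ≤ (1 : ℤᵐ⁰) := by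
    rw [← exp_zero]
    exact exp_le_exp.mpr (by omega)
  exact absurd (h1.trans_le h2) (lt_irrefl _)

/-- consequence: `h` has the same valuations as the targets. -/
theorem h84w_val_eq_of_div_sub_one_lt (w : Valuation F ℤᵐ⁰) {h x : F} (hx : x ≠ 0)
    (hlt : w (h / x - 1) < 1) : w h = w x := by
  have h1 : w (h / x) = 1 := by
    have : h / x = 1 + (h / x - 1) := by ring
    rw [this]
    exact w.map_one_add_of_lt hlt
  rw [map_div₀] at h1
  have hwx : w x ≠ 0 := (Valuation.ne_zero_iff _).mpr hx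
  field_simp at h1
  exact h1

/-- **Prescribed valuations**: there is `h ≠ 0` with `v i h = v i (x i)` for all `i ∈ s`. -/
theorem h84w_approx_val {s : Finset ι} (hnt : H84Nontriv v s) (hind : H84Indep v s)
    (x : ι → F) (hx : ∀ i ∈ s, x i ≠ 0) :
    ∃ h : F, h ≠ 0 ∧ ∀ i ∈ s, v i h = v i (x i) := by
  obtain ⟨h, hh0, hh⟩ := h84w_approx_units v hnt hind x hx (fun _ => 0)
  refine ⟨h, hh0, fun i hi => h84w_val_eq_of_div_sub_one_lt (v i) (hx i hi) ?_⟩
  have := hh i hi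
  simpa using this

/-- `Fintype` form of weak approximation. -/
theorem h84w_approx_univ [Fintype ι] (hnt : H84Nontriv v Finset.univ)
    (hind : H84Indep v Finset.univ) (x : ι → F) (γ : ι → ℤᵐ⁰) (hγ : ∀ i, γ i ≠ 0) :
    ∃ h : F, ∀ i, v i (h - x i) < γ i := by
  obtain ⟨h, hh⟩ := h84w_approx v hnt hind x γ (fun i _ => hγ i)
  exact ⟨h, fun i => hh i (Finset.mem_univ i)⟩

/-- `Fintype` form of the multiplicative weak approximation with precision. -/
theorem h84w_approx_units_univ [Fintype ι] (hnt : H84Nontriv v Finset.univ)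
    (hind : H84Indep v Finset.univ) (x : ι → F) (hx : ∀ i, x i ≠ 0) (n : ι → ℕ) :
    ∃ h : F, h ≠ 0 ∧ ∀ i, v i (h / x i - 1) < exp (-(n i : ℤ)) ∧ v i h = v i (x i) := by
  obtain ⟨h, hh0, hh⟩ := h84w_approx_units v hnt hind x (fun i _ => hx i) n
  refine ⟨h, hh0, fun i => ⟨hh i (Finset.mem_univ i), ?_⟩⟩
  refine h84w_val_eq_of_div_sub_one_lt (v i) (hx i) ((hh i (Finset.mem_univ i)).trans_le ?_)
  rw [← exp_zero]
  exact exp_le_exp.mpr (by omega)


/-- **Rank one**: for a nontrivial `ℤᵐ⁰`-valued valuation `w₁`, a separating element in one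
direction (`w₁ x ≤ 1 < w₂ x`) gives one in the other direction. -/
theorem h84w_sep_symm (w₁ w₂ : Valuation F ℤᵐ⁰) (hnt : ∃ z : F, 1 < w₁ z)
    (h : ∃ x : F, w₁ x ≤ 1 ∧ 1 < w₂ x) : ∃ y : F, w₂ y ≤ 1 ∧ 1 < w₁ y := by
  by_contra hcon
  have hsub : ∀ y : F, w₂ y ≤ 1 → w₁ y ≤ 1 := by
    intro y hy
    by_contra hlt
    exact hcon ⟨y, hy, not_le.mp hlt⟩
  obtain ⟨x, hx1, hx2⟩ := h
  obtain ⟨z, hz⟩ := hnt
  have hx0 : x ≠ 0 := by
    rintro rfl
    simp at hx2
  have hw2x : w₂ x ≠ 0 := (Valuation.ne_zero_iff _).mpr hx0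
  have hinv : (w₂ x)⁻¹ < 1 := inv_lt_one_of_one_lt₀ hx2
  obtain ⟨N, hN⟩ := h84w_exists_pow_mul_lt hinv (w₂ z) (one_ne_zero)
  have h1 : w₂ (z / x ^ N) ≤ 1 := by
    rw [map_div₀, map_pow, div_eq_mul_inv, mul_comm, ← inv_pow]
    exact (hN N le_rfl).le
  have h2 : w₁ (z / x ^ N) ≤ 1 := hsub _ h1
  have h3 : w₁ z ≤ 1 := by
    have hz' : z = z / x ^ N * x ^ N := by
      field_simp
    rw [hz', map_mul, map_pow]
    exact mul_le_one' h2 (pow_le_one₀ zero_le hx1)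
  exact absurd hz (not_lt.mpr h3)

/-- independence from one separating element per pair (in either direction). -/
theorem h84w_indep_of_sep (v : ι → Valuation F ℤᵐ⁰) (s : Finset ι) (hnt : H84Nontriv v s)
    (h : ∀ i ∈ s, ∀ j ∈ s, i ≠ j →
      ∃ x : F, (v i x ≤ 1 ∧ 1 < v j x) ∨ (v j x ≤ 1 ∧ 1 < v i x)) :
    H84Indep v s := by
  intro i hi j hj hij
  obtain ⟨x, hx | hx⟩ := h i hi j hj hij
  · exact ⟨x, hx⟩
  · exact h84w_sep_symm (v j) (v i) (hnt j hj) ⟨x, hx⟩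

/-- **Three valuations** (the case used for `W20`, `W11`, `W02`): multiplicative weak
approximation with precision. -/
theorem h84w_approx_units3 (v₁ v₂ v₃ : Valuation F ℤᵐ⁰)
    (hnt₁ : ∃ z : F, 1 < v₁ z) (hnt₂ : ∃ z : F, 1 < v₂ z) (hnt₃ : ∃ z : F, 1 < v₃ z)
    (h12 : ∃ x : F, (v₁ x ≤ 1 ∧ 1 < v₂ x) ∨ (v₂ x ≤ 1 ∧ 1 < v₁ x))
    (h13 : ∃ x : F, (v₁ x ≤ 1 ∧ 1 < v₃ x) ∨ (v₃ x ≤ 1 ∧ 1 < v₁ x))
    (h23 : ∃ x : F, (v₂ x ≤ 1 ∧ 1 < v₃ x) ∨ (v₃ x ≤ 1 ∧ 1 < v₂ x))
    (x₁ x₂ x₃ : F) (hx₁ : x₁ ≠ 0) (hx₂ : x₂ ≠ 0) (hx₃ : x₃ ≠ 0) (n₁ n₂ n₃ : ℕ) :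
    ∃ h : F, h ≠ 0 ∧
      (v₁ (h / x₁ - 1) < exp (-(n₁ : ℤ)) ∧ v₁ h = v₁ x₁) ∧
      (v₂ (h / x₂ - 1) < exp (-(n₂ : ℤ)) ∧ v₂ h = v₂ x₂) ∧
      (v₃ (h / x₃ - 1) < exp (-(n₃ : ℤ)) ∧ v₃ h = v₃ x₃) := by
  classical
  let v : Fin 3 → Valuation F ℤᵐ⁰ := ![v₁, v₂, v₃]
  have hnt : H84Nontriv v Finset.univ := by
    intro i _
    fin_cases i
    · exact hnt₁
    · exact hnt₂
    · exact hnt₃
  have hswap : ∀ {w w' : Valuation F ℤᵐ⁰},
      (∃ x : F, (w x ≤ 1 ∧ 1 < w' x) ∨ (w' x ≤ 1 ∧ 1 < w x)) →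
      ∃ x : F, (w' x ≤ 1 ∧ 1 < w x) ∨ (w x ≤ 1 ∧ 1 < w' x) := by
    rintro w w' ⟨x, hx⟩
    exact ⟨x, hx.symm⟩
  have hind : H84Indep v Finset.univ := by
    refine h84w_indep_of_sep v Finset.univ hnt ?_
    intro i _ j _ hij
    fin_cases i <;> fin_cases j
    · exact absurd rfl hij
    · exact h12
    · exact h13
    · exact hswap h12
    · exact absurd rfl hij
    · exact h23
    · exact hswap h13
    · exact hswap h23
    · exact absurd rfl hij
  obtain ⟨h, hh0, hh⟩ := h84w_approx_units_univ v hnt hind ![x₁, x₂, x₃]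
    (by intro i; fin_cases i <;> assumption) ![n₁, n₂, n₃]
  exact ⟨h, hh0, hh 0, hh 1, hh 2⟩

/-- **Three valuations**: additive weak approximation. -/
theorem h84w_approx3 (v₁ v₂ v₃ : Valuation F ℤᵐ⁰)
    (hnt₁ : ∃ z : F, 1 < v₁ z) (hnt₂ : ∃ z : F, 1 < v₂ z) (hnt₃ : ∃ z : F, 1 < v₃ z)
    (h12 : ∃ x : F, (v₁ x ≤ 1 ∧ 1 < v₂ x) ∨ (v₂ x ≤ 1 ∧ 1 < v₁ x))
    (h13 : ∃ x : F, (v₁ x ≤ 1 ∧ 1 < v₃ x) ∨ (v₃ x ≤ 1 ∧ 1 < v₁ x))
    (h23 : ∃ x : F, (v₂ x ≤ 1 ∧ 1 < v₃ x) ∨ (v₃ x ≤ 1 ∧ 1 < v₂ x))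
    (x₁ x₂ x₃ : F) (γ₁ γ₂ γ₃ : ℤᵐ⁰) (hγ₁ : γ₁ ≠ 0) (hγ₂ : γ₂ ≠ 0) (hγ₃ : γ₃ ≠ 0) :
    ∃ h : F, v₁ (h - x₁) < γ₁ ∧ v₂ (h - x₂) < γ₂ ∧ v₃ (h - x₃) < γ₃ := by
  classical
  let v : Fin 3 → Valuation F ℤᵐ⁰ := ![v₁, v₂, v₃]
  have hnt : H84Nontriv v Finset.univ := by
    intro i _
    fin_cases i
    · exact hnt₁
    · exact hnt₂
    · exact hnt₃
  have hswap : ∀ {w w' : Valuation F ℤᵐ⁰},
      (∃ x : F, (w x ≤ 1 ∧ 1 < w' x) ∨ (w' x ≤ 1 ∧ 1 < w x)) →
      ∃ x : F, (w' x ≤ 1 ∧ 1 < w x) ∨ (w x ≤ 1 ∧ 1 < w' x) := by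
    rintro w w' ⟨x, hx⟩
    exact ⟨x, hx.symm⟩
  have hind : H84Indep v Finset.univ := by
    refine h84w_indep_of_sep v Finset.univ hnt ?_
    intro i _ j _ hij
    fin_cases i <;> fin_cases j
    · exact absurd rfl hij
    · exact h12
    · exact h13
    · exact hswap h12
    · exact absurd rfl hij
    · exact h23
    · exact hswap h13
    · exact hswap h23
    · exact absurd rfl hij
  obtain ⟨h, hh⟩ := h84w_approx_univ v hnt hind ![x₁, x₂, x₃] ![γ₁, γ₂, γ₃]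
    (by intro i; fin_cases i <;> assumption)
  exact ⟨h, hh 0, hh 1, hh 2⟩

end WA

section PowQ

variable {F : Type*} [Field F]

/-- **The `q`-th power trick.**  `q` prime, `w ≡ 1` with `v (w - 1) ≤ 1` and
`v (w - 1) ^ q ≤ v q` (e.g. `v q = exp (-(q-1))` and `v (w - 1) ≤ exp (-1)`): then
`v (w ^ q - 1) ≤ v q`, i.e. `w ^ q ∈ 1 + q 𝒪_v`. -/
theorem h84w_pow_prime_sub_one (w : Valuation F ℤᵐ⁰) {q : ℕ} (hq : q.Prime) {u : F}
    (h1 : w (u - 1) ≤ 1) (hpow : w (u - 1) ^ q ≤ w (q : F)) :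
    w (u ^ q - 1) ≤ w (q : F) := by
  -- work in the valuation ring
  let y : w.integer := ⟨u - 1, h1⟩
  obtain ⟨r, hr⟩ := exists_add_pow_prime_eq hq (1 : w.integer) y
  have hr' : ((1 : F) + (u - 1)) ^ q = 1 ^ q + (u - 1) ^ q + (q : F) * 1 * (u - 1) * (r : F) := by
    have := congrArg (fun z : w.integer => (z : F)) hr
    simpa [y] using this
  have hu : u ^ q - 1 = (u - 1) ^ q + (q : F) * ((u - 1) * (r : F)) := by
    have h2 : (1 : F) + (u - 1) = u := by ring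
    rw [h2, one_pow] at hr'
    rw [hr']
    ring
  rw [hu]
  refine w.map_add_le ?_ ?_
  · rw [map_pow]; exact hpow
  · rw [map_mul]
    have h3 : w ((u - 1) * (r : F)) ≤ 1 := by
      rw [map_mul]
      exact mul_le_one' h1 r.2
    calc w (q : F) * w ((u - 1) * (r : F)) ≤ w (q : F) * 1 := mul_le_mul' le_rfl h3
      _ = w (q : F) := mul_one _

/-- the same with explicit exponents: `v q = exp (-(e : ℤ))` with `e ≤ q` (e.g. `e = q - 1` or
`e = 1`) and `v (u - 1) ≤ exp (-1)`. -/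
theorem h84w_pow_prime_sub_one' (w : Valuation F ℤᵐ⁰) {q : ℕ} (hq : q.Prime) {e : ℕ}
    (he : e ≤ q) (hwq : w (q : F) = exp (-(e : ℤ))) {u : F} (h1 : w (u - 1) ≤ exp (-1 : ℤ)) :
    w (u ^ q - 1) ≤ w (q : F) := by
  have h0 : w (u - 1) ≤ 1 := by
    refine h1.trans ?_
    rw [← exp_zero]
    exact exp_le_exp.mpr (by omega)
  refine h84w_pow_prime_sub_one w hq h0 ?_
  rw [hwq]
  calc w (u - 1) ^ q ≤ exp (-1 : ℤ) ^ q := pow_le_pow_left₀ zero_le h1 q
    _ = exp (-(q : ℤ)) := by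
        rw [← exp_nsmul]
        congr 1
        simp
    _ ≤ exp (-(e : ℤ)) := exp_le_exp.mpr (by omega)

end PowQ

end Fermat.Agent.S36
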