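import Mathlib
import Fermat.Agent.S36.H84WeakApprox

/-!
# S36, hand-off N → G (helper26): the component group (step N1 of the blueprint)

Abstract form.  `F` a field with three independent discrete valuations `v₁ = W20`,
`v₂ = W11`, `v₃ = W02`, an element `Q` (the prime `q`) with
`(W20, W11, W02)(Q) = (1, q - 1, 1)`, and `w ≠ 0` with valuations `(n₁, n₂, n₃)`.

The valuation form of the norm relations `Nm_α w = c g ^ m`, `Nm_β w = c' g' ^ m` (`c, c'`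
constants) is

  `m ∣ n₁ + n₂ - q n₃`,   `m ∣ q n₁ - n₂ - n₃`

(`W_∞ (Nm_α w) = n₁ + n₂`, `W_0 (Nm_α w) = q n₃`, `W_∞ (Nm_β w) = q n₁`,
`W_0 (Nm_β w) = n₂ + n₃`, and a constant has the same valuation at `W_∞` and `W_0`).

`h26y_comp_group` : then `w ^ (q + 1) * Q ^ j / h ^ m` is a unit at the three valuations for some
`j : ℤ` and some `h ≠ 0`.
-/

set_option autoImplicit false

open WithZero

namespace Fermat.Agent.S36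

section CompGroup

variable {F : Type*} [Field F]

/-- the arithmetic of the component group. -/
theorem h26y_comp_group_arith (q m n₁ n₂ n₃ : ℤ)
    (hA : m ∣ n₁ + n₂ - q * n₃) (hB : m ∣ q * n₁ - n₂ - n₃) :
    m ∣ (q + 1) * (n₂ - (q - 1) * n₁) ∧ m ∣ (q + 1) * (n₃ - n₁) := by
  obtain ⟨a, ha⟩ := hA
  obtain ⟨b, hb⟩ := hB
  refine ⟨⟨a - q * b, ?_⟩, ⟨-(a + b), ?_⟩⟩
  · have h1 : (q + 1) * (n₃ - n₁) = m * (-(a + b)) := by linear_combination -ha - hb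
    have h2 : n₂ = q * n₁ - n₃ - m * b := by linear_combination -hb
    have h3 : (q + 1) * (n₂ - (q - 1) * n₁) =
        -((q + 1) * (n₃ - n₁)) - m * ((q + 1) * b) := by
      rw [h2]; ring
    rw [h3, h1]
    ring
  · linear_combination -ha - hb

theorem h26y_val_zpow (v : Valuation F ℤᵐ⁰) {x : F} {n : ℤ} (hx : v x = exp (-n)) (k : ℤ) :
    v (x ^ k) = exp (-(n * k)) := by
  rw [map_zpow₀, hx, ← exp_zsmul, smul_eq_mul]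
  congr 1
  ring

theorem h26y_val_pow (v : Valuation F ℤᵐ⁰) {x : F} {n : ℤ} (hx : v x = exp (-n)) (k : ℕ) :
    v (x ^ k) = exp (-(n * k)) := by
  have := h26y_val_zpow v hx (k : ℤ)
  rwa [zpow_natCast] at this

/-- **The component group is killed by `q + 1`** (abstract form of step N1). -/
theorem h26y_comp_group (v₁ v₂ v₃ : Valuation F ℤᵐ⁰)
    (hnt₁ : ∃ z : F, 1 < v₁ z) (hnt₂ : ∃ z : F, 1 < v₂ z) (hnt₃ : ∃ z : F, 1 < v₃ z)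
    (h12 : ∃ x : F, (v₁ x ≤ 1 ∧ 1 < v₂ x) ∨ (v₂ x ≤ 1 ∧ 1 < v₁ x))
    (h13 : ∃ x : F, (v₁ x ≤ 1 ∧ 1 < v₃ x) ∨ (v₃ x ≤ 1 ∧ 1 < v₁ x))
    (h23 : ∃ x : F, (v₂ x ≤ 1 ∧ 1 < v₃ x) ∨ (v₃ x ≤ 1 ∧ 1 < v₂ x))
    (ϖ₂ ϖ₃ : F) (hϖ₂ : v₂ ϖ₂ = exp (-1 : ℤ)) (hϖ₃ : v₃ ϖ₃ = exp (-1 : ℤ))
    (q : ℕ) (Q : F) (hQ₁ : v₁ Q = exp (-1 : ℤ)) (hQ₂ : v₂ Q = exp (-((q : ℤ) - 1)))
    (hQ₃ : v₃ Q = exp (-1 : ℤ))
    (m : ℕ) (w : F) (n₁ n₂ n₃ : ℤ)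
    (hw₁ : v₁ w = exp (-n₁)) (hw₂ : v₂ w = exp (-n₂)) (hw₃ : v₃ w = exp (-n₃))
    (hA : (m : ℤ) ∣ n₁ + n₂ - q * n₃) (hB : (m : ℤ) ∣ q * n₁ - n₂ - n₃) :
    ∃ (j : ℤ) (h : F), h ≠ 0 ∧
      v₁ (w ^ (q + 1) * Q ^ j * (h ^ m)⁻¹) = 1 ∧
      v₂ (w ^ (q + 1) * Q ^ j * (h ^ m)⁻¹) = 1 ∧
      v₃ (w ^ (q + 1) * Q ^ j * (h ^ m)⁻¹) = 1 := by
  obtain ⟨⟨k₂, hk₂⟩, ⟨k₃, hk₃⟩⟩ := h26y_comp_group_arith (q : ℤ) (m : ℤ) n₁ n₂ n₃ hA hB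
  have hϖ₂0 : ϖ₂ ≠ 0 := by
    rintro rfl
    rw [map_zero] at hϖ₂
    exact exp_ne_zero hϖ₂.symm
  have hϖ₃0 : ϖ₃ ≠ 0 := by
    rintro rfl
    rw [map_zero] at hϖ₃
    exact exp_ne_zero hϖ₃.symm
  obtain ⟨h, hh0, ⟨-, hh₁⟩, ⟨-, hh₂⟩, ⟨-, hh₃⟩⟩ := h84w_approx_units3 v₁ v₂ v₃ hnt₁ hnt₂ hnt₃
    h12 h13 h23 1 (ϖ₂ ^ k₂) (ϖ₃ ^ k₃) one_ne_zero (zpow_ne_zero _ hϖ₂0)
    (zpow_ne_zero _ hϖ₃0) 0 0 0
  rw [map_one] at hh₁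
  rw [h26y_val_zpow v₂ hϖ₂ k₂] at hh₂
  rw [h26y_val_zpow v₃ hϖ₃ k₃] at hh₃
  refine ⟨-((q + 1 : ℕ) : ℤ) * n₁, h, hh0, ?_, ?_, ?_⟩
  · rw [map_mul, map_mul, map_inv₀, map_pow, map_pow, hh₁, one_pow, inv_one, mul_one,
      ← map_pow, h26y_val_pow v₁ hw₁, h26y_val_zpow v₁ hQ₁, ← exp_add, ← exp_zero]
    congr 1
    push_cast
    ring
  · have e : v₂ (h ^ m) = exp (-((1 : ℤ) * k₂ * m)) := by
      rw [map_pow, hh₂, ← exp_nsmul, nsmul_eq_mul]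
      congr 1
      ring
    rw [map_mul, map_mul, map_inv₀, e, h26y_val_pow v₂ hw₂, h26y_val_zpow v₂ hQ₂, ← exp_add,
      ← exp_neg, ← exp_add, ← exp_zero]
    congr 1
    push_cast
    have hk₂' : ((q : ℤ) + 1) * (n₂ - ((q : ℤ) - 1) * n₁) = (m : ℤ) * k₂ := hk₂
    linear_combination -hk₂'
  · have e : v₃ (h ^ m) = exp (-((1 : ℤ) * k₃ * m)) := by
      rw [map_pow, hh₃, ← exp_nsmul, nsmul_eq_mul]
      congr 1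
      ring
    rw [map_mul, map_mul, map_inv₀, e, h26y_val_pow v₃ hw₃, h26y_val_zpow v₃ hQ₃, ← exp_add,
      ← exp_neg, ← exp_add, ← exp_zero]
    congr 1
    push_cast
    have hk₃' : ((q : ℤ) + 1) * (n₃ - n₁) = (m : ℤ) * k₃ := hk₃
    linear_combination -hk₃'

end CompGroup

end Fermat.Agent.S36
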