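import Mathlib
import Fermat.Agent.Red.LocalFact

/-!
# S36, GATE (helper26): the conductor datum (CD) from transversality of the branches

Vocabulary of the gate interface (finding 1038, helper63): `B ⊆ F` a chart, `𝔫` a closed point
of its special fibre, `Wv : κ → Valuation F ℤᵐ⁰` the vertical valuations (the components of the
special fibre), `h26Centered B Wv 𝔫 k` : the component `k` passes through `𝔫`.

* `h26y_cd_of_transversal` : if any two components through `𝔫` are transversal at `𝔫`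
  (`𝔫 = P_k + P_k'` locally), then for every family `x k ∈ 𝔫` there is an element `m / s` of the
  local ring `B_𝔫` which is congruent to `(x k) ^ (q ^ N)` on the branch `k`, for all branches
  `k` through `𝔫` (`N` depends only on the number of components).
* `h26y_branch_value_of_root` : the branch residue of a local root `G` of `w ≡ 1` exists as soon
  as the branch ring is root closed.
-/

set_option autoImplicit false
set_option linter.unusedSectionVars false

open WithZero

namespace Fermat.Agent.S36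

open Fermat.Agent.Red

section CD

variable {A : Type*} [CommRing A] {F : Type*} [Field F] [Algebra A F]
  {B : Subalgebra A F} {κ : Type*} (Wv : κ → Valuation F ℤᵐ⁰)

/-- `∏ (aⱼ + a'ⱼ) = α + ∏ a'ⱼ` with `α` in the centre of `k`, if all `aⱼ` are. -/
theorem h26y_prod_split (hB : ∀ b ∈ B, ∀ k, Wv k b ≤ 1) (k : κ) (T : Finset κ)
    (a a' : κ → B) (ha : ∀ j ∈ T, Wv k (a j : F) < 1) :
    ∃ α : B, Wv k (α : F) < 1 ∧ ∏ j ∈ T, (a j + a' j) = α + ∏ j ∈ T, a' j := by
  classical
  induction T using Finset.induction_on with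
  | empty => exact ⟨0, by simp, by simp⟩
  | insert j T hj ih =>
    obtain ⟨α, hα, h⟩ := ih (fun i hi => ha i (Finset.mem_insert_of_mem hi))
    refine ⟨a j * (α + ∏ i ∈ T, a' i) + a' j * α, ?_, ?_⟩
    · push_cast
      refine lt_of_le_of_lt ((Wv k).map_add _ _) (max_lt ?_ ?_)
      · rw [map_mul]
        have h1 : Wv k ((α : F) + ∏ i ∈ T, (a' i : F)) ≤ 1 := by
          have := hB _ (α + ∏ i ∈ T, a' i).2 k
          simpa using this
        exact lt_of_le_of_lt (mul_le_of_le_one_right' h1)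
          (ha j (Finset.mem_insert_self j T))
      · rw [map_mul]
        exact lt_of_le_of_lt (mul_le_of_le_one_left' (hB _ (a' j).2 k)) hα
    · rw [Finset.prod_insert hj, Finset.prod_insert hj, h]
      ring

variable [Fintype κ]

/-- **(CD) from transversality.** -/
theorem h26y_cd_of_transversal (hB : ∀ b ∈ B, ∀ k, Wv k b ≤ 1) (𝔫 : Ideal B) [h𝔫 : 𝔫.IsPrime]
    (q : ℕ) (hq : 1 < q)
    (htr : ∀ k k', k ≠ k' → h26Centered B Wv 𝔫 k → h26Centered B Wv 𝔫 k' → ∀ z ∈ 𝔫,
      ∃ s : B, s ∉ 𝔫 ∧ ∃ a a' : B, Wv k (a : F) < 1 ∧ Wv k' (a' : F) < 1 ∧ s * z = a + a') :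
    ∃ N : ℕ, ∀ x : κ → B, (∀ k, x k ∈ 𝔫) → ∃ m s : B, s ∉ 𝔫 ∧
      ∀ k, h26Centered B Wv 𝔫 k → Wv k ((s : F) * (x k : F) ^ (q ^ N) - (m : F)) < 1 := by
  classical
  refine ⟨Fintype.card κ, fun x hx => ?_⟩
  set T : Finset κ := Finset.univ.filter (fun k => h26Centered B Wv 𝔫 k) with hT
  have hTmem : ∀ k, k ∈ T ↔ h26Centered B Wv 𝔫 k := by intro k; simp [hT]
  have hex : ∀ k k' : κ, ∃ s : B, s ∉ 𝔫 ∧ ∃ a a' : B, (k ∈ T → k' ∈ T → k ≠ k' →
      Wv k (a : F) < 1 ∧ Wv k' (a' : F) < 1 ∧ s * x k = a + a') := by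
    intro k k'
    by_cases h : k ∈ T ∧ k' ∈ T ∧ k ≠ k'
    · obtain ⟨s, hs, a, a', h1, h2, h3⟩ := htr k k' h.2.2 ((hTmem k).mp h.1)
        ((hTmem k').mp h.2.1) (x k) (hx k)
      exact ⟨s, hs, a, a', fun _ _ _ => ⟨h1, h2, h3⟩⟩
    · refine ⟨1, (Ideal.ne_top_iff_one 𝔫).mp h𝔫.ne_top, 0, 0, fun h1 h2 h3 => ?_⟩
      exact (h ⟨h1, h2, h3⟩).elim
  choose s hs a a' hsa using hex
  -- the local denominators
  set S : κ → B := fun k => ∏ k' ∈ T.erase k, s k k' with hS
  have hS𝔫 : ∀ k, S k ∉ 𝔫 := by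
    intro k
    have : S k ∈ 𝔫.primeCompl :=
      Submonoid.prod_mem _ (fun k' _ => hs k k')
    exact this
  -- the exponents
  have hcard : ∀ k, (T.erase k).card ≤ q ^ Fintype.card κ := by
    intro k
    refine le_trans (Finset.card_le_univ _) (Nat.lt_pow_self hq).le
  -- the splitting at `k`
  have hsplit : ∀ k, k ∈ T → ∃ α : B, Wv k (α : F) < 1 ∧
      S k * x k ^ (T.erase k).card = α + ∏ k' ∈ T.erase k, a' k k' := by
    intro k hk
    obtain ⟨α, hα, h⟩ := h26y_prod_split Wv hB k (T.erase k) (a k) (a' k)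
      (fun j hj => (hsa k j hk (Finset.mem_of_mem_erase hj)
        (Finset.ne_of_mem_erase hj).symm).1)
    refine ⟨α, hα, ?_⟩
    rw [← h, hS, ← Finset.prod_const, ← Finset.prod_mul_distrib]
    exact Finset.prod_congr rfl (fun j hj => (hsa k j hk (Finset.mem_of_mem_erase hj)
      (Finset.ne_of_mem_erase hj).symm).2.2)
  have hex2 : ∀ k, ∃ α : B, k ∈ T → Wv k (α : F) < 1 ∧
      S k * x k ^ (T.erase k).card = α + ∏ k' ∈ T.erase k, a' k k' := by
    intro k
    by_cases hk : k ∈ T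
    · obtain ⟨α, h1, h2⟩ := hsplit k hk
      exact ⟨α, fun _ => ⟨h1, h2⟩⟩
    · exact ⟨0, fun h => (hk h).elim⟩
  choose α hα using hex2
  set β : κ → B := fun k => ∏ k' ∈ T.erase k, a' k k' with hβ
  have hβval : ∀ k k', k ∈ T → k' ∈ T → k ≠ k' → Wv k' (β k : F) < 1 := by
    intro k k' hk hk' hne
    have hmem : k' ∈ T.erase k := Finset.mem_erase.mpr ⟨hne.symm, hk'⟩
    have h1 : β k = a' k k' * ∏ j ∈ (T.erase k).erase k', a' k j := by
      rw [hβ]; exact (Finset.mul_prod_erase _ _ hmem).symm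
    rw [h1]
    push_cast
    rw [map_mul]
    refine lt_of_le_of_lt (mul_le_of_le_one_right' ?_) (hsa k k' hk hk' hne).2.1
    have := hB _ (∏ j ∈ (T.erase k).erase k', a' k j).2 k'
    simpa using this
  set e : κ → ℕ := fun k => q ^ Fintype.card κ - (T.erase k).card with he
  -- the element `m / s`
  refine ⟨∑ k ∈ T, (∏ l ∈ T.erase k, S l) * (x k ^ e k * β k), ∏ k ∈ T, S k, ?_, ?_⟩
  · have : ∏ k ∈ T, S k ∈ 𝔫.primeCompl := Submonoid.prod_mem _ (fun k _ => hS𝔫 k)
    exact this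
  · intro k hk
    have hkT : k ∈ T := (hTmem k).mpr hk
    obtain ⟨hαk, hk2⟩ := hα k hkT
    have hkey : (∏ l ∈ T, S l) * x k ^ (q ^ Fintype.card κ) -
        ∑ k' ∈ T, (∏ l ∈ T.erase k', S l) * (x k' ^ e k' * β k') =
        (∏ l ∈ T.erase k, S l) * (x k ^ e k * α k) -
          ∑ k' ∈ T.erase k, (∏ l ∈ T.erase k', S l) * (x k' ^ e k' * β k') := by
      rw [← Finset.mul_prod_erase T S hkT, ← Finset.add_sum_erase T _ hkT]
      have h1 : x k ^ (q ^ Fintype.card κ) = x k ^ e k * x k ^ (T.erase k).card := by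
        rw [← pow_add, he]
        congr 1
        exact (Nat.sub_add_cancel (hcard k)).symm
      rw [h1]
      have h2 : S k * (∏ l ∈ T.erase k, S l) * (x k ^ e k * x k ^ (T.erase k).card) =
          (∏ l ∈ T.erase k, S l) * (x k ^ e k * (S k * x k ^ (T.erase k).card)) := by ring
      rw [h2, hk2]
      ring
    have hcoe : (((∏ l ∈ T, S l : B) : F)) * (x k : F) ^ (q ^ Fintype.card κ) -
        ((∑ k' ∈ T, (∏ l ∈ T.erase k', S l) * (x k' ^ e k' * β k') : B) : F) =
        (((∏ l ∈ T.erase k, S l) * (x k ^ e k * α k) -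
          ∑ k' ∈ T.erase k, (∏ l ∈ T.erase k', S l) * (x k' ^ e k' * β k') : B) : F) := by
      rw [← hkey]
      push_cast
      rfl
    rw [hcoe]
    push_cast
    refine lt_of_le_of_lt ((Wv k).map_sub _ _) (max_lt ?_ ?_)
    · rw [map_mul, map_mul]
      have h1 : Wv k (∏ l ∈ T.erase k, (S l : F)) ≤ 1 := by
        have := hB _ (∏ l ∈ T.erase k, S l).2 k
        simpa using this
      have h2 : Wv k ((x k : F) ^ e k) ≤ 1 := by
        have := hB _ (x k ^ e k).2 k
        simpa using this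
      calc Wv k (∏ l ∈ T.erase k, (S l : F)) * (Wv k ((x k : F) ^ e k) * Wv k (α k : F))
          ≤ 1 * (1 * Wv k (α k : F)) := by
            exact mul_le_mul' h1 (mul_le_mul' h2 le_rfl)
        _ = Wv k (α k : F) := by rw [one_mul, one_mul]
        _ < 1 := hαk
    · refine Valuation.map_sum_lt (Wv k) one_ne_zero (fun k' hk' => ?_)
      have hk'T : k' ∈ T := Finset.mem_of_mem_erase hk'
      have hne : k' ≠ k := Finset.ne_of_mem_erase hk'
      rw [map_mul, map_mul]
      have h1 : Wv k (∏ l ∈ T.erase k', (S l : F)) ≤ 1 := by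
        have := hB _ (∏ l ∈ T.erase k', S l).2 k
        simpa using this
      have h2 : Wv k ((x k' : F) ^ e k') ≤ 1 := by
        have := hB _ (x k' ^ e k').2 k
        simpa using this
      calc Wv k (∏ l ∈ T.erase k', (S l : F)) * (Wv k ((x k' : F) ^ e k') * Wv k (β k' : F))
          ≤ 1 * (1 * Wv k (β k' : F)) := by
            exact mul_le_mul' h1 (mul_le_mul' h2 le_rfl)
        _ = Wv k (β k' : F) := by rw [one_mul, one_mul]
        _ < 1 := hβval k' k hk'T hkT hne

end CD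

end Fermat.Agent.S36
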