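import Mathlib
import Fermat.Agent.Red.LocalGate

/-!
# S36, block GATE (helper63): congruences for one valuation

Mathlib only (plus the set `h26U` of `Red/GateAbs.lean`).  `v : Valuation F ℤᵐ⁰` is a valuation
of a field, `ϖ : F` an element with `v ϖ < 1`.  We write `x ≡ 1` for `v (x - 1) ≤ v ϖ`.

* `h63g_pow_congr` : `v (a - b) < 1`, `v b ≤ 1` ⟹ `v (a ^ n - b ^ n) < 1`.
* `h63g_frob` : `v ((β + y) ^ q ^ M - β ^ q ^ M - y ^ q ^ M) ≤ v q` for `v β, v y ≤ 1`.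
* `H63gOne v ϖ x` : `v (x - 1) ≤ v ϖ`; closed under products, inverses, integer powers.
-/

set_option autoImplicit false

open WithZero

namespace Fermat.Agent.S36

variable {F : Type*} [Field F] (v : Valuation F ℤᵐ⁰)

theorem h63g_le_one_of_sub {a b : F} (hab : v (a - b) < 1) (hb : v b ≤ 1) : v a ≤ 1 := by
  have h : a = (a - b) + b := by ring
  rw [h]
  exact (v.map_add _ _).trans (max_le hab.le hb)

theorem h63g_pow_congr {a b : F} (hab : v (a - b) < 1) (hb : v b ≤ 1) (n : ℕ) :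
    v (a ^ n - b ^ n) < 1 ∨ n = 0 := by
  rcases Nat.eq_zero_or_pos n with h0 | hn
  · exact Or.inr h0
  left
  have ha : v a ≤ 1 := h63g_le_one_of_sub v hab hb
  have h1 : a ^ n - b ^ n = (∑ i ∈ Finset.range n, a ^ i * b ^ (n - 1 - i)) * (a - b) :=
    ((Commute.all a b).geom_sum₂_mul n).symm
  rw [h1, map_mul]
  have h2 : v (∑ i ∈ Finset.range n, a ^ i * b ^ (n - 1 - i)) ≤ 1 := by
    apply v.map_sum_le
    intro i _
    rw [map_mul, map_pow, map_pow]
    exact mul_le_one' (pow_le_one' ha _) (pow_le_one' hb _)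
  exact lt_of_le_of_lt (mul_le_of_le_one_left' h2) hab

theorem h63g_pow_congr' {a b : F} (hab : v (a - b) < 1) (hb : v b ≤ 1) {n : ℕ} (hn : 0 < n) :
    v (a ^ n - b ^ n) < 1 :=
  (h63g_pow_congr v hab hb n).resolve_right hn.ne'

/-- Frobenius is additive modulo `q`. -/
theorem h63g_frob (q : ℕ) (hq : q.Prime) {β y : F} (hβ : v β ≤ 1) (hy : v y ≤ 1) (M : ℕ) :
    v ((β + y) ^ q ^ M - β ^ q ^ M - y ^ q ^ M) ≤ v (q : F) := by
  obtain ⟨r, hr⟩ := exists_add_pow_prime_pow_eq hq (⟨β, hβ⟩ : v.integer) ⟨y, hy⟩ M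
  have h1 := congrArg (Subtype.val) hr
  simp only [Subring.coe_add, Subring.coe_pow, Subring.coe_mul, Subring.coe_natCast] at h1
  have h2 : (β + y) ^ q ^ M - β ^ q ^ M - y ^ q ^ M = (q : F) * (β * y * (r : F)) := by
    rw [h1]; ring
  rw [h2, map_mul]
  have h3 : v (β * y * (r : F)) ≤ 1 := by
    rw [map_mul, map_mul]
    exact mul_le_one' (mul_le_one' hβ hy) r.2
  exact mul_le_of_le_one_right' h3

/-- `x ≡ 1 mod ϖ`. -/
def H63gOne (ϖ x : F) : Prop := v (x - 1) ≤ v ϖ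

variable {v} {ϖ : F}

theorem H63gOne.val_eq_one (hϖ : v ϖ < 1) {x : F} (hx : H63gOne v ϖ x) : v x = 1 := by
  have h : x = 1 + (x - 1) := by ring
  rw [h]
  exact v.map_one_add_of_lt (lt_of_le_of_lt hx hϖ)

theorem H63gOne.one : H63gOne v ϖ 1 := by
  unfold H63gOne
  simp

theorem H63gOne.mul (hϖ : v ϖ < 1) {x y : F} (hx : H63gOne v ϖ x) (hy : H63gOne v ϖ y) :
    H63gOne v ϖ (x * y) := by
  unfold H63gOne
  have h : x * y - 1 = (x - 1) * y + (y - 1) := by ring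
  rw [h]
  refine (v.map_add _ _).trans (max_le ?_ hy)
  rw [map_mul, hy.val_eq_one hϖ, mul_one]
  exact hx

theorem H63gOne.inv (hϖ : v ϖ < 1) {x : F} (hx : H63gOne v ϖ x) : H63gOne v ϖ x⁻¹ := by
  unfold H63gOne
  have hx1 := hx.val_eq_one hϖ
  have hx0 : x ≠ 0 := by
    intro h
    rw [h, map_zero] at hx1
    exact zero_ne_one hx1
  have h : x⁻¹ - 1 = -((x - 1) * x⁻¹) := by
    field_simp
    ring
  rw [h, Valuation.map_neg, map_mul, map_inv₀, hx1, inv_one, mul_one]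
  exact hx

theorem H63gOne.pow (hϖ : v ϖ < 1) {x : F} (hx : H63gOne v ϖ x) (n : ℕ) :
    H63gOne v ϖ (x ^ n) := by
  induction n with
  | zero => simpa using H63gOne.one
  | succ n ih => rw [pow_succ]; exact ih.mul hϖ hx

theorem H63gOne.zpow (hϖ : v ϖ < 1) {x : F} (hx : H63gOne v ϖ x) (z : ℤ) :
    H63gOne v ϖ (x ^ z) := by
  obtain ⟨n, rfl | rfl⟩ := z.eq_nat_or_neg
  · rw [zpow_natCast]; exact hx.pow hϖ n
  · rw [zpow_neg, zpow_natCast]; exact (hx.pow hϖ n).inv hϖ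

/-- a congruence `a ≡ b mod ϖ` with `v b = 1` gives `a / b ≡ 1`. -/
theorem H63gOne.of_sub {a b : F} (hb : v b = 1) (hab : v (a - b) ≤ v ϖ) :
    H63gOne v ϖ (a * b⁻¹) := by
  unfold H63gOne
  have hb0 : b ≠ 0 := by
    intro h
    rw [h, map_zero] at hb
    exact zero_ne_one hb
  have h : a * b⁻¹ - 1 = (a - b) * b⁻¹ := by
    field_simp
  rw [h, map_mul, map_inv₀, hb, inv_one, mul_one]
  exact hab

end Fermat.Agent.S36
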