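import Mathlib
import Fermat.Agent.S36.H63GateVal
import Fermat.Agent.Red.LocalAll

/-!
# S36, block GATE (helper63): the local datum of the gate from factoriality + branch values

Abstract (Mathlib + `Red/LocalFact.lean`).  `B ⊆ F` is a chart over `A`, `Wv : κ → Valuation F ℤᵐ⁰`
the finitely many *vertical* valuations (the components of the special fibre, possibly with
multiplicities), `𝔫` a closed point of the special fibre.

* `H63gUnitAt B 𝔫 x` : `x` is a unit of the local ring `B_𝔫`.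
* `H63gLoc B Wv r w 𝔫` : the local input (LOC): a local `r`-th root `G` of `w` up to a unit of
  `B_𝔫`, whose residues on the branches through `𝔫` lie in the local rings of the branches and
  have the same value at `𝔫`.
* `H63gCond B Wv q 𝔫` : the conductor property (CD).
* `h63g_local` : (LOC) + (CD) ⟹ the local datum of `GateAsmOfLocalStatement` at `𝔫`.
-/

set_option autoImplicit false
set_option linter.unusedSectionVars false

open WithZero IsLocalRing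

namespace Fermat.Agent.S36

open Fermat.Agent.Red

section Defs

variable {A : Type*} [CommRing A] {F : Type*} [Field F] [Algebra A F]
variable (B : Subalgebra A F) {κ : Type*} (Wv : κ → Valuation F ℤᵐ⁰)

/-- `x` is a unit of the local ring `B_𝔫`. -/
def H63gUnitAt (𝔫 : Ideal B) (x : F) : Prop :=
  ∃ n d : B, n ∉ 𝔫 ∧ d ∉ 𝔫 ∧ x * (d : F) = n

/-- **(LOC)** the local input of the gate at a closed point of the special fibre. -/
def H63gLoc (r : ℕ) (w : F) (𝔫 : Ideal B) : Prop :=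
  ∃ G : F, G ≠ 0 ∧
    (∃ s : B, s ∉ 𝔫 ∧ (s : F) * (w * (G ^ r)⁻¹) ∈ B ∧ (s : F) * (G ^ r * w⁻¹) ∈ B) ∧
    ∃ c : B, c ∉ 𝔫 ∧ ∀ k, h26Centered B Wv 𝔫 k →
      ∃ b t : B, t ∉ 𝔫 ∧ Wv k ((t : F) * G - b) < 1 ∧ b - c * t ∈ 𝔫

/-- **(CD)** the conductor property at a closed point of the special fibre. -/
def H63gCond (q : ℕ) (𝔫 : Ideal B) : Prop :=
  ∃ N : ℕ, ∀ x : κ → B, (∀ k, x k ∈ 𝔫) → ∃ m s : B, s ∉ 𝔫 ∧
    ∀ k, h26Centered B Wv 𝔫 k → Wv k ((s : F) * (x k : F) ^ q ^ N - m) < 1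

end Defs

section UnitAt

variable {A : Type*} [CommRing A] {F : Type*} [Field F] [Algebra A F]
variable {B : Subalgebra A F} {κ : Type*} {Wv : κ → Valuation F ℤᵐ⁰}
variable {𝔫 : Ideal B} [h𝔫 : 𝔫.IsPrime]

theorem h63g_coe_ne_zero {b : B} (hb : b ∉ 𝔫) : (b : F) ≠ 0 := by
  intro h
  apply hb
  have : b = 0 := Subtype.ext h
  rw [this]
  exact 𝔫.zero_mem

theorem H63gUnitAt.ne_zero {x : F} (hx : H63gUnitAt B 𝔫 x) : x ≠ 0 := by
  obtain ⟨n, d, hn, hd, h⟩ := hx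
  intro h0
  rw [h0, zero_mul] at h
  exact h63g_coe_ne_zero hn h.symm

theorem H63gUnitAt.of_not_mem {b : B} (hb : b ∉ 𝔫) : H63gUnitAt B 𝔫 (b : F) :=
  ⟨b, 1, hb, (Ideal.ne_top_iff_one 𝔫).mp h𝔫.ne_top, by simp⟩

theorem H63gUnitAt.one : H63gUnitAt B 𝔫 (1 : F) :=
  ⟨1, 1, (Ideal.ne_top_iff_one 𝔫).mp h𝔫.ne_top, (Ideal.ne_top_iff_one 𝔫).mp h𝔫.ne_top, by simp⟩

theorem H63gUnitAt.mul {x y : F} (hx : H63gUnitAt B 𝔫 x) (hy : H63gUnitAt B 𝔫 y) :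
    H63gUnitAt B 𝔫 (x * y) := by
  obtain ⟨n, d, hn, hd, h⟩ := hx
  obtain ⟨n', d', hn', hd', h'⟩ := hy
  refine ⟨n * n', d * d', fun h => (h𝔫.mem_or_mem h).elim hn hn',
    fun h => (h𝔫.mem_or_mem h).elim hd hd', ?_⟩
  push_cast
  rw [← h, ← h']
  ring

theorem H63gUnitAt.inv {x : F} (hx : H63gUnitAt B 𝔫 x) : H63gUnitAt B 𝔫 x⁻¹ := by
  have hx0 := hx.ne_zero
  obtain ⟨n, d, hn, hd, h⟩ := hx
  refine ⟨d, n, hd, hn, ?_⟩
  rw [← h]
  field_simp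

theorem H63gUnitAt.pow {x : F} (hx : H63gUnitAt B 𝔫 x) (m : ℕ) : H63gUnitAt B 𝔫 (x ^ m) := by
  induction m with
  | zero => simpa using H63gUnitAt.one
  | succ m ih => rw [pow_succ]; exact ih.mul hx

theorem H63gUnitAt.zpow {x : F} (hx : H63gUnitAt B 𝔫 x) (z : ℤ) : H63gUnitAt B 𝔫 (x ^ z) := by
  obtain ⟨m, rfl | rfl⟩ := z.eq_nat_or_neg
  · rw [zpow_natCast]; exact hx.pow m
  · rw [zpow_neg, zpow_natCast]; exact (hx.pow m).inv

/-- an element of `B` outside `𝔫` has valuation `1` at a centred vertical valuation. -/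
theorem h63g_val_eq_one (hBW : ∀ b : B, ∀ k, Wv k (b : F) ≤ 1) {k : κ}
    (hk : h26Centered B Wv 𝔫 k) {b : B} (hb : b ∉ 𝔫) : Wv k (b : F) = 1 := by
  refine le_antisymm (hBW b k) ?_
  by_contra h
  exact hb (hk b (not_le.mp h))

theorem H63gUnitAt.val_eq_one (hBW : ∀ b : B, ∀ k, Wv k (b : F) ≤ 1) {k : κ}
    (hk : h26Centered B Wv 𝔫 k) {x : F} (hx : H63gUnitAt B 𝔫 x) : Wv k x = 1 := by
  obtain ⟨n, d, hn, hd, h⟩ := hx
  have h1 := congrArg (Wv k) h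
  rw [map_mul, h63g_val_eq_one hBW hk hn, h63g_val_eq_one hBW hk hd, mul_one] at h1
  exact h1

end UnitAt

section StepA

variable {A : Type*} [CommRing A] {F : Type*} [Field F] [Algebra A F]
variable {B : Subalgebra A F} {κ : Type*} [Finite κ] {Wv : κ → Valuation F ℤᵐ⁰}
variable {𝔫 : Ideal B} [h𝔫 : 𝔫.IsPrime]

/-- a finite product of elements outside a prime ideal is outside it. -/
theorem h63g_prod_not_mem {α : Type*} (T : Finset α) (t : α → B) (ht : ∀ k ∈ T, t k ∉ 𝔫) :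
    ∏ k ∈ T, t k ∉ 𝔫 := by
  classical
  induction T using Finset.induction_on with
  | empty => simpa using (Ideal.ne_top_iff_one 𝔫).mp h𝔫.ne_top
  | insert a T ha ih =>
    rw [Finset.prod_insert ha]
    intro h
    rcases h𝔫.mem_or_mem h with h1 | h1
    · exact ht a (Finset.mem_insert_self a T) h1
    · exact ih (fun k hk => ht k (Finset.mem_insert_of_mem hk)) h1

/-- **Step A** (reduced fibre): the `q^N`-th power of the local root `G` is congruent to an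
element of `B_𝔫` modulo the radical, on all branches through `𝔫`. -/
theorem h63g_stepA (hBW : ∀ b : B, ∀ k, Wv k (b : F) ≤ 1)
    (q : ℕ) (hq : q.Prime) (hqW : ∀ k, Wv k ((q : ℕ) : F) < 1)
    (G : F) (c : B) (hc : c ∉ 𝔫)
    (hbr : ∀ k, h26Centered B Wv 𝔫 k →
      ∃ b t : B, t ∉ 𝔫 ∧ Wv k ((t : F) * G - b) < 1 ∧ b - c * t ∈ 𝔫)
    (hcd : H63gCond B Wv q 𝔫) (hex : ∃ k, h26Centered B Wv 𝔫 k) :
    ∃ (N : ℕ) (σ β : B), σ ∉ 𝔫 ∧ β ∉ 𝔫 ∧
      ∀ k, h26Centered B Wv 𝔫 k → Wv k ((σ : F) * G ^ q ^ N - β) < 1 := by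
  classical
  have : Fintype κ := Fintype.ofFinite κ
  have h1𝔫 : (1 : B) ∉ 𝔫 := (Ideal.ne_top_iff_one 𝔫).mp h𝔫.ne_top
  have hbr' : ∀ k, ∃ b t : B, t ∉ 𝔫 ∧ (h26Centered B Wv 𝔫 k →
      Wv k ((t : F) * G - b) < 1 ∧ b - c * t ∈ 𝔫) := by
    intro k
    by_cases hk : h26Centered B Wv 𝔫 k
    · obtain ⟨b, t, h1, h2, h3⟩ := hbr k hk
      exact ⟨b, t, h1, fun _ => ⟨h2, h3⟩⟩
    · exact ⟨0, 1, h1𝔫, fun h => (hk h).elim⟩
  choose b t ht hbt using hbr'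
  set T : B := ∏ k, t k with hT
  have hT𝔫 : T ∉ 𝔫 := h63g_prod_not_mem Finset.univ t (fun k _ => ht k)
  set T' : κ → B := fun k => ∏ k' ∈ Finset.univ.erase k, t k' with hT'
  have hTT' : ∀ k, T = t k * T' k := fun k =>
    (Finset.mul_prod_erase Finset.univ t (Finset.mem_univ k)).symm
  set x : κ → B := fun k => if h26Centered B Wv 𝔫 k then (b k - c * t k) * T' k else 0 with hx
  have hx𝔫 : ∀ k, x k ∈ 𝔫 := by
    intro k
    simp only [hx]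
    split_ifs with hk
    · exact 𝔫.mul_mem_right _ (hbt k hk).2
    · exact 𝔫.zero_mem
  obtain ⟨N, hN⟩ := hcd
  obtain ⟨m, s₁, hs₁, hms⟩ := hN x hx𝔫
  have hqN : 0 < q ^ N := pow_pos hq.pos N
  -- `m ∈ 𝔫`
  have hm𝔫 : m ∈ 𝔫 := by
    obtain ⟨k₀, hk₀⟩ := hex
    have h1 : s₁ * x k₀ ^ q ^ N - m ∈ 𝔫 := by
      apply hk₀
      have := hms k₀ hk₀
      push_cast
      exact this
    have h2 : s₁ * x k₀ ^ q ^ N ∈ 𝔫 :=
      𝔫.mul_mem_left _ (𝔫.pow_mem_of_mem (hx𝔫 k₀) _ hqN)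
    have h3 : m = s₁ * x k₀ ^ q ^ N - (s₁ * x k₀ ^ q ^ N - m) := by ring
    rw [h3]
    exact 𝔫.sub_mem h2 h1
  refine ⟨N, s₁ * T ^ q ^ N, s₁ * (c * T) ^ q ^ N + m, ?_, ?_, ?_⟩
  · intro h
    rcases h𝔫.mem_or_mem h with h1 | h1
    · exact hs₁ h1
    · exact hT𝔫 (h𝔫.mem_of_pow_mem _ h1)
  · intro h
    have h1 : s₁ * (c * T) ^ q ^ N ∈ 𝔫 := by
      have h2 : s₁ * (c * T) ^ q ^ N = (s₁ * (c * T) ^ q ^ N + m) - m := by ring
      rw [h2]
      exact 𝔫.sub_mem h hm𝔫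
    rcases h𝔫.mem_or_mem h1 with h2 | h2
    · exact hs₁ h2
    · rcases h𝔫.mem_or_mem (h𝔫.mem_of_pow_mem _ h2) with h3 | h3
      · exact hc h3
      · exact hT𝔫 h3
  · intro k hk
    have hxk : x k = (b k - c * t k) * T' k := by
      simp only [hx]
      rw [if_pos hk]
    -- `T G ≡ c T + x_k`
    have hcong : Wv k ((T : F) * G - ((c * T + x k : B) : F)) < 1 := by
      have h1 : (T : F) * G - ((c * T + x k : B) : F) = ((t k : F) * G - b k) * (T' k : F) := by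
        rw [hxk, hTT' k]
        push_cast
        ring
      rw [h1, map_mul]
      exact lt_of_le_of_lt (mul_le_of_le_one_right' (hBW _ k)) (hbt k hk).1
    have hpow : Wv k (((T : F) * G) ^ q ^ N - ((c * T + x k : B) : F) ^ q ^ N) < 1 :=
      h63g_pow_congr' (Wv k) hcong (hBW _ k) hqN
    have hfrob : Wv k ((((c * T : B) : F) + (x k : F)) ^ q ^ N - ((c * T : B) : F) ^ q ^ N
        - (x k : F) ^ q ^ N) < 1 :=
      lt_of_le_of_lt (h63g_frob (Wv k) q hq (hBW _ k) (hBW _ k) N) (hqW k)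
    have hms' := hms k hk
    have hdecomp : ((s₁ * T ^ q ^ N : B) : F) * G ^ q ^ N - ((s₁ * (c * T) ^ q ^ N + m : B) : F)
        = (s₁ : F) * ((((T : F) * G) ^ q ^ N - ((c * T + x k : B) : F) ^ q ^ N)
            + ((((c * T : B) : F) + (x k : F)) ^ q ^ N - ((c * T : B) : F) ^ q ^ N
              - (x k : F) ^ q ^ N))
          + ((s₁ : F) * (x k : F) ^ q ^ N - m) := by
      push_cast
      ring
    rw [hdecomp]
    refine lt_of_le_of_lt (Valuation.map_add _ _ _) (max_lt ?_ hms')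
    rw [map_mul]
    refine lt_of_le_of_lt (mul_le_of_le_one_left' (hBW _ k)) ?_
    exact lt_of_le_of_lt (Valuation.map_add _ _ _) (max_lt hpow hfrob)

end StepA

section StepB

variable {A : Type*} [CommRing A] {F : Type*} [Field F] [Algebra A F]
variable {B : Subalgebra A F} {κ : Type*} {Wv : κ → Valuation F ℤᵐ⁰}
variable {𝔫 : Ideal B} [h𝔫 : 𝔫.IsPrime]

/-- **Step B** (nilpotents): a congruence modulo the radical becomes a congruence modulo `ϖ`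
after a further Frobenius power. -/
theorem h63g_stepB (hBW : ∀ b : B, ∀ k, Wv k (b : F) ≤ 1)
    (q : ℕ) (hq : q.Prime) (ϖ : F) (hqϖ : ∀ k, Wv k ((q : ℕ) : F) ≤ Wv k ϖ)
    (hrad : ∃ e : ℕ, ∀ k x, Wv k x < 1 → Wv k (x ^ e) ≤ Wv k ϖ)
    (Z : F) (σ β : B) (hσ : σ ∉ 𝔫) (hβ : β ∉ 𝔫)
    (h : ∀ k, h26Centered B Wv 𝔫 k → Wv k ((σ : F) * Z - β) < 1) :
    ∃ (M : ℕ) (σ' β' : B), σ' ∉ 𝔫 ∧ β' ∉ 𝔫 ∧
      ∀ k, h26Centered B Wv 𝔫 k → Wv k ((σ' : F) * Z ^ q ^ M - β') ≤ Wv k ϖ := by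
  obtain ⟨e, he⟩ := hrad
  refine ⟨e, σ ^ q ^ e, β ^ q ^ e, fun h1 => hσ (h𝔫.mem_of_pow_mem _ h1),
    fun h1 => hβ (h𝔫.mem_of_pow_mem _ h1), fun k hk => ?_⟩
  have hy := h k hk
  set y : F := (σ : F) * Z - β with hydef
  have hy1 : Wv k y ≤ 1 := hy.le
  have hfrob := h63g_frob (Wv k) q hq (hBW β k) hy1 e
  have heq : (β : F) + y = (σ : F) * Z := by rw [hydef]; ring
  rw [heq] at hfrob
  have hle : e ≤ q ^ e := (Nat.lt_pow_self hq.one_lt).le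
  have hye : Wv k (y ^ q ^ e) ≤ Wv k ϖ := by
    have h1 : y ^ q ^ e = y ^ e * y ^ (q ^ e - e) := by
      rw [← pow_add, Nat.add_sub_cancel' hle]
    rw [h1, map_mul]
    refine le_trans (mul_le_of_le_one_right' ?_) (he k y hy)
    rw [map_pow]
    exact pow_le_one' hy1 _
  have hdecomp : ((σ ^ q ^ e : B) : F) * Z ^ q ^ e - ((β ^ q ^ e : B) : F)
      = (((σ : F) * Z) ^ q ^ e - (β : F) ^ q ^ e - y ^ q ^ e) + y ^ q ^ e := by
    push_cast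
    ring
  rw [hdecomp]
  exact (Valuation.map_add _ _ _).trans (max_le (hfrob.trans (hqϖ k)) hye)

end StepB

section StepC

variable {A : Type*} [CommRing A] {F : Type*} [Field F] [Algebra A F]
variable {B : Subalgebra A F} {κ : Type*} {Wv : κ → Valuation F ℤᵐ⁰}
variable {𝔫 : Ideal B} [h𝔫 : 𝔫.IsPrime]

/-- **Step C** (Bezout): from `G ^ r ≡ unit` and `G ^ (q ^ M) ≡ unit` to `G ≡ unit`. -/
theorem h63g_stepC (hBW : ∀ b : B, ∀ k, Wv k (b : F) ≤ 1)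
    (ϖ : F) (hϖW : ∀ k, Wv k ϖ < 1)
    (q : ℕ) (r : ℕ) (hrq : Nat.Coprime r q)
    (w G : F) (hw0 : w ≠ 0) (hG0 : G ≠ 0)
    (hw1 : ∀ k, h26Centered B Wv 𝔫 k → H63gOne (Wv k) ϖ w)
    (s : B) (hs : s ∉ 𝔫) (hs1 : (s : F) * (w * (G ^ r)⁻¹) ∈ B)
    (hs2 : (s : F) * (G ^ r * w⁻¹) ∈ B)
    (M : ℕ) (σ β : B) (hσ : σ ∉ 𝔫) (hβ : β ∉ 𝔫)
    (h : ∀ k, h26Centered B Wv 𝔫 k → Wv k ((σ : F) * G ^ q ^ M - β) ≤ Wv k ϖ) :
    ∃ η : F, H63gUnitAt B 𝔫 η ∧ ∀ k, h26Centered B Wv 𝔫 k → H63gOne (Wv k) ϖ (G * η) := by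
  have hs0 : (s : F) ≠ 0 := h63g_coe_ne_zero hs
  have hβ0 : (β : F) ≠ 0 := h63g_coe_ne_zero hβ
  -- `a₂ = s G^r / w ∉ 𝔫`
  set a₁ : B := ⟨_, hs1⟩ with ha₁
  set a₂ : B := ⟨_, hs2⟩ with ha₂
  have ha12 : a₁ * a₂ = s * s := by
    apply Subtype.ext
    push_cast
    simp only [ha₁, ha₂]
    field_simp
  have ha₂𝔫 : a₂ ∉ 𝔫 := by
    intro h1
    have h2 : s * s ∈ 𝔫 := by rw [← ha12]; exact 𝔫.mul_mem_left _ h1
    exact (h𝔫.mem_or_mem h2).elim hs hs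
  have ha₂0 : (a₂ : F) ≠ 0 := h63g_coe_ne_zero ha₂𝔫
  set ρ₁ : F := (s : F) * (a₂ : F)⁻¹ with hρ₁
  set ρ₂ : F := (σ : F) * (β : F)⁻¹ with hρ₂
  have hρ₁U : H63gUnitAt B 𝔫 ρ₁ :=
    (H63gUnitAt.of_not_mem hs).mul (H63gUnitAt.of_not_mem ha₂𝔫).inv
  have hρ₂U : H63gUnitAt B 𝔫 ρ₂ :=
    (H63gUnitAt.of_not_mem hσ).mul (H63gUnitAt.of_not_mem hβ).inv
  have hGr : G ^ r * ρ₁ = w := by
    have h1 : (a₂ : F) = (s : F) * (G ^ r * w⁻¹) := rfl
    rw [hρ₁, h1]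
    field_simp
  have hcop : IsCoprime ((r : ℕ) : ℤ) ((q ^ M : ℕ) : ℤ) :=
    Nat.isCoprime_iff_coprime.mpr (Nat.Coprime.pow_right M hrq)
  obtain ⟨a, b, hab⟩ := hcop
  refine ⟨ρ₁ ^ a * ρ₂ ^ b, (hρ₁U.zpow a).mul (hρ₂U.zpow b), fun k hk => ?_⟩
  have h1 : G * (ρ₁ ^ a * ρ₂ ^ b) = w ^ a * (G ^ q ^ M * ρ₂) ^ b := by
    have h2 : (G ^ r) ^ a * (G ^ q ^ M) ^ b = G := by
      rw [← zpow_natCast G r, ← zpow_natCast G (q ^ M), ← zpow_mul, ← zpow_mul,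
        ← zpow_add₀ hG0, mul_comm (r : ℤ) a, mul_comm ((q ^ M : ℕ) : ℤ) b, hab, zpow_one]
    have h3 : (G ^ r * ρ₁) ^ a * (G ^ q ^ M * ρ₂) ^ b
        = ((G ^ r) ^ a * (G ^ q ^ M) ^ b) * (ρ₁ ^ a * ρ₂ ^ b) := by
      rw [mul_zpow (G ^ r) ρ₁ a, mul_zpow (G ^ q ^ M) ρ₂ b]
      ring
    rw [h2, hGr] at h3
    exact h3.symm
  rw [h1]
  refine ((hw1 k hk).zpow (hϖW k) a).mul (hϖW k) (H63gOne.zpow (hϖW k) ?_ b)
  have h3 : G ^ q ^ M * ρ₂ = ((σ : F) * G ^ q ^ M) * (β : F)⁻¹ := by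
    rw [hρ₂]; ring
  rw [h3]
  exact H63gOne.of_sub (h63g_val_eq_one hBW hk hβ) (h k hk)

end StepC

section StepD

variable {A : Type*} [CommRing A] {F : Type*} [Field F] [Algebra A F]
variable {B : Subalgebra A F} {κ : Type*} [Finite κ] {Wv : κ → Valuation F ℤᵐ⁰}
variable {𝔫 : Ideal B} [h𝔫 : 𝔫.IsPrime]

/-- **Step D** (the vertical valuations which are not centred at `𝔫`): a unit of `B_𝔫` which is
`≡ 1` on the branches through `𝔫` and corrects `g₁` at the other vertical valuations. -/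
theorem h63g_stepD (hBW : ∀ b : B, ∀ k, Wv k (b : F) ≤ 1)
    (hfrac : ∀ f : F, ∃ a b : B, (b : F) ≠ 0 ∧ f * (b : F) = a)
    (ϖ : B) (hϖ𝔫 : ϖ ∈ 𝔫) (hϖ0 : (ϖ : F) ≠ 0) (hϖW : ∀ k, Wv k (ϖ : F) < 1)
    (g₁ : F) (hg₁ : g₁ ≠ 0)
    (h : ∀ k, h26Centered B Wv 𝔫 k → H63gOne (Wv k) (ϖ : F) g₁) :
    ∃ u : F, H63gUnitAt B 𝔫 u ∧ ∀ k, H63gOne (Wv k) (ϖ : F) (g₁ * u) := by
  classical
  have : Fintype κ := Fintype.ofFinite κ
  have h1𝔫 : (1 : B) ∉ 𝔫 := (Ideal.ne_top_iff_one 𝔫).mp h𝔫.ne_top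
  obtain ⟨a₀, b₀, hb₀, hab⟩ := hfrac g₁⁻¹
  have ha₀ : (a₀ : F) ≠ 0 := by
    rw [← hab]
    exact mul_ne_zero (inv_ne_zero hg₁) hb₀
  have hg₁eq : g₁ * (a₀ : F) = b₀ := by
    rw [← hab]
    field_simp
  -- elements vanishing on the other components
  have hcc : ∀ k, ∃ c : B, c ∉ 𝔫 ∧ (¬ h26Centered B Wv 𝔫 k → Wv k (c : F) < 1) := by
    intro k
    by_cases hk : h26Centered B Wv 𝔫 k
    · exact ⟨1, h1𝔫, fun h => (h hk).elim⟩
    · by_contra hcon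
      apply hk
      intro b hb
      by_contra hb𝔫
      exact hcon ⟨b, hb𝔫, fun _ => hb⟩
  choose cc hcc𝔫 hccW using hcc
  set C : B := ∏ k, cc k with hC
  have hC𝔫 : C ∉ 𝔫 := h63g_prod_not_mem Finset.univ cc (fun k _ => hcc𝔫 k)
  have hCW : ∀ k, ¬ h26Centered B Wv 𝔫 k → Wv k (C : F) < 1 := by
    intro k hk
    have h1 : C = cc k * ∏ k' ∈ Finset.univ.erase k, cc k' :=
      (Finset.mul_prod_erase Finset.univ cc (Finset.mem_univ k)).symm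
    rw [h1]
    push_cast
    rw [map_mul]
    exact lt_of_le_of_lt (mul_le_of_le_one_right' (by
      have := hBW (∏ k' ∈ Finset.univ.erase k, cc k') k
      push_cast at this
      exact this)) (hccW k hk)
  set E : B := ϖ * ϖ * a₀ * b₀ with hE
  have hE0 : ∀ k, Wv k (E : F) ≠ 0 := by
    intro k
    rw [hE]
    push_cast
    rw [Valuation.ne_zero_iff]
    exact mul_ne_zero (mul_ne_zero (mul_ne_zero hϖ0 hϖ0) ha₀) hb₀
  have hNk : ∀ k, ∃ N : ℕ, ¬ h26Centered B Wv 𝔫 k → Wv k (C : F) ^ N ≤ Wv k (E : F) := by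
    intro k
    by_cases hk : h26Centered B Wv 𝔫 k
    · exact ⟨0, fun h => (h hk).elim⟩
    · obtain ⟨N, hN⟩ := h26_exists_pow_mul_le_one (Wv k (C : F)) (Wv k (E : F))⁻¹ (hCW k hk)
      refine ⟨N, fun _ => ?_⟩
      have h2 : Wv k (C : F) ^ N * (Wv k (E : F))⁻¹ * Wv k (E : F) ≤ 1 * Wv k (E : F) :=
        mul_le_mul_of_nonneg_right hN zero_le
      rwa [mul_assoc, inv_mul_cancel₀ (hE0 k), mul_one, one_mul] at h2
  choose Nk hNk using hNk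
  set N : ℕ := ∑ k, Nk k with hN
  have hDW : ∀ k, ¬ h26Centered B Wv 𝔫 k → Wv k ((C ^ N : B) : F) ≤ Wv k (E : F) := by
    intro k hk
    push_cast
    rw [map_pow]
    refine le_trans ?_ (hNk k hk)
    have hle : Nk k ≤ N := Finset.single_le_sum (f := Nk) (fun _ _ => Nat.zero_le _)
      (Finset.mem_univ k)
    exact pow_le_pow_right_of_le_one' (hCW k hk).le hle
  set D : B := C ^ N with hD
  have hD𝔫 : D ∉ 𝔫 := fun h1 => hC𝔫 (h𝔫.mem_of_pow_mem _ h1)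
  set n' : B := D + ϖ * a₀ with hn'
  set d' : B := D + ϖ * b₀ with hd'
  have hn'𝔫 : n' ∉ 𝔫 := by
    intro h1
    apply hD𝔫
    have h2 : D = n' - ϖ * a₀ := by rw [hn']; ring
    rw [h2]
    exact 𝔫.sub_mem h1 (𝔫.mul_mem_right _ hϖ𝔫)
  have hd'𝔫 : d' ∉ 𝔫 := by
    intro h1
    apply hD𝔫
    have h2 : D = d' - ϖ * b₀ := by rw [hd']; ring
    rw [h2]
    exact 𝔫.sub_mem h1 (𝔫.mul_mem_right _ hϖ𝔫)
  have hd'0 : (d' : F) ≠ 0 := h63g_coe_ne_zero hd'𝔫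
  refine ⟨(n' : F) * (d' : F)⁻¹, (H63gUnitAt.of_not_mem hn'𝔫).mul
    (H63gUnitAt.of_not_mem hd'𝔫).inv, fun k => ?_⟩
  by_cases hk : h26Centered B Wv 𝔫 k
  · refine (h k hk).mul (hϖW k) (H63gOne.of_sub (h63g_val_eq_one hBW hk hd'𝔫) ?_)
    have h1 : (n' : F) - (d' : F) = (ϖ : F) * ((a₀ : F) - b₀) := by
      rw [hn', hd']
      push_cast
      ring
    rw [h1, map_mul]
    refine mul_le_of_le_one_right' ?_
    have := hBW (a₀ - b₀) k
    push_cast at this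
    exact this
  · -- the other components
    unfold H63gOne
    have hDE := hDW k hk
    have hEval : Wv k (E : F) = Wv k (ϖ : F) * (Wv k (a₀ : F) * Wv k ((ϖ : F) * b₀)) := by
      rw [hE]
      push_cast
      rw [← map_mul, ← map_mul]
      congr 1
      ring
    have hϖb0 : Wv k ((ϖ : F) * b₀) ≠ 0 := by
      rw [Valuation.ne_zero_iff]
      exact mul_ne_zero hϖ0 hb₀
    have hlt : Wv k (D : F) < Wv k ((ϖ : F) * b₀) := by
      refine lt_of_le_of_lt hDE ?_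
      rw [hEval, ← mul_assoc]
      have h2 : Wv k (ϖ : F) * Wv k (a₀ : F) < 1 :=
        lt_of_le_of_lt (mul_le_of_le_one_right' (hBW a₀ k)) (hϖW k)
      calc Wv k (ϖ : F) * Wv k (a₀ : F) * Wv k ((ϖ : F) * b₀)
          < 1 * Wv k ((ϖ : F) * b₀) :=
            mul_lt_mul_of_pos_right h2 (zero_lt_iff.mpr hϖb0)
        _ = Wv k ((ϖ : F) * b₀) := one_mul _
    have hd'val : Wv k (d' : F) = Wv k ((ϖ : F) * b₀) := by
      rw [hd']
      push_cast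
      exact Valuation.map_add_eq_of_lt_right _ hlt
    have hkey : (g₁ * ((n' : F) * (d' : F)⁻¹) - 1) * ((a₀ : F) * (d' : F))
        = (D : F) * ((b₀ : F) - a₀) := by
      have h3 : g₁ * ((n' : F) * (d' : F)⁻¹) * ((a₀ : F) * (d' : F))
          = (g₁ * (a₀ : F)) * (n' : F) := by
        field_simp
      rw [sub_mul, h3, hg₁eq, hn', hd']
      push_cast
      ring
    have hm0 : Wv k ((a₀ : F) * (d' : F)) ≠ 0 := by
      rw [Valuation.ne_zero_iff]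
      exact mul_ne_zero ha₀ hd'0
    have h4 : Wv k (g₁ * ((n' : F) * (d' : F)⁻¹) - 1) * Wv k ((a₀ : F) * (d' : F))
        ≤ Wv k (ϖ : F) * Wv k ((a₀ : F) * (d' : F)) := by
      rw [← map_mul, hkey, map_mul (Wv k) (a₀ : F), hd'val, ← hEval, map_mul]
      refine le_trans (mul_le_of_le_one_right' ?_) hDE
      have := hBW (b₀ - a₀) k
      push_cast at this
      exact this
    exact le_of_mul_le_mul_right h4 (zero_lt_iff.mpr hm0)

end StepD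

section Local

variable {A : Type*} [CommRing A] [IsLocalRing A] {F : Type*} [Field F] [Algebra A F]
variable {B : Subalgebra A F} {V : Subring F} {ι : Type*} {v : ι → Valuation F ℤᵐ⁰}
variable {κ : Type*} [Finite κ] {Wv : κ → Valuation F ℤᵐ⁰}

/-- every element of `F` is a fraction of elements of the chart. -/
theorem h63g_frac (hC : H26Chart B V v) (f : F) :
    ∃ a b : B, (b : F) ≠ 0 ∧ f * (b : F) = a := by
  have hbot : (⊥ : Ideal B).IsPrime := Ideal.isPrime_bot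
  obtain ⟨a, ha, s, hs, h⟩ := h26_stepC hC.hfin hC.hint hC.hB (⊥ : Ideal B) f (by
    intro i hi
    exfalso
    obtain ⟨b, hb⟩ := hC.hunif i
    have h1 : b ∈ (⊥ : Ideal B) := hi b (by
      rw [hb, ← exp_zero]
      exact exp_lt_exp.mpr (by norm_num))
    rw [Ideal.mem_bot] at h1
    rw [h1] at hb
    have h2 : (0 : ℤᵐ⁰) = exp (-1 : ℤ) := by
      rw [← hb]
      simp
    exact exp_ne_zero h2.symm)
  have hs0 : (s : F) ≠ 0 := by
    intro h0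
    apply hs
    rw [Ideal.mem_bot]
    exact Subtype.ext h0
  refine ⟨⟨_, h⟩, algebraMap A B a * s, ?_, ?_⟩
  · push_cast
    exact mul_ne_zero ha hs0
  · push_cast
    rw [Algebra.smul_def]
    ring

/-- **The local datum of the gate at a closed point of the special fibre**, from (LOC) and
(CD). -/
theorem h63g_local (hC : H26Chart B V v)
    (hV : ∀ x : F, x ∈ V ↔ ∀ k, Wv k x ≤ 1)
    (π : A) (hπ0 : algebraMap A F π ≠ 0) (hπW : ∀ k, Wv k (algebraMap A F π) < 1)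
    (q : ℕ) (hq : q.Prime) (hqπ : π ∣ ((q : ℕ) : A))
    (hrad : ∃ e : ℕ, ∀ k x, Wv k x < 1 → Wv k (x ^ e) ≤ Wv k (algebraMap A F π))
    (r : ℕ) (hrq : Nat.Coprime r q)
    (w : F) (hw0 : w ≠ 0) (hwU : w ∈ h26U π V)
    (𝔫 : Ideal B) [h𝔫 : 𝔫.IsPrime] (hπ𝔫 : algebraMap A B π ∈ 𝔫)
    (hloc : H63gLoc B Wv r w 𝔫) (hcd : H63gCond B Wv q 𝔫) :
    ∃ g ∈ h26U π V, ∃ s : B, s ∉ 𝔫 ∧
      (s : F) * (w * (g ^ r)⁻¹) ∈ B ∧ (s : F) * (g ^ r * w⁻¹) ∈ B := by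
  classical
  set ϖ : F := algebraMap A F π with hϖ
  have hBW : ∀ b : B, ∀ k, Wv k (b : F) ≤ 1 := fun b k => (hV _).mp (hC.hBV _ b.2) k
  have hqW : ∀ k, Wv k ((q : ℕ) : F) ≤ Wv k ϖ := by
    intro k
    obtain ⟨a, ha⟩ := hqπ
    have h1 : ((q : ℕ) : F) = ϖ * algebraMap A F a := by
      rw [hϖ, ← map_mul, ← ha, map_natCast]
    rw [h1, map_mul]
    refine mul_le_of_le_one_right' ?_
    have := hBW (algebraMap A B a) k
    simpa using this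
  have hw1 : ∀ k, H63gOne (Wv k) ϖ w := by
    intro k
    obtain ⟨x, hx, rfl⟩ := hwU
    unfold H63gOne
    have h1 : 1 + algebraMap A F π * x - 1 = ϖ * x := by rw [hϖ]; ring
    rw [h1, map_mul]
    exact mul_le_of_le_one_right' ((hV x).mp hx k)
  obtain ⟨G, hG0, ⟨s, hs, hs1, hs2⟩, c, hc, hbr⟩ := hloc
  -- the unit `η`
  have hη : ∃ η : F, H63gUnitAt B 𝔫 η ∧
      ∀ k, h26Centered B Wv 𝔫 k → H63gOne (Wv k) ϖ (G * η) := by
    by_cases hex : ∃ k, h26Centered B Wv 𝔫 k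
    · obtain ⟨N, σ, β, hσ, hβ, hA⟩ := h63g_stepA hBW q hq
        (fun k => lt_of_le_of_lt (hqW k) (hπW k)) G c hc hbr hcd hex
      obtain ⟨M, σ', β', hσ', hβ', hB⟩ := h63g_stepB hBW q hq ϖ hqW hrad (G ^ q ^ N) σ β hσ hβ hA
      have hB' : ∀ k, h26Centered B Wv 𝔫 k →
          Wv k ((σ' : F) * G ^ q ^ (N + M) - β') ≤ Wv k ϖ := by
        intro k hk
        have := hB k hk
        rwa [← pow_mul, ← pow_add] at this
      exact h63g_stepC hBW ϖ hπW q r hrq w G hw0 hG0 (fun k _ => hw1 k) s hs hs1 hs2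
        (N + M) σ' β' hσ' hβ' hB'
    · exact ⟨1, H63gUnitAt.one, fun k hk => (hex ⟨k, hk⟩).elim⟩
  obtain ⟨η, hηU, hη1⟩ := hη
  have hg₁0 : G * η ≠ 0 := mul_ne_zero hG0 hηU.ne_zero
  obtain ⟨u, huU, hu1⟩ := h63g_stepD hBW (h63g_frac hC) (algebraMap A B π) hπ𝔫
    (by simpa using hπ0) (by simpa using hπW) (G * η) hg₁0 (by simpa using hη1)
  have hu1' : ∀ k, H63gOne (Wv k) ϖ (G * η * u) := by simpa using hu1
  -- the element `g`
  refine ⟨G * η * u, ?_, ?_⟩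
  · refine ⟨(G * η * u - 1) * ϖ⁻¹, ?_, ?_⟩
    · rw [hV]
      intro k
      have h1 := hu1' k
      unfold H63gOne at h1
      rw [map_mul, map_inv₀]
      have hϖk : Wv k ϖ ≠ 0 := by
        rw [Valuation.ne_zero_iff]; exact hπ0
      calc Wv k (G * η * u - 1) * (Wv k ϖ)⁻¹ ≤ Wv k ϖ * (Wv k ϖ)⁻¹ :=
            mul_le_mul_of_nonneg_right h1 zero_le
        _ = 1 := mul_inv_cancel₀ hϖk
    · rw [← hϖ]
      field_simp
      ring
  · obtain ⟨n, d, hn, hd, hnd⟩ := hηU.mul huU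
    have hn0 : (n : F) ≠ 0 := h63g_coe_ne_zero hn
    have hd0 : (d : F) ≠ 0 := h63g_coe_ne_zero hd
    have hηu : η * u = (n : F) * (d : F)⁻¹ := by
      rw [← hnd]
      field_simp
    have hg : (G * η * u) ^ r = G ^ r * ((n : F) ^ r * ((d : F) ^ r)⁻¹) := by
      rw [mul_assoc, hηu, mul_pow, mul_pow, inv_pow]
    have hdr : (d : F) ^ r ≠ 0 := pow_ne_zero _ hd0
    have hnr : (n : F) ^ r ≠ 0 := pow_ne_zero _ hn0
    have hGr0 : G ^ r ≠ 0 := pow_ne_zero _ hG0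
    refine ⟨s * n ^ r * d ^ r, ?_, ?_, ?_⟩
    · intro h1
      rcases h𝔫.mem_or_mem h1 with h2 | h2
      · rcases h𝔫.mem_or_mem h2 with h3 | h3
        · exact hs h3
        · exact hn (h𝔫.mem_of_pow_mem _ h3)
      · exact hd (h𝔫.mem_of_pow_mem _ h2)
    · have h1 : ((s * n ^ r * d ^ r : B) : F) * (w * ((G * η * u) ^ r)⁻¹)
          = ((s : F) * (w * (G ^ r)⁻¹)) * ((d : F) ^ r * (d : F) ^ r) := by
        rw [hg]
        push_cast
        field_simp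
      rw [h1]
      exact B.mul_mem hs1 (B.mul_mem (B.pow_mem d.2 r) (B.pow_mem d.2 r))
    · have h1 : ((s * n ^ r * d ^ r : B) : F) * ((G * η * u) ^ r * w⁻¹)
          = ((s : F) * (G ^ r * w⁻¹)) * ((n : F) ^ r * (n : F) ^ r) := by
        rw [hg]
        push_cast
        field_simp
      rw [h1]
      exact B.mul_mem hs2 (B.mul_mem (B.pow_mem n.2 r) (B.pow_mem n.2 r))

end Local

end Fermat.Agent.S36
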