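import Mathlib
import Fermat.Agent.S36.H63GateLoc
import Fermat.Agent.S36.H26GateCD

/-!
# S36, GATE (helper26): the conductor property `H63gCond` of the abstract gate `h63g_gate36`

* `h26y_cond_of_transversal` : `H63gCond B Wv q 𝔫` from pairwise transversality of the
  components of the special fibre through `𝔫` (`𝔫 = P_k + P_k'` locally for `k ≠ k'`);
* `h26y_cond_of_subsingleton` : `H63gCond B Wv q 𝔫` at a point lying on at most one component
  (no hypothesis).
-/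

set_option autoImplicit false
set_option linter.unusedSectionVars false

open WithZero

namespace Fermat.Agent.S36

open Fermat.Agent.Red

section Cond

variable {A : Type*} [CommRing A] {F : Type*} [Field F] [Algebra A F]
  {B : Subalgebra A F} {κ : Type*} (Wv : κ → Valuation F ℤᵐ⁰)

/-- **(CD) from transversality**, in the frozen form `H63gCond`. -/
theorem h26y_cond_of_transversal [Finite κ] (hB : ∀ b ∈ B, ∀ k, Wv k b ≤ 1)
    (𝔫 : Ideal B) [h𝔫 : 𝔫.IsPrime] (q : ℕ) (hq : 1 < q)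
    (htr : ∀ k k', k ≠ k' → h26Centered B Wv 𝔫 k → h26Centered B Wv 𝔫 k' → ∀ z ∈ 𝔫,
      ∃ s : B, s ∉ 𝔫 ∧ ∃ a a' : B, Wv k (a : F) < 1 ∧ Wv k' (a' : F) < 1 ∧ s * z = a + a') :
    H63gCond B Wv q 𝔫 := by
  classical
  haveI : Fintype κ := Fintype.ofFinite κ
  exact h26y_cd_of_transversal Wv hB 𝔫 q hq htr

/-- **(CD) at a point on at most one component.** -/
theorem h26y_cond_of_subsingleton (𝔫 : Ideal B) [h𝔫 : 𝔫.IsPrime] (q : ℕ)
    (hone : ∀ k k', h26Centered B Wv 𝔫 k → h26Centered B Wv 𝔫 k' → k = k') :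
    H63gCond B Wv q 𝔫 := by
  classical
  refine ⟨0, fun x _ => ?_⟩
  by_cases hex : ∃ k, h26Centered B Wv 𝔫 k
  · obtain ⟨k₀, hk₀⟩ := hex
    refine ⟨x k₀, 1, (Ideal.ne_top_iff_one 𝔫).mp h𝔫.ne_top, fun k hk => ?_⟩
    rw [hone k k₀ hk hk₀]
    simp
  · refine ⟨0, 1, (Ideal.ne_top_iff_one 𝔫).mp h𝔫.ne_top, fun k hk => ?_⟩
    exact (hex ⟨k, hk⟩).elim

end Cond

end Fermat.Agent.S36
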