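import Fermat.Agent.S36.H92Chain
import Fermat.Agent.Red.ModelO.ValCrit

/-!
# S36, block (G), leaf G-CONST (helper26)

The final step of the gate: if `t ≠ 0`, `w ≠ 0` and `t ^ m * w⁻¹` lies in the two charts
`modelAt N A (jB N)`, `modelAt N A (jB N)⁻¹` of the normal model (a fortiori if it lies in the
two charts `h92c_Chart A N (jB N)`, `h92c_Chart A N (jB N)⁻¹` over `A₀`), then `t ^ m * w⁻¹` is a
constant of `ℚ̄`, hence an `m`-th power, and `w` is an `m`-th power of `FF N`.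

* `h26y_gate_const` : the statement for `modelAt`;
* `h26y_gate_const_chart` : the statement for `h92c_Chart`.
-/

set_option autoImplicit false

open AlgebraicCurve ModularCurve

noncomputable section

namespace Fermat.Agent.S36

open Fermat.Agent.S37 (Kbar GQ FF cst jB gal modelAt modelFin modelInf)
open Fermat.Agent.Red.ModelO (h85_modelFin_inf_modelInf)

/-- **G-CONST.**  `t ^ m * w⁻¹` in both charts of the normal model ⇒ `w` is an `m`-th power. -/
theorem h26y_gate_const (N : ℕ) [NeZero N] (A : ValuationSubring Kbar) {m : ℕ} (hm0 : m ≠ 0)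
    {t w : FF N} (ht0 : t ≠ 0) (hw0 : w ≠ 0)
    (ht₀ : t ^ m * w⁻¹ ∈ modelAt N A (jB N))
    (htinf : t ^ m * w⁻¹ ∈ modelAt N A (jB N)⁻¹) :
    ∃ h : FF N, h ^ m = w := by
  obtain ⟨a, -, ha⟩ := h85_modelFin_inf_modelInf N A ht₀ htinf
  have ha0 : a ≠ 0 := by
    rintro rfl
    rw [cst, map_zero] at ha
    exact mul_ne_zero (pow_ne_zero _ ht0) (inv_ne_zero hw0) ha
  obtain ⟨b, hb⟩ := IsAlgClosed.exists_pow_nat_eq a (Nat.pos_of_ne_zero hm0)
  have hb0 : b ≠ 0 := by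
    rintro rfl
    rw [zero_pow hm0] at hb
    exact ha0 hb.symm
  have hcb0 : cst N b ≠ 0 := by
    simpa only [cst, ne_eq, map_eq_zero] using hb0
  refine ⟨t * (cst N b)⁻¹, ?_⟩
  have h1 : cst N b ^ m = t ^ m * w⁻¹ := by
    rw [ha, ← hb]
    exact (map_pow _ _ _).symm
  rw [mul_pow, inv_pow, h1]
  field_simp

/-- **G-CONST** for the charts over `A₀` of `H92Chain`. -/
theorem h26y_gate_const_chart (N : ℕ) [NeZero N] (A : ValuationSubring Kbar) {m : ℕ}
    (hm0 : m ≠ 0) {t w : FF N} (ht0 : t ≠ 0) (hw0 : w ≠ 0)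
    (ht₀ : t ^ m * w⁻¹ ∈ h92c_Chart A N (jB N))
    (htinf : t ^ m * w⁻¹ ∈ h92c_Chart A N (jB N)⁻¹) :
    ∃ h : FF N, h ^ m = w :=
  h26y_gate_const N A hm0 ht0 hw0 ht₀.1 htinf.1

end Fermat.Agent.S36
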