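import Fermat.Agent.S36.H53DescIface

/-!
# S36, GATE (helper26): divisibility of the orders at the places of `F₀` over `K₀`

The gate over the inertia field needs, for every discrete valuation `v` of `F₀ = FF N ^ I`
which is trivial on the constants `K₀` (a closed point of the generic fibre of the model over
`A₀`), that `m ∣ v(w)`, knowing `m ∣ ord_P(w)` at the places `P` of `FF N` over `ℚ̄`.  This is
`DescLoc` (the constant field extension is unramified) applied to the valuation subring of `v`.

* `h26y_hrw_of_descLoc` : `DescLoc → ∃ n : ℤ, v w = exp (-(m * n))` for every valuation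
  `v : Valuation F₀ ℤᵐ⁰`, nontrivial, `≤ 1` on the constants.  This is the hypothesis `hrw₀` of
  the abstract gates (`h63g_gate36`, `h13g_gate_asm_semi`, `h63_gate_asm_loc`) for ANY family
  of horizontal valuations of `F₀`.
-/

set_option autoImplicit false

open AlgebraicCurve ModularCurve WithZero

noncomputable section

namespace Fermat.Agent.S36

open Fermat.Agent.S37 (Kbar GQ FF cst gal)

/-- **`m ∣ v(w)` at the places of `F₀`**, from `DescLoc`. -/
theorem h26y_hrw_of_descLoc (hD : DescLoc) (N : ℕ) [NeZero N] (I : Subgroup GQ)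
    (v : Valuation (h53d_F0 N I) ℤᵐ⁰)
    (hnt : ∃ x : h53d_F0 N I, 1 < v x)
    (hconst : ∀ (c : Kbar) (hc : cst N c ∈ h53d_F0 N I),
      v (⟨cst N c, hc⟩ : h53d_F0 N I) ≤ 1)
    (m : ℕ) (w : h53d_F0 N I) (hw : w ≠ 0)
    (hdiv : ∀ P : Place Kbar (FF N), (m : ℤ) ∣ P.ord (w : FF N)) :
    ∃ n : ℤ, v w = exp (-((m : ℤ) * n)) := by
  have hO : v.valuationSubring ≠ ⊤ := by
    intro h
    obtain ⟨x, hx⟩ := hnt
    have hx' : x ∈ v.valuationSubring := by rw [h]; trivial
    rw [Valuation.mem_valuationSubring_iff] at hx'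
    exact absurd hx (not_lt.mpr hx')
  obtain ⟨g, hg0, h1, h2⟩ := hD N I v.valuationSubring hO
    (fun c hc => (Valuation.mem_valuationSubring_iff _ _).mpr (hconst c hc)) m w hw hdiv
  rw [Valuation.mem_valuationSubring_iff] at h1 h2
  have hvg : v g ≠ 0 := (Valuation.ne_zero_iff _).mpr hg0
  have hvw : v w ≠ 0 := (Valuation.ne_zero_iff _).mpr hw
  have e1 : v w ≤ v g ^ m := by
    rw [map_div₀, map_pow] at h1
    exact (div_le_one₀ (zero_lt_iff.mpr (pow_ne_zero _ hvg))).mp h1
  have e2 : v g ^ m ≤ v w := by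
    rw [map_div₀, map_pow] at h2
    exact (div_le_one₀ (zero_lt_iff.mpr hvw)).mp h2
  refine ⟨-(log (v g)), ?_⟩
  rw [le_antisymm e1 e2]
  conv_lhs => rw [← exp_log hvg]
  rw [← exp_nsmul, nsmul_eq_mul]
  congr 1
  ring

end Fermat.Agent.S36
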