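import Mathlib

/-!
# S36, block (G) GATE — KRULL-QEP (helper75): principal ideals of a normal noetherian domain
are unmixed

Mathlib only.  `B` is a noetherian integrally closed domain with fraction field `F`.

* `h75k_assoc_principal` : if `P = (aB : z)` is a prime ideal (`a ≠ 0`), then there are
  `t ∈ P`, `s ∉ P` with `z t = a s`; consequently `P B_P = t B_P`.
* `h75k_assoc_local_gen` : with the same `t`, `s`: `s u ∈ t B` for every `u ∈ P`.
* `h75k_assoc_minimal` : such a `P` is a minimal prime over `aB`.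
* `h75k_qep` : **QEP**.  If `a x ∈ B` and `x ∈ B_P` for every minimal prime `P` over `aB`,
  then `x ∈ B`.
* `h75k_qep_subalgebra` : the same statement in the vocabulary of `H26Chart.hQEP`
  (`B` a subalgebra of `F`, `V` a subring of `F` contained in all `B_P`, `P` minimal over `a`).
-/

set_option autoImplicit false

namespace Fermat.Agent.S36

section Abstract

variable {B : Type*} [CommRing B] [IsDomain B] [IsNoetherianRing B] [IsIntegrallyClosed B]

/-- if `P = (aB : z)` is prime then `(z / a) P` is not contained in `P`. -/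
theorem h75k_assoc_principal (a z : B) (ha : a ≠ 0) (P : Ideal B) (hP : P.IsPrime)
    (hPz : ∀ s, s ∈ P ↔ a ∣ s * z) :
    ∃ t ∈ P, ∃ s, s ∉ P ∧ z * t = a * s := by
  classical
  by_contra hcon
  replace hcon : ∀ t ∈ P, ∀ s, z * t = a * s → s ∈ P := by
    intro t ht s hs
    by_contra hsP
    exact hcon ⟨t, ht, s, hsP, hs⟩
  let F := FractionRing B
  have haF : algebraMap B F a ≠ 0 := by
    intro h
    exact ha ((IsFractionRing.injective B F) (by rw [h, map_zero]))
  set w : F := algebraMap B F z / algebraMap B F a with hw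
  set N : Submodule B F := Submodule.map (Algebra.linearMap B F) P with hN
  have haP : a ∈ P := (hPz a).mpr (Dvd.intro z rfl)
  have hNbot : N ≠ ⊥ := by
    intro h
    have h1 : algebraMap B F a ∈ N := ⟨a, haP, rfl⟩
    rw [h, Submodule.mem_bot] at h1
    exact haF h1
  have hNfg : N.FG := Submodule.FG.map _ (IsNoetherian.noetherian P)
  have hstable : ∀ n ∈ N, w • n ∈ N := by
    rintro _ ⟨t, ht, rfl⟩
    obtain ⟨s, hs⟩ := (hPz t).mp ht
    have hsP : s ∈ P := hcon t ht s (by rw [mul_comm z t, hs])
    refine ⟨s, hsP, ?_⟩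
    simp only [Algebra.linearMap_apply, smul_eq_mul, hw]
    rw [div_mul_eq_mul_div, eq_div_iff haF, ← map_mul, ← map_mul, mul_comm z t, hs, mul_comm]
  have hint : IsIntegral B w := isIntegral_of_smul_mem_submodule N hNbot hNfg w hstable
  obtain ⟨y, hy⟩ := IsIntegrallyClosed.isIntegral_iff.mp hint
  have hzy : z = a * y := by
    apply IsFractionRing.injective B F
    rw [map_mul, hy, hw, mul_div_cancel₀ _ haF]
  have h1 : (1 : B) ∈ P := (hPz 1).mpr ⟨y, by rw [one_mul, hzy]⟩
  exact hP.ne_top ((Ideal.eq_top_iff_one P).mpr h1)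

omit [IsNoetherianRing B] [IsIntegrallyClosed B] in
/-- with `t`, `s` as in `h75k_assoc_principal`: `s u ∈ t B` for all `u ∈ P`, i.e.
`P B_P = t B_P`. -/
theorem h75k_assoc_local_gen (a z : B) (ha : a ≠ 0) (P : Ideal B)
    (hPz : ∀ s, s ∈ P ↔ a ∣ s * z) (t s : B) (hts : z * t = a * s) :
    ∀ u ∈ P, ∃ r, s * u = t * r := by
  intro u hu
  obtain ⟨r, hr⟩ := (hPz u).mp hu
  refine ⟨r, mul_left_cancel₀ ha ?_⟩
  calc a * (s * u) = (a * s) * u := by ring
    _ = z * t * u := by rw [hts]
    _ = t * (u * z) := by ring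
    _ = t * (a * r) := by rw [hr]
    _ = a * (t * r) := by ring

omit [IsIntegrallyClosed B] in
/-- a nonzero prime `P` with `P B_P` principal: the localisation is a discrete valuation
ring. -/
theorem h75k_isDVR_of_local_gen (P : Ideal B) [hP : P.IsPrime] (hP0 : P ≠ ⊥) (t s : B)
    (ht : t ∈ P) (hs : s ∉ P) (hgen : ∀ u ∈ P, ∃ r, s * u = t * r) :
    IsDiscreteValuationRing (Localization.AtPrime P) := by
  classical
  let R := Localization.AtPrime P
  have : IsNoetherianRing R := IsLocalization.isNoetherianRing P.primeCompl R inferInstance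
  have hinj : Function.Injective (algebraMap B R) :=
    IsLocalization.injective R P.primeCompl_le_nonZeroDivisors
  have hmax : IsLocalRing.maximalIdeal R = Ideal.span {algebraMap B R t} := by
    rw [← Localization.AtPrime.map_eq_maximalIdeal]
    apply le_antisymm
    · rw [Ideal.map_le_iff_le_comap]
      intro u hu
      obtain ⟨r, hr⟩ := hgen u hu
      rw [Ideal.mem_comap, Ideal.mem_span_singleton]
      have hsu : IsUnit (algebraMap B R s) := IsLocalization.map_units R (⟨s, hs⟩ : P.primeCompl)
      obtain ⟨s', hs'⟩ := hsu.exists_left_inv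
      refine ⟨s' * algebraMap B R r, ?_⟩
      calc algebraMap B R u = s' * algebraMap B R s * algebraMap B R u := by rw [hs', one_mul]
        _ = s' * algebraMap B R (s * u) := by rw [map_mul]; ring
        _ = s' * algebraMap B R (t * r) := by rw [hr]
        _ = algebraMap B R t * (s' * algebraMap B R r) := by rw [map_mul]; ring
    · rw [Ideal.span_singleton_le_iff_mem]
      exact Ideal.mem_map_of_mem _ ht
  have hnf : ¬ IsField R := by
    rw [IsLocalRing.isField_iff_maximalIdeal_eq]
    intro h
    obtain ⟨a, haP, ha0⟩ := Submodule.exists_mem_ne_zero_of_ne_bot hP0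
    have h1 : algebraMap B R a ∈ IsLocalRing.maximalIdeal R := by
      rw [← Localization.AtPrime.map_eq_maximalIdeal]
      exact Ideal.mem_map_of_mem _ haP
    rw [h, Ideal.mem_bot] at h1
    exact ha0 (hinj (by rw [h1, map_zero]))
  have hprin : (IsLocalRing.maximalIdeal R).IsPrincipal := ⟨⟨_, hmax⟩⟩
  exact ((IsDiscreteValuationRing.TFAE R hnf).out 0 4).mpr hprin

/-- an associated prime `P = (aB : z)` of a principal ideal: `B_P` is a discrete valuation
ring. -/
theorem h75k_assoc_isDVR (a z : B) (ha : a ≠ 0) (P : Ideal B) [hP : P.IsPrime]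
    (hPz : ∀ s, s ∈ P ↔ a ∣ s * z) :
    IsDiscreteValuationRing (Localization.AtPrime P) := by
  obtain ⟨t, ht, s, hs, hts⟩ := h75k_assoc_principal a z ha P hP hPz
  have haP : a ∈ P := (hPz a).mpr (Dvd.intro z rfl)
  have hP0 : P ≠ ⊥ := by
    intro h
    rw [h, Ideal.mem_bot] at haP
    exact ha haP
  exact h75k_isDVR_of_local_gen P hP0 t s ht hs (h75k_assoc_local_gen a z ha P hPz t s hts)

omit [IsNoetherianRing B] [IsIntegrallyClosed B] in
/-- if `B_P` is a discrete valuation ring, then `P` is minimal over every nonzero principal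
ideal it contains. -/
theorem h75k_minimal_of_isDVR (a : B) (ha : a ≠ 0) (P : Ideal B) [hP : P.IsPrime]
    (haP : a ∈ P) (hdvr : IsDiscreteValuationRing (Localization.AtPrime P)) :
    P ∈ (Ideal.span {a}).minimalPrimes := by
  classical
  let R := Localization.AtPrime P
  have hinj : Function.Injective (algebraMap B R) :=
    IsLocalization.injective R P.primeCompl_le_nonZeroDivisors
  refine ⟨⟨hP, (Ideal.span_singleton_le_iff_mem P).mpr haP⟩, ?_⟩
  rintro Q ⟨hQ, haQ⟩ hQP
  have haQ' : a ∈ Q := (Ideal.span_singleton_le_iff_mem Q).mp haQ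
  have hdisj : Disjoint (P.primeCompl : Set B) (Q : Set B) := by
    rw [Set.disjoint_left]
    intro x hx hxQ
    exact hx (hQP hxQ)
  have hQ' : (Q.map (algebraMap B R)).IsPrime :=
    IsLocalization.isPrime_of_isPrime_disjoint P.primeCompl R Q hQ hdisj
  have hQ0 : Q.map (algebraMap B R) ≠ ⊥ := by
    intro h
    have h1 : algebraMap B R a ∈ Q.map (algebraMap B R) := Ideal.mem_map_of_mem _ haQ'
    rw [h, Ideal.mem_bot] at h1
    exact ha (hinj (by rw [h1, map_zero]))
  have hQmax : Q.map (algebraMap B R) = IsLocalRing.maximalIdeal R :=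
    IsLocalRing.eq_maximalIdeal (hQ'.isMaximal hQ0)
  have h1 : (Q.map (algebraMap B R)).under B = Q :=
    IsLocalization.under_map_of_isPrime_disjoint P.primeCompl R hQ hdisj
  have h2 : (IsLocalRing.maximalIdeal R).under B = P := Localization.AtPrime.under_maximalIdeal
  rw [hQmax, h2] at h1
  exact h1.le

/-- an associated prime `P = (aB : z)` of a nonzero principal ideal is minimal over it. -/
theorem h75k_assoc_minimal (a z : B) (ha : a ≠ 0) (P : Ideal B) [hP : P.IsPrime]
    (hPz : ∀ s, s ∈ P ↔ a ∣ s * z) :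
    P ∈ (Ideal.span {a}).minimalPrimes :=
  h75k_minimal_of_isDVR a ha P ((hPz a).mpr (Dvd.intro z rfl))
    (h75k_assoc_isDVR a z ha P hPz)

omit [IsDomain B] [IsNoetherianRing B] [IsIntegrallyClosed B] in
/-- the colon ideal `(aB : z)`. -/
def h75kColon (a z : B) : Ideal B where
  carrier := {u | a ∣ u * z}
  add_mem' := by
    intro u v hu hv
    simp only [Set.mem_ofPred_eq] at *
    rw [add_mul]
    exact dvd_add hu hv
  zero_mem' := by simp
  smul_mem' := by
    intro c u hu
    simp only [Set.mem_ofPred_eq, smul_eq_mul] at *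
    rw [mul_assoc]
    exact Dvd.dvd.mul_left hu c

omit [IsDomain B] [IsNoetherianRing B] [IsIntegrallyClosed B] in
theorem h75k_mem_colon (a z u : B) : u ∈ h75kColon a z ↔ a ∣ u * z := Iff.rfl

omit [IsDomain B] [IsIntegrallyClosed B] in
/-- if `a ∤ y`, some multiple `z` of `y` has a prime colon ideal `(aB : z)`. -/
theorem h75k_exists_assoc (a y : B) (hay : ¬ a ∣ y) :
    ∃ (P : Ideal B) (z : B), P.IsPrime ∧ (∃ s, z = s * y) ∧ ∀ u, u ∈ P ↔ a ∣ u * z := by
  obtain ⟨P, ⟨z, hz, ⟨s, hs⟩, rfl⟩, hmax⟩ :=
    set_has_maximal_iff_noetherian.mpr (inferInstance : IsNoetherianRing B)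
      {I | ∃ z, ¬ a ∣ z ∧ (∃ s, z = s * y) ∧ I = h75kColon a z}
      ⟨h75kColon a y, y, hay, ⟨1, by ring⟩, rfl⟩
  refine ⟨h75kColon a z, z, ?_, ⟨s, hs⟩, fun u => h75k_mem_colon a z u⟩
  refine ⟨?_, ?_⟩
  · intro h
    have h1 : (1 : B) ∈ h75kColon a z := by rw [h]; trivial
    rw [h75k_mem_colon, one_mul] at h1
    exact hz h1
  · intro u v huv
    by_contra hcon
    rw [not_or] at hcon
    have hu : ¬ a ∣ u * z := hcon.1
    have hle : h75kColon a z ≤ h75kColon a (u * z) := by
      intro c hc
      rw [h75k_mem_colon] at hc ⊢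
      have : c * (u * z) = u * (c * z) := by ring
      rw [this]
      exact Dvd.dvd.mul_left hc u
    have hnlt := hmax (h75kColon a (u * z)) ⟨u * z, hu, ⟨u * s, by rw [hs]; ring⟩, rfl⟩
    have heq : h75kColon a z = h75kColon a (u * z) := hle.eq_of_not_lt hnlt
    have hv : v ∈ h75kColon a (u * z) := by
      rw [h75k_mem_colon]
      have h1 : a ∣ (u * v) * z := huv
      have : v * (u * z) = (u * v) * z := by ring
      rw [this]
      exact h1
    rw [← heq] at hv
    exact hcon.2 hv

/-- **Principal ideals of a normal noetherian domain are unmixed** (divisibility form):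
if `s y ∈ aB` for some `s` outside `P`, for every minimal prime `P` over `aB`, then `y ∈ aB`. -/
theorem h75k_dvd_of_minimal (a y : B) (ha : a ≠ 0)
    (h : ∀ P ∈ (Ideal.span {a}).minimalPrimes, ∃ s : B, s ∉ P ∧ a ∣ s * y) : a ∣ y := by
  by_contra hay
  obtain ⟨P, z, hP, ⟨s₀, hz⟩, hPz⟩ := h75k_exists_assoc a y hay
  have := hP
  obtain ⟨s, hs, hsy⟩ := h P (h75k_assoc_minimal a z ha P hPz)
  apply hs
  rw [hPz, hz]
  have : s * (s₀ * y) = s₀ * (s * y) := by ring
  rw [this]
  exact Dvd.dvd.mul_left hsy s₀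

/-- **QEP from normality.**  If `a x ∈ B` and `x ∈ B_P` for every minimal prime `P` over
`aB`, then `x ∈ B`. -/
theorem h75k_qep {F : Type*} [Field F] [Algebra B F]
    (hinj : Function.Injective (algebraMap B F))
    (a : B) (ha : a ≠ 0) (x : F) (y : B) (hy : algebraMap B F y = algebraMap B F a * x)
    (hx : ∀ P ∈ (Ideal.span {a}).minimalPrimes,
      ∃ b s : B, s ∉ P ∧ x * algebraMap B F s = algebraMap B F b) :
    ∃ b : B, algebraMap B F b = x := by
  have haF : algebraMap B F a ≠ 0 := fun h => ha (hinj (by rw [h, map_zero]))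
  have hdvd : a ∣ y := by
    refine h75k_dvd_of_minimal a y ha (fun P hP => ?_)
    obtain ⟨b, s, hs, hxs⟩ := hx P hP
    refine ⟨s, hs, b, hinj ?_⟩
    rw [map_mul, map_mul, hy, ← hxs]
    ring
  obtain ⟨b, rfl⟩ := hdvd
  refine ⟨b, ?_⟩
  rw [map_mul] at hy
  exact mul_left_cancel₀ haF hy

omit [IsDomain B] [IsIntegrallyClosed B] in
/-- a minimal prime over `aB` is a colon ideal `(aB : z)` (an associated prime of `B / aB`). -/
theorem h75k_minimal_is_colon (a : B) (P : Ideal B)
    (hP : P ∈ (Ideal.span {a}).minimalPrimes) :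
    ∃ z : B, ∀ u, u ∈ P ↔ a ∣ u * z := by
  have h1 : P ∈ associatedPrimes B (B ⧸ Ideal.span {a}) := by
    apply Module.associatedPrimes.minimalPrimes_annihilator_subset_associatedPrimes
    rw [Ideal.annihilator_quotient]
    exact hP
  obtain ⟨-, x, hx⟩ := isAssociatedPrime_iff.mp h1
  obtain ⟨z, rfl⟩ := Ideal.Quotient.mk_surjective x
  refine ⟨z, fun u => ?_⟩
  have h2 : u • (Ideal.Quotient.mk (Ideal.span {a})) z
      = (Ideal.Quotient.mk (Ideal.span {a})) (u * z) := by
    rw [map_mul]; rfl
  rw [hx, Submodule.mem_colon_singleton, Submodule.mem_bot, h2, Ideal.Quotient.eq_zero_iff_mem,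
    Ideal.mem_span_singleton]

/-- **the local rings at the minimal primes over a nonzero principal ideal are discrete
valuation rings** (normal noetherian domain). -/
theorem h75k_minimal_isDVR (a : B) (ha : a ≠ 0) (P : Ideal B) [hP : P.IsPrime]
    (hPa : P ∈ (Ideal.span {a}).minimalPrimes) :
    IsDiscreteValuationRing (Localization.AtPrime P) := by
  obtain ⟨z, hz⟩ := h75k_minimal_is_colon a P hPa
  exact h75k_assoc_isDVR a z ha P hz

/-- a minimal prime `P` over a nonzero principal ideal `aB` is locally principal: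
`P B_P = t B_P`. -/
theorem h75k_minimal_local_gen (a : B) (ha : a ≠ 0) (P : Ideal B) [hP : P.IsPrime]
    (hPa : P ∈ (Ideal.span {a}).minimalPrimes) :
    ∃ t ∈ P, ∃ s, s ∉ P ∧ ∀ u ∈ P, ∃ r, s * u = t * r := by
  obtain ⟨z, hz⟩ := h75k_minimal_is_colon a P hPa
  obtain ⟨t, ht, s, hs, hts⟩ := h75k_assoc_principal a z ha P hP hz
  exact ⟨t, ht, s, hs, h75k_assoc_local_gen a z ha P hz t s hts⟩

end Abstract

section GoingDown

variable {R B : Type*} [CommRing R] [IsDomain R] [IsIntegrallyClosed R]
  [CommRing B] [IsDomain B] [Algebra R B] [FaithfulSMul R B] [Algebra.IsIntegral R B]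

omit [IsDomain R] in
/-- **going down to a normal base**: if `aR` is a prime ideal of the integrally closed domain
`R` and `B` is a domain integral over `R`, every minimal prime `P` over `aB` lies over `aR`. -/
theorem h75k_under_minimal (a : R) (ha : (Ideal.span {a}).IsPrime) (P : Ideal B)
    (hP : P ∈ (Ideal.span {algebraMap R B a}).minimalPrimes) :
    P.under R = Ideal.span {a} := by
  have hPp : P.IsPrime := hP.1.1
  have haP : algebraMap R B a ∈ P := (Ideal.span_singleton_le_iff_mem P).mp hP.1.2
  have hle : Ideal.span {a} ≤ P.under R := by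
    rw [Ideal.span_singleton_le_iff_mem, Ideal.under_def, Ideal.mem_comap]
    exact haP
  have : P.LiesOver (P.under R) := ⟨rfl⟩
  obtain ⟨P', hP'le, hP'p, hP'over⟩ := Ideal.exists_ideal_le_liesOver_of_le P hle
  have haP' : algebraMap R B a ∈ P' := by
    have h1 : a ∈ P'.under R := by
      rw [← hP'over.over]
      exact Ideal.mem_span_singleton_self a
    exact h1
  have hPP' : P ≤ P' :=
    hP.2 ⟨hP'p, (Ideal.span_singleton_le_iff_mem P').mpr haP'⟩ hP'le
  have heq : P = P' := le_antisymm hPP' hP'le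
  rw [heq, ← hP'over.over]

end GoingDown

section Subalgebra

variable {A F : Type*} [CommRing A] [Field F] [Algebra A F]

/-- a subalgebra of a field which is integrally closed in the field is an integrally closed
domain. -/
theorem h75k_isIntegrallyClosed (B : Subalgebra A F)
    (hnorm : ∀ x : F, IsIntegral B x → x ∈ B) : IsIntegrallyClosed B := by
  have hinj : Function.Injective (algebraMap B F) := Subtype.val_injective
  rw [isIntegrallyClosed_iff (FractionRing B)]
  intro x hx
  have hinj' : Function.Injective (Algebra.ofId B F) := hinj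
  let φ : FractionRing B →ₐ[B] F :=
    IsFractionRing.liftAlgHom (K := FractionRing B) (g := Algebra.ofId B F) hinj'
  have h1 : IsIntegral B (φ x) := hx.map φ
  obtain ⟨b, hb⟩ : ∃ b : B, (b : F) = φ x := ⟨⟨φ x, hnorm _ h1⟩, rfl⟩
  refine ⟨b, ?_⟩
  apply φ.toRingHom.injective
  change φ (algebraMap B (FractionRing B) b) = φ x
  rw [φ.commutes, ← hb]
  rfl

/-- **QEP for a normal noetherian chart** (the field `hQEP` of `H26Chart`): `B` a noetherian
subalgebra of the field `F`, integrally closed in `F`; `V` a subring of `F` contained in the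
local rings `B_P` of the minimal primes `P` over `aB`.  Then `x ∈ V`, `a x ∈ B` imply
`x ∈ B`. -/
theorem h75k_qep_subalgebra (B : Subalgebra A F) [IsNoetherianRing B]
    (hnorm : ∀ x : F, IsIntegral B x → x ∈ B)
    (V : Subring F) (a : A) (ha : algebraMap A F a ≠ 0)
    (hV : ∀ P ∈ (Ideal.span {algebraMap A B a}).minimalPrimes, ∀ x ∈ V,
      ∃ b s : B, s ∉ P ∧ x * (s : F) = (b : F)) :
    ∀ x ∈ V, a • x ∈ B → x ∈ B := by
  intro x hxV hax
  have : IsIntegrallyClosed B := h75k_isIntegrallyClosed B hnorm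
  have hinj : Function.Injective (algebraMap B F) := Subtype.val_injective
  have haB : algebraMap A B a ≠ 0 := by
    intro h
    apply ha
    have h2 : algebraMap A F a = ((algebraMap A B a : B) : F) := rfl
    rw [h2, h]
    rfl
  obtain ⟨b, hb⟩ := h75k_qep hinj (algebraMap A B a) haB x ⟨a • x, hax⟩
    (by
      change a • x = ((algebraMap A B a : B) : F) * x
      rw [Algebra.smul_def]
      rfl)
    (fun P hP => hV P hP x hxV)
  rw [← hb]
  exact b.2

end Subalgebra

end Fermat.Agent.S36
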