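import Mathlib
import Fermat.Agent.Red.LocalFact
import Fermat.Agent.S36.H75Krull

/-!
# S36, block (G) GATE — CHART-ABS (helper75): the chart axioms `H26Chart` for a normal
noetherian chart over a discrete valuation ring

Abstract; Mathlib + `Red/LocalFact` (the structure `H26Chart`) + `S36/H75Krull`.

`A` is a local ring, `π ∈ A`, `F` a field, `B` an `A`-subalgebra of `F` which is noetherian,
integrally closed in `F`, with fraction field `F`, and such that the nonzero primes of `B` not
containing `π` are pairwise incomparable (the generic fibre `B[1/π]` has dimension `≤ 1`).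

* places: `HeightOneSpectrum (B[1/π])` with the adic valuations `F → ℤᵐ⁰` of Mathlib;
* `V` = the intersection of the local rings `B_P`, `P` a minimal prime over `π B`
  (the vertical discrete valuation rings);
* `h75c_chart` : `H26Chart B V val`.
-/

set_option autoImplicit false
set_option linter.unusedSectionVars false

open WithZero IsLocalRing IsDedekindDomain

namespace Fermat.Agent.S36

open Fermat.Agent.Red

section Layer

variable {A F : Type*} [CommRing A] [Field F] [Algebra A F]
variable (B : Subalgebra A F) (π : A)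
variable (C : Type*) [CommRing C] [Algebra B C] [Algebra C F] [IsScalarTower B C F]
  [IsLocalization.Away (algebraMap A B π) C] [IsDedekindDomain C] [IsFractionRing C F]

include B π in
/-- every element of `C = B[1/π]` is `b / π ^ k`. -/
theorem h75c_exists_pow_mul (c : C) :
    ∃ (k : ℕ) (b : B), algebraMap C F c * algebraMap A F π ^ k = (b : F) := by
  obtain ⟨⟨b, ⟨_, k, rfl⟩⟩, h⟩ := IsLocalization.surj (Submonoid.powers (algebraMap A B π)) c
  refine ⟨k, b, ?_⟩
  have h1 := congrArg (algebraMap C F) h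
  simp only [map_mul, map_pow] at h1
  rw [← IsScalarTower.algebraMap_apply B C F, ← IsScalarTower.algebraMap_apply B C F] at h1
  exact h1

include B π in
/-- `π` is a unit at all places of `C`. -/
theorem h75c_val_pi (v : HeightOneSpectrum C) : v.valuation F (algebraMap A F π) = 1 := by
  have hu : IsUnit (algebraMap B C (algebraMap A B π)) :=
    IsLocalization.map_units C
      (⟨algebraMap A B π, Submonoid.mem_powers _⟩ : Submonoid.powers (algebraMap A B π))
  obtain ⟨u, hu⟩ := hu
  have h1 : algebraMap A F π = algebraMap C F (u : C) := by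
    rw [hu, ← IsScalarTower.algebraMap_apply B C F]
    rfl
  have h2 : v.valuation F (algebraMap C F (u : C)) ≤ 1 := v.valuation_le_one _
  have h3 : v.valuation F (algebraMap C F ((u⁻¹ : Cˣ) : C)) ≤ 1 := v.valuation_le_one _
  have h4 : algebraMap C F (u : C) * algebraMap C F ((u⁻¹ : Cˣ) : C) = 1 := by
    rw [← map_mul, Units.mul_inv, map_one]
  have h5 : v.valuation F (algebraMap C F (u : C)) *
      v.valuation F (algebraMap C F ((u⁻¹ : Cˣ) : C)) = 1 := by
    rw [← map_mul, h4, map_one]
  rw [h1]
  refine le_antisymm h2 ?_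
  by_contra hlt
  rw [not_le] at hlt
  have h6 : v.valuation F (algebraMap C F (u : C)) *
      v.valuation F (algebraMap C F ((u⁻¹ : Cˣ) : C)) < 1 :=
    mul_lt_of_lt_of_le_one hlt h3
  rw [h5] at h6
  exact lt_irrefl _ h6

include B π in
/-- the valuation of `c = b / π ^ k` is the valuation of `b`. -/
theorem h75c_val_eq (v : HeightOneSpectrum C) (x : F) (k : ℕ) (y : F)
    (h : x * algebraMap A F π ^ k = y) : v.valuation F x = v.valuation F y := by
  rw [← h, map_mul, map_pow, h75c_val_pi B π C v, one_pow, mul_one]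

omit [IsLocalization.Away (algebraMap A B π) C] in
/-- `hB`: the elements of the chart are regular at all places. -/
theorem h75c_hB (b : F) (hb : b ∈ B) (v : HeightOneSpectrum C) : v.valuation F b ≤ 1 := by
  have h1 : b = algebraMap C F (algebraMap B C ⟨b, hb⟩) := by
    rw [← IsScalarTower.algebraMap_apply B C F]
    rfl
  rw [h1]
  exact v.valuation_le_one _

omit [Algebra B C] [IsScalarTower B C F] [IsLocalization.Away (algebraMap A B π) C] in
/-- `hfin`: finitely many poles. -/
theorem h75c_hfin (f : F) (_hf : f ≠ 0) :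
    {v : HeightOneSpectrum C | 1 < v.valuation F f}.Finite := by
  obtain ⟨⟨n, d, hd⟩, hx⟩ := IsLocalization.surj (nonZeroDivisors C) f
  have hd0 : d ≠ 0 := nonZeroDivisors.ne_zero hd
  have hI : (Ideal.span {d} : Ideal C) ≠ 0 := by
    rw [Ne, Ideal.zero_eq_bot, Ideal.span_singleton_eq_bot]
    exact hd0
  refine (Ideal.finite_factors hI).subset ?_
  intro v hv
  rw [Set.mem_ofPred_eq] at hv ⊢
  rw [← v.valuation_lt_one_iff_dvd (K := F)]
  by_contra hcon
  rw [not_lt] at hcon
  have h1 : v.valuation F (algebraMap C F d) = 1 := le_antisymm (v.valuation_le_one d) hcon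
  have h2 : v.valuation F f = v.valuation F (algebraMap C F n) := by
    have h3 := congrArg (v.valuation F) hx
    rw [map_mul] at h3
    simp only at h3
    rw [h1, mul_one] at h3
    exact h3
  rw [h2] at hv
  exact absurd (v.valuation_le_one n) (not_le.mpr hv)

include B π in
/-- `hint`: a function which is regular at all places lies in `B[1/π]`. -/
theorem h75c_hint (f : F) (hf : ∀ v : HeightOneSpectrum C, v.valuation F f ≤ 1) :
    ∃ k : ℕ, algebraMap A F π ^ k * f ∈ B := by
  obtain ⟨c, hc⟩ := HeightOneSpectrum.mem_integers_of_valuation_le_one F f hf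
  obtain ⟨k, b, hb⟩ := h75c_exists_pow_mul B π C c
  refine ⟨k, ?_⟩
  have h1 : algebraMap A F π ^ k * f = (b : F) := by
    rw [← hb, mul_comm]
    congr 1
    exact hc.symm
  rw [h1]
  exact b.2

include B π in
/-- `hunif`: uniformisers in the chart. -/
theorem h75c_hunif (v : HeightOneSpectrum C) :
    ∃ b : B, v.valuation F (b : F) = exp (-1 : ℤ) := by
  obtain ⟨c, hc⟩ := v.valuation_exists_uniformizer' F
  obtain ⟨k, b, hb⟩ := h75c_exists_pow_mul B π C c
  exact ⟨b, by rw [← h75c_val_eq B π C v _ k _ hb]; exact hc⟩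

include B π in
/-- `hinj`: distinct places have incomparable centres on the chart. -/
theorem h75c_hinj (v w : HeightOneSpectrum C)
    (h : ∀ b : B, v.valuation F (b : F) < 1 → w.valuation F (b : F) < 1) : v = w := by
  have hle : v.asIdeal ≤ w.asIdeal := by
    intro c hc
    obtain ⟨k, b, hb⟩ := h75c_exists_pow_mul B π C c
    have h1 : v.valuation F (b : F) < 1 := by
      rw [← h75c_val_eq B π C v _ k _ hb, v.valuation_lt_one_iff_mem]
      exact hc
    have h2 := h b h1
    rw [← h75c_val_eq B π C w _ k _ hb, w.valuation_lt_one_iff_mem] at h2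
    exact h2
  have heq : v.asIdeal = w.asIdeal := v.isMaximal.eq_of_le w.isPrime.ne_top hle
  exact HeightOneSpectrum.ext heq

end Layer

section Vertical

variable {A F : Type*} [CommRing A] [Field F] [Algebra A F]
variable (B : Subalgebra A F) (π : A)

/-- the intersection of the local rings `B_P` at the minimal primes `P` over `π B` (the
vertical discrete valuation rings of a normal noetherian chart). -/
def h75cV : Subring F where
  carrier := {x | ∀ P ∈ (Ideal.span {algebraMap A B π}).minimalPrimes,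
    ∃ b s : B, s ∉ P ∧ x * (s : F) = (b : F)}
  mul_mem' := by
    intro x y hx hy P hP
    obtain ⟨b, s, hs, h⟩ := hx P hP
    obtain ⟨b', s', hs', h'⟩ := hy P hP
    have hPp : P.IsPrime := hP.1.1
    refine ⟨b * b', s * s', fun hmem => ?_, ?_⟩
    · rcases hPp.mem_or_mem hmem with h1 | h1
      · exact hs h1
      · exact hs' h1
    · push_cast
      rw [← h, ← h']
      ring
  one_mem' := by
    intro P hP
    have hPp : P.IsPrime := hP.1.1
    exact ⟨1, 1, fun h => hPp.ne_top ((Ideal.eq_top_iff_one P).mpr h), by simp⟩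
  add_mem' := by
    intro x y hx hy P hP
    obtain ⟨b, s, hs, h⟩ := hx P hP
    obtain ⟨b', s', hs', h'⟩ := hy P hP
    have hPp : P.IsPrime := hP.1.1
    refine ⟨b * s' + b' * s, s * s', fun hmem => ?_, ?_⟩
    · rcases hPp.mem_or_mem hmem with h1 | h1
      · exact hs h1
      · exact hs' h1
    · push_cast
      rw [← h, ← h']
      ring
  zero_mem' := by
    intro P hP
    have hPp : P.IsPrime := hP.1.1
    exact ⟨0, 1, fun h => hPp.ne_top ((Ideal.eq_top_iff_one P).mpr h), by simp⟩
  neg_mem' := by
    intro x hx P hP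
    obtain ⟨b, s, hs, h⟩ := hx P hP
    refine ⟨-b, s, hs, ?_⟩
    push_cast
    rw [← h]
    ring

theorem h75c_mem_V (x : F) : x ∈ h75cV B π ↔
    ∀ P ∈ (Ideal.span {algebraMap A B π}).minimalPrimes,
      ∃ b s : B, s ∉ P ∧ x * (s : F) = (b : F) := Iff.rfl

/-- `hBV`. -/
theorem h75c_hBV (x : F) (hx : x ∈ B) : x ∈ h75cV B π := by
  intro P hP
  have hPp : P.IsPrime := hP.1.1
  exact ⟨⟨x, hx⟩, 1, fun h => hPp.ne_top ((Ideal.eq_top_iff_one P).mpr h), by simp⟩

/-- `hVunit`: `1 + 𝔪_A V ⊆ V^×`. -/
theorem h75c_hVunit [IsLocalRing A] (hA2 : ∀ m ∈ maximalIdeal A, ∃ k : ℕ, π ∣ m ^ k)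
    (m : A) (hm : m ∈ maximalIdeal A) (x : F) (hx : x ∈ h75cV B π) :
    (1 + algebraMap A F m * x)⁻¹ ∈ h75cV B π := by
  intro P hP
  have hPp : P.IsPrime := hP.1.1
  have hπP : algebraMap A B π ∈ P := (Ideal.span_singleton_le_iff_mem P).mp hP.1.2
  have hmP : algebraMap A B m ∈ P := by
    obtain ⟨k, c, hc⟩ := hA2 m hm
    have h1 : algebraMap A B m ^ k ∈ P := by
      rw [← map_pow, hc, map_mul]
      exact P.mul_mem_right _ hπP
    exact hPp.mem_of_pow_mem k h1
  obtain ⟨b, s, hs, h⟩ := hx P hP
  have hs'' : s + algebraMap A B m * b ∉ P := by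
    intro hmem
    apply hs
    have h2 : s = (s + algebraMap A B m * b) - algebraMap A B m * b := by ring
    rw [h2]
    exact P.sub_mem hmem (P.mul_mem_right _ hmP)
  have hne : ((s + algebraMap A B m * b : B) : F) ≠ 0 := by
    intro h0
    apply hs''
    have : (s + algebraMap A B m * b : B) = 0 := Subtype.ext h0
    rw [this]
    exact P.zero_mem
  have hkey : (1 + algebraMap A F m * x) * (s : F) = ((s + algebraMap A B m * b : B) : F) := by
    push_cast
    rw [← h]
    ring
  have hne1 : 1 + algebraMap A F m * x ≠ 0 := by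
    intro h0
    rw [h0, zero_mul] at hkey
    exact hne hkey.symm
  refine ⟨s, s + algebraMap A B m * b, hs'', ?_⟩
  rw [← hkey, ← mul_assoc, inv_mul_cancel₀ hne1, one_mul]

end Vertical

section Chart

variable {A F : Type*} [CommRing A] [Field F] [Algebra A F]

/-- the hypotheses on a normal noetherian chart `B` (over a base `A`, with `π ∈ A`): `B` is
noetherian, integrally closed in `F`, `F` is its fraction field, `π ≠ 0`, and the generic
fibre `B[1/π]` has dimension `≤ 1`. -/
structure H75Normal (B : Subalgebra A F) (π : A) : Prop where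
  noeth : IsNoetherianRing B
  norm : ∀ x : F, IsIntegral B x → x ∈ B
  frac : ∀ x : F, ∃ b c : B, (c : F) ≠ 0 ∧ x * (c : F) = (b : F)
  pi_ne : algebraMap A F π ≠ 0
  dim : ∀ P Q : Ideal B, P.IsPrime → Q.IsPrime → P ≠ ⊥ → P ≤ Q → algebraMap A B π ∉ Q → Q ≤ P

variable (B : Subalgebra A F) (π : A)

theorem h75c_algebraMap_ne_zero (a : A) (ha : algebraMap A F a ≠ 0) : algebraMap A B a ≠ 0 := by
  intro h
  apply ha
  have h2 : algebraMap A F a = ((algebraMap A B a : B) : F) := rfl
  rw [h2, h]
  rfl

/-- a minimal prime over `a B` (`a ≠ 0` a constant dividing a power of `π`) is a minimal prime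
over `π B`. -/
theorem h75c_minimal_of_minimal (hN : H75Normal B π) (a : A) (ha : algebraMap A F a ≠ 0)
    (hak : ∃ k : ℕ, a ∣ π ^ k) (P : Ideal B)
    (hP : P ∈ (Ideal.span {algebraMap A B a}).minimalPrimes) :
    P ∈ (Ideal.span {algebraMap A B π}).minimalPrimes := by
  haveI := hN.noeth
  haveI : IsIntegrallyClosed B := h75k_isIntegrallyClosed B hN.norm
  haveI hPp : P.IsPrime := hP.1.1
  have haP : algebraMap A B a ∈ P := (Ideal.span_singleton_le_iff_mem P).mp hP.1.2
  obtain ⟨k, c, hc⟩ := hak
  have hπk : algebraMap A B π ^ k ∈ P := by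
    rw [← map_pow, hc, map_mul]
    exact P.mul_mem_right _ haP
  have hπP : algebraMap A B π ∈ P := hPp.mem_of_pow_mem k hπk
  have hdvr := h75k_minimal_isDVR (algebraMap A B a) (h75c_algebraMap_ne_zero B a ha) P hP
  exact h75k_minimal_of_isDVR (algebraMap A B π) (h75c_algebraMap_ne_zero B π hN.pi_ne) P hπP hdvr

/-- `hQEP` for the vertical ring `h75cV`. -/
theorem h75c_hQEP (hN : H75Normal B π)
    (hA1 : ∀ a : A, algebraMap A F a ≠ 0 → ∃ k : ℕ, a ∣ π ^ k)
    (a : A) (ha : algebraMap A F a ≠ 0) (x : F) (hx : x ∈ h75cV B π) (hax : a • x ∈ B) :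
    x ∈ B := by
  haveI := hN.noeth
  refine h75k_qep_subalgebra B hN.norm (h75cV B π) a ha ?_ x hx hax
  intro P hP y hy
  exact hy P (h75c_minimal_of_minimal B π hN a ha (hA1 a ha) P hP)

end Chart

section Loc

variable {A F : Type*} [CommRing A] [Field F] [Algebra A F]
variable (B : Subalgebra A F) (π : A)

/-- `F` is the fraction field of `B`. -/
theorem h75c_isFractionRing
    (hfrac : ∀ x : F, ∃ b c : B, (c : F) ≠ 0 ∧ x * (c : F) = (b : F)) : IsFractionRing B F := by
  rw [IsFractionRing, isLocalization_iff]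
  refine ⟨?_, ?_, ?_⟩
  · rintro ⟨y, hy⟩
    have hy0 : y ≠ 0 := nonZeroDivisors.ne_zero hy
    have : (y : F) ≠ 0 := fun h => hy0 (Subtype.ext h)
    exact IsUnit.mk0 _ this
  · intro z
    obtain ⟨b, c, hc, h⟩ := hfrac z
    have hc0 : c ≠ 0 := fun h0 => hc (by rw [h0]; rfl)
    exact ⟨(b, ⟨c, mem_nonZeroDivisors_of_ne_zero hc0⟩), h⟩
  · intro x y hxy
    have : x = y := Subtype.ext hxy
    exact ⟨1, by rw [this]⟩

/-- `B[1/π]`. -/
abbrev h75cC : Type _ := Localization.Away (algebraMap A B π)

theorem h75c_isUnit_pi (hπ : algebraMap A F π ≠ 0) :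
    IsUnit (algebraMap B F (algebraMap A B π)) := by
  have : algebraMap B F (algebraMap A B π) = algebraMap A F π := rfl
  rw [this]
  exact IsUnit.mk0 _ hπ

/-- the structure map `B[1/π] → F`. -/
@[reducible] noncomputable def h75cAlgebra (hπ : algebraMap A F π ≠ 0) : Algebra (h75cC B π) F :=
  (IsLocalization.Away.lift (algebraMap A B π) (g := algebraMap B F)
    (h75c_isUnit_pi B π hπ)).toAlgebra

theorem h75c_isScalarTower (hπ : algebraMap A F π ≠ 0) :
    letI := h75cAlgebra B π hπ
    IsScalarTower B (h75cC B π) F := by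
  letI := h75cAlgebra B π hπ
  refine IsScalarTower.of_algebraMap_eq (fun b => ?_)
  exact (IsLocalization.Away.lift_eq (algebraMap A B π) (h75c_isUnit_pi B π hπ) b).symm

theorem h75c_isDomain_C (hπ : algebraMap A F π ≠ 0) : IsDomain (h75cC B π) := by
  refine IsLocalization.isDomain_localization (M := Submonoid.powers (algebraMap A B π)) ?_
  refine powers_le_nonZeroDivisors_of_noZeroDivisors ?_
  exact h75c_algebraMap_ne_zero B π hπ

theorem h75c_isFractionRing_C (hN : H75Normal B π) :
    letI := h75cAlgebra B π hN.pi_ne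
    IsFractionRing (h75cC B π) F := by
  letI := h75cAlgebra B π hN.pi_ne
  haveI := h75c_isScalarTower B π hN.pi_ne
  haveI := h75c_isFractionRing B hN.frac
  exact IsFractionRing.isFractionRing_of_isDomain_of_isLocalization
    (Submonoid.powers (algebraMap A B π)) (h75cC B π) F

theorem h75c_isDedekindDomain_C (hN : H75Normal B π) : IsDedekindDomain (h75cC B π) := by
  haveI := hN.noeth
  haveI : IsIntegrallyClosed B := h75k_isIntegrallyClosed B hN.norm
  haveI hdom : IsDomain (h75cC B π) := h75c_isDomain_C B π hN.pi_ne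
  have hle : Submonoid.powers (algebraMap A B π) ≤ nonZeroDivisors B :=
    powers_le_nonZeroDivisors_of_noZeroDivisors (h75c_algebraMap_ne_zero B π hN.pi_ne)
  haveI hnoeth : IsNoetherianRing (h75cC B π) :=
    IsLocalization.isNoetherianRing (Submonoid.powers (algebraMap A B π)) _ inferInstance
  haveI hic : IsIntegrallyClosed (h75cC B π) :=
    isIntegrallyClosed_of_isLocalization (h75cC B π)
      (Submonoid.powers (algebraMap A B π)) hle
  have hdim : Ring.DimensionLEOne (h75cC B π) := by
    refine ⟨fun {p} hp0 hp => ?_⟩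
    obtain ⟨M, hM, hpM⟩ := Ideal.exists_le_maximal p hp.ne_top
    have hMp : M.IsPrime := hM.isPrime
    set P : Ideal B := p.comap (algebraMap B (h75cC B π)) with hPdef
    set Q : Ideal B := M.comap (algebraMap B (h75cC B π)) with hQdef
    have hPp : P.IsPrime := Ideal.comap_isPrime _ p
    have hQp : Q.IsPrime := Ideal.comap_isPrime _ M
    have hmapP : P.map (algebraMap B (h75cC B π)) = p :=
      IsLocalization.map_under (Submonoid.powers (algebraMap A B π)) _ p
    have hmapQ : Q.map (algebraMap B (h75cC B π)) = M :=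
      IsLocalization.map_under (Submonoid.powers (algebraMap A B π)) _ M
    have hP0 : P ≠ ⊥ := by
      intro h
      rw [h, Ideal.map_bot] at hmapP
      exact hp0 hmapP.symm
    have hPQ : P ≤ Q := Ideal.comap_mono hpM
    have hπQ : algebraMap A B π ∉ Q := by
      intro h
      have h1 : algebraMap B (h75cC B π) (algebraMap A B π) ∈ M := h
      have h2 : IsUnit (algebraMap B (h75cC B π) (algebraMap A B π)) :=
        IsLocalization.map_units _
          (⟨algebraMap A B π, Submonoid.mem_powers _⟩ : Submonoid.powers (algebraMap A B π))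
      exact hMp.ne_top (Ideal.eq_top_of_isUnit_mem M h1 h2)
    have hQP : Q ≤ P := hN.dim P Q hPp hQp hP0 hPQ hπQ
    have hpM' : p = M := by
      rw [← hmapP, ← hmapQ, le_antisymm hPQ hQP]
    rw [hpM']
    exact hM
  exact { toIsDomain := hdom, toIsNoetherian := hnoeth, toDimensionLEOne := hdim,
          toIsIntegralClosure := hic }

/-- the places of the generic fibre of the chart: the height-one primes of `B[1/π]`. -/
abbrev h75cPlace : Type _ := HeightOneSpectrum (h75cC B π)

/-- the (normalised, `ℤᵐ⁰`-valued) valuations of `F` at the places of the generic fibre. -/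
noncomputable def h75cVal (hN : H75Normal B π) : h75cPlace B π → Valuation F ℤᵐ⁰ :=
  letI := h75cAlgebra B π hN.pi_ne
  haveI := h75c_isDedekindDomain_C B π hN
  haveI := h75c_isFractionRing_C B π hN
  fun v => v.valuation F

/-- `hB` for the valuations `h75cVal`. -/
theorem h75c_chart_aux (hN : H75Normal B π) (b : F) (hb : b ∈ B) (v : h75cPlace B π) :
    h75cVal B π hN v b ≤ 1 := by
  letI := h75cAlgebra B π hN.pi_ne
  haveI := h75c_isDedekindDomain_C B π hN
  haveI := h75c_isFractionRing_C B π hN
  haveI := h75c_isScalarTower B π hN.pi_ne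
  exact h75c_hB B (h75cC B π) b hb v

/-- **the chart axioms for a normal noetherian chart** over a base `(A, π)` in which every
nonzero element divides a power of `π` and every element of `𝔪_A` has a power divisible by `π`
(e.g. a discrete valuation ring with uniformiser `π`, or a rank-one valuation ring). -/
theorem h75c_chart [IsLocalRing A] (hN : H75Normal B π)
    (hA1 : ∀ a : A, algebraMap A F a ≠ 0 → ∃ k : ℕ, a ∣ π ^ k)
    (hA2 : ∀ m ∈ maximalIdeal A, ∃ k : ℕ, π ∣ m ^ k) :
    H26Chart B (h75cV B π) (h75cVal B π hN) := by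
  letI := h75cAlgebra B π hN.pi_ne
  haveI := h75c_isDedekindDomain_C B π hN
  haveI := h75c_isFractionRing_C B π hN
  haveI := h75c_isScalarTower B π hN.pi_ne
  refine ⟨?_, ?_, ?_, ?_, ?_, ?_, ?_, ?_⟩
  · exact fun f hf => h75c_hfin (h75cC B π) f hf
  · intro f hf
    obtain ⟨k, hk⟩ := h75c_hint B π (h75cC B π) f hf
    refine ⟨π ^ k, ?_, ?_⟩
    · rw [map_pow]
      exact pow_ne_zero _ hN.pi_ne
    · rw [Algebra.smul_def, map_pow]
      exact hk
  · exact fun b hb v => h75c_hB B (h75cC B π) b hb v
  · exact fun v => h75c_hunif B π (h75cC B π) v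
  · exact fun v w h => h75c_hinj B π (h75cC B π) v w h
  · exact fun x hx => h75c_hBV B π x hx
  · exact fun m hm x hx => h75c_hVunit B π hA2 m hm x hx
  · exact fun a ha x hx hax => h75c_hQEP B π hN hA1 a ha x hx hax

/-- the hypotheses on the base for a discrete valuation ring with uniformiser `π`. -/
theorem h75c_base_of_dvr [IsDomain A] [IsDiscreteValuationRing A] (hπ : Irreducible π) :
    (∀ a : A, algebraMap A F a ≠ 0 → ∃ k : ℕ, a ∣ π ^ k) ∧
      (∀ m ∈ maximalIdeal A, ∃ k : ℕ, π ∣ m ^ k) := by
  constructor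
  · intro a ha
    have ha0 : a ≠ 0 := fun h => ha (by rw [h, map_zero])
    obtain ⟨n, u, hu⟩ := IsDiscreteValuationRing.eq_unit_mul_pow_irreducible ha0 hπ
    refine ⟨n, ((u⁻¹ : Aˣ) : A), ?_⟩
    rw [hu]
    have : (u : A) * π ^ n * ((u⁻¹ : Aˣ) : A) = ((u : A) * ((u⁻¹ : Aˣ) : A)) * π ^ n := by ring
    rw [this, Units.mul_inv, one_mul]
  · intro m hm
    refine ⟨1, ?_⟩
    rw [pow_one]
    rw [hπ.maximalIdeal_eq, Ideal.mem_span_singleton] at hm
    exact hm

/-- the dimension hypothesis of `H75Normal` from an integral extension `R ⊆ B`. -/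
theorem h75c_dim_of_integral {R : Type*} [CommRing R] [Nontrivial R] [Algebra R B]
    [Algebra.IsIntegral R B] (ϖ : R) (hϖ : algebraMap R B ϖ = algebraMap A B π)
    (hR : ∀ p q : Ideal R, p.IsPrime → q.IsPrime → p ≠ ⊥ → p ≤ q → ϖ ∉ q → q ≤ p) :
    ∀ P Q : Ideal B, P.IsPrime → Q.IsPrime → P ≠ ⊥ → P ≤ Q → algebraMap A B π ∉ Q →
      Q ≤ P := by
  intro P Q hP hQ hP0 hPQ hπQ
  by_contra hcon
  have hlt : P < Q := lt_of_le_not_ge hPQ hcon
  have h1 : P.comap (algebraMap R B) < Q.comap (algebraMap R B) :=
    Ideal.IsIntegral.comap_lt_comap hlt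
  have h2 : P.comap (algebraMap R B) ≠ ⊥ := fun h => hP0 (Ideal.eq_bot_of_comap_eq_bot h)
  have h3 : ϖ ∉ Q.comap (algebraMap R B) := by
    intro h
    apply hπQ
    rw [← hϖ]
    exact h
  have h4 := hR _ _ (Ideal.comap_isPrime _ P) (Ideal.comap_isPrime _ Q) h2 h1.le h3
  exact (not_le_of_gt h1) h4

/-! ### Dictionary -/

/-- the centre on `B` of a place of the generic fibre. -/
def h75cCentre (v : h75cPlace B π) : Ideal B :=
  v.asIdeal.comap (algebraMap B (h75cC B π))

instance h75c_centre_isPrime (v : h75cPlace B π) : (h75cCentre B π v).IsPrime :=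
  Ideal.comap_isPrime _ _

theorem h75c_val_lt_one_iff (hN : H75Normal B π) (v : h75cPlace B π) (b : B) :
    h75cVal B π hN v (b : F) < 1 ↔ b ∈ h75cCentre B π v := by
  letI := h75cAlgebra B π hN.pi_ne
  haveI := h75c_isDedekindDomain_C B π hN
  haveI := h75c_isFractionRing_C B π hN
  haveI := h75c_isScalarTower B π hN.pi_ne
  have h1 : (b : F) = algebraMap (h75cC B π) F (algebraMap B (h75cC B π) b) := by
    rw [← IsScalarTower.algebraMap_apply B (h75cC B π) F]
    rfl
  change v.valuation F (b : F) < 1 ↔ _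
  rw [h1, v.valuation_lt_one_iff_mem]
  rfl

/-- `h26Centered` in terms of the centre. -/
theorem h75c_centered_iff (hN : H75Normal B π) (𝔫 : Ideal B) (v : h75cPlace B π) :
    h26Centered B (h75cVal B π hN) 𝔫 v ↔ h75cCentre B π v ≤ 𝔫 := by
  unfold h26Centered
  constructor
  · intro h b hb
    exact h b ((h75c_val_lt_one_iff B π hN v b).mpr hb)
  · intro h b hb
    exact h ((h75c_val_lt_one_iff B π hN v b).mp hb)

/-- the places of the generic fibre are horizontal: `π` is a unit. -/
theorem h75c_val_pi_eq_one (hN : H75Normal B π) (v : h75cPlace B π) :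
    h75cVal B π hN v (algebraMap A F π) = 1 := by
  letI := h75cAlgebra B π hN.pi_ne
  haveI := h75c_isDedekindDomain_C B π hN
  haveI := h75c_isFractionRing_C B π hN
  haveI := h75c_isScalarTower B π hN.pi_ne
  exact h75c_val_pi B π (h75cC B π) v

/-- the places of the generic fibre are trivial on the nonzero constants. -/
theorem h75c_val_const (hN : H75Normal B π)
    (hA1 : ∀ a : A, algebraMap A F a ≠ 0 → ∃ k : ℕ, a ∣ π ^ k)
    (v : h75cPlace B π) (a : A) (ha : algebraMap A F a ≠ 0) :
    h75cVal B π hN v (algebraMap A F a) = 1 := by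
  have hC := h75c_chart_aux B π hN
  obtain ⟨k, c, hc⟩ := hA1 a ha
  have h1 : h75cVal B π hN v (algebraMap A F a) ≤ 1 :=
    hC _ (B.algebraMap_mem a) v
  have h2 : h75cVal B π hN v (algebraMap A F c) ≤ 1 :=
    hC _ (B.algebraMap_mem c) v
  have h3 : h75cVal B π hN v (algebraMap A F a) * h75cVal B π hN v (algebraMap A F c) = 1 := by
    rw [← map_mul, ← map_mul, ← hc, map_pow, map_pow, h75c_val_pi_eq_one B π hN v, one_pow]
  refine le_antisymm h1 ?_
  by_contra hlt
  rw [not_le] at hlt
  have h6 := mul_lt_of_lt_of_le_one hlt h2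
  rw [h3] at h6
  exact lt_irrefl _ h6

/-- the valuation ring of a place of the generic fibre is the local ring of `B` at its
centre. -/
theorem h75c_val_le_one_iff (hN : H75Normal B π) (v : h75cPlace B π) (x : F) :
    h75cVal B π hN v x ≤ 1 ↔
      ∃ b s : B, s ∉ h75cCentre B π v ∧ x * (s : F) = (b : F) := by
  letI := h75cAlgebra B π hN.pi_ne
  haveI := h75c_isDedekindDomain_C B π hN
  haveI := h75c_isFractionRing_C B π hN
  haveI := h75c_isScalarTower B π hN.pi_ne
  constructor
  · intro hx
    obtain ⟨n, ⟨d, hd⟩, hnd⟩ := v.exists_primeCompl_mul_eq_of_integer (K := F) x hx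
    obtain ⟨k, b, hb⟩ := h75c_exists_pow_mul B π (h75cC B π) n
    obtain ⟨l, s, hs⟩ := h75c_exists_pow_mul B π (h75cC B π) d
    refine ⟨b * algebraMap A B π ^ l, s * algebraMap A B π ^ k, ?_, ?_⟩
    · rw [← h75c_val_lt_one_iff B π hN v, not_lt]
      have hd1 : v.valuation F (algebraMap (h75cC B π) F d) = 1 := by
        rw [v.valuation_of_algebraMap, v.intValuation_eq_one_iff_mem_primeCompl]
        exact hd
      have h1 : h75cVal B π hN v ((s * algebraMap A B π ^ k : B) : F) = 1 := by
        change v.valuation F _ = 1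
        push_cast
        rw [← hs, map_mul, map_mul, map_pow, map_pow, h75c_val_pi B π (h75cC B π) v, hd1]
        simp
      rw [h1]
    · push_cast
      rw [← hs, ← hb]
      simp only at hnd
      rw [← hnd]
      ring
  · rintro ⟨b, s, hs, h⟩
    have hs1 : h75cVal B π hN v (s : F) = 1 := by
      have h1 : h75cVal B π hN v (s : F) ≤ 1 := h75c_chart_aux B π hN _ s.2 v
      refine le_antisymm h1 ?_
      rw [← not_lt, h75c_val_lt_one_iff B π hN v]
      exact hs
    have hb1 : h75cVal B π hN v (b : F) ≤ 1 := h75c_chart_aux B π hN _ b.2 v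
    have h2 : h75cVal B π hN v x = h75cVal B π hN v (b : F) := by
      rw [← h, map_mul, hs1, mul_one]
    rw [h2]
    exact hb1

end Loc

end Fermat.Agent.S36
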