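import Mathlib
import Fermat.Agent.Red.LocalGate
import Fermat.Agent.S36.H75ChartAbs

/-!
# S36, block (G), leaf G-GEN, abstract part (helper26)

The datum of the gate at the closed points of the GENERIC fibre of a normal noetherian chart.

Setting: `B : Subalgebra A F`, `π : A`, `hN : H75Normal B π` (helper75, `S36/H75ChartAbs.lean`):
`B` is noetherian, integrally closed in `F = Frac B`, `π ≠ 0` and the generic fibre `B[1/π]` has
dimension `≤ 1`, so that `B[1/π]` is a Dedekind domain with places `h75cPlace B π` and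
valuations `h75cVal B π hN`.

* `h26y_centre_ne_bot` : the centre on `B` of a place of the generic fibre is not `⊥`;
* `h26y_centre_pi` : it does not contain `π`;
* `h26y_centre_eq` : a place centred at a prime `𝔫 ∌ π` has centre `𝔫`;
* `h26y_centred_unique` : at most one place is centred at a prime `𝔫 ∌ π`;
* `h26y_gen_abs` : **the generic datum**: if all the orders of `w` at the places of the generic
  fibre are divisible by `r`, then at every prime `𝔫 ∌ π` of `B` there are `g ≠ 0` and `s ∉ 𝔫`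
  with `s * (w / g ^ r) ∈ B` and `s * (g ^ r / w) ∈ B`.
-/

set_option autoImplicit false

open WithZero IsLocalRing IsDedekindDomain

namespace Fermat.Agent.S36

open Fermat.Agent.Red

section Gen

variable {A F : Type*} [CommRing A] [Field F] [Algebra A F]
variable (B : Subalgebra A F) (π : A)

/-- the centre of a place of the generic fibre does not contain `π`. -/
theorem h26y_centre_pi (hN : H75Normal B π) (v : h75cPlace B π) :
    algebraMap A B π ∉ h75cCentre B π v := by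
  rw [← h75c_val_lt_one_iff B π hN v]
  have h1 : ((algebraMap A B π : B) : F) = algebraMap A F π := rfl
  rw [h1, h75c_val_pi_eq_one B π hN v]
  exact lt_irrefl _

/-- the centre of a place of the generic fibre is not `⊥`. -/
theorem h26y_centre_ne_bot (_hN : H75Normal B π) (v : h75cPlace B π) :
    h75cCentre B π v ≠ ⊥ := by
  intro h
  have hmap : (h75cCentre B π v).map (algebraMap B (h75cC B π)) = v.asIdeal :=
    IsLocalization.map_under (Submonoid.powers (algebraMap A B π)) _ v.asIdeal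
  rw [h, Ideal.map_bot] at hmap
  exact v.ne_bot hmap.symm

/-- a place of the generic fibre centred at a prime `𝔫 ∌ π` has centre `𝔫`. -/
theorem h26y_centre_eq (hN : H75Normal B π) (𝔫 : Ideal B) [h𝔫 : 𝔫.IsPrime]
    (hπ𝔫 : algebraMap A B π ∉ 𝔫) (v : h75cPlace B π)
    (hv : h26Centered B (h75cVal B π hN) 𝔫 v) : h75cCentre B π v = 𝔫 := by
  have hle : h75cCentre B π v ≤ 𝔫 := (h75c_centered_iff B π hN 𝔫 v).mp hv
  exact le_antisymm hle
    (hN.dim _ _ (h75c_centre_isPrime B π v) h𝔫 (h26y_centre_ne_bot B π hN v) hle hπ𝔫)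

/-- at most one place of the generic fibre is centred at a prime `𝔫 ∌ π`. -/
theorem h26y_centred_unique [IsLocalRing A] (hN : H75Normal B π)
    (hA1 : ∀ a : A, algebraMap A F a ≠ 0 → ∃ k : ℕ, a ∣ π ^ k)
    (hA2 : ∀ m ∈ maximalIdeal A, ∃ k : ℕ, π ∣ m ^ k)
    (𝔫 : Ideal B) [h𝔫 : 𝔫.IsPrime] (hπ𝔫 : algebraMap A B π ∉ 𝔫) (v v' : h75cPlace B π)
    (hv : h26Centered B (h75cVal B π hN) 𝔫 v)
    (hv' : h26Centered B (h75cVal B π hN) 𝔫 v') : v = v' := by
  have hC := h75c_chart B π hN hA1 hA2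
  have h1 := h26y_centre_eq B π hN 𝔫 hπ𝔫 v hv
  have h2 := h26y_centre_eq B π hN 𝔫 hπ𝔫 v' hv'
  refine hC.hinj v v' (fun b hb => ?_)
  rw [h75c_val_lt_one_iff B π hN] at hb ⊢
  rw [h2, ← h1]
  exact hb

/-- the nonzero constants are units at a prime `𝔫 ∌ π`. -/
theorem h26y_const_not_mem
    (hA1 : ∀ a : A, algebraMap A F a ≠ 0 → ∃ k : ℕ, a ∣ π ^ k)
    (𝔫 : Ideal B) [h𝔫 : 𝔫.IsPrime] (hπ𝔫 : algebraMap A B π ∉ 𝔫)
    (a : A) (ha : algebraMap A F a ≠ 0) : algebraMap A B a ∉ 𝔫 := by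
  intro h
  obtain ⟨k, c, hc⟩ := hA1 a ha
  have hπk : algebraMap A B π ^ k ∈ 𝔫 := by
    rw [← map_pow, hc, map_mul]
    exact 𝔫.mul_mem_right _ h
  exact hπ𝔫 (h𝔫.mem_of_pow_mem k hπk)

/-- **G-GEN, abstract form.**  The datum of the gate at a closed point of the generic fibre of
a normal noetherian chart. -/
theorem h26y_gen_abs [IsLocalRing A] (hN : H75Normal B π)
    (hA1 : ∀ a : A, algebraMap A F a ≠ 0 → ∃ k : ℕ, a ∣ π ^ k)
    (hA2 : ∀ m ∈ maximalIdeal A, ∃ k : ℕ, π ∣ m ^ k)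
    (𝔫 : Ideal B) [h𝔫 : 𝔫.IsPrime] (hπ𝔫 : algebraMap A B π ∉ 𝔫)
    (w : F) (r : ℕ)
    (hrw : ∀ v : h75cPlace B π, ∃ n : ℤ, h75cVal B π hN v w = exp (-((r : ℤ) * n))) :
    ∃ g : F, g ≠ 0 ∧ ∃ s : B, s ∉ 𝔫 ∧
      (s : F) * (w * (g ^ r)⁻¹) ∈ B ∧ (s : F) * (g ^ r * w⁻¹) ∈ B :=
  h26_local_generic (h75c_chart B π hN hA1 hA2) 𝔫
    (fun a ha => h26y_const_not_mem B π hA1 𝔫 hπ𝔫 a ha)
    (fun v v' hv hv' => h26y_centred_unique B π hN hA1 hA2 𝔫 hπ𝔫 v v' hv hv')
    w r hrw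

/-- a place of the generic fibre is nontrivial. -/
theorem h26y_val_nontrivial [IsLocalRing A] (hN : H75Normal B π)
    (hA1 : ∀ a : A, algebraMap A F a ≠ 0 → ∃ k : ℕ, a ∣ π ^ k)
    (hA2 : ∀ m ∈ maximalIdeal A, ∃ k : ℕ, π ∣ m ^ k) (v : h75cPlace B π) :
    ∃ x : F, 1 < h75cVal B π hN v x := by
  obtain ⟨b, hb⟩ := (h75c_chart B π hN hA1 hA2).hunif v
  refine ⟨(b : F)⁻¹, ?_⟩
  rw [map_inv₀, hb, ← exp_neg, neg_neg, ← exp_zero, exp_lt_exp]
  exact zero_lt_one

end Gen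

end Fermat.Agent.S36
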