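import Mathlib
import Fermat.Agent.S36.H59NoethAbs
import Fermat.Agent.S36.H75ChartAbs
import Fermat.Agent.S36.H26GateGenAbs

/-!
# S36, block (G), leaf G-GEN: a chart given elementwise is a normal noetherian chart (helper26)

Setting (the one of helper59's `h59n_isNoetherianRing_abs`): `O` a discrete valuation ring with
uniformiser `π`, `L` a field of characteristic zero, `F' ⊆ L` a subfield with an `O`-algebra
structure, `t ∈ L` with `O[X] → L`, `X ↦ t` injective with image in `F'`, `F'` contained in the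
field generated by `Frac(O)(t)` and finitely many algebraic elements, and `Bs ⊆ L` the subring
of the elements of `F'` which are integral over `O[t]`.

* `h26y_isLocalization_shrink`, `h26y_poly_dim` : the generic fibre of the affine line over `O`
  has dimension one (primes `p ≤ q` of `O[X]`, `p ≠ ⊥`, `π ∉ q` are equal);
* `h26yB` : the chart as a `Subalgebra O F'`; `h26yE` : it is isomorphic to `Bs`;
* `h26y_norm`, `h26y_frac`, `h26y_dim`, `h26y_normal` : `H75Normal (h26yB ..) π`;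
* `h26y_gen_chart` : **the datum of the gate at the primes `𝔫 ∌ π` of `Bs`**, elementwise in `L`,
  from the divisibility of the orders of `w` at the valuations of `F'` which are nontrivial,
  `≤ 1` on `Bs` and trivial on `π`.
-/

set_option autoImplicit false
set_option linter.style.haveILetI false
set_option linter.unusedSectionVars false
set_option linter.unusedVariables false
set_option linter.deprecated false

open Polynomial WithZero IsLocalRing

noncomputable section

namespace Fermat.Agent.S36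

/-- shrinking the submonoid of a localisation: if `M ≤ N`, every element of `N` divides an
element of `M` and `S` is the localisation at `N`, then `S` is the localisation at `M`. -/
theorem h26y_isLocalization_shrink {R S : Type*} [CommRing R] [CommRing S] [Algebra R S]
    (M N : Submonoid R) [IsLocalization N S] (h₁ : M ≤ N)
    (h₂ : ∀ n ∈ N, ∃ m ∈ M, n ∣ m) : IsLocalization M S where
  map_units r := IsLocalization.map_units S (⟨r.1, h₁ r.2⟩ : N)
  surj s := by
    obtain ⟨⟨x, y⟩, H⟩ := IsLocalization.surj N s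
    obtain ⟨m, hm, c, hc⟩ := h₂ y.1 y.2
    refine ⟨⟨x * c, ⟨m, hm⟩⟩, ?_⟩
    simp only at H ⊢
    rw [hc, map_mul, ← mul_assoc, H, map_mul]
  exists_of_eq {x y} h := by
    obtain ⟨c, hc⟩ := (IsLocalization.eq_iff_exists N S).mp h
    obtain ⟨m, hm, d, hd⟩ := h₂ c.1 c.2
    refine ⟨⟨m, hm⟩, ?_⟩
    simp only
    rw [hd, mul_comm (c : R) d, mul_assoc, hc, ← mul_assoc]

attribute [local instance] Polynomial.algebra in
/-- **the generic fibre of the affine line over a discrete valuation ring has dimension one.**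
(`O` a domain in which every nonzero element divides a power of `π`.) -/
theorem h26y_poly_dim {O : Type*} [CommRing O] [IsDomain O] (π : O)
    (hA1 : ∀ a : O, a ≠ 0 → ∃ k : ℕ, a ∣ π ^ k)
    (p q : Ideal O[X]) (hp : p.IsPrime) (hq : q.IsPrime) (hp0 : p ≠ ⊥) (hpq : p ≤ q)
    (hπq : C π ∉ q) : q ≤ p := by
  classical
  have hπ0 : π ≠ 0 := by
    rintro rfl
    exact hπq (by rw [map_zero]; exact q.zero_mem)
  set M : Submonoid O := Submonoid.powers π with hM
  have hMle : M ≤ nonZeroDivisors O := powers_le_nonZeroDivisors_of_noZeroDivisors hπ0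
  haveI hloc : IsLocalization M (FractionRing O) := by
    refine h26y_isLocalization_shrink M (nonZeroDivisors O) hMle ?_
    intro n hn
    obtain ⟨k, hk⟩ := hA1 n (nonZeroDivisors.ne_zero hn)
    exact ⟨π ^ k, ⟨k, rfl⟩, hk⟩
  haveI hlocP : IsLocalization (M.map (C : O →+* O[X])) (FractionRing O)[X] :=
    Polynomial.isLocalization M (FractionRing O)
  have hdisj : ∀ I : Ideal O[X], I.IsPrime → C π ∉ I →
      Disjoint ((M.map (C : O →+* O[X]) : Submonoid O[X]) : Set O[X]) (I : Set O[X]) := by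
    intro I hI hπI
    rw [Set.disjoint_left]
    rintro x ⟨y, ⟨k, rfl⟩, rfl⟩ hx
    apply hπI
    have : (C : O →+* O[X]) (π ^ k) = C π ^ k := map_pow _ _ _
    have hx' : C π ^ k ∈ I := by rw [← this]; exact hx
    exact hI.mem_of_pow_mem k hx'
  have hπp : C π ∉ p := fun h => hπq (hpq h)
  have hdp := hdisj p hp hπp
  have hdq := hdisj q hq hπq
  have hP : (p.map (algebraMap O[X] (FractionRing O)[X])).IsPrime :=
    IsLocalization.isPrime_of_isPrime_disjoint (M.map (C : O →+* O[X])) _ p hp hdp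
  have hQ : (q.map (algebraMap O[X] (FractionRing O)[X])).IsPrime :=
    IsLocalization.isPrime_of_isPrime_disjoint (M.map (C : O →+* O[X])) _ q hq hdq
  have hcp : (p.map (algebraMap O[X] (FractionRing O)[X])).comap
      (algebraMap O[X] (FractionRing O)[X]) = p :=
    IsLocalization.comap_map_of_isPrime_disjoint (M.map (C : O →+* O[X])) _ hp hdp
  have hcq : (q.map (algebraMap O[X] (FractionRing O)[X])).comap
      (algebraMap O[X] (FractionRing O)[X]) = q :=
    IsLocalization.comap_map_of_isPrime_disjoint (M.map (C : O →+* O[X])) _ hq hdq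
  have hP0 : p.map (algebraMap O[X] (FractionRing O)[X]) ≠ ⊥ := by
    intro h
    apply hp0
    rw [← hcp, h]
    have hinj : Function.Injective (algebraMap O[X] (FractionRing O)[X]) := by
      refine IsLocalization.injective (FractionRing O)[X] (M := M.map (C : O →+* O[X])) ?_
      rintro x ⟨y, ⟨k, rfl⟩, rfl⟩
      refine mem_nonZeroDivisors_of_ne_zero ?_
      rw [Ne, C_eq_zero]
      exact pow_ne_zero _ hπ0
    rw [eq_bot_iff]
    intro x hx
    rw [Ideal.mem_comap, Ideal.mem_bot] at hx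
    rw [Ideal.mem_bot]
    exact hinj (hx.trans (map_zero _).symm)
  have hPmax : (p.map (algebraMap O[X] (FractionRing O)[X])).IsMaximal :=
    hP.isMaximal hP0
  have hPQ : p.map (algebraMap O[X] (FractionRing O)[X]) ≤
      q.map (algebraMap O[X] (FractionRing O)[X]) := Ideal.map_mono hpq
  have hEq := hPmax.eq_of_le hQ.ne_top hPQ
  rw [← hcp, ← hcq, hEq]

section Chart

variable {O L : Type*} [CommRing O] [Field L] (F' : Subfield L) [Algebra O F']

/-- the structure map `O → L`. -/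
abbrev h26yPsi : O →+* L := F'.subtype.comp (algebraMap O F')

/-- the evaluation `O[X] → L`, `X ↦ t`. -/
abbrev h26yEv (t : L) : O[X] →+* L := eval₂RingHom (h26yPsi (O := O) F') t

variable (Bs : Subring L)

/-- the chart `Bs ⊆ L` as a subalgebra of the field `F'` over `O`. -/
def h26yB (hOB : ∀ a : O, h26yPsi F' a ∈ Bs) : Subalgebra O F' where
  carrier := {x : F' | (x : L) ∈ Bs}
  mul_mem' := fun {a b} ha hb => by
    show ((a * b : F') : L) ∈ Bs
    push_cast
    exact Bs.mul_mem ha hb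
  add_mem' := fun {a b} ha hb => by
    show ((a + b : F') : L) ∈ Bs
    push_cast
    exact Bs.add_mem ha hb
  algebraMap_mem' := fun a => hOB a

theorem h26yB_mem (hOB : ∀ a : O, h26yPsi F' a ∈ Bs) (x : F') :
    x ∈ h26yB F' Bs hOB ↔ (x : L) ∈ Bs := Iff.rfl

/-- the chart as a subalgebra is isomorphic to the chart as a subring. -/
def h26yE (hOB : ∀ a : O, h26yPsi F' a ∈ Bs) (hBF : ∀ x ∈ Bs, x ∈ F') :
    h26yB F' Bs hOB ≃+* Bs where
  toFun x := ⟨((x : F') : L), x.2⟩
  invFun y := ⟨⟨(y : L), hBF y y.2⟩, y.2⟩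
  left_inv x := rfl
  right_inv y := rfl
  map_mul' x y := rfl
  map_add' x y := rfl

theorem h26yE_coe (hOB : ∀ a : O, h26yPsi F' a ∈ Bs) (hBF : ∀ x ∈ Bs, x ∈ F')
    (x : h26yB F' Bs hOB) : ((h26yE F' Bs hOB hBF x : Bs) : L) = ((x : F') : L) := rfl

theorem h26yE_symm_coe (hOB : ∀ a : O, h26yPsi F' a ∈ Bs) (hBF : ∀ x ∈ Bs, x ∈ F')
    (y : Bs) : ((((h26yE F' Bs hOB hBF).symm y : h26yB F' Bs hOB) : F') : L) = (y : L) := rfl

end Chart

section Normal

variable {O L : Type*} [CommRing O] [Field L] (F' : Subfield L) [Algebra O F'] (t : L)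
variable (Bs : Subring L)
variable (hB : ∀ x, x ∈ Bs ↔ x ∈ F' ∧ (h26yEv (O := O) F' t).IsIntegralElem x)

include hB in
theorem h26y_ev_mem (hF' : ∀ P, h26yEv (O := O) F' t P ∈ F') (P : O[X]) :
    h26yEv (O := O) F' t P ∈ Bs :=
  (hB _).mpr ⟨hF' P, RingHom.isIntegralElem_map (h26yEv (O := O) F' t)⟩

include hB in
theorem h26y_psi_mem (hF' : ∀ P, h26yEv (O := O) F' t P ∈ F') (a : O) :
    h26yPsi (O := O) F' a ∈ Bs := by
  have h := h26y_ev_mem F' t Bs hB hF' (C a)
  rwa [coe_eval₂RingHom, eval₂_C] at h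

include hB in
/-- the chart is integrally closed in `F'`. -/
theorem h26y_norm (hF' : ∀ P, h26yEv (O := O) F' t P ∈ F') (x : L) (hx : x ∈ F')
    (hint : IsIntegral Bs x) : x ∈ Bs := by
  rw [hB]
  refine ⟨hx, ?_⟩
  letI aRL : Algebra O[X] L := (h26yEv (O := O) F' t).toAlgebra
  letI aRB : Algebra O[X] Bs :=
    ((h26yEv (O := O) F' t).codRestrict Bs (h26y_ev_mem F' t Bs hB hF')).toAlgebra
  haveI : IsScalarTower O[X] Bs L := IsScalarTower.of_algebraMap_eq (fun _ => rfl)
  haveI : Algebra.IsIntegral O[X] Bs := by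
    refine ⟨fun b => ?_⟩
    obtain ⟨p, hp, hroot⟩ := ((hB _).mp b.2).2
    refine ⟨p, hp, ?_⟩
    apply Subtype.ext
    have h1 := Polynomial.hom_eval₂ p (algebraMap O[X] Bs) Bs.subtype b
    show Bs.subtype _ = _
    rw [h1]
    exact hroot
  exact isIntegral_trans (R := O[X]) x hint


/-- the elements of the field generated by the range of the evaluation are algebraic over
`O[X]`. -/
theorem h26y_closure_isAlgebraic [IsDomain O] (z : L)
    (hz : z ∈ Subfield.closure (Set.range (h26yEv (O := O) F' t))) :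
    ∃ p : O[X][X], p ≠ 0 ∧ eval₂ (h26yEv (O := O) F' t) z p = 0 := by
  obtain ⟨a, ha, b, hb, hab⟩ := Subfield.mem_closure_iff.mp hz
  have hcl : Subring.closure (Set.range (h26yEv (O := O) F' t)) =
      (h26yEv (O := O) F' t).range := by
    rw [← RingHom.coe_range, Subring.closure_eq]
  rw [hcl] at ha hb
  obtain ⟨P, rfl⟩ := ha
  obtain ⟨Q, rfl⟩ := hb
  by_cases hQ : h26yEv (O := O) F' t Q = 0
  · refine ⟨X, X_ne_zero, ?_⟩
    rw [eval₂_X, ← hab, hQ, div_zero]
  · have hQ0 : Q ≠ 0 := by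
      rintro rfl
      exact hQ (map_zero _)
    refine ⟨C Q * X - C P, ?_, ?_⟩
    · intro h
      have h1 := congrArg (fun p : O[X][X] => p.coeff 1) h
      simp at h1
      exact hQ0 h1
    · rw [eval₂_sub, eval₂_mul, eval₂_C, eval₂_C, eval₂_X, ← hab]
      field_simp
      ring

include hB in
/-- `F'` is the fraction field of the chart. -/
theorem h26y_frac [IsDomain O] (ht : Function.Injective (h26yEv (O := O) F' t))
    (hF' : ∀ P, h26yEv (O := O) F' t P ∈ F')
    (S₀ : Finset L)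
    (hS₀ : ∀ s ∈ S₀, ∃ p : Polynomial (Subfield.closure (Set.range (h26yEv (O := O) F' t))),
      p ≠ 0 ∧
        Polynomial.eval₂ (Subfield.closure (Set.range (h26yEv (O := O) F' t))).subtype s p = 0)
    (hF : F' ≤ Subfield.closure
      (((Subfield.closure (Set.range (h26yEv (O := O) F' t)) : Subfield L) : Set L) ∪
        (S₀ : Set L)))
    (x : L) (hx : x ∈ F') : ∃ c ∈ Bs, c ≠ 0 ∧ x * c ∈ Bs := by
  classical
  set k' : Subfield L := Subfield.closure (Set.range (h26yEv (O := O) F' t)) with hk'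
  have hint : ∀ s ∈ (S₀ : Set L), IsIntegral k' s := by
    intro s hs
    obtain ⟨p, hp0, hp⟩ := hS₀ s hs
    have halg : IsAlgebraic k' s := ⟨p, hp0, hp⟩
    exact halg.isIntegral
  have halgE : Algebra.IsAlgebraic k' (IntermediateField.adjoin k' (S₀ : Set L)) :=
    IntermediateField.isAlgebraic_adjoin hint
  have h2 : Subfield.closure ((k' : Set L) ∪ (S₀ : Set L)) ≤
      (IntermediateField.adjoin k' (S₀ : Set L)).toSubfield := by
    apply Subfield.closure_le.mpr
    rintro y (hy | hy)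
    · exact (IntermediateField.adjoin k' (S₀ : Set L)).algebraMap_mem ⟨y, hy⟩
    · exact IntermediateField.subset_adjoin k' _ hy
  have hxE : x ∈ IntermediateField.adjoin k' (S₀ : Set L) := h2 (hF hx)
  have hxalg : IsAlgebraic k' x :=
    (IntermediateField.isAlgebraic_iff (S := IntermediateField.adjoin k' (S₀ : Set L))
      (x := ⟨x, hxE⟩)).mp (halgE.isAlgebraic ⟨x, hxE⟩)
  letI aRL : Algebra O[X] L := (h26yEv (O := O) F' t).toAlgebra
  letI aRk : Algebra O[X] k' :=
    ((h26yEv (O := O) F' t).codRestrict k' (fun P => Subfield.subset_closure ⟨P, rfl⟩)).toAlgebra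
  haveI : IsScalarTower O[X] k' L := IsScalarTower.of_algebraMap_eq (fun _ => rfl)
  haveI : Algebra.IsAlgebraic O[X] k' := by
    refine ⟨fun z => ?_⟩
    obtain ⟨p, hp0, hp⟩ := h26y_closure_isAlgebraic F' t (z : L) z.2
    refine ⟨p, hp0, ?_⟩
    apply Subtype.ext
    have h1 := Polynomial.hom_eval₂ p (algebraMap O[X] k') k'.subtype z
    show k'.subtype _ = _
    rw [aeval_def, h1]
    exact hp
  have hxR : IsAlgebraic O[X] x := hxalg.restrictScalars O[X]
  obtain ⟨y, hy0, hyint⟩ := hxR.exists_integral_multiple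
  refine ⟨h26yEv (O := O) F' t y, h26y_ev_mem F' t Bs hB hF' y, ?_, ?_⟩
  · intro h
    exact hy0 (ht (h.trans (map_zero _).symm))
  · rw [hB]
    refine ⟨F'.mul_mem hx (hF' y), ?_⟩
    have h3 : y • x = x * h26yEv (O := O) F' t y := by
      rw [Algebra.smul_def, mul_comm]
      rfl
    rw [← h3]
    exact hyint


include hB in
/-- the dimension hypothesis of `H75Normal` for the chart. -/
theorem h26y_dim [IsDomain O] (hF' : ∀ P, h26yEv (O := O) F' t P ∈ F')
    (π : O) (hA1 : ∀ a : O, a ≠ 0 → ∃ k : ℕ, a ∣ π ^ k)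
    (P Q : Ideal (h26yB F' Bs (h26y_psi_mem F' t Bs hB hF')))
    (hP : P.IsPrime) (hQ : Q.IsPrime) (hP0 : P ≠ ⊥) (hPQ : P ≤ Q)
    (hπQ : algebraMap O (h26yB F' Bs (h26y_psi_mem F' t Bs hB hF')) π ∉ Q) : Q ≤ P := by
  letI aRB : Algebra O[X] (h26yB F' Bs (h26y_psi_mem F' t Bs hB hF')) :=
    (((h26yEv (O := O) F' t).codRestrict F' hF').codRestrict
      (h26yB F' Bs (h26y_psi_mem F' t Bs hB hF'))
      (fun R => h26y_ev_mem F' t Bs hB hF' R)).toAlgebra
  haveI : Algebra.IsIntegral O[X] (h26yB F' Bs (h26y_psi_mem F' t Bs hB hF')) := by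
    refine ⟨fun b => ?_⟩
    obtain ⟨p, hp, hroot⟩ := ((hB _).mp b.2).2
    refine ⟨p, hp, ?_⟩
    apply Subtype.ext
    apply Subtype.ext
    have h1 := Polynomial.hom_eval₂ p
      (algebraMap O[X] (h26yB F' Bs (h26y_psi_mem F' t Bs hB hF')))
      (F'.subtype.comp (h26yB F' Bs (h26y_psi_mem F' t Bs hB hF')).val.toRingHom) b
    show (F'.subtype.comp (h26yB F' Bs (h26y_psi_mem F' t Bs hB hF')).val.toRingHom) _ = _
    rw [h1]
    exact hroot
  refine h75c_dim_of_integral (h26yB F' Bs (h26y_psi_mem F' t Bs hB hF')) π (R := O[X]) (C π)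
    ?_ (fun p q hp hq hp0 hpq hπq => h26y_poly_dim π hA1 p q hp hq hp0 hpq hπq)
    P Q hP hQ hP0 hPQ hπQ
  apply Subtype.ext
  apply Subtype.ext
  show h26yEv (O := O) F' t (C π) = _
  rw [coe_eval₂RingHom, eval₂_C]
  rfl

include hB in
/-- **the chart is a normal noetherian chart** in the sense of `H75Normal`. -/
theorem h26y_normal [IsDomain O] [IsDiscreteValuationRing O] [CharZero L]
    (ht : Function.Injective (h26yEv (O := O) F' t))
    (hF' : ∀ P, h26yEv (O := O) F' t P ∈ F')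
    (S₀ : Finset L)
    (hS₀ : ∀ s ∈ S₀, ∃ p : Polynomial (Subfield.closure (Set.range (h26yEv (O := O) F' t))),
      p ≠ 0 ∧
        Polynomial.eval₂ (Subfield.closure (Set.range (h26yEv (O := O) F' t))).subtype s p = 0)
    (hF : F' ≤ Subfield.closure
      (((Subfield.closure (Set.range (h26yEv (O := O) F' t)) : Subfield L) : Set L) ∪
        (S₀ : Set L)))
    (π : O) (hπ : Irreducible π) :
    H75Normal (h26yB F' Bs (h26y_psi_mem F' t Bs hB hF')) π := by
  have hBF : ∀ x ∈ Bs, x ∈ F' := fun x hx => ((hB x).mp hx).1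
  have hbase := h75c_base_of_dvr (A := O) (F := F') π hπ
  have hψinj : Function.Injective (h26yPsi (O := O) F') := by
    intro a b hab
    have h1 : h26yEv (O := O) F' t (C a) = h26yEv (O := O) F' t (C b) := by
      rw [coe_eval₂RingHom, eval₂_C, eval₂_C]
      exact hab
    exact C_injective (ht h1)
  have hne : ∀ a : O, a ≠ 0 → algebraMap O F' a ≠ 0 := by
    intro a ha h
    apply ha
    apply hψinj
    rw [map_zero]
    show ((algebraMap O F' a : F') : L) = 0
    rw [h]
    rfl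
  refine ⟨?_, ?_, ?_, ?_, ?_⟩
  · haveI := h59n_isNoetherianRing_abs (h26yPsi (O := O) F') t ht F' hF' S₀ hS₀ hF Bs hB
    exact isNoetherianRing_of_ringEquiv Bs
      (h26yE F' Bs (h26y_psi_mem F' t Bs hB hF') hBF).symm
  · intro x hx
    show (x : L) ∈ Bs
    refine h26y_norm F' t Bs hB hF' (x : L) x.2 ?_
    obtain ⟨p, hp, hroot⟩ := hx
    refine ⟨p.map (h26yE F' Bs (h26y_psi_mem F' t Bs hB hF') hBF).toRingHom, hp.map _, ?_⟩
    rw [eval₂_map]
    have h1 := Polynomial.hom_eval₂ p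
      (algebraMap (h26yB F' Bs (h26y_psi_mem F' t Bs hB hF')) F') F'.subtype x
    rw [hroot, map_zero] at h1
    exact h1.symm
  · intro x
    obtain ⟨c, hc, hc0, hxc⟩ := h26y_frac F' t Bs hB ht hF' S₀ hS₀ hF (x : L) x.2
    refine ⟨⟨⟨(x : L) * c, F'.mul_mem x.2 (hBF c hc)⟩, hxc⟩, ⟨⟨c, hBF c hc⟩, hc⟩, ?_, ?_⟩
    · intro h
      apply hc0
      exact congrArg (fun z : F' => (z : L)) h
    · rfl
  · exact hne π hπ.ne_zero
  · intro P Q hP hQ hP0 hPQ hπQ
    refine h26y_dim F' t Bs hB hF' π ?_ P Q hP hQ hP0 hPQ hπQ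
    intro a ha
    exact hbase.1 a (hne a ha)


include hB in
/-- **G-GEN for a chart given elementwise.**  `Bs ⊆ L` is the ring of the elements of the
subfield `F'` which are integral over `O[t]` (`O` a discrete valuation ring with uniformiser
`π`, `F'` finite over `Frac(O)(t)`).  If `w ∈ F'` has order divisible by `r` at every
valuation of `F'` which is nontrivial, `≤ 1` on `Bs` and trivial on `π`, then at every prime
`𝔫 ∌ π` of `Bs` there are `g ∈ F'`, `g ≠ 0` and `s ∈ Bs ∖ 𝔫` with `s * (w / g ^ r) ∈ Bs` and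
`s * (g ^ r / w) ∈ Bs`. -/
theorem h26y_gen_chart [IsDomain O] [IsDiscreteValuationRing O] [CharZero L]
    (ht : Function.Injective (h26yEv (O := O) F' t))
    (hF' : ∀ P, h26yEv (O := O) F' t P ∈ F')
    (S₀ : Finset L)
    (hS₀ : ∀ s ∈ S₀, ∃ p : Polynomial (Subfield.closure (Set.range (h26yEv (O := O) F' t))),
      p ≠ 0 ∧
        Polynomial.eval₂ (Subfield.closure (Set.range (h26yEv (O := O) F' t))).subtype s p = 0)
    (hF : F' ≤ Subfield.closure
      (((Subfield.closure (Set.range (h26yEv (O := O) F' t)) : Subfield L) : Set L) ∪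
        (S₀ : Set L)))
    (π : O) (hπ : Irreducible π) (r : ℕ) (w : L) (hw : w ∈ F')
    (hrw : ∀ v : Valuation F' ℤᵐ⁰, (∃ x : F', 1 < v x) →
      (∀ x : F', (x : L) ∈ Bs → v x ≤ 1) → v (algebraMap O F' π) = 1 →
        ∃ n : ℤ, v ⟨w, hw⟩ = exp (-((r : ℤ) * n)))
    (𝔫 : Ideal Bs) [h𝔫 : 𝔫.IsPrime]
    (hπ𝔫 : (⟨h26yPsi (O := O) F' π, h26y_psi_mem F' t Bs hB hF' π⟩ : Bs) ∉ 𝔫) :
    ∃ g : L, g ∈ F' ∧ g ≠ 0 ∧ ∃ s : Bs, s ∉ 𝔫 ∧
      (s : L) * (w * (g ^ r)⁻¹) ∈ Bs ∧ (s : L) * (g ^ r * w⁻¹) ∈ Bs := by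
  have hBF : ∀ x ∈ Bs, x ∈ F' := fun x hx => ((hB x).mp hx).1
  have hN := h26y_normal F' t Bs hB ht hF' S₀ hS₀ hF π hπ
  obtain ⟨hA1, hA2⟩ := h75c_base_of_dvr (A := O) (F := F') π hπ
  set B := h26yB F' Bs (h26y_psi_mem F' t Bs hB hF') with hBdef
  set e := h26yE F' Bs (h26y_psi_mem F' t Bs hB hF') hBF with hedef
  haveI h𝔫' : (𝔫.comap e.toRingHom).IsPrime := Ideal.comap_isPrime _ _
  have hπ𝔫' : algebraMap O B π ∉ 𝔫.comap e.toRingHom := fun h => hπ𝔫 h
  obtain ⟨g, hg0, s, hs, h1, h2⟩ := h26y_gen_abs B π hN hA1 hA2 (𝔫.comap e.toRingHom) hπ𝔫'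
    (⟨w, hw⟩ : F') r
    (fun v => hrw (h75cVal B π hN v) (h26y_val_nontrivial B π hN hA1 hA2 v)
      (fun x hx => h75c_chart_aux B π hN x hx v) (h75c_val_pi_eq_one B π hN v))
  refine ⟨(g : L), g.2, fun h => hg0 (Subtype.ext h), e s, hs, ?_, ?_⟩
  · have h3 : (((s : F') * ((⟨w, hw⟩ : F') * (g ^ r)⁻¹) : F') : L) ∈ Bs := h1
    push_cast at h3
    exact h3
  · have h3 : (((s : F') * (g ^ r * (⟨w, hw⟩ : F')⁻¹) : F') : L) ∈ Bs := h2
    push_cast at h3
    exact h3

end Normal

end Fermat.Agent.S36
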