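import Fermat.Agent.S36.H53UnramTrace
import Fermat.Agent.Red.GFFApprox
import Fermat.Agent.Red.HKMod
import Fermat.Agent.Red.Desc.Core
import Fermat.Agent.S24.DegLe

/-!
# S36, block (D), leaf D-UNRAM (helper53): every place of `FF N` has a uniformiser in `F0`

`h53u2_descUnram : DescUnram` : for every subgroup `I` of `G_ℚ` and every place `v` of
`F = FF N` there is an `I`-invariant function `t` with `ord_v t = 1`
(the constant field extension `F / F^I` is unramified).

Proof.  Let `x` be a `G_ℚ`-invariant function vanishing at `v` (`x = 1 / j`, or `x = P(j)`,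
`P ∈ ℚ[X]` the minimal polynomial of `j(v)`).  All places `w` with `ord_w x > 0` have the same
restriction to `ℚ̄(x)` (`h53u2_restrict_eq`), so by weak approximation in the fibre
(`Red/GFFApprox.lean`) there is `E` with `ord_w E = 1` at all zeros `w` of `x`, in particular at
all conjugates of `v`.  Conclude by the trace argument `h53u2_trace`.
-/

set_option autoImplicit false

open AlgebraicCurve ModularCurve IntermediateField Polynomial

noncomputable section

namespace Fermat.Agent.S36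

open Fermat.Agent.S37 (Kbar GQ FF cst gal jB ValueAt)
open Fermat.Agent.Jac
open Fermat.Agent.Red.Desc (Ge)

section Generic

variable {K F : Type*} [Field K] [Field F] [Algebra K F]

/-- constants are regular. -/
theorem h53u2_ge_const (w : Place K F) (c : K) : Ge w 0 (algebraMap K F c) :=
  Fermat.Agent.Red.Desc.ge_zero_iff_mem.mpr (w.algebraMap_mem' c)

/-- polynomials in a regular function are regular. -/
theorem h53u2_ge_aeval (w : Place K F) {x : F} (hx : Ge w 0 x) (P : K[X]) :
    Ge w 0 (aeval x P) := by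
  rw [aeval_eq_sum_range]
  refine Fermat.Agent.Red.Desc.Ge.sum _ fun i _ => ?_
  rw [Algebra.smul_def]
  have := (h53u2_ge_const w (P.coeff i)).mul (Fermat.Agent.Red.Desc.Ge.pow hx i)
  simpa using this

/-- a polynomial with non-zero constant term is a unit at every zero of `x`. -/
theorem h53u2_ord_aeval (w : Place K F) {x : F} (hx : 0 < w.ord x) (P : K[X])
    (hP : P.coeff 0 ≠ 0) : aeval x P ≠ 0 ∧ w.ord (aeval x P) = 0 := by
  have hc0 : algebraMap K F (P.coeff 0) ≠ 0 := by
    intro h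
    exact hP ((map_eq_zero (algebraMap K F)).mp h)
  have hcord : w.ord (algebraMap K F (P.coeff 0)) = 0 :=
    Fermat.Agent.S24.DiffPlace.ord_algebraMap w _
  have hx0 : Ge w 0 x := Or.inr hx.le
  have hx1 : Ge w 1 x := Or.inr (by omega)
  have hdec : aeval x P = aeval x P.divX * x + algebraMap K F (P.coeff 0) := by
    conv_lhs => rw [← divX_mul_X_add P]
    rw [map_add, map_mul, aeval_X, aeval_C]
  have hdiff : Ge w (w.ord (algebraMap K F (P.coeff 0)) + 1)
      (algebraMap K F (P.coeff 0) - aeval x P) := by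
    rw [hcord, hdec]
    have h1 := ((h53u2_ge_aeval w hx0 P.divX).mul hx1).neg
    have h2 : algebraMap K F (P.coeff 0) - (aeval x P.divX * x + algebraMap K F (P.coeff 0))
        = -(aeval x P.divX * x) := by ring
    rw [h2]
    simpa using h1
  have := Fermat.Agent.Red.Desc.ord_eq_of_ge_sub (v := w) hc0 hdiff
  exact ⟨this.1, by rw [this.2, hcord]⟩

/-- elements of `K(x)` in normal form. -/
theorem h53u2_exists_rep {x : F} (hx0 : x ≠ 0) {f : F} (hf : f ∈ K⟮x⟯) (hf0 : f ≠ 0) :
    ∃ (k : ℤ) (P Q : K[X]), P.coeff 0 ≠ 0 ∧ Q.coeff 0 ≠ 0 ∧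
      f = x ^ k * (aeval x P / aeval x Q) := by
  obtain ⟨r, s, hrs⟩ := (IntermediateField.mem_adjoin_simple_iff K f).mp hf
  have hr : r ≠ 0 := by
    rintro rfl
    apply hf0
    rw [hrs, map_zero, zero_div]
  have hs : s ≠ 0 := by
    rintro rfl
    apply hf0
    rw [hrs, map_zero, div_zero]
  obtain ⟨P, hP1, hP2⟩ := exists_eq_pow_rootMultiplicity_mul_and_not_dvd r hr 0
  obtain ⟨Q, hQ1, hQ2⟩ := exists_eq_pow_rootMultiplicity_mul_and_not_dvd s hs 0
  have hc : ∀ R : K[X], ¬ (X - C (0 : K)) ∣ R → R.coeff 0 ≠ 0 := by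
    intro R hR h0
    apply hR
    rw [dvd_iff_isRoot, IsRoot, ← coeff_zero_eq_eval_zero]
    exact h0
  have hX : aeval x (X - C (0 : K)) = x := by
    rw [map_sub, aeval_X, aeval_C, map_zero, sub_zero]
  refine ⟨(rootMultiplicity 0 r : ℤ) - (rootMultiplicity 0 s : ℤ), P, Q, hc P hP2, hc Q hQ2, ?_⟩
  have h1 : aeval x r = x ^ rootMultiplicity 0 r * aeval x P := by
    conv_lhs => rw [hP1]
    rw [map_mul, map_pow, hX]
  have h2 : aeval x s = x ^ rootMultiplicity 0 s * aeval x Q := by
    conv_lhs => rw [hQ1]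
    rw [map_mul, map_pow, hX]
  have hs0 : x ^ rootMultiplicity 0 s ≠ 0 := pow_ne_zero _ hx0
  rw [hrs, h1, h2, zpow_sub₀ hx0, zpow_natCast, zpow_natCast]
  rw [mul_div_mul_comm]

/-- the order of an element of `K(x)` at a zero of `x`. -/
theorem h53u2_ord_rep (w : Place K F) {x : F} (hx : 0 < w.ord x) (k : ℤ)
    (P Q : K[X]) (hP : P.coeff 0 ≠ 0) (hQ : Q.coeff 0 ≠ 0) :
    w.ord (x ^ k * (aeval x P / aeval x Q)) = k * w.ord x := by
  have hx0 : x ≠ 0 := by
    rintro rfl
    rw [Place.ord_zero] at hx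
    exact lt_irrefl _ hx
  obtain ⟨hP0, hPord⟩ := h53u2_ord_aeval w hx P hP
  obtain ⟨hQ0, hQord⟩ := h53u2_ord_aeval w hx Q hQ
  rw [Place.ord_mul w (zpow_ne_zero k hx0) (div_ne_zero hP0 hQ0), Place.ord_zpow,
    div_eq_mul_inv, Place.ord_mul w hP0 (inv_ne_zero hQ0), Place.ord_inv, hPord, hQord]
  ring

/-- all zeros of `x` have the same restriction to `K(x)`. -/
theorem h53u2_restrict_eq (x : F) [Algebra.IsIntegral K⟮x⟯ F]
    (w₁ w₂ : Place K F) (h₁ : 0 < w₁.ord x) (h₂ : 0 < w₂.ord x) :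
    w₁.restrict K⟮x⟯ = w₂.restrict K⟮x⟯ := by
  have hx0 : x ≠ 0 := by
    rintro rfl
    rw [Place.ord_zero] at h₁
    exact lt_irrefl _ h₁
  have key : ∀ (w w' : Place K F), 0 < w.ord x → 0 < w'.ord x → ∀ f : K⟮x⟯,
      f ∈ (w.restrict K⟮x⟯).toValuationSubring →
        f ∈ (w'.restrict K⟮x⟯).toValuationSubring := by
    intro w w' hw hw' f hf
    rw [Place.mem_restrict_iff] at hf ⊢
    rcases eq_or_ne (f : F) 0 with h0 | h0
    · have : algebraMap K⟮x⟯ F f = 0 := h0
      rw [this]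
      exact zero_mem _
    obtain ⟨k, P, Q, hP, hQ, hrep⟩ := h53u2_exists_rep hx0 f.2 h0
    have hfe : algebraMap K⟮x⟯ F f = x ^ k * (aeval x P / aeval x Q) := hrep
    rw [hfe] at hf ⊢
    rw [← Fermat.Agent.S24.DiffPlace.ord_nonneg_iff_mem] at hf ⊢
    rw [h53u2_ord_rep w hw k P Q hP hQ] at hf
    rw [h53u2_ord_rep w' hw' k P Q hP hQ]
    have hk : 0 ≤ k := by
      by_contra hk
      have : k * w.ord x < 0 := mul_neg_of_neg_of_pos (by omega) hw
      omega
    exact mul_nonneg hk hw'.le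
  apply Place.ext
  ext f
  exact ⟨key w₁ w₂ h₁ h₂ f, key w₂ w₁ h₂ h₁ f⟩

end Generic

set_option synthInstance.maxHeartbeats 400000
set_option maxHeartbeats 1600000

variable {N : ℕ} [NeZero N]

/-- a `G_ℚ`-invariant function vanishing at `v`. -/
theorem h53u2_exists_x (v : Place Kbar (FF N)) :
    ∃ x : FF N, (∀ σ : GQ, gal N σ • x = x) ∧ 0 < v.ord x := by
  have hj : ∀ σ : GQ, gal N σ • jB N = jB N := fun σ => Fermat.Agent.S37.GalI.gal_smul_jB σ
  have hjt : Transcendental Kbar (jB N) := Fermat.Agent.S24.transcendental_jBar N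
  have hj0 : jB N ≠ 0 := by
    rintro h
    apply hjt
    rw [h]
    exact isAlgebraic_zero
  by_cases hneg : v.ord (jB N) < 0
  · refine ⟨(jB N)⁻¹, fun σ => ?_, ?_⟩
    · rw [smul_inv'', hj σ]
    · rw [Place.ord_inv]
      omega
  -- `j` is regular at `v`
  have hmem : jB N ∈ v.toValuationSubring :=
    Fermat.Agent.S24.DiffPlace.mem_of_ord_nonneg v (by omega)
  obtain ⟨c, hc⟩ := Fermat.Agent.Red.Match.exists_valueAt v hmem
  have hc1 : Ge v 1 (jB N - cst N c) := by
    have h2 : jB N - cst N c ∈ v.toValuationSubring.nonunits := hc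
    have h3 := v.toValuationSubring.nonunits_le h2
    have h4 : (⟨_, h3⟩ : v.toValuationSubring) ∈
        IsLocalRing.maximalIdeal v.toValuationSubring :=
      ValuationSubring.coe_mem_nonunits_iff.mp h2
    exact Fermat.Agent.Red.Desc.ge_one_of_mem_maximalIdeal h4
  have hcalg : IsIntegral ℚ c := ((AlgebraicClosure.isAlgebraic ℚ).isAlgebraic c).isIntegral
  set P : ℚ[X] := minpoly ℚ c with hPdef
  have hP0 : P ≠ 0 := minpoly.ne_zero hcalg
  set PK : Kbar[X] := P.map (algebraMap ℚ Kbar) with hPK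
  have hPK0 : PK ≠ 0 := by
    rw [hPK]
    exact (Polynomial.map_ne_zero_iff (algebraMap ℚ Kbar).injective).mpr hP0
  have hroot : aeval c PK = 0 := by
    rw [hPK, aeval_map_algebraMap]
    exact minpoly.aeval ℚ c
  refine ⟨aeval (jB N) PK, fun σ => ?_, ?_⟩
  · -- invariance
    rw [aeval_eq_sum_range, Finset.smul_sum]
    refine Finset.sum_congr rfl fun i _ => ?_
    rw [Algebra.smul_def, smul_mul', smul_pow', hj σ]
    congr 1
    have hq : PK.coeff i = algebraMap ℚ Kbar (P.coeff i) := by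
      rw [hPK, coeff_map]
    have h1 : gal N σ • cst N (PK.coeff i) = cst N (σ (PK.coeff i)) :=
      SemilinearAut.smul_algebraMap (gal N σ) _
    show gal N σ • cst N (PK.coeff i) = cst N (PK.coeff i)
    rw [h1, hq]
    congr 1
    exact σ.commutes (P.coeff i)
  · -- vanishing at `v`
    have hne : aeval (jB N) PK ≠ 0 := fun h => hjt ⟨PK, hPK0, h⟩
    have hge : Ge v 1 (aeval (jB N) PK) := by
      have h1 : aeval (jB N) PK = aeval (jB N) PK - aeval (cst N c) PK := by
        have h2 : aeval (cst N c) PK = cst N (aeval c PK) := by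
          rw [aeval_algebraMap_apply]
        have hz : cst N (0 : Kbar) = 0 := map_zero (algebraMap Kbar (FF N))
        rw [h2, hroot, hz, sub_zero]
      rw [h1, aeval_eq_sum_range, aeval_eq_sum_range, ← Finset.sum_sub_distrib]
      refine Fermat.Agent.Red.Desc.Ge.sum _ fun i _ => ?_
      rw [← smul_sub, Algebra.smul_def]
      have h3 := Fermat.Agent.Red.Desc.pow_sub_pow_ge v
        (Fermat.Agent.Red.Desc.ge_zero_iff_mem.mpr hmem) (h53u2_ge_cst v c) hc1 i
      have := (h53u2_ge_cst v (PK.coeff i)).mul h3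
      simpa using this
    exact lt_of_lt_of_le one_pos (hge.le hne)

/-- **D-UNRAM.** -/
theorem h53u2_descUnram : DescUnram := by
  intro N _ I v
  obtain ⟨x, hxinv, hxpos⟩ := h53u2_exists_x v
  have hxt : Transcendental Kbar x :=
    Fermat.Agent.S24.DiffPlace.transcendental_of_ord_ne_zero v hxpos.ne'
  have hfd : FiniteDimensional Kbar⟮x⟯ (FF N) :=
    Fermat.Agent.Red.HKMod.finiteDimensional_adjoin_FF N x hxt
  have hpd : HasPrincipalDivisors Kbar (FF N) := Fermat.Agent.Red.HKMod.hasPrincipalDivisors_FF N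
  have hint : Algebra.IsIntegral Kbar⟮x⟯ (FF N) := Algebra.IsIntegral.of_finite _ _
  obtain ⟨E, hE0, -, hE⟩ := Fermat.Agent.Red.GFF.exists_ord_eq_fiber_nat (F' := FF N)
    (v.restrict Kbar⟮x⟯) (fun _ => 1)
  have hfib : ∀ w : Place Kbar (FF N), 0 < w.ord x → w.ord E = 1 := by
    intro w hw
    have hmem : w ∈ (v.restrict Kbar⟮x⟯).fiber (FF N) :=
      Place.mem_fiber.mpr (h53u2_restrict_eq x w v hw hxpos)
    have := hE w hmem
    simpa using this
  refine h53u2_trace I v E (hfib v hxpos) fun σ _ => ?_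
  have h1 : v.ord (gal N σ • E) = ((gal N σ)⁻¹ • v).ord E := by
    have h := SemilinearAut.ord_smul (gal N σ) ((gal N σ)⁻¹ • v) E
    rw [smul_inv_smul] at h
    exact h
  have h2 : ((gal N σ)⁻¹ • v).ord x = v.ord x := by
    have h := SemilinearAut.ord_smul (gal N σ) ((gal N σ)⁻¹ • v) x
    rw [smul_inv_smul, hxinv σ] at h
    exact h.symm
  rw [h1, hfib _ (by rw [h2]; exact hxpos)]

end Fermat.Agent.S36
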