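import Fermat.Agent.S36.H7DescLoc
import Fermat.Agent.S36.H53Unram
import Fermat.Agent.S36.H50DescExt

/-!
# S36, block (D) DESCENT: `DescLoc`, unconditional (helper7)

`h7l_descLoc_final : DescLoc` from the landed `h53u2_descUnram : DescUnram` (helper53) and
`h50x_descExt : DescExt` (helper50) through `h7l_descLoc`.
-/

set_option autoImplicit false

namespace Fermat.Agent.S36

/-- **D-LOC**, unconditional. -/
theorem h7l_descLoc_final : DescLoc :=
  h7l_descLoc h53u2_descUnram h50x_descExt

end Fermat.Agent.S36
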