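import Mathlib
import Fermat.Agent.S36.H26GateGenChart
import Fermat.Agent.S36.H26GateGen
import Fermat.Agent.S36.H59Noeth
import Fermat.Agent.S36.H7DescLocFinal
import Fermat.Agent.S36.H92Chain

/-!
# S36, block (G), leaf G-GEN (helper26): the datum of the gate at the closed points of the
generic fibre of the charts over `A₀`

`h26y_gen` : for `A` over `q`, a level `N`, `t = j` or `t = 1/j`, `w ∈ F₀ = FF N ^ I`, `w ≠ 0`,
with `m ∣ ord_v w` at all places `v` of `FF N` over `ℚ̄`, and a prime `𝔫` of the chart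
`h92c_Chart A N t` with `q ∉ 𝔫`: there are `g ∈ F₀`, `g ≠ 0` and `s ∈ chart ∖ 𝔫` with
`s * (w / g ^ m)` and `s * (g ^ m / w)` in the chart.

This is the hypothesis `hgen₀` of the place-free semi-local gate `h26y_gate_asm_semi`
(`S36/H26GateSemi.lean`) for the charts of `H92Chain`, elementwise in `FF N`.

Proof: the chart is a normal noetherian chart over the discrete valuation ring `A₀`
(`h26y_normal`, on helper59's `h59n_isNoetherianRing_abs`), so its generic fibre is a Dedekind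
domain (helper75, `S36/H75ChartAbs.lean`) and the local datum follows from the divisibility of
the orders at the places of the generic fibre (`h26y_gen_abs`), which is the landed `DescLoc`
(`h7l_descLoc_final`, through `h26y_hrw_of_descLoc`).
-/

set_option autoImplicit false
set_option linter.style.haveILetI false
set_option linter.unusedSectionVars false
set_option linter.unusedVariables false

open Polynomial AlgebraicCurve ModularCurve WithZero

noncomputable section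

namespace Fermat.Agent.S36

open Fermat.Agent.S37 (Kbar GQ FF cst gal jB modelAt)
open Fermat.Agent.Red.ModelO (FQ h85ratEmb h85jQ)

section Level

variable (N : ℕ) (A : ValuationSubring Kbar)

/-- the constants of `A₀` are inertia-fixed functions. -/
theorem h26y_psi_mem_F0 (a : h59bA0 A) :
    h59nPsi N A a ∈ h53d_F0 N (A.inertiaSubgroupIn ℚ) := by
  intro σ hσ
  rw [h59nPsi_apply, Fermat.Agent.S37.GalI.gal_smul_cst]
  congr 1
  exact (h59b_mem_K0_iff A _).mp (a : h59bK0 A).2 σ hσ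

/-- the structure of `A₀`-algebra of `F₀`. -/
@[reducible] def h26yAlg0 : Algebra (h59bA0 A) (h53d_F0 N (A.inertiaSubgroupIn ℚ)) :=
  ((h59nPsi N A).codRestrict (h53d_F0 N (A.inertiaSubgroupIn ℚ)) (h26y_psi_mem_F0 N A)).toAlgebra

theorem h26y_psi_eq :
    letI := h26yAlg0 N A
    h26yPsi (O := h59bA0 A) (h53d_F0 N (A.inertiaSubgroupIn ℚ)) = h59nPsi N A := rfl

theorem h26y_ev_eq (t : FF N) :
    letI := h26yAlg0 N A
    h26yEv (O := h59bA0 A) (h53d_F0 N (A.inertiaSubgroupIn ℚ)) t = h59nEv N A t := rfl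

/-- a constant of `FF N` fixed by the inertia group is a constant of the inertia field. -/
theorem h26y_cst_fixed {c : Kbar} (hc : cst N c ∈ h53d_F0 N (A.inertiaSubgroupIn ℚ)) :
    c ∈ h59bK0 A := by
  rw [h59b_mem_K0_iff]
  intro σ hσ
  have h1 := hc σ hσ
  rw [Fermat.Agent.S37.GalI.gal_smul_cst] at h1
  exact (algebraMap Kbar (FF N)).injective h1


/-- the valuations of `F₀` which are `≤ 1` on the chart and trivial on `q` are `≤ 1` on the
constants of the inertia field. -/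
theorem h26y_val_const {q : ℕ} (hq : q.Prime) (hA : A.LiesOverPrime q)
    (v : Valuation (h53d_F0 N (A.inertiaSubgroupIn ℚ)) ℤᵐ⁰)
    (hle : ∀ a : h59bA0 A,
      v (⟨h59nPsi N A a, h26y_psi_mem_F0 N A a⟩ : h53d_F0 N (A.inertiaSubgroupIn ℚ)) ≤ 1)
    (hπ1 : v (⟨h59nPsi N A ((q : ℕ) : h59bA0 A), h26y_psi_mem_F0 N A _⟩ :
      h53d_F0 N (A.inertiaSubgroupIn ℚ)) = 1)
    (c : Kbar) (hc : cst N c ∈ h53d_F0 N (A.inertiaSubgroupIn ℚ)) :
    v (⟨cst N c, hc⟩ : h53d_F0 N (A.inertiaSubgroupIn ℚ)) ≤ 1 := by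
  have hcK := h26y_cst_fixed N A hc
  by_cases hc0 : c = 0
  · subst hc0
    have h0 : (⟨cst N 0, hc⟩ : h53d_F0 N (A.inertiaSubgroupIn ℚ)) = 0 :=
      Subtype.ext (map_zero _)
    rw [h0, map_zero]
    exact zero_le_one
  · obtain ⟨j, u, hu, hu', hcu⟩ := h59b_exists_zpow_mul_unit A hq hA (⟨c, hcK⟩ : h59bK0 A)
      (fun h => hc0 (congrArg Subtype.val h))
    have hcu' : c = ((q : ℕ) : Kbar) ^ j * (u : Kbar) := by
      have h1 := congrArg (fun z : h59bK0 A => (z : Kbar)) hcu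
      simp only [IntermediateField.coe_mul, h59b_coe_q_zpow] at h1
      exact h1
    have h1 : (⟨cst N c, hc⟩ : h53d_F0 N (A.inertiaSubgroupIn ℚ)) =
        (⟨h59nPsi N A ((q : ℕ) : h59bA0 A), h26y_psi_mem_F0 N A _⟩ :
          h53d_F0 N (A.inertiaSubgroupIn ℚ)) ^ j *
        (⟨h59nPsi N A ⟨u, hu⟩, h26y_psi_mem_F0 N A _⟩ : h53d_F0 N (A.inertiaSubgroupIn ℚ)) := by
      have hz : ((((⟨h59nPsi N A ((q : ℕ) : h59bA0 A), h26y_psi_mem_F0 N A _⟩ :
          h53d_F0 N (A.inertiaSubgroupIn ℚ)) ^ j : h53d_F0 N (A.inertiaSubgroupIn ℚ))) : FF N) =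
          (h59nPsi N A ((q : ℕ) : h59bA0 A)) ^ j :=
        map_zpow₀ (h53d_F0 N (A.inertiaSubgroupIn ℚ)).subtype _ j
      have hqc : ((((q : ℕ) : h59bA0 A) : h59bK0 A) : Kbar) = ((q : ℕ) : Kbar) := by
        push_cast
        rfl
      have hval : cst N c =
          (h59nPsi N A ((q : ℕ) : h59bA0 A)) ^ j * h59nPsi N A ⟨u, hu⟩ := by
        rw [h59nPsi_apply, h59nPsi_apply, hcu', hqc]
        exact (map_mul (algebraMap Kbar (FF N)) _ _).trans
          (congrArg (· * _) (map_zpow₀ (algebraMap Kbar (FF N)) _ j))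
      apply Subtype.ext
      rw [Subfield.coe_mul, hz]
      exact hval
    rw [h1, map_mul, map_zpow₀, hπ1, one_zpow, one_mul]
    exact hle _

/-- **G-GEN.**  The datum of the gate at the closed points of the generic fibre of the charts
over `A₀`. -/
theorem h26y_gen [NeZero N] {q : ℕ} (hq : q.Prime) (hA : A.LiesOverPrime q)
    (t : FF N) (ht : t = jB N ∨ t = (jB N)⁻¹)
    (m : ℕ) (w : FF N) (hw0 : w ≠ 0) (hwF : w ∈ h92c_F0 A N)
    (hdiv : ∀ v : Place Kbar (FF N), (m : ℤ) ∣ v.ord w)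
    (𝔫 : Ideal (h92c_Chart A N t)) (h𝔫 : 𝔫.IsPrime)
    (hq𝔫 : ((q : ℕ) : h92c_Chart A N t) ∉ 𝔫) :
    ∃ g : FF N, g ∈ h92c_F0 A N ∧ g ≠ 0 ∧ ∃ s : h92c_Chart A N t, s ∉ 𝔫 ∧
      (s : FF N) * (w * (g ^ m)⁻¹) ∈ h92c_Chart A N t ∧
      (s : FF N) * (g ^ m * w⁻¹) ∈ h92c_Chart A N t := by
  classical
  haveI := h59b_isDVR A hq hA
  haveI : CharZero (FF N) := charZero_of_injective_algebraMap (algebraMap Kbar (FF N)).injective
  letI := h26yAlg0 N A
  have htr : Transcendental Kbar t := by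
    rcases ht with rfl | rfl
    · exact Fermat.Agent.S24.transcendental_jBar N
    · exact fun h => Fermat.Agent.S24.transcendental_jBar N (IsAlgebraic.inv_iff.mp h)
  have hfix : ∀ σ ∈ A.inertiaSubgroupIn ℚ, gal N σ • t = t := by
    intro σ _
    rcases ht with rfl | rfl
    · exact Fermat.Agent.S37.GalI.gal_smul_jB σ
    · exact Fermat.Agent.S37.GalI.gal_smul_jB_inv σ
  have hj : jB N ∈ h59nK N A t := by
    rcases ht with rfl | rfl
    · exact h59n_t_mem_K N A _
    · have h1 := (h59nK N A (jB N)⁻¹).inv_mem (h59n_t_mem_K N A (jB N)⁻¹)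
      rwa [inv_inv] at h1
  obtain ⟨T, hT⟩ := Fermat.Agent.Red.ModelO.h85_exists_span_Qj N
  have hB : ∀ x, x ∈ h92c_Chart A N t ↔ x ∈ h53d_F0 N (A.inertiaSubgroupIn ℚ) ∧
      (h26yEv (O := h59bA0 A) (h53d_F0 N (A.inertiaSubgroupIn ℚ)) t).IsIntegralElem x :=
    fun x => h59n_mem_chart_iff N A t x
  have hFP : ∀ P, h26yEv (O := h59bA0 A) (h53d_F0 N (A.inertiaSubgroupIn ℚ)) t P ∈
      h53d_F0 N (A.inertiaSubgroupIn ℚ) :=
    fun P => h59nK_le_F0 N A t hfix (h59nEv_mem_K N A t P)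
  refine h26y_gen_chart (h53d_F0 N (A.inertiaSubgroupIn ℚ)) t (h92c_Chart A N t) hB
    (h59nEv_injective N A t htr) hFP (T.image (h85ratEmb N)) ?_ ?_
    ((q : ℕ) : h59bA0 A) (h59b_irreducible A hq hA) m w hwF ?_ 𝔫 ?_
  · intro s hs
    obtain ⟨u, -, rfl⟩ := Finset.mem_image.mp hs
    exact h59n_ratEmb_algebraic N A t hj u
  · rw [Finset.coe_image]
    exact h59n_F0_le_closure N A t hj T hT
  · intro v hnt hle hπ1
    refine h26y_hrw_of_descLoc h7l_descLoc_final N (A.inertiaSubgroupIn ℚ) v hnt ?_ m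
      ⟨w, hwF⟩ (fun h => hw0 (congrArg Subtype.val h)) hdiv
    refine h26y_val_const N A hq hA v (fun a => hle _ ?_) hπ1
    exact h26y_psi_mem (h53d_F0 N (A.inertiaSubgroupIn ℚ)) t (h92c_Chart A N t) hB hFP a
  · intro h
    apply hq𝔫
    have h1 : (((q : ℕ) : h92c_Chart A N t)) =
        (⟨h26yPsi (O := h59bA0 A) (h53d_F0 N (A.inertiaSubgroupIn ℚ)) ((q : ℕ) : h59bA0 A),
          h26y_psi_mem (h53d_F0 N (A.inertiaSubgroupIn ℚ)) t (h92c_Chart A N t) hB hFP _⟩ :
          h92c_Chart A N t) := by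
      apply Subtype.ext
      show ((q : ℕ) : FF N) = h59nPsi N A ((q : ℕ) : h59bA0 A)
      rw [h59nPsi_apply]
      have hqc : ((((q : ℕ) : h59bA0 A) : h59bK0 A) : Kbar) = ((q : ℕ) : Kbar) := by
        push_cast
        rfl
      rw [hqc]
      exact (map_natCast (algebraMap Kbar (FF N)) q).symm
    rw [h1]
    exact h

end Level

end Fermat.Agent.S36
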