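import Mathlib
import Fermat.Agent.Red.GateAsm

/-!
# S36, GATE (helper26): the abstract gate from local data, without places

`h26y_gate_asm` is the landed abstract assembly of the gate (`h63_gate_asm_loc`,
`h63_gateAsmOfLocal`) with the chart axioms reduced to the ones which are used in the proof:

* `B₀, B∞ ⊆ V` (the charts are Gauss-integral),
* `π ∈ V`, `1 + π V ⊆ V^×`, `π` is not a unit of `V`,
* QEP for `π` on the three charts,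
* root closedness of the charts, finite generation of `B₀` over `A[j]`,
* the **local datum** at every maximal ideal `𝔫` of the two charts:
  `∃ g ≠ 0, (𝔪_A B ⊆ 𝔫 → g ∈ 1 + π V) ∧ ∃ s ∉ 𝔫, s · w / g ^ r ∈ B ∧ s · g ^ r / w ∈ B`.

No family of places of the generic fibre is needed: over a discrete valuation ring `A` with
non algebraically closed fraction field (the inertia field) the closed points of the generic
fibre are not rational, and the local datum there is produced directly from the fact that the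
local rings of the generic fibre are discrete valuation rings.
-/

set_option autoImplicit false
set_option linter.unusedSectionVars false

open WithZero IsLocalRing

namespace Fermat.Agent.S36

open Fermat.Agent.Red

section Asm

variable {A : Type*} [CommRing A] [IsDomain A] [ValuationRing A]
  {F : Type*} [Field F] [Algebra A F]

/-- **Abstract assembly of the gate from local data, without places.** -/
theorem h26y_gate_asm
    (hAF : Function.Injective (algebraMap A F))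
    (V : Subring F)
    (j : F) (hj : j ≠ 0) (B₀ Binf Bm : Subalgebra A F)
    (hj₀ : j ∈ B₀) (hjinf : j⁻¹ ∈ Binf) (h0m : B₀ ≤ Bm) (hinfm : Binf ≤ Bm)
    (hm0 : ∀ x ∈ Bm, ∃ k : ℕ, j ^ k * x ∈ B₀)
    (hminf : ∀ x ∈ Bm, ∃ k : ℕ, j⁻¹ ^ k * x ∈ Binf)
    (r : ℕ) (hr : 0 < r) (hrA : IsUnit (r : A))
    (hroot₀ : ∀ x : F, x ^ r ∈ B₀ → x ∈ B₀)
    (hrootinf : ∀ x : F, x ^ r ∈ Binf → x ∈ Binf)
    (hrootm : ∀ x : F, x ^ r ∈ Bm → x ∈ Bm)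
    (hBV₀ : ∀ x ∈ B₀, x ∈ V) (hBV₁ : ∀ x ∈ Binf, x ∈ V)
    (S : Finset F) (hS : ∀ s ∈ S, s ∈ B₀)
    (hfin : ∀ x ∈ B₀, x ∈ Submodule.span A {y : F | ∃ a : ℕ, ∃ s ∈ S, y = j ^ a * s})
    (w : F) (hw0 : w ≠ 0)
    (π : A) (hπ : π ∈ maximalIdeal A) (hπ0 : π ≠ 0)
    (harch : ∀ c ∈ maximalIdeal A, c ≠ 0 → ∀ a : A, a ≠ 0 → ∃ k : ℕ, a ∣ c ^ k)
    (hVinv : ∀ x ∈ V, (1 + algebraMap A F π * x)⁻¹ ∈ V)
    (hVnt : ∀ x ∈ V, algebraMap A F π * x ≠ 1)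
    (hqep₀ : ∀ x ∈ V, algebraMap A F π * x ∈ B₀ → x ∈ B₀)
    (hqep₁ : ∀ x ∈ V, algebraMap A F π * x ∈ Binf → x ∈ Binf)
    (hqepm : ∀ x ∈ V, algebraMap A F π * x ∈ Bm → x ∈ Bm)
    (hwU : w ∈ h26U π V)
    (hL₀ : ∀ 𝔫 : Ideal B₀, 𝔫.IsMaximal →
      ∃ g : F, g ≠ 0 ∧ ((maximalIdeal A).map (algebraMap A B₀) ≤ 𝔫 → g ∈ h26U π V) ∧
        ∃ s : B₀, s ∉ 𝔫 ∧ (s : F) * (w * (g ^ r)⁻¹) ∈ B₀ ∧ (s : F) * (g ^ r * w⁻¹) ∈ B₀)
    (hL₁ : ∀ 𝔫 : Ideal Binf, 𝔫.IsMaximal →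
      ∃ g : F, g ≠ 0 ∧ ((maximalIdeal A).map (algebraMap A Binf) ≤ 𝔫 → g ∈ h26U π V) ∧
        ∃ s : Binf, s ∉ 𝔫 ∧ (s : F) * (w * (g ^ r)⁻¹) ∈ Binf ∧
          (s : F) * (g ^ r * w⁻¹) ∈ Binf) :
    ∃ t : F, t ≠ 0 ∧ t ^ r * w⁻¹ ∈ B₀ ∧ t ^ r * w⁻¹ ∈ Binf := by
  classical
  have hAV : ∀ a : A, algebraMap A F a ∈ V := fun a => hBV₀ _ (B₀.algebraMap_mem a)
  have hπF : algebraMap A F π ≠ 0 := fun h => hπ0 (hAF (by rw [h, map_zero]))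
  have hVπ : algebraMap A F π ∈ V := hAV π
  have hmVstable : ∀ (B : Subalgebra A F), (∀ x ∈ B, x ∈ V) →
      ∀ b ∈ B, ∀ x ∈ h26mV π V, b * x ∈ h26mV π V := by
    rintro B hBV b hb _ ⟨y, hy, rfl⟩
    exact ⟨b * y, mul_mem (hBV b hb) hy, by ring⟩
  obtain ⟨e₀, he₀, he₀m⟩ := h26_exists_e B₀ w r hr hroot₀ (h26mV π V)
    (hmVstable B₀ hBV₀) (fun 𝔫 h𝔫 => h26_local_for_e harch π hπ0 w r hr hL₀ 𝔫 h𝔫)
  obtain ⟨einf, heinf, heinfm⟩ := h26_exists_e Binf w r hr hrootinf (h26mV π V)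
    (hmVstable Binf hBV₁) (fun 𝔫 h𝔫 => h26_local_for_e harch π hπ0 w r hr hL₁ 𝔫 h𝔫)
  have he₀U : e₀ ∈ h26U π V := by
    obtain ⟨y, hy, h⟩ := he₀m
    exact ⟨y, hy, by rw [← h]; ring⟩
  have heinfU : einf ∈ h26U π V := by
    obtain ⟨y, hy, h⟩ := heinfm
    exact ⟨y, hy, by rw [← h]; ring⟩
  obtain ⟨T, hT, hgen⟩ := h26_L_gen_of_local B₀ j w hw0 r hr hroot₀ S hS hfin
    (fun 𝔫 h𝔫 => h26_local_for_L π w r hr hL₀ 𝔫 h𝔫)
  obtain ⟨G, hG, hGle⟩ := h26_H1_fg (h26L B₀ w r hr hroot₀) (h26L Binf w r hr hrootinf)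
    (h26L Bm w r hr hrootm) j hj
    (fun f hf => h26_mul_mem_L hj₀ hf) (fun f hf => h26_mul_mem_L hjinf hf) (h26_L_mono h0m)
    (fun f hf => h26_L_exists_pow j hj₀ hm0 hf)
    (fun f hf => h26_L_exists_pow j⁻¹ hjinf hminf hf) T hT hgen
  obtain ⟨k, hk⟩ := h26_pow_torsion_bound π hπ0 (harch π hπ hπ0)
    (h26L B₀ w r hr hroot₀ ⊔ h26L Binf w r hr hrootinf) G hG
  exact h26_gate_core π r hr hrA V hVπ hVinv hVnt B₀ Binf Bm h0m hinfm hBV₀ hBV₁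
    hroot₀ hrootinf hrootm hqep₀ hqep₁ hqepm w hwU ⟨k, fun f hf hn => hk f (hGle hf) hn⟩
    e₀ he₀ he₀U einf heinf heinfU

end Asm

end Fermat.Agent.S36
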