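import Mathlib
import Fermat.Agent.S36.H13GateSemi

/-!
# S36, GATE (helper26): the abstract gate from semi-local data, without places

`h26y_gate_asm_semi` = `h13g_gate_asm_semi` (helper13) without the families of horizontal places
and without `H26Chart`: the chart axioms are reduced to the ones used in the proof

* `B₀, B∞ ⊆ V`, `1 + π V ⊆ V^×`, `π` is not a unit of `V`, QEP for `π` on the three charts,
* root closedness, finite generation of `B₀` over `A[j]`,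

and the local data are

* at the closed points `𝔫 ∋ π` of the special fibre of `B₀` and `B∞`: the SEMI-LOCAL datum
  `∃ g ≠ 0, ∃ s ∉ 𝔫, s (g - 1) ∈ π V, s w / g ^ r ∈ B, s g ^ r / w ∈ B`;
* at the closed points `𝔫 ∌ π` of the generic fibre of `B₀`: local principality
  `∃ g ≠ 0, ∃ s ∉ 𝔫, s w / g ^ r ∈ B₀, s g ^ r / w ∈ B₀` (the local ring is a discrete valuation
  ring and `r ∣ ord w`).

So over a discrete valuation ring with non algebraically closed fraction field no valuation of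
the generic fibre has to be constructed.
-/

set_option autoImplicit false
set_option linter.unusedSectionVars false

open WithZero IsLocalRing

namespace Fermat.Agent.S36

open Fermat.Agent.Red Fermat.Agent.LGC

section Asm

variable {A : Type*} [CommRing A] [IsDomain A] [ValuationRing A]
  {F : Type*} [Field F] [Algebra A F]

theorem h26y_pow_mul_inv {B : Subalgebra A F} {s : B} {g w : F} {r : ℕ} (hr : 0 < r)
    (h2 : (s : F) * (g ^ r * w⁻¹) ∈ B) : ((s : F) * g) ^ r * w⁻¹ ∈ B := by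
  obtain ⟨r', rfl⟩ : ∃ r', r = r' + 1 := ⟨r - 1, by omega⟩
  have h3 : ((s : F) * g) ^ (r' + 1) * w⁻¹ =
      (s : F) ^ r' * ((s : F) * (g ^ (r' + 1) * w⁻¹)) := by
    rw [mul_pow, pow_succ (s : F)]; ring
  rw [h3]
  exact mul_mem (pow_mem s.2 r') h2

theorem h26y_pow_inv_mul {B : Subalgebra A F} {s : B} {g w : F} {r : ℕ} (hr : 0 < r)
    (h1 : (s : F) * (w * (g ^ r)⁻¹) ∈ B) : ((s : F) * g⁻¹) ^ r * w ∈ B := by
  obtain ⟨r', rfl⟩ : ∃ r', r = r' + 1 := ⟨r - 1, by omega⟩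
  have h3 : ((s : F) * g⁻¹) ^ (r' + 1) * w =
      (s : F) ^ r' * ((s : F) * (w * (g ^ (r' + 1))⁻¹)) := by
    rw [mul_pow, pow_succ (s : F), inv_pow]; ring
  rw [h3]
  exact mul_mem (pow_mem s.2 r') h1

/-- **Abstract assembly of the gate from semi-local data, without places.** -/
theorem h26y_gate_asm_semi
    (hAF : Function.Injective (algebraMap A F))
    (V : Subring F)
    (j : F) (hj : j ≠ 0) (B₀ Binf Bm : Subalgebra A F)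
    (hj₀ : j ∈ B₀) (hjinf : j⁻¹ ∈ Binf) (h0m : B₀ ≤ Bm) (hinfm : Binf ≤ Bm)
    (hm0 : ∀ x ∈ Bm, ∃ k : ℕ, j ^ k * x ∈ B₀)
    (hminf : ∀ x ∈ Bm, ∃ k : ℕ, j⁻¹ ^ k * x ∈ Binf)
    (r : ℕ) (hr : 0 < r) (hrA : IsUnit (r : A))
    (hroot₀ : ∀ x : F, x ^ r ∈ B₀ → x ∈ B₀)
    (hrootinf : ∀ x : F, x ^ r ∈ Binf → x ∈ Binf)
    (hrootm : ∀ x : F, x ^ r ∈ Bm → x ∈ Bm)
    (hBV₀ : ∀ x ∈ B₀, x ∈ V) (hBV₁ : ∀ x ∈ Binf, x ∈ V)
    (S : Finset F) (hS : ∀ s ∈ S, s ∈ B₀)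
    (hfin : ∀ x ∈ B₀, x ∈ Submodule.span A {y : F | ∃ a : ℕ, ∃ s ∈ S, y = j ^ a * s})
    (w : F) (hw0 : w ≠ 0)
    (π : A) (hπ0 : π ≠ 0)
    (harch : ∀ a : A, a ≠ 0 → ∃ k : ℕ, a ∣ π ^ k)
    (hVinv : ∀ x ∈ V, (1 + algebraMap A F π * x)⁻¹ ∈ V)
    (hVnt : ∀ x ∈ V, algebraMap A F π * x ≠ 1)
    (hqep₀ : ∀ x ∈ V, algebraMap A F π * x ∈ B₀ → x ∈ B₀)
    (hqep₁ : ∀ x ∈ V, algebraMap A F π * x ∈ Binf → x ∈ Binf)
    (hqepm : ∀ x ∈ V, algebraMap A F π * x ∈ Bm → x ∈ Bm)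
    (hwU : w ∈ h26U π V)
    (hloc₀ : ∀ 𝔫 : Ideal B₀, 𝔫.IsMaximal → algebraMap A B₀ π ∈ 𝔫 →
      ∃ g : F, g ≠ 0 ∧ ∃ s : B₀, s ∉ 𝔫 ∧ (s : F) * (g - 1) ∈ h26mV π V ∧
        (s : F) * (w * (g ^ r)⁻¹) ∈ B₀ ∧ (s : F) * (g ^ r * w⁻¹) ∈ B₀)
    (hgen₀ : ∀ 𝔫 : Ideal B₀, 𝔫.IsMaximal → algebraMap A B₀ π ∉ 𝔫 →
      ∃ g : F, g ≠ 0 ∧ ∃ s : B₀, s ∉ 𝔫 ∧
        (s : F) * (w * (g ^ r)⁻¹) ∈ B₀ ∧ (s : F) * (g ^ r * w⁻¹) ∈ B₀)
    (hloc₁ : ∀ 𝔫 : Ideal Binf, 𝔫.IsMaximal → algebraMap A Binf π ∈ 𝔫 →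
      ∃ g : F, g ≠ 0 ∧ ∃ s : Binf, s ∉ 𝔫 ∧ (s : F) * (g - 1) ∈ h26mV π V ∧
        (s : F) * (w * (g ^ r)⁻¹) ∈ Binf ∧ (s : F) * (g ^ r * w⁻¹) ∈ Binf) :
    ∃ t : F, t ≠ 0 ∧ t ^ r * w⁻¹ ∈ B₀ ∧ t ^ r * w⁻¹ ∈ Binf := by
  classical
  have hAV : ∀ a : A, algebraMap A F a ∈ V := fun a => hBV₀ _ (B₀.algebraMap_mem a)
  have hπF : algebraMap A F π ≠ 0 := fun h => hπ0 (hAF (by rw [h, map_zero]))
  have hVπ : algebraMap A F π ∈ V := hAV π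
  have hmVstable : ∀ (B : Subalgebra A F), (∀ x ∈ B, x ∈ V) →
      ∀ b ∈ B, ∀ x ∈ h26mV π V, b * x ∈ h26mV π V := by
    rintro B hBV b hb _ ⟨y, hy, rfl⟩
    exact ⟨b * y, mul_mem (hBV b hb) hy, by ring⟩
  -- the datum for (E) on a chart
  have hE : ∀ (B : Subalgebra A F),
      (∀ 𝔫 : Ideal B, 𝔫.IsMaximal → algebraMap A B π ∈ 𝔫 →
        ∃ g : F, g ≠ 0 ∧ ∃ s : B, s ∉ 𝔫 ∧ (s : F) * (g - 1) ∈ h26mV π V ∧
          (s : F) * (w * (g ^ r)⁻¹) ∈ B ∧ (s : F) * (g ^ r * w⁻¹) ∈ B) →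
      ∀ 𝔫 : Ideal B, 𝔫.IsMaximal →
        ∃ b : B, b ∉ 𝔫 ∧ ∃ e : F, e ^ r * w⁻¹ ∈ B ∧ e - (b : F) ∈ h26mV π V := by
    intro B hloc 𝔫 h𝔫
    by_cases hπ𝔫 : algebraMap A B π ∈ 𝔫
    · obtain ⟨g, -, s, hs, hsg, -, h2⟩ := hloc 𝔫 h𝔫 hπ𝔫
      refine ⟨s, hs, (s : F) * g, h26y_pow_mul_inv hr h2, ?_⟩
      have e : (s : F) * g - (s : F) = (s : F) * (g - 1) := by ring
      rw [e]
      exact hsg
    · refine ⟨algebraMap A B π, hπ𝔫, 0, ?_, ?_⟩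
      · rw [zero_pow hr.ne', zero_mul]; exact B.zero_mem
      · rw [zero_sub]
        exact (h26mV π V).neg_mem ⟨1, V.one_mem, by simp⟩
  obtain ⟨e₀, he₀, he₀m⟩ := h13g_exists_e B₀ w r hr hroot₀ (h26mV π V)
    (hmVstable B₀ hBV₀) (hE B₀ hloc₀)
  obtain ⟨einf, heinf, heinfm⟩ := h13g_exists_e Binf w r hr hrootinf (h26mV π V)
    (hmVstable Binf hBV₁) (hE Binf hloc₁)
  have he₀U : e₀ ∈ h26U π V := by
    obtain ⟨y, hy, h⟩ := he₀m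
    exact ⟨y, hy, by rw [← h]; ring⟩
  have heinfU : einf ∈ h26U π V := by
    obtain ⟨y, hy, h⟩ := heinfm
    exact ⟨y, hy, by rw [← h]; ring⟩
  -- generators of `L₀`
  obtain ⟨T, hT, hgen⟩ := h26_L_gen_of_local B₀ j w hw0 r hr hroot₀ S hS hfin
    (fun 𝔫 h𝔫 => by
      by_cases hπ𝔫 : algebraMap A B₀ π ∈ 𝔫
      · obtain ⟨g, hg0, s, hs, -, h1, h2⟩ := hloc₀ 𝔫 h𝔫 hπ𝔫
        exact ⟨s, hs, g, hg0, h26y_pow_mul_inv hr h2, h26y_pow_inv_mul hr h1⟩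
      · obtain ⟨g, hg0, s, hs, h1, h2⟩ := hgen₀ 𝔫 h𝔫 hπ𝔫
        exact ⟨s, hs, g, hg0, h26y_pow_mul_inv hr h2, h26y_pow_inv_mul hr h1⟩)
  obtain ⟨G, hG, hGle⟩ := h26_H1_fg (h26L B₀ w r hr hroot₀) (h26L Binf w r hr hrootinf)
    (h26L Bm w r hr hrootm) j hj
    (fun f hf => h26_mul_mem_L hj₀ hf) (fun f hf => h26_mul_mem_L hjinf hf) (h26_L_mono h0m)
    (fun f hf => h26_L_exists_pow j hj₀ hm0 hf)
    (fun f hf => h26_L_exists_pow j⁻¹ hjinf hminf hf) T hT hgen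
  obtain ⟨k, hk⟩ := h26_pow_torsion_bound π hπ0 harch
    (h26L B₀ w r hr hroot₀ ⊔ h26L Binf w r hr hrootinf) G hG
  exact h26_gate_core π r hr hrA V hVπ hVinv hVnt B₀ Binf Bm h0m hinfm hBV₀ hBV₁
    hroot₀ hrootinf hrootm hqep₀ hqep₁ hqepm w hwU ⟨k, fun f hf hn => hk f (hGle hf) hn⟩
    e₀ he₀ he₀U einf heinf heinfU

end Asm

end Fermat.Agent.S36
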