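import Mathlib
import Fermat.Agent.S36.H26GateGenChart
import Fermat.Agent.S36.H26GateGenFinal
import Fermat.Agent.S36.H86LocOneIface

/-!
# S36, row LOC-VCOMP, conjunct (hex) (helper26): a vertical prime passes through every closed
point of the special fibre

* `h26x_C_not_maximal` : `(π) ⊆ O[X]` is not a maximal ideal (`π` a non-unit);
* `h26x_hex_chart` : generic form (setting of `S36/H26GateGenChart.lean`): every maximal ideal
  `𝔫 ∋ π` of the chart contains a prime `P ∋ π`, `P ≠ 𝔫`  (going-down for the integral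
  extension `O[X] ⊆ Bs` of the integrally closed domain `O[X]`);
* `h26x_hex` : for the charts `h92c_Chart A N t`, `t = j, 1/j`, any level:
  `∃ P, h86l_IsVert 𝔫 q P`.
-/

set_option autoImplicit false
set_option linter.style.haveILetI false
set_option linter.unusedSectionVars false
set_option linter.unusedVariables false

open Polynomial AlgebraicCurve ModularCurve

noncomputable section

namespace Fermat.Agent.S36

open Fermat.Agent.S37 (Kbar GQ FF cst gal jB modelAt)

/-- `(π)` is not a maximal ideal of `O[X]`. -/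
theorem h26x_C_not_maximal {O : Type*} [CommRing O] (π : O) (hπ : ¬ IsUnit π) :
    ¬ (Ideal.span {(C π : O[X])}).IsMaximal := by
  intro hmax
  have hX : (X : O[X]) ∉ Ideal.span {(C π : O[X])} := by
    intro h
    obtain ⟨g, hg⟩ := Ideal.mem_span_singleton'.mp h
    have h1 := congrArg (fun p : O[X] => p.coeff 1) hg
    simp only [coeff_mul_C, coeff_X_one] at h1
    exact hπ (IsUnit.of_mul_eq_one _ (by rw [mul_comm]; exact h1))
  obtain ⟨y, i, hi, hy⟩ := hmax.exists_inv hX
  obtain ⟨g, hg⟩ := Ideal.mem_span_singleton'.mp hi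
  have h1 := congrArg (fun p : O[X] => p.coeff 0) hy
  simp only [coeff_add, coeff_mul_X_zero, zero_add, coeff_one_zero, ← hg, coeff_mul_C] at h1
  exact hπ (IsUnit.of_mul_eq_one _ (by rw [mul_comm]; exact h1))

section Chart

variable {O L : Type*} [CommRing O] [Field L] (F' : Subfield L) [Algebra O F'] (t : L)
variable (Bs : Subring L)
variable (hB : ∀ x, x ∈ Bs ↔ x ∈ F' ∧ (h26yEv (O := O) F' t).IsIntegralElem x)

include hB in
/-- **(hex), generic form.** -/
theorem h26x_hex_chart [IsDomain O] [IsDiscreteValuationRing O]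
    (ht : Function.Injective (h26yEv (O := O) F' t))
    (hF' : ∀ P, h26yEv (O := O) F' t P ∈ F')
    (π : O) (hπ : Irreducible π)
    (𝔫 : Ideal Bs) (h𝔫 : 𝔫.IsMaximal)
    (hπ𝔫 : (⟨h26yPsi (O := O) F' π, h26y_psi_mem F' t Bs hB hF' π⟩ : Bs) ∈ 𝔫) :
    ∃ P : Ideal Bs, P.IsPrime ∧
      (⟨h26yPsi (O := O) F' π, h26y_psi_mem F' t Bs hB hF' π⟩ : Bs) ∈ P ∧ P ≤ 𝔫 ∧ P ≠ 𝔫 := by
  classical
  letI aRB : Algebra O[X] Bs :=
    ((h26yEv (O := O) F' t).codRestrict Bs (h26y_ev_mem F' t Bs hB hF')).toAlgebra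
  haveI : Algebra.IsIntegral O[X] Bs := by
    refine ⟨fun b => ?_⟩
    obtain ⟨p, hp, hroot⟩ := ((hB _).mp b.2).2
    refine ⟨p, hp, ?_⟩
    apply Subtype.ext
    have h1 := Polynomial.hom_eval₂ p (algebraMap O[X] Bs) Bs.subtype b
    show Bs.subtype _ = _
    rw [h1]
    exact hroot
  haveI : FaithfulSMul O[X] Bs := by
    rw [faithfulSMul_iff_algebraMap_injective]
    intro a b hab
    exact ht (congrArg Subtype.val hab)
  haveI : 𝔫.IsPrime := h𝔫.isPrime
  have hCπ : algebraMap O[X] Bs (C π) =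
      (⟨h26yPsi (O := O) F' π, h26y_psi_mem F' t Bs hB hF' π⟩ : Bs) := by
    apply Subtype.ext
    show h26yEv (O := O) F' t (C π) = _
    rw [coe_eval₂RingHom, eval₂_C]
  have hprime : Prime (C π : O[X]) := Polynomial.prime_C_iff.mpr hπ.prime
  haveI hp : (Ideal.span {(C π : O[X])}).IsPrime :=
    (Ideal.span_singleton_prime (C_ne_zero.mpr hπ.ne_zero)).mpr hprime
  have hle : Ideal.span {(C π : O[X])} ≤ 𝔫.under O[X] := by
    rw [Ideal.span_singleton_le_iff_mem, Ideal.under_def, Ideal.mem_comap, hCπ]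
    exact hπ𝔫
  obtain ⟨P, hPle, hPprime, hPover⟩ :=
    Ideal.exists_ideal_le_liesOver_of_le (p := Ideal.span {(C π : O[X])})
      (q := 𝔫.under O[X]) 𝔫 hle
  refine ⟨P, hPprime, ?_, hPle, ?_⟩
  · rw [← hCπ]
    have h1 : (C π : O[X]) ∈ P.under O[X] := by
      rw [← hPover.over]
      exact Ideal.mem_span_singleton_self _
    exact h1
  · intro hP𝔫
    subst hP𝔫
    have hmax : (P.under O[X]).IsMaximal :=
      Ideal.isMaximal_comap_of_isIntegral_of_isMaximal (R := O[X]) P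
    rw [← hPover.over] at hmax
    exact h26x_C_not_maximal π hπ.not_isUnit hmax

end Chart

section Level

variable (N : ℕ) (A : ValuationSubring Kbar)

/-- **(hex)** for the charts over `A₀`: a vertical prime passes through every closed point of
the special fibre. -/
theorem h26x_hex [NeZero N] {q : ℕ} (hq : q.Prime) (hA : A.LiesOverPrime q)
    (t : FF N) (ht : t = jB N ∨ t = (jB N)⁻¹)
    (𝔫 : Ideal (h92c_Chart A N t)) (h𝔫 : 𝔫.IsMaximal)
    (hq𝔫 : ((q : ℕ) : h92c_Chart A N t) ∈ 𝔫) :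
    ∃ P : Ideal (h92c_Chart A N t), h86l_IsVert 𝔫 ((q : ℕ) : h92c_Chart A N t) P := by
  classical
  haveI := h59b_isDVR A hq hA
  letI := h26yAlg0 N A
  have htr : Transcendental Kbar t := by
    rcases ht with rfl | rfl
    · exact Fermat.Agent.S24.transcendental_jBar N
    · exact fun h => Fermat.Agent.S24.transcendental_jBar N (IsAlgebraic.inv_iff.mp h)
  have hfix : ∀ σ ∈ A.inertiaSubgroupIn ℚ, gal N σ • t = t := by
    intro σ _
    rcases ht with rfl | rfl
    · exact Fermat.Agent.S37.GalI.gal_smul_jB σ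
    · exact Fermat.Agent.S37.GalI.gal_smul_jB_inv σ
  have hB : ∀ x, x ∈ h92c_Chart A N t ↔ x ∈ h53d_F0 N (A.inertiaSubgroupIn ℚ) ∧
      (h26yEv (O := h59bA0 A) (h53d_F0 N (A.inertiaSubgroupIn ℚ)) t).IsIntegralElem x :=
    fun x => h59n_mem_chart_iff N A t x
  have hFP : ∀ P, h26yEv (O := h59bA0 A) (h53d_F0 N (A.inertiaSubgroupIn ℚ)) t P ∈
      h53d_F0 N (A.inertiaSubgroupIn ℚ) :=
    fun P => h59nK_le_F0 N A t hfix (h59nEv_mem_K N A t P)
  have h1 : (((q : ℕ) : h92c_Chart A N t)) =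
      (⟨h26yPsi (O := h59bA0 A) (h53d_F0 N (A.inertiaSubgroupIn ℚ)) ((q : ℕ) : h59bA0 A),
        h26y_psi_mem (h53d_F0 N (A.inertiaSubgroupIn ℚ)) t (h92c_Chart A N t) hB hFP _⟩ :
        h92c_Chart A N t) := by
    apply Subtype.ext
    show ((q : ℕ) : FF N) = h59nPsi N A ((q : ℕ) : h59bA0 A)
    rw [h59nPsi_apply]
    have hqc : ((((q : ℕ) : h59bA0 A) : h59bK0 A) : Kbar) = ((q : ℕ) : Kbar) := by
      push_cast
      rfl
    rw [hqc]
    exact (map_natCast (algebraMap Kbar (FF N)) q).symm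
  obtain ⟨P, hP, hqP, hle, hne⟩ := h26x_hex_chart (h53d_F0 N (A.inertiaSubgroupIn ℚ)) t
    (h92c_Chart A N t) hB (h59nEv_injective N A t htr) hFP
    ((q : ℕ) : h59bA0 A) (h59b_irreducible A hq hA) 𝔫 h𝔫 (by rw [← h1]; exact hq𝔫)
  exact ⟨P, hP, by rw [h1]; exact hqP, hle, hne⟩

end Level

end Fermat.Agent.S36
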