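import Mathlib

/-!
# S36, GATE (helper26): the local lemma at a closed point of the special fibre (Lemma A)

Abstract, Mathlib only.  Everything happens inside a field `F`.

* `O` : the local ring of the chart at the closed point `P` (a subring of `F`), `mO` its maximal
  ideal (as a subset of `F`);
* `Vn` : the intersection of the valuation rings of the components through `P`;
* branches `i : ι` : the valuation ring `W i ⊇ Vn` of the `i`-th component through `P` and a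
  local equation `f i ∈ O` of this component;
* `π` : the uniformiser of the base, `p` the residue characteristic (`p ∈ π Vn`),
  `r` prime to `p`.

`h26y_frob_bezout` : the Frobenius--Bezout step (helper66, finding 968): if `z ^ r` is a unit of
a subring `O'` and `(z - c) ^ (p ^ N) ∈ O'` for some `c ∈ O'`, then `z` is a unit of `O'`
(`p O' `-adically: `p R' ⊆ O'`).

`h26y_lemmaA` : if `g₀ ^ r ∈ O^× (1 + π Vn)` and the branch constants `c i ∈ O`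
(`g₀ ≡ c i` modulo `f i` on the `i`-th branch) are congruent modulo `mO` (the branch condition),
then there is a unit `η` of `O` with `g₀ η ∈ 1 + π Vn`.
-/

set_option autoImplicit false

namespace Fermat.Agent.S36

section FrobBezout

variable {F : Type*} [Field F]

theorem h26y_zpow_mem (V : Subring F) {x : F} (hx : x ∈ V) (hx' : x⁻¹ ∈ V) (z : ℤ) :
    x ^ z ∈ V := by
  obtain ⟨n, rfl | rfl⟩ := z.eq_nat_or_neg
  · rw [zpow_natCast]; exact pow_mem hx n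
  · rw [zpow_neg, zpow_natCast, ← inv_pow]; exact pow_mem hx' n

/-- `(x + y) ^ (p ^ N) ∈ x ^ (p ^ N) + y ^ (p ^ N) + p R'` inside a subring `R'`. -/
theorem h26y_add_pow_prime_pow (R' : Subring F) (p : ℕ) (hp : p.Prime) (x y : F)
    (hx : x ∈ R') (hy : y ∈ R') (N : ℕ) :
    ∃ ρ ∈ R', (x + y) ^ p ^ N = x ^ p ^ N + y ^ p ^ N + (p : F) * ρ := by
  obtain ⟨ρ, hρ⟩ := exists_add_pow_prime_pow_eq hp (⟨x, hx⟩ : R') ⟨y, hy⟩ N
  refine ⟨x * y * (ρ : F), R'.mul_mem (R'.mul_mem hx hy) ρ.2, ?_⟩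
  have h := congrArg (Subtype.val : R' → F) hρ
  simp only [Subring.coe_add, Subring.coe_mul, Subring.coe_pow,
    Subring.coe_natCast] at h
  rw [h]
  ring

/-- **Frobenius--Bezout.**  `O' ≤ R'` subrings of a field, `p R' ⊆ O'`, `r` prime to `p`.
If `z ∈ R'`, `z ^ r` is a unit of `O'` and `(z - c) ^ (p ^ N) ∈ O'` with `c ∈ O'`, then `z` is a
unit of `O'`. -/
theorem h26y_frob_bezout (O' R' : Subring F) (hle : O' ≤ R') (p : ℕ) (hp : p.Prime)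
    (hpR : ∀ x ∈ R', (p : F) * x ∈ O') (r : ℕ) (hr : Nat.Coprime r p)
    (z : F) (hzR : z ∈ R') (hzr : z ^ r ∈ O') (hzr' : (z ^ r)⁻¹ ∈ O')
    (c : F) (hc : c ∈ O') (N : ℕ) (hN : (z - c) ^ p ^ N ∈ O') :
    z ∈ O' ∧ z⁻¹ ∈ O' := by
  rcases eq_or_ne z 0 with rfl | hz0
  · simp [O'.zero_mem]
  have hr0 : r ≠ 0 := by
    rintro rfl
    rw [Nat.coprime_zero_left] at hr
    exact hp.one_lt.ne' hr
  -- `z ^ (p ^ N) ∈ O'`
  have hzp : z ^ p ^ N ∈ O' := by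
    obtain ⟨ρ, hρ, h⟩ := h26y_add_pow_prime_pow R' p hp (z - c) c
      (R'.sub_mem hzR (hle hc)) (hle hc) N
    rw [sub_add_cancel] at h
    rw [h]
    exact O'.add_mem (O'.add_mem hN (O'.pow_mem hc _)) (hpR ρ hρ)
  have hzp' : (z ^ p ^ N)⁻¹ ∈ O' := by
    have e : (z ^ p ^ N)⁻¹ = (z ^ p ^ N) ^ (r - 1) * ((z ^ r)⁻¹) ^ p ^ N := by
      have h1 : (z ^ p ^ N) ^ (r - 1) * ((z ^ r)⁻¹) ^ p ^ N * z ^ p ^ N = 1 := by
        have h2 : (z ^ p ^ N) ^ (r - 1) * z ^ p ^ N = (z ^ r) ^ p ^ N := by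
          rw [← pow_succ, Nat.sub_add_cancel (Nat.one_le_iff_ne_zero.mpr hr0), ← pow_mul,
            ← pow_mul, mul_comm]
        calc (z ^ p ^ N) ^ (r - 1) * ((z ^ r)⁻¹) ^ p ^ N * z ^ p ^ N
            = ((z ^ p ^ N) ^ (r - 1) * z ^ p ^ N) * ((z ^ r)⁻¹) ^ p ^ N := by ring
          _ = (z ^ r) ^ p ^ N * ((z ^ r)⁻¹) ^ p ^ N := by rw [h2]
          _ = 1 := by
            rw [← mul_pow, mul_inv_cancel₀ (pow_ne_zero _ hz0), one_pow]
      exact (eq_inv_of_mul_eq_one_left h1).symm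
    rw [e]
    exact O'.mul_mem (O'.pow_mem hzp _) (O'.pow_mem hzr' _)
  -- Bezout
  have hcop : IsCoprime (r : ℤ) ((p ^ N : ℕ) : ℤ) :=
    Nat.isCoprime_iff_coprime.mpr (Nat.Coprime.pow_right N hr)
  obtain ⟨a, b, hab⟩ := hcop
  have hz1 : z = (z ^ r) ^ a * (z ^ p ^ N) ^ b := by
    rw [← zpow_natCast z r, ← zpow_natCast z (p ^ N), ← zpow_mul, ← zpow_mul,
      ← zpow_add₀ hz0]
    have : (r : ℤ) * a + ((p ^ N : ℕ) : ℤ) * b = 1 := by rw [← hab]; ring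
    rw [this, zpow_one]
  have hz2 : z⁻¹ = (z ^ r) ^ (-a) * (z ^ p ^ N) ^ (-b) := by
    rw [zpow_neg, zpow_neg, ← mul_inv, ← hz1]
  refine ⟨?_, ?_⟩
  · rw [hz1]
    exact O'.mul_mem (h26y_zpow_mem O' hzr hzr' a) (h26y_zpow_mem O' hzp hzp' b)
  · rw [hz2]
    exact O'.mul_mem (h26y_zpow_mem O' hzr hzr' _) (h26y_zpow_mem O' hzp hzp' _)

end FrobBezout

section Sum

variable {F : Type*} [Field F]

/-- the subring `O + π Vn` of `F` (`O ≤ Vn`, `π ∈ Vn`). -/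
def h26ySum (O Vn : Subring F) (hOV : O ≤ Vn) (π : F) (hπ : π ∈ Vn) : Subring F where
  carrier := {x | ∃ o ∈ O, ∃ y ∈ Vn, x = o + π * y}
  mul_mem' := by
    rintro _ _ ⟨o, ho, y, hy, rfl⟩ ⟨o', ho', y', hy', rfl⟩
    refine ⟨o * o', O.mul_mem ho ho', o * y' + o' * y + π * y * y', ?_, by ring⟩
    exact Vn.add_mem (Vn.add_mem (Vn.mul_mem (hOV ho) hy') (Vn.mul_mem (hOV ho') hy))
      (Vn.mul_mem (Vn.mul_mem hπ hy) hy')
  one_mem' := ⟨1, O.one_mem, 0, Vn.zero_mem, by simp⟩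
  add_mem' := by
    rintro _ _ ⟨o, ho, y, hy, rfl⟩ ⟨o', ho', y', hy', rfl⟩
    exact ⟨o + o', O.add_mem ho ho', y + y', Vn.add_mem hy hy', by ring⟩
  zero_mem' := ⟨0, O.zero_mem, 0, Vn.zero_mem, by simp⟩
  neg_mem' := by
    rintro _ ⟨o, ho, y, hy, rfl⟩
    exact ⟨-o, O.neg_mem ho, -y, Vn.neg_mem hy, by ring⟩

theorem h26y_mem_sum {O Vn : Subring F} {hOV : O ≤ Vn} {π : F} {hπ : π ∈ Vn} {x : F} :
    x ∈ h26ySum O Vn hOV π hπ ↔ ∃ o ∈ O, ∃ y ∈ Vn, x = o + π * y := Iff.rfl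

theorem h26y_sum_le (O Vn : Subring F) (hOV : O ≤ Vn) (π : F) (hπ : π ∈ Vn) :
    h26ySum O Vn hOV π hπ ≤ Vn := by
  rintro _ ⟨o, ho, y, hy, rfl⟩
  exact Vn.add_mem (hOV ho) (Vn.mul_mem hπ hy)

theorem h26y_le_sum (O Vn : Subring F) (hOV : O ≤ Vn) (π : F) (hπ : π ∈ Vn) :
    O ≤ h26ySum O Vn hOV π hπ :=
  fun o ho => ⟨o, ho, 0, Vn.zero_mem, by simp⟩

theorem h26y_mul_mem_sum (O Vn : Subring F) (hOV : O ≤ Vn) (π : F) (hπ : π ∈ Vn)
    {y : F} (hy : y ∈ Vn) : π * y ∈ h26ySum O Vn hOV π hπ :=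
  ⟨0, O.zero_mem, y, hy, by simp⟩

/-- units of `O + π Vn` are of the form `o (1 + π y)` with `o` a unit of `O`. -/
theorem h26y_unit_of_sum (O Vn : Subring F) (hOV : O ≤ Vn) (π : F) (hπ : π ∈ Vn)
    (mO : Set F)
    (hm_unit : ∀ x ∈ O, x ∉ mO → x⁻¹ ∈ O)
    (hm_add : ∀ x ∈ mO, ∀ y ∈ mO, x + y ∈ mO)
    (hm_mul : ∀ a ∈ O, ∀ x ∈ mO, a * x ∈ mO)
    (hm_one : (1 : F) ∉ mO)
    (hπm : ∀ x ∈ Vn, π * x ∈ O → π * x ∈ mO)
    (z : F) (hz : z ∈ h26ySum O Vn hOV π hπ) (hz' : z⁻¹ ∈ h26ySum O Vn hOV π hπ)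
    (hz0 : z ≠ 0) :
    ∃ η ∈ O, η⁻¹ ∈ O ∧ ∃ y ∈ Vn, z * η = 1 + π * y := by
  obtain ⟨o₁, ho₁, y₁, hy₁, h1⟩ := hz
  obtain ⟨o₂, ho₂, y₂, hy₂, h2⟩ := hz'
  have hprod : (1 : F) = o₁ * o₂ + π * (o₁ * y₂ + o₂ * y₁ + π * y₁ * y₂) := by
    have h3 : z * z⁻¹ = 1 := mul_inv_cancel₀ hz0
    rw [h2] at h3
    rw [h1] at h3
    rw [← h3]
    ring
  have hyV : o₁ * y₂ + o₂ * y₁ + π * y₁ * y₂ ∈ Vn :=
    Vn.add_mem (Vn.add_mem (Vn.mul_mem (hOV ho₁) hy₂) (Vn.mul_mem (hOV ho₂) hy₁))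
      (Vn.mul_mem (Vn.mul_mem hπ hy₁) hy₂)
  have hπO : π * (o₁ * y₂ + o₂ * y₁ + π * y₁ * y₂) ∈ O := by
    have : π * (o₁ * y₂ + o₂ * y₁ + π * y₁ * y₂) = 1 - o₁ * o₂ := by
      linear_combination -hprod
    rw [this]
    exact O.sub_mem O.one_mem (O.mul_mem ho₁ ho₂)
  have hπmem := hπm _ hyV hπO
  have ho₁m : o₁ ∉ mO := by
    intro h
    apply hm_one
    rw [hprod]
    refine hm_add _ ?_ _ hπmem
    rw [mul_comm]
    exact hm_mul o₂ ho₂ o₁ h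
  have ho₁0 : o₁ ≠ 0 := by
    rintro rfl
    apply ho₁m
    have := hm_mul 0 O.zero_mem _ hπmem
    rwa [zero_mul] at this
  refine ⟨o₁⁻¹, hm_unit o₁ ho₁ ho₁m, by rwa [inv_inv], y₁ * o₁⁻¹,
    Vn.mul_mem hy₁ (hOV (hm_unit o₁ ho₁ ho₁m)), ?_⟩
  rw [h1]
  field_simp

end Sum

section Conductor

variable {F : Type*} [Field F] {ι : Type*}

/-- `∏_{j ∈ T} (fᵢ aⱼ + fⱼ bⱼ) ∈ fᵢ O + (∏_{j ∈ T} fⱼ) O`. -/
theorem h26y_prod_expand (O : Subring F) (fi : F) (hfi : fi ∈ O) (f : ι → F)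
    (hf : ∀ j, f j ∈ O) (T : Finset ι) (a b : ι → F) (ha : ∀ j, a j ∈ O)
    (hb : ∀ j, b j ∈ O) :
    ∃ A ∈ O, ∃ B ∈ O, ∏ j ∈ T, (fi * a j + f j * b j) = fi * A + (∏ j ∈ T, f j) * B := by
  classical
  induction T using Finset.induction_on with
  | empty => exact ⟨0, O.zero_mem, 1, O.one_mem, by simp⟩
  | insert j T hj ih =>
    obtain ⟨A, hA, B, hB, h⟩ := ih
    rw [Finset.prod_insert hj, Finset.prod_insert hj, h]
    refine ⟨a j * (fi * A + (∏ j ∈ T, f j) * B) + f j * b j * A, ?_, b j * B,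
      O.mul_mem (hb j) hB, by ring⟩
    exact O.add_mem (O.mul_mem (ha j) (O.add_mem (O.mul_mem hfi hA)
      (O.mul_mem (O.prod_mem (fun k _ => hf k)) hB)))
      (O.mul_mem (O.mul_mem (hf j) (hb j)) hA)

variable [Fintype ι] [DecidableEq ι]

/-- a power of an element of `mO` lies in `fᵢ O + (∏_{j ≠ i} fⱼ) O`. -/
theorem h26y_pow_mem_cond (O : Subring F) (mO : Set F) (f : ι → F) (hf : ∀ i, f i ∈ O)
    (n : ℕ) (hprim : ∀ i j, i ≠ j → ∀ x ∈ mO, ∃ a ∈ O, ∃ b ∈ O, x ^ n = f i * a + f j * b)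
    (i : ι) (m : F) (hmO : m ∈ O) (hm : m ∈ mO) (K : ℕ)
    (hK : n * Fintype.card ι ≤ K) :
    ∃ A ∈ O, ∃ B ∈ O, m ^ K = f i * A + (∏ j ∈ Finset.univ.erase i, f j) * B := by
  have hex : ∀ j : ι, ∃ a ∈ O, ∃ b ∈ O, j ≠ i → m ^ n = f i * a + f j * b := by
    intro j
    by_cases hj : j = i
    · exact ⟨0, O.zero_mem, 0, O.zero_mem, fun h => (h hj).elim⟩
    · obtain ⟨a, ha, b, hb, h⟩ := hprim i j (Ne.symm hj) m hm
      exact ⟨a, ha, b, hb, fun _ => h⟩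
  choose a ha b hb hab using hex
  obtain ⟨A, hA, B, hB, h⟩ := h26y_prod_expand O (f i) (hf i) f hf (Finset.univ.erase i) a b
    ha hb
  have h1 : ∏ j ∈ Finset.univ.erase i, (f i * a j + f j * b j) =
      m ^ (n * (Finset.univ.erase i).card) := by
    rw [pow_mul, ← Finset.prod_const]
    exact Finset.prod_congr rfl (fun j hj => (hab j (Finset.ne_of_mem_erase hj)).symm)
  have hle : n * (Finset.univ.erase i).card ≤ K := by
    refine le_trans (Nat.mul_le_mul_left n ?_) hK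
    exact Finset.card_le_univ _
  refine ⟨m ^ (K - n * (Finset.univ.erase i).card) * A, O.mul_mem (O.pow_mem hmO _) hA,
    m ^ (K - n * (Finset.univ.erase i).card) * B, O.mul_mem (O.pow_mem hmO _) hB, ?_⟩
  calc m ^ K = m ^ (K - n * (Finset.univ.erase i).card) *
        m ^ (n * (Finset.univ.erase i).card) := by
        rw [← pow_add, Nat.sub_add_cancel hle]
    _ = m ^ (K - n * (Finset.univ.erase i).card) *
        (f i * A + (∏ j ∈ Finset.univ.erase i, f j) * B) := by rw [← h1, h]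
    _ = _ := by ring

/-- **the conductor step**: if `x ≡ mᵢ` modulo `fᵢ` on the `i`-th branch, with `mᵢ ∈ mO`, then
a `p`-power power of `x` lies in `O + π Vn`. -/
theorem h26y_pow_mem_sum (O Vn : Subring F) (hOV : O ≤ Vn) (π : F) (hπ : π ∈ Vn)
    (mO : Set F) (p : ℕ) (hp : p.Prime) (hpπ : ∃ y ∈ Vn, (p : F) = π * y)
    (W : ι → Subring F) (hVW : ∀ i, Vn ≤ W i)
    (f : ι → F) (hf : ∀ i, f i ∈ O)
    (n : ℕ) (hprim : ∀ i j, i ≠ j → ∀ x ∈ mO, ∃ a ∈ O, ∃ b ∈ O, x ^ n = f i * a + f j * b)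
    (E : ℕ) (hrad : ∀ x ∈ Vn, (∀ i, ∃ y ∈ W i, x = f i * y) → ∃ y ∈ Vn, x ^ E = π * y)
    (x : F) (hx : x ∈ Vn)
    (m : ι → F) (hmO : ∀ i, m i ∈ O) (hm : ∀ i, m i ∈ mO)
    (hxm : ∀ i, ∃ y ∈ W i, x = m i + f i * y) :
    ∃ N : ℕ, x ^ p ^ N ∈ h26ySum O Vn hOV π hπ := by
  classical
  set N₀ : ℕ := n * Fintype.card ι with hN₀
  set K : ℕ := p ^ N₀ with hK
  have hKle : n * Fintype.card ι ≤ K := (Nat.lt_pow_self hp.one_lt).le
  have hK1 : 1 ≤ K := Nat.one_le_pow _ _ hp.pos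
  have hex := fun i => h26y_pow_mem_cond O mO f hf n hprim i (m i) (hmO i) (hm i) K hKle
  choose A hA B hB hAB using hex
  set o : F := ∑ i, (∏ j ∈ Finset.univ.erase i, f j) * B i with ho
  have hoO : o ∈ O :=
    O.sum_mem (fun i _ => O.mul_mem (O.prod_mem (fun j _ => hf j)) (hB i))
  -- `x ^ K - o ∈ fᵢ Wᵢ`
  have hdiv : ∀ i, ∃ y ∈ W i, x ^ K - o = f i * y := by
    intro i
    obtain ⟨y, hy, hxy⟩ := hxm i
    have hxW : x ∈ W i := hVW i hx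
    have hmW : m i ∈ W i := hVW i (hOV (hmO i))
    have hOW : ∀ z ∈ O, z ∈ W i := fun z hz => hVW i (hOV hz)
    have h1 : x ^ K - m i ^ K =
        f i * (y * ∑ t ∈ Finset.range K, x ^ t * m i ^ (K - 1 - t)) := by
      rw [← geom_sum₂_mul x (m i) K]
      have : x - m i = f i * y := by rw [hxy]; ring
      rw [this]; ring
    have h2 : o = (∏ j ∈ Finset.univ.erase i, f j) * B i +
        f i * ∑ j ∈ Finset.univ.erase i, (∏ k ∈ (Finset.univ.erase j).erase i, f k) * B j := by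
      rw [ho, ← Finset.add_sum_erase Finset.univ _ (Finset.mem_univ i), Finset.mul_sum]
      congr 1
      refine Finset.sum_congr rfl (fun j hj => ?_)
      have hij : i ∈ Finset.univ.erase j :=
        Finset.mem_erase.mpr ⟨(Finset.ne_of_mem_erase hj).symm, Finset.mem_univ i⟩
      rw [← Finset.mul_prod_erase _ _ hij]
      ring
    refine ⟨y * ∑ t ∈ Finset.range K, x ^ t * m i ^ (K - 1 - t) + A i -
        ∑ j ∈ Finset.univ.erase i, (∏ k ∈ (Finset.univ.erase j).erase i, f k) * B j, ?_, ?_⟩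
    · refine (W i).sub_mem ((W i).add_mem ((W i).mul_mem hy ?_) (hOW _ (hA i))) ?_
      · exact (W i).sum_mem (fun t _ => (W i).mul_mem ((W i).pow_mem hxW _)
          ((W i).pow_mem hmW _))
      · exact (W i).sum_mem (fun j _ => (W i).mul_mem
          ((W i).prod_mem (fun k _ => hOW _ (hf k))) (hOW _ (hB j)))
    · have h3 : x ^ K - o = (x ^ K - m i ^ K) + (m i ^ K - o) := by ring
      rw [h3, h1, hAB i, h2]
      ring
  have hzV : x ^ K - o ∈ Vn := Vn.sub_mem (Vn.pow_mem hx _) (hOV hoO)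
  obtain ⟨y, hy, hyE⟩ := hrad _ hzV hdiv
  -- a `p`-power `≥ E`
  set k : ℕ := E with hk
  have hEle : E ≤ p ^ k := (Nat.lt_pow_self hp.one_lt).le
  have hzp : (x ^ K - o) ^ p ^ k ∈ h26ySum O Vn hOV π hπ := by
    have : (x ^ K - o) ^ p ^ k = π * (y * (x ^ K - o) ^ (p ^ k - E)) := by
      rw [← Nat.sub_add_cancel hEle, pow_add, hyE, Nat.add_sub_cancel]
      ring
    rw [this]
    exact h26y_mul_mem_sum O Vn hOV π hπ (Vn.mul_mem hy (Vn.pow_mem hzV _))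
  refine ⟨N₀ + k, ?_⟩
  obtain ⟨ρ, hρ, h⟩ := h26y_add_pow_prime_pow Vn p hp (x ^ K - o) o hzV (hOV hoO) k
  rw [sub_add_cancel] at h
  rw [pow_add, pow_mul, ← hK, h]
  refine Subring.add_mem _ (Subring.add_mem _ hzp ?_) ?_
  · exact h26y_le_sum O Vn hOV π hπ (O.pow_mem hoO _)
  · obtain ⟨y', hy', hpy⟩ := hpπ
    rw [hpy, mul_assoc]
    exact h26y_mul_mem_sum O Vn hOV π hπ (Vn.mul_mem hy' hρ)

end Conductor

section Main

variable {F : Type*} [Field F] {ι : Type*} [Fintype ι] [DecidableEq ι] [Nonempty ι]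

/-- **Lemma A** (local lemma of the gate at a closed point of the special fibre).

`O` the local ring at the point (maximal ideal `mO`), `Vn` the semi-local Gauss ring at the
point, branches `W i`, `f i`.  If `g₀ ^ r = ε (1 + π v)` with `ε` a unit of `O`, and the branch
constants `c i` of `g₀` are congruent modulo `mO`, then `g₀ η ∈ 1 + π Vn` for a unit `η` of
`O`. -/
theorem h26y_lemmaA (O Vn : Subring F) (hOV : O ≤ Vn) (π : F) (hπ : π ∈ Vn)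
    (mO : Set F)
    (hm_unit : ∀ x ∈ O, x ∉ mO → x⁻¹ ∈ O)
    (hm_add : ∀ x ∈ mO, ∀ y ∈ mO, x + y ∈ mO)
    (hm_mul : ∀ a ∈ O, ∀ x ∈ mO, a * x ∈ mO)
    (hm_one : (1 : F) ∉ mO)
    (hπm : ∀ x ∈ Vn, π * x ∈ O → π * x ∈ mO)
    (p : ℕ) (hp : p.Prime) (hpπ : ∃ y ∈ Vn, (p : F) = π * y)
    (r : ℕ) (hr : Nat.Coprime r p)
    (W : ι → Subring F) (hVW : ∀ i, Vn ≤ W i)
    (f : ι → F) (hf : ∀ i, f i ∈ O)
    (n : ℕ) (hprim : ∀ i j, i ≠ j → ∀ x ∈ mO, ∃ a ∈ O, ∃ b ∈ O, x ^ n = f i * a + f j * b)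
    (E : ℕ) (hrad : ∀ x ∈ Vn, (∀ i, ∃ y ∈ W i, x = f i * y) → ∃ y ∈ Vn, x ^ E = π * y)
    (g₀ : F) (hg₀ : g₀ ≠ 0) (hg₀V : g₀ ∈ Vn)
    (ε : F) (hε : ε ∈ O) (hε' : ε⁻¹ ∈ O) (v : F) (hv : v ∈ Vn)
    (hVinv : (1 + π * v)⁻¹ ∈ Vn) (hgr : g₀ ^ r = ε * (1 + π * v))
    (c : ι → F) (hc : ∀ i, c i ∈ O) (hcg : ∀ i, ∃ y ∈ W i, g₀ = c i + f i * y)
    (hbr : ∀ i j, c i - c j ∈ mO) :
    ∃ η ∈ O, η⁻¹ ∈ O ∧ ∃ y ∈ Vn, g₀ * η = 1 + π * y := by
  classical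
  obtain ⟨i₀⟩ := ‹Nonempty ι›
  -- the conductor step
  obtain ⟨N, hN⟩ := h26y_pow_mem_sum O Vn hOV π hπ mO p hp hpπ W hVW f hf n hprim E hrad
    (g₀ - c i₀) (Vn.sub_mem hg₀V (hOV (hc i₀))) (fun i => c i - c i₀)
    (fun i => O.sub_mem (hc i) (hc i₀)) (fun i => hbr i i₀)
    (fun i => by
      obtain ⟨y, hy, h⟩ := hcg i
      exact ⟨y, hy, by rw [h]; ring⟩)
  -- `g₀ ^ r` is a unit of `O + π Vn`
  have hr0 : r ≠ 0 := by
    rintro rfl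
    rw [Nat.coprime_zero_left] at hr
    exact hp.one_lt.ne' hr
  have h1 : (1 + π * v) ≠ 0 := by
    intro h
    rw [h, mul_zero] at hgr
    exact hg₀ ((pow_eq_zero_iff hr0).mp hgr)
  have hgrS : g₀ ^ r ∈ h26ySum O Vn hOV π hπ :=
    ⟨ε, hε, ε * v, Vn.mul_mem (hOV hε) hv, by rw [hgr]; ring⟩
  have hgrS' : (g₀ ^ r)⁻¹ ∈ h26ySum O Vn hOV π hπ := by
    refine ⟨ε⁻¹, hε', -(ε⁻¹ * v * (1 + π * v)⁻¹),
      Vn.neg_mem (Vn.mul_mem (Vn.mul_mem (hOV hε') hv) hVinv), ?_⟩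
    rw [hgr, mul_inv]
    field_simp
    ring
  have hpR : ∀ x ∈ Vn, (p : F) * x ∈ h26ySum O Vn hOV π hπ := by
    intro x hx
    obtain ⟨y', hy', hpy⟩ := hpπ
    rw [hpy, mul_assoc]
    exact h26y_mul_mem_sum O Vn hOV π hπ (Vn.mul_mem hy' hx)
  obtain ⟨hz, hz'⟩ := h26y_frob_bezout (h26ySum O Vn hOV π hπ) Vn (h26y_sum_le O Vn hOV π hπ)
    p hp hpR r hr g₀ hg₀V hgrS hgrS' (c i₀) (h26y_le_sum O Vn hOV π hπ (hc i₀)) N hN
  exact h26y_unit_of_sum O Vn hOV π hπ mO hm_unit hm_add hm_mul hm_one hπm g₀ hz hz' hg₀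

end Main

end Fermat.Agent.S36
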