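import Fermat.Agent.S36.H26UnitNormAbs
import Fermat.Agent.S36.H11TorSkel
import Fermat.Agent.Red.KR.Basic

/-!
# S36, row T-UNIT: the norm of a local unit is a local unit (helper26)

`h26u_unitAt_norm` : the abstract norm lemma `h26u_norm_unit_abs` in the vocabulary of
`H11TorSkel` (`h11t_UnitAt`, `h11t_Under`, `normAlong`): for `φ : FF N' → FF N` finite, charts
`B' = h92c_Chart A N' t'`, `B = h92c_Chart A N t` with `φ B' ⊆ B`, `B` integral over `φ B'`,
norms of `B` in `B'`, `𝔫' = φ⁻¹ 𝔫` maximal and `𝔫` the only maximal ideal of `B` over `𝔫'`: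
the norm along `φ` of a unit of `B_𝔫` is a unit of `B'_𝔫'`.
-/

set_option autoImplicit false
set_option linter.style.haveILetI false
set_option linter.unusedVariables false

open AlgebraicCurve ModularCurve Polynomial

noncomputable section

namespace Fermat.Agent.S36

open Fermat.Agent.S37 (Kbar GQ FF cst jB gal modelAt)
open Fermat.Agent.Red.KR (normAlong)

/-- **T-UNIT, abstract step in the vocabulary of `H11TorSkel`.** -/
theorem h26u_unitAt_norm (A : ValuationSubring Kbar) {N' N : ℕ}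
    (φ : FF N' →ₐ[Kbar] FF N) (hfin : FiniteAlong Kbar φ) (t' : FF N') (t : FF N)
    (hφB : ∀ b' ∈ h92c_Chart A N' t', φ b' ∈ h92c_Chart A N t)
    (hint : ∀ b ∈ h92c_Chart A N t, ∃ p : Polynomial (h92c_Chart A N' t'), p.Monic ∧
      eval₂ ((φ : FF N' →+* FF N).comp (h92c_Chart A N' t').subtype) b p = 0)
    (hnorm : ∀ b ∈ h92c_Chart A N t, normAlong φ b ∈ h92c_Chart A N' t')
    (𝔫' : Ideal (h92c_Chart A N' t')) (h𝔫' : 𝔫'.IsMaximal) (𝔫 : Ideal (h92c_Chart A N t))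
    (hunder : h11t_Under A (φ : FF N' →+* FF N) t' t 𝔫' 𝔫)
    (huniq : ∀ 𝔮 : Ideal (h92c_Chart A N t), 𝔮.IsMaximal →
      h11t_Under A (φ : FF N' →+* FF N) t' t 𝔫' 𝔮 → 𝔮 = 𝔫)
    (u : FF N) (hu : h11t_UnitAt A t 𝔫 u) :
    h11t_UnitAt A t' 𝔫' (normAlong φ u) := by
  letI := algebraAlong φ
  haveI : Module.Finite (FF N') (FF N) := hfin
  obtain ⟨hu0, s, hs, hsu, hsu'⟩ := hu
  exact h26u_norm_unit_abs (F' := FF N') (F := FF N) (h92c_Chart A N' t') (h92c_Chart A N t)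
    hφB hint hnorm 𝔫' h𝔫' 𝔫 hunder huniq u hu0 s hs hsu hsu'

end Fermat.Agent.S36
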