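import Mathlib

/-!
# S36, row T-UNIT: the abstract norm lemma (helper26, Mathlib only)

`F / F'` a finite extension of fields, `B' ⊆ F'`, `B ⊆ F` subrings with `B' → B`, `B` integral
over `B'` and norms of elements of `B` in `B'`; `𝔫` a maximal ideal of `B`, `𝔫' = 𝔫 ∩ B'` a
maximal ideal of `B'`, and `𝔫` the ONLY maximal ideal of `B` over `𝔫'`.

* `h26u_exists_den` : every `s ∈ B ∖ 𝔫` divides (in `B`) the image of some `c ∈ B' ∖ 𝔫'`
  (`B_𝔫 = B ⊗ B'_𝔫'`; lying-over above the ideal `(s)`);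
* `h26u_norm_unit_abs` : **the norm of a unit of `B_𝔫` is a unit of `B'_𝔫'`**, elementwise:
  `u ≠ 0`, `s u ∈ B`, `s u⁻¹ ∈ B`, `s ∉ 𝔫`  ⟹  `N u ≠ 0` and `s' N u ∈ B'`, `s' (N u)⁻¹ ∈ B'` for
  some `s' ∈ B' ∖ 𝔫'`.
-/

set_option autoImplicit false
set_option linter.style.haveILetI false
set_option linter.unusedSectionVars false
set_option linter.unusedVariables false

open Polynomial

namespace Fermat.Agent.S36

section Den

variable {B' B : Type*} [CommRing B'] [CommRing B] [Algebra B' B] [Algebra.IsIntegral B' B]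

/-- if `𝔫` is the only maximal ideal of `B` over the maximal ideal `𝔫'` of `B'`, then every
`s ∉ 𝔫` divides the image of some `c ∉ 𝔫'`. -/
theorem h26u_exists_den (𝔫' : Ideal B') (h𝔫' : 𝔫'.IsMaximal) (𝔫 : Ideal B)
    (huniq : ∀ 𝔮 : Ideal B, 𝔮.IsMaximal → 𝔮.comap (algebraMap B' B) = 𝔫' → 𝔮 = 𝔫)
    (s : B) (hs : s ∉ 𝔫) :
    ∃ c : B', c ∉ 𝔫' ∧ ∃ b : B, algebraMap B' B c = s * b := by
  classical
  by_contra hcon0
  have hcon : ∀ c : B', c ∉ 𝔫' → ∀ b : B, algebraMap B' B c ≠ s * b :=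
    fun c hc b h => hcon0 ⟨c, hc, b, h⟩
  haveI := h𝔫'.isPrime
  have hIP : (Ideal.span {s}).comap (algebraMap B' B) ≤ 𝔫' := by
    intro c hc
    rw [Ideal.mem_comap, Ideal.mem_span_singleton'] at hc
    obtain ⟨b, hb⟩ := hc
    by_contra hcn
    exact hcon c hcn b (by rw [← hb, mul_comm])
  obtain ⟨Q, hQle, hQprime, hQ⟩ :=
    Ideal.exists_ideal_over_prime_of_isIntegral 𝔫' (Ideal.span {s}) hIP
  have hQmax : Q.IsMaximal :=
    Ideal.isMaximal_of_isIntegral_of_isMaximal_comap (R := B') Q (by rw [hQ]; exact h𝔫')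
  have hQ𝔫 : Q = 𝔫 := huniq Q hQmax hQ
  apply hs
  rw [← hQ𝔫]
  exact hQle (Ideal.mem_span_singleton_self s)

end Den

section Norm

variable {F' F : Type*} [Field F'] [Field F] [Algebra F' F] [Module.Finite F' F]

/-- **the norm of a unit of `B_𝔫` is a unit of `B'_𝔫'`** when `𝔫` is the only maximal ideal
over `𝔫'`. -/
theorem h26u_norm_unit_abs (B' : Subring F') (B : Subring F)
    (hφB : ∀ b' ∈ B', algebraMap F' F b' ∈ B)
    (hint : ∀ b ∈ B, ∃ p : Polynomial B', p.Monic ∧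
      eval₂ ((algebraMap F' F).comp B'.subtype) b p = 0)
    (hnorm : ∀ b ∈ B, Algebra.norm F' b ∈ B')
    (𝔫' : Ideal B') (h𝔫' : 𝔫'.IsMaximal) (𝔫 : Ideal B)
    (hunder : ∀ b' : B', b' ∈ 𝔫' ↔ ∃ b : B, b ∈ 𝔫 ∧ (b : F) = algebraMap F' F (b' : F'))
    (huniq : ∀ 𝔮 : Ideal B, 𝔮.IsMaximal →
      (∀ b' : B', b' ∈ 𝔫' ↔ ∃ b : B, b ∈ 𝔮 ∧ (b : F) = algebraMap F' F (b' : F')) → 𝔮 = 𝔫)
    (u : F) (hu : u ≠ 0) (s : B) (hs : s ∉ 𝔫) (hsu : (s : F) * u ∈ B)
    (hsu' : (s : F) * u⁻¹ ∈ B) :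
    Algebra.norm F' u ≠ 0 ∧ ∃ s' : B', s' ∉ 𝔫' ∧
      (s' : F') * Algebra.norm F' u ∈ B' ∧ (s' : F') * (Algebra.norm F' u)⁻¹ ∈ B' := by
  classical
  -- the structure map `B' → B`
  let ι : B' →+* B := ((algebraMap F' F).comp B'.subtype).codRestrict B (fun b' => hφB b' b'.2)
  letI aB : Algebra B' B := ι.toAlgebra
  have hι : ∀ b' : B', ((algebraMap B' B b' : B) : F) = algebraMap F' F (b' : F') := fun _ => rfl
  haveI : Algebra.IsIntegral B' B := by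
    refine ⟨fun b => ?_⟩
    obtain ⟨p, hp, hroot⟩ := hint b b.2
    refine ⟨p, hp, ?_⟩
    apply Subtype.ext
    have h1 := Polynomial.hom_eval₂ p (algebraMap B' B) B.subtype b
    show B.subtype _ = _
    rw [h1]
    exact hroot
  have hcomap : ∀ 𝔮 : Ideal B, 𝔮.comap (algebraMap B' B) = 𝔫' →
      (∀ b' : B', b' ∈ 𝔫' ↔ ∃ b : B, b ∈ 𝔮 ∧ (b : F) = algebraMap F' F (b' : F')) := by
    intro 𝔮 h𝔮 b'
    rw [← h𝔮, Ideal.mem_comap]
    constructor
    · intro h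
      exact ⟨algebraMap B' B b', h, hι b'⟩
    · rintro ⟨b, hb, hbe⟩
      have : b = algebraMap B' B b' := Subtype.ext (hbe.trans (hι b').symm)
      rw [← this]
      exact hb
  obtain ⟨c, hc, b, hcb⟩ := h26u_exists_den 𝔫' h𝔫' 𝔫
    (fun 𝔮 h𝔮 h => huniq 𝔮 h𝔮 (hcomap 𝔮 h)) s hs
  have hcb' : algebraMap F' F (c : F') = (s : F) * (b : F) := by
    rw [← hι c, hcb]
    rfl
  have hN0 : Algebra.norm F' u ≠ 0 := Algebra.norm_ne_zero_iff.mpr hu
  have hNinv : Algebra.norm F' u⁻¹ = (Algebra.norm F' u)⁻¹ := by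
    apply eq_inv_of_mul_eq_one_right
    rw [← map_mul, mul_inv_cancel₀ hu, map_one]
  haveI := h𝔫'.isPrime
  refine ⟨hN0, c ^ Module.finrank F' F, fun h => hc (Ideal.IsPrime.mem_of_pow_mem inferInstance _ h),
    ?_, ?_⟩
  · have h1 : ((c ^ Module.finrank F' F : B') : F') * Algebra.norm F' u =
        Algebra.norm F' ((b : F) * ((s : F) * u)) := by
      rw [← mul_assoc, mul_comm (b : F) (s : F), ← hcb', map_mul, Algebra.norm_algebraMap]
      rfl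
    rw [h1]
    exact hnorm _ (B.mul_mem b.2 hsu)
  · have h1 : ((c ^ Module.finrank F' F : B') : F') * (Algebra.norm F' u)⁻¹ =
        Algebra.norm F' ((b : F) * ((s : F) * u⁻¹)) := by
      rw [← mul_assoc, mul_comm (b : F) (s : F), ← hcb', map_mul, Algebra.norm_algebraMap,
        hNinv]
      rfl
    rw [h1]
    exact hnorm _ (B.mul_mem b.2 hsu')

end Norm

end Fermat.Agent.S36
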