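import Mathlib
import Fermat.Agent.LGC.NodeRegular

/-!
# S36, block REG, ordinary points (helper2): the Kronecker shape of a monic equation

Abstract step 3(b) of the REG note on the exceptional ordinary points (change of the level-`ℓ`
coordinate `ψ = Y + ε`), Mathlib + `LGC/NodeRegular` only.

Setting: `Λ → B` commutative rings, `ℓ` a positive integer, `P∞`, `P₀` ideals of `B`, `P₀` prime,
both lying over `ℓ Λ` (in the weak form: an element of `Λ` which lands in `P∞` resp. `P₀` is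
divisible by `ℓ`), `ψ ∈ B`, `b, a ∈ Λ` with

  `ψ ≡ b` modulo `P∞`,  `ψ ^ ℓ ≡ a` modulo `P₀`,  `ψ - b ∉ P₀`,

and `1, ψ, …, ψ ^ (ℓ - 1)` linearly independent over `Λ` modulo `P₀` (`hLI`).

* `h2k_shape` : every monic `f ∈ Λ[T]` of degree `ℓ + 1` with `f(ψ) = 0` is of Kronecker shape
  `f = (T - b) (T ^ ℓ - a) + ℓ r`, `deg r ≤ ℓ`, i.e. `f = h62n_poly ℓ b a r`.
* `h2k_key` : consequently (landed `h62n_key`) `(ψ - b) f'(ψ) = ℓ S` with `S ∉ P₀`,
  `f'(ψ) ∈ P₀`, `f'(ψ) ≡ b ^ ℓ - a` modulo `P∞`; no comparison of differents is needed.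
* `h2k_shift_LI`, `h2k_shift_pow` : the hypotheses `hLI`, `ψ ^ ℓ ≡ a` for `ψ = Y + ε`,
  `ε ∈ P₀`, from those for `Y`.
-/

set_option autoImplicit false

open Polynomial

namespace Fermat.Agent.S36

open Fermat.Agent.LGC

section Kron

variable {Λ B : Type*} [CommRing Λ] [CommRing B] [Algebra Λ B]

/-- evaluation of a polynomial at two points congruent modulo an ideal. -/
theorem h2k_aeval_sub_mem (I : Ideal B) (x y : B) (hxy : x - y ∈ I) (p : Λ[X]) :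
    aeval x p - aeval y p ∈ I := by
  have h := Polynomial.sub_dvd_eval_sub x y (p.map (algebraMap Λ B))
  rw [eval_map, eval_map] at h
  obtain ⟨d, hd⟩ := h
  rw [aeval_def, aeval_def, hd]
  exact I.mul_mem_right _ hxy

/-- a polynomial all of whose coefficients are divisible by `c` is `C c * h'` with
`h'` of degree at most that of `h`. -/
theorem h2k_exists_C_mul (c : Λ) (h : Λ[X]) (hdiv : ∀ i, c ∣ h.coeff i) :
    ∃ h' : Λ[X], h'.natDegree ≤ h.natDegree ∧ h = C c * h' := by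
  classical
  choose d hd using hdiv
  refine ⟨∑ i ∈ Finset.range (h.natDegree + 1), C (d i) * X ^ i, ?_, ?_⟩
  · refine natDegree_sum_le_of_forall_le _ _ fun i hi => ?_
    have hi' : i < h.natDegree + 1 := Finset.mem_range.mp hi
    exact (natDegree_C_mul_X_pow_le _ _).trans (by omega)
  · rw [Finset.mul_sum]
    conv_lhs => rw [h.as_sum_range_C_mul_X_pow]
    refine Finset.sum_congr rfl fun i _ => ?_
    rw [hd i, C_mul, mul_assoc]

/-- **the Kronecker shape.** -/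
theorem h2k_shape [Nontrivial Λ] (ℓ : ℕ) (hℓ : ℓ ≠ 0) (Pinf P0 : Ideal B) [hP0 : P0.IsPrime]
    (hcPinf : ∀ x : Λ, algebraMap Λ B x ∈ Pinf → (ℓ : Λ) ∣ x)
    (hcP0 : ∀ x : Λ, algebraMap Λ B x ∈ P0 → (ℓ : Λ) ∣ x)
    (hℓP0 : (ℓ : B) ∈ P0)
    (ψ : B) (b a : Λ)
    (h1 : ψ - algebraMap Λ B b ∈ Pinf)
    (h2 : ψ ^ ℓ - algebraMap Λ B a ∈ P0)
    (h3 : ψ - algebraMap Λ B b ∉ P0)
    (hLI : ∀ g : Λ[X], g.natDegree < ℓ → aeval ψ g ∈ P0 →
      ∀ i, algebraMap Λ B (g.coeff i) ∈ P0)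
    (f : Λ[X]) (hf : f.Monic) (hdeg : f.natDegree = ℓ + 1) (hroot : aeval ψ f = 0) :
    ∃ r : Λ[X], r.natDegree ≤ ℓ ∧ f = h62n_poly ℓ b a r := by
  classical
  -- step 1: `ℓ ∣ f(b)`
  have hfb : (ℓ : Λ) ∣ f.eval b := by
    apply hcPinf
    have h := h2k_aeval_sub_mem Pinf ψ (algebraMap Λ B b) h1 f
    rw [hroot, zero_sub, aeval_algebraMap_apply] at h
    have h' := Pinf.neg_mem h
    rw [neg_neg] at h'
    have h'' : aeval b f = f.eval b := by simp [aeval_def]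
    rw [h''] at h'
    exact h' 
  obtain ⟨c0, hc0⟩ := hfb
  -- step 2: division by `T - b`
  set g : Λ[X] := f /ₘ (X - C b) with hg
  have hdiv : f = (X - C b) * g + C (f.eval b) := by
    have := modByMonic_add_div f (X - C b)
    rw [modByMonic_X_sub_C_eq_C_eval] at this
    rw [hg, add_comm]
    exact this.symm
  have hgdeg : g.natDegree = ℓ := by
    rw [hg, natDegree_divByMonic f (monic_X_sub_C b), hdeg, natDegree_X_sub_C]
    omega
  have hgtop : g.coeff ℓ = 1 := by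
    have h4 : f.coeff (ℓ + 1) = 1 := by
      rw [← hdeg]; exact hf.coeff_natDegree
    have h5 : f.coeff (ℓ + 1) = g.coeff ℓ - b * g.coeff (ℓ + 1) := by
      conv_lhs => rw [hdiv]
      rw [coeff_add, sub_mul, coeff_sub, coeff_X_mul, coeff_C_mul, coeff_C,
        if_neg (Nat.succ_ne_zero ℓ), add_zero]
    have h6 : g.coeff (ℓ + 1) = 0 := coeff_eq_zero_of_natDegree_lt (by omega)
    rw [h6, mul_zero, sub_zero] at h5
    rw [← h5, h4]
  -- step 3: `g(ψ) ∈ P₀`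
  have hℓc0 : algebraMap Λ B (f.eval b) ∈ P0 := by
    rw [hc0, map_mul, map_natCast]
    exact P0.mul_mem_right _ hℓP0
  have hgψ : aeval ψ g ∈ P0 := by
    have h4 : (ψ - algebraMap Λ B b) * aeval ψ g = - algebraMap Λ B (f.eval b) := by
      have h5 := congrArg (aeval ψ) hdiv
      rw [hroot] at h5
      simp only [map_add, map_mul, map_sub, aeval_X, aeval_C] at h5
      linear_combination -h5
    have h6 : (ψ - algebraMap Λ B b) * aeval ψ g ∈ P0 := by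
      rw [h4]; exact P0.neg_mem hℓc0
    rcases hP0.mem_or_mem h6 with h | h
    · exact absurd h h3
    · exact h
  -- step 4: `g ≡ T ^ ℓ - a` modulo `ℓ`
  set h : Λ[X] := g - (X ^ ℓ - C a) with hh
  have hhdeg : h.natDegree < ℓ := by
    have hle : h.natDegree ≤ ℓ := by
      rw [hh]
      refine (natDegree_sub_le _ _).trans (max_le hgdeg.le ?_)
      exact (natDegree_sub_le _ _).trans (max_le (natDegree_X_pow_le _) (by simp))
    have htop : h.coeff ℓ = 0 := by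
      rw [hh, coeff_sub, coeff_sub, hgtop, coeff_X_pow, if_pos rfl, coeff_C, if_neg hℓ]
      ring
    rcases Nat.lt_or_ge h.natDegree ℓ with hlt | hge
    · exact hlt
    · exfalso
      have heq : h.natDegree = ℓ := le_antisymm hle hge
      have hne : h ≠ 0 := by
        intro h0
        rw [h0, natDegree_zero] at heq
        exact hℓ heq.symm
      have := leadingCoeff_ne_zero.mpr hne
      rw [leadingCoeff, heq] at this
      exact this htop
  have hhψ : aeval ψ h ∈ P0 := by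
    have h4 : aeval ψ h = aeval ψ g - (ψ ^ ℓ - algebraMap Λ B a) := by
      rw [hh]
      simp only [map_sub, map_pow, aeval_X, aeval_C]
    rw [h4]
    exact P0.sub_mem hgψ h2
  have hhdiv : ∀ i, (ℓ : Λ) ∣ h.coeff i := fun i => hcP0 _ (hLI h hhdeg hhψ i)
  obtain ⟨h', hh'deg, hh'⟩ := h2k_exists_C_mul (ℓ : Λ) h hhdiv
  -- step 5: assemble
  refine ⟨(X - C b) * h' + C c0, ?_, ?_⟩
  · refine (natDegree_add_le _ _).trans (max_le ?_ (by simp))
    refine natDegree_mul_le.trans ?_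
    rw [natDegree_X_sub_C]
    omega
  · have hgeq : g = (X ^ ℓ - C a) + C (ℓ : Λ) * h' := by
      rw [← hh', hh]; ring
    unfold h62n_poly
    conv_lhs => rw [hdiv, hgeq, hc0]
    rw [C_mul]
    ring

/-- **the key computation for an arbitrary monic equation** of `ψ` of degree `ℓ + 1`:
`(ψ - b) f'(ψ) = ℓ S`, `S ∉ P₀`, `f'(ψ) ∈ P₀`, `f'(ψ) ≡ b ^ ℓ - a` modulo `P∞`. -/
theorem h2k_key [Nontrivial Λ] (ℓ : ℕ) (hℓ : ℓ ≠ 0) (Pinf P0 : Ideal B) [hP0 : P0.IsPrime]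
    (hcPinf : ∀ x : Λ, algebraMap Λ B x ∈ Pinf → (ℓ : Λ) ∣ x)
    (hcP0 : ∀ x : Λ, algebraMap Λ B x ∈ P0 → (ℓ : Λ) ∣ x)
    (hℓPinf : (ℓ : B) ∈ Pinf) (hℓP0 : (ℓ : B) ∈ P0)
    (ψ : B) (b a : Λ)
    (h1 : ψ - algebraMap Λ B b ∈ Pinf)
    (h2 : ψ ^ ℓ - algebraMap Λ B a ∈ P0)
    (h3 : ψ - algebraMap Λ B b ∉ P0)
    (hδ : algebraMap Λ B (b ^ ℓ - a) ∉ P0)
    (hLI : ∀ g : Λ[X], g.natDegree < ℓ → aeval ψ g ∈ P0 →
      ∀ i, algebraMap Λ B (g.coeff i) ∈ P0)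
    (f : Λ[X]) (hf : f.Monic) (hdeg : f.natDegree = ℓ + 1) (hroot : aeval ψ f = 0) :
    ∃ S : B, (ψ - algebraMap Λ B b) * aeval ψ (derivative f) = (ℓ : B) * S ∧ S ∉ P0 ∧
      aeval ψ (derivative f) ∈ P0 ∧
      aeval ψ (derivative f) - algebraMap Λ B (b ^ ℓ - a) ∈ Pinf := by
  obtain ⟨r, hr, hfr⟩ := h2k_shape ℓ hℓ Pinf P0 hcPinf hcP0 hℓP0 ψ b a h1 h2 h3 hLI f hf hdeg hroot
  have hroot' : aeval ψ (h62n_poly ℓ b a r) = 0 := by rw [← hfr]; exact hroot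
  obtain ⟨k1, k2, k3⟩ := h62n_key ℓ hℓ Pinf P0 hℓPinf hℓP0 ψ b a r hr h1 h2 h3 hδ hLI
  refine ⟨h62n_S ℓ b r ψ, ?_, k1, ?_, ?_⟩
  · have := h62n_mul_z ℓ b a r ψ hroot'
    rw [hfr]
    exact this
  · rw [hfr]; exact k2
  · rw [hfr]; exact k3

/-- `ψ ^ ℓ ≡ a` modulo `P₀` for `ψ = Y + ε`, `ε ∈ P₀`. -/
theorem h2k_shift_pow (ℓ : ℕ) (P0 : Ideal B) (Y ε : B) (hε : ε ∈ P0) (a : Λ)
    (h2 : Y ^ ℓ - algebraMap Λ B a ∈ P0) :
    (Y + ε) ^ ℓ - algebraMap Λ B a ∈ P0 := by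
  obtain ⟨d, hd⟩ := sub_dvd_pow_sub_pow (Y + ε) Y ℓ
  have h4 : (Y + ε) ^ ℓ - algebraMap Λ B a = (Y + ε - Y) * d + (Y ^ ℓ - algebraMap Λ B a) := by
    rw [← hd]; ring
  rw [h4]
  refine P0.add_mem (P0.mul_mem_right _ ?_) h2
  simpa using hε

/-- linear independence of the powers of `ψ = Y + ε` modulo `P₀`, `ε ∈ P₀`, from that of the
powers of `Y`. -/
theorem h2k_shift_LI (ℓ : ℕ) (P0 : Ideal B) (Y ε : B) (hε : ε ∈ P0)
    (hLI : ∀ g : Λ[X], g.natDegree < ℓ → aeval Y g ∈ P0 →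
      ∀ i, algebraMap Λ B (g.coeff i) ∈ P0) :
    ∀ g : Λ[X], g.natDegree < ℓ → aeval (Y + ε) g ∈ P0 →
      ∀ i, algebraMap Λ B (g.coeff i) ∈ P0 := by
  intro g hg hgψ
  refine hLI g hg ?_
  have h4 := h2k_aeval_sub_mem P0 (Y + ε) Y (by simpa using hε) g
  have h5 : aeval Y g = aeval (Y + ε) g - (aeval (Y + ε) g - aeval Y g) := by ring
  rw [h5]
  exact P0.sub_mem hgψ h4

end Kron

end Fermat.Agent.S36
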