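import Fermat.Agent.S36.H60L1Final

/-!
# S36, block REG, row R-L1 (helper60): the three data of `H62L1` exclude each other

`B₁ = h62rChart A (M q) (jSS M q)` (chart over `A₀`), `𝔫₁ ∋ q` a closed point,
`𝔫 = h60rLift ι 𝔪_A B 𝔫₁` the closed point of the chart over `A` above it.  The frozen data of
`S36/H62L1Iface.lean` determine the components through the point:

* `h60r_excl_core` : it is NOT true that `α u ≡ (β u)^q` modulo `P∞` for every rational `u`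
  (a rational local parameter of level `M` is not a root of `T^(q²) - T` modulo `𝔪_A`).
* `h60r_infDatum_comp`  : `H62InfDatum 𝔫₁ → P∞ ≤ 𝔫 ∧ ¬ P₀ ≤ 𝔫`;
* `h60r_zeroDatum_comp` : `H62ZeroDatum 𝔫₁ → P₀ ≤ 𝔫 ∧ ¬ P∞ ≤ 𝔫`;
* `h60r_nodeDatum_comp` : `H62NodeDatum 𝔫₁ → P∞ ≤ 𝔫 ∧ P₀ ≤ 𝔫`;
* `h60r_lift_isMaximal'`, `h60r_comap_lift'`, `h60r_mem_lift_iff'` : `𝔫` is maximal,
  `ι⁻¹ 𝔫 = 𝔫₁` (unconditional forms of `H60L1Abs` at the level `M q`).

So the landed theorems over `A` at the points of `C∞` only (resp. `C₀` only, nodes) apply to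
`𝔫` as soon as the frozen datum holds at `𝔫₁`.
-/

set_option autoImplicit false
set_option linter.unusedSectionVars false
set_option linter.style.haveILetI false

open AlgebraicCurve ModularCurve IsLocalRing Polynomial

noncomputable section

namespace Fermat.Agent.S36

open Fermat.Agent.S37 Fermat.Agent.Red Fermat.Agent.Red.GG Fermat.Agent.Red.GV
  Fermat.Agent.Red.GV.Soft Fermat.Agent.Red.Kron Fermat.Agent.Red.KR Fermat.Agent.Red.ModelO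
  Fermat.Agent.LGC Fermat.Agent.S35

variable (A : ValuationSubring Kbar) (M : ℕ) {q : ℕ} [NeZero M] [NeZero q]

/-! ## The lift, unconditionally -/

theorem h60r_lift_isMaximal' (hq : q.Prime) (hM : ¬ q ∣ M) (hA : A.LiesOverPrime q)
    (𝔫₁ : Ideal (h62rChart A (M * q) (jSS M q))) (h𝔫₁ : 𝔫₁.IsMaximal)
    (hq𝔫₁ : (q : h62rChart A (M * q) (jSS M q)) ∈ 𝔫₁) :
    (h60rLift (h60rIncl A (M * q) (jSS M q)) (mExt A M q (jSS M q)) 𝔫₁).IsMaximal :=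
  h60r_lift_isMaximal (h25i_h60RedIso_Mq_fin hq hM hA).1 (h25i_h60RedIso_Mq_fin hq hM hA).2
    𝔫₁ hq𝔫₁ h𝔫₁

theorem h60r_comap_lift' (hq : q.Prime) (hM : ¬ q ∣ M) (hA : A.LiesOverPrime q)
    (𝔫₁ : Ideal (h62rChart A (M * q) (jSS M q)))
    (hq𝔫₁ : (q : h62rChart A (M * q) (jSS M q)) ∈ 𝔫₁) :
    (h60rLift (h60rIncl A (M * q) (jSS M q)) (mExt A M q (jSS M q)) 𝔫₁).comap
      (h60rIncl A (M * q) (jSS M q)) = 𝔫₁ :=
  h60r_comap_lift (h25i_h60RedIso_Mq_fin hq hM hA).1 (h25i_h60RedIso_Mq_fin hq hM hA).2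
    𝔫₁ hq𝔫₁

theorem h60r_mem_lift_iff' (hq : q.Prime) (hM : ¬ q ∣ M) (hA : A.LiesOverPrime q)
    (𝔫₁ : Ideal (h62rChart A (M * q) (jSS M q)))
    (hq𝔫₁ : (q : h62rChart A (M * q) (jSS M q)) ∈ 𝔫₁) (x : h62rChart A (M * q) (jSS M q)) :
    h60rIncl A (M * q) (jSS M q) x ∈
      h60rLift (h60rIncl A (M * q) (jSS M q)) (mExt A M q (jSS M q)) 𝔫₁ ↔ x ∈ 𝔫₁ :=
  h60r_mem_lift_iff (h25i_h60RedIso_Mq_fin hq hM hA).1 (h25i_h60RedIso_Mq_fin hq hM hA).2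
    𝔫₁ hq𝔫₁ x

/-! ## The core -/

/-- `u ^ (q²) ≡ u` modulo `𝔪_A Λ` fails for some rational `u`. -/
theorem h60r_excl_level (hq : q.Prime) (hM : ¬ q ∣ M) (haux : auxLevel q ∣ M)
    (hA : A.LiesOverPrime q)
    (h : ∀ u ∈ h62i_R A M, u - u ^ (q * q) ∈ h62i_mΛ A M) : False := by
  classical
  haveI hded : IsDedekindDomain (chart M A (jB M) ⧸ h62i_mΛ A M) :=
    h13l_hded_fin M A hq hM haux hA
  have hnf : ¬ IsField (chart M A (jB M) ⧸ h62i_mΛ A M) := h13l_hnf_fin M A hq hM hA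
  haveI h𝔪prime : (h62i_mΛ A M).IsPrime :=
    (Ideal.Quotient.isDomain_iff_prime _).mp hded.toIsDomain
  obtain ⟨𝔰, h𝔰max, h𝔪𝔰⟩ := Ideal.exists_le_maximal (h62i_mΛ A M) h𝔪prime.ne_top
  haveI h𝔰p : 𝔰.IsPrime := h𝔰max.isPrime
  obtain ⟨t, ht, -, s, hs, hall⟩ := h3_exists_local_uniformizer (h62i_mΛ A M) hnf 𝔰 h𝔪𝔰
  have ht₁ : h62l_LP (h62i_mΛ A M) 𝔰 t := ⟨ht, fun y hy => ⟨s, hs, hall y hy⟩⟩
  have hne : ¬ 𝔰 ≤ h62i_mΛ A M := by
    intro hle'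
    have h1 : h62i_mΛ A M = 𝔰 := le_antisymm h𝔪𝔰 hle'
    apply hnf
    have h2 : (h62i_mΛ A M).IsMaximal := h1 ▸ h𝔰max
    exact (Ideal.Quotient.maximal_ideal_iff_isField_quotient _).mp h2
  have h𝔪A : ∀ a ∈ maximalIdeal A, algebraMap A (chart M A (jB M)) a ∈ h62i_mΛ A M :=
    fun a ha => Ideal.mem_map_of_mem _ ha
  obtain ⟨u, huR, hu⟩ := h62l_exists_LP_mem (h62i_mΛ A M) 𝔰 h𝔪𝔰 hne h𝔪A (h62i_R A M)
    (h62d_span A M hq hM hA) (h62d_res A M 𝔰 h𝔰max h𝔪𝔰) (h62d_sep A hq hA) ht₁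
  -- `u (1 - u ^ (q² - 1)) ∈ 𝔪_A Λ`
  have hqq : 1 ≤ q * q - 1 := by
    have := hq.two_le
    have h4 : 4 ≤ q * q := Nat.mul_le_mul this this
    omega
  have h1 : u * (1 - u ^ (q * q - 1)) ∈ h62i_mΛ A M := by
    have h2 : u * (1 - u ^ (q * q - 1)) = u - u ^ (q * q) := by
      have h3 : q * q = (q * q - 1) + 1 := by omega
      conv_rhs => rw [h3, pow_succ]
      ring
    rw [h2]
    exact h u huR
  have h2 : 1 - u ^ (q * q - 1) ∉ 𝔰 := by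
    intro h3
    have h4 : u ^ (q * q - 1) ∈ 𝔰 := Ideal.pow_mem_of_mem _ hu.1 _ hqq
    have h5 : (1 : chart M A (jB M)) ∈ 𝔰 := by
      have := 𝔰.add_mem h3 h4
      simpa using this
    exact h𝔰p.ne_top ((Ideal.eq_top_iff_one _).mpr h5)
  have h3 : u ∈ h62i_mΛ A M :=
    (h𝔪prime.mem_or_mem h1).resolve_right fun h4 => h2 (h𝔪𝔰 h4)
  apply hne
  intro y hy
  obtain ⟨s', hs', hsy⟩ := hu.2 y hy
  have h4 : s' * y ∈ h62i_mΛ A M := by
    have hle : Ideal.span {u} ⊔ h62i_mΛ A M ≤ h62i_mΛ A M :=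
      sup_le ((Ideal.span_singleton_le_iff_mem _).mpr h3) le_rfl
    exact hle hsy
  exact (h𝔪prime.mem_or_mem h4).resolve_left fun h5 => hs' (h𝔪𝔰 h5)

/-- it is not true that `α u ≡ (β u)^q` modulo `P∞` for every rational `u`. -/
theorem h60r_excl_core (hq : q.Prime) (hM : ¬ q ∣ M) (haux : auxLevel q ∣ M)
    (hA : A.LiesOverPrime q)
    (h : ∀ u ∈ h62i_R A M,
      h62i_α A M q u - (h62i_β A M hq hM hA u) ^ q ∈ h62i_Pinf A M hq hM hA) : False := by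
  refine h60r_excl_level A M hq hM haux hA fun u hu => ?_
  apply (h62d_ker A M hq hM hA).1
  have ha := h u hu
  have hb : h62i_β A M hq hM hA u - (h62i_α A M q u) ^ q ∈ h62i_Pinf A M hq hM hA :=
    h62d_frob A M hq hM hA u hu
  have hc : (h62i_β A M hq hM hA u) ^ q - ((h62i_α A M q u) ^ q) ^ q ∈
      h62i_Pinf A M hq hM hA :=
    Ideal.mem_of_dvd _ (sub_dvd_pow_sub_pow _ _ q) hb
  have hd : h62i_α A M q (u - u ^ (q * q)) =
      (h62i_α A M q u - (h62i_β A M hq hM hA u) ^ q) +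
        ((h62i_β A M hq hM hA u) ^ q - ((h62i_α A M q u) ^ q) ^ q) := by
    rw [map_sub, map_pow, pow_mul]
    ring
  rw [hd]
  exact Ideal.add_mem _ ha hc

/-! ## The data determine the components -/

/-- the Frobenius congruence of `H62InfDatum` excludes `C₀`. -/
theorem h60r_not_P0_of_frob (hq : q.Prime) (hM : ¬ q ∣ M) (haux : auxLevel q ∣ M)
    (hA : A.LiesOverPrime q)
    (𝔫₁ : Ideal (h62rChart A (M * q) (jSS M q)))
    (hq𝔫₁ : (q : h62rChart A (M * q) (jSS M q)) ∈ 𝔫₁)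
    (hfrob : ∀ u : h62rChart A M (jB M), IsRat (u : FF M) →
      ∃ s, s ∉ 𝔫₁ ∧ s * (h62rBeta A M hq hM hA u - h62rAlpha A M u ^ q)
        ∈ Ideal.span {(q : h62rChart A (M * q) (jSS M q))}) :
    ¬ h62i_P0 A M hq hM hA ≤
      h60rLift (h60rIncl A (M * q) (jSS M q)) (mExt A M q (jSS M q)) 𝔫₁ := by
  intro hP0
  refine h60r_excl_core A M hq hM haux hA fun u hu => ?_
  have hrat : IsRat (u : FF M) := (h62i_mem_R A M u).mp hu
  obtain ⟨s, hs, hsz⟩ := hfrob (h62rOfRat A M (jB M) u hrat) hrat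
  rw [h60r_alpha_eq A M u hu, h60r_beta_eq A M hq hM hA u hu] at hsz
  obtain ⟨c, hc⟩ := Ideal.mem_span_singleton'.mp hsz
  have h2 : h60rIncl A (M * q) (jSS M q) s *
      (h62i_β A M hq hM hA u - (h62i_α A M q u) ^ q) ∈ mExt A M q (jSS M q) := by
    have h3 := congrArg (h60rIncl A (M * q) (jSS M q)) hc
    rw [map_mul, map_mul, map_sub, map_pow, h60r_incl_X, h60r_incl_Y, h60r_incl_natCast] at h3
    rw [← h3]
    exact Ideal.mul_mem_left _ _ (h60r_q_mem A M hA)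
  have h3 : h60rIncl A (M * q) (jSS M q) s ∉ h62i_P0 A M hq hM hA := fun h =>
    hs ((h60r_mem_lift_iff' A M hq hM hA 𝔫₁ hq𝔫₁ s).mp (hP0 h))
  have h4 : h62i_β A M hq hM hA u - (h62i_α A M q u) ^ q ∈ h62i_P0 A M hq hM hA :=
    ((h62i_P0_isPrime A M hq hM hA).mem_or_mem (h62i_m_le_P0 A M hq hM hA h2)).resolve_left h3
  have h5 := (h62i_mem_P0_iff_w A M hq hM hA _).mp h4
  rwa [map_sub, map_pow, h62i_w_β, h62i_w_α] at h5

/-- the Frobenius congruence of `H62ZeroDatum` excludes `C∞`. -/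
theorem h60r_not_Pinf_of_frob (hq : q.Prime) (hM : ¬ q ∣ M) (haux : auxLevel q ∣ M)
    (hA : A.LiesOverPrime q)
    (𝔫₁ : Ideal (h62rChart A (M * q) (jSS M q)))
    (hq𝔫₁ : (q : h62rChart A (M * q) (jSS M q)) ∈ 𝔫₁)
    (hfrob : ∀ u : h62rChart A M (jB M), IsRat (u : FF M) →
      ∃ s, s ∉ 𝔫₁ ∧ s * (h62rAlpha A M u - h62rBeta A M hq hM hA u ^ q)
        ∈ Ideal.span {(q : h62rChart A (M * q) (jSS M q))}) :
    ¬ h62i_Pinf A M hq hM hA ≤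
      h60rLift (h60rIncl A (M * q) (jSS M q)) (mExt A M q (jSS M q)) 𝔫₁ := by
  intro hPinf
  refine h60r_excl_core A M hq hM haux hA fun u hu => ?_
  have hrat : IsRat (u : FF M) := (h62i_mem_R A M u).mp hu
  obtain ⟨s, hs, hsz⟩ := hfrob (h62rOfRat A M (jB M) u hrat) hrat
  rw [h60r_alpha_eq A M u hu, h60r_beta_eq A M hq hM hA u hu] at hsz
  obtain ⟨c, hc⟩ := Ideal.mem_span_singleton'.mp hsz
  have h2 : h60rIncl A (M * q) (jSS M q) s *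
      (h62i_α A M q u - (h62i_β A M hq hM hA u) ^ q) ∈ mExt A M q (jSS M q) := by
    have h3 := congrArg (h60rIncl A (M * q) (jSS M q)) hc
    rw [map_mul, map_mul, map_sub, map_pow, h60r_incl_X, h60r_incl_Y, h60r_incl_natCast] at h3
    rw [← h3]
    exact Ideal.mul_mem_left _ _ (h60r_q_mem A M hA)
  have h3 : h60rIncl A (M * q) (jSS M q) s ∉ h62i_Pinf A M hq hM hA := fun h =>
    hs ((h60r_mem_lift_iff' A M hq hM hA 𝔫₁ hq𝔫₁ s).mp (hPinf h))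
  exact ((h62i_Pinf_isPrime A M hq hM hA).mem_or_mem
    (h62i_m_le_Pinf A M hq hM hA h2)).resolve_left h3

/-- **`H62InfDatum` holds only at the points of `C∞` outside `C₀`.** -/
theorem h60r_infDatum_comp (hq : q.Prime) (hM : ¬ q ∣ M) (haux : auxLevel q ∣ M)
    (hA : A.LiesOverPrime q)
    (𝔫₁ : Ideal (h62rChart A (M * q) (jSS M q))) (h𝔫₁ : 𝔫₁.IsMaximal)
    (hq𝔫₁ : (q : h62rChart A (M * q) (jSS M q)) ∈ 𝔫₁)
    (h : H62InfDatum A M hq hM hA 𝔫₁) :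
    h62i_Pinf A M hq hM hA ≤
        h60rLift (h60rIncl A (M * q) (jSS M q)) (mExt A M q (jSS M q)) 𝔫₁ ∧
      ¬ h62i_P0 A M hq hM hA ≤
        h60rLift (h60rIncl A (M * q) (jSS M q)) (mExt A M q (jSS M q)) 𝔫₁ := by
  have h0 := h60r_not_P0_of_frob A M hq hM haux hA 𝔫₁ hq𝔫₁ h.1
  exact ⟨(h62x_dichotomy A M hq hM hA _ (h60r_lift_isMaximal' A M hq hM hA 𝔫₁ h𝔫₁ hq𝔫₁)
    (h60r_le_lift _ _ 𝔫₁)).resolve_right h0, h0⟩

/-- **`H62ZeroDatum` holds only at the points of `C₀` outside `C∞`.** -/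
theorem h60r_zeroDatum_comp (hq : q.Prime) (hM : ¬ q ∣ M) (haux : auxLevel q ∣ M)
    (hA : A.LiesOverPrime q)
    (𝔫₁ : Ideal (h62rChart A (M * q) (jSS M q))) (h𝔫₁ : 𝔫₁.IsMaximal)
    (hq𝔫₁ : (q : h62rChart A (M * q) (jSS M q)) ∈ 𝔫₁)
    (h : H62ZeroDatum A M hq hM hA 𝔫₁) :
    h62i_P0 A M hq hM hA ≤
        h60rLift (h60rIncl A (M * q) (jSS M q)) (mExt A M q (jSS M q)) 𝔫₁ ∧
      ¬ h62i_Pinf A M hq hM hA ≤
        h60rLift (h60rIncl A (M * q) (jSS M q)) (mExt A M q (jSS M q)) 𝔫₁ := by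
  have h0 := h60r_not_Pinf_of_frob A M hq hM haux hA 𝔫₁ hq𝔫₁ h.1
  exact ⟨(h62x_dichotomy A M hq hM hA _ (h60r_lift_isMaximal' A M hq hM hA 𝔫₁ h𝔫₁ hq𝔫₁)
    (h60r_le_lift _ _ 𝔫₁)).resolve_left h0, h0⟩

/-- **`H62NodeDatum` holds only at the crossing points.** -/
theorem h60r_nodeDatum_comp (hq : q.Prime) (hM : ¬ q ∣ M) (hA : A.LiesOverPrime q)
    (𝔫₁ : Ideal (h62rChart A (M * q) (jSS M q))) (h𝔫₁ : 𝔫₁.IsMaximal)
    (hq𝔫₁ : (q : h62rChart A (M * q) (jSS M q)) ∈ 𝔫₁)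
    (h : H62NodeDatum A M hq hM hA 𝔫₁) :
    h62i_Pinf A M hq hM hA ≤
        h60rLift (h60rIncl A (M * q) (jSS M q)) (mExt A M q (jSS M q)) 𝔫₁ ∧
      h62i_P0 A M hq hM hA ≤
        h60rLift (h60rIncl A (M * q) (jSS M q)) (mExt A M q (jSS M q)) 𝔫₁ := by
  classical
  haveI h𝔫₁p : 𝔫₁.IsPrime := h𝔫₁.isPrime
  have hiso := h25i_h60RedIso_Mq_fin (A := A) hq hM hA
  obtain ⟨u, hrat, hX, hY, ⟨ρ, hρ, hrel⟩, -⟩ := h
  have hq0 : (q : h62rChart A (M * q) (jSS M q)) ≠ 0 := Nat.cast_ne_zero.mpr hq.ne_zero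
  rw [h60r_alpha_eq' A M u hrat] at hX hrel
  rw [h60r_beta_eq' A M hq hM hA u hrat] at hY hrel
  by_contra hcon
  rw [not_and_or] at hcon
  rcases hcon with hPinf | hP0
  · -- on `C₀` only: `X ≡ Y^q`
    obtain ⟨s, hs, hsz⟩ := h60r_frob_zero A M hq hM hA hiso 𝔫₁ hq𝔫₁ hPinf
      (h62rIncl A M (jB M) u) (h60r_incl_mem_R A M u hrat)
    obtain ⟨c, hc⟩ := Ideal.mem_span_singleton'.mp hsz
    have h1 : (q : h62rChart A (M * q) (jSS M q)) *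
        (s * ρ - c * (h60rY A M hq hM hA (h62rIncl A M (jB M) u) (h60r_incl_mem_R A M u hrat) -
          h60rX A M (h62rIncl A M (jB M) u) (h60r_incl_mem_R A M u hrat) ^ q)) = 0 := by
      linear_combination s * hrel - (h60rY A M hq hM hA (h62rIncl A M (jB M) u)
        (h60r_incl_mem_R A M u hrat) -
          h60rX A M (h62rIncl A M (jB M) u) (h60r_incl_mem_R A M u hrat) ^ q) * hc
    have h2 := (mul_eq_zero.mp h1).resolve_left hq0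
    have h3 : s * ρ ∈ 𝔫₁ := by
      rw [sub_eq_zero.mp h2]
      exact Ideal.mul_mem_left _ _
        (Ideal.sub_mem _ hY (Ideal.pow_mem_of_mem _ hX q hq.pos))
    exact (h𝔫₁p.mem_or_mem h3).elim hs hρ
  · -- on `C∞` only: `Y ≡ X^q`
    obtain ⟨s, hs, hsz⟩ := h60r_frob_inf A M hq hM hA hiso 𝔫₁ hq𝔫₁ hP0
      (h62rIncl A M (jB M) u) (h60r_incl_mem_R A M u hrat)
    obtain ⟨c, hc⟩ := Ideal.mem_span_singleton'.mp hsz
    have h1 : (q : h62rChart A (M * q) (jSS M q)) *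
        (s * ρ + c * (h60rY A M hq hM hA (h62rIncl A M (jB M) u)
          (h60r_incl_mem_R A M u hrat) ^ q -
          h60rX A M (h62rIncl A M (jB M) u) (h60r_incl_mem_R A M u hrat))) = 0 := by
      linear_combination s * hrel + (h60rY A M hq hM hA (h62rIncl A M (jB M) u)
        (h60r_incl_mem_R A M u hrat) ^ q -
          h60rX A M (h62rIncl A M (jB M) u) (h60r_incl_mem_R A M u hrat)) * hc
    have h2 := (mul_eq_zero.mp h1).resolve_left hq0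
    have h3 : s * ρ ∈ 𝔫₁ := by
      rw [eq_neg_of_add_eq_zero_left h2]
      exact (Ideal.neg_mem_iff 𝔫₁).mpr (Ideal.mul_mem_left _ _
        (Ideal.sub_mem _ (Ideal.pow_mem_of_mem _ hY q hq.pos) hX))
    exact (h𝔫₁p.mem_or_mem h3).elim hs hρ

end Fermat.Agent.S36
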