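import Fermat.Agent.S36.H50ExcIface2
import Fermat.Agent.S36.H50ExcFin
import Fermat.Agent.S36.H2Kron
import Fermat.Agent.S36.H25RedIsoH60
import Fermat.Agent.S36.H60L1Final
import Fermat.Agent.S36.H60L1Excl

/-!
# S36, block REG, row R-ORD-11 (helper27): the Kronecker shape in a general coordinate

`h27x_shape : H50eCharpoly → H50eShape` (frozen Props of `S36/H50ExcIface.lean`,
`S36/H50ExcIface2.lean`, helper50).

`Λ₀ = h62rChart A M (jB M)` (chart over the inertia ring `A₀`), `B = chart (M q) A (jSS M q)`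
(chart over `A`), `Λ₀ → B` the composite of the inclusion and `α`.  For `ψ` of the chart of level
`M q` over `A₀` with `ψ ≡ β u` modulo `P₀`, `ψ ≡ α a` modulo `P∞`, `ψ - α a ∉ 𝔫'`
(`P₀ ≤ lift 𝔫'`), the monic equation of degree `q + 1` of `ψ` over `Λ₀` (leaf `H50eCharpoly`)
has the Kronecker shape `(T - a) (T ^ q - u) + q r` by helper2's `h2k_shape`:

* `α x ∈ P∞` or `α x ∈ P₀` for `x ∈ Λ₀` forces `x ∈ 𝔪_A Λ` (`h62d_ker`), hence `q ∣ x` in `Λ₀`
  (R-REDISO (b) at level `M`, `h25i_redIso_M_fin`);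
* `ψ ^ q ≡ α u` modulo `P₀` (`h50e_frob0`);
* the powers `1, ψ, …, ψ ^ (q - 1)` are linearly independent over `α Λ₀` modulo `P₀`
  (`h50e_LI_fin` with `c₀ = 0` and `h2k_shift_LI`).
-/

set_option autoImplicit false
set_option linter.unusedSectionVars false
set_option linter.style.haveILetI false

open AlgebraicCurve ModularCurve IsLocalRing Polynomial

noncomputable section

namespace Fermat.Agent.S36

open Fermat.Agent.S37 Fermat.Agent.Red Fermat.Agent.Red.GG Fermat.Agent.LGC

section Compat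

variable (A : ValuationSubring Kbar) (M : ℕ) {q : ℕ} [NeZero M] [NeZero q]

/-- `α` commutes with the inclusions of the charts over `A₀` into the charts over `A`. -/
theorem h27x_incl_alpha (x : h62rChart A M (jB M)) :
    h60rIncl A (M * q) (jSS M q) (h62rAlpha A M x) = h62i_α A M q (h60rIncl A M (jB M) x) :=
  rfl

/-- `β` commutes with the inclusions of the charts over `A₀` into the charts over `A`. -/
theorem h27x_incl_beta (hq : q.Prime) (hM : ¬ q ∣ M) (hA : A.LiesOverPrime q)
    (x : h62rChart A M (jB M)) :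
    h60rIncl A (M * q) (jSS M q) (h62rBeta A M hq hM hA x) =
      h62i_β A M hq hM hA (h60rIncl A M (jB M) x) :=
  rfl

/-- R-REDISO (b) at level `M`: an element of the chart over `A₀` lying in `𝔪_A Λ` is divisible
by `q`. -/
theorem h27x_dvd_of_mem (hq : q.Prime) (hM : ¬ q ∣ M) (hA : A.LiesOverPrime q)
    (x : h62rChart A M (jB M)) (hx : h60rIncl A M (jB M) x ∈ h62i_mΛ A M) :
    ((q : ℕ) : h62rChart A M (jB M)) ∣ x := by
  obtain ⟨y, hy⟩ := (h25i_redIso_M_fin (A := A) hq hM hA).2 x hx
  exact ⟨y, hy⟩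

end Compat

/-- **the Kronecker shape in a general coordinate**, from the characteristic polynomial. -/
theorem h27x_shape (hC : H50eCharpoly) : H50eShape := by
  intro q hq M _ hM haux
  haveI : NeZero q := ⟨hq.ne_zero⟩
  intro A hA 𝔫' h𝔫' hq𝔫' hP0 u hu hLP ψ a hψ0 hψinf hsep
  obtain ⟨f, hfm, hfdeg, hfroot⟩ := hC q hq M hM haux A hA ψ
  -- the algebra `Λ₀ → B`
  letI alg : Algebra (h62rChart A M (jB M)) (chart (M * q) A (jSS M q)) :=
    (((h62i_α A M q : chart M A (jB M) →ₐ[A] chart (M * q) A (jSS M q)) :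
      chart M A (jB M) →+* chart (M * q) A (jSS M q)).comp (h60rIncl A M (jB M))).toAlgebra
  have halg : ∀ x : h62rChart A M (jB M),
      algebraMap (h62rChart A M (jB M)) (chart (M * q) A (jSS M q)) x =
        h62i_α A M q (h60rIncl A M (jB M) x) := fun x => rfl
  have hKer := h62d_ker A M hq hM hA
  have huR : h60rIncl A M (jB M) u ∈ h62i_R A M :=
    (h62i_mem_R A M (h60rIncl A M (jB M) u)).mpr hu
  -- `q ∈ P₀`
  have hqP0 : ((q : ℕ) : chart (M * q) A (jSS M q)) ∈ h62i_P0 A M hq hM hA := by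
    apply h62i_m_le_P0 A M hq hM hA
    have h1 : ((q : ℕ) : chart (M * q) A (jSS M q)) =
        algebraMap A (chart (M * q) A (jSS M q)) (q : A) := (map_natCast _ q).symm
    rw [h1]
    exact Ideal.mem_map_of_mem _ (h62i_natCast_mem A hA)
  -- the images in the chart over `A`
  have hψ0' : h60rIncl A (M * q) (jSS M q) ψ - h62i_β A M hq hM hA (h60rIncl A M (jB M) u)
      ∈ h62i_P0 A M hq hM hA := by
    have h1 := hψ0
    rwa [map_sub, h27x_incl_beta] at h1
  have hψinf' : h60rIncl A (M * q) (jSS M q) ψ - h62i_α A M q (h60rIncl A M (jB M) a)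
      ∈ h62i_Pinf A M hq hM hA := by
    have h1 := hψinf
    rwa [map_sub, h27x_incl_alpha] at h1
  -- the lift of `𝔫'`
  have hmaxL := h60r_lift_isMaximal' A M hq hM hA 𝔫' h𝔫' hq𝔫'
  -- apply the abstract shape lemma
  obtain ⟨r, hr, hfr⟩ := h2k_shape (Λ := h62rChart A M (jB M))
    (B := chart (M * q) A (jSS M q)) q hq.ne_zero
    (h62i_Pinf A M hq hM hA) (h62i_P0 A M hq hM hA)
    (fun x hx => h27x_dvd_of_mem A M hq hM hA x (hKer.1 _ (by rwa [halg] at hx)))
    (fun x hx => h27x_dvd_of_mem A M hq hM hA x (hKer.2 _ (by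
      rw [halg] at hx
      have h1 : h62i_w A M hq hM hA (h62i_α A M q (h60rIncl A M (jB M) x))
          ∈ h62i_Pinf A M hq hM hA := hx
      rwa [h62i_w_α] at h1)))
    hqP0 (h60rIncl A (M * q) (jSS M q) ψ) a u
    (by rw [halg]; exact hψinf')
    (by
      -- `ψ ^ q ≡ (β u) ^ q ≡ α u` modulo `P₀`
      rw [halg]
      have h1 := h50e_frob0 A M hq hM hA (h60rIncl A M (jB M) u) huR
      obtain ⟨d, hd⟩ := sub_dvd_pow_sub_pow (h60rIncl A (M * q) (jSS M q) ψ)
        (h62i_β A M hq hM hA (h60rIncl A M (jB M) u)) q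
      have h2 : h60rIncl A (M * q) (jSS M q) ψ ^ q - h62i_α A M q (h60rIncl A M (jB M) u)
          = (h60rIncl A (M * q) (jSS M q) ψ - h62i_β A M hq hM hA (h60rIncl A M (jB M) u)) * d
            - (h62i_α A M q (h60rIncl A M (jB M) u)
              - h62i_β A M hq hM hA (h60rIncl A M (jB M) u) ^ q) := by
        rw [← hd]; ring
      rw [h2]
      exact Ideal.sub_mem _ (Ideal.mul_mem_right _ _ hψ0') h1)
    (by
      -- `ψ - α a ∉ P₀` since `P₀ ≤ lift 𝔫'`
      rw [halg]
      intro h
      apply hsep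
      have h1 : h60rIncl A (M * q) (jSS M q) (ψ - h62rAlpha A M a) ∈
          h60rLift (h60rIncl A (M * q) (jSS M q)) (mExt A M q (jSS M q)) 𝔫' := by
        apply hP0
        rw [map_sub, h27x_incl_alpha]
        exact h
      exact (h60r_mem_lift_iff' A M hq hM hA 𝔫' hq𝔫' _).mp h1)
    (by
      -- linear independence
      intro g hg hgψ i
      rw [halg]
      have hLP' : h62l_LP (h62i_mΛ A M)
          ((h60rLift (h60rIncl A (M * q) (jSS M q)) (mExt A M q (jSS M q)) 𝔫').comap
            ((h62i_β A M hq hM hA : chart M A (jB M) →ₐ[A] chart (M * q) A (jSS M q)) :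
              chart M A (jB M) →+* chart (M * q) A (jSS M q)))
          (h60rIncl A M (jB M) u - algebraMap A (chart M A (jB M)) 0) := by
        rw [map_zero, sub_zero]
        exact hLP
      have hLI := h50e_LI_fin A M hq hM haux hA _ hmaxL hP0 (h60rIncl A M (jB M) u) 0 hLP'
        (g.map (h60rIncl A M (jB M))) (lt_of_le_of_lt natDegree_map_le hg)
      have hcoef := hLI ?_ i
      · rwa [coeff_map] at hcoef
      · -- evaluation at `β u`
        rw [eval₂_map]
        have h4 := h2k_aeval_sub_mem (Λ := h62rChart A M (jB M)) (h62i_P0 A M hq hM hA)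
          (h60rIncl A (M * q) (jSS M q) ψ)
          (h62i_β A M hq hM hA (h60rIncl A M (jB M) u)) hψ0' g
        have h5 : g.eval₂ (((h62i_α A M q : chart M A (jB M) →ₐ[A] chart (M * q) A (jSS M q)) :
            chart M A (jB M) →+* chart (M * q) A (jSS M q)).comp (h60rIncl A M (jB M)))
            (h62i_β A M hq hM hA (h60rIncl A M (jB M) u))
            = aeval (h60rIncl A (M * q) (jSS M q) ψ) g
              - (aeval (h60rIncl A (M * q) (jSS M q) ψ) g
                - aeval (h62i_β A M hq hM hA (h60rIncl A M (jB M) u)) g) := by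
          rw [sub_sub_cancel]
          rfl
        rw [h5]
        exact Ideal.sub_mem _ hgψ h4)
    f hfm hfdeg
    (by
      -- the root
      have h1 : aeval (h60rIncl A (M * q) (jSS M q) ψ) f =
          h60rIncl A (M * q) (jSS M q) (f.eval₂ (h62rAlpha A M) ψ) := by
        rw [Polynomial.hom_eval₂]
        rfl
      rw [h1, hfroot, map_zero])
  exact ⟨r, hr, by rw [← hfr]; exact hfroot⟩

end Fermat.Agent.S36
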