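import Fermat.Agent.S36.H50ExcIface
import Fermat.Agent.S36.H78TorBasic
import Fermat.Agent.LGC.H55Kron
import Fermat.Agent.Red.Kron.Finrank
import Fermat.Agent.Red.TransferRed
import Fermat.Agent.Red.KR.Basic

/-!
# S36, block REG, row R-ORD-11-CHARPOLY (helper66, prefix `h66cp_`): the leaf `H50eCharpoly`

Every function `ψ` of the chart `B₁ = h62rChart A (M q) (jSS M q)` over the inertia ring is a
root of the characteristic polynomial `P` of (multiplication by) `ψ` over `α (F_M)`:

* `P` is monic of degree `[F_{Mq} : α F_M] = q + 1`;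
* the coefficients of `P` are integral over `A[j]` (`h87_coeff_mem_modelAt`);
* the coefficients of `P` are fixed by the inertia group: for `σ` fixing `ψ` and every `a`,
  `σ (P a) = σ N(α a - ψ) = N(α (σ a) - ψ) = P (σ a)`, so `σ P` and `P` agree on the whole
  (infinite) field `F_M` (`h66cp_map_charpoly`).

Main result: `h66cp_charpoly : H50eCharpoly`.
-/

set_option autoImplicit false
set_option linter.unusedSectionVars false

open AlgebraicCurve ModularCurve Polynomial

noncomputable section

namespace Fermat.Agent.S36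

open Fermat.Agent.S37 (Kbar GQ FF cst jB gal modelAt modelFin auxLevel)
open Fermat.Agent.LGC (jSS)
open Fermat.Agent.Red.KR (normAlong normAlong_sub_eq_eval)
open Fermat.Agent.Red.TRK (charpolyAlong charpolyAlong_monic)
open Fermat.Agent.Red.HKMod (finiteAlong_heckeAlphaBar)

/-- the characteristic polynomial along `α` of a function fixed by `σ` is fixed by `σ`. -/
theorem h66cp_map_charpoly (N ℓ : ℕ) [NeZero N] [NeZero ℓ] (σ : GQ) (y : FF (N * ℓ))
    (hy : gal (N * ℓ) σ • y = y) :
    (charpolyAlong (heckeAlphaBar Kbar N ℓ) (finiteAlong_heckeAlphaBar N ℓ) y).map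
        (SemilinearAut.toRingAut (gal N σ) : FF N →+* FF N) =
      charpolyAlong (heckeAlphaBar Kbar N ℓ) (finiteAlong_heckeAlphaBar N ℓ) y := by
  have : CharZero (FF N) := charZero_of_injective_algebraMap (algebraMap Kbar (FF N)).injective
  refine Polynomial.funext fun r => ?_
  obtain ⟨a, rfl⟩ := (SemilinearAut.toRingAut (gal N σ)).surjective r
  have h1 : ((charpolyAlong (heckeAlphaBar Kbar N ℓ) (finiteAlong_heckeAlphaBar N ℓ) y).map
      (SemilinearAut.toRingAut (gal N σ) : FF N →+* FF N)).eval
        ((SemilinearAut.toRingAut (gal N σ) : FF N →+* FF N) a) =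
      (SemilinearAut.toRingAut (gal N σ) : FF N →+* FF N)
        ((charpolyAlong (heckeAlphaBar Kbar N ℓ) (finiteAlong_heckeAlphaBar N ℓ) y).eval a) :=
    Polynomial.eval_map_apply _ _
  refine h1.trans ?_
  rw [← normAlong_sub_eq_eval, ← normAlong_sub_eq_eval]
  show gal N σ • normAlong (heckeAlphaBar Kbar N ℓ) (heckeAlphaBar Kbar N ℓ a - y) =
    normAlong (heckeAlphaBar Kbar N ℓ) (heckeAlphaBar Kbar N ℓ (gal N σ • a) - y)
  rw [h78b_gal_norm_alpha, smul_sub, h83g_gal_alpha, hy]

/-- **`H50eCharpoly`**: every function of the chart of level `M q` over `A₀` is a root of a monic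
polynomial of degree `q + 1` over the chart of level `M` (coefficients mapped by `α`). -/
theorem h66cp_charpoly : H50eCharpoly := by
  intro q hq M _ hqM _
  have : NeZero q := ⟨hq.ne_zero⟩
  intro A _ ψ
  have hP : ∀ m, (charpolyAlong (heckeAlphaBar Kbar M q) (finiteAlong_heckeAlphaBar M q)
      (ψ : FF (M * q))).coeff m ∈ h62rChart A M (jB M) := by
    intro m
    refine h62r_mem_chart.mpr ⟨?_, fun σ hσ => ?_⟩
    · exact Fermat.Agent.Red.TRK.h87_coeff_mem_modelAt (heckeAlphaBar Kbar M q)
        (finiteAlong_heckeAlphaBar M q) A (jB M) (h62r_mem_chart.mp ψ.2).1 m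
    · have h := h66cp_map_charpoly M q σ (ψ : FF (M * q)) ((h62r_mem_chart.mp ψ.2).2 σ hσ)
      have h2 := congrArg (fun p : (FF M)[X] => p.coeff m) h
      simp only [Polynomial.coeff_map] at h2
      exact h2
  have hsub : ((charpolyAlong (heckeAlphaBar Kbar M q) (finiteAlong_heckeAlphaBar M q)
      (ψ : FF (M * q))).coeffs : Set (FF M)) ⊆ (h62rChart A M (jB M) : Set (FF M)) := by
    intro c hc
    obtain ⟨n, -, rfl⟩ := Polynomial.mem_coeffs_iff.mp (Finset.mem_coe.mp hc)
    exact hP n
  refine ⟨(charpolyAlong (heckeAlphaBar Kbar M q) (finiteAlong_heckeAlphaBar M q)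
      (ψ : FF (M * q))).toSubring (h62rChart A M (jB M)) hsub, ?_, ?_, ?_⟩
  · exact (Polynomial.monic_toSubring _ _ hsub).mpr (charpolyAlong_monic _ _ _)
  · rw [Polynomial.natDegree_toSubring, Fermat.Agent.LGC.h55k_natDegree_charpolyAlong]
    exact Fermat.Agent.Red.Kron.finrank_heckeAlphaBar M q hq hqM
  · apply Subtype.ext
    have h1 := Polynomial.hom_eval₂
      ((charpolyAlong (heckeAlphaBar Kbar M q) (finiteAlong_heckeAlphaBar M q)
        (ψ : FF (M * q))).toSubring (h62rChart A M (jB M)) hsub)
      (h62rAlpha A M (q := q)) (h62rChart A (M * q) (jSS M q)).subtype ψ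
    have h2 : (h62rChart A (M * q) (jSS M q)).subtype.comp (h62rAlpha A M (q := q)) =
        ((heckeAlphaBar Kbar M q : FF M →ₐ[Kbar] FF (M * q)).toRingHom).comp
          (h62rChart A M (jB M)).subtype := RingHom.ext fun x => rfl
    rw [h2, ← Polynomial.eval₂_map, Polynomial.map_toSubring] at h1
    exact h1.trans (Fermat.Agent.LGC.h44g_eval₂_charpolyAlong (heckeAlphaBar Kbar M q)
      (finiteAlong_heckeAlphaBar M q) (ψ : FF (M * q)))

end Fermat.Agent.S36
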