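import Fermat.Agent.S36.H27ExcShape
import Fermat.Agent.S36.H66Charpoly

/-!
# S36, block REG, row R-ORD-11 (helper27): the Kronecker shape, unconditional

`h27x_shape_final : H50eShape` = `h27x_shape` applied to helper66's `h66cp_charpoly`.
-/

set_option autoImplicit false

namespace Fermat.Agent.S36

/-- **the Kronecker shape in a general coordinate**, unconditional. -/
theorem h27x_shape_final : H50eShape := h27x_shape h66cp_charpoly

end Fermat.Agent.S36
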