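import Mathlib

/-!
# S36, block (V): extensions of a discrete valuation along an Eisenstein-type equation
(Mathlib only, helper29; findings #1042)

`A` a discrete valuation ring with uniformiser `π` and maximal ideal `𝔪`, `B` a Dedekind domain
which is a finite torsion-free `A`-algebra (the integral closure of `A` in a finite separable
extension of its fraction field), `z ∈ B`.

* `h29v_exists_prime_of_root` : if `G` generates the relations of `z` over `A` and `r` is a root
  of `G` modulo `𝔪`, there is a prime of `B` over `𝔪` containing `z - r` (no Hensel).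
* `h29v_eis_ext` (**EIS-EXT**) : `rank_A B = m + 1`, `m ≥ 1`, `G(z) = 0`,
  `G = T^m (T - u) + π H`, `u` and `H(0)` units.  Then `B` has exactly two nonzero primes
  `P₁ ∋ z`, `P₂ ∋ z - u`, with `e(P₁) = m`, `f(P₁) = 1`, `e(P₂) = f(P₂) = 1`, and `z` is a
  uniformiser at `P₁` (`z ∉ P₁²`, `ord_{P₁} z = 1`).
  [Level `q² M'`: `A` = the valuation ring of `W_∞` on `F0' = FF(qM')^I`, `B` its integral
  closure in `F0 = FF(q² M')^I` along `α`, `m + 1 = q`, `z = j₂ - j₀`,
  `G(T) = Φ_q(T + j₀, j₁) / T`, `u = j₀^{q²} - j₀`, `G(0) = ∂_X Φ_q(j₀, j₁) = q · unit`: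
  `P₁ = W₁₁` (`e = q - 1`, `f = 1`), `P₂ = W₂₀`.]
* `h29v_map_eq` : `𝔪 B = P₁ ^ m * P₂`.
* `h29v_residue_surj` : `f(P) = 1` ⟹ every `b ∈ B` is congruent modulo `P` to an element of `A`.
* `h29v_val_unif` : `ord_P π = e(P)` in terms of `HeightOneSpectrum.intValuation`.
* `h29v_dvd_of_natDegree_le`, `h29v_natDegree_minpoly` : the hypothesis "`G` generates the
  relations of `z`" from `K(z) = L` and `deg G = [L : K]`.
* `h29v_inert_ext` (**INERT-EXT**) : `rank_A B = n`, `G` monic of degree `n`, `G(z) = 0`,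
  `G mod 𝔪` irreducible ⟹ `B` has exactly one nonzero prime `P`, `e(P) = 1`, `f(P) = n`.
  [`W₀₂` over `W₀` along `α`, `W₂₀` over `W_∞` along `β`: `G mod 𝔪 = T^q - j̄`.]
-/

set_option autoImplicit false
set_option linter.unusedSectionVars false

open Polynomial IsDedekindDomain IsLocalRing WithZero

namespace Fermat.Agent.S36

section LyingOver

variable {A B : Type*} [CommRing A] [IsLocalRing A]
  [CommRing B] [Algebra A B] [Algebra.IsIntegral A B]

/-- lying over with a prescribed residue of `z`: if `G` generates the relations of `z` over `A`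
and `r` is a root of `G` modulo `𝔪`, there is a prime of `B` over `𝔪` containing `z - r`. -/
theorem h29v_exists_prime_of_root (z : B) (G : A[X]) (hdvd : ∀ F : A[X], aeval z F = 0 → G ∣ F)
    (r : A) (hr : G.eval r ∈ maximalIdeal A) :
    ∃ P : Ideal B, P.IsPrime ∧ P.LiesOver (maximalIdeal A) ∧ z - algebraMap A B r ∈ P := by
  classical
  -- the evaluation at `r` modulo `𝔪`
  let φ : A[X] →+* ResidueField A := (residue A).comp (evalRingHom r)
  have hφG : φ G = 0 := by
    show residue A (G.eval r) = 0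
    exact (residue_eq_zero_iff _).2 hr
  let S : Subalgebra A B := (aeval z : A[X] →ₐ[A] B).range
  let f : A[X] →+* S := ((aeval z : A[X] →ₐ[A] B).rangeRestrict : A[X] →+* S)
  have hf : Function.Surjective f := (aeval z : A[X] →ₐ[A] B).rangeRestrict_surjective
  have hfcoe : ∀ F : A[X], ((f F : S) : B) = aeval z F := fun F => rfl
  have hker : RingHom.ker f ≤ RingHom.ker φ := by
    intro F hF
    rw [RingHom.mem_ker] at hF ⊢
    have h0 : aeval z F = 0 := by rw [← hfcoe, hF]; rfl
    obtain ⟨H, rfl⟩ := hdvd F h0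
    rw [map_mul, hφG, zero_mul]
  let ψ : S →+* ResidueField A := RingHom.liftOfSurjective f hf ⟨φ, hker⟩
  have hψ : ∀ F : A[X], ψ (f F) = φ F := fun F =>
    RingHom.liftOfRightInverse_comp_apply _ _ _ _ F
  let 𝔮 : Ideal S := RingHom.ker ψ
  have : 𝔮.IsPrime := RingHom.ker_isPrime ψ
  have : Algebra.IsIntegral S B := Algebra.IsIntegral.tower_top (R := A)
  obtain ⟨Q, -, hQp, hQ⟩ := Ideal.exists_ideal_over_prime_of_isIntegral 𝔮 (⊥ : Ideal B) (by
    rw [Ideal.comap_bot_of_injective _ Subtype.val_injective]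
    exact bot_le)
  refine ⟨Q, hQp, ⟨?_⟩, ?_⟩
  · -- lies over
    have hle : maximalIdeal A ≤ Q.under A := by
      intro a ha
      have h1 : f (C a) ∈ 𝔮 := by
        show ψ (f (C a)) = 0
        rw [hψ]
        show residue A ((C a).eval r) = 0
        rw [eval_C]
        exact (residue_eq_zero_iff _).2 ha
      rw [← hQ] at h1
      have h2 : ((f (C a) : S) : B) ∈ Q := h1
      rw [hfcoe, aeval_C] at h2
      exact h2
    have hne : Q.under A ≠ ⊤ := (Ideal.IsPrime.under A Q).ne_top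
    exact ((maximalIdeal.isMaximal A).eq_of_le hne hle)
  · have h1 : f (X - C r) ∈ 𝔮 := by
      show ψ (f (X - C r)) = 0
      rw [hψ]
      show residue A ((X - C r).eval r) = 0
      simp
    rw [← hQ] at h1
    have h2 : ((f (X - C r) : S) : B) ∈ Q := h1
    rw [hfcoe] at h2
    simpa using h2

end LyingOver

section EisExt

variable {A B : Type*} [CommRing A] [IsDomain A] [IsDiscreteValuationRing A]
  [CommRing B] [IsDedekindDomain B] [Algebra A B] [Module.Finite A B]
  [Module.IsTorsionFree A B]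

/-- a unit of `A` is not in a prime of `B`. -/
theorem h29v_unit_notMem {u : A} (hu : IsUnit u) (P : Ideal B) [hP : P.IsPrime] :
    algebraMap A B u ∉ P := fun h =>
  hP.ne_top (Ideal.eq_top_of_isUnit_mem _ h (hu.map (algebraMap A B)))

/-- the valuation of `z` at a prime containing `z`. -/
theorem h29v_val_eq (π : A) (z y : B) (u h0 : A) (hu : IsUnit u) (hh0 : IsUnit h0) (m : ℕ)
    (heq : z ^ m * (z - algebraMap A B u)
      + algebraMap A B π * (algebraMap A B h0 + z * y) = 0)
    (w : HeightOneSpectrum B) (hz : z ∈ w.asIdeal) :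
    w.intValuation z ^ m = w.intValuation (algebraMap A B π) := by
  have h1 : z - algebraMap A B u ∉ w.asIdeal := fun h =>
    h29v_unit_notMem hu w.asIdeal (by
      have := w.asIdeal.sub_mem hz h
      simpa using this)
  have h2 : algebraMap A B h0 + z * y ∉ w.asIdeal := fun h =>
    h29v_unit_notMem hh0 w.asIdeal (by
      have := w.asIdeal.sub_mem h (w.asIdeal.mul_mem_right y hz)
      simpa using this)
  have e1 : w.intValuation (z - algebraMap A B u) = 1 :=
    (HeightOneSpectrum.intValuation_eq_one_iff_mem_primeCompl w _).2 h1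
  have e2 : w.intValuation (algebraMap A B h0 + z * y) = 1 :=
    (HeightOneSpectrum.intValuation_eq_one_iff_mem_primeCompl w _).2 h2
  have h3 : z ^ m * (z - algebraMap A B u) = - (algebraMap A B π * (algebraMap A B h0 + z * y)) :=
    eq_neg_of_add_eq_zero_left heq
  have h4 := congrArg w.intValuation h3
  rw [map_mul, map_pow, Valuation.map_neg, map_mul, e1, e2, mul_one, mul_one] at h4
  exact h4

/-- the valuation of a uniformiser of `A` at a prime of `B` over `𝔪`. -/
theorem h29v_val_unif (π : A) (hπ : Irreducible π) (w : HeightOneSpectrum B)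
    [hw : w.asIdeal.LiesOver (maximalIdeal A)] :
    w.intValuation (algebraMap A B π) = exp (-(w.asIdeal.ramificationIdx A : ℤ)) := by
  let v : HeightOneSpectrum A := IsDiscreteValuationRing.maximalIdeal A
  have : w.asIdeal.LiesOver v.asIdeal := hw
  have h1 := HeightOneSpectrum.intValuation_liesOver v w π
  have h2 : v.intValuation π = exp (-1 : ℤ) :=
    HeightOneSpectrum.intValuation_singleton v hπ.ne_zero (hπ.maximalIdeal_eq)
  have h3 : (maximalIdeal A).ramificationIdx' w.asIdeal = w.asIdeal.ramificationIdx A :=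
    Ideal.ramificationIdx'_eq_ramificationIdx (maximalIdeal A) w.asIdeal v.ne_bot
  rw [← h1, h2]
  show exp (-1 : ℤ) ^ ((maximalIdeal A).ramificationIdx' w.asIdeal) = _
  rw [h3, ← exp_nsmul]
  simp

/-- a nonzero prime of `B` lies over the maximal ideal of `A`. -/
theorem h29v_liesOver_of_ne_bot (P : Ideal B) [hP : P.IsPrime] (hne : P ≠ ⊥) :
    P.LiesOver (maximalIdeal A) := by
  constructor
  have h1 : P.under A ≠ ⊥ := fun h => hne (Ideal.eq_bot_of_comap_eq_bot h)
  have h2 : (P.under A).IsPrime := Ideal.IsPrime.under A P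
  have h3 : (P.under A).IsMaximal := h2.isMaximal h1
  exact (IsLocalRing.eq_maximalIdeal h3).symm

/-- the equation satisfied by `z`. -/
theorem h29v_eqn (π : A) (m : ℕ) (z : B) (u : A) (G H : A[X])
    (hG : G = X ^ m * (X - C u) + C π * H) (hroot : aeval z G = 0) :
    z ^ m * (z - algebraMap A B u)
      + algebraMap A B π * (algebraMap A B (H.coeff 0) + z * aeval z H.divX) = 0 := by
  have hH : H = H.divX * X + C (H.coeff 0) := (divX_mul_X_add H).symm
  have h1 : aeval z H = algebraMap A B (H.coeff 0) + z * aeval z H.divX := by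
    conv_lhs => rw [hH]
    simp only [map_add, map_mul, aeval_X, aeval_C]
    ring
  rw [← h1, ← hroot, hG]
  simp only [map_add, map_mul, map_pow, map_sub, aeval_X, aeval_C]


/-- arithmetic core: `m a f₁ + e₂ f₂ + rest = m + 1` with `a, f₁, e₂, f₂ ≥ 1`, `m ≥ 1`. -/
theorem h29v_arith {m a f₁ e₂ f₂ rest : ℕ} (hm : 1 ≤ m) (ha : 1 ≤ a) (hf₁ : 1 ≤ f₁)
    (he₂ : 1 ≤ e₂) (hf₂ : 1 ≤ f₂) (h : m * a * f₁ + e₂ * f₂ + rest = m + 1) :
    a = 1 ∧ f₁ = 1 ∧ e₂ = 1 ∧ f₂ = 1 ∧ rest = 0 := by
  have h1 : 1 ≤ e₂ * f₂ := Nat.one_le_iff_ne_zero.2 (Nat.mul_ne_zero (by omega) (by omega))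
  have h2 : m * a * f₁ ≤ m := by omega
  have h3 : m ≤ m * a := Nat.le_mul_of_pos_right m (by omega)
  have h4 : m * a ≤ m * a * f₁ := Nat.le_mul_of_pos_right _ (by omega)
  have h5 : m * a = m := by omega
  have h6 : m * a * f₁ = m := by omega
  have ha1 : a = 1 := by
    have : m * a = m * 1 := by rw [h5, mul_one]
    exact Nat.eq_of_mul_eq_mul_left (by omega) this
  have hf1 : f₁ = 1 := by
    rw [h5] at h6
    have : m * f₁ = m * 1 := by rw [h6, mul_one]
    exact Nat.eq_of_mul_eq_mul_left (by omega) this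
  have h7 : e₂ * f₂ = 1 := by omega
  have h8 : rest = 0 := by omega
  refine ⟨ha1, hf1, ?_, ?_, h8⟩
  · exact Nat.eq_one_of_mul_eq_one_right h7
  · exact Nat.eq_one_of_mul_eq_one_left h7

/-- **EIS-EXT.** -/
theorem h29v_eis_ext (π : A) (hπ : Irreducible π) (m : ℕ) (hm : 1 ≤ m)
    (hrank : Module.finrank A B = m + 1)
    (z : B) (u : A) (hu : IsUnit u) (G H : A[X])
    (hG : G = X ^ m * (X - C u) + C π * H) (hH : IsUnit (H.coeff 0))
    (hroot : aeval z G = 0) (hdvd : ∀ F : A[X], aeval z F = 0 → G ∣ F) :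
    ∃ P₁ P₂ : Ideal B, P₁.IsPrime ∧ P₂.IsPrime ∧ P₁.LiesOver (maximalIdeal A) ∧
      P₂.LiesOver (maximalIdeal A) ∧ z ∈ P₁ ∧ z - algebraMap A B u ∈ P₂ ∧ P₁ ≠ P₂ ∧
      (∀ P : Ideal B, P.IsPrime → P ≠ ⊥ → P = P₁ ∨ P = P₂) ∧
      P₁.ramificationIdx A = m ∧ P₁.inertiaDeg A = 1 ∧
      P₂.ramificationIdx A = 1 ∧ P₂.inertiaDeg A = 1 ∧ z ∉ P₁ ^ 2 := by
  classical
  have hinj : Function.Injective (algebraMap A B) := FaithfulSMul.algebraMap_injective A B
  have hπm : π ∈ maximalIdeal A := by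
    rw [hπ.maximalIdeal_eq]; exact Ideal.mem_span_singleton_self π
  have hm0 : m ≠ 0 := by omega
  -- the two primes
  obtain ⟨P₁, hP₁, hO₁, hz₁⟩ := h29v_exists_prime_of_root z G hdvd 0 (by
    rw [hG]
    simp only [eval_add, eval_mul, eval_pow, eval_X, eval_C, eval_sub, zero_pow hm0, zero_mul,
      zero_add]
    exact Ideal.mul_mem_right _ _ hπm)
  obtain ⟨P₂, hP₂, hO₂, hz₂⟩ := h29v_exists_prime_of_root z G hdvd u (by
    rw [hG]
    simp only [eval_add, eval_mul, eval_pow, eval_X, eval_C, eval_sub, sub_self, mul_zero,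
      zero_add]
    exact Ideal.mul_mem_right _ _ hπm)
  rw [map_zero, sub_zero] at hz₁
  have hne : P₁ ≠ P₂ := by
    rintro rfl
    exact h29v_unit_notMem hu P₁ (by simpa using P₁.sub_mem hz₁ hz₂)
  -- the equation
  have heq := h29v_eqn π m z u G H hG hroot
  have hz0 : z ≠ 0 := by
    rintro rfl
    rw [zero_pow hm0, zero_mul, zero_add, zero_mul, add_zero, ← map_mul] at heq
    have := hinj (heq.trans (map_zero _).symm)
    exact mul_ne_zero hπ.ne_zero hH.ne_zero this
  -- nonzero
  have hπB : algebraMap A B π ≠ 0 := fun h => hπ.ne_zero (hinj (h.trans (map_zero _).symm))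
  have hb₁ : P₁ ≠ ⊥ := fun h => hπB (by
    have : algebraMap A B π ∈ P₁ := by
      have := hO₁.over ▸ hπm
      exact this
    rw [h] at this
    exact this)
  let w₁ : HeightOneSpectrum B := ⟨P₁, hP₁, hb₁⟩
  have : w₁.asIdeal.LiesOver (maximalIdeal A) := hO₁
  have hv1 := h29v_val_eq π z (aeval z H.divX) u (H.coeff 0) hu hH m heq w₁ hz₁
  rw [h29v_val_unif π hπ w₁] at hv1
  -- the order of `z`
  obtain ⟨a, ha⟩ : ∃ a : ℕ, w₁.intValuation z = exp (-(a : ℤ)) :=
    ⟨_, HeightOneSpectrum.intValuation_if_neg w₁ hz0⟩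
  have ha1 : 1 ≤ a := by
    by_contra hcon
    have h0 : a = 0 := by omega
    have hlt := (HeightOneSpectrum.intValuation_lt_one_iff_mem w₁ z).2 hz₁
    rw [ha, h0] at hlt
    simp at hlt
  have hma : m * a = P₁.ramificationIdx A := by
    rw [ha, ← exp_nsmul, exp_inj] at hv1
    have : (m : ℤ) * a = P₁.ramificationIdx A := by
      simp only [nsmul_eq_mul, mul_neg, neg_inj] at hv1
      exact hv1
    exact_mod_cast this
  -- the fundamental identity
  have hsum := Ideal.sum_ramification_inertia_eq_finrank (maximalIdeal A) B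
  rw [hrank] at hsum
  let Q₁ : (maximalIdeal A).primesOver B := ⟨P₁, hP₁, hO₁⟩
  let Q₂ : (maximalIdeal A).primesOver B := ⟨P₂, hP₂, hO₂⟩
  have hQne : Q₂ ≠ Q₁ := fun h => hne (congrArg Subtype.val h).symm
  have hQ₂mem : Q₂ ∈ (Finset.univ : Finset ((maximalIdeal A).primesOver B)).erase Q₁ :=
    Finset.mem_erase.2 ⟨hQne, Finset.mem_univ _⟩
  rw [← Finset.add_sum_erase _ _ (Finset.mem_univ Q₁), ← Finset.add_sum_erase _ _ hQ₂mem,
    ← add_assoc] at hsum
  have hpos : ∀ Q : (maximalIdeal A).primesOver B,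
      1 ≤ Q.1.ramificationIdx A * Q.1.inertiaDeg A := by
    intro Q
    have := Q.2.1
    exact Nat.one_le_iff_ne_zero.2 (Nat.mul_ne_zero (Ideal.ramificationIdx_pos Q.1 A).ne'
      (Ideal.inertiaDeg_pos Q.1 A).ne')
  have hsum' : m * a * P₁.inertiaDeg A + P₂.ramificationIdx A * P₂.inertiaDeg A +
      ∑ Q ∈ ((Finset.univ : Finset ((maximalIdeal A).primesOver B)).erase Q₁).erase Q₂,
        Q.1.ramificationIdx A * Q.1.inertiaDeg A = m + 1 := by
    rw [hma]; exact hsum
  obtain ⟨ha', hf₁, he₂, hf₂, hrest⟩ := h29v_arith hm ha1 (Ideal.inertiaDeg_pos P₁ A)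
    (Ideal.ramificationIdx_pos P₂ A) (Ideal.inertiaDeg_pos P₂ A) hsum'
  refine ⟨P₁, P₂, hP₁, hP₂, hO₁, hO₂, hz₁, hz₂, hne, ?_, ?_, hf₁, he₂, hf₂, ?_⟩
  · intro P hP hPb
    have hO : P.LiesOver (maximalIdeal A) := h29v_liesOver_of_ne_bot P hPb
    let Q : (maximalIdeal A).primesOver B := ⟨P, hP, hO⟩
    by_contra hcon
    push Not at hcon
    have hQmem : Q ∈ ((Finset.univ : Finset ((maximalIdeal A).primesOver B)).erase Q₁).erase Q₂ :=
      Finset.mem_erase.2 ⟨fun h => hcon.2 (congrArg Subtype.val h),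
        Finset.mem_erase.2 ⟨fun h => hcon.1 (congrArg Subtype.val h), Finset.mem_univ _⟩⟩
    have h1 := Finset.single_le_sum (f := fun Q : (maximalIdeal A).primesOver B =>
      Q.1.ramificationIdx A * Q.1.inertiaDeg A) (fun _ _ => Nat.zero_le _) hQmem
    have h2 := hpos Q
    have h3 : Q.1.ramificationIdx A * Q.1.inertiaDeg A ≤ _ := h1
    omega
  · rw [← hma, ha', mul_one]
  · intro hmem
    have h1 := (HeightOneSpectrum.intValuation_le_pow_iff_mem w₁ z 2).2 hmem
    rw [ha, ha'] at h1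
    rw [exp_le_exp] at h1
    omega


/-- the factorisation of `𝔪 B`. -/
theorem h29v_map_eq (m : ℕ) (P₁ P₂ : Ideal B) (hP₁ : P₁.IsPrime) (hP₂ : P₂.IsPrime)
    (hO₁ : P₁.LiesOver (maximalIdeal A)) (hO₂ : P₂.LiesOver (maximalIdeal A)) (hne : P₁ ≠ P₂)
    (hall : ∀ P : Ideal B, P.IsPrime → P ≠ ⊥ → P = P₁ ∨ P = P₂)
    (he₁ : P₁.ramificationIdx A = m) (he₂ : P₂.ramificationIdx A = 1) :
    Ideal.map (algebraMap A B) (maximalIdeal A) = P₁ ^ m * P₂ := by
  classical
  have hm0 : maximalIdeal A ≠ 0 := (IsDiscreteValuationRing.maximalIdeal A).ne_bot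
  rw [Ideal.map_algebraMap_eq_finsetProd_pow hm0]
  have hset : ((maximalIdeal A).primesOver B).toFinset = {P₁, P₂} := by
    ext P
    rw [Set.mem_toFinset, Finset.mem_insert, Finset.mem_singleton]
    constructor
    · rintro ⟨hP, hO⟩
      exact hall P hP (Ideal.ne_bot_of_mem_primesOver hm0 ⟨hP, hO⟩)
    · rintro (rfl | rfl)
      · exact ⟨hP₁, hO₁⟩
      · exact ⟨hP₂, hO₂⟩
  rw [hset, Finset.prod_pair hne, he₁, he₂, pow_one]

/-- residue degree one: the residue field does not grow. -/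
theorem h29v_residue_surj (P : Ideal B) [hP : P.IsPrime] [hO : P.LiesOver (maximalIdeal A)]
    (hf : P.inertiaDeg A = 1) (b : B) : ∃ a : A, b - algebraMap A B a ∈ P := by
  have hPb : P ≠ ⊥ :=
    Ideal.ne_bot_of_mem_primesOver (IsDiscreteValuationRing.maximalIdeal A).ne_bot ⟨hP, hO⟩
  have : P.IsMaximal := hP.isMaximal hPb
  rw [Ideal.inertiaDeg_eq_of_isMaximal (maximalIdeal A) P] at hf
  let _ : Field (A ⧸ maximalIdeal A) := Ideal.Quotient.field _
  let _ : Field (B ⧸ P) := Ideal.Quotient.field _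
  have h1 : (⊥ : Subalgebra (A ⧸ maximalIdeal A) (B ⧸ P)) = ⊤ :=
    Subalgebra.bot_eq_top_of_finrank_eq_one hf
  have h2 : Ideal.Quotient.mk P b ∈ (⊥ : Subalgebra (A ⧸ maximalIdeal A) (B ⧸ P)) := by
    rw [h1]; exact Algebra.mem_top
  obtain ⟨a', ha'⟩ := Algebra.mem_bot.1 h2
  obtain ⟨a, rfl⟩ := Ideal.Quotient.mk_surjective a'
  refine ⟨a, ?_⟩
  rw [← Ideal.Quotient.eq, ← ha']
  rfl

/-- an element of `P ∖ P²` has valuation `exp (-1)`. -/
theorem h29v_intValuation_eq (w : HeightOneSpectrum B) (z : B) (hz : z ∈ w.asIdeal)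
    (hz2 : z ∉ w.asIdeal ^ 2) : w.intValuation z = exp (-1 : ℤ) := by
  have h1 : w.intValuation z ≤ exp (-((1 : ℕ) : ℤ)) :=
    (HeightOneSpectrum.intValuation_le_pow_iff_mem w z 1).2 (by rwa [pow_one])
  have h2 : ¬ w.intValuation z ≤ exp (-((2 : ℕ) : ℤ)) := fun h =>
    hz2 ((HeightOneSpectrum.intValuation_le_pow_iff_mem w z 2).1 h)
  have hz0 : z ≠ 0 := by
    rintro rfl
    exact hz2 (Ideal.zero_mem _)
  obtain ⟨a, ha⟩ : ∃ a : ℕ, w.intValuation z = exp (-(a : ℤ)) :=
    ⟨_, HeightOneSpectrum.intValuation_if_neg w hz0⟩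
  rw [ha, exp_le_exp] at h1 h2
  rw [ha]
  congr 1
  push_cast at h1 h2
  omega

/-- `G` generates the relations of `z` as soon as its degree is minimal. -/
theorem h29v_dvd_of_natDegree_le (z : B) (G : A[X]) (hG : G.Monic) (hroot : aeval z G = 0)
    (hdeg : G.natDegree ≤ (minpoly A z).natDegree) (F : A[X]) (hF : aeval z F = 0) : G ∣ F := by
  have hint : IsIntegral A z := Algebra.IsIntegral.isIntegral z
  have h1 : minpoly A z ∣ G := minpoly.isIntegrallyClosed_dvd hint hroot
  have h2 : G = minpoly A z :=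
    Polynomial.eq_of_monic_of_dvd_of_natDegree_le (minpoly.monic hint) hG h1 hdeg
  rw [h2]
  exact minpoly.isIntegrallyClosed_dvd hint hF

/-- if `z` generates the extension of fraction fields, the degree of its minimal polynomial
is the rank of `B`. -/
theorem h29v_natDegree_minpoly (K L : Type*) [Field K] [Field L] [Algebra A K]
    [IsFractionRing A K] [Algebra B L] [IsFractionRing B L] [Algebra K L] [Algebra A L]
    [IsScalarTower A K L] [IsScalarTower A B L] (z : B)
    (hgen : IntermediateField.adjoin K {algebraMap B L z} = ⊤) :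
    (minpoly A z).natDegree = Module.finrank A B := by
  have hint : IsIntegral A z := Algebra.IsIntegral.isIntegral z
  have h1 : minpoly K (algebraMap B L z) = (minpoly A z).map (algebraMap A K) :=
    minpoly.isIntegrallyClosed_eq_field_fractions K L hint
  have hintK : IsIntegral K (algebraMap B L z) := by
    have := hint.map (IsScalarTower.toAlgHom A B L)
    exact this.tower_top
  have h2 := IntermediateField.adjoin.finrank hintK
  rw [hgen, IntermediateField.finrank_top', h1, (minpoly.monic hint).natDegree_map] at h2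
  rw [← h2, IsFractionRing.finrank_eq A K B L]

/-- the residue degree at a prime is at least the degree of an irreducible reduction. -/
theorem h29v_le_inertiaDeg (z : B) (G : A[X]) (hG : G.Monic) (hroot : aeval z G = 0)
    (hirr : Irreducible (G.map (Ideal.Quotient.mk (maximalIdeal A))))
    (P : Ideal B) [hP : P.IsPrime] [hO : P.LiesOver (maximalIdeal A)] :
    G.natDegree ≤ P.inertiaDeg A := by
  have hPb : P ≠ ⊥ :=
    Ideal.ne_bot_of_mem_primesOver (IsDiscreteValuationRing.maximalIdeal A).ne_bot ⟨hP, hO⟩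
  have : P.IsMaximal := hP.isMaximal hPb
  rw [Ideal.inertiaDeg_eq_of_isMaximal (maximalIdeal A) P]
  let _ : Field (A ⧸ maximalIdeal A) := Ideal.Quotient.field _
  let _ : Field (B ⧸ P) := Ideal.Quotient.field _
  set Gb : (A ⧸ maximalIdeal A)[X] := G.map (Ideal.Quotient.mk (maximalIdeal A)) with hGb
  have hmonic : Gb.Monic := hG.map _
  have hroot' : aeval (Ideal.Quotient.mk P z) Gb = 0 := by
    have h1 : aeval (Ideal.Quotient.mk P z) G = 0 := by
      have := congrArg (Ideal.Quotient.mk P) hroot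
      rw [map_zero] at this
      rw [← this]
      exact (Polynomial.aeval_algHom_apply (Ideal.Quotient.mkₐ A P) z G)
    rw [hGb]
    show aeval (Ideal.Quotient.mk P z) (G.map (algebraMap A (A ⧸ maximalIdeal A))) = 0
    rw [aeval_map_algebraMap]
    exact h1
  have hmin : Gb = minpoly (A ⧸ maximalIdeal A) (Ideal.Quotient.mk P z) :=
    minpoly.eq_of_irreducible_of_monic hirr hroot' hmonic
  have hdeg : Gb.natDegree = G.natDegree := hG.natDegree_map _
  rw [← hdeg, hmin]
  have : Module.Finite (A ⧸ maximalIdeal A) (B ⧸ P) :=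
    Module.Finite.of_restrictScalars_finite A _ _
  exact minpoly.natDegree_le _

/-- **INERT-EXT.** -/
theorem h29v_inert_ext (n : ℕ) (hrank : Module.finrank A B = n) (z : B) (G : A[X])
    (hG : G.Monic) (hdeg : G.natDegree = n) (hroot : aeval z G = 0)
    (hirr : Irreducible (G.map (Ideal.Quotient.mk (maximalIdeal A)))) :
    ∃ P : Ideal B, P.IsPrime ∧ P.LiesOver (maximalIdeal A) ∧
      (∀ Q : Ideal B, Q.IsPrime → Q ≠ ⊥ → Q = P) ∧
      P.ramificationIdx A = 1 ∧ P.inertiaDeg A = n ∧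
      Ideal.map (algebraMap A B) (maximalIdeal A) = P := by
  classical
  have hm0 : maximalIdeal A ≠ 0 := (IsDiscreteValuationRing.maximalIdeal A).ne_bot
  obtain ⟨P, hPmax, hO⟩ :=
    Ideal.exists_maximal_ideal_liesOver_of_isIntegral (S := B) (maximalIdeal A)
  have hP : P.IsPrime := hPmax.isPrime
  have hf := h29v_le_inertiaDeg z G hG hroot hirr P
  rw [hdeg] at hf
  have hsum := Ideal.sum_ramification_inertia_eq_finrank (maximalIdeal A) B
  rw [hrank] at hsum
  let Q₁ : (maximalIdeal A).primesOver B := ⟨P, hP, hO⟩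
  rw [← Finset.add_sum_erase _ _ (Finset.mem_univ Q₁)] at hsum
  have hpos : ∀ Q : (maximalIdeal A).primesOver B,
      1 ≤ Q.1.ramificationIdx A * Q.1.inertiaDeg A := by
    intro Q
    have := Q.2.1
    exact Nat.one_le_iff_ne_zero.2 (Nat.mul_ne_zero (Ideal.ramificationIdx_pos Q.1 A).ne'
      (Ideal.inertiaDeg_pos Q.1 A).ne')
  have he := Ideal.ramificationIdx_pos P A
  have hfpos := Ideal.inertiaDeg_pos P A
  have hsum' : P.ramificationIdx A * P.inertiaDeg A +
      ∑ Q ∈ (Finset.univ : Finset ((maximalIdeal A).primesOver B)).erase Q₁,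
        Q.1.ramificationIdx A * Q.1.inertiaDeg A = n := hsum
  have h1 : P.inertiaDeg A ≤ P.ramificationIdx A * P.inertiaDeg A :=
    Nat.le_mul_of_pos_left _ he
  have hfn : P.inertiaDeg A = n := by omega
  have hef : P.ramificationIdx A * P.inertiaDeg A = n := by omega
  have he1 : P.ramificationIdx A = 1 := by
    rw [hfn] at hef
    have hn : 0 < n := by omega
    have : P.ramificationIdx A * n = 1 * n := by rw [hef, one_mul]
    exact Nat.eq_of_mul_eq_mul_right hn this
  have hrest : ∑ Q ∈ (Finset.univ : Finset ((maximalIdeal A).primesOver B)).erase Q₁,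
        Q.1.ramificationIdx A * Q.1.inertiaDeg A = 0 := by omega
  have hall : ∀ Q : Ideal B, Q.IsPrime → Q ≠ ⊥ → Q = P := by
    intro Q hQ hQb
    have hOQ : Q.LiesOver (maximalIdeal A) := h29v_liesOver_of_ne_bot Q hQb
    let Q' : (maximalIdeal A).primesOver B := ⟨Q, hQ, hOQ⟩
    by_contra hcon
    have hQmem : Q' ∈ (Finset.univ : Finset ((maximalIdeal A).primesOver B)).erase Q₁ :=
      Finset.mem_erase.2 ⟨fun h => hcon (congrArg Subtype.val h), Finset.mem_univ _⟩
    have h1 := Finset.single_le_sum (f := fun Q : (maximalIdeal A).primesOver B =>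
      Q.1.ramificationIdx A * Q.1.inertiaDeg A) (fun _ _ => Nat.zero_le _) hQmem
    have h2 := hpos Q'
    have h3 : Q'.1.ramificationIdx A * Q'.1.inertiaDeg A ≤ _ := h1
    omega
  refine ⟨P, hP, hO, hall, he1, hfn, ?_⟩
  rw [Ideal.map_algebraMap_eq_finsetProd_pow hm0]
  have hset : ((maximalIdeal A).primesOver B).toFinset = {P} := by
    ext Q
    rw [Set.mem_toFinset, Finset.mem_singleton]
    constructor
    · rintro ⟨hQ, hOQ⟩
      exact hall Q hQ (Ideal.ne_bot_of_mem_primesOver hm0 ⟨hQ, hOQ⟩)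
    · rintro rfl
      exact ⟨hP, hO⟩
  rw [hset, Finset.prod_singleton, he1, pow_one]

end EisExt

end Fermat.Agent.S36
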