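import Mathlib

/-!
# S36, step (D): Hilbert 90 for a group acting on a field (Mathlib only, helper29)

`h29e_h90` : let a group `G` act on a field `L` by ring automorphisms, let `c : G → L` be a
`1`-cocycle with nonzero values (`c (σ τ) = c σ * σ • c τ`) which is trivial on a subgroup `U`
of finite index, and assume that `U` is separated from its complement by `U`-invariant
elements (every `σ ∉ U` moves some `U`-invariant `y`).  Then `c` is a coboundary: there is
`z ≠ 0` with `c σ * σ • z = z` for all `σ`.

(Proof: Dedekind's independence of characters for the finitely many maps `y ↦ τ • y`,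
`τ ∈ G ⧸ U`, on the `U`-invariant elements, and the usual Poincaré series.)
No Galois theory and no topology is used.
-/

set_option autoImplicit false

namespace Fermat.Agent.S36

section H90

variable {G L : Type*} [Group G] [Field L] [MulSemiringAction G L]

/-- the submonoid of `U`-invariant elements. -/
def h29eInv (U : Subgroup G) : Submonoid L where
  carrier := {y | ∀ u ∈ U, u • y = y}
  one_mem' := fun u _ => smul_one u
  mul_mem' := by
    intro a b ha hb u hu
    rw [smul_mul', ha u hu, hb u hu]

theorem h29e_mem_inv {U : Subgroup G} {y : L} :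
    y ∈ h29eInv (L := L) U ↔ ∀ u ∈ U, u • y = y := Iff.rfl

/-- the character `y ↦ τ • y` on the `U`-invariant elements. -/
def h29eChar (U : Subgroup G) (τ : G) : h29eInv (L := L) U →* L where
  toFun y := τ • (y : L)
  map_one' := smul_one τ
  map_mul' := fun a b => smul_mul' τ (a : L) (b : L)

@[simp]
theorem h29eChar_apply (U : Subgroup G) (τ : G) (y : h29eInv (L := L) U) :
    h29eChar U τ y = τ • (y : L) := rfl

/-- the summand of the Poincaré series is constant on left cosets. -/
theorem h29e_coset_const (U : Subgroup G) (c : G → L)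
    (hcoc : ∀ σ τ, c (σ * τ) = c σ * σ • c τ) (hU : ∀ u ∈ U, c u = 1)
    (y : L) (hy : ∀ u ∈ U, u • y = y) (a b : G) (hab : a⁻¹ * b ∈ U) :
    c a * a • y = c b * b • y := by
  have hb : b = a * (a⁻¹ * b) := by group
  rw [hb, hcoc, hU _ hab, smul_one, mul_one, mul_smul, hy _ hab]

/-- **Hilbert 90** for a cocycle which is trivial on a separated subgroup of finite index. -/
theorem h29e_h90 (U : Subgroup G) [Finite (G ⧸ U)] (c : G → L) (hc0 : ∀ σ, c σ ≠ 0)
    (hcoc : ∀ σ τ, c (σ * τ) = c σ * σ • c τ) (hU : ∀ u ∈ U, c u = 1)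
    (hsep : ∀ σ : G, σ ∉ U → ∃ y : L, (∀ u ∈ U, u • y = y) ∧ σ • y ≠ y) :
    ∃ z : L, z ≠ 0 ∧ ∀ σ : G, c σ * σ • z = z := by
  classical
  let _ : Fintype (G ⧸ U) := Fintype.ofFinite _
  -- the characters attached to the cosets are pairwise distinct
  have hinj : Function.Injective (fun q : G ⧸ U => h29eChar (L := L) U (Quotient.out q)) := by
    intro q q' h
    by_contra hne
    have hnot : (Quotient.out q)⁻¹ * Quotient.out q' ∉ U := by
      intro hmem
      apply hne
      have := (QuotientGroup.eq (s := U)).2 hmem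
      rwa [QuotientGroup.out_eq', QuotientGroup.out_eq'] at this
    obtain ⟨y, hy, hmove⟩ := hsep _ hnot
    apply hmove
    have h1 := DFunLike.congr_fun h (⟨y, hy⟩ : h29eInv (L := L) U)
    simp only [h29eChar_apply] at h1
    rw [mul_smul, ← h1, inv_smul_smul]
  -- Dedekind
  have hli : LinearIndependent L
      (fun q : G ⧸ U => (h29eChar (L := L) U (Quotient.out q) : h29eInv (L := L) U → L)) :=
    (linearIndependent_monoidHom (h29eInv (L := L) U) L).comp _ hinj
  rw [Fintype.linearIndependent_iff] at hli
  -- a nonzero value of the Poincaré series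
  obtain ⟨y, hy, hz⟩ : ∃ y : L, (∀ u ∈ U, u • y = y) ∧
      ∑ q : G ⧸ U, c (Quotient.out q) * (Quotient.out q) • y ≠ 0 := by
    by_contra hcon
    push Not at hcon
    have h0 := hli (fun q => c (Quotient.out q)) (by
      funext y
      simp only [Finset.sum_apply, Pi.smul_apply, h29eChar_apply, smul_eq_mul, Pi.zero_apply]
      exact hcon (y : L) y.2)
    exact hc0 _ (h0 ((1 : G) : G ⧸ U))
  refine ⟨_, hz, fun σ => ?_⟩
  -- invariance
  set φ : G → L := fun τ => c τ * τ • y with hφ
  have hconst : ∀ a b : G, a⁻¹ * b ∈ U → φ a = φ b :=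
    fun a b hab => h29e_coset_const U c hcoc hU y hy a b hab
  have hout : ∀ τ : G, φ (Quotient.out (τ : G ⧸ U)) = φ τ := by
    intro τ
    apply hconst
    have : ((Quotient.out (τ : G ⧸ U) : G) : G ⧸ U) = (τ : G ⧸ U) := QuotientGroup.out_eq' _
    exact (QuotientGroup.eq (s := U)).1 this
  have h1 : c σ * σ • ∑ q : G ⧸ U, c (Quotient.out q) * (Quotient.out q) • y =
      ∑ q : G ⧸ U, φ (σ * Quotient.out q) := by
    rw [Finset.smul_sum, Finset.mul_sum]
    refine Finset.sum_congr rfl fun q _ => ?_
    rw [smul_mul', hφ]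
    simp only
    rw [hcoc, mul_smul, mul_assoc]
  rw [h1]
  have h2 : ∀ q : G ⧸ U, φ (σ * Quotient.out q) = φ (Quotient.out (σ • q)) := by
    intro q
    have e : σ • q = ((σ * Quotient.out q : G) : G ⧸ U) := by
      conv_lhs => rw [← QuotientGroup.out_eq' q]
      rfl
    rw [e, hout]
  simp_rw [h2]
  exact Fintype.sum_equiv (MulAction.toPerm σ) _ _ (fun q => rfl)

end H90

end Fermat.Agent.S36
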