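import Mathlib

/-!
# S36, block REG, row R-L1-SMOOTH (helper29): descent of closed points along the reduction
# isomorphism, abstract form

Mathlib only.  `ι : B₀ → B` an injective ring homomorphism (the chart over the inertia ring
`A₀` inside the chart over `A`), `𝔪` an ideal of `B` (`𝔪_A B`), `π ∈ B₀` (the prime `q`) with

* `hcongr` : `B = ι B₀ + 𝔪`;
* `hinter` : `ι⁻¹ 𝔪 ⊆ π B₀`.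

For an ideal `𝔫₁ ∋ π` of `B₀`:

* `h29l_lift ι 𝔪 𝔫₁ = ι 𝔫₁ B + 𝔪`, `h29l_mem_lift` : `b ∈ lift ↔ ∃ b₀ ∈ 𝔫₁, b - ι b₀ ∈ 𝔪`;
* `h29l_map_mem_lift` : `ι b₀ ∈ lift ↔ b₀ ∈ 𝔫₁`;
* `h29l_lift_isMaximal` : the lift of a maximal ideal is maximal;
* `h29l_le_lift_iff` : for `𝔪 ≤ P`: `P ≤ lift ↔ ι⁻¹ P ≤ 𝔫₁`;
* `h29l_descend_LP` : `lift = (ι X) + 𝔪` locally `⇒` `𝔫₁ = (π, X)` locally;
* `h29l_descend_LP2` : `lift = (ι X, ι Y) + 𝔪` locally `⇒` `𝔫₁ = (π, X, Y)` locally;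
* `h29l_descend_comp` : if `P ⊓ P' ≤ 𝔪`, `𝔪 ≤ P'` and `P' ⊄ lift`, then `ι⁻¹ P = (π)`
  locally at `𝔫₁` (with one denominator `e₀ ∈ ι⁻¹ P'`, `e₀ ∉ 𝔫₁`).
-/

set_option autoImplicit false

namespace Fermat.Agent.S36

section Abs

variable {B₀ B : Type*} [CommRing B₀] [CommRing B] (ι : B₀ →+* B) (𝔪 : Ideal B)

/-- the ideal `ι 𝔫₁ B + 𝔪` of `B`. -/
def h29l_lift (𝔫₁ : Ideal B₀) : Ideal B := 𝔫₁.map ι ⊔ 𝔪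

theorem h29l_le_lift (𝔫₁ : Ideal B₀) : 𝔪 ≤ h29l_lift ι 𝔪 𝔫₁ := le_sup_right

theorem h29l_map_mem_lift_of_mem (𝔫₁ : Ideal B₀) {b₀ : B₀} (h : b₀ ∈ 𝔫₁) :
    ι b₀ ∈ h29l_lift ι 𝔪 𝔫₁ :=
  Ideal.mem_sup_left (Ideal.mem_map_of_mem ι h)

variable {ι 𝔪}

/-- elements of `lift` are congruent modulo `𝔪` to elements of `𝔫₁`. -/
theorem h29l_mem_lift (hcongr : ∀ b : B, ∃ b₀ : B₀, b - ι b₀ ∈ 𝔪) (𝔫₁ : Ideal B₀) (b : B) :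
    b ∈ h29l_lift ι 𝔪 𝔫₁ ↔ ∃ b₀ ∈ 𝔫₁, b - ι b₀ ∈ 𝔪 := by
  constructor
  · intro hb
    obtain ⟨x, hx, m, hm, rfl⟩ := Submodule.mem_sup.mp hb
    have key : ∀ x ∈ 𝔫₁.map ι, ∃ b₀ ∈ 𝔫₁, x - ι b₀ ∈ 𝔪 := by
      intro x hx
      refine Submodule.span_induction (p := fun x _ => ∃ b₀ ∈ 𝔫₁, x - ι b₀ ∈ 𝔪)
        ?_ ?_ ?_ ?_ hx
      · rintro y ⟨y₀, hy₀, rfl⟩
        exact ⟨y₀, hy₀, by rw [sub_self]; exact 𝔪.zero_mem⟩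
      · exact ⟨0, 𝔫₁.zero_mem, by rw [map_zero, sub_zero]; exact 𝔪.zero_mem⟩
      · rintro x y _ _ ⟨x₀, hx₀, hx⟩ ⟨y₀, hy₀, hy⟩
        refine ⟨x₀ + y₀, 𝔫₁.add_mem hx₀ hy₀, ?_⟩
        have h1 : x + y - ι (x₀ + y₀) = (x - ι x₀) + (y - ι y₀) := by rw [map_add]; ring
        rw [h1]
        exact 𝔪.add_mem hx hy
      · rintro c x _ ⟨x₀, hx₀, hx⟩
        obtain ⟨c₀, hc₀⟩ := hcongr c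
        refine ⟨c₀ * x₀, 𝔫₁.mul_mem_left _ hx₀, ?_⟩
        have h1 : c • x - ι (c₀ * x₀) = c * (x - ι x₀) + (c - ι c₀) * ι x₀ := by
          rw [map_mul, smul_eq_mul]; ring
        rw [h1]
        exact 𝔪.add_mem (𝔪.mul_mem_left _ hx) (𝔪.mul_mem_right _ hc₀)
    obtain ⟨b₀, hb₀, hxb⟩ := key x hx
    refine ⟨b₀, hb₀, ?_⟩
    have h1 : x + m - ι b₀ = (x - ι b₀) + m := by ring
    rw [h1]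
    exact 𝔪.add_mem hxb hm
  · rintro ⟨b₀, hb₀, hb⟩
    have h1 : b = ι b₀ + (b - ι b₀) := by ring
    rw [h1]
    exact Ideal.add_mem _ (h29l_map_mem_lift_of_mem ι 𝔪 𝔫₁ hb₀) (h29l_le_lift ι 𝔪 𝔫₁ hb)

/-- `ι⁻¹ lift = 𝔫₁`. -/
theorem h29l_map_mem_lift (hcongr : ∀ b : B, ∃ b₀ : B₀, b - ι b₀ ∈ 𝔪) (π : B₀)
    (hinter : ∀ b₀ : B₀, ι b₀ ∈ 𝔪 → ∃ y : B₀, b₀ = π * y)
    (𝔫₁ : Ideal B₀) (hπ : π ∈ 𝔫₁) (b₀ : B₀) :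
    ι b₀ ∈ h29l_lift ι 𝔪 𝔫₁ ↔ b₀ ∈ 𝔫₁ := by
  constructor
  · intro h
    obtain ⟨c₀, hc₀, hc⟩ := (h29l_mem_lift hcongr 𝔫₁ _).mp h
    rw [← map_sub] at hc
    obtain ⟨y, hy⟩ := hinter _ hc
    have h1 : b₀ = c₀ + π * y := by rw [← hy]; ring
    rw [h1]
    exact 𝔫₁.add_mem hc₀ (𝔫₁.mul_mem_right _ hπ)
  · exact h29l_map_mem_lift_of_mem ι 𝔪 𝔫₁

/-- the lift of a maximal ideal is maximal. -/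
theorem h29l_lift_isMaximal (hcongr : ∀ b : B, ∃ b₀ : B₀, b - ι b₀ ∈ 𝔪) (π : B₀)
    (hinter : ∀ b₀ : B₀, ι b₀ ∈ 𝔪 → ∃ y : B₀, b₀ = π * y)
    (𝔫₁ : Ideal B₀) [h𝔫₁ : 𝔫₁.IsMaximal] (hπ : π ∈ 𝔫₁) :
    (h29l_lift ι 𝔪 𝔫₁).IsMaximal := by
  rw [Ideal.isMaximal_iff]
  refine ⟨fun h => ?_, fun J x hle hx hxJ => ?_⟩
  · have h1 : ι 1 ∈ h29l_lift ι 𝔪 𝔫₁ := by rw [map_one]; exact h
    exact h𝔫₁.ne_top ((Ideal.eq_top_iff_one _).mpr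
      ((h29l_map_mem_lift hcongr π hinter 𝔫₁ hπ 1).mp h1))
  · obtain ⟨x₀, hx₀⟩ := hcongr x
    have hx₀𝔫 : x₀ ∉ 𝔫₁ := by
      intro h
      apply hx
      exact (h29l_mem_lift hcongr 𝔫₁ x).mpr ⟨x₀, h, hx₀⟩
    obtain ⟨y₀, c₀, hc₀, hyc⟩ := h𝔫₁.exists_inv hx₀𝔫
    have h1 : (1 : B) = ι y₀ * x + (ι c₀ - ι y₀ * (x - ι x₀)) := by
      have h2 : ι (y₀ * x₀ + c₀) = 1 := by rw [hyc, map_one]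
      rw [map_add, map_mul] at h2
      rw [← h2]; ring
    rw [h1]
    refine J.add_mem (J.mul_mem_left _ hxJ) (hle ?_)
    exact Ideal.sub_mem _ (h29l_map_mem_lift_of_mem ι 𝔪 𝔫₁ hc₀)
      (h29l_le_lift ι 𝔪 𝔫₁ (𝔪.mul_mem_left _ hx₀))

/-- a component `P ⊇ 𝔪` passes through `lift` iff its contraction passes through `𝔫₁`. -/
theorem h29l_le_lift_iff (hcongr : ∀ b : B, ∃ b₀ : B₀, b - ι b₀ ∈ 𝔪) (π : B₀)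
    (hinter : ∀ b₀ : B₀, ι b₀ ∈ 𝔪 → ∃ y : B₀, b₀ = π * y)
    (𝔫₁ : Ideal B₀) (hπ : π ∈ 𝔫₁) (P : Ideal B) (h𝔪P : 𝔪 ≤ P) :
    P ≤ h29l_lift ι 𝔪 𝔫₁ ↔ ∀ z : B₀, ι z ∈ P → z ∈ 𝔫₁ := by
  constructor
  · intro h z hz
    exact (h29l_map_mem_lift hcongr π hinter 𝔫₁ hπ z).mp (h hz)
  · intro h b hb
    obtain ⟨b₀, hb₀⟩ := hcongr b
    have h1 : ι b₀ ∈ P := by
      have h2 : ι b₀ = b - (b - ι b₀) := by ring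
      rw [h2]
      exact P.sub_mem hb (h𝔪P hb₀)
    exact (h29l_mem_lift hcongr 𝔫₁ b).mpr ⟨b₀, h b₀ h1, hb₀⟩

/-- **descent of a local parameter**: `lift = (ι X) + 𝔪` locally `⇒` `𝔫₁ = (π, X)` locally. -/
theorem h29l_descend_LP
    (hcongr : ∀ b : B, ∃ b₀ : B₀, b - ι b₀ ∈ 𝔪) (π : B₀)
    (hinter : ∀ b₀ : B₀, ι b₀ ∈ 𝔪 → ∃ y : B₀, b₀ = π * y)
    (𝔫₁ : Ideal B₀) (X : B₀)
    (hLP : ∀ z ∈ h29l_lift ι 𝔪 𝔫₁, ∃ s, s ∉ h29l_lift ι 𝔪 𝔫₁ ∧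
      s * z ∈ Ideal.span {ι X} ⊔ 𝔪) :
    ∀ z ∈ 𝔫₁, ∃ s, s ∉ 𝔫₁ ∧ s * z ∈ Ideal.span {π, X} := by
  intro z hz
  obtain ⟨s, hs, hsz⟩ := hLP (ι z) (h29l_map_mem_lift_of_mem ι 𝔪 𝔫₁ hz)
  obtain ⟨x, hx, m, hm, hsum⟩ := Submodule.mem_sup.mp hsz
  obtain ⟨c, rfl⟩ := Ideal.mem_span_singleton'.mp hx
  obtain ⟨s₀, hs₀⟩ := hcongr s
  obtain ⟨c₀, hc₀⟩ := hcongr c
  have hs₀𝔫 : s₀ ∉ 𝔫₁ := by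
    intro h
    apply hs
    exact (h29l_mem_lift hcongr 𝔫₁ s).mpr ⟨s₀, h, hs₀⟩
  refine ⟨s₀, hs₀𝔫, ?_⟩
  have h1 : ι (s₀ * z - c₀ * X) ∈ 𝔪 := by
    have h2 : ι (s₀ * z - c₀ * X) = m - (s - ι s₀) * ι z + (c - ι c₀) * ι X := by
      rw [map_sub, map_mul, map_mul]
      have h3 : m = s * ι z - c * ι X := by rw [← hsum]; ring
      rw [h3]; ring
    rw [h2]
    exact 𝔪.add_mem (𝔪.sub_mem hm (𝔪.mul_mem_right _ hs₀)) (𝔪.mul_mem_right _ hc₀)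
  obtain ⟨y, hy⟩ := hinter _ h1
  have h4 : s₀ * z = y * π + c₀ * X := by
    have : s₀ * z = (s₀ * z - c₀ * X) + c₀ * X := by ring
    rw [this, hy]; ring
  rw [h4]
  exact Ideal.mem_span_pair.mpr ⟨y, c₀, rfl⟩

/-- **descent of two local parameters**: `lift = (ι X, ι Y) + 𝔪` locally `⇒`
`𝔫₁ = (π, X, Y)` locally. -/
theorem h29l_descend_LP2
    (hcongr : ∀ b : B, ∃ b₀ : B₀, b - ι b₀ ∈ 𝔪) (π : B₀)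
    (hinter : ∀ b₀ : B₀, ι b₀ ∈ 𝔪 → ∃ y : B₀, b₀ = π * y)
    (𝔫₁ : Ideal B₀) (X Y : B₀)
    (hLP : ∀ z ∈ h29l_lift ι 𝔪 𝔫₁, ∃ s, s ∉ h29l_lift ι 𝔪 𝔫₁ ∧
      s * z ∈ Ideal.span {ι X, ι Y} ⊔ 𝔪) :
    ∀ z ∈ 𝔫₁, ∃ s, s ∉ 𝔫₁ ∧ s * z ∈ Ideal.span {π} ⊔ Ideal.span {X, Y} := by
  intro z hz
  obtain ⟨s, hs, hsz⟩ := hLP (ι z) (h29l_map_mem_lift_of_mem ι 𝔪 𝔫₁ hz)
  obtain ⟨x, hx, m, hm, hsum⟩ := Submodule.mem_sup.mp hsz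
  obtain ⟨c, d, rfl⟩ := Ideal.mem_span_pair.mp hx
  obtain ⟨s₀, hs₀⟩ := hcongr s
  obtain ⟨c₀, hc₀⟩ := hcongr c
  obtain ⟨d₀, hd₀⟩ := hcongr d
  have hs₀𝔫 : s₀ ∉ 𝔫₁ := by
    intro h
    apply hs
    exact (h29l_mem_lift hcongr 𝔫₁ s).mpr ⟨s₀, h, hs₀⟩
  refine ⟨s₀, hs₀𝔫, ?_⟩
  have h1 : ι (s₀ * z - (c₀ * X + d₀ * Y)) ∈ 𝔪 := by
    have h2 : ι (s₀ * z - (c₀ * X + d₀ * Y))
        = m - (s - ι s₀) * ι z + (c - ι c₀) * ι X + (d - ι d₀) * ι Y := by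
      rw [map_sub, map_add, map_mul, map_mul, map_mul]
      have h3 : m = s * ι z - (c * ι X + d * ι Y) := by rw [← hsum]; ring
      rw [h3]; ring
    rw [h2]
    exact 𝔪.add_mem (𝔪.add_mem (𝔪.sub_mem hm (𝔪.mul_mem_right _ hs₀))
      (𝔪.mul_mem_right _ hc₀)) (𝔪.mul_mem_right _ hd₀)
  obtain ⟨y, hy⟩ := hinter _ h1
  have h4 : s₀ * z = y * π + (c₀ * X + d₀ * Y) := by
    have : s₀ * z = (s₀ * z - (c₀ * X + d₀ * Y)) + (c₀ * X + d₀ * Y) := by ring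
    rw [this, hy]; ring
  rw [h4]
  exact Ideal.add_mem _ (Ideal.mem_sup_left (Ideal.mem_span_singleton'.mpr ⟨y, rfl⟩))
    (Ideal.mem_sup_right (Ideal.mem_span_pair.mpr ⟨c₀, d₀, rfl⟩))

/-- **descent of the component**: if `P ⊓ P' ≤ 𝔪`, `𝔪 ≤ P'` and `P'` does not pass through
`lift`, then `ι⁻¹ P = (π)` locally at `𝔫₁`, with one denominator `e₀ ∈ ι⁻¹ P'`. -/
theorem h29l_descend_comp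
    (hcongr : ∀ b : B, ∃ b₀ : B₀, b - ι b₀ ∈ 𝔪) (π : B₀)
    (hinter : ∀ b₀ : B₀, ι b₀ ∈ 𝔪 → ∃ y : B₀, b₀ = π * y)
    (𝔫₁ : Ideal B₀) (P P' : Ideal B) (hSF : P ⊓ P' ≤ 𝔪) (h𝔪P' : 𝔪 ≤ P')
    (hP' : ¬ P' ≤ h29l_lift ι 𝔪 𝔫₁) :
    ∃ e₀ : B₀, e₀ ∉ 𝔫₁ ∧ ι e₀ ∈ P' ∧ ∀ z : B₀, ι z ∈ P → ∃ y : B₀, e₀ * z = π * y := by
  obtain ⟨e, heP', he𝔫⟩ := SetLike.not_le_iff_exists.mp hP'
  obtain ⟨e₀, he₀⟩ := hcongr e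
  have h1 : ι e₀ ∈ P' := by
    have h2 : ι e₀ = e - (e - ι e₀) := by ring
    rw [h2]
    exact P'.sub_mem heP' (h𝔪P' he₀)
  refine ⟨e₀, fun h => he𝔫 ((h29l_mem_lift hcongr 𝔫₁ e).mpr ⟨e₀, h, he₀⟩), h1, ?_⟩
  intro z hz
  apply hinter
  rw [map_mul]
  exact hSF ⟨P.mul_mem_left _ hz, P'.mul_mem_right _ h1⟩

end Abs

end Fermat.Agent.S36
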