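import Mathlib
import Fermat.Agent.LGC.H62TwoComp

/-!
# S36, block REG, row R-L1-SMOOTH (helper29): rational local parameters at a smooth point,
# abstract form over `A`

Setting of `LGC/H62TwoComp.lean` (`A` local, `Λ`, `B` the charts of level `M`, `M q` over `A`,
`φ = α` or `β`, `P` the component through the closed point `𝔫`, `P'` the other one,
`R ⊆ Λ` the functions with rational `q`-expansion, `A₀ ⊆ A` a set of representatives of the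
residue field).

* `h29l_param` : for every `v ∈ R` there are `w ∈ R` and `c ∈ A₀` with `v - c, w - c ∈ φ⁻¹ 𝔫` and
  `𝔫 = (φ w - c) + 𝔪_A B` locally at `𝔫`.
* `h29l_param0` : there is `u ∈ R` with `φ u ∈ 𝔫` and `𝔫 = (φ u) + 𝔪_A B` locally at `𝔫`.
-/

set_option autoImplicit false
set_option linter.style.haveILetI false

open Polynomial IsLocalRing

namespace Fermat.Agent.S36

open Fermat.Agent.LGC Fermat.Agent.Red

section Param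

variable {A : Type*} [CommRing A] [IsLocalRing A] {B : Type*} [CommRing B] [Algebra A B]
  {Λ : Type*} [CommRing Λ] [Algebra A Λ]

/-- the local parameters of the level-`M` chart at the image of a smooth closed point. -/
theorem h29l_paramΛ (𝔰 : Ideal Λ) [h𝔰 : 𝔰.IsMaximal]
    (h𝔪𝔰 : (maximalIdeal A).map (algebraMap A Λ) ≤ 𝔰)
    [hded : IsDedekindDomain (Λ ⧸ (maximalIdeal A).map (algebraMap A Λ))]
    (hnf : ¬ IsField (Λ ⧸ (maximalIdeal A).map (algebraMap A Λ)))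
    (hres : ∀ x : Λ, ∃ a : A, x - algebraMap A Λ a ∈ 𝔰)
    (R : Subring Λ) (hRspan : ∀ x : Λ, x ∈ Submodule.span A (R : Set Λ))
    (hsep : ∀ a : A, ∃ m : ℤ[X], aeval a m ∈ maximalIdeal A ∧
      aeval a (derivative m) ∉ maximalIdeal A)
    (A₀ : Set A) (hA₀ : ∀ a : A, ∃ c ∈ A₀, a - c ∈ maximalIdeal A) :
    (∃ u ∈ R, h62l_LP ((maximalIdeal A).map (algebraMap A Λ)) 𝔰 u) ∧
    ∀ v ∈ R, ∃ w ∈ R, ∃ c ∈ A₀, v - algebraMap A Λ c ∈ 𝔰 ∧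
      h62l_LP ((maximalIdeal A).map (algebraMap A Λ)) 𝔰 (w - algebraMap A Λ c) := by
  classical
  set 𝔪 : Ideal Λ := (maximalIdeal A).map (algebraMap A Λ) with h𝔪def
  haveI h𝔪prime : 𝔪.IsPrime := (Ideal.Quotient.isDomain_iff_prime 𝔪).mp inferInstance
  haveI h𝔰p : 𝔰.IsPrime := h𝔰.isPrime
  have hne : ¬ 𝔰 ≤ 𝔪 := by
    intro hle'
    have h1 : 𝔪 = 𝔰 := le_antisymm h𝔪𝔰 hle'
    apply hnf
    have h2 : 𝔪.IsMaximal := h1 ▸ h𝔰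
    exact (Ideal.Quotient.maximal_ideal_iff_isField_quotient 𝔪).mp h2
  obtain ⟨t₁, ht₁⟩ : ∃ t, h62l_LP 𝔪 𝔰 t := by
    obtain ⟨t, ht, -, s, hs, hall⟩ := h3_exists_local_uniformizer 𝔪 hnf 𝔰 h𝔪𝔰
    exact ⟨t, ht, fun y hy => ⟨s, hs, hall y hy⟩⟩
  have h𝔪A : ∀ a ∈ maximalIdeal A, algebraMap A Λ a ∈ 𝔪 := fun a ha =>
    Ideal.mem_map_of_mem _ ha
  obtain ⟨u, huR, hu⟩ := h62l_exists_LP_mem 𝔪 𝔰 h𝔪𝔰 hne h𝔪A R hRspan hres hsep ht₁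
  have husq := h62l_not_mem_sq_of_LP 𝔪 𝔰 h𝔪𝔰 hne hu
  refine ⟨⟨u, huR, hu⟩, ?_⟩
  intro v hvR
  obtain ⟨a, ha⟩ := hres v
  obtain ⟨c, hc, hac⟩ := hA₀ a
  have hvc : v - algebraMap A Λ c ∈ 𝔰 := by
    have h1 : v - algebraMap A Λ c = (v - algebraMap A Λ a) + algebraMap A Λ (a - c) := by
      rw [map_sub]; ring
    rw [h1]
    exact 𝔰.add_mem ha (h𝔪𝔰 (h𝔪A _ hac))
  by_cases hsq : v - algebraMap A Λ c ∈ h62l_sq 𝔪 𝔰
  · refine ⟨v + u, R.add_mem hvR huR, c, hc, hvc, ?_⟩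
    apply h62l_LP_of_not_mem_sq 𝔪 𝔰 hu
    · have h1 : v + u - algebraMap A Λ c = (v - algebraMap A Λ c) + u := by ring
      rw [h1]
      exact 𝔰.add_mem hvc hu.1
    · intro h
      apply husq
      have h1 : u = (v + u - algebraMap A Λ c) - (v - algebraMap A Λ c) := by ring
      rw [h1]
      exact Ideal.sub_mem _ h hsq
  · exact ⟨v, hvR, c, hc, hvc, h62l_LP_of_not_mem_sq 𝔪 𝔰 hu hvc hsq⟩

/-- the smooth branch of `LGC/H62TwoComp.lean` (`h62l_smooth`) with the parameter explicit. -/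
theorem h29l_smooth_explicit (φ : Λ →ₐ[A] B) (𝔫 P P' : Ideal B) [h𝔫 : 𝔫.IsPrime]
    (hP' : ¬ P' ≤ 𝔫)
    (hSF : P ⊓ P' ≤ (maximalIdeal A).map (algebraMap A B))
    (hsurj : ∀ b : B, ∃ x : Λ, b - φ x ∈ P) (hP𝔫 : P ≤ 𝔫) (t₁ : Λ)
    (hLP : h62l_LP ((maximalIdeal A).map (algebraMap A Λ)) (𝔫.comap (φ : Λ →+* B)) t₁) :
    ∀ z ∈ 𝔫, ∃ s, s ∉ 𝔫 ∧
      s * z ∈ Ideal.span {φ t₁} ⊔ (maximalIdeal A).map (algebraMap A B) := by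
  obtain ⟨e, heP', he𝔫⟩ := SetLike.not_le_iff_exists.mp hP'
  intro z hz
  obtain ⟨x, hx⟩ := hsurj z
  have hx𝔰 : x ∈ 𝔫.comap (φ : Λ →+* B) := by
    rw [Ideal.mem_comap]
    have h1 : φ x = z - (z - φ x) := by ring
    show φ x ∈ 𝔫
    rw [h1]
    exact 𝔫.sub_mem hz (hP𝔫 hx)
  obtain ⟨s₀, hs₀, hs₀x⟩ := hLP.2 x hx𝔰
  obtain ⟨q, hq, m, hm, hsum⟩ := Submodule.mem_sup.mp hs₀x
  obtain ⟨c, rfl⟩ := Ideal.mem_span_singleton'.mp hq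
  refine ⟨φ s₀ * e, fun h => (h𝔫.mem_or_mem h).elim hs₀ he𝔫, ?_⟩
  have h1 : φ s₀ * e * z = (e * φ c) * φ t₁ + (e * φ m + φ s₀ * (e * (z - φ x))) := by
    have h2 : φ (s₀ * x) = φ (c * t₁ + m) := by rw [hsum]
    rw [map_mul, map_add, map_mul] at h2
    have h3 : φ s₀ * e * z = e * (φ s₀ * φ x) + φ s₀ * (e * (z - φ x)) := by ring
    rw [h3, h2]
    ring
  rw [h1]
  refine Ideal.add_mem _ (Ideal.mem_sup_left (Ideal.mem_span_singleton'.mpr ⟨_, rfl⟩))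
    (Ideal.mem_sup_right ?_)
  refine Ideal.add_mem _ (Ideal.mul_mem_left _ _ (h62l_map_mem _ φ hm)) (Ideal.mul_mem_left _ _ ?_)
  exact hSF ⟨P.mul_mem_left _ hx, P'.mul_mem_right _ heP'⟩

/-- **rational local parameters at a smooth closed point** of the two-component chart. -/
theorem h29l_param (φ : Λ →ₐ[A] B) (𝔫 P P' : Ideal B) [h𝔫 : 𝔫.IsMaximal] (hP' : ¬ P' ≤ 𝔫)
    (hSF : P ⊓ P' ≤ (maximalIdeal A).map (algebraMap A B))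
    (hm𝔫 : (maximalIdeal A).map (algebraMap A B) ≤ 𝔫)
    (hsurj : ∀ b : B, ∃ x : Λ, b - φ x ∈ P) (hP𝔫 : P ≤ 𝔫)
    [hded : IsDedekindDomain (Λ ⧸ (maximalIdeal A).map (algebraMap A Λ))]
    (hnf : ¬ IsField (Λ ⧸ (maximalIdeal A).map (algebraMap A Λ)))
    (hres : ∀ 𝔰 : Ideal Λ, 𝔰.IsMaximal → (maximalIdeal A).map (algebraMap A Λ) ≤ 𝔰 →
      ∀ x : Λ, ∃ a : A, x - algebraMap A Λ a ∈ 𝔰)
    (R : Subring Λ) (hRspan : ∀ x : Λ, x ∈ Submodule.span A (R : Set Λ))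
    (hsep : ∀ a : A, ∃ m : ℤ[X], aeval a m ∈ maximalIdeal A ∧
      aeval a (derivative m) ∉ maximalIdeal A)
    (A₀ : Set A) (hA₀ : ∀ a : A, ∃ c ∈ A₀, a - c ∈ maximalIdeal A) :
    (∃ u ∈ R, φ u ∈ 𝔫 ∧ ∀ z ∈ 𝔫, ∃ s, s ∉ 𝔫 ∧
      s * z ∈ Ideal.span {φ u} ⊔ (maximalIdeal A).map (algebraMap A B)) ∧
    ∀ v ∈ R, ∃ w ∈ R, ∃ c ∈ A₀, φ v - algebraMap A B c ∈ 𝔫 ∧ φ w - algebraMap A B c ∈ 𝔫 ∧
      ∀ z ∈ 𝔫, ∃ s, s ∉ 𝔫 ∧
        s * z ∈ Ideal.span {φ w - algebraMap A B c} ⊔ (maximalIdeal A).map (algebraMap A B) := by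
  classical
  haveI h𝔫p : 𝔫.IsPrime := h𝔫.isPrime
  have h𝔰max : (𝔫.comap (φ : Λ →+* B)).IsMaximal :=
    h62l_comap_isMaximal (φ : Λ →+* B) 𝔫 P hP𝔫 hsurj
  have hcomap𝔪 : (maximalIdeal A).map (algebraMap A Λ) ≤ 𝔫.comap (φ : Λ →+* B) := fun x hx =>
    Ideal.mem_comap.mpr (hm𝔫 (h62l_map_mem _ φ hx))
  obtain ⟨⟨u, huR, hu⟩, hall⟩ := h29l_paramΛ (𝔫.comap (φ : Λ →+* B)) hcomap𝔪 hnf
    (hres _ h𝔰max hcomap𝔪) R hRspan hsep A₀ hA₀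
  have hφc : ∀ (w : Λ) (c : A), φ (w - algebraMap A Λ c) = φ w - algebraMap A B c := by
    intro w c
    rw [map_sub, AlgHom.commutes]
  refine ⟨?_, ?_⟩
  · exact ⟨u, huR, hu.1, h29l_smooth_explicit φ 𝔫 P P' hP' hSF hsurj hP𝔫 u hu⟩
  · intro v hvR
    obtain ⟨w, hwR, c, hc, hvc, hLP⟩ := hall v hvR
    refine ⟨w, hwR, c, hc, ?_, ?_, ?_⟩
    · rw [← hφc]
      exact hvc
    · rw [← hφc]
      exact hLP.1
    · rw [← hφc]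
      exact h29l_smooth_explicit φ 𝔫 P P' hP' hSF hsurj hP𝔫 _ hLP

end Param

end Fermat.Agent.S36
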