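import Fermat.Agent.S36.H67UnitFin

/-!
# S36 (R), row R-L1A: the node datum over `A` at level `M ℓ` in the variables `X = α u`,
`Y = β u` (helper67)

* `h67u_gen_of_LP` (abstract): if `u` is a local parameter of the special fibre of `Λ` at
  `α⁻¹ 𝔫` and at `β⁻¹ 𝔫` and `β u ≡ (α u) ^ ℓ` modulo `P∞`, then `𝔫 = (α u, β u) + 𝔪_A B`
  locally at the crossing point `𝔫`.
* `h67u_node_fin` : at a good level, for every closed point `𝔫` of the special fibre of the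
  finite chart of level `M ℓ` lying on both components there is a **rational** `u` of level `M`
  with `X = α u ∈ 𝔫`, `Y = β u ∈ 𝔫`, `𝔫 = (X, Y) + 𝔪_A B` locally, and the Kronecker remainder
  `ρ = r(Y)` is a unit at `𝔫` (for every `r` of degree `≤ ℓ` with
  `(Y - X ^ ℓ)(Y ^ ℓ - X) + ℓ r(Y) = 0`).
-/

set_option autoImplicit false
set_option linter.unusedSectionVars false

open AlgebraicCurve ModularCurve WithZero IsLocalRing Polynomial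

noncomputable section

namespace Fermat.Agent.S36

open Fermat.Agent.S37 Fermat.Agent.Red Fermat.Agent.Red.GG Fermat.Agent.Red.GV
  Fermat.Agent.Red.GV.Soft Fermat.Agent.Red.Kron Fermat.Agent.Red.KR Fermat.Agent.Red.ModelO
  Fermat.Agent.LGC

section Abstract

variable {A : Type*} [CommRing A] [IsLocalRing A] {B : Type*} [CommRing B] [Algebra A B]
  {Λ : Type*} [CommRing Λ] [Algebra A Λ]

/-- `𝔫 = (α u, β u) + 𝔪_A B` locally at a crossing point. -/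
theorem h67u_gen_of_LP (α β : Λ →ₐ[A] B) (𝔫 Pinf P0 : Ideal B) [h𝔫 : 𝔫.IsPrime]
    (hPinf𝔫 : Pinf ≤ 𝔫) (hP0𝔫 : P0 ≤ 𝔫)
    (hSF : Pinf ⊓ P0 ≤ (maximalIdeal A).map (algebraMap A B))
    (hmPinf : (maximalIdeal A).map (algebraMap A B) ≤ Pinf)
    (hmP0 : (maximalIdeal A).map (algebraMap A B) ≤ P0)
    (hsurjinf : ∀ b : B, ∃ x : Λ, b - α x ∈ Pinf)
    (hsurj0 : ∀ b : B, ∃ x : Λ, b - β x ∈ P0)
    (ℓ : ℕ) (hℓ2 : 2 ≤ ℓ) (u : Λ)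
    (hu𝔰 : h62l_LP ((maximalIdeal A).map (algebraMap A Λ)) (𝔫.comap (α : Λ →+* B)) u)
    (hu𝔰' : h62l_LP ((maximalIdeal A).map (algebraMap A Λ)) (𝔫.comap (β : Λ →+* B)) u)
    (hRα : β u - (α u) ^ ℓ ∈ Pinf) :
    ∀ b ∈ 𝔫, ∃ s, s ∉ 𝔫 ∧
      s * b ∈ Ideal.span {α u, β u} ⊔ (maximalIdeal A).map (algebraMap A B) := by
  have hαu𝔫 : α u ∈ 𝔫 := hu𝔰.1
  have hβu𝔫 : β u ∈ 𝔫 := hu𝔰'.1
  have hLPinf : ∀ b ∈ 𝔫, ∃ s, s ∉ 𝔫 ∧ s * b ∈ Ideal.span {α u} ⊔ Pinf :=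
    h62l_LP_transport (maximalIdeal A) α 𝔫 Pinf hmPinf hPinf𝔫 hsurjinf u hu𝔰
  have hLP0 : ∀ b ∈ 𝔫, ∃ s, s ∉ 𝔫 ∧ s * b ∈ Ideal.span {β u} ⊔ P0 :=
    h62l_LP_transport (maximalIdeal A) β 𝔫 P0 hmP0 hP0𝔫 hsurj0 u hu𝔰'
  have hLPy : ∀ b ∈ 𝔫, ∃ s, s ∉ 𝔫 ∧ s * b ∈ Ideal.span {β u - (α u) ^ ℓ} ⊔ P0 := by
    have h1 : ∀ b ∈ 𝔫, ∃ s, s ∉ 𝔫 ∧ s * b ∈ Ideal.span {-(β u - (α u) ^ ℓ)} ⊔ P0 := by
      refine h62n_lp_change 𝔫 P0 (β u) (α u) (-(β u - (α u) ^ ℓ)) ℓ hℓ2 hβu𝔫 hαu𝔫 ?_ hLP0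
      have h2 : -(β u - (α u) ^ ℓ) - ((α u) ^ ℓ - β u) = 0 := by ring
      rw [h2]
      exact P0.zero_mem
    rw [Ideal.span_singleton_neg] at h1
    exact h1
  have h := h62n_lp_both 𝔫 Pinf P0 ((maximalIdeal A).map (algebraMap A B)) hPinf𝔫 hSF
    (α u) (β u - (α u) ^ ℓ) hRα hLPinf hLPy
  intro b hb
  obtain ⟨s, hs, hsb⟩ := h b hb
  refine ⟨s, hs, ?_⟩
  have hle : Ideal.span {α u, β u - (α u) ^ ℓ} ≤ Ideal.span {α u, β u} := by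
    rw [Ideal.span_le]
    intro w hw
    rcases hw with rfl | rfl
    · exact Ideal.subset_span (by simp)
    · refine Ideal.sub_mem _ (Ideal.subset_span (by simp)) ?_
      exact Ideal.pow_mem_of_mem _ (Ideal.subset_span (by simp)) ℓ (by omega)
  exact sup_le_sup_right hle _ hsb

end Abstract

variable (A : ValuationSubring Kbar) (M : ℕ) {ℓ : ℕ} [NeZero M] [NeZero ℓ]

/-- **R-L1A: the node datum over `A` at level `M ℓ`** in the variables `X = α u`, `Y = β u`,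
`u` rational. -/
theorem h67u_node_fin (hℓ : ℓ.Prime) (hM : ¬ ℓ ∣ M) (haux : auxLevel ℓ ∣ M)
    (hA : A.LiesOverPrime ℓ) :
    ∀ 𝔫 : Ideal (chart (M * ℓ) A (jSS M ℓ)), 𝔫.IsMaximal →
      h62i_Pinf A M hℓ hM hA ≤ 𝔫 → h62i_P0 A M hℓ hM hA ≤ 𝔫 →
      ∃ u ∈ h62i_R A M,
        h62i_α A M ℓ u ∈ 𝔫 ∧ h62i_β A M hℓ hM hA u ∈ 𝔫 ∧
        (∀ b ∈ 𝔫, ∃ s, s ∉ 𝔫 ∧
          s * b ∈ Ideal.span {h62i_α A M ℓ u, h62i_β A M hℓ hM hA u}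
            ⊔ mExt A M ℓ (jSS M ℓ)) ∧
        (∀ r : (chart M A (jB M))[X], r.natDegree ≤ ℓ →
          (h62n_poly ℓ (u ^ ℓ) u r).eval₂
            ((h62i_α A M ℓ : chart M A (jB M) →ₐ[A] chart (M * ℓ) A (jSS M ℓ)) :
              chart M A (jB M) →+* chart (M * ℓ) A (jSS M ℓ))
            (h62i_β A M hℓ hM hA u) = 0 →
          r.eval₂
            ((h62i_α A M ℓ : chart M A (jB M) →ₐ[A] chart (M * ℓ) A (jSS M ℓ)) :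
              chart M A (jB M) →+* chart (M * ℓ) A (jSS M ℓ))
            (h62i_β A M hℓ hM hA u) ∉ 𝔫) ∧
        h62l_LP (h62i_mΛ A M) (𝔫.comap
          ((h62i_α A M ℓ : chart M A (jB M) →ₐ[A] chart (M * ℓ) A (jSS M ℓ)) :
            chart M A (jB M) →+* chart (M * ℓ) A (jSS M ℓ))) u ∧
        h62l_LP (h62i_mΛ A M) (𝔫.comap
          ((h62i_β A M hℓ hM hA : chart M A (jB M) →ₐ[A] chart (M * ℓ) A (jSS M ℓ)) :
            chart M A (jB M) →+* chart (M * ℓ) A (jSS M ℓ))) u := by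
  intro 𝔫 h𝔫 hPinf𝔫 hP0𝔫
  have : 𝔫.IsPrime := h𝔫.isPrime
  obtain ⟨u, huR, hLPα, hLPβ, hα𝔫, hβ𝔫, hunit⟩ :=
    h67u_unit_fin A M hℓ hM haux hA 𝔫 h𝔫 hPinf𝔫 hP0𝔫
  refine ⟨u, huR, hα𝔫, hβ𝔫, ?_, hunit, hLPα, hLPβ⟩
  refine h67u_gen_of_LP (h62i_α A M ℓ) (h62i_β A M hℓ hM hA) 𝔫
    (h62i_Pinf A M hℓ hM hA) (h62i_P0 A M hℓ hM hA) hPinf𝔫 hP0𝔫
    (h62c_comp A M hℓ hM hA) (h62i_m_le_Pinf A M hℓ hM hA) (h62i_m_le_P0 A M hℓ hM hA)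
    (h62d_surj A M hℓ hM haux hA) (fun b => ?_) ℓ hℓ.two_le u hLPα hLPβ
    (h62d_frob A M hℓ hM hA u huR)
  obtain ⟨x, hx⟩ := h62d_surj A M hℓ hM haux hA (h62i_w A M hℓ hM hA b)
  refine ⟨x, ?_⟩
  rw [h62i_mem_P0_iff_w, map_sub, h62i_w_β]
  exact hx

end Fermat.Agent.S36
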