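import Fermat.Agent.S36.H29L1Abs
import Fermat.Agent.S36.H29L1Param
import Fermat.Agent.S36.H62L1Iface
import Fermat.Agent.S36.H62L0
import Fermat.Agent.S36.H25RedIsoInst
import Fermat.Agent.S36.H67Node
import Fermat.Agent.LGC.H62Done

/-!
# S36, block REG, rows R-L1-SMOOTH / R-L1 (helper29): the frozen data `H62InfDatum`,
# `H62ZeroDatum`, `H62NodeDatum` and the trichotomy `H62L1`, unconditional

`B₁ = h62rChart A (M q) (jSS M q)`, `Λ₀ = h62rChart A M (jB M)` (charts over the inertia ring),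
`B`, `Λ` the charts over `A`; `𝔫₁ ∋ q` a closed point of `B₁`, `𝔫 = 𝔫₁ B + 𝔪_A B` its lift
(`H29L1Abs`).

* `h29d_LP_lift` (abstract): a local parameter `(q, t)` of `Λ₀` at `α₀⁻¹ 𝔫₁` is a local
  parameter of `Λ` at `α⁻¹ 𝔫` modulo `𝔪_A Λ`.
* `h29d_infDatum`, `h29d_zeroDatum` : `H62InfDatum` (resp. `H62ZeroDatum`) at a closed point on
  `C_∞` (resp. `C_0`) only.
* `h29d_nodeDatum` : `H62NodeDatum` at a closed point on both components
  (helper67's landed `h67u_node_fin` over `A` + descent).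
* `h29d_L1 : H62L1` : **the trichotomy (exact frozen Prop of `S36/H62L1Iface.lean`)**.
-/

set_option autoImplicit false
set_option linter.unusedSectionVars false
set_option linter.style.haveILetI false

open AlgebraicCurve ModularCurve IsLocalRing Polynomial

noncomputable section

namespace Fermat.Agent.S36

open Fermat.Agent.S37 Fermat.Agent.LGC Fermat.Agent.Red Fermat.Agent.Red.GG
  Fermat.Agent.Red.GV Fermat.Agent.Red.GV.Soft Fermat.Agent.Red.Kron Fermat.Agent.Red.ModelO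

section Abs

variable {Λ₀ Λ B₁ B : Type*} [CommRing Λ₀] [CommRing Λ] [CommRing B₁] [CommRing B]

/-- a local parameter `(π₀, t)` of `Λ₀` at `φ₀⁻¹ 𝔫₁` is a local parameter of `Λ` at `φ⁻¹ 𝔫`
modulo `𝔪₀`. -/
theorem h29d_LP_lift (ι₀ : Λ₀ →+* Λ) (ι₁ : B₁ →+* B) (φ₀ : Λ₀ →+* B₁) (φ : Λ →+* B)
    (hφ : ∀ x : Λ₀, φ (ι₀ x) = ι₁ (φ₀ x))
    (𝔪₀ : Ideal Λ) (surj0 : ∀ y : Λ, ∃ y₀ : Λ₀, y - ι₀ y₀ ∈ 𝔪₀)
    (π₀ : Λ₀) (hπ₀ : ι₀ π₀ ∈ 𝔪₀)
    (𝔫₁ : Ideal B₁) (𝔫 : Ideal B) (h𝔪𝔫 : ∀ m ∈ 𝔪₀, φ m ∈ 𝔫)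
    (hmem : ∀ b₁ : B₁, ι₁ b₁ ∈ 𝔫 ↔ b₁ ∈ 𝔫₁)
    (t : Λ₀) (ht : t ∈ 𝔫₁.comap φ₀)
    (hloc : ∀ z ∈ 𝔫₁.comap φ₀, ∃ s, s ∉ 𝔫₁.comap φ₀ ∧ s * z ∈ Ideal.span {π₀, t}) :
    h62l_LP 𝔪₀ (𝔫.comap φ) (ι₀ t) := by
  have hcomap : ∀ x : Λ₀, ι₀ x ∈ 𝔫.comap φ ↔ x ∈ 𝔫₁.comap φ₀ := by
    intro x
    rw [Ideal.mem_comap, Ideal.mem_comap, hφ, hmem]
  refine ⟨(hcomap t).mpr ht, ?_⟩
  intro y hy
  obtain ⟨y₀, hy₀⟩ := surj0 y
  have hy₀𝔫 : y₀ ∈ 𝔫₁.comap φ₀ := by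
    rw [← hcomap, Ideal.mem_comap]
    have h1 : φ (ι₀ y₀) = φ y - φ (y - ι₀ y₀) := by rw [map_sub]; ring
    rw [h1]
    exact 𝔫.sub_mem (Ideal.mem_comap.mp hy) (h𝔪𝔫 _ hy₀)
  obtain ⟨s₀, hs₀, hs₀y⟩ := hloc y₀ hy₀𝔫
  obtain ⟨a, b, hab⟩ := Ideal.mem_span_pair.mp hs₀y
  refine ⟨ι₀ s₀, fun h => hs₀ ((hcomap s₀).mp h), ?_⟩
  have h2 : ι₀ s₀ * y = ι₀ b * ι₀ t + (ι₀ a * ι₀ π₀ + ι₀ s₀ * (y - ι₀ y₀)) := by
    have h3 : ι₀ (s₀ * y₀) = ι₀ (a * π₀ + b * t) := by rw [hab]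
    rw [map_mul, map_add, map_mul, map_mul] at h3
    have h4 : ι₀ s₀ * y = ι₀ s₀ * ι₀ y₀ + ι₀ s₀ * (y - ι₀ y₀) := by ring
    rw [h4, h3]
    ring
  rw [h2]
  exact Ideal.add_mem _ (Ideal.mem_sup_left (Ideal.mem_span_singleton'.mpr ⟨_, rfl⟩))
    (Ideal.mem_sup_right (𝔪₀.add_mem (𝔪₀.mul_mem_left _ hπ₀) (𝔪₀.mul_mem_left _ hy₀)))

end Abs

section Main

variable (A : ValuationSubring Kbar) (M : ℕ) {q : ℕ} [NeZero M] [NeZero q]

theorem h29d_alpha_incl (x : h62rChart A M (jB M)) :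
    h62i_α A M q (h62rIncl A M (jB M) x) =
      h62rIncl A (M * q) (jSS M q) (h62rAlpha A M x) := rfl

theorem h29d_beta_incl (hq : q.Prime) (hM : ¬ q ∣ M) (hA : A.LiesOverPrime q)
    (x : h62rChart A M (jB M)) :
    h62i_β A M hq hM hA (h62rIncl A M (jB M) x) =
      h62rIncl A (M * q) (jSS M q) (h62rBeta A M hq hM hA x) := rfl

theorem h29d_natCast_mem (hA : A.LiesOverPrime q) (N : ℕ) (t : FF N) :
    h62rIncl A N t (q : h62rChart A N t) ∈ h62rM A N t := by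
  rw [map_natCast]
  have h1 : ((q : ℕ) : chart N A t) = algebraMap A (chart N A t) ((q : ℕ) : A) :=
    (map_natCast (algebraMap A (chart N A t)) q).symm
  rw [h1]
  exact Ideal.mem_map_of_mem _ (h62i_natCast_mem A hA)

/-- the lift of the closed point `𝔫₁` to the chart over `A`. -/
abbrev h29dLift (𝔫₁ : Ideal (h62rChart A (M * q) (jSS M q))) :
    Ideal (chart (M * q) A (jSS M q)) :=
  h29l_lift (h62rIncl A (M * q) (jSS M q)) (h62rM A (M * q) (jSS M q)) 𝔫₁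

/-- `B = β Λ + P₀`. -/
theorem h29d_surj0 (hq : q.Prime) (hM : ¬ q ∣ M) (hA : A.LiesOverPrime q)
    (haux : auxLevel q ∣ M) (b : chart (M * q) A (jSS M q)) :
    ∃ x : chart M A (jB M), b - h62i_β A M hq hM hA x ∈ h62i_P0 A M hq hM hA := by
  obtain ⟨x, hx⟩ := h62d_surj A M hq hM haux hA (h62i_w A M hq hM hA b)
  refine ⟨x, ?_⟩
  rw [h62i_mem_P0_iff_w, map_sub, h62i_w_β]
  exact hx

/-- the Frobenius congruence on `C₀`. -/
theorem h29d_frob0 (hq : q.Prime) (hM : ¬ q ∣ M) (hA : A.LiesOverPrime q)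
    (u : chart M A (jB M)) (hu : u ∈ h62i_R A M) :
    h62i_α A M q u - (h62i_β A M hq hM hA u) ^ q ∈ h62i_P0 A M hq hM hA := by
  rw [h62i_mem_P0_iff_w, map_sub, map_pow, h62i_w_α, h62i_w_β]
  exact h62d_frob A M hq hM hA u hu

variable (hq : q.Prime) (hM : ¬ q ∣ M) (hA : A.LiesOverPrime q)

/-- **`H62InfDatum`** at a closed point on `C_∞` only. -/
theorem h29d_infDatum (haux : auxLevel q ∣ M)
    (h0 : H62RedIso A M (jB M) q) (h1 : H62RedIso A (M * q) (jSS M q) q)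
    (𝔫₁ : Ideal (h62rChart A (M * q) (jSS M q))) [h𝔫₁ : 𝔫₁.IsMaximal]
    (hπ : (q : h62rChart A (M * q) (jSS M q)) ∈ 𝔫₁)
    (hPinf : h62i_Pinf A M hq hM hA ≤ h29dLift A M 𝔫₁)
    (hP0 : ¬ h62i_P0 A M hq hM hA ≤ h29dLift A M 𝔫₁) :
    H62InfDatum A M hq hM hA 𝔫₁ := by
  classical
  obtain ⟨surj0, inj0⟩ := h0
  obtain ⟨surj1, inj1⟩ := h1
  haveI h𝔫max : (h29dLift A M 𝔫₁).IsMaximal := h29l_lift_isMaximal surj1 _ inj1 𝔫₁ hπ
  haveI h𝔫p : (h29dLift A M 𝔫₁).IsPrime := h𝔫max.isPrime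
  have hm𝔫 : h62rM A (M * q) (jSS M q) ≤ h29dLift A M 𝔫₁ := h29l_le_lift _ _ 𝔫₁
  have hSF : h62i_Pinf A M hq hM hA ⊓ h62i_P0 A M hq hM hA ≤ h62rM A (M * q) (jSS M q) :=
    h62c_comp A M hq hM hA
  have hmem := h29l_map_mem_lift surj1 _ inj1 𝔫₁ hπ
  refine ⟨?_, ?_⟩
  · intro u hrat
    obtain ⟨e₀, he₀, -, hcomp⟩ := h29l_descend_comp surj1 _ inj1 𝔫₁
      (h62i_Pinf A M hq hM hA) (h62i_P0 A M hq hM hA) hSF
      (h62i_m_le_P0 A M hq hM hA) hP0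
    refine ⟨e₀, he₀, ?_⟩
    have hfr := h62d_frob A M hq hM hA (h62rIncl A M (jB M) u)
      ((h62i_mem_R A M _).mpr hrat)
    obtain ⟨y, hy⟩ := hcomp (h62rBeta A M hq hM hA u - h62rAlpha A M u ^ q) hfr
    rw [hy]
    exact Ideal.mul_mem_right _ _ (Ideal.mem_span_singleton_self _)
  · intro t ht hloc
    have hLP : h62l_LP (h62rM A M (jB M))
        ((h29dLift A M 𝔫₁).comap ((h62i_α A M q : chart M A (jB M) →ₐ[A] _) :
          chart M A (jB M) →+* chart (M * q) A (jSS M q))) (h62rIncl A M (jB M) t) :=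
      h29d_LP_lift (h62rIncl A M (jB M)) (h62rIncl A (M * q) (jSS M q)) (h62rAlpha A M)
        ((h62i_α A M q : chart M A (jB M) →ₐ[A] _) :
          chart M A (jB M) →+* chart (M * q) A (jSS M q))
        (fun x => rfl) (h62rM A M (jB M)) surj0 (q : h62rChart A M (jB M))
        (h29d_natCast_mem A hA M (jB M)) 𝔫₁ (h29dLift A M 𝔫₁)
        (fun m hm => hm𝔫 (h62l_map_mem _ (h62i_α A M q) hm)) hmem t ht hloc
    have hgen := h29l_smooth_explicit (h62i_α A M q) (h29dLift A M 𝔫₁)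
      (h62i_Pinf A M hq hM hA) (h62i_P0 A M hq hM hA) hP0 hSF
      (h62d_surj A M hq hM haux hA) hPinf (h62rIncl A M (jB M) t) hLP
    exact h29l_descend_LP surj1 _ inj1 𝔫₁ (h62rAlpha A M t) hgen

/-- **`H62ZeroDatum`** at a closed point on `C_0` only. -/
theorem h29d_zeroDatum (haux : auxLevel q ∣ M)
    (h0 : H62RedIso A M (jB M) q) (h1 : H62RedIso A (M * q) (jSS M q) q)
    (𝔫₁ : Ideal (h62rChart A (M * q) (jSS M q))) [h𝔫₁ : 𝔫₁.IsMaximal]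
    (hπ : (q : h62rChart A (M * q) (jSS M q)) ∈ 𝔫₁)
    (hP0 : h62i_P0 A M hq hM hA ≤ h29dLift A M 𝔫₁)
    (hPinf : ¬ h62i_Pinf A M hq hM hA ≤ h29dLift A M 𝔫₁) :
    H62ZeroDatum A M hq hM hA 𝔫₁ := by
  classical
  obtain ⟨surj0, inj0⟩ := h0
  obtain ⟨surj1, inj1⟩ := h1
  haveI h𝔫max : (h29dLift A M 𝔫₁).IsMaximal := h29l_lift_isMaximal surj1 _ inj1 𝔫₁ hπ
  haveI h𝔫p : (h29dLift A M 𝔫₁).IsPrime := h𝔫max.isPrime
  have hm𝔫 : h62rM A (M * q) (jSS M q) ≤ h29dLift A M 𝔫₁ := h29l_le_lift _ _ 𝔫₁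
  have hSF : h62i_P0 A M hq hM hA ⊓ h62i_Pinf A M hq hM hA ≤ h62rM A (M * q) (jSS M q) := by
    rw [inf_comm]
    exact h62c_comp A M hq hM hA
  have hmem := h29l_map_mem_lift surj1 _ inj1 𝔫₁ hπ
  refine ⟨?_, ?_⟩
  · intro u hrat
    obtain ⟨e₀, he₀, -, hcomp⟩ := h29l_descend_comp surj1 _ inj1 𝔫₁
      (h62i_P0 A M hq hM hA) (h62i_Pinf A M hq hM hA) hSF
      (h62i_m_le_Pinf A M hq hM hA) hPinf
    refine ⟨e₀, he₀, ?_⟩
    have hfr := h29d_frob0 A M hq hM hA (h62rIncl A M (jB M) u)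
      ((h62i_mem_R A M _).mpr hrat)
    obtain ⟨y, hy⟩ := hcomp (h62rAlpha A M u - h62rBeta A M hq hM hA u ^ q) hfr
    rw [hy]
    exact Ideal.mul_mem_right _ _ (Ideal.mem_span_singleton_self _)
  · intro t ht hloc
    have hLP : h62l_LP (h62rM A M (jB M))
        ((h29dLift A M 𝔫₁).comap ((h62i_β A M hq hM hA : chart M A (jB M) →ₐ[A] _) :
          chart M A (jB M) →+* chart (M * q) A (jSS M q))) (h62rIncl A M (jB M) t) :=
      h29d_LP_lift (h62rIncl A M (jB M)) (h62rIncl A (M * q) (jSS M q))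
        (h62rBeta A M hq hM hA)
        ((h62i_β A M hq hM hA : chart M A (jB M) →ₐ[A] _) :
          chart M A (jB M) →+* chart (M * q) A (jSS M q))
        (fun x => rfl) (h62rM A M (jB M)) surj0 (q : h62rChart A M (jB M))
        (h29d_natCast_mem A hA M (jB M)) 𝔫₁ (h29dLift A M 𝔫₁)
        (fun m hm => hm𝔫 (h62l_map_mem _ (h62i_β A M hq hM hA) hm)) hmem t ht hloc
    have hgen := h29l_smooth_explicit (h62i_β A M hq hM hA) (h29dLift A M 𝔫₁)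
      (h62i_P0 A M hq hM hA) (h62i_Pinf A M hq hM hA) hPinf hSF
      (h29d_surj0 A M hq hM hA haux) hP0 (h62rIncl A M (jB M) t) hLP
    exact h29l_descend_LP surj1 _ inj1 𝔫₁ (h62rBeta A M hq hM hA t) hgen

/-- **`H62NodeDatum`** at a closed point on both components. -/
theorem h29d_nodeDatum (haux : auxLevel q ∣ M)
    (h1 : H62RedIso A (M * q) (jSS M q) q)
    (𝔫₁ : Ideal (h62rChart A (M * q) (jSS M q))) [h𝔫₁ : 𝔫₁.IsMaximal]
    (hπ : (q : h62rChart A (M * q) (jSS M q)) ∈ 𝔫₁)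
    (hPinf : h62i_Pinf A M hq hM hA ≤ h29dLift A M 𝔫₁)
    (hP0 : h62i_P0 A M hq hM hA ≤ h29dLift A M 𝔫₁) :
    H62NodeDatum A M hq hM hA 𝔫₁ := by
  classical
  obtain ⟨surj1, inj1⟩ := h1
  haveI h𝔫max : (h29dLift A M 𝔫₁).IsMaximal := h29l_lift_isMaximal surj1 _ inj1 𝔫₁ hπ
  haveI h𝔫₁p : 𝔫₁.IsPrime := h𝔫₁.isPrime
  have hmem := h29l_map_mem_lift surj1 _ inj1 𝔫₁ hπ
  obtain ⟨u, huR, hαu, hβu, hgen, hunit, -, -⟩ :=
    h67u_node_fin A M hq hM haux hA (h29dLift A M 𝔫₁) h𝔫max hPinf hP0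
  have hrat : IsRat (u : FF M) := (h62i_mem_R A M u).mp huR
  obtain ⟨r, hr, hf⟩ := h62i_kron A M hq hM hA u huR
  have hρ𝔫 := hunit r hr hf
  -- the relation over `A`
  have hrelA : (h62i_β A M hq hM hA u - h62i_α A M q u ^ q) *
      (h62i_β A M hq hM hA u ^ q - h62i_α A M q u)
      + (q : chart (M * q) A (jSS M q)) *
        r.eval₂ ((h62i_α A M q : chart M A (jB M) →ₐ[A] chart (M * q) A (jSS M q)) :
          chart M A (jB M) →+* chart (M * q) A (jSS M q)) (h62i_β A M hq hM hA u) = 0 := by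
    have h2 := hf
    unfold h62n_poly at h2
    rw [eval₂_add, eval₂_mul, eval₂_mul, eval₂_sub, eval₂_sub, eval₂_X, eval₂_C, eval₂_pow,
      eval₂_X, eval₂_C, eval₂_C, map_pow, map_natCast] at h2
    exact h2
  set ρA : chart (M * q) A (jSS M q) :=
    r.eval₂ ((h62i_α A M q : chart M A (jB M) →ₐ[A] chart (M * q) A (jSS M q)) :
      chart M A (jB M) →+* chart (M * q) A (jSS M q)) (h62i_β A M hq hM hA u) with hρA
  -- the objects over `A₀`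
  set u₀ : h62rChart A M (jB M) := h62rOfRat A M (jB M) u hrat with hu₀
  have hX : h62rIncl A (M * q) (jSS M q) (h62rAlpha A M u₀) = h62i_α A M q u := rfl
  have hY : h62rIncl A (M * q) (jSS M q) (h62rBeta A M hq hM hA u₀) = h62i_β A M hq hM hA u :=
    rfl
  have hrelF : (heckeBetaBar Kbar M q (u : FF M) - heckeAlphaBar Kbar M q (u : FF M) ^ q) *
      (heckeBetaBar Kbar M q (u : FF M) ^ q - heckeAlphaBar Kbar M q (u : FF M))
      + (q : FF (M * q)) * (ρA : FF (M * q)) = 0 := by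
    have h2 := congrArg (fun b : chart (M * q) A (jSS M q) => (b : FF (M * q))) hrelA
    exact h2
  have hq0 : (q : FF (M * q)) ≠ 0 := by
    intro h
    have h3 : algebraMap Kbar (FF (M * q)) ((q : ℕ) : Kbar) = 0 := by
      rw [map_natCast]
      exact h
    have h4 : ((q : ℕ) : Kbar) = 0 :=
      (algebraMap Kbar (FF (M * q))).injective (h3.trans (map_zero _).symm)
    exact hq.ne_zero (Nat.cast_eq_zero.mp h4)
  have hxF : heckeAlphaBar Kbar M q (u : FF M) ∈ h53d_F0 (M * q) (A.inertiaSubgroupIn ℚ) :=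
    (h62r_mem_chart.mp (h62rAlpha A M (q := q) u₀).2).2
  have hyF : heckeBetaBar Kbar M q (u : FF M) ∈ h53d_F0 (M * q) (A.inertiaSubgroupIn ℚ) :=
    (h62r_mem_chart.mp (h62rBeta A M hq hM hA u₀).2).2
  have hρF : (ρA : FF (M * q)) ∈ h53d_F0 (M * q) (A.inertiaSubgroupIn ℚ) := by
    have h5 : (ρA : FF (M * q)) =
        -((heckeBetaBar Kbar M q (u : FF M) - heckeAlphaBar Kbar M q (u : FF M) ^ q) *
          (heckeBetaBar Kbar M q (u : FF M) ^ q - heckeAlphaBar Kbar M q (u : FF M)))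
          / (q : FF (M * q)) := by
      rw [eq_div_iff hq0]
      linear_combination hrelF
    rw [h5]
    exact Subfield.div_mem _ (Subfield.neg_mem _ (Subfield.mul_mem _
      (Subfield.sub_mem _ hyF (Subfield.pow_mem _ hxF q))
      (Subfield.sub_mem _ (Subfield.pow_mem _ hyF q) hxF))) (natCast_mem _ q)
  set ρ : h62rChart A (M * q) (jSS M q) :=
    ⟨(ρA : FF (M * q)), h62r_mem_chart.mpr ⟨ρA.2, hρF⟩⟩ with hρ
  have hρι : h62rIncl A (M * q) (jSS M q) ρ = ρA := rfl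
  have hρ𝔫₁ : ρ ∉ 𝔫₁ := by
    intro h
    apply hρ𝔫
    rw [← hρι]
    exact (hmem ρ).mpr h
  have hrel : (h62rBeta A M hq hM hA u₀ - h62rAlpha A M u₀ ^ q) *
      (h62rBeta A M hq hM hA u₀ ^ q - h62rAlpha A M u₀)
      + (q : h62rChart A (M * q) (jSS M q)) * ρ = 0 := by
    apply Subtype.ext
    exact hrelF
  refine ⟨u₀, hrat, (hmem _).mp hαu, (hmem _).mp hβu, ⟨ρ, hρ𝔫₁, hrel⟩, ?_⟩
  have hgen2 := h29l_descend_LP2 surj1 _ inj1 𝔫₁ (h62rAlpha A M u₀)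
    (h62rBeta A M hq hM hA u₀) hgen
  intro z hz
  obtain ⟨s, hs, hsz⟩ := hgen2 z hz
  refine ⟨ρ * s, fun h => (h𝔫₁p.mem_or_mem h).elim hρ𝔫₁ hs, ?_⟩
  obtain ⟨x, hx, w, hw, hsum⟩ := Submodule.mem_sup.mp hsz
  obtain ⟨a, rfl⟩ := Ideal.mem_span_singleton'.mp hx
  have hXs : h62rAlpha A M u₀ ∈
      Ideal.span {h62rAlpha A M (q := q) u₀, h62rBeta A M hq hM hA u₀} :=
    Ideal.subset_span (by simp)
  have hYs : h62rBeta A M hq hM hA u₀ ∈
      Ideal.span {h62rAlpha A M (q := q) u₀, h62rBeta A M hq hM hA u₀} :=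
    Ideal.subset_span (by simp)
  have hqρ : (q : h62rChart A (M * q) (jSS M q)) * ρ ∈
      Ideal.span {h62rAlpha A M (q := q) u₀, h62rBeta A M hq hM hA u₀} := by
    have h6 : (q : h62rChart A (M * q) (jSS M q)) * ρ =
        -((h62rBeta A M hq hM hA u₀ - h62rAlpha A M u₀ ^ q) *
          (h62rBeta A M hq hM hA u₀ ^ q - h62rAlpha A M u₀)) := by
      linear_combination hrel
    rw [h6]
    exact neg_mem (Ideal.mul_mem_right _ _
      (Ideal.sub_mem _ hYs (Ideal.pow_mem_of_mem _ hXs q hq.pos)))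
  have h7 : ρ * s * z = a * ((q : h62rChart A (M * q) (jSS M q)) * ρ) + ρ * w := by
    rw [mul_assoc, ← hsum]
    ring
  rw [h7]
  exact Ideal.add_mem _ (Ideal.mul_mem_left _ _ hqρ) (Ideal.mul_mem_left _ _ hw)

end Main

/-- **R-L1** (exact frozen Prop of `S36/H62L1Iface.lean`, unconditional): every closed point of
the special fibre of the finite chart of level `M q` over `A₀` carries the node datum, the
smooth datum on `C_∞` or the smooth datum on `C_0`. -/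
theorem h29d_L1 : H62L1 := by
  intro q hq M _ hM haux
  haveI : NeZero q := ⟨hq.ne_zero⟩
  intro A hA 𝔫₁ h𝔫₁ hπ
  obtain ⟨h0, -, h1, -⟩ := h25i_redIsoStatement q hq M hM haux A hA
  haveI := h𝔫₁
  have h𝔫max : (h29dLift A M 𝔫₁).IsMaximal := h29l_lift_isMaximal h1.1 _ h1.2 𝔫₁ hπ
  have hm𝔫 : h62rM A (M * q) (jSS M q) ≤ h29dLift A M 𝔫₁ := h29l_le_lift _ _ 𝔫₁
  have hSF : h62i_Pinf A M hq hM hA ⊓ h62i_P0 A M hq hM hA ≤ h62rM A (M * q) (jSS M q) :=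
    h62c_comp A M hq hM hA
  have hdich : h62i_Pinf A M hq hM hA ≤ h29dLift A M 𝔫₁ ∨
      h62i_P0 A M hq hM hA ≤ h29dLift A M 𝔫₁ :=
    (Ideal.IsPrime.inf_le h𝔫max.isPrime).mp (le_trans hSF hm𝔫)
  by_cases hP0 : h62i_P0 A M hq hM hA ≤ h29dLift A M 𝔫₁
  · by_cases hPinf : h62i_Pinf A M hq hM hA ≤ h29dLift A M 𝔫₁
    · exact Or.inl (h29d_nodeDatum A M hq hM hA haux h1 𝔫₁ hπ hPinf hP0)
    · exact Or.inr (Or.inr (h29d_zeroDatum A M hq hM hA haux h0 h1 𝔫₁ hπ hP0 hPinf))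
  · exact Or.inr (Or.inl (h29d_infDatum A M hq hM hA haux h0 h1 𝔫₁ hπ
      (hdich.resolve_right hP0) hP0))

end Fermat.Agent.S36
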