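import Fermat.Agent.S36.H62RegIface
import Fermat.Agent.LGC.H62Inst

/-!
# S36, block REG, row R-L1-SMOOTH (helper29): frozen interface

Level `M q` (`q ∤ M` prime, `auxLevel q ∣ M`), the chart `B₁ = h62rChart A (M q) t` over the
inertia ring `A₀` (`t = jB (M q) = jSS M q`), `𝔫` a closed point of the special fibre
(`𝔫` maximal, `q ∈ 𝔫`).  `X_v = α v`, `Y_v = β v` for `v ∈ modelFin M A` with rational
`q`-expansion (`α, β = heckeAlphaBar, heckeBetaBar Kbar M q`).

* `h29l_OnInf`, `h29l_OnZero` : the component `C_∞` (resp. `C_0`) passes through `𝔫`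
  (`C_∞ = {z ∈ B₁ | z non-unit of the Gauss ring W_∞ = softRing A (M q)}`,
  `C_0 = {z | kFricke z ∈ C_∞}`).
* `H29SmoothInf 𝔫` : the datum at a closed point on `C_∞` only:
  * `comp`  : `C_∞ = (q)` locally at `𝔫`, with one denominator `e ∈ C_0`, `e ∉ 𝔫`;
  * `frob`  : `Y_v - X_v ^ q ∈ C_∞` for every rational `v` (so `e (Y_v - X_v^q) ∈ q B₁`);
  * `param` : for every rational `v` there are a rational `w` and a constant `c ∈ A₀` with
    `X_v - c ∈ 𝔫`, `X_w - c ∈ 𝔫` (`w` has the same value as `v` at the point) and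
    `𝔫 = (q, X_w - c)` locally;
  * `param0` : a rational `u` with `X_u ∈ 𝔫`, `𝔫 = (q, X_u)` locally.
* `H29SmoothZero 𝔫` : the same on `C_0` only, with `Y` in place of `X`.
* `H29L1SmoothAt A M t` / `H29L1Smooth` : **the statement of the row**: every closed point of the
  special fibre lies on both components (a node: rows R-L1A / R-L1-NODE) or carries the smooth
  datum on `C_∞` or on `C_0`.
* `H29RedCongr`, `H29RedInter` : the two inputs from row R-REDISO in the form used by the proof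
  (`chart = chart₀ + 𝔪_A chart`, `𝔪_A chart ∩ chart₀ = q chart₀`).

"locally" always means: `∀ z ∈ 𝔫, ∃ s ∉ 𝔫, s * z ∈ the ideal` (as in `H62RegAt`).
Every declaration is a definition; nothing is assumed.
-/

set_option autoImplicit false

open AlgebraicCurve ModularCurve IsLocalRing

noncomputable section

namespace Fermat.Agent.S36

open Fermat.Agent.S37 (Kbar GQ FF cst gal IsRat modelFin modelAt jB auxLevel)
open Fermat.Agent.Red.GG (chart)
open Fermat.Agent.Red.GV.Soft (softRing)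
open Fermat.Agent.Red.Kron (kFricke)
open Fermat.Agent.LGC (jSS)

section Red

variable (A : ValuationSubring Kbar) (N : ℕ) (t : FF N)

/-- the inclusion of the chart over `A₀` into the chart over `A`. -/
def h29l_incl : h62rChart A N t →+* chart N A t where
  toFun b := ⟨(b : FF N), (Subring.mem_inf.mp b.2).1⟩
  map_one' := rfl
  map_mul' _ _ := rfl
  map_zero' := rfl
  map_add' _ _ := rfl

@[simp]
theorem h29l_coe_incl (b : h62rChart A N t) :
    ((h29l_incl A N t b : chart N A t) : FF N) = (b : FF N) := rfl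

/-- **R-REDISO (a)**: `chart = chart₀ + 𝔪_A chart`. -/
def H29RedCongr : Prop :=
  ∀ b : chart N A t, ∃ b₀ : h62rChart A N t,
    b - h29l_incl A N t b₀ ∈ (maximalIdeal A).map (algebraMap A (chart N A t))

/-- **R-REDISO (b)**: `𝔪_A chart ∩ chart₀ ⊆ q chart₀`. -/
def H29RedInter (q : ℕ) : Prop :=
  ∀ b₀ : h62rChart A N t,
    h29l_incl A N t b₀ ∈ (maximalIdeal A).map (algebraMap A (chart N A t)) →
    ∃ y : h62rChart A N t, b₀ = (q : h62rChart A N t) * y

end Red

section Smooth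

variable (A : ValuationSubring Kbar) (M : ℕ) {q : ℕ} [NeZero M] [NeZero q]
  (hq : q.Prime) (hM : ¬ q ∣ M) (hA : A.LiesOverPrime q) {t : FF (M * q)}

/-- the component `C_∞` of the special fibre passes through `𝔫`. -/
def h29l_OnInf (𝔫 : Ideal (h62rChart A (M * q) t)) : Prop :=
  ∀ z : h62rChart A (M * q) t,
    (z : FF (M * q)) ∈ (softRing A (M * q) hq hA).nonunits → z ∈ 𝔫

/-- the component `C_0` of the special fibre passes through `𝔫`. -/
def h29l_OnZero (𝔫 : Ideal (h62rChart A (M * q) t)) : Prop :=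
  ∀ z : h62rChart A (M * q) t,
    kFricke M q hq hM (z : FF (M * q)) ∈ (softRing A (M * q) hq hA).nonunits → z ∈ 𝔫

/-- **the smooth datum on `C_∞`** at the closed point `𝔫` of the chart of level `M q`
over `A₀`. -/
structure H29SmoothInf (𝔫 : Ideal (h62rChart A (M * q) t)) : Prop where
  comp : ∃ e : h62rChart A (M * q) t, e ∉ 𝔫 ∧
    kFricke M q hq hM (e : FF (M * q)) ∈ (softRing A (M * q) hq hA).nonunits ∧
    ∀ z : h62rChart A (M * q) t,
      (z : FF (M * q)) ∈ (softRing A (M * q) hq hA).nonunits →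
      ∃ y : h62rChart A (M * q) t, e * z = (q : h62rChart A (M * q) t) * y
  frob : ∀ v : FF M, v ∈ modelFin M A → IsRat v →
    ∃ D : h62rChart A (M * q) t,
      (D : FF (M * q)) = heckeBetaBar Kbar M q v - heckeAlphaBar Kbar M q v ^ q ∧
      (D : FF (M * q)) ∈ (softRing A (M * q) hq hA).nonunits
  param : ∀ v : FF M, v ∈ modelFin M A → IsRat v →
    ∃ w : FF M, w ∈ modelFin M A ∧ IsRat w ∧
      ∃ c : Kbar, c ∈ A ∧ (∀ σ ∈ A.inertiaSubgroupIn ℚ, σ c = c) ∧
        ∃ X V : h62rChart A (M * q) t,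
          (X : FF (M * q)) = heckeAlphaBar Kbar M q w - cst (M * q) c ∧
          (V : FF (M * q)) = heckeAlphaBar Kbar M q v - cst (M * q) c ∧
          X ∈ 𝔫 ∧ V ∈ 𝔫 ∧
          ∀ z ∈ 𝔫, ∃ s, s ∉ 𝔫 ∧ s * z ∈ Ideal.span {(q : h62rChart A (M * q) t), X}
  param0 : ∃ u : FF M, u ∈ modelFin M A ∧ IsRat u ∧
    ∃ X : h62rChart A (M * q) t, (X : FF (M * q)) = heckeAlphaBar Kbar M q u ∧ X ∈ 𝔫 ∧
      ∀ z ∈ 𝔫, ∃ s, s ∉ 𝔫 ∧ s * z ∈ Ideal.span {(q : h62rChart A (M * q) t), X}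

/-- **the smooth datum on `C_0`** at the closed point `𝔫` of the chart of level `M q`
over `A₀`. -/
structure H29SmoothZero (𝔫 : Ideal (h62rChart A (M * q) t)) : Prop where
  comp : ∃ e : h62rChart A (M * q) t, e ∉ 𝔫 ∧
    (e : FF (M * q)) ∈ (softRing A (M * q) hq hA).nonunits ∧
    ∀ z : h62rChart A (M * q) t,
      kFricke M q hq hM (z : FF (M * q)) ∈ (softRing A (M * q) hq hA).nonunits →
      ∃ y : h62rChart A (M * q) t, e * z = (q : h62rChart A (M * q) t) * y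
  frob : ∀ v : FF M, v ∈ modelFin M A → IsRat v →
    ∃ D : h62rChart A (M * q) t,
      (D : FF (M * q)) = heckeAlphaBar Kbar M q v - heckeBetaBar Kbar M q v ^ q ∧
      kFricke M q hq hM (D : FF (M * q)) ∈ (softRing A (M * q) hq hA).nonunits
  param : ∀ v : FF M, v ∈ modelFin M A → IsRat v →
    ∃ w : FF M, w ∈ modelFin M A ∧ IsRat w ∧
      ∃ c : Kbar, c ∈ A ∧ (∀ σ ∈ A.inertiaSubgroupIn ℚ, σ c = c) ∧
        ∃ Y V : h62rChart A (M * q) t,
          (Y : FF (M * q)) = heckeBetaBar Kbar M q w - cst (M * q) c ∧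
          (V : FF (M * q)) = heckeBetaBar Kbar M q v - cst (M * q) c ∧
          Y ∈ 𝔫 ∧ V ∈ 𝔫 ∧
          ∀ z ∈ 𝔫, ∃ s, s ∉ 𝔫 ∧ s * z ∈ Ideal.span {(q : h62rChart A (M * q) t), Y}
  param0 : ∃ u : FF M, u ∈ modelFin M A ∧ IsRat u ∧
    ∃ Y : h62rChart A (M * q) t, (Y : FF (M * q)) = heckeBetaBar Kbar M q u ∧ Y ∈ 𝔫 ∧
      ∀ z ∈ 𝔫, ∃ s, s ∉ 𝔫 ∧ s * z ∈ Ideal.span {(q : h62rChart A (M * q) t), Y}

/-- **R-L1-SMOOTH at the chart `t`** of level `M q` over `A₀`: every closed point of the special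
fibre lies on both components, or is a smooth point of `C_∞`, or a smooth point of `C_0`. -/
def H29L1SmoothAt (t : FF (M * q)) : Prop :=
  ∀ 𝔫 : Ideal (h62rChart A (M * q) t), 𝔫.IsMaximal → (q : h62rChart A (M * q) t) ∈ 𝔫 →
    (h29l_OnInf A M hq hA 𝔫 ∧ h29l_OnZero A M hq hM hA 𝔫) ∨
    (h29l_OnInf A M hq hA 𝔫 ∧ ¬ h29l_OnZero A M hq hM hA 𝔫 ∧ H29SmoothInf A M hq hM hA 𝔫) ∨
    (h29l_OnZero A M hq hM hA 𝔫 ∧ ¬ h29l_OnInf A M hq hA 𝔫 ∧ H29SmoothZero A M hq hM hA 𝔫)

end Smooth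

/-- **R-L1-SMOOTH** (output of the row), finite chart `t = jB (M q)`. -/
def H29L1Smooth : Prop :=
  ∀ (q : ℕ) (hq : q.Prime) (M : ℕ) [NeZero M] (hM : ¬ q ∣ M), auxLevel q ∣ M →
    haveI : NeZero q := ⟨hq.ne_zero⟩
    ∀ (A : ValuationSubring Kbar) (hA : A.LiesOverPrime q),
      H29L1SmoothAt A M hq hM hA (jB (M * q))

end Fermat.Agent.S36
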