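import Fermat.Agent.S36.H29L1Abs
import Fermat.Agent.S36.H29L1Param
import Fermat.Agent.S36.H29L1Iface
import Fermat.Agent.LGC.H62Done
import Fermat.Agent.Red.HKGal

/-!
# S36, block REG, row R-L1-SMOOTH (helper29): the smooth closed points of the chart of level
# `M q` over the inertia ring `A₀`

`h29l_smoothAt_of` : `H29RedCongr` + `H29RedInter` (row R-REDISO at the finite chart of level
`M q`) `⇒ H29L1SmoothAt A M hq hM hA (jSS M q)`; `h29l_smoothAt_jB_of` : the same for the chart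
`jB (M q)`; `h29l_smooth_of` : `H29L1Smooth` from R-REDISO at all good levels.

Proof: the closed point `𝔫₁` of `B₁ = chart₀` lifts to the closed point `𝔫 = 𝔫₁ B + 𝔪_A B` of
`B = chart` (`H29L1Abs`), a component passes through `𝔫` iff its trace on `B₁` passes through
`𝔫₁`; at a point of `B` on one component only the landed theory over `A`
(`LGC/H62TwoComp`, `H62LP`, `H62Done`) gives local parameters `α w - c`, `w` rational, `c ∈ A₀`
(`H29L1Param`), which descend to `B₁` (`h29l_descend_LP`); the component is `(q)` locally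
(`h29l_descend_comp`), and the Frobenius congruence is the landed `h62d_frob`.
-/

set_option autoImplicit false
set_option linter.unusedSectionVars false
set_option linter.style.haveILetI false

open AlgebraicCurve ModularCurve IsLocalRing

noncomputable section

namespace Fermat.Agent.S36

open Fermat.Agent.S37 Fermat.Agent.LGC Fermat.Agent.Red Fermat.Agent.Red.GG
  Fermat.Agent.Red.GV Fermat.Agent.Red.GV.Soft Fermat.Agent.Red.Kron Fermat.Agent.Red.ModelO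

section Mem

variable (A : ValuationSubring Kbar) (M : ℕ) {q : ℕ} [NeZero M] [NeZero q]

/-- the inertia-fixed elements of `A`. -/
def h29l_A0 : Set A := {a | ∀ σ ∈ A.inertiaSubgroupIn ℚ, σ (a : Kbar) = (a : Kbar)}

theorem h29l_A0_congr (hq : q.Prime) (hA : A.LiesOverPrime q) (a : A) :
    ∃ c ∈ h29l_A0 A, a - c ∈ maximalIdeal A := by
  obtain ⟨a', ha', hfix, hcong⟩ := Fermat.Agent.LGC.h57_exists_inertia_fixed (k := ℚ)
    (fun x => Fermat.Agent.LGC.h57_isAlgebraic_int x) A hq hA a.2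
  refine ⟨⟨a', ha'⟩, hfix, ?_⟩
  rw [← ValuationSubring.coe_mem_nonunits_iff]
  exact hcong

/-- a function with rational `q`-expansion is fixed by the inertia group. -/
theorem h29l_rat_mem_F0 {N : ℕ} {x : FF N} (hx : IsRat x) (I : Subgroup GQ) :
    x ∈ h53d_F0 N I := fun σ _ => Fermat.Agent.S37.GalI.gal_smul_of_isRat σ hx

theorem h29l_cst_mem_F0 {N : ℕ} {c : Kbar} {I : Subgroup GQ} (hc : ∀ σ ∈ I, σ c = c) :
    cst N c ∈ h53d_F0 N I := by
  intro σ hσ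
  rw [Fermat.Agent.S37.GalI.gal_smul_cst, hc σ hσ]

theorem h29l_alpha_mem_F0 {x : FF M} {I : Subgroup GQ} (hx : x ∈ h53d_F0 M I) :
    heckeAlphaBar Kbar M q x ∈ h53d_F0 (M * q) I := by
  intro σ hσ
  have h := Fermat.Agent.Red.HKGal.intertwines_heckeAlphaBar M q σ x
  have h1 : gal (M * q) σ • heckeAlphaBar Kbar M q x = heckeAlphaBar Kbar M q (gal M σ • x) := h
  rw [h1, hx σ hσ]

theorem h29l_beta_mem_F0 {x : FF M} {I : Subgroup GQ} (hx : x ∈ h53d_F0 M I) :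
    heckeBetaBar Kbar M q x ∈ h53d_F0 (M * q) I := by
  intro σ hσ
  have h := Fermat.Agent.Red.HKGal.intertwines_heckeBetaBar M q σ x
  have h1 : gal (M * q) σ • heckeBetaBar Kbar M q x = heckeBetaBar Kbar M q (gal M σ • x) := h
  rw [h1, hx σ hσ]

theorem h29l_mem_chart0 {N : ℕ} {t x : FF N} (h1 : x ∈ modelAt N A t)
    (h2 : x ∈ h53d_F0 N (A.inertiaSubgroupIn ℚ)) : x ∈ h62rChart A N t :=
  Subring.mem_inf.mpr ⟨h1, h2⟩

end Mem

section Main

variable (A : ValuationSubring Kbar) (M : ℕ) {q : ℕ} [NeZero M] [NeZero q]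

/-- `α w - c` in the chart over `A₀`. -/
theorem h29l_alpha_sub_mem {w : FF M} (hw : w ∈ modelFin M A) (hrat : IsRat w) {c : Kbar}
    (hc : c ∈ A) (hfix : ∀ σ ∈ A.inertiaSubgroupIn ℚ, σ c = c) :
    heckeAlphaBar Kbar M q w - cst (M * q) c ∈ h62rChart A (M * q) (jSS M q) := by
  refine h29l_mem_chart0 A ?_ ?_
  · exact Subring.sub_mem _ (h62i_α A M q ⟨w, hw⟩).2 (h85_cst_mem_modelAt (M * q) A _ hc)
  · exact Subfield.sub_mem _ (h29l_alpha_mem_F0 M (h29l_rat_mem_F0 hrat _))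
      (h29l_cst_mem_F0 hfix)

/-- `β w - c` in the chart over `A₀`. -/
theorem h29l_beta_sub_mem (hq : q.Prime) (hM : ¬ q ∣ M) (hA : A.LiesOverPrime q)
    {w : FF M} (hw : w ∈ modelFin M A) (hrat : IsRat w) {c : Kbar}
    (hc : c ∈ A) (hfix : ∀ σ ∈ A.inertiaSubgroupIn ℚ, σ c = c) :
    heckeBetaBar Kbar M q w - cst (M * q) c ∈ h62rChart A (M * q) (jSS M q) := by
  refine h29l_mem_chart0 A ?_ ?_
  · exact Subring.sub_mem _ (h62i_β A M hq hM hA ⟨w, hw⟩).2
      (h85_cst_mem_modelAt (M * q) A _ hc)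
  · exact Subfield.sub_mem _ (h29l_beta_mem_F0 M (h29l_rat_mem_F0 hrat _))
      (h29l_cst_mem_F0 hfix)

theorem h29l_alpha_mem {w : FF M} (hw : w ∈ modelFin M A) (hrat : IsRat w) :
    heckeAlphaBar Kbar M q w ∈ h62rChart A (M * q) (jSS M q) := by
  have h := h29l_alpha_sub_mem A M (q := q) hw hrat A.zero_mem (fun σ _ => map_zero σ)
  have h0 : cst (M * q) (0 : Kbar) = 0 := map_zero _
  rw [h0, sub_zero] at h
  exact h

theorem h29l_beta_mem (hq : q.Prime) (hM : ¬ q ∣ M) (hA : A.LiesOverPrime q)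
    {w : FF M} (hw : w ∈ modelFin M A) (hrat : IsRat w) :
    heckeBetaBar Kbar M q w ∈ h62rChart A (M * q) (jSS M q) := by
  have h := h29l_beta_sub_mem A M hq hM hA hw hrat A.zero_mem (fun σ _ => map_zero σ)
  have h0 : cst (M * q) (0 : Kbar) = 0 := map_zero _
  rw [h0, sub_zero] at h
  exact h

/-- `B = β Λ + P₀`. -/
theorem h29l_surj0 (hq : q.Prime) (hM : ¬ q ∣ M) (hA : A.LiesOverPrime q)
    (haux : auxLevel q ∣ M) (b : chart (M * q) A (jSS M q)) :
    ∃ x : chart M A (jB M), b - h62i_β A M hq hM hA x ∈ h62i_P0 A M hq hM hA := by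
  obtain ⟨x, hx⟩ := h62d_surj A M hq hM haux hA (h62i_w A M hq hM hA b)
  refine ⟨x, ?_⟩
  rw [h62i_mem_P0_iff_w, map_sub, h62i_w_β]
  exact hx

/-- the Frobenius congruence on `C₀`. -/
theorem h29l_frob0 (hq : q.Prime) (hM : ¬ q ∣ M) (hA : A.LiesOverPrime q) (u : chart M A (jB M)) (hu : u ∈ h62i_R A M) :
    h62i_α A M q u - (h62i_β A M hq hM hA u) ^ q ∈ h62i_P0 A M hq hM hA := by
  rw [h62i_mem_P0_iff_w, map_sub, map_pow, h62i_w_α, h62i_w_β]
  exact h62d_frob A M hq hM hA u hu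

theorem h29l_onInf_iff (hq : q.Prime) (hM : ¬ q ∣ M) (hA : A.LiesOverPrime q) (hcongr : H29RedCongr A (M * q) (jSS M q))
    (hinter : H29RedInter A (M * q) (jSS M q) q)
    (𝔫₁ : Ideal (h62rChart A (M * q) (jSS M q)))
    (hπ : (q : h62rChart A (M * q) (jSS M q)) ∈ 𝔫₁) :
    h29l_OnInf A M hq hA 𝔫₁ ↔
      h62i_Pinf A M hq hM hA ≤
        h29l_lift (h29l_incl A (M * q) (jSS M q)) (mExt A M q (jSS M q)) 𝔫₁ := by
  rw [h29l_le_lift_iff hcongr _ hinter 𝔫₁ hπ _ (h62i_m_le_Pinf A M hq hM hA)]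
  constructor
  · intro h z hz
    exact h z ((h62i_mem_Pinf A M hq hM hA _).mp hz)
  · intro h z hz
    exact h z ((h62i_mem_Pinf A M hq hM hA _).mpr hz)

theorem h29l_onZero_iff (hq : q.Prime) (hM : ¬ q ∣ M) (hA : A.LiesOverPrime q) (hcongr : H29RedCongr A (M * q) (jSS M q))
    (hinter : H29RedInter A (M * q) (jSS M q) q)
    (𝔫₁ : Ideal (h62rChart A (M * q) (jSS M q)))
    (hπ : (q : h62rChart A (M * q) (jSS M q)) ∈ 𝔫₁) :
    h29l_OnZero A M hq hM hA 𝔫₁ ↔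
      h62i_P0 A M hq hM hA ≤
        h29l_lift (h29l_incl A (M * q) (jSS M q)) (mExt A M q (jSS M q)) 𝔫₁ := by
  rw [h29l_le_lift_iff hcongr _ hinter 𝔫₁ hπ _ (h62i_m_le_P0 A M hq hM hA)]
  constructor
  · intro h z hz
    exact h z ((h62i_mem_P0 A M hq hM hA _).mp hz)
  · intro h z hz
    exact h z ((h62i_mem_P0 A M hq hM hA _).mpr hz)

end Main

section Final

variable (A : ValuationSubring Kbar) (M : ℕ) {q : ℕ} [NeZero M] [NeZero q]
  (hq : q.Prime) (hM : ¬ q ∣ M) (hA : A.LiesOverPrime q)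

/-- **R-L1-SMOOTH at the finite chart `jSS M q`**, from R-REDISO at level `M q`. -/
theorem h29l_smoothAt_of (haux : auxLevel q ∣ M)
    (hcongr : H29RedCongr A (M * q) (jSS M q))
    (hinter : H29RedInter A (M * q) (jSS M q) q) :
    H29L1SmoothAt A M hq hM hA (jSS M q) := by
  classical
  intro 𝔫₁ h𝔫₁ hπ
  have h𝔫max : (h29l_lift (h29l_incl A (M * q) (jSS M q)) (mExt A M q (jSS M q)) 𝔫₁).IsMaximal :=
    h29l_lift_isMaximal hcongr _ hinter 𝔫₁ hπ
  have h𝔫p : (h29l_lift (h29l_incl A (M * q) (jSS M q)) (mExt A M q (jSS M q)) 𝔫₁).IsPrime :=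
    h𝔫max.isPrime
  have hm𝔫 : mExt A M q (jSS M q) ≤
      h29l_lift (h29l_incl A (M * q) (jSS M q)) (mExt A M q (jSS M q)) 𝔫₁ :=
    h29l_le_lift _ _ 𝔫₁
  have hSF : h62i_Pinf A M hq hM hA ⊓ h62i_P0 A M hq hM hA ≤ mExt A M q (jSS M q) :=
    h62c_comp A M hq hM hA
  have hdich : h62i_Pinf A M hq hM hA ≤
        h29l_lift (h29l_incl A (M * q) (jSS M q)) (mExt A M q (jSS M q)) 𝔫₁ ∨
      h62i_P0 A M hq hM hA ≤
        h29l_lift (h29l_incl A (M * q) (jSS M q)) (mExt A M q (jSS M q)) 𝔫₁ :=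
    (Ideal.IsPrime.inf_le h𝔫p).mp (le_trans hSF hm𝔫)
  have hInf := h29l_onInf_iff A M hq hM hA hcongr hinter 𝔫₁ hπ
  have hZero := h29l_onZero_iff A M hq hM hA hcongr hinter 𝔫₁ hπ
  haveI hded := h13l_hded_fin M A hq hM haux hA
  have hnf := h13l_hnf_fin M A hq hM hA
  by_cases hP0 : h62i_P0 A M hq hM hA ≤
      h29l_lift (h29l_incl A (M * q) (jSS M q)) (mExt A M q (jSS M q)) 𝔫₁
  · by_cases hPinf : h62i_Pinf A M hq hM hA ≤
        h29l_lift (h29l_incl A (M * q) (jSS M q)) (mExt A M q (jSS M q)) 𝔫₁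
    · left
      exact ⟨hInf.mpr hPinf, hZero.mpr hP0⟩
    · right
      right
      refine ⟨hZero.mpr hP0, fun h => hPinf (hInf.mp h), ?_⟩
      obtain ⟨⟨u, huR, hu𝔫, huLP⟩, hall⟩ := h29l_param (h62i_β A M hq hM hA)
        (h29l_lift (h29l_incl A (M * q) (jSS M q)) (mExt A M q (jSS M q)) 𝔫₁)
        (h62i_P0 A M hq hM hA) (h62i_Pinf A M hq hM hA) hPinf
        (by rw [inf_comm]; exact hSF) hm𝔫 (h29l_surj0 A M hq hM hA haux) hP0 hnf
        (h62d_res A M) (h62i_R A M) (h62d_span A M hq hM hA) (h62d_sep A hq hA)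
        (h29l_A0 A) (h29l_A0_congr A hq hA)
      refine ⟨?_, ?_, ?_, ?_⟩
      · obtain ⟨e₀, he₀, heP', hcomp⟩ := h29l_descend_comp hcongr _ hinter 𝔫₁
          (h62i_P0 A M hq hM hA) (h62i_Pinf A M hq hM hA) (by rw [inf_comm]; exact hSF)
          (h62i_m_le_Pinf A M hq hM hA) hPinf
        exact ⟨e₀, he₀, (h62i_mem_Pinf A M hq hM hA _).mp heP', fun z hz =>
          hcomp z ((h62i_mem_P0 A M hq hM hA _).mpr hz)⟩
      · intro v hv hrat
        refine ⟨⟨heckeAlphaBar Kbar M q v - heckeBetaBar Kbar M q v ^ q, ?_⟩, rfl, ?_⟩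
        · exact Subring.sub_mem _ (h29l_alpha_mem A M hv hrat)
            (Subring.pow_mem _ (h29l_beta_mem A M hq hM hA hv hrat) q)
        · have h := h29l_frob0 A M hq hM hA ⟨v, hv⟩ ((h62i_mem_R A M _).mpr hrat)
          exact (h62i_mem_P0 A M hq hM hA _).mp h
      · intro v hv hrat
        obtain ⟨w, hwR, c, hc, hvc, hwc, hLP⟩ := hall ⟨v, hv⟩ ((h62i_mem_R A M _).mpr hrat)
        have hwrat : IsRat (w : FF M) := (h62i_mem_R A M w).mp hwR
        refine ⟨(w : FF M), w.2, hwrat, (c : Kbar), c.2, hc,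
          ⟨_, h29l_beta_sub_mem A M hq hM hA w.2 hwrat c.2 hc⟩,
          ⟨_, h29l_beta_sub_mem A M hq hM hA hv hrat c.2 hc⟩, rfl, rfl, ?_, ?_, ?_⟩
        · exact (h29l_map_mem_lift hcongr _ hinter 𝔫₁ hπ _).mp hwc
        · exact (h29l_map_mem_lift hcongr _ hinter 𝔫₁ hπ _).mp hvc
        · exact h29l_descend_LP hcongr _ hinter 𝔫₁ _ hLP
      · have hurat : IsRat (u : FF M) := (h62i_mem_R A M u).mp huR
        refine ⟨(u : FF M), u.2, hurat, ⟨_, h29l_beta_mem A M hq hM hA u.2 hurat⟩, rfl, ?_, ?_⟩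
        · exact (h29l_map_mem_lift hcongr _ hinter 𝔫₁ hπ _).mp hu𝔫
        · exact h29l_descend_LP hcongr _ hinter 𝔫₁ _ huLP
  · right
    left
    have hPinf : h62i_Pinf A M hq hM hA ≤
        h29l_lift (h29l_incl A (M * q) (jSS M q)) (mExt A M q (jSS M q)) 𝔫₁ :=
      hdich.resolve_right hP0
    refine ⟨hInf.mpr hPinf, fun h => hP0 (hZero.mp h), ?_⟩
    obtain ⟨⟨u, huR, hu𝔫, huLP⟩, hall⟩ := h29l_param (h62i_α A M q)
      (h29l_lift (h29l_incl A (M * q) (jSS M q)) (mExt A M q (jSS M q)) 𝔫₁)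
      (h62i_Pinf A M hq hM hA) (h62i_P0 A M hq hM hA) hP0 hSF hm𝔫
      (h62d_surj A M hq hM haux hA) hPinf hnf
      (h62d_res A M) (h62i_R A M) (h62d_span A M hq hM hA) (h62d_sep A hq hA)
      (h29l_A0 A) (h29l_A0_congr A hq hA)
    refine ⟨?_, ?_, ?_, ?_⟩
    · obtain ⟨e₀, he₀, heP', hcomp⟩ := h29l_descend_comp hcongr _ hinter 𝔫₁
        (h62i_Pinf A M hq hM hA) (h62i_P0 A M hq hM hA) hSF
        (h62i_m_le_P0 A M hq hM hA) hP0
      exact ⟨e₀, he₀, (h62i_mem_P0 A M hq hM hA _).mp heP', fun z hz =>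
        hcomp z ((h62i_mem_Pinf A M hq hM hA _).mpr hz)⟩
    · intro v hv hrat
      refine ⟨⟨heckeBetaBar Kbar M q v - heckeAlphaBar Kbar M q v ^ q, ?_⟩, rfl, ?_⟩
      · exact Subring.sub_mem _ (h29l_beta_mem A M hq hM hA hv hrat)
          (Subring.pow_mem _ (h29l_alpha_mem A M hv hrat) q)
      · have h := h62d_frob A M hq hM hA ⟨v, hv⟩ ((h62i_mem_R A M _).mpr hrat)
        exact (h62i_mem_Pinf A M hq hM hA _).mp h
    · intro v hv hrat
      obtain ⟨w, hwR, c, hc, hvc, hwc, hLP⟩ := hall ⟨v, hv⟩ ((h62i_mem_R A M _).mpr hrat)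
      have hwrat : IsRat (w : FF M) := (h62i_mem_R A M w).mp hwR
      refine ⟨(w : FF M), w.2, hwrat, (c : Kbar), c.2, hc,
        ⟨_, h29l_alpha_sub_mem A M w.2 hwrat c.2 hc⟩,
        ⟨_, h29l_alpha_sub_mem A M hv hrat c.2 hc⟩, rfl, rfl, ?_, ?_, ?_⟩
      · exact (h29l_map_mem_lift hcongr _ hinter 𝔫₁ hπ _).mp hwc
      · exact (h29l_map_mem_lift hcongr _ hinter 𝔫₁ hπ _).mp hvc
      · exact h29l_descend_LP hcongr _ hinter 𝔫₁ _ hLP
    · have hurat : IsRat (u : FF M) := (h62i_mem_R A M u).mp huR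
      refine ⟨(u : FF M), u.2, hurat, ⟨_, h29l_alpha_mem A M u.2 hurat⟩, rfl, ?_, ?_⟩
      · exact (h29l_map_mem_lift hcongr _ hinter 𝔫₁ hπ _).mp hu𝔫
      · exact h29l_descend_LP hcongr _ hinter 𝔫₁ _ huLP

/-- **R-L1-SMOOTH at the finite chart `jB (M q)`**, from R-REDISO at level `M q`. -/
theorem h29l_smoothAt_jB_of (haux : auxLevel q ∣ M)
    (hcongr : H29RedCongr A (M * q) (jB (M * q)))
    (hinter : H29RedInter A (M * q) (jB (M * q)) q) :
    H29L1SmoothAt A M hq hM hA (jB (M * q)) := by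
  rw [← h85s_jSS_eq] at hcongr hinter ⊢
  exact h29l_smoothAt_of A M hq hM hA haux hcongr hinter

end Final

/-- **R-L1-SMOOTH** from row R-REDISO (finite chart, level `M q`). -/
theorem h29l_smooth_of
    (hR : ∀ (q : ℕ) (hq : q.Prime) (M : ℕ) [NeZero M], ¬ q ∣ M → auxLevel q ∣ M →
      haveI : NeZero q := ⟨hq.ne_zero⟩
      ∀ A : ValuationSubring Kbar, A.LiesOverPrime q →
        H29RedCongr A (M * q) (jB (M * q)) ∧ H29RedInter A (M * q) (jB (M * q)) q) :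
    H29L1Smooth := by
  intro q hq M _ hM haux
  haveI : NeZero q := ⟨hq.ne_zero⟩
  intro A hA
  obtain ⟨h1, h2⟩ := hR q hq M hM haux A hA
  exact h29l_smoothAt_jB_of A M hq hM hA haux h1 h2

end Fermat.Agent.S36
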