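import Mathlib

/-!
# S36, glue (G2): the `ℤ`-valued valuation of a discrete Gauss pull-back (Mathlib only, helper29)

`ι : F →+* L` a homomorphism of fields (in use: `F = F0 = FF(N)^I`, `L = ℚ̄((t))`, `ι` one of the
embeddings `E₂₀`, `E₁₁^ζ`, `E₀₂`), `O` a subring of `L` (the Gauss ring `softOT`), `π ∈ L` a
non-unit of `O` (`π = q`, resp. `π = 1 - ζ`) such that every nonzero element of `ι (F)` is a power
of `π` times a unit of `O` (the discreteness statements `h28v_exists_zpow`,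
`h28m_mid_exists_zpow` of `S36/V28*.lean`).

* `h29zVal` : the valuation `W : Valuation F ℤᵐ⁰`, `W x = exp n` iff `π ^ n * ι x ∈ Oˣ`.
* `h29z_val_le_one_iff` : `W x ≤ 1 ↔ ι x ∈ O`  (the valuation ring of `W` is the pull-back of `O`).
* `h29z_val_lt_one_iff` : `W x < 1 ↔ x = 0 ∨ (ι x ∈ O ∧ (ι x)⁻¹ ∉ O)`.
* `h29z_val_eq_exp_iff` : the value of `x` from `π ^ n * ι x ∈ Oˣ`
  (e.g. `W₁₁ q = exp (-(q - 1))` from `q = (1 - ζ) ^ (q - 1) * unit`).
* `h29z_val_pow_le` : `W x < 1 → W (x ^ e) ≤ W a` when `W a = exp (-e)`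
  (the hypothesis `hrad` of the gate `h63g_gate36`).
-/

set_option autoImplicit false
set_option linter.unusedSectionVars false

open WithZero

namespace Fermat.Agent.S36

section ZVal

variable {F L : Type*} [Field F] [Field L]

/-- `u` is a unit of the subring `O` of the field `L`. -/
def H29zUnit (O : Subring L) (u : L) : Prop := u ∈ O ∧ u⁻¹ ∈ O

theorem H29zUnit.one (O : Subring L) : H29zUnit O 1 :=
  ⟨O.one_mem, by rw [inv_one]; exact O.one_mem⟩

theorem H29zUnit.mul {O : Subring L} {u v : L} (hu : H29zUnit O u) (hv : H29zUnit O v) :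
    H29zUnit O (u * v) :=
  ⟨O.mul_mem hu.1 hv.1, by rw [mul_inv]; exact O.mul_mem hu.2 hv.2⟩

theorem H29zUnit.inv {O : Subring L} {u : L} (hu : H29zUnit O u) : H29zUnit O u⁻¹ :=
  ⟨hu.2, by rw [inv_inv]; exact hu.1⟩

/-- the discreteness datum. -/
structure H29ZDisc (ι : F →+* L) (O : Subring L) (π : L) : Prop where
  mem : π ∈ O
  inv_notMem : π⁻¹ ∉ O
  disc : ∀ x : F, x ≠ 0 → ∃ n : ℤ, H29zUnit O (π ^ n * ι x)

variable {ι : F →+* L} {O : Subring L} {π : L}

theorem H29ZDisc.pi_ne_zero (h : H29ZDisc ι O π) : π ≠ 0 := by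
  rintro rfl
  exact h.inv_notMem (by rw [inv_zero]; exact O.zero_mem)

/-- nonnegative powers of `π` lie in `O`. -/
theorem H29ZDisc.zpow_mem (h : H29ZDisc ι O π) {n : ℤ} (hn : 0 ≤ n) : π ^ n ∈ O := by
  obtain ⟨k, rfl⟩ := Int.eq_ofNat_of_zero_le hn
  rw [zpow_natCast]
  exact O.pow_mem h.mem k

/-- a power of `π` lies in `O` only if the exponent is nonnegative. -/
theorem H29ZDisc.nonneg_of_zpow_mem (h : H29ZDisc ι O π) {n : ℤ} (hn : π ^ n ∈ O) : 0 ≤ n := by
  by_contra hcon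
  push Not at hcon
  apply h.inv_notMem
  have h1 : π⁻¹ = π ^ n * π ^ (-n - 1) := by
    rw [← zpow_add₀ h.pi_ne_zero]
    have : n + (-n - 1) = -1 := by ring
    rw [this, zpow_neg_one]
  rw [h1]
  exact O.mul_mem hn (h.zpow_mem (by omega))

/-- `π ^ n * u ∈ O` with `u ≠ 0` a unit iff `0 ≤ n`. -/
theorem H29ZDisc.zpow_mul_mem_iff (h : H29ZDisc ι O π) {n : ℤ} {u : L} (hu : H29zUnit O u)
    (hu0 : u ≠ 0) : π ^ n * u ∈ O ↔ 0 ≤ n := by
  constructor
  · intro hmem
    apply h.nonneg_of_zpow_mem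
    have h1 : π ^ n = π ^ n * u * u⁻¹ := by
      rw [mul_assoc, mul_inv_cancel₀ hu0, mul_one]
    rw [h1]
    exact O.mul_mem hmem hu.2
  · intro hn
    exact O.mul_mem (h.zpow_mem hn) hu.1

/-- the exponent is unique. -/
theorem H29ZDisc.exp_unique (h : H29ZDisc ι O π) {y : L} (hy : y ≠ 0) {n m : ℤ}
    (hn : H29zUnit O (π ^ n * y)) (hm : H29zUnit O (π ^ m * y)) : n = m := by
  have hπ := h.pi_ne_zero
  have key : ∀ a b : ℤ, H29zUnit O (π ^ a * y) → H29zUnit O (π ^ b * y) → a ≤ b := by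
    intro a b ha hb
    have h1 : π ^ (b - a) = (π ^ b * y) * (π ^ a * y)⁻¹ := by
      rw [mul_inv, zpow_sub₀ hπ]
      field_simp
    have h2 : π ^ (b - a) ∈ O := by
      rw [h1]; exact O.mul_mem hb.1 ha.2
    have := h.nonneg_of_zpow_mem h2
    omega
  exact le_antisymm (key n m hn hm) (key m n hm hn)

/-- the exponent of `x`: `π ^ (h29zExp x) * ι x` is a unit of `O`. -/
noncomputable def h29zExp (h : H29ZDisc ι O π) (x : F) : ℤ :=
  open Classical in if hx : x = 0 then 0 else (h.disc x hx).choose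

theorem h29zExp_spec (h : H29ZDisc ι O π) {x : F} (hx : x ≠ 0) :
    H29zUnit O (π ^ h29zExp h x * ι x) := by
  unfold h29zExp
  rw [dif_neg hx]
  exact (h.disc x hx).choose_spec

theorem h29z_map_ne_zero (ι : F →+* L) {x : F} (hx : x ≠ 0) : ι x ≠ 0 :=
  (map_ne_zero_iff ι ι.injective).mpr hx

theorem h29zExp_eq (h : H29ZDisc ι O π) {x : F} (hx : x ≠ 0) {n : ℤ}
    (hn : H29zUnit O (π ^ n * ι x)) : h29zExp h x = n :=
  h.exp_unique (h29z_map_ne_zero ι hx) (h29zExp_spec h hx) hn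

theorem h29zExp_one (h : H29ZDisc ι O π) : h29zExp h (1 : F) = 0 :=
  h29zExp_eq h one_ne_zero (by rw [zpow_zero, map_one, one_mul]; exact H29zUnit.one O)

theorem h29zExp_mul (h : H29ZDisc ι O π) {x y : F} (hx : x ≠ 0) (hy : y ≠ 0) :
    h29zExp h (x * y) = h29zExp h x + h29zExp h y := by
  apply h29zExp_eq h (mul_ne_zero hx hy)
  have h1 : π ^ (h29zExp h x + h29zExp h y) * ι (x * y) =
      (π ^ h29zExp h x * ι x) * (π ^ h29zExp h y * ι y) := by
    rw [zpow_add₀ h.pi_ne_zero, map_mul]; ring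
  rw [h1]
  exact (h29zExp_spec h hx).mul (h29zExp_spec h hy)

/-- `π ^ n * ι x ∈ O` iff `h29zExp x ≤ n`. -/
theorem h29z_mem_iff (h : H29ZDisc ι O π) {x : F} (hx : x ≠ 0) (n : ℤ) :
    π ^ n * ι x ∈ O ↔ h29zExp h x ≤ n := by
  have hu := h29zExp_spec h hx
  have hu0 : π ^ h29zExp h x * ι x ≠ 0 :=
    mul_ne_zero (zpow_ne_zero _ h.pi_ne_zero) (h29z_map_ne_zero ι hx)
  have h1 : π ^ n * ι x = π ^ (n - h29zExp h x) * (π ^ h29zExp h x * ι x) := by
    rw [← mul_assoc, ← zpow_add₀ h.pi_ne_zero]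
    congr 2
    ring
  rw [h1, h.zpow_mul_mem_iff hu hu0]
  omega

/-- the valuation as a function. -/
noncomputable def h29zFun (h : H29ZDisc ι O π) (x : F) : ℤᵐ⁰ :=
  open Classical in if x = 0 then 0 else exp (h29zExp h x)

theorem h29zFun_zero (h : H29ZDisc ι O π) : h29zFun h (0 : F) = 0 := by
  unfold h29zFun; rw [if_pos rfl]

theorem h29zFun_of_ne (h : H29ZDisc ι O π) {x : F} (hx : x ≠ 0) :
    h29zFun h x = exp (h29zExp h x) := by
  unfold h29zFun; rw [if_neg hx]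

theorem h29zFun_add (h : H29ZDisc ι O π) (x y : F) :
    h29zFun h (x + y) ≤ max (h29zFun h x) (h29zFun h y) := by
  by_cases hx : x = 0
  · subst hx; rw [zero_add]; exact le_max_right _ _
  by_cases hy : y = 0
  · subst hy; rw [add_zero]; exact le_max_left _ _
  by_cases hxy : x + y = 0
  · rw [hxy, h29zFun_zero]; exact zero_le
  rw [h29zFun_of_ne h hx, h29zFun_of_ne h hy, h29zFun_of_ne h hxy, le_max_iff, exp_le_exp,
    exp_le_exp]
  -- put `n = max` of the two exponents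
  have hmem : π ^ max (h29zExp h x) (h29zExp h y) * ι (x + y) ∈ O := by
    rw [map_add, mul_add]
    exact O.add_mem ((h29z_mem_iff h hx _).2 (le_max_left _ _))
      ((h29z_mem_iff h hy _).2 (le_max_right _ _))
  have := (h29z_mem_iff h hxy _).1 hmem
  rcases le_total (h29zExp h x) (h29zExp h y) with hle | hle
  · rw [max_eq_right hle] at this; exact Or.inr this
  · rw [max_eq_left hle] at this; exact Or.inl this

/-- **the `ℤ`-valued valuation** of the pull-back of `O` under `ι`. -/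
noncomputable def h29zVal (h : H29ZDisc ι O π) : Valuation F ℤᵐ⁰ where
  toFun := h29zFun h
  map_zero' := h29zFun_zero h
  map_one' := by rw [h29zFun_of_ne h one_ne_zero, h29zExp_one, exp_zero]
  map_mul' := by
    intro x y
    by_cases hx : x = 0
    · subst hx; rw [zero_mul, h29zFun_zero, zero_mul]
    by_cases hy : y = 0
    · subst hy; rw [mul_zero, h29zFun_zero, mul_zero]
    rw [h29zFun_of_ne h hx, h29zFun_of_ne h hy, h29zFun_of_ne h (mul_ne_zero hx hy),
      h29zExp_mul h hx hy, exp_add]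
  map_add_le_max' := h29zFun_add h

theorem h29zVal_apply (h : H29ZDisc ι O π) (x : F) : h29zVal h x = h29zFun h x := rfl

theorem h29zVal_of_ne (h : H29ZDisc ι O π) {x : F} (hx : x ≠ 0) :
    h29zVal h x = exp (h29zExp h x) := h29zFun_of_ne h hx

/-- `W x = exp n` iff `π ^ n * ι x` is a unit of `O`. -/
theorem h29z_val_eq_exp_iff (h : H29ZDisc ι O π) {x : F} (hx : x ≠ 0) (n : ℤ) :
    h29zVal h x = exp n ↔ H29zUnit O (π ^ n * ι x) := by
  rw [h29zVal_of_ne h hx, exp_inj]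
  constructor
  · rintro rfl
    exact h29zExp_spec h hx
  · exact h29zExp_eq h hx

/-- `W x ≤ exp n` iff `π ^ n * ι x ∈ O`. -/
theorem h29z_val_le_exp_iff (h : H29ZDisc ι O π) (x : F) (n : ℤ) :
    h29zVal h x ≤ exp n ↔ π ^ n * ι x ∈ O := by
  by_cases hx : x = 0
  · subst hx
    rw [map_zero, map_zero, mul_zero]
    exact ⟨fun _ => O.zero_mem, fun _ => zero_le⟩
  rw [h29zVal_of_ne h hx, exp_le_exp, h29z_mem_iff h hx]

/-- **the valuation ring of `W` is the pull-back of `O`.** -/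
theorem h29z_val_le_one_iff (h : H29ZDisc ι O π) (x : F) : h29zVal h x ≤ 1 ↔ ι x ∈ O := by
  have := h29z_val_le_exp_iff h x 0
  rwa [exp_zero, zpow_zero, one_mul] at this

/-- the maximal ideal of `W`. -/
theorem h29z_val_lt_one_iff (h : H29ZDisc ι O π) (x : F) :
    h29zVal h x < 1 ↔ x = 0 ∨ (ι x ∈ O ∧ (ι x)⁻¹ ∉ O) := by
  by_cases hx : x = 0
  · subst hx
    rw [map_zero]
    exact ⟨fun _ => Or.inl rfl, fun _ => zero_lt_one⟩
  have hx' : x⁻¹ ≠ 0 := inv_ne_zero hx
  constructor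
  · intro hlt
    refine Or.inr ⟨(h29z_val_le_one_iff h x).1 hlt.le, fun hinv => ?_⟩
    have h1 : h29zVal h x⁻¹ ≤ 1 := (h29z_val_le_one_iff h x⁻¹).2 (by rwa [map_inv₀])
    rw [map_inv₀] at h1
    have h2 : 1 < (h29zVal h x)⁻¹ := by
      rw [one_lt_inv₀ (zero_lt_iff.2 ((Valuation.ne_zero_iff _).2 hx))]
      exact hlt
    exact absurd h1 (not_le.2 h2)
  · rintro (h0 | ⟨h1, h2⟩)
    · exact absurd h0 hx
    · rcases lt_or_eq_of_le ((h29z_val_le_one_iff h x).2 h1) with hlt | heq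
      · exact hlt
      · exfalso
        apply h2
        have h3 : h29zVal h x⁻¹ ≤ 1 := by rw [map_inv₀, heq, inv_one]
        have := (h29z_val_le_one_iff h x⁻¹).1 h3
        rwa [map_inv₀] at this

/-- the value of an element mapping to `π`. -/
theorem h29z_val_unif (h : H29ZDisc ι O π) {a : F} (ha : ι a = π) : h29zVal h a = exp (-1) := by
  have ha0 : a ≠ 0 := by
    rintro rfl
    rw [map_zero] at ha
    exact h.pi_ne_zero ha.symm
  rw [h29z_val_eq_exp_iff h ha0, ha, zpow_neg_one, inv_mul_cancel₀ h.pi_ne_zero]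
  exact H29zUnit.one O

/-- the hypothesis `hrad` of the gate: `W x < 1` implies `W (x ^ e) ≤ W a` if `W a = exp (-e)`. -/
theorem h29z_val_pow_le (h : H29ZDisc ι O π) {a : F} {e : ℕ} (ha : h29zVal h a = exp (-(e : ℤ)))
    {x : F} (hx : h29zVal h x < 1) : h29zVal h (x ^ e) ≤ h29zVal h a := by
  by_cases hx0 : x = 0
  · subst hx0
    rcases Nat.eq_zero_or_pos e with he | he
    · subst he
      rw [pow_zero, ha]
      simp
    · rw [zero_pow he.ne', map_zero]
      exact zero_le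
  rw [map_pow, ha, h29zVal_of_ne h hx0] at *
  rw [← exp_zero, exp_lt_exp] at hx
  rw [← exp_nsmul, exp_le_exp]
  have : h29zExp h x ≤ -1 := by omega
  calc e • h29zExp h x = (e : ℤ) * h29zExp h x := by simp
    _ ≤ (e : ℤ) * (-1) := by
        apply mul_le_mul_of_nonneg_left this
        exact Int.natCast_nonneg e
    _ = -(e : ℤ) := by ring

end ZVal

end Fermat.Agent.S36
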