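import Fermat.Agent.S36.H50ExcIface

/-!
# S36, block REG, row R-ORD (helper2, prefix `h2c_`): the leaf `H50eCharpoly`

`h2c_charpoly : H50eCharpoly` (exact frozen Prop of `S36/H50ExcIface.lean`, unconditional):
every `ψ` of the chart `B₁ = h62rChart A (M q) (jSS M q)` is killed by a monic polynomial of
degree `q + 1` over the chart `Λ₀ = h62rChart A M (jB M)` (coefficients mapped by `α`).

The polynomial is the characteristic polynomial `P` of `ψ` along `α`:
* its coefficients are integral over `A[j]` (`h87_coeff_mem_modelAt`);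
* they are fixed by the inertia group: `P(a) = N_α (α a - ψ)` (`normAlong_sub_eq_eval`), the
  norm commutes with the Galois action, hence `(σ P)(σ a) = P (σ a)` for every `a`, and
  `σ P = P` because the field is infinite;
* `deg P = [F_{Mq} : α F_M] = q + 1` (`finrank_heckeAlphaBar`);
* `P(ψ) = 0` (Cayley–Hamilton, `h69m_eval₂_charpolyAlong`).
-/

set_option autoImplicit false
set_option linter.style.haveILetI false

open AlgebraicCurve ModularCurve Polynomial

noncomputable section

namespace Fermat.Agent.S36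

open Fermat.Agent.S37 (Kbar GQ FF cst jB gal modelAt auxLevel)
open Fermat.Agent.Red.KR (normAlong)
open Fermat.Agent.Red.TRK (charpolyAlong)
open Fermat.Agent.LGC (jSS)

section Gal

variable (N ℓ : ℕ) [NeZero N] [NeZero ℓ]

/-- the norm along `α` commutes with the Galois action. -/
theorem h2c_gal_norm_alpha (σ : GQ) (y : FF (N * ℓ)) :
    gal N σ • normAlong (heckeAlphaBar Kbar N ℓ) y =
      normAlong (heckeAlphaBar Kbar N ℓ) (gal (N * ℓ) σ • y) := by
  letI := algebraAlong (heckeAlphaBar Kbar N ℓ)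
  have he : RingHom.comp (algebraMap (FF N) (FF (N * ℓ)))
      (SemilinearAut.toRingAut (gal N σ) : FF N →+* FF N) =
      RingHom.comp (SemilinearAut.toRingAut (gal (N * ℓ) σ) : FF (N * ℓ) →+* FF (N * ℓ))
        (algebraMap (FF N) (FF (N * ℓ))) := by
    refine RingHom.ext fun x => ?_
    exact (h83g_gal_alpha N ℓ σ x).symm
  have h := Algebra.norm_eq_of_equiv_equiv (SemilinearAut.toRingAut (gal N σ))
    (SemilinearAut.toRingAut (gal (N * ℓ) σ)) he y
  have h2 := congrArg (SemilinearAut.toRingAut (gal N σ)) h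
  rw [RingEquiv.apply_symm_apply] at h2
  exact h2

/-- the values of the characteristic polynomial of a `σ`-fixed function. -/
theorem h2c_gal_eval (σ : GQ) (hfin : FiniteAlong Kbar (heckeAlphaBar Kbar N ℓ))
    (y : FF (N * ℓ)) (hy : gal (N * ℓ) σ • y = y) (a : FF N) :
    gal N σ • (charpolyAlong (heckeAlphaBar Kbar N ℓ) hfin y).eval a =
      (charpolyAlong (heckeAlphaBar Kbar N ℓ) hfin y).eval (gal N σ • a) := by
  rw [← Fermat.Agent.Red.KR.normAlong_sub_eq_eval, ← Fermat.Agent.Red.KR.normAlong_sub_eq_eval,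
    h2c_gal_norm_alpha, smul_sub, h83g_gal_alpha, hy]

/-- Cayley–Hamilton along `α`. -/
theorem h2c_root (hfin : FiniteAlong Kbar (heckeAlphaBar Kbar N ℓ)) (y : FF (N * ℓ)) :
    Polynomial.eval₂
      ((heckeAlphaBar Kbar N ℓ : FF N →ₐ[Kbar] FF (N * ℓ)) : FF N →+* FF (N * ℓ)) y
      (charpolyAlong (heckeAlphaBar Kbar N ℓ) hfin y) = 0 :=
  Fermat.Agent.Red.KR.h69m_eval₂_charpolyAlong (K := Kbar) (F := FF N) (F' := FF (N * ℓ))
    (heckeAlphaBar Kbar N ℓ) hfin y

/-- the coefficients of the characteristic polynomial of a `σ`-fixed function are `σ`-fixed. -/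
theorem h2c_gal_coeff (σ : GQ) (hfin : FiniteAlong Kbar (heckeAlphaBar Kbar N ℓ))
    (y : FF (N * ℓ)) (hy : gal (N * ℓ) σ • y = y) (m : ℕ) :
    gal N σ • (charpolyAlong (heckeAlphaBar Kbar N ℓ) hfin y).coeff m =
      (charpolyAlong (heckeAlphaBar Kbar N ℓ) hfin y).coeff m := by
  let g : FF N →+* FF N :=
    MulSemiringAction.toRingHom (SemilinearAut Kbar (FF N)) (FF N) (gal N σ)
  have hg : ∀ x, g x = gal N σ • x := fun _ => rfl
  have hsurj : Function.Surjective g := fun x => ⟨(gal N σ)⁻¹ • x, by rw [hg, smul_inv_smul]⟩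
  haveI : Infinite (FF N) := inferInstance
  have key : (charpolyAlong (heckeAlphaBar Kbar N ℓ) hfin y).map g =
      charpolyAlong (heckeAlphaBar Kbar N ℓ) hfin y := by
    apply Polynomial.funext
    intro r
    obtain ⟨a, rfl⟩ := hsurj r
    rw [Polynomial.eval_map, Polynomial.eval₂_at_apply, hg]
    exact h2c_gal_eval N ℓ σ hfin y hy a
  have h := congrArg (fun p : Polynomial (FF N) => p.coeff m) key
  simp only [Polynomial.coeff_map] at h
  exact h

end Gal

set_option synthInstance.maxHeartbeats 400000 in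
/-- **`H50eCharpoly`** (exact frozen Prop). -/
theorem h2c_charpoly : H50eCharpoly := by
  classical
  intro q hq M _ hM haux
  haveI : NeZero q := ⟨hq.ne_zero⟩
  intro A hA ψ
  have hfin : FiniteAlong Kbar (heckeAlphaBar Kbar M q) :=
    Fermat.Agent.Red.HKMod.finiteAlong_heckeAlphaBar M q
  obtain ⟨hψ1, hψ2⟩ := h62r_mem_chart.mp ψ.2
  have hcoef : ∀ m, (charpolyAlong (heckeAlphaBar Kbar M q) hfin (ψ : FF (M * q))).coeff m ∈
      h62rChart A M (jB M) := fun m =>
    h62r_mem_chart.mpr
      ⟨Fermat.Agent.Red.TRK.h87_coeff_mem_modelAt (heckeAlphaBar Kbar M q) hfin A (jB M) hψ1 m,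
        fun σ hσ => h2c_gal_coeff M q σ hfin _ (hψ2 σ hσ) m⟩
  have hsub : (↑(charpolyAlong (heckeAlphaBar Kbar M q) hfin (ψ : FF (M * q))).coeffs :
      Set (FF M)) ⊆ h62rChart A M (jB M) := by
    intro c hc
    obtain ⟨m, -, rfl⟩ := Polynomial.mem_coeffs_iff.mp hc
    exact hcoef m
  refine ⟨(charpolyAlong (heckeAlphaBar Kbar M q) hfin (ψ : FF (M * q))).toSubring _ hsub,
    ?_, ?_, ?_⟩
  · exact (Polynomial.monic_toSubring _ _ _).mpr
      (Fermat.Agent.Red.TRK.charpolyAlong_monic _ hfin _)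
  · rw [Polynomial.natDegree_toSubring]
    have h1 : (charpolyAlong (heckeAlphaBar Kbar M q) hfin (ψ : FF (M * q))).natDegree =
        (letI := algebraAlong (heckeAlphaBar Kbar M q); Module.finrank (FF M) (FF (M * q))) := by
      letI := algebraAlong (heckeAlphaBar Kbar M q)
      haveI : Module.Finite (FF M) (FF (M * q)) := hfin
      exact LinearMap.charpoly_natDegree _
    rw [h1]
    exact Fermat.Agent.Red.Kron.finrank_heckeAlphaBar M q hq hM
  · apply Subtype.ext
    have h1 := Polynomial.hom_eval₂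
      ((charpolyAlong (heckeAlphaBar Kbar M q) hfin (ψ : FF (M * q))).toSubring _ hsub)
      (h62rAlpha A M (q := q)) (h62rChart A (M * q) (jSS M q)).subtype ψ
    have h2 : (h62rChart A (M * q) (jSS M q)).subtype.comp (h62rAlpha A M (q := q)) =
        ((heckeAlphaBar Kbar M q : FF M →ₐ[Kbar] FF (M * q)) : FF M →+* FF (M * q)).comp
          (h62rChart A M (jB M)).subtype := RingHom.ext fun _ => rfl
    rw [h2, ← Polynomial.eval₂_map, Polynomial.map_toSubring] at h1
    show (h62rChart A (M * q) (jSS M q)).subtype _ = 0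
    rw [h1]
    exact h2c_root M q hfin (ψ : FF (M * q))

end Fermat.Agent.S36
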