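import Mathlib

/-!
# S36, block DESC (helper2): abstract Hilbert 90 and Kummer descent for a group acting on a field

Mathlib only.  `G` is any group acting on a field `F` by ring automorphisms
(`MulSemiringAction G F`); no topology, no Galois hypothesis.

* `h2d_hilbert90` : a `1`-cocycle `h : G → Fˣ` (written with values in `F`, `h σ ≠ 0`) which is
  trivial on a subgroup `H` of finite index that is the full pointwise fixer of its fixed field
  is a coboundary: `h σ = σ g / g`.
* `h2d_hilbert90_of_finite_orbits` : the same for a cocycle which is trivial on the pointwise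
  stabiliser of a finite set `S ⊆ F` of elements with finite `G`-orbit.
* `h2d_kummer_descent` : if `u ≠ 0` has finite orbit and `σ u / u = n_σ ^ m` with `n_σ`
  "normalised" (a `G`-stable multiplicative predicate `P` containing no nontrivial `m`-th root of
  unity, e.g. "leading coefficient one at a rational cusp"), then `u / g ^ m` is `G`-invariant
  for some `g ≠ 0`.
-/

set_option autoImplicit false

namespace Fermat.Agent.S36

section H90

variable {G : Type*} [Group G] {F : Type*} [Field F] [MulSemiringAction G F]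

/-- the action commutes with division. -/
theorem h2d_smul_div (σ : G) (x y : F) : σ • (x / y) = σ • x / σ • y := by
  rw [div_eq_mul_inv, smul_mul', smul_inv'', ← div_eq_mul_inv]

/-- the summand `h γ * γ c` of the Lagrange resolvent only depends on the coset `γ H`. -/
theorem h2d_summand_coset (H : Subgroup G) (h : G → F)
    (hcoc : ∀ σ τ, h (σ * τ) = h σ * σ • h τ) (hH : ∀ τ ∈ H, h τ = 1)
    (c : F) (hc : ∀ τ ∈ H, τ • c = c) (γ : G) :
    h ((QuotientGroup.mk γ : G ⧸ H).out) * (QuotientGroup.mk γ : G ⧸ H).out • c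
      = h γ * γ • c := by
  obtain ⟨τ, hτ⟩ := QuotientGroup.mk_out_eq_mul H γ
  rw [hτ, hcoc, hH _ τ.2, smul_one, mul_one, mul_smul, hc _ τ.2]

/-- **Hilbert 90** for a group acting on a field: a cocycle which is trivial on a subgroup `H` of
finite index, `H` being the pointwise fixer of its fixed field, is a coboundary. -/
theorem h2d_hilbert90 (H : Subgroup G) [H.FiniteIndex]
    (hfaith : ∀ σ : G, (∀ x : F, (∀ τ ∈ H, τ • x = x) → σ • x = x) → σ ∈ H)
    (h : G → F) (h0 : ∀ σ, h σ ≠ 0)
    (hcoc : ∀ σ τ, h (σ * τ) = h σ * σ • h τ)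
    (hH : ∀ τ ∈ H, h τ = 1) :
    ∃ g : F, g ≠ 0 ∧ ∀ σ, h σ = σ • g / g := by
  classical
  let _ : Fintype (G ⧸ H) := Subgroup.fintypeQuotientOfFiniteIndex
  -- the fixed field of `H`
  let E : Subfield F := FixedPoints.subfield (↥H) F
  have hE : ∀ x : F, x ∈ E ↔ ∀ τ ∈ H, τ • x = x := by
    intro x
    constructor
    · intro hx τ hτ
      exact hx ⟨τ, hτ⟩
    · intro hx τ
      exact hx τ.1 τ.2
  -- the characters `c ↦ γ c` on `E`, one for each coset
  let φ : G ⧸ H → (E →* F) := fun q =>
    ((MulSemiringAction.toRingHom G F q.out).comp E.subtype : E →+* F).toMonoidHom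
  have hφ : ∀ q (c : E), φ q c = q.out • (c : F) := fun q c => rfl
  have hφinj : Function.Injective φ := by
    intro q q' hqq
    have h1 : (q.out)⁻¹ * q'.out ∈ H := by
      apply hfaith
      intro x hx
      have h2 : q.out • x = q'.out • x := by
        have := DFunLike.congr_fun hqq ⟨x, (hE x).2 hx⟩
        simpa [hφ] using this
      rw [mul_smul, ← h2, inv_smul_smul]
    have h3 : (QuotientGroup.mk q.out : G ⧸ H) = QuotientGroup.mk q'.out :=
      QuotientGroup.eq.2 h1
    simpa using h3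
  have hli : LinearIndependent F (fun q : G ⧸ H => ((φ q : E →* F) : E → F)) :=
    (linearIndependent_monoidHom E F).comp φ hφinj
  -- a resolvent which does not vanish
  have hex : ∃ c : E, (∑ q : G ⧸ H, h q.out * q.out • (c : F)) ≠ 0 := by
    by_contra hne
    have hne : ∀ c : E, (∑ q : G ⧸ H, h q.out * q.out • (c : F)) = 0 := fun c => by
      by_contra hc
      exact hne ⟨c, hc⟩
    have hzero : (∑ q : G ⧸ H, h q.out • ((φ q : E →* F) : E → F)) = 0 := by
      funext c
      simp only [Finset.sum_apply, Pi.smul_apply, smul_eq_mul, Pi.zero_apply]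
      exact hne c
    have := (Fintype.linearIndependent_iff.1 hli) (fun q => h q.out) hzero
      (QuotientGroup.mk 1 : G ⧸ H)
    exact h0 _ this
  obtain ⟨c, hc⟩ := hex
  have hcH : ∀ τ ∈ H, τ • (c : F) = c := (hE _).1 c.2
  set b : F := ∑ q : G ⧸ H, h q.out * q.out • (c : F) with hb
  -- the transformation rule of the resolvent
  have hσb : ∀ σ : G, h σ * σ • b = b := by
    intro σ
    rw [hb, Finset.smul_sum, Finset.mul_sum]
    have hterm : ∀ q : G ⧸ H, h σ * σ • (h q.out * q.out • (c : F))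
        = h ((σ • q : G ⧸ H).out) * (σ • q : G ⧸ H).out • (c : F) := by
      intro q
      have hq : (σ • q : G ⧸ H) = QuotientGroup.mk (σ * q.out) := by
        conv_lhs => rw [← QuotientGroup.out_eq' q]
        rfl
      rw [hq, h2d_summand_coset H h hcoc hH c hcH (σ * q.out), hcoc, smul_mul', mul_smul]
      ring
    rw [Finset.sum_congr rfl fun q _ => hterm q]
    exact Equiv.sum_comp (MulAction.toPerm σ : Equiv.Perm (G ⧸ H))
      (fun q => h q.out * q.out • (c : F))
  have hσb0 : ∀ σ : G, σ • b ≠ 0 := by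
    intro σ hz
    have := hσb σ
    rw [hz, mul_zero] at this
    exact hc this.symm
  refine ⟨b⁻¹, inv_ne_zero hc, fun σ => ?_⟩
  rw [smul_inv'', div_eq_mul_inv, inv_inv, eq_inv_mul_iff_mul_eq₀ (hσb0 σ), mul_comm]
  exact hσb σ

/-- **Hilbert 90**, finite-orbit form: a cocycle which is trivial on the pointwise stabiliser of
a finite set of elements with finite orbits is a coboundary. -/
theorem h2d_hilbert90_of_finite_orbits (S : Finset F)
    (hS : ∀ x ∈ S, (MulAction.orbit G x).Finite)
    (h : G → F) (h0 : ∀ σ, h σ ≠ 0)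
    (hcoc : ∀ σ τ, h (σ * τ) = h σ * σ • h τ)
    (hH : ∀ τ : G, (∀ x ∈ S, τ • x = x) → h τ = 1) :
    ∃ g : F, g ≠ 0 ∧ ∀ σ, h σ = σ • g / g := by
  classical
  let H : Subgroup G := ⨅ x ∈ S, MulAction.stabilizer G x
  have hmem : ∀ τ : G, τ ∈ H ↔ ∀ x ∈ S, τ • x = x := by
    intro τ
    simp only [H, Subgroup.mem_iInf, MulAction.mem_stabilizer_iff]
  have hfi : H.FiniteIndex := by
    refine Subgroup.finiteIndex_iInf' _ fun x hx => ⟨?_⟩
    rw [MulAction.index_stabilizer]
    have hne : Nonempty (MulAction.orbit G x) := ⟨⟨x, MulAction.mem_orbit_self x⟩⟩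
    have hfin : Finite (MulAction.orbit G x) := (hS x hx).to_subtype
    rw [← Nat.card_coe_set_eq]
    exact Nat.card_ne_zero.2 ⟨hne, hfin⟩
  refine h2d_hilbert90 H ?_ h h0 hcoc fun τ hτ => hH τ ((hmem τ).1 hτ)
  intro σ hσ
  rw [hmem]
  intro x hx
  exact hσ x fun τ hτ => (hmem τ).1 hτ x hx

/-- **Kummer descent.**  Let `u ≠ 0` have finite `G`-orbit and suppose that for every `σ` the
quotient `σ u / u` is the `m`-th power of a *normalised* element, where the normalised elements
`P` are stable under products and under `G` and contain no `m`-th root of unity except `1`.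
Then `u / g ^ m` is `G`-invariant for some `g ≠ 0`. -/
theorem h2d_kummer_descent (P : F → Prop)
    (hPmul : ∀ x y, P x → P y → P (x * y)) (hPinv : ∀ x, P x → P x⁻¹)
    (hPG : ∀ (σ : G) (x : F), P x → P (σ • x))
    (m : ℕ) (hPμ : ∀ x, P x → x ^ m = 1 → x = 1)
    (u : F) (hu : u ≠ 0) (horb : (MulAction.orbit G u).Finite)
    (hroot : ∀ σ : G, ∃ n : F, P n ∧ n ^ m = σ • u / u) :
    ∃ g : F, g ≠ 0 ∧ ∀ σ : G, σ • (u / g ^ m) = u / g ^ m := by
  classical
  choose h hP hpow using hroot
  have hσu : ∀ σ : G, σ • u ≠ 0 := fun σ => by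
    rwa [Ne, smul_eq_zero_iff_eq]
  have h0 : ∀ σ, h σ ≠ 0 := by
    intro σ hz
    have := hpow σ
    rw [hz] at this
    rcases Nat.eq_zero_or_pos m with hm | hm
    · -- `m = 0`: then `P 0` and `0 ^ 0 = 1` force `0 = 1`
      have h1 : (0 : F) = 1 := hPμ 0 (hz ▸ hP σ) (by rw [hm, pow_zero])
      exact zero_ne_one h1
    · rw [zero_pow hm.ne'] at this
      exact div_ne_zero (hσu σ) hu this.symm
  have hcoc : ∀ σ τ, h (σ * τ) = h σ * σ • h τ := by
    intro σ τ
    have hne : h σ * σ • h τ ≠ 0 :=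
      mul_ne_zero (h0 σ) (by rw [Ne, smul_eq_zero_iff_eq]; exact h0 τ)
    have h1 : (h (σ * τ) * (h σ * σ • h τ)⁻¹) ^ m = 1 := by
      have h2 : σ • τ • u ≠ 0 := by rw [Ne, smul_eq_zero_iff_eq]; exact hσu τ
      rw [mul_pow, inv_pow, mul_pow, hpow, ← smul_pow', hpow, hpow, h2d_smul_div, mul_smul]
      have h4 := hσu σ
      field_simp
    have h2 : P (h (σ * τ) * (h σ * σ • h τ)⁻¹) :=
      hPmul _ _ (hP _) (hPinv _ (hPmul _ _ (hP σ) (hPG σ _ (hP τ))))
    have h3 := hPμ _ h2 h1
    rw [← div_eq_mul_inv, div_eq_one_iff_eq hne] at h3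
    exact h3
  have hH : ∀ τ : G, (∀ x ∈ ({u} : Finset F), τ • x = x) → h τ = 1 := by
    intro τ hτ
    have h1 : τ • u = u := hτ u (Finset.mem_singleton_self u)
    refine hPμ _ (hP τ) ?_
    rw [hpow, h1, div_self hu]
  obtain ⟨g, hg0, hg⟩ := h2d_hilbert90_of_finite_orbits ({u} : Finset F)
    (fun x hx => by rw [Finset.mem_singleton.1 hx]; exact horb) h h0 hcoc hH
  refine ⟨g, hg0, fun σ => ?_⟩
  have hσg : σ • g ≠ 0 := by rw [Ne, smul_eq_zero_iff_eq]; exact hg0
  have h1 : σ • g = h σ * g := by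
    rw [hg σ]
    field_simp
  have h2 : σ • u = h σ ^ m * u := by
    rw [hpow]
    field_simp
  rw [h2d_smul_div, smul_pow', h1, h2, mul_pow]
  field_simp [h0 σ]

end H90

end Fermat.Agent.S36
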