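import Mathlib
import Fermat.Agent.S36.H75Krull

/-!
# S36, block REG, ordinary points (helper2): `κ = δ / ℓ` is a unit

Abstract step 3(e) of the REG note on the ordinary points of the middle component
(Mathlib + `S36/H75Krull` only).

`B` is a noetherian integrally closed domain (the chart of level `ℓ M'`), `𝔫` a prime of `B`
(the closed point `P'₀`), `P₀ ≤ 𝔫` a prime containing `ℓ` and `δ` (the vertical prime through
`𝔫`), and

* `hkey : c * δ = ℓ * S` with `c ∉ P₀`, `S ∉ P₀`  (landed `h62n_key` / `h2k_key`: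
  `c = ψ - b`, `δ = f'(ψ)`);
* `hvert` : every prime `ℓ ∈ P ≤ 𝔫` contains `P₀` (`P₀` is the only component of the fibre
  through `𝔫`);
* `hhor` : every prime `δ ∈ Q ≤ 𝔫` contains `ℓ` (`δ` vanishes on no horizontal prime through
  `𝔫`: generic unramifiedness).

Then `δ = ℓ κ` locally at `𝔫` with `κ` a unit at `𝔫`:

* `h2u_unit_local` : the statement for a ring in which `hvert`, `hhor` hold for all primes
  (e.g. a local ring): `∃ κ, IsUnit κ ∧ δ = ℓ * κ`.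
* `h2u_unit_at` : the statement at a prime `𝔫` of `B`: `∃ s κ, s ∉ 𝔫 ∧ κ ∉ 𝔫 ∧ s * δ = ℓ * κ`.
* `h2u_unit_localization` : the statement in any localisation `L` of `B` at `𝔫`.
-/

set_option autoImplicit false

namespace Fermat.Agent.S36

section Local

variable {L : Type*} [CommRing L] [IsDomain L] [IsNoetherianRing L] [IsIntegrallyClosed L]

/-- **`κ` is a unit**, global form. -/
theorem h2u_unit_local (P0 : Ideal L) [hP0 : P0.IsPrime] (ℓ δ c S : L) (hℓ : ℓ ≠ 0)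
    (hℓP0 : ℓ ∈ P0) (hδP0 : δ ∈ P0) (hkey : c * δ = ℓ * S) (hc : c ∉ P0) (hS : S ∉ P0)
    (hvert : ∀ P : Ideal L, P.IsPrime → ℓ ∈ P → P0 ≤ P)
    (hhor : ∀ Q : Ideal L, Q.IsPrime → δ ∈ Q → ℓ ∈ Q) :
    ∃ κ : L, IsUnit κ ∧ δ = ℓ * κ := by
  have hS0 : S ≠ 0 := fun h => hS (h ▸ P0.zero_mem)
  have hδ0 : δ ≠ 0 := by
    intro h
    rw [h, mul_zero] at hkey
    exact (mul_ne_zero hℓ hS0) hkey.symm
  -- a minimal prime over `(ℓ)` or over `(δ)` is `P₀`
  have hminℓ : ∀ P ∈ (Ideal.span {ℓ}).minimalPrimes, P = P0 := by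
    intro P hP
    have hPp : P.IsPrime := hP.1.1
    have hℓP : ℓ ∈ P := hP.1.2 (Ideal.mem_span_singleton_self ℓ)
    have h1 : P0 ≤ P := hvert P hPp hℓP
    have h2 : P ≤ P0 :=
      hP.2 ⟨hP0, (Ideal.span_singleton_le_iff_mem P0).mpr hℓP0⟩ h1
    exact le_antisymm h2 h1
  have hminδ : ∀ Q ∈ (Ideal.span {δ}).minimalPrimes, Q = P0 := by
    intro Q hQ
    have hQp : Q.IsPrime := hQ.1.1
    have hδQ : δ ∈ Q := hQ.1.2 (Ideal.mem_span_singleton_self δ)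
    have h1 : P0 ≤ Q := hvert Q hQp (hhor Q hQp hδQ)
    have h2 : Q ≤ P0 :=
      hQ.2 ⟨hP0, (Ideal.span_singleton_le_iff_mem P0).mpr hδP0⟩ h1
    exact le_antisymm h2 h1
  have h1 : ℓ ∣ δ := by
    refine h75k_dvd_of_minimal ℓ δ hℓ fun P hP => ?_
    rw [hminℓ P hP]
    exact ⟨c, hc, S, hkey⟩
  have h2 : δ ∣ ℓ := by
    refine h75k_dvd_of_minimal δ ℓ hδ0 fun Q hQ => ?_
    rw [hminδ Q hQ]
    exact ⟨S, hS, c, by rw [mul_comm S ℓ, ← hkey, mul_comm]⟩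
  obtain ⟨κ, hκ⟩ := h1
  obtain ⟨κ', hκ'⟩ := h2
  refine ⟨κ, ?_, hκ⟩
  have h3 : δ * 1 = δ * (κ' * κ) := by
    rw [mul_one]
    conv_lhs => rw [hκ, hκ']
    ring
  have h4 : κ' * κ = 1 := (mul_left_cancel₀ hδ0 h3).symm
  exact IsUnit.of_mul_eq_one κ' (by rw [mul_comm]; exact h4)

end Local

section AtPrime

variable {B : Type*} [CommRing B] [IsDomain B] [IsNoetherianRing B] [IsIntegrallyClosed B]

/-- **`κ` is a unit**, in a localisation `L` of `B` at the prime `𝔫`. -/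
theorem h2u_unit_localization (𝔫 P0 : Ideal B) [h𝔫 : 𝔫.IsPrime] [hP0 : P0.IsPrime]
    (hP0𝔫 : P0 ≤ 𝔫)
    (ℓ δ c S : B) (hℓ : ℓ ≠ 0)
    (hℓP0 : ℓ ∈ P0) (hδP0 : δ ∈ P0) (hkey : c * δ = ℓ * S) (hc : c ∉ P0) (hS : S ∉ P0)
    (hvert : ∀ P : Ideal B, P.IsPrime → ℓ ∈ P → P ≤ 𝔫 → P0 ≤ P)
    (hhor : ∀ Q : Ideal B, Q.IsPrime → δ ∈ Q → Q ≤ 𝔫 → ℓ ∈ Q)
    (L : Type*) [CommRing L] [Algebra B L] [IsLocalization.AtPrime L 𝔫] :
    ∃ κ : L, IsUnit κ ∧ algebraMap B L δ = algebraMap B L ℓ * κ := by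
  classical
  have hle : 𝔫.primeCompl ≤ nonZeroDivisors B := by
    intro x hx
    rw [mem_nonZeroDivisors_iff_ne_zero]
    rintro rfl
    exact hx 𝔫.zero_mem
  have hdomL : IsDomain L :=
    IsLocalization.isDomain_of_le_nonZeroDivisors (R := B) (M := 𝔫.primeCompl) (S := L) hle
  have hnoeL : IsNoetherianRing L :=
    IsLocalization.isNoetherianRing 𝔫.primeCompl L inferInstance
  have hicL : IsIntegrallyClosed L := isIntegrallyClosed_of_isLocalization L 𝔫.primeCompl hle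
  have hlocL : IsLocalRing L := IsLocalization.AtPrime.isLocalRing L 𝔫
  have hinjL : Function.Injective (algebraMap B L) := IsLocalization.injective L hle
  have hdisj : Disjoint (𝔫.primeCompl : Set B) (P0 : Set B) := by
    rw [Set.disjoint_left]
    intro b hb hb'
    exact hb (hP0𝔫 hb')
  have hP0L : (P0.map (algebraMap B L)).IsPrime :=
    IsLocalization.isPrime_of_isPrime_disjoint 𝔫.primeCompl L P0 hP0 hdisj
  have hcomap : (P0.map (algebraMap B L)).comap (algebraMap B L) = P0 :=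
    IsLocalization.under_map_of_isPrime_disjoint 𝔫.primeCompl L hP0 hdisj
  have hnotmem : ∀ x : B, x ∉ P0 → algebraMap B L x ∉ P0.map (algebraMap B L) := by
    intro x hx h
    apply hx
    rw [← hcomap]
    exact Ideal.mem_comap.mpr h
  -- primes of `L` come from primes of `B` below `𝔫`
  have hprime : ∀ P' : Ideal L, P'.IsPrime →
      (P'.comap (algebraMap B L)).IsPrime ∧ P'.comap (algebraMap B L) ≤ 𝔫 := by
    intro P' hP'
    refine ⟨Ideal.comap_isPrime _ _, fun x hx => ?_⟩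
    by_contra hxn
    have hu : IsUnit (algebraMap B L x) :=
      IsLocalization.map_units L (⟨x, hxn⟩ : 𝔫.primeCompl)
    exact hP'.ne_top (Ideal.eq_top_of_isUnit_mem _ (Ideal.mem_comap.mp hx) hu)
  refine h2u_unit_local (P0.map (algebraMap B L)) (algebraMap B L ℓ) (algebraMap B L δ)
    (algebraMap B L c) (algebraMap B L S) ?_ (Ideal.mem_map_of_mem _ hℓP0)
    (Ideal.mem_map_of_mem _ hδP0) ?_ (hnotmem c hc) (hnotmem S hS) ?_ ?_
  · intro h
    exact hℓ (hinjL (by rw [h, map_zero]))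
  · rw [← map_mul, ← map_mul, hkey]
  · intro P' hP' hℓP'
    obtain ⟨h1, h2⟩ := hprime P' hP'
    have h3 : P0 ≤ P'.comap (algebraMap B L) := hvert _ h1 (Ideal.mem_comap.mpr hℓP') h2
    exact Ideal.map_le_iff_le_comap.mpr h3
  · intro Q' hQ' hδQ'
    obtain ⟨h1, h2⟩ := hprime Q' hQ'
    exact Ideal.mem_comap.mp (hhor _ h1 (Ideal.mem_comap.mpr hδQ') h2)

/-- **`κ` is a unit**, at the prime `𝔫` of `B` (no localisation in the statement). -/
theorem h2u_unit_at (𝔫 P0 : Ideal B) [h𝔫 : 𝔫.IsPrime] [hP0 : P0.IsPrime]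
    (hP0𝔫 : P0 ≤ 𝔫)
    (ℓ δ c S : B) (hℓ : ℓ ≠ 0)
    (hℓP0 : ℓ ∈ P0) (hδP0 : δ ∈ P0) (hkey : c * δ = ℓ * S) (hc : c ∉ P0) (hS : S ∉ P0)
    (hvert : ∀ P : Ideal B, P.IsPrime → ℓ ∈ P → P ≤ 𝔫 → P0 ≤ P)
    (hhor : ∀ Q : Ideal B, Q.IsPrime → δ ∈ Q → Q ≤ 𝔫 → ℓ ∈ Q) :
    ∃ s κ : B, s ∉ 𝔫 ∧ κ ∉ 𝔫 ∧ s * δ = ℓ * κ := by
  classical
  have hle : 𝔫.primeCompl ≤ nonZeroDivisors B := by
    intro x hx
    rw [mem_nonZeroDivisors_iff_ne_zero]
    rintro rfl
    exact hx 𝔫.zero_mem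
  have hinjL : Function.Injective (algebraMap B (Localization.AtPrime 𝔫)) :=
    IsLocalization.injective _ hle
  obtain ⟨κ', hκ'u, hκ'⟩ := h2u_unit_localization 𝔫 P0 hP0𝔫 ℓ δ c S hℓ hℓP0 hδP0 hkey hc hS
    hvert hhor (Localization.AtPrime 𝔫)
  obtain ⟨κ, s, rfl⟩ := IsLocalization.exists_mk'_eq 𝔫.primeCompl κ'
  refine ⟨(s : B), κ, s.2, ?_, ?_⟩
  · intro hκ
    have h1 : IsLocalization.mk' (Localization.AtPrime 𝔫) κ s ∈
        IsLocalRing.maximalIdeal (Localization.AtPrime 𝔫) := by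
      rw [← Localization.AtPrime.map_eq_maximalIdeal]
      rw [IsLocalization.mk'_eq_mul_mk'_one]
      exact Ideal.mul_mem_right _ _ (Ideal.mem_map_of_mem _ hκ)
    exact (IsLocalRing.mem_maximalIdeal _).mp h1 hκ'u
  · apply hinjL
    have h2 : IsLocalization.mk' (Localization.AtPrime 𝔫) κ s *
        algebraMap B (Localization.AtPrime 𝔫) (s : B)
        = algebraMap B (Localization.AtPrime 𝔫) κ := IsLocalization.mk'_spec _ κ s
    rw [map_mul, map_mul, hκ', ← h2]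
    ring

end AtPrime

end Fermat.Agent.S36
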