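import Mathlib

/-!
# S36, block REG, exceptional ordinary points (helper2): the separating coordinate

Abstract, Mathlib only, in the vocabulary of the landed level-`ℓ` node theory (`LGC/Node*`):
`Λ → B` (`algebraMap Λ B = α`), `P∞`, `P₀` the two vertical primes of `B`, `𝔫` a closed point on
the component `P₀`, `𝔫'` the closed point on the component `P∞` over the same point of `Λ`,
`hsurj : B = α Λ + P∞`, "locally at `𝔫`" = `∀ z ∈ 𝔫, ∃ s ∉ 𝔫, s * z ∈ …`.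

The level-`ℓ` coordinate `Y = β u` is replaced by `ψ = Y + e ^ 2`, `e ∈ P₀`.

* `h2s_span_sup_eq` : `(t) + P = (t') + P` when `t - t' ∈ P`.
* `h2s_lp_shift` : **(ii)** a local parameter of `B / P₀` at `𝔫` stays one after adding an
  element of `P₀` (e.g. `Y - c₀ ↦ ψ - c₀`).
* `h2s_sep_of_exc` : **(iii), exceptional case.**  If `Y ≡ b₀` modulo `P∞` and `Y - α b₀ ∈ 𝔫`
  (the values of `Y` at `𝔫` and `𝔫'` coincide), then for every `e ∈ P₀ ∖ 𝔫'` there is `b ∈ Λ`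
  with `ψ - α b ∈ P∞` and `ψ - α b ∉ 𝔫`, `ψ = Y + e ^ 2`.
* `h2s_exists_sep` : **(iii), uniform.**  If `P₀ ⊄ 𝔫'` there are `e ∈ P₀` and `b ∈ Λ` with
  `ψ - α b ∈ P∞`, `ψ - α b ∉ 𝔫` (`e = 0` at the non-exceptional points).
* `h2s_sq_mem`, `h2s_sub_mem` : `e ^ 2 ∈ P₀`, `ψ - Y ∈ P₀`.
-/

set_option autoImplicit false

namespace Fermat.Agent.S36

section Sep

variable {Λ B : Type*} [CommRing Λ] [CommRing B] [Algebra Λ B]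

/-- `(t) + P = (t') + P` when `t - t' ∈ P`. -/
theorem h2s_span_sup_eq (P : Ideal B) (t t' : B) (h : t - t' ∈ P) :
    Ideal.span {t} ⊔ P = Ideal.span {t'} ⊔ P := by
  apply le_antisymm
  · refine sup_le ?_ le_sup_right
    rw [Ideal.span_singleton_le_iff_mem]
    have h1 : t = t' + (t - t') := by ring
    rw [h1]
    exact Ideal.add_mem _ (Ideal.mem_sup_left (Ideal.mem_span_singleton_self _))
      (Ideal.mem_sup_right h)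
  · refine sup_le ?_ le_sup_right
    rw [Ideal.span_singleton_le_iff_mem]
    have h1 : t' = t - (t - t') := by ring
    rw [h1]
    exact Ideal.sub_mem _ (Ideal.mem_sup_left (Ideal.mem_span_singleton_self _))
      (Ideal.mem_sup_right h)

/-- **(ii)** local parameters of the branch `B / P` at `𝔫` only depend on the class
modulo `P`. -/
theorem h2s_lp_shift (𝔫 P : Ideal B) (t t' : B) (h : t - t' ∈ P)
    (hLP : ∀ z ∈ 𝔫, ∃ s, s ∉ 𝔫 ∧ s * z ∈ Ideal.span {t} ⊔ P) :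
    ∀ z ∈ 𝔫, ∃ s, s ∉ 𝔫 ∧ s * z ∈ Ideal.span {t'} ⊔ P := by
  intro z hz
  obtain ⟨s, hs, hsz⟩ := hLP z hz
  exact ⟨s, hs, by rw [← h2s_span_sup_eq P t t' h]; exact hsz⟩

/-- **(ii)**, the other order of the summands. -/
theorem h2s_lp_shift' (𝔫 P : Ideal B) (t t' : B) (h : t - t' ∈ P)
    (hLP : ∀ z ∈ 𝔫, ∃ s, s ∉ 𝔫 ∧ s * z ∈ P ⊔ Ideal.span {t}) :
    ∀ z ∈ 𝔫, ∃ s, s ∉ 𝔫 ∧ s * z ∈ P ⊔ Ideal.span {t'} := by
  intro z hz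
  obtain ⟨s, hs, hsz⟩ := hLP z hz
  refine ⟨s, hs, ?_⟩
  rw [sup_comm] at hsz ⊢
  rw [← h2s_span_sup_eq P t t' h]
  exact hsz

theorem h2s_sq_mem (P0 : Ideal B) (e : B) (he : e ∈ P0) : e ^ 2 ∈ P0 := by
  rw [pow_two]
  exact P0.mul_mem_left _ he

/-- `ψ - c₀` and `Y - c₀` have the same class modulo `P₀`. -/
theorem h2s_sub_mem (P0 : Ideal B) (Y e c₀ : B) (he : e ∈ P0) :
    (Y - c₀) - (Y + e ^ 2 - c₀) ∈ P0 := by
  have h1 : (Y - c₀) - (Y + e ^ 2 - c₀) = -(e ^ 2) := by ring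
  rw [h1]
  exact P0.neg_mem (h2s_sq_mem P0 e he)

/-- **(iii), exceptional case.** -/
theorem h2s_sep_of_exc (Pinf P0 𝔫 𝔫' : Ideal B) [h𝔫 : 𝔫.IsPrime]
    (hP0𝔫 : P0 ≤ 𝔫) (hPinf𝔫' : Pinf ≤ 𝔫')
    (hsame : ∀ x : Λ, algebraMap Λ B x ∈ 𝔫 → algebraMap Λ B x ∈ 𝔫')
    (hsurj : ∀ x : B, ∃ a : Λ, x - algebraMap Λ B a ∈ Pinf)
    (Y : B) (b₀ : Λ) (hb₀ : Y - algebraMap Λ B b₀ ∈ Pinf) (hexc : Y - algebraMap Λ B b₀ ∈ 𝔫)
    (e : B) (he : e ∈ P0) (he' : e ∉ 𝔫') :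
    ∃ b : Λ, (Y + e ^ 2) - algebraMap Λ B b ∈ Pinf ∧ (Y + e ^ 2) - algebraMap Λ B b ∉ 𝔫 := by
  obtain ⟨e₀, he₀⟩ := hsurj e
  -- `e₀ ∉ 𝔫`
  have he₀𝔫' : algebraMap Λ B e₀ ∉ 𝔫' := by
    intro h
    apply he'
    have h1 : e = (e - algebraMap Λ B e₀) + algebraMap Λ B e₀ := by ring
    rw [h1]
    exact 𝔫'.add_mem (hPinf𝔫' he₀) h
  have he₀𝔫 : algebraMap Λ B e₀ ∉ 𝔫 := fun h => he₀𝔫' (hsame e₀ h)
  refine ⟨b₀ + e₀ ^ 2, ?_, ?_⟩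
  · have h1 : (Y + e ^ 2) - algebraMap Λ B (b₀ + e₀ ^ 2)
        = (Y - algebraMap Λ B b₀) + (e - algebraMap Λ B e₀) * (e + algebraMap Λ B e₀) := by
      rw [map_add, map_pow]; ring
    rw [h1]
    exact Pinf.add_mem hb₀ (Pinf.mul_mem_right _ he₀)
  · intro h
    have h1 : algebraMap Λ B e₀ ^ 2
        = (Y - algebraMap Λ B b₀) + e ^ 2 - ((Y + e ^ 2) - algebraMap Λ B (b₀ + e₀ ^ 2)) := by
      rw [map_add, map_pow]; ring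
    have h2 : algebraMap Λ B e₀ ^ 2 ∈ 𝔫 := by
      rw [h1]
      exact 𝔫.sub_mem (𝔫.add_mem hexc (hP0𝔫 (h2s_sq_mem P0 e he))) h
    exact he₀𝔫 (h𝔫.mem_of_pow_mem 2 h2)

/-- **(iii), uniform**: existence of the separating coordinate `ψ = Y + e ^ 2`, `e ∈ P₀`. -/
theorem h2s_exists_sep (Pinf P0 𝔫 𝔫' : Ideal B) [h𝔫 : 𝔫.IsPrime]
    (hP0𝔫 : P0 ≤ 𝔫) (hPinf𝔫' : Pinf ≤ 𝔫')
    (hsame : ∀ x : Λ, algebraMap Λ B x ∈ 𝔫 → algebraMap Λ B x ∈ 𝔫')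
    (hnot : ¬ P0 ≤ 𝔫')
    (hsurj : ∀ x : B, ∃ a : Λ, x - algebraMap Λ B a ∈ Pinf)
    (Y : B) :
    ∃ e ∈ P0, ∃ b : Λ,
      (Y + e ^ 2) - algebraMap Λ B b ∈ Pinf ∧ (Y + e ^ 2) - algebraMap Λ B b ∉ 𝔫 := by
  obtain ⟨b₀, hb₀⟩ := hsurj Y
  by_cases hexc : Y - algebraMap Λ B b₀ ∈ 𝔫
  · obtain ⟨e, he, he'⟩ : ∃ e ∈ P0, e ∉ 𝔫' := by
      by_contra hcon
      apply hnot
      intro e he
      by_contra he'
      exact hcon ⟨e, he, he'⟩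
    obtain ⟨b, hb1, hb2⟩ :=
      h2s_sep_of_exc Pinf P0 𝔫 𝔫' hP0𝔫 hPinf𝔫' hsame hsurj Y b₀ hb₀ hexc e he he'
    exact ⟨e, he, b, hb1, hb2⟩
  · refine ⟨0, P0.zero_mem, b₀, ?_, ?_⟩
    · simpa using hb₀
    · simpa using hexc

end Sep

end Fermat.Agent.S36
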