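import Fermat.Agent.S36.H16TorRoot
import Fermat.Agent.S36.H70ChartRes

/-!
# S36, row T-ROOT-RAT (helper2, prefix `h2r_`): the closed points of the special fibre are rational

`h2r_torRat : H16TorRat` (exact frozen Prop of `S36/H16TorRoot.lean`, unconditional):
every function of the chart `j` of level `M q q` is congruent modulo a maximal ideal `𝔫 ∋ q` to a
constant of `A₀`.

This is the landed `h70o_chart_res_elt` (helper70, `S36/H70ChartRes.lean`: the chart is integral
over `A₀[j]`, the residue field of `A₀` is algebraically closed) in the vocabulary of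
`S36/H16TorRoot.lean`.
-/

set_option autoImplicit false
set_option linter.style.haveILetI false

open AlgebraicCurve ModularCurve

noncomputable section

namespace Fermat.Agent.S36

open Fermat.Agent.S37 (Kbar GQ FF cst jB gal modelAt degen auxLevel)

/-- **T-ROOT-RAT** (exact frozen Prop). -/
theorem h2r_torRat : H16TorRat := by
  intro q hq M _ hqM haux
  haveI : NeZero q := ⟨hq.ne_zero⟩
  intro A hA 𝔫 h𝔫 hq𝔫 x
  obtain ⟨a, ha, hmem⟩ := @h70o_chart_res_elt q hq A hA (M * q * q) (jB (M * q * q))
    (fun σ _ => Fermat.Agent.S37.GalI.gal_smul_jB σ) 𝔫 h𝔫 hq𝔫 x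
  exact ⟨a, ha.1, ha.2, ⟨cst (M * q * q) a, h70o_cst_mem_chart A (M * q * q) _ ha⟩, rfl, hmem⟩

end Fermat.Agent.S36
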