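import Fermat.Agent.S36.Skeleton
import Fermat.Agent.S35.H29Desc
import Fermat.Agent.S35.HK.H41PushCommAll
import Fermat.Agent.LGC.Unip

/-!
# S36 / G36-DESC (helper31): the inertia gate, from the good levels to all levels

`h31g_inertiaGateDescent : InertiaGateDescent`, i.e. `InertiaGate → InertiaGateAll`, with the
SAME exponent `t`.

For a level `M` with `q ∤ M` let `M₁ = goodLevel q M = lcm M (auxLevel q)`.  The squares

```
F_{Mq}   --α, β-->  F_{Mq²}
 |d                   |d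
 v                    v
F_{M₁q}  --α',β'--> F_{M₁q²}
```

commute, have equal degrees `q` (`q` divides the base level: `h31g_finrank_alpha`,
`h31g_finrank_beta`) and are generated: for `β` this is `h29s_gen_beta`; for `α` (no Fricke
involution at the level `M q²`) we use `F_{e q} = F_e · F_q` (`q ∤ e`, `h29s_gen_alpha` at the base
level `1`) transported by `t ↦ t^N` (`h31g_gen_alpha`).  Hence the norms along `α`, `β` commute
with the degeneracy inclusions (`h31g_norm_alpha`, `h31g_norm_beta`).  The root of `u ^ t` at the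
level `M₁ q²` is descended to the level `M q²` by `h63_descent_pow`.
-/

set_option autoImplicit false
set_option linter.unusedSectionVars false
set_option linter.style.haveILetI false

open AlgebraicCurve ModularCurve IntermediateField

noncomputable section

namespace Fermat.Agent.S36

open Fermat.Agent.S37 (Kbar GQ FF cst gal auxLevel goodLevel degen coe_degen)
open Fermat.Agent.Red.KR (normAlong)
open Fermat.Agent.Red.HKComm
open Fermat.Agent.S24 (jBar jdBar)

/-! ### degrees of `α`, `β` when `q` divides the base level -/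

/-- `ψ(N q) = ψ(N) q` for a prime `q ∣ N`. -/
theorem h31g_psi_mul_prime_of_dvd (N q : ℕ) (hN : N ≠ 0) (hq : q.Prime) (hqN : q ∣ N) :
    dedekindPsi (N * q) = dedekindPsi N * q := by
  obtain ⟨a, m, hm, rfl⟩ := Nat.exists_eq_pow_mul_and_not_dvd hN q hq.ne_one
  have hcop : ∀ k : ℕ, (q ^ k).Coprime m := fun k =>
    Nat.Coprime.pow_left k ((Nat.Prime.coprime_iff_not_dvd hq).mpr hm)
  have ha : a ≠ 0 := by
    rintro rfl
    rw [pow_zero, one_mul] at hqN
    exact hm hqN
  obtain ⟨b, rfl⟩ : ∃ b, a = b + 1 := ⟨a - 1, by omega⟩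
  have h1 : q ^ (b + 1) * m * q = q ^ (b + 2) * m := by ring
  have hp1 : dedekindPsi (q ^ (b + 2)) = q ^ (b + 2) + q ^ (b + 1) :=
    Fermat.Agent.S21.C1.dedekindPsi_prime_pow hq (k := b + 2) (by omega)
  have hp0 : dedekindPsi (q ^ (b + 1)) = q ^ (b + 1) + q ^ b :=
    Fermat.Agent.S21.C1.dedekindPsi_prime_pow hq (k := b + 1) (by omega)
  rw [h1, Fermat.Agent.S21.C1.dedekindPsi_mul (hcop (b + 2)),
    Fermat.Agent.S21.C1.dedekindPsi_mul (hcop (b + 1)), hp1, hp0]
  ring

theorem h31g_finrank_alpha (N q : ℕ) [NeZero N] [NeZero q] (hq : q.Prime) (hqN : q ∣ N) :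
    finrankAlong Kbar (heckeAlphaBar Kbar N q) = q := by
  have h1 : N * 1 ∣ N * q := by rw [mul_one]; exact dvd_mul_right N q
  have hd := h52deg_deg N (N * q) h1
  rw [← heckeAlphaBar_eq_degenE, h31g_psi_mul_prime_of_dvd N q (NeZero.ne N) hq hqN,
    mul_comm] at hd
  exact Nat.eq_of_mul_eq_mul_left
    (Nat.pos_of_ne_zero (hksq_dedekindPsi_ne_zero N (NeZero.ne N))) hd

theorem h31g_finrank_beta (N q : ℕ) [NeZero N] [NeZero q] (hq : q.Prime) (hqN : q ∣ N) :
    finrankAlong Kbar (heckeBetaBar Kbar N q) = q := by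
  have hd := Fermat.Agent.S35.h41g_deg (N := N) (L := N * q) q hq dvd_rfl
  rw [← heckeBetaBar_eq_degenE, h31g_psi_mul_prime_of_dvd N q (NeZero.ne N) hq hqN,
    mul_comm] at hd
  exact Nat.eq_of_mul_eq_mul_left
    (Nat.pos_of_ne_zero (hksq_dedekindPsi_ne_zero N (NeZero.ne N))) hd

/-! ### generation of the `α`-square -/

/-- `F_{N e q} = α(F_{N e}) · d(F_{N q})` for `q ∤ e`. -/
theorem h31g_gen_alpha_mul (N e q : ℕ) [NeZero N] [NeZero e] [NeZero q] (hq : q.Prime)
    (hqe : ¬ q ∣ e) :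
    (heckeAlphaBar Kbar (N * e) q).fieldRange ⊔
      (degen (Nat.mul_dvd_mul_right (dvd_mul_right N e) q)).fieldRange = ⊤ := by
  have hq1 : ¬ q ∣ 1 := fun h => hq.one_lt.ne' (Nat.dvd_one.mp h)
  -- the level `e q`
  have hbase := Fermat.Agent.S35.h29s_gen_alpha (N := 1) (N' := e) q (one_dvd e) hq hq1 hqe
  -- the transport `t ↦ t ^ N`
  have hdiv : e * q * N ∣ N * e * q := ⟨1, by ring⟩
  have hdiv1 : e * N ∣ N * e := ⟨1, by ring⟩
  have hdiv2 : 1 * q * N ∣ N * q := ⟨1, by ring⟩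
  have hcA : (degenE N hdiv).comp (heckeAlphaBar Kbar e q) =
      (heckeAlphaBar Kbar (N * e) q).comp (degenE N hdiv1) :=
    AlgHom.ext fun x => Subtype.ext (by
      rw [AlgHom.comp_apply, AlgHom.comp_apply, coe_degenE, coe_heckeAlphaBar,
        coe_heckeAlphaBar, coe_degenE])
  have hcB : (degenE N hdiv).comp (degen (Nat.mul_dvd_mul_right (one_dvd e) q)) =
      (degen (Nat.mul_dvd_mul_right (dvd_mul_right N e) q)).comp (degenE N hdiv2) :=
    AlgHom.ext fun x => Subtype.ext (by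
      rw [AlgHom.comp_apply, AlgHom.comp_apply, coe_degenE, coe_degen, coe_degen, coe_degenE])
  have hmap : ((heckeAlphaBar Kbar e q).fieldRange ⊔
      (degen (Nat.mul_dvd_mul_right (one_dvd e) q)).fieldRange).map (degenE N hdiv) ≤
      (heckeAlphaBar Kbar (N * e) q).fieldRange ⊔
        (degen (Nat.mul_dvd_mul_right (dvd_mul_right N e) q)).fieldRange := by
    rw [IntermediateField.map_sup]
    refine sup_le ?_ ?_
    · rw [AlgHom.map_fieldRange, hcA]
      rintro _ ⟨x, rfl⟩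
      exact (le_sup_left : (heckeAlphaBar Kbar (N * e) q).fieldRange ≤ _) ⟨_, rfl⟩
    · rw [AlgHom.map_fieldRange, hcB]
      rintro _ ⟨x, rfl⟩
      exact (le_sup_right :
        (degen (Nat.mul_dvd_mul_right (dvd_mul_right N e) q)).fieldRange ≤ _) ⟨_, rfl⟩
  rw [eq_top_iff, ← Fermat.Agent.Red.HKComm.gen (N * e * q), IntermediateField.adjoin_le_iff]
  rintro x hx
  rcases hx with rfl | hx
  · refine (le_sup_right :
      (degen (Nat.mul_dvd_mul_right (dvd_mul_right N e) q)).fieldRange ≤ _) ?_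
    exact ⟨jBar (N * q), Fermat.Agent.Red.GateAll.h99_degen_jB _⟩
  · rw [Set.mem_singleton_iff] at hx
    subst hx
    have h1 : jdBar (N * e * q) (N * e * q) dvd_rfl =
        degenE N hdiv (jdBar (e * q) (e * q) dvd_rfl) := by
      rw [degenE_jdBar N hdiv (e * q) dvd_rfl hdiv]
      exact hksq_jdBar_congr (N * e * q) (by ring) _ _
    rw [h1]
    refine hmap ?_
    refine ⟨jdBar (e * q) (e * q) dvd_rfl, ?_, rfl⟩
    rw [hbase]
    exact IntermediateField.mem_top

/-- generation of the `α`-square for `N ∣ N'` with `q ∣ N`, `q² ∤ N'`... in the form used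
below: `N' = N * e`, `q ∤ e`. -/
theorem h31g_gen_alpha {N N' : ℕ} [NeZero N] [NeZero N'] (q : ℕ) [NeZero q] (hq : q.Prime)
    (h : N ∣ N') (hcop : ∀ e, N' = N * e → ¬ q ∣ e) :
    (heckeAlphaBar Kbar N' q).fieldRange ⊔ (degen (Nat.mul_dvd_mul_right h q)).fieldRange
      = ⊤ := by
  obtain ⟨e, he⟩ := h
  subst he
  haveI : NeZero e := ⟨fun h0 => NeZero.ne (N * e) (by rw [h0, mul_zero])⟩
  exact h31g_gen_alpha_mul N e q hq (hcop e rfl)

/-! ### norm compatibility -/

section Norm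

variable {N N' : ℕ} [NeZero N] [NeZero N'] (q : ℕ) [NeZero q] (h : N ∣ N')

/-- **norm compatibility along `β`** (`q ∣ N`). -/
theorem h31g_norm_beta (hq : q.Prime) (hqN : q ∣ N) (u : FF (N * q)) :
    normAlong (heckeBetaBar Kbar N' q) (degen (Nat.mul_dvd_mul_right h q) u) =
      degen h (normAlong (heckeBetaBar Kbar N q) u) :=
  norm_comp (heckeBetaBar Kbar N q) (degen h)
    (heckeBetaBar Kbar N' q) (degen (Nat.mul_dvd_mul_right h q))
    (AlgHom.ext fun x => Fermat.Agent.S35.h29s_beta_degen q h x)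
    (Fermat.Agent.Red.HKMod.finiteAlong_heckeBetaBar N q)
    (Fermat.Agent.Red.HKMod.finiteAlong_heckeBetaBar N' q)
    ((h31g_finrank_beta N' q hq (hqN.trans h)).trans (h31g_finrank_beta N q hq hqN).symm)
    (Fermat.Agent.S35.h29s_gen_beta q h) u

/-- **norm compatibility along `α`** (`q ∣ N`, `N' = N e` with `q ∤ e`). -/
theorem h31g_norm_alpha (hq : q.Prime) (hqN : q ∣ N) (hcop : ∀ e, N' = N * e → ¬ q ∣ e)
    (u : FF (N * q)) :
    normAlong (heckeAlphaBar Kbar N' q) (degen (Nat.mul_dvd_mul_right h q) u) =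
      degen h (normAlong (heckeAlphaBar Kbar N q) u) :=
  norm_comp (heckeAlphaBar Kbar N q) (degen h)
    (heckeAlphaBar Kbar N' q) (degen (Nat.mul_dvd_mul_right h q))
    (AlgHom.ext fun x => Fermat.Agent.S35.h29s_alpha_degen q h x)
    (Fermat.Agent.Red.HKMod.finiteAlong_heckeAlphaBar N q)
    (Fermat.Agent.Red.HKMod.finiteAlong_heckeAlphaBar N' q)
    ((h31g_finrank_alpha N' q hq (hqN.trans h)).trans (h31g_finrank_alpha N q hq hqN).symm)
    (h31g_gen_alpha q hq h hcop) u

end Norm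

/-! ### the descent -/

theorem h31g_degen_degen {N₁ N₂ N₃ : ℕ} [NeZero N₁] [NeZero N₂] [NeZero N₃] (h₁ : N₁ ∣ N₂)
    (h₂ : N₂ ∣ N₃) (x : FF N₁) : degen h₂ (degen h₁ x) = degen (h₁.trans h₂) x :=
  Subtype.ext (by rw [coe_degen, coe_degen, coe_degen])

theorem h31g_degen_ne_zero {N₁ N₂ : ℕ} [NeZero N₁] [NeZero N₂] (h : N₁ ∣ N₂) {x : FF N₁}
    (hx : x ≠ 0) : degen h x ≠ 0 := fun h0 =>
  hx ((degen h).toRingHom.injective (by simpa using h0))

/-- the good level above `M q²` contains `goodLevel q M * q * q`. -/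
theorem h31g_goodLevel_mul_dvd {q M : ℕ} (hq : q.Prime) (hqM : ¬ q ∣ M) :
    goodLevel q M * q * q ∣ goodLevel q (M * q * q) := by
  have hcop : Nat.Coprime (goodLevel q M) (q * q) :=
    Nat.Coprime.mul_right
      ((Nat.Prime.coprime_iff_not_dvd hq).2 (Fermat.Agent.S37.not_dvd_goodLevel hq hqM)).symm
      ((Nat.Prime.coprime_iff_not_dvd hq).2 (Fermat.Agent.S37.not_dvd_goodLevel hq hqM)).symm
  rw [mul_assoc]
  refine hcop.mul_dvd_of_dvd_of_dvd ?_ ?_
  · exact Nat.lcm_dvd (((dvd_mul_right M q).trans (dvd_mul_right (M * q) q)).trans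
        (Fermat.Agent.S37.dvd_goodLevel q (M * q * q)))
      (Fermat.Agent.S37.auxLevel_dvd_goodLevel q (M * q * q))
  · exact (Dvd.intro_left M (by ring) : q * q ∣ M * q * q).trans
      (Fermat.Agent.S37.dvd_goodLevel q (M * q * q))

/-- **G36-DESC.**  The inertia gate at the good levels implies the inertia gate at all levels,
with the same exponent. -/
theorem h31g_inertiaGateDescent : InertiaGateDescent := by
  intro hG q hq M _ hqM
  haveI : NeZero q := ⟨hq.ne_zero⟩
  intro A hA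
  have hqM₁ : ¬ q ∣ goodLevel q M := Fermat.Agent.S37.not_dvd_goodLevel hq hqM
  obtain ⟨t, ht, H⟩ := hG q hq (goodLevel q M) hqM₁
    (Fermat.Agent.S37.auxLevel_dvd_goodLevel q M) A hA
  refine ⟨t, ht, ?_⟩
  intro m hqm u hu hord hinv hα hβ
  have hm0 : m ≠ 0 := fun h0 => hqm (h0 ▸ dvd_zero q)
  have hd : M ∣ goodLevel q M := Fermat.Agent.S37.dvd_goodLevel q M
  have hdq : M * q ∣ goodLevel q M * q := Nat.mul_dvd_mul_right hd q
  have hdqq : M * q * q ∣ goodLevel q M * q * q := Nat.mul_dvd_mul_right hdq q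
  have hcop : ∀ e, goodLevel q M * q = M * q * e → ¬ q ∣ e := by
    intro e he hqe
    obtain ⟨c, rfl⟩ := hqe
    have h1 : goodLevel q M * q = M * c * q * q := by rw [he]; ring
    have h2 : goodLevel q M = M * c * q := Nat.eq_of_mul_eq_mul_right hq.pos h1
    exact hqM₁ ⟨M * c, by rw [h2]; ring⟩
  obtain ⟨h₁, hh₁⟩ := hα
  obtain ⟨h₂, hh₂⟩ := hβ
  obtain ⟨h', hh'⟩ := H m hqm (degen hdqq u) (h31g_degen_ne_zero hdqq hu)
    (by
      intro v
      rw [Place.ord_restrictAlong (degen hdqq)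
        (Fermat.Agent.Red.GateAll.h99_isIntegral_degen _) v u]
      exact Dvd.dvd.mul_left (hord _) _)
    (by
      intro σ hσ
      obtain ⟨h, hh⟩ := hinv σ hσ
      exact ⟨degen hdqq h, by
        rw [← Fermat.Agent.LGC.h63_degen_gal, hh, map_mul, map_pow]⟩)
    ⟨degen hdq h₁, by
      rw [h31g_norm_alpha q hdq hq (dvd_mul_left q M) hcop, hh₁, map_pow]⟩
    ⟨degen hdq h₂, by
      rw [h31g_norm_beta q hdq hq (dvd_mul_left q M), hh₂, map_pow]⟩
  rw [← map_pow] at hh'
  have hgl := h31g_goodLevel_mul_dvd hq hqM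
  obtain ⟨h, hh⟩ := Fermat.Agent.LGC.h63_descent_pow q (M * q * q) m hm0 (u ^ t)
    (pow_ne_zero t hu)
    (by
      intro v
      rw [← zpow_natCast, Place.ord_zpow]
      exact Dvd.dvd.mul_left (hord v) _)
    ⟨degen hgl h', by rw [← map_pow, hh', h31g_degen_degen]⟩
  exact ⟨h, hh⟩

end Fermat.Agent.S36
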