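import Fermat.Agent.S36.H62Mirror
import Fermat.Agent.S36.H60L1Final

/-!
# S36, block REG (helper62): nodes in geometric form, and "a point over a node through `β₂`
lies over a node through `α₂`"

`B₁ = h62rChart A (M q) (jSS M q)`, `Λ₀ = h62rChart A M (jB M)`, `α₀ = h62rAlpha`,
`β₀ = h62rBeta : Λ₀ → B₁`, `P∞₀ = h62sPinf`, `P0₀ = h62sP0`.

* `h62t_nodeCase : H62L1NodeCase` : a closed point on both components carries `H62NodeDatum`
  (helper60's `h60r_nodeDatum` in the geometric vocabulary).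
* `h62t_on_component` : a prime `𝔫₁ ∋ q` of `B₁` contains `P∞₀` or `P0₀`.
* `h62t_surj_inf`, `h62t_surj_zero` : `B₁ = α₀ Λ₀ + P∞₀ = β₀ Λ₀ + P0₀`.
* `h62t_frob_twist` : `∀ l, ∃ l', β₀ l' - (α₀ l) ^ q ∈ P∞₀` (Frobenius twist on `C_∞`).
* `h62t_uniq_zero`, `h62t_uniq_inf` : a prime containing `P0₀` (resp. `P∞₀`) is determined by
  its contraction along `β₀`.
* `h62t_iso` : `𝔫₂` prime `∋ q` of `B₂`; if `β₂⁻¹ 𝔫₂` is on both components, so is `α₂⁻¹ 𝔫₂`.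
-/

set_option autoImplicit false
set_option linter.unusedSectionVars false
set_option linter.style.haveILetI false

open AlgebraicCurve ModularCurve IsLocalRing

noncomputable section

namespace Fermat.Agent.S36

open Fermat.Agent.S37 Fermat.Agent.Red Fermat.Agent.Red.GG Fermat.Agent.LGC
open Fermat.Agent.Red.Kron (kFricke kFricke_kFricke kFricke_alpha kFricke_beta)

section Node

variable (A : ValuationSubring Kbar) (M : ℕ) {q : ℕ} [NeZero M] [NeZero q]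

theorem h62t_incl_eq (N : ℕ) (t : FF N) (x : h62rChart A N t) :
    h60rIncl A N t x = h62rIncl A N t x := rfl

theorem h62t_le_lift (hq : q.Prime) (hM : ¬ q ∣ M) (hA : A.LiesOverPrime q)
    (P : Ideal (chart (M * q) A (jSS M q))) (hmP : mExt A M q (jSS M q) ≤ P)
    (𝔫₁ : Ideal (h62rChart A (M * q) (jSS M q)))
    (hP : P.comap (h62rIncl A (M * q) (jSS M q)) ≤ 𝔫₁) :
    P ≤ h60rLift (h60rIncl A (M * q) (jSS M q)) (mExt A M q (jSS M q)) 𝔫₁ := by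
  intro p hp
  obtain ⟨x₀, hx₀⟩ := (h25i_h60RedIso_Mq_fin (A := A) (M := M) hq hM hA).1 p
  have h1 : h60rIncl A (M * q) (jSS M q) x₀ ∈ P := by
    have h2 : h60rIncl A (M * q) (jSS M q) x₀ = p - (p - h60rIncl A (M * q) (jSS M q) x₀) := by
      ring
    rw [h2]
    exact P.sub_mem hp (hmP hx₀)
  have h3 : x₀ ∈ 𝔫₁ := hP (Ideal.mem_comap.mpr h1)
  have h4 : p = h60rIncl A (M * q) (jSS M q) x₀ + (p - h60rIncl A (M * q) (jSS M q) x₀) := by
    ring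
  rw [h4]
  exact Ideal.add_mem _ (h60r_map_mem_lift _ _ 𝔫₁ h3) (h60r_le_lift _ _ 𝔫₁ hx₀)

end Node

/-- **R-L1, node case** (geometric form). -/
theorem h62t_nodeCase : H62L1NodeCase := by
  intro q hq M _ hM haux
  haveI : NeZero q := ⟨hq.ne_zero⟩
  intro A hA 𝔫₁ h𝔫₁ hq𝔫₁ hinf h0
  exact h60r_nodeDatum A M hq hM haux hA (h25i_h60RedIso_Mq_fin hq hM hA) 𝔫₁ h𝔫₁ hq𝔫₁
    (h62t_le_lift A M hq hM hA _ (h62i_m_le_Pinf A M hq hM hA) 𝔫₁ hinf)
    (h62t_le_lift A M hq hM hA _ (h62i_m_le_P0 A M hq hM hA) 𝔫₁ h0)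

/-- **R-L1** (second proof, through the geometric case split). -/
theorem h62t_L1 : H62L1 := h62s_L1_of h62t_nodeCase

/-- supersingular points, from the datum leaf `H62FinNode`. -/
theorem h62t_geoNode_of (hn : H62FinNode) : H62GeoNode := h62g_node_of h62t_nodeCase hn


/-! ## Points of the components and their contractions to level `M` -/

section Abs

variable {R : Type*} [CommRing R] {B : Type*} [CommRing B] [Algebra R B]
  {Λ : Type*} [CommRing Λ] [Algebra R Λ]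

/-- **Frobenius twist**: if `β u ≡ (α u) ^ q` modulo the prime `P ∋ q` for `u` in a set spanning
`Λ` over `R`, then every `(α l) ^ q` is congruent to some `β l'` modulo `P`. -/
theorem h62t_frob_twist_abs (α β : Λ →ₐ[R] B) (P : Ideal B) [hP : P.IsPrime] (q : ℕ)
    (hq : q.Prime) (hqP : (q : B) ∈ P) (S : Set Λ)
    (hS : ∀ x : Λ, x ∈ Submodule.span R S)
    (hfrob : ∀ u ∈ S, β u - (α u) ^ q ∈ P) (l : Λ) :
    ∃ l' : Λ, β l' - (α l) ^ q ∈ P := by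
  haveI : Fact q.Prime := ⟨hq⟩
  haveI : Nontrivial (B ⧸ P) := Ideal.Quotient.nontrivial_iff.mpr hP.ne_top
  haveI : CharP (B ⧸ P) q := by
    rw [CharP.charP_iff_prime_eq_zero hq]
    have := Ideal.Quotient.eq_zero_iff_mem.mpr hqP
    simpa using this
  set π := Ideal.Quotient.mk P with hπ
  have key : ∀ x : Λ, x ∈ Submodule.span R S → ∃ x' : Λ, π (β x') = π (α x) ^ q := by
    intro x hx
    induction hx using Submodule.span_induction with
    | mem u hu =>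
      refine ⟨u, ?_⟩
      rw [← map_pow, ← sub_eq_zero, ← map_sub]
      exact Ideal.Quotient.eq_zero_iff_mem.mpr (hfrob u hu)
    | zero =>
      refine ⟨0, ?_⟩
      simp [zero_pow hq.ne_zero]
    | add x y _ _ hx hy =>
      obtain ⟨x', hx'⟩ := hx
      obtain ⟨y', hy'⟩ := hy
      refine ⟨x' + y', ?_⟩
      rw [map_add, map_add, hx', hy', map_add, map_add, add_pow_char]
    | smul a x _ hx =>
      obtain ⟨x', hx'⟩ := hx
      refine ⟨(a ^ q) • x', ?_⟩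
      have e1 : β ((a ^ q) • x') = algebraMap R B a ^ q * β x' := by
        rw [map_smul, Algebra.smul_def, map_pow]
      have e2 : α (a • x) = algebraMap R B a * α x := by
        rw [map_smul, Algebra.smul_def]
      rw [e1, e2, map_mul, map_mul, mul_pow, hx', map_pow]
  obtain ⟨l', hl'⟩ := key l (hS l)
  refine ⟨l', ?_⟩
  rw [← Ideal.Quotient.eq_zero_iff_mem, map_sub, map_pow]
  exact sub_eq_zero.mpr hl'

end Abs

section Comp

variable (A : ValuationSubring Kbar) (M : ℕ) {q : ℕ} [NeZero M] [NeZero q]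

/-- a prime `𝔫₁ ∋ q` of `B₁` contains one of the two components. -/
theorem h62t_on_component (hq : q.Prime) (hM : ¬ q ∣ M) (hA : A.LiesOverPrime q)
    (𝔫₁ : Ideal (h62rChart A (M * q) (jSS M q))) [h𝔫 : 𝔫₁.IsPrime]
    (hq𝔫 : (q : h62rChart A (M * q) (jSS M q)) ∈ 𝔫₁) :
    h62sPinf A M hq hM hA ≤ 𝔫₁ ∨ h62sP0 A M hq hM hA ≤ 𝔫₁ := by
  by_cases hc : h62sPinf A M hq hM hA ≤ 𝔫₁
  · exact Or.inl hc
  · refine Or.inr ?_
    obtain ⟨-, inj⟩ := h25i_redIso_Mq_fin (A := A) (M := M) hq hM hA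
    obtain ⟨x, hxP, hx𝔫⟩ := Set.not_subset.mp hc
    intro y hy
    have hxy : h62rIncl A (M * q) (jSS M q) (x * y) ∈ h62rM A (M * q) (jSS M q) := by
      apply h62c_comp A M hq hM hA
      rw [map_mul]
      exact ⟨Ideal.mul_mem_right _ _ (Ideal.mem_comap.mp hxP),
        Ideal.mul_mem_left _ _ (Ideal.mem_comap.mp hy)⟩
    obtain ⟨z, hz⟩ := inj (x * y) hxy
    have h1 : x * y ∈ 𝔫₁ := by
      rw [hz]
      exact 𝔫₁.mul_mem_right _ hq𝔫
    exact (h𝔫.mem_or_mem h1).resolve_left hx𝔫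

/-- `B₁ = α₀ Λ₀ + P∞₀`. -/
theorem h62t_surj_inf (hq : q.Prime) (hM : ¬ q ∣ M) (haux : auxLevel q ∣ M)
    (hA : A.LiesOverPrime q) (z : h62rChart A (M * q) (jSS M q)) :
    ∃ l₀ : h62rChart A M (jB M), z - h62rAlpha A M l₀ ∈ h62sPinf A M hq hM hA := by
  obtain ⟨surjΛ, -⟩ := h25i_redIso_M_fin (A := A) (M := M) hq hM hA
  obtain ⟨l, hl⟩ := h62d_surj A M hq hM haux hA (h62rIncl A (M * q) (jSS M q) z)
  obtain ⟨l₀, hl₀⟩ := surjΛ l
  refine ⟨l₀, Ideal.mem_comap.mpr ?_⟩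
  have h2 : h62rIncl A (M * q) (jSS M q) (z - h62rAlpha A M l₀) =
      (h62rIncl A (M * q) (jSS M q) z - h62i_α A M q l) +
        h62i_α A M q (l - h62rIncl A M (jB M) l₀) := by
    rw [map_sub, h62s_incl_alpha, map_sub]
    show _ - (h62i_α A M q) (h62rIncl A M (jB M) l₀) = _
    ring
  rw [h2]
  exact Ideal.add_mem _ hl
    (h62i_m_le_Pinf A M hq hM hA (h62l_map_mem _ (h62i_α A M q) hl₀))

/-- `B₁ = β₀ Λ₀ + P0₀`. -/
theorem h62t_surj_zero (hq : q.Prime) (hM : ¬ q ∣ M) (haux : auxLevel q ∣ M)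
    (hA : A.LiesOverPrime q) (z : h62rChart A (M * q) (jSS M q)) :
    ∃ l₀ : h62rChart A M (jB M), z - h62rBeta A M hq hM hA l₀ ∈ h62sP0 A M hq hM hA := by
  obtain ⟨surjΛ, -⟩ := h25i_redIso_M_fin (A := A) (M := M) hq hM hA
  obtain ⟨l, hl⟩ := h62s_surj_beta A M hq hM hA haux (h62rIncl A (M * q) (jSS M q) z)
  obtain ⟨l₀, hl₀⟩ := surjΛ l
  refine ⟨l₀, Ideal.mem_comap.mpr ?_⟩
  have h2 : h62rIncl A (M * q) (jSS M q) (z - h62rBeta A M hq hM hA l₀) =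
      (h62rIncl A (M * q) (jSS M q) z -
          (h62i_β A M hq hM hA : chart M A (jB M) →+* chart (M * q) A (jSS M q)) l) +
        h62i_β A M hq hM hA (l - h62rIncl A M (jB M) l₀) := by
    rw [map_sub, h62s_incl_beta, map_sub]
    show _ - (h62i_β A M hq hM hA) (h62rIncl A M (jB M) l₀) =
      _ - (h62i_β A M hq hM hA) l + _
    ring
  rw [h2]
  exact Ideal.add_mem _ hl
    (h62i_m_le_P0 A M hq hM hA (h62l_map_mem _ (h62i_β A M hq hM hA) hl₀))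

/-- **Frobenius twist on `C_∞`** over `A₀`. -/
theorem h62t_frob_twist (hq : q.Prime) (hM : ¬ q ∣ M) (hA : A.LiesOverPrime q)
    (l₀ : h62rChart A M (jB M)) :
    ∃ l₀' : h62rChart A M (jB M),
      h62rBeta A M hq hM hA l₀' - h62rAlpha A M l₀ ^ q ∈ h62sPinf A M hq hM hA := by
  obtain ⟨surjΛ, -⟩ := h25i_redIso_M_fin (A := A) (M := M) hq hM hA
  have hqP : ((q : ℕ) : chart (M * q) A (jSS M q)) ∈ h62i_Pinf A M hq hM hA := by
    apply h62i_m_le_Pinf A M hq hM hA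
    have h1 : ((q : ℕ) : chart (M * q) A (jSS M q)) =
        algebraMap A (chart (M * q) A (jSS M q)) (q : A) := by
      rw [map_natCast]
    rw [h1]
    exact Ideal.mem_map_of_mem _ (h57_natCast_mem_maximalIdeal A hA)
  obtain ⟨l', hl'⟩ := h62t_frob_twist_abs (h62i_α A M q) (h62i_β A M hq hM hA)
    (h62i_Pinf A M hq hM hA) q hq hqP (h62i_R A M : Set (chart M A (jB M)))
    (h62d_span A M hq hM hA) (fun u hu => h62d_frob A M hq hM hA u hu)
    (h62rIncl A M (jB M) l₀)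
  obtain ⟨l₀', hl₀'⟩ := surjΛ l'
  refine ⟨l₀', Ideal.mem_comap.mpr ?_⟩
  have h2 : h62rIncl A (M * q) (jSS M q)
      (h62rBeta A M hq hM hA l₀' - h62rAlpha A M l₀ ^ q) =
      (h62i_β A M hq hM hA l' - (h62i_α A M q (h62rIncl A M (jB M) l₀)) ^ q) -
        h62i_β A M hq hM hA (l' - h62rIncl A M (jB M) l₀') := by
    rw [map_sub, map_pow, h62s_incl_beta, h62s_incl_alpha, map_sub]
    show (h62i_β A M hq hM hA) (h62rIncl A M (jB M) l₀') -
      (h62i_α A M q) (h62rIncl A M (jB M) l₀) ^ q = _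
    ring
  rw [h2]
  exact Ideal.sub_mem _ hl'
    (h62i_m_le_Pinf A M hq hM hA (h62l_map_mem _ (h62i_β A M hq hM hA) hl₀'))

/-- a prime containing `P0₀` is determined by its contraction along `β₀`. -/
theorem h62t_uniq_zero (hq : q.Prime) (hM : ¬ q ∣ M) (haux : auxLevel q ∣ M)
    (hA : A.LiesOverPrime q) (𝔫 𝔫' : Ideal (h62rChart A (M * q) (jSS M q)))
    (h0 : h62sP0 A M hq hM hA ≤ 𝔫) (h0' : h62sP0 A M hq hM hA ≤ 𝔫')
    (hle : 𝔫.comap (h62rBeta A M hq hM hA) ≤ 𝔫'.comap (h62rBeta A M hq hM hA)) : 𝔫 ≤ 𝔫' := by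
  intro z hz
  obtain ⟨l₀, hl₀⟩ := h62t_surj_zero A M hq hM haux hA z
  have h1 : h62rBeta A M hq hM hA l₀ ∈ 𝔫 := by
    have h2 : h62rBeta A M hq hM hA l₀ = z - (z - h62rBeta A M hq hM hA l₀) := by ring
    rw [h2]
    exact 𝔫.sub_mem hz (h0 hl₀)
  have h3 : h62rBeta A M hq hM hA l₀ ∈ 𝔫' := Ideal.mem_comap.mp (hle (Ideal.mem_comap.mpr h1))
  have h4 : z = h62rBeta A M hq hM hA l₀ + (z - h62rBeta A M hq hM hA l₀) := by ring
  rw [h4]
  exact 𝔫'.add_mem h3 (h0' hl₀)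

/-- a prime containing `P∞₀` is determined by its contraction along `β₀`. -/
theorem h62t_uniq_inf (hq : q.Prime) (hM : ¬ q ∣ M) (haux : auxLevel q ∣ M)
    (hA : A.LiesOverPrime q) (𝔫 𝔫' : Ideal (h62rChart A (M * q) (jSS M q)))
    [h𝔫' : 𝔫'.IsPrime]
    (hinf : h62sPinf A M hq hM hA ≤ 𝔫) (hinf' : h62sPinf A M hq hM hA ≤ 𝔫')
    (hle : 𝔫.comap (h62rBeta A M hq hM hA) ≤ 𝔫'.comap (h62rBeta A M hq hM hA)) : 𝔫 ≤ 𝔫' := by
  intro z hz
  obtain ⟨l₀, hl₀⟩ := h62t_surj_inf A M hq hM haux hA z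
  obtain ⟨l₀', hl₀'⟩ := h62t_frob_twist A M hq hM hA l₀
  have h1 : h62rAlpha A M l₀ ∈ 𝔫 := by
    have h2 : h62rAlpha A M (q := q) l₀ = z - (z - h62rAlpha A M l₀) := by ring
    rw [h2]
    exact 𝔫.sub_mem hz (hinf hl₀)
  have h3 : h62rBeta A M hq hM hA l₀' ∈ 𝔫 := by
    have h4 : h62rBeta A M hq hM hA l₀' =
        (h62rBeta A M hq hM hA l₀' - h62rAlpha A M l₀ ^ q) + h62rAlpha A M l₀ ^ q := by ring
    rw [h4]
    exact 𝔫.add_mem (hinf hl₀') (𝔫.pow_mem_of_mem h1 q hq.pos)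
  have h5 : h62rBeta A M hq hM hA l₀' ∈ 𝔫' := Ideal.mem_comap.mp (hle (Ideal.mem_comap.mpr h3))
  have h6 : h62rAlpha A M (q := q) l₀ ^ q ∈ 𝔫' := by
    have h7 : h62rAlpha A M (q := q) l₀ ^ q = h62rBeta A M hq hM hA l₀' -
        (h62rBeta A M hq hM hA l₀' - h62rAlpha A M l₀ ^ q) := by ring
    rw [h7]
    exact 𝔫'.sub_mem h5 (hinf' hl₀')
  have h8 : h62rAlpha A M (q := q) l₀ ∈ 𝔫' := h𝔫'.mem_of_pow_mem q h6
  have h9 : z = h62rAlpha A M l₀ + (z - h62rAlpha A M l₀) := by ring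
  rw [h9]
  exact 𝔫'.add_mem h8 (hinf' hl₀)

theorem h62t_w1_beta (hq : q.Prime) (hM : ¬ q ∣ M) (hA : A.LiesOverPrime q)
    (x : h62rChart A M (jB M)) :
    h62oW1 A M hq hM hA (h62rBeta A M hq hM hA x) = h62rAlpha A M x :=
  Subtype.ext (kFricke_beta M q hq hM _)

theorem h62t_a2_beta (hq : q.Prime) (hM : ¬ q ∣ M) (hA : A.LiesOverPrime q)
    (x : h62rChart A M (jB M)) :
    h62rA2 A M (h62rBeta A M hq hM hA x) = h59y_b2 A M hq hM hA (h62rAlpha A M x) := by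
  have h1 := congrArg (fun f => f x) (h59y_e1_eq A M hq hM hA)
  have h2 := congrArg (fun f => f x) (h59y_e1_eq' A M hq hM hA)
  simp only [RingHom.comp_apply] at h1 h2
  rw [h62g_A2_eq, ← h1, h2]

/-- **a point over a node through `β₂` lies over a node through `α₂`**. -/
theorem h62t_iso (hq : q.Prime) (hM : ¬ q ∣ M) (haux : auxLevel q ∣ M)
    (hA : A.LiesOverPrime q)
    (𝔫₂ : Ideal (h62rChart A (M * q * q) (jB (M * q * q)))) [h𝔫₂ : 𝔫₂.IsPrime]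
    (hq𝔫₂ : (q : h62rChart A (M * q * q) (jB (M * q * q))) ∈ 𝔫₂)
    (hinf : h62sPinf A M hq hM hA ≤ 𝔫₂.comap (h59y_b2 A M hq hM hA))
    (h0 : h62sP0 A M hq hM hA ≤ 𝔫₂.comap (h59y_b2 A M hq hM hA)) :
    h62sPinf A M hq hM hA ≤ 𝔫₂.comap (h62rA2 A M) ∧
      h62sP0 A M hq hM hA ≤ 𝔫₂.comap (h62rA2 A M) := by
  haveI : (𝔫₂.comap (h62rA2 A M)).IsPrime := Ideal.comap_isPrime _ _
  -- the mirror image of the node `β₂⁻¹ 𝔫₂`
  set 𝔫' : Ideal (h62rChart A (M * q) (jSS M q)) :=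
    (𝔫₂.comap (h59y_b2 A M hq hM hA)).comap (h62oW1 A M hq hM hA) with h𝔫'
  have hinf' : h62sPinf A M hq hM hA ≤ 𝔫' := fun y hy =>
    Ideal.mem_comap.mpr (h0 ((h62o_w1_mem_P0_iff A M hq hM hA y).mpr hy))
  have h0' : h62sP0 A M hq hM hA ≤ 𝔫' := fun y hy =>
    Ideal.mem_comap.mpr (hinf ((h62o_w1_mem_Pinf_iff A M hq hM hA y).mpr hy))
  have hle : 𝔫'.comap (h62rBeta A M hq hM hA) ≤
      (𝔫₂.comap (h62rA2 A M)).comap (h62rBeta A M hq hM hA) := by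
    intro x hx
    rw [Ideal.mem_comap, Ideal.mem_comap, h62t_a2_beta]
    have h1 : h62oW1 A M hq hM hA (h62rBeta A M hq hM hA x) ∈
        𝔫₂.comap (h59y_b2 A M hq hM hA) := Ideal.mem_comap.mp (Ideal.mem_comap.mp hx)
    rw [h62t_w1_beta] at h1
    exact Ideal.mem_comap.mp h1
  have hq₁ : (q : h62rChart A (M * q) (jSS M q)) ∈ 𝔫₂.comap (h62rA2 A M) :=
    h62g_q_mem_comap A M 𝔫₂ hq𝔫₂
  have hkey : 𝔫' ≤ 𝔫₂.comap (h62rA2 A M) := by
    rcases h62t_on_component A M hq hM hA (𝔫₂.comap (h62rA2 A M)) hq₁ with h | h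
    · exact h62t_uniq_inf A M hq hM haux hA 𝔫' _ hinf' h hle
    · exact h62t_uniq_zero A M hq hM haux hA 𝔫' _ h0' h hle
  exact ⟨le_trans hinf' hkey, le_trans h0' hkey⟩

end Comp

end Fermat.Agent.S36
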