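import Fermat.Agent.S36.H31SSGeo
import Fermat.Agent.LGC.H55Kron
import Fermat.Agent.S36.H67Inst
import Fermat.Agent.S36.H62Iso

/-!
# S36, glue REG → TOR (helper31, prefix `h31y_`): the leaf `H31NodeSym`

`𝔫₂ ∋ q` a closed point of `B₂ = h62rChart A (M q²) (jB (M q²))`, `𝔫₁ᵃ = α₂⁻¹ 𝔫₂`,
`𝔫₁ᵇ = β₂⁻¹ 𝔫₂`.  If `𝔫₁ᵇ` is a node (`P∞₀ ≤ 𝔫₁ᵇ`, `P0₀ ≤ 𝔫₁ᵇ`) then `C_0` passes through
`𝔫₁ᵃ`.

Proof.  Let `u` be the rational parameter of the node datum at `𝔫₁ᵇ`, `ρ ∉ 𝔫₁ᵇ` its Kronecker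
unit: `(β u - (α u)^q) ((β u)^q - α u) + q ρ = 0`.  By Kronecker's congruence with RATIONAL
remainder (`h31y_kron`), `ρ = r(β u)` with `r ∈ α(Λ)[T]`, `r₀ = r(0)` rational; hence
`ρ = α r₀ + β u · W` in `B₁`.  If `C_0` does not pass through `𝔫₁ᵃ`, the Frobenius congruence
`β v ≡ (α v)^q` holds modulo `𝔫₁ᵃ` for all rational `v` (`h62s_infDatum`); with
`α₂ β u = β₂ α u ∈ 𝔫₂`, `β₂ β u ∈ 𝔫₂` one gets `α u ∈ 𝔫₁ᵃ`, `ρ ∈ 𝔫₁ᵃ`, `α r₀ ∈ 𝔫₁ᵃ`, `β r₀ ∈ 𝔫₁ᵃ`,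
i.e. `β₂ α r₀ ∈ 𝔫₂`, and finally `β₂ ρ ∈ 𝔫₂`: contradiction.

* `h31y_kron` : Kronecker's congruence with rational remainder;
* `h31y_nodeSym_of : H62L1NodeCase → H31NodeSym`.
-/

set_option autoImplicit false
set_option linter.unusedSectionVars false
set_option linter.style.haveILetI false

open AlgebraicCurve ModularCurve IsLocalRing Polynomial

noncomputable section

namespace Fermat.Agent.S36

open Fermat.Agent.S37 Fermat.Agent.Red Fermat.Agent.Red.GG Fermat.Agent.LGC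
open Fermat.Agent.Red.Kron Fermat.Agent.Red.GV Fermat.Agent.Red.GV.Soft

section Kron

variable (M q : ℕ) [NeZero M] [NeZero q] (A : ValuationSubring Kbar)

/-- a rational multiple of a rational function is rational. -/
theorem h31y_isRat_cst_mul (a : Kbar) (ha : ∀ σ : GQ, σ a = a) {x : FF M} (hx : IsRat x) :
    IsRat (cst M a * x) := by
  rw [isRat_iff_gal_fixed]
  intro σ
  rw [smul_mul', Fermat.Agent.S37.GalI.gal_smul_cst, ha σ,
    Fermat.Agent.S37.GalI.gal_smul_of_isRat σ hx]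

/-- evaluation of the Kronecker polynomial. -/
theorem h31y_eval₂ {F F' : Type*} [Field F] [CommRing F'] (φ : F →+* F') (q : ℕ) (v : F)
    (r : F[X]) (y : F') :
    ((X - C (v ^ q)) * (X ^ q - C v) + C ((q : ℕ) : F) * r).eval₂ φ y =
      (y - φ v ^ q) * (y ^ q - φ v) + (q : F') * r.eval₂ φ y := by
  rw [eval₂_add, eval₂_mul, eval₂_mul, eval₂_sub, eval₂_sub, eval₂_pow, eval₂_X, eval₂_C,
    eval₂_C, eval₂_C, map_pow, map_natCast]

/-- **Kronecker's congruence with rational remainder.** -/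
theorem h31y_kron (hq : q.Prime) (hM : ¬ q ∣ M) (hA : A.LiesOverPrime q) (u : FF M)
    (hu : u ∈ modelFin M A) (hrat : IsRat u) :
    ∃ r : (FF M)[X], (∀ n, r.coeff n ∈ modelFin M A) ∧ (∀ n, IsRat (r.coeff n)) ∧
      (heckeBetaBar Kbar M q u - heckeAlphaBar Kbar M q u ^ q) *
          (heckeBetaBar Kbar M q u ^ q - heckeAlphaBar Kbar M q u) +
        (q : FF (M * q)) *
          r.eval₂ (heckeAlphaBar Kbar M q).toRingHom (heckeBetaBar Kbar M q u) = 0 := by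
  have hq0 : ((q : ℕ) : Kbar) ≠ 0 := Nat.cast_ne_zero.mpr hq.ne_zero
  have huS : u ∈ softV A M :=
    gaussV_le_softV A M (modelFin_le_gaussV A M hq hM hA hu)
  refine ⟨C (cst M (((q : ℕ) : Kbar))⁻¹) * (h55k_Psi M q u - h55k_P0 M q u), ?_, ?_, ?_⟩
  · intro n
    rw [coeff_C_mul]
    refine mem_modelFin_of_cst_mul A M hq hM hA _ (h55k_coeff_div M q A hq hM hA u huS hrat n)
      ((q : ℕ) : Kbar) (natCast_mem A q) hq0 ?_
    rw [← mul_assoc, ← map_mul, mul_inv_cancel₀ hq0, map_one, one_mul, coeff_sub]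
    exact sub_mem (h55k_Psi_coeff_mem M q A hq hM hA u hu n) (h55k_P0_coeff_mem M q A u hu n)
  · intro n
    rw [coeff_C_mul]
    refine h31y_isRat_cst_mul M _ (fun σ => ?_) (h55k_isRat_coeff M q hq hM u hrat n)
    rw [map_inv₀, map_natCast]
  · have h1 : ((q : ℕ) : FF M) = cst M ((q : ℕ) : Kbar) := (map_natCast _ q).symm
    have hΨ : h55k_Psi M q u = (X - C (u ^ q)) * (X ^ q - C u) + C ((q : ℕ) : FF M) *
        (C (cst M (((q : ℕ) : Kbar))⁻¹) * (h55k_Psi M q u - h55k_P0 M q u)) := by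
      rw [← mul_assoc, ← C_mul, h1, ← map_mul, mul_inv_cancel₀ hq0, map_one, C_1, one_mul]
      show h55k_Psi M q u = h55k_P0 M q u + (h55k_Psi M q u - h55k_P0 M q u)
      ring
    have h0 : (h55k_Psi M q u).eval₂ (heckeAlphaBar Kbar M q).toRingHom
        (heckeBetaBar Kbar M q u) = 0 := h44g_eval₂_charpolyAlong (heckeAlphaBar Kbar M q) _ _
    rw [hΨ, h31y_eval₂] at h0
    exact h0

end Kron

section Main

variable {q : ℕ} (hq : q.Prime) (M : ℕ) [NeZero M] [NeZero q] (hM : ¬ q ∣ M)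
  (haux : auxLevel q ∣ M) (A : ValuationSubring Kbar) (hA : A.LiesOverPrime q)

/-- the values of a polynomial with coefficients in `α(Λ)` at a point of `B₁` lie in `B₁`. -/
theorem h31y_eval₂_mem (p : (FF M)[X]) (hp : ∀ n, p.coeff n ∈ h62rChart A M (jB M))
    (y : FF (M * q)) (hy : y ∈ h62rChart A (M * q) (jSS M q)) :
    p.eval₂ (heckeAlphaBar Kbar M q).toRingHom y ∈ h62rChart A (M * q) (jSS M q) := by
  rw [eval₂_eq_sum_range]
  refine Subring.sum_mem _ fun n _ => ?_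
  exact Subring.mul_mem _ (h62rAlpha A M (q := q) ⟨p.coeff n, hp n⟩).2 (Subring.pow_mem _ hy n)

/-- `α₂ ∘ β₁ = β₂ ∘ α₁` on the charts over `A₀`. -/
theorem h31y_a2_beta (x : h62rChart A M (jB M)) :
    h62rA2 A M (h62rBeta A M hq hM hA x) = h59y_b2 A M hq hM hA (h62rAlpha A M x) := by
  apply Subtype.ext
  exact h67i_e1_eq M q (x : FF M)

theorem h31y_natCast_ne_zero (N : ℕ) (t : FF N) :
    (q : h62rChart A N t) ≠ 0 := by
  haveI : CharZero (FF N) := charZero_of_injective_algebraMap (algebraMap Kbar (FF N)).injective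
  intro h
  have h1 := congrArg (fun x : h62rChart A N t => (x : FF N)) h
  simp only [Subring.coe_natCast, ZeroMemClass.coe_zero, Nat.cast_eq_zero] at h1
  exact (NeZero.ne q) h1

include haux in
/-- **`H31NodeSym` at one point**, from the node case of R-L1. -/
theorem h31y_nodeSym_at (hn : H62L1NodeCase)
    (𝔫₂ : Ideal (h62rChart A (M * q * q) (jB (M * q * q)))) (h𝔫₂ : 𝔫₂.IsMaximal)
    (hq𝔫₂ : (q : h62rChart A (M * q * q) (jB (M * q * q))) ∈ 𝔫₂)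
    (hb1 : h62sPinf A M hq hM hA ≤ 𝔫₂.comap (h59y_b2 A M hq hM hA))
    (hb2 : h62sP0 A M hq hM hA ≤ 𝔫₂.comap (h59y_b2 A M hq hM hA)) :
    h62sP0 A M hq hM hA ≤ 𝔫₂.comap (h62rA2 A M) := by
  by_contra hcon
  haveI h𝔫₂p : 𝔫₂.IsPrime := h𝔫₂.isPrime
  have hmaxb := h59y_comap_b2 A M hq hM hA 𝔫₂ h𝔫₂ hq𝔫₂
  obtain ⟨u, hurat, hX, hY, ⟨ρ, hρ, hrel⟩, -⟩ :=
    hn q hq M hM haux A hA _ hmaxb.1 hmaxb.2 hb1 hb2
  -- the Frobenius congruence at `𝔫₁ᵃ`
  haveI hap : (𝔫₂.comap (h62rA2 A M)).IsPrime := Ideal.comap_isPrime _ _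
  have hqa := h62g_q_mem_comap A M 𝔫₂ hq𝔫₂
  obtain ⟨hfrob, -⟩ := h62s_infDatum A M hq hM hA _ haux hqa hcon
  have hfrob' : ∀ v : h62rChart A M (jB M), IsRat (v : FF M) →
      h62rBeta A M hq hM hA v - h62rAlpha A M v ^ q ∈ 𝔫₂.comap (h62rA2 A M) := by
    intro v hv
    obtain ⟨s, hs, hsv⟩ := hfrob v hv
    have h1 : s * (h62rBeta A M hq hM hA v - h62rAlpha A M v ^ q) ∈ 𝔫₂.comap (h62rA2 A M) :=
      (Ideal.span_singleton_le_iff_mem _).mpr hqa hsv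
    exact (hap.mem_or_mem h1).resolve_left hs
  -- `β₁ u`, `α₁ u ∈ 𝔫₁ᵃ`
  have hYa : h62rBeta A M hq hM hA u ∈ 𝔫₂.comap (h62rA2 A M) := by
    rw [Ideal.mem_comap, h31y_a2_beta]
    exact Ideal.mem_comap.mp hX
  have hXa : h62rAlpha A M u ∈ 𝔫₂.comap (h62rA2 A M) := by
    have h1 := hfrob' u hurat
    have h2 : h62rAlpha A M u ^ q ∈ 𝔫₂.comap (h62rA2 A M) := by
      have h3 := Ideal.sub_mem _ hYa h1
      have h4 : h62rBeta A M hq hM hA u - (h62rBeta A M hq hM hA u - h62rAlpha A M u ^ q) =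
          h62rAlpha A M u ^ q := by ring
      rwa [h4] at h3
    exact hap.mem_of_pow_mem _ h2
  -- `ρ ∈ 𝔫₁ᵃ`
  have hρa : ρ ∈ 𝔫₂.comap (h62rA2 A M) := by
    obtain ⟨s, hs, hsv⟩ := hfrob u hurat
    obtain ⟨c, hc⟩ := Ideal.mem_span_singleton'.mp hsv
    have hq0 : (q : h62rChart A (M * q) (jSS M q)) ≠ 0 := h31y_natCast_ne_zero A _ _
    have h3 : s * ρ = -(c * (h62rBeta A M hq hM hA u ^ q - h62rAlpha A M u)) := by
      apply mul_left_cancel₀ hq0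
      linear_combination s * hrel + (h62rBeta A M hq hM hA u ^ q - h62rAlpha A M u) * hc
    have h4 : s * ρ ∈ 𝔫₂.comap (h62rA2 A M) := by
      rw [h3]
      exact Ideal.neg_mem_iff _ |>.mpr (Ideal.mul_mem_left _ _
        (Ideal.sub_mem _ (Ideal.pow_mem_of_mem _ hYa q hq.pos) hXa))
    exact (hap.mem_or_mem h4).resolve_left hs
  -- the rational Kronecker remainder
  have humem : (u : FF M) ∈ modelFin M A := (h62r_mem_chart.mp u.2).1
  obtain ⟨r, hr, hrrat, hkron⟩ := h31y_kron M q A hq hM hA (u : FF M) humem hurat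
  have hrΛ : ∀ n, r.coeff n ∈ h62rChart A M (jB M) := fun n =>
    h62r_mem_chart.mpr ⟨hr n, fun σ _ => Fermat.Agent.S37.GalI.gal_smul_of_isRat σ (hrrat n)⟩
  have hqF : ((q : ℕ) : FF (M * q)) ≠ 0 := by
    haveI : CharZero (FF (M * q)) :=
      charZero_of_injective_algebraMap (algebraMap Kbar (FF (M * q))).injective
    exact Nat.cast_ne_zero.mpr hq.ne_zero
  have hρcoe : (ρ : FF (M * q)) =
      r.eval₂ (heckeAlphaBar Kbar M q).toRingHom (heckeBetaBar Kbar M q (u : FF M)) := by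
    have hrel' : (heckeBetaBar Kbar M q (u : FF M) - heckeAlphaBar Kbar M q (u : FF M) ^ q) *
          (heckeBetaBar Kbar M q (u : FF M) ^ q - heckeAlphaBar Kbar M q (u : FF M)) +
        ((q : ℕ) : FF (M * q)) * (ρ : FF (M * q)) = 0 :=
      congrArg (fun x : h62rChart A (M * q) (jSS M q) => (x : FF (M * q))) hrel
    apply mul_left_cancel₀ hqF
    linear_combination hrel' - hkron
  have hdec : r.eval₂ (heckeAlphaBar Kbar M q).toRingHom (heckeBetaBar Kbar M q (u : FF M)) =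
      r.divX.eval₂ (heckeAlphaBar Kbar M q).toRingHom (heckeBetaBar Kbar M q (u : FF M)) *
        heckeBetaBar Kbar M q (u : FF M) + heckeAlphaBar Kbar M q (r.coeff 0) := by
    conv_lhs => rw [← Polynomial.divX_mul_X_add r]
    rw [eval₂_add, eval₂_mul, eval₂_X, eval₂_C]
    rfl
  set W : h62rChart A (M * q) (jSS M q) :=
    ⟨r.divX.eval₂ (heckeAlphaBar Kbar M q).toRingHom (heckeBetaBar Kbar M q (u : FF M)),
      h31y_eval₂_mem M A r.divX (fun n => by rw [coeff_divX]; exact hrΛ (n + 1)) _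
        (h62rBeta A M hq hM hA u).2⟩ with hW
  set r₀ : h62rChart A M (jB M) := ⟨r.coeff 0, hrΛ 0⟩ with hr₀
  have hρdec : ρ = W * h62rBeta A M hq hM hA u + h62rAlpha A M r₀ := by
    apply Subtype.ext
    rw [hρcoe, hdec]
    rfl
  -- `α₁ r₀`, `β₁ r₀ ∈ 𝔫₁ᵃ`
  have hr₀a : h62rAlpha A M r₀ ∈ 𝔫₂.comap (h62rA2 A M) := by
    have h1 : h62rAlpha A M r₀ = ρ - W * h62rBeta A M hq hM hA u := by
      rw [hρdec]; ring
    rw [h1]
    exact Ideal.sub_mem _ hρa (Ideal.mul_mem_left _ _ hYa)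
  have hβr₀a : h62rBeta A M hq hM hA r₀ ∈ 𝔫₂.comap (h62rA2 A M) := by
    have h1 := hfrob' r₀ (hrrat 0)
    have h2 := Ideal.add_mem _ h1 (Ideal.pow_mem_of_mem _ hr₀a q hq.pos)
    have h3 : h62rBeta A M hq hM hA r₀ - h62rAlpha A M r₀ ^ q + h62rAlpha A M r₀ ^ q =
        h62rBeta A M hq hM hA r₀ := by ring
    rwa [h3] at h2
  -- `ρ ∈ 𝔫₁ᵇ`: contradiction
  apply hρ
  rw [Ideal.mem_comap, hρdec, map_add, map_mul, ← h31y_a2_beta]
  exact Ideal.add_mem _ (Ideal.mul_mem_left _ _ (Ideal.mem_comap.mp hY))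
    (Ideal.mem_comap.mp hβr₀a)

/-- **`H31NodeSym`** from the node case of R-L1. -/
theorem h31y_nodeSym_of (hn : H62L1NodeCase) : H31NodeSym := by
  intro q hq M _ hM haux
  haveI : NeZero q := ⟨hq.ne_zero⟩
  intro A hA 𝔫₂ h𝔫₂ hq𝔫₂ hb1 hb2
  exact h31y_nodeSym_at hq M hM haux A hA hn 𝔫₂ h𝔫₂ hq𝔫₂ hb1 hb2

end Main

/-- **`H31NodeSym`**, unconditional. -/
theorem h31y_nodeSym : H31NodeSym := h31y_nodeSym_of h62t_nodeCase

/-- **the glue REG → TOR**, from the two strong leaves of R-ORD only: a closed point of the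
special fibre of level `M q²` which is not a one-branch point lies over nodes of level `M q`
along `α₂` and along `β₂`, with their node data. -/
theorem h31y_nodeDatum_of_not_oneBranch {q : ℕ} (hq : q.Prime) (M : ℕ) [NeZero M] [NeZero q]
    (hM : ¬ q ∣ M) (haux : auxLevel q ∣ M) (A : ValuationSubring Kbar)
    (hA : A.LiesOverPrime q) (hz : H31GeoZeroOne) (h11 : H31Ord11One)
    (𝔫₂ : Ideal (h62rChart A (M * q * q) (jB (M * q * q)))) (h𝔫₂ : 𝔫₂.IsMaximal)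
    (hq𝔫₂ : (q : h62rChart A (M * q * q) (jB (M * q * q))) ∈ 𝔫₂)
    (hss : ¬ h11l_OneBranch (q : h62rChart A (M * q * q) (jB (M * q * q))) 𝔫₂) :
    ((h62sPinf A M hq hM hA ≤ 𝔫₂.comap (h62rA2 A M) ∧
        h62sP0 A M hq hM hA ≤ 𝔫₂.comap (h62rA2 A M)) ∧
      (h62sPinf A M hq hM hA ≤ 𝔫₂.comap (h59y_b2 A M hq hM hA) ∧
        h62sP0 A M hq hM hA ≤ 𝔫₂.comap (h59y_b2 A M hq hM hA))) ∧
    ((𝔫₂.comap (h62rA2 A M)).IsMaximal ∧
      H62NodeDatum A M hq hM hA (𝔫₂.comap (h62rA2 A M))) ∧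
    ((𝔫₂.comap (h59y_b2 A M hq hM hA)).IsMaximal ∧
      H62NodeDatum A M hq hM hA (𝔫₂.comap (h59y_b2 A M hq hM hA))) :=
  ⟨h31x_nodes_of_not_oneBranch hq M hM haux A hA hz h11 h31y_nodeSym 𝔫₂ h𝔫₂ hq𝔫₂ hss,
    h31x_nodeDatum_of_not_oneBranch hq M hM haux A hA hz h11 h31y_nodeSym h62t_nodeCase
      𝔫₂ h𝔫₂ hq𝔫₂ hss⟩

end Fermat.Agent.S36
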