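import Mathlib
import Fermat.Agent.S36.H62RegIface

/-!
# S36, block REG, row R-OVERLAP (helper31): transfer of `H62RegAt`, abstract part

`B`, `B'` subrings of a field `F`, `𝔫 ⊆ B`, `𝔫' ⊆ B'` prime ideals with the same local ring
(`h31v_Dom B B' 𝔫 𝔫'` and `h31v_Dom B' B 𝔫' 𝔫`: every element of one ring becomes an element of
the other after multiplication by an element outside the prime, compatibly with the primes).

* `h31v_regAt_transfer` : `H62RegAt 𝔫 π → H62RegAt 𝔫' π'` for `π = π'` in `F`.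
* `h31v_contr` : the contraction of an ideal of `B'` to `B` through an overlap `B[1/t] = B'[t]`
  (`t ∈ B`, `t⁻¹ ∈ B'`), `h31v_contr_isPrime`, `h31v_dom_contr`, `h31v_dom_contr'` (the two
  domination properties), `h31v_contr_isMaximal` (under integrality of `B'` over `A₀[t⁻¹]`).

Mathlib + `H62RegIface` only.
-/

set_option autoImplicit false
set_option linter.unusedSectionVars false

open Polynomial IsLocalRing

namespace Fermat.Agent.S36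

section In

variable {F : Type*} [Field F]

/-- membership in an ideal of a subring, as a predicate on the ambient field. -/
def h31v_In (B : Subring F) (I : Ideal B) (x : F) : Prop :=
  ∃ h : x ∈ B, (⟨x, h⟩ : B) ∈ I

variable {B : Subring F} {I J : Ideal B}

theorem h31v_In_coe (x : B) : h31v_In B I (x : F) ↔ x ∈ I :=
  ⟨fun ⟨_, h⟩ => h, fun h => ⟨x.2, h⟩⟩

theorem h31v_In.mem {x : F} (h : h31v_In B I x) : x ∈ B := h.1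

theorem h31v_In_zero : h31v_In B I 0 := ⟨B.zero_mem, I.zero_mem⟩

theorem h31v_In.add {x y : F} (hx : h31v_In B I x) (hy : h31v_In B I y) :
    h31v_In B I (x + y) := by
  obtain ⟨hx, hx'⟩ := hx
  obtain ⟨hy, hy'⟩ := hy
  exact ⟨B.add_mem hx hy, I.add_mem hx' hy'⟩

theorem h31v_In.neg {x : F} (hx : h31v_In B I x) : h31v_In B I (-x) := by
  obtain ⟨hx, hx'⟩ := hx
  exact ⟨B.neg_mem hx, I.neg_mem hx'⟩

theorem h31v_In.mul_left {r x : F} (hr : r ∈ B) (hx : h31v_In B I x) :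
    h31v_In B I (r * x) := by
  obtain ⟨hx, hx'⟩ := hx
  exact ⟨B.mul_mem hr hx, I.mul_mem_left ⟨r, hr⟩ hx'⟩

theorem h31v_In.mul_right {r x : F} (hr : r ∈ B) (hx : h31v_In B I x) :
    h31v_In B I (x * r) := by
  rw [mul_comm]; exact hx.mul_left hr

theorem h31v_In.mono (hIJ : I ≤ J) {x : F} (hx : h31v_In B I x) : h31v_In B J x := by
  obtain ⟨hx, hx'⟩ := hx
  exact ⟨hx, hIJ hx'⟩

theorem h31v_In_of_mul [hI : I.IsPrime] {r x : F} (hr : r ∈ B) (hrI : ¬ h31v_In B I r)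
    (hx : x ∈ B) (h : h31v_In B I (r * x)) : h31v_In B I x := by
  obtain ⟨h1, h2⟩ := h
  have h3 : (⟨r, hr⟩ : B) * ⟨x, hx⟩ ∈ I := h2
  rcases hI.mem_or_mem h3 with h4 | h4
  · exact absurd ⟨hr, h4⟩ hrI
  · exact ⟨hx, h4⟩

theorem h31v_not_In_mul [hI : I.IsPrime] {r s : F} (hr : r ∈ B) (hs : s ∈ B)
    (hrI : ¬ h31v_In B I r) (hsI : ¬ h31v_In B I s) : ¬ h31v_In B I (r * s) := fun h =>
  hsI (h31v_In_of_mul hr hrI hs h)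

theorem h31v_not_In_pow [hI : I.IsPrime] {r : F} (hr : r ∈ B) (hrI : ¬ h31v_In B I r)
    (n : ℕ) : ¬ h31v_In B I (r ^ n) := by
  rintro ⟨h1, h2⟩
  have h3 : (⟨r, hr⟩ : B) ^ n ∈ I := h2
  exact hrI ⟨hr, hI.mem_of_pow_mem n h3⟩

theorem h31v_not_In_one [hI : I.IsPrime] : ¬ h31v_In B I 1 := by
  rintro ⟨h1, h2⟩
  exact hI.ne_top ((Ideal.eq_top_iff_one I).2 h2)

theorem h31v_not_In_of_le [hJ : J.IsPrime] (hIJ : I ≤ J) {r : F} (hrJ : ¬ h31v_In B J r) :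
    ¬ h31v_In B I r := fun h => hrJ (h.mono hIJ)

theorem h31v_In_sup_left {x : F} (hx : h31v_In B I x) : h31v_In B (I ⊔ J) x :=
  hx.mono le_sup_left

theorem h31v_In_sup_right {x : F} (hx : h31v_In B J x) : h31v_In B (I ⊔ J) x :=
  hx.mono le_sup_right

end In

section Transfer

variable {F : Type*} [Field F]

/-- `B ⊆ B'_{𝔫'}`, compatibly with the primes `𝔫`, `𝔫'`. -/
def h31v_Dom (B B' : Subring F) (𝔫 : Ideal B) (𝔫' : Ideal B') : Prop :=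
  ∀ x ∈ B, ∃ s ∈ B', ¬ h31v_In B' 𝔫' s ∧ s * x ∈ B' ∧
    (h31v_In B 𝔫 x ↔ h31v_In B' 𝔫' (s * x))

variable {B B' : Subring F} {𝔫 : Ideal B} {𝔫' : Ideal B'}

/-- under `h31v_Dom`, an element of `B ∖ 𝔫` has a denominator making it an element of
`B' ∖ 𝔫'`. -/
theorem h31v_Dom.unit (h1 : h31v_Dom B B' 𝔫 𝔫') {s : F} (hs : s ∈ B)
    (hs𝔫 : ¬ h31v_In B 𝔫 s) :
    ∃ σ ∈ B', ¬ h31v_In B' 𝔫' σ ∧ σ * s ∈ B' ∧ ¬ h31v_In B' 𝔫' (σ * s) := by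
  obtain ⟨σ, hσ, hσ𝔫, hσs, hiff⟩ := h1 s hs
  exact ⟨σ, hσ, hσ𝔫, hσs, fun h => hs𝔫 (hiff.2 h)⟩

/-- **transfer of membership**: if `I ⊆ I'` locally, `s ∉ 𝔫` and `s z' ∈ I`, then `S' z' ∈ I'`
for some `S' ∉ 𝔫'`. -/
theorem h31v_transfer_mem [h𝔫' : 𝔫'.IsPrime] (h1 : h31v_Dom B B' 𝔫 𝔫')
    (I : Ideal B) (I' : Ideal B')
    (hII' : ∀ b : F, h31v_In B I b → ∃ s ∈ B', ¬ h31v_In B' 𝔫' s ∧ h31v_In B' I' (s * b))
    {z' s : F} (hz' : z' ∈ B') (hs : s ∈ B) (hs𝔫 : ¬ h31v_In B 𝔫 s)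
    (hsz : h31v_In B I (s * z')) :
    ∃ S ∈ B', ¬ h31v_In B' 𝔫' S ∧ h31v_In B' I' (S * z') := by
  obtain ⟨s₁, hs₁, hs₁𝔫, hmem⟩ := hII' _ hsz
  obtain ⟨σ, hσ, hσ𝔫, hσs, hσs𝔫⟩ := h1.unit hs hs𝔫
  refine ⟨s₁ * (σ * s), B'.mul_mem hs₁ hσs, h31v_not_In_mul hs₁ hσs hs₁𝔫 hσs𝔫, ?_⟩
  have e : s₁ * (σ * s) * z' = σ * (s₁ * (s * z')) := by ring
  rw [e]
  exact hmem.mul_left hσ

/-- the pull-back of an ideal of `B'` to `B`. -/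
def h31v_pull [h𝔫' : 𝔫'.IsPrime] (h1 : h31v_Dom B B' 𝔫 𝔫') (P' : Ideal B') : Ideal B where
  carrier := {b | ∃ s ∈ B', ¬ h31v_In B' 𝔫' s ∧ h31v_In B' P' (s * (b : F))}
  add_mem' := by
    rintro a b ⟨s, hs, hs𝔫, ha⟩ ⟨s', hs', hs'𝔫, hb⟩
    refine ⟨s * s', B'.mul_mem hs hs', h31v_not_In_mul hs hs' hs𝔫 hs'𝔫, ?_⟩
    have e : s * s' * ((a + b : B) : F) = s' * (s * (a : F)) + s * (s' * (b : F)) := by
      push_cast; ring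
    rw [e]
    exact (ha.mul_left hs').add (hb.mul_left hs)
  zero_mem' := ⟨1, B'.one_mem, h31v_not_In_one, by simpa using h31v_In_zero⟩
  smul_mem' := by
    rintro r b ⟨s, hs, hs𝔫, hb⟩
    obtain ⟨σ, hσ, hσ𝔫, hσr, -⟩ := h1 r r.2
    refine ⟨σ * s, B'.mul_mem hσ hs, h31v_not_In_mul hσ hs hσ𝔫 hs𝔫, ?_⟩
    have e : σ * s * ((r • b : B) : F) = (σ * (r : F)) * (s * (b : F)) := by
      rw [smul_eq_mul]; push_cast; ring
    rw [e]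
    exact hb.mul_left hσr

theorem h31v_mem_pull [h𝔫' : 𝔫'.IsPrime] {h1 : h31v_Dom B B' 𝔫 𝔫'} {P' : Ideal B'} {b : B} :
    b ∈ h31v_pull h1 P' ↔ ∃ s ∈ B', ¬ h31v_In B' 𝔫' s ∧ h31v_In B' P' (s * (b : F)) :=
  Iff.rfl

/-- membership in the pull-back of a prime `P' ≤ 𝔫'` can be tested with any denominator. -/
theorem h31v_mem_pull_iff [h𝔫' : 𝔫'.IsPrime] {h1 : h31v_Dom B B' 𝔫 𝔫'} {P' : Ideal B'}
    [hP' : P'.IsPrime] (hle : P' ≤ 𝔫') {b : B} {s : F} (hs : s ∈ B')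
    (hs𝔫 : ¬ h31v_In B' 𝔫' s) (hsb : s * (b : F) ∈ B') :
    b ∈ h31v_pull h1 P' ↔ h31v_In B' P' (s * (b : F)) := by
  constructor
  · rintro ⟨s₀, hs₀, hs₀𝔫, hmem⟩
    have h2 : h31v_In B' P' (s₀ * (s * (b : F))) := by
      have e : s₀ * (s * (b : F)) = s * (s₀ * (b : F)) := by ring
      rw [e]
      exact hmem.mul_left hs
    exact h31v_In_of_mul hs₀ (h31v_not_In_of_le hle hs₀𝔫) hsb h2
  · intro h
    exact ⟨s, hs, hs𝔫, h⟩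

theorem h31v_pull_isPrime [h𝔫' : 𝔫'.IsPrime] (h1 : h31v_Dom B B' 𝔫 𝔫') (P' : Ideal B')
    [hP' : P'.IsPrime] (hle : P' ≤ 𝔫') : (h31v_pull h1 P').IsPrime := by
  refine ⟨?_, ?_⟩
  · intro h
    have h2 : (1 : B) ∈ h31v_pull h1 P' := (Ideal.eq_top_iff_one _).1 h
    obtain ⟨s, hs, hs𝔫, hmem⟩ := h2
    rw [Subring.coe_one, mul_one] at hmem
    exact hs𝔫 (hmem.mono hle)
  · intro x y hxy
    obtain ⟨σ, hσ, hσ𝔫, hσx, -⟩ := h1 x x.2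
    obtain ⟨τ, hτ, hτ𝔫, hτy, -⟩ := h1 y y.2
    have e : σ * τ * ((x * y : B) : F) = (σ * (x : F)) * (τ * (y : F)) := by
      push_cast; ring
    have h2 : σ * τ * ((x * y : B) : F) ∈ B' := by
      rw [e]; exact B'.mul_mem hσx hτy
    have h3 := (h31v_mem_pull_iff hle (B'.mul_mem hσ hτ)
      (h31v_not_In_mul hσ hτ hσ𝔫 hτ𝔫) h2).1 hxy
    rw [e] at h3
    obtain ⟨h4, h5⟩ := h3
    have h6 : (⟨σ * (x : F), hσx⟩ : B') * ⟨τ * (y : F), hτy⟩ ∈ P' := h5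
    rcases hP'.mem_or_mem h6 with h7 | h7
    · exact Or.inl ⟨σ, hσ, hσ𝔫, hσx, h7⟩
    · exact Or.inr ⟨τ, hτ, hτ𝔫, hτy, h7⟩

theorem h31v_pull_le [h𝔫' : 𝔫'.IsPrime] (h1 : h31v_Dom B B' 𝔫 𝔫') (P' : Ideal B')
    (hle : P' ≤ 𝔫') : h31v_pull h1 P' ≤ 𝔫 := by
  rintro b ⟨s, hs, hs𝔫, hmem⟩
  obtain ⟨σ, hσ, hσ𝔫, hσb, hiff⟩ := h1 b b.2
  have h2 : h31v_In B' 𝔫' (s * (σ * (b : F))) := by
    have e : s * (σ * (b : F)) = σ * (s * (b : F)) := by ring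
    rw [e]
    exact (hmem.mono hle).mul_left hσ
  have h3 := h31v_In_of_mul hs hs𝔫 hσb h2
  exact (h31v_In_coe b).1 (hiff.2 h3)

theorem h31v_pull_self [h𝔫' : 𝔫'.IsPrime] (h1 : h31v_Dom B B' 𝔫 𝔫') :
    h31v_pull h1 𝔫' = 𝔫 := by
  refine le_antisymm (h31v_pull_le h1 𝔫' le_rfl) ?_
  intro b hb
  obtain ⟨σ, hσ, hσ𝔫, hσb, hiff⟩ := h1 b b.2
  exact ⟨σ, hσ, hσ𝔫, hiff.1 ((h31v_In_coe b).2 hb)⟩

/-- the pull-back is injective on the primes below `𝔫'`. -/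
theorem h31v_pull_le_imp [h𝔫 : 𝔫.IsPrime] [h𝔫' : 𝔫'.IsPrime] (h1 : h31v_Dom B B' 𝔫 𝔫')
    (h2 : h31v_Dom B' B 𝔫' 𝔫) (P' Q' : Ideal B') [hQ' : Q'.IsPrime]
    (hQle : Q' ≤ 𝔫') (h : h31v_pull h1 P' ≤ h31v_pull h1 Q') : P' ≤ Q' := by
  intro x' hx'
  obtain ⟨s, hs, hs𝔫, hsx, -⟩ := h2 (x' : F) x'.2
  obtain ⟨σ, hσ, hσ𝔫, hσs, hσs𝔫⟩ := h1.unit hs hs𝔫
  have hmem : (⟨s * (x' : F), hsx⟩ : B) ∈ h31v_pull h1 P' := by
    refine ⟨σ, hσ, hσ𝔫, ?_⟩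
    have e : σ * ((⟨s * (x' : F), hsx⟩ : B) : F) = (σ * s) * (x' : F) := by
      show σ * (s * (x' : F)) = _
      ring
    rw [e]
    exact ((h31v_In_coe x').2 hx').mul_left hσs
  obtain ⟨τ, hτ, hτ𝔫, hτmem⟩ := h hmem
  have h3 : h31v_In B' Q' (τ * (σ * s) * (x' : F)) := by
    have e : τ * (σ * s) * (x' : F) = σ * (τ * ((⟨s * (x' : F), hsx⟩ : B) : F)) := by
      show _ = σ * (τ * (s * (x' : F)))
      ring
    rw [e]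
    exact hτmem.mul_left hσ
  have h4 := h31v_In_of_mul (B'.mul_mem hτ hσs)
    (h31v_not_In_of_le hQle (h31v_not_In_mul hτ hσs hτ𝔫 hσs𝔫)) x'.2 h3
  exact (h31v_In_coe x').1 h4

theorem h31v_pull_ne [h𝔫 : 𝔫.IsPrime] [h𝔫' : 𝔫'.IsPrime] (h1 : h31v_Dom B B' 𝔫 𝔫')
    (h2 : h31v_Dom B' B 𝔫' 𝔫) (P' : Ideal B') [hP' : P'.IsPrime] (hle : P' ≤ 𝔫')
    (hne : P' ≠ 𝔫') : h31v_pull h1 P' ≠ 𝔫 := by
  intro h
  apply hne
  refine le_antisymm hle ?_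
  refine h31v_pull_le_imp h1 h2 𝔫' P' hle ?_
  rw [h31v_pull_self, h]

theorem h31v_pull_ne_pull [h𝔫 : 𝔫.IsPrime] [h𝔫' : 𝔫'.IsPrime] (h1 : h31v_Dom B B' 𝔫 𝔫')
    (h2 : h31v_Dom B' B 𝔫' 𝔫) (P' Q' : Ideal B') [hP' : P'.IsPrime] [hQ' : Q'.IsPrime]
    (hPle : P' ≤ 𝔫') (hQle : Q' ≤ 𝔫') (hne : P' ≠ Q') :
    h31v_pull h1 P' ≠ h31v_pull h1 Q' := by
  intro h
  apply hne
  exact le_antisymm (h31v_pull_le_imp h1 h2 P' Q' hQle h.le)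
    (h31v_pull_le_imp h1 h2 Q' P' hPle h.ge)

/-- **Transfer of `H62RegAt`** between two subrings with the same local ring. -/
theorem h31v_regAt_transfer [h𝔫 : 𝔫.IsPrime] [h𝔫' : 𝔫'.IsPrime]
    (h1 : h31v_Dom B B' 𝔫 𝔫') (h2 : h31v_Dom B' B 𝔫' 𝔫) {π : B} {π' : B'}
    (hπ : (π : F) = (π' : F)) (H : H62RegAt 𝔫 π) : H62RegAt 𝔫' π' := by
  classical
  -- the common pattern
  have key : ∀ (I : Ideal B) (I' : Ideal B'),
      (∀ b : F, h31v_In B I b → ∃ s ∈ B', ¬ h31v_In B' 𝔫' s ∧ h31v_In B' I' (s * b)) →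
      (∀ z ∈ 𝔫, ∃ s, s ∉ 𝔫 ∧ s * z ∈ I) → ∀ z' ∈ 𝔫', ∃ s', s' ∉ 𝔫' ∧ s' * z' ∈ I' := by
    intro I I' hII' hloc z' hz'
    obtain ⟨s, hs, hs𝔫, hsz, hiff⟩ := h2 (z' : F) z'.2
    have hz𝔫 : (⟨s * (z' : F), hsz⟩ : B) ∈ 𝔫 :=
      (h31v_In_coe _).1 (hiff.1 ((h31v_In_coe z').2 hz'))
    obtain ⟨s₂, hs₂, hs₂z⟩ := hloc _ hz𝔫
    have hmem : h31v_In B I (((s₂ : F) * s) * (z' : F)) := by
      have e : ((s₂ : F) * s) * (z' : F) = ((s₂ * ⟨s * (z' : F), hsz⟩ : B) : F) := by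
        push_cast; ring
      rw [e]
      exact (h31v_In_coe _).2 hs₂z
    obtain ⟨S, hS, hS𝔫, hSz⟩ := h31v_transfer_mem h1 I I' hII' z'.2
      (B.mul_mem s₂.2 hs)
      (h31v_not_In_mul s₂.2 hs (fun h => hs₂ ((h31v_In_coe s₂).1 h)) hs𝔫) hmem
    refine ⟨⟨S, hS⟩, fun h => hS𝔫 ⟨hS, h⟩, ?_⟩
    obtain ⟨h3, h4⟩ := hSz
    exact h4
  refine ⟨?_, ?_, ?_⟩
  · -- two_gen
    obtain ⟨x, hx, y, hy, hgen⟩ := H.two_gen
    obtain ⟨σ, hσ, hσ𝔫, hσx, hxiff⟩ := h1 x x.2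
    obtain ⟨τ, hτ, hτ𝔫, hτy, hyiff⟩ := h1 y y.2
    have hx' : (⟨σ * (x : F), hσx⟩ : B') ∈ 𝔫' :=
      (h31v_In_coe _).1 (hxiff.1 ((h31v_In_coe x).2 hx))
    have hy' : (⟨τ * (y : F), hτy⟩ : B') ∈ 𝔫' :=
      (h31v_In_coe _).1 (hyiff.1 ((h31v_In_coe y).2 hy))
    refine ⟨⟨σ * (x : F), hσx⟩, hx', ⟨τ * (y : F), hτy⟩, hy', ?_⟩
    refine key (Ideal.span {x, y}) _ ?_ hgen
    rintro b ⟨hb, hbI⟩
    obtain ⟨a, c, hac⟩ := Ideal.mem_span_pair.mp hbI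
    obtain ⟨α, hα, hα𝔫, hαa, -⟩ := h1 a a.2
    obtain ⟨γ, hγ, hγ𝔫, hγc, -⟩ := h1 c c.2
    refine ⟨α * γ * (σ * τ), B'.mul_mem (B'.mul_mem hα hγ) (B'.mul_mem hσ hτ),
      h31v_not_In_mul (B'.mul_mem hα hγ) (B'.mul_mem hσ hτ)
        (h31v_not_In_mul hα hγ hα𝔫 hγ𝔫) (h31v_not_In_mul hσ hτ hσ𝔫 hτ𝔫), ?_⟩
    have hb' : b = (a : F) * (x : F) + (c : F) * (y : F) := by
      have := congrArg (fun z : B => (z : F)) hac
      simpa using this.symm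
    have e : α * γ * (σ * τ) * b =
        (γ * τ * (α * (a : F))) * (σ * (x : F)) + (α * σ * (γ * (c : F))) * (τ * (y : F)) := by
      rw [hb']; ring
    rw [e]
    have hX : h31v_In B' (Ideal.span {(⟨σ * (x : F), hσx⟩ : B'), ⟨τ * (y : F), hτy⟩})
        (σ * (x : F)) :=
      ⟨hσx, Ideal.subset_span (Set.mem_insert _ _)⟩
    have hY : h31v_In B' (Ideal.span {(⟨σ * (x : F), hσx⟩ : B'), ⟨τ * (y : F), hτy⟩})
        (τ * (y : F)) :=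
      ⟨hτy, Ideal.subset_span (Set.mem_insert_of_mem _ rfl)⟩
    exact (hX.mul_left (B'.mul_mem (B'.mul_mem hγ hτ) hαa)).add
      (hY.mul_left (B'.mul_mem (B'.mul_mem hα hσ) hγc))
  · -- branch
    intro P' hP' hπP' hle hne
    haveI := hP'
    have hPprime := h31v_pull_isPrime h1 P' hle
    have hπP : π ∈ h31v_pull h1 P' := by
      refine ⟨1, B'.one_mem, h31v_not_In_one, ?_⟩
      rw [one_mul, hπ]
      exact (h31v_In_coe π').2 hπP'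
    obtain ⟨t, ht, hgen⟩ := H.branch (h31v_pull h1 P') hPprime hπP (h31v_pull_le h1 P' hle)
      (h31v_pull_ne h1 h2 P' hle hne)
    obtain ⟨σ, hσ, hσ𝔫, hσt, htiff⟩ := h1 t t.2
    have ht' : (⟨σ * (t : F), hσt⟩ : B') ∈ 𝔫' :=
      (h31v_In_coe _).1 (htiff.1 ((h31v_In_coe t).2 ht))
    refine ⟨⟨σ * (t : F), hσt⟩, ht', ?_⟩
    refine key (h31v_pull h1 P' ⊔ Ideal.span {t}) _ ?_ hgen
    rintro b ⟨hb, hbI⟩
    obtain ⟨p, hp, r, hr, hpr⟩ := Submodule.mem_sup.mp hbI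
    obtain ⟨a, ha⟩ := Ideal.mem_span_singleton'.mp hr
    obtain ⟨ρ, hρ, hρ𝔫, hρp⟩ := hp
    obtain ⟨α, hα, hα𝔫, hαa, -⟩ := h1 a a.2
    refine ⟨ρ * (α * σ), B'.mul_mem hρ (B'.mul_mem hα hσ),
      h31v_not_In_mul hρ (B'.mul_mem hα hσ) hρ𝔫 (h31v_not_In_mul hα hσ hα𝔫 hσ𝔫), ?_⟩
    have hb' : b = (p : F) + (a : F) * (t : F) := by
      have h3 := congrArg (fun z : B => (z : F)) hpr
      have h4 := congrArg (fun z : B => (z : F)) ha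
      simp only [Subring.coe_add, Subring.coe_mul] at h3 h4
      rw [← h3, ← h4]
    have e : ρ * (α * σ) * b =
        (α * σ) * (ρ * (p : F)) + (ρ * (α * (a : F))) * (σ * (t : F)) := by
      rw [hb']; ring
    rw [e]
    have hT : h31v_In B' (Ideal.span {(⟨σ * (t : F), hσt⟩ : B')}) (σ * (t : F)) :=
      ⟨hσt, Ideal.mem_span_singleton_self _⟩
    exact (h31v_In_sup_left (hρp.mul_left (B'.mul_mem hα hσ))).add
      (h31v_In_sup_right (hT.mul_left (B'.mul_mem hρ hαa)))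
  · -- transversal
    intro P' Q' hP' hQ' hπP' hπQ' hPle hQle hPne hQne hPQ
    haveI := hP'
    haveI := hQ'
    have hPprime := h31v_pull_isPrime h1 P' hPle
    have hQprime := h31v_pull_isPrime h1 Q' hQle
    have hπP : π ∈ h31v_pull h1 P' := by
      refine ⟨1, B'.one_mem, h31v_not_In_one, ?_⟩
      rw [one_mul, hπ]
      exact (h31v_In_coe π').2 hπP'
    have hπQ : π ∈ h31v_pull h1 Q' := by
      refine ⟨1, B'.one_mem, h31v_not_In_one, ?_⟩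
      rw [one_mul, hπ]
      exact (h31v_In_coe π').2 hπQ'
    have hgen := H.transversal (h31v_pull h1 P') (h31v_pull h1 Q') hPprime hQprime hπP hπQ
      (h31v_pull_le h1 P' hPle) (h31v_pull_le h1 Q' hQle)
      (h31v_pull_ne h1 h2 P' hPle hPne) (h31v_pull_ne h1 h2 Q' hQle hQne)
      (h31v_pull_ne_pull h1 h2 P' Q' hPle hQle hPQ)
    refine key (h31v_pull h1 P' ⊔ h31v_pull h1 Q') _ ?_ hgen
    rintro b ⟨hb, hbI⟩
    obtain ⟨p, hp, r, hr, hpr⟩ := Submodule.mem_sup.mp hbI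
    obtain ⟨ρ, hρ, hρ𝔫, hρp⟩ := hp
    obtain ⟨τ, hτ, hτ𝔫, hτr⟩ := hr
    refine ⟨ρ * τ, B'.mul_mem hρ hτ, h31v_not_In_mul hρ hτ hρ𝔫 hτ𝔫, ?_⟩
    have hb' : b = (p : F) + (r : F) := by
      have h3 := congrArg (fun z : B => (z : F)) hpr
      simp only [Subring.coe_add] at h3
      rw [← h3]
    have e : ρ * τ * b = τ * (ρ * (p : F)) + ρ * (τ * (r : F)) := by
      rw [hb']; ring
    rw [e]
    exact (h31v_In_sup_left (hρp.mul_left hτ)).add (h31v_In_sup_right (hτr.mul_left hρ))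

end Transfer

end Fermat.Agent.S36
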