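import Mathlib
import Fermat.Agent.S36.H31RegOverlapAbs
import Fermat.Agent.LGC.H31OverlapAbs

/-!
# S36, block REG, row R-OVERLAP (helper31): contraction through an overlap, abstract part

Two subrings `B ∋ t`, `B' ∋ t⁻¹` of a field `F` with the same overlap (`B[1/t] = B'[t]`, in the
form of the two scaling properties).  For a prime ideal `𝔫'` of `B'` not containing `t⁻¹`:

* `h31v_contr B B' t ht' hs' 𝔫'` : the contraction of `𝔫'` to `B`; it is prime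
  (`h31v_contr_isPrime`), the two local rings coincide (`h31v_dom_contr`, `h31v_dom_contr'`);
* `h31v_contr_isMaximal` : it is maximal if `𝔫'` is, `B'` is integral over `A₀[t⁻¹]` for a local
  ring `A₀` whose non-units lie in `𝔫'`.
* `h31v_regAt_of_contr` : **`H62RegAt` at `𝔫'` from `H62RegAt` at the contraction.**

Mathlib + `H62RegIface` + the peeling lemma of `LGC/H31OverlapAbs`.
-/

set_option autoImplicit false
set_option linter.unusedSectionVars false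

open Polynomial IsLocalRing

namespace Fermat.Agent.S36

section Overlap

variable {F : Type*} [Field F] (B B' : Subring F) (t : F)

/-- the contraction of an ideal of `B'` to `B` through the overlap. -/
def h31v_contr (ht' : t⁻¹ ∈ B') (hs' : ∀ y ∈ B, ∃ n : ℕ, t⁻¹ ^ n * y ∈ B') (I : Ideal B') :
    Ideal B where
  carrier := {b | ∃ n : ℕ, h31v_In B' I (t⁻¹ ^ n * (b : F))}
  add_mem' := by
    rintro a b ⟨m, hm⟩ ⟨n, hn⟩
    refine ⟨m + n, ?_⟩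
    have h1 : t⁻¹ ^ (m + n) * ((a + b : B) : F) =
        t⁻¹ ^ n * (t⁻¹ ^ m * (a : F)) + t⁻¹ ^ m * (t⁻¹ ^ n * (b : F)) := by
      push_cast; ring
    rw [h1]
    exact (hm.mul_left (B'.pow_mem ht' n)).add (hn.mul_left (B'.pow_mem ht' m))
  zero_mem' := ⟨0, by simpa using h31v_In_zero⟩
  smul_mem' := by
    rintro r b ⟨n, hn⟩
    obtain ⟨k, hk⟩ := hs' r r.2
    refine ⟨k + n, ?_⟩
    have h1 : t⁻¹ ^ (k + n) * ((r • b : B) : F) = (t⁻¹ ^ k * (r : F)) * (t⁻¹ ^ n * (b : F)) := by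
      rw [smul_eq_mul]; push_cast; ring
    rw [h1]
    exact hn.mul_left hk

variable {B B' t}

theorem h31v_mem_contr {ht' : t⁻¹ ∈ B'} {hs' : ∀ y ∈ B, ∃ n : ℕ, t⁻¹ ^ n * y ∈ B'}
    {I : Ideal B'} {b : B} :
    b ∈ h31v_contr B B' t ht' hs' I ↔ ∃ n : ℕ, h31v_In B' I (t⁻¹ ^ n * (b : F)) :=
  Iff.rfl

/-- membership in the contraction can be tested with any admissible exponent. -/
theorem h31v_mem_contr_iff {ht' : t⁻¹ ∈ B'} {hs' : ∀ y ∈ B, ∃ n : ℕ, t⁻¹ ^ n * y ∈ B'}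
    {I : Ideal B'} [hI : I.IsPrime] (htI : ¬ h31v_In B' I t⁻¹) {b : B} {n : ℕ}
    (h : t⁻¹ ^ n * (b : F) ∈ B') :
    b ∈ h31v_contr B B' t ht' hs' I ↔ h31v_In B' I (t⁻¹ ^ n * (b : F)) := by
  constructor
  · rintro ⟨m, hm⟩
    have h1 : h31v_In B' I (t⁻¹ ^ m * (t⁻¹ ^ n * (b : F))) := by
      have h2 : t⁻¹ ^ m * (t⁻¹ ^ n * (b : F)) = t⁻¹ ^ n * (t⁻¹ ^ m * (b : F)) := by ring
      rw [h2]
      exact hm.mul_left (B'.pow_mem ht' n)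
    exact h31v_In_of_mul (B'.pow_mem ht' m) (h31v_not_In_pow ht' htI m) h h1
  · intro h1
    exact ⟨n, h1⟩

theorem h31v_one_not_mem_contr {ht' : t⁻¹ ∈ B'} {hs' : ∀ y ∈ B, ∃ n : ℕ, t⁻¹ ^ n * y ∈ B'}
    {I : Ideal B'} [hI : I.IsPrime] (htI : ¬ h31v_In B' I t⁻¹) :
    (1 : B) ∉ h31v_contr B B' t ht' hs' I := by
  intro h
  have h0 : t⁻¹ ^ 0 * ((1 : B) : F) ∈ B' := by
    rw [pow_zero, one_mul]; exact B'.one_mem
  have h1 := (h31v_mem_contr_iff htI h0).1 h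
  rw [pow_zero, one_mul, Subring.coe_one] at h1
  exact h31v_not_In_one h1

theorem h31v_contr_isPrime {ht' : t⁻¹ ∈ B'} {hs' : ∀ y ∈ B, ∃ n : ℕ, t⁻¹ ^ n * y ∈ B'}
    {I : Ideal B'} [hI : I.IsPrime] (htI : ¬ h31v_In B' I t⁻¹) :
    (h31v_contr B B' t ht' hs' I).IsPrime := by
  refine ⟨fun h => h31v_one_not_mem_contr htI ((Ideal.eq_top_iff_one _).1 h), ?_⟩
  intro x y hxy
  obtain ⟨n, hn⟩ := hs' x x.2
  obtain ⟨m, hm⟩ := hs' y y.2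
  have h1 : t⁻¹ ^ (n + m) * ((x * y : B) : F) = (t⁻¹ ^ n * (x : F)) * (t⁻¹ ^ m * (y : F)) := by
    push_cast; ring
  have h2 : t⁻¹ ^ (n + m) * ((x * y : B) : F) ∈ B' := by
    rw [h1]; exact B'.mul_mem hn hm
  have h3 := (h31v_mem_contr_iff htI h2).1 hxy
  obtain ⟨h4, h5⟩ := h3
  have h6 : (⟨t⁻¹ ^ (n + m) * ((x * y : B) : F), h4⟩ : B') =
      (⟨t⁻¹ ^ n * (x : F), hn⟩ : B') * ⟨t⁻¹ ^ m * (y : F), hm⟩ := Subtype.ext h1
  rw [h6] at h5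
  rcases hI.mem_or_mem h5 with h7 | h7
  · exact Or.inl ⟨n, hn, h7⟩
  · exact Or.inr ⟨m, hm, h7⟩

theorem h31v_inv_pow_mul_pow (ht : t ≠ 0) (m : ℕ) : t⁻¹ ^ m * t ^ m = 1 := by
  rw [← mul_pow, inv_mul_cancel₀ ht, one_pow]

/-- `t` is not in the contraction. -/
theorem h31v_t_not_mem_contr (ht : t ≠ 0) (ht₀ : t ∈ B) {ht' : t⁻¹ ∈ B'}
    {hs' : ∀ y ∈ B, ∃ n : ℕ, t⁻¹ ^ n * y ∈ B'} {I : Ideal B'} [hI : I.IsPrime]
    (htI : ¬ h31v_In B' I t⁻¹) : (⟨t, ht₀⟩ : B) ∉ h31v_contr B B' t ht' hs' I := by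
  intro h
  have h0 : t⁻¹ ^ 1 * ((⟨t, ht₀⟩ : B) : F) ∈ B' := by
    rw [pow_one, inv_mul_cancel₀ ht]; exact B'.one_mem
  have h1 := (h31v_mem_contr_iff htI h0).1 h
  have h2 : t⁻¹ ^ 1 * ((⟨t, ht₀⟩ : B) : F) = 1 := by
    rw [pow_one]; exact inv_mul_cancel₀ ht
  rw [h2] at h1
  exact h31v_not_In_one h1

/-- `B ⊆ B'_{𝔫'}` compatibly with the contraction. -/
theorem h31v_dom_contr (ht' : t⁻¹ ∈ B') (hs' : ∀ y ∈ B, ∃ n : ℕ, t⁻¹ ^ n * y ∈ B')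
    (I : Ideal B') [hI : I.IsPrime] (htI : ¬ h31v_In B' I t⁻¹) :
    h31v_Dom B B' (h31v_contr B B' t ht' hs' I) I := by
  intro x hx
  obtain ⟨n, hn⟩ := hs' x hx
  refine ⟨t⁻¹ ^ n, B'.pow_mem ht' n, h31v_not_In_pow ht' htI n, hn, ?_⟩
  constructor
  · rintro ⟨h1, h2⟩
    exact (h31v_mem_contr_iff htI (b := ⟨x, hx⟩) hn).1 h2
  · intro h
    exact ⟨hx, (h31v_mem_contr_iff htI (b := ⟨x, hx⟩) hn).2 h⟩

/-- `B' ⊆ B_𝔫` compatibly with the contraction. -/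
theorem h31v_dom_contr' (ht : t ≠ 0) (ht₀ : t ∈ B) (ht' : t⁻¹ ∈ B')
    (hs : ∀ y ∈ B', ∃ n : ℕ, t ^ n * y ∈ B)
    (hs' : ∀ y ∈ B, ∃ n : ℕ, t⁻¹ ^ n * y ∈ B')
    (I : Ideal B') [hI : I.IsPrime] (htI : ¬ h31v_In B' I t⁻¹) :
    h31v_Dom B' B I (h31v_contr B B' t ht' hs' I) := by
  have hprime : (h31v_contr B B' t ht' hs' I).IsPrime := h31v_contr_isPrime htI
  intro x hx
  obtain ⟨n, hn⟩ := hs x hx
  have htn : ¬ h31v_In B (h31v_contr B B' t ht' hs' I) (t ^ n) := by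
    refine h31v_not_In_pow ht₀ ?_ n
    rintro ⟨h1, h2⟩
    exact h31v_t_not_mem_contr ht ht₀ htI h2
  have hback : t⁻¹ ^ n * ((⟨t ^ n * x, hn⟩ : B) : F) = x := by
    show t⁻¹ ^ n * (t ^ n * x) = x
    rw [← mul_assoc, h31v_inv_pow_mul_pow ht, one_mul]
  have hback' : t⁻¹ ^ n * ((⟨t ^ n * x, hn⟩ : B) : F) ∈ B' := by
    rw [hback]; exact hx
  refine ⟨t ^ n, B.pow_mem ht₀ n, htn, hn, ?_⟩
  constructor
  · intro h
    refine ⟨hn, (h31v_mem_contr_iff htI hback').2 ?_⟩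
    rw [hback]
    exact h
  · rintro ⟨h1, h2⟩
    have h3 := (h31v_mem_contr_iff htI hback').1 h2
    rw [hback] at h3
    exact h3

end Overlap

section Maximal

variable {F : Type*} [Field F] {B B' : Subring F} {t : F}
variable {A₀ : Type*} [CommRing A₀] [IsLocalRing A₀]

/-- `t` is invertible modulo the contraction of a maximal ideal `𝔫'` with `t⁻¹ ∉ 𝔫'`. -/
theorem h31v_exists_inv_mod_contr (ht : t ≠ 0) (ht₀ : t ∈ B) (ht' : t⁻¹ ∈ B')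
    (hs' : ∀ y ∈ B, ∃ n : ℕ, t⁻¹ ^ n * y ∈ B')
    (ev : A₀[X] →+* F) (hevX : ev X = t⁻¹) (hevB' : ∀ P, ev P ∈ B')
    (hcB : ∀ a, ev (C a) ∈ B)
    (hint' : ∀ y ∈ B', ev.IsIntegralElem y)
    (𝔫' : Ideal B') [h𝔫' : 𝔫'.IsMaximal]
    (hm : ∀ a : A₀, ¬ IsUnit a → h31v_In B' 𝔫' (ev (C a)))
    (htn : ¬ h31v_In B' 𝔫' t⁻¹) :
    ∃ t' : B, (⟨t, ht₀⟩ : B) * t' - 1 ∈ h31v_contr B B' t ht' hs' 𝔫' := by
  classical
  have : 𝔫'.IsPrime := h𝔫'.isPrime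
  -- the evaluation `A₀[X] → B'`
  set g : A₀[X] →+* B' := ev.codRestrict B' hevB' with hg
  have hgev : ∀ P : A₀[X], ((g P : B') : F) = ev P := fun P => rfl
  have hgint : g.IsIntegral := by
    intro y
    obtain ⟨p, hp, hroot⟩ := hint' y.1 y.2
    refine ⟨p, hp, ?_⟩
    apply Subtype.ext
    have h1 : ((eval₂ g y p : B') : F) =
        eval₂ (B'.subtype.comp g) (B'.subtype y) p :=
      Polynomial.hom_eval₂ p g B'.subtype y
    have h2 : B'.subtype.comp g = ev := RingHom.ext fun P => hgev P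
    rw [h1, h2]
    exact hroot
  have hmax : (𝔫'.comap g).IsMaximal :=
    Ideal.isMaximal_comap_of_isIntegral_of_isMaximal' _ hgint 𝔫'
  have hX : (X : A₀[X]) ∉ 𝔫'.comap g := by
    intro h
    rw [Ideal.mem_comap] at h
    apply htn
    have h1 : ((g X : B') : F) = t⁻¹ := by rw [hgev, hevX]
    rw [← h1]
    exact (h31v_In_coe _).2 h
  obtain ⟨P, i, hi, hPi⟩ := hmax.exists_inv hX
  -- `1 - t⁻¹ P(t⁻¹) ∈ 𝔫'`
  have hi' : h31v_In B' 𝔫' (1 - ev P * t⁻¹) := by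
    have h1 : i = 1 - P * X := by rw [← hPi]; ring
    rw [Ideal.mem_comap, h1] at hi
    have h2 : ((g (1 - P * X) : B') : F) = 1 - ev P * t⁻¹ := by
      rw [hgev, map_sub, map_mul, map_one, hevX]
    rw [← h2]
    exact (h31v_In_coe _).2 hi
  -- the constants
  set φ : A₀ →+* F := ev.comp C with hφ
  set φB : A₀ →+* B := φ.codRestrict B hcB with hφB
  -- the reflected polynomial
  set d := P.natDegree with hd
  set u : A₀[X] := reflect d P with hu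
  have hudeg : u.natDegree ≤ d := by
    rw [natDegree_le_iff_coeff_eq_zero]
    intro N hN
    rw [hu, coeff_reflect, revAt_eq_self_of_lt hN]
    exact coeff_eq_zero_of_natDegree_lt hN
  set H : A₀[X] := X ^ (d + 1) - u with hH
  have hHmonic : H.Monic := by
    apply monic_X_pow_sub
    exact lt_of_le_of_lt (degree_le_of_natDegree_le hudeg) (by exact_mod_cast Nat.lt_succ_self d)
  have hevcomm : ∀ Q : A₀[X], ev Q = eval₂ φ t⁻¹ Q := by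
    intro Q
    have h1 : ev = eval₂RingHom φ t⁻¹ := by
      apply Polynomial.ringHom_ext
      · intro a; simp [hφ]
      · rw [hevX]; simp
    rw [h1]; rfl
  have hrefl : eval₂ φ t u * t⁻¹ ^ d = ev P := by
    let _ : Invertible t⁻¹ := invertibleOfNonzero (inv_ne_zero ht)
    have h1 := eval₂_reflect_mul_pow φ t⁻¹ d P le_rfl
    have h2 : ⅟(t⁻¹) = t := by
      rw [invOf_eq_inv, inv_inv]
    rw [h2] at h1
    rw [hevcomm, ← h1]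
  letI : Algebra A₀ B := φB.toAlgebra
  have hcoe : ∀ Q : A₀[X], ((aeval (⟨t, ht₀⟩ : B) Q : B) : F) = eval₂ φ t Q := by
    intro Q
    have h2 : (B.subtype.comp ((aeval (⟨t, ht₀⟩ : B) : A₀[X] →ₐ[A₀] B) : A₀[X] →+* B))
        = eval₂RingHom φ t := by
      apply Polynomial.ringHom_ext
      · intro a
        simp only [RingHom.comp_apply, RingHom.coe_coe, aeval_C, coe_eval₂RingHom, eval₂_C]
        rfl
      · simp
    exact congrArg (fun f : A₀[X] →+* F => f Q) h2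
  have hHt : (aeval (⟨t, ht₀⟩ : B) H : B) ∈ h31v_contr B B' t ht' hs' 𝔫' := by
    refine ⟨d + 1, ?_⟩
    have h3 : t⁻¹ ^ (d + 1) * ((aeval (⟨t, ht₀⟩ : B) H : B) : F) = 1 - ev P * t⁻¹ := by
      rw [hcoe, hH, eval₂_sub, eval₂_pow, eval₂_X, ← hrefl]
      have h4 := h31v_inv_pow_mul_pow ht (d + 1)
      rw [mul_sub, h4, pow_succ]
      ring
    rw [h3]
    exact hi'
  -- peel
  have hprime : (h31v_contr B B' t ht' hs' 𝔫').IsPrime := h31v_contr_isPrime htn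
  have hmA : ∀ a : A₀, ¬ IsUnit a → algebraMap A₀ B a ∈ h31v_contr B B' t ht' hs' 𝔫' := by
    intro a ha
    refine ⟨0, ?_⟩
    have h1 : t⁻¹ ^ 0 * ((algebraMap A₀ B a : B) : F) = ev (C a) := by
      rw [pow_zero, one_mul]; rfl
    rw [h1]
    exact hm a ha
  have htc : (⟨t, ht₀⟩ : B) ∉ h31v_contr B B' t ht' hs' 𝔫' := h31v_t_not_mem_contr ht ht₀ htn
  exact Fermat.Agent.LGC.h31o_peel (h31v_contr B B' t ht' hs' 𝔫') hmA ⟨t, ht₀⟩ htc _ H hHmonic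
    rfl hHt

/-- the contraction of a maximal ideal `𝔫'` with `t⁻¹ ∉ 𝔫'` is a maximal ideal. -/
theorem h31v_contr_isMaximal (ht : t ≠ 0) (ht₀ : t ∈ B) (ht' : t⁻¹ ∈ B')
    (hs : ∀ y ∈ B', ∃ n : ℕ, t ^ n * y ∈ B)
    (hs' : ∀ y ∈ B, ∃ n : ℕ, t⁻¹ ^ n * y ∈ B')
    (ev : A₀[X] →+* F) (hevX : ev X = t⁻¹) (hevB' : ∀ P, ev P ∈ B')
    (hcB : ∀ a, ev (C a) ∈ B)
    (hint' : ∀ y ∈ B', ev.IsIntegralElem y)
    (𝔫' : Ideal B') [h𝔫' : 𝔫'.IsMaximal]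
    (hm : ∀ a : A₀, ¬ IsUnit a → h31v_In B' 𝔫' (ev (C a)))
    (htn : ¬ h31v_In B' 𝔫' t⁻¹) :
    (h31v_contr B B' t ht' hs' 𝔫').IsMaximal := by
  classical
  have : 𝔫'.IsPrime := h𝔫'.isPrime
  obtain ⟨t', ht'inv⟩ := h31v_exists_inv_mod_contr ht ht₀ ht' hs' ev hevX hevB' hcB hint' 𝔫' hm
    htn
  rw [Ideal.isMaximal_iff]
  refine ⟨h31v_one_not_mem_contr htn, ?_⟩
  intro J x hJ hx hxJ
  obtain ⟨k, hk⟩ := hs' x x.2
  have hx₁ : ¬ h31v_In B' 𝔫' (t⁻¹ ^ k * (x : F)) := fun h =>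
    hx ((h31v_mem_contr_iff htn hk).2 h)
  have hx₁' : (⟨t⁻¹ ^ k * (x : F), hk⟩ : B') ∉ 𝔫' := fun h => hx₁ ⟨hk, h⟩
  obtain ⟨c, i, hi, hci⟩ := h𝔫'.exists_inv hx₁'
  obtain ⟨m, hm'⟩ := hs c c.2
  have hci' : (c : F) * (t⁻¹ ^ k * (x : F)) + (i : F) = 1 := by
    have := congrArg (fun b : B' => (b : F)) hci
    simpa using this
  have hmem : x * (⟨t ^ m * (c : F), hm'⟩ : B) - (⟨t, ht₀⟩ : B) ^ (m + k) ∈
      h31v_contr B B' t ht' hs' 𝔫' := by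
    refine ⟨m + k, ?_⟩
    have h1 : t⁻¹ ^ (m + k) *
        ((x * (⟨t ^ m * (c : F), hm'⟩ : B) - (⟨t, ht₀⟩ : B) ^ (m + k) : B) : F) =
        -(i : F) := by
      push_cast
      have h2 := h31v_inv_pow_mul_pow ht (m + k)
      have h3 := h31v_inv_pow_mul_pow ht m
      have h4 : t⁻¹ ^ (m + k) * ((x : F) * (t ^ m * (c : F)) - t ^ (m + k)) =
          (t⁻¹ ^ m * t ^ m) * ((c : F) * (t⁻¹ ^ k * (x : F))) - t⁻¹ ^ (m + k) * t ^ (m + k) := by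
        ring
      rw [h4, h2, h3, one_mul]
      linear_combination hci'
    rw [h1]
    exact ((h31v_In_coe i).2 hi).neg
  have htJ : (⟨t, ht₀⟩ : B) ^ (m + k) ∈ J := by
    have h1 := J.sub_mem (J.mul_mem_right (⟨t ^ m * (c : F), hm'⟩ : B) hxJ) (hJ hmem)
    simpa using h1
  have h1 : (Ideal.Quotient.mk J (⟨t, ht₀⟩ : B)) * Ideal.Quotient.mk J t' = 1 := by
    rw [← map_mul, ← map_one (Ideal.Quotient.mk J), ← sub_eq_zero, ← map_sub,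
      Ideal.Quotient.eq_zero_iff_mem]
    exact hJ ht'inv
  have h2 : (Ideal.Quotient.mk J (⟨t, ht₀⟩ : B)) ^ (m + k) = 0 := by
    rw [← map_pow, Ideal.Quotient.eq_zero_iff_mem]
    exact htJ
  have h3 : (1 : B ⧸ J) = 0 := by
    calc (1 : B ⧸ J)
        = ((Ideal.Quotient.mk J (⟨t, ht₀⟩ : B)) * Ideal.Quotient.mk J t') ^ (m + k) := by
          rw [h1, one_pow]
      _ = 0 := by rw [mul_pow, h2, zero_mul]
  rw [← map_one (Ideal.Quotient.mk J), Ideal.Quotient.eq_zero_iff_mem] at h3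
  exact h3

/-- **`H62RegAt` at `𝔫'` from `H62RegAt` at the maximal ideals of `B`** (abstract overlap
transfer). -/
theorem h31v_regAt_of_contr (ht : t ≠ 0) (ht₀ : t ∈ B) (ht' : t⁻¹ ∈ B')
    (hs : ∀ y ∈ B', ∃ n : ℕ, t ^ n * y ∈ B)
    (hs' : ∀ y ∈ B, ∃ n : ℕ, t⁻¹ ^ n * y ∈ B')
    (ev : A₀[X] →+* F) (hevX : ev X = t⁻¹) (hevB' : ∀ P, ev P ∈ B')
    (hcB : ∀ a, ev (C a) ∈ B)
    (hint' : ∀ y ∈ B', ev.IsIntegralElem y)
    (π : B) (π' : B') (hπ : (π : F) = (π' : F))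
    (hreg : ∀ 𝔫 : Ideal B, 𝔫.IsMaximal → π ∈ 𝔫 → H62RegAt 𝔫 π)
    (𝔫' : Ideal B') (h𝔫' : 𝔫'.IsMaximal) (hπ' : π' ∈ 𝔫')
    (hm : ∀ a : A₀, ¬ IsUnit a → h31v_In B' 𝔫' (ev (C a)))
    (htn : (⟨t⁻¹, ht'⟩ : B') ∉ 𝔫') : H62RegAt 𝔫' π' := by
  have hprime' : 𝔫'.IsPrime := h𝔫'.isPrime
  have htn' : ¬ h31v_In B' 𝔫' t⁻¹ := fun h => htn h.2
  have hmax : (h31v_contr B B' t ht' hs' 𝔫').IsMaximal :=
    h31v_contr_isMaximal ht ht₀ ht' hs hs' ev hevX hevB' hcB hint' 𝔫' hm htn'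
  have hprime : (h31v_contr B B' t ht' hs' 𝔫').IsPrime := hmax.isPrime
  have hπmem : π ∈ h31v_contr B B' t ht' hs' 𝔫' := by
    refine ⟨0, ?_⟩
    rw [pow_zero, one_mul, hπ]
    exact (h31v_In_coe π').2 hπ'
  exact h31v_regAt_transfer (h31v_dom_contr ht' hs' 𝔫' htn')
    (h31v_dom_contr' ht ht₀ ht' hs hs' 𝔫' htn') hπ (hreg _ hmax hπmem)

end Maximal

end Fermat.Agent.S36
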