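import Mathlib
import Fermat.Agent.S36.H31RegOverlapContr
import Fermat.Agent.S36.H62RegLeaves
import Fermat.Agent.S36.H59Noeth
import Fermat.Agent.Red.ModelO.Mid
import Fermat.Agent.S37.Inertia

/-!
# S36, block REG, row R-OVERLAP (helper31): the overlap leaf `H62LeafOverlap`

For every level `N`, every `A` over `q`: if `H62RegAt 𝔫 q` holds at every closed point `𝔫 ∋ q`
of the finite chart `h62rChart A N (jB N)`, then it holds at every closed point `𝔫' ∋ q` of the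
chart at infinity `h62rChart A N (jB N)⁻¹` with `(jB N)⁻¹ ∉ 𝔫'`.

* `h31v_regAt_inv_at`   : the transfer at one closed point (any level `N`);
* `h31v_regChart_inv`   : the glue `H62RegChart (jB N) → (cusp case) → H62RegChart (jB N)⁻¹`;
* `h31v_leafOverlap`    : **`H62LeafOverlap`** (the exact frozen leaf of `S36/H62RegLeaves.lean`).

Instantiation of `h31v_regAt_of_contr` (`S36/H31RegOverlapContr.lean`).
-/

set_option autoImplicit false
set_option linter.unusedSectionVars false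
set_option linter.style.haveILetI false

open Polynomial AlgebraicCurve ModularCurve IsLocalRing

noncomputable section

namespace Fermat.Agent.S36

open Fermat.Agent.S37 (Kbar GQ FF cst gal jB modelAt auxLevel)
open Fermat.Agent.Red.ModelO

section Level

variable (A : ValuationSubring Kbar) (N : ℕ) [NeZero N]

theorem h31v_jB_mem_chart : jB N ∈ h62rChart A N (jB N) :=
  ⟨h85_self_mem_modelAt N A (jB N), fun σ _ => Fermat.Agent.S37.GalI.gal_smul_jB σ⟩

theorem h31v_jB_inv_mem_chart : (jB N)⁻¹ ∈ h62rChart A N (jB N)⁻¹ :=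
  ⟨h85_self_mem_modelAt N A (jB N)⁻¹, fun σ _ => Fermat.Agent.S37.GalI.gal_smul_jB_inv σ⟩

/-- scaling from the chart at infinity to the finite chart. -/
theorem h31v_scale_fin (y : FF N) (hy : y ∈ h62rChart A N (jB N)⁻¹) :
    ∃ n : ℕ, jB N ^ n * y ∈ h62rChart A N (jB N) := by
  obtain ⟨n, hn⟩ := h85_exists_pow_mul_mem_modelAt N A (h85_jB_ne_zero N) hy.1
  refine ⟨n, hn, fun σ hσ => ?_⟩
  rw [smul_mul', smul_pow', Fermat.Agent.S37.GalI.gal_smul_jB, hy.2 σ hσ]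

/-- scaling from the finite chart to the chart at infinity. -/
theorem h31v_scale_inf (y : FF N) (hy : y ∈ h62rChart A N (jB N)) :
    ∃ n : ℕ, (jB N)⁻¹ ^ n * y ∈ h62rChart A N (jB N)⁻¹ := by
  have hy' : y ∈ modelAt N A ((jB N)⁻¹)⁻¹ := by rw [inv_inv]; exact hy.1
  obtain ⟨n, hn⟩ := h85_exists_pow_mul_mem_modelAt N A (inv_ne_zero (h85_jB_ne_zero N)) hy'
  refine ⟨n, hn, fun σ hσ => ?_⟩
  rw [smul_mul', smul_pow', Fermat.Agent.S37.GalI.gal_smul_jB_inv, hy.2 σ hσ]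

/-- the values of the evaluation `A₀[X] → FF N`, `X ↦ t` (`t` fixed by the inertia group) lie in
the chart of `t`. -/
theorem h31v_ev_mem_chart (t : FF N)
    (hfix : ∀ σ ∈ A.inertiaSubgroupIn ℚ, gal N σ • t = t) (P : Polynomial (h59bA0 A)) :
    h59nEv N A t P ∈ h62rChart A N t := by
  rw [h59n_mem_chart_iff]
  refine ⟨h59nK_le_F0 N A t hfix (h59nEv_mem_K N A t P), ?_⟩
  exact (h59nEv N A t).isIntegralElem_map

/-- the constants of `A₀` lie in every chart. -/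
theorem h31v_ev_C_mem_chart (t u : FF N)
    (hfix : ∀ σ ∈ A.inertiaSubgroupIn ℚ, gal N σ • t = t) (a : h59bA0 A) :
    h59nEv N A u (C a) ∈ h62rChart A N t := by
  have h1 : h59nEv N A u (C a) = h59nEv N A t (C a) := by
    rw [h59nEv_C, h59nEv_C]
  rw [h1]
  exact h31v_ev_mem_chart A N t hfix (C a)

/-- **Overlap transfer** at one closed point, any level `N`. -/
theorem h31v_regAt_inv_at {q : ℕ} (hq : q.Prime) (hA : A.LiesOverPrime q)
    (hreg : ∀ 𝔫 : Ideal (h62rChart A N (jB N)), 𝔫.IsMaximal →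
      (q : h62rChart A N (jB N)) ∈ 𝔫 → H62RegAt 𝔫 (q : h62rChart A N (jB N)))
    (𝔫' : Ideal (h62rChart A N (jB N)⁻¹)) (h𝔫' : 𝔫'.IsMaximal)
    (hq' : (q : h62rChart A N (jB N)⁻¹) ∈ 𝔫')
    (htn : ¬ ∃ x ∈ 𝔫', (x : FF N) = (jB N)⁻¹) :
    H62RegAt 𝔫' (q : h62rChart A N (jB N)⁻¹) := by
  have hfix : ∀ σ ∈ A.inertiaSubgroupIn ℚ, gal N σ • jB N = jB N :=
    fun σ _ => Fermat.Agent.S37.GalI.gal_smul_jB σ
  have hfix' : ∀ σ ∈ A.inertiaSubgroupIn ℚ, gal N σ • (jB N)⁻¹ = (jB N)⁻¹ :=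
    fun σ _ => Fermat.Agent.S37.GalI.gal_smul_jB_inv σ
  refine h31v_regAt_of_contr (B := h62rChart A N (jB N)) (B' := h62rChart A N (jB N)⁻¹)
    (t := jB N) (A₀ := h59bA0 A) (h85_jB_ne_zero N) (h31v_jB_mem_chart A N)
    (h31v_jB_inv_mem_chart A N) (h31v_scale_fin A N) (h31v_scale_inf A N)
    (h59nEv N A (jB N)⁻¹) (h59nEv_X N A _) (h31v_ev_mem_chart A N _ hfix')
    (h31v_ev_C_mem_chart A N _ _ hfix)
    (fun y hy => ((h59n_mem_chart_iff N A _ y).1 hy).2)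
    (q : h62rChart A N (jB N)) (q : h62rChart A N (jB N)⁻¹) ?_ hreg 𝔫' h𝔫' hq' ?_ ?_
  · rw [Subring.coe_natCast, Subring.coe_natCast]
  · intro a ha
    have ha' : a ∈ maximalIdeal (h59bA0 A) := (IsLocalRing.mem_maximalIdeal a).2 ha
    rw [h59b_maximalIdeal A hq hA, Ideal.mem_span_singleton'] at ha'
    obtain ⟨b, rfl⟩ := ha'
    have h1 : h59nEv N A (jB N)⁻¹ (C (b * ((q : ℕ) : h59bA0 A))) =
        h59nEv N A (jB N)⁻¹ (C b) * (((q : ℕ) : h62rChart A N (jB N)⁻¹) : FF N) := by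
      rw [C_mul, map_mul, Subring.coe_natCast]
      congr 1
      have h2 : (C ((q : ℕ) : h59bA0 A) : Polynomial (h59bA0 A)) = ((q : ℕ) : Polynomial (h59bA0 A)) :=
        map_natCast (C : h59bA0 A →+* Polynomial (h59bA0 A)) q
      rw [h2, map_natCast]
    rw [h1]
    exact h31v_In.mul_left (h31v_ev_mem_chart A N _ hfix' (C b)) ((h31v_In_coe _).2 hq')
  · intro h
    exact htn ⟨_, h, rfl⟩

/-- **Glue**: REG on the finite chart and at the cusps gives REG on the chart at infinity. -/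
theorem h31v_regChart_inv {q : ℕ} (hq : q.Prime) (hA : A.LiesOverPrime q)
    (h0 : H62RegChart A N q (jB N))
    (hcusp : ∀ 𝔫' : Ideal (h62rChart A N (jB N)⁻¹), 𝔫'.IsMaximal →
      (q : h62rChart A N (jB N)⁻¹) ∈ 𝔫' → (∃ x ∈ 𝔫', (x : FF N) = (jB N)⁻¹) →
      H62RegAt 𝔫' (q : h62rChart A N (jB N)⁻¹)) :
    H62RegChart A N q (jB N)⁻¹ := by
  refine ⟨h59n_isNoetherianRing_chart N A hq hA _ (Or.inr rfl), fun 𝔫' h𝔫' hq' => ?_⟩
  by_cases hc : ∃ x ∈ 𝔫', (x : FF N) = (jB N)⁻¹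
  · exact hcusp 𝔫' h𝔫' hq' hc
  · exact h31v_regAt_inv_at A N hq hA h0.2 𝔫' h𝔫' hq' hc

end Level

/-- **R-OVERLAP**: the frozen leaf `H62LeafOverlap`. -/
theorem h31v_leafOverlap : H62LeafOverlap := by
  intro q hq M _ _ _
  haveI : NeZero q := ⟨hq.ne_zero⟩
  intro A hA h0 𝔫 h𝔫 hq𝔫 hc
  exact h31v_regAt_inv_at A (M * q * q) hq hA h0.2 𝔫 h𝔫 hq𝔫 hc

end Fermat.Agent.S36
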