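import Fermat.Agent.S36.H62FinIface
import Fermat.Agent.S36.H95Cusp
import Fermat.Agent.S36.H11TorSkel

/-!
# S36, glue REG → TOR (helper31, prefix `h31w_` / `H31Fin`): a point of level `M q²` which is
not a one-branch point lies over a node of level `M q`

The leaves `H62FinInf`, `H62FinZero` of REG (row R-ORD) conclude `H62Datum 𝔫₂ q`, a DISJUNCTION
"triple datum or one-branch datum"; the consumers in block T (`h11t_IsSS`: rows T-PT, T-ROOT,
T-UNIT, T-NORM-A, T-NORM-B) need that the points over a smooth point of level `M q` are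
ONE-BRANCH points.  This file freezes the strong form and proves the glue.

* `H31FinInfOne`, `H31FinZeroOne` : **frozen strong leaves of R-ORD** = `H62FinInf`,
  `H62FinZero` with the conclusion `h95s_OneDatum 𝔫₂ q` (the one-branch disjunct of `H62Datum`);
* `h31w_finInf_of`, `h31w_finZero_of` : the strong leaves give `H62FinInf`, `H62FinZero`;
* `h31w_oneBranch_of_inf`, `h31w_oneBranch_of_zero` : over a smooth point, `h11l_OneBranch`;
* `h31w_node_of_not_oneBranch` : **the glue**: `𝔫₂ ∋ q` maximal, not a one-branch point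
  ⟹ `H62NodeDatum` at `α₂⁻¹ 𝔫₂` (from `H62L1`, `H62FinContr`, `H62LeafNoeth` and the two strong
  leaves);
* `h31w_node_of_isSS` : the same for `h11t_IsSS A M q 𝔫` (vocabulary of `H11TorSkel`).

Every declaration is a definition, a frozen interface `Prop`, or a proved theorem; nothing is
assumed.
-/

set_option autoImplicit false
set_option linter.unusedSectionVars false
set_option linter.style.haveILetI false

open AlgebraicCurve ModularCurve IsLocalRing

noncomputable section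

namespace Fermat.Agent.S36

open Fermat.Agent.S37 Fermat.Agent.Red.GG Fermat.Agent.LGC

/-- **R-ORD (∞), strong form**: the closed points over a smooth point of `C_∞` carry the
one-branch datum. -/
def H31FinInfOne : Prop :=
  ∀ (q : ℕ) (hq : q.Prime) (M : ℕ) [NeZero M] (hM : ¬ q ∣ M), auxLevel q ∣ M →
    haveI : NeZero q := ⟨hq.ne_zero⟩
    ∀ (A : ValuationSubring Kbar) (hA : A.LiesOverPrime q),
      ∀ 𝔫₂ : Ideal (h62rChart A (M * q * q) (jB (M * q * q))), 𝔫₂.IsMaximal →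
        (q : h62rChart A (M * q * q) (jB (M * q * q))) ∈ 𝔫₂ →
        H62InfDatum A M hq hM hA (𝔫₂.comap (h62rA2 A M)) →
          h95s_OneDatum 𝔫₂ (q : h62rChart A (M * q * q) (jB (M * q * q)))

/-- **R-ORD (0), strong form**: the closed points over a smooth point of `C_0` carry the
one-branch datum. -/
def H31FinZeroOne : Prop :=
  ∀ (q : ℕ) (hq : q.Prime) (M : ℕ) [NeZero M] (hM : ¬ q ∣ M), auxLevel q ∣ M →
    haveI : NeZero q := ⟨hq.ne_zero⟩
    ∀ (A : ValuationSubring Kbar) (hA : A.LiesOverPrime q),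
      ∀ 𝔫₂ : Ideal (h62rChart A (M * q * q) (jB (M * q * q))), 𝔫₂.IsMaximal →
        (q : h62rChart A (M * q * q) (jB (M * q * q))) ∈ 𝔫₂ →
        H62ZeroDatum A M hq hM hA (𝔫₂.comap (h62rA2 A M)) →
          h95s_OneDatum 𝔫₂ (q : h62rChart A (M * q * q) (jB (M * q * q)))

/-- the one-branch datum is the second disjunct of `H62Datum`. -/
theorem h31w_datum_of_one {B : Type*} [CommRing B] (𝔫 : Ideal B) (q : ℕ)
    (h : h95s_OneDatum 𝔫 (q : B)) : H62Datum 𝔫 q :=
  Or.inr h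

theorem h31w_finInf_of (h : H31FinInfOne) : H62FinInf := by
  intro q hq M _ hM haux
  haveI : NeZero q := ⟨hq.ne_zero⟩
  intro A hA 𝔫₂ h𝔫₂ hq𝔫₂ hd
  exact h31w_datum_of_one 𝔫₂ q (h q hq M hM haux A hA 𝔫₂ h𝔫₂ hq𝔫₂ hd)

theorem h31w_finZero_of (h : H31FinZeroOne) : H62FinZero := by
  intro q hq M _ hM haux
  haveI : NeZero q := ⟨hq.ne_zero⟩
  intro A hA 𝔫₂ h𝔫₂ hq𝔫₂ hd
  exact h31w_datum_of_one 𝔫₂ q (h q hq M hM haux A hA 𝔫₂ h𝔫₂ hq𝔫₂ hd)

section Glue

variable {q : ℕ} (hq : q.Prime) (M : ℕ) [NeZero M] [NeZero q] (hM : ¬ q ∣ M)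
  (haux : auxLevel q ∣ M) (A : ValuationSubring Kbar) (hA : A.LiesOverPrime q)

include haux in
/-- over a smooth point of `C_∞` every point is a one-branch point. -/
theorem h31w_oneBranch_of_inf (hN : H62LeafNoeth) (hi : H31FinInfOne)
    (𝔫₂ : Ideal (h62rChart A (M * q * q) (jB (M * q * q)))) (h𝔫₂ : 𝔫₂.IsMaximal)
    (hq𝔫₂ : (q : h62rChart A (M * q * q) (jB (M * q * q))) ∈ 𝔫₂)
    (hd : H62InfDatum A M hq hM hA (𝔫₂.comap (h62rA2 A M))) :
    h11l_OneBranch (q : h62rChart A (M * q * q) (jB (M * q * q))) 𝔫₂ := by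
  haveI := (hN q hq M hM haux A hA).1
  haveI : 𝔫₂.IsPrime := h𝔫₂.isPrime
  exact h95s_oneBranch_of_datum 𝔫₂ _ (hi q hq M hM haux A hA 𝔫₂ h𝔫₂ hq𝔫₂ hd)

include haux in
/-- over a smooth point of `C_0` every point is a one-branch point. -/
theorem h31w_oneBranch_of_zero (hN : H62LeafNoeth) (hz : H31FinZeroOne)
    (𝔫₂ : Ideal (h62rChart A (M * q * q) (jB (M * q * q)))) (h𝔫₂ : 𝔫₂.IsMaximal)
    (hq𝔫₂ : (q : h62rChart A (M * q * q) (jB (M * q * q))) ∈ 𝔫₂)
    (hd : H62ZeroDatum A M hq hM hA (𝔫₂.comap (h62rA2 A M))) :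
    h11l_OneBranch (q : h62rChart A (M * q * q) (jB (M * q * q))) 𝔫₂ := by
  haveI := (hN q hq M hM haux A hA).1
  haveI : 𝔫₂.IsPrime := h𝔫₂.isPrime
  exact h95s_oneBranch_of_datum 𝔫₂ _ (hz q hq M hM haux A hA 𝔫₂ h𝔫₂ hq𝔫₂ hd)

include haux in
/-- **the glue**: a closed point of the special fibre of level `M q²` which is not a one-branch
point lies over a node of level `M q`. -/
theorem h31w_node_of_not_oneBranch (h1 : H62L1) (hc : H62FinContr) (hN : H62LeafNoeth)
    (hi : H31FinInfOne) (hz : H31FinZeroOne)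
    (𝔫₂ : Ideal (h62rChart A (M * q * q) (jB (M * q * q)))) (h𝔫₂ : 𝔫₂.IsMaximal)
    (hq𝔫₂ : (q : h62rChart A (M * q * q) (jB (M * q * q))) ∈ 𝔫₂)
    (hss : ¬ h11l_OneBranch (q : h62rChart A (M * q * q) (jB (M * q * q))) 𝔫₂) :
    (𝔫₂.comap (h62rA2 A M)).IsMaximal ∧
      (q : h62rChart A (M * q) (jSS M q)) ∈ 𝔫₂.comap (h62rA2 A M) ∧
      H62NodeDatum A M hq hM hA (𝔫₂.comap (h62rA2 A M)) := by
  have hmax := hc q hq M hM haux A hA 𝔫₂ h𝔫₂ hq𝔫₂
  have hq₁ : (q : h62rChart A (M * q) (jSS M q)) ∈ 𝔫₂.comap (h62rA2 A M) := by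
    rw [Ideal.mem_comap, map_natCast]
    exact hq𝔫₂
  refine ⟨hmax, hq₁, ?_⟩
  rcases h1 q hq M hM haux A hA _ hmax hq₁ with h | h | h
  · exact h
  · exact absurd (h31w_oneBranch_of_inf hq M hM haux A hA hN hi 𝔫₂ h𝔫₂ hq𝔫₂ h) hss
  · exact absurd (h31w_oneBranch_of_zero hq M hM haux A hA hN hz 𝔫₂ h𝔫₂ hq𝔫₂ h) hss

include haux in
/-- the glue in the vocabulary of `H11TorSkel`: under a supersingular point lies a node. -/
theorem h31w_node_of_isSS (h1 : H62L1) (hc : H62FinContr) (hN : H62LeafNoeth)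
    (hi : H31FinInfOne) (hz : H31FinZeroOne)
    (𝔫 : Ideal (h92c_Chart A (M * q * q) (jB (M * q * q)))) (hss : h11t_IsSS A M q 𝔫) :
    (Ideal.comap (h62rA2 A M)
        (show Ideal (h62rChart A (M * q * q) (jB (M * q * q))) from 𝔫)).IsMaximal ∧
      H62NodeDatum A M hq hM hA
        (Ideal.comap (h62rA2 A M)
          (show Ideal (h62rChart A (M * q * q) (jB (M * q * q))) from 𝔫)) := by
  obtain ⟨h𝔫, hq𝔫, hnot⟩ := hss
  have h := h31w_node_of_not_oneBranch hq M hM haux A hA h1 hc hN hi hz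
    (show Ideal (h62rChart A (M * q * q) (jB (M * q * q))) from 𝔫) h𝔫 hq𝔫 hnot
  exact ⟨h.1, h.2.2⟩

end Glue

end Fermat.Agent.S36
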