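import Fermat.Agent.S36.H62Mirror
import Fermat.Agent.S36.H31SSNode

/-!
# S36, glue REG → TOR in the geometric vocabulary of `S36/H62Mirror.lean` (helper31,
prefix `h31x_` / `H31Geo`): a closed point of level `M q²` which is not a one-branch point lies
over NODES of level `M q`, along `α₂` and along `β₂`

`B₁ = h62rChart A (M q) (jSS M q)`, `B₂ = h62rChart A (M q²) (jB (M q²))`, `α₂ = h62rA2`,
`β₂ = h59y_b2`, `P∞₀ = h62sPinf`, `P0₀ = h62sP0` (the two components of level `M q`),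
`𝔫₁ᵃ = α₂⁻¹ 𝔫₂`, `𝔫₁ᵇ = β₂⁻¹ 𝔫₂`.

The leaves `H62GeoZero`, `H62Ord11` of REG conclude `H62Datum 𝔫₂ q` (a disjunction); block T
(rows T-PT, T-ROOT, T-UNIT, T-NORM-A, T-NORM-B) needs their STRONG form and one more fact:

* `H31GeoZeroOne` : `¬ P∞₀ ≤ 𝔫₁ᵃ → h95s_OneDatum 𝔫₂ q`        (points of `C₀₂`, strong `H62GeoZero`);
* `H31Ord11One`   : `¬ P0₀ ≤ 𝔫₁ᵃ → ¬ P∞₀ ≤ 𝔫₁ᵇ → h95s_OneDatum 𝔫₂ q` (ordinary points of `C₁₁`,
  strong `H62Ord11`);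
* `H31NodeSym`    : `P∞₀ ≤ 𝔫₁ᵇ → P0₀ ≤ 𝔫₁ᵇ → P0₀ ≤ 𝔫₁ᵃ`  (if `𝔫₁ᵇ` is a node then `C_0` passes
  through `𝔫₁ᵃ`: supersingularity is invariant under isogeny; the case excluded by the
  Frobenius congruence of the Kronecker remainder `ρ`).

Proved here:

* `h31x_geoZero_of`, `h31x_ord11_of` : the strong leaves give `H62GeoZero`, `H62Ord11`;
* `h31x_geoZeroOne_of`, `h31x_ord11One_of` : the strong leaves `H31FinZeroOne`, `H31FinInfOne`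
  of `S36/H31SSNode.lean` give `H31GeoZeroOne`, `H31Ord11One`;
* `h31x_oneDatum_comap` : the one-branch datum is transported by an involution;
* `h31x_nodes_of_not_oneBranch` : **the glue**: `𝔫₂ ∋ q` maximal, not a one-branch point
  ⟹ `P∞₀ ≤ 𝔫₁ᵃ`, `P0₀ ≤ 𝔫₁ᵃ`, `P∞₀ ≤ 𝔫₁ᵇ`, `P0₀ ≤ 𝔫₁ᵇ` (and `𝔫₁ᵃ`, `𝔫₁ᵇ` are maximal);
* `h31x_nodes_of_isSS` : the same for `h11t_IsSS A M q 𝔫` (vocabulary of `H11TorSkel`);
* `h31x_nodeDatum_of_isSS` : with `H62L1NodeCase`, the node data at `𝔫₁ᵃ` and at `𝔫₁ᵇ`.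

Every declaration is a definition, a frozen interface `Prop`, or a proved theorem; nothing is
assumed.
-/

set_option autoImplicit false
set_option linter.unusedSectionVars false
set_option linter.style.haveILetI false

open AlgebraicCurve ModularCurve IsLocalRing

noncomputable section

namespace Fermat.Agent.S36

open Fermat.Agent.S37 Fermat.Agent.Red Fermat.Agent.Red.GG Fermat.Agent.LGC

/-! ## The strong leaves -/

/-- **points of `C₀₂`, strong form**: the one-branch datum at the closed points whose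
`α₂`-contraction does not lie on `C_∞`. -/
def H31GeoZeroOne : Prop :=
  ∀ (q : ℕ) (hq : q.Prime) (M : ℕ) [NeZero M] (hM : ¬ q ∣ M), auxLevel q ∣ M →
    haveI : NeZero q := ⟨hq.ne_zero⟩
    ∀ (A : ValuationSubring Kbar) (hA : A.LiesOverPrime q),
      ∀ 𝔫₂ : Ideal (h62rChart A (M * q * q) (jB (M * q * q))), 𝔫₂.IsMaximal →
        (q : h62rChart A (M * q * q) (jB (M * q * q))) ∈ 𝔫₂ →
        ¬ h62sPinf A M hq hM hA ≤ 𝔫₂.comap (h62rA2 A M) →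
          h95s_OneDatum 𝔫₂ (q : h62rChart A (M * q * q) (jB (M * q * q)))

/-- **ordinary points of `C₁₁`, strong form**: the one-branch datum at the closed points with
`α₂⁻¹ 𝔫₂` on `C_∞` only and `β₂⁻¹ 𝔫₂` on `C_0` only. -/
def H31Ord11One : Prop :=
  ∀ (q : ℕ) (hq : q.Prime) (M : ℕ) [NeZero M] (hM : ¬ q ∣ M), auxLevel q ∣ M →
    haveI : NeZero q := ⟨hq.ne_zero⟩
    ∀ (A : ValuationSubring Kbar) (hA : A.LiesOverPrime q),
      ∀ 𝔫₂ : Ideal (h62rChart A (M * q * q) (jB (M * q * q))), 𝔫₂.IsMaximal →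
        (q : h62rChart A (M * q * q) (jB (M * q * q))) ∈ 𝔫₂ →
        ¬ h62sP0 A M hq hM hA ≤ 𝔫₂.comap (h62rA2 A M) →
        ¬ h62sPinf A M hq hM hA ≤ 𝔫₂.comap (h59y_b2 A M hq hM hA) →
          h95s_OneDatum 𝔫₂ (q : h62rChart A (M * q * q) (jB (M * q * q)))

/-- **symmetry of the nodes**: if the `β₂`-contraction of a closed point is a node, then `C_0`
passes through its `α₂`-contraction. -/
def H31NodeSym : Prop :=
  ∀ (q : ℕ) (hq : q.Prime) (M : ℕ) [NeZero M] (hM : ¬ q ∣ M), auxLevel q ∣ M →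
    haveI : NeZero q := ⟨hq.ne_zero⟩
    ∀ (A : ValuationSubring Kbar) (hA : A.LiesOverPrime q),
      ∀ 𝔫₂ : Ideal (h62rChart A (M * q * q) (jB (M * q * q))), 𝔫₂.IsMaximal →
        (q : h62rChart A (M * q * q) (jB (M * q * q))) ∈ 𝔫₂ →
        h62sPinf A M hq hM hA ≤ 𝔫₂.comap (h59y_b2 A M hq hM hA) →
        h62sP0 A M hq hM hA ≤ 𝔫₂.comap (h59y_b2 A M hq hM hA) →
          h62sP0 A M hq hM hA ≤ 𝔫₂.comap (h62rA2 A M)

theorem h31x_geoZero_of (h : H31GeoZeroOne) : H62GeoZero := by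
  intro q hq M _ hM haux
  haveI : NeZero q := ⟨hq.ne_zero⟩
  intro A hA 𝔫₂ h𝔫₂ hq𝔫₂ hd
  exact h31w_datum_of_one 𝔫₂ q (h q hq M hM haux A hA 𝔫₂ h𝔫₂ hq𝔫₂ hd)

theorem h31x_ord11_of (h : H31Ord11One) : H62Ord11 := by
  intro q hq M _ hM haux
  haveI : NeZero q := ⟨hq.ne_zero⟩
  intro A hA 𝔫₂ h𝔫₂ hq𝔫₂ hd hd'
  exact h31w_datum_of_one 𝔫₂ q (h q hq M hM haux A hA 𝔫₂ h𝔫₂ hq𝔫₂ hd hd')

theorem h31x_geoZeroOne_of (h : H31FinZeroOne) : H31GeoZeroOne := by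
  intro q hq M _ hM haux
  haveI : NeZero q := ⟨hq.ne_zero⟩
  intro A hA 𝔫₂ h𝔫₂ hq𝔫₂ hinf
  haveI : 𝔫₂.IsPrime := h𝔫₂.isPrime
  haveI : (𝔫₂.comap (h62rA2 A M)).IsPrime := Ideal.comap_isPrime _ _
  exact h q hq M hM haux A hA 𝔫₂ h𝔫₂ hq𝔫₂
    (h62s_zeroDatum A M hq hM hA _ haux (h62g_q_mem_comap A M 𝔫₂ hq𝔫₂) hinf)

theorem h31x_ord11One_of (h : H31FinInfOne) : H31Ord11One := by
  intro q hq M _ hM haux
  haveI : NeZero q := ⟨hq.ne_zero⟩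
  intro A hA 𝔫₂ h𝔫₂ hq𝔫₂ h0 _
  haveI : 𝔫₂.IsPrime := h𝔫₂.isPrime
  haveI : (𝔫₂.comap (h62rA2 A M)).IsPrime := Ideal.comap_isPrime _ _
  exact h q hq M hM haux A hA 𝔫₂ h𝔫₂ hq𝔫₂
    (h62s_infDatum A M hq hM hA _ haux (h62g_q_mem_comap A M 𝔫₂ hq𝔫₂) h0)

/-! ## Transport of the one-branch datum -/

/-- the one-branch datum is transported by an involution fixing `π`. -/
theorem h31x_oneDatum_comap {B : Type*} [CommRing B] (e : B →+* B) (he : ∀ x, e (e x) = x)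
    (𝔫 : Ideal B) (π : B) (hπ : e π = π) (h : h95s_OneDatum (𝔫.comap e) π) :
    h95s_OneDatum 𝔫 π := by
  obtain ⟨z, t, hz, ht, hg, n, s, c, hs, hsc⟩ := h
  refine ⟨e z, e t, Ideal.mem_comap.mp hz, Ideal.mem_comap.mp ht, ?_, n, e s, e c,
    fun h => hs (Ideal.mem_comap.mpr h), ?_⟩
  · intro w hw
    have hw' : e w ∈ 𝔫.comap e := by
      rw [Ideal.mem_comap, he]
      exact hw
    obtain ⟨s', hs', hsw⟩ := hg (e w) hw'
    refine ⟨e s', fun h => hs' (Ideal.mem_comap.mpr h), ?_⟩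
    have h1 := h62o_span_pair_map e hsw
    rwa [map_mul, he] at h1
  · have h3 := congrArg e hsc
    rwa [map_mul, map_mul, map_pow, hπ] at h3

/-! ## The glue -/

section Glue

variable {q : ℕ} (hq : q.Prime) (M : ℕ) [NeZero M] [NeZero q] (hM : ¬ q ∣ M)
  (haux : auxLevel q ∣ M) (A : ValuationSubring Kbar) (hA : A.LiesOverPrime q)

/-- `β₂⁻¹ (w₂⁻¹ 𝔫₂) = w₁⁻¹ (α₂⁻¹ 𝔫₂)`. -/
theorem h31x_comap_b2_w2
    (𝔫₂ : Ideal (h62rChart A (M * q * q) (jB (M * q * q)))) :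
    (𝔫₂.comap (h62oW2 A M hq hM hA)).comap (h59y_b2 A M hq hM hA) =
      (𝔫₂.comap (h62rA2 A M)).comap (h62oW1 A M hq hM hA) := by
  ext y
  rw [Ideal.mem_comap, Ideal.mem_comap, Ideal.mem_comap, Ideal.mem_comap, h62o_w2_b2]

/-- `P∞₀ ≤ w₁⁻¹ 𝔫₁ ↔ P0₀ ≤ 𝔫₁`. -/
theorem h31x_Pinf_le_comap_w1 (𝔫₁ : Ideal (h62rChart A (M * q) (jSS M q))) :
    h62sPinf A M hq hM hA ≤ 𝔫₁.comap (h62oW1 A M hq hM hA) ↔ h62sP0 A M hq hM hA ≤ 𝔫₁ := by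
  constructor
  · intro h y hy
    have h1 : h62oW1 A M hq hM hA y ∈ h62sPinf A M hq hM hA :=
      (h62o_w1_mem_Pinf_iff A M hq hM hA y).mpr hy
    have h2 := Ideal.mem_comap.mp (h h1)
    rwa [h62o_w1_w1] at h2
  · intro h y hy
    rw [Ideal.mem_comap]
    exact h ((h62o_w1_mem_P0_iff A M hq hM hA y).mpr hy)

/-- `P0₀ ≤ w₁⁻¹ 𝔫₁ ↔ P∞₀ ≤ 𝔫₁`. -/
theorem h31x_P0_le_comap_w1 (𝔫₁ : Ideal (h62rChart A (M * q) (jSS M q))) :
    h62sP0 A M hq hM hA ≤ 𝔫₁.comap (h62oW1 A M hq hM hA) ↔ h62sPinf A M hq hM hA ≤ 𝔫₁ := by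
  constructor
  · intro h y hy
    have h1 : h62oW1 A M hq hM hA y ∈ h62sP0 A M hq hM hA :=
      (h62o_w1_mem_P0_iff A M hq hM hA y).mpr hy
    have h2 := Ideal.mem_comap.mp (h h1)
    rwa [h62o_w1_w1] at h2
  · intro h y hy
    rw [Ideal.mem_comap]
    exact h ((h62o_w1_mem_Pinf_iff A M hq hM hA y).mpr hy)

include haux in
/-- **the glue (geometric form)**: a closed point of the special fibre of level `M q²` which is
not a one-branch point lies over nodes of level `M q`, along `α₂` and along `β₂`. -/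
theorem h31x_nodes_of_not_oneBranch (hz : H31GeoZeroOne) (h11 : H31Ord11One)
    (h3 : H31NodeSym)
    (𝔫₂ : Ideal (h62rChart A (M * q * q) (jB (M * q * q)))) (h𝔫₂ : 𝔫₂.IsMaximal)
    (hq𝔫₂ : (q : h62rChart A (M * q * q) (jB (M * q * q))) ∈ 𝔫₂)
    (hss : ¬ h11l_OneBranch (q : h62rChart A (M * q * q) (jB (M * q * q))) 𝔫₂) :
    (h62sPinf A M hq hM hA ≤ 𝔫₂.comap (h62rA2 A M) ∧
      h62sP0 A M hq hM hA ≤ 𝔫₂.comap (h62rA2 A M)) ∧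
    (h62sPinf A M hq hM hA ≤ 𝔫₂.comap (h59y_b2 A M hq hM hA) ∧
      h62sP0 A M hq hM hA ≤ 𝔫₂.comap (h59y_b2 A M hq hM hA)) := by
  haveI := (h62r_leafNoeth q hq M hM haux A hA).1
  haveI : 𝔫₂.IsPrime := h𝔫₂.isPrime
  have hone : ¬ h95s_OneDatum 𝔫₂ (q : h62rChart A (M * q * q) (jB (M * q * q))) :=
    fun h => hss (h95s_oneBranch_of_datum 𝔫₂ _ h)
  -- the mirror point
  have hmax' : (𝔫₂.comap (h62oW2 A M hq hM hA)).IsMaximal :=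
    h62o_comap_isMaximal _ (h62o_w2_w2 A M hq hM hA) 𝔫₂
  have hq' : (q : h62rChart A (M * q * q) (jB (M * q * q))) ∈
      𝔫₂.comap (h62oW2 A M hq hM hA) := by
    rw [Ideal.mem_comap, map_natCast]
    exact hq𝔫₂
  have hone' : ¬ h95s_OneDatum (𝔫₂.comap (h62oW2 A M hq hM hA))
      (q : h62rChart A (M * q * q) (jB (M * q * q))) := fun h =>
    hone (h31x_oneDatum_comap (h62oW2 A M hq hM hA) (h62o_w2_w2 A M hq hM hA) 𝔫₂ _
      (map_natCast _ q) h)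
  -- step 1: `C_∞` passes through `𝔫₁ᵃ`
  have h1 : h62sPinf A M hq hM hA ≤ 𝔫₂.comap (h62rA2 A M) := by
    by_contra h
    exact hone (hz q hq M hM haux A hA 𝔫₂ h𝔫₂ hq𝔫₂ h)
  -- step 2: `C_0` passes through `𝔫₁ᵇ` (mirror of step 1)
  have h2 : h62sP0 A M hq hM hA ≤ 𝔫₂.comap (h59y_b2 A M hq hM hA) := by
    by_contra h
    refine hone' (hz q hq M hM haux A hA _ hmax' hq' ?_)
    rw [h62o_comap_a2_w2, h31x_Pinf_le_comap_w1]
    exact h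
  -- step 3: `C_0` passes through `𝔫₁ᵃ`
  have h4 : h62sP0 A M hq hM hA ≤ 𝔫₂.comap (h62rA2 A M) := by
    by_contra h
    by_cases hb : h62sPinf A M hq hM hA ≤ 𝔫₂.comap (h59y_b2 A M hq hM hA)
    · exact h (h3 q hq M hM haux A hA 𝔫₂ h𝔫₂ hq𝔫₂ hb h2)
    · exact hone (h11 q hq M hM haux A hA 𝔫₂ h𝔫₂ hq𝔫₂ h hb)
  -- step 4: `C_∞` passes through `𝔫₁ᵇ` (mirror of step 3)
  have h5 : h62sPinf A M hq hM hA ≤ 𝔫₂.comap (h59y_b2 A M hq hM hA) := by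
    have h6 := h3 q hq M hM haux A hA _ hmax' hq'
      (by rw [h31x_comap_b2_w2, h31x_Pinf_le_comap_w1]; exact h4)
      (by rw [h31x_comap_b2_w2, h31x_P0_le_comap_w1]; exact h1)
    rwa [h62o_comap_a2_w2, h31x_P0_le_comap_w1] at h6
  exact ⟨⟨h1, h4⟩, ⟨h5, h2⟩⟩

include haux in
/-- the glue in the vocabulary of `H11TorSkel`. -/
theorem h31x_nodes_of_isSS (hz : H31GeoZeroOne) (h11 : H31Ord11One) (h3 : H31NodeSym)
    (𝔫 : Ideal (h92c_Chart A (M * q * q) (jB (M * q * q)))) (hss : h11t_IsSS A M q 𝔫) :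
    (h62sPinf A M hq hM hA ≤ Ideal.comap (h62rA2 A M)
        (show Ideal (h62rChart A (M * q * q) (jB (M * q * q))) from 𝔫) ∧
      h62sP0 A M hq hM hA ≤ Ideal.comap (h62rA2 A M)
        (show Ideal (h62rChart A (M * q * q) (jB (M * q * q))) from 𝔫)) ∧
    (h62sPinf A M hq hM hA ≤ Ideal.comap (h59y_b2 A M hq hM hA)
        (show Ideal (h62rChart A (M * q * q) (jB (M * q * q))) from 𝔫) ∧
      h62sP0 A M hq hM hA ≤ Ideal.comap (h59y_b2 A M hq hM hA)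
        (show Ideal (h62rChart A (M * q * q) (jB (M * q * q))) from 𝔫)) := by
  obtain ⟨h𝔫, hq𝔫, hnot⟩ := hss
  exact h31x_nodes_of_not_oneBranch hq M hM haux A hA hz h11 h3
    (show Ideal (h62rChart A (M * q * q) (jB (M * q * q))) from 𝔫) h𝔫 hq𝔫 hnot

include haux in
/-- with the node case of R-L1: the node data at `α₂⁻¹ 𝔫₂` and at `β₂⁻¹ 𝔫₂`. -/
theorem h31x_nodeDatum_of_not_oneBranch (hz : H31GeoZeroOne) (h11 : H31Ord11One)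
    (h3 : H31NodeSym) (hn : H62L1NodeCase)
    (𝔫₂ : Ideal (h62rChart A (M * q * q) (jB (M * q * q)))) (h𝔫₂ : 𝔫₂.IsMaximal)
    (hq𝔫₂ : (q : h62rChart A (M * q * q) (jB (M * q * q))) ∈ 𝔫₂)
    (hss : ¬ h11l_OneBranch (q : h62rChart A (M * q * q) (jB (M * q * q))) 𝔫₂) :
    ((𝔫₂.comap (h62rA2 A M)).IsMaximal ∧
      H62NodeDatum A M hq hM hA (𝔫₂.comap (h62rA2 A M))) ∧
    ((𝔫₂.comap (h59y_b2 A M hq hM hA)).IsMaximal ∧
      H62NodeDatum A M hq hM hA (𝔫₂.comap (h59y_b2 A M hq hM hA))) := by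
  obtain ⟨⟨ha1, ha2⟩, ⟨hb1, hb2⟩⟩ :=
    h31x_nodes_of_not_oneBranch hq M hM haux A hA hz h11 h3 𝔫₂ h𝔫₂ hq𝔫₂ hss
  have hmaxa := h62g_finContr q hq M hM haux A hA 𝔫₂ h𝔫₂ hq𝔫₂
  have hmaxb := h59y_comap_b2 A M hq hM hA 𝔫₂ h𝔫₂ hq𝔫₂
  exact ⟨⟨hmaxa, hn q hq M hM haux A hA _ hmaxa (h62g_q_mem_comap A M 𝔫₂ hq𝔫₂) ha1 ha2⟩,
    ⟨hmaxb.1, hn q hq M hM haux A hA _ hmaxb.1 hmaxb.2 hb1 hb2⟩⟩

end Glue

end Fermat.Agent.S36
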