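import Mathlib

/-!
# S36, abstract leaves for the blocks (N) and (G) (helper33), Mathlib only

## (N3) the unipotent part along the non-reduced component is killed by `q`

`h33a_pow_prime_sub_one_mem` : `q` prime, `(q : R) ∈ I`, `J ^ q ≤ I`, `x ∈ J`
`⟹ (1 + x) ^ q - 1 ∈ I`.
(Application: `R = V` the semi-local Gauss ring of level `q² M'`, `I = q V`, `J = rad (q V)`;
`W₁₁(q) = q - 1 < q` gives `J ^ q ≤ q V`.  So `w ≡ 1` modulo the radical implies
`w ^ q ∈ 1 + q V`: no successive approximation is needed.)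

`h33a_bezout_zpow` : for `m` prime to `q` every `w ≠ 0` of a field is `(w ^ a) ^ m * (w ^ q) ^ b`.

## (G) the local lemma of the gate: a root of a unit with trivial branch values is regular

`h33a_surjective_of_adjoin` : `R` local, `S = R[φ]`, `φ ^ m ∈ R`, `m ∈ Rˣ`, and `φ - 1` lies in
every maximal ideal of `S`.  Then `R → S` is surjective (Nakayama).

`h33a_sub_one_mem_of_branches` : the hypothesis "`φ - 1` lies in every maximal ideal of `S`" from
branches: ring homomorphisms `ρ_W : S → D_W` onto local rings, whose kernels have nilpotent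
product (every prime of `S` lies on a branch), with `ρ_W φ ≡ 1` modulo the maximal ideal of `D_W`.

`h33a_exists_eq_algebraMap` : both together: `φ = algebraMap r` with `r - 1 ∈ 𝔪_R` whenever
`S` is nontrivial.
-/

set_option autoImplicit false

open IsLocalRing

namespace Fermat.Agent.S36

/-! ## (N3) -/

/-- **(N3).**  If `q ∈ I` and `J ^ q ≤ I` then `(1 + x) ^ q ≡ 1` modulo `I` for `x ∈ J`. -/
theorem h33a_pow_prime_sub_one_mem {R : Type*} [CommRing R] {q : ℕ} (hq : q.Prime)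
    (I J : Ideal R) (hqI : (q : R) ∈ I) (hJ : J ^ q ≤ I) {x : R} (hx : x ∈ J) :
    (1 + x) ^ q - 1 ∈ I := by
  obtain ⟨r, hr⟩ := exists_add_pow_prime_eq hq (1 : R) x
  have h1 : (1 + x) ^ q - 1 = x ^ q + (q : R) * (x * r) := by
    rw [hr]; ring
  rw [h1]
  exact I.add_mem (hJ (Ideal.pow_mem_pow hx q)) (I.mul_mem_right _ hqI)

/-- the same for a product of two elements `≡ 1`. -/
theorem h33a_pow_prime_mem_one_add {R : Type*} [CommRing R] {q : ℕ} (hq : q.Prime)
    (I J : Ideal R) (hqI : (q : R) ∈ I) (hJ : J ^ q ≤ I) {w : R} (hw : w - 1 ∈ J) :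
    w ^ q - 1 ∈ I := by
  have h := h33a_pow_prime_sub_one_mem hq I J hqI hJ hw
  rwa [add_sub_cancel] at h

/-- **Bezout.**  For `m` prime to `q`, every nonzero `w` is an `m`-th power times a power of
`w ^ q`. -/
theorem h33a_bezout_zpow {F : Type*} [Field F] {m q : ℕ} (hmq : Nat.Coprime m q) {w : F}
    (hw : w ≠ 0) : ∃ a b : ℤ, w = (w ^ a) ^ m * (w ^ q) ^ b := by
  refine ⟨Nat.gcdA m q, Nat.gcdB m q, ?_⟩
  have h1 : ((Nat.gcd m q : ℕ) : ℤ) = m * Nat.gcdA m q + q * Nat.gcdB m q :=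
    Nat.gcd_eq_gcd_ab m q
  rw [Nat.Coprime.gcd_eq_one hmq] at h1
  have h2 : (w ^ Nat.gcdA m q) ^ m * (w ^ q) ^ Nat.gcdB m q
      = w ^ ((m : ℤ) * Nat.gcdA m q + q * Nat.gcdB m q) := by
    rw [zpow_add₀ hw, zpow_mul, zpow_mul, zpow_natCast, zpow_natCast]
    congr 1
    rw [← zpow_natCast, ← zpow_natCast, ← zpow_mul, ← zpow_mul, mul_comm]
  rw [h2, ← h1]
  simp

/-! ## (G) the local lemma -/

section Local

variable {R S : Type*} [CommRing R] [IsLocalRing R] [CommRing S] [Algebra R S]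

/-- the set of elements of `S` which are congruent to a constant modulo `𝔪_R S`. -/
theorem h33a_adjoin_le_const (φ : S)
    (hφ : φ - 1 ∈ (maximalIdeal R).map (algebraMap R S)) (s : S)
    (hs : s ∈ Algebra.adjoin R {φ}) :
    ∃ r : R, s - algebraMap R S r ∈ (maximalIdeal R).map (algebraMap R S) := by
  set I : Ideal S := (maximalIdeal R).map (algebraMap R S) with hI
  induction hs using Algebra.adjoin_induction with
  | mem x hx =>
    rw [Set.mem_singleton_iff] at hx
    subst hx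
    exact ⟨1, by rwa [map_one]⟩
  | algebraMap r => exact ⟨r, by rw [sub_self]; exact I.zero_mem⟩
  | add x y _ _ hx hy =>
    obtain ⟨a, ha⟩ := hx
    obtain ⟨b, hb⟩ := hy
    refine ⟨a + b, ?_⟩
    have e : x + y - algebraMap R S (a + b) = (x - algebraMap R S a) + (y - algebraMap R S b) := by
      rw [map_add]; ring
    rw [e]
    exact I.add_mem ha hb
  | mul x y _ _ hx hy =>
    obtain ⟨a, ha⟩ := hx
    obtain ⟨b, hb⟩ := hy
    refine ⟨a * b, ?_⟩
    have e : x * y - algebraMap R S (a * b)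
        = (x - algebraMap R S a) * y + algebraMap R S a * (y - algebraMap R S b) := by
      rw [map_mul]; ring
    rw [e]
    exact I.add_mem (I.mul_mem_right _ ha) (I.mul_mem_left _ hb)

/-- **Nakayama step.**  If `S = R[φ]` is a finite `R`-module and `φ ≡ 1` modulo `𝔪_R S`, then
`R → S` is surjective. -/
theorem h33a_surjective_of_sub_one_mem [Module.Finite R S] (φ : S)
    (hgen : Algebra.adjoin R {φ} = ⊤)
    (hφ : φ - 1 ∈ (maximalIdeal R).map (algebraMap R S)) :
    Function.Surjective (algebraMap R S) := by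
  set N : Submodule R S := LinearMap.range (Algebra.linearMap R S) with hN
  have hle : (⊤ : Submodule R S) ≤ N ⊔ maximalIdeal R • (⊤ : Submodule R S) := by
    intro s _
    obtain ⟨r, hr⟩ := h33a_adjoin_le_const φ hφ s (by rw [hgen]; trivial)
    have h1 : algebraMap R S r ∈ N := ⟨r, rfl⟩
    have h2 : s - algebraMap R S r ∈ maximalIdeal R • (⊤ : Submodule R S) := by
      rw [Ideal.smul_top_eq_map]
      exact hr
    have e : s = algebraMap R S r + (s - algebraMap R S r) := by ring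
    rw [e]
    exact Submodule.add_mem_sup h1 h2
  have htop : (⊤ : Submodule R S) ≤ N :=
    Submodule.le_of_le_smul_of_le_jacobson_bot Module.Finite.fg_top
      (by rw [IsLocalRing.jacobson_eq_maximalIdeal ⊥ bot_ne_top]) hle
  intro s
  obtain ⟨r, hr⟩ := htop (Submodule.mem_top (x := s))
  exact ⟨r, hr⟩

/-- an element of `S` lying in no maximal ideal is a unit. -/
theorem h33a_isUnit_of_forall_not_mem {c : S} (hc : ∀ 𝔐 : Ideal S, 𝔐.IsMaximal → c ∉ 𝔐) :
    IsUnit c := by
  by_contra h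
  obtain ⟨𝔐, h𝔐, hc𝔐⟩ := exists_max_ideal_of_mem_nonunits (mem_nonunits_iff.mpr h)
  exact hc 𝔐 h𝔐 hc𝔐

/-- **the local lemma of the gate** (abstract form).  `R` local, `S = R[φ]`, `φ ^ m = u ∈ R`,
`m` a unit of `R`, and `φ - 1` in every maximal ideal of `S`: then `R → S` is surjective. -/
theorem h33a_surjective_of_adjoin (φ : S) (m : ℕ) (hm : IsUnit (m : R)) (hm0 : 0 < m)
    (u : R) (hu : φ ^ m = algebraMap R S u)
    (hgen : Algebra.adjoin R {φ} = ⊤)
    (hmax : ∀ 𝔐 : Ideal S, 𝔐.IsMaximal → φ - 1 ∈ 𝔐) :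
    Function.Surjective (algebraMap R S) := by
  rcases subsingleton_or_nontrivial S with hS | hS
  · intro s
    exact ⟨0, Subsingleton.elim _ _⟩
  -- `S` is a finite `R`-module
  have hint : IsIntegral R φ := by
    refine ⟨Polynomial.X ^ m - Polynomial.C u, Polynomial.monic_X_pow_sub_C u hm0.ne', ?_⟩
    simp [hu]
  have : Module.Finite R S := by
    have h1 : (Algebra.adjoin R {φ}).toSubmodule.FG := hint.fg_adjoin_singleton
    rw [hgen] at h1
    exact ⟨by simpa using h1⟩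
  -- the geometric sum is a unit
  set c : S := ∑ i ∈ Finset.range m, φ ^ i with hc
  have hcm : ∀ 𝔐 : Ideal S, 𝔐.IsMaximal → c - (m : S) ∈ 𝔐 := by
    intro 𝔐 h𝔐
    have h1 : ∀ i : ℕ, φ ^ i - 1 ∈ 𝔐 := by
      intro i
      induction i with
      | zero => rw [pow_zero, sub_self]; exact 𝔐.zero_mem
      | succ i ih =>
        have e : φ ^ (i + 1) - 1 = φ ^ i * (φ - 1) + (φ ^ i - 1) := by ring
        rw [e]
        exact 𝔐.add_mem (𝔐.mul_mem_left _ (hmax 𝔐 h𝔐)) ih
    have e : c - (m : S) = ∑ i ∈ Finset.range m, (φ ^ i - 1) := by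
      rw [hc, Finset.sum_sub_distrib]
      simp
    rw [e]
    exact 𝔐.sum_mem fun i _ => h1 i
  have hmS : IsUnit (m : S) := by
    have := hm.map (algebraMap R S)
    rwa [map_natCast] at this
  have hcu : IsUnit c := by
    refine h33a_isUnit_of_forall_not_mem fun 𝔐 h𝔐 hc𝔐 => ?_
    have h1 : (m : S) ∈ 𝔐 := by
      have := 𝔐.sub_mem hc𝔐 (hcm 𝔐 h𝔐)
      rwa [sub_sub_cancel] at this
    exact h𝔐.ne_top (Ideal.eq_top_of_isUnit_mem _ h1 hmS)
  -- `u - 1 ∈ 𝔪_R`
  have hgeom : (φ - 1) * c = algebraMap R S (u - 1) := by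
    rw [map_sub, map_one, ← hu, hc, mul_comm]
    exact geom_sum_mul φ m
  have hu1 : u - 1 ∈ maximalIdeal R := by
    by_contra h
    have hunit : IsUnit (u - 1) := by
      by_contra h'
      exact h ((IsLocalRing.mem_maximalIdeal _).mpr (mem_nonunits_iff.mpr h'))
    obtain ⟨𝔐, h𝔐⟩ := Ideal.exists_maximal S
    have h1 : algebraMap R S (u - 1) ∈ 𝔐 := by
      rw [← hgeom]
      exact 𝔐.mul_mem_right _ (hmax 𝔐 h𝔐)
    exact h𝔐.ne_top (Ideal.eq_top_of_isUnit_mem _ h1 (hunit.map (algebraMap R S)))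
  -- `φ - 1 ∈ 𝔪_R S`
  have hφ1 : φ - 1 ∈ (maximalIdeal R).map (algebraMap R S) := by
    obtain ⟨c', hc'⟩ := hcu.exists_right_inv
    have e : φ - 1 = algebraMap R S (u - 1) * c' := by
      rw [← hgeom, mul_assoc, hc', mul_one]
    rw [e]
    exact Ideal.mul_mem_right _ _ (Ideal.mem_map_of_mem _ hu1)
  exact h33a_surjective_of_sub_one_mem φ hgen hφ1

end Local

section Branches

variable {S : Type*} [CommRing S]

/-- **branches.**  Let `ρ_W : S → D_W` (`W` in a finite set) be surjective ring homomorphisms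
onto local rings such that the product of their kernels is nilpotent, and let `φ ∈ S` with
`ρ_W φ ≡ 1` modulo the maximal ideal of `D_W` for all `W`.  Then `φ - 1` lies in every maximal
ideal of `S`. -/
theorem h33a_sub_one_mem_of_branches {ι : Type*} (T : Finset ι) (D : ι → Type*)
    [∀ i, CommRing (D i)] [∀ i, IsLocalRing (D i)] (ρ : ∀ i, S →+* D i)
    (hsurj : ∀ i ∈ T, Function.Surjective (ρ i))
    (hnil : ∃ n : ℕ, (∏ i ∈ T, RingHom.ker (ρ i)) ^ n = ⊥)
    (φ : S) (hφ : ∀ i ∈ T, ρ i φ - 1 ∈ maximalIdeal (D i))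
    (𝔐 : Ideal S) (h𝔐 : 𝔐.IsMaximal) : φ - 1 ∈ 𝔐 := by
  obtain ⟨n, hn⟩ := hnil
  have hprime := h𝔐.isPrime
  have h1 : (∏ i ∈ T, RingHom.ker (ρ i)) ≤ 𝔐 := by
    have h2 : (∏ i ∈ T, RingHom.ker (ρ i)) ^ n ≤ 𝔐 := by rw [hn]; exact bot_le
    exact hprime.le_of_pow_le h2
  obtain ⟨i, hiT, hi⟩ := (hprime.prod_le).1 h1
  -- the image of `𝔐` in `D i` is a proper ideal
  have hmap : (𝔐.map (ρ i)) ≠ ⊤ := by
    intro htop
    have hc : (𝔐.map (ρ i)).comap (ρ i) = 𝔐 := by
      rw [Ideal.comap_map_of_surjective (ρ i) (hsurj i hiT)]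
      exact sup_eq_left.mpr (by rw [← RingHom.ker_eq_comap_bot]; exact hi)
    rw [htop, Ideal.comap_top] at hc
    exact h𝔐.ne_top hc.symm
  have hle : 𝔐.map (ρ i) ≤ maximalIdeal (D i) := IsLocalRing.le_maximalIdeal hmap
  -- `𝔐` is the preimage of the maximal ideal
  have hM : (maximalIdeal (D i)).comap (ρ i) = 𝔐 := by
    have h3 : 𝔐 ≤ (maximalIdeal (D i)).comap (ρ i) := by
      rw [← Ideal.map_le_iff_le_comap]; exact hle
    have h4 : (maximalIdeal (D i)).comap (ρ i) ≠ ⊤ := by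
      intro h
      have h5 : (1 : S) ∈ (maximalIdeal (D i)).comap (ρ i) := by rw [h]; trivial
      rw [Ideal.mem_comap, map_one] at h5
      exact (Ideal.ne_top_iff_one _).mp (maximalIdeal.isMaximal (D i)).ne_top h5
    exact (h𝔐.eq_of_le h4 h3).symm
  rw [← hM, Ideal.mem_comap, map_sub, map_one]
  exact hφ i hiT

end Branches

section Both

variable {R S : Type*} [CommRing R] [IsLocalRing R] [CommRing S] [Algebra R S]

/-- **the local lemma of the gate with branches.** -/
theorem h33a_exists_eq_algebraMap {ι : Type*} (T : Finset ι) (D : ι → Type*)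
    [∀ i, CommRing (D i)] [∀ i, IsLocalRing (D i)] (ρ : ∀ i, S →+* D i)
    (hsurj : ∀ i ∈ T, Function.Surjective (ρ i))
    (hnil : ∃ n : ℕ, (∏ i ∈ T, RingHom.ker (ρ i)) ^ n = ⊥)
    (φ : S) (hφ : ∀ i ∈ T, ρ i φ - 1 ∈ maximalIdeal (D i))
    (m : ℕ) (hm : IsUnit (m : R)) (hm0 : 0 < m)
    (u : R) (hu : φ ^ m = algebraMap R S u)
    (hgen : Algebra.adjoin R {φ} = ⊤) :
    ∃ r : R, algebraMap R S r = φ :=
  h33a_surjective_of_adjoin φ m hm hm0 u hu hgen
    (h33a_sub_one_mem_of_branches T D ρ hsurj hnil φ hφ) φ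

end Both

end Fermat.Agent.S36
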