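import Fermat.Agent.Jac.OS
import Fermat.Agent.S37.Defs

/-!
# S36, leaf (D): descent of Kummer functions to the fixed field of a subgroup (Hilbert 90)

Author: helper83.  `K = ℚ̄`, `F = FF N ⊆ K((q))` the function field of `X₀(N)` over `ℚ̄` with
the coefficientwise action `gal N σ` of `G_ℚ`.

Main result `h83d_descent`: let `I ≤ G_ℚ` be ANY subgroup (e.g. an inertia group), `0 < m`,
`u ≠ 0` in `FF N` with `σ u ∈ K^× · u · F^{× m}` for every `σ ∈ I` (i.e. the class of the divisor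
`D = div(u)/m` is `I`-invariant).  Then there are `c ∈ K^×` and `h ∈ F^×` with
`u' = c · u · h ^ m` FIXED by every `σ ∈ I` (so `u'` is defined over `K^I`, and so is
`D' = D + div h`).

Proof: normalise the leading coefficient of the `q`-expansion (`h83d_lc`), so that
`σ u₁ = u₁ · g_σ ^ m` with a UNIQUE `g_σ` of leading coefficient one; `σ ↦ g_σ` is a
1-cocycle `I → F^×`, trivial on an open subgroup; the Poincaré series
`h = Σ_e g_{σ_e} · e(b)` (`e` running over the restrictions of `I` to a finite extension `L/ℚ`)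
satisfies `σ h = g_σ⁻¹ h`, and is nonzero for some `b ∈ L` by Dedekind's independence of
characters.
-/

set_option autoImplicit false

open ModularCurve AlgebraicCurve IntermediateField HahnSeries
open Fermat.Agent.S37

noncomputable section

namespace Fermat.Agent.S36

/-! ### the leading coefficient of the `q`-expansion -/

/-- leading coefficient of the `q`-expansion at `∞`. -/
def h83d_lc (N : ℕ) (f : FF N) : Kbar := ((f : FF N) : LaurentSeries Kbar).leadingCoeff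

theorem h83d_lc_mul (N : ℕ) (f g : FF N) :
    h83d_lc N (f * g) = h83d_lc N f * h83d_lc N g :=
  HahnSeries.leadingCoeff_mul (f : LaurentSeries Kbar) (g : LaurentSeries Kbar)

theorem h83d_lc_cst (N : ℕ) (c : Kbar) : h83d_lc N (cst N c) = c := by
  show (algebraMap Kbar (LaurentSeries Kbar) c).leadingCoeff = c
  rw [algebraMap_laurentSeries_eq_single, HahnSeries.leadingCoeff_of_single]

theorem h83d_lc_one (N : ℕ) : h83d_lc N (1 : FF N) = 1 := by
  have h := h83d_lc_cst N 1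
  rwa [show cst N 1 = 1 from map_one _] at h

theorem h83d_lc_eq_zero {N : ℕ} {f : FF N} : h83d_lc N f = 0 ↔ f = 0 := by
  unfold h83d_lc
  rw [HahnSeries.leadingCoeff_eq_zero]
  exact ⟨fun h => Subtype.ext h, fun h => by rw [h]; rfl⟩

theorem h83d_lc_ne_zero {N : ℕ} {f : FF N} (hf : f ≠ 0) : h83d_lc N f ≠ 0 :=
  fun h => hf (h83d_lc_eq_zero.1 h)

theorem h83d_ne_zero_of_lc {N : ℕ} {f : FF N} (hf : h83d_lc N f = 1) : f ≠ 0 := by
  rintro rfl
  rw [h83d_lc_eq_zero.2 rfl] at hf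
  exact zero_ne_one hf

theorem h83d_lc_pow (N : ℕ) (f : FF N) (m : ℕ) :
    h83d_lc N (f ^ m) = h83d_lc N f ^ m := by
  induction m with
  | zero => rw [pow_zero, pow_zero, h83d_lc_one]
  | succ k ih => rw [pow_succ, pow_succ, h83d_lc_mul, ih]

theorem h83d_order_coeffMap (σ : GQ) (x : LaurentSeries Kbar) :
    (coeffMap (σ : Kbar →+* Kbar) x).order = x.order := by
  by_cases hx : x = 0
  · subst hx; rw [map_zero]
  have hx' : coeffMap (σ : Kbar →+* Kbar) x ≠ 0 := by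
    intro h
    apply hx
    ext k
    have := congrArg (fun y : LaurentSeries Kbar => y.coeff k) h
    simpa using this
  apply le_antisymm
  · apply HahnSeries.order_le_of_coeff_ne_zero
    rw [coeffMap_coeff]
    intro h
    have h0 : x.coeff x.order = 0 := by simpa using h
    exact HahnSeries.leadingCoeff_ne_zero.2 hx (HahnSeries.leadingCoeff_eq.trans h0)
  · apply HahnSeries.order_le_of_coeff_ne_zero
    intro h
    have h1 : (coeffMap (σ : Kbar →+* Kbar) x).coeff (coeffMap (σ : Kbar →+* Kbar) x).order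
        = 0 := by
      rw [coeffMap_coeff, h, map_zero]
    exact HahnSeries.leadingCoeff_ne_zero.2 hx' (HahnSeries.leadingCoeff_eq.trans h1)

theorem h83d_lc_gal (N : ℕ) (σ : GQ) (f : FF N) :
    h83d_lc N (gal N σ • f) = σ (h83d_lc N f) := by
  unfold h83d_lc
  rw [coe_arithmeticGalois_smul, HahnSeries.leadingCoeff_eq, HahnSeries.leadingCoeff_eq,
    h83d_order_coeffMap, coeffMap_coeff]
  rfl

theorem h83d_gal_cst (N : ℕ) (σ : GQ) (c : Kbar) :
    gal N σ • cst N c = cst N (σ c) :=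
  SemilinearAut.smul_algebraMap _ c

/-- an `m`-th root of unity in `FF N` with leading coefficient one is `1`. -/
theorem h83d_root_one (N : ℕ) {m : ℕ} (hm : 0 < m) (z : FF N) (hz : z ^ m = 1)
    (hlc : h83d_lc N z = 1) : z = 1 := by
  have halg : IsAlgebraic Kbar z := by
    refine ⟨Polynomial.X ^ m - Polynomial.C 1, Polynomial.X_pow_sub_C_ne_zero hm 1, ?_⟩
    simp [hz]
  obtain ⟨c, rfl⟩ := Fermat.Agent.S24.pd_exists_algebraMap_eq halg
  have h1 : c = 1 := by
    have := h83d_lc_cst N c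
    exact this.symm.trans hlc
  rw [h1, map_one]

/-! ### the normalised cocycle -/

/-- `g` is the normalised `m`-th root of `σ u₁ / u₁`. -/
def h83d_IsRoot (N m : ℕ) (u₁ : FF N) (σ : GQ) (g : FF N) : Prop :=
  h83d_lc N g = 1 ∧ gal N σ • u₁ = u₁ * g ^ m

theorem h83d_isRoot_unique (N : ℕ) {m : ℕ} (hm : 0 < m) (u₁ : FF N) (hu : u₁ ≠ 0)
    {σ : GQ} {g g' : FF N} (h : h83d_IsRoot N m u₁ σ g) (h' : h83d_IsRoot N m u₁ σ g') :
    g = g' := by
  have hg' : g' ≠ 0 := h83d_ne_zero_of_lc h'.1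
  have hpow : (g / g') ^ m = 1 := by
    rw [div_pow, div_eq_one_iff_eq (pow_ne_zero _ hg')]
    exact mul_left_cancel₀ hu (h.2.symm.trans h'.2)
  have hlc : h83d_lc N (g / g') = 1 := by
    have h1 := h83d_lc_mul N (g / g') g'
    rw [div_mul_cancel₀ _ hg', h.1, h'.1, mul_one] at h1
    exact h1.symm
  exact (div_eq_one_iff_eq hg').1 (h83d_root_one N hm _ hpow hlc)

/-- normalisation: from `σ u = c · u · g ^ m` to the normalised relation for
`u₁ = u / lc(u)`. -/
theorem h83d_isRoot_exists (N : ℕ) {m : ℕ} (u : FF N) (hu : u ≠ 0) (σ : GQ) (c : Kbar)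
    (g : FF N) (hg : g ≠ 0) (h : gal N σ • u = cst N c * u * g ^ m) :
    h83d_IsRoot N m (cst N (h83d_lc N u)⁻¹ * u) σ (cst N (h83d_lc N g)⁻¹ * g) := by
  have ha : h83d_lc N u ≠ 0 := h83d_lc_ne_zero hu
  have hb : h83d_lc N g ≠ 0 := h83d_lc_ne_zero hg
  have hσa : σ (h83d_lc N u) = c * h83d_lc N u * h83d_lc N g ^ m := by
    rw [← h83d_lc_gal, h, h83d_lc_mul, h83d_lc_mul, h83d_lc_cst, h83d_lc_pow]
  have hσa0 : σ (h83d_lc N u) ≠ 0 := by
    intro h0
    exact ha ((map_eq_zero σ).1 h0)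
  refine ⟨?_, ?_⟩
  · rw [h83d_lc_mul, h83d_lc_cst, inv_mul_cancel₀ hb]
  · rw [smul_mul', h83d_gal_cst, h, mul_pow, ← map_pow, map_inv₀]
    have key : cst N (σ (h83d_lc N u))⁻¹ * cst N c
        = cst N (h83d_lc N u)⁻¹ * cst N ((h83d_lc N g)⁻¹ ^ m) := by
      rw [← map_mul, ← map_mul]
      congr 1
      rw [hσa]
      have hc : c ≠ 0 := by
        intro hc
        apply hσa0
        rw [hσa, hc, zero_mul, zero_mul]
      rw [inv_pow]
      field_simp
    calc cst N (σ (h83d_lc N u))⁻¹ * (cst N c * u * g ^ m)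
        = (cst N (σ (h83d_lc N u))⁻¹ * cst N c) * u * g ^ m := by ring
      _ = (cst N (h83d_lc N u)⁻¹ * cst N ((h83d_lc N g)⁻¹ ^ m)) * u * g ^ m := by rw [key]
      _ = cst N (h83d_lc N u)⁻¹ * u * (cst N ((h83d_lc N g)⁻¹ ^ m) * g ^ m) := by ring

/-! ### Hilbert 90 by a Poincaré series -/

/-- **Hilbert 90** for the normalised cocycle: if `σ u₁ = u₁ · g_σ ^ m` with `lc g_σ = 1` for
all `σ ∈ I`, then `u₁ · h ^ m` is `I`-invariant for some `h ≠ 0`. -/
theorem h83d_descent_normalised (N : ℕ) (I : Subgroup GQ) {m : ℕ} (hm : 0 < m) (u₁ : FF N)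
    (hu : u₁ ≠ 0) (hI : ∀ σ ∈ I, ∃ g, h83d_IsRoot N m u₁ σ g) :
    ∃ h : FF N, h ≠ 0 ∧ (∀ σ ∈ I, ∃ g : FF N, h83d_lc N g = 1 ∧ gal N σ • h * g = h ∧
        gal N σ • u₁ = u₁ * g ^ m) ∧
      ∀ σ ∈ I, gal N σ • (u₁ * h ^ m) = u₁ * h ^ m := by
  classical
  choose! G hG using hI
  have hG0 : ∀ σ ∈ I, G σ ≠ 0 := fun σ hσ => h83d_ne_zero_of_lc (hG σ hσ).1
  have hcoc : ∀ σ ∈ I, ∀ τ ∈ I, G (σ * τ) = G σ * gal N σ • G τ := by
    intro σ hσ τ hτ
    refine h83d_isRoot_unique N hm u₁ hu (hG _ (I.mul_mem hσ hτ)) ⟨?_, ?_⟩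
    · rw [h83d_lc_mul, h83d_lc_gal, (hG σ hσ).1, (hG τ hτ).1, map_one, mul_one]
    · have hmul : gal N (σ * τ) = gal N σ * gal N τ := map_mul _ σ τ
      rw [hmul, mul_smul, (hG τ hτ).2, smul_mul', smul_pow', (hG σ hσ).2, mul_pow,
        mul_assoc]
  obtain ⟨L, hL, hfix⟩ := Fermat.Agent.Jac.h18_exists_fixing_field N u₁
  have hG1 : ∀ τ ∈ I, (∀ y ∈ L, τ y = y) → G τ = 1 := by
    intro τ hτ hy
    refine h83d_isRoot_unique N hm u₁ hu (hG τ hτ) ⟨h83d_lc_one N, ?_⟩
    rw [one_pow, mul_one]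
    exact hfix τ hy
  -- restriction to `L`
  let res : GQ → (L →ₐ[ℚ] Kbar) := fun σ => (σ : Kbar →ₐ[ℚ] Kbar).comp L.val
  have hres_apply : ∀ (σ : GQ) (y : L), res σ y = σ (y : Kbar) := fun _ _ => rfl
  have hres : ∀ σ ∈ I, ∀ σ' ∈ I, res σ = res σ' → G σ = G σ' := by
    intro σ hσ σ' hσ' h
    have hτ : σ⁻¹ * σ' ∈ I := I.mul_mem (I.inv_mem hσ) hσ'
    have h1 : G (σ⁻¹ * σ') = 1 := by
      refine hG1 _ hτ (fun y hy => ?_)
      have h2 : σ y = σ' y := DFunLike.congr_fun h ⟨y, hy⟩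
      show σ⁻¹ (σ' y) = y
      rw [← h2]
      exact σ.symm_apply_apply y
    have h3 := hcoc σ hσ _ hτ
    rw [mul_inv_cancel_left, h1, smul_one, mul_one] at h3
    exact h3.symm
  have : Fintype (L →ₐ[ℚ] Kbar) := Fintype.ofFinite _
  -- the coefficients of the Poincaré series
  let c : (L →ₐ[ℚ] Kbar) → FF N := fun e =>
    if h : ∃ σ ∈ I, res σ = e then G (Classical.choose h) else 0
  have hc_res : ∀ σ ∈ I, c (res σ) = G σ := by
    intro σ hσ
    have h : ∃ σ' ∈ I, res σ' = res σ := ⟨σ, hσ, rfl⟩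
    show (if h : ∃ σ' ∈ I, res σ' = res σ then G (Classical.choose h) else 0) = G σ
    rw [dif_pos h]
    exact hres _ (Classical.choose_spec h).1 _ hσ (Classical.choose_spec h).2
  have hc_not : ∀ e, (¬ ∃ σ ∈ I, res σ = e) → c e = 0 := by
    intro e he
    show (if h : ∃ σ' ∈ I, res σ' = e then G (Classical.choose h) else 0) = 0
    rw [dif_neg he]
  -- the characters
  let φ : (L →ₐ[ℚ] Kbar) → (L →* FF N) := fun e =>
    ((algebraMap Kbar (FF N)).comp (e : L →+* Kbar) : L →+* FF N)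
  have hφ_apply : ∀ e (b : L), φ e b = cst N (e b) := fun _ _ => rfl
  have hφ_inj : Function.Injective φ := by
    intro e e' h
    ext b
    have h1 : cst N (e b) = cst N (e' b) := DFunLike.congr_fun h b
    exact (algebraMap Kbar (FF N)).injective h1
  have hli : LinearIndependent (FF N) (fun e : L →ₐ[ℚ] Kbar => (φ e : L → FF N)) :=
    (linearIndependent_monoidHom L (FF N)).comp φ hφ_inj
  -- nonvanishing
  have hne : ∃ b : L, (∑ e, c e * cst N (e b)) ≠ 0 := by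
    by_contra hcon
    have hall : ∀ b : L, (∑ e, c e * cst N (e b)) = 0 := by
      intro b
      by_contra hb
      exact hcon ⟨b, hb⟩
    have h0 : c (res 1) = 0 := by
      refine (Fintype.linearIndependent_iff.1 hli) c ?_ (res 1)
      funext b
      rw [Finset.sum_apply]
      exact hall b
    rw [hc_res 1 I.one_mem] at h0
    exact hG0 1 I.one_mem h0
  obtain ⟨b, hb⟩ := hne
  set h : FF N := ∑ e, c e * cst N (e b) with hh
  -- the action on the Poincaré series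
  have hact : ∀ σ ∈ I, gal N σ • h * G σ = h := by
    intro σ hσ
    have hstep : ∀ e : L →ₐ[ℚ] Kbar,
        gal N σ • (c e * cst N (e b)) * G σ
          = c ((σ : Kbar →ₐ[ℚ] Kbar).comp e) * cst N (((σ : Kbar →ₐ[ℚ] Kbar).comp e) b) := by
      intro e
      have hval : ((σ : Kbar →ₐ[ℚ] Kbar).comp e) b = σ (e b) := rfl
      rw [smul_mul', h83d_gal_cst, hval]
      by_cases he : ∃ τ ∈ I, res τ = e
      · obtain ⟨τ, hτ, rfl⟩ := he
        have h1 : (σ : Kbar →ₐ[ℚ] Kbar).comp (res τ) = res (σ * τ) := rfl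
        rw [h1, hc_res τ hτ, hc_res _ (I.mul_mem hσ hτ), hcoc σ hσ τ hτ]
        ring
      · have he' : ¬ ∃ τ ∈ I, res τ = (σ : Kbar →ₐ[ℚ] Kbar).comp e := by
          rintro ⟨τ, hτ, h2⟩
          apply he
          refine ⟨σ⁻¹ * τ, I.mul_mem (I.inv_mem hσ) hτ, ?_⟩
          ext y
          have h3 : τ (y : Kbar) = σ (e y) := DFunLike.congr_fun h2 y
          show σ⁻¹ (τ (y : Kbar)) = e y
          rw [h3]
          exact σ.symm_apply_apply (e y)
        rw [hc_not e he, hc_not _ he', smul_zero, zero_mul, zero_mul]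
    have hbij : Function.Bijective
        (fun e : L →ₐ[ℚ] Kbar => (σ : Kbar →ₐ[ℚ] Kbar).comp e) := by
      refine Function.bijective_iff_has_inverse.2
        ⟨fun e => ((σ⁻¹ : GQ) : Kbar →ₐ[ℚ] Kbar).comp e, ?_, ?_⟩
      · intro e
        ext y
        show σ⁻¹ (σ (e y)) = e y
        exact σ.symm_apply_apply (e y)
      · intro e
        ext y
        show σ (σ⁻¹ (e y)) = e y
        exact σ.apply_symm_apply (e y)
    rw [hh, Finset.smul_sum, Finset.sum_mul]
    exact Fintype.sum_bijective _ hbij _ _ hstep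
  refine ⟨h, hb, fun σ hσ => ⟨G σ, (hG σ hσ).1, hact σ hσ, (hG σ hσ).2⟩, fun σ hσ => ?_⟩
  rw [smul_mul', smul_pow', (hG σ hσ).2]
  calc u₁ * G σ ^ m * (gal N σ • h) ^ m = u₁ * (gal N σ • h * G σ) ^ m := by ring
    _ = u₁ * h ^ m := by rw [hact σ hσ]

/-- **Descent (D)**: if `σ u ∈ K^× · u · F^{× m}` for all `σ` in a subgroup `I ≤ G_ℚ`, then
`c · u · h ^ m` is fixed by `I` for suitable `c ∈ K^×`, `h ∈ F^×`. -/
theorem h83d_descent (N : ℕ) (I : Subgroup GQ) {m : ℕ} (hm : 0 < m) (u : FF N) (hu : u ≠ 0)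
    (hI : ∀ σ ∈ I, ∃ (c : Kbar) (g : FF N), g ≠ 0 ∧ gal N σ • u = cst N c * u * g ^ m) :
    ∃ (c : Kbar) (h : FF N), c ≠ 0 ∧ h ≠ 0 ∧
      ∀ σ ∈ I, gal N σ • (cst N c * u * h ^ m) = cst N c * u * h ^ m := by
  have ha : h83d_lc N u ≠ 0 := h83d_lc_ne_zero hu
  have hu₁ : cst N (h83d_lc N u)⁻¹ * u ≠ 0 :=
    mul_ne_zero (fun h0 => inv_ne_zero ha ((map_eq_zero _).1 h0)) hu
  obtain ⟨h, hh, -, hinv⟩ := h83d_descent_normalised N I hm _ hu₁ (fun σ hσ => by
    obtain ⟨c, g, hg, hcg⟩ := hI σ hσ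
    exact ⟨_, h83d_isRoot_exists N u hu σ c g hg hcg⟩)
  exact ⟨(h83d_lc N u)⁻¹, h, inv_ne_zero ha, hh, hinv⟩

end Fermat.Agent.S36
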