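import Fermat.Agent.S36.H92Chain
import Fermat.Agent.S36.H83Descent

/-!
# S36, row H92DESC (helper33): the block (D) in the form of the chain contract

`h33d_h92Desc : H92Desc` (`S36/H92Chain.lean`, helper92), with exponent `t = 1`:
if `m ∣ div u` and `σ u = h_σ ^ m · u` for every `σ` in the inertia group `I` of `A`, then
`u = u₀ · h ^ m` with `u₀` fixed by `I`.

Adapter of the landed descent `h83d_descent` (helper83): it gives `c ≠ 0`, `g ≠ 0` with
`c · u · g ^ m` fixed by `I`; as `ℚ̄` is algebraically closed, `c = d ^ m`, so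
`u = (c · u · g ^ m) · ((d · g)⁻¹) ^ m`.
-/

set_option autoImplicit false

open AlgebraicCurve ModularCurve

noncomputable section

namespace Fermat.Agent.S36

open Fermat.Agent.S37 (Kbar GQ FF cst gal auxLevel)

/-- the descent in multiplicative form, for any subgroup `I` of `G_ℚ` and any level. -/
theorem h33d_descent_mul (N : ℕ) (I : Subgroup GQ) {m : ℕ} (hm : 0 < m) (u : FF N)
    (hu : u ≠ 0) (hinv : ∀ σ ∈ I, ∃ h : FF N, gal N σ • u = h ^ m * u) :
    ∃ u₀ h : FF N, u₀ ∈ h53d_F0 N I ∧ h ≠ 0 ∧ u = u₀ * h ^ m := by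
  obtain ⟨c, g, hc, hg, hfix⟩ := h83d_descent N I hm u hu (fun σ hσ => by
    obtain ⟨h, hh⟩ := hinv σ hσ
    have hσu : gal N σ • u ≠ 0 := by
      rw [SemilinearAut.smul_def]
      exact (map_ne_zero_iff _ (SemilinearAut.toRingAut (gal N σ)).injective).mpr hu
    have hh0 : h ≠ 0 := by
      rintro rfl
      rw [zero_pow hm.ne', zero_mul] at hh
      exact hσu hh
    refine ⟨1, h, hh0, ?_⟩
    rw [hh, show cst N (1 : Kbar) = 1 from map_one (algebraMap Kbar (FF N)), one_mul, mul_comm])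
  obtain ⟨d, hd⟩ := IsAlgClosed.exists_pow_nat_eq c hm
  have hd0 : d ≠ 0 := by
    rintro rfl
    rw [zero_pow hm.ne'] at hd
    exact hc hd.symm
  have hcd : cst N d ≠ 0 := fun h0 => hd0 ((map_eq_zero _).1 h0)
  have hdg : cst N d * g ≠ 0 := mul_ne_zero hcd hg
  refine ⟨cst N c * u * g ^ m, (cst N d * g)⁻¹, fun σ hσ => hfix σ hσ, inv_ne_zero hdg, ?_⟩
  have hc' : cst N c = cst N d ^ m := by
    rw [← hd]
    exact map_pow (algebraMap Kbar (FF N)) d m
  rw [hc', inv_pow, mul_pow]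
  field_simp

/-- **H92DESC.** -/
theorem h33d_h92Desc : H92Desc := by
  intro q hq M _ _ _ A _
  refine ⟨1, one_pos, ?_⟩
  intro m hm u hu _ hinv
  have hm0 : 0 < m := Nat.pos_of_ne_zero (fun h => hm (h ▸ dvd_zero q))
  obtain ⟨u₀, h, hu₀, hh, he⟩ :=
    h33d_descent_mul (M * q * q) (A.inertiaSubgroupIn ℚ) hm0 u hu hinv
  exact ⟨u₀, h, hu₀, hh, by rw [pow_one]; exact he⟩

end Fermat.Agent.S36
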