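import Fermat.Agent.S36.Skeleton
import Fermat.Agent.S35.H33Tors

/-!
# S36, leaf G36-TORS (helper33): from the inertia gate (functions) to `InertiaNewTorsion`
(divisor classes)

`h33u_inertiaTorsionOfGate : InertiaTorsionOfGate`, i.e.
`InertiaGateAll → ∀ M q p, InertiaNewTorsion M q p`.

Proof (clone of `Fermat.Agent.S35.h33s_frobTorsionOfGate`): write `M = M' * q`, `q ∤ M'`.  For
`x ∈ J₀(M' q²)[p ^ k]` choose a Kummer representative `f` (`div f = p ^ k · D`, `[D] = x`).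

* `σ x = x` for `σ` in the inertia group gives that `σ f / f` is a Kummer representative of `0`,
  i.e. `σ f = h ^ (p ^ k) · f`;
* `α_* x = 0 = β_* x` gives that the norms of `f` along `α`, `β` are `p ^ k`-th powers;
* the gate gives `f ^ t = H ^ (p ^ k)`, and `f ^ t` is a Kummer representative of `t • x`, so
  `t • x = 0`.
-/

set_option autoImplicit false

open AlgebraicCurve ModularCurve

noncomputable section

namespace Fermat.Agent.S36

open Fermat.Agent.S37 (Kbar GQ FF gal)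
open Fermat.Agent.Jac.K1
open Fermat.Agent.Red.HKMod
open Fermat.Agent.S35

/-- a class fixed by `σ` has Kummer representatives which are multiplied by an `n`-th power
under `σ`. -/
theorem h33u_gal_eq_pow_mul (N : ℕ) [NeZero N] (σ : GQ) {n : ℕ} (hn : n ≠ 0) {x : JZero N}
    {f : FF N} (hx : IsKummerPair n x f) (hfix : σ • x = x) :
    ∃ h : FF N, gal N σ • f = h ^ n * f := by
  have h1 : IsKummerPair n (gal N σ • x - x) (gal N σ • f / f) := (hx.smul (gal N σ)).div hx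
  have h0 : gal N σ • x - x = 0 := by
    rw [sub_eq_zero]
    exact hfix
  obtain ⟨h, -, hh⟩ := (kummerPair_JZero_eq_zero_iff N hn h1).1 h0
  refine ⟨h, ?_⟩
  rw [← hh, div_mul_cancel₀ _ hx.ne_zero]

/-- a class is killed by `t` as soon as the `t`-th power of a Kummer representative is an
`n`-th power. -/
theorem h33u_nsmul_eq_zero_of_pow (N : ℕ) [NeZero N] {n : ℕ} (hn : n ≠ 0) {x : JZero N}
    {f : FF N} (hx : IsKummerPair n x f) (t : ℕ) (H : FF N) (hH : H ^ n = f ^ t) :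
    t • x = 0 :=
  Fermat.Agent.Red.EST.h76_kummer_eq_zero_of_pow hn (h33s_kummer_nsmul hx t) hH

/-- **G36-TORS.** -/
theorem h33u_inertiaTorsionOfGate : InertiaTorsionOfGate := by
  intro hG M q p _ _ hq hqM hq2M hp hpq A hA
  obtain ⟨M', hM'⟩ : ∃ M', M = M' * q := by
    obtain ⟨c, hc⟩ := hqM
    exact ⟨c, by rw [hc, mul_comm]⟩
  subst hM'
  have hM'0 : M' ≠ 0 := fun h => (NeZero.ne (M' * q)) (by rw [h, zero_mul])
  have : NeZero M' := ⟨hM'0⟩
  have hqM' : ¬ q ∣ M' := fun h => hq2M (by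
    rw [pow_two]
    exact Nat.mul_dvd_mul h dvd_rfl |>.trans (by rw [mul_comm]))
  obtain ⟨t, ht, hgate⟩ := hG q hq M' hqM' A hA
  refine ⟨t, ht, fun k x hx hfix hα hβ => ?_⟩
  have hn : p ^ k ≠ 0 := pow_ne_zero _ hp.ne_zero
  have hqm : ¬ q ∣ p ^ k := fun h =>
    hpq ((Nat.prime_dvd_prime_iff_eq hq hp).1 (hq.dvd_of_dvd_pow h)).symm
  obtain ⟨f, hf⟩ := exists_kummerPair_JZero (M' * q * q) hx
  obtain ⟨a, -, ha⟩ := h33s_norm_eq_pow_of_pushAlpha (M' * q) q hn hf hα
  obtain ⟨b, -, hb⟩ := h33s_norm_eq_pow_of_pushBeta (M' * q) q hn hf hβ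
  obtain ⟨H, hH⟩ := hgate (p ^ k) hqm f hf.ne_zero (fun v => hf.dvd_ord v)
    (fun σ hσ => h33u_gal_eq_pow_mul (M' * q * q) σ hn hf (hfix σ hσ))
    ⟨a, by rw [h33s_normAlong_eq]; exact ha⟩ ⟨b, by rw [h33s_normAlong_eq]; exact hb⟩
  exact h33u_nsmul_eq_zero_of_pow (M' * q * q) hn hf t H hH

end Fermat.Agent.S36
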