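import Fermat.Agent.S36.H36H90
import Fermat.Agent.Jac.OS
import Fermat.Agent.Jac.TFL
import Fermat.Agent.Jac.HKM.Const

/-!
# S36, block (D) descent: invariant classes have invariant divisors and functions

Let `I` be a subgroup of `G_ℚ` (the inertia subgroup in the application) and `x ∈ J₀(N)` with
`σ x = x` for all `σ ∈ I`.

* `h36d_exists_invariant_divisor` : `x` is the class of a divisor `D` of degree zero with
  `σ D = D` for all `σ ∈ I`.
* `h36d_exists_invariant_function` : if moreover `m D` is principal, `m D = div u` with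
  `σ u = u` for all `σ ∈ I` (`u` = the function with leading coefficient `1` at `∞`).
* `h36d_descent` : both together for `x ∈ J₀(N)[m]`.

Proof: the functions `f_σ` with `div f_σ = σ D₀ - D₀`, normalised by their leading coefficient
at the cusp `∞` (the `q`-expansion), form a cocycle which is trivial on an open subgroup;
Hilbert 90 (`h36d_h90`).
-/

set_option autoImplicit false
set_option linter.unusedSectionVars false

open ModularCurve AlgebraicCurve
open scoped MatrixGroups

noncomputable section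

namespace Fermat.Agent.S36

open Fermat.Agent.S24 (Kbar FF cst)
open Fermat.Agent.S29 (GQ)
open Fermat.Agent.Jac

variable {N : ℕ}

/-- the Galois action on `F`. -/
abbrev h36d_gal (N : ℕ) (σ : GQ) : SemilinearAut Kbar (FF N) :=
  arithmeticGalois (modularFunctionFieldFull N) σ

/-! ### leading coefficients -/

/-- the leading coefficient of the `q`-expansion. -/
def h36d_lc (g : FF N) : Kbar := (g : LaurentSeries Kbar).leadingCoeff

theorem h36d_lc_ne_zero {g : FF N} (hg : g ≠ 0) : h36d_lc g ≠ 0 := by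
  unfold h36d_lc
  rw [Ne, HahnSeries.leadingCoeff_eq_zero]
  intro h
  exact hg (Subtype.ext h)

theorem h36d_lc_mul (g g' : FF N) : h36d_lc (g * g') = h36d_lc g * h36d_lc g' := by
  unfold h36d_lc
  rw [MulMemClass.coe_mul, HahnSeries.leadingCoeff_mul]

theorem h36d_lc_cst (c : Kbar) : h36d_lc (cst N c) = c := by
  unfold h36d_lc
  show (algebraMap Kbar (LaurentSeries Kbar) c).leadingCoeff = c
  rw [algebraMap_laurentSeries_eq_single, HahnSeries.leadingCoeff_of_single]

theorem h36d_coeffMap_eq_zero (σ : Kbar →+* Kbar) (x : LaurentSeries Kbar) :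
    coeffMap σ x = 0 ↔ x = 0 := by
  constructor
  · intro h
    ext k
    have := congrArg (fun s : LaurentSeries Kbar => s.coeff k) h
    simp only [coeffMap_coeff, HahnSeries.coeff_zero] at this
    simpa using (map_eq_zero_iff σ σ.injective).mp this
  · rintro rfl
    exact map_zero _

theorem h36d_order_coeffMap (σ : Kbar →+* Kbar) (x : LaurentSeries Kbar) :
    (coeffMap σ x).order = x.order := by
  rcases eq_or_ne x 0 with rfl | hx
  · simp
  have hx' : coeffMap σ x ≠ 0 := fun h => hx ((h36d_coeffMap_eq_zero σ x).mp h)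
  apply le_antisymm
  · apply HahnSeries.order_le_of_coeff_ne_zero
    rw [coeffMap_coeff]
    intro h
    have h2 := (map_eq_zero_iff σ σ.injective).mp h
    exact hx (HahnSeries.coeff_order_eq_zero.mp h2)
  · rw [HahnSeries.le_order_iff_forall hx']
    intro j hj
    rw [coeffMap_coeff, HahnSeries.coeff_eq_zero_of_lt_order hj, map_zero]

theorem h36d_lc_gal (σ : GQ) (g : FF N) : h36d_lc (h36d_gal N σ • g) = σ (h36d_lc g) := by
  unfold h36d_lc
  rw [coe_arithmeticGalois_smul, HahnSeries.leadingCoeff_eq, HahnSeries.leadingCoeff_eq,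
    h36d_order_coeffMap, coeffMap_coeff]
  rfl

/-! ### functions are determined by divisor and leading coefficient -/

theorem h36d_eq_of_ord_eq [NeZero N] {g g' : FF N} (hg : g ≠ 0) (hg' : g' ≠ 0)
    (hord : ∀ v : Place Kbar (FF N), v.ord g = v.ord g') (hlc : h36d_lc g = h36d_lc g') :
    g = g' := by
  have hu : ∀ v : Place Kbar (FF N), v.ord (g * g'⁻¹) = 0 := by
    intro v
    rw [Place.ord_mul v hg (inv_ne_zero hg'), Place.ord_inv, hord v]
    ring
  obtain ⟨c, hc⟩ := Fermat.Agent.Jac.HKM.h57_const_of_ord_zero N _ hu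
  have h1 : g = cst N c * g' := by
    show g = algebraMap Kbar (FF N) c * g'
    rw [hc, mul_assoc, inv_mul_cancel₀ hg', mul_one]
  have h2 : h36d_lc g = c * h36d_lc g' := by
    conv_lhs => rw [h1]
    rw [h36d_lc_mul, h36d_lc_cst]
  have h3 : c = 1 := by
    have h4 : c * h36d_lc g' = 1 * h36d_lc g' := by rw [← h2, hlc, one_mul]
    exact mul_right_cancel₀ (h36d_lc_ne_zero hg') h4
  rw [h1, h3]
  show algebraMap Kbar (FF N) 1 * g' = g'
  rw [map_one, one_mul]

theorem h36d_exists_normalized {D : Divisor Kbar (FF N)}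
    (hD : D ∈ Divisor.principal (K := Kbar) (F := FF N)) :
    ∃ g : FF N, g ≠ 0 ∧ (∀ v : Place Kbar (FF N), D v = v.ord g) ∧ h36d_lc g = 1 := by
  obtain ⟨g, hg, hDg⟩ := hD
  have hc : h36d_lc g ≠ 0 := h36d_lc_ne_zero hg
  have hc' : cst N (h36d_lc g)⁻¹ ≠ 0 := by
    show algebraMap Kbar (FF N) (h36d_lc g)⁻¹ ≠ 0
    rw [Ne, map_eq_zero]
    exact inv_ne_zero hc
  refine ⟨cst N (h36d_lc g)⁻¹ * g, mul_ne_zero hc' hg, fun v => ?_, ?_⟩
  · rw [Place.ord_mul v hc' hg, hDg v]
    have h0 : v.ord (cst N (h36d_lc g)⁻¹) = 0 := Fermat.Agent.Jac.K1.ord_algebraMap v (inv_ne_zero hc)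
    rw [h0, zero_add]
  · rw [h36d_lc_mul, h36d_lc_cst, inv_mul_cancel₀ hc]

theorem h36d_ord_gal (σ : GQ) (v : Place Kbar (FF N)) (f : FF N) :
    v.ord (h36d_gal N σ • f) = ((h36d_gal N σ)⁻¹ • v).ord f := by
  have h := SemilinearAut.ord_smul (h36d_gal N σ) ((h36d_gal N σ)⁻¹ • v) f
  rw [smul_inv_smul] at h
  exact h

theorem h36d_lc_one : h36d_lc (1 : FF N) = 1 := by
  unfold h36d_lc
  rw [OneMemClass.coe_one, HahnSeries.leadingCoeff_one]

/-! ### the descent -/

section Descent

variable [NeZero N] (I : Subgroup GQ)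

/-- the action of `I` on `F` by ring automorphisms. -/
def h36d_rho (N : ℕ) (I : Subgroup GQ) : I →* (FF N ≃+* FF N) :=
  ((MulSemiringAction.toRingAut (SemilinearAut Kbar (FF N)) (FF N)).comp
    (arithmeticGalois (modularFunctionFieldFull N))).comp I.subtype

theorem h36d_rho_apply (σ : I) (g : FF N) :
    h36d_rho N I σ g = h36d_gal N (σ : GQ) • g := rfl

/-- the constants of a number field, as a multiplicative family in `F`. -/
def h36d_iota (N : ℕ) (L : IntermediateField ℚ Kbar) : L →* FF N :=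
  ((algebraMap Kbar (FF N)).comp (algebraMap L Kbar)).toMonoidHom

theorem h36d_iota_apply (L : IntermediateField ℚ Kbar) (a : L) :
    h36d_iota N L a = cst N (a : Kbar) := rfl

/-- the subgroup of `I` fixing `L` pointwise. -/
def h36d_U (I : Subgroup GQ) (L : IntermediateField ℚ Kbar) : Subgroup I :=
  (L.fixingSubgroup).subgroupOf I

theorem h36d_mem_U {L : IntermediateField ℚ Kbar} {σ : I} :
    σ ∈ h36d_U I L ↔ ∀ y ∈ L, (σ : GQ) y = y := by
  unfold h36d_U
  rw [Subgroup.mem_subgroupOf, IntermediateField.mem_fixingSubgroup_iff]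

theorem h36d_gal_cst (σ : GQ) (c : Kbar) : h36d_gal N σ • cst N c = cst N (σ c) :=
  arithmeticRingAut_algebraMap (modularFunctionFieldFull N) σ c

theorem h36d_finite_quot (L : IntermediateField ℚ Kbar) [FiniteDimensional ℚ L] :
    Finite (I ⧸ h36d_U I L) := by
  let φ : I ⧸ h36d_U I L → (L →ₐ[ℚ] Kbar) := fun c =>
    Quotient.liftOn' c (fun σ : I => ((σ : GQ) : Kbar →ₐ[ℚ] Kbar).comp L.val) (by
      intro σ τ h
      have h1 : σ⁻¹ * τ ∈ h36d_U I L := QuotientGroup.leftRel_apply.mp h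
      rw [h36d_mem_U] at h1
      refine AlgHom.ext fun y => ?_
      show (σ : GQ) (y : Kbar) = (τ : GQ) (y : Kbar)
      have h2 := h1 y y.2
      have h3 : ((σ⁻¹ * τ : I) : GQ) (y : Kbar) = (σ : GQ)⁻¹ ((τ : GQ) (y : Kbar)) := rfl
      rw [h3] at h2
      have h4 := congrArg (σ : GQ) h2
      rw [← AlgEquiv.mul_apply, mul_inv_cancel, AlgEquiv.one_apply] at h4
      exact h4.symm)
  have hφ : Function.Injective φ := by
    intro c c' h
    induction c using QuotientGroup.induction_on with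
    | H σ =>
      induction c' using QuotientGroup.induction_on with
      | H τ =>
        apply QuotientGroup.eq.mpr
        rw [h36d_mem_U]
        intro y hy
        have h1 := congrArg (fun ψ : L →ₐ[ℚ] Kbar => ψ ⟨y, hy⟩) h
        have h2 : (σ : GQ) y = (τ : GQ) y := h1
        show (σ : GQ)⁻¹ ((τ : GQ) y) = y
        rw [← h2, ← AlgEquiv.mul_apply, inv_mul_cancel, AlgEquiv.one_apply]
  exact Finite.of_injective φ hφ

/-- **Descent of divisors.**  A class fixed by `I` is the class of a divisor fixed by `I`. -/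
theorem h36d_exists_invariant_divisor (x : JZero N) (hx : ∀ σ ∈ I, σ • x = x) :
    ∃ D : Divisor.degZero (K := Kbar) (F := FF N), Pic0.mk D = x ∧
      ∀ σ ∈ I, h36d_gal N σ • (D : Divisor Kbar (FF N)) = D := by
  classical
  obtain ⟨D₀, rfl⟩ := Pic0.mk_surjective x
  -- a number field over which `D₀` is defined
  obtain ⟨L, hLfin, hL⟩ : ∃ L : IntermediateField ℚ Kbar, FiniteDimensional ℚ L ∧
      ∀ σ : GQ, (∀ y ∈ L, σ y = y) →
        h36d_gal N σ • (D₀ : Divisor Kbar (FF N)) = (D₀ : Divisor Kbar (FF N)) := by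
    choose Lof hLfin hLfix using openStab N
    refine ⟨⨆ v ∈ (D₀ : Divisor Kbar (FF N)).support, Lof v,
      IntermediateField.finiteDimensional_iSup_of_finset' fun v _ => hLfin v, fun σ hσ => ?_⟩
    refine h82_smul_divisor_eq _ _ (fun v hv => hLfix v σ fun y hy => hσ y ?_)
    have hle : Lof v ≤ ⨆ v ∈ (D₀ : Divisor Kbar (FF N)).support, Lof v :=
      le_iSup₂_of_le v hv le_rfl
    exact hle hy
  -- the differences are principal
  have hprin : ∀ σ : I, h36d_gal N (σ : GQ) • (D₀ : Divisor Kbar (FF N))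
      - (D₀ : Divisor Kbar (FF N)) ∈ Divisor.principal (K := Kbar) (F := FF N) := by
    intro σ
    have h1 := hx σ σ.2
    rw [galois_smul_pic0_def, SemilinearAut.pic0_smul_mk] at h1
    have h2 := QuotientAddGroup.eq.mp h1
    have h3 := AddSubgroup.mem_addSubgroupOf.mp h2
    have h4 := (Divisor.principal (K := Kbar) (F := FF N)).neg_mem h3
    have e : -((↑(-(SemilinearAut.degZeroSMulHom (h36d_gal N (σ : GQ)) D₀) + D₀) :
        Divisor Kbar (FF N)))
        = h36d_gal N (σ : GQ) • (D₀ : Divisor Kbar (FF N)) - (D₀ : Divisor Kbar (FF N)) := by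
      rw [AddSubgroup.coe_add, AddSubgroup.coe_neg, SemilinearAut.coe_degZeroSMulHom]
      abel
    rw [e] at h4
    exact h4
  choose f hf0 hford hflc using fun σ : I => h36d_exists_normalized (hprin σ)
  have hfv : ∀ (σ : I) (v : Place Kbar (FF N)), v.ord (f σ)
      = (D₀ : Divisor Kbar (FF N)) ((h36d_gal N (σ : GQ))⁻¹ • v)
        - (D₀ : Divisor Kbar (FF N)) v := by
    intro σ v
    rw [← hford σ v, Finsupp.sub_apply, SemilinearAut.divisor_smul_apply]
  -- the cocycle relation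
  have hcoc : ∀ σ τ : I, f (σ * τ) = f σ * h36d_rho N I σ (f τ) := by
    intro σ τ
    have hne : h36d_rho N I σ (f τ) ≠ 0 := by
      rw [Ne, map_eq_zero]
      exact hf0 τ
    refine h36d_eq_of_ord_eq (hf0 _) (mul_ne_zero (hf0 σ) hne) (fun v => ?_) ?_
    · rw [Place.ord_mul v (hf0 σ) hne, h36d_rho_apply, h36d_ord_gal, hfv, hfv, hfv]
      have e : (h36d_gal N ((σ * τ : I) : GQ))⁻¹ • v
          = (h36d_gal N (τ : GQ))⁻¹ • ((h36d_gal N (σ : GQ))⁻¹ • v) := by
        rw [← mul_smul, ← mul_inv_rev]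
        congr 2
      rw [e]
      abel
    · rw [h36d_lc_mul, h36d_rho_apply, h36d_lc_gal, hflc, hflc, hflc, map_one, one_mul]
  -- triviality on the open subgroup
  have hfU : ∀ u ∈ h36d_U I L, f u = 1 := by
    intro u hu
    rw [h36d_mem_U] at hu
    refine h36d_eq_of_ord_eq (hf0 u) one_ne_zero (fun v => ?_) ?_
    · rw [← hford u v, hL (u : GQ) hu, sub_self, Place.ord_one]
      rfl
    · rw [hflc, h36d_lc_one]
  -- Hilbert 90
  have hfinq : Finite (I ⧸ h36d_U I L) := h36d_finite_quot I L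
  obtain ⟨h, hh0, hh⟩ := h36d_h90 (ρ := h36d_rho N I) (U := h36d_U I L) (ι := h36d_iota N L)
    (fun u hu a => by
      rw [h36d_mem_U] at hu
      rw [h36d_rho_apply, h36d_iota_apply, h36d_gal_cst, hu _ a.2])
    (fun σ hσ => by
      rw [h36d_mem_U]
      intro y hy
      have h1 := hσ ⟨y, hy⟩
      rw [h36d_rho_apply, h36d_iota_apply, h36d_gal_cst] at h1
      exact (algebraMap Kbar (FF N)).injective h1)
    f hf0 hcoc hfU
  -- the invariant divisor
  have hpd := pd N
  obtain ⟨Dh, hDh, hdeg⟩ := HasPrincipalDivisors.exists_divisor (K := Kbar) h hh0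
  refine ⟨D₀ + ⟨Dh, hdeg⟩, ?_, fun σ hσ => ?_⟩
  · rw [Pic0.mk_add]
    have h0 : Pic0.mk (⟨Dh, hdeg⟩ : Divisor.degZero (K := Kbar) (F := FF N)) = 0 :=
      (Fermat.Agent.Jac.K1.pic0_mk_eq_zero_iff _).mpr ⟨h, hh0, hDh⟩
    rw [h0, add_zero]
  · ext v
    rw [AddSubgroup.coe_add, smul_add, Finsupp.add_apply, Finsupp.add_apply,
      SemilinearAut.divisor_smul_apply, SemilinearAut.divisor_smul_apply]
    show (D₀ : Divisor Kbar (FF N)) ((h36d_gal N σ)⁻¹ • v) + Dh ((h36d_gal N σ)⁻¹ • v)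
      = (D₀ : Divisor Kbar (FF N)) v + Dh v
    have h1 := hh ⟨σ, hσ⟩
    rw [h36d_rho_apply] at h1
    have h2 : v.ord (h36d_gal N σ • h) = v.ord ((f ⟨σ, hσ⟩)⁻¹ * h) := by rw [h1]
    rw [h36d_ord_gal, Place.ord_mul v (inv_ne_zero (hf0 _)) hh0, Place.ord_inv, hfv] at h2
    rw [hDh, hDh, h2]
    ring

/-- **Descent of functions.**  If `D` is fixed by `I` and `m D` is principal, then `m D` is the
divisor of a function fixed by `I`. -/
theorem h36d_exists_invariant_function (D : Divisor Kbar (FF N))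
    (hD : ∀ σ ∈ I, h36d_gal N σ • D = D) (m : ℤ)
    (hprin : m • D ∈ Divisor.principal (K := Kbar) (F := FF N)) :
    ∃ u : FF N, u ≠ 0 ∧ (∀ v : Place Kbar (FF N), v.ord u = m * D v) ∧
      ∀ σ ∈ I, h36d_gal N σ • u = u := by
  obtain ⟨u, hu0, hu, hlc⟩ := h36d_exists_normalized hprin
  have hu' : ∀ v : Place Kbar (FF N), v.ord u = m * D v := fun v => by
    rw [← hu v, Finsupp.smul_apply, smul_eq_mul]
  refine ⟨u, hu0, hu', fun σ hσ => ?_⟩
  have hne : h36d_gal N σ • u ≠ 0 := by
    rw [Ne, smul_eq_zero_iff_eq]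
    exact hu0
  refine h36d_eq_of_ord_eq hne hu0 (fun v => ?_) ?_
  · rw [h36d_ord_gal, hu', hu', ← SemilinearAut.divisor_smul_apply, hD σ hσ]
  · rw [h36d_lc_gal, hlc, map_one]

/-- **Descent.**  A class `x ∈ J₀(N)[m]` fixed by `I` is the class of a divisor `D` fixed by `I`
with `m D = div u` for a function `u` fixed by `I`. -/
theorem h36d_descent (x : JZero N) (hx : ∀ σ ∈ I, σ • x = x) (m : ℕ) (hm : m • x = 0) :
    ∃ (D : Divisor.degZero (K := Kbar) (F := FF N)) (u : FF N), Pic0.mk D = x ∧ u ≠ 0 ∧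
      (∀ σ ∈ I, h36d_gal N σ • (D : Divisor Kbar (FF N)) = D) ∧
      (∀ v : Place Kbar (FF N), v.ord u = m * (D : Divisor Kbar (FF N)) v) ∧
      ∀ σ ∈ I, h36d_gal N σ • u = u := by
  obtain ⟨D, hDx, hD⟩ := h36d_exists_invariant_divisor I x hx
  have hprin : (m : ℤ) • (D : Divisor Kbar (FF N))
      ∈ Divisor.principal (K := Kbar) (F := FF N) := by
    have h1 : Pic0.mk ((m : ℤ) • D) = 0 := by
      rw [← Fermat.Agent.Jac.K1.pic0_mk_zsmul, hDx, natCast_zsmul]
      exact hm
    obtain ⟨g, hg, hDg⟩ := (Fermat.Agent.Jac.K1.pic0_mk_eq_zero_iff _).mp h1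
    exact ⟨g, hg, fun v => by rw [← hDg v]; rfl⟩
  obtain ⟨u, hu0, hu, huI⟩ := h36d_exists_invariant_function I (D : Divisor Kbar (FF N)) hD m hprin
  exact ⟨D, u, hDx, hu0, hD, hu, huI⟩

end Descent

end Fermat.Agent.S36
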