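import Fermat.Agent.S36.H20Emb
import Fermat.Agent.S36.H67Inst
import Fermat.Agent.S36.H92Chain
import Fermat.Agent.S36.H83EmbGal

/-!
# S36, block (R), row R-GEN (helper36, second seat): `F(M q²) = α(F(M q))(Z)`, `Z = u(t^{q²})`

`q` a prime, `q ∤ M`, `α, β : F(M q) → F(M q²)` the degeneracy maps, `u ∈ F(M)` a non-constant
function, `Z = h67i_e2 M q u = β (β u) = u(t^{q²})`.

* `h36r_not_range` : `Z ∉ α(F(M q))`.
  Proof: for the embedding `E = E11^ζ` of `F(M q²)` at a middle cusp (`h20n_exists_E11`),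
  `E (α y) = y(t)` and `E Z = E (β (β₁ u)) = (w β₁ u)(ζ t) = u(ζ t)`; if `Z = α y` then
  `u(ζ t) = u(t^{q²})`, hence `u` is constant.
* `h36r_minpoly` : no nonzero polynomial of degree `< q` over `α(F(M q))` kills `Z`.
* `h36r_gen` : every `x ∈ F(M q²)` is `P(Z)` for a unique polynomial `P` of degree `< q` with
  coefficients in `α(F(M q))`.
* `h36r_gen_inv` : if `x` and `u` are fixed by a subgroup `I` of `G_ℚ`, so are the
  coefficients of `P`.
-/

set_option autoImplicit false
set_option linter.unusedSectionVars false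
set_option linter.style.haveILetI false

open AlgebraicCurve ModularCurve Polynomial IntermediateField

noncomputable section

namespace Fermat.Agent.S36

open Fermat.Agent.S37 (Kbar GQ FF cst gal)
open Fermat.Agent.Red.Kron (kFricke twistK kFricke_beta)

/-! ## Extensions of prime degree -/

section Abs

variable {F L : Type*} [Field F] [Field L] [Algebra F L]

/-- in an extension of prime degree, an element outside the base field has degree `q`. -/
theorem h36r_abs_natDegree [FiniteDimensional F L] {q : ℕ} (hq : q.Prime)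
    (hrank : Module.finrank F L = q) (Z : L) (hZ : Z ∉ (algebraMap F L).range) :
    (minpoly F Z).natDegree = q := by
  have hint : IsIntegral F Z := IsIntegral.of_finite F Z
  have h1 := IntermediateField.adjoin.finrank hint
  have h2 := Module.finrank_mul_finrank F F⟮Z⟯ L
  rw [hrank, h1] at h2
  have hdvd : (minpoly F Z).natDegree ∣ q := ⟨_, h2.symm⟩
  rcases (Nat.dvd_prime hq).mp hdvd with h | h
  · exact absurd (minpoly.natDegree_eq_one_iff.mp h) hZ
  · exact h

/-- in an extension of prime degree `q`, no nonzero polynomial of degree `< q` kills an element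
outside the base field. -/
theorem h36r_abs_minpoly [FiniteDimensional F L] {q : ℕ} (hq : q.Prime)
    (hrank : Module.finrank F L = q) (Z : L) (hZ : Z ∉ (algebraMap F L).range)
    (P : F[X]) (hP : P.natDegree < q) (h0 : aeval Z P = 0) : P = 0 := by
  by_contra hne
  have h1 := minpoly.degree_le_of_ne_zero F Z hne h0
  have h2 := Polynomial.natDegree_le_natDegree h1
  rw [h36r_abs_natDegree hq hrank Z hZ] at h2
  omega

/-- in an extension of prime degree `q`, every element is a polynomial of degree `< q` in any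
element outside the base field. -/
theorem h36r_abs_gen [FiniteDimensional F L] {q : ℕ} (hq : q.Prime)
    (hrank : Module.finrank F L = q) (Z : L) (hZ : Z ∉ (algebraMap F L).range) (x : L) :
    ∃ P : F[X], P.natDegree < q ∧ aeval Z P = x := by
  have hint : IsIntegral F Z := IsIntegral.of_finite F Z
  have hdeg := h36r_abs_natDegree hq hrank Z hZ
  have htop : F⟮Z⟯ = ⊤ := by
    refine IntermediateField.eq_of_le_of_finrank_eq le_top ?_
    rw [IntermediateField.adjoin.finrank hint, hdeg, IntermediateField.finrank_top', hrank]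
  have hx : x ∈ F⟮Z⟯ := by rw [htop]; exact IntermediateField.mem_top
  obtain ⟨f, hf, hxf⟩ := (IntermediateField.adjoin.powerBasis hint).exists_eq_aeval ⟨x, hx⟩
  refine ⟨f, ?_, ?_⟩
  · rw [IntermediateField.adjoin.powerBasis_dim, hdeg] at hf
    exact hf
  · have h1 := congrArg (fun y : F⟮Z⟯ => (y : L)) hxf
    simp only at h1
    rw [h1, IntermediateField.adjoin.powerBasis_gen]
    have h2 : ((aeval (IntermediateField.AdjoinSimple.gen F Z) f : F⟮Z⟯) : L)
        = aeval ((IntermediateField.AdjoinSimple.gen F Z : F⟮Z⟯) : L) f :=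
      (Polynomial.aeval_algHom_apply (F⟮Z⟯.val) (IntermediateField.AdjoinSimple.gen F Z) f).symm
    rw [h2, IntermediateField.AdjoinSimple.coe_gen]

end Abs

/-! ## Series invariant under `s(ζ t) = s(t^{q²})` are constant -/

/-- a Laurent series with `s(ζ t) = s(t^{q²})`, `ζ ^ q = 1`, is constant. -/
theorem h36r_series_const (q : ℕ) [NeZero q] (hq : 2 ≤ q) {ζ : Kbar} (hζ : ζ ^ q = 1)
    (s : LaurentSeries Kbar)
    (h : twistK ζ s = qExpand Kbar q (qExpand Kbar q s)) : ∀ n : ℤ, n ≠ 0 → s.coeff n = 0 := by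
  have hζ0 : ζ ≠ 0 := by
    rintro rfl
    rw [zero_pow (NeZero.ne q)] at hζ
    exact zero_ne_one hζ
  have hq0 : (q : ℤ) ≠ 0 := by exact_mod_cast NeZero.ne q
  -- the functional equation on coefficients
  have hco : ∀ n : ℤ, s.coeff n * ζ ^ n = (qExpand Kbar q (qExpand Kbar q s)).coeff n := by
    intro n
    rw [← h]
    rfl
  have key : ∀ n : ℤ, s.coeff n ≠ 0 → ∃ k : ℤ, n = (q : ℤ) * ((q : ℤ) * k) ∧ s.coeff k ≠ 0 := by
    intro n hn
    have h1 : (qExpand Kbar q (qExpand Kbar q s)).coeff n ≠ 0 := by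
      rw [← hco n]
      exact mul_ne_zero hn (zpow_ne_zero _ hζ0)
    have hd1 : (q : ℤ) ∣ n := by
      by_contra hnd
      exact h1 (qExpand_coeff_of_not_dvd q _ hnd)
    obtain ⟨m, rfl⟩ := hd1
    rw [qExpand_coeff_mul] at h1
    have hd2 : (q : ℤ) ∣ m := by
      by_contra hnd
      exact h1 (qExpand_coeff_of_not_dvd q _ hnd)
    obtain ⟨k, rfl⟩ := hd2
    rw [qExpand_coeff_mul] at h1
    exact ⟨k, rfl, h1⟩
  intro n
  induction hN : n.natAbs using Nat.strong_induction_on generalizing n with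
  | _ N ih =>
    intro hn0
    by_contra hne
    obtain ⟨k, hk, hk0⟩ := key n hne
    have hk00 : k ≠ 0 := by
      rintro rfl
      rw [mul_zero, mul_zero] at hk
      exact hn0 hk
    have hlt : k.natAbs < N := by
      rw [← hN, hk, Int.natAbs_mul, Int.natAbs_mul, Int.natAbs_natCast]
      have hkpos : 0 < k.natAbs := Int.natAbs_pos.mpr hk00
      calc k.natAbs = 1 * (1 * k.natAbs) := by ring
        _ < q * (q * k.natAbs) := by
          have h2 : 1 * k.natAbs < q * k.natAbs := Nat.mul_lt_mul_of_pos_right (by omega) hkpos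
          have h3 : 1 * (q * k.natAbs) ≤ q * (q * k.natAbs) := Nat.mul_le_mul_right _ (by omega)
          omega
    exact hk0 (ih _ hlt k rfl hk00)

section Level

variable (M q : ℕ) [NeZero M] [NeZero q]

theorem h36r_coe_e2 (u : FF M) :
    ((h67i_e2 M q u : FF (M * q * q)) : LaurentSeries Kbar)
      = qExpand Kbar q (qExpand Kbar q (u : LaurentSeries Kbar)) := by
  show ((heckeBetaBar Kbar (M * q) q (heckeBetaBar Kbar M q u) : FF (M * q * q)) :
    LaurentSeries Kbar) = _
  rw [coe_heckeBetaBar, coe_heckeBetaBar]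

/-- **`Z ∉ α(F(M q))`.** -/
theorem h36r_not_range (hq : q.Prime) (hqM : ¬ q ∣ M) (u : FF M)
    (hu : ∀ c : Kbar, u ≠ cst M c) (y : FF (M * q)) :
    heckeAlphaBar Kbar (M * q) q y ≠ h67i_e2 M q u := by
  intro hy
  obtain ⟨ζ, hζ⟩ : ∃ ζ : Kbar, IsPrimitiveRoot ζ q :=
    HasEnoughRootsOfUnity.exists_primitiveRoot Kbar q
  have hζq : ζ ^ q = 1 := hζ.pow_eq_one
  have hζ1 : ζ ≠ 1 := hζ.ne_one hq.one_lt
  obtain ⟨E, hEα, hEβ⟩ := h20n_exists_E11 M q hq hqM ζ hζq hζ1
  -- two computations of `E Z`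
  have h1 : E (h67i_e2 M q u)
      = qExpand Kbar q (qExpand Kbar q (u : LaurentSeries Kbar)) := by
    rw [← hy, hEα, ← h36r_coe_e2, ← hy, coe_heckeAlphaBar]
  have h2 : E (h67i_e2 M q u) = twistK ζ (u : LaurentSeries Kbar) := by
    show E (heckeBetaBar Kbar (M * q) q (heckeBetaBar Kbar M q u)) = _
    rw [hEβ, kFricke_beta, coe_heckeAlphaBar]
  have h3 := h36r_series_const q hq.two_le hζq (u : LaurentSeries Kbar) (h2.symm.trans h1)
  -- `u` is constant
  refine hu ((u : LaurentSeries Kbar).coeff 0) (Subtype.ext ?_)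
  ext n
  show (u : LaurentSeries Kbar).coeff n
    = (algebraMap Kbar (LaurentSeries Kbar) ((u : LaurentSeries Kbar).coeff 0)).coeff n
  have hC : algebraMap Kbar (LaurentSeries Kbar) ((u : LaurentSeries Kbar).coeff 0)
      = HahnSeries.single 0 ((u : LaurentSeries Kbar).coeff 0) := by
    have h1 : algebraMap Kbar (PowerSeries Kbar) ((u : LaurentSeries Kbar).coeff 0)
        = PowerSeries.C ((u : LaurentSeries Kbar).coeff 0) := by simp
    rw [HahnSeries.algebraMap_apply', h1, HahnSeries.ofPowerSeries_C]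
    rfl
  rw [hC, HahnSeries.coeff_single]
  by_cases hn : n = 0
  · rw [hn, if_pos rfl]
  · rw [if_neg hn]
    exact h3 n hn

theorem h36r_finite (hq : q.Prime) (hqM : ¬ q ∣ M) :
    letI := algebraAlong (heckeAlphaBar Kbar (M * q) q)
    FiniteDimensional (FF (M * q)) (FF (M * q * q)) := by
  letI := algebraAlong (heckeAlphaBar Kbar (M * q) q)
  exact Module.finite_of_finrank_pos (by rw [h20n_finrank_alpha M q hq hqM]; exact hq.pos)

/-- **the minimal polynomial of `Z` over `α(F(M q))` has degree `q`**: no nonzero polynomial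
of degree `< q` kills `Z`. -/
theorem h36r_minpoly (hq : q.Prime) (hqM : ¬ q ∣ M) (u : FF M)
    (hu : ∀ c : Kbar, u ≠ cst M c) (P : (FF (M * q))[X]) (hP : P.natDegree < q)
    (h0 : P.eval₂ (heckeAlphaBar Kbar (M * q) q).toRingHom (h67i_e2 M q u) = 0) : P = 0 := by
  letI := algebraAlong (heckeAlphaBar Kbar (M * q) q)
  haveI := h36r_finite M q hq hqM
  refine h36r_abs_minpoly hq (h20n_finrank_alpha M q hq hqM) (h67i_e2 M q u) ?_ P hP ?_
  · rintro ⟨y, hy⟩
    exact h36r_not_range M q hq hqM u hu y hy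
  · rw [aeval_def]
    exact h0

/-- **`F(M q²) = α(F(M q))(Z)`**: every function of level `M q²` is a polynomial of degree
`< q` in `Z` with coefficients of level `M q`. -/
theorem h36r_gen (hq : q.Prime) (hqM : ¬ q ∣ M) (u : FF M)
    (hu : ∀ c : Kbar, u ≠ cst M c) (x : FF (M * q * q)) :
    ∃ P : (FF (M * q))[X], P.natDegree < q ∧
      P.eval₂ (heckeAlphaBar Kbar (M * q) q).toRingHom (h67i_e2 M q u) = x := by
  letI := algebraAlong (heckeAlphaBar Kbar (M * q) q)
  haveI := h36r_finite M q hq hqM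
  obtain ⟨P, hP, hx⟩ := h36r_abs_gen hq (h20n_finrank_alpha M q hq hqM) (h67i_e2 M q u)
    (by
      rintro ⟨y, hy⟩
      exact h36r_not_range M q hq hqM u hu y hy) x
  refine ⟨P, hP, ?_⟩
  rw [← hx, aeval_def]
  rfl

/-- uniqueness of the representation. -/
theorem h36r_gen_unique (hq : q.Prime) (hqM : ¬ q ∣ M) (u : FF M)
    (hu : ∀ c : Kbar, u ≠ cst M c) (P Q : (FF (M * q))[X]) (hP : P.natDegree < q)
    (hQ : Q.natDegree < q)
    (h : P.eval₂ (heckeAlphaBar Kbar (M * q) q).toRingHom (h67i_e2 M q u)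
      = Q.eval₂ (heckeAlphaBar Kbar (M * q) q).toRingHom (h67i_e2 M q u)) : P = Q := by
  have h1 : (P - Q).natDegree < q :=
    lt_of_le_of_lt (Polynomial.natDegree_sub_le P Q) (max_lt hP hQ)
  have h2 := h36r_minpoly M q hq hqM u hu (P - Q) h1 (by rw [eval₂_sub, h, sub_self])
  exact sub_eq_zero.mp h2

theorem h36r_gal_e2 (σ : GQ) (u : FF M) :
    gal (M * q * q) σ • h67i_e2 M q u = h67i_e2 M q (gal M σ • u) := by
  show gal (M * q * q) σ • heckeBetaBar Kbar (M * q) q (heckeBetaBar Kbar M q u)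
    = heckeBetaBar Kbar (M * q) q (heckeBetaBar Kbar M q (gal M σ • u))
  rw [h83g_gal_beta, h83g_gal_beta]

/-- **Galois invariance of the coefficients.**  If `σ` fixes `u` and `x = P(Z)`
(`deg P < q`), then `σ` fixes the coefficients of `P`. -/
theorem h36r_gen_inv (hq : q.Prime) (hqM : ¬ q ∣ M) (u : FF M)
    (hu : ∀ c : Kbar, u ≠ cst M c) (σ : GQ) (hσu : gal M σ • u = u)
    (P : (FF (M * q))[X]) (hP : P.natDegree < q)
    (hσx : gal (M * q * q) σ •
        P.eval₂ (heckeAlphaBar Kbar (M * q) q).toRingHom (h67i_e2 M q u)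
      = P.eval₂ (heckeAlphaBar Kbar (M * q) q).toRingHom (h67i_e2 M q u)) (n : ℕ) :
    gal (M * q) σ • P.coeff n = P.coeff n := by
  have hcomm : (h83g_galHom (M * q * q) σ).comp (heckeAlphaBar Kbar (M * q) q).toRingHom
      = (heckeAlphaBar Kbar (M * q) q).toRingHom.comp (h83g_galHom (M * q) σ) :=
    RingHom.ext fun x => h83g_gal_alpha (M * q) q σ x
  have h1 : (P.map (h83g_galHom (M * q) σ)).eval₂ (heckeAlphaBar Kbar (M * q) q).toRingHom
      (h67i_e2 M q u)
      = P.eval₂ (heckeAlphaBar Kbar (M * q) q).toRingHom (h67i_e2 M q u) := by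
    rw [Polynomial.eval₂_map, ← hcomm]
    have h2 := Polynomial.hom_eval₂ P (heckeAlphaBar Kbar (M * q) q).toRingHom
      (h83g_galHom (M * q * q) σ) (h67i_e2 M q u)
    have h3 : h83g_galHom (M * q * q) σ (h67i_e2 M q u) = h67i_e2 M q u := by
      rw [h83g_galHom_apply, h36r_gal_e2, hσu]
    rw [h3] at h2
    rw [← h2]
    exact hσx
  have h4 := h36r_gen_unique M q hq hqM u hu _ P
    (lt_of_le_of_lt (Polynomial.natDegree_map_le) hP) hP h1
  have h5 := congrArg (fun R : (FF (M * q))[X] => R.coeff n) h4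
  simp only [Polynomial.coeff_map] at h5
  exact h5

end Level

end Fermat.Agent.S36
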