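import Mathlib

/-!
# S36, block (D) descent: Hilbert 90 for cocycles with an open kernel (abstract, Mathlib only)

`h36d_h90`: let a group `I` act on a field `E` by ring automorphisms (`ρ : I →* E ≃+* E`), let
`U ≤ I` be a subgroup of finite index, and let `ι : M →* E` be a multiplicative family of
elements of `E` such that `U` is exactly the pointwise stabiliser of `ι M`.  Then every
1-cocycle `f : I → Eˣ` (`f (σ τ) = f σ * σ (f τ)`) which is trivial on `U` is a coboundary:
there is `h ≠ 0` with `σ h = (f σ)⁻¹ * h` for all `σ`.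

Proof: Poincaré series `h = ∑_{c ∈ I/U} f(c) · c(ι a)`, nonzero for a suitable `a` by Dedekind's
independence of characters.

Application (S36, descent of inertia-invariant classes): `E = FF N`, `I` = inertia subgroup,
`M = L` a number field over which a divisor is defined, `ι` = constants.
-/

set_option autoImplicit false

open scoped BigOperators

namespace Fermat.Agent.S36

section H90

variable {E : Type*} [Field E] {I : Type*} [Group I] (ρ : I →* (E ≃+* E))
  (U : Subgroup I) {M : Type*} [Monoid M] (ι : M →* E)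

/-- the character `a ↦ σ (ι a)`. -/
def h36d_chi (σ : I) : M →* E :=
  ((ρ σ : E ≃+* E) : E →+* E).toMonoidHom.comp ι

@[simp] theorem h36d_chi_apply (σ : I) (a : M) : h36d_chi ρ ι σ a = ρ σ (ι a) := rfl

variable {ρ U ι}

theorem h36d_chi_eq_of_rel (hU : ∀ u ∈ U, ∀ a, ρ u (ι a) = ι a) {σ τ : I}
    (h : σ⁻¹ * τ ∈ U) : h36d_chi ρ ι σ = h36d_chi ρ ι τ := by
  refine MonoidHom.ext fun a => ?_
  rw [h36d_chi_apply, h36d_chi_apply]
  have h1 : τ = σ * (σ⁻¹ * τ) := by group
  rw [h1, map_mul, RingAut.mul_apply, hU _ h a]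

theorem h36d_rel_of_chi_eq (hS : ∀ σ : I, (∀ a, ρ σ (ι a) = ι a) → σ ∈ U) {σ τ : I}
    (h : h36d_chi ρ ι σ = h36d_chi ρ ι τ) : σ⁻¹ * τ ∈ U := by
  apply hS
  intro a
  have h1 := congrArg (fun χ : M →* E => χ a) h
  simp only [h36d_chi_apply] at h1
  rw [map_mul, RingAut.mul_apply, ← h1, map_inv]
  exact (ρ σ).symm_apply_apply (ι a)

theorem h36d_cocycle_right (f : I → E) (hf : ∀ σ τ, f (σ * τ) = f σ * ρ σ (f τ))
    (hfU : ∀ u ∈ U, f u = 1) {σ τ : I} (h : σ⁻¹ * τ ∈ U) : f σ = f τ := by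
  have h1 : τ = σ * (σ⁻¹ * τ) := by group
  rw [h1, hf, hfU _ h, map_one, mul_one]

/-- **Hilbert 90** for cocycles trivial on a subgroup of finite index which is the stabiliser
of a multiplicative family. -/
theorem h36d_h90 [Finite (I ⧸ U)]
    (hU : ∀ u ∈ U, ∀ a, ρ u (ι a) = ι a)
    (hS : ∀ σ : I, (∀ a, ρ σ (ι a) = ι a) → σ ∈ U)
    (f : I → E) (hf0 : ∀ σ, f σ ≠ 0) (hf : ∀ σ τ, f (σ * τ) = f σ * ρ σ (f τ))
    (hfU : ∀ u ∈ U, f u = 1) :
    ∃ h : E, h ≠ 0 ∧ ∀ σ : I, ρ σ h = (f σ)⁻¹ * h := by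
  classical
  have : Fintype (I ⧸ U) := Fintype.ofFinite _
  -- the functions on the quotient
  let fbar : I ⧸ U → E := fun c => Quotient.liftOn' c f (fun σ τ h =>
    h36d_cocycle_right f hf hfU (QuotientGroup.leftRel_apply.mp h))
  let chibar : I ⧸ U → (M →* E) := fun c => Quotient.liftOn' c (h36d_chi ρ ι) (fun σ τ h =>
    h36d_chi_eq_of_rel hU (QuotientGroup.leftRel_apply.mp h))
  have hfbar : ∀ σ : I, fbar (σ : I ⧸ U) = f σ := fun σ => rfl
  have hchibar : ∀ σ : I, chibar (σ : I ⧸ U) = h36d_chi ρ ι σ := fun σ => rfl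
  have hinj : Function.Injective chibar := by
    intro c c' h
    induction c using QuotientGroup.induction_on with
    | H σ =>
      induction c' using QuotientGroup.induction_on with
      | H τ =>
        rw [hchibar, hchibar] at h
        exact QuotientGroup.eq.mpr (h36d_rel_of_chi_eq hS h)
  -- Dedekind
  have hli : LinearIndependent E (fun c : I ⧸ U => (chibar c : M → E)) :=
    (linearIndependent_monoidHom M E).comp chibar hinj
  have hex : ∃ a : M, ∑ c : I ⧸ U, fbar c * chibar c a ≠ 0 := by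
    by_contra hcon
    have hcon' : ∀ a : M, ∑ c : I ⧸ U, fbar c * chibar c a = 0 := fun a => by
      by_contra h
      exact hcon ⟨a, h⟩
    have hzero : ∑ c : I ⧸ U, fbar c • (chibar c : M → E) = 0 := by
      funext a
      rw [Finset.sum_apply]
      simpa using hcon' a
    have h1 := Fintype.linearIndependent_iff.mp hli fbar hzero ((1 : I) : I ⧸ U)
    rw [hfbar] at h1
    exact hf0 1 h1
  obtain ⟨a, ha⟩ := hex
  refine ⟨∑ c : I ⧸ U, fbar c * chibar c a, ha, fun τ => ?_⟩
  -- the action of `τ` on the Poincaré series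
  have hterm : ∀ c : I ⧸ U, ρ τ (fbar c * chibar c a)
      = (f τ)⁻¹ * (fbar (τ • c) * chibar (τ • c) a) := by
    intro c
    induction c using QuotientGroup.induction_on with
    | H σ =>
      have e : τ • (σ : I ⧸ U) = ((τ * σ : I) : I ⧸ U) := rfl
      rw [e, hfbar, hfbar, hchibar, hchibar, h36d_chi_apply, h36d_chi_apply, map_mul, hf τ σ,
        map_mul, RingAut.mul_apply]
      field_simp [hf0 τ]
  rw [map_sum, Finset.mul_sum]
  rw [← Equiv.sum_comp (MulAction.toPerm τ : I ⧸ U ≃ I ⧸ U)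
    (fun c => (f τ)⁻¹ * (fbar c * chibar c a))]
  exact Finset.sum_congr rfl (fun c _ => hterm c)

end H90

end Fermat.Agent.S36
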