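import Fermat.Agent.S36.H36Descent
import Fermat.Agent.Red.GFFApprox
import Fermat.Agent.Red.HKMod
import Fermat.Agent.Red.Desc.Val

/-!
# S36, leaf UNRAM: the constant field extension `ℚ̄ / ℚ̄^I` is unramified at every place

Let `I` be a subgroup of `G_ℚ` (the inertia subgroup in the application), `F = FF N` the
function field of `X₀(N)` over `ℚ̄` and `v` a place of `F`.

* `h36p_exists_invariant_uniformizer` **(U1)**: there is `t ∈ F` fixed by `I` with
  `ord_v t = 1`.  Hence the restriction of `ord_v` to `F₀ = F^I` is still surjective onto `ℤ`: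
  the `K₀`-places of `F₀` are unramified in `F`, `m ∣ ord_v u ↔ m ∣ ord_{v₀} u` for `u ∈ F₀`,
  and a uniformiser of the local ring of the `K₀`-curve at a closed point is a uniformiser at
  every geometric point above it.
* `h36p_exists_invariant_separating` **(U2)**: if `v'` is not in the `I`-orbit of `v`, there is
  `f ∈ F` fixed by `I` with `0 < ord_v f` and `ord_{v'} f = 0`.

Proofs: weak approximation on the finite orbit `I v` (`h36p_wa`, CRT in the integral closure of
`ℚ̄[j]` or `ℚ̄[1/j]`), then a trace (resp. a norm) over `I / (I ∩ G_L)` and Dedekind's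
independence of characters (`h36p_indep`).
-/

set_option autoImplicit false
set_option linter.unusedSectionVars false

open AlgebraicCurve ModularCurve IsDedekindDomain WithZero IntermediateField

noncomputable section

namespace Fermat.Agent.S36

/-! ## Weak approximation on a finite set of places -/

section WA

open scoped IntermediateField.algebraAdjoinAdjoin
open Fermat.Agent.S24 Fermat.Agent.S24.FICore

variable {K F : Type*} [Field K] [Field F] [Algebra K F]

/-- **Weak approximation**: if `x` is transcendental, `F` is finite over `K(x)` and `x` is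
regular at the finitely many places `w ∈ s`, then there is a function with prescribed orders
`n w ≥ 0` at the places of `s`. -/
theorem h36p_wa [CharZero K] (x : F) (hx : Transcendental K x)
    [FiniteDimensional K⟮x⟯ F] (s : Finset (Place K F))
    (hs : ∀ w ∈ s, x ∈ w.toValuationSubring) (n : Place K F → ℕ) :
    ∃ y : F, y ≠ 0 ∧ ∀ w ∈ s, w.ord y = n w := by
  classical
  have hPID := isPrincipalIdealRing_adjoin x hx
  have hDed : IsDedekindDomain (integralClosure (Algebra.adjoin K {x}) F) :=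
    integralClosure.isDedekindDomain (Algebra.adjoin K {x}) K⟮x⟯ F
  have hFrac : IsFractionRing (integralClosure (Algebra.adjoin K {x}) F) F :=
    integralClosure.isFractionRing_of_finite_extension K⟮x⟯ F
  have hex : ∀ w : ↥s, ∃ P : HeightOneSpectrum (integralClosure (Algebra.adjoin K {x}) F),
      Place.ofHeightOneSpectrum (K := K) (F := F) P = w.1 := fun w =>
    exists_ofHeightOneSpectrum_eq (R := integralClosure (Algebra.adjoin K {x}) F) w.1
      (fun b => mem_of_isIntegral_adjoin x w.1 (hs w.1 w.2) b.2)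
  choose P hP using hex
  have hinj : Set.InjOn P (Finset.univ : Finset ↥s) := by
    intro a _ b _ hab
    apply Subtype.ext
    rw [← hP a, ← hP b, hab]
  obtain ⟨y, hy0, hy⟩ :=
    Fermat.Agent.Red.GFF.exists_intValuation_eq Finset.univ P hinj (fun w => n w.1)
  refine ⟨algebraMap (integralClosure (Algebra.adjoin K {x}) F) F y, ?_, ?_⟩
  · intro h0
    exact hy0 ((IsFractionRing.injective (integralClosure (Algebra.adjoin K {x}) F) F)
      (h0.trans (map_zero _).symm))
  · intro w hw
    have h1 := hy ⟨w, hw⟩ (Finset.mem_univ _)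
    have h2 := hP ⟨w, hw⟩
    simp only at h1 h2
    calc w.ord (algebraMap (integralClosure (Algebra.adjoin K {x}) F) F y)
        = (Place.ofHeightOneSpectrum (K := K) (F := F) (P ⟨w, hw⟩)).ord
            (algebraMap (integralClosure (Algebra.adjoin K {x}) F) F y) := by rw [h2]
      _ = n w := by
          rw [ord_ofHeightOneSpectrum, HeightOneSpectrum.valuation_of_algebraMap, h1, log_exp,
            neg_neg]

end WA

/-! ## Independence of characters with coefficients in a vector space -/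

/-- **Dedekind's independence of characters**, with coefficients in a vector space modulo a
subspace: if `∑ₓ χₓ(a) • wₓ ∈ P` for all `a`, where the `χₓ` are distinct characters, then all
`wₓ ∈ P`. -/
theorem h36p_indep {k V M X : Type*} [Field k] [AddCommGroup V] [Module k V] [Monoid M]
    [Fintype X] (χ : X → (M →* k)) (hχ : Function.Injective χ) (w : X → V)
    (P : Submodule k V) (h : ∀ a : M, ∑ x, χ x a • w x ∈ P) (x₀ : X) : w x₀ ∈ P := by
  classical
  by_contra hx
  obtain ⟨f, hf, hPf⟩ := Submodule.exists_le_ker_of_notMem hx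
  have hli : LinearIndependent k (fun x : X => (χ x : M → k)) :=
    (linearIndependent_monoidHom M k).comp χ hχ
  have hzero : ∑ x, f (w x) • (χ x : M → k) = 0 := by
    funext a
    rw [Finset.sum_apply]
    have h1 := hPf (h a)
    rw [LinearMap.mem_ker, map_sum] at h1
    simp only [Pi.smul_apply, smul_eq_mul, Pi.zero_apply]
    rw [← h1]
    exact Finset.sum_congr rfl (fun x _ => by rw [map_smul, smul_eq_mul, mul_comm])
  exact hf (Fintype.linearIndependent_iff.mp hli (fun x => f (w x)) hzero x₀)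

/-! ## Traces and norms over a subgroup of finite index -/

section TraceNorm

variable {k E : Type*} [Field k] [Field E] [Algebra k E] {I : Type*} [Group I]
  (ρ : I →* (E ≃+* E)) (θ : I →* (k ≃+* k)) (U : Subgroup I) [Fintype (I ⧸ U)]
  {M : Type*} [Monoid M] (ι : M →* k)

/-- **Trace.**  `I` acts on `E` semilinearly over its action `θ` on the constants `k`; `U` is
the stabiliser in `I` of the multiplicative family `ι M` of constants and has finite index;
`π ∈ E` is fixed by `U` and does not belong to the `k`-subspace `P`.  Then some `I`-invariant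
`k`-combination of the conjugates of `π` does not belong to `P`. -/
theorem h36p_trace (hρθ : ∀ σ c, ρ σ (algebraMap k E c) = algebraMap k E (θ σ c))
    (hU : ∀ u ∈ U, ∀ a, θ u (ι a) = ι a) (hS : ∀ σ : I, (∀ a, θ σ (ι a) = ι a) → σ ∈ U)
    (π : E) (hπU : ∀ u ∈ U, ρ u π = π) (P : Submodule k E) (hπP : π ∉ P) :
    ∃ t : E, t ∉ P ∧ (∀ σ : I, ρ σ t = t) ∧
      t ∈ Submodule.span k (Set.range fun σ : I => ρ σ π) := by
  classical
  -- the conjugates of `π` and the characters, on the quotient
  have hwd : ∀ σ τ : I, σ⁻¹ * τ ∈ U → ρ σ π = ρ τ π := by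
    intro σ τ h
    have h1 : τ = σ * (σ⁻¹ * τ) := by group
    rw [h1, map_mul, RingAut.mul_apply, hπU _ h]
  have hcd : ∀ σ τ : I, σ⁻¹ * τ ∈ U → ∀ a, θ σ (ι a) = θ τ (ι a) := by
    intro σ τ h a
    have h1 : τ = σ * (σ⁻¹ * τ) := by group
    rw [h1, map_mul, RingAut.mul_apply, hU _ h]
  let wbar : I ⧸ U → E := fun c => Quotient.liftOn' c (fun σ => ρ σ π) (fun σ τ h =>
    hwd σ τ (QuotientGroup.leftRel_apply.mp h))
  let chi : I → (M →* k) := fun σ => ((θ σ : k ≃+* k) : k →+* k).toMonoidHom.comp ι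
  have hchi : ∀ σ a, chi σ a = θ σ (ι a) := fun σ a => rfl
  let chibar : I ⧸ U → (M →* k) := fun c => Quotient.liftOn' c chi (fun σ τ h =>
    MonoidHom.ext fun a => hcd σ τ (QuotientGroup.leftRel_apply.mp h) a)
  have hwbar : ∀ σ : I, wbar (σ : I ⧸ U) = ρ σ π := fun σ => rfl
  have hchibar : ∀ σ : I, chibar (σ : I ⧸ U) = chi σ := fun σ => rfl
  have hinj : Function.Injective chibar := by
    intro c c' h
    induction c using QuotientGroup.induction_on with
    | H σ =>
      induction c' using QuotientGroup.induction_on with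
      | H τ =>
        rw [hchibar, hchibar] at h
        refine QuotientGroup.eq.mpr (hS _ fun a => ?_)
        have h1 := congrArg (fun χ : M →* k => χ a) h
        simp only [hchi] at h1
        rw [map_mul, RingAut.mul_apply, ← h1, map_inv]
        exact (θ σ).symm_apply_apply (ι a)
  -- Dedekind
  have hex : ∃ a : M, ∑ c : I ⧸ U, chibar c a • wbar c ∉ P := by
    by_contra hcon
    have hcon' : ∀ a : M, ∑ c : I ⧸ U, chibar c a • wbar c ∈ P := fun a => by
      by_contra h
      exact hcon ⟨a, h⟩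
    have h1 := h36p_indep chibar hinj wbar P hcon' ((1 : I) : I ⧸ U)
    rw [hwbar, map_one, RingAut.one_apply] at h1
    exact hπP h1
  obtain ⟨a, ha⟩ := hex
  refine ⟨∑ c : I ⧸ U, chibar c a • wbar c, ha, fun τ => ?_, ?_⟩
  · have hterm : ∀ c : I ⧸ U, ρ τ (chibar c a • wbar c)
        = chibar (τ • c) a • wbar (τ • c) := by
      intro c
      induction c using QuotientGroup.induction_on with
      | H σ =>
        have e : τ • (σ : I ⧸ U) = ((τ * σ : I) : I ⧸ U) := rfl
        rw [e, hwbar, hwbar, hchibar, hchibar, hchi, hchi, Algebra.smul_def, Algebra.smul_def,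
          map_mul, hρθ, map_mul, map_mul, RingAut.mul_apply, RingAut.mul_apply]
    rw [map_sum]
    rw [← Equiv.sum_comp (MulAction.toPerm τ : I ⧸ U ≃ I ⧸ U)
      (fun c => chibar c a • wbar c)]
    exact Finset.sum_congr rfl (fun c _ => hterm c)
  · refine Submodule.sum_mem _ fun c _ => Submodule.smul_mem _ _ ?_
    induction c using QuotientGroup.induction_on with
    | H σ => exact Submodule.subset_span ⟨σ, rfl⟩

/-- **Norm.**  If `π ∈ E` is fixed by the subgroup `U` of finite index, the product of its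
conjugates under representatives of `I / U` is fixed by `I`. -/
theorem h36p_norm (π : E) (hπU : ∀ u ∈ U, ρ u π = π) :
    ∃ r : I ⧸ U → I, ∀ σ : I, ρ σ (∏ c : I ⧸ U, ρ (r c) π) = ∏ c : I ⧸ U, ρ (r c) π := by
  classical
  have hwd : ∀ σ τ : I, σ⁻¹ * τ ∈ U → ρ σ π = ρ τ π := by
    intro σ τ h
    have h1 : τ = σ * (σ⁻¹ * τ) := by group
    rw [h1, map_mul, RingAut.mul_apply, hπU _ h]
  let wbar : I ⧸ U → E := fun c => Quotient.liftOn' c (fun σ => ρ σ π) (fun σ τ h =>
    hwd σ τ (QuotientGroup.leftRel_apply.mp h))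
  have hwbar : ∀ σ : I, wbar (σ : I ⧸ U) = ρ σ π := fun σ => rfl
  have hout : ∀ c : I ⧸ U, ρ (Quotient.out c) π = wbar c := by
    intro c
    rw [← hwbar, QuotientGroup.out_eq']
  refine ⟨fun c => Quotient.out c, fun τ => ?_⟩
  simp only [hout]
  have hterm : ∀ c : I ⧸ U, ρ τ (wbar c) = wbar (τ • c) := by
    intro c
    induction c using QuotientGroup.induction_on with
    | H σ =>
      have e : τ • (σ : I ⧸ U) = ((τ * σ : I) : I ⧸ U) := rfl
      rw [e, hwbar, hwbar, map_mul, RingAut.mul_apply]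
  rw [map_prod]
  rw [← Equiv.prod_comp (MulAction.toPerm τ : I ⧸ U ≃ I ⧸ U) wbar]
  exact Finset.prod_congr rfl (fun c _ => hterm c)

end TraceNorm

/-! ## The modular function field -/

section Concrete

open Fermat.Agent.S24 (Kbar FF cst jBar)
open Fermat.Agent.S29 (GQ)
open Fermat.Agent.Jac
open Fermat.Agent.Red.Desc

variable {N : ℕ}

/-- functions of order `≥ n` at `v`, as a `ℚ̄`-subspace of `F`. -/
def h36p_M (v : Place Kbar (FF N)) (n : ℤ) : Submodule Kbar (FF N) where
  carrier := {f | Ge v n f}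
  add_mem' := fun ha hb => Ge.add ha hb
  zero_mem' := Ge.zero n
  smul_mem' := fun c f hf => by
    show Ge v n (c • f)
    rw [Algebra.smul_def]
    have h0 : Ge v 0 (algebraMap Kbar (FF N) c) := by
      rcases eq_or_ne c 0 with rfl | hc
      · rw [map_zero]; exact Ge.zero 0
      · exact Ge.of_le (by rw [Fermat.Agent.S24.DiffPlace.ord_algebraMap])
    simpa using h0.mul hf

theorem h36p_mem_M {v : Place Kbar (FF N)} {n : ℤ} {f : FF N} :
    f ∈ h36p_M v n ↔ Ge v n f := Iff.rfl

/-- the action of `I` on the constants. -/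
def h36p_theta (I : Subgroup GQ) : I →* (Kbar ≃+* Kbar) :=
  (MulSemiringAction.toRingAut GQ Kbar).comp I.subtype

theorem h36p_theta_apply (I : Subgroup GQ) (σ : I) (c : Kbar) :
    h36p_theta I σ c = (σ : GQ) c := rfl

/-- the constants of a number field. -/
def h36p_iota (L : IntermediateField ℚ Kbar) : L →* Kbar :=
  (algebraMap L Kbar).toMonoidHom

theorem h36p_iota_apply (L : IntermediateField ℚ Kbar) (a : L) :
    h36p_iota L a = (a : Kbar) := rfl

theorem h36p_gal_jBar [NeZero N] (σ : GQ) : h36d_gal N σ • jBar N = jBar N := by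
  apply Subtype.ext
  rw [coe_arithmeticGalois_smul]
  exact coeffMap_coeffEmb σ jq

theorem h36p_gal_mul (σ τ : GQ) (f : FF N) :
    h36d_gal N (σ * τ) • f = h36d_gal N σ • h36d_gal N τ • f := by
  unfold h36d_gal
  rw [map_mul, mul_smul]

theorem h36p_gal_mul_place (σ τ : GQ) (v : Place Kbar (FF N)) :
    h36d_gal N (σ * τ) • v = h36d_gal N σ • h36d_gal N τ • v := by
  unfold h36d_gal
  rw [map_mul, mul_smul]

theorem h36p_gal_inv_place (σ : GQ) (v : Place Kbar (FF N)) :
    (h36d_gal N σ)⁻¹ • v = h36d_gal N σ⁻¹ • v := by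
  unfold h36d_gal
  rw [map_inv]

theorem h36p_ord_prod {ι : Type*} (v : Place Kbar (FF N)) (s : Finset ι) (f : ι → FF N)
    (hf : ∀ i ∈ s, f i ≠ 0) : v.ord (∏ i ∈ s, f i) = ∑ i ∈ s, v.ord (f i) := by
  classical
  induction s using Finset.induction_on with
  | empty => simp [Place.ord_one]
  | insert a s ha ih =>
    rw [Finset.prod_insert ha, Finset.sum_insert ha,
      Place.ord_mul v (hf a (Finset.mem_insert_self a s))
        (Finset.prod_ne_zero_iff.mpr fun i hi => hf i (Finset.mem_insert_of_mem hi)),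
      ih fun i hi => hf i (Finset.mem_insert_of_mem hi)]

/-- a `G_ℚ`-invariant transcendental function which is regular at finitely many given
places. -/
theorem h36p_exists_regular [NeZero N] (T : Finset (Place Kbar (FF N))) :
    ∃ x : FF N, Transcendental Kbar x ∧ (∀ σ : GQ, h36d_gal N σ • x = x) ∧
      ∀ w ∈ T, x ∈ w.toValuationSubring := by
  classical
  obtain ⟨n, hn⟩ : ∃ n : ℕ, ∀ w ∈ T, ¬ 0 < w.ord (jBar N - cst N (n : Kbar)) := by
    by_contra hcon
    have hcon' : ∀ n : ℕ, ∃ w : ↥T, 0 < w.1.ord (jBar N - cst N (n : Kbar)) := by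
      intro n
      by_contra h
      refine hcon ⟨n, fun w hw hpos => h ⟨⟨w, hw⟩, hpos⟩⟩
    choose w hw using hcon'
    refine not_injective_infinite_finite w fun n n' hnn' => ?_
    by_contra hne
    have h1 : Ge (w n).1 1 (jBar N - cst N (n : Kbar)) := Ge.of_le (by have := hw n; omega)
    have h2 : Ge (w n).1 1 (jBar N - cst N (n' : Kbar)) := by
      rw [hnn']
      exact Ge.of_le (by have := hw n'; omega)
    have h3 := h2.sub h1
    have e : jBar N - cst N (n' : Kbar) - (jBar N - cst N (n : Kbar))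
        = cst N ((n : Kbar) - (n' : Kbar)) := by
      show jBar N - algebraMap Kbar (FF N) (n' : Kbar)
          - (jBar N - algebraMap Kbar (FF N) (n : Kbar))
        = algebraMap Kbar (FF N) ((n : Kbar) - (n' : Kbar))
      rw [map_sub]
      ring
    rw [e] at h3
    have hc : ((n : Kbar) - (n' : Kbar)) ≠ 0 := by
      rw [sub_ne_zero]
      exact_mod_cast hne
    have h4 := h3.le ((map_ne_zero (algebraMap Kbar (FF N))).mpr hc)
    rw [Fermat.Agent.S24.DiffPlace.ord_algebraMap] at h4
    omega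
  refine ⟨(jBar N - cst N (n : Kbar))⁻¹, ?_, fun σ => ?_, fun w hw => ?_⟩
  · intro h
    have h1 : IsAlgebraic Kbar (jBar N - cst N (n : Kbar)) := IsAlgebraic.inv_iff.mp h
    have h2 : IsAlgebraic Kbar (jBar N - cst N (n : Kbar) + cst N (n : Kbar)) :=
      h1.add (isAlgebraic_algebraMap (n : Kbar))
    rw [sub_add_cancel] at h2
    exact Fermat.Agent.S24.transcendental_jBar N h2
  · rw [smul_inv'', smul_sub, h36p_gal_jBar, h36d_gal_cst, map_natCast]
  · refine Fermat.Agent.S24.DiffPlace.mem_of_ord_nonneg w ?_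
    rw [Place.ord_inv]
    have := hn w hw
    omega

/-- the orbit of a place under `I` is finite. -/
theorem h36p_exists_orbit [NeZero N] (I : Subgroup GQ) (v : Place Kbar (FF N)) :
    ∃ S : Finset (Place Kbar (FF N)), ∀ w, w ∈ S ↔ ∃ σ ∈ I, h36d_gal N σ • v = w := by
  classical
  obtain ⟨L₀, hL₀fin, hL₀⟩ := openStab N v
  have := hL₀fin
  have hfin₀ : Finite (I ⧸ h36d_U I L₀) := h36d_finite_quot I L₀
  have : Fintype (I ⧸ h36d_U I L₀) := Fintype.ofFinite _
  refine ⟨Finset.univ.image
    (fun κ : I ⧸ h36d_U I L₀ => h36d_gal N ((Quotient.out κ : I) : GQ) • v), fun w => ?_⟩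
  rw [Finset.mem_image]
  constructor
  · rintro ⟨κ, -, rfl⟩
    exact ⟨_, (Quotient.out κ : I).2, rfl⟩
  · rintro ⟨σ, hσ, rfl⟩
    refine ⟨((⟨σ, hσ⟩ : I) : I ⧸ h36d_U I L₀), Finset.mem_univ _, ?_⟩
    obtain ⟨u, hu⟩ := QuotientGroup.mk_out_eq_mul (h36d_U I L₀) (⟨σ, hσ⟩ : I)
    have hu' : ((Quotient.out ((⟨σ, hσ⟩ : I) : I ⧸ h36d_U I L₀) : I) : GQ)
        = σ * ((u : I) : GQ) := by
      have := congrArg (fun y : I => (y : GQ)) hu
      simpa using this
    rw [hu', h36p_gal_mul_place]
    congr 1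
    exact hL₀ _ ((h36d_mem_U I).mp u.2)

/-- **(U1): the constant field extension is unramified.**  For every subgroup `I` of `G_ℚ`
and every place `v` of `F` there is a function fixed by `I` which is a uniformiser at `v`. -/
theorem h36p_exists_invariant_uniformizer [NeZero N] (I : Subgroup GQ)
    (v : Place Kbar (FF N)) :
    ∃ t : FF N, (∀ σ ∈ I, h36d_gal N σ • t = t) ∧ v.ord t = 1 := by
  classical
  obtain ⟨S, hS⟩ := h36p_exists_orbit I v
  obtain ⟨x, hxtr, -, hxS⟩ := h36p_exists_regular S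
  have hfd : FiniteDimensional Kbar⟮x⟯ (FF N) :=
    Fermat.Agent.Red.HKMod.finiteDimensional_adjoin_FF N x hxtr
  obtain ⟨π, hπ0, hπ⟩ := h36p_wa x hxtr S hxS (fun _ => 1)
  obtain ⟨L, hLfin, hL⟩ := h18_exists_fixing_field N π
  have := hLfin
  have hfin : Finite (I ⧸ h36d_U I L) := h36d_finite_quot I L
  have : Fintype (I ⧸ h36d_U I L) := Fintype.ofFinite _
  have hvS : v ∈ S := (hS v).mpr ⟨1, I.one_mem, by
    unfold h36d_gal
    rw [map_one, one_smul]⟩
  have hπv : v.ord π = 1 := by simpa using hπ v hvS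
  have hπP : π ∉ h36p_M v 2 := by
    rw [h36p_mem_M]
    rintro (h | h)
    · exact hπ0 h
    · omega
  obtain ⟨t, htP, htinv, htspan⟩ := h36p_trace (h36d_rho N I) (h36p_theta I) (h36d_U I L)
    (h36p_iota L)
    (fun σ c => h36d_gal_cst (σ : GQ) c)
    (fun u hu a => (h36d_mem_U I).mp hu _ a.2)
    (fun σ hσ => (h36d_mem_U I).mpr fun y hy => hσ ⟨y, hy⟩)
    π (fun u hu => hL _ ((h36d_mem_U I).mp hu)) (h36p_M v 2) hπP
  have ht1 : t ∈ h36p_M v 1 := by
    refine Submodule.span_le.mpr ?_ htspan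
    rintro _ ⟨σ, rfl⟩
    show Ge v 1 (h36d_rho N I σ π)
    refine Ge.of_le ?_
    rw [h36d_rho_apply, h36d_ord_gal, h36p_gal_inv_place]
    have hmem : h36d_gal N (σ : GQ)⁻¹ • v ∈ S := (hS _).mpr ⟨_, I.inv_mem σ.2, rfl⟩
    rw [hπ _ hmem]
    simp
  have ht0 : t ≠ 0 := fun h => htP (by rw [h]; exact Submodule.zero_mem _)
  refine ⟨t, fun σ hσ => htinv ⟨σ, hσ⟩, ?_⟩
  have h1 : 1 ≤ v.ord t := (h36p_mem_M.mp ht1).le ht0
  have h2 : ¬ 2 ≤ v.ord t := fun h => htP (h36p_mem_M.mpr (Ge.of_le h))
  omega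

/-- **(U2): separation of orbits.**  If `v'` is not in the `I`-orbit of `v`, there is a
function fixed by `I` which vanishes at `v` and is a unit at `v'`. -/
theorem h36p_exists_invariant_separating [NeZero N] (I : Subgroup GQ)
    (v v' : Place Kbar (FF N)) (hvv' : ∀ σ ∈ I, h36d_gal N σ • v ≠ v') :
    ∃ f : FF N, f ≠ 0 ∧ (∀ σ ∈ I, h36d_gal N σ • f = f) ∧ 0 < v.ord f ∧ v'.ord f = 0 := by
  classical
  obtain ⟨S, hS⟩ := h36p_exists_orbit I v
  obtain ⟨S', hS'⟩ := h36p_exists_orbit I v'
  obtain ⟨x, hxtr, -, hxS⟩ := h36p_exists_regular (S ∪ S')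
  have hfd : FiniteDimensional Kbar⟮x⟯ (FF N) :=
    Fermat.Agent.Red.HKMod.finiteDimensional_adjoin_FF N x hxtr
  obtain ⟨π, hπ0, hπ⟩ := h36p_wa x hxtr (S ∪ S') hxS (fun w => if w ∈ S then 1 else 0)
  obtain ⟨L, hLfin, hL⟩ := h18_exists_fixing_field N π
  have := hLfin
  have hfin : Finite (I ⧸ h36d_U I L) := h36d_finite_quot I L
  have : Fintype (I ⧸ h36d_U I L) := Fintype.ofFinite _
  obtain ⟨r, hr⟩ := h36p_norm (h36d_rho N I) (h36d_U I L) π
    (fun u hu => hL _ ((h36d_mem_U I).mp hu))
  have hfac0 : ∀ σ : I, h36d_rho N I σ π ≠ 0 := fun σ =>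
    (map_ne_zero_iff _ (h36d_rho N I σ).injective).mpr hπ0
  have hdisj : ∀ σ ∈ I, h36d_gal N σ • v' ∉ S := by
    intro σ hσ hmem
    obtain ⟨τ, hτ, h⟩ := (hS _).mp hmem
    refine hvv' (σ⁻¹ * τ) (I.mul_mem (I.inv_mem hσ) hτ) ?_
    rw [h36p_gal_mul_place, h, ← h36p_gal_mul_place, inv_mul_cancel]
    unfold h36d_gal
    rw [map_one, one_smul]
  have hordv : ∀ σ : I, v.ord (h36d_rho N I σ π) = 1 := by
    intro σ
    rw [h36d_rho_apply, h36d_ord_gal, h36p_gal_inv_place]
    have hmem : h36d_gal N (σ : GQ)⁻¹ • v ∈ S := (hS _).mpr ⟨_, I.inv_mem σ.2, rfl⟩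
    rw [hπ _ (Finset.mem_union_left _ hmem), if_pos hmem]
    simp
  have hordv' : ∀ σ : I, v'.ord (h36d_rho N I σ π) = 0 := by
    intro σ
    rw [h36d_rho_apply, h36d_ord_gal, h36p_gal_inv_place]
    have hmem : h36d_gal N (σ : GQ)⁻¹ • v' ∈ S' := (hS' _).mpr ⟨_, I.inv_mem σ.2, rfl⟩
    rw [hπ _ (Finset.mem_union_right _ hmem), if_neg (hdisj _ (I.inv_mem σ.2))]
    simp
  refine ⟨∏ c : I ⧸ h36d_U I L, h36d_rho N I (r c) π,
    Finset.prod_ne_zero_iff.mpr fun c _ => hfac0 _, fun σ hσ => hr ⟨σ, hσ⟩, ?_, ?_⟩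
  · rw [h36p_ord_prod v _ _ (fun c _ => hfac0 _)]
    simp only [hordv, Finset.sum_const, Finset.card_univ, nsmul_eq_mul, mul_one]
    have : 0 < Fintype.card (I ⧸ h36d_U I L) := Fintype.card_pos
    exact_mod_cast this
  · rw [h36p_ord_prod v' _ _ (fun c _ => hfac0 _)]
    simp only [hordv', Finset.sum_const_zero]

end Concrete

end Fermat.Agent.S36
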