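import Fermat.Agent.S36.H92Chain
import Fermat.Agent.S36.H81Base

/-!
# S36, block (G), H92GATE (helper63): the frozen inputs of the instantiation of the gate

The block `H92Gate` of the chain contract (`S36/H92Chain.lean`) is obtained by instantiating
the landed places-free abstract gate `h26y_gate_asm_semi` (`S36/H26GateSemi.lean`) over

* the discrete valuation ring `A₀ = A ∩ K₀` (`h81a_A0 A`, `S36/H81Base.lean`),
* the field `F₀ = FF N ^ I` (`h92c_F0 A N`), `N = M * q * q`,
* the charts `B₀(j)`, `B₀(j⁻¹)` (`h92c_Chart`), the middle chart `{x ∈ F₀ | ∃ k, j ^ k x ∈ B₀(j)}`,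
* the ring `V₀` (`h92c_V0`) and the uniformiser `π = q`.

All the hypotheses of the abstract gate are landed lemmas (`S36/H3Gate92V.lean` for `V`,
`Red/ModelO/Mid.lean` for the middle chart, root closedness of `modelAt`, the constants
`modelFin ∩ modelInf`), EXCEPT the two Props frozen here, stated elementwise in `FF N`:

* `H63FinA0` (**FIN-A0**): the chart `B₀(j)` of `I`-invariant functions integral over `A[j]` is a
  finitely generated module over `A₀[j]`.  (`B₀(j)` is the integral closure of `A₀[j]` in `F₀`;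
  `A₀` is a discrete valuation ring of characteristic `0`, `F₀ / K₀(j)` is finite separable.)
  Same shape as the landed `IfaceFinite` (`Red/GGDefs.lean`) with `A₀` instead of `A`.
* `H63GenDatum` (**G-GEN**): at a closed point `𝔫 ∌ q` of the generic fibre of `B₀(j)`, a
  function `w ∈ F₀` with `m ∣ div w` is locally the `m`-th power of a function of `F₀` times a
  unit.  (The local ring is a discrete valuation ring of `F₀` containing `K₀`; `DescLoc`.)

The instantiation `h63i_h92Gate_of : H63FinA0 → H63GenDatum → H92Gate` is in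
`S36/H63GateInst.lean`.
-/

set_option autoImplicit false

open AlgebraicCurve ModularCurve

noncomputable section

namespace Fermat.Agent.S36

open Fermat.Agent.S37 (Kbar GQ FF cst jB gal modelAt auxLevel)

/-- the constants of `A₀ = A ∩ K₀` as functions: the ring homomorphism `A₀ → FF N`. -/
def h63p_cst0 (A : ValuationSubring Kbar) (N : ℕ) : ↥(h81a_A0 A) →+* FF N :=
  (algebraMap Kbar (FF N)).comp
    ((algebraMap ↥(h81a_K0 A) Kbar).comp (h81a_A0 A).subtype)

theorem h63p_cst0_apply (A : ValuationSubring Kbar) (N : ℕ) (a : ↥(h81a_A0 A)) :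
    h63p_cst0 A N a = cst N (((a : ↥(h81a_K0 A)) : Kbar)) := rfl

/-- evaluation `A₀[X] → FF N`, `X ↦ t`. -/
def h63p_ev0 (A : ValuationSubring Kbar) (N : ℕ) (t : FF N) :
    Polynomial ↥(h81a_A0 A) →+* FF N :=
  Polynomial.eval₂RingHom (h63p_cst0 A N) t

/-- **FIN-A0.**  The chart `B₀(j)` over the inertia field is a finitely generated module over
`A₀[j]`: there is a finite set `S ⊆ B₀(j)` such that every `x ∈ B₀(j)` is
`∑ s ∈ S, c_s(j) * s` with polynomials `c_s ∈ A₀[X]`. -/
def H63FinA0 : Prop :=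
  ∀ (q : ℕ) (hq : q.Prime) (M : ℕ) [NeZero M], ¬ q ∣ M → auxLevel q ∣ M →
    haveI : NeZero q := ⟨hq.ne_zero⟩
    ∀ A : ValuationSubring Kbar, A.LiesOverPrime q →
    ∃ S : Finset (FF (M * q * q)),
      (∀ s ∈ S, s ∈ h92c_Chart A (M * q * q) (jB (M * q * q))) ∧
      ∀ x ∈ h92c_Chart A (M * q * q) (jB (M * q * q)),
        ∃ c : FF (M * q * q) → Polynomial ↥(h81a_A0 A),
          x = ∑ s ∈ S, h63p_ev0 A (M * q * q) (jB (M * q * q)) (c s) * s

/-- **G-GEN.**  The datum of the gate at the closed points of the GENERIC fibre of the finite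
chart `B₀(j)`: if `w ∈ F₀`, `w ≠ 0`, `m ∣ div w`, then at every maximal ideal `𝔫 ∌ q` of
`B₀(j)` there are `g ∈ F₀`, `g ≠ 0`, and `s ∈ B₀(j) ∖ 𝔫` with
`s * w / g ^ m ∈ B₀(j)` and `s * g ^ m / w ∈ B₀(j)`. -/
def H63GenDatum : Prop :=
  ∀ (q : ℕ) (hq : q.Prime) (M : ℕ) [NeZero M], ¬ q ∣ M → auxLevel q ∣ M →
    haveI : NeZero q := ⟨hq.ne_zero⟩
    ∀ A : ValuationSubring Kbar, A.LiesOverPrime q →
    ∀ m : ℕ, ¬ q ∣ m → ∀ w : FF (M * q * q), w ≠ 0 → w ∈ h92c_F0 A (M * q * q) →
      (∀ v : Place Kbar (FF (M * q * q)), (m : ℤ) ∣ v.ord w) →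
      ∀ 𝔫 : Ideal (h92c_Chart A (M * q * q) (jB (M * q * q))), 𝔫.IsMaximal →
        ((q : ℕ) : h92c_Chart A (M * q * q) (jB (M * q * q))) ∉ 𝔫 →
        ∃ g : FF (M * q * q), g ∈ h92c_F0 A (M * q * q) ∧ g ≠ 0 ∧
          ∃ s : h92c_Chart A (M * q * q) (jB (M * q * q)), s ∉ 𝔫 ∧
            (s : FF (M * q * q)) * (w * (g ^ m)⁻¹) ∈
              h92c_Chart A (M * q * q) (jB (M * q * q)) ∧
            (s : FF (M * q * q)) * (g ^ m * w⁻¹) ∈
              h92c_Chart A (M * q * q) (jB (M * q * q))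

end Fermat.Agent.S36
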