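import Fermat.Agent.S36.H37GateFin
import Fermat.Agent.S36.H63ChartPkg

/-!
# S36, H92GATE (helper37): `H63FinA0`

`h37v_finA0 : H63FinA0` (exact frozen Prop of `S36/H63ChartPkg.lean`): the chart
`B₀(j) = modelAt N A j ∩ F₀` is generated as an `A₀[j]`-module by a finite subset of itself.
Proof: `h37v_hfin_gen` (`S36/H37GateFin.lean`: `A₀` is a discrete valuation ring, `B₀(j)` is the
integral closure of `A₀[j]` in `F₀`, `F₀ / K₀(j)` is finite by D-GEN).
-/

set_option autoImplicit false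
set_option linter.style.haveILetI false

open Polynomial AlgebraicCurve ModularCurve

noncomputable section

namespace Fermat.Agent.S36

open Fermat.Agent.S37 (Kbar GQ FF cst jB gal modelAt auxLevel)

theorem h37v_ev0_eq (A : ValuationSubring Kbar) (N : ℕ) (t : ↥(h92c_F0 A N))
    (P : (↥(h81a_A0 A))[X]) :
    h63p_ev0 A N (t : FF N) P = ((h37v_ev A N t P : ↥(h92c_F0 A N)) : FF N) := by
  have h1 : ((h37v_ev A N t P : ↥(h92c_F0 A N)) : FF N) =
      (h92c_F0 A N).subtype (eval₂ (h37v_phi A N) t P) := rfl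
  rw [h1, hom_eval₂]
  rfl

/-- **FIN-A0 for any level** (`t = j`). -/
theorem h37v_finA0_level {q : ℕ} (hq : q.Prime) {A : ValuationSubring Kbar}
    (hA : A.LiesOverPrime q) (N : ℕ) [NeZero N] :
    ∃ S : Finset (FF N), (∀ s ∈ S, s ∈ h92c_Chart A N (jB N)) ∧
      ∀ x ∈ h92c_Chart A N (jB N), ∃ c : FF N → Polynomial ↥(h81a_A0 A),
        x = ∑ s ∈ S, h63p_ev0 A N (jB N) (c s) * s := by
  classical
  obtain ⟨S, hS, hgen⟩ := h37v_hfin_gen hq hA N (h37v_j A N) (Or.inl rfl)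
  refine ⟨S.image Subtype.val, ?_, ?_⟩
  · intro s hs
    obtain ⟨s', hs', rfl⟩ := Finset.mem_image.mp hs
    exact ⟨hS s' hs', s'.2⟩
  · intro x hx
    obtain ⟨c, hc⟩ := hgen ⟨x, hx.2⟩ hx.1
    refine ⟨fun y => if h : y ∈ h92c_F0 A N then c ⟨y, h⟩ else 0, ?_⟩
    rw [Finset.sum_image (fun a _ b _ h => Subtype.ext h)]
    have h1 := congrArg (Subtype.val : ↥(h92c_F0 A N) → FF N) hc
    simp only [AddSubmonoidClass.coe_finsetSum, MulMemClass.coe_mul] at h1
    rw [h1]
    refine Finset.sum_congr rfl fun s _ => ?_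
    have h3 : (fun y => if h : y ∈ h92c_F0 A N then c ⟨y, h⟩ else 0) (s : FF N) = c s :=
      dif_pos s.2
    have h2 : h63p_ev0 A N (jB N) (c s) = ((h37v_ev A N (h37v_j A N) (c s) :
        ↥(h92c_F0 A N)) : FF N) := h37v_ev0_eq A N (h37v_j A N) (c s)
    rw [h3, h2]

/-- **FIN-A0** (exact frozen Prop of `S36/H63ChartPkg.lean`). -/
theorem h37v_finA0 : H63FinA0 := by
  intro q hq M _ _ _
  haveI : NeZero q := ⟨hq.ne_zero⟩
  intro A hA
  exact h37v_finA0_level hq hA (M * q * q)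

end Fermat.Agent.S36
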