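import Fermat.Agent.S36.H37HorDatum
import Fermat.Agent.S36.H63ChartPkg

/-!
# S36, H92GATE (helper37): `H63GenDatum` (G-GEN)

`h37w_genDatum : H63GenDatum` (exact frozen Prop of `S36/H63ChartPkg.lean`): the datum of the
gate at the closed points of the generic fibre of the finite chart.  Proof: the local ring of
the chart at a maximal ideal `𝔫 ∌ q` is a valuation ring of `F₀` containing `K₀`
(`h37w_horVal`, Dedekind), then `DescLoc` (`h7l_descLoc_final`).
-/

set_option autoImplicit false
set_option linter.style.haveILetI false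

open AlgebraicCurve ModularCurve

noncomputable section

namespace Fermat.Agent.S36

open Fermat.Agent.S37 (Kbar GQ FF cst jB gal modelAt auxLevel)

/-- **G-GEN** (exact frozen Prop of `S36/H63ChartPkg.lean`). -/
theorem h37w_genDatum : H63GenDatum := by
  intro q hq M _ _ _
  haveI : NeZero q := ⟨hq.ne_zero⟩
  intro A hA m _ w hw0 hwF hdiv 𝔫 h𝔫 hq𝔫
  haveI := h𝔫.isPrime
  exact h37w_horDatum hq hA (Or.inl rfl) 𝔫 (h37w_maximal_ne_bot (Or.inl rfl) 𝔫 h𝔫) hq𝔫 m w hw0
    hwF hdiv

end Fermat.Agent.S36
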