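import Mathlib

/-!
# S36, HOR-VAL (helper37), abstract part (Mathlib only)

* `h37w_val_dedekind` : `R` a Dedekind domain, `F` a finite separable extension of `Frac R`,
  `C` the integral closure of `R` in `F`, `𝔭'` a nonzero prime of `C`: for every `x ≠ 0` of
  `F`, `s x ∈ C` or `s x⁻¹ ∈ C` for some `s ∈ C ∖ 𝔭'` (the localisation `C_𝔭'` is a valuation
  ring of `F`).
* `h37w_val_transfer` : transfer of this property to a subring `B₁` with `B₁[1/q] = C`, at the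
  primes of `B₁` which do not contain `q`.
-/

set_option autoImplicit false
set_option linter.style.haveILetI false

open Polynomial

namespace Fermat.Agent.S36

/-- **the localisation of a Dedekind integral closure at a nonzero prime is a valuation ring
of the big field.** -/
theorem h37w_val_dedekind (R F : Type*) [CommRing R] [IsDedekindDomain R]
    [Field F] [Algebra R F] [Algebra (FractionRing R) F] [IsScalarTower R (FractionRing R) F]
    [FiniteDimensional (FractionRing R) F] [Algebra.IsSeparable (FractionRing R) F]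
    (𝔭' : Ideal (integralClosure R F)) [h𝔭' : 𝔭'.IsPrime] (h0 : 𝔭' ≠ ⊥) (x : F) (hx : x ≠ 0) :
    (∃ s : integralClosure R F, s ∉ 𝔭' ∧ (s : F) * x ∈ integralClosure R F) ∨
      (∃ s : integralClosure R F, s ∉ 𝔭' ∧ (s : F) * x⁻¹ ∈ integralClosure R F) := by
  haveI : IsDedekindDomain (integralClosure R F) :=
    integralClosure.isDedekindDomain_fractionRing R F
  haveI : IsFractionRing (integralClosure R F) F :=
    integralClosure.isFractionRing_of_finite_extension (FractionRing R) F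
  haveI : IsDiscreteValuationRing (Localization.AtPrime 𝔭') :=
    IsLocalization.AtPrime.isDiscreteValuationRing_of_dedekind_domain
      (integralClosure R F) h0 (Localization.AtPrime 𝔭')
  obtain ⟨a, b, hb, hab⟩ := IsFractionRing.div_surjective (A := integralClosure R F) x
  have hb0 : (b : F) ≠ 0 := by
    intro h
    have : b = 0 := Subtype.ext h
    exact nonZeroDivisors.ne_zero hb this
  have ha0 : (a : F) ≠ 0 := by
    intro h
    apply hx
    rw [← hab]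
    show (a : F) / (b : F) = 0
    rw [h, zero_div]
  have hinj : Function.Injective (algebraMap (integralClosure R F) (Localization.AtPrime 𝔭')) :=
    IsLocalization.injective (Localization.AtPrime 𝔭') 𝔭'.primeCompl_le_nonZeroDivisors
  have hxab : x = (a : F) / (b : F) := hab.symm
  obtain ⟨c, hc⟩ := ValuationRing.cond
    (algebraMap (integralClosure R F) (Localization.AtPrime 𝔭') a)
    (algebraMap (integralClosure R F) (Localization.AtPrime 𝔭') b)
  obtain ⟨c₀, s, rfl⟩ := IsLocalization.exists_mk'_eq 𝔭'.primeCompl c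
  rcases hc with hc | hc
  · -- `a * c = b`, so `s * x⁻¹ = c₀`
    right
    refine ⟨s, s.2, ?_⟩
    have h1 : a * c₀ = b * s := by
      apply hinj
      rw [map_mul, map_mul, ← hc, mul_assoc, IsLocalization.mk'_spec]
    have h2 : (a : F) * (c₀ : F) = (b : F) * (s : F) := by
      have := congrArg (fun z : integralClosure R F => (z : F)) h1
      simpa using this
    have h3 : ((s : integralClosure R F) : F) * x⁻¹ = (c₀ : F) := by
      rw [hxab, inv_div]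
      field_simp
      rw [mul_comm, ← h2, mul_comm]
    rw [h3]
    exact c₀.2
  · left
    refine ⟨s, s.2, ?_⟩
    have h1 : b * c₀ = a * s := by
      apply hinj
      rw [map_mul, map_mul, ← hc, mul_assoc, IsLocalization.mk'_spec]
    have h2 : (b : F) * (c₀ : F) = (a : F) * (s : F) := by
      have := congrArg (fun z : integralClosure R F => (z : F)) h1
      simpa using this
    have h3 : ((s : integralClosure R F) : F) * x = (c₀ : F) := by
      rw [hxab]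
      field_simp
      rw [mul_comm, ← h2, mul_comm]
    rw [h3]
    exact c₀.2

/-- every element of the big field is a fraction of elements of the integral closure. -/
theorem h37w_frac_dedekind (R F : Type*) [CommRing R] [IsDomain R]
    [Field F] [Algebra R F] [Algebra (FractionRing R) F] [IsScalarTower R (FractionRing R) F]
    [FiniteDimensional (FractionRing R) F] (x : F) :
    ∃ a b : integralClosure R F, b ≠ 0 ∧ x * (b : F) = (a : F) := by
  haveI : IsFractionRing (integralClosure R F) F :=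
    integralClosure.isFractionRing_of_finite_extension (FractionRing R) F
  obtain ⟨a, b, hb, hab⟩ := IsFractionRing.div_surjective (A := integralClosure R F) x
  have hb0 : (b : F) ≠ 0 := by
    intro h
    have : b = 0 := Subtype.ext h
    exact nonZeroDivisors.ne_zero hb this
  refine ⟨a, b, nonZeroDivisors.ne_zero hb, ?_⟩
  have hxab : x = (a : F) / (b : F) := hab.symm
  rw [hxab, div_mul_cancel₀ _ hb0]

/-! ## Transfer to a subring `B₁` with `B₁[1/q] = C` -/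

section Transfer

variable {F FF : Type*} [Field F] [Field FF] (ι : F →+* FF) {S : Type*} [SetLike S F]
  [SubringClass S F] (C : S) (B₁ : Subring FF) (q : B₁) (𝔭 : Ideal B₁)

/-- membership in the extended ideal does not depend on the exponent. -/
theorem h37w_mem_indep [h𝔭 : 𝔭.IsPrime] (hq𝔭 : q ∉ 𝔭) (y : F) {k k' : ℕ}
    (h : (q : FF) ^ k * ι y ∈ B₁) (hmem : (⟨_, h⟩ : B₁) ∈ 𝔭)
    (h' : (q : FF) ^ k' * ι y ∈ B₁) : (⟨_, h'⟩ : B₁) ∈ 𝔭 := by
  have h1 : q ^ k * (⟨_, h'⟩ : B₁) = q ^ k' * (⟨_, h⟩ : B₁) := by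
    apply Subtype.ext
    push_cast
    ring
  have h2 : q ^ k * (⟨_, h'⟩ : B₁) ∈ 𝔭 := by
    rw [h1]
    exact 𝔭.mul_mem_left _ hmem
  rcases h𝔭.mem_or_mem h2 with h3 | h3
  · exact absurd (h𝔭.mem_of_pow_mem k h3) hq𝔭
  · exact h3

/-- the extension of the prime `𝔭 ∌ q` of `B₁` to `C = B₁[1/q]`. -/
def h37wExt (hscale : ∀ y : C, ∃ k : ℕ, (q : FF) ^ k * ι (y : F) ∈ B₁) [h𝔭 : 𝔭.IsPrime]
    (hq𝔭 : q ∉ 𝔭) : Ideal C where
  carrier := {y | ∃ (k : ℕ) (h : (q : FF) ^ k * ι (y : F) ∈ B₁), (⟨_, h⟩ : B₁) ∈ 𝔭}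
  zero_mem' := by
    refine ⟨0, ?_, ?_⟩
    · simp
    · have : (⟨(q : FF) ^ 0 * ι ((0 : C) : F), by simp⟩ : B₁) = 0 := by
        apply Subtype.ext
        simp
      rw [this]
      exact 𝔭.zero_mem
  add_mem' := by
    rintro y₁ y₂ ⟨k₁, h₁, hm₁⟩ ⟨k₂, h₂, hm₂⟩
    have e : (q : FF) ^ (k₁ + k₂) * ι ((y₁ + y₂ : C) : F) =
        (q : FF) ^ k₂ * ((q : FF) ^ k₁ * ι (y₁ : F)) +
          (q : FF) ^ k₁ * ((q : FF) ^ k₂ * ι (y₂ : F)) := by
      push_cast
      rw [map_add]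
      ring
    have hB : (q : FF) ^ (k₁ + k₂) * ι ((y₁ + y₂ : C) : F) ∈ B₁ := by
      rw [e]
      exact add_mem (mul_mem (pow_mem q.2 _) h₁) (mul_mem (pow_mem q.2 _) h₂)
    refine ⟨k₁ + k₂, hB, ?_⟩
    have e' : (⟨_, hB⟩ : B₁) = q ^ k₂ * (⟨_, h₁⟩ : B₁) + q ^ k₁ * (⟨_, h₂⟩ : B₁) := by
      apply Subtype.ext
      push_cast
      exact e
    rw [e']
    exact 𝔭.add_mem (𝔭.mul_mem_left _ hm₁) (𝔭.mul_mem_left _ hm₂)
  smul_mem' := by
    rintro c y ⟨k, h, hm⟩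
    obtain ⟨l, hl⟩ := hscale c
    have e : (q : FF) ^ (k + l) * ι ((c • y : C) : F) =
        ((q : FF) ^ l * ι (c : F)) * ((q : FF) ^ k * ι (y : F)) := by
      rw [smul_eq_mul]
      push_cast
      rw [map_mul]
      ring
    have hB : (q : FF) ^ (k + l) * ι ((c • y : C) : F) ∈ B₁ := by
      rw [e]
      exact mul_mem hl h
    refine ⟨k + l, hB, ?_⟩
    have e' : (⟨_, hB⟩ : B₁) = (⟨_, hl⟩ : B₁) * (⟨_, h⟩ : B₁) := by
      apply Subtype.ext
      push_cast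
      exact e
    rw [e']
    exact 𝔭.mul_mem_left _ hm

theorem h37w_mem_ext (hscale : ∀ y : C, ∃ k : ℕ, (q : FF) ^ k * ι (y : F) ∈ B₁)
    [h𝔭 : 𝔭.IsPrime] (hq𝔭 : q ∉ 𝔭) (y : C) :
    y ∈ h37wExt ι C B₁ q 𝔭 hscale hq𝔭 ↔
      ∃ (k : ℕ) (h : (q : FF) ^ k * ι (y : F) ∈ B₁), (⟨_, h⟩ : B₁) ∈ 𝔭 := Iff.rfl

theorem h37w_ext_isPrime (hscale : ∀ y : C, ∃ k : ℕ, (q : FF) ^ k * ι (y : F) ∈ B₁)
    [h𝔭 : 𝔭.IsPrime] (hq𝔭 : q ∉ 𝔭) : (h37wExt ι C B₁ q 𝔭 hscale hq𝔭).IsPrime := by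
  refine ⟨?_, ?_⟩
  · rw [Ideal.ne_top_iff_one]
    rintro ⟨k, h, hm⟩
    have e : (⟨_, h⟩ : B₁) = q ^ k := by
      apply Subtype.ext
      push_cast
      rw [map_one, mul_one]
    rw [e] at hm
    exact hq𝔭 (h𝔭.mem_of_pow_mem k hm)
  · intro y z hyz
    obtain ⟨k, h, hm⟩ := hyz
    obtain ⟨a, ha⟩ := hscale y
    obtain ⟨b, hb⟩ := hscale z
    have e : (q : FF) ^ (a + b) * ι ((y * z : C) : F) =
        ((q : FF) ^ a * ι (y : F)) * ((q : FF) ^ b * ι (z : F)) := by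
      push_cast
      rw [map_mul]
      ring
    have hB : (q : FF) ^ (a + b) * ι ((y * z : C) : F) ∈ B₁ := by
      rw [e]
      exact mul_mem ha hb
    have hm' : (⟨_, hB⟩ : B₁) ∈ 𝔭 := h37w_mem_indep ι B₁ q 𝔭 hq𝔭 _ h hm hB
    have e' : (⟨_, hB⟩ : B₁) = (⟨_, ha⟩ : B₁) * (⟨_, hb⟩ : B₁) := by
      apply Subtype.ext
      push_cast
      exact e
    rw [e'] at hm'
    rcases h𝔭.mem_or_mem hm' with h1 | h1
    · exact Or.inl ⟨a, ha, h1⟩
    · exact Or.inr ⟨b, hb, h1⟩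

/-- **transfer of the valuation property** from `C = B₁[1/q]` to `B₁` at the primes `𝔭 ∌ q`. -/
theorem h37w_val_transfer
    (hBC : ∀ b : B₁, ∃ y : C, ι (y : F) = (b : FF))
    (hscale : ∀ y : C, ∃ k : ℕ, (q : FF) ^ k * ι (y : F) ∈ B₁)
    (hval : ∀ 𝔭' : Ideal C, 𝔭'.IsPrime → 𝔭' ≠ ⊥ → ∀ x : F, x ≠ 0 →
      (∃ s : C, s ∉ 𝔭' ∧ (s : F) * x ∈ C) ∨ (∃ s : C, s ∉ 𝔭' ∧ (s : F) * x⁻¹ ∈ C))
    [h𝔭 : 𝔭.IsPrime] (h0 : 𝔭 ≠ ⊥) (hq𝔭 : q ∉ 𝔭) (x : F) (hx : x ≠ 0) :
    (∃ s : B₁, s ∉ 𝔭 ∧ (s : FF) * ι x ∈ B₁) ∨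
      (∃ s : B₁, s ∉ 𝔭 ∧ (s : FF) * (ι x)⁻¹ ∈ B₁) := by
  have hprime := h37w_ext_isPrime ι C B₁ q 𝔭 hscale hq𝔭
  have hne : h37wExt ι C B₁ q 𝔭 hscale hq𝔭 ≠ ⊥ := by
    obtain ⟨b, hb𝔭, hb0⟩ := Submodule.exists_mem_ne_zero_of_ne_bot h0
    obtain ⟨y, hy⟩ := hBC b
    intro hbot
    have hy' : y ∈ h37wExt ι C B₁ q 𝔭 hscale hq𝔭 := by
      have hB : (q : FF) ^ 0 * ι (y : F) ∈ B₁ := by
        rw [pow_zero, one_mul, hy]
        exact b.2
      refine ⟨0, hB, ?_⟩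
      have e : (⟨_, hB⟩ : B₁) = b := by
        apply Subtype.ext
        show (q : FF) ^ 0 * ι (y : F) = b
        rw [pow_zero, one_mul, hy]
      rw [e]
      exact hb𝔭
    rw [hbot, Ideal.mem_bot] at hy'
    apply hb0
    apply Subtype.ext
    rw [← hy, hy']
    simp
  -- the two cases
  have key : ∀ z : F, (∃ s : C, s ∉ h37wExt ι C B₁ q 𝔭 hscale hq𝔭 ∧ (s : F) * z ∈ C) →
      ∃ s : B₁, s ∉ 𝔭 ∧ (s : FF) * ι z ∈ B₁ := by
    rintro z ⟨s, hs, hsz⟩
    obtain ⟨a, ha⟩ := hscale s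
    obtain ⟨b, hb⟩ := hscale ⟨(s : F) * z, hsz⟩
    have hB : (q : FF) ^ (a + b) * ι (s : F) ∈ B₁ := by
      have e : (q : FF) ^ (a + b) * ι (s : F) = (q : FF) ^ b * ((q : FF) ^ a * ι (s : F)) := by
        ring
      rw [e]
      exact mul_mem (pow_mem q.2 _) ha
    refine ⟨⟨_, hB⟩, fun hmem => hs ⟨a + b, hB, hmem⟩, ?_⟩
    have e : (q : FF) ^ (a + b) * ι (s : F) * ι z =
        (q : FF) ^ a * ((q : FF) ^ b * ι ((s : F) * z)) := by
      rw [map_mul]
      ring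
    show (q : FF) ^ (a + b) * ι (s : F) * ι z ∈ B₁
    rw [e]
    exact mul_mem (pow_mem q.2 _) hb
  rcases hval _ hprime hne x hx with h | h
  · exact Or.inl (key x h)
  · right
    have := key x⁻¹ h
    rwa [map_inv₀] at this

/-- transfer of the fraction property. -/
theorem h37w_frac_transfer (hι : Function.Injective ι) (hq0 : (q : FF) ≠ 0)
    (hscale : ∀ y : C, ∃ k : ℕ, (q : FF) ^ k * ι (y : F) ∈ B₁)
    (x : F) (hfrac : ∃ a b : C, b ≠ 0 ∧ x * (b : F) = (a : F)) :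
    ∃ a b : B₁, b ≠ 0 ∧ ι x * (b : FF) = (a : FF) := by
  obtain ⟨a, b, hb0, hab⟩ := hfrac
  obtain ⟨k₁, h₁⟩ := hscale a
  obtain ⟨k₂, h₂⟩ := hscale b
  have hA : (q : FF) ^ (k₁ + k₂) * ι (a : F) ∈ B₁ := by
    have e : (q : FF) ^ (k₁ + k₂) * ι (a : F) = (q : FF) ^ k₂ * ((q : FF) ^ k₁ * ι (a : F)) := by
      ring
    rw [e]
    exact mul_mem (pow_mem q.2 _) h₁
  have hB : (q : FF) ^ (k₁ + k₂) * ι (b : F) ∈ B₁ := by
    have e : (q : FF) ^ (k₁ + k₂) * ι (b : F) = (q : FF) ^ k₁ * ((q : FF) ^ k₂ * ι (b : F)) := by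
      ring
    rw [e]
    exact mul_mem (pow_mem q.2 _) h₂
  refine ⟨⟨_, hA⟩, ⟨_, hB⟩, ?_, ?_⟩
  · intro h
    have h1 : (q : FF) ^ (k₁ + k₂) * ι (b : F) = 0 := congrArg Subtype.val h
    rcases mul_eq_zero.mp h1 with h2 | h2
    · exact hq0 (eq_zero_of_pow_eq_zero h2)
    · apply hb0
      apply Subtype.ext
      have h3 : ι (b : F) = ι 0 := by rw [h2, map_zero]
      exact hι h3
  · show ι x * ((q : FF) ^ (k₁ + k₂) * ι (b : F)) = (q : FF) ^ (k₁ + k₂) * ι (a : F)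
    rw [← hab, map_mul]
    ring

end Transfer

end Fermat.Agent.S36
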