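import Fermat.Agent.S36.H37GateFin
import Fermat.Agent.S36.H37HorAbs

/-!
# S36, HOR-VAL (helper37): the charts over `A₀` are valuation rings at the horizontal primes

`B = h92c_Chart A N t` (`t = j, 1/j`), `𝔭` a nonzero prime of `B` with `q ∉ 𝔭`.  Then the local
ring `B_𝔭` is a valuation ring of `F₀` (`h37w_horVal`): `B[1/q]` is the integral closure of
`K₀[t]` in `F₀`, a Dedekind domain.  Also: every function of `F₀` is a fraction of elements of
`B` (`h37w_isFrac`).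
-/

set_option autoImplicit false
set_option linter.style.haveILetI false
set_option linter.unusedVariables false

open Polynomial AlgebraicCurve ModularCurve

noncomputable section

namespace Fermat.Agent.S36

open Fermat.Agent.S37 (Kbar GQ FF cst jB gal modelAt modelFin modelInf IsRat)
open Fermat.Agent.Red.ModelO

/-! ## The constants `K₀ → F₀` and the evaluation `K₀[X] → F₀` -/

/-- the constants `K₀ → F₀`. -/
def h37w_psi (A : ValuationSubring Kbar) (N : ℕ) : ↥(h81a_K0 A) →+* ↥(h92c_F0 A N) :=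
  RingHom.codRestrict
    ((algebraMap Kbar (FF N)).comp (algebraMap (h81a_K0 A) Kbar))
    (h92c_F0 A N)
    (fun c => h37v_cst_mem_F0 A N ((h81a_mem_K0 A _).mp c.2))

@[simp]
theorem h37w_psi_coe (A : ValuationSubring Kbar) (N : ℕ) (c : ↥(h81a_K0 A)) :
    ((h37w_psi A N c : ↥(h92c_F0 A N)) : FF N) = cst N (c : Kbar) := rfl

/-- evaluation `K₀[X] → F₀`, `X ↦ t`. -/
def h37w_evK (A : ValuationSubring Kbar) (N : ℕ) (t : ↥(h92c_F0 A N)) :
    (↥(h81a_K0 A))[X] →+* ↥(h92c_F0 A N) :=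
  eval₂RingHom (h37w_psi A N) t

theorem h37w_evK_comp (A : ValuationSubring Kbar) (N : ℕ) (t : ↥(h92c_F0 A N)) :
    (h37w_evK A N t).comp (mapRingHom (h81a_A0 A).subtype) = h37v_ev A N t := by
  ext P
  · simp [h37w_evK, h37v_ev]
  · simp [h37w_evK, h37v_ev]

theorem h37w_evK_map (A : ValuationSubring Kbar) (N : ℕ) (t : ↥(h92c_F0 A N))
    (P : (↥(h81a_A0 A))[X]) :
    h37w_evK A N t (P.map (h81a_A0 A).subtype) = h37v_ev A N t P := by
  rw [← h37w_evK_comp]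
  rfl

theorem h37w_evK_coe (A : ValuationSubring Kbar) (N : ℕ) (t : ↥(h92c_F0 A N))
    (P : (↥(h81a_K0 A))[X]) :
    ((h37w_evK A N t P : ↥(h92c_F0 A N)) : FF N) =
      aeval (t : FF N) (P.map (algebraMap (h81a_K0 A) Kbar)) := by
  have h1 : ((h37w_evK A N t P : ↥(h92c_F0 A N)) : FF N) =
      (h92c_F0 A N).subtype (eval₂ (h37w_psi A N) t P) := rfl
  rw [h1, hom_eval₂, aeval_def, eval₂_map]
  rfl

theorem h37w_evK_injective (A : ValuationSubring Kbar) (N : ℕ) (t : ↥(h92c_F0 A N))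
    (ht : Transcendental Kbar (t : FF N)) : Function.Injective (h37w_evK A N t) := by
  rw [injective_iff_map_eq_zero]
  intro P hP
  have h1 : aeval (t : FF N) (P.map (algebraMap (h81a_K0 A) Kbar)) = 0 := by
    rw [← h37w_evK_coe, hP]
    rfl
  have h2 : P.map (algebraMap (h81a_K0 A) Kbar) = 0 :=
    (transcendental_iff_injective.mp ht) (h1.trans (map_zero _).symm)
  exact Polynomial.map_injective _ (algebraMap (h81a_K0 A) Kbar).injective
    (h2.trans (Polynomial.map_zero _).symm)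

theorem h37w_transcendental (A : ValuationSubring Kbar) (N : ℕ) [NeZero N]
    (t : ↥(h92c_F0 A N)) (ht : t = h37v_j A N ∨ t = (h37v_j A N)⁻¹) :
    Transcendental Kbar (t : FF N) := by
  rcases ht with h | h
  · rw [h]
    exact Fermat.Agent.S24.transcendental_jBar N
  · rw [h]
    intro halg
    have h2 := halg.inv
    have h3 : ((((h37v_j A N)⁻¹ : ↥(h92c_F0 A N)) : FF N))⁻¹ = jB N := by
      show ((jB N)⁻¹)⁻¹ = jB N
      rw [inv_inv]
    rw [h3] at h2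
    exact Fermat.Agent.S24.transcendental_jBar N h2

/-! ## Scaling by powers of `q` -/

/-- the prime `q` in `F₀`. -/
theorem h37w_q_eq (A : ValuationSubring Kbar) (N : ℕ) (t : ↥(h92c_F0 A N)) (q : ℕ) :
    ((q : ℕ) : ↥(h92c_F0 A N)) = h37v_ev A N t (C ((q : ℕ) : ↥(h81a_A0 A))) := by
  simp [h37v_ev]

/-- every constant of `K₀` is multiplied into `A₀` by a power of `q`. -/
theorem h37w_exists_pow_mem {q : ℕ} (hq : q.Prime) {A : ValuationSubring Kbar}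
    (hA : A.LiesOverPrime q) (c : ↥(h81a_K0 A)) :
    ∃ n : ℕ, ((q : ℕ) : ↥(h81a_K0 A)) ^ n * c ∈ h81a_A0 A := by
  by_cases hc : c = 0
  · exact ⟨0, by rw [hc, mul_zero]; exact zero_mem _⟩
  obtain ⟨j, u, hu, -, hcu⟩ := h81a_exists_pow hq hA c hc
  have hq0 : ((q : ℕ) : ↥(h81a_K0 A)) ≠ 0 := by exact_mod_cast hq.ne_zero
  refine ⟨(-j).toNat, ?_⟩
  have h1 : ((q : ℕ) : ↥(h81a_K0 A)) ^ (-j).toNat * c =
      ((q : ℕ) : ↥(h81a_K0 A)) ^ (((-j).toNat : ℤ) + j).toNat * u := by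
    rw [hcu, ← mul_assoc, ← zpow_natCast, ← zpow_add₀ hq0, ← zpow_natCast]
    congr 2
    omega
  rw [h1]
  exact mul_mem (pow_mem (h81a_natCast_mem_A0 q A) _) hu

/-- every polynomial over `K₀` is multiplied into `A₀[X]` by a power of `q`. -/
theorem h37w_exists_pow_poly {q : ℕ} (hq : q.Prime) {A : ValuationSubring Kbar}
    (hA : A.LiesOverPrime q) (P : (↥(h81a_K0 A))[X]) :
    ∃ (n : ℕ) (Q : (↥(h81a_A0 A))[X]),
      C (((q : ℕ) : ↥(h81a_K0 A)) ^ n) * P = Q.map (h81a_A0 A).subtype := by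
  induction P using Polynomial.induction_on' with
  | add P₁ P₂ h₁ h₂ =>
    obtain ⟨n₁, Q₁, e₁⟩ := h₁
    obtain ⟨n₂, Q₂, e₂⟩ := h₂
    refine ⟨n₁ + n₂, C (((q : ℕ) : ↥(h81a_A0 A)) ^ n₂) * Q₁ +
      C (((q : ℕ) : ↥(h81a_A0 A)) ^ n₁) * Q₂, ?_⟩
    rw [Polynomial.map_add, Polynomial.map_mul, Polynomial.map_mul, ← e₁, ← e₂,
      Polynomial.map_C, Polynomial.map_C]
    simp only [map_pow, map_natCast, pow_add, map_mul]
    ring
  | monomial i c =>
    obtain ⟨n, hn⟩ := h37w_exists_pow_mem hq hA c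
    refine ⟨n, monomial i (⟨_, hn⟩ : ↥(h81a_A0 A)), ?_⟩
    rw [Polynomial.map_monomial, C_mul_monomial]
    rfl

theorem h37w_scale_range {q : ℕ} (hq : q.Prime) {A : ValuationSubring Kbar}
    (hA : A.LiesOverPrime q) (N : ℕ) (t : ↥(h92c_F0 A N)) :
    ∀ x ∈ (h37w_evK A N t).range, ∃ n : ℕ,
      ((q : ℕ) : ↥(h92c_F0 A N)) ^ n * x ∈ (h37v_ev A N t).range := by
  rintro x ⟨P, rfl⟩
  obtain ⟨n, Q, e⟩ := h37w_exists_pow_poly hq hA P
  refine ⟨n, Q, ?_⟩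
  have hC : (C (((q : ℕ) : ↥(h81a_K0 A)) ^ n) : (↥(h81a_K0 A))[X]) =
      ((q : ℕ) : (↥(h81a_K0 A))[X]) ^ n := by
    rw [map_pow, map_natCast]
  rw [← h37w_evK_map, ← e, map_mul, hC, map_pow, map_natCast]

/-! ## Integrality over `K₀[t]` and over `A₀[t]` -/

/-- integral over `A₀[t]` implies integral over `K₀[t]`. -/
theorem h37w_isIntegralElem_of (A : ValuationSubring Kbar) (N : ℕ) (t x : ↥(h92c_F0 A N))
    (hx : (h37v_ev A N t).IsIntegralElem x) : (h37w_evK A N t).IsIntegralElem x := by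
  obtain ⟨p, hp, hroot⟩ := hx
  refine ⟨p.map (mapRingHom (h81a_A0 A).subtype), hp.map _, ?_⟩
  rw [eval₂_map, h37w_evK_comp]
  exact hroot

/-- integral over `K₀[t]` implies integral over `A₀[t]` after scaling by a power of `q`. -/
theorem h37w_exists_pow_isIntegralElem {q : ℕ} (hq : q.Prime) {A : ValuationSubring Kbar}
    (hA : A.LiesOverPrime q) (N : ℕ) (t x : ↥(h92c_F0 A N))
    (hx : (h37w_evK A N t).IsIntegralElem x) :
    ∃ n : ℕ, (h37v_ev A N t).IsIntegralElem (((q : ℕ) : ↥(h92c_F0 A N)) ^ n * x) := by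
  have h1 : IsIntegral (h37w_evK A N t).range x := (h85_isIntegral_range_iff _ _).mpr hx
  have hqmem : ((q : ℕ) : ↥(h92c_F0 A N)) ∈ (h37v_ev A N t).range :=
    ⟨C ((q : ℕ) : ↥(h81a_A0 A)), (h37w_q_eq A N t q).symm⟩
  obtain ⟨n, hn⟩ := h85_exists_pow_mul_isIntegral (h37w_evK A N t).range (h37v_ev A N t).range
    ((q : ℕ) : ↥(h92c_F0 A N)) hqmem (h37w_scale_range hq hA N t) h1
  exact ⟨n, (h85_isIntegral_range_iff _ _).mp hn⟩

/-! ## The valuation property at the horizontal primes -/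

set_option synthInstance.maxHeartbeats 400000 in
set_option maxHeartbeats 1000000 in
/-- **HOR-VAL (type-level form).**  `B = h92c_Chart A N t`, `t = j, 1/j`, `𝔭` a nonzero prime
of `B` with `q ∉ 𝔭`: for every `x ≠ 0` of `F₀`, `s x ∈ B` or `s x⁻¹ ∈ B` for some `s ∈ B ∖ 𝔭`.
-/
theorem h37w_pkg_type {q : ℕ} (hq : q.Prime) {A : ValuationSubring Kbar}
    (hA : A.LiesOverPrime q) (N : ℕ) [NeZero N] (t : ↥(h92c_F0 A N))
    (ht : t = h37v_j A N ∨ t = (h37v_j A N)⁻¹) :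
    (∀ x : ↥(h92c_F0 A N), ∃ a b : ↥(h92c_Chart A N (t : FF N)), b ≠ 0 ∧
      (x : FF N) * (b : FF N) = (a : FF N)) ∧
    ∀ (𝔭 : Ideal ↥(h92c_Chart A N (t : FF N))), 𝔭.IsPrime → 𝔭 ≠ ⊥ →
      ((q : ℕ) : ↥(h92c_Chart A N (t : FF N))) ∉ 𝔭 → ∀ x : ↥(h92c_F0 A N), x ≠ 0 →
      (∃ s : ↥(h92c_Chart A N (t : FF N)), s ∉ 𝔭 ∧
          (s : FF N) * (x : FF N) ∈ h92c_Chart A N (t : FF N)) ∨
        (∃ s : ↥(h92c_Chart A N (t : FF N)), s ∉ 𝔭 ∧
          (s : FF N) * (x : FF N)⁻¹ ∈ h92c_Chart A N (t : FF N)) := by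
  classical
  letI alg : Algebra (↥(h81a_K0 A))[X] ↥(h92c_F0 A N) := (h37w_evK A N t).toAlgebra
  have halg : ∀ y : (↥(h81a_K0 A))[X],
      algebraMap (↥(h81a_K0 A))[X] ↥(h92c_F0 A N) y = h37w_evK A N t y := fun _ => rfl
  have hinj : Function.Injective (h37w_evK A N t) :=
    h37w_evK_injective A N t (h37w_transcendental A N t ht)
  haveI hfaith : FaithfulSMul (↥(h81a_K0 A))[X] ↥(h92c_F0 A N) :=
    (faithfulSMul_iff_algebraMap_injective _ _).mpr hinj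
  letI := FractionRing.liftAlgebra (↥(h81a_K0 A))[X] ↥(h92c_F0 A N)
  haveI : IsScalarTower (↥(h81a_K0 A))[X] (FractionRing (↥(h81a_K0 A))[X]) ↥(h92c_F0 A N) :=
    FractionRing.isScalarTower_liftAlgebra _ _
  haveI : CharZero ↥(h92c_F0 A N) :=
    charZero_of_injective_algebraMap (algebraMap ℚ ↥(h92c_F0 A N)).injective
  haveI : CharZero (FractionRing (↥(h81a_K0 A))[X]) :=
    RingHom.charZero (algebraMap (FractionRing (↥(h81a_K0 A))[X]) ↥(h92c_F0 A N))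
  -- finite dimensionality
  obtain ⟨T, hT⟩ := h37v_exists_span A N t ht
  have hrange : ∀ y ∈ Subfield.closure (Set.range (h37v_ev A N t)),
      ∃ e : FractionRing (↥(h81a_K0 A))[X],
        algebraMap (FractionRing (↥(h81a_K0 A))[X]) ↥(h92c_F0 A N) e = y := by
    have hle : Subfield.closure (Set.range (h37v_ev A N t)) ≤
        (algebraMap (FractionRing (↥(h81a_K0 A))[X]) ↥(h92c_F0 A N)).fieldRange := by
      rw [Subfield.closure_le]
      rintro _ ⟨P, rfl⟩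
      refine ⟨algebraMap (↥(h81a_K0 A))[X] (FractionRing (↥(h81a_K0 A))[X])
        (P.map (h81a_A0 A).subtype), ?_⟩
      rw [← IsScalarTower.algebraMap_apply, halg, h37w_evK_map]
    intro y hy
    exact hle hy
  haveI : FiniteDimensional (FractionRing (↥(h81a_K0 A))[X]) ↥(h92c_F0 A N) := by
    refine Module.finite_def.mpr ⟨T, eq_top_iff.mpr fun x _ => ?_⟩
    obtain ⟨c, hc, hx⟩ := hT x
    rw [hx]
    refine Submodule.sum_mem _ fun u hu => ?_
    obtain ⟨e, he⟩ := hrange _ (hc u)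
    rw [← he, ← Algebra.smul_def]
    exact Submodule.smul_mem _ _ (Submodule.subset_span hu)
  -- the valuation property of the Dedekind closure
  have hval : ∀ 𝔭' : Ideal (integralClosure (↥(h81a_K0 A))[X] ↥(h92c_F0 A N)), 𝔭'.IsPrime →
      𝔭' ≠ ⊥ → ∀ x : ↥(h92c_F0 A N), x ≠ 0 →
      (∃ s : integralClosure (↥(h81a_K0 A))[X] ↥(h92c_F0 A N), s ∉ 𝔭' ∧
        (s : ↥(h92c_F0 A N)) * x ∈ integralClosure (↥(h81a_K0 A))[X] ↥(h92c_F0 A N)) ∨
      (∃ s : integralClosure (↥(h81a_K0 A))[X] ↥(h92c_F0 A N), s ∉ 𝔭' ∧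
        (s : ↥(h92c_F0 A N)) * x⁻¹ ∈ integralClosure (↥(h81a_K0 A))[X] ↥(h92c_F0 A N)) := by
    intro 𝔭' h1 h2 x hx
    haveI := h1
    exact h37w_val_dedekind (↥(h81a_K0 A))[X] ↥(h92c_F0 A N) 𝔭' h2 x hx
  -- `B ⊆ C`
  have hBC : ∀ b : ↥(h92c_Chart A N (t : FF N)),
      ∃ y : integralClosure (↥(h81a_K0 A))[X] ↥(h92c_F0 A N),
        (h92c_F0 A N).subtype (y : ↥(h92c_F0 A N)) = (b : FF N) := by
    intro b
    have hb1 : (b : FF N) ∈ modelAt N A (t : FF N) := b.2.1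
    have hb2 : (b : FF N) ∈ h92c_F0 A N := b.2.2
    have h3 : (h37v_ev A N t).IsIntegralElem (⟨(b : FF N), hb2⟩ : ↥(h92c_F0 A N)) :=
      (h37v_isIntegralElem_iff A N t _).mpr hb1
    exact ⟨⟨⟨(b : FF N), hb2⟩, h37w_isIntegralElem_of A N t _ h3⟩, rfl⟩
  -- scaling
  have hscale : ∀ y : integralClosure (↥(h81a_K0 A))[X] ↥(h92c_F0 A N), ∃ k : ℕ,
      ((((q : ℕ) : ↥(h92c_Chart A N (t : FF N))) : FF N)) ^ k *
        (h92c_F0 A N).subtype (y : ↥(h92c_F0 A N)) ∈ h92c_Chart A N (t : FF N) := by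
    intro y
    have hy : (h37w_evK A N t).IsIntegralElem (y : ↥(h92c_F0 A N)) := y.2
    obtain ⟨n, hn⟩ := h37w_exists_pow_isIntegralElem hq hA N t _ hy
    refine ⟨n, ?_, ?_⟩
    · have := (h37v_isIntegralElem_iff A N t _).mp hn
      simpa using this
    · have h5 : (((q : ℕ) : ↥(h92c_F0 A N)) ^ n * (y : ↥(h92c_F0 A N)) : ↥(h92c_F0 A N)).1 ∈
          h92c_F0 A N := (((q : ℕ) : ↥(h92c_F0 A N)) ^ n * (y : ↥(h92c_F0 A N))).2
      simpa using h5
  refine ⟨fun x => ?_, fun 𝔭 h𝔭 h0 hq𝔭 x hx => ?_⟩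
  · have hq0 : ((((q : ℕ) : ↥(h92c_Chart A N (t : FF N))) : FF N)) ≠ 0 := by
      have : ((q : ℕ) : FF N) ≠ 0 := by exact_mod_cast hq.ne_zero
      simpa using this
    exact h37w_frac_transfer (h92c_F0 A N).subtype
      (integralClosure (↥(h81a_K0 A))[X] ↥(h92c_F0 A N)) (h92c_Chart A N (t : FF N))
      ((q : ℕ) : ↥(h92c_Chart A N (t : FF N))) (h92c_F0 A N).subtype.injective hq0 hscale x
      (h37w_frac_dedekind (↥(h81a_K0 A))[X] ↥(h92c_F0 A N) x)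
  · haveI := h𝔭
    exact h37w_val_transfer (h92c_F0 A N).subtype
      (integralClosure (↥(h81a_K0 A))[X] ↥(h92c_F0 A N)) (h92c_Chart A N (t : FF N))
      ((q : ℕ) : ↥(h92c_Chart A N (t : FF N))) 𝔭 hBC hscale hval h0 hq𝔭 x hx

/-- **HOR-VAL (type-level form).** -/
theorem h37w_horVal_type {q : ℕ} (hq : q.Prime) {A : ValuationSubring Kbar}
    (hA : A.LiesOverPrime q) (N : ℕ) [NeZero N] (t : ↥(h92c_F0 A N))
    (ht : t = h37v_j A N ∨ t = (h37v_j A N)⁻¹)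
    (𝔭 : Ideal ↥(h92c_Chart A N (t : FF N))) [h𝔭 : 𝔭.IsPrime] (h0 : 𝔭 ≠ ⊥)
    (hq𝔭 : ((q : ℕ) : ↥(h92c_Chart A N (t : FF N))) ∉ 𝔭)
    (x : ↥(h92c_F0 A N)) (hx : x ≠ 0) :
    (∃ s : ↥(h92c_Chart A N (t : FF N)), s ∉ 𝔭 ∧
        (s : FF N) * (x : FF N) ∈ h92c_Chart A N (t : FF N)) ∨
      (∃ s : ↥(h92c_Chart A N (t : FF N)), s ∉ 𝔭 ∧
        (s : FF N) * (x : FF N)⁻¹ ∈ h92c_Chart A N (t : FF N)) :=
  (h37w_pkg_type hq hA N t ht).2 𝔭 h𝔭 h0 hq𝔭 x hx

/-- every function of `F₀` is a fraction of elements of the chart. -/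
theorem h37w_isFrac_type {q : ℕ} (hq : q.Prime) {A : ValuationSubring Kbar}
    (hA : A.LiesOverPrime q) (N : ℕ) [NeZero N] (t : ↥(h92c_F0 A N))
    (ht : t = h37v_j A N ∨ t = (h37v_j A N)⁻¹) (x : ↥(h92c_F0 A N)) :
    ∃ a b : ↥(h92c_Chart A N (t : FF N)), b ≠ 0 ∧ (x : FF N) * (b : FF N) = (a : FF N) :=
  (h37w_pkg_type hq hA N t ht).1 x

end Fermat.Agent.S36
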