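import Fermat.Agent.S36.H37Hor
import Fermat.Agent.S36.H7DescLocFinal

/-!
# S36, HOR-DATUM (helper37): the local datum of the gate at the horizontal primes

`B = h92c_Chart A N t` (`t = j, 1/j`, any level `N`), `𝔭` a nonzero prime of `B` with `q ∉ 𝔭`.

* `h37w_horVal` : `B_𝔭` is a valuation ring of `F₀` (elementwise form in `FF N`).
* `h37wO` : `B_𝔭` as a `ValuationSubring` of `F₀`; it contains the constants of `K₀`, `≠ ⊤`.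
* `h37w_horDatum` : `w ∈ F₀`, `w ≠ 0`, `m ∣ div w` ⟹ `∃ g ∈ F₀`, `g ≠ 0`, `s ∈ B ∖ 𝔭` with
  `s w / g ^ m ∈ B`, `s g ^ m / w ∈ B` (`DescLoc` at `B_𝔭`).
* `h37w_isFrac` : every function of `F₀` is a fraction of elements of `B`.
* `h37w_maximal_ne_bot` : the maximal ideals of `B` are nonzero.
-/

set_option autoImplicit false
set_option linter.style.haveILetI false
set_option linter.unusedVariables false

open Polynomial AlgebraicCurve ModularCurve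

noncomputable section

namespace Fermat.Agent.S36

open Fermat.Agent.S37 (Kbar GQ FF cst jB gal modelAt modelFin modelInf IsRat)
open Fermat.Agent.Red.ModelO

section

variable {q : ℕ} {A : ValuationSubring Kbar} {N : ℕ} [NeZero N] {t : FF N}

theorem h37w_t_mem_F0 (ht : t = jB N ∨ t = (jB N)⁻¹) : t ∈ h92c_F0 A N := by
  rcases ht with rfl | rfl
  · exact h37v_jB_mem_F0 A N
  · exact inv_mem (h37v_jB_mem_F0 A N)

theorem h37w_t_type (ht : t = jB N ∨ t = (jB N)⁻¹) :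
    (⟨t, h37w_t_mem_F0 ht⟩ : ↥(h92c_F0 A N)) = h37v_j A N ∨
      (⟨t, h37w_t_mem_F0 ht⟩ : ↥(h92c_F0 A N)) = (h37v_j A N)⁻¹ := by
  rcases ht with h | h
  · left
    exact Subtype.ext h
  · right
    apply Subtype.ext
    exact h

/-- **HOR-VAL.** -/
theorem h37w_horVal (hq : q.Prime) (hA : A.LiesOverPrime q) (ht : t = jB N ∨ t = (jB N)⁻¹)
    (𝔭 : Ideal ↥(h92c_Chart A N t)) [h𝔭 : 𝔭.IsPrime] (h0 : 𝔭 ≠ ⊥)
    (hq𝔭 : ((q : ℕ) : ↥(h92c_Chart A N t)) ∉ 𝔭) (x : FF N) (hxF : x ∈ h92c_F0 A N)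
    (hx : x ≠ 0) :
    (∃ s : ↥(h92c_Chart A N t), s ∉ 𝔭 ∧ (s : FF N) * x ∈ h92c_Chart A N t) ∨
      (∃ s : ↥(h92c_Chart A N t), s ∉ 𝔭 ∧ (s : FF N) * x⁻¹ ∈ h92c_Chart A N t) :=
  h37w_horVal_type hq hA N ⟨t, h37w_t_mem_F0 ht⟩ (h37w_t_type ht) 𝔭 h0 hq𝔭 ⟨x, hxF⟩
    (fun h => hx (congrArg Subtype.val h))

/-- every function of `F₀` is a fraction of elements of the chart. -/
theorem h37w_isFrac (hq : q.Prime) (hA : A.LiesOverPrime q) (ht : t = jB N ∨ t = (jB N)⁻¹)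
    (x : FF N) (hxF : x ∈ h92c_F0 A N) :
    ∃ a b : ↥(h92c_Chart A N t), b ≠ 0 ∧ x * (b : FF N) = (a : FF N) :=
  h37w_isFrac_type hq hA N ⟨t, h37w_t_mem_F0 ht⟩ (h37w_t_type ht) ⟨x, hxF⟩

/-- the chart is not a field: its maximal ideals are nonzero. -/
theorem h37w_maximal_ne_bot (ht : t = jB N ∨ t = (jB N)⁻¹)
    (𝔫 : Ideal ↥(h92c_Chart A N t)) (h𝔫 : 𝔫.IsMaximal) : 𝔫 ≠ ⊥ := by
  intro hbot
  have htr : Transcendental Kbar t := by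
    have := h37w_transcendental A N ⟨t, h37w_t_mem_F0 ht⟩ (h37w_t_type ht)
    exact this
  have ht0 : t ≠ 0 := by
    rintro rfl
    exact htr isAlgebraic_zero
  have htB : t ∈ h92c_Chart A N t := ⟨h85_self_mem_modelAt N A t, h37w_t_mem_F0 ht⟩
  -- `t` is a unit of `B`
  have ht0' : (⟨t, htB⟩ : ↥(h92c_Chart A N t)) ∉ 𝔫 := by
    rw [hbot, Ideal.mem_bot]
    exact fun h => ht0 (congrArg Subtype.val h)
  obtain ⟨y, i, hi, hy⟩ := h𝔫.exists_inv ht0'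
  rw [hbot, Ideal.mem_bot] at hi
  rw [hi, add_zero] at hy
  have hy' : t * (y : FF N) = 1 := by
    have := congrArg Subtype.val hy
    rw [mul_comm]
    exact this
  have hyinv : (y : FF N) = t⁻¹ := eq_inv_of_mul_eq_one_right hy'
  have h1 : t⁻¹ ∈ modelAt N A t := by
    rw [← hyinv]
    exact y.2.1
  have h2 : t⁻¹ ∈ modelAt N A t⁻¹ := h85_self_mem_modelAt N A _
  obtain ⟨a, -, ha⟩ := h85_overlap N A t h1 h2
  apply htr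
  have h3 : t = cst N a⁻¹ := by
    have h4 : cst N a⁻¹ = (cst N a)⁻¹ := map_inv₀ (algebraMap Kbar (FF N)) a
    rw [h4, ← ha, inv_inv]
  rw [h3]
  exact isAlgebraic_algebraMap _

/-! ## The valuation subring `B_𝔭` of `F₀` -/

/-- `B_𝔭` as a valuation subring of `F₀`. -/
def h37wO (hq : q.Prime) (hA : A.LiesOverPrime q) (ht : t = jB N ∨ t = (jB N)⁻¹)
    (𝔭 : Ideal ↥(h92c_Chart A N t)) [h𝔭 : 𝔭.IsPrime] (h0 : 𝔭 ≠ ⊥)
    (hq𝔭 : ((q : ℕ) : ↥(h92c_Chart A N t)) ∉ 𝔭) : ValuationSubring ↥(h92c_F0 A N) where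
  carrier := {x | ∃ s : ↥(h92c_Chart A N t), s ∉ 𝔭 ∧ (s : FF N) * (x : FF N) ∈ h92c_Chart A N t}
  mul_mem' := by
    rintro x y ⟨s₁, hs₁, h₁⟩ ⟨s₂, hs₂, h₂⟩
    refine ⟨s₁ * s₂, fun h => (h𝔭.mem_or_mem h).elim hs₁ hs₂, ?_⟩
    have e : ((s₁ * s₂ : ↥(h92c_Chart A N t)) : FF N) * ((x * y : ↥(h92c_F0 A N)) : FF N) =
        ((s₁ : FF N) * (x : FF N)) * ((s₂ : FF N) * (y : FF N)) := by
      push_cast
      ring
    rw [e]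
    exact mul_mem h₁ h₂
  one_mem' := ⟨1, fun h => h𝔭.ne_top ((Ideal.eq_top_iff_one _).mpr h), by
    simp only [OneMemClass.coe_one, mul_one]
    exact one_mem _⟩
  add_mem' := by
    rintro x y ⟨s₁, hs₁, h₁⟩ ⟨s₂, hs₂, h₂⟩
    refine ⟨s₁ * s₂, fun h => (h𝔭.mem_or_mem h).elim hs₁ hs₂, ?_⟩
    have e : ((s₁ * s₂ : ↥(h92c_Chart A N t)) : FF N) * ((x + y : ↥(h92c_F0 A N)) : FF N) =
        (s₂ : FF N) * ((s₁ : FF N) * (x : FF N)) + (s₁ : FF N) * ((s₂ : FF N) * (y : FF N)) := by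
      push_cast
      ring
    rw [e]
    exact add_mem (mul_mem s₂.2 h₁) (mul_mem s₁.2 h₂)
  zero_mem' := ⟨1, fun h => h𝔭.ne_top ((Ideal.eq_top_iff_one _).mpr h), by
    simp only [ZeroMemClass.coe_zero, mul_zero]
    exact zero_mem _⟩
  neg_mem' := by
    rintro x ⟨s, hs, h⟩
    refine ⟨s, hs, ?_⟩
    have e : (s : FF N) * ((-x : ↥(h92c_F0 A N)) : FF N) = -((s : FF N) * (x : FF N)) := by
      push_cast
      ring
    rw [e]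
    exact neg_mem h
  mem_or_inv_mem' := by
    intro x
    by_cases hx : x = 0
    · left
      refine ⟨1, fun h => h𝔭.ne_top ((Ideal.eq_top_iff_one _).mpr h), ?_⟩
      rw [hx]
      simp only [ZeroMemClass.coe_zero, mul_zero]
      exact zero_mem _
    · have hx' : (x : FF N) ≠ 0 := fun h => hx (Subtype.ext h)
      rcases h37w_horVal hq hA ht 𝔭 h0 hq𝔭 (x : FF N) x.2 hx' with h | h
      · exact Or.inl h
      · right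
        obtain ⟨s, hs, h1⟩ := h
        exact ⟨s, hs, h1⟩

theorem h37w_mem_O (hq : q.Prime) (hA : A.LiesOverPrime q) (ht : t = jB N ∨ t = (jB N)⁻¹)
    (𝔭 : Ideal ↥(h92c_Chart A N t)) [h𝔭 : 𝔭.IsPrime] (h0 : 𝔭 ≠ ⊥)
    (hq𝔭 : ((q : ℕ) : ↥(h92c_Chart A N t)) ∉ 𝔭) (x : ↥(h92c_F0 A N)) :
    x ∈ h37wO hq hA ht 𝔭 h0 hq𝔭 ↔
      ∃ s : ↥(h92c_Chart A N t), s ∉ 𝔭 ∧ (s : FF N) * (x : FF N) ∈ h92c_Chart A N t :=
  Iff.rfl

theorem h37w_O_ne_top (hq : q.Prime) (hA : A.LiesOverPrime q) (ht : t = jB N ∨ t = (jB N)⁻¹)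
    (𝔭 : Ideal ↥(h92c_Chart A N t)) [h𝔭 : 𝔭.IsPrime] (h0 : 𝔭 ≠ ⊥)
    (hq𝔭 : ((q : ℕ) : ↥(h92c_Chart A N t)) ∉ 𝔭) : h37wO hq hA ht 𝔭 h0 hq𝔭 ≠ ⊤ := by
  intro htop
  obtain ⟨b, hb𝔭, hb0⟩ := Submodule.exists_mem_ne_zero_of_ne_bot h0
  have hbF : (b : FF N) ∈ h92c_F0 A N := b.2.2
  have hb0' : (b : FF N) ≠ 0 := fun h => hb0 (Subtype.ext h)
  have hmem : (⟨(b : FF N), hbF⟩ : ↥(h92c_F0 A N))⁻¹ ∈ h37wO hq hA ht 𝔭 h0 hq𝔭 := by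
    rw [htop]
    trivial
  obtain ⟨s, hs, h1⟩ := hmem
  apply hs
  have e : s = ⟨_, h1⟩ * b := by
    apply Subtype.ext
    show (s : FF N) = (s : FF N) * ((b : FF N))⁻¹ * (b : FF N)
    rw [inv_mul_cancel_right₀ hb0']
  rw [e]
  exact 𝔭.mul_mem_left _ hb𝔭

theorem h37w_O_const (hq : q.Prime) (hA : A.LiesOverPrime q) (ht : t = jB N ∨ t = (jB N)⁻¹)
    (𝔭 : Ideal ↥(h92c_Chart A N t)) [h𝔭 : 𝔭.IsPrime] (h0 : 𝔭 ≠ ⊥)
    (hq𝔭 : ((q : ℕ) : ↥(h92c_Chart A N t)) ∉ 𝔭) (c : Kbar)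
    (hc : cst N c ∈ h53d_F0 N (A.inertiaSubgroupIn ℚ)) :
    (⟨cst N c, hc⟩ : h53d_F0 N (A.inertiaSubgroupIn ℚ)) ∈ h37wO hq hA ht 𝔭 h0 hq𝔭 := by
  have hcfix : ∀ σ ∈ A.inertiaSubgroupIn ℚ, σ c = c := by
    intro σ hσ
    have h1 := hc σ hσ
    rw [Fermat.Agent.S37.GalI.gal_smul_cst] at h1
    exact (algebraMap Kbar (FF N)).injective h1
  have hcK : c ∈ h81a_K0 A := (h81a_mem_K0 A c).mpr hcfix
  obtain ⟨n, hn⟩ := h37w_exists_pow_mem hq hA (⟨c, hcK⟩ : ↥(h81a_K0 A))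
  have hnA : ((q : ℕ) : Kbar) ^ n * c ∈ A := by
    have := (h81a_mem_A0 A _).mp hn
    simpa using this
  refine ⟨((q : ℕ) : ↥(h92c_Chart A N t)) ^ n, fun h => hq𝔭 (h𝔭.mem_of_pow_mem n h), ?_⟩
  have e : (((((q : ℕ) : ↥(h92c_Chart A N t)) ^ n : ↥(h92c_Chart A N t)) : FF N)) * cst N c =
      cst N (((q : ℕ) : Kbar) ^ n * c) := by
    push_cast
    rfl
  show (((((q : ℕ) : ↥(h92c_Chart A N t)) ^ n : ↥(h92c_Chart A N t)) : FF N)) * cst N c ∈ _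
  rw [e]
  exact ⟨h85_cst_mem_modelAt N A t hnA,
    h37v_cst_mem_F0 A N (fun σ hσ => by
      rw [map_mul, map_pow, map_natCast, hcfix σ hσ])⟩

/-- **HOR-DATUM.**  The local datum of the gate at a horizontal prime. -/
theorem h37w_horDatum (hq : q.Prime) (hA : A.LiesOverPrime q) (ht : t = jB N ∨ t = (jB N)⁻¹)
    (𝔭 : Ideal ↥(h92c_Chart A N t)) [h𝔭 : 𝔭.IsPrime] (h0 : 𝔭 ≠ ⊥)
    (hq𝔭 : ((q : ℕ) : ↥(h92c_Chart A N t)) ∉ 𝔭) (m : ℕ) (w : FF N) (hw0 : w ≠ 0)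
    (hwF : w ∈ h92c_F0 A N) (hdiv : ∀ v : Place Kbar (FF N), (m : ℤ) ∣ v.ord w) :
    ∃ g : FF N, g ∈ h92c_F0 A N ∧ g ≠ 0 ∧ ∃ s : ↥(h92c_Chart A N t), s ∉ 𝔭 ∧
      (s : FF N) * (w * (g ^ m)⁻¹) ∈ h92c_Chart A N t ∧
      (s : FF N) * (g ^ m * w⁻¹) ∈ h92c_Chart A N t := by
  obtain ⟨g, hg0, h1, h2⟩ := h7l_descLoc_final N (A.inertiaSubgroupIn ℚ)
    (h37wO hq hA ht 𝔭 h0 hq𝔭) (h37w_O_ne_top hq hA ht 𝔭 h0 hq𝔭)
    (h37w_O_const hq hA ht 𝔭 h0 hq𝔭) m ⟨w, hwF⟩ (fun h => hw0 (congrArg Subtype.val h)) hdiv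
  obtain ⟨s₁, hs₁, e₁⟩ := h1
  obtain ⟨s₂, hs₂, e₂⟩ := h2
  refine ⟨(g : FF N), g.2, fun h => hg0 (Subtype.ext h), s₁ * s₂,
    fun h => (h𝔭.mem_or_mem h).elim hs₁ hs₂, ?_, ?_⟩
  · have e : ((s₁ * s₂ : ↥(h92c_Chart A N t)) : FF N) * (w * ((g : FF N) ^ m)⁻¹) =
        (s₂ : FF N) * ((s₁ : FF N) *
          (((⟨w, hwF⟩ : ↥(h92c_F0 A N)) / g ^ m : ↥(h92c_F0 A N)) : FF N)) := by
      push_cast
      rw [div_eq_mul_inv]
      ring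
    rw [e]
    exact mul_mem s₂.2 e₁
  · have e : ((s₁ * s₂ : ↥(h92c_Chart A N t)) : FF N) * ((g : FF N) ^ m * w⁻¹) =
        (s₁ : FF N) * ((s₂ : FF N) *
          ((g ^ m / (⟨w, hwF⟩ : ↥(h92c_F0 A N)) : ↥(h92c_F0 A N)) : FF N)) := by
      push_cast
      rw [div_eq_mul_inv]
      ring
    rw [e]
    exact mul_mem s₁.2 e₂

end

end Fermat.Agent.S36
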