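import Mathlib

/-!
# S36, block REG, row R-CUSP-PART (helper3, second seat): the covering argument

Pure commutative algebra: `𝔫` a prime ideal of a commutative ring `B`, `S ∉ 𝔫`, `t₀, b₁ ∈ 𝔫`,
and elements with
`u₀₂ = 1 - y₁`, `ag = y₁ ^ q - t₀ ^ k`, `u₁₁ = c * ag`, `Y₂ = S ^ E₂ - c`,
`S ^ n * u₂₀ = S ^ E₁ * (Y₂ ^ q * S ^ k - S ^ m * b₁ ^ k)`, `k ≠ 0`.
Then one of `u₂₀`, `u₁₁`, `u₀₂` is not in `𝔫`.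

(`y₁ = α y`, `Y₂ = S^{E₂} β y`, `c = S^{E₂} β (1 - y)`, `b₁ = S β (1/j)`,
`u₂₀ = S^{E₁} β (y^q - t^k)`: the partition of unity at the cusps.)

Mathlib only.
-/

set_option autoImplicit false

namespace Fermat.Agent.S36

theorem h3p_cover {B : Type*} [CommRing B] (𝔫 : Ideal B) [h𝔫 : 𝔫.IsPrime]
    (S t₀ b₁ y₁ c ag Y₂ u₂₀ u₁₁ u₀₂ : B) (q k E₁ E₂ n m : ℕ) (hk : k ≠ 0)
    (hS : S ∉ 𝔫) (ht₀ : t₀ ∈ 𝔫) (hb₁ : b₁ ∈ 𝔫)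
    (h02 : u₀₂ = 1 - y₁) (hag : ag = y₁ ^ q - t₀ ^ k) (h11 : u₁₁ = c * ag)
    (hY₂ : Y₂ = S ^ E₂ - c)
    (h20 : S ^ n * u₂₀ = S ^ E₁ * (Y₂ ^ q * S ^ k - S ^ m * b₁ ^ k)) :
    u₂₀ ∉ 𝔫 ∨ u₁₁ ∉ 𝔫 ∨ u₀₂ ∉ 𝔫 := by
  by_contra hcon
  simp only [not_or, not_not] at hcon
  obtain ⟨h1, h2, h3⟩ := hcon
  have hSpow : ∀ e : ℕ, S ^ e ∉ 𝔫 := fun e he => hS (h𝔫.mem_of_pow_mem e he)
  have hone : (1 : B) ∉ 𝔫 := fun h => h𝔫.ne_top ((Ideal.eq_top_iff_one 𝔫).mpr h)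
  -- `y₁ ∉ 𝔫`
  have hy₁ : y₁ ∉ 𝔫 := by
    intro hy
    apply hone
    have e : (1 : B) = u₀₂ + y₁ := by rw [h02]; ring
    rw [e]
    exact 𝔫.add_mem h3 hy
  -- `ag ∉ 𝔫`
  have hag' : ag ∉ 𝔫 := by
    intro h
    apply hy₁
    apply h𝔫.mem_of_pow_mem q
    have e : y₁ ^ q = ag + t₀ ^ k := by rw [hag]; ring
    rw [e]
    exact 𝔫.add_mem h (𝔫.pow_mem_of_mem ht₀ k (Nat.pos_of_ne_zero hk))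
  -- `c ∈ 𝔫`
  have hc : c ∈ 𝔫 := by
    rw [h11] at h2
    exact (h𝔫.mem_or_mem h2).resolve_right hag'
  -- the relation
  have h4 : S ^ E₁ * (Y₂ ^ q * S ^ k - S ^ m * b₁ ^ k) ∈ 𝔫 := by
    rw [← h20]
    exact 𝔫.mul_mem_left _ h1
  have h5 : Y₂ ^ q * S ^ k - S ^ m * b₁ ^ k ∈ 𝔫 := (h𝔫.mem_or_mem h4).resolve_left (hSpow E₁)
  have h6 : Y₂ ^ q * S ^ k ∈ 𝔫 := by
    have e : Y₂ ^ q * S ^ k = (Y₂ ^ q * S ^ k - S ^ m * b₁ ^ k) + S ^ m * b₁ ^ k := by ring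
    rw [e]
    exact 𝔫.add_mem h5 (𝔫.mul_mem_left _ (𝔫.pow_mem_of_mem hb₁ k (Nat.pos_of_ne_zero hk)))
  have h7 : Y₂ ∈ 𝔫 := h𝔫.mem_of_pow_mem q ((h𝔫.mem_or_mem h6).resolve_right (hSpow k))
  apply hSpow E₂
  have e : S ^ E₂ = Y₂ + c := by rw [hY₂]; ring
  rw [e]
  exact 𝔫.add_mem h7 hc

end Fermat.Agent.S36
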