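import Fermat.Agent.S36.H44CuspRes
import Fermat.Agent.S36.H59CuspBeta
import Fermat.Agent.S36.H3CuspPartAbs
import Fermat.Agent.LGC.Cusp21Loc

/-!
# S36, block REG, row R-CUSP-PART (helper3, second seat): `H18cPart`

Partition of unity at the cusps of the chart at infinity `B₀ = h62rChart A (M q²) (1/j)` over the
inertia ring.  With `y = j(t^q) / j(t)^q` of the level `M q` (`h21c_y`), `t = 1/j`,
`g = y^q - t^(q² - 1)`, `α = α₂`, `β = β₂ : F_{Mq} → F_{Mq²}` and a multiplier `S = s(1/j)`,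
`s ∈ A₀[T]`, `s(0) = 1` (REFLECT/MULT of `Red/KR`, over `A₀`):

`u₀₂ = α (1 - y)`, `u₂₀ = S^{E₁} β g`, `u₁₁ = S^{E₂} β (1 - y) · α g`.

* `h3p_y_mem`, `h3p_t_mem` : `y`, `t` lie in the chart at infinity of level `M q` over `A₀`;
* `h3p_mult` : the multiplier for `β₂`;
* `h3p_red_one_sub_y`, `h3p_red_wg` : the two Gauss reductions (`h21c_soft_facts`);
* `h3p_cuspPart : H18cPart`.
-/

set_option autoImplicit false
set_option linter.style.haveILetI false
set_option linter.unusedSectionVars false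
set_option linter.unusedVariables false
set_option synthInstance.maxHeartbeats 400000

open AlgebraicCurve ModularCurve IsLocalRing Polynomial

noncomputable section

namespace Fermat.Agent.S36

open Fermat.Agent.S37 Fermat.Agent.Red Fermat.Agent.Red.GV Fermat.Agent.Red.GV.Soft
  Fermat.Agent.Red.Kron Fermat.Agent.LGC

variable {A : ValuationSubring Kbar} {M q : ℕ} [NeZero M] [NeZero q]

/-! ### The level `M q` -/

/-- `t = 1/j` lies in the chart at infinity of level `M q` over `A₀`. -/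
theorem h3p_t_mem : h21c_t M q ∈ h62rChart A (M * q) (jB (M * q))⁻¹ :=
  h62r_mem_chart.mpr ⟨Fermat.Agent.Red.ModelO.h85_self_mem_modelAt (M * q) A (jB (M * q))⁻¹,
    fun σ _ => h59z_jB_inv_fixed (M * q) σ⟩

/-- `j(t^q)` is fixed by inertia. -/
theorem h3p_beta_jB_fixed (σ : GQ) :
    gal (M * q) σ • heckeBetaBar Kbar M q (jB M) = heckeBetaBar Kbar M q (jB M) := by
  rw [h59z_gal_beta, h59z_jB_fixed]

/-- `y` lies in the chart at infinity of level `M q` over `A₀`. -/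
theorem h3p_y_mem (hq : q.Prime) (hM : ¬ q ∣ M) (hA : A.LiesOverPrime q) :
    h21c_y M q ∈ h62rChart A (M * q) (jB (M * q))⁻¹ := by
  refine h62r_mem_chart.mpr ⟨?_, fun σ hσ => ?_⟩
  · exact (h21c_mem_chart_iff A M q _).mp (h21c_y_mem_chart A M q hq hM hA)
  · rw [h21c_y, smul_mul', smul_pow', h3p_beta_jB_fixed]
    congr 2
    exact h59z_jB_inv_fixed (M * q) σ

/-- the reduction of `1 - y` at `W_∞` vanishes. -/
theorem h3p_red_one_sub_y (hq : q.Prime) (hM : ¬ q ∣ M) (hA : A.LiesOverPrime q) :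
    h44s_Red A (((1 - h21c_y M q : FF (M * q))) : LaurentSeries Kbar) 0 := by
  obtain ⟨-, -, -, -, h1, -⟩ := h21c_soft_facts A M q hq hM hA
  have hmem : 1 - h21c_y M q ∈ softV A (M * q) :=
    (softRing A (M * q) hq hA).nonunits_le h1
  exact ⟨hmem, (softR_eq_zero_iff_mem_nonunits A (M * q) hq hA ⟨_, hmem⟩).mpr h1⟩

/-- the reduction of `w (y^q - t^(q²-1))` at `W_∞` vanishes. -/
theorem h3p_red_wg (hq : q.Prime) (hM : ¬ q ∣ M) (hA : A.LiesOverPrime q) :
    h44s_Red A (((kFricke M q hq hM (h21c_y M q ^ q - h21c_t M q ^ (q * q - 1)) : FF (M * q))) :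
      LaurentSeries Kbar) 0 := by
  obtain ⟨-, -, -, -, -, h2⟩ := h21c_soft_facts A M q hq hM hA
  have hmem : kFricke M q hq hM (h21c_y M q ^ q - h21c_t M q ^ (q * q - 1)) ∈ softV A (M * q) :=
    (softRing A (M * q) hq hA).nonunits_le h2
  exact ⟨hmem, (softR_eq_zero_iff_mem_nonunits A (M * q) hq hA ⟨_, hmem⟩).mpr h2⟩

/-! ### The multiplier for `β₂` -/

/-- `j₀` is integral over `A₀[j₁]`, `j₁ = β₂ (j)`, at the level `M q q`. -/
theorem h3p_jB_integral (hq : q.Prime) (hM : ¬ q ∣ M) (hA : A.LiesOverPrime q) :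
    (eval₂RingHom (h59nPsi (M * q * q) A)
      (heckeBetaBar Kbar (M * q) q (jB (M * q)))).IsIntegralElem (jB (M * q * q)) := by
  have h := h59y_jB_mem_e1 A M hq hM hA
  rw [h59y_jSS_eq] at h
  exact (h59w_mem_modelAt_iff (M * q * q) A _ _).mp h

theorem h3p_beta_jB_ne_zero : heckeBetaBar Kbar (M * q) q (jB (M * q)) ≠ 0 :=
  (_root_.map_ne_zero _).mpr (h59w_jB_ne_zero (M * q))

/-- **the multiplier**: `s ∈ A₀[T]`, `s(0) = 1`, with `b₁ = s(1/j₀) / j₁ ∈ B₀` lying in every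
cusp, and `s(1/j₀)^E · β₂ f ∈ B₀` for every `f` of the chart at infinity of level `M q`. -/
theorem h3p_mult (hq : q.Prime) (hM : ¬ q ∣ M) (hA : A.LiesOverPrime q) :
    ∃ s : Polynomial (h59bA0 A), s.coeff 0 = 1 ∧
      (∃ b₁ : h62rChart A (M * q * q) (jB (M * q * q))⁻¹,
        (b₁ : FF (M * q * q)) = ((h59wEvB (M * q * q) A s :
            h62rChart A (M * q * q) (jB (M * q * q))⁻¹) : FF (M * q * q)) *
          (heckeBetaBar Kbar (M * q) q (jB (M * q)))⁻¹ ∧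
        ∀ 𝔫 : Ideal (h62rChart A (M * q * q) (jB (M * q * q))⁻¹),
          h18c_IsCusp A (M * q * q) q 𝔫 → b₁ ∈ 𝔫) ∧
      ∀ f : FF (M * q), f ∈ h62rChart A (M * q) (jB (M * q))⁻¹ →
        ∃ E : ℕ, ((h59wEvB (M * q * q) A s :
            h62rChart A (M * q * q) (jB (M * q * q))⁻¹) : FF (M * q * q)) ^ E *
          heckeBetaBar Kbar (M * q) q f ∈ h62rChart A (M * q * q) (jB (M * q * q))⁻¹ := by
  obtain ⟨s, hs0, hsb, D, c, hD⟩ := h59w_reflect_fine (h59nPsi (M * q * q) A)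
    (heckeBetaBar Kbar (M * q) q (jB (M * q))) (jB (M * q * q)) h3p_beta_jB_ne_zero
    (h59w_jB_ne_zero (M * q * q)) (h3p_jB_integral hq hM hA)
  -- `1/j₁` is inertia-fixed
  have hJF : (heckeBetaBar Kbar (M * q) q (jB (M * q)))⁻¹
      ∈ h53d_F0 (M * q * q) (A.inertiaSubgroupIn ℚ) := by
    intro σ _
    have h1 : gal (M * q * q) σ • heckeBetaBar Kbar (M * q) q (jB (M * q))⁻¹
        = heckeBetaBar Kbar (M * q) q (jB (M * q))⁻¹ := by
      rw [h59z_gal_beta, h59z_jB_inv_fixed]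
    rw [map_inv₀] at h1
    exact h1
  have hSF : ∀ P : Polynomial (h59bA0 A), eval₂ (h59nPsi (M * q * q) A) (jB (M * q * q))⁻¹ P
      ∈ h53d_F0 (M * q * q) (A.inertiaSubgroupIn ℚ) := fun P => (h59wEvB (M * q * q) A P).2.2
  have hbmem : eval₂ (h59nPsi (M * q * q) A) (jB (M * q * q))⁻¹ s *
      (heckeBetaBar Kbar (M * q) q (jB (M * q)))⁻¹
      ∈ h62rChart A (M * q * q) (jB (M * q * q))⁻¹ :=
    ⟨(h59w_mem_modelAt_iff (M * q * q) A _ _).mpr hsb,
      (h53d_F0 (M * q * q) (A.inertiaSubgroupIn ℚ)).mul_mem (hSF s) hJF⟩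
  refine ⟨s, hs0, ⟨⟨_, hbmem⟩, ?_, fun 𝔫 h𝔫 => ?_⟩, fun f hf => ?_⟩
  · rw [h59w_coe_evB]
  · haveI := h𝔫.1.isPrime
    have hX : h59wEvB (M * q * q) A X ∈ 𝔫 := h𝔫.2.2 _ (h59w_coe_evB_X (M * q * q) A)
    have hpow : (⟨_, hbmem⟩ : h62rChart A (M * q * q) (jB (M * q * q))⁻¹) ^ D
        = h59wEvB (M * q * q) A X * ∑ k ∈ Finset.range D, h59wEvB (M * q * q) A (c k) *
            (⟨_, hbmem⟩ : h62rChart A (M * q * q) (jB (M * q * q))⁻¹) ^ k := by
      apply Subtype.ext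
      push_cast
      rw [h59w_coe_evB_X]
      exact hD
    refine Ideal.IsPrime.mem_of_pow_mem inferInstance D ?_
    rw [hpow]
    exact 𝔫.mul_mem_right _ hX
  · have hβf : heckeBetaBar Kbar (M * q) q f ∈
        h62rChart A (M * q * q) (heckeBetaBar Kbar (M * q) q (jB (M * q)))⁻¹ := by
      have h := h59z_beta_mem_chart (M * q) q A hf
      rw [map_inv₀] at h
      exact h
    obtain ⟨hfF, hfint⟩ := (h59n_mem_chart_iff (M * q * q) A _ _).mp hβf
    obtain ⟨E, hE⟩ := Fermat.Agent.Red.KR.mult (h59bA0 A) (FF (M * q * q))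
      (h59nPsi (M * q * q) A) (heckeBetaBar Kbar (M * q) q (jB (M * q)))⁻¹ (jB (M * q * q))⁻¹ s hsb
      (heckeBetaBar Kbar (M * q) q f) hfint
    refine ⟨E, ?_, ?_⟩
    · rw [h59w_coe_evB]
      exact (h59w_mem_modelAt_iff (M * q * q) A _ _).mpr hE
    · rw [h59w_coe_evB]
      exact (h53d_F0 (M * q * q) (A.inertiaSubgroupIn ℚ)).mul_mem
        ((h53d_F0 (M * q * q) (A.inertiaSubgroupIn ℚ)).pow_mem (hSF s) E) hfF

/-! ### Gauss calculus -/

theorem h3p_small_mul_left {s s' : LaurentSeries Kbar}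
    (hs : s ∈ softOT A (IsLocalRing.residue A)) (hs' : h44s_Red A s' 0) :
    h44s_Red A (s * s') 0 :=
  ((h44s_red_of_mem hs).mul hs').congr rfl (mul_zero _)

theorem h3p_small_mul_right {s s' : LaurentSeries Kbar}
    (hs : h44s_Red A s 0) (hs' : s' ∈ softOT A (IsLocalRing.residue A)) :
    h44s_Red A (s * s') 0 :=
  (hs.mul (h44s_red_of_mem hs')).congr rfl (zero_mul _)

theorem h3p_E20_apply (x : FF (M * q * q)) : h20n_E20 M q x = (x : LaurentSeries Kbar) := by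
  unfold h20n_E20
  exact IntermediateField.algebraMap_apply _ x

/-- `E20 (α₂ x) = x`. -/
theorem h3p_E20_alpha (x : FF (M * q)) :
    h20n_E20 M q (heckeAlphaBar Kbar (M * q) q x) = (x : LaurentSeries Kbar) := by
  rw [h3p_E20_apply]
  exact coe_heckeAlphaBar (M * q) q x

/-- `E20 (β₂ x) = x (t^q)`. -/
theorem h3p_E20_beta (x : FF (M * q)) :
    h20n_E20 M q (heckeBetaBar Kbar (M * q) q x) = qExpand Kbar q (x : LaurentSeries Kbar) := by
  rw [h3p_E20_apply]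
  exact coe_heckeBetaBar (M * q) q x

theorem h3p_small_qExpand {s : LaurentSeries Kbar} (hs : h44s_Red A s 0) (n : ℕ) [NeZero n] :
    h44s_Red A (qExpand Kbar n s) 0 :=
  (hs.qExpand n).congr rfl (map_zero _)

/-! ### The leaf -/

/-- **R-CUSP-PART.** -/
theorem h3p_cuspPart : H18cPart := by
  intro q hq M _ hqM haux
  haveI : NeZero q := ⟨hq.ne_zero⟩
  intro A hA ζ E11 E02 hT
  obtain ⟨s, hs0, ⟨b₁, hb₁, hb₁𝔫⟩, hmult⟩ := h3p_mult (A := A) (M := M) hq hqM hA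
  have hy : h21c_y M q ∈ h62rChart A (M * q) (jB (M * q))⁻¹ := h3p_y_mem hq hqM hA
  have ht : h21c_t M q ∈ h62rChart A (M * q) (jB (M * q))⁻¹ := h3p_t_mem
  have hg : h21c_y M q ^ q - h21c_t M q ^ (q * q - 1) ∈ h62rChart A (M * q) (jB (M * q))⁻¹ :=
    sub_mem (pow_mem hy q) (pow_mem ht _)
  have h1y : 1 - h21c_y M q ∈ h62rChart A (M * q) (jB (M * q))⁻¹ := sub_mem (one_mem _) hy
  obtain ⟨E₁, hE₁⟩ := hmult _ hg
  obtain ⟨E₂, hE₂⟩ := hmult _ h1y
  have hαy := h59z_alpha_mem_chart_inf (M * q) q A hy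
  have hαg := h59z_alpha_mem_chart_inf (M * q) q A hg
  have hα1y := h59z_alpha_mem_chart_inf (M * q) q A h1y
  -- Gauss-integrality of the elements of `B₀`
  have hInt : ∀ x : h62rChart A (M * q * q) (jB (M * q * q))⁻¹,
      h20v_Int M q A E11 E02 (x : FF (M * q * q)) :=
    fun x => h44s_cuspInt q hq M hqM haux A hA ζ E11 E02 hT x x.2
  have hζ : ζ ^ q ^ 1 = 1 := by rw [pow_one]; exact hT.prim.pow_eq_one
  -- the two reductions
  have r1 := h3p_red_one_sub_y (A := A) (M := M) hq hqM hA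
  have r2 := h3p_red_wg (A := A) (M := M) hq hqM hA
  refine ⟨⟨_, hE₁⟩, ⟨_, hE₂⟩ * ⟨_, hαg⟩, ⟨_, hα1y⟩, ?_, ?_, ?_, ?_, ?_, ?_, ?_⟩
  · -- `E11 u₂₀`
    rw [h44s_small_iff]
    show h44s_Red A (E11 (((h59wEvB (M * q * q) A s :
      h62rChart A (M * q * q) (jB (M * q * q))⁻¹) : FF (M * q * q)) ^ E₁ *
      heckeBetaBar Kbar (M * q) q (h21c_y M q ^ q - h21c_t M q ^ (q * q - 1)))) 0
    rw [map_mul, map_pow, hT.e11.2]
    exact h3p_small_mul_left (pow_mem (hInt _).2.1 E₁) (r2.twist hq hA ζ 1 hζ)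
  · -- `E02 u₂₀`
    rw [h44s_small_iff]
    show h44s_Red A (E02 (((h59wEvB (M * q * q) A s :
      h62rChart A (M * q * q) (jB (M * q * q))⁻¹) : FF (M * q * q)) ^ E₁ *
      heckeBetaBar Kbar (M * q) q (h21c_y M q ^ q - h21c_t M q ^ (q * q - 1)))) 0
    rw [map_mul, map_pow, hT.e02.2]
    exact h3p_small_mul_left (pow_mem (hInt _).2.2 E₁) r2
  · -- `E20 u₁₁`
    rw [h44s_small_iff]
    show h44s_Red A (h20n_E20 M q ((((h59wEvB (M * q * q) A s :
      h62rChart A (M * q * q) (jB (M * q * q))⁻¹) : FF (M * q * q)) ^ E₂ *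
      heckeBetaBar Kbar (M * q) q (1 - h21c_y M q)) *
      heckeAlphaBar Kbar (M * q) q (h21c_y M q ^ q - h21c_t M q ^ (q * q - 1)))) 0
    rw [map_mul, map_mul, map_pow, h3p_E20_beta]
    exact h3p_small_mul_right
      (h3p_small_mul_left (pow_mem (hInt _).1 E₂) (h3p_small_qExpand r1 q)) (hInt ⟨_, hαg⟩).1
  · -- `E02 u₁₁`
    rw [h44s_small_iff]
    show h44s_Red A (E02 ((((h59wEvB (M * q * q) A s :
      h62rChart A (M * q * q) (jB (M * q * q))⁻¹) : FF (M * q * q)) ^ E₂ *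
      heckeBetaBar Kbar (M * q) q (1 - h21c_y M q)) *
      heckeAlphaBar Kbar (M * q) q (h21c_y M q ^ q - h21c_t M q ^ (q * q - 1)))) 0
    rw [map_mul, hT.e02.1]
    exact h3p_small_mul_left (hInt ⟨_, hE₂⟩).2.2 (h3p_small_qExpand r2 q)
  · -- `E20 u₀₂`
    rw [h44s_small_iff]
    show h44s_Red A (h20n_E20 M q (heckeAlphaBar Kbar (M * q) q (1 - h21c_y M q))) 0
    rw [h3p_E20_alpha]
    exact r1
  · -- `E11 u₀₂`
    rw [h44s_small_iff]
    show h44s_Red A (E11 (heckeAlphaBar Kbar (M * q) q (1 - h21c_y M q))) 0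
    rw [hT.e11.1]
    exact r1
  · -- the covering
    intro 𝔫 h𝔫
    haveI := h𝔫.1.isPrime
    have hk : q * q - 1 ≠ 0 := by
      have := hq.two_le
      have h4 : 4 ≤ q * q := Nat.mul_le_mul this this
      omega
    refine h3p_cover 𝔫 (h59wEvB (M * q * q) A s) (h59wEvB (M * q * q) A X) b₁ ⟨_, hαy⟩
      ⟨_, hE₂⟩ ⟨_, hαg⟩ (h59wEvB (M * q * q) A s ^ E₂ - ⟨_, hE₂⟩) ⟨_, hE₁⟩ _ ⟨_, hα1y⟩
      q (q * q - 1) E₁ E₂ (q * E₂ + (q * q - 1)) (q * E₂) hk
      (h59w_evB_not_mem (M * q * q) A q s hs0 𝔫 h𝔫)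
      (h𝔫.2.2 _ (h59w_coe_evB_X (M * q * q) A)) (hb₁𝔫 𝔫 h𝔫) ?_ ?_ rfl rfl ?_
    · apply Subtype.ext
      show heckeAlphaBar Kbar (M * q) q (1 - h21c_y M q) =
        1 - heckeAlphaBar Kbar (M * q) q (h21c_y M q)
      rw [map_sub, map_one]
    · apply Subtype.ext
      show heckeAlphaBar Kbar (M * q) q (h21c_y M q ^ q - h21c_t M q ^ (q * q - 1)) =
        heckeAlphaBar Kbar (M * q) q (h21c_y M q) ^ q -
          ((h59wEvB (M * q * q) A X : h62rChart A (M * q * q) (jB (M * q * q))⁻¹) :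
            FF (M * q * q)) ^ (q * q - 1)
      have ht0 : heckeAlphaBar Kbar (M * q) q (h21c_t M q) = (jB (M * q * q))⁻¹ := by
        show heckeAlphaBar Kbar (M * q) q (jB (M * q))⁻¹ = (jB (M * q * q))⁻¹
        rw [map_inv₀, h59z_alpha_jB]
      rw [map_sub, map_pow, map_pow, h59w_coe_evB_X, ht0]
    · apply Subtype.ext
      show ((h59wEvB (M * q * q) A s : h62rChart A (M * q * q) (jB (M * q * q))⁻¹) :
          FF (M * q * q)) ^ (q * E₂ + (q * q - 1)) *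
          (((h59wEvB (M * q * q) A s : h62rChart A (M * q * q) (jB (M * q * q))⁻¹) :
            FF (M * q * q)) ^ E₁ *
            heckeBetaBar Kbar (M * q) q (h21c_y M q ^ q - h21c_t M q ^ (q * q - 1))) =
        ((h59wEvB (M * q * q) A s : h62rChart A (M * q * q) (jB (M * q * q))⁻¹) :
          FF (M * q * q)) ^ E₁ *
          ((((h59wEvB (M * q * q) A s : h62rChart A (M * q * q) (jB (M * q * q))⁻¹) :
            FF (M * q * q)) ^ E₂ -
            ((h59wEvB (M * q * q) A s : h62rChart A (M * q * q) (jB (M * q * q))⁻¹) :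
              FF (M * q * q)) ^ E₂ * heckeBetaBar Kbar (M * q) q (1 - h21c_y M q)) ^ q *
            ((h59wEvB (M * q * q) A s : h62rChart A (M * q * q) (jB (M * q * q))⁻¹) :
              FF (M * q * q)) ^ (q * q - 1) -
            ((h59wEvB (M * q * q) A s : h62rChart A (M * q * q) (jB (M * q * q))⁻¹) :
              FF (M * q * q)) ^ (q * E₂) * (b₁ : FF (M * q * q)) ^ (q * q - 1))
      have ht' : heckeBetaBar Kbar (M * q) q (h21c_t M q) =
          (heckeBetaBar Kbar (M * q) q (jB (M * q)))⁻¹ := by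
        show heckeBetaBar Kbar (M * q) q (jB (M * q))⁻¹ = _
        rw [map_inv₀]
      rw [hb₁, map_sub, map_pow, map_pow, map_sub, map_one, ht']
      ring

end Fermat.Agent.S36
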