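import Fermat.Agent.S36.H3DescFun
import Fermat.Prelude.Def_ModularCurve_ArithmeticGalois

/-!
# S36, block DESC (helper3): descent of a Kummer function to the fixed field of a subgroup

`F = FF N ⊆ ℚ̄((q))` the function field of `X₀(N)` over `ℚ̄`, `I` ANY subgroup of `G_ℚ`
(for S36: the inertia group of a place over `q`).

`h3d_desc` : if `u ≠ 0` and for every `σ ∈ I` we have `σ u = c · u · hᵐ` (i.e. the class of
`div u / m` is `I`-invariant), then there are a constant `c₀ ≠ 0` and `b ≠ 0` such that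
`u₀ = c₀ · u · bᵐ` is fixed by every `σ ∈ I` — EXACT descent, no exponent, no Brauer group:
the cusp `∞` is rational, so functions are normalised by their leading `q`-coefficient, and
Hilbert 90 is proved by averaging over `I / (I ∩ Gal(ℚ̄/L))`, `L` a number field over which
`u` is defined.

Only the Prelude and Mathlib are imported.
-/

set_option autoImplicit false

open ModularCurve AlgebraicCurve IntermediateField

noncomputable section

namespace Fermat.Agent.S36

local notation "Qb" => AlgebraicClosure ℚ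

/-! ### Laurent series -/

section series

variable {R S : Type*} [Field R] [Field S]

theorem h3d_coeffMap_eq_zero (σ : R →+* S) (x : LaurentSeries R) :
    coeffMap σ x = 0 ↔ x = 0 := by
  constructor
  · intro h
    ext k
    have := congrArg (fun s : LaurentSeries S => s.coeff k) h
    simp only [coeffMap_coeff, HahnSeries.coeff_zero] at this
    simpa using (map_eq_zero_iff σ σ.injective).mp this
  · rintro rfl
    exact map_zero _

theorem h3d_order_coeffMap (σ : R →+* S) (x : LaurentSeries R) :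
    (coeffMap σ x).order = x.order := by
  rcases eq_or_ne x 0 with rfl | hx
  · simp
  have hx' : coeffMap σ x ≠ 0 := fun h => hx ((h3d_coeffMap_eq_zero σ x).mp h)
  apply le_antisymm
  · apply HahnSeries.order_le_of_coeff_ne_zero
    rw [coeffMap_coeff]
    intro h
    have h2 := (map_eq_zero_iff σ σ.injective).mp h
    exact hx (HahnSeries.coeff_order_eq_zero.mp h2)
  · rw [HahnSeries.le_order_iff_forall hx']
    intro j hj
    rw [coeffMap_coeff, HahnSeries.coeff_eq_zero_of_lt_order hj, map_zero]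

theorem h3d_leadingCoeff_coeffMap (σ : R →+* S) (x : LaurentSeries R) :
    (coeffMap σ x).leadingCoeff = σ x.leadingCoeff := by
  rw [HahnSeries.leadingCoeff_eq, HahnSeries.leadingCoeff_eq, h3d_order_coeffMap,
    coeffMap_coeff]

end series

/-! ### The function field -/

section FF

variable (N : ℕ)

/-- the Galois action as a homomorphism to ring automorphisms. -/
def h3dRho : (Qb ≃ₐ[ℚ] Qb) →* RingAut (modularFunctionFieldBar N) :=
  (MulSemiringAction.toRingAut (SemilinearAut Qb (modularFunctionFieldBar N))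
    (modularFunctionFieldBar N)).comp (arithmeticGalois (modularFunctionFieldFull N))

theorem h3dRho_apply (σ : Qb ≃ₐ[ℚ] Qb) (x : modularFunctionFieldBar N) :
    h3dRho N σ x = arithmeticGalois (modularFunctionFieldFull N) σ • x := rfl

theorem h3d_coe_rho (σ : Qb ≃ₐ[ℚ] Qb) (x : modularFunctionFieldBar N) :
    ((h3dRho N σ x : modularFunctionFieldBar N) : LaurentSeries Qb)
      = coeffMap (σ : Qb →+* Qb) (x : LaurentSeries Qb) := rfl

theorem h3d_rho_cst (σ : Qb ≃ₐ[ℚ] Qb) (c : Qb) :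
    h3dRho N σ (algebraMap Qb (modularFunctionFieldBar N) c)
      = algebraMap Qb (modularFunctionFieldBar N) (σ c) := by
  rw [h3dRho_apply, SemilinearAut.smul_algebraMap]
  rfl

theorem h3d_coe_cst (c : Qb) :
    ((algebraMap Qb (modularFunctionFieldBar N) c : modularFunctionFieldBar N) :
      LaurentSeries Qb) = HahnSeries.single 0 c := by
  rw [← algebraMap_laurentSeries_eq_single]
  rfl

/-- the leading `q`-coefficient, as a constant function. -/
def h3dNu (x : modularFunctionFieldBar N) : modularFunctionFieldBar N :=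
  algebraMap Qb (modularFunctionFieldBar N) (x : LaurentSeries Qb).leadingCoeff

theorem h3dNu_mul (x y : modularFunctionFieldBar N) :
    h3dNu N (x * y) = h3dNu N x * h3dNu N y := by
  unfold h3dNu
  rw [← map_mul]
  congr 1
  exact HahnSeries.leadingCoeff_mul _ _

theorem h3dNu_ne_zero (x : modularFunctionFieldBar N) (hx : x ≠ 0) : h3dNu N x ≠ 0 := by
  unfold h3dNu
  rw [Ne, map_eq_zero_iff _ (algebraMap Qb (modularFunctionFieldBar N)).injective]
  rw [HahnSeries.leadingCoeff_eq_zero]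
  exact fun h => hx (Subtype.ext h)

theorem h3dNu_cst (c : Qb) :
    h3dNu N (algebraMap Qb (modularFunctionFieldBar N) c)
      = algebraMap Qb (modularFunctionFieldBar N) c := by
  unfold h3dNu
  rw [h3d_coe_cst, HahnSeries.leadingCoeff_of_single]

theorem h3dNu_rho (σ : Qb ≃ₐ[ℚ] Qb) (x : modularFunctionFieldBar N) :
    h3dNu N (h3dRho N σ x) = h3dRho N σ (h3dNu N x) := by
  unfold h3dNu
  rw [h3d_rho_cst, h3d_coe_rho, h3d_leadingCoeff_coeffMap]
  rfl

/-- the constants are root-closed in the function field. -/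
theorem h3d_root_closed (m : ℕ) (hm : 0 < m) (x : modularFunctionFieldBar N)
    (hx : x ^ m ∈ (algebraMap Qb (modularFunctionFieldBar N)).fieldRange) :
    x ∈ (algebraMap Qb (modularFunctionFieldBar N)).fieldRange := by
  obtain ⟨c, hc⟩ := hx
  have hint : IsIntegral Qb x := by
    refine ⟨Polynomial.X ^ m - Polynomial.C c, Polynomial.monic_X_pow_sub_C c hm.ne', ?_⟩
    simp [hc]
  have h1 := IsAlgClosed.degree_eq_one_of_irreducible Qb (minpoly.irreducible hint)
  obtain ⟨a, ha⟩ := minpoly.mem_range_of_degree_eq_one Qb x h1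
  exact ⟨a, ha⟩

/-- every function is defined over a number field. -/
theorem h3d_exists_field (x : modularFunctionFieldBar N) :
    ∃ L : IntermediateField ℚ Qb, FiniteDimensional ℚ L ∧
      ∀ σ : Qb ≃ₐ[ℚ] Qb, (∀ a ∈ L, σ a = a) →
        coeffMap (σ : Qb →+* Qb) (x : LaurentSeries Qb) = (x : LaurentSeries Qb) := by
  obtain ⟨x, hx⟩ := x
  show ∃ L : IntermediateField ℚ Qb, FiniteDimensional ℚ L ∧
      ∀ σ : Qb ≃ₐ[ℚ] Qb, (∀ a ∈ L, σ a = a) → coeffMap (σ : Qb →+* Qb) x = x
  rw [mem_laurentBaseChange_iff] at hx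
  induction hx using Subfield.closure_induction with
  | mem y hy =>
      rcases hy with ⟨a, rfl⟩ | ⟨z, hz, rfl⟩
      · have hai : IsIntegral ℚ a :=
          ((AlgebraicClosure.isAlgebraic ℚ).isAlgebraic a).isIntegral
        refine ⟨IntermediateField.adjoin ℚ {a},
          IntermediateField.adjoin.finiteDimensional hai, fun σ hσ => ?_⟩
        rw [coeffMap_algebraMap]
        congr 1
        exact hσ a (IntermediateField.mem_adjoin_simple_self ℚ a)
      · exact ⟨⊥, inferInstance, fun σ _ => coeffMap_coeffEmb σ z⟩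
  | one => exact ⟨⊥, inferInstance, fun σ _ => map_one _⟩
  | add x y _ _ hx hy =>
      obtain ⟨L₁, h₁, hL₁⟩ := hx
      obtain ⟨L₂, h₂, hL₂⟩ := hy
      refine ⟨L₁ ⊔ L₂, inferInstance, fun σ hσ => ?_⟩
      rw [map_add, hL₁ σ fun a ha => hσ a ((le_sup_left : L₁ ≤ L₁ ⊔ L₂) ha),
        hL₂ σ fun a ha => hσ a ((le_sup_right : L₂ ≤ L₁ ⊔ L₂) ha)]
  | neg x _ hx =>
      obtain ⟨L₁, h₁, hL₁⟩ := hx
      exact ⟨L₁, h₁, fun σ hσ => by rw [map_neg, hL₁ σ hσ]⟩
  | inv x _ hx =>
      obtain ⟨L₁, h₁, hL₁⟩ := hx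
      exact ⟨L₁, h₁, fun σ hσ => by rw [map_inv₀, hL₁ σ hσ]⟩
  | mul x y _ _ hx hy =>
      obtain ⟨L₁, h₁, hL₁⟩ := hx
      obtain ⟨L₂, h₂, hL₂⟩ := hy
      refine ⟨L₁ ⊔ L₂, inferInstance, fun σ hσ => ?_⟩
      rw [map_mul, hL₁ σ fun a ha => hσ a ((le_sup_left : L₁ ≤ L₁ ⊔ L₂) ha),
        hL₂ σ fun a ha => hσ a ((le_sup_right : L₂ ≤ L₁ ⊔ L₂) ha)]

/-- the subgroup of `I` fixing the number field `L`. -/
def h3dFix (I : Subgroup (Qb ≃ₐ[ℚ] Qb)) (L : IntermediateField ℚ Qb) : Subgroup I where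
  carrier := {σ | ∀ a ∈ L, (σ : Qb ≃ₐ[ℚ] Qb) a = a}
  one_mem' := fun _ _ => rfl
  mul_mem' := by
    intro σ τ hσ hτ a ha
    show (σ : Qb ≃ₐ[ℚ] Qb) ((τ : Qb ≃ₐ[ℚ] Qb) a) = a
    rw [hτ a ha, hσ a ha]
  inv_mem' := by
    intro σ hσ a ha
    show (σ : Qb ≃ₐ[ℚ] Qb).symm a = a
    rw [AlgEquiv.symm_apply_eq, hσ a ha]

theorem h3d_mem_fix {I : Subgroup (Qb ≃ₐ[ℚ] Qb)} {L : IntermediateField ℚ Qb} {σ : I} :
    σ ∈ h3dFix I L ↔ ∀ a ∈ L, (σ : Qb ≃ₐ[ℚ] Qb) a = a := Iff.rfl

/-- `I ∩ Gal(ℚ̄/L)` has finite index in `I`. -/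
theorem h3d_finite_quot (I : Subgroup (Qb ≃ₐ[ℚ] Qb)) (L : IntermediateField ℚ Qb)
    [FiniteDimensional ℚ L] : Finite (I ⧸ h3dFix I L) := by
  classical
  have : Finite (L →ₐ[ℚ] Qb) := Finite.of_fintype _
  refine Finite.of_injective
    (fun q : I ⧸ h3dFix I L =>
      (((Quotient.out q : I) : Qb ≃ₐ[ℚ] Qb) : Qb →ₐ[ℚ] Qb).comp L.val) ?_
  intro q q' h
  have h1 : (Quotient.out q : I)⁻¹ * (Quotient.out q' : I) ∈ h3dFix I L := by
    intro a ha
    have h2 := DFunLike.congr_fun h ⟨a, ha⟩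
    simp only [AlgHom.comp_apply, IntermediateField.val_mk] at h2
    show ((Quotient.out q : I) : Qb ≃ₐ[ℚ] Qb).symm (((Quotient.out q' : I) : Qb ≃ₐ[ℚ] Qb) a) = a
    rw [AlgEquiv.symm_apply_eq]
    exact h2.symm
  have h3 := QuotientGroup.eq.mpr h1
  rwa [QuotientGroup.out_eq', QuotientGroup.out_eq'] at h3

/-- **DESC (function form).**  For any subgroup `I` of `G_ℚ`: a function `u ≠ 0` such that
`σ u ∈ ℚ̄ˣ · u · (Fˣ)ᵐ` for every `σ ∈ I` can be modified by a constant and an `m`-th power to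
an `I`-invariant function. -/
theorem h3d_desc (I : Subgroup (Qb ≃ₐ[ℚ] Qb)) (m : ℕ) (hm : 0 < m)
    (u : modularFunctionFieldBar N) (hu : u ≠ 0)
    (hI : ∀ σ ∈ I, ∃ (c : Qb) (h : modularFunctionFieldBar N), c ≠ 0 ∧ h ≠ 0 ∧
      arithmeticGalois (modularFunctionFieldFull N) σ • u
        = algebraMap Qb (modularFunctionFieldBar N) c * u * h ^ m) :
    ∃ (c₀ : Qb) (b : modularFunctionFieldBar N), c₀ ≠ 0 ∧ b ≠ 0 ∧ ∀ σ ∈ I,
      arithmeticGalois (modularFunctionFieldFull N) σ •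
          (algebraMap Qb (modularFunctionFieldBar N) c₀ * u * b ^ m)
        = algebraMap Qb (modularFunctionFieldBar N) c₀ * u * b ^ m := by
  classical
  obtain ⟨L, hLfin, hL⟩ := h3d_exists_field N u
  have hquot : Finite (I ⧸ h3dFix I L) := h3d_finite_quot I L
  set ρ : I →* RingAut (modularFunctionFieldBar N) := (h3dRho N).comp I.subtype with hρ
  have hρa : ∀ (σ : I) (x : modularFunctionFieldBar N),
      ρ σ x = h3dRho N (σ : Qb ≃ₐ[ℚ] Qb) x := fun _ _ => rfl
  set C : Subfield (modularFunctionFieldBar N) :=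
    (algebraMap Qb (modularFunctionFieldBar N)).fieldRange with hC
  set E : Submonoid (modularFunctionFieldBar N) :=
    (L.toSubfield.toSubring.toSubmonoid).map
      (algebraMap Qb (modularFunctionFieldBar N) : Qb →* modularFunctionFieldBar N) with hE
  have hinj : Function.Injective (algebraMap Qb (modularFunctionFieldBar N)) :=
    (algebraMap Qb (modularFunctionFieldBar N)).injective
  obtain ⟨c₀, hc₀C, b, hc₀0, hb0, hinv⟩ := h3d_desc_abs ρ C
    (by
      rintro σ _ ⟨c, rfl⟩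
      rw [hρa, h3d_rho_cst]
      exact ⟨_, rfl⟩)
    (h3dNu N) (fun x => ⟨_, rfl⟩) (h3dNu_ne_zero N) (h3dNu_mul N)
    (by
      rintro _ ⟨c, rfl⟩
      exact h3dNu_cst N c)
    (fun σ x => by rw [hρa, h3dNu_rho, hρa])
    m (h3d_root_closed N m hm) (h3dFix I L) E
    (by
      rintro σ hσ _ ⟨a, ha, rfl⟩
      rw [hρa]
      show h3dRho N (σ : Qb ≃ₐ[ℚ] Qb) (algebraMap Qb (modularFunctionFieldBar N) a) = _
      rw [h3d_rho_cst, hσ a ha]
      rfl)
    (by
      intro σ hσ a ha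
      have h1 := hσ (algebraMap Qb (modularFunctionFieldBar N) a) ⟨a, ha, rfl⟩
      rw [hρa, h3d_rho_cst] at h1
      exact hinj h1)
    u hu
    (by
      intro σ hσ
      apply Subtype.ext
      rw [hρa, h3d_coe_rho]
      exact hL _ hσ)
    (by
      intro σ
      obtain ⟨c, h, hc0, hh0, hσ⟩ := hI σ σ.2
      exact ⟨_, ⟨c, rfl⟩, h, (map_ne_zero_iff _ hinj).mpr hc0, hh0, hσ⟩)
  obtain ⟨c, rfl⟩ := hc₀C
  refine ⟨c, b, fun h => hc₀0 (by rw [h, map_zero]), hb0, fun σ hσ => ?_⟩
  exact hinv ⟨σ, hσ⟩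

end FF

end Fermat.Agent.S36
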