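import Mathlib

/-!
# S36, block DESC (helper3): Hilbert 90 by averaging, Mathlib only

`G` acts on a field `F` by ring automorphisms, `H ≤ G` is a subgroup of finite index (not
necessarily normal), `E ⊆ F` is a multiplicative set of "constants" which is fixed pointwise by
`H` and separates the cosets of `H`.  Then every `1`-cocycle `f : G → Fˣ` which is trivial on
`H` is a coboundary: `f τ * τ • b = b` for some `b ≠ 0`
(`b = ∑_{σ ∈ G/H} f σ * σ • e` for a suitable constant `e`, Dedekind independence of the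
characters `e ↦ σ • e`).

No completeness, no Brauer group, no exponent.
-/

set_option autoImplicit false

namespace Fermat.Agent.S36

section Abs

variable {G : Type*} [Group G] {F : Type*} [Field F] [MulSemiringAction G F]

/-- a cocycle trivial on `H` is constant on the left cosets of `H`. -/
theorem h3d_cocycle_coset (H : Subgroup G) (f : G → F)
    (hcoc : ∀ σ τ, f (σ * τ) = f σ * σ • f τ) (hfH : ∀ σ ∈ H, f σ = 1)
    {σ τ : G} (h : σ⁻¹ * τ ∈ H) : f τ = f σ := by
  have h1 : τ = σ * (σ⁻¹ * τ) := by group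
  rw [h1, hcoc, hfH _ h, smul_one, mul_one]

/-- the action on constants is constant on the left cosets of `H`. -/
theorem h3d_smul_coset (H : Subgroup G) (E : Submonoid F)
    (hHE : ∀ σ ∈ H, ∀ e ∈ E, σ • e = e)
    {σ τ : G} (h : σ⁻¹ * τ ∈ H) {e : F} (he : e ∈ E) : τ • e = σ • e := by
  have h1 : τ = σ * (σ⁻¹ * τ) := by group
  rw [h1, mul_smul, hHE _ h e he]

/-- the character `e ↦ σ • e` of the monoid of constants. -/
def h3dChar (E : Submonoid F) (σ : G) : E →* F where
  toFun e := σ • (e : F)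
  map_one' := by simp
  map_mul' x y := by simp [smul_mul']

@[simp]
theorem h3dChar_apply (E : Submonoid F) (σ : G) (e : E) : h3dChar E σ e = σ • (e : F) := rfl

/-- **Hilbert 90 by averaging.** -/
theorem h3d_hilbert90_avg (H : Subgroup G) [Finite (G ⧸ H)] (E : Submonoid F)
    (hHE : ∀ σ ∈ H, ∀ e ∈ E, σ • e = e)
    (hsep : ∀ σ : G, (∀ e ∈ E, σ • e = e) → σ ∈ H)
    (f : G → F) (hf0 : ∀ σ, f σ ≠ 0)
    (hcoc : ∀ σ τ, f (σ * τ) = f σ * σ • f τ) (hfH : ∀ σ ∈ H, f σ = 1) :
    ∃ b : F, b ≠ 0 ∧ ∀ τ : G, f τ * τ • b = b := by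
  classical
  have := Fintype.ofFinite (G ⧸ H)
  -- representatives
  set rep : G ⧸ H → G := fun q => Quotient.out q with hrep
  have hrepq : ∀ q : G ⧸ H, ((rep q : G) : G ⧸ H) = q := fun q => QuotientGroup.out_eq' q
  have hrel : ∀ (τ : G) (q : G ⧸ H), (rep (τ • q))⁻¹ * (τ * rep q) ∈ H := by
    intro τ q
    rw [← QuotientGroup.eq]
    rw [hrepq]
    conv_lhs => rw [← hrepq q]
    rfl
  -- the characters are pairwise distinct
  have hinj : Function.Injective (fun q : G ⧸ H => h3dChar E (rep q)) := by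
    intro q q' h
    have h1 : ∀ e ∈ E, ((rep q)⁻¹ * rep q') • e = e := by
      intro e he
      have h2 := DFunLike.congr_fun h ⟨e, he⟩
      simp only [h3dChar_apply] at h2
      rw [mul_smul, ← h2, inv_smul_smul]
    have h3 := hsep _ h1
    rw [← hrepq q, ← hrepq q']
    exact QuotientGroup.eq.mpr h3
  have hli : LinearIndependent F (fun q : G ⧸ H => (h3dChar E (rep q) : E → F)) :=
    (linearIndependent_monoidHom E F).comp _ hinj
  -- a constant with nonzero average
  have hex : ∃ e : E, ∑ q : G ⧸ H, f (rep q) * rep q • (e : F) ≠ 0 := by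
    by_contra hne
    push Not at hne
    have h0 : ∑ q : G ⧸ H, f (rep q) • (h3dChar E (rep q) : E → F) = 0 := by
      funext e
      simp only [Finset.sum_apply, Pi.smul_apply, smul_eq_mul, h3dChar_apply, Pi.zero_apply]
      exact hne e
    have h1 := Fintype.linearIndependent_iff.mp hli (fun q => f (rep q)) h0
    exact hf0 _ (h1 ((1 : G) : G ⧸ H))
  obtain ⟨e, he⟩ := hex
  refine ⟨_, he, fun τ => ?_⟩
  rw [Finset.smul_sum, Finset.mul_sum]
  rw [← Equiv.sum_comp (MulAction.toPerm τ : Equiv.Perm (G ⧸ H))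
    (fun q => f (rep q) * rep q • (e : F))]
  refine Finset.sum_congr rfl fun q _ => ?_
  simp only [MulAction.toPerm_apply]
  rw [← h3d_cocycle_coset H f hcoc hfH (hrel τ q),
    ← h3d_smul_coset H E hHE (hrel τ q) e.2, hcoc, smul_mul', mul_smul, mul_assoc]

end Abs

end Fermat.Agent.S36
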