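import Fermat.Agent.S36.H3DescAbs

/-!
# S36, block DESC (helper3): descent of a Kummer function, abstract form (Mathlib only)

`G` acts on a field `F` through `ρ : G →* RingAut F`; `C` is a `G`-stable subfield of
"constants" which is root-closed in `F`; `ν : F → F` is a multiplicative, `G`-equivariant
normalisation with values in `C` which is the identity on `C` (the leading coefficient of a
`q`-expansion).  If `u ≠ 0` satisfies `σ u ∈ C · u · (Fˣ)ᵐ` for every `σ ∈ G` (the class of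
`div u / m` is `G`-invariant) and `u` is fixed by a subgroup `H` of finite index whose cosets
are separated by a multiplicative set `E` of constants, then `c₀ · u · bᵐ` is `G`-invariant for
suitable `c₀ ∈ C`, `b ∈ Fˣ`.
-/

set_option autoImplicit false

namespace Fermat.Agent.S36

section Fun

variable {G : Type*} [Group G] {F : Type*} [Field F]

/-- uniqueness of the normalised `m`-th root. -/
theorem h3d_norm_unique (C : Subfield F) (ν : F → F)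
    (hνmul : ∀ x y, ν (x * y) = ν x * ν y) (hνC : ∀ c ∈ C, ν c = c)
    (m : ℕ) (hroot : ∀ x : F, x ^ m ∈ C → x ∈ C)
    {u : F} (hu : u ≠ 0) {c₁ c₂ h₁ h₂ : F} (hc₁ : c₁ ∈ C) (hc₂ : c₂ ∈ C) (hc₁0 : c₁ ≠ 0)
    (hh₂ : h₂ ≠ 0) (hν₁ : ν h₁ = 1) (hν₂ : ν h₂ = 1)
    (h : c₁ * u * h₁ ^ m = c₂ * u * h₂ ^ m) : h₁ = h₂ := by
  have h1 : (h₁ * h₂⁻¹) ^ m = c₂ * c₁⁻¹ := by
    rw [mul_pow, inv_pow]
    have h2 : h₂ ^ m ≠ 0 := pow_ne_zero _ hh₂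
    field_simp
    have h3 : u * (c₁ * h₁ ^ m) = u * (c₂ * h₂ ^ m) := by
      rw [← mul_assoc, ← mul_assoc, mul_comm u c₁, mul_comm u c₂]; exact h
    have h4 := mul_left_cancel₀ hu h3
    rw [mul_comm] at h4
    rw [h4]; ring
  have h2 : h₁ * h₂⁻¹ ∈ C := hroot _ (by rw [h1]; exact C.mul_mem hc₂ (C.inv_mem hc₁))
  have h3 : ν (h₁ * h₂⁻¹) = h₁ * h₂⁻¹ := hνC _ h2
  have h4 : ν (h₁ * h₂⁻¹) * ν h₂ = ν h₁ := by
    rw [← hνmul, mul_assoc, inv_mul_cancel₀ hh₂, mul_one]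
  rw [h3, hν₁, hν₂, mul_one] at h4
  calc h₁ = h₁ * h₂⁻¹ * h₂ := by rw [mul_assoc, inv_mul_cancel₀ hh₂, mul_one]
    _ = h₂ := by rw [h4, one_mul]

/-- **DESC, abstract function form.** -/
theorem h3d_desc_abs (ρ : G →* RingAut F) (C : Subfield F)
    (hCG : ∀ σ : G, ∀ c ∈ C, ρ σ c ∈ C)
    (ν : F → F) (hνC' : ∀ x, ν x ∈ C) (hν0 : ∀ x, x ≠ 0 → ν x ≠ 0)
    (hνmul : ∀ x y, ν (x * y) = ν x * ν y) (hνC : ∀ c ∈ C, ν c = c)
    (hνG : ∀ (σ : G) (x : F), ν (ρ σ x) = ρ σ (ν x))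
    (m : ℕ) (hroot : ∀ x : F, x ^ m ∈ C → x ∈ C)
    (H : Subgroup G) [Finite (G ⧸ H)] (E : Submonoid F)
    (hHE : ∀ σ ∈ H, ∀ e ∈ E, ρ σ e = e)
    (hsep : ∀ σ : G, (∀ e ∈ E, ρ σ e = e) → σ ∈ H)
    (u : F) (hu : u ≠ 0) (hHu : ∀ σ ∈ H, ρ σ u = u)
    (hI : ∀ σ : G, ∃ c ∈ C, ∃ h : F, c ≠ 0 ∧ h ≠ 0 ∧ ρ σ u = c * u * h ^ m) :
    ∃ c₀ ∈ C, ∃ b : F, c₀ ≠ 0 ∧ b ≠ 0 ∧ ∀ σ : G, ρ σ (c₀ * u * b ^ m) = c₀ * u * b ^ m := by
  classical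
  let _ : MulSemiringAction G F := MulSemiringAction.compHom F ρ
  have hsmul : ∀ (σ : G) (x : F), σ • x = ρ σ x := fun _ _ => rfl
  have hν1 : ν 1 = 1 := hνC 1 C.one_mem
  have hνinv : ∀ x, x ≠ 0 → ν x⁻¹ = (ν x)⁻¹ := by
    intro x hx
    have h1 : ν x⁻¹ * ν x = 1 := by rw [← hνmul, inv_mul_cancel₀ hx, hν1]
    exact eq_inv_of_mul_eq_one_left h1
  -- the normalised choice
  have hex : ∀ σ : G, ∃ h : F, h ≠ 0 ∧ ν h = 1 ∧ ∃ c ∈ C, c ≠ 0 ∧ ρ σ u = c * u * h ^ m := by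
    intro σ
    obtain ⟨c, hc, h, hc0, hh0, hσ⟩ := hI σ
    have hνh0 : ν h ≠ 0 := hν0 h hh0
    refine ⟨h * (ν h)⁻¹, mul_ne_zero hh0 (inv_ne_zero hνh0), ?_, c * ν h ^ m,
      C.mul_mem hc (C.pow_mem (hνC' h) m), mul_ne_zero hc0 (pow_ne_zero _ hνh0), ?_⟩
    · rw [hνmul, hνinv _ hνh0, hνC _ (hνC' h), mul_inv_cancel₀ hνh0]
    · rw [hσ, mul_pow, inv_pow]
      have : ν h ^ m ≠ 0 := pow_ne_zero _ hνh0
      field_simp
  choose f hf0 hfν hfc using hex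
  have huniq : ∀ (σ : G) (c h : F), c ∈ C → c ≠ 0 → h ≠ 0 → ν h = 1 →
      ρ σ u = c * u * h ^ m → f σ = h := by
    intro σ c h hc hc0 hh0 hνh hσ
    obtain ⟨c', hc', hc'0, hσ'⟩ := hfc σ
    exact h3d_norm_unique C ν hνmul hνC m hroot hu hc' hc hc'0 hh0 (hfν σ) hνh
      (hσ'.symm.trans hσ)
  -- the cocycle property
  have hcoc : ∀ σ τ : G, f (σ * τ) = f σ * σ • f τ := by
    intro σ τ
    obtain ⟨cσ, hcσ, hcσ0, hσ⟩ := hfc σ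
    obtain ⟨cτ, hcτ, hcτ0, hτ⟩ := hfc τ
    refine huniq (σ * τ) (ρ σ cτ * cσ) (f σ * σ • f τ)
      (C.mul_mem (hCG σ cτ hcτ) hcσ)
      (mul_ne_zero ((map_ne_zero_iff _ (ρ σ).injective).mpr hcτ0) hcσ0)
      (mul_ne_zero (hf0 σ) ((map_ne_zero_iff _ (ρ σ).injective).mpr (hf0 τ))) ?_ ?_
    · rw [hνmul, hsmul, hνG, hfν, hfν, map_one, mul_one]
    · rw [map_mul, RingAut.mul_apply, hτ, map_mul, map_mul, map_pow, hσ, hsmul]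
      ring
  -- triviality on `H`
  have hfH : ∀ σ ∈ H, f σ = 1 := by
    intro σ hσ
    refine huniq σ 1 1 C.one_mem one_ne_zero one_ne_zero hν1 ?_
    rw [hHu σ hσ]; ring
  obtain ⟨b, hb0, hb⟩ := h3d_hilbert90_avg H E hHE hsep f hf0 hcoc hfH
  -- `u₁ = u * b ^ m` is invariant up to constants
  have hu₁ : ∀ τ : G, ∃ c ∈ C, c ≠ 0 ∧ ρ τ (u * b ^ m) = c * (u * b ^ m) := by
    intro τ
    obtain ⟨c, hc, hc0, hτ⟩ := hfc τ
    refine ⟨c, hc, hc0, ?_⟩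
    have h1 : ρ τ b = τ • b := rfl
    rw [map_mul, map_pow, hτ, h1]
    calc c * u * f τ ^ m * (τ • b) ^ m = c * u * (f τ * τ • b) ^ m := by ring
      _ = c * (u * b ^ m) := by rw [hb τ]; ring
  have hu₁0 : u * b ^ m ≠ 0 := mul_ne_zero hu (pow_ne_zero _ hb0)
  have hνu₁ : ν (u * b ^ m) ≠ 0 := hν0 _ hu₁0
  refine ⟨(ν (u * b ^ m))⁻¹, C.inv_mem (hνC' _), b, inv_ne_zero hνu₁, hb0, fun τ => ?_⟩
  obtain ⟨c, hc, hc0, hτ⟩ := hu₁ τ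
  have h1 : ρ τ (ν (u * b ^ m)) = c * ν (u * b ^ m) := by
    rw [← hνG, hτ, hνmul, hνC c hc]
  rw [mul_assoc, map_mul, map_inv₀, h1, hτ]
  field_simp

end Fun

end Fermat.Agent.S36
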