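import Fermat.Agent.S36.H3DictAbs
import Fermat.Agent.S36.H3Gate92V
import Fermat.Agent.S36.H59Noeth
import Fermat.Agent.S36.H63GateLoc
import Fermat.Agent.Red.Match

/-!
# S36, blocks (G)/(LOC): the dictionary between the Gauss ring `V₀` and the vertical primes of
the charts over the inertia ring (helper3)

Contract objects of `S36/H92Chain.lean`: `h92c_F0`, `h92c_V0`, `h92c_Chart`; level
`N = M q²`, `q ∤ M`, `t = j` or `t = j⁻¹`, `B₀(t) = h92c_Chart A N t`.

* `h3k_frac0` : **`F₀ = Frac B₀(t)`**, with denominators in `A₀[t]`: every `x ∈ F₀` has a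
  nonzero `d ∈ B₀(t)` with `d x ∈ B₀(t)`.
* `h3k_dict` : **`V₀` lies in the semi-localisation of `B₀(t)` at its vertical primes**: every
  `x ∈ V₀` has a denominator `s ∈ B₀(t)` outside ALL the primes of `B₀(t)` minimal over `(q)`.
  (This is `hden` of `h66s_datum` / `h66a_glue_field` and `hWV` of `h13g_datum_of_branch`.)
* `h3k_dict_prime` : the same at one prime minimal over `(q)`.

Inputs: V-QEP (`S36/H3Gate92V.lean`), noetherianity of the chart (`S36/H59Noeth.lean`,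
helper59), Krull's principal ideal theorem.  No normality, no local equation.
-/

set_option autoImplicit false
set_option linter.unusedSectionVars false
set_option linter.style.haveILetI false
set_option synthInstance.maxHeartbeats 400000

open AlgebraicCurve ModularCurve IsLocalRing Polynomial

noncomputable section

namespace Fermat.Agent.S36

open Fermat.Agent.S37 Fermat.Agent.Red Fermat.Agent.Red.GG Fermat.Agent.Red.GV

variable {A : ValuationSubring Kbar}

/-! ### `F₀ = Frac B₀(t)` -/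

/-- a nonzero element of `modelAt N A t` divides a nonzero element of `A₀[t]` inside
`modelAt N A t`. -/
theorem h3k_exists_mul_mem_adj0 (N : ℕ) (t : FF N) {b : FF N} (hb : b ∈ modelAt N A t)
    (hb0 : b ≠ 0) :
    ∃ d ∈ h59cRingAdj0 N A t, d ≠ 0 ∧ ∃ c ∈ modelAt N A t, d = c * b := by
  classical
  have hint : IsIntegral (h59cRingAdj0 N A t) b := (h59c_mem_modelAt_iff N A t b).1 hb
  obtain ⟨p, hp, hpb⟩ := hint
  have hle : h59cRingAdj0 N A t ≤ modelAt N A t :=
    (h59c_ringAdj0_le N A t).trans (Fermat.Agent.Red.Match.ringAdj_le_modelAt N A t)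
  let f : ↥(h59cRingAdj0 N A t) →+* ↥(modelAt N A t) := Subring.inclusion hle
  let b' : ↥(modelAt N A t) := ⟨b, hb⟩
  have hb'0 : b' ≠ 0 := fun h => hb0 (congrArg Subtype.val h)
  have heval : p.eval₂ f b' = 0 := by
    apply Subtype.val_injective
    have h1 : ((p.eval₂ f b' : ↥(modelAt N A t)) : FF N) =
        p.eval₂ ((modelAt N A t).subtype.comp f) ((modelAt N A t).subtype b') :=
      Polynomial.hom_eval₂ p f (modelAt N A t).subtype b'
    show ((p.eval₂ f b' : ↥(modelAt N A t)) : FF N) = 0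
    rw [h1]
    exact hpb
  obtain ⟨i, hi0, hi⟩ := Ideal.exists_coeff_ne_zero_mem_comap_of_root_mem (f := f)
    (I := Ideal.span {b'}) hb'0 (Ideal.mem_span_singleton_self b') hp.ne_zero heval
  rw [Ideal.mem_comap, Ideal.mem_span_singleton'] at hi
  obtain ⟨c, hc⟩ := hi
  refine ⟨((p.coeff i : ↥(h59cRingAdj0 N A t)) : FF N), (p.coeff i).2, ?_, (c : FF N), c.2, ?_⟩
  · intro h
    exact hi0 (Subtype.ext h)
  · have := congrArg (Subtype.val : ↥(modelAt N A t) → FF N) hc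
    simpa [f, b'] using this.symm

variable {M q : ℕ} [NeZero M] [NeZero q]

/-- every function of level `M q²` is a fraction of two elements of the chart over `ℚ̄`. -/
theorem h3k_frac (hq : q.Prime) (hqM : ¬ q ∣ M) (hA : A.LiesOverPrime q)
    (x : FF (M * q * q)) :
    (∃ b ∈ modelAt (M * q * q) A (jB (M * q * q)), b ≠ 0 ∧
      x * b ∈ modelAt (M * q * q) A (jB (M * q * q))) ∧
    (∃ b ∈ modelAt (M * q * q) A (jB (M * q * q))⁻¹, b ≠ 0 ∧
      x * b ∈ modelAt (M * q * q) A (jB (M * q * q))⁻¹) := by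
  constructor
  · obtain ⟨a, b, hb, hab⟩ := h63g_frac
      (h3v_chart_fin A (degen (h92c_dvd M q)) (h3w_degen_jB M q) (h3w_finiteAlong M q)
        hq hqM hA) x
    exact ⟨b, b.2, hb, by rw [hab]; exact a.2⟩
  · obtain ⟨a, b, hb, hab⟩ := h63g_frac
      (h3v_chart_inf A (degen (h92c_dvd M q)) (h3w_degen_jB M q) (h3w_finiteAlong M q)
        hq hqM hA) x
    exact ⟨b, b.2, hb, by rw [hab]; exact a.2⟩

/-- **`F₀ = Frac B₀(t)`**: every inertia-fixed function has a nonzero denominator in the chart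
over the inertia ring (even in `A₀[t]`). -/
theorem h3k_frac0_of (N : ℕ) (t : FF N)
    (ht : ∀ σ ∈ A.inertiaSubgroupIn ℚ, gal N σ • t = t)
    (x : FF N) (hx : x ∈ h92c_F0 A N)
    (hfrac : ∃ b ∈ modelAt N A t, b ≠ 0 ∧ x * b ∈ modelAt N A t) :
    ∃ d ∈ h92c_Chart A N t, d ≠ 0 ∧ d * x ∈ h92c_Chart A N t := by
  obtain ⟨b, hb, hb0, hxb⟩ := hfrac
  obtain ⟨d, hd, hd0, c, hc, hdc⟩ := h3k_exists_mul_mem_adj0 N t hb hb0
  have hdF : d ∈ h92c_F0 A N := fun σ hσ => h59c_ringAdj0_fixed N A t ht hd σ hσ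
  have hdm : d ∈ modelAt N A t :=
    ((h59c_ringAdj0_le N A t).trans (Fermat.Agent.Red.Match.ringAdj_le_modelAt N A t)) hd
  refine ⟨d, ⟨hdm, hdF⟩, hd0, ⟨?_, mul_mem hdF hx⟩⟩
  have e : d * x = c * (x * b) := by rw [hdc]; ring
  rw [e]
  exact mul_mem hc hxb

/-- **`F₀ = Frac B₀(j)`.** -/
theorem h3k_frac0 (hq : q.Prime) (hqM : ¬ q ∣ M) (hA : A.LiesOverPrime q)
    (x : FF (M * q * q)) (hx : x ∈ h92c_F0 A (M * q * q)) :
    ∃ d ∈ h92c_Chart A (M * q * q) (jB (M * q * q)), d ≠ 0 ∧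
      d * x ∈ h92c_Chart A (M * q * q) (jB (M * q * q)) :=
  h3k_frac0_of (M * q * q) _ (fun σ _ => Fermat.Agent.S37.GalI.gal_smul_jB σ) x hx
    (h3k_frac hq hqM hA x).1

/-- **`F₀ = Frac B₀(j⁻¹)`.** -/
theorem h3k_frac0Inv (hq : q.Prime) (hqM : ¬ q ∣ M) (hA : A.LiesOverPrime q)
    (x : FF (M * q * q)) (hx : x ∈ h92c_F0 A (M * q * q)) :
    ∃ d ∈ h92c_Chart A (M * q * q) (jB (M * q * q))⁻¹, d ≠ 0 ∧
      d * x ∈ h92c_Chart A (M * q * q) (jB (M * q * q))⁻¹ :=
  h3k_frac0_of (M * q * q) _ (fun σ _ => Fermat.Agent.S37.GalI.gal_smul_jB_inv σ) x hx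
    (h3k_frac hq hqM hA x).2

/-! ### the dictionary -/

/-- **DICT (finite chart).**  Every `x ∈ V₀` has a denominator in `B₀(j)` outside all the primes
of `B₀(j)` minimal over `(q)`. -/
theorem h3k_dict (hq : q.Prime) (hqM : ¬ q ∣ M) (hA : A.LiesOverPrime q)
    (x : FF (M * q * q)) (hx : x ∈ h92c_V0 A M q) :
    ∃ s : h92c_Chart A (M * q * q) (jB (M * q * q)),
      (∀ P ∈ (Ideal.span {((q : ℕ) : h92c_Chart A (M * q * q) (jB (M * q * q)))}).minimalPrimes,
        s ∉ P) ∧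
      (s : FF (M * q * q)) * x ∈ h92c_Chart A (M * q * q) (jB (M * q * q)) := by
  haveI : IsNoetherianRing (h92c_Chart A (M * q * q) (jB (M * q * q))) :=
    h59n_isNoetherianRing_chart (M * q * q) A hq hA (jB (M * q * q)) (Or.inl rfl)
  obtain ⟨d, hd, hd0, hdx⟩ := h3k_frac0 hq hqM hA x hx.2
  refine h3k_den_all (h92c_Chart A (M * q * q) (jB (M * q * q))) (h92c_V0 A M q)
    (h3w_chart_le_V0 hq hqM hA) ((q : ℕ) : h92c_Chart A (M * q * q) (jB (M * q * q)))
    (fun y hy hqy => h3w_qep0_nat hq hqM hA hy (by simpa using hqy)) x hx ⟨d, hd⟩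
    (fun h => hd0 (congrArg Subtype.val h)) hdx

/-- **DICT (chart at infinity).**  Every `x ∈ V₀` has a denominator in `B₀(j⁻¹)` outside all the
primes of `B₀(j⁻¹)` minimal over `(q)`. -/
theorem h3k_dictInv (hq : q.Prime) (hqM : ¬ q ∣ M) (hA : A.LiesOverPrime q)
    (x : FF (M * q * q)) (hx : x ∈ h92c_V0 A M q) :
    ∃ s : h92c_Chart A (M * q * q) (jB (M * q * q))⁻¹,
      (∀ P ∈ (Ideal.span
        {((q : ℕ) : h92c_Chart A (M * q * q) (jB (M * q * q))⁻¹)}).minimalPrimes, s ∉ P) ∧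
      (s : FF (M * q * q)) * x ∈ h92c_Chart A (M * q * q) (jB (M * q * q))⁻¹ := by
  haveI : IsNoetherianRing (h92c_Chart A (M * q * q) (jB (M * q * q))⁻¹) :=
    h59n_isNoetherianRing_chart (M * q * q) A hq hA (jB (M * q * q))⁻¹ (Or.inr rfl)
  obtain ⟨d, hd, hd0, hdx⟩ := h3k_frac0Inv hq hqM hA x hx.2
  refine h3k_den_all (h92c_Chart A (M * q * q) (jB (M * q * q))⁻¹) (h92c_V0 A M q)
    (h3w_chartInv_le_V0 hq hqM hA) ((q : ℕ) : h92c_Chart A (M * q * q) (jB (M * q * q))⁻¹)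
    (fun y hy hqy => h3w_qep0Inv_nat hq hqM hA hy (by simpa using hqy)) x hx ⟨d, hd⟩
    (fun h => hd0 (congrArg Subtype.val h)) hdx

end Fermat.Agent.S36
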