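import Mathlib

/-!
# S36, blocks (G)/(LOC): the Gauss ring lies in the localisations of the chart at the vertical
primes (helper3) — abstract part, Mathlib only

`B ≤ V` subrings of a field `F`, `B` noetherian, `π ∈ B` with **QEP**
(`x ∈ V`, `π x ∈ B ⟹ x ∈ B`).

* `h3k_exists_mul_pow` : `R` a noetherian domain, `P` a prime minimal over `(π)`, `d ≠ 0`:
  there are `u ∉ P` and `k` with `d ∣ u π ^ k`  (Krull's principal ideal theorem).
* `h3k_den_of_qep` : for a prime `P` of `B` minimal over `(π)` and `x ∈ V` with a nonzero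
  denominator in `B`: `∃ s ∈ B ∖ P, s x ∈ B`  (`V ⊆ B_P`).
* `h3k_den_all` : the same with ONE `s` outside all the primes minimal over `(π)`
  (prime avoidance): `V` lies in the semi-localisation of `B` at the vertical primes.
* `h3k_den_finset` : the same for a finite set of primes minimal over `(π)`.
-/

set_option autoImplicit false
set_option linter.style.haveILetI false

namespace Fermat.Agent.S36

/-- In a noetherian domain, for a prime `P` minimal over `(π)` and `d ≠ 0` there are `u ∉ P`
and `k` with `d ∣ u * π ^ k`. -/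
theorem h3k_exists_mul_pow {R : Type*} [CommRing R] [IsDomain R] [IsNoetherianRing R]
    (π d : R) (hd : d ≠ 0) (P : Ideal R) (hP : P ∈ (Ideal.span {π}).minimalPrimes) :
    ∃ u : R, u ∉ P ∧ ∃ k : ℕ, d ∣ u * π ^ k := by
  classical
  haveI hPp : P.IsPrime := hP.1.1
  have hπP : π ∈ P := hP.1.2 (Ideal.mem_span_singleton_self π)
  by_cases hdP : d ∈ P
  · have hht : P.height ≤ 1 :=
      Ideal.height_le_one_of_isPrincipal_of_mem_minimalPrimes _ P hP
    have hmin : P ∈ (Ideal.span {d}).minimalPrimes := by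
      refine ⟨⟨hPp, (Ideal.span_singleton_le_iff_mem _).2 hdP⟩, ?_⟩
      rintro Q ⟨hQp, hdQ⟩ hQP
      by_contra hne
      have hlt : Q < P := lt_of_le_not_ge hQP hne
      have h1 : Q.height < ((1 : ℕ) : ℕ∞) :=
        (Ideal.height_le_iff (p := P) (n := 1)).1 (by exact_mod_cast hht) Q hQp hlt
      have h0 : Q.height = 0 := by
        have h2 : Q.height < 1 := by exact_mod_cast h1
        exact Order.lt_one_iff.1 h2
      have hbot : Q = ⊥ := by
        haveI := hQp
        exact Ideal.height_eq_zero_iff_eq_bot.1 h0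
      apply hd
      have h3 : d ∈ Q := (Ideal.span_singleton_le_iff_mem _).1 hdQ
      rw [hbot] at h3
      exact (Ideal.mem_bot).1 h3
    have hrad := IsLocalization.AtPrime.radical_map_of_mem_minimalPrimes
      (A := Localization.AtPrime P) P (Ideal.span {d}) hmin
    have hπ : algebraMap R (Localization.AtPrime P) π ∈
        ((Ideal.span {d}).map (algebraMap R (Localization.AtPrime P))).radical := by
      rw [hrad]
      exact Ideal.mem_map_of_mem _ hπP
    obtain ⟨k, hk⟩ := hπ
    rw [Ideal.map_span, Set.image_singleton, Ideal.mem_span_singleton'] at hk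
    obtain ⟨c, hc⟩ := hk
    obtain ⟨⟨b, u⟩, hbu⟩ := IsLocalization.surj P.primeCompl c
    have hinj : Function.Injective (algebraMap R (Localization.AtPrime P)) :=
      IsLocalization.injective (Localization.AtPrime P) P.primeCompl_le_nonZeroDivisors
    have heq : algebraMap R (Localization.AtPrime P) ((u : R) * π ^ k) =
        algebraMap R (Localization.AtPrime P) (d * b) := by
      rw [map_mul, map_mul, map_pow, ← hc, ← hbu]
      ring
    exact ⟨u, u.2, k, ⟨b, hinj heq⟩⟩
  · exact ⟨d, hdP, 0, by simp⟩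

section Sub

variable {F : Type*} [Field F]

/-- **`V ⊆ B_P`** for a prime `P` of the noetherian ring `B` minimal over `(π)`, from QEP. -/
theorem h3k_den_of_qep (B V : Subring F) [IsNoetherianRing B] (hBV : B ≤ V)
    (π : B) (hqep : ∀ x ∈ V, (π : F) * x ∈ B → x ∈ B)
    (P : Ideal B) (hP : P ∈ (Ideal.span {π}).minimalPrimes)
    (x : F) (hx : x ∈ V) (d : B) (hd : d ≠ 0) (hdx : (d : F) * x ∈ B) :
    ∃ s : B, s ∉ P ∧ (s : F) * x ∈ B := by
  obtain ⟨u, hu, k, b, hb⟩ := h3k_exists_mul_pow π d hd P hP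
  have hb' : (u : F) * (π : F) ^ k = (d : F) * (b : F) := by
    have := congrArg (Subtype.val : B → F) hb
    simpa using this
  have h1 : (π : F) ^ k * ((u : F) * x) ∈ B := by
    have e : (π : F) ^ k * ((u : F) * x) = (b : F) * ((d : F) * x) := by
      calc (π : F) ^ k * ((u : F) * x) = ((u : F) * (π : F) ^ k) * x := by ring
        _ = ((d : F) * (b : F)) * x := by rw [hb']
        _ = (b : F) * ((d : F) * x) := by ring
    rw [e]
    exact B.mul_mem b.2 hdx
  have key : ∀ n : ℕ, (π : F) ^ n * ((u : F) * x) ∈ B → (u : F) * x ∈ B := by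
    intro n
    induction n with
    | zero =>
      intro h
      simpa using h
    | succ n ih =>
      intro h
      apply ih
      apply hqep _ (V.mul_mem (V.pow_mem (hBV π.2) n) (V.mul_mem (hBV u.2) hx))
      have e : (π : F) * ((π : F) ^ n * ((u : F) * x)) = (π : F) ^ (n + 1) * ((u : F) * x) := by
        ring
      rw [e]
      exact h
  exact ⟨u, hu, key k h1⟩

/-- the ideal of denominators of `x` in `B`. -/
def h3kDen (B : Subring F) (x : F) : Ideal B where
  carrier := {s | (s : F) * x ∈ B}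
  add_mem' := by
    intro a b ha hb
    show ((a + b : B) : F) * x ∈ B
    have e : ((a + b : B) : F) * x = (a : F) * x + (b : F) * x := by push_cast; ring
    rw [e]
    exact B.add_mem ha hb
  zero_mem' := by
    show ((0 : B) : F) * x ∈ B
    simp
  smul_mem' := by
    intro c a ha
    show ((c • a : B) : F) * x ∈ B
    have e : ((c • a : B) : F) * x = (c : F) * ((a : F) * x) := by
      rw [smul_eq_mul]; push_cast; ring
    rw [e]
    exact B.mul_mem c.2 ha

theorem h3k_mem_den {B : Subring F} {x : F} {s : B} : s ∈ h3kDen B x ↔ (s : F) * x ∈ B :=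
  Iff.rfl

/-- **prime avoidance for denominators**: if for every prime of a finite set `T` the element `x`
has a denominator outside it, then `x` has a denominator outside all of them. -/
theorem h3k_den_avoid (B : Subring F) (x : F) (T : Finset (Ideal B))
    (hT : ∀ P ∈ T, P.IsPrime) (h : ∀ P ∈ T, ∃ s : B, s ∉ P ∧ (s : F) * x ∈ B) :
    ∃ s : B, (∀ P ∈ T, s ∉ P) ∧ (s : F) * x ∈ B := by
  classical
  by_contra hcon
  have hcon : ∀ s : B, (∀ P ∈ T, s ∉ P) → ¬ ((s : F) * x ∈ B) := fun s hs hsx =>
    hcon ⟨s, hs, hsx⟩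
  have hsub : ((h3kDen B x : Ideal B) : Set B) ⊆ ⋃ P ∈ (T : Set (Ideal B)), (P : Set B) := by
    intro s hs
    by_contra hs'
    have h1 : ∀ P ∈ T, s ∉ P := by
      intro P hP hsP
      apply hs'
      exact Set.mem_biUnion (Finset.mem_coe.2 hP) hsP
    exact hcon s h1 hs
  have h2 := (Ideal.subset_union_prime (R := B) (s := T) (f := fun P => P) ⊥ ⊥
    (fun P hP _ _ => hT P hP) (I := h3kDen B x)).1 hsub
  obtain ⟨P, hP, hle⟩ := h2
  obtain ⟨s, hsP, hsx⟩ := h P hP
  exact hsP (hle hsx)

/-- **`V` lies in the semi-localisation of `B` at a finite set of primes minimal over `(π)`.** -/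
theorem h3k_den_finset (B V : Subring F) [IsNoetherianRing B] (hBV : B ≤ V)
    (π : B) (hqep : ∀ x ∈ V, (π : F) * x ∈ B → x ∈ B)
    (T : Finset (Ideal B)) (hT : ∀ P ∈ T, P ∈ (Ideal.span {π}).minimalPrimes)
    (x : F) (hx : x ∈ V) (d : B) (hd : d ≠ 0) (hdx : (d : F) * x ∈ B) :
    ∃ s : B, (∀ P ∈ T, s ∉ P) ∧ (s : F) * x ∈ B :=
  h3k_den_avoid B x T (fun P hP => (hT P hP).1.1)
    (fun P hP => h3k_den_of_qep B V hBV π hqep P (hT P hP) x hx d hd hdx)

/-- **`V` lies in the semi-localisation of `B` at ALL the primes minimal over `(π)`.** -/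
theorem h3k_den_all (B V : Subring F) [IsNoetherianRing B] (hBV : B ≤ V)
    (π : B) (hqep : ∀ x ∈ V, (π : F) * x ∈ B → x ∈ B)
    (x : F) (hx : x ∈ V) (d : B) (hd : d ≠ 0) (hdx : (d : F) * x ∈ B) :
    ∃ s : B, (∀ P ∈ (Ideal.span {π}).minimalPrimes, s ∉ P) ∧ (s : F) * x ∈ B := by
  classical
  have hfin : ((Ideal.span {π} : Ideal B).minimalPrimes).Finite :=
    Ideal.finite_minimalPrimes_of_isNoetherianRing B _
  obtain ⟨s, hs, hsx⟩ := h3k_den_finset B V hBV π hqep hfin.toFinset
    (fun P hP => hfin.mem_toFinset.1 hP) x hx d hd hdx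
  exact ⟨s, fun P hP => hs P (hfin.mem_toFinset.2 hP), hsx⟩

end Sub

end Fermat.Agent.S36
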