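import Fermat.Agent.S36.H3Hden

/-!
# S36, row LOC-VCOMP: the conjunct `hex` of `H86LocVCompAt` (helper3)

* `h3k_span_C_not_isMaximal` : `(π)` is not a maximal ideal of `O[X]` for a non-unit `π`.
* `h3k_exists_lt_of_goingDown` (abstract, Mathlib only): `O` a discrete valuation ring with
  uniformiser `π`, `S` a domain, integral over `O[X]` (injective structure map): below every
  maximal ideal `𝔫` of `S` containing `π` there is a prime `P < 𝔫` containing `π`
  (going down over the normal ring `O[X]`: `(π) < 𝔫 ∩ O[X]`).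
* `h3k_hex`, `h3k_hexInv` : **`hex`**: a vertical prime passes through every closed point of the
  special fibre of both charts.
* `h3k_minimal_not_isMaximal` : a prime of the chart minimal over `(q)` is not maximal.
-/

set_option autoImplicit false
set_option linter.unusedSectionVars false
set_option linter.style.haveILetI false
set_option synthInstance.maxHeartbeats 400000

open AlgebraicCurve ModularCurve IsLocalRing Polynomial

noncomputable section

namespace Fermat.Agent.S36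

open Fermat.Agent.S37 Fermat.Agent.Red Fermat.Agent.Red.GG Fermat.Agent.Red.GV

/-- `(π)` is not a maximal ideal of `O[X]` for a non-unit `π`. -/
theorem h3k_span_C_not_isMaximal {O : Type*} [CommRing O] [Nontrivial O] (π : O)
    (hπ : ¬ IsUnit π) : ¬ (Ideal.span {(C π : O[X])}).IsMaximal := by
  intro hmax
  have hXp : (X : O[X]) ∉ Ideal.span {(C π : O[X])} := by
    intro hX
    rw [Ideal.mem_span_singleton] at hX
    obtain ⟨g, hg⟩ := hX
    have h1 := congrArg (fun r : O[X] => r.coeff 1) hg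
    simp only [coeff_X_one, coeff_C_mul] at h1
    exact hπ (IsUnit.of_mul_eq_one _ h1.symm)
  obtain ⟨y, i, hi, hyi⟩ := hmax.exists_inv hXp
  rw [Ideal.mem_span_singleton] at hi
  obtain ⟨h, rfl⟩ := hi
  have h2 := congrArg (Polynomial.eval 0) hyi
  simp only [eval_add, eval_mul, eval_X, mul_zero, zero_add, eval_C, eval_one] at h2
  exact hπ (IsUnit.of_mul_eq_one _ h2)

/-- **going down below a closed point of the special fibre.** -/
theorem h3k_exists_lt_of_goingDown {O S : Type*} [CommRing O] [IsDomain O]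
    [IsDiscreteValuationRing O] [CommRing S] [IsDomain S]
    (f : O[X] →+* S) (hf : f.IsIntegral) (hinj : Function.Injective f)
    (π : O) (hπ : Irreducible π) (𝔫 : Ideal S) (h𝔫 : 𝔫.IsMaximal) (hπ𝔫 : f (C π) ∈ 𝔫) :
    ∃ P : Ideal S, P.IsPrime ∧ f (C π) ∈ P ∧ P ≤ 𝔫 ∧ P ≠ 𝔫 := by
  classical
  letI : Algebra O[X] S := f.toAlgebra
  haveI : Algebra.IsIntegral O[X] S := ⟨hf⟩
  haveI : FaithfulSMul O[X] S := (faithfulSMul_iff_algebraMap_injective O[X] S).2 hinj
  have hπp : Prime π := hπ.prime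
  have hCπ : Prime (C π : O[X]) := Polynomial.prime_C_iff.2 hπp
  haveI hpp : (Ideal.span {(C π : O[X])}).IsPrime :=
    (Ideal.span_singleton_prime hCπ.ne_zero).2 hCπ
  haveI : 𝔫.IsPrime := h𝔫.isPrime
  haveI h𝔫' : (𝔫.under O[X]).IsMaximal :=
    Ideal.isMaximal_comap_of_isIntegral_of_isMaximal (R := O[X]) 𝔫
  haveI : (𝔫.under O[X]).IsPrime := h𝔫'.isPrime
  have hple : Ideal.span {(C π : O[X])} ≤ 𝔫.under O[X] := by
    rw [Ideal.span_singleton_le_iff_mem, Ideal.under_def, Ideal.mem_comap]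
    exact hπ𝔫
  have hpne : Ideal.span {(C π : O[X])} ≠ 𝔫.under O[X] := by
    intro h
    exact h3k_span_C_not_isMaximal π hπ.not_isUnit (h ▸ h𝔫')
  have hlt : Ideal.span {(C π : O[X])} < 𝔫.under O[X] := lt_of_le_of_ne hple hpne
  haveI : 𝔫.LiesOver (𝔫.under O[X]) := ⟨rfl⟩
  obtain ⟨P, hPlt, hPp, hPover⟩ :=
    Ideal.exists_ideal_lt_liesOver_of_lt (p := Ideal.span {(C π : O[X])}) (q := 𝔫.under O[X])
      𝔫 hlt
  refine ⟨P, hPp, ?_, hPlt.le, hPlt.ne⟩
  have h1 : (C π : O[X]) ∈ P.under O[X] := by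
    rw [← hPover.over]
    exact Ideal.mem_span_singleton_self _
  exact h1

variable {A : ValuationSubring Kbar}

theorem h3kEv_injective (N : ℕ) [NeZero N] (t : FF N)
    (ht : ∀ σ ∈ A.inertiaSubgroupIn ℚ, gal N σ • t = t) (htr : Transcendental Kbar t) :
    Function.Injective (h3kEv (A := A) N t ht) := by
  intro a b hab
  apply h59nEv_injective N A t htr
  have := congrArg (Subtype.val : ↥(h92c_Chart A N t) → FF N) hab
  exact this

theorem h3kEv_C_natCast (N : ℕ) (t : FF N)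
    (ht : ∀ σ ∈ A.inertiaSubgroupIn ℚ, gal N σ • t = t) (q : ℕ) :
    h3kEv (A := A) N t ht (C ((q : ℕ) : h59bA0 A)) = ((q : ℕ) : h92c_Chart A N t) := by
  have h1 : (C ((q : ℕ) : h59bA0 A) : Polynomial (h59bA0 A)) = ((q : ℕ) : Polynomial (h59bA0 A)) :=
    map_natCast (C : h59bA0 A →+* Polynomial (h59bA0 A)) q
  rw [h1, map_natCast]

/-- **`hex` at any level**: below every closed point `𝔫 ∋ q` of the chart there is a prime
`P ∋ q`, `P ≠ 𝔫`. -/
theorem h3k_hex_of {q : ℕ} (hq : q.Prime) (hA : A.LiesOverPrime q) (N : ℕ) [NeZero N]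
    (t : FF N) (ht : ∀ σ ∈ A.inertiaSubgroupIn ℚ, gal N σ • t = t)
    (htr : Transcendental Kbar t)
    (𝔫 : Ideal (h92c_Chart A N t)) (h𝔫 : 𝔫.IsMaximal)
    (hq𝔫 : ((q : ℕ) : h92c_Chart A N t) ∈ 𝔫) :
    ∃ P : Ideal (h92c_Chart A N t), h86l_IsVert 𝔫 ((q : ℕ) : h92c_Chart A N t) P := by
  haveI := h59b_isDVR A hq hA
  obtain ⟨P, hP, hqP, hle, hne⟩ := h3k_exists_lt_of_goingDown (h3kEv N t ht)
    (h3kEv_isIntegral N t ht) (h3kEv_injective N t ht htr) ((q : ℕ) : h59bA0 A)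
    (h59b_irreducible A hq hA) 𝔫 h𝔫 (by rw [h3kEv_C_natCast]; exact hq𝔫)
  rw [h3kEv_C_natCast] at hqP
  exact ⟨P, hP, hqP, hle, hne⟩

variable {M q : ℕ} [NeZero M] [NeZero q]

/-- **`hex` (finite chart).** -/
theorem h3k_hex (hq : q.Prime) (hA : A.LiesOverPrime q) :
    ∀ 𝔫 : Ideal (h92c_Chart A (M * q * q) (jB (M * q * q))), 𝔫.IsMaximal →
      ((q : ℕ) : h92c_Chart A (M * q * q) (jB (M * q * q))) ∈ 𝔫 →
      ∃ P : Ideal (h92c_Chart A (M * q * q) (jB (M * q * q))),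
        h86l_IsVert 𝔫 ((q : ℕ) : h92c_Chart A (M * q * q) (jB (M * q * q))) P :=
  fun 𝔫 h𝔫 hq𝔫 => h3k_hex_of hq hA (M * q * q) _
    (fun σ _ => Fermat.Agent.S37.GalI.gal_smul_jB σ)
    (Fermat.Agent.S24.transcendental_jBar (M * q * q)) 𝔫 h𝔫 hq𝔫

/-- **`hex` (chart at infinity).** -/
theorem h3k_hexInv (hq : q.Prime) (hA : A.LiesOverPrime q) :
    ∀ 𝔫 : Ideal (h92c_Chart A (M * q * q) (jB (M * q * q))⁻¹), 𝔫.IsMaximal →
      ((q : ℕ) : h92c_Chart A (M * q * q) (jB (M * q * q))⁻¹) ∈ 𝔫 →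
      ∃ P : Ideal (h92c_Chart A (M * q * q) (jB (M * q * q))⁻¹),
        h86l_IsVert 𝔫 ((q : ℕ) : h92c_Chart A (M * q * q) (jB (M * q * q))⁻¹) P :=
  fun 𝔫 h𝔫 hq𝔫 => h3k_hex_of hq hA (M * q * q) _
    (fun σ _ => Fermat.Agent.S37.GalI.gal_smul_jB_inv σ)
    (fun h => Fermat.Agent.S24.transcendental_jBar (M * q * q) (IsAlgebraic.inv_iff.mp h))
    𝔫 h𝔫 hq𝔫

end Fermat.Agent.S36
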