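import Mathlib
import Fermat.Agent.S36.H59Base2
import Fermat.Agent.LGC.H55Kron
import Fermat.Agent.S36.H40Gen

/-!
# S36, block REG / TOR (helper40, prefix `h40w_`): the Kronecker relations over the inertia ring

`Λ₀ = h62rChart A M (jB M)`, `B₁ = h62rChart A (M q) (jSS M q)`,
`Bc = h62rChart A (M q²) (jB (M q²))` (charts over `A₀`), `α₁, β₁ : Λ₀ → B₁`,
`α₂ = h59y_a2`, `β₂ = h59y_b2 : B₁ → Bc`, `e₀, e₁, e₂ : Λ₀ → Bc`.

* `h40w_kron` : the Kronecker remainder `r` of a rational `u` (`Ψ_u = (X - u^q)(X^q - u) + q r`,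
  `Ψ_u` the characteristic polynomial of `β u` over `α (F_M)`) has RATIONAL coefficients in the
  chart.
* `h40w_relations` : **the Kronecker relations in chart form, with ONE remainder
  `r ∈ Λ₀[X]`, `deg r ≤ q`**: the two relations of level `M q` and the two relations of level
  `M q²` which feed `h67t_tower` on the `α`-side and on the `β`-side.
-/

set_option autoImplicit false
set_option linter.style.haveILetI false
set_option linter.unusedSectionVars false

open AlgebraicCurve ModularCurve Polynomial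

noncomputable section

namespace Fermat.Agent.S36

open Fermat.Agent.S37 Fermat.Agent.Red.Kron Fermat.Agent.LGC

section Rat

variable (M q : ℕ) [NeZero M] [NeZero q] (A : ValuationSubring Kbar)

theorem h40w_gal_natCast (σ : GQ) (n : ℕ) : gal M σ • ((n : ℕ) : FF M) = ((n : ℕ) : FF M) := by
  have h := map_natCast (h40gGal M σ) n
  exact h

theorem h40w_gal_mul (σ : GQ) (x y : FF M) :
    gal M σ • (x * y) = (gal M σ • x) * (gal M σ • y) :=
  map_mul (h40gGal M σ) x y

/-- **the rational Kronecker remainder.** -/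
theorem h40w_kron (hq : q.Prime) (hM : ¬ q ∣ M) (hA : A.LiesOverPrime q) (u : FF M)
    (hu : u ∈ modelFin M A) (hrat : IsRat u) :
    ∃ r : (FF M)[X], (∀ n, r.coeff n ∈ modelFin M A) ∧ (∀ n, IsRat (r.coeff n)) ∧
      r.natDegree ≤ q ∧
      ((X - C (u ^ q)) * (X ^ q - C u) + C ((q : ℕ) : FF M) * r).eval₂
        (heckeAlphaBar Kbar M q).toRingHom (heckeBetaBar Kbar M q u) = 0 := by
  obtain ⟨r, hr, hdeg, heq⟩ := h55k_charpoly_eq M q A hq hM hA u hu hrat
  refine ⟨r, hr, fun n => ?_, hdeg, ?_⟩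
  · have h1 : C ((q : ℕ) : FF M) * r = h55k_Psi M q u - h55k_P0 M q u := by
      rw [heq, h55k_P0]
      ring
    have h2 : IsRat (((q : ℕ) : FF M) * r.coeff n) := by
      have := h55k_isRat_coeff M q hq hM u hrat n
      rwa [← h1, coeff_C_mul] at this
    rw [Fermat.Agent.Red.GV.Soft.isRat_iff_gal_fixed] at h2 ⊢
    intro σ
    have h3 := h2 σ
    rw [h40w_gal_mul, h40w_gal_natCast] at h3
    have hq0 : ((q : ℕ) : FF M) ≠ 0 := by exact_mod_cast hq.ne_zero
    exact mul_left_cancel₀ hq0 h3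
  · rw [← heq]
    exact h44g_eval₂_charpolyAlong (heckeAlphaBar Kbar M q) _ _

/-- the four Kronecker relations in the function fields, with one rational remainder. -/
theorem h40w_relations_FF (hq : q.Prime) (hM : ¬ q ∣ M) (hA : A.LiesOverPrime q) (u : FF M)
    (hu : u ∈ modelFin M A) (hrat : IsRat u) :
    ∃ r : (FF M)[X], (∀ n, r.coeff n ∈ modelFin M A) ∧ (∀ n, IsRat (r.coeff n)) ∧
      r.natDegree ≤ q ∧
      (heckeBetaBar Kbar M q u - heckeAlphaBar Kbar M q u ^ q) *
          (heckeBetaBar Kbar M q u ^ q - heckeAlphaBar Kbar M q u)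
        + (q : FF (M * q)) * (r.map (heckeAlphaBar Kbar M q).toRingHom).eval
            (heckeBetaBar Kbar M q u) = 0 ∧
      (heckeAlphaBar Kbar M q u - heckeBetaBar Kbar M q u ^ q) *
          (heckeAlphaBar Kbar M q u ^ q - heckeBetaBar Kbar M q u)
        + (q : FF (M * q)) * (r.map (heckeBetaBar Kbar M q).toRingHom).eval
            (heckeAlphaBar Kbar M q u) = 0 ∧
      (h67i_e0 M q u - h67i_e1 M q u ^ q) * (h67i_e0 M q u ^ q - h67i_e1 M q u)
        + (q : FF (M * q * q)) * (r.map (h67i_e1 M q)).eval (h67i_e0 M q u) = 0 ∧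
      (h67i_e2 M q u - h67i_e1 M q u ^ q) * (h67i_e2 M q u ^ q - h67i_e1 M q u)
        + (q : FF (M * q * q)) * (r.map (h67i_e1 M q)).eval (h67i_e2 M q u) = 0 := by
  obtain ⟨r, hr, hrrat, hdeg, h0⟩ := h40w_kron M q A hq hM hA u hu hrat
  -- the Fricke transform of the relation
  have hw := congrArg (kFricke M q hq hM).toAlgHom.toRingHom h0
  rw [Polynomial.hom_eval₂, map_zero] at hw
  have hwa : (kFricke M q hq hM).toAlgHom.toRingHom.comp (heckeAlphaBar Kbar M q).toRingHom
      = (heckeBetaBar Kbar M q).toRingHom :=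
    RingHom.ext fun x => kFricke_alpha M q hq hM x
  have hwb : (kFricke M q hq hM).toAlgHom.toRingHom (heckeBetaBar Kbar M q u)
      = heckeAlphaBar Kbar M q u := kFricke_beta M q hq hM u
  rw [hwa, hwb] at hw
  refine ⟨r, hr, hrrat, hdeg, ?_, ?_, ?_, ?_⟩
  · have h1 := h0
    rw [h67i_eval₂, ← Polynomial.eval_map] at h1
    exact h1
  · have h1 := hw
    rw [h67i_eval₂, ← Polynomial.eval_map] at h1
    exact h1
  · have h1 := congrArg (heckeAlphaBar Kbar (M * q) q).toRingHom hw
    rw [Polynomial.hom_eval₂, map_zero, h67i_eval₂, ← Polynomial.eval_map] at h1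
    exact h1
  · have h1 := congrArg (heckeBetaBar Kbar (M * q) q).toRingHom h0
    rw [Polynomial.hom_eval₂, map_zero, ← h67i_e1_eq', h67i_eval₂, ← Polynomial.eval_map] at h1
    exact h1

end Rat

/-! ## Chart form -/

section Chart

/-- the coercion of an evaluation. -/
theorem h40w_coe_eval {F F' : Type*} [Field F] [Field F'] (R : Subring F') (S : Subring F)
    (f : R →+* S) (φ : F' →+* F) (hf : ∀ x, ((f x : S) : F) = φ (x : F')) (r : R[X]) (z : S) :
    (((r.map f).eval z : S) : F) = ((r.map R.subtype).map φ).eval (z : F) := by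
  rw [eval_map, eval_map, eval₂_map]
  have h1 := hom_eval₂ r f S.subtype z
  have h2 : S.subtype.comp f = φ.comp R.subtype := RingHom.ext hf
  rw [h2] at h1
  exact h1

variable (A : ValuationSubring Kbar) (M : ℕ) {q : ℕ} [NeZero M] [NeZero q]

/-- **the Kronecker relations in chart form, with one remainder `r ∈ Λ₀[X]`.** -/
theorem h40w_relations (hq : q.Prime) (hM : ¬ q ∣ M) (hA : A.LiesOverPrime q)
    (u : h62rChart A M (jB M)) (hrat : IsRat (u : FF M)) :
    ∃ r : Polynomial (h62rChart A M (jB M)), r.natDegree ≤ q ∧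
      (h62rBeta A M hq hM hA u - h62rAlpha A M u ^ q) *
          (h62rBeta A M hq hM hA u ^ q - h62rAlpha A M u)
        + (q : h62rChart A (M * q) (jSS M q)) *
          (r.map (h62rAlpha A M)).eval (h62rBeta A M hq hM hA u) = 0 ∧
      (h62rAlpha A M u - h62rBeta A M hq hM hA u ^ q) *
          (h62rAlpha A M u ^ q - h62rBeta A M hq hM hA u)
        + (q : h62rChart A (M * q) (jSS M q)) *
          (r.map (h62rBeta A M hq hM hA)).eval (h62rAlpha A M u) = 0 ∧
      (h59y_e0 A M u - h59y_e1 A M hq hM hA u ^ q) *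
          (h59y_e0 A M u ^ q - h59y_e1 A M hq hM hA u)
        + (q : h62rChart A (M * q * q) (jB (M * q * q))) *
          (r.map (h59y_e1 A M hq hM hA)).eval (h59y_e0 A M u) = 0 ∧
      (h59y_e2 A M hq hM hA u - h59y_e1 A M hq hM hA u ^ q) *
          (h59y_e2 A M hq hM hA u ^ q - h59y_e1 A M hq hM hA u)
        + (q : h62rChart A (M * q * q) (jB (M * q * q))) *
          (r.map (h59y_e1 A M hq hM hA)).eval (h59y_e2 A M hq hM hA u) = 0 := by
  obtain ⟨r, hr, hrrat, hdeg, h1, h2, h3, h4⟩ := h40w_relations_FF M q A hq hM hA (u : FF M)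
    (h62r_mem_chart.mp u.2).1 hrat
  have hr' : (↑r.coeffs : Set (FF M)) ⊆ h62rChart A M (jB M) := by
    intro c hc
    obtain ⟨i, -, rfl⟩ := Polynomial.mem_coeffs_iff.mp hc
    exact h62r_mem_chart.mpr ⟨hr i, fun σ _ => GalI.gal_smul_of_isRat σ (hrrat i)⟩
  have hmap : (r.toSubring _ hr').map (h62rChart A M (jB M)).subtype = r :=
    Polynomial.map_toSubring r _ hr'
  refine ⟨r.toSubring _ hr', ?_, ?_, ?_, ?_, ?_⟩
  · rw [Polynomial.natDegree_toSubring]
    exact hdeg
  · apply Subtype.ext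
    have e := h40w_coe_eval (h62rChart A M (jB M)) (h62rChart A (M * q) (jSS M q))
      (h62rAlpha A M) (heckeAlphaBar Kbar M q).toRingHom (fun _ => rfl) (r.toSubring _ hr')
      (h62rBeta A M hq hM hA u)
    rw [hmap] at e
    push_cast
    rw [e]
    exact h1
  · apply Subtype.ext
    have e := h40w_coe_eval (h62rChart A M (jB M)) (h62rChart A (M * q) (jSS M q))
      (h62rBeta A M hq hM hA) (heckeBetaBar Kbar M q).toRingHom (fun _ => rfl)
      (r.toSubring _ hr') (h62rAlpha A M u)
    rw [hmap] at e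
    push_cast
    rw [e]
    exact h2
  · apply Subtype.ext
    have e := h40w_coe_eval (h62rChart A M (jB M)) (h62rChart A (M * q * q) (jB (M * q * q)))
      (h59y_e1 A M hq hM hA) (h67i_e1 M q) (fun _ => rfl) (r.toSubring _ hr')
      (h59y_e0 A M u)
    rw [hmap] at e
    push_cast
    rw [e]
    exact h3
  · apply Subtype.ext
    have e := h40w_coe_eval (h62rChart A M (jB M)) (h62rChart A (M * q * q) (jB (M * q * q)))
      (h59y_e1 A M hq hM hA) (h67i_e1 M q) (fun _ => rfl) (r.toSubring _ hr')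
      (h59y_e2 A M hq hM hA u)
    rw [hmap] at e
    push_cast
    rw [e]
    exact h4

end Chart

end Fermat.Agent.S36
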