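import Fermat.Agent.S36.H80OrdIface
import Fermat.Agent.S36.H60L1Excl

/-!
# S36, block REG, row R-ORD-11 (helper60): from the geometric form to the frozen leaf `H80OrdC11`

`B₁ = h62rChart A (M q) (jSS M q)`, `B₂ = h62rChart A (M q²) (jB (M q²))`, `α₂ = h62rA2`,
`β₂ = h59y_b2`.  For a closed point `𝔫₁ ∋ q` of `B₁` let
`𝔫 = h60rLift (h60rIncl …) (mExt …) 𝔫₁` be the closed point of the chart over `A` above it.

* `H60Kind11Geo` : **the geometric form of R-ORD-11**: a closed point `𝔫₂ ∋ q` of `B₂` with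
  `P∞ ≤ lift (α₂⁻¹ 𝔫₂)`, `¬ P₀ ≤ lift (α₂⁻¹ 𝔫₂)`, `P₀ ≤ lift (β₂⁻¹ 𝔫₂)`,
  `¬ P∞ ≤ lift (β₂⁻¹ 𝔫₂)` carries the one-branch datum.
* `h60x_ordC11_of_geo : H60Kind11Geo → H80OrdC11` (by `h60r_infDatum_comp`,
  `h60r_zeroDatum_comp`).
* `h60x_geo_of_ordC11 : H80OrdC11 → H60Kind11Geo` (by `h60r_infDatum`, `h60r_zeroDatum`).
-/

set_option autoImplicit false
set_option linter.unusedSectionVars false
set_option linter.style.haveILetI false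

open AlgebraicCurve ModularCurve IsLocalRing

noncomputable section

namespace Fermat.Agent.S36

open Fermat.Agent.S37 Fermat.Agent.Red Fermat.Agent.Red.GG Fermat.Agent.LGC

/-- **the geometric form of R-ORD-11.** -/
def H60Kind11Geo : Prop :=
  ∀ (q : ℕ) (hq : q.Prime) (M : ℕ) [NeZero M] (hM : ¬ q ∣ M), auxLevel q ∣ M →
    haveI : NeZero q := ⟨hq.ne_zero⟩
    ∀ (A : ValuationSubring Kbar) (hA : A.LiesOverPrime q),
      ∀ 𝔫₂ : Ideal (h62rChart A (M * q * q) (jB (M * q * q))), 𝔫₂.IsMaximal →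
        (q : h62rChart A (M * q * q) (jB (M * q * q))) ∈ 𝔫₂ →
        h62i_Pinf A M hq hM hA ≤ h60rLift (h60rIncl A (M * q) (jSS M q))
          (mExt A M q (jSS M q)) (𝔫₂.comap (h62rA2 A M)) →
        ¬ h62i_P0 A M hq hM hA ≤ h60rLift (h60rIncl A (M * q) (jSS M q))
          (mExt A M q (jSS M q)) (𝔫₂.comap (h62rA2 A M)) →
        h62i_P0 A M hq hM hA ≤ h60rLift (h60rIncl A (M * q) (jSS M q))
          (mExt A M q (jSS M q)) (𝔫₂.comap (h59y_b2 A M hq hM hA)) →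
        ¬ h62i_Pinf A M hq hM hA ≤ h60rLift (h60rIncl A (M * q) (jSS M q))
          (mExt A M q (jSS M q)) (𝔫₂.comap (h59y_b2 A M hq hM hA)) →
          h95s_OneDatum 𝔫₂ (q : h62rChart A (M * q * q) (jB (M * q * q)))

/-- the geometric form gives the frozen leaf. -/
theorem h60x_ordC11_of_geo (h : H60Kind11Geo) : H80OrdC11 := by
  intro q hq M _ hM haux
  haveI : NeZero q := ⟨hq.ne_zero⟩
  intro A hA 𝔫₂ h𝔫₂ hq𝔫₂ hInf hZero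
  obtain ⟨hmaxa, hqa⟩ := h59y_comap_a2 A M 𝔫₂ h𝔫₂ hq𝔫₂
  obtain ⟨hmaxb, hqb⟩ := h59y_comap_b2 A M hq hM hA 𝔫₂ h𝔫₂ hq𝔫₂
  rw [← h80i_A2_eq] at hmaxa hqa
  obtain ⟨h1, h2⟩ := h60r_infDatum_comp A M hq hM haux hA _ hmaxa hqa hInf
  obtain ⟨h3, h4⟩ := h60r_zeroDatum_comp A M hq hM haux hA _ hmaxb hqb hZero
  exact h q hq M hM haux A hA 𝔫₂ h𝔫₂ hq𝔫₂ h1 h2 h3 h4

/-- the frozen leaf gives the geometric form. -/
theorem h60x_geo_of_ordC11 (h : H80OrdC11) : H60Kind11Geo := by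
  intro q hq M _ hM haux
  haveI : NeZero q := ⟨hq.ne_zero⟩
  intro A hA 𝔫₂ h𝔫₂ hq𝔫₂ h1 h2 h3 h4
  obtain ⟨hmaxa, hqa⟩ := h59y_comap_a2 A M 𝔫₂ h𝔫₂ hq𝔫₂
  obtain ⟨hmaxb, hqb⟩ := h59y_comap_b2 A M hq hM hA 𝔫₂ h𝔫₂ hq𝔫₂
  rw [← h80i_A2_eq] at hmaxa hqa
  have hiso := h25i_h60RedIso_Mq_fin (A := A) hq hM hA
  exact h q hq M hM haux A hA 𝔫₂ h𝔫₂ hq𝔫₂
    (h60r_infDatum A M hq hM haux hA hiso _ hmaxa hqa h1 h2)
    (h60r_zeroDatum A M hq hM haux hA hiso _ hmaxb hqb h3 h4)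

end Fermat.Agent.S36
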