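import Fermat.Agent.S36.H50ExcIface
import Fermat.Agent.S36.H60Kind11
import Fermat.Agent.LGC.NodeRegular
import Fermat.Agent.LGC.H62LP

/-!
# S36, block REG, row R-ORD-11 (helper50): the chain of frozen leaves for `H60Kind11Geo`

Vocabulary: `Λ₀ = h62rChart A M (jB M)`, `B₁ = h62rChart A (M q) (jSS M q)`,
`B₂ = h62rChart A (M q²) (jB (M q²))`, `α, β = h62rAlpha, h62rBeta : Λ₀ → B₁`,
`α₂, β₂ = h62rA2, h59y_b2 : B₁ → B₂`, `ι = h60rIncl` (chart over `A₀` → chart over `A`),
`lift 𝔫' = h60rLift ι (mExt …) 𝔫'` the closed point of the chart over `A` above `𝔫'`,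
`P∞ = h62i_Pinf`, `P₀ = h62i_P0` (primes of the chart over `A` of level `M q`).

A smooth point `𝔫'` of `C₀` (level `M q`): `P₀ ≤ lift 𝔫'`, `¬ P∞ ≤ lift 𝔫'`.

* `H50eSep` (**separation**): there are a rational non-constant `u ∈ Λ₀`, local parameter (over
  `A`) at `β⁻¹ (lift 𝔫')`, and `ε ∈ B₁ ∩ P₀` such that for every `δ ≡ 1 (q)` the coordinate
  `ψ = β u + δ ε` is congruent modulo `P∞` to some `α a`, `a ∈ Λ₀`, with `ψ - α a ∉ 𝔫'`.
* `H50eShape` (**Kronecker shape**, from `H50eCharpoly`): for `ψ ≡ β u` modulo `P₀`,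
  `ψ ≡ α a` modulo `P∞`, `ψ - α a ∉ 𝔫'`: `ψ` is a root of
  `(T - a)(T ^ q - u) + q r` (coefficients mapped by `α`), `r ∈ Λ₀[T]`, `deg r ≤ q`.
* `H50ePkg` (**the level-`M q` package**): `u`, `ε` and for every `δ ≡ 1 (q)`: `a`, `r`, `κ`
  with the Kronecker relation for `ψ = β u + δ ε`, `ψ ∈ 𝔫'`, `ψ - α a ∉ 𝔫'`, `κ ∉ 𝔫'`,
  `(ψ - α a) f'(ψ) = q κ`.
* `H50eTower` (**the tower step**): `H50ePkg → H60Kind11Geo` — `ξ = w₁ ψ`, `Ψ = β₂ ψ`,
  `f = f_ψ` with coefficients mapped by `β`, and `h94w_ord11`.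

Every declaration is a definition; nothing is assumed.
-/

set_option autoImplicit false
set_option linter.unusedSectionVars false

open AlgebraicCurve ModularCurve IsLocalRing Polynomial

noncomputable section

namespace Fermat.Agent.S36

open Fermat.Agent.S37 Fermat.Agent.Red Fermat.Agent.Red.GG Fermat.Agent.LGC

/-- **separation at a smooth point of `C₀`.** -/
def H50eSep : Prop :=
  ∀ (q : ℕ) (hq : q.Prime) (M : ℕ) [NeZero M] (hM : ¬ q ∣ M), auxLevel q ∣ M →
    haveI : NeZero q := ⟨hq.ne_zero⟩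
    ∀ (A : ValuationSubring Kbar) (hA : A.LiesOverPrime q),
      ∀ 𝔫' : Ideal (h62rChart A (M * q) (jSS M q)), 𝔫'.IsMaximal →
        ((q : ℕ) : h62rChart A (M * q) (jSS M q)) ∈ 𝔫' →
        h62i_P0 A M hq hM hA ≤ h60rLift (h60rIncl A (M * q) (jSS M q))
          (mExt A M q (jSS M q)) 𝔫' →
        ¬ h62i_Pinf A M hq hM hA ≤ h60rLift (h60rIncl A (M * q) (jSS M q))
          (mExt A M q (jSS M q)) 𝔫' →
        ∃ (u : h62rChart A M (jB M)) (ε : h62rChart A (M * q) (jSS M q)),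
          IsRat (u : FF M) ∧ (u : FF M) ∉ Set.range (cst M) ∧
          h62l_LP (h62i_mΛ A M)
            ((h60rLift (h60rIncl A (M * q) (jSS M q)) (mExt A M q (jSS M q)) 𝔫').comap
              ((h62i_β A M hq hM hA : chart M A (jB M) →ₐ[A] chart (M * q) A (jSS M q)) :
                chart M A (jB M) →+* chart (M * q) A (jSS M q)))
            (h60rIncl A M (jB M) u) ∧
          h60rIncl A (M * q) (jSS M q) ε ∈ h62i_P0 A M hq hM hA ∧
          ∀ δ : h62rChart A (M * q) (jSS M q),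
            δ - 1 ∈ Ideal.span {((q : ℕ) : h62rChart A (M * q) (jSS M q))} →
            ∃ a : h62rChart A M (jB M),
              h60rIncl A (M * q) (jSS M q)
                (h62rBeta A M hq hM hA u + δ * ε - h62rAlpha A M a) ∈ h62i_Pinf A M hq hM hA ∧
              h62rBeta A M hq hM hA u + δ * ε - h62rAlpha A M a ∉ 𝔫'

/-- **the Kronecker shape in a general coordinate.** -/
def H50eShape : Prop :=
  ∀ (q : ℕ) (hq : q.Prime) (M : ℕ) [NeZero M] (hM : ¬ q ∣ M), auxLevel q ∣ M →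
    haveI : NeZero q := ⟨hq.ne_zero⟩
    ∀ (A : ValuationSubring Kbar) (hA : A.LiesOverPrime q),
      ∀ 𝔫' : Ideal (h62rChart A (M * q) (jSS M q)), 𝔫'.IsMaximal →
        ((q : ℕ) : h62rChart A (M * q) (jSS M q)) ∈ 𝔫' →
        h62i_P0 A M hq hM hA ≤ h60rLift (h60rIncl A (M * q) (jSS M q))
          (mExt A M q (jSS M q)) 𝔫' →
        ∀ u : h62rChart A M (jB M), IsRat (u : FF M) →
          h62l_LP (h62i_mΛ A M)
            ((h60rLift (h60rIncl A (M * q) (jSS M q)) (mExt A M q (jSS M q)) 𝔫').comap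
              ((h62i_β A M hq hM hA : chart M A (jB M) →ₐ[A] chart (M * q) A (jSS M q)) :
                chart M A (jB M) →+* chart (M * q) A (jSS M q)))
            (h60rIncl A M (jB M) u) →
          ∀ (ψ : h62rChart A (M * q) (jSS M q)) (a : h62rChart A M (jB M)),
            h60rIncl A (M * q) (jSS M q) (ψ - h62rBeta A M hq hM hA u)
              ∈ h62i_P0 A M hq hM hA →
            h60rIncl A (M * q) (jSS M q) (ψ - h62rAlpha A M a) ∈ h62i_Pinf A M hq hM hA →
            ψ - h62rAlpha A M a ∉ 𝔫' →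
            ∃ r : Polynomial (h62rChart A M (jB M)), r.natDegree ≤ q ∧
              (h62n_poly q a u r).eval₂ (h62rAlpha A M) ψ = 0

/-- **the level-`M q` package at a smooth point of `C₀`.** -/
def H50ePkg : Prop :=
  ∀ (q : ℕ) (hq : q.Prime) (M : ℕ) [NeZero M] (hM : ¬ q ∣ M), auxLevel q ∣ M →
    haveI : NeZero q := ⟨hq.ne_zero⟩
    ∀ (A : ValuationSubring Kbar) (hA : A.LiesOverPrime q),
      ∀ 𝔫' : Ideal (h62rChart A (M * q) (jSS M q)), 𝔫'.IsMaximal →
        ((q : ℕ) : h62rChart A (M * q) (jSS M q)) ∈ 𝔫' →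
        h62i_P0 A M hq hM hA ≤ h60rLift (h60rIncl A (M * q) (jSS M q))
          (mExt A M q (jSS M q)) 𝔫' →
        ¬ h62i_Pinf A M hq hM hA ≤ h60rLift (h60rIncl A (M * q) (jSS M q))
          (mExt A M q (jSS M q)) 𝔫' →
        ∃ (u : h62rChart A M (jB M)) (ε : h62rChart A (M * q) (jSS M q)),
          (u : FF M) ∉ Set.range (cst M) ∧
          ∀ δ : h62rChart A (M * q) (jSS M q),
            δ - 1 ∈ Ideal.span {((q : ℕ) : h62rChart A (M * q) (jSS M q))} →
            ∃ (a : h62rChart A M (jB M)) (r : Polynomial (h62rChart A M (jB M)))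
              (κ : h62rChart A (M * q) (jSS M q)),
              r.natDegree ≤ q ∧
              (h62n_poly q a u r).eval₂ (h62rAlpha A M)
                (h62rBeta A M hq hM hA u + δ * ε) = 0 ∧
              h62rBeta A M hq hM hA u + δ * ε ∈ 𝔫' ∧
              h62rBeta A M hq hM hA u + δ * ε - h62rAlpha A M a ∉ 𝔫' ∧
              κ ∉ 𝔫' ∧
              (h62rBeta A M hq hM hA u + δ * ε - h62rAlpha A M a) *
                (derivative (h62n_poly q a u r)).eval₂ (h62rAlpha A M)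
                  (h62rBeta A M hq hM hA u + δ * ε)
                = ((q : ℕ) : h62rChart A (M * q) (jSS M q)) * κ

/-- **the tower step.** -/
def H50eTower : Prop := H50ePkg → H60Kind11Geo

end Fermat.Agent.S36
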