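import Fermat.Agent.S36.H40SepAbs
import Fermat.Agent.S36.H40FinNode
import Fermat.Agent.S36.H50ExcIface2
import Fermat.Agent.S36.H50ExcFin
import Fermat.Agent.S36.H27ExcShape
import Fermat.Agent.S36.H62Iso
import Fermat.Agent.S36.H60L1Excl
import Fermat.Agent.S35.H62Node

/-!
# S36, block REG, row R-ORD-11 (helper40): separation at a smooth point of `C₀`

`h40s_sep : H50eSep` (exact frozen Prop of `S36/H50ExcIface2.lean`, helper50), unconditional.

`𝔫 = lift 𝔫'` a closed point of the chart over `A` of level `M q` with `P₀ ≤ 𝔫`, `¬ P∞ ≤ 𝔫`.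

* `u` : the rational local parameter of `h62x_smooth_zero` at `β⁻¹ 𝔫`; it is not constant
  (`h40s_not_cst`: a constant local parameter would make `𝔪_A Λ` maximal).
* `𝔑` : a closed point containing `α (α⁻¹ 𝔫) B + P∞`; `P₀ ⊄ 𝔑` by `h50e_unique_fin`;
  `ε ∈ B₁` with `ι ε ∈ P₀ ∖ 𝔑` (R-REDISO (a)).
* for `δ ≡ 1 (q)` : `a ∈ Λ₀` with `β u + δ ε ≡ α a` modulo `P∞` (`h62t_surj_inf`);
  `β u ∈ 𝔑` by the two Frobenius congruences, so `α a ∉ 𝔑`, hence `α a ∉ 𝔫` and
  `β u + δ ε - α a ∉ 𝔫`.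
-/

set_option autoImplicit false
set_option linter.unusedSectionVars false
set_option linter.unusedVariables false
set_option linter.style.haveILetI false

open AlgebraicCurve ModularCurve IsLocalRing Polynomial

noncomputable section

namespace Fermat.Agent.S36

open Fermat.Agent.S37 Fermat.Agent.Red Fermat.Agent.Red.GG Fermat.Agent.LGC Fermat.Agent.S35

section NotCstAbs

variable {A Λ : Type*} [CommRing A] [IsLocalRing A] [CommRing Λ] [Algebra A Λ]

/-- a constant is not a local parameter at a closed point of the special fibre, if the special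
fibre is integral and not a point. -/
theorem h40s_not_cst_abs (𝔰 : Ideal Λ) (h𝔰 : 𝔰.IsMaximal)
    (hprime : ((maximalIdeal A).map (algebraMap A Λ)).IsPrime)
    (hle : (maximalIdeal A).map (algebraMap A Λ) ≤ 𝔰)
    (hnf : ¬ IsField (Λ ⧸ (maximalIdeal A).map (algebraMap A Λ)))
    (c : A) (hLP : h62l_LP ((maximalIdeal A).map (algebraMap A Λ)) 𝔰 (algebraMap A Λ c)) :
    False := by
  obtain ⟨hc𝔰, hgen⟩ := hLP
  have hcm : c ∈ maximalIdeal A := by
    rw [IsLocalRing.mem_maximalIdeal]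
    intro hu
    exact h𝔰.ne_top (Ideal.eq_top_of_isUnit_mem _ hc𝔰 (hu.map (algebraMap A Λ)))
  have ht : algebraMap A Λ c ∈ (maximalIdeal A).map (algebraMap A Λ) :=
    Ideal.mem_map_of_mem _ hcm
  have h1 : 𝔰 ≤ (maximalIdeal A).map (algebraMap A Λ) := by
    intro y hy
    obtain ⟨s, hs, hsy⟩ := hgen y hy
    have h2 : Ideal.span {algebraMap A Λ c} ⊔ (maximalIdeal A).map (algebraMap A Λ) ≤
        (maximalIdeal A).map (algebraMap A Λ) :=
      sup_le ((Ideal.span_singleton_le_iff_mem _).mpr ht) le_rfl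
    exact (hprime.mem_or_mem (h2 hsy)).resolve_left (fun h => hs (hle h))
  have h3 : (maximalIdeal A).map (algebraMap A Λ) = 𝔰 := le_antisymm hle h1
  apply hnf
  rw [h3]
  exact (Ideal.Quotient.maximal_ideal_iff_isField_quotient 𝔰).mp h𝔰

end NotCstAbs

section Concrete

variable (A : ValuationSubring Kbar) (M : ℕ) {q : ℕ} [NeZero M] [NeZero q]

/-- **the rational local parameter at a smooth point of `C₀` is not constant.** -/
theorem h40s_not_cst (hq : q.Prime) (hM : ¬ q ∣ M) (haux : auxLevel q ∣ M)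
    (hA : A.LiesOverPrime q)
    (𝔫 : Ideal (chart (M * q) A (jSS M q))) (h𝔫 : 𝔫.IsMaximal)
    (hP0𝔫 : h62i_P0 A M hq hM hA ≤ 𝔫) (u : chart M A (jB M))
    (hLP : h62l_LP (h62i_mΛ A M)
      (𝔫.comap ((h62i_β A M hq hM hA : chart M A (jB M) →ₐ[A] chart (M * q) A (jSS M q)) :
        chart M A (jB M) →+* chart (M * q) A (jSS M q))) u) :
    (u : FF M) ∉ Set.range (cst M) := by
  rintro ⟨c, hc⟩
  have hc' : cst M c = (u : FF M) := hc
  have hcA : c ∈ A := h40x_cst_mem_modelAt A M (jB M)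
    (Fermat.Agent.Red.GG.GGC97_transcendental_jB M) c (by rw [hc']; exact u.2)
  have hu : u = algebraMap A (chart M A (jB M)) ⟨c, hcA⟩ := by
    apply Subtype.ext
    rw [← hc']
    rfl
  rw [hu] at hLP
  haveI := h𝔫
  have hmax : (𝔫.comap ((h62i_β A M hq hM hA :
      chart M A (jB M) →ₐ[A] chart (M * q) A (jSS M q)) :
        chart M A (jB M) →+* chart (M * q) A (jSS M q))).IsMaximal :=
    h62l_comap_isMaximal _ 𝔫 (h62i_P0 A M hq hM hA) hP0𝔫 (h50e_surj0 A M hq hM haux hA)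
  have hprime : (h62i_mΛ A M).IsPrime := by
    have hded : IsDedekindDomain (chart M A (jB M) ⧸ h62i_mΛ A M) :=
      h13l_hded_fin M A hq hM haux hA
    have hdom : IsDomain (chart M A (jB M) ⧸ h62i_mΛ A M) := hded.toIsDomain
    exact (Ideal.Quotient.isDomain_iff_prime _).mp hdom
  have hle : h62i_mΛ A M ≤ 𝔫.comap ((h62i_β A M hq hM hA :
      chart M A (jB M) →ₐ[A] chart (M * q) A (jSS M q)) :
        chart M A (jB M) →+* chart (M * q) A (jSS M q)) := by
    intro x hx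
    apply Ideal.mem_comap.mpr
    exact (le_trans (h62i_m_le_P0 A M hq hM hA) hP0𝔫)
      (h62l_map_mem _ (h62i_β A M hq hM hA) hx)
  exact h40s_not_cst_abs _ hmax hprime hle (h13l_hnf_fin M A hq hM hA) ⟨c, hcA⟩ hLP

end Concrete

/-- **R-ORD-11, separation at a smooth point of `C₀`** (exact frozen Prop, unconditional). -/
theorem h40s_sep : H50eSep := by
  intro q hq M _ hM haux
  haveI : NeZero q := ⟨hq.ne_zero⟩
  intro A hA 𝔫' h𝔫' hq𝔫' hP0 hPinf
  have h𝔫 := h60r_lift_isMaximal' A M hq hM hA 𝔫' h𝔫' hq𝔫'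
  obtain ⟨u, hrat, hLP, -, -⟩ := h62x_smooth_zero A M hq hM haux hA _ h𝔫 hP0 hPinf
  have hnc := h40s_not_cst A M hq hM haux hA _ h𝔫 hP0 u hLP
  have huR : u ∈ h62i_R A M := (h62i_mem_R A M u).mpr hrat
  obtain ⟨u₀, hu₀⟩ := h60r_exists_incl A M (jB M) u
    (fun σ _ => Fermat.Agent.S37.GalI.gal_smul_of_isRat σ hrat)
  have hKer := h62d_ker A M hq hM hA
  have hu𝔫 : h62i_β A M hq hM hA (h60rIncl A M (jB M) u₀) ∈
      h60rLift (h60rIncl A (M * q) (jSS M q)) (mExt A M q (jSS M q)) 𝔫' := by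
    rw [hu₀]
    exact Ideal.mem_comap.mp hLP.1
  have hf0 : h62i_α A M q (h60rIncl A M (jB M) u₀) -
      h62i_β A M hq hM hA (h60rIncl A M (jB M) u₀) ^ q ∈ h62i_P0 A M hq hM hA := by
    rw [hu₀]
    exact h50e_frob0 A M hq hM hA u huR
  have hfinf : h62i_β A M hq hM hA (h60rIncl A M (jB M) u₀) -
      h62i_α A M q (h60rIncl A M (jB M) u₀) ^ q ∈ h62i_Pinf A M hq hM hA := by
    rw [hu₀]
    exact h62d_frob A M hq hM hA u huR
  obtain ⟨ε, hε, hsep⟩ := h40s_abs (h60rIncl A M (jB M)) (h60rIncl A (M * q) (jSS M q))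
    (h62rAlpha A M) (h62rBeta A M hq hM hA)
    ((h62i_α A M q : chart M A (jB M) →ₐ[A] chart (M * q) A (jSS M q)) :
      chart M A (jB M) →+* chart (M * q) A (jSS M q))
    ((h62i_β A M hq hM hA : chart M A (jB M) →ₐ[A] chart (M * q) A (jSS M q)) :
      chart M A (jB M) →+* chart (M * q) A (jSS M q))
    (h27x_incl_alpha A M) (h27x_incl_beta A M hq hM hA)
    (mExt A M q (jSS M q)) (h62i_Pinf A M hq hM hA) (h62i_P0 A M hq hM hA)
    (h62i_m_le_Pinf A M hq hM hA) (h62i_m_le_P0 A M hq hM hA)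
    (h62i_mΛ A M) hKer.1 (fun x hx => h62l_map_mem _ (h62i_α A M q) hx)
    (h62d_surj A M hq hM haux hA)
    (fun z => by
      obtain ⟨a, ha⟩ := h62t_surj_inf A M hq hM haux hA z
      exact ⟨a, Ideal.mem_comap.mp ha⟩)
    (h25i_h60RedIso_Mq_fin hq hM hA).1
    q hq.ne_zero (h60r_q_mem A M hA)
    _ h𝔫 (h60r_le_lift _ _ 𝔫') hP0 hPinf
    (fun 𝔑 h𝔑 hJ hP => h50e_unique_fin A M hq hM haux hA _ h𝔫 hP0 𝔑 h𝔑 hJ hP)
    u₀ hu𝔫 hf0 hfinf
  refine ⟨u₀, ε, ?_, ?_, ?_, hε, fun δ hδ => ?_⟩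
  · have h1 : (u₀ : FF M) = (u : FF M) :=
      congrArg (fun z : chart M A (jB M) => (z : FF M)) hu₀
    rw [h1]
    exact hrat
  · have h1 : (u₀ : FF M) = (u : FF M) :=
      congrArg (fun z : chart M A (jB M) => (z : FF M)) hu₀
    rw [h1]
    exact hnc
  · rw [hu₀]
    exact hLP
  · obtain ⟨a, ha1, ha2⟩ := hsep δ hδ
    exact ⟨a, ha1, fun h => ha2 (h60r_map_mem_lift _ _ 𝔫' h)⟩

end Fermat.Agent.S36
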