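import Fermat.Agent.S36.H60L1Abs

/-!
# S36, block REG, row R-ORD-11 (helper40): separation at a smooth point of `C₀`, abstract form

`α, β : Λ → B`, `P∞`, `P₀`, `𝔪 ≤ P∞ ⊓ P₀` ideals of `B`, `B = α Λ + P∞`, `α⁻¹ P∞ ≤ 𝔪_Λ`,
`α 𝔪_Λ ⊆ 𝔪`; `ι : B₁ → B`, `ι₀ : Λ₀ → Λ` the inclusions of the charts over the inertia ring,
`B = ι B₁ + 𝔪`, `B₁ = α₀ Λ₀ + ι⁻¹ P∞`.

`𝔫 ⊇ P₀` a closed point with `¬ P∞ ≤ 𝔫`, the point of `P₀` over `α⁻¹ 𝔫` being unique.  Then the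
closed point `𝔑 ⊇ α (α⁻¹ 𝔫) B + P∞` does not contain `P₀`; for `ε ∈ P₀ ∖ 𝔑` in `ι B₁`, every
`δ ≡ 1 (q)` and every `a` with `β u + δ ε ≡ α a` modulo `P∞`: `β u + δ ε - α a ∉ 𝔫`.

* `h40s_exists_pt`  : the point `𝔑` and `e ∈ P₀ ∖ 𝔑`;
* `h40s_abs`        : the separation.

Mathlib and `H60L1Abs` only.
-/

set_option autoImplicit false

namespace Fermat.Agent.S36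

section Abs

variable {Λ B : Type*} [CommRing Λ] [CommRing B]

/-- the closed point of `C∞` over `α⁻¹ 𝔫`; it does not contain `P₀`. -/
theorem h40s_exists_pt (α : Λ →+* B) (𝔪 Pinf P0 : Ideal B) (𝔪Λ : Ideal Λ)
    (hker : ∀ x, α x ∈ Pinf → x ∈ 𝔪Λ) (hmap : ∀ x ∈ 𝔪Λ, α x ∈ 𝔪)
    (hsurj : ∀ b : B, ∃ x : Λ, b - α x ∈ Pinf)
    (𝔫 : Ideal B) (h𝔫 : 𝔫.IsMaximal) (h𝔪𝔫 : 𝔪 ≤ 𝔫) (hPinf𝔫 : ¬ Pinf ≤ 𝔫)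
    (huniq : ∀ 𝔑 : Ideal B, 𝔑.IsMaximal → (∀ x, α x ∈ 𝔫 → α x ∈ 𝔑) → P0 ≤ 𝔑 → 𝔑 = 𝔫) :
    ∃ 𝔑 : Ideal B, 𝔑.IsMaximal ∧ Pinf ≤ 𝔑 ∧ (∀ x, α x ∈ 𝔫 → α x ∈ 𝔑) ∧
      ∃ e ∈ P0, e ∉ 𝔑 := by
  have hJ : h60rLift α Pinf (𝔫.comap α) ≠ ⊤ := by
    intro htop
    have h1 : (1 : B) ∈ h60rLift α Pinf (𝔫.comap α) := by rw [htop]; trivial
    obtain ⟨g₀, hg₀, hg⟩ := h60r_exists_of_mem_lift hsurj (𝔫.comap α) h1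
    have h2 : α (1 - g₀) ∈ Pinf := by rw [map_sub, map_one]; exact hg
    have h3 : α (1 - g₀) ∈ 𝔫 := h𝔪𝔫 (hmap _ (hker _ h2))
    have h4 : (1 : B) ∈ 𝔫 := by
      have h5 := 𝔫.add_mem h3 (Ideal.mem_comap.mp hg₀)
      rw [map_sub, map_one] at h5
      simpa using h5
    exact h𝔫.ne_top ((Ideal.eq_top_iff_one _).mpr h4)
  obtain ⟨𝔑, h𝔑max, hJ𝔑⟩ := Ideal.exists_le_maximal _ hJ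
  have hP𝔑 : Pinf ≤ 𝔑 := le_trans (h60r_le_lift α Pinf _) hJ𝔑
  have hα𝔑 : ∀ x, α x ∈ 𝔫 → α x ∈ 𝔑 := fun x hx =>
    hJ𝔑 (h60r_map_mem_lift α Pinf _ (Ideal.mem_comap.mpr hx))
  refine ⟨𝔑, h𝔑max, hP𝔑, hα𝔑, ?_⟩
  by_contra hne
  have hP0𝔑 : P0 ≤ 𝔑 := by
    intro e he
    by_contra he𝔑
    exact hne ⟨e, he, he𝔑⟩
  apply hPinf𝔫
  rw [← huniq 𝔑 h𝔑max hα𝔑 hP0𝔑]
  exact hP𝔑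

variable {Λ₀ B₁ : Type*} [CommRing Λ₀] [CommRing B₁]

/-- **separation at a smooth point of `C₀`, abstract form.** -/
theorem h40s_abs (ι₀ : Λ₀ →+* Λ) (ι : B₁ →+* B) (α₀ β₀ : Λ₀ →+* B₁) (α β : Λ →+* B)
    (hα : ∀ x, ι (α₀ x) = α (ι₀ x)) (hβ : ∀ x, ι (β₀ x) = β (ι₀ x))
    (𝔪 Pinf P0 : Ideal B) (hmPinf : 𝔪 ≤ Pinf) (hmP0 : 𝔪 ≤ P0)
    (𝔪Λ : Ideal Λ) (hker : ∀ x, α x ∈ Pinf → x ∈ 𝔪Λ) (hmap : ∀ x ∈ 𝔪Λ, α x ∈ 𝔪)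
    (hsurj : ∀ b : B, ∃ x : Λ, b - α x ∈ Pinf)
    (hsurj₀ : ∀ z : B₁, ∃ a : Λ₀, ι (z - α₀ a) ∈ Pinf)
    (hcongr : ∀ b : B, ∃ b₀ : B₁, b - ι b₀ ∈ 𝔪)
    (q : ℕ) (hq0 : q ≠ 0) (hq𝔪 : (q : B) ∈ 𝔪)
    (𝔫 : Ideal B) (h𝔫 : 𝔫.IsMaximal) (h𝔪𝔫 : 𝔪 ≤ 𝔫) (hP0𝔫 : P0 ≤ 𝔫) (hPinf𝔫 : ¬ Pinf ≤ 𝔫)
    (huniq : ∀ 𝔑 : Ideal B, 𝔑.IsMaximal → (∀ x, α x ∈ 𝔫 → α x ∈ 𝔑) → P0 ≤ 𝔑 → 𝔑 = 𝔫)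
    (u : Λ₀) (hu𝔫 : β (ι₀ u) ∈ 𝔫)
    (hfrob0 : α (ι₀ u) - β (ι₀ u) ^ q ∈ P0)
    (hfrobinf : β (ι₀ u) - α (ι₀ u) ^ q ∈ Pinf) :
    ∃ ε : B₁, ι ε ∈ P0 ∧ ∀ δ : B₁, δ - 1 ∈ Ideal.span {(q : B₁)} →
      ∃ a : Λ₀, ι (β₀ u + δ * ε - α₀ a) ∈ Pinf ∧ ι (β₀ u + δ * ε - α₀ a) ∉ 𝔫 := by
  obtain ⟨𝔑, h𝔑max, hP𝔑, hα𝔑, e, heP0, he𝔑⟩ :=
    h40s_exists_pt α 𝔪 Pinf P0 𝔪Λ hker hmap hsurj 𝔫 h𝔫 h𝔪𝔫 hPinf𝔫 huniq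
  obtain ⟨ε, hε⟩ := hcongr e
  have hιε : ι ε = e - (e - ι ε) := by ring
  have hεP0 : ι ε ∈ P0 := by
    rw [hιε]
    exact P0.sub_mem heP0 (hmP0 hε)
  have hε𝔑 : ι ε ∉ 𝔑 := by
    intro h
    apply he𝔑
    have h1 := 𝔑.add_mem h (hP𝔑 (hmPinf hε))
    simpa using h1
  refine ⟨ε, hεP0, fun δ hδ => ?_⟩
  obtain ⟨a, ha⟩ := hsurj₀ (β₀ u + δ * ε)
  refine ⟨a, ha, ?_⟩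
  have hδ' : ι δ - 1 ∈ 𝔪 := by
    obtain ⟨c, hc⟩ := Ideal.mem_span_singleton'.mp hδ
    have h1 : ι δ - 1 = ι c * (q : B) := by
      rw [← map_natCast ι q, ← map_mul, hc, map_sub, map_one]
    rw [h1]
    exact 𝔪.mul_mem_left _ hq𝔪
  have hδ𝔑 : ι δ ∉ 𝔑 := by
    intro h
    have h1 : (1 : B) ∈ 𝔑 := by
      have h2 := 𝔑.sub_mem h (hP𝔑 (hmPinf hδ'))
      simpa using h2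
    exact h𝔑max.ne_top ((Ideal.eq_top_iff_one _).mpr h1)
  have hαu𝔫 : α (ι₀ u) ∈ 𝔫 := by
    have h1 := hP0𝔫 hfrob0
    have h2 : β (ι₀ u) ^ q ∈ 𝔫 := Ideal.pow_mem_of_mem 𝔫 hu𝔫 q (Nat.pos_of_ne_zero hq0)
    have h3 := 𝔫.add_mem h1 h2
    simpa using h3
  have hαu𝔑 : α (ι₀ u) ∈ 𝔑 := hα𝔑 _ hαu𝔫
  have hβu𝔑 : β (ι₀ u) ∈ 𝔑 := by
    have h1 := hP𝔑 hfrobinf
    have h2 : α (ι₀ u) ^ q ∈ 𝔑 := Ideal.pow_mem_of_mem 𝔑 hαu𝔑 q (Nat.pos_of_ne_zero hq0)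
    have h3 := 𝔑.add_mem h1 h2
    simpa using h3
  have hψ𝔑 : ι (β₀ u + δ * ε) ∉ 𝔑 := by
    intro h
    rw [map_add, map_mul, hβ] at h
    have h1 : ι δ * ι ε ∈ 𝔑 := by
      have h2 := 𝔑.sub_mem h hβu𝔑
      simpa using h2
    exact (h𝔑max.isPrime.mem_or_mem h1).elim hδ𝔑 hε𝔑
  have hαa𝔑 : α (ι₀ a) ∉ 𝔑 := by
    intro h
    apply hψ𝔑
    have h1 := hP𝔑 ha
    rw [map_sub, hα] at h1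
    have h2 := 𝔑.add_mem h1 h
    simpa using h2
  have hαa𝔫 : α (ι₀ a) ∉ 𝔫 := fun h => hαa𝔑 (hα𝔑 _ h)
  have hψ𝔫 : ι (β₀ u + δ * ε) ∈ 𝔫 := by
    rw [map_add, map_mul, hβ]
    exact 𝔫.add_mem hu𝔫 (𝔫.mul_mem_left _ (hP0𝔫 hεP0))
  intro h
  apply hαa𝔫
  rw [map_sub, hα] at h
  have h1 := 𝔫.sub_mem hψ𝔫 h
  simpa using h1

end Abs

end Fermat.Agent.S36
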