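import Mathlib
import Fermat.Agent.S36.H67Tower
import Fermat.Agent.S36.H40Kron
import Fermat.Agent.S36.H40GenB
import Fermat.Agent.S36.H40FinNode

/-!
# S36, block REG / TOR, row R-TOWER-SS (helper40, prefix `h40t_`): the tower argument at the
charts, on the `α`-side and on the `β`-side

`Λ₀ = h62rChart A M (jB M)`, `B₁ = h62rChart A (M q) (jSS M q)`,
`Bc = h62rChart A (M q²) (jB (M q²))`.

* `h40t_tower` : `h67t_tower` for the charts and an integral injective `ι : B₁ →+* Bc`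
  (no algebra instances; the dimension witness is supplied by `h40x_dim'`).
* `h40t_tower_a2` : **the `α`-side**: `ι = h59y_a2`, node datum `u` at `α₂⁻¹ 𝔫`; conclusion:
  `e₂ u ∈ 𝔫`, `𝔫 = (e₀ u, e₂ u)` locally, `𝔫` is the only maximal ideal over `α₂⁻¹ 𝔫`, and every
  `b ∈ Bc` is `p(e₂ u) / α₂ d` with `d ∉ α₂⁻¹ 𝔫`.
* `h40t_tower_b2` : **the `β`-side**: `ι = h59y_b2`, node datum `u` at `β₂⁻¹ 𝔫`; conclusion:
  `e₀ u ∈ 𝔫`, `𝔫 = (e₂ u, e₀ u)` locally, uniqueness, generation by `e₀ u`.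
* `h40t_finNode` : **`H62FinNode`** (the exact frozen leaf of `S36/H62FinIface.lean`).
-/

set_option autoImplicit false
set_option linter.style.haveILetI false
set_option linter.unusedSectionVars false

open AlgebraicCurve ModularCurve Polynomial

noncomputable section

namespace Fermat.Agent.S36

open Fermat.Agent.S37 Fermat.Agent.Red.Kron Fermat.Agent.LGC

section Generic

variable (A : ValuationSubring Kbar) (M : ℕ) {q : ℕ} [NeZero M] [NeZero q]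

theorem h40t_noeth (hq : q.Prime) (hA : A.LiesOverPrime q) :
    IsNoetherianRing (h62rChart A (M * q) (jSS M q)) := by
  rw [h59y_jSS_eq]
  exact h79n_isNoetherianRing_fin A (M * q) hq hA

set_option maxHeartbeats 800000 in
/-- **the tower argument for the charts** (`ι : B₁ →+* Bc` integral and injective). -/
theorem h40t_tower (hq : q.Prime) (hA : A.LiesOverPrime q)
    (ι : h62rChart A (M * q) (jSS M q) →+* h62rChart A (M * q * q) (jB (M * q * q)))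
    (hιinj : Function.Injective ι) (hιint : ι.IsIntegral)
    (𝔫 : Ideal (h62rChart A (M * q * q) (jB (M * q * q)))) (h𝔫 : 𝔫.IsMaximal)
    (hq𝔫 : ((q : ℕ) : h62rChart A (M * q * q) (jB (M * q * q))) ∈ 𝔫)
    (X1 Y1 ρ : h62rChart A (M * q) (jSS M q))
    (hX1 : ι X1 ∈ 𝔫) (hY1 : ι Y1 ∈ 𝔫) (hρ : ι ρ ∉ 𝔫)
    (hgen1 : ∀ b : h62rChart A (M * q) (jSS M q), ι b ∈ 𝔫 →
      ∃ t : h62rChart A (M * q) (jSS M q), ι t ∉ 𝔫 ∧ t * b ∈ Ideal.span {X1, Y1})
    (hf : (Y1 - X1 ^ q) * (Y1 ^ q - X1) + (q : h62rChart A (M * q) (jSS M q)) * ρ = 0)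
    (s : Polynomial (h62rChart A (M * q) (jSS M q))) (hsdeg : s.natDegree ≤ q)
    (hGX : (X1 - Y1 ^ q) * (X1 ^ q - Y1)
      + (q : h62rChart A (M * q) (jSS M q)) * s.eval X1 = 0)
    (Z : h62rChart A (M * q * q) (jB (M * q * q))) (hZX : Z ≠ ι X1)
    (hGZ : (Z - ι Y1 ^ q) * (Z ^ q - ι Y1)
      + (q : h62rChart A (M * q * q) (jB (M * q * q))) * (s.map ι).eval Z = 0)
    (hfrac : ∀ b : h62rChart A (M * q * q) (jB (M * q * q)),
      ∃ (p : Polynomial (h62rChart A (M * q) (jSS M q))) (d : h62rChart A (M * q) (jSS M q)),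
        d ≠ 0 ∧ ι d * b = (p.map ι).eval Z) :
    Z ∈ 𝔫 ∧
    (∀ z ∈ 𝔫, ∃ t, t ∉ 𝔫 ∧ t * z ∈ Ideal.span {ι X1, Z}) ∧
    (∀ 𝔫' : Ideal (h62rChart A (M * q * q) (jB (M * q * q))), 𝔫'.IsMaximal →
      𝔫'.comap ι = 𝔫.comap ι → 𝔫' = 𝔫) ∧
    (∀ b : h62rChart A (M * q * q) (jB (M * q * q)),
      ∃ (p : Polynomial (h62rChart A (M * q) (jSS M q))) (d : h62rChart A (M * q) (jSS M q)),
        ι d ∉ 𝔫 ∧ ι d * b = (p.map ι).eval Z) := by
  haveI := h𝔫
  haveI : IsNoetherianRing (h62rChart A (M * q) (jSS M q)) := h40t_noeth A M hq hA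
  letI algB1 : Algebra (h62rChart A (M * q) (jSS M q)) (FF (M * q * q)) :=
    ((h62rChart A (M * q * q) (jB (M * q * q))).subtype.comp ι).toAlgebra
  letI algBc : Algebra (h62rChart A (M * q * q) (jB (M * q * q))) (FF (M * q * q)) :=
    (h62rChart A (M * q * q) (jB (M * q * q))).subtype.toAlgebra
  have hB1inj : Function.Injective
      (algebraMap (h62rChart A (M * q) (jSS M q)) (FF (M * q * q))) := by
    intro x y hxy
    exact hιinj (Subtype.ext hxy)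
  have hBcinj : Function.Injective
      (algebraMap (h62rChart A (M * q * q) (jB (M * q * q))) (FF (M * q * q))) :=
    Subtype.val_injective
  have hint : ∀ b : h62rChart A (M * q * q) (jB (M * q * q)),
      IsIntegral (h62rChart A (M * q) (jSS M q))
        (algebraMap (h62rChart A (M * q * q) (jB (M * q * q))) (FF (M * q * q)) b) := by
    intro b
    obtain ⟨p, hp, hroot⟩ := hιint b
    refine ⟨p, hp, ?_⟩
    have h1 := hom_eval₂ p ι (h62rChart A (M * q * q) (jB (M * q * q))).subtype b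
    rw [hroot, map_zero] at h1
    exact h1.symm
  -- the dimension witness
  have hmax : (𝔫.comap ι).IsMaximal :=
    Ideal.isMaximal_comap_of_isIntegral_of_isMaximal' ι hιint 𝔫
  have hq₁ : ((q : ℕ) : h62rChart A (M * q) (jSS M q)) ∈ 𝔫.comap ι := by
    have h : ι ((q : ℕ) : h62rChart A (M * q) (jSS M q)) =
        ((q : ℕ) : h62rChart A (M * q * q) (jB (M * q * q))) := map_natCast ι q
    apply Ideal.mem_comap.mpr
    rw [h]
    exact hq𝔫
  obtain ⟨P, hP, hqP, hle, hne⟩ := h40x_dim' A M hq hA _ hmax hq₁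
  haveI := hP
  have hP0 : P ≠ ⊥ := h40h_vert_ne_bot A (M * q) hq (jSS M q) P hqP
  have hP𝔫 : ∀ b ∈ P, ι b ∈ 𝔫 := fun b hb => Ideal.mem_comap.mp (hle hb)
  have hPne : ∃ b, ι b ∈ 𝔫 ∧ b ∉ P := by
    by_contra hcon
    apply hne
    apply le_antisymm hle
    intro b hb
    by_contra hbP
    exact hcon ⟨b, Ideal.mem_comap.mp hb, hbP⟩
  exact h67t_tower (F := FF (M * q * q)) hB1inj hBcinj ι (fun _ => rfl) hint 𝔫 q hq.two_le hq𝔫
    X1 Y1 ρ hX1 hY1 hρ hgen1 P hP0 hP𝔫 hPne hf s hsdeg hGX Z hZX hGZ hfrac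

end Generic

/-! ## The two sides -/

section Sides

variable (A : ValuationSubring Kbar) (M : ℕ) {q : ℕ} [NeZero M] [NeZero q]

set_option maxHeartbeats 800000 in
/-- **R-TOWER-SS, `α`-side (full conclusion).** -/
theorem h40t_tower_a2 (hq : q.Prime) (hM : ¬ q ∣ M) (hA : A.LiesOverPrime q)
    (𝔫 : Ideal (h62rChart A (M * q * q) (jB (M * q * q)))) (h𝔫 : 𝔫.IsMaximal)
    (hq𝔫 : ((q : ℕ) : h62rChart A (M * q * q) (jB (M * q * q))) ∈ 𝔫)
    (u : h62rChart A M (jB M)) (hrat : IsRat (u : FF M))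
    (hX : h62rAlpha A M u ∈ 𝔫.comap (h59y_a2 A M))
    (hY : h62rBeta A M hq hM hA u ∈ 𝔫.comap (h59y_a2 A M))
    (ρ : h62rChart A (M * q) (jSS M q)) (hρ : ρ ∉ 𝔫.comap (h59y_a2 A M))
    (hrel : (h62rBeta A M hq hM hA u - h62rAlpha A M u ^ q) *
        (h62rBeta A M hq hM hA u ^ q - h62rAlpha A M u)
        + (q : h62rChart A (M * q) (jSS M q)) * ρ = 0)
    (hgen : h62rLocGen (𝔫.comap (h59y_a2 A M))
      (Ideal.span {h62rAlpha A M u, h62rBeta A M hq hM hA u})) :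
    h59y_e2 A M hq hM hA u ∈ 𝔫 ∧
    (∀ z ∈ 𝔫, ∃ t, t ∉ 𝔫 ∧
      t * z ∈ Ideal.span {h59y_e0 A M u, h59y_e2 A M hq hM hA u}) ∧
    (∀ 𝔫' : Ideal (h62rChart A (M * q * q) (jB (M * q * q))), 𝔫'.IsMaximal →
      𝔫'.comap (h59y_a2 A M) = 𝔫.comap (h59y_a2 A M) → 𝔫' = 𝔫) ∧
    (∀ b : h62rChart A (M * q * q) (jB (M * q * q)),
      ∃ (p : Polynomial (h62rChart A (M * q) (jSS M q))) (d : h62rChart A (M * q) (jSS M q)),
        h59y_a2 A M d ∉ 𝔫 ∧
        h59y_a2 A M d * b = (p.map (h59y_a2 A M)).eval (h59y_e2 A M hq hM hA u)) := by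
  haveI := h𝔫
  have hprime : (𝔫.comap (h59y_a2 A M)).IsPrime := Ideal.comap_isPrime _ _
  have hu : (u : FF M) ∉ Set.range (cst M) :=
    h40x_not_cst A M hq hM hA _ hprime u hX ρ hρ hrel
  obtain ⟨r, hdeg, -, R2, -, R4⟩ := h40w_relations A M hq hM hA u hrat
  have hgen1 : ∀ b : h62rChart A (M * q) (jSS M q), h59y_a2 A M b ∈ 𝔫 →
      ∃ t : h62rChart A (M * q) (jSS M q), h59y_a2 A M t ∉ 𝔫 ∧
        t * b ∈ Ideal.span {h62rAlpha A M u, h62rBeta A M hq hM hA u} := by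
    intro b hb
    obtain ⟨t, ht, htb⟩ := hgen b (Ideal.mem_comap.mpr hb)
    exact ⟨t, fun h => ht (Ideal.mem_comap.mpr h), htb⟩
  have hGZ : (h59y_e2 A M hq hM hA u - h59y_a2 A M (h62rBeta A M hq hM hA u) ^ q) *
      (h59y_e2 A M hq hM hA u ^ q - h59y_a2 A M (h62rBeta A M hq hM hA u))
      + (q : h62rChart A (M * q * q) (jB (M * q * q))) *
        ((r.map (h62rBeta A M hq hM hA)).map (h59y_a2 A M)).eval (h59y_e2 A M hq hM hA u)
        = 0 := by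
    rw [Polynomial.map_map]
    exact R4
  exact h40t_tower A M hq hA (h59y_a2 A M) (h59y_a2_injective A M) (h59y_a2_isIntegral A M)
    𝔫 h𝔫 hq𝔫 (h62rAlpha A M u) (h62rBeta A M hq hM hA u) ρ
    (Ideal.mem_comap.mp hX) (Ideal.mem_comap.mp hY) (fun h => hρ (Ideal.mem_comap.mpr h))
    hgen1 hrel (r.map (h62rBeta A M hq hM hA))
    ((Polynomial.natDegree_map_le).trans hdeg) R2 (h59y_e2 A M hq hM hA u)
    (h40y_e2_ne_a2 A M hq hM u hu _ rfl _) hGZ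
    (h40y_hfrac_a2 A M hq hM u hu _ rfl)

set_option maxHeartbeats 800000 in
/-- **R-TOWER-SS, `β`-side (full conclusion).** -/
theorem h40t_tower_b2 (hq : q.Prime) (hM : ¬ q ∣ M) (hA : A.LiesOverPrime q)
    (𝔫 : Ideal (h62rChart A (M * q * q) (jB (M * q * q)))) (h𝔫 : 𝔫.IsMaximal)
    (hq𝔫 : ((q : ℕ) : h62rChart A (M * q * q) (jB (M * q * q))) ∈ 𝔫)
    (u : h62rChart A M (jB M)) (hrat : IsRat (u : FF M))
    (hX : h62rAlpha A M u ∈ 𝔫.comap (h59y_b2 A M hq hM hA))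
    (hY : h62rBeta A M hq hM hA u ∈ 𝔫.comap (h59y_b2 A M hq hM hA))
    (ρ : h62rChart A (M * q) (jSS M q)) (hρ : ρ ∉ 𝔫.comap (h59y_b2 A M hq hM hA))
    (hrel : (h62rBeta A M hq hM hA u - h62rAlpha A M u ^ q) *
        (h62rBeta A M hq hM hA u ^ q - h62rAlpha A M u)
        + (q : h62rChart A (M * q) (jSS M q)) * ρ = 0)
    (hgen : h62rLocGen (𝔫.comap (h59y_b2 A M hq hM hA))
      (Ideal.span {h62rAlpha A M u, h62rBeta A M hq hM hA u})) :
    h59y_e0 A M u ∈ 𝔫 ∧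
    (∀ z ∈ 𝔫, ∃ t, t ∉ 𝔫 ∧
      t * z ∈ Ideal.span {h59y_e2 A M hq hM hA u, h59y_e0 A M u}) ∧
    (∀ 𝔫' : Ideal (h62rChart A (M * q * q) (jB (M * q * q))), 𝔫'.IsMaximal →
      𝔫'.comap (h59y_b2 A M hq hM hA) = 𝔫.comap (h59y_b2 A M hq hM hA) → 𝔫' = 𝔫) ∧
    (∀ b : h62rChart A (M * q * q) (jB (M * q * q)),
      ∃ (p : Polynomial (h62rChart A (M * q) (jSS M q))) (d : h62rChart A (M * q) (jSS M q)),
        h59y_b2 A M hq hM hA d ∉ 𝔫 ∧
        h59y_b2 A M hq hM hA d * b =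
          (p.map (h59y_b2 A M hq hM hA)).eval (h59y_e0 A M u)) := by
  haveI := h𝔫
  have hprime : (𝔫.comap (h59y_b2 A M hq hM hA)).IsPrime := Ideal.comap_isPrime _ _
  have hu : (u : FF M) ∉ Set.range (cst M) :=
    h40x_not_cst A M hq hM hA _ hprime u hX ρ hρ hrel
  obtain ⟨r, hdeg, R1, -, R3, -⟩ := h40w_relations A M hq hM hA u hrat
  have hgen1 : ∀ b : h62rChart A (M * q) (jSS M q), h59y_b2 A M hq hM hA b ∈ 𝔫 →
      ∃ t : h62rChart A (M * q) (jSS M q), h59y_b2 A M hq hM hA t ∉ 𝔫 ∧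
        t * b ∈ Ideal.span {h62rBeta A M hq hM hA u, h62rAlpha A M u} := by
    intro b hb
    obtain ⟨t, ht, htb⟩ := hgen b (Ideal.mem_comap.mpr hb)
    rw [Ideal.span_pair_comm] at htb
    exact ⟨t, fun h => ht (Ideal.mem_comap.mpr h), htb⟩
  have hf : (h62rAlpha A M u - h62rBeta A M hq hM hA u ^ q) *
      (h62rAlpha A M u ^ q - h62rBeta A M hq hM hA u)
      + (q : h62rChart A (M * q) (jSS M q)) * ρ = 0 := by
    linear_combination hrel
  have he1 : h59y_b2 A M hq hM hA (h62rAlpha A M u) = h59y_e1 A M hq hM hA u := by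
    rw [h59y_e1_eq']
    rfl
  have hGZ : (h59y_e0 A M u - h59y_b2 A M hq hM hA (h62rAlpha A M u) ^ q) *
      (h59y_e0 A M u ^ q - h59y_b2 A M hq hM hA (h62rAlpha A M u))
      + (q : h62rChart A (M * q * q) (jB (M * q * q))) *
        ((r.map (h62rAlpha A M)).map (h59y_b2 A M hq hM hA)).eval (h59y_e0 A M u)
        = 0 := by
    rw [Polynomial.map_map, ← h59y_e1_eq', he1]
    exact R3
  exact h40t_tower A M hq hA (h59y_b2 A M hq hM hA) (h59y_b2_injective A M hq hM hA)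
    (h59y_b2_isIntegral A M hq hM hA)
    𝔫 h𝔫 hq𝔫 (h62rBeta A M hq hM hA u) (h62rAlpha A M u) ρ
    (Ideal.mem_comap.mp hY) (Ideal.mem_comap.mp hX) (fun h => hρ (Ideal.mem_comap.mpr h))
    hgen1 hf (r.map (h62rAlpha A M))
    ((Polynomial.natDegree_map_le).trans hdeg) R1 (h59y_e0 A M u)
    (h40y_e0_ne_b2 A M hq hM hA u hu _ rfl _) hGZ
    (h40y_hfrac A M hq hM hA u hu _ rfl)

theorem h40t_a2_eq : h62rA2 A M (q := q) = h59y_a2 A M := RingHom.ext fun _ => rfl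

end Sides

/-! ## The frozen leaf -/

section Leaf

variable (A : ValuationSubring Kbar) (M : ℕ) {q : ℕ} [NeZero M] [NeZero q]

theorem h40t_a2_alpha (u : h62rChart A M (jB M)) :
    h59y_a2 A M (h62rAlpha A M (q := q) u) = h59y_e0 A M u := rfl

theorem h40t_a2_beta (hq : q.Prime) (hM : ¬ q ∣ M) (hA : A.LiesOverPrime q)
    (u : h62rChart A M (jB M)) :
    h59y_a2 A M (h62rBeta A M hq hM hA u) = h59y_e1 A M hq hM hA u := rfl

/-- the first Kronecker relation at level `M q²`. -/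
theorem h40t_kron1 (hq : q.Prime) (hM : ¬ q ∣ M) (hA : A.LiesOverPrime q)
    (u : h62rChart A M (jB M)) (ρ : h62rChart A (M * q) (jSS M q))
    (hrel : (h62rBeta A M hq hM hA u - h62rAlpha A M u ^ q) *
        (h62rBeta A M hq hM hA u ^ q - h62rAlpha A M u)
        + (q : h62rChart A (M * q) (jSS M q)) * ρ = 0) :
    (h59y_e1 A M hq hM hA u - h59y_e0 A M u ^ q) *
        (h59y_e1 A M hq hM hA u ^ q - h59y_e0 A M u) ∈
      Ideal.span {((q : ℕ) : h62rChart A (M * q * q) (jB (M * q * q)))} := by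
  have h1 := congrArg (h59y_a2 A M) hrel
  rw [map_zero, map_add, map_mul, map_mul, map_sub, map_sub, map_pow, map_pow,
    map_natCast, h40t_a2_alpha, h40t_a2_beta] at h1
  rw [Ideal.mem_span_singleton]
  exact ⟨- h59y_a2 A M ρ, by linear_combination h1⟩

/-- the second Kronecker relation at level `M q²`. -/
theorem h40t_kron2 (hq : q.Prime) (hM : ¬ q ∣ M) (hA : A.LiesOverPrime q)
    (u : h62rChart A M (jB M)) (hrat : IsRat (u : FF M)) :
    (h59y_e2 A M hq hM hA u - h59y_e1 A M hq hM hA u ^ q) *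
        (h59y_e2 A M hq hM hA u ^ q - h59y_e1 A M hq hM hA u) ∈
      Ideal.span {((q : ℕ) : h62rChart A (M * q * q) (jB (M * q * q)))} := by
  obtain ⟨r, -, -, -, -, R4⟩ := h40w_relations A M hq hM hA u hrat
  rw [Ideal.mem_span_singleton]
  exact ⟨- (r.map (h59y_e1 A M hq hM hA)).eval (h59y_e2 A M hq hM hA u),
    by linear_combination R4⟩

/-- the triple datum, generic constructor. -/
theorem h40t_datum_mk {B : Type*} [CommRing B] (𝔫 : Ideal B) (q : ℕ) (X Y Z : B)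
    (hX : X ∈ 𝔫) (hZ : Z ∈ 𝔫)
    (hloc : ∀ w ∈ 𝔫, ∃ s, s ∉ 𝔫 ∧ s * w ∈ Ideal.span {X, Z})
    (h1 : (Y - X ^ q) * (Y ^ q - X) ∈ Ideal.span {(q : B)})
    (h2 : (Z - Y ^ q) * (Z ^ q - Y) ∈ Ideal.span {(q : B)}) : H62Datum 𝔫 q :=
  Or.inl ⟨X, Y, Z, hX, hZ, hloc, h1, h2⟩

theorem h40t_e0_mem (𝔫 : Ideal (h62rChart A (M * q * q) (jB (M * q * q))))
    (u : h62rChart A M (jB M))
    (hX : h62rAlpha A M u ∈ 𝔫.comap (h59y_a2 A M)) : h59y_e0 A M u ∈ 𝔫 := by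
  rw [← h40t_a2_alpha]
  exact Ideal.mem_comap.mp hX

/-- the triple datum over a node. -/
theorem h40t_datum (hq : q.Prime) (hM : ¬ q ∣ M) (hA : A.LiesOverPrime q)
    (𝔫 : Ideal (h62rChart A (M * q * q) (jB (M * q * q)))) (h𝔫 : 𝔫.IsMaximal)
    (hq𝔫 : ((q : ℕ) : h62rChart A (M * q * q) (jB (M * q * q))) ∈ 𝔫)
    (hnode : H62NodeDatum A M hq hM hA (𝔫.comap (h59y_a2 A M))) : H62Datum 𝔫 q := by
  obtain ⟨u, hrat, hX, hY, ⟨ρ, hρ, hrel⟩, hgen⟩ := hnode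
  have h := h40t_tower_a2 A M hq hM hA 𝔫 h𝔫 hq𝔫 u hrat hX hY ρ hρ hrel hgen
  exact h40t_datum_mk 𝔫 q (h59y_e0 A M u) (h59y_e1 A M hq hM hA u) (h59y_e2 A M hq hM hA u)
    (h40t_e0_mem A M 𝔫 u hX) h.1 h.2.1 (h40t_kron1 A M hq hM hA u ρ hrel)
    (h40t_kron2 A M hq hM hA u hrat)

end Leaf

/-- **R-TOWER-SS: `H62FinNode`.** -/
theorem h40t_finNode : H62FinNode := by
  intro q hq M _ hM haux
  haveI : NeZero q := ⟨hq.ne_zero⟩
  intro A hA 𝔫₂ h𝔫₂ hq𝔫₂ hnode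
  have h : 𝔫₂.comap (h62rA2 A M) = 𝔫₂.comap (h59y_a2 A M) := by rw [h40t_a2_eq]
  rw [h] at hnode
  exact h40t_datum A M hq hM hA 𝔫₂ h𝔫₂ hq𝔫₂ hnode

end Fermat.Agent.S36
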