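import Mathlib
import Fermat.Agent.S36.H40Tower
import Fermat.Agent.S36.H71TorExp
import Fermat.Agent.S36.H12TorUniq

/-!
# S36, rows R-TOWER-SS / T-NORM / T-UNIT (helper40, prefix `h40t_`): the exports of the tower

* `h40t_towerGen : H71TowerGen` (exact frozen Prop of `S36/H71TorExp.lean`): outputs (1) + (4)
  of the tower argument at `ι = h62rA2`.
* `h40t_towerUniq : H12TowerUniq` (exact frozen Prop of `S36/H12TorUniq.lean`): output (3).
-/

set_option autoImplicit false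
set_option linter.style.haveILetI false
set_option linter.unusedSectionVars false

open AlgebraicCurve ModularCurve Polynomial

noncomputable section

namespace Fermat.Agent.S36

open Fermat.Agent.S37 Fermat.Agent.Red.Kron Fermat.Agent.LGC

/-- **tower generation.** -/
theorem h40t_towerGen : H71TowerGen := by
  intro q hq M _ hM haux
  haveI : NeZero q := ⟨hq.ne_zero⟩
  intro A hA 𝔫₂ h𝔫₂ hq𝔫₂ hnode
  have h : h62rA2 A M (q := q) = h59y_a2 A M := h40t_a2_eq A M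
  rw [h] at hnode ⊢
  obtain ⟨u, hrat, hX, hY, ⟨ρ, hρ, hrel⟩, hgen⟩ := hnode
  obtain ⟨hZ, -, -, hfrac⟩ :=
    h40t_tower_a2 A M hq hM hA 𝔫₂ h𝔫₂ hq𝔫₂ u hrat hX hY ρ hρ hrel hgen
  exact ⟨u, hrat, hX, hY, h59y_e2 A M hq hM hA u, h59y_coe_e2 A M hq hM hA u, hZ, hfrac⟩

/-- **tower uniqueness.** -/
theorem h40t_towerUniq : H12TowerUniq := by
  intro q hq M _ hM haux
  haveI : NeZero q := ⟨hq.ne_zero⟩
  intro A hA 𝔫₂ h𝔫₂ hq𝔫₂ hnode
  have h : h62rA2 A M (q := q) = h59y_a2 A M := h40t_a2_eq A M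
  rw [h] at hnode ⊢
  obtain ⟨u, hrat, hX, hY, ⟨ρ, hρ, hrel⟩, hgen⟩ := hnode
  obtain ⟨-, -, huniq, -⟩ :=
    h40t_tower_a2 A M hq hM hA 𝔫₂ h𝔫₂ hq𝔫₂ u hrat hX hY ρ hρ hrel hgen
  exact huniq

end Fermat.Agent.S36
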