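import Fermat.Agent.S36.H20NormSkel
import Fermat.Agent.Red.HKComm.Main
import Fermat.Agent.Red.HKComm.Deg

/-!
# S36, block (N), row N-EMB (second seat helper41, prefix `h41e_`): `H20EmbExists`

The embeddings `E11^ζ` (`ζ ^ q = 1`, `ζ ≠ 1`) and `E02` of `F₂ = FF (M q q)` into `ℚ̄((t))` exist.

Algebraic construction (no analysis): `F₁ = α₀ F₀ (θ)`, `θ = j(t^{M q})`, of degree `q + 1`;
`F₂ = α F₁ (β θ)` of degree `q`; the minimal polynomial `G` of `θ` over `α₀ F₀`, transported by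
`β₀ ∘ α₀⁻¹`, has the two coprime factors `X - w θ` and `minpoly (β θ)` over `F₁`, hence is their
product.  Two homomorphisms `a, b : F₁ → L` with `a ∘ β₀ = b ∘ α₀` and `b θ ≠ a (w θ)` therefore
glue to `E : F₂ → L` with `E ∘ α = a`, `E ∘ β = b` (`h41e_glue`).

* `h41e_glue` : the abstract gluing lemma (Mathlib only);
* `h41e_embExists : H20EmbExists` (unconditional).
-/

set_option autoImplicit false

open AlgebraicCurve ModularCurve Polynomial IntermediateField

noncomputable section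

namespace Fermat.Agent.S36

open Fermat.Agent.S24 (Kbar FF jBar jdBar)
open Fermat.Agent.Red.HKMod
open Fermat.Agent.Red.HKComm
open Fermat.Agent.Red.Kron

/-! ## the abstract gluing lemma -/

/-- **Gluing two embeddings.**  `F₁ / F₀` (via `algebraMap = α₀`) of degree `n + 1` generated by
`θ`, `F₂ / F₁` (via `algebraMap = α`) of degree `n` generated by `β θ`, where `α ∘ β₀ = β ∘ α₀`,
`w ∘ α₀ = β₀` and `α (w θ) ≠ β θ`.  Then two homomorphisms `a, b : F₁ → L` with
`a ∘ β₀ = b ∘ α₀` and `b θ ≠ a (w θ)` glue to a homomorphism `E : F₂ → L` with `E ∘ α = a`,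
`E ∘ β = b`. -/
theorem h41e_glue {F₀ F₁ F₂ L : Type*} [Field F₀] [Field F₁] [Field F₂] [Field L]
    [Algebra F₀ F₁] [Algebra F₁ F₂]
    (β₀ : F₀ →+* F₁) (β : F₁ →+* F₂) (w : F₁ →+* F₁)
    (hsq : ∀ x, algebraMap F₁ F₂ (β₀ x) = β (algebraMap F₀ F₁ x))
    (hw : ∀ x, w (algebraMap F₀ F₁ x) = β₀ x)
    (θ : F₁) (n : ℕ) (hn : 0 < n)
    (hgen₁ : IntermediateField.adjoin F₀ {θ} = ⊤) (hdeg₁ : Module.finrank F₀ F₁ = n + 1)
    (hgen₂ : IntermediateField.adjoin F₁ {β θ} = ⊤) (hdeg₂ : Module.finrank F₁ F₂ = n)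
    (hne : algebraMap F₁ F₂ (w θ) ≠ β θ)
    (a b : F₁ →+* L) (hab : ∀ x, a (β₀ x) = b (algebraMap F₀ F₁ x)) (hθ : b θ ≠ a (w θ)) :
    ∃ E : F₂ →+* L, (∀ x, E (algebraMap F₁ F₂ x) = a x) ∧ (∀ x, E (β x) = b x) := by
  classical
  have hfin₁ : FiniteDimensional F₀ F₁ :=
    Module.finite_of_finrank_pos (by rw [hdeg₁]; exact Nat.succ_pos n)
  have hfin₂ : FiniteDimensional F₁ F₂ :=
    Module.finite_of_finrank_pos (by rw [hdeg₂]; exact hn)
  have hint₁ : IsIntegral F₀ θ := IsIntegral.of_finite F₀ θ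
  have hint₂ : IsIntegral F₁ (β θ) := IsIntegral.of_finite F₁ (β θ)
  have hGdeg : (minpoly F₀ θ).natDegree = n + 1 := by
    rw [← IntermediateField.adjoin.finrank hint₁, hgen₁, IntermediateField.finrank_top', hdeg₁]
  have hHdeg : (minpoly F₁ (β θ)).natDegree = n := by
    rw [← IntermediateField.adjoin.finrank hint₂, hgen₂, IntermediateField.finrank_top', hdeg₂]
  have hG0 : Polynomial.eval₂ (algebraMap F₀ F₁) θ (minpoly F₀ θ) = 0 := by
    rw [← Polynomial.aeval_def]
    exact minpoly.aeval F₀ θ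
  -- the two roots of `G.map β₀`
  have h1 : ((minpoly F₀ θ).map β₀).eval (w θ) = 0 := by
    rw [Polynomial.eval_map]
    have e : β₀ = w.comp (algebraMap F₀ F₁) := RingHom.ext fun x => (hw x).symm
    rw [e, ← Polynomial.hom_eval₂, hG0, map_zero]
  have h2 : Polynomial.aeval (β θ) ((minpoly F₀ θ).map β₀) = 0 := by
    rw [Polynomial.aeval_def, Polynomial.eval₂_map]
    have e : (algebraMap F₁ F₂).comp β₀ = β.comp (algebraMap F₀ F₁) :=
      RingHom.ext fun x => hsq x
    rw [e, ← Polynomial.hom_eval₂, hG0, map_zero]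
  have hHdvd : minpoly F₁ (β θ) ∣ (minpoly F₀ θ).map β₀ := minpoly.dvd F₁ (β θ) h2
  have hXdvd : (X - C (w θ)) ∣ (minpoly F₀ θ).map β₀ := Polynomial.dvd_iff_isRoot.mpr h1
  have hcop : IsCoprime (X - C (w θ)) (minpoly F₁ (β θ)) := by
    rw [(Polynomial.irreducible_X_sub_C (w θ)).coprime_iff_not_dvd]
    rintro ⟨u, hu⟩
    have hirr := minpoly.irreducible hint₂
    rw [hu] at hirr
    rcases hirr.isUnit_or_isUnit rfl with h | h
    · exact Polynomial.not_isUnit_X_sub_C (w θ) h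
    · obtain ⟨c, hc, rfl⟩ := Polynomial.isUnit_iff.mp h
      have h3 := minpoly.aeval F₁ (β θ)
      rw [hu, map_mul, Polynomial.aeval_C, map_sub, Polynomial.aeval_X, Polynomial.aeval_C] at h3
      rcases mul_eq_zero.mp h3 with h4 | h4
      · exact hne (sub_eq_zero.mp h4).symm
      · exact hc.ne_zero ((map_eq_zero_iff _ (algebraMap F₁ F₂).injective).mp h4)
  have hprod : (X - C (w θ)) * minpoly F₁ (β θ) ∣ (minpoly F₀ θ).map β₀ :=
    hcop.mul_dvd hXdvd hHdvd
  have hGm : ((minpoly F₀ θ).map β₀).Monic := (minpoly.monic hint₁).map β₀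
  have hPm : ((X - C (w θ)) * minpoly F₁ (β θ)).Monic :=
    (Polynomial.monic_X_sub_C _).mul (minpoly.monic hint₂)
  have hdegs : ((minpoly F₀ θ).map β₀).natDegree ≤
      ((X - C (w θ)) * minpoly F₁ (β θ)).natDegree := by
    rw [Polynomial.natDegree_map, hGdeg,
      (Polynomial.monic_X_sub_C (w θ)).natDegree_mul (minpoly.monic hint₂),
      Polynomial.natDegree_X_sub_C, hHdeg, add_comm]
  have hEq : (X - C (w θ)) * minpoly F₁ (β θ) = (minpoly F₀ θ).map β₀ :=
    (Polynomial.eq_of_monic_of_dvd_of_natDegree_le hPm hGm hprod hdegs).symm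
  -- the image of `β θ`
  have h3 : (((minpoly F₀ θ).map β₀).map a).eval (b θ) = 0 := by
    rw [Polynomial.map_map, Polynomial.eval_map]
    have e : a.comp β₀ = b.comp (algebraMap F₀ F₁) := RingHom.ext fun x => hab x
    rw [e, ← Polynomial.hom_eval₂, hG0, map_zero]
  rw [← hEq, Polynomial.map_mul, Polynomial.eval_mul, Polynomial.map_sub, Polynomial.map_X,
    Polynomial.map_C, Polynomial.eval_sub, Polynomial.eval_X, Polynomial.eval_C] at h3
  have h4 : ((minpoly F₁ (β θ)).map a).eval (b θ) = 0 :=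
    (mul_eq_zero.mp h3).resolve_left (sub_ne_zero.mpr hθ)
  -- the lift
  let iL : Algebra F₁ L := a.toAlgebra
  have h5 : Polynomial.aeval (b θ) (minpoly F₁ (β θ)) = 0 := by
    rw [Polynomial.aeval_def, ← Polynomial.eval_map]
    exact h4
  let pb := IntermediateField.adjoin.powerBasis hint₂
  have h6 : Polynomial.aeval (b θ) (minpoly F₁ pb.gen) = 0 := by
    rw [IntermediateField.adjoin.powerBasis_gen, IntermediateField.minpoly_gen]
    exact h5
  let E₀ : F₁⟮β θ⟯ →ₐ[F₁] L := pb.lift (b θ) h6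
  let e : F₂ ≃ₐ[F₁] F₁⟮β θ⟯ :=
    (IntermediateField.topEquiv (F := F₁) (E := F₂)).symm.trans
      (IntermediateField.equivOfEq hgen₂.symm)
  let E : F₂ →ₐ[F₁] L := E₀.comp (e : F₂ →ₐ[F₁] F₁⟮β θ⟯)
  have hEθ : E (β θ) = b θ := by
    have h7 : (e (β θ) : F₁⟮β θ⟯) = pb.gen := by
      apply Subtype.ext
      rw [IntermediateField.adjoin.powerBasis_gen]
      rfl
    show E₀ (e (β θ)) = b θ
    rw [h7]
    exact pb.lift_gen (b θ) h6
  refine ⟨E.toRingHom, fun x => E.commutes x, ?_⟩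
  -- `E ∘ β = b` on `F₁ = F₀(θ)`
  let i0L : Algebra F₀ L := (b.comp (algebraMap F₀ F₁)).toAlgebra
  let f₁ : F₁ →ₐ[F₀] L :=
    { toRingHom := (E.toRingHom).comp β
      commutes' := fun c => by
        show E (β (algebraMap F₀ F₁ c)) = b (algebraMap F₀ F₁ c)
        rw [← hsq, E.commutes]
        exact hab c }
  let f₂ : F₁ →ₐ[F₀] L :=
    { toRingHom := b
      commutes' := fun c => rfl }
  have hadj : Algebra.adjoin F₀ ({θ} : Set F₁) = ⊤ := by
    rw [← IntermediateField.adjoin_simple_toSubalgebra_of_isAlgebraic hint₁.isAlgebraic, hgen₁]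
    rfl
  have hff : f₁ = f₂ := by
    refine AlgHom.ext_of_adjoin_eq_top hadj ?_
    intro x hx
    rw [Set.mem_singleton_iff] at hx
    subst hx
    exact hEθ
  intro x
  exact congrArg (fun f : F₁ →ₐ[F₀] L => f x) hff


/-! ## generation over an intermediate field -/

/-- if `F' = K(φ y, z)` then `F' = F(z)`. -/
theorem h41e_adjoin_top {K F F' : Type*} [Field K] [Field F] [Field F'] [Algebra K F]
    [Algebra K F'] [Algebra F F'] [IsScalarTower K F F'] (y : F) (z : F')
    (h : IntermediateField.adjoin K ({algebraMap F F' y, z} : Set F') = ⊤) :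
    IntermediateField.adjoin F ({z} : Set F') = ⊤ := by
  rw [eq_top_iff]
  intro x _
  have hx : x ∈ IntermediateField.adjoin K ({algebraMap F F' y, z} : Set F') := by
    rw [h]
    trivial
  have hle : IntermediateField.adjoin K ({algebraMap F F' y, z} : Set F') ≤
      (IntermediateField.adjoin F ({z} : Set F')).restrictScalars K := by
    rw [IntermediateField.adjoin_le_iff]
    rintro t ht
    rcases ht with rfl | ht
    · exact (IntermediateField.adjoin F ({z} : Set F')).algebraMap_mem y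
    · rw [Set.mem_singleton_iff] at ht
      subst ht
      exact IntermediateField.mem_adjoin_simple_self F t
  exact hle hx

/-! ## coefficients of `j(t^d)` -/

theorem h41e_coeff_jdBar_mul (N d : ℕ) [NeZero d] (hd : d ∣ N) (k : ℤ) :
    ((jdBar N d hd : FF N) : LaurentSeries Kbar).coeff ((d : ℤ) * k)
      = algebraMap ℚ Kbar (jq.coeff k) := by
  rw [Fermat.Agent.S24.coe_jdBar, coeffEmb, coeffMap_coeff, qExpand_coeff_mul]

theorem h41e_coeff_jdBar_self (N d : ℕ) [NeZero d] (hd : d ∣ N) :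
    ((jdBar N d hd : FF N) : LaurentSeries Kbar).coeff (-(d : ℤ)) = 1 := by
  have h := h41e_coeff_jdBar_mul N d hd (-1)
  rw [coeff_jq_neg_one, map_one, mul_neg, mul_one] at h
  exact h

theorem h41e_coeff_jdBar_lt (N d : ℕ) [NeZero d] (hd : d ∣ N) (k : ℤ) (hk : k < -1) :
    ((jdBar N d hd : FF N) : LaurentSeries Kbar).coeff ((d : ℤ) * k) = 0 := by
  rw [h41e_coeff_jdBar_mul, coeff_jq_of_lt hk, map_zero]

/-! ## the tower `F₀ ⊆ F₁ ⊆ F₂` -/

section Tower

variable (M q : ℕ) [NeZero M] [NeZero q]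

/-- `α ∘ β₀ = β ∘ α₀`. -/
theorem h41e_square (x : FF M) :
    heckeAlphaBar Kbar (M * q) q (heckeBetaBar Kbar M q x)
      = heckeBetaBar Kbar (M * q) q (heckeAlphaBar Kbar M q x) :=
  Subtype.ext (by
    rw [coe_heckeAlphaBar, coe_heckeBetaBar, coe_heckeBetaBar, coe_heckeAlphaBar])

/-- `θ = j(t^{M q}) = β₀ (j(t^M))`. -/
theorem h41e_theta_eq :
    jdBar (M * q) (M * q) dvd_rfl = heckeBetaBar Kbar M q (jdBar M M dvd_rfl) := by
  rw [← jdBar_eq_beta M q M dvd_rfl]
  exact hksq_jdBar_congr (M * q) (mul_comm M q) _ _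

/-- `w θ = j(t^M)`. -/
theorem h41e_w_theta (hq : q.Prime) (hqM : ¬ q ∣ M) :
    kFricke M q hq hqM (jdBar (M * q) (M * q) dvd_rfl)
      = jdBar (M * q) M (dvd_mul_right M q) := by
  rw [h41e_theta_eq, kFricke_beta, ← jdBar_eq_alpha M q M dvd_rfl]

/-- `β θ = j(t^{M q q})`. -/
theorem h41e_beta_theta :
    heckeBetaBar Kbar (M * q) q (jdBar (M * q) (M * q) dvd_rfl)
      = jdBar (M * q * q) (M * q * q) dvd_rfl := by
  rw [← jdBar_eq_beta (M * q) q (M * q) dvd_rfl]
  exact hksq_jdBar_congr (M * q * q) (mul_comm q (M * q)) _ _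

/-- `F₁ = α₀ F₀ (θ)`. -/
theorem h41e_gen₁ :
    letI := algebraAlong (heckeAlphaBar Kbar M q)
    IntermediateField.adjoin (FF M) ({jdBar (M * q) (M * q) dvd_rfl} : Set (FF (M * q))) = ⊤ := by
  let _ := algebraAlong (heckeAlphaBar Kbar M q)
  have := isScalarTower_along (heckeAlphaBar Kbar M q)
  refine h41e_adjoin_top (K := Kbar) (jBar M) _ ?_
  have h : algebraMap (FF M) (FF (M * q)) (jBar M) = jBar (M * q) := heckeAlphaBar_jBar M q
  rw [h]
  exact gen (M * q)

/-- `F₂ = α F₁ (β θ)`. -/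
theorem h41e_gen₂ :
    letI := algebraAlong (heckeAlphaBar Kbar (M * q) q)
    IntermediateField.adjoin (FF (M * q))
      ({heckeBetaBar Kbar (M * q) q (jdBar (M * q) (M * q) dvd_rfl)} : Set (FF (M * q * q)))
        = ⊤ := by
  let _ := algebraAlong (heckeAlphaBar Kbar (M * q) q)
  have := isScalarTower_along (heckeAlphaBar Kbar (M * q) q)
  refine h41e_adjoin_top (K := Kbar) (jBar (M * q)) _ ?_
  have h : algebraMap (FF (M * q)) (FF (M * q * q)) (jBar (M * q)) = jBar (M * q * q) :=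
    heckeAlphaBar_jBar (M * q) q
  rw [h, h41e_beta_theta]
  exact gen (M * q * q)

/-- `[F₂ : α F₁] = q`. -/
theorem h41e_deg₂ (hq : q.Prime) :
    letI := algebraAlong (heckeAlphaBar Kbar (M * q) q)
    Module.finrank (FF (M * q)) (FF (M * q * q)) = q := by
  have h1 : M * q * 1 ∣ M * q * q := by
    rw [mul_one]
    exact dvd_mul_right _ _
  have h2 := h52deg_deg (M * q) (M * q * q) h1
  have h3 := hkdeg_psi_mul_prime (M * q) q (Nat.pos_of_ne_zero (NeZero.ne (M * q))) hq
  rw [if_pos (dvd_mul_left q M)] at h3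
  rw [h3, mul_comm] at h2
  have h4 : finrankAlong Kbar (degenE 1 h1) = q :=
    Nat.eq_of_mul_eq_mul_left
      (Nat.pos_of_ne_zero (hksq_dedekindPsi_ne_zero _ (NeZero.ne (M * q)))) h2
  have h5 : finrankAlong Kbar (heckeAlphaBar Kbar (M * q) q) = q := by
    rw [heckeAlphaBar_eq_degenE]
    exact h4
  exact h5

/-- `α (w θ) ≠ β θ`. -/
theorem h41e_ne (hq : q.Prime) :
    ((jdBar (M * q) M (dvd_mul_right M q) : FF (M * q)) : LaurentSeries Kbar) ≠
      qExpand Kbar q ((jdBar (M * q) (M * q) dvd_rfl : FF (M * q)) : LaurentSeries Kbar) := by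
  intro h
  have h1 := congrArg (fun s : LaurentSeries Kbar => s.coeff ((q : ℤ) * (-((M * q : ℕ) : ℤ)))) h
  rw [qExpand_coeff_mul, h41e_coeff_jdBar_self] at h1
  have h2 : (q : ℤ) * (-((M * q : ℕ) : ℤ)) = (M : ℤ) * (-((q : ℤ) * q)) := by
    push_cast
    ring
  have h3 : -((q : ℤ) * q) < -1 := by
    have hq2 : (2 : ℤ) ≤ q := by exact_mod_cast hq.two_le
    nlinarith
  rw [h2, h41e_coeff_jdBar_lt (M * q) M (dvd_mul_right M q) _ h3] at h1
  exact zero_ne_one h1

end Tower

/-! ## the embeddings -/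

/-- the standard embedding of `F₁`. -/
def h41e_coe (N : ℕ) : FF N →+* LaurentSeries Kbar :=
  algebraMap (FF N) (LaurentSeries Kbar)

theorem h41e_coe_apply (N : ℕ) (x : FF N) : h41e_coe N x = (x : LaurentSeries Kbar) := rfl

/-- **gluing at the level `M q q`.** -/
theorem h41e_glue_level (M q : ℕ) [NeZero M] [NeZero q] (hq : q.Prime) (hqM : ¬ q ∣ M)
    (a b : FF (M * q) →+* LaurentSeries Kbar)
    (hab : ∀ x : FF M, a (heckeBetaBar Kbar M q x) = b (heckeAlphaBar Kbar M q x))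
    (hθ : b (jdBar (M * q) (M * q) dvd_rfl) ≠ a (jdBar (M * q) M (dvd_mul_right M q))) :
    ∃ E : FF (M * q * q) →+* LaurentSeries Kbar,
      (∀ x : FF (M * q), E (heckeAlphaBar Kbar (M * q) q x) = a x) ∧
      (∀ x : FF (M * q), E (heckeBetaBar Kbar (M * q) q x) = b x) := by
  let i₀ : Algebra (FF M) (FF (M * q)) := algebraAlong (heckeAlphaBar Kbar M q)
  let i₁ : Algebra (FF (M * q)) (FF (M * q * q)) := algebraAlong (heckeAlphaBar Kbar (M * q) q)
  have hw : kFricke M q hq hqM (jdBar (M * q) (M * q) dvd_rfl)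
      = jdBar (M * q) M (dvd_mul_right M q) := h41e_w_theta M q hq hqM
  refine h41e_glue (heckeBetaBar Kbar M q : FF M →+* FF (M * q))
    (heckeBetaBar Kbar (M * q) q : FF (M * q) →+* FF (M * q * q))
    ((kFricke M q hq hqM : FF (M * q) ≃ₐ[Kbar] FF (M * q)) : FF (M * q) →+* FF (M * q))
    (fun x => h41e_square M q x) (fun x => kFricke_alpha M q hq hqM x)
    (jdBar (M * q) (M * q) dvd_rfl) q hq.pos (h41e_gen₁ M q)
    (finrank_heckeAlphaBar M q hq hqM) (h41e_gen₂ M q) (h41e_deg₂ M q hq) ?_ a b hab ?_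
  · intro h
    have h1 := congrArg (fun x : FF (M * q * q) => (x : LaurentSeries Kbar)) h
    apply h41e_ne M q hq
    have e1 : ((algebraMap (FF (M * q)) (FF (M * q * q))
        (((kFricke M q hq hqM : FF (M * q) ≃ₐ[Kbar] FF (M * q)) : FF (M * q) →+* FF (M * q))
          (jdBar (M * q) (M * q) dvd_rfl)) : FF (M * q * q)) : LaurentSeries Kbar)
        = ((jdBar (M * q) M (dvd_mul_right M q) : FF (M * q)) : LaurentSeries Kbar) := by
      show ((heckeAlphaBar Kbar (M * q) q (kFricke M q hq hqM (jdBar (M * q) (M * q) dvd_rfl)) :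
        FF (M * q * q)) : LaurentSeries Kbar) = _
      rw [coe_heckeAlphaBar, hw]
    have e2 : (((heckeBetaBar Kbar (M * q) q : FF (M * q) →+* FF (M * q * q))
        (jdBar (M * q) (M * q) dvd_rfl) : FF (M * q * q)) : LaurentSeries Kbar)
        = qExpand Kbar q ((jdBar (M * q) (M * q) dvd_rfl : FF (M * q)) : LaurentSeries Kbar) := by
      show ((heckeBetaBar Kbar (M * q) q (jdBar (M * q) (M * q) dvd_rfl) : FF (M * q * q)) :
        LaurentSeries Kbar) = _
      rw [coe_heckeBetaBar]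
    rw [← e1, ← e2]
    exact h1
  · intro h
    apply hθ
    rw [h]
    show a (kFricke M q hq hqM (jdBar (M * q) (M * q) dvd_rfl)) = _
    rw [hw]

/-- `ζ ^ M ≠ 1` for `ζ ^ q = 1`, `ζ ≠ 1`, `q ∤ M`. -/
theorem h41e_pow_ne_one (M q : ℕ) (hq : q.Prime) (hqM : ¬ q ∣ M) (ζ : Kbar) (hζq : ζ ^ q = 1)
    (hζ : ζ ≠ 1) : ζ ^ M ≠ 1 := by
  intro h
  have h1 : orderOf ζ ∣ q := orderOf_dvd_of_pow_eq_one hζq
  have h2 : orderOf ζ ∣ M := orderOf_dvd_of_pow_eq_one h
  rcases (Nat.dvd_prime hq).mp h1 with h3 | h3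
  · exact hζ (orderOf_eq_one_iff.mp h3)
  · exact hqM (h3 ▸ h2)

/-- **N-EMB.**  The embeddings `E11^ζ` and `E02` exist. -/
theorem h41e_embExists : H20EmbExists := by
  intro q hq M _ hqM
  have : NeZero q := ⟨hq.ne_zero⟩
  constructor
  · -- `E11^ζ`
    intro ζ hζq hζ
    have hζ0 : ζ ≠ 0 := by
      rintro rfl
      rw [zero_pow hq.ne_zero] at hζq
      exact zero_ne_one hζq
    obtain ⟨E, hE1, hE2⟩ := h41e_glue_level M q hq hqM (h41e_coe (M * q))
      ((twistHom ζ hζ0).comp ((h41e_coe (M * q)).comp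
        ((kFricke M q hq hqM : FF (M * q) ≃ₐ[Kbar] FF (M * q)) : FF (M * q) →+* FF (M * q))))
      (fun x => by
        show ((heckeBetaBar Kbar M q x : FF (M * q)) : LaurentSeries Kbar)
          = twistK ζ ((kFricke M q hq hqM (heckeAlphaBar Kbar M q x) : FF (M * q)) :
              LaurentSeries Kbar)
        rw [kFricke_alpha, coe_heckeBetaBar, twistK_qExpand q hζq])
      (by
        show twistK ζ ((kFricke M q hq hqM (jdBar (M * q) (M * q) dvd_rfl) : FF (M * q)) :
            LaurentSeries Kbar)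
          ≠ ((jdBar (M * q) M (dvd_mul_right M q) : FF (M * q)) : LaurentSeries Kbar)
        rw [h41e_w_theta M q hq hqM]
        intro h
        have h1 := congrArg (fun s : LaurentSeries Kbar => s.coeff (-(M : ℤ))) h
        rw [coeff_twistK, h41e_coeff_jdBar_self, one_mul, zpow_neg, zpow_natCast,
          inv_eq_one] at h1
        exact h41e_pow_ne_one M q hq hqM ζ hζq hζ h1)
    exact ⟨E, fun x => hE1 x, fun x => hE2 x⟩
  · -- `E02`
    obtain ⟨E, hE1, hE2⟩ := h41e_glue_level M q hq hqM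
      ((qExpand Kbar q).comp ((h41e_coe (M * q)).comp
        ((kFricke M q hq hqM : FF (M * q) ≃ₐ[Kbar] FF (M * q)) : FF (M * q) →+* FF (M * q))))
      ((h41e_coe (M * q)).comp
        ((kFricke M q hq hqM : FF (M * q) ≃ₐ[Kbar] FF (M * q)) : FF (M * q) →+* FF (M * q)))
      (fun x => by
        show qExpand Kbar q ((kFricke M q hq hqM (heckeBetaBar Kbar M q x) : FF (M * q)) :
            LaurentSeries Kbar)
          = ((kFricke M q hq hqM (heckeAlphaBar Kbar M q x) : FF (M * q)) : LaurentSeries Kbar)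
        rw [kFricke_alpha, kFricke_beta, coe_heckeBetaBar, coe_heckeAlphaBar])
      (by
        show ((kFricke M q hq hqM (jdBar (M * q) (M * q) dvd_rfl) : FF (M * q)) :
            LaurentSeries Kbar)
          ≠ qExpand Kbar q ((kFricke M q hq hqM (jdBar (M * q) M (dvd_mul_right M q)) :
              FF (M * q)) : LaurentSeries Kbar)
        have h1 : kFricke M q hq hqM (jdBar (M * q) M (dvd_mul_right M q))
            = jdBar (M * q) (M * q) dvd_rfl := by
          rw [← h41e_w_theta M q hq hqM, kFricke_kFricke]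
        rw [h41e_w_theta M q hq hqM, h1]
        exact h41e_ne M q hq)
    exact ⟨E, fun x => hE1 x, fun x => hE2 x⟩

end Fermat.Agent.S36
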