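import Fermat.Agent.S36.Skeleton
import Fermat.Agent.S35.H87NewQuartic

/-!
# S36, row INV-ASM (helper41): `InertiaNewAssembly`

From GEOM36 (`InertiaNewTorsion`), HECKE-a at all levels (`PushHeckeComm`), HECKE-c (`ConvKey`),
the commutativity of the Hecke operators on `J₀` and their commutation with Galois: for
`q² ∥ N`, `q ≠ p` and a Hecke polynomial `P` killing the forms of level `N / q`, the point `P • x`
is killed by a bounded exponent for every `p`-power torsion point `x` of `J₀(N)` which is fixed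
by the inertia group at `A`.

* `h41i_inertiaNewAssembly : InertiaNewAssembly` (the proof follows `h87q_newQuarticAssembly`).
-/

set_option autoImplicit false

open AlgebraicCurve ModularCurve

namespace Fermat.Agent.S36

open Fermat.Agent.S37 (Kbar GQ FF)
open Fermat.Agent.S35 (pushAlpha pushBeta KillsOld PushHeckeComm ConvKey h87q_push_eval)

/-- arithmetic: `v_q(M q) = 2` means `q ∥ M`. -/
theorem h41i_level (M q : ℕ) (hq : q.Prime) (hN : M * q ≠ 0)
    (hfac : (M * q).factorization q = 2) : q ∣ M ∧ ¬ q ^ 2 ∣ M := by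
  have h2 : q ^ 2 ∣ M * q := (hq.pow_dvd_iff_le_factorization hN).mpr (by rw [hfac])
  have h3 : ¬ q ^ 3 ∣ M * q := fun h => by
    have h4 := (hq.pow_dvd_iff_le_factorization hN).mp h
    rw [hfac] at h4
    exact absurd h4 (by norm_num)
  constructor
  · rw [pow_two] at h2
    exact Nat.dvd_of_mul_dvd_mul_right hq.pos h2
  · intro h
    apply h3
    rw [pow_succ]
    exact Nat.mul_dvd_mul h (dvd_refl q)

/-- **ASM36-A.**  Assembly of `InertiaNewStatement`. -/
theorem h41i_inertiaNewAssembly : InertiaNewAssembly := by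
  intro hGeom hPush hConv hComm hGal N p _ hp q hq hqp hfac A hA P hPvars hKill
  have hqN : q ∣ N := by
    have h2 : q ^ 2 ∣ N := (hq.pow_dvd_iff_le_factorization (NeZero.ne N)).mpr (by rw [hfac])
    exact (dvd_pow_self q (by norm_num : (2 : ℕ) ≠ 0)).trans h2
  obtain ⟨M, hM⟩ := hqN
  have hN : N = M * q := by rw [hM, Nat.mul_comm]
  subst hN
  have : NeZero q := ⟨hq.ne_zero⟩
  have : NeZero M := ⟨fun h0 => by
    have := NeZero.ne (M * q)
    rw [h0, Nat.zero_mul] at this
    exact this rfl⟩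
  obtain ⟨hqM, hq2M⟩ := h41i_level M q hq (NeZero.ne (M * q)) hfac
  have hcN : HeckeOperatorsCommuteBar (M * q) := hComm (M * q)
  have hcM : HeckeOperatorsCommuteBar M := hComm M
  obtain ⟨tc, htc, hconv⟩ := hConv M
  obtain ⟨tg, htg, hgeom⟩ := hGeom M q p hq hqM hq2M hp (Ne.symm hqp) A hA
  refine ⟨tg * tc, Nat.mul_pos htg htc, ?_⟩
  intro k x hx hI
  -- the good primes
  have hvarsMq : (↑P.vars : Set Nat.Primes) ⊆ {r : Nat.Primes | ¬ (r : ℕ) ∣ M * q} := by
    intro ℓ hℓ hdvd
    exact hPvars ℓ (Finset.mem_coe.1 hℓ) (Dvd.dvd.mul_right hdvd p)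
  have hvarsMp : ∀ ℓ ∈ P.vars, ¬ (ℓ : ℕ) ∣ M * p ^ k := by
    intro ℓ hℓ hdvd
    rcases (Nat.Prime.dvd_mul ℓ.2).1 hdvd with h | h
    · exact hPvars ℓ hℓ (Dvd.dvd.mul_right (Dvd.dvd.mul_right h q) p)
    · exact hPvars ℓ hℓ (Dvd.dvd.mul_left (ℓ.2.dvd_of_dvd_pow h) (M * q))
  have hkill : ((MvPolynomial.aeval (R := ℤ) (Fermat.Agent.S30.heckeTAll M) P :
      CuspForm.heckeAlgebra M 2 (∅ : Set ℕ)) :
      Module.End ℂ (CuspForm (CongruenceSubgroup.Gamma0 M) 2)) = 0 := hKill M rfl
  have hconv' := hconv (p ^ k) P (pow_pos hp.pos k) hvarsMp hkill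
  -- the point `z = P • x` and `y = tc • z`
  rw [heckeModuleBar_smul_def hcN P x]
  set z : JZero (M * q) := heckeEvalBar hcN P x with hz
  have hpz : p ^ k • z = 0 := by
    rw [hz, ← map_nsmul, hx, map_zero]
  -- `z` is fixed by inertia
  have hIz : ∀ σ ∈ A.inertiaSubgroupIn ℚ, σ • z = z := by
    intro σ hσ
    have h1 := h87q_push_eval hcN hcN (DistribSMul.toAddMonoidHom (JZero (M * q)) σ) Set.univ
      (fun r _ y => ((hGal (M * q)).2 r σ y).symm) P (Set.subset_univ _) x
    have h2 : σ • z = heckeEvalBar hcN P (σ • x) := h1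
    rw [h2, hI σ hσ]
  -- the two push-forwards kill `tc • z`
  have hpush : ∀ f : JZero (M * q) →+ JZero M,
      (∀ r : Nat.Primes, ¬ (r : ℕ) ∣ M * q → ∀ x : JZero (M * q),
        f (heckeOperatorBar (M * q) r x) = heckeOperatorBar M r (f x)) →
      f (tc • z) = 0 := by
    intro f hf
    have h1 : f z = heckeEvalBar hcM P (f x) :=
      h87q_push_eval hcN hcM f _ (fun r hr => hf r hr) P hvarsMq x
    have h2 : p ^ k • f x = 0 := by rw [← map_nsmul, hx, map_zero]
    have h3 := hconv' (f x) h2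
    rw [heckeModuleBar_smul_def hcM, map_mul, heckeEvalBar_C, Module.End.mul_apply,
      Module.End.intCast_apply, ← h1] at h3
    rw [map_nsmul, ← natCast_zsmul]
    exact h3
  have hα : pushAlpha M q (tc • z) = 0 :=
    hpush (pushAlpha M q) (fun r hr x => (hPush M q hq r hr x).1)
  have hβ : pushBeta M q (tc • z) = 0 :=
    hpush (pushBeta M q) (fun r hr x => (hPush M q hq r hr x).2)
  have hσn : ∀ (σ : GQ) (n : ℕ) (w : JZero (M * q)), σ • (n • w) = n • (σ • w) := fun σ n w =>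
    map_nsmul (DistribSMul.toAddMonoidHom (JZero (M * q)) σ) n w
  have hpy : p ^ k • (tc • z) = 0 := by
    rw [← mul_nsmul', Nat.mul_comm (p ^ k) tc, mul_nsmul', hpz, nsmul_zero]
  have hIy : ∀ σ ∈ A.inertiaSubgroupIn ℚ, σ • (tc • z) = tc • z := by
    intro σ hσ
    rw [hσn, hIz σ hσ]
  have hfin := hgeom k (tc • z) hpy hIy hα hβ
  rw [← mul_nsmul'] at hfin
  exact hfin

end Fermat.Agent.S36
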