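import Fermat.Agent.S36.H41TN2

/-!
# S36, block (T): polynomial congruences for the branch generation TN2 (helper41)

Prefix `h41p_`.  `E : FF N →+* ℚ̄((t))` any embedding, `Small = h11l_Small A E`
(`E x` Gauss-integral with reduction `0`), `G = softOT A` the Gauss ring.

* `h41p_small_natCast` : the prime `q` is small (for `A` over `q`).
* `h41p_small_eval_sub` : `a ≡ b ⟹ p(a) ≡ p(b)` for a polynomial with Gauss-integral
  coefficients (and `a, b` Gauss-integral).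
* `h41p_small_eval_map_sub` : `a ≡ φ b' ⟹ (p.map φ)(a) ≡ φ (p(b'))`.
* `h41p_frobPoly q p` : the polynomial with the coefficients `c_i ^ q`.
* `h41p_small_eval_pow` : `p(a)^q ≡ p^{(q)}(a^q)` (freshman's dream modulo `q`).
* `h41p_small_eval_map_frob` : `a^q ≡ φ b' ⟹ (p.map φ)(a)^q ≡ φ (p^{(q)}(b'))`.
* `h41p_small_eval₂_sub`, `h41p_small_eval₂_map_sub`, `h41p_small_eval₂_pow`,
  `h41p_small_eval₂_map_frob` : the same in `eval₂` form, for `p : R[X]` over any commutative ring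
  `R` with `ψ : R →+* FF N` Gauss-integral (e.g. `R` = a chart, `ψ = φ.comp subtype`).
* REFLECT: `h41p_small_of_qExpand` (`y(t^d)` small `⟹ y` small, `y ∈ FF N`),
  `h41p_small_of_twist` (`s(ω t)` small `⟹ s` small).
* TN2 in the `α / β` form: `h41p_tn2a_E20/_E11/_E02` (`G = β β u ≡ α ((β u)^q)`, `α (α u)`,
  `G^q ≡ α (β u)`), `h41p_tn2b_E20/_E11/_E02` (`G = α α u`: `G^q ≡ β (α u)`, `G ≡ β (β u)`,
  `G ≡ β ((α u)^q)`).

With the local generation of R-TOWER-SS (`ι d · b = p(Z)`, `Z ≡ Y^q`, `Z ≡ X`, `Z^q ≡ Y` along the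
three branches: `h41y_tn2_*`) these give the branch generation (TN2) of finding 1065.
-/

set_option autoImplicit false
set_option linter.unusedSectionVars false

open AlgebraicCurve ModularCurve Polynomial

noncomputable section

namespace Fermat.Agent.S36

open Fermat.Agent.S37 (Kbar GQ FF cst gal IsRat)
open Fermat.Agent.Red.Kron (kFricke twistK)
open Fermat.Agent.Red.GV.Soft

section Poly

variable {A : ValuationSubring Kbar} {N : ℕ}

/-- the subring of the functions which are Gauss-integral at `E`. -/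
def h41p_W (A : ValuationSubring Kbar) {N : ℕ} (E : FF N →+* LaurentSeries Kbar) :
    Subring (FF N) :=
  (softOT A (IsLocalRing.residue A)).comap E

theorem h41p_mem_W (E : FF N →+* LaurentSeries Kbar) (x : FF N) :
    x ∈ h41p_W A E ↔ E x ∈ softOT A (IsLocalRing.residue A) := Iff.rfl

theorem h41p_small_mem_W {E : FF N →+* LaurentSeries Kbar} {x : FF N}
    (h : h11l_Small A E x) : x ∈ h41p_W A E := h.1

/-- the prime `q` is small. -/
theorem h41p_small_natCast (q : ℕ) (hA : A.LiesOverPrime q)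
    (E : FF N →+* LaurentSeries Kbar) : h11l_Small A E ((q : ℕ) : FF N) := by
  have hqA : ((q : ℕ) : Kbar) ∈ A := A.nonunits_le hA
  have e : E ((q : ℕ) : FF N) = HahnSeries.C (((⟨(q : Kbar), hqA⟩ : A) : A) : Kbar) := by
    rw [map_natCast]
    exact (map_natCast (HahnSeries.C : Kbar →+* LaurentSeries Kbar) q).symm
  have hm : E ((q : ℕ) : FF N) ∈ softOT A (IsLocalRing.residue A) := by
    rw [e]
    exact C_mem_softOT A _ _
  refine ⟨hm, ?_⟩
  have e2 : (⟨E ((q : ℕ) : FF N), hm⟩ : softOT A (IsLocalRing.residue A)) =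
      ⟨HahnSeries.C (((⟨(q : Kbar), hqA⟩ : A) : A) : Kbar), C_mem_softOT A _ _⟩ :=
    Subtype.ext e
  rw [e2, softRedT_C, residue_eq_zero_of_nonunit A ⟨(q : Kbar), hqA⟩ hA, map_zero]

/-- `a ≡ b ⟹ p(a) ≡ p(b)`. -/
theorem h41p_small_eval_sub (E : FF N →+* LaurentSeries Kbar) (p : (FF N)[X])
    (hp : ∀ i, p.coeff i ∈ h41p_W A E) {a b : FF N} (ha : a ∈ h41p_W A E)
    (hb : b ∈ h41p_W A E) (h : h11l_Small A E (a - b)) :
    h11l_Small A E (p.eval a - p.eval b) := by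
  have hlift : p ∈ Polynomial.lifts (h41p_W A E).subtype := by
    rw [Polynomial.lifts_iff_coeff_lifts]
    intro n
    exact ⟨⟨p.coeff n, hp n⟩, rfl⟩
  obtain ⟨p', hp'⟩ := hlift
  obtain ⟨c, hc⟩ := Polynomial.sub_dvd_eval_sub (⟨a, ha⟩ : h41p_W A E) ⟨b, hb⟩ p'
  have e : p.eval a - p.eval b = (a - b) * (c : FF N) := by
    have h1 := congrArg (h41p_W A E).subtype hc
    rw [map_sub, map_mul, map_sub] at h1
    have h2 : ∀ x : h41p_W A E, (h41p_W A E).subtype (p'.eval x) = p.eval (x : FF N) := by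
      intro x
      rw [← hp', Polynomial.coe_mapRingHom]
      exact (Polynomial.eval_map_apply (h41p_W A E).subtype x).symm
    rw [h2, h2] at h1
    exact h1
  rw [e]
  exact h41y_small_mul_right h c.2

/-- `a ≡ φ b' ⟹ (p.map φ)(a) ≡ φ (p(b'))`. -/
theorem h41p_small_eval_map_sub {N' : ℕ} (φ : FF N' →+* FF N)
    (E : FF N →+* LaurentSeries Kbar) (p : (FF N')[X])
    (hp : ∀ i, φ (p.coeff i) ∈ h41p_W A E) {a : FF N} {b' : FF N'} (ha : a ∈ h41p_W A E)
    (hb : φ b' ∈ h41p_W A E) (h : h11l_Small A E (a - φ b')) :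
    h11l_Small A E ((p.map φ).eval a - φ (p.eval b')) := by
  have e : φ (p.eval b') = (p.map φ).eval (φ b') := (Polynomial.eval_map_apply φ b').symm
  rw [e]
  exact h41p_small_eval_sub E (p.map φ) (fun i => by rw [Polynomial.coeff_map]; exact hp i)
    ha hb h

/-- the polynomial with the coefficients `c_i ^ q`. -/
def h41p_frobPoly {R : Type*} [CommRing R] (q : ℕ) (p : R[X]) : R[X] :=
  ∑ i ∈ Finset.range (p.natDegree + 1), Polynomial.monomial i (p.coeff i ^ q)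

theorem h41p_frobPoly_eval {R : Type*} [CommRing R] (q : ℕ) (p : R[X]) (x : R) :
    (h41p_frobPoly q p).eval x = ∑ i ∈ Finset.range (p.natDegree + 1), p.coeff i ^ q * x ^ i := by
  unfold h41p_frobPoly
  rw [Polynomial.eval_finsetSum]
  refine Finset.sum_congr rfl (fun i _ => ?_)
  rw [Polynomial.eval_monomial]

theorem h41p_frobPoly_coeff {R : Type*} [CommRing R] (q : ℕ) (hq : 0 < q) (p : R[X]) (n : ℕ) :
    (h41p_frobPoly q p).coeff n = p.coeff n ^ q := by
  unfold h41p_frobPoly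
  rw [Polynomial.finsetSum_coeff]
  simp only [Polynomial.coeff_monomial]
  rw [Finset.sum_ite_eq' (Finset.range (p.natDegree + 1)) n (fun i => p.coeff i ^ q)]
  split_ifs with h
  · rfl
  · rw [Finset.mem_range, not_lt, Nat.add_one_le_iff] at h
    rw [Polynomial.coeff_eq_zero_of_natDegree_lt h, zero_pow hq.ne']

theorem h41p_frobPoly_map {R S : Type*} [CommRing R] [CommRing S] (q : ℕ) (hq : 0 < q)
    (φ : R →+* S) (p : R[X]) :
    (h41p_frobPoly q p).map φ = h41p_frobPoly q (p.map φ) := by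
  ext n
  rw [Polynomial.coeff_map, h41p_frobPoly_coeff q hq, h41p_frobPoly_coeff q hq,
    Polynomial.coeff_map, map_pow]

/-- freshman's dream for finite sums modulo an ideal containing `q`. -/
theorem h41p_sum_pow_sub {R : Type*} [CommRing R] (q : ℕ) (hq : q.Prime) (I : Ideal R)
    (hqI : ((q : ℕ) : R) ∈ I) {ι : Type*} (s : Finset ι) (f : ι → R) :
    (∑ i ∈ s, f i) ^ q - ∑ i ∈ s, f i ^ q ∈ I := by
  classical
  induction s using Finset.induction_on with
  | empty =>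
    rw [Finset.sum_empty, Finset.sum_empty, zero_pow hq.ne_zero, sub_zero]
    exact I.zero_mem
  | insert i s hi ih =>
    rw [Finset.sum_insert hi, Finset.sum_insert hi]
    obtain ⟨r, hr⟩ := exists_add_pow_prime_eq hq (f i) (∑ j ∈ s, f j)
    rw [hr]
    have e : f i ^ q + (∑ j ∈ s, f j) ^ q + ((q : ℕ) : R) * f i * (∑ j ∈ s, f j) * r -
        (f i ^ q + ∑ j ∈ s, f j ^ q) =
        ((∑ j ∈ s, f j) ^ q - ∑ j ∈ s, f j ^ q) +
          ((q : ℕ) : R) * (f i * (∑ j ∈ s, f j) * r) := by ring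
    rw [e]
    exact I.add_mem ih (I.mul_mem_right _ hqI)

/-- `p(a)^q ≡ p^{(q)}(a^q)`. -/
theorem h41p_small_eval_pow (q : ℕ) (hq : q.Prime) (hA : A.LiesOverPrime q)
    (E : FF N →+* LaurentSeries Kbar) (p : (FF N)[X])
    (hp : ∀ i, p.coeff i ∈ h41p_W A E) {a : FF N} (ha : a ∈ h41p_W A E) :
    h11l_Small A E (p.eval a ^ q - (h41p_frobPoly q p).eval (a ^ q)) := by
  -- the ideal of the small elements of `W`
  let I : Ideal (h41p_W A E) :=
    { carrier := {x | h11l_Small A E (x : FF N)}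
      add_mem' := fun {x y} hx hy => h41y_small_add hx hy
      zero_mem' := h41y_small_zero E
      smul_mem' := fun c x hx => h41y_small_mul_left c.2 hx }
  have hqI : ((q : ℕ) : h41p_W A E) ∈ I := h41p_small_natCast q hA E
  have key := h41p_sum_pow_sub q hq I hqI (Finset.range (p.natDegree + 1))
    (fun i => (⟨p.coeff i, hp i⟩ : h41p_W A E) * ⟨a, ha⟩ ^ i)
  have hk : h11l_Small A E
      (((∑ i ∈ Finset.range (p.natDegree + 1),
          (⟨p.coeff i, hp i⟩ : h41p_W A E) * ⟨a, ha⟩ ^ i) ^ q -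
        ∑ i ∈ Finset.range (p.natDegree + 1),
          ((⟨p.coeff i, hp i⟩ : h41p_W A E) * ⟨a, ha⟩ ^ i) ^ q : h41p_W A E) : FF N) := key
  refine (h41y_small_iff E _).mpr ?_
  have e : p.eval a ^ q - (h41p_frobPoly q p).eval (a ^ q) =
      (((∑ i ∈ Finset.range (p.natDegree + 1),
          (⟨p.coeff i, hp i⟩ : h41p_W A E) * ⟨a, ha⟩ ^ i) ^ q -
        ∑ i ∈ Finset.range (p.natDegree + 1),
          ((⟨p.coeff i, hp i⟩ : h41p_W A E) * ⟨a, ha⟩ ^ i) ^ q : h41p_W A E) : FF N) := by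
    rw [h41p_frobPoly_eval, Polynomial.eval_eq_sum_range]
    push_cast
    congr 1
    refine Finset.sum_congr rfl (fun i _ => ?_)
    rw [mul_pow, ← pow_mul, ← pow_mul, mul_comm i q]
  rw [e]
  exact hk

/-- `a^q ≡ φ b' ⟹ (p.map φ)(a)^q ≡ φ (p^{(q)}(b'))`. -/
theorem h41p_small_eval_map_frob {N' : ℕ} (q : ℕ) (hq : q.Prime) (hA : A.LiesOverPrime q)
    (φ : FF N' →+* FF N) (E : FF N →+* LaurentSeries Kbar) (p : (FF N')[X])
    (hp : ∀ i, φ (p.coeff i) ∈ h41p_W A E) {a : FF N} {b' : FF N'} (ha : a ∈ h41p_W A E)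
    (hb : φ b' ∈ h41p_W A E) (h : h11l_Small A E (a ^ q - φ b')) :
    h11l_Small A E ((p.map φ).eval a ^ q - φ ((h41p_frobPoly q p).eval b')) := by
  have hp' : ∀ i, (p.map φ).coeff i ∈ h41p_W A E := fun i => by
    rw [Polynomial.coeff_map]
    exact hp i
  have h1 := h41p_small_eval_pow q hq hA E (p.map φ) hp' ha
  have h2 := h41p_small_eval_map_sub φ E (h41p_frobPoly q p)
    (fun i => by
      rw [h41p_frobPoly_coeff q hq.pos, map_pow]
      exact pow_mem (hp i) q)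
    (pow_mem ha q) hb h
  rw [h41p_frobPoly_map q hq.pos] at h2
  have h3 := h41y_small_add h1 h2
  have e : (p.map φ).eval a ^ q - (h41p_frobPoly q (p.map φ)).eval (a ^ q) +
      ((h41p_frobPoly q (p.map φ)).eval (a ^ q) - φ ((h41p_frobPoly q p).eval b')) =
      (p.map φ).eval a ^ q - φ ((h41p_frobPoly q p).eval b') := by ring
  rw [e] at h3
  exact h3

/-! ### `eval₂` forms -/

/-- `a ≡ b ⟹ p(a) ≡ p(b)`, `eval₂` form. -/
theorem h41p_small_eval₂_sub {R : Type*} [CommRing R] (ψ : R →+* FF N)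
    (E : FF N →+* LaurentSeries Kbar) (hψ : ∀ r, ψ r ∈ h41p_W A E) (p : R[X]) {a b : FF N}
    (ha : a ∈ h41p_W A E) (hb : b ∈ h41p_W A E) (h : h11l_Small A E (a - b)) :
    h11l_Small A E (p.eval₂ ψ a - p.eval₂ ψ b) := by
  rw [Polynomial.eval₂_eq_eval_map, Polynomial.eval₂_eq_eval_map]
  exact h41p_small_eval_sub E (p.map ψ)
    (fun i => by rw [Polynomial.coeff_map]; exact hψ _) ha hb h

/-- `a ≡ φ b' ⟹ p(a) ≡ φ (p(b'))`, `eval₂` form. -/
theorem h41p_small_eval₂_map_sub {N' : ℕ} {R : Type*} [CommRing R] (f : R →+* FF N')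
    (φ : FF N' →+* FF N) (E : FF N →+* LaurentSeries Kbar)
    (hf : ∀ r, φ (f r) ∈ h41p_W A E) (p : R[X]) {a : FF N} {b' : FF N'}
    (ha : a ∈ h41p_W A E) (hb : φ b' ∈ h41p_W A E) (h : h11l_Small A E (a - φ b')) :
    h11l_Small A E (p.eval₂ (φ.comp f) a - φ (p.eval₂ f b')) := by
  rw [Polynomial.hom_eval₂]
  exact h41p_small_eval₂_sub (φ.comp f) E hf p ha hb h

/-- `p(a)^q ≡ p^{(q)}(a^q)`, `eval₂` form. -/
theorem h41p_small_eval₂_pow {R : Type*} [CommRing R] (q : ℕ) (hq : q.Prime)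
    (hA : A.LiesOverPrime q) (ψ : R →+* FF N) (E : FF N →+* LaurentSeries Kbar)
    (hψ : ∀ r, ψ r ∈ h41p_W A E) (p : R[X]) {a : FF N} (ha : a ∈ h41p_W A E) :
    h11l_Small A E (p.eval₂ ψ a ^ q - (h41p_frobPoly q p).eval₂ ψ (a ^ q)) := by
  rw [Polynomial.eval₂_eq_eval_map, Polynomial.eval₂_eq_eval_map,
    h41p_frobPoly_map q hq.pos]
  exact h41p_small_eval_pow q hq hA E (p.map ψ)
    (fun i => by rw [Polynomial.coeff_map]; exact hψ _) ha

/-- `a^q ≡ φ b' ⟹ p(a)^q ≡ φ (p^{(q)}(b'))`, `eval₂` form. -/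
theorem h41p_small_eval₂_map_frob {N' : ℕ} {R : Type*} [CommRing R] (q : ℕ) (hq : q.Prime)
    (hA : A.LiesOverPrime q) (f : R →+* FF N') (φ : FF N' →+* FF N)
    (E : FF N →+* LaurentSeries Kbar) (hf : ∀ r, φ (f r) ∈ h41p_W A E) (p : R[X])
    {a : FF N} {b' : FF N'} (ha : a ∈ h41p_W A E) (hb : φ b' ∈ h41p_W A E)
    (h : h11l_Small A E (a ^ q - φ b')) :
    h11l_Small A E (p.eval₂ (φ.comp f) a ^ q - φ ((h41p_frobPoly q p).eval₂ f b')) := by
  have h1 := h41p_small_eval₂_pow q hq hA (φ.comp f) E hf p ha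
  have h2 := h41p_small_eval₂_map_sub f φ E hf (h41p_frobPoly q p) (pow_mem ha q) hb h
  have h3 := h41y_small_add h1 h2
  have e : p.eval₂ (φ.comp f) a ^ q - (h41p_frobPoly q p).eval₂ (φ.comp f) (a ^ q) +
      ((h41p_frobPoly q p).eval₂ (φ.comp f) (a ^ q) - φ ((h41p_frobPoly q p).eval₂ f b')) =
      p.eval₂ (φ.comp f) a ^ q - φ ((h41p_frobPoly q p).eval₂ f b') := by ring
  rw [e] at h3
  exact h3

end Poly

/-! ## Reflection of smallness -/

section Reflect

variable {A : ValuationSubring Kbar}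

/-- `y(t^d)` small `⟹ y` small, for a function `y` of level `N`. -/
theorem h41p_small_of_qExpand {ℓ : ℕ} (hℓ : ℓ.Prime) (hA : A.LiesOverPrime ℓ) (N : ℕ)
    [NeZero N] (d : ℕ) [NeZero d] (y : FF N)
    (h : h41x_Small A (qExpand Kbar d (y : LaurentSeries Kbar))) :
    h41x_Small A (y : LaurentSeries Kbar) := by
  obtain ⟨m1, r1⟩ := h
  have m1' : heckeBetaBar Kbar N d y ∈ softV A (N * d) := by
    rw [mem_softV_iff, coe_heckeBetaBar]
    exact m1
  have m2 : y ∈ softV A N := (beta_mem_softV_iff A hℓ hA d y).mp m1'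
  have h2 := softR_beta A d ⟨y, m2⟩ m1'
  have e : softR A (N * d) ⟨heckeBetaBar Kbar N d y, m1'⟩ = 0 := by
    have e1 : softIncl A (N * d) ⟨heckeBetaBar Kbar N d y, m1'⟩ =
        ⟨qExpand Kbar d (y : LaurentSeries Kbar), m1⟩ :=
      Subtype.ext ((coe_softIncl A (N * d) _).trans (coe_heckeBetaBar N d y))
    show softRedT A _ (softIncl A (N * d) ⟨heckeBetaBar Kbar N d y, m1'⟩) = 0
    rw [e1]
    exact r1
  rw [e] at h2
  refine ⟨m2, ?_⟩
  have h3 : softR A N ⟨y, m2⟩ = 0 := by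
    apply qExpand_injective (R := IsLocalRing.ResidueField A) (N := d)
    rw [← h2, map_zero]
  exact h3

/-- `s(ω t)` small `⟹ s` small, for `ω` a root of unity of `q`-power order. -/
theorem h41p_small_of_twist (q : ℕ) (hq : q.Prime) (hA : A.LiesOverPrime q) (ω : Kbar)
    (hω : ω ^ q = 1) {s : LaurentSeries Kbar} (hsDF : s ∈ dfField (K := Kbar))
    (h : h41x_Small A (twistK ω s)) : h41x_Small A s := by
  have hω0 : ω ≠ 0 := by
    rintro rfl
    rw [zero_pow hq.ne_zero] at hω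
    exact zero_ne_one hω
  have hω' : ω⁻¹ ^ (q ^ 1) = 1 := by
    rw [pow_one, inv_pow, hω, inv_one]
  have hDF : twistK ω s ∈ dfField (K := Kbar) := h12e_twistK_mem_dfField hq.pos hω hsDF
  have h1 := h41y_smallS_twist q hq hA ω⁻¹ 1 hω' h.1 hDF
  rw [Fermat.Agent.Red.Kron.twistK_twistK, mul_inv_cancel₀ hω0,
    Fermat.Agent.Red.Kron.twistK_one_left] at h1
  have h2 := h41y_smallS_add h1 h
  rwa [sub_add_cancel] at h2

end Reflect

/-! ## TN2 in the `α / β` form -/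

section TN2ab

variable {M q : ℕ} [NeZero M] [NeZero q]

/-- `G = β β u ≡ α ((β u)^q)` at `E20`. -/
theorem h41p_tn2a_E20 (A : ValuationSubring Kbar) (hq : q.Prime) (hA : A.LiesOverPrime q)
    (u : FF M) (hrat : IsRat u) (hu : u ∈ softV A M) :
    h11l_Small A (h20n_E20 M q)
      (heckeBetaBar Kbar (M * q) q (heckeBetaBar Kbar M q u) -
        heckeAlphaBar Kbar (M * q) q (heckeBetaBar Kbar M q u ^ q)) := by
  have h := h41y_tn2_E20_ZY A hq hA u hrat hu
  rwa [h41y_e2_apply, h41y_e1_apply, ← map_pow] at h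

/-- `G = β β u ≡ α (α u)` at `E11`. -/
theorem h41p_tn2a_E11 (A : ValuationSubring Kbar) (hq : q.Prime) (hqM : ¬ q ∣ M)
    (hA : A.LiesOverPrime q) (ζ : Kbar) (hζ : ζ ^ q = 1)
    (E : FF (M * q * q) →+* LaurentSeries Kbar) (hE : h20n_IsE11 M q hq hqM ζ E)
    (u : FF M) (hu : u ∈ softV A M) :
    h11l_Small A E
      (heckeBetaBar Kbar (M * q) q (heckeBetaBar Kbar M q u) -
        heckeAlphaBar Kbar (M * q) q (heckeAlphaBar Kbar M q u)) :=
  h41y_tn2_E11_ZX A hq hqM hA ζ hζ E hE u hu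

/-- `G^q ≡ α (β u)` at `E02`, `G = β β u`. -/
theorem h41p_tn2a_E02 (A : ValuationSubring Kbar) (hq : q.Prime) (hqM : ¬ q ∣ M)
    (hA : A.LiesOverPrime q)
    (E0 : FF (M * q * q) →+* LaurentSeries Kbar) (hE0 : h20n_IsE02 M q hq hqM E0)
    (u : FF M) (hrat : IsRat u) (hu : u ∈ softV A M) :
    h11l_Small A E0
      (heckeBetaBar Kbar (M * q) q (heckeBetaBar Kbar M q u) ^ q -
        heckeAlphaBar Kbar (M * q) q (heckeBetaBar Kbar M q u)) :=
  h41y_tn2_E02_ZY A hq hqM hA E0 hE0 u hrat hu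

/-- `G^q ≡ β (α u)` at `E20`, `G = α α u`. -/
theorem h41p_tn2b_E20 (A : ValuationSubring Kbar) (hq : q.Prime) (hA : A.LiesOverPrime q)
    (u : FF M) (hrat : IsRat u) (hu : u ∈ softV A M) :
    h11l_Small A (h20n_E20 M q)
      (heckeAlphaBar Kbar (M * q) q (heckeAlphaBar Kbar M q u) ^ q -
        heckeBetaBar Kbar (M * q) q (heckeAlphaBar Kbar M q u)) := by
  have h := h41y_tn2_E20_XY A hq hA u hrat hu
  rwa [h41y_e0_apply, h67i_e1_eq] at h

/-- `G = α α u ≡ β (β u)` at `E11`. -/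
theorem h41p_tn2b_E11 (A : ValuationSubring Kbar) (hq : q.Prime) (hqM : ¬ q ∣ M)
    (hA : A.LiesOverPrime q) (ζ : Kbar) (hζ : ζ ^ q = 1)
    (E : FF (M * q * q) →+* LaurentSeries Kbar) (hE : h20n_IsE11 M q hq hqM ζ E)
    (u : FF M) (hu : u ∈ softV A M) :
    h11l_Small A E
      (heckeAlphaBar Kbar (M * q) q (heckeAlphaBar Kbar M q u) -
        heckeBetaBar Kbar (M * q) q (heckeBetaBar Kbar M q u)) :=
  h41y_tn2_E11_XZ A hq hqM hA ζ hζ E hE u hu

/-- `G = α α u ≡ β ((α u)^q)` at `E02`. -/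
theorem h41p_tn2b_E02 (A : ValuationSubring Kbar) (hq : q.Prime) (hqM : ¬ q ∣ M)
    (hA : A.LiesOverPrime q)
    (E0 : FF (M * q * q) →+* LaurentSeries Kbar) (hE0 : h20n_IsE02 M q hq hqM E0)
    (u : FF M) (hrat : IsRat u) (hu : u ∈ softV A M) :
    h11l_Small A E0
      (heckeAlphaBar Kbar (M * q) q (heckeAlphaBar Kbar M q u) -
        heckeBetaBar Kbar (M * q) q (heckeAlphaBar Kbar M q u ^ q)) := by
  have h := h41y_tn2_E02_XY A hq hqM hA E0 hE0 u hrat hu
  rwa [h41y_e0_apply, h67i_e1_eq, ← map_pow] at h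

end TN2ab

end Fermat.Agent.S36
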