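import Fermat.Agent.Red.Kron.Emb

/-!
# S36 / (V): evaluation of cusp embeddings on scaled copies

If `diag(d, 1) · g = γ' · (a b; 0 e)` with `γ' ∈ Γ₀(M)`, then for `x ∈ F_M` and `f ∈ F_L` with
`f(t) = x(t^d)`, the expansion of `f ∘ g` in `𝕋 = exp (2πiτ/L)` is `x(ω 𝕋^E)`, where
`ω = exp (2πi b / e)` and `E = a L / e`.
-/

set_option autoImplicit false
set_option linter.style.haveILetI false
set_option linter.unusedSectionVars false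

open ModularCurve AlgebraicCurve CongruenceSubgroup IntermediateField UpperHalfPlane
open scoped MatrixGroups Manifold

noncomputable section

namespace Fermat.Agent.S36

open Fermat.Agent.S28 (HasTExp jAn jAt cEmb scaleH affH twist twistDil)
open Fermat.Agent.S24 Fermat.Agent.Red.Kron

/-- point identity from the matrix identity `diag(d, 1) · g = γ' · (a b; 0 e)`. -/
theorem h44s_scale_smul (g γ' : SL(2, ℤ)) (d a e : ℕ) (b : ℤ) (hd : 0 < d) (ha : 0 < a)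
    (he : 0 < e)
    (h00 : (d : ℤ) * g 0 0 = γ' 0 0 * a)
    (h01 : (d : ℤ) * g 0 1 = γ' 0 0 * b + γ' 0 1 * e)
    (h10 : g 1 0 = γ' 1 0 * a)
    (h11 : g 1 1 = γ' 1 0 * b + γ' 1 1 * e) (τ : ℍ) :
    scaleH d (g • τ) =
      γ' • affH (a : ℝ) (b : ℝ) (e : ℝ) (by exact_mod_cast ha) (by exact_mod_cast he) τ := by
  have hec : (e : ℂ) ≠ 0 := by exact_mod_cast he.ne'
  have hden : (((g 1 0 : ℤ)) : ℂ) * (τ : ℂ) + (((g 1 1 : ℤ)) : ℂ) ≠ 0 := by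
    have := UpperHalfPlane.denom_ne_zero ((g : SL(2, ℤ)) : GL (Fin 2) ℝ) τ
    rwa [ModularGroup.denom_apply] at this
  have hden' : (((γ' 1 0 : ℤ)) : ℂ) *
      ((affH (a : ℝ) (b : ℝ) (e : ℝ) (by exact_mod_cast ha) (by exact_mod_cast he) τ : ℍ) : ℂ) +
      (((γ' 1 1 : ℤ)) : ℂ) ≠ 0 := by
    have := UpperHalfPlane.denom_ne_zero ((γ' : SL(2, ℤ)) : GL (Fin 2) ℝ)
      (affH (a : ℝ) (b : ℝ) (e : ℝ) (by exact_mod_cast ha) (by exact_mod_cast he) τ)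
    rwa [ModularGroup.denom_apply] at this
  have c00 : (d : ℂ) * ((g 0 0 : ℤ) : ℂ) = ((γ' 0 0 : ℤ) : ℂ) * (a : ℂ) := by exact_mod_cast h00
  have c01 : (d : ℂ) * ((g 0 1 : ℤ) : ℂ) =
      ((γ' 0 0 : ℤ) : ℂ) * (b : ℂ) + ((γ' 0 1 : ℤ) : ℂ) * (e : ℂ) := by exact_mod_cast h01
  have c10 : ((g 1 0 : ℤ) : ℂ) = ((γ' 1 0 : ℤ) : ℂ) * (a : ℂ) := by exact_mod_cast h10
  have c11 : ((g 1 1 : ℤ) : ℂ) =
      ((γ' 1 0 : ℤ) : ℂ) * (b : ℂ) + ((γ' 1 1 : ℤ) : ℂ) * (e : ℂ) := by exact_mod_cast h11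
  apply UpperHalfPlane.ext
  rw [Fermat.Agent.S28.coe_scaleH hd, UpperHalfPlane.coe_specialLinearGroup_apply,
    UpperHalfPlane.coe_specialLinearGroup_apply]
  simp only [algebraMap_int_eq, Int.coe_castRingHom, Complex.ofReal_intCast]
  rw [Fermat.Agent.S28.coe_affH] at hden' ⊢
  push_cast at hden hden' ⊢
  have hX : (d : ℂ) * (((g 0 0 : ℤ) : ℂ) * (τ : ℂ) + ((g 0 1 : ℤ) : ℂ)) =
      ((γ' 0 0 : ℤ) : ℂ) * ((a : ℂ) * (τ : ℂ) + (b : ℂ)) + ((γ' 0 1 : ℤ) : ℂ) * (e : ℂ) := by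
    linear_combination (τ : ℂ) * c00 + c01
  have hY : ((g 1 0 : ℤ) : ℂ) * (τ : ℂ) + ((g 1 1 : ℤ) : ℂ) =
      ((γ' 1 0 : ℤ) : ℂ) * ((a : ℂ) * (τ : ℂ) + (b : ℂ)) + ((γ' 1 1 : ℤ) : ℂ) * (e : ℂ) := by
    linear_combination (τ : ℂ) * c10 + c11
  have hN2 : ((γ' 0 0 : ℤ) : ℂ) * (((a : ℂ) * (τ : ℂ) + (b : ℂ)) / (e : ℂ)) + ((γ' 0 1 : ℤ) : ℂ) =
      (((γ' 0 0 : ℤ) : ℂ) * ((a : ℂ) * (τ : ℂ) + (b : ℂ)) + ((γ' 0 1 : ℤ) : ℂ) * (e : ℂ)) /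
        (e : ℂ) := by
    field_simp
  have hD2 : ((γ' 1 0 : ℤ) : ℂ) * (((a : ℂ) * (τ : ℂ) + (b : ℂ)) / (e : ℂ)) + ((γ' 1 1 : ℤ) : ℂ) =
      (((γ' 1 0 : ℤ) : ℂ) * ((a : ℂ) * (τ : ℂ) + (b : ℂ)) + ((γ' 1 1 : ℤ) : ℂ) * (e : ℂ)) /
        (e : ℂ) := by
    field_simp
  rw [mul_div_assoc', hX, hY, hN2, hD2, div_div_div_cancel_right₀ hec]

/-- **evaluation of a cusp embedding on a scaled copy.** -/
theorem h44s_eval (M L : ℕ) [NeZero M] [NeZero L] (g γ' : SL(2, ℤ)) (hγ' : γ' ∈ Gamma0 M)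
    (d a e E : ℕ) [NeZero d] [NeZero E] (b : ℤ) (ha : 0 < a) (he : 0 < e)
    (hE : a * L = E * (e * 1))
    (hpt : ∀ τ : ℍ, scaleH d (g • τ) =
      γ' • affH (a : ℝ) (b : ℝ) (e : ℝ) (by exact_mod_cast ha) (by exact_mod_cast he) τ)
    (x : FF M) (f : FF L)
    (hf : (f : LaurentSeries Kbar) = qExpand Kbar d (x : LaurentSeries Kbar)) :
    h19_cuspEmb L g⁻¹ f =
      qExpand ℂ E (twistK (Complex.exp (2 * Real.pi * Complex.I * (b : ℂ) /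
        ((e : ℂ) * ((1 : ℕ) : ℂ)))) (coeffMap embC (x : LaurentSeries Kbar))) := by
  have hL : 0 < L := Nat.pos_of_ne_zero (NeZero.ne L)
  obtain ⟨P, Q, hx⟩ := exists_isAn M x
  obtain ⟨p₁, q₁, hP, hQ, hrel⟩ := hx.rel
  have hq₁ : q₁ ≠ 0 := h23_series_ne_zero hQ hx.Q_ne
  set ω : ℂ := Complex.exp (2 * Real.pi * Complex.I * (b : ℂ) / ((e : ℂ) * ((1 : ℕ) : ℂ)))
    with hω
  have hω0 : ω ≠ 0 := Complex.exp_ne_zero _
  have haff : ∀ {F : ℍ → ℂ} {s : LaurentSeries ℂ}, HasTExp 1 F s →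
      (∀ γ ∈ Gamma0 M, ∀ τ : ℍ, F (γ • τ) = F τ) →
      HasTExp L (fun τ => F (scaleH d (g⁻¹⁻¹ • τ))) (qExpand ℂ E (twistK ω s)) := by
    intro F s hF hinv
    have h1 := hF.affine (M := 1) (N := L) (a := a) (d := e) (e := E) (b := b) he one_pos
      hL hE
      (affH (a : ℝ) (b : ℝ) (e : ℝ) (by exact_mod_cast ha) (by exact_mod_cast he))
      (fun τ => by rw [Fermat.Agent.S28.coe_affH]; push_cast; ring)
    refine h1.congr (fun τ => ?_)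
    rw [inv_inv, hpt τ]
    exact (hinv _ hγ' _).symm
  have hP' : HasTExp 1 (fun τ => P (scaleH d τ)) (qExpand ℂ d p₁) := hP.scale d
  have hQ' : HasTExp 1 (fun τ => Q (scaleH d τ)) (qExpand ℂ d q₁) := hQ.scale d
  have hrel' : coeffMap embC ((f : FF L) : LaurentSeries Kbar) * qExpand ℂ d q₁ =
      qExpand ℂ d p₁ := by
    rw [hf, ModularCurve.coeffMap_qExpand, ← map_mul, hrel]
  have key := kEval L g⁻¹ f hP' hQ' hrel' (haff hP hx.invP) (haff hQ hx.invQ)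
  rw [← hrel, ← twistHom_apply _ hω0, ← twistHom_apply _ hω0, map_mul, map_mul] at key
  rw [← twistHom_apply _ hω0]
  exact mul_right_cancel₀ ((map_ne_zero (qExpand ℂ E)).mpr
    ((map_ne_zero (twistHom ω hω0)).mpr hq₁)) key

end Fermat.Agent.S36
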