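import Fermat.Agent.S36.H44Three
import Fermat.Agent.S36.H44Eval
import Fermat.Agent.Red.Kron.FrickeGal

/-!
# S36 / (V): the Fricke (Atkin–Lehner) involution `W_{q²}` of `F_{M q q}`

`q` prime, `q ∤ M`, `L = M * q * q`.  There is a `ℚ̄`-automorphism `w₂` of `F_L` with

* `w₂ (αα x) = ββ x`, `w₂ (αβ x) = αβ x`, `w₂ (ββ x) = αα x`  (the three copies of `F_M`);
* `w₂ (α₂ y) = β₂ (w₁ y)`, `w₂ (β₂ y) = α₂ (w₁ y)`  (`w₁ = kFricke M q` the Fricke involution of
  `F_{Mq}`);
* `w₂ ∘ w₂ = id`, `w₂` commutes with the arithmetic Galois action.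

Construction: expansion at the cusp `m / M` (matrix `(m y; M q²)`), in the variable
`t^(1/q²)`, exactly as `Red/Kron/Fricke.lean`.
-/

set_option autoImplicit false
set_option linter.style.haveILetI false
set_option linter.unusedSectionVars false

open ModularCurve AlgebraicCurve IntermediateField

noncomputable section

namespace Fermat.Agent.S36

open Fermat.Agent.S24 Fermat.Agent.Red.Kron

section Analytic

open CongruenceSubgroup UpperHalfPlane
open scoped MatrixGroups Manifold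
open Fermat.Agent.S28 (HasTExp jAn jAt cEmb scaleH affH twist twistDil)

/-! ## the matrices -/

/-- `W = (m y; M q²)`, where `q² m - M y = 1`. -/
def h44s_W (M q : ℕ) (m y : ℤ) (h : (q : ℤ) * q * m - (M : ℤ) * y = 1) : SL(2, ℤ) :=
  ⟨!![m, y; (M : ℤ), (q : ℤ) * q], by
    rw [Matrix.det_fin_two_of]; linear_combination h⟩

/-- `(q m, y; M, q)`. -/
def h44s_W1 (M q : ℕ) (m y : ℤ) (h : (q : ℤ) * q * m - (M : ℤ) * y = 1) : SL(2, ℤ) :=
  ⟨!![(q : ℤ) * m, y; (M : ℤ), (q : ℤ)], by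
    rw [Matrix.det_fin_two_of]; linear_combination h⟩

/-- `(q² m, y; M, 1)`. -/
def h44s_W2 (M q : ℕ) (m y : ℤ) (h : (q : ℤ) * q * m - (M : ℤ) * y = 1) : SL(2, ℤ) :=
  ⟨!![(q : ℤ) * q * m, y; (M : ℤ), 1], by
    rw [Matrix.det_fin_two_of]; linear_combination h⟩

theorem h44s_W_mem (M q : ℕ) (m y : ℤ) (h : (q : ℤ) * q * m - (M : ℤ) * y = 1) :
    h44s_W M q m y h ∈ Gamma0 M := by
  rw [Gamma0_mem]
  simp [h44s_W]

theorem h44s_W1_mem (M q : ℕ) (m y : ℤ) (h : (q : ℤ) * q * m - (M : ℤ) * y = 1) :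
    h44s_W1 M q m y h ∈ Gamma0 M := by
  rw [Gamma0_mem]
  simp [h44s_W1]

theorem h44s_W2_mem (M q : ℕ) (m y : ℤ) (h : (q : ℤ) * q * m - (M : ℤ) * y = 1) :
    h44s_W2 M q m y h ∈ Gamma0 M := by
  rw [Gamma0_mem]
  simp [h44s_W2]

section Fricke2

variable (M q : ℕ) [NeZero M] [NeZero q] (m y : ℤ) (h : (q : ℤ) * q * m - (M : ℤ) * y = 1)

/-- the embedding `F_{Mqq} → ℂ((𝕋))`, `𝕋 = exp (2πiτ/(Mqq))`: "expansion of `G ∘ W`". -/
def h44s_embW : FF (M * q * q) →+* LaurentSeries ℂ :=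
  h19_cuspEmb (M * q * q) (h44s_W M q m y h)⁻¹

theorem h44s_exp_zero :
    Complex.exp (2 * Real.pi * Complex.I * ((0 : ℤ) : ℂ) / (((1 : ℕ) : ℂ) * ((1 : ℕ) : ℂ))) = 1 := by
  simp

theorem h44s_exp_zero' (e : ℕ) :
    Complex.exp (2 * Real.pi * Complex.I * ((0 : ℤ) : ℂ) / ((e : ℂ) * ((1 : ℕ) : ℂ))) = 1 := by
  simp

theorem h44s_embW_aa (x : FF M) :
    h44s_embW M q m y h (h44s_aa M q x) =
      qExpand ℂ (M * q * q) (coeffMap embC (x : LaurentSeries Kbar)) := by
  have hpt : ∀ τ : ℍ, scaleH 1 (h44s_W M q m y h • τ) =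
      h44s_W M q m y h • affH ((1 : ℕ) : ℝ) ((0 : ℤ) : ℝ) ((1 : ℕ) : ℝ)
        (by exact_mod_cast one_pos) (by exact_mod_cast one_pos) τ :=
    h44s_scale_smul _ _ 1 1 1 0 one_pos one_pos one_pos (by simp) (by simp) (by simp) (by simp)
  have key := h44s_eval M (M * q * q) (h44s_W M q m y h) (h44s_W M q m y h)
    (h44s_W_mem M q m y h) 1 1 1 (M * q * q) 0 one_pos one_pos (by ring) hpt x
    (h44s_aa M q x) (by rw [h44s_coe_aa, qExpand_one_apply])
  rw [h44s_exp_zero', twistK_one_left] at key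
  exact key

theorem h44s_embW_ab (x : FF M) :
    h44s_embW M q m y h (h44s_ab M q x) =
      qExpand ℂ (M * q) (coeffMap embC (x : LaurentSeries Kbar)) := by
  have hq : 0 < q := Nat.pos_of_ne_zero (NeZero.ne q)
  have hpt : ∀ τ : ℍ, scaleH q (h44s_W M q m y h • τ) =
      h44s_W1 M q m y h • affH ((1 : ℕ) : ℝ) ((0 : ℤ) : ℝ) ((q : ℕ) : ℝ)
        (by exact_mod_cast one_pos) (by exact_mod_cast hq) τ :=
    h44s_scale_smul _ _ q 1 q 0 hq one_pos hq
      (by simp [h44s_W, h44s_W1]) (by simp [h44s_W, h44s_W1]; ring)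
      (by simp [h44s_W, h44s_W1]) (by simp [h44s_W, h44s_W1])
  have key := h44s_eval M (M * q * q) (h44s_W M q m y h) (h44s_W1 M q m y h)
    (h44s_W1_mem M q m y h) q 1 q (M * q) 0 one_pos hq (by ring) hpt x
    (h44s_ab M q x) (h44s_coe_ab M q x)
  rw [h44s_exp_zero', twistK_one_left] at key
  exact key

theorem h44s_embW_bb (x : FF M) :
    h44s_embW M q m y h (h44s_bb M q x) =
      qExpand ℂ M (coeffMap embC (x : LaurentSeries Kbar)) := by
  have hq : 0 < q := Nat.pos_of_ne_zero (NeZero.ne q)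
  have hqq : 0 < q * q := Nat.mul_pos hq hq
  have hpt : ∀ τ : ℍ, scaleH (q * q) (h44s_W M q m y h • τ) =
      h44s_W2 M q m y h • affH ((1 : ℕ) : ℝ) ((0 : ℤ) : ℝ) ((q * q : ℕ) : ℝ)
        (by exact_mod_cast one_pos) (by exact_mod_cast hqq) τ :=
    h44s_scale_smul _ _ (q * q) 1 (q * q) 0 hqq one_pos hqq
      (by simp [h44s_W, h44s_W2]) (by simp [h44s_W, h44s_W2]; ring)
      (by simp [h44s_W, h44s_W2]) (by simp [h44s_W, h44s_W2])
  have key := h44s_eval M (M * q * q) (h44s_W M q m y h) (h44s_W2 M q m y h)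
    (h44s_W2_mem M q m y h) (q * q) 1 (q * q) M 0 one_pos hqq (by ring) hpt x
    (h44s_bb M q x) (h44s_coe_bb M q x)
  rw [h44s_exp_zero', twistK_one_left] at key
  exact key

theorem h44s_embW_cst (a : Kbar) :
    h44s_embW M q m y h (cst (M * q * q) a) = HahnSeries.C (embC a) :=
  h19_cuspEmb_cst (M * q * q) _ a

/-! ## the standard embedding in the variable `t^(1/q²)` -/

/-- the standard embedding `F_{Mqq} → ℂ((𝕋))` in the variable `𝕋^M = t^(1/q²)`. -/
def h44s_iotaT : FF (M * q * q) →+* LaurentSeries ℂ :=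
  (qExpand ℂ M).comp ((coeffMap embC).comp (algebraMap (FF (M * q * q)) (LaurentSeries Kbar)))

theorem h44s_iotaT_apply (f : FF (M * q * q)) :
    h44s_iotaT M q f = qExpand ℂ M (coeffMap embC (f : LaurentSeries Kbar)) := rfl

theorem h44s_iotaT_injective : Function.Injective (h44s_iotaT M q) := (h44s_iotaT M q).injective

theorem h44s_iotaT_cst (a : Kbar) :
    h44s_iotaT M q (cst (M * q * q) a) = HahnSeries.C (embC a) := by
  rw [h44s_iotaT_apply]
  have : ((cst (M * q * q) a : FF (M * q * q)) : LaurentSeries Kbar) = HahnSeries.C a := by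
    change algebraMap Kbar (LaurentSeries Kbar) a = HahnSeries.C a
    rw [algebraMap_laurentSeries_eq_single]
    rfl
  rw [this]
  have h2 : coeffMap embC (HahnSeries.C a : LaurentSeries Kbar) = HahnSeries.C (embC a) := by
    have : (HahnSeries.C a : LaurentSeries Kbar) = HahnSeries.single 0 a := rfl
    rw [this, coeffMap_single]
    rfl
  rw [h2, qExpand_C]

theorem h44s_iotaT_aa (x : FF M) :
    h44s_iotaT M q (h44s_aa M q x) = qExpand ℂ M (coeffMap embC (x : LaurentSeries Kbar)) := by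
  rw [h44s_iotaT_apply, h44s_coe_aa]

theorem h44s_iotaT_ab (x : FF M) :
    h44s_iotaT M q (h44s_ab M q x) =
      qExpand ℂ (M * q) (coeffMap embC (x : LaurentSeries Kbar)) := by
  rw [h44s_iotaT_apply, h44s_coe_ab, ModularCurve.coeffMap_qExpand, qExpand_qExpand]

theorem h44s_iotaT_bb (x : FF M) :
    h44s_iotaT M q (h44s_bb M q x) =
      qExpand ℂ (M * q * q) (coeffMap embC (x : LaurentSeries Kbar)) := by
  rw [h44s_iotaT_apply, h44s_coe_bb, ModularCurve.coeffMap_qExpand, qExpand_qExpand]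
  exact qExpand_congr (mul_assoc M q q).symm _

/-- the image of the embedding at the other cusp is contained in the image of the standard
embedding. -/
theorem h44s_embW_mem_range (hq : q.Prime) (f : FF (M * q * q)) :
    ∃ g : FF (M * q * q), h44s_iotaT M q g = h44s_embW M q m y h f := by
  induction f using h44s_induction3 M q hq with
  | hc a => exact ⟨cst (M * q * q) a, by rw [h44s_iotaT_cst, h44s_embW_cst]⟩
  | haa x => exact ⟨h44s_bb M q x, by rw [h44s_iotaT_bb, h44s_embW_aa]⟩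
  | hab x => exact ⟨h44s_ab M q x, by rw [h44s_iotaT_ab, h44s_embW_ab]⟩
  | hbb x => exact ⟨h44s_aa M q x, by rw [h44s_iotaT_aa, h44s_embW_bb]⟩
  | hadd x y hx hy =>
    obtain ⟨g₁, h₁⟩ := hx
    obtain ⟨g₂, h₂⟩ := hy
    exact ⟨g₁ + g₂, by rw [map_add, map_add, h₁, h₂]⟩
  | hinv x hx =>
    obtain ⟨g₁, h₁⟩ := hx
    exact ⟨g₁⁻¹, by rw [map_inv₀, map_inv₀, h₁]⟩
  | hmul x y hx hy =>
    obtain ⟨g₁, h₁⟩ := hx
    obtain ⟨g₂, h₂⟩ := hy
    exact ⟨g₁ * g₂, by rw [map_mul, map_mul, h₁, h₂]⟩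

/-- `F_{Mqq}` is isomorphic to its image under the standard embedding. -/
def h44s_iotaTEquiv : FF (M * q * q) ≃+* (h44s_iotaT M q).range :=
  RingEquiv.ofBijective (h44s_iotaT M q).rangeRestrict
    ⟨fun _ _ hab => h44s_iotaT_injective M q (congrArg Subtype.val hab),
      (h44s_iotaT M q).rangeRestrict_surjective⟩

theorem h44s_coe_iotaTEquiv (f : FF (M * q * q)) :
    ((h44s_iotaTEquiv M q f : (h44s_iotaT M q).range) : LaurentSeries ℂ) = h44s_iotaT M q f := rfl

/-- the embedding at the other cusp, with values in the image of the standard embedding. -/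
def h44s_embWRes (hq : q.Prime) : FF (M * q * q) →+* (h44s_iotaT M q).range :=
  (h44s_embW M q m y h).codRestrict (h44s_iotaT M q).range
    (fun f => by
      obtain ⟨g, hg⟩ := h44s_embW_mem_range M q m y h hq f
      exact ⟨g, hg⟩)

theorem h44s_coe_embWRes (hq : q.Prime) (f : FF (M * q * q)) :
    ((h44s_embWRes M q m y h hq f : (h44s_iotaT M q).range) : LaurentSeries ℂ) =
      h44s_embW M q m y h f := rfl

/-- the Fricke involution `W_{q²}` as a ring endomorphism of `F_{Mqq}`. -/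
def h44s_fricke2Hom (hq : q.Prime) : FF (M * q * q) →+* FF (M * q * q) :=
  ((h44s_iotaTEquiv M q).symm : (h44s_iotaT M q).range →+* FF (M * q * q)).comp
    (h44s_embWRes M q m y h hq)

theorem h44s_iotaT_fricke2Hom (hq : q.Prime) (f : FF (M * q * q)) :
    h44s_iotaT M q (h44s_fricke2Hom M q m y h hq f) = h44s_embW M q m y h f := by
  have h1 : h44s_iotaTEquiv M q (h44s_fricke2Hom M q m y h hq f) = h44s_embWRes M q m y h hq f :=
    (h44s_iotaTEquiv M q).apply_symm_apply _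
  rw [← h44s_coe_iotaTEquiv, h1, h44s_coe_embWRes]

theorem h44s_fricke2Hom_aa (hq : q.Prime) (x : FF M) :
    h44s_fricke2Hom M q m y h hq (h44s_aa M q x) = h44s_bb M q x := by
  apply h44s_iotaT_injective M q
  rw [h44s_iotaT_fricke2Hom, h44s_embW_aa, h44s_iotaT_bb]

theorem h44s_fricke2Hom_ab (hq : q.Prime) (x : FF M) :
    h44s_fricke2Hom M q m y h hq (h44s_ab M q x) = h44s_ab M q x := by
  apply h44s_iotaT_injective M q
  rw [h44s_iotaT_fricke2Hom, h44s_embW_ab, h44s_iotaT_ab]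

theorem h44s_fricke2Hom_bb (hq : q.Prime) (x : FF M) :
    h44s_fricke2Hom M q m y h hq (h44s_bb M q x) = h44s_aa M q x := by
  apply h44s_iotaT_injective M q
  rw [h44s_iotaT_fricke2Hom, h44s_embW_bb, h44s_iotaT_aa]

theorem h44s_fricke2Hom_cst (hq : q.Prime) (a : Kbar) :
    h44s_fricke2Hom M q m y h hq (cst (M * q * q) a) = cst (M * q * q) a := by
  apply h44s_iotaT_injective M q
  rw [h44s_iotaT_fricke2Hom, h44s_embW_cst, h44s_iotaT_cst]

theorem h44s_fricke2Hom_fricke2Hom (hq : q.Prime) (f : FF (M * q * q)) :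
    h44s_fricke2Hom M q m y h hq (h44s_fricke2Hom M q m y h hq f) = f := by
  induction f using h44s_induction3 M q hq with
  | hc a => rw [h44s_fricke2Hom_cst, h44s_fricke2Hom_cst]
  | haa x => rw [h44s_fricke2Hom_aa, h44s_fricke2Hom_bb]
  | hab x => rw [h44s_fricke2Hom_ab, h44s_fricke2Hom_ab]
  | hbb x => rw [h44s_fricke2Hom_bb, h44s_fricke2Hom_aa]
  | hadd x y hx hy => rw [map_add, map_add, hx, hy]
  | hinv x hx => rw [map_inv₀, map_inv₀, hx]
  | hmul x y hx hy => rw [map_mul, map_mul, hx, hy]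

end Fricke2

end Analytic

/-- **the Fricke involution `W_{q²}`** of `F_{Mqq}` (`q` prime, `q ∤ M`): existence. -/
theorem h44s_exists_fricke2 (M q : ℕ) [NeZero M] [NeZero q] (hq : q.Prime) (hM : ¬ q ∣ M) :
    ∃ w : FF (M * q * q) ≃ₐ[Kbar] FF (M * q * q),
      (∀ x : FF M, w (h44s_aa M q x) = h44s_bb M q x) ∧
      (∀ x : FF M, w (h44s_ab M q x) = h44s_ab M q x) ∧
      (∀ x : FF M, w (h44s_bb M q x) = h44s_aa M q x) ∧
      (∀ f : FF (M * q * q), w (w f) = f) := by
  have hcop : IsCoprime ((q : ℤ) * q) (M : ℤ) := by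
    have h1 : IsCoprime (q : ℤ) (M : ℤ) := by
      rw [Int.isCoprime_iff_gcd_eq_one, Int.gcd_natCast_natCast]
      exact (Nat.Prime.coprime_iff_not_dvd hq).mpr hM
    exact h1.mul_left h1
  obtain ⟨a, c, hac⟩ := hcop
  have hb : (q : ℤ) * q * a - (M : ℤ) * (-c) = 1 := by linear_combination hac
  let w₀ : FF (M * q * q) →ₐ[Kbar] FF (M * q * q) :=
    { h44s_fricke2Hom M q a (-c) hb hq with
      commutes' := fun r => h44s_fricke2Hom_cst M q a (-c) hb hq r }
  have hw₀ : ∀ f, w₀ (w₀ f) = f := h44s_fricke2Hom_fricke2Hom M q a (-c) hb hq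
  refine ⟨AlgEquiv.ofAlgHom w₀ w₀ (AlgHom.ext hw₀) (AlgHom.ext hw₀), ?_, ?_, ?_, ?_⟩
  · exact h44s_fricke2Hom_aa M q a (-c) hb hq
  · exact h44s_fricke2Hom_ab M q a (-c) hb hq
  · exact h44s_fricke2Hom_bb M q a (-c) hb hq
  · exact hw₀

/-- the Fricke involution `W_{q²}` of `F_{Mqq}` (a choice; it is unique, `h44s_fricke2_unique`). -/
def h44s_fricke2 (M q : ℕ) [NeZero M] [NeZero q] (hq : q.Prime) (hM : ¬ q ∣ M) :
    FF (M * q * q) ≃ₐ[Kbar] FF (M * q * q) :=
  (h44s_exists_fricke2 M q hq hM).choose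

section Props

variable (M q : ℕ) [NeZero M] [NeZero q] (hq : q.Prime) (hM : ¬ q ∣ M)

theorem h44s_fricke2_aa (x : FF M) :
    h44s_fricke2 M q hq hM (h44s_aa M q x) = h44s_bb M q x :=
  (h44s_exists_fricke2 M q hq hM).choose_spec.1 x

theorem h44s_fricke2_ab (x : FF M) :
    h44s_fricke2 M q hq hM (h44s_ab M q x) = h44s_ab M q x :=
  (h44s_exists_fricke2 M q hq hM).choose_spec.2.1 x

theorem h44s_fricke2_bb (x : FF M) :
    h44s_fricke2 M q hq hM (h44s_bb M q x) = h44s_aa M q x :=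
  (h44s_exists_fricke2 M q hq hM).choose_spec.2.2.1 x

theorem h44s_fricke2_fricke2 (f : FF (M * q * q)) :
    h44s_fricke2 M q hq hM (h44s_fricke2 M q hq hM f) = f :=
  (h44s_exists_fricke2 M q hq hM).choose_spec.2.2.2 f

theorem h44s_fricke2_cst (a : Kbar) :
    h44s_fricke2 M q hq hM (cst (M * q * q) a) = cst (M * q * q) a :=
  (h44s_fricke2 M q hq hM).commutes a

/-- **`w₂ ∘ α₂ = β₂ ∘ w₁`.** -/
theorem h44s_fricke2_alpha (y : FF (M * q)) :
    h44s_fricke2 M q hq hM (heckeAlphaBar Kbar (M * q) q y) =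
      heckeBetaBar Kbar (M * q) q (kFricke M q hq hM y) := by
  induction y using kFF_induction_ab M q hq with
  | hc a =>
    rw [h44s_cst_eq, h44s_fricke2_cst, kFricke_cst, h44s_cst_eq_beta]
  | ha x =>
    rw [kFricke_alpha, ← h44s_aa_apply, h44s_fricke2_aa, h44s_bb_apply]
  | hb x =>
    rw [kFricke_beta, ← h44s_ab_apply, h44s_fricke2_ab, h44s_beta_alpha]
  | hadd x y hx hy => rw [map_add, map_add, map_add, map_add, hx, hy]
  | hinv x hx => rw [map_inv₀, map_inv₀, map_inv₀, map_inv₀, hx]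
  | hmul x y hx hy => rw [map_mul, map_mul, map_mul, map_mul, hx, hy]

/-- **`w₂ ∘ β₂ = α₂ ∘ w₁`.** -/
theorem h44s_fricke2_beta (y : FF (M * q)) :
    h44s_fricke2 M q hq hM (heckeBetaBar Kbar (M * q) q y) =
      heckeAlphaBar Kbar (M * q) q (kFricke M q hq hM y) := by
  induction y using kFF_induction_ab M q hq with
  | hc a =>
    rw [h44s_cst_eq_beta, h44s_fricke2_cst, kFricke_cst, h44s_cst_eq]
  | ha x =>
    rw [kFricke_alpha, h44s_beta_alpha, h44s_fricke2_ab, h44s_ab_apply]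
  | hb x =>
    rw [kFricke_beta, ← h44s_bb_apply, h44s_fricke2_bb, h44s_aa_apply]
  | hadd x y hx hy => rw [map_add, map_add, map_add, map_add, hx, hy]
  | hinv x hx => rw [map_inv₀, map_inv₀, map_inv₀, map_inv₀, hx]
  | hmul x y hx hy => rw [map_mul, map_mul, map_mul, map_mul, hx, hy]

/-- uniqueness of the Fricke involution `W_{q²}`. -/
theorem h44s_fricke2_unique (v : FF (M * q * q) →+* FF (M * q * q))
    (hc : ∀ a : Kbar, v (cst (M * q * q) a) = cst (M * q * q) a)
    (haa : ∀ x : FF M, v (h44s_aa M q x) = h44s_bb M q x)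
    (hab : ∀ x : FF M, v (h44s_ab M q x) = h44s_ab M q x)
    (hbb : ∀ x : FF M, v (h44s_bb M q x) = h44s_aa M q x)
    (f : FF (M * q * q)) : v f = h44s_fricke2 M q hq hM f := by
  induction f using h44s_induction3 M q hq with
  | hc a => rw [hc, h44s_fricke2_cst]
  | haa x => rw [haa, h44s_fricke2_aa]
  | hab x => rw [hab, h44s_fricke2_ab]
  | hbb x => rw [hbb, h44s_fricke2_bb]
  | hadd x y hx hy => rw [map_add, map_add, hx, hy]
  | hinv x hx => rw [map_inv₀, map_inv₀, hx]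
  | hmul x y hx hy => rw [map_mul, map_mul, hx, hy]

/-- two multiplicative-additive self-maps of `F_{Mqq}` commute as soon as they commute on
constants and on the images of `α₂`, `β₂`. -/
theorem h44s_comm_of_gen (hq₀ : q.Prime) (w G : FF (M * q * q) → FF (M * q * q))
    (hw_add : ∀ x y, w (x + y) = w x + w y) (hw_mul : ∀ x y, w (x * y) = w x * w y)
    (hw_inv : ∀ x, w x⁻¹ = (w x)⁻¹)
    (hG_add : ∀ x y, G (x + y) = G x + G y) (hG_mul : ∀ x y, G (x * y) = G x * G y)
    (hG_inv : ∀ x, G x⁻¹ = (G x)⁻¹)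
    (hc : ∀ a : Kbar, w (G (cst (M * q * q) a)) = G (w (cst (M * q * q) a)))
    (ha : ∀ x : FF (M * q), w (G (heckeAlphaBar Kbar (M * q) q x)) =
      G (w (heckeAlphaBar Kbar (M * q) q x)))
    (hb : ∀ x : FF (M * q), w (G (heckeBetaBar Kbar (M * q) q x)) =
      G (w (heckeBetaBar Kbar (M * q) q x)))
    (f : FF (M * q * q)) : w (G f) = G (w f) := by
  induction f using kFF_induction_ab (M * q) q hq₀ with
  | hc a => exact hc a
  | ha x => exact ha x
  | hb x => exact hb x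
  | hadd x y hx hy => rw [hG_add, hw_add, hx, hy, hw_add, hG_add]
  | hinv x hx => rw [hG_inv, hw_inv, hx, hw_inv, hG_inv]
  | hmul x y hx hy => rw [hG_mul, hw_mul, hx, hy, hw_mul, hG_mul]

set_option maxHeartbeats 1000000 in
/-- **the Fricke involution `W_{q²}` commutes with the arithmetic Galois action.** -/
theorem h44s_fricke2_gal (σ : Kbar ≃ₐ[ℚ] Kbar) (f : FF (M * q * q)) :
    h44s_fricke2 M q hq hM (arithmeticGalois (modularFunctionFieldFull (M * q * q)) σ • f) =
      arithmeticGalois (modularFunctionFieldFull (M * q * q)) σ • h44s_fricke2 M q hq hM f := by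
  have hA := Fermat.Agent.Red.HKGal.intertwines_heckeAlphaBar (M * q) q σ
  have hB := Fermat.Agent.Red.HKGal.intertwines_heckeBetaBar (M * q) q σ
  refine h44s_comm_of_gen M q hq (⇑(h44s_fricke2 M q hq hM))
    (fun f => arithmeticGalois (modularFunctionFieldFull (M * q * q)) σ • f)
    (map_add _) (map_mul _) (map_inv₀ _) (smul_add _) (smul_mul' _) (smul_inv'' _)
    ?_ ?_ ?_ f
  · intro a
    have h1 : arithmeticGalois (modularFunctionFieldFull (M * q * q)) σ • cst (M * q * q) a =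
        cst (M * q * q) (σ a) := by
      rw [SemilinearAut.smul_algebraMap, baseAut_arithmeticGalois]
      rfl
    show h44s_fricke2 M q hq hM (arithmeticGalois (modularFunctionFieldFull (M * q * q)) σ •
      cst (M * q * q) a) = arithmeticGalois (modularFunctionFieldFull (M * q * q)) σ •
        h44s_fricke2 M q hq hM (cst (M * q * q) a)
    rw [h1, h44s_fricke2_cst, h44s_fricke2_cst, h1]
  · intro x
    have h1 := hA x
    have h2 := hB (kFricke M q hq hM x)
    simp only [RingHom.coe_coe] at h1 h2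
    have h3 := kFricke_gal M q hq hM σ x
    show h44s_fricke2 M q hq hM (arithmeticGalois (modularFunctionFieldFull (M * q * q)) σ •
      heckeAlphaBar Kbar (M * q) q x) = arithmeticGalois (modularFunctionFieldFull (M * q * q)) σ •
        h44s_fricke2 M q hq hM (heckeAlphaBar Kbar (M * q) q x)
    rw [h1, h44s_fricke2_alpha, h44s_fricke2_alpha, h2, h3]
  · intro x
    have h1 := hA (kFricke M q hq hM x)
    have h2 := hB x
    simp only [RingHom.coe_coe] at h1 h2
    have h3 := kFricke_gal M q hq hM σ x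
    show h44s_fricke2 M q hq hM (arithmeticGalois (modularFunctionFieldFull (M * q * q)) σ •
      heckeBetaBar Kbar (M * q) q x) = arithmeticGalois (modularFunctionFieldFull (M * q * q)) σ •
        h44s_fricke2 M q hq hM (heckeBetaBar Kbar (M * q) q x)
    rw [h2, h44s_fricke2_beta, h44s_fricke2_beta, h1, h3]

end Props

end Fermat.Agent.S36
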