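import Fermat.Agent.S36.H62Strong
import Fermat.Agent.S36.H18CuspAsm
import Fermat.Agent.S36.H44CuspRes
import Fermat.Agent.S36.H55VVal
import Fermat.Agent.S36.H88VFinal
import Fermat.Agent.S36.H20Emb
import Fermat.Agent.S36.H62L0
import Fermat.Agent.S36.H25RedIsoInst

/-!
# S36, block REG, row R-ORD, leaf R-ORD-0 (helper44): the ordinary points of `C₀₂` of the finite
chart of level `M q²`, by the valuation route

`B₂ = h62rChart A (M q²) (jB (M q²))`, `Λ₀ = h62rChart A M (jB M)` (finite charts over the inertia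
ring `A₀`), `φ = β₂ ∘ β : Λ₀ → B₂`.  At a closed point `𝔫₂ ∋ q` of `B₂` whose contraction along
`α₂` does not lie on `C_∞` the one-branch datum holds with `z = q`, `e = 1`, `t = φ u₀`, `u₀` a
rational local parameter of the level `M` at `φ⁻¹ 𝔫₂` (R-L0).

Proof: helper18's one-branch transfer (`S36/H18CuspAbs2.lean`, `S36/H18CuspAsm.lean`) transplanted
to the finite chart: the three vertical valuations (`h55vv_val`), completeness
(`h88v_vcomplete_final`, `h27v_qep_q_fin`), residue degree one along `E02` (`h44s_surj02_fin_E`,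
`h12r_approx_fin`), R-L0 (`h62r_L0_of h25i_redIsoStatement`), and the multiplier `u = α₂ z`,
`z ∈ P∞₀ ∖ α₂⁻¹ 𝔫₂` (small at `E20` and at `E11`).

* `h44z_transfer`, `h44z_one_unram` : the abstract transfer (local parameter at the contraction
  only, no denominators), unramified branch.
* `h44z_int_fin` : the finite chart is Gauss-integral at the three embeddings.
* `h44z_res02_fin`, `h44z_res20_fin`, `h44z_res11_fin` : residue degree one, finite chart over `A₀`.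
* `h44z_geoZeroOne : H62GeoZeroOne` (exact frozen `Prop` of `S36/H62Strong.lean`).
-/

set_option autoImplicit false
set_option linter.unusedVariables false
set_option linter.unusedSectionVars false
set_option linter.style.haveILetI false
set_option synthInstance.maxHeartbeats 400000

open AlgebraicCurve ModularCurve WithZero IsLocalRing

noncomputable section

namespace Fermat.Agent.S36

/-! ## The abstract transfer -/

section Abs

variable {F : Type*} [Field F] {ι : Type*} (v : ι → Valuation F ℤᵐ⁰)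
  {B : Type*} [CommRing B] (incl : B →+* F) (hincl : Function.Injective incl)
  (𝔫 : Ideal B) [h𝔫 : 𝔫.IsPrime] (i₀ : ι)
  {Λ : Type*} [CommRing Λ] (φ : Λ →+* B)

include h𝔫 in
/-- the transfer of the local parameter along `φ : Λ → B`, with the local parameter property at
the contraction `φ⁻¹ 𝔫` only. -/
theorem h44z_transfer (hB0 : ∀ b : B, v i₀ (incl b) ≤ 1)
    (π S : B) (hπJ : v i₀ (incl π) < 1)
    (hJ𝔫 : ∀ x : B, v i₀ (incl x) < 1 → x ∈ 𝔫)
    (hJ : ∀ x : B, v i₀ (incl x) < 1 → ∃ s : B, s ∉ 𝔫 ∧ s * x ∈ Ideal.span {S})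
    (π' : Λ) (hφπ : φ π' = π)
    (hsurj : ∀ w ∈ 𝔫, ∃ (l : Λ) (s : B), s ∉ 𝔫 ∧ v i₀ (incl (s * w - φ l)) < 1)
    (t₁ : Λ)
    (hLP : ∀ y ∈ 𝔫.comap φ, ∃ σ, σ ∉ 𝔫.comap φ ∧ σ * y ∈ Ideal.span {π', t₁}) :
    ∀ w ∈ 𝔫, ∃ s, s ∉ 𝔫 ∧ s * w ∈ Ideal.span {S, φ t₁} := by
  classical
  intro w hw
  obtain ⟨l, s, hs, hsmall⟩ := hsurj w hw
  set d : B := s * w - φ l with hd
  have hd𝔫 : d ∈ 𝔫 := hJ𝔫 d hsmall
  have hl𝔫 : φ l ∈ 𝔫 := by
    have h1 : φ l = s * w - d := by rw [hd]; ring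
    rw [h1]
    exact 𝔫.sub_mem (𝔫.mul_mem_left _ hw) hd𝔫
  obtain ⟨σ, hσ, hσl⟩ := hLP l (Ideal.mem_comap.mpr hl𝔫)
  obtain ⟨a, c, hac⟩ := Ideal.mem_span_pair.mp hσl
  have hφσ : φ σ ∉ 𝔫 := fun h => hσ (Ideal.mem_comap.mpr h)
  have key : φ σ * φ l = φ a * π + φ c * φ t₁ := by
    rw [← map_mul, ← hac, map_add, map_mul, map_mul, hφπ]
  set j : B := φ σ * d + φ a * π with hj
  have hjv : v i₀ (incl j) < 1 := by
    have hjF : incl j = incl (φ σ) * incl d + incl (φ a) * incl π := by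
      rw [hj]
      simp only [map_add, map_mul]
    rw [hjF]
    refine lt_of_le_of_lt (Valuation.map_add _ _ _) (max_lt ?_ ?_)
    · rw [map_mul]
      calc v i₀ (incl (φ σ)) * v i₀ (incl d) ≤ 1 * v i₀ (incl d) :=
            mul_le_mul' (hB0 _) le_rfl
        _ = v i₀ (incl d) := one_mul _
        _ < 1 := hsmall
    · rw [map_mul]
      calc v i₀ (incl (φ a)) * v i₀ (incl π) ≤ 1 * v i₀ (incl π) :=
            mul_le_mul' (hB0 _) le_rfl
        _ = v i₀ (incl π) := one_mul _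
        _ < 1 := hπJ
  obtain ⟨sJ, hsJ, hsJj⟩ := hJ j hjv
  refine ⟨sJ * φ σ * s, fun h => (h𝔫.mem_or_mem h).elim
    (fun h' => (h𝔫.mem_or_mem h').elim hsJ hφσ) hs, ?_⟩
  have h3 : sJ * φ σ * s * w = sJ * j + (sJ * φ c) * φ t₁ := by
    have h4 : φ σ * (s * w) = φ σ * d + φ σ * φ l := by rw [hd]; ring
    calc sJ * φ σ * s * w = sJ * (φ σ * (s * w)) := by ring
      _ = sJ * (φ σ * d + φ σ * φ l) := by rw [h4]
      _ = sJ * (φ σ * d + (φ a * π + φ c * φ t₁)) := by rw [key]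
      _ = sJ * j + (sJ * φ c) * φ t₁ := by rw [hj]; ring
  rw [h3]
  refine Ideal.add_mem _ ?_ (Ideal.mul_mem_left _ _ (Ideal.subset_span (by simp)))
  exact (Ideal.span_mono (by intro x hx; simp only [Set.mem_singleton_iff] at hx; simp [hx]))
    hsJj

include hincl h𝔫 in
/-- **the one-branch datum at a point of an unramified component** (`z = π`, `e = 1`). -/
theorem h44z_one_unram
    (hB : ∀ (b : B) (j : ι), v j (incl b) ≤ 1)
    (π : B) (hπ0 : incl π ≠ 0)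
    (E₀ : ℕ) (hπv : ∀ j, exp (-(E₀ : ℤ)) ≤ v j (incl π))
    (hQEP : ∀ x : F, (∀ j, v j x ≤ 1) → (∃ b : B, incl b = incl π * x) → ∃ b : B, incl b = x)
    (hπ𝔫 : π ∈ 𝔫) (hπi : v i₀ (incl π) = exp (-1 : ℤ))
    (u : B) (hu : u ∉ 𝔫) (huv : ∀ j, j ≠ i₀ → v j (incl u) < 1)
    (π' : Λ) (hφπ : φ π' = π)
    (hsurj : ∀ w ∈ 𝔫, ∃ (l : Λ) (s : B), s ∉ 𝔫 ∧ v i₀ (incl (s * w - φ l)) < 1)
    (t₁ : Λ) (ht₁ : φ t₁ ∈ 𝔫)
    (hLP : ∀ y ∈ 𝔫.comap φ, ∃ σ, σ ∉ 𝔫.comap φ ∧ σ * y ∈ Ideal.span {π', t₁}) :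
    h95s_OneDatum 𝔫 π := by
  have hone : (1 : B) ∉ 𝔫 := (Ideal.ne_top_iff_one 𝔫).mp h𝔫.ne_top
  have hJ𝔫 : ∀ x : B, v i₀ (incl x) < 1 → x ∈ 𝔫 := fun x hx =>
    h18d_small_mem v incl hincl hB π hπ0 E₀ hπv hQEP 𝔫 hπ𝔫 i₀ u hu huv x hx
  have hπJ : v i₀ (incl π) < 1 := by
    rw [hπi, ← exp_zero, exp_lt_exp]
    norm_num
  have hgen := h44z_transfer v incl 𝔫 i₀ φ (fun b => hB b i₀) π π hπJ hJ𝔫
    (fun x hx => h18d_princ v incl hincl hB π hπ0 E₀ hπv hQEP 𝔫 i₀ u hu huv π 1 1 rfl hone hπi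
      x hx)
    π' hφπ hsurj t₁ hLP
  exact ⟨π, φ t₁, hπ𝔫, ht₁, hgen, 1, 1, 1, hone, by ring⟩

end Abs

open Fermat.Agent.S37 Fermat.Agent.Red Fermat.Agent.Red.GV Fermat.Agent.Red.GV.Soft
  Fermat.Agent.Red.TRK Fermat.Agent.Red.Kron Fermat.Agent.LGC
open Fermat.Agent.S36.V28 (h28v_F0 h28v_IFixed)

/-! ## The finite chart: integrality and residue degree one over `A₀` -/

section Fin

variable {A : ValuationSubring Kbar} {M q : ℕ} [NeZero M] [NeZero q]

/-- the non-units of the Gauss ring are small. -/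
theorem h44z_small_of_nonunits {N : ℕ} [NeZero N] (hq : q.Prime) (hA : A.LiesOverPrime q)
    {z : FF N} (hz : z ∈ (softRing A N hq hA).nonunits) :
    h18c_Small A ((z : FF N) : LaurentSeries Kbar) := by
  have hzV : z ∈ softV A N := (softRing A N hq hA).nonunits_subset hz
  have h0 : softR A N ⟨z, hzV⟩ = 0 :=
    (softR_eq_zero_iff_mem_nonunits A N hq hA ⟨z, hzV⟩).mpr hz
  rw [h44s_small_iff]
  exact (h44s_red_of_softV z hzV).congr rfl h0

/-- the finite chart of level `M q²` is Gauss-integral at the three embeddings. -/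
theorem h44z_int_fin (hq : q.Prime) (hqM : ¬ q ∣ M) (hA : A.LiesOverPrime q)
    (ζ : Kbar) (E11 E02 : FF (M * q * q) →+* LaurentSeries Kbar)
    (hT : h20v_Triple M q hq hqM ζ E11 E02) (x : FF (M * q * q))
    (hxm : x ∈ modelAt (M * q * q) A (jB (M * q * q))) : h20v_Int M q A E11 E02 x := by
  have hxa : x ∈ modelAt (M * q * q) A (h44s_aa M q (jB M)) := by
    rw [h44s_aa_jB]
    exact hxm
  have ht₀ : jB M ∈ softV A M :=
    h44s_fin_le A M q hq hqM hA (Fermat.Agent.Red.Match.ringAdj_le_modelAt M A _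
      (self_mem_ringAdj M A _))
  have h0 : h44s_Red A ((h44s_aa M q (jB M) : FF (M * q * q)) : LaurentSeries Kbar)
      (softR A M ⟨jB M, ht₀⟩) := by
    rw [h44s_coe_aa]
    exact h44s_red_of_softV _ ht₀
  refine ⟨?_, ?_, ?_⟩
  · obtain ⟨hta, -⟩ := h44s_Red.softV (N := M * q * q) h0
    exact h60i_modelAt_le_softV hq hA (M * q * q) ⟨_, hta⟩ hxa
  · refine h44s_modelAt_le A hq hA E11 (h44s_E11_DF hT.e11 hT.prim.pow_eq_one)
      (h44s_E11_cst hT.e11) _ ?_ hxa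
    rw [h44s_E11_aa hT.e11]
    exact ht₀
  · rw [h44s_E02_eq hq hqM E02 hT.e02]
    have h1 := h44s_fricke2_mem_modelAt M q hq hqM A hxa
    rw [h44s_fricke2_aa] at h1
    have h2 : h44s_Red A ((h44s_bb M q (jB M) : FF (M * q * q)) : LaurentSeries Kbar)
        (qExpand (IsLocalRing.ResidueField A) (q * q) (softR A M ⟨jB M, ht₀⟩)) := by
      rw [h44s_coe_bb]
      exact (h44s_red_of_softV _ ht₀).qExpand (q * q)
    obtain ⟨htb, -⟩ := h44s_Red.softV (N := M * q * q) h2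
    exact h60i_modelAt_le_softV hq hA (M * q * q) ⟨_, htb⟩ h1

/-- the elements of `𝔪_A Λ` (finite chart of the level `M`) have reduction `0`. -/
theorem h44z_red_of_J (hq : q.Prime) (hM : ¬ q ∣ M) (hA : A.LiesOverPrime q) {y : FF M}
    (hy : y ∈ h12rJ A M (jB M)) : h44s_Red A ((y : FF M) : LaurentSeries Kbar) 0 := by
  obtain ⟨c, hc, x', hx', rfl⟩ := hy
  have hx'V : x' ∈ softV A M := h44s_fin_le A M q hq hM hA hx'
  have hcV : cst M c ∈ softV A M := (cst_mem_softV_iff A M c).mpr (A.nonunits_subset hc)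
  have h1 := (h44s_red_of_softV (cst M c) hcV).mul (h44s_red_of_softV x' hx'V)
  rw [softR_cst_of_nonunit A M c hc hcV, zero_mul] at h1
  exact h1

/-- descent of the finite chart of the level `M` to the inertia ring, up to functions of
reduction `0`. -/
theorem h44z_descend_fin (hq : q.Prime) (hM : ¬ q ∣ M) (hA : A.LiesOverPrime q) {l' : FF M}
    (hl' : l' ∈ modelFin M A) :
    ∃ l ∈ h62rChart A M (jB M), h44s_Red A (((l' - l : FF M)) : LaurentSeries Kbar) 0 := by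
  obtain ⟨l, hl, hJ⟩ := h12r_approx_fin A M q hq hM hA l' hl'
  exact ⟨l, hl, h44z_red_of_J hq hM hA hJ⟩

/-- **residue degree one along `E20`**, finite chart over `A₀`. -/
theorem h44z_res20_fin (hq : q.Prime) (hqM : ¬ q ∣ M) (haux : auxLevel q ∣ M)
    (hA : A.LiesOverPrime q) (w : FF (M * q * q))
    (hw : w ∈ modelAt (M * q * q) A (jB (M * q * q))) :
    ∃ l : FF M, l ∈ h62rChart A M (jB M) ∧
      h18c_Small A (h20n_E20 M q (w - h18c_aa M q l)) := by
  obtain ⟨l', hl', h, h0⟩ := h44s_surj20_fin hq hqM haux hA w hw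
  obtain ⟨l, hl, hred⟩ := h44z_descend_fin hq hqM hA hl'
  refine ⟨l, hl, ?_⟩
  rw [h44s_small_iff]
  have h1 : h44s_Red A (((w - h44s_aa M q l' : FF (M * q * q))) : LaurentSeries Kbar) 0 :=
    (h44s_red_of_softV _ h).congr rfl h0
  have h2 : h44s_Red A (((h44s_aa M q (l' - l) : FF (M * q * q))) : LaurentSeries Kbar) 0 := by
    rw [h44s_coe_aa]
    exact hred
  have h3 := h1.add h2
  rw [add_zero] at h3
  refine h3.congr ?_ rfl
  show ((((w - h44s_aa M q l') + h44s_aa M q (l' - l) : FF (M * q * q))) :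
    LaurentSeries Kbar) = (((w - h44s_aa M q l : FF (M * q * q))) : LaurentSeries Kbar)
  rw [map_sub]
  congr 1
  ring

/-- **residue degree one along `E11`**, finite chart over `A₀`. -/
theorem h44z_res11_fin (hq : q.Prime) (hqM : ¬ q ∣ M) (haux : auxLevel q ∣ M)
    (hA : A.LiesOverPrime q) (ζ : Kbar) (hζ : IsPrimitiveRoot ζ q)
    (E11 : FF (M * q * q) →+* LaurentSeries Kbar) (hE11 : h20n_IsE11 M q hq hqM ζ E11)
    (w : FF (M * q * q)) (hw : w ∈ h62rChart A (M * q * q) (jB (M * q * q))) :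
    ∃ l : FF M, l ∈ h62rChart A M (jB M) ∧ h18c_Small A (E11 (w - h18c_aa M q l)) := by
  obtain ⟨l', hl', h, h0⟩ := h44s_surj11_fin hq hqM haux hA ζ hζ E11 hE11 w
    (h62r_mem_chart.mp hw).1 (h62r_mem_chart.mp hw).2
  obtain ⟨l, hl, hred⟩ := h44z_descend_fin hq hqM hA hl'
  refine ⟨l, hl, ?_⟩
  rw [h44s_small_iff]
  have h1 : h44s_Red A (E11 (w - h44s_aa M q l')) 0 := ⟨h, h0⟩
  have h2 : h44s_Red A (E11 (h44s_aa M q (l' - l))) 0 := by
    rw [h44s_E11_aa hE11]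
    exact hred
  have h3 := h1.add h2
  rw [add_zero, ← map_add] at h3
  refine h3.congr ?_ rfl
  congr 1
  rw [map_sub]
  show w - h44s_aa M q l' + (h44s_aa M q l' - h44s_aa M q l) = w - h44s_aa M q l
  ring

/-- **residue degree one along `E02`**, finite chart over `A₀`. -/
theorem h44z_res02_fin (hq : q.Prime) (hqM : ¬ q ∣ M) (haux : auxLevel q ∣ M)
    (hA : A.LiesOverPrime q)
    (E02 : FF (M * q * q) →+* LaurentSeries Kbar) (hE02 : h20n_IsE02 M q hq hqM E02)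
    (w : FF (M * q * q)) (hw : w ∈ modelAt (M * q * q) A (jB (M * q * q))) :
    ∃ l : FF M, l ∈ h62rChart A M (jB M) ∧ h18c_Small A (E02 (w - h18c_bb M q l)) := by
  obtain ⟨l', hl', h, h0⟩ := h44s_surj02_fin_E hq hqM haux hA E02 hE02 w hw
  obtain ⟨l, hl, hred⟩ := h44z_descend_fin hq hqM hA hl'
  refine ⟨l, hl, ?_⟩
  rw [h44s_small_iff]
  have h1 : h44s_Red A (E02 (w - h44s_bb M q l')) 0 := ⟨h, h0⟩
  have h2 : h44s_Red A (E02 (h44s_bb M q (l' - l))) 0 := by
    rw [h44s_E02_eq hq hqM E02 hE02, h44s_fricke2_bb, h44s_coe_aa]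
    exact hred
  have h3 := h1.add h2
  rw [add_zero, ← map_add] at h3
  refine h3.congr ?_ rfl
  congr 1
  rw [map_sub]
  show w - h44s_bb M q l' + (h44s_bb M q l' - h44s_bb M q l) = w - h44s_bb M q l
  ring

end Fin

/-! ## The points of `C₀₂` -/

section Main

/-- `φ = β₂ ∘ β` on the finite charts over `A₀`. -/
def h44zPhi (A : ValuationSubring Kbar) (M : ℕ) {q : ℕ} [NeZero M] [NeZero q] (hq : q.Prime)
    (hM : ¬ q ∣ M) (hA : A.LiesOverPrime q) :
    h62rChart A M (jB M) →+* h62rChart A (M * q * q) (jB (M * q * q)) :=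
  (h59y_b2 A M hq hM hA).comp (h62rBeta A M hq hM hA)

theorem h44z_coe_phi (A : ValuationSubring Kbar) (M : ℕ) {q : ℕ} [NeZero M] [NeZero q]
    (hq : q.Prime) (hM : ¬ q ∣ M) (hA : A.LiesOverPrime q) (l : h62rChart A M (jB M)) :
    ((h44zPhi A M hq hM hA l : h62rChart A (M * q * q) (jB (M * q * q))) : FF (M * q * q)) =
      h18c_bb M q (l : FF M) := rfl

theorem h44z_E20_coe (M q : ℕ) [NeZero M] [NeZero q] (x : FF (M * q * q)) :
    h20n_E20 M q x = ((x : FF (M * q * q)) : LaurentSeries Kbar) := rfl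

theorem h44z_small_E20_a2 {A : ValuationSubring Kbar} {M q : ℕ} [NeZero M] [NeZero q]
    (z : FF (M * q)) (hzs : h18c_Small A ((z : FF (M * q)) : LaurentSeries Kbar)) :
    h18c_Small A (h20n_E20 M q (heckeAlphaBar Kbar (M * q) q z)) := by
  rw [h44z_E20_coe, coe_heckeAlphaBar]
  exact hzs

theorem h44z_small_E11_a2 {A : ValuationSubring Kbar} {M q : ℕ} [NeZero M] [NeZero q]
    (hq : q.Prime) (hqM : ¬ q ∣ M) (ζ : Kbar)
    (E11 : FF (M * q * q) →+* LaurentSeries Kbar) (hE11 : h20n_IsE11 M q hq hqM ζ E11)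
    (z : FF (M * q)) (hzs : h18c_Small A ((z : FF (M * q)) : LaurentSeries Kbar)) :
    h18c_Small A (E11 (heckeAlphaBar Kbar (M * q) q z)) := by
  rw [hE11.1]
  exact hzs

theorem h44z_coe_incl_a2 {A : ValuationSubring Kbar} {M q : ℕ} [NeZero M] [NeZero q]
    (z : h62rChart A (M * q) (jSS M q)) :
    ((h18a_incl A (M * q * q) (jB (M * q * q)) (h62rA2 A M z) : h28v_F0 A (M * q * q)) :
      FF (M * q * q)) = heckeAlphaBar Kbar (M * q) q (z : FF (M * q)) := rfl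

theorem h44z_coe_incl_sub (A : ValuationSubring Kbar) (M : ℕ) {q : ℕ} [NeZero M] [NeZero q]
    (hq : q.Prime) (hM : ¬ q ∣ M) (hA : A.LiesOverPrime q)
    (w : h62rChart A (M * q * q) (jB (M * q * q))) (l : h62rChart A M (jB M)) :
    ((h18a_incl A (M * q * q) (jB (M * q * q)) (w - h44zPhi A M hq hM hA l) :
      h28v_F0 A (M * q * q)) : FF (M * q * q)) = (w : FF (M * q * q)) - h18c_bb M q (l : FF M) :=
  rfl

set_option maxHeartbeats 1600000 in
/-- **R-ORD-0 (geometric strong form)**: the one-branch datum at the closed points of the finite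
chart of level `M q²` whose contraction along `α₂` does not lie on `C_∞`. -/
theorem h44z_geoZeroOne : H62GeoZeroOne := by
  intro q hq M _ hqM haux
  haveI : NeZero q := ⟨hq.ne_zero⟩
  intro A hA 𝔫 h𝔫max hq𝔫 hPinf
  have : NeZero ((q : ℕ) : Kbar) := ⟨by exact_mod_cast hq.ne_zero⟩
  obtain ⟨ζ, hζ⟩ := HasEnoughRootsOfUnity.exists_primitiveRoot Kbar q
  obtain ⟨E11, hE11⟩ := (h20n_embExists q hq M hqM).1 ζ hζ.pow_eq_one (hζ.ne_one hq.one_lt)
  obtain ⟨E02, hE02⟩ := (h20n_embExists q hq M hqM).2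
  have hT : h20v_Triple M q hq hqM ζ E11 E02 := ⟨hζ, hE11, hE02⟩
  obtain ⟨Wv, hW0, hW1, hW2, hq0, hq1, hq2, -, -, -⟩ :=
    h55vv_val q hq M hqM A hA ζ hζ E11 hE11 E02 hE02
  -- the chart is Gauss-integral
  have hB : ∀ (b : h62rChart A (M * q * q) (jB (M * q * q))) (j : Fin 3),
      Wv j (h18a_incl A (M * q * q) (jB (M * q * q)) b) ≤ 1 := by
    intro b j
    obtain ⟨h0, h1, h2⟩ := h44z_int_fin hq hqM hA ζ E11 E02 hT (b : FF (M * q * q))
      (h62r_mem_chart.mp b.2).1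
    fin_cases j
    · exact (hW0 _).mpr h0
    · exact (hW1 _).mpr h1
    · exact (hW2 _).mpr h2
  -- the uniformiser `q`
  have hinclq : h18a_incl A (M * q * q) (jB (M * q * q))
      ((q : ℕ) : h62rChart A (M * q * q) (jB (M * q * q))) =
      ((q : ℕ) : h28v_F0 A (M * q * q)) := map_natCast _ q
  have hπ0 : h18a_incl A (M * q * q) (jB (M * q * q))
      ((q : ℕ) : h62rChart A (M * q * q) (jB (M * q * q))) ≠ 0 := by
    rw [hinclq]
    intro h0
    rw [h0, map_zero] at hq0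
    exact WithZero.exp_ne_zero hq0.symm
  have hq2' : 2 ≤ q := hq.two_le
  have hcastq : (((q - 1 : ℕ) : ℕ) : ℤ) = (q : ℤ) - 1 := by
    rw [Nat.cast_sub hq.one_lt.le]; rfl
  have hπv : ∀ j : Fin 3, exp (-(((q - 1 : ℕ) : ℕ) : ℤ)) ≤
      Wv j (h18a_incl A (M * q * q) (jB (M * q * q))
        ((q : ℕ) : h62rChart A (M * q * q) (jB (M * q * q)))) := by
    intro j
    rw [hinclq, hcastq]
    fin_cases j
    · show _ ≤ Wv 0 _
      rw [hq0, WithZero.exp_le_exp]
      omega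
    · show _ ≤ Wv 1 _
      rw [hq1]
    · show _ ≤ Wv 2 _
      rw [hq2, WithZero.exp_le_exp]
      omega
  -- QEP
  have hQEP : ∀ x : h28v_F0 A (M * q * q), (∀ j, Wv j x ≤ 1) →
      (∃ b : h62rChart A (M * q * q) (jB (M * q * q)),
        h18a_incl A (M * q * q) (jB (M * q * q)) b =
          h18a_incl A (M * q * q) (jB (M * q * q))
            ((q : ℕ) : h62rChart A (M * q * q) (jB (M * q * q))) * x) →
      ∃ b : h62rChart A (M * q * q) (jB (M * q * q)),
        h18a_incl A (M * q * q) (jB (M * q * q)) b = x := by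
    intro x hx hb
    obtain ⟨b, hb⟩ := hb
    have hint : h20v_Int M q A E11 E02 (x : FF (M * q * q)) :=
      ⟨(hW0 x).mp (hx 0), (hW1 x).mp (hx 1), (hW2 x).mp (hx 2)⟩
    have hV : (x : FF (M * q * q)) ∈ h92c_V A M q :=
      h88v_vcomplete_final q hq M hqM haux A hA ζ E11 E02 hT (x : FF (M * q * q)) x.2 hint
    have hV0 : (x : FF (M * q * q)) ∈ h92c_V0 A M q := ⟨hV, x.2⟩
    have hb' : (b : FF (M * q * q)) = ((q : ℕ) : FF (M * q * q)) * (x : FF (M * q * q)) := by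
      have h1 := congrArg (Subtype.val) hb
      rw [hinclq] at h1
      exact h1
    have hax : ((q : ℕ) : FF (M * q * q)) * (x : FF (M * q * q)) ∈
        h92c_Chart A (M * q * q) (jB (M * q * q)) := by
      rw [← hb']
      exact b.2
    have hmem := h27v_qep_q_fin A M hq hqM hA (x : FF (M * q * q)) hV0 hax
    exact ⟨⟨(x : FF (M * q * q)), hmem⟩, Subtype.ext rfl⟩
  -- the point
  haveI hprime : 𝔫.IsPrime := h𝔫max.isPrime
  -- the glue: smallness gives value `< 1`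
  have hg0 : ∀ x : h28v_F0 A (M * q * q), h18c_Small A (h20n_E20 M q (x : FF (M * q * q))) →
      Wv 0 x < 1 := fun x hx =>
    h18a_lt_one (Wv 0) (h20v_G A) ((h20n_E20 M q).comp (h28v_F0 A (M * q * q)).subtype)
      (fun y => hW0 y) x hx
  have hg1 : ∀ x : h28v_F0 A (M * q * q), h18c_Small A (E11 (x : FF (M * q * q))) →
      Wv 1 x < 1 := fun x hx =>
    h18a_lt_one (Wv 1) (h20v_G A) (E11.comp (h28v_F0 A (M * q * q)).subtype)
      (fun y => hW1 y) x hx
  have hg2 : ∀ x : h28v_F0 A (M * q * q), h18c_Small A (E02 (x : FF (M * q * q))) →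
      Wv 2 x < 1 := fun x hx =>
    h18a_lt_one (Wv 2) (h20v_G A) (E02.comp (h28v_F0 A (M * q * q)).subtype)
      (fun y => hW2 y) x hx
  -- the multiplier
  obtain ⟨z, hzP, hz𝔫⟩ := Set.not_subset.mp hPinf
  have hzs : h18c_Small A (((z : FF (M * q)) : FF (M * q)) : LaurentSeries Kbar) :=
    h44z_small_of_nonunits hq hA ((h62s_mem_Pinf A M hq hqM hA z).mp hzP)
  have hu : h62rA2 A M z ∉ 𝔫 := fun h => hz𝔫 (Ideal.mem_comap.mpr h)
  have huv : ∀ j : Fin 3, j ≠ 2 →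
      Wv j (h18a_incl A (M * q * q) (jB (M * q * q)) (h62rA2 A M z)) < 1 := by
    intro j hj
    fin_cases j
    · refine hg0 _ ?_
      rw [h44z_coe_incl_a2]
      exact h44z_small_E20_a2 _ hzs
    · refine hg1 _ ?_
      rw [h44z_coe_incl_a2]
      exact h44z_small_E11_a2 hq hqM ζ E11 hE11 _ hzs
    · exact absurd rfl hj
  have hπi : Wv 2 (h18a_incl A (M * q * q) (jB (M * q * q))
      ((q : ℕ) : h62rChart A (M * q * q) (jB (M * q * q)))) = exp (-1 : ℤ) := by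
    rw [hinclq, hq2]
  -- `φ (q) = q`
  have hφπ : h44zPhi A M hq hqM hA ((q : ℕ) : h62rChart A M (jB M)) =
      ((q : ℕ) : h62rChart A (M * q * q) (jB (M * q * q))) := map_natCast _ q
  -- residue degree one
  have hsurj : ∀ w ∈ 𝔫, ∃ (l : h62rChart A M (jB M))
      (s : h62rChart A (M * q * q) (jB (M * q * q))), s ∉ 𝔫 ∧
      Wv 2 (h18a_incl A (M * q * q) (jB (M * q * q)) (s * w - h44zPhi A M hq hqM hA l)) < 1 := by
    intro w hw
    obtain ⟨l, hl, hsm⟩ := h44z_res02_fin hq hqM haux hA E02 hE02 (w : FF (M * q * q))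
      (h62r_mem_chart.mp w.2).1
    refine ⟨⟨l, hl⟩, 1, (Ideal.ne_top_iff_one 𝔫).mp hprime.ne_top, ?_⟩
    rw [one_mul]
    refine hg2 _ ?_
    rw [h44z_coe_incl_sub]
    exact hsm
  -- the local parameter of the level `M`
  obtain ⟨hmax1, hq1'⟩ := h59y_comap_b2 A M hq hqM hA 𝔫 h𝔫max hq𝔫
  obtain ⟨hmax0, hq0'⟩ := h59y_comap_beta1 A M hq hqM hA _ hmax1 hq1'
  have hmaxφ : (𝔫.comap (h44zPhi A M hq hqM hA)).IsMaximal := by
    rw [h44zPhi, ← Ideal.comap_comap]
    exact hmax0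
  have hqφ : ((q : ℕ) : h62rChart A M (jB M)) ∈ 𝔫.comap (h44zPhi A M hq hqM hA) := by
    rw [Ideal.mem_comap, hφπ]
    exact hq𝔫
  obtain ⟨u₀, -, hu₀, hgen₀⟩ := h62r_L0_of h25i_redIsoStatement q hq M hqM haux A hA _ hmaxφ hqφ
  exact h44z_one_unram Wv (h18a_incl A (M * q * q) (jB (M * q * q)))
    (h18a_incl_inj A (M * q * q) (jB (M * q * q))) 𝔫 2 (h44zPhi A M hq hqM hA) hB
    ((q : ℕ) : h62rChart A (M * q * q) (jB (M * q * q))) hπ0 (q - 1) hπv hQEP hq𝔫 hπi
    (h62rA2 A M z) hu huv ((q : ℕ) : h62rChart A M (jB M)) hφπ hsurj u₀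
    (Ideal.mem_comap.mp hu₀) hgen₀

end Main

end Fermat.Agent.S36
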