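import Fermat.Agent.S36.H62FinGeo
import Fermat.Agent.S36.H44FrickeChart2
import Fermat.Agent.S35.H85TorGal

/-!
# S36, block REG (helper62): the Fricke mirror at level `M q²` — the points of `C_{20}` and the
nodes seen through `β₂` are the mirror images of the points of `C_{02}` and of the nodes seen
through `α₂`

`B₁ = h62rChart A (M q) (jSS M q)`, `B₂ = h62rChart A (M q²) (jB (M q²))`,
`α₂ = h62rA2`, `β₂ = h59y_b2 : B₁ → B₂`.

* `h62oW1 : B₁ →+* B₁`, `h62oW2 : B₂ →+* B₂` : the Fricke involutions on the charts over `A₀`;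
  `h62o_w2_a2 : w₂ ∘ α₂ = β₂ ∘ w₁`, `h62o_w2_b2 : w₂ ∘ β₂ = α₂ ∘ w₁`; `w₁` exchanges
  `P∞₀ = h62sPinf` and `P0₀ = h62sP0`.
* `h62o_datum_comap` : `H62Datum` is transported by an involution fixing `q`.
* `H62Ord11` (frozen): the closed points `𝔫₂ ∋ q` of `B₂` with `α₂⁻¹ 𝔫₂` on `C_∞` only and
  `β₂⁻¹ 𝔫₂` on `C_0` only (the ordinary points of the component `C_{11}`) carry `H62Datum`.
* `h62o_geoInf_of : H62GeoNode → H62GeoZero → H62Ord11 → H62GeoInf`.
* `h62o_regStatement_of : H62GeoNode → H62GeoZero → H62Ord11 → H62LeafCusp → H62RegStatement`.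
-/

set_option autoImplicit false
set_option linter.unusedSectionVars false
set_option linter.style.haveILetI false

open AlgebraicCurve ModularCurve IsLocalRing

noncomputable section

namespace Fermat.Agent.S36

open Fermat.Agent.S37 Fermat.Agent.Red Fermat.Agent.Red.GG Fermat.Agent.LGC
open Fermat.Agent.Red.GV.Soft (softRing)
open Fermat.Agent.Red.Kron (kFricke kFricke_kFricke)

/-! ## Transport of the datum along an involution -/

section Transport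

variable {B : Type*} [CommRing B]

theorem h62o_span_pair_map (e : B →+* B) {a b x : B} (h : x ∈ Ideal.span {a, b}) :
    e x ∈ Ideal.span {e a, e b} := by
  obtain ⟨c, d, hcd⟩ := Ideal.mem_span_pair.mp h
  rw [← hcd, map_add, map_mul, map_mul]
  exact Ideal.mem_span_pair.mpr ⟨_, _, rfl⟩

theorem h62o_span_single_map (e : B →+* B) {a x : B} (h : x ∈ Ideal.span {a}) :
    e x ∈ Ideal.span {e a} := by
  obtain ⟨c, hc⟩ := Ideal.mem_span_singleton'.mp h
  rw [← hc, map_mul]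
  exact Ideal.mem_span_singleton'.mpr ⟨_, rfl⟩

/-- `H62Datum` is transported by an involution. -/
theorem h62o_datum_comap (e : B →+* B) (he : ∀ x, e (e x) = x) (𝔫 : Ideal B) (q : ℕ)
    (h : H62Datum (𝔫.comap e) q) : H62Datum 𝔫 q := by
  have hq : e (q : B) = (q : B) := map_natCast e q
  have hgen : ∀ a b : B, (∀ w ∈ 𝔫.comap e, ∃ s, s ∉ 𝔫.comap e ∧ s * w ∈ Ideal.span {a, b}) →
      ∀ w ∈ 𝔫, ∃ s, s ∉ 𝔫 ∧ s * w ∈ Ideal.span {e a, e b} := by
    intro a b hab w hw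
    have hw' : e w ∈ 𝔫.comap e := by
      rw [Ideal.mem_comap, he]
      exact hw
    obtain ⟨s, hs, hsw⟩ := hab (e w) hw'
    refine ⟨e s, fun h => hs (Ideal.mem_comap.mpr h), ?_⟩
    have h1 := h62o_span_pair_map e hsw
    rwa [map_mul, he] at h1
  rcases h with ⟨X, Y, Z, hX, hZ, hg, h1, h2⟩ | ⟨z, t, hz, ht, hg, n, s, c, hs, hsc⟩
  · refine Or.inl ⟨e X, e Y, e Z, Ideal.mem_comap.mp hX, Ideal.mem_comap.mp hZ,
      hgen X Z hg, ?_, ?_⟩
    · have h3 := h62o_span_single_map e h1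
      rwa [hq, map_mul, map_sub, map_sub, map_pow, map_pow] at h3
    · have h3 := h62o_span_single_map e h2
      rwa [hq, map_mul, map_sub, map_sub, map_pow, map_pow] at h3
  · refine Or.inr ⟨e z, e t, Ideal.mem_comap.mp hz, Ideal.mem_comap.mp ht, hgen z t hg,
      n, e s, e c, fun h => hs (Ideal.mem_comap.mpr h), ?_⟩
    have h3 := congrArg e hsc
    rwa [map_mul, map_mul, map_pow, hq] at h3

theorem h62o_comap_isMaximal (e : B →+* B) (he : ∀ x, e (e x) = x) (𝔫 : Ideal B)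
    [h𝔫 : 𝔫.IsMaximal] : (𝔫.comap e).IsMaximal :=
  Ideal.comap_isMaximal_of_surjective e (fun b => ⟨e b, he b⟩)

end Transport

/-! ## The Fricke involutions on the charts over `A₀` -/

section Fricke

variable (A : ValuationSubring Kbar) (M : ℕ) {q : ℕ} [NeZero M] [NeZero q]

theorem h62o_w1_mem (hq : q.Prime) (hM : ¬ q ∣ M) (hA : A.LiesOverPrime q)
    {x : FF (M * q)} (hx : x ∈ h62rChart A (M * q) (jSS M q)) :
    kFricke M q hq hM x ∈ h62rChart A (M * q) (jSS M q) := by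
  obtain ⟨h1, h2⟩ := h62r_mem_chart.mp hx
  refine h62r_mem_chart.mpr ⟨h62i_w_mem A M hq hM hA ⟨x, h1⟩, fun σ hσ => ?_⟩
  rw [← Fermat.Agent.S35.h85t_kFricke_gal, h2 σ hσ]

theorem h62o_w2_mem (hq : q.Prime) (hM : ¬ q ∣ M) (hA : A.LiesOverPrime q)
    {x : FF (M * q * q)} (hx : x ∈ h62rChart A (M * q * q) (jB (M * q * q))) :
    h44s_fricke2 M q hq hM x ∈ h62rChart A (M * q * q) (jB (M * q * q)) := by
  obtain ⟨h1, h2⟩ := h62r_mem_chart.mp hx
  exact h62r_mem_chart.mpr ⟨h44s_fricke2_mem_modelFin M q hq hM A hA h1,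
    fun σ hσ => h44s_fricke2_fixed M q hq hM σ (h2 σ hσ)⟩

/-- the Fricke involution `w₁` on the chart of level `M q` over `A₀`. -/
def h62oW1 (hq : q.Prime) (hM : ¬ q ∣ M) (hA : A.LiesOverPrime q) :
    h62rChart A (M * q) (jSS M q) →+* h62rChart A (M * q) (jSS M q) :=
  h59yMap A ((kFricke M q hq hM : FF (M * q) ≃ₐ[Kbar] FF (M * q)) : FF (M * q) →+* FF (M * q))
    _ _ (fun _ hx => h62o_w1_mem A M hq hM hA hx)

/-- the Fricke involution `w₂` on the finite chart of level `M q²` over `A₀`. -/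
def h62oW2 (hq : q.Prime) (hM : ¬ q ∣ M) (hA : A.LiesOverPrime q) :
    h62rChart A (M * q * q) (jB (M * q * q)) →+*
      h62rChart A (M * q * q) (jB (M * q * q)) :=
  h59yMap A ((h44s_fricke2 M q hq hM : FF (M * q * q) ≃ₐ[Kbar] FF (M * q * q)) :
    FF (M * q * q) →+* FF (M * q * q)) _ _ (fun _ hx => h62o_w2_mem A M hq hM hA hx)

@[simp]
theorem h62o_coe_w1 (hq : q.Prime) (hM : ¬ q ∣ M) (hA : A.LiesOverPrime q)
    (x : h62rChart A (M * q) (jSS M q)) :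
    ((h62oW1 A M hq hM hA x : h62rChart A (M * q) (jSS M q)) : FF (M * q)) =
      kFricke M q hq hM (x : FF (M * q)) := rfl

@[simp]
theorem h62o_coe_w2 (hq : q.Prime) (hM : ¬ q ∣ M) (hA : A.LiesOverPrime q)
    (x : h62rChart A (M * q * q) (jB (M * q * q))) :
    ((h62oW2 A M hq hM hA x : h62rChart A (M * q * q) (jB (M * q * q))) : FF (M * q * q)) =
      h44s_fricke2 M q hq hM (x : FF (M * q * q)) := rfl

theorem h62o_w1_w1 (hq : q.Prime) (hM : ¬ q ∣ M) (hA : A.LiesOverPrime q)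
    (x : h62rChart A (M * q) (jSS M q)) :
    h62oW1 A M hq hM hA (h62oW1 A M hq hM hA x) = x :=
  Subtype.ext (kFricke_kFricke M q hq hM _)

theorem h62o_w2_w2 (hq : q.Prime) (hM : ¬ q ∣ M) (hA : A.LiesOverPrime q)
    (x : h62rChart A (M * q * q) (jB (M * q * q))) :
    h62oW2 A M hq hM hA (h62oW2 A M hq hM hA x) = x :=
  Subtype.ext (h44s_fricke2_fricke2 M q hq hM _)

/-- `w₂ ∘ α₂ = β₂ ∘ w₁`. -/
theorem h62o_w2_a2 (hq : q.Prime) (hM : ¬ q ∣ M) (hA : A.LiesOverPrime q)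
    (y : h62rChart A (M * q) (jSS M q)) :
    h62oW2 A M hq hM hA (h62rA2 A M y) = h59y_b2 A M hq hM hA (h62oW1 A M hq hM hA y) :=
  Subtype.ext (h44s_fricke2_alpha M q hq hM _)

/-- `w₂ ∘ β₂ = α₂ ∘ w₁`. -/
theorem h62o_w2_b2 (hq : q.Prime) (hM : ¬ q ∣ M) (hA : A.LiesOverPrime q)
    (y : h62rChart A (M * q) (jSS M q)) :
    h62oW2 A M hq hM hA (h59y_b2 A M hq hM hA y) = h62rA2 A M (h62oW1 A M hq hM hA y) :=
  Subtype.ext (h44s_fricke2_beta M q hq hM _)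

theorem h62o_w1_mem_Pinf_iff (hq : q.Prime) (hM : ¬ q ∣ M) (hA : A.LiesOverPrime q)
    (y : h62rChart A (M * q) (jSS M q)) :
    h62oW1 A M hq hM hA y ∈ h62sPinf A M hq hM hA ↔ y ∈ h62sP0 A M hq hM hA := by
  rw [h62s_mem_Pinf, h62s_mem_P0]
  rfl

theorem h62o_w1_mem_P0_iff (hq : q.Prime) (hM : ¬ q ∣ M) (hA : A.LiesOverPrime q)
    (y : h62rChart A (M * q) (jSS M q)) :
    h62oW1 A M hq hM hA y ∈ h62sP0 A M hq hM hA ↔ y ∈ h62sPinf A M hq hM hA := by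
  rw [← h62o_w1_mem_Pinf_iff, h62o_w1_w1]

/-- `α₂⁻¹ (w₂⁻¹ 𝔫₂) = w₁⁻¹ (β₂⁻¹ 𝔫₂)`. -/
theorem h62o_comap_a2_w2 (hq : q.Prime) (hM : ¬ q ∣ M) (hA : A.LiesOverPrime q)
    (𝔫₂ : Ideal (h62rChart A (M * q * q) (jB (M * q * q)))) :
    (𝔫₂.comap (h62oW2 A M hq hM hA)).comap (h62rA2 A M) =
      (𝔫₂.comap (h59y_b2 A M hq hM hA)).comap (h62oW1 A M hq hM hA) := by
  ext y
  rw [Ideal.mem_comap, Ideal.mem_comap, Ideal.mem_comap, Ideal.mem_comap, h62o_w2_a2]

end Fricke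

/-! ## The mirror reduction -/

/-- **the ordinary points of `C_{11}`** (frozen): `α₂⁻¹ 𝔫₂` on `C_∞` only, `β₂⁻¹ 𝔫₂` on `C_0`
only. -/
def H62Ord11 : Prop :=
  ∀ (q : ℕ) (hq : q.Prime) (M : ℕ) [NeZero M] (hM : ¬ q ∣ M), auxLevel q ∣ M →
    haveI : NeZero q := ⟨hq.ne_zero⟩
    ∀ (A : ValuationSubring Kbar) (hA : A.LiesOverPrime q),
      ∀ 𝔫₂ : Ideal (h62rChart A (M * q * q) (jB (M * q * q))), 𝔫₂.IsMaximal →
        (q : h62rChart A (M * q * q) (jB (M * q * q))) ∈ 𝔫₂ →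
        ¬ h62sP0 A M hq hM hA ≤ 𝔫₂.comap (h62rA2 A M) →
        ¬ h62sPinf A M hq hM hA ≤ 𝔫₂.comap (h59y_b2 A M hq hM hA) → H62Datum 𝔫₂ q

/-- **the mirror**: the points over `C_∞` are ordinary points of `C_{11}` or mirror images of
nodes / of points of `C_{02}`. -/
theorem h62o_geoInf_of (hn : H62GeoNode) (hz : H62GeoZero) (h11 : H62Ord11) : H62GeoInf := by
  intro q hq M _ hM haux
  haveI : NeZero q := ⟨hq.ne_zero⟩
  intro A hA 𝔫₂ h𝔫₂ hq𝔫₂ h0
  by_cases hb : h62sPinf A M hq hM hA ≤ 𝔫₂.comap (h59y_b2 A M hq hM hA)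
  · -- mirror
    have hmax : (𝔫₂.comap (h62oW2 A M hq hM hA)).IsMaximal :=
      h62o_comap_isMaximal _ (h62o_w2_w2 A M hq hM hA) 𝔫₂
    have hq' : (q : h62rChart A (M * q * q) (jB (M * q * q))) ∈
        𝔫₂.comap (h62oW2 A M hq hM hA) := by
      rw [Ideal.mem_comap, map_natCast]
      exact hq𝔫₂
    have hP0 : h62sP0 A M hq hM hA ≤
        (𝔫₂.comap (h62oW2 A M hq hM hA)).comap (h62rA2 A M) := by
      rw [h62o_comap_a2_w2]
      intro y hy
      rw [Ideal.mem_comap]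
      exact hb ((h62o_w1_mem_Pinf_iff A M hq hM hA y).mpr hy)
    apply h62o_datum_comap (h62oW2 A M hq hM hA) (h62o_w2_w2 A M hq hM hA) 𝔫₂ q
    by_cases hinf : h62sPinf A M hq hM hA ≤
        (𝔫₂.comap (h62oW2 A M hq hM hA)).comap (h62rA2 A M)
    · exact hn q hq M hM haux A hA _ hmax hq' hinf hP0
    · exact hz q hq M hM haux A hA _ hmax hq' hinf
  · exact h11 q hq M hM haux A hA 𝔫₂ h𝔫₂ hq𝔫₂ h0 hb

/-- **REG, final assembly (mirror form)**: nodes, points of `C_{02}`, ordinary points of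
`C_{11}`, cusps. -/
theorem h62o_regStatement_of (hn : H62GeoNode) (hz : H62GeoZero) (h11 : H62Ord11)
    (hC : H62LeafCusp) : H62RegStatement :=
  h62g_regStatement_of hn (h62o_geoInf_of hn hz h11) hz hC

end Fermat.Agent.S36
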