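import Fermat.Agent.S36.H80OrdIface
import Fermat.Agent.S36.H62Mirror

/-!
# S36, block REG, row R-ORD, leaf R-ORD-20 (helper44): the points of `C₂₀` are the Fricke
mirror images of the points of `C₀₂`

`B₁ = h62rChart A (M q) (jSS M q)`, `B₂ = h62rChart A (M q²) (jB (M q²))`,
`α₂ = h62rA2`, `β₂ = h59y_b2`, `w₁ = h62oW1`, `w₂ = h62oW2` (helper62's Fricke involutions on the
charts over `A₀`).

* `h44o_one_comap` : the one-branch datum `h95s_OneDatum` is transported by an involution.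
* `h44o_w1_alpha`, `h44o_w1_beta` : `w₁ ∘ α = β`, `w₁ ∘ β = α` on the charts.
* `h44o_zero_of_inf`, `h44o_inf_of_zero` : `w₁` exchanges `H62InfDatum` and `H62ZeroDatum`.
* `h44o_ordC20_of : H80FinZeroOne → H80OrdC20` (**R-ORD-20**), and the converse
  `h44o_finZeroOne_of : H80OrdC20 → H80FinZeroOne`.
-/

set_option autoImplicit false
set_option linter.unusedSectionVars false
set_option linter.style.haveILetI false

open AlgebraicCurve ModularCurve IsLocalRing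

noncomputable section

namespace Fermat.Agent.S36

open Fermat.Agent.S37 Fermat.Agent.Red Fermat.Agent.Red.GG Fermat.Agent.LGC
open Fermat.Agent.Red.Kron (kFricke kFricke_kFricke kFricke_alpha kFricke_beta)

section Abs

variable {B : Type*} [CommRing B]

/-- the one-branch datum is transported by an involution fixing `π`. -/
theorem h44o_one_comap (e : B →+* B) (he : ∀ x, e (e x) = x) (𝔫 : Ideal B) (π : B)
    (hπ : e π = π) (h : h95s_OneDatum (𝔫.comap e) π) : h95s_OneDatum 𝔫 π := by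
  obtain ⟨z, t, hz, ht, hg, n, s, c, hs, hsc⟩ := h
  refine ⟨e z, e t, Ideal.mem_comap.mp hz, Ideal.mem_comap.mp ht, ?_, n, e s, e c,
    fun h => hs (Ideal.mem_comap.mpr h), ?_⟩
  · intro w hw
    have hw' : e w ∈ 𝔫.comap e := by
      rw [Ideal.mem_comap, he]
      exact hw
    obtain ⟨s', hs', hsw⟩ := hg (e w) hw'
    refine ⟨e s', fun h => hs' (Ideal.mem_comap.mpr h), ?_⟩
    have h1 := h62o_span_pair_map e hsw
    rwa [map_mul, he] at h1
  · have h3 := congrArg e hsc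
    rwa [map_mul, map_mul, map_pow, hπ] at h3

end Abs

section Inst

variable (A : ValuationSubring Kbar) (M : ℕ) {q : ℕ} [NeZero M] [NeZero q]
  (hq : q.Prime) (hM : ¬ q ∣ M) (hA : A.LiesOverPrime q)

/-- `w₁ ∘ α = β`. -/
theorem h44o_w1_alpha (u : h62rChart A M (jB M)) :
    h62oW1 A M hq hM hA (h62rAlpha A M u) = h62rBeta A M hq hM hA u :=
  Subtype.ext (kFricke_alpha M q hq hM _)

/-- `w₁ ∘ β = α`. -/
theorem h44o_w1_beta (u : h62rChart A M (jB M)) :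
    h62oW1 A M hq hM hA (h62rBeta A M hq hM hA u) = h62rAlpha A M u :=
  Subtype.ext (kFricke_beta M q hq hM _)

theorem h44o_not_mem_comap_w1 (𝔫₁ : Ideal (h62rChart A (M * q) (jSS M q)))
    {s : h62rChart A (M * q) (jSS M q)} (hs : s ∉ 𝔫₁) :
    h62oW1 A M hq hM hA s ∉ 𝔫₁.comap (h62oW1 A M hq hM hA) := by
  intro h
  apply hs
  rw [Ideal.mem_comap, h62o_w1_w1] at h
  exact h

theorem h44o_comap_w1_beta (𝔫₁ : Ideal (h62rChart A (M * q) (jSS M q))) :
    (𝔫₁.comap (h62oW1 A M hq hM hA)).comap (h62rBeta A M hq hM hA) =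
      𝔫₁.comap (h62rAlpha A M) := by
  ext x
  rw [Ideal.mem_comap, Ideal.mem_comap, Ideal.mem_comap, h44o_w1_beta]

theorem h44o_comap_w1_alpha (𝔫₁ : Ideal (h62rChart A (M * q) (jSS M q))) :
    (𝔫₁.comap (h62oW1 A M hq hM hA)).comap (h62rAlpha A M) =
      𝔫₁.comap (h62rBeta A M hq hM hA) := by
  ext x
  rw [Ideal.mem_comap, Ideal.mem_comap, Ideal.mem_comap, h44o_w1_alpha]

/-- `w₁` maps the smooth points of `C_∞` to smooth points of `C_0`. -/
theorem h44o_zero_of_inf (𝔫₁ : Ideal (h62rChart A (M * q) (jSS M q)))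
    (h : H62InfDatum A M hq hM hA 𝔫₁) :
    H62ZeroDatum A M hq hM hA (𝔫₁.comap (h62oW1 A M hq hM hA)) := by
  obtain ⟨h1, h2⟩ := h
  refine ⟨fun u hu => ?_, fun t ht hgen => ?_⟩
  · obtain ⟨s, hs, hsm⟩ := h1 u hu
    refine ⟨h62oW1 A M hq hM hA s, h44o_not_mem_comap_w1 A M hq hM hA 𝔫₁ hs, ?_⟩
    have h3 := h62o_span_single_map (h62oW1 A M hq hM hA) hsm
    rwa [map_mul, map_sub, map_pow, h44o_w1_beta, h44o_w1_alpha, map_natCast] at h3
  · rw [h44o_comap_w1_beta] at ht hgen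
    have h3 := h2 t ht hgen
    intro z hz
    obtain ⟨s, hs, hsm⟩ := h3 (h62oW1 A M hq hM hA z) (Ideal.mem_comap.mp hz)
    refine ⟨h62oW1 A M hq hM hA s, h44o_not_mem_comap_w1 A M hq hM hA 𝔫₁ hs, ?_⟩
    have h4 := h62o_span_pair_map (h62oW1 A M hq hM hA) hsm
    rwa [map_mul, h62o_w1_w1, map_natCast, h44o_w1_alpha] at h4

/-- `w₁` maps the smooth points of `C_0` to smooth points of `C_∞`. -/
theorem h44o_inf_of_zero (𝔫₁ : Ideal (h62rChart A (M * q) (jSS M q)))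
    (h : H62ZeroDatum A M hq hM hA 𝔫₁) :
    H62InfDatum A M hq hM hA (𝔫₁.comap (h62oW1 A M hq hM hA)) := by
  obtain ⟨h1, h2⟩ := h
  refine ⟨fun u hu => ?_, fun t ht hgen => ?_⟩
  · obtain ⟨s, hs, hsm⟩ := h1 u hu
    refine ⟨h62oW1 A M hq hM hA s, h44o_not_mem_comap_w1 A M hq hM hA 𝔫₁ hs, ?_⟩
    have h3 := h62o_span_single_map (h62oW1 A M hq hM hA) hsm
    rwa [map_mul, map_sub, map_pow, h44o_w1_beta, h44o_w1_alpha, map_natCast] at h3
  · rw [h44o_comap_w1_alpha] at ht hgen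
    have h3 := h2 t ht hgen
    intro z hz
    obtain ⟨s, hs, hsm⟩ := h3 (h62oW1 A M hq hM hA z) (Ideal.mem_comap.mp hz)
    refine ⟨h62oW1 A M hq hM hA s, h44o_not_mem_comap_w1 A M hq hM hA 𝔫₁ hs, ?_⟩
    have h4 := h62o_span_pair_map (h62oW1 A M hq hM hA) hsm
    rwa [map_mul, h62o_w1_w1, map_natCast, h44o_w1_beta] at h4

/-- `β₂⁻¹ (w₂⁻¹ 𝔫₂) = w₁⁻¹ (α₂⁻¹ 𝔫₂)`. -/
theorem h44o_comap_b2_w2 (𝔫₂ : Ideal (h62rChart A (M * q * q) (jB (M * q * q)))) :
    (𝔫₂.comap (h62oW2 A M hq hM hA)).comap (h59y_b2 A M hq hM hA) =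
      (𝔫₂.comap (h62rA2 A M)).comap (h62oW1 A M hq hM hA) := by
  ext y
  rw [Ideal.mem_comap, Ideal.mem_comap, Ideal.mem_comap, Ideal.mem_comap, h62o_w2_b2]

end Inst

/-- **R-ORD-20**: the points of `C₂₀` (contraction along `β₂` smooth on `C_∞`) carry the
one-branch datum, by the Fricke mirror of R-ORD-0. -/
theorem h44o_ordC20_of (h0 : H80FinZeroOne) : H80OrdC20 := by
  intro q hq M _ hM haux
  haveI : NeZero q := ⟨hq.ne_zero⟩
  intro A hA 𝔫₂ h𝔫₂ hq𝔫₂ hInf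
  have hmax : (𝔫₂.comap (h62oW2 A M hq hM hA)).IsMaximal :=
    h62o_comap_isMaximal _ (h62o_w2_w2 A M hq hM hA) 𝔫₂
  have hq' : (q : h62rChart A (M * q * q) (jB (M * q * q))) ∈
      𝔫₂.comap (h62oW2 A M hq hM hA) := by
    rw [Ideal.mem_comap, map_natCast]
    exact hq𝔫₂
  have hZero : H62ZeroDatum A M hq hM hA
      ((𝔫₂.comap (h62oW2 A M hq hM hA)).comap (h62rA2 A M)) := by
    rw [h62o_comap_a2_w2]
    exact h44o_zero_of_inf A M hq hM hA _ hInf
  exact h44o_one_comap (h62oW2 A M hq hM hA) (h62o_w2_w2 A M hq hM hA) 𝔫₂ _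
    (map_natCast _ q) (h0 q hq M hM haux A hA _ hmax hq' hZero)

/-- the converse mirror: R-ORD-20 gives R-ORD-0. -/
theorem h44o_finZeroOne_of (h20 : H80OrdC20) : H80FinZeroOne := by
  intro q hq M _ hM haux
  haveI : NeZero q := ⟨hq.ne_zero⟩
  intro A hA 𝔫₂ h𝔫₂ hq𝔫₂ hZero
  have hmax : (𝔫₂.comap (h62oW2 A M hq hM hA)).IsMaximal :=
    h62o_comap_isMaximal _ (h62o_w2_w2 A M hq hM hA) 𝔫₂
  have hq' : (q : h62rChart A (M * q * q) (jB (M * q * q))) ∈
      𝔫₂.comap (h62oW2 A M hq hM hA) := by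
    rw [Ideal.mem_comap, map_natCast]
    exact hq𝔫₂
  have hInf : H62InfDatum A M hq hM hA
      ((𝔫₂.comap (h62oW2 A M hq hM hA)).comap (h59y_b2 A M hq hM hA)) := by
    rw [h44o_comap_b2_w2]
    exact h44o_inf_of_zero A M hq hM hA _ hZero
  exact h44o_one_comap (h62oW2 A M hq hM hA) (h62o_w2_w2 A M hq hM hA) 𝔫₂ _
    (map_natCast _ q) (h20 q hq M hM haux A hA _ hmax hq' hInf)

end Fermat.Agent.S36
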