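import Fermat.Agent.S36.H44GeoZero
import Fermat.Agent.S36.H44OrdC20
import Fermat.Agent.S36.H31SSGeo

/-!
# S36, block REG, row R-ORD (helper44): corollaries of `h44z_geoZeroOne`

All the forms of R-ORD-0 and of R-ORD-20 used by the assemblies, unconditional:

* `h44z_geoZero : H62GeoZero`, `h44z_h31GeoZeroOne : H31GeoZeroOne`;
* `h44z_finZeroOne : H80FinZeroOne`, `h44z_h31FinZeroOne : H31FinZeroOne`,
  `h44z_finZero : H62FinZero`;
* `h44z_ordC20 : H80OrdC20` (the points of `C₂₀`, by the Fricke mirror).
-/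

set_option autoImplicit false
set_option linter.unusedVariables false
set_option linter.unusedSectionVars false
set_option linter.style.haveILetI false

open AlgebraicCurve ModularCurve IsLocalRing

noncomputable section

namespace Fermat.Agent.S36

open Fermat.Agent.S37 Fermat.Agent.Red.GG Fermat.Agent.LGC

/-- **R-ORD-0**, weak geometric form. -/
theorem h44z_geoZero : H62GeoZero := h62u_geoZero_of h44z_geoZeroOne

/-- **R-ORD-0**, strong geometric form (helper31's name). -/
theorem h44z_h31GeoZeroOne : H31GeoZeroOne := h44z_geoZeroOne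

/-- **R-ORD-0**, strong datum form (helper31's name). -/
theorem h44z_h31FinZeroOne : H31FinZeroOne := h62u_finZeroOne_of h44z_geoZeroOne

/-- **R-ORD-0**, strong datum form (helper80's name). -/
theorem h44z_finZeroOne : H80FinZeroOne := by
  intro q hq M _ hM haux
  haveI : NeZero q := ⟨hq.ne_zero⟩
  intro A hA 𝔫₂ h𝔫₂ hq𝔫₂ hd
  exact h44z_geoZeroOne q hq M hM haux A hA 𝔫₂ h𝔫₂ hq𝔫₂
    (h62u_not_Pinf_of_zeroDatum A M _ hq hM haux hA hd)

/-- **R-ORD-0**, weak datum form. -/
theorem h44z_finZero : H62FinZero := h80i_finZero_of h44z_finZeroOne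

/-- **R-ORD-20**: the points of `C₂₀`. -/
theorem h44z_ordC20 : H80OrdC20 := h44o_ordC20_of h44z_finZeroOne

end Fermat.Agent.S36
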