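import Fermat.Agent.S36.H44Trace2
import Fermat.Agent.S36.H1Gauss
import Fermat.Agent.S36.H12EmbDF
import Fermat.Agent.LGC.Res44
import Fermat.Agent.LGC.KronRed44
import Fermat.Agent.Red.GV.SoftGal

/-!
# S36 / (V): integrality at the `q`-expansion embeddings of `F₂ = F_{Mqq}` (generic part)

`A` a valuation subring of `ℚ̄` over `q`, `G = softOT A` the Gauss ring of `ℚ̄((t))`,
`E : FF N → ℚ̄((t))` a ring homomorphism with values in the field `dfField` of fractions of
discrete series.

* `h44s_mem_or_inv_mem_softOT` : `s ∈ G` or `s⁻¹ ∈ G` for `s ∈ dfField`.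
* `h44s_ringE` : the valuation subring `W_E = {u | E u ∈ G}` of `FF N`.
* `h44s_mem_of_isIntegralElem` : `W_E` is integrally closed.
* `h44s_modelAt_le` : a chart `modelAt N A t` with `E t ∈ G` is contained in `W_E`.
* `h44s_red_modelAt_integral` : reductions of chart functions are integral over the reductions
  of the polynomials in the coordinate.
* `h44s_Red A s ρ` : the series `s` is Gauss-integral with reduction `ρ`; calculus
  (`add`, `mul`, `qExpand`, twists by `q`-power roots of unity, inertia, sums).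
-/

set_option autoImplicit false
set_option linter.style.haveILetI false
set_option linter.unusedSectionVars false
set_option synthInstance.maxHeartbeats 400000

open AlgebraicCurve ModularCurve IsLocalRing Polynomial

noncomputable section

namespace Fermat.Agent.S36

open Fermat.Agent.S37 Fermat.Agent.Red Fermat.Agent.Red.GV Fermat.Agent.Red.GV.Soft
  Fermat.Agent.Red.TRK Fermat.Agent.Red.Kron

variable (A : ValuationSubring Kbar) {q : ℕ}

/-- **valuation property of the Gauss ring on fractions of discrete series.** -/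
theorem h44s_mem_or_inv_mem_softOT (hq : q.Prime) (hA : A.LiesOverPrime q)
    {s : LaurentSeries Kbar} (hs : s ∈ dfField (K := Kbar)) :
    s ∈ softOT A (IsLocalRing.residue A) ∨ s⁻¹ ∈ softOT A (IsLocalRing.residue A) := by
  by_cases hs0 : s = 0
  · left
    rw [hs0]
    exact zero_mem _
  obtain ⟨c, a, b, hc, ha, hb, hab⟩ := h1g_exists_scale q hq A hA hs hs0
  have hw : IsWit A (IsLocalRing.residue A) (HahnSeries.C c * s) a b := ⟨hb, hab⟩
  have hu : HahnSeries.C c * s ∈ softOT A (IsLocalRing.residue A) := ⟨a, b, hw⟩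
  have hui : (HahnSeries.C c * s)⁻¹ ∈ softOT A (IsLocalRing.residue A) := ⟨b, a, hw.inv ha⟩
  have hC0 : (HahnSeries.C c : LaurentSeries Kbar) ≠ 0 := by
    intro h0
    exact hc (HahnSeries.C_injective (by rw [h0, map_zero]))
  rcases A.mem_or_inv_mem c with hcA | hcA
  · right
    have h1 : s⁻¹ = HahnSeries.C c * (HahnSeries.C c * s)⁻¹ := by
      field_simp
    rw [h1]
    exact mul_mem (C_mem_softOT A (IsLocalRing.residue A) ⟨c, hcA⟩) hui
  · left
    have h0 : (HahnSeries.C c⁻¹ : LaurentSeries Kbar) = (HahnSeries.C c)⁻¹ :=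
      map_inv₀ (HahnSeries.C : Kbar →+* LaurentSeries Kbar) c
    have h1 : s = HahnSeries.C c⁻¹ * (HahnSeries.C c * s) := by
      rw [h0]
      field_simp
    rw [h1]
    exact mul_mem (C_mem_softOT A (IsLocalRing.residue A) ⟨c⁻¹, hcA⟩) hu

variable {N : ℕ}

/-- the valuation subring `W_E = {u | E u ∈ G}` of `FF N`. -/
def h44s_ringE (hq : q.Prime) (hA : A.LiesOverPrime q) (E : FF N →+* LaurentSeries Kbar)
    (hDF : ∀ u : FF N, E u ∈ dfField (K := Kbar)) : ValuationSubring (FF N) :=
  { (softOT A (IsLocalRing.residue A)).comap E with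
    mem_or_inv_mem' := fun x => by
      rcases h44s_mem_or_inv_mem_softOT A hq hA (hDF x) with h | h
      · exact Or.inl h
      · right
        show E x⁻¹ ∈ softOT A (IsLocalRing.residue A)
        rw [map_inv₀]
        exact h }

theorem h44s_mem_ringE_iff (hq : q.Prime) (hA : A.LiesOverPrime q)
    (E : FF N →+* LaurentSeries Kbar) (hDF : ∀ u : FF N, E u ∈ dfField (K := Kbar))
    (x : FF N) :
    x ∈ h44s_ringE A hq hA E hDF ↔ E x ∈ softOT A (IsLocalRing.residue A) :=
  Iff.rfl

/-- `W_E` is integrally closed. -/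
theorem h44s_mem_of_isIntegralElem (hq : q.Prime) (hA : A.LiesOverPrime q)
    (E : FF N →+* LaurentSeries Kbar) (hDF : ∀ u : FF N, E u ∈ dfField (K := Kbar))
    {R : Type*} [CommRing R] (f : R →+* FF N)
    (hf : ∀ r, E (f r) ∈ softOT A (IsLocalRing.residue A)) (c : FF N)
    (h : f.IsIntegralElem c) : E c ∈ softOT A (IsLocalRing.residue A) := by
  let V : ValuationSubring (FF N) := h44s_ringE A hq hA E hDF
  obtain ⟨p, hp, hpc⟩ := h
  let e : R →+* ↥V := f.codRestrict V (fun x => hf x)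
  have hint : IsIntegral ↥V c := ⟨p.map e, hp.map _, by rw [Polynomial.eval₂_map]; exact hpc⟩
  obtain ⟨y, hy⟩ := (IsIntegrallyClosed.isIntegral_iff (R := ↥V) (K := FF N)).mp hint
  rw [← hy]
  exact y.2

/-- the evaluation `Q ↦ E (Q(t))` with values in the Gauss ring. -/
def h44s_evE (E : FF N →+* LaurentSeries Kbar)
    (hcst : ∀ c : Kbar, E (cst N c) = HahnSeries.C c) (t : FF N)
    (ht : E t ∈ softOT A (IsLocalRing.residue A)) :
    Polynomial A →+* ↥(softOT A (IsLocalRing.residue A)) :=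
  (E.comp (evalF N A t)).codRestrict (softOT A (IsLocalRing.residue A)) (fun Q => by
    show E (evalF N A t Q) ∈ softOT A (IsLocalRing.residue A)
    induction Q using Polynomial.induction_on with
    | C a =>
      rw [evalF_C, hcst]
      exact C_mem_softOT A (IsLocalRing.residue A) a
    | add p q hp hq =>
      rw [map_add, map_add]
      exact add_mem hp hq
    | monomial n a h =>
      rw [pow_succ, ← mul_assoc, map_mul, map_mul, evalF_X]
      exact mul_mem h ht)

theorem h44s_coe_evE (E : FF N →+* LaurentSeries Kbar)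
    (hcst : ∀ c : Kbar, E (cst N c) = HahnSeries.C c) (t : FF N)
    (ht : E t ∈ softOT A (IsLocalRing.residue A)) (Q : Polynomial A) :
    ((h44s_evE A E hcst t ht Q : softOT A (IsLocalRing.residue A)) : LaurentSeries Kbar) =
      E (evalF N A t Q) := rfl

/-- a chart whose coordinate is Gauss-integral at `E` consists of functions which are
Gauss-integral at `E`. -/
theorem h44s_modelAt_le (hq : q.Prime) (hA : A.LiesOverPrime q)
    (E : FF N →+* LaurentSeries Kbar) (hDF : ∀ u : FF N, E u ∈ dfField (K := Kbar))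
    (hcst : ∀ c : Kbar, E (cst N c) = HahnSeries.C c) (t : FF N)
    (ht : E t ∈ softOT A (IsLocalRing.residue A)) {z : FF N} (hz : z ∈ modelAt N A t) :
    E z ∈ softOT A (IsLocalRing.residue A) :=
  h44s_mem_of_isIntegralElem A hq hA E hDF (evalF N A t)
    (fun Q => (h44s_evE A E hcst t ht Q).2) z
    ((Fermat.Agent.Red.KR.mem_modelAt_iff_evalF A _ z).mp hz)

/-- the reduction at `E` of a chart function is integral over the reductions of the
polynomials in the coordinate. -/
theorem h44s_red_modelAt_integral (E : FF N →+* LaurentSeries Kbar)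
    (hcst : ∀ c : Kbar, E (cst N c) = HahnSeries.C c) (t : FF N)
    (ht : E t ∈ softOT A (IsLocalRing.residue A)) {z : FF N} (hz : z ∈ modelAt N A t)
    (hzE : E z ∈ softOT A (IsLocalRing.residue A)) :
    ((softRedT A (IsLocalRing.residue A)).comp (h44s_evE A E hcst t ht)).IsIntegralElem
      (softRedT A (IsLocalRing.residue A) ⟨E z, hzE⟩) := by
  obtain ⟨P, hP, hPz⟩ := (Fermat.Agent.Red.KR.mem_modelAt_iff_evalF A _ z).mp hz
  refine ⟨P, hP, ?_⟩
  rw [← Polynomial.hom_eval₂]
  have h0 : Polynomial.eval₂ (h44s_evE A E hcst t ht)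
      (⟨E z, hzE⟩ : softOT A (IsLocalRing.residue A)) P = 0 := by
    apply Subtype.ext
    have h1 := Polynomial.hom_eval₂ P (h44s_evE A E hcst t ht)
      (softOT A (IsLocalRing.residue A)).subtype
      (⟨E z, hzE⟩ : softOT A (IsLocalRing.residue A))
    have h2 : (softOT A (IsLocalRing.residue A)).subtype.comp (h44s_evE A E hcst t ht) =
        E.comp (evalF N A t) := rfl
    rw [h2] at h1
    have h3 := Polynomial.hom_eval₂ P (evalF N A t) E z
    rw [hPz, map_zero] at h3
    exact h1.trans h3.symm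
  rw [h0, map_zero]

/-! ## The predicate "Gauss-integral with reduction `ρ`" -/

/-- the series `s` is Gauss-integral with reduction `ρ`. -/
def h44s_Red (s : LaurentSeries Kbar) (ρ : LaurentSeries (IsLocalRing.ResidueField A)) : Prop :=
  ∃ h : s ∈ softOT A (IsLocalRing.residue A), softRedT A (IsLocalRing.residue A) ⟨s, h⟩ = ρ

variable {A}

theorem h44s_Red.mem {s : LaurentSeries Kbar} {ρ : LaurentSeries (IsLocalRing.ResidueField A)}
    (h : h44s_Red A s ρ) : s ∈ softOT A (IsLocalRing.residue A) := h.1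

theorem h44s_Red.eq {s : LaurentSeries Kbar} {ρ : LaurentSeries (IsLocalRing.ResidueField A)}
    (h : h44s_Red A s ρ) (hs : s ∈ softOT A (IsLocalRing.residue A)) :
    softRedT A (IsLocalRing.residue A) ⟨s, hs⟩ = ρ := h.2

theorem h44s_red_of_mem {s : LaurentSeries Kbar} (hs : s ∈ softOT A (IsLocalRing.residue A)) :
    h44s_Red A s (softRedT A (IsLocalRing.residue A) ⟨s, hs⟩) := ⟨hs, rfl⟩

theorem h44s_Red.unique {s : LaurentSeries Kbar}
    {ρ ρ' : LaurentSeries (IsLocalRing.ResidueField A)}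
    (h : h44s_Red A s ρ) (h' : h44s_Red A s ρ') : ρ = ρ' := h.2.symm.trans h'.2

theorem h44s_Red.congr {s s' : LaurentSeries Kbar}
    {ρ ρ' : LaurentSeries (IsLocalRing.ResidueField A)}
    (h : h44s_Red A s ρ) (hs : s = s') (hρ : ρ = ρ') : h44s_Red A s' ρ' := by
  subst hs; subst hρ; exact h

theorem h44s_red_zero : h44s_Red A 0 0 :=
  ⟨zero_mem _, map_zero (softRedT A (IsLocalRing.residue A))⟩

theorem h44s_red_one : h44s_Red A 1 1 :=
  ⟨one_mem _, map_one (softRedT A (IsLocalRing.residue A))⟩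

theorem h44s_Red.add {s s' : LaurentSeries Kbar}
    {ρ ρ' : LaurentSeries (IsLocalRing.ResidueField A)}
    (h : h44s_Red A s ρ) (h' : h44s_Red A s' ρ') : h44s_Red A (s + s') (ρ + ρ') := by
  obtain ⟨hs, rfl⟩ := h
  obtain ⟨hs', rfl⟩ := h'
  refine ⟨add_mem hs hs', ?_⟩
  have e : (⟨s + s', add_mem hs hs'⟩ : softOT A (IsLocalRing.residue A)) =
      (⟨s, hs⟩ : softOT A (IsLocalRing.residue A)) + ⟨s', hs'⟩ := Subtype.ext rfl
  rw [e, map_add]

theorem h44s_Red.neg {s : LaurentSeries Kbar}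
    {ρ : LaurentSeries (IsLocalRing.ResidueField A)}
    (h : h44s_Red A s ρ) : h44s_Red A (-s) (-ρ) := by
  obtain ⟨hs, rfl⟩ := h
  refine ⟨neg_mem hs, ?_⟩
  have e : (⟨-s, neg_mem hs⟩ : softOT A (IsLocalRing.residue A)) =
      -(⟨s, hs⟩ : softOT A (IsLocalRing.residue A)) := Subtype.ext rfl
  rw [e, map_neg]

theorem h44s_Red.sub {s s' : LaurentSeries Kbar}
    {ρ ρ' : LaurentSeries (IsLocalRing.ResidueField A)}
    (h : h44s_Red A s ρ) (h' : h44s_Red A s' ρ') : h44s_Red A (s - s') (ρ - ρ') := by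
  obtain ⟨hs, rfl⟩ := h
  obtain ⟨hs', rfl⟩ := h'
  refine ⟨sub_mem hs hs', ?_⟩
  have e : (⟨s - s', sub_mem hs hs'⟩ : softOT A (IsLocalRing.residue A)) =
      (⟨s, hs⟩ : softOT A (IsLocalRing.residue A)) - ⟨s', hs'⟩ := Subtype.ext rfl
  rw [e, map_sub]

theorem h44s_Red.mul {s s' : LaurentSeries Kbar}
    {ρ ρ' : LaurentSeries (IsLocalRing.ResidueField A)}
    (h : h44s_Red A s ρ) (h' : h44s_Red A s' ρ') : h44s_Red A (s * s') (ρ * ρ') := by
  obtain ⟨hs, rfl⟩ := h
  obtain ⟨hs', rfl⟩ := h'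
  refine ⟨mul_mem hs hs', ?_⟩
  have e : (⟨s * s', mul_mem hs hs'⟩ : softOT A (IsLocalRing.residue A)) =
      (⟨s, hs⟩ : softOT A (IsLocalRing.residue A)) * ⟨s', hs'⟩ := Subtype.ext rfl
  rw [e, map_mul]

theorem h44s_Red.pow {s : LaurentSeries Kbar}
    {ρ : LaurentSeries (IsLocalRing.ResidueField A)}
    (h : h44s_Red A s ρ) (n : ℕ) : h44s_Red A (s ^ n) (ρ ^ n) := by
  obtain ⟨hs, rfl⟩ := h
  refine ⟨pow_mem hs n, ?_⟩
  have e : (⟨s ^ n, pow_mem hs n⟩ : softOT A (IsLocalRing.residue A)) =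
      (⟨s, hs⟩ : softOT A (IsLocalRing.residue A)) ^ n := Subtype.ext rfl
  rw [e, map_pow]

theorem h44s_red_sum {ι : Type*} (S : Finset ι) (s : ι → LaurentSeries Kbar)
    (ρ : ι → LaurentSeries (IsLocalRing.ResidueField A))
    (h : ∀ i ∈ S, h44s_Red A (s i) (ρ i)) : h44s_Red A (∑ i ∈ S, s i) (∑ i ∈ S, ρ i) := by
  classical
  induction S using Finset.induction_on with
  | empty => simpa using (h44s_red_zero (A := A))
  | insert a S ha ih =>
    rw [Finset.sum_insert ha, Finset.sum_insert ha]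
    exact (h a (Finset.mem_insert_self a S)).add
      (ih (fun i hi => h i (Finset.mem_insert_of_mem hi)))

/-- functions: `coe x` is Gauss-integral with reduction `softR x`. -/
theorem h44s_red_of_softV {N : ℕ} (x : FF N) (hx : x ∈ softV A N) :
    h44s_Red A (x : LaurentSeries Kbar) (softR A N ⟨x, hx⟩) :=
  ⟨hx, rfl⟩

theorem h44s_Red.softV {N : ℕ} {x : FF N} {ρ : LaurentSeries (IsLocalRing.ResidueField A)}
    (h : h44s_Red A (x : LaurentSeries Kbar) ρ) :
    ∃ hx : x ∈ softV A N, softR A N ⟨x, hx⟩ = ρ :=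
  ⟨h.1, h.2⟩

theorem h44s_Red.qExpand {s : LaurentSeries Kbar}
    {ρ : LaurentSeries (IsLocalRing.ResidueField A)}
    (h : h44s_Red A s ρ) (n : ℕ) [NeZero n] :
    h44s_Red A (qExpand Kbar n s) (qExpand (IsLocalRing.ResidueField A) n ρ) := by
  obtain ⟨hs, rfl⟩ := h
  exact ⟨mem_softOT_qExpand A _ n hs, softRedT_qExpand A (IsLocalRing.residue A) n ⟨s, hs⟩ _⟩

/-- twists by roots of unity of `q`-power order do not change the reduction. -/
theorem h44s_Red.twist {s : LaurentSeries Kbar}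
    {ρ : LaurentSeries (IsLocalRing.ResidueField A)}
    (h : h44s_Red A s ρ) (hq : q.Prime) (hA : A.LiesOverPrime q) (ω : Kbar) (k : ℕ)
    (hω : ω ^ (q ^ k) = 1) : h44s_Red A (twistK ω s) ρ := by
  obtain ⟨hs, rfl⟩ := h
  obtain ⟨u, hu, hres⟩ := h1g_exists_unit q hq A hA ω k hω
  have h' : twistK (((u : A) : Kbar)) ((⟨s, hs⟩ : softOT A (IsLocalRing.residue A)) :
      LaurentSeries Kbar) ∈ softOT A (IsLocalRing.residue A) :=
    Fermat.Agent.LGC.h44r_twistK_mem_softOT u hs
  have h1 := Fermat.Agent.LGC.h44k_softRedT_twistK (π := IsLocalRing.residue A) u ⟨s, hs⟩ h'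
  rw [hres, twistK_one_left] at h1
  have hmem : twistK ω s ∈ softOT A (IsLocalRing.residue A) := by
    rw [← hu]
    exact h'
  refine ⟨hmem, ?_⟩
  rw [← h1]
  congr 1
  apply Subtype.ext
  show twistK ω s = twistK (((u : A) : Kbar)) s
  rw [hu]

/-- the inertia group does not change the reduction. -/
theorem h44s_Red.inertia {s : LaurentSeries Kbar}
    {ρ : LaurentSeries (IsLocalRing.ResidueField A)}
    (h : h44s_Red A s ρ) {σ : GQ} (hσ : σ ∈ A.inertiaSubgroupIn ℚ) :
    h44s_Red A (coeffMap (σ : Kbar →+* Kbar) s) ρ := by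
  obtain ⟨hs, rfl⟩ := h
  have hσd := mem_decomp_of_mem_inertia A hσ
  have h1 : coeffMap (σ : Kbar →+* Kbar) s ∈ softOT A (IsLocalRing.residue A) :=
    mem_softOT_coeffMap (σ : Kbar →+* Kbar) (decompA A σ hσd) (coe_decompA A σ hσd)
      (decompK A σ hσd) (residue_decompA A σ hσd) hs
  have h2 := softRedT_coeffMap (σ : Kbar →+* Kbar) (decompA A σ hσd) (coe_decompA A σ hσd)
    (decompK A σ hσd) (residue_decompA A σ hσd) ⟨s, hs⟩ h1
  refine ⟨h1, ?_⟩
  rw [h2, decompK_of_inertia A hσ, coeffMap_id]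

/-- constants. -/
theorem h44s_red_C (a : A) :
    h44s_Red A (HahnSeries.C (a : Kbar)) (HahnSeries.C (IsLocalRing.residue A a)) :=
  ⟨C_mem_softOT A (IsLocalRing.residue A) a, softRedT_C A (IsLocalRing.residue A) a _⟩

end Fermat.Agent.S36
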