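import Fermat.Agent.Red.Kron.Fricke

/-!
# S36 / (V): the three copies of `F_M` inside `F_{M q q}`

`L = M * q * q`.  With `α₁, β₁ : F_M → F_{Mq}` and `α₂, β₂ : F_{Mq} → F_{Mqq}` the degeneracy maps
(`x(t) ↦ x(t)`, `x(t) ↦ x(t^q)`):

* `h44s_aa = α₂ ∘ α₁`, `h44s_ab = α₂ ∘ β₁ = β₂ ∘ α₁`, `h44s_bb = β₂ ∘ β₁`;
* `h44s_induction3` : `F_{Mqq}` is generated by the three copies (`q` prime).
-/

set_option autoImplicit false
set_option linter.style.haveILetI false
set_option linter.unusedSectionVars false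

open ModularCurve AlgebraicCurve IntermediateField

noncomputable section

namespace Fermat.Agent.S36

open Fermat.Agent.S24 Fermat.Agent.Red.Kron

variable (M q : ℕ) [NeZero M] [NeZero q]

/-- the copy `x(t) ↦ x(t)` of `F_M` in `F_{Mqq}`. -/
def h44s_aa : FF M →ₐ[Kbar] FF (M * q * q) :=
  (heckeAlphaBar Kbar (M * q) q).comp (heckeAlphaBar Kbar M q)

/-- the copy `x(t) ↦ x(t^q)` of `F_M` in `F_{Mqq}`. -/
def h44s_ab : FF M →ₐ[Kbar] FF (M * q * q) :=
  (heckeAlphaBar Kbar (M * q) q).comp (heckeBetaBar Kbar M q)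

/-- the copy `x(t) ↦ x(t^(q²))` of `F_M` in `F_{Mqq}`. -/
def h44s_bb : FF M →ₐ[Kbar] FF (M * q * q) :=
  (heckeBetaBar Kbar (M * q) q).comp (heckeBetaBar Kbar M q)

theorem h44s_aa_apply (x : FF M) :
    h44s_aa M q x = heckeAlphaBar Kbar (M * q) q (heckeAlphaBar Kbar M q x) := rfl

theorem h44s_ab_apply (x : FF M) :
    h44s_ab M q x = heckeAlphaBar Kbar (M * q) q (heckeBetaBar Kbar M q x) := rfl

theorem h44s_bb_apply (x : FF M) :
    h44s_bb M q x = heckeBetaBar Kbar (M * q) q (heckeBetaBar Kbar M q x) := rfl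

theorem h44s_coe_aa (x : FF M) :
    ((h44s_aa M q x : FF (M * q * q)) : LaurentSeries Kbar) = (x : LaurentSeries Kbar) := by
  rw [h44s_aa_apply, coe_heckeAlphaBar, coe_heckeAlphaBar]

theorem h44s_coe_ab (x : FF M) :
    ((h44s_ab M q x : FF (M * q * q)) : LaurentSeries Kbar) =
      qExpand Kbar q (x : LaurentSeries Kbar) := by
  rw [h44s_ab_apply, coe_heckeAlphaBar, coe_heckeBetaBar]

theorem h44s_coe_bb (x : FF M) :
    ((h44s_bb M q x : FF (M * q * q)) : LaurentSeries Kbar) =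
      qExpand Kbar (q * q) (x : LaurentSeries Kbar) := by
  rw [h44s_bb_apply, coe_heckeBetaBar, coe_heckeBetaBar, qExpand_qExpand]

/-- the square `β₂ ∘ α₁ = α₂ ∘ β₁`. -/
theorem h44s_beta_alpha (x : FF M) :
    heckeBetaBar Kbar (M * q) q (heckeAlphaBar Kbar M q x) = h44s_ab M q x := by
  apply Subtype.ext
  rw [h44s_coe_ab, coe_heckeBetaBar, coe_heckeAlphaBar]

theorem h44s_cst_eq (a : Kbar) :
    heckeAlphaBar Kbar (M * q) q (cst (M * q) a) = cst (M * q * q) a :=
  (heckeAlphaBar Kbar (M * q) q).commutes a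

theorem h44s_cst_eq_beta (a : Kbar) :
    heckeBetaBar Kbar (M * q) q (cst (M * q) a) = cst (M * q * q) a :=
  (heckeBetaBar Kbar (M * q) q).commutes a

/-- induction principle for `F_{Mqq}`: it is generated by the three copies of `F_M`. -/
theorem h44s_induction3 (hq : q.Prime) {P : FF (M * q * q) → Prop}
    (hc : ∀ a : Kbar, P (cst (M * q * q) a))
    (haa : ∀ x : FF M, P (h44s_aa M q x))
    (hab : ∀ x : FF M, P (h44s_ab M q x))
    (hbb : ∀ x : FF M, P (h44s_bb M q x))
    (hadd : ∀ x y, P x → P y → P (x + y))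
    (hinv : ∀ x, P x → P x⁻¹)
    (hmul : ∀ x y, P x → P y → P (x * y)) (f : FF (M * q * q)) : P f := by
  refine kFF_induction_ab (M * q) q hq hc ?_ ?_ hadd hinv hmul f
  · intro y
    induction y using kFF_induction_ab M q hq with
    | hc a => rw [h44s_cst_eq]; exact hc a
    | ha x => exact haa x
    | hb x => exact hab x
    | hadd x y hx hy => rw [map_add]; exact hadd _ _ hx hy
    | hinv x hx => rw [map_inv₀]; exact hinv _ hx
    | hmul x y hx hy => rw [map_mul]; exact hmul _ _ hx hy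
  · intro y
    induction y using kFF_induction_ab M q hq with
    | hc a => rw [h44s_cst_eq_beta]; exact hc a
    | ha x => rw [h44s_beta_alpha]; exact hab x
    | hb x => exact hbb x
    | hadd x y hx hy => rw [map_add]; exact hadd _ _ hx hy
    | hinv x hx => rw [map_inv₀]; exact hinv _ hx
    | hmul x y hx hy => rw [map_mul]; exact hmul _ _ hx hy

end Fermat.Agent.S36
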