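import Fermat.Agent.S36.H20Emb
import Fermat.Agent.S36.H44Three
import Fermat.Agent.Red.Kron.CharpolyAbs
import Fermat.Agent.Red.TransferRed
import Fermat.Agent.Red.GV.SoftBar

/-!
# S36 / (V): the characteristic polynomial and the trace along `α₂ : F_{Mq} → F_{Mqq}`

`q` prime, `q ∤ M`, `ζ` a primitive `q`-th root of unity, `E b` (`0 < b < q`) the middle
embeddings `E11^{ζ^b}` of `F₂ = F_{Mqq}` (`h20n_IsE11`).  The `q` embeddings

  `h44sFam 0 = coe`,  `h44sFam b = E b`  (`0 < b < q`)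

of `F₂` into `ℚ̄((t))` are pairwise distinct and restrict to `coe` on `α₂ (F₁)`; since
`[F₂ : α₂ F₁] = q`:

* `h44s_charpoly2` : `charpoly_{α₂}(x) = ∏_{i < q} (X - h44sFam i x)`;
* `h44s_coe_tr2`   : `coe (Tr_{α₂} x) = ∑_{i < q} h44sFam i x`;
* `h44s_trace2_red` : if all `h44sFam i x` are Gauss-integral, then `Tr_{α₂} x ∈ softV` and
  `softR (Tr_{α₂} x) = ∑_i red (h44sFam i x)`.
-/

set_option autoImplicit false
set_option linter.style.haveILetI false
set_option linter.unusedSectionVars false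
set_option synthInstance.maxHeartbeats 400000

open AlgebraicCurve ModularCurve IsLocalRing Polynomial

noncomputable section

namespace Fermat.Agent.S36

open Fermat.Agent.S37 Fermat.Agent.Red Fermat.Agent.Red.GV Fermat.Agent.Red.GV.Soft
  Fermat.Agent.Red.TRK Fermat.Agent.Red.Kron

theorem h44s_algebraMap_apply (N : ℕ) (x : FF N) :
    algebraMap (FF N) (LaurentSeries Kbar) x = (x : LaurentSeries Kbar) := rfl

variable (M q : ℕ) [NeZero M] [NeZero q]

/-- the family of the `q` embeddings of `F₂` over `α₂ (F₁)`. -/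
def h44sFam (E : ℕ → (FF (M * q * q) →+* LaurentSeries Kbar)) :
    Fin q → (FF (M * q * q) →+* LaurentSeries Kbar) :=
  fun i => if (i : ℕ) = 0 then algebraMap (FF (M * q * q)) (LaurentSeries Kbar) else E i

theorem h44sFam_zero (E : ℕ → (FF (M * q * q) →+* LaurentSeries Kbar)) (i : Fin q)
    (hi : (i : ℕ) = 0) : h44sFam M q E i = algebraMap (FF (M * q * q)) (LaurentSeries Kbar) := by
  rw [h44sFam, if_pos hi]

theorem h44sFam_pos (E : ℕ → (FF (M * q * q) →+* LaurentSeries Kbar)) (i : Fin q)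
    (hi : (i : ℕ) ≠ 0) : h44sFam M q E i = E i := by
  rw [h44sFam, if_neg hi]

section Family

variable (hq : q.Prime) (hM : ¬ q ∣ M) (ζ : Kbar)
  (E : ℕ → (FF (M * q * q) →+* LaurentSeries Kbar))
  (hE : ∀ b : ℕ, 0 < b → b < q → h20n_IsE11 M q hq hM (ζ ^ b) (E b))

include hE in
theorem h44sFam_alpha (i : Fin q) (x : FF (M * q)) :
    h44sFam M q E i (heckeAlphaBar Kbar (M * q) q x) = (x : LaurentSeries Kbar) := by
  by_cases hi : (i : ℕ) = 0
  · rw [h44sFam_zero M q E i hi, h44s_algebraMap_apply, coe_heckeAlphaBar]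
  · rw [h44sFam_pos M q E i hi]
    exact (hE i (Nat.pos_of_ne_zero hi) i.2).1 x

include hE in
/-- the value of the middle embeddings on `j(t^(q²))`: the coefficient of `t⁻¹`. -/
theorem h44sFam_bb_coeff (i : Fin q) (hi : (i : ℕ) ≠ 0) :
    (h44sFam M q E i (h44s_bb M q (jB M))).coeff (-1) = (ζ ^ (i : ℕ))⁻¹ := by
  rw [h44sFam_pos M q E i hi, h44s_bb_apply, (hE i (Nat.pos_of_ne_zero hi) i.2).2, kFricke_beta,
    coe_heckeAlphaBar, coeff_twistK, h20n_coe_j_coeff, one_mul, zpow_neg_one]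

theorem h44sFam_zero_bb_coeff (hq' : q.Prime) (i : Fin q) (hi : (i : ℕ) = 0) :
    (h44sFam M q E i (h44s_bb M q (jB M))).coeff (-1) = 0 := by
  rw [h44sFam_zero M q E i hi, h44s_algebraMap_apply, h44s_coe_bb]
  apply qExpand_coeff_of_not_dvd
  rintro ⟨c, hc⟩
  have h1 : ((q : ℤ)) ∣ 1 := ⟨q * (-c), by push_cast at hc; linear_combination -hc⟩
  have h2 : (q : ℤ) ≤ 1 := Int.le_of_dvd one_pos h1
  have h3 := hq'.two_le
  omega

include hE in
theorem h44sFam_injective (hζ : IsPrimitiveRoot ζ q) :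
    Function.Injective (h44sFam M q E) := by
  have hζ0 : ζ ≠ 0 := hζ.ne_zero hq.ne_zero
  intro i j hij
  have hval := congrArg (fun e : FF (M * q * q) →+* LaurentSeries Kbar =>
    (e (h44s_bb M q (jB M))).coeff (-1)) hij
  by_cases hi : (i : ℕ) = 0
  · by_cases hj : (j : ℕ) = 0
    · exact Fin.ext (hi.trans hj.symm)
    · exfalso
      rw [h44sFam_zero_bb_coeff M q E hq i hi, h44sFam_bb_coeff M q hq hM ζ E hE j hj] at hval
      exact inv_ne_zero (pow_ne_zero _ hζ0) hval.symm
  · by_cases hj : (j : ℕ) = 0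
    · exfalso
      rw [h44sFam_zero_bb_coeff M q E hq j hj, h44sFam_bb_coeff M q hq hM ζ E hE i hi] at hval
      exact inv_ne_zero (pow_ne_zero _ hζ0) hval
    · rw [h44sFam_bb_coeff M q hq hM ζ E hE i hi, h44sFam_bb_coeff M q hq hM ζ E hE j hj] at hval
      exact Fin.ext (hζ.pow_inj i.2 j.2 (inv_injective hval))

/-- `F₂` is finite along `α₂`. -/
theorem h44s_finiteAlong : FiniteAlong Kbar (heckeAlphaBar Kbar (M * q) q) :=
  Fermat.Agent.Red.HKMod.finiteAlong_heckeAlphaBar (M * q) q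

include hE in
/-- **the characteristic polynomial along `α₂`.** -/
theorem h44s_charpoly2 (hζ : IsPrimitiveRoot ζ q) (x : FF (M * q * q)) :
    (charpolyAlong (heckeAlphaBar Kbar (M * q) q) (h44s_finiteAlong M q) x).map
        (algebraMap (FF (M * q)) (LaurentSeries Kbar)) =
      ∏ i : Fin q, (X - C (h44sFam M q E i x)) := by
  letI := algebraAlong (heckeAlphaBar Kbar (M * q) q)
  haveI : FiniteDimensional (FF (M * q)) (FF (M * q * q)) := h44s_finiteAlong M q
  haveI : Algebra.IsSeparable (FF (M * q)) (FF (M * q * q)) := inferInstance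
  haveI : Infinite (FF (M * q)) := inferInstance
  exact charpoly_map_eq_prod_of_embeddings (K := FF (M * q)) (L := FF (M * q * q))
    (algebraMap (FF (M * q)) (LaurentSeries Kbar))
    (h44sFam M q E) (h44sFam_injective M q hq hM ζ E hE hζ)
    (fun i x => h44sFam_alpha M q hq hM ζ E hE i x)
    (by rw [Fintype.card_fin]; exact (h20n_finrank_alpha M q hq hM).symm) x

/-- the trace of `x ∈ F₂` over `α₂ (F₁)`. -/
def h44s_tr2 (x : FF (M * q * q)) : FF (M * q) :=
  -(charpolyAlong (heckeAlphaBar Kbar (M * q) q) (h44s_finiteAlong M q) x).nextCoeff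

include hE in
/-- **the trace along `α₂` is the sum of the conjugate embeddings.** -/
theorem h44s_coe_tr2 (hζ : IsPrimitiveRoot ζ q) (x : FF (M * q * q)) :
    ((h44s_tr2 M q x : FF (M * q)) : LaurentSeries Kbar) = ∑ i : Fin q, h44sFam M q E i x := by
  have key := h44s_charpoly2 M q hq hM ζ E hE hζ x
  have h1 := congrArg Polynomial.nextCoeff key
  rw [Polynomial.nextCoeff_map (algebraMap (FF (M * q)) (LaurentSeries Kbar)).injective,
    Polynomial.prod_X_sub_C_nextCoeff] at h1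
  rw [← h44s_algebraMap_apply, h44s_tr2, map_neg, h1, neg_neg]

end Family

section Red

variable (A : ValuationSubring Kbar) (hq : q.Prime) (hM : ¬ q ∣ M) (ζ : Kbar)
  (E : ℕ → (FF (M * q * q) →+* LaurentSeries Kbar))
  (hE : ∀ b : ℕ, 0 < b → b < q → h20n_IsE11 M q hq hM (ζ ^ b) (E b))

include hE in
/-- **the trace lemma.**  If all the conjugates `h44sFam i x` are Gauss-integral, then the
trace of `x` along `α₂` is Gauss-integral and its reduction is the sum of the reductions. -/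
theorem h44s_trace2_red (hζ : IsPrimitiveRoot ζ q) (x : FF (M * q * q))
    (hmem : ∀ i : Fin q, h44sFam M q E i x ∈ softOT A (IsLocalRing.residue A)) :
    ∃ hy : h44s_tr2 M q x ∈ softV A (M * q),
      softR A (M * q) ⟨_, hy⟩ =
        ∑ i : Fin q, softRedT A (IsLocalRing.residue A) ⟨_, hmem i⟩ := by
  have hcoe := h44s_coe_tr2 M q hq hM ζ E hE hζ x
  obtain ⟨Z, hZ⟩ : ∃ Z : softOT A (IsLocalRing.residue A),
      Z = ∑ i : Fin q, (⟨_, hmem i⟩ : softOT A (IsLocalRing.residue A)) := ⟨_, rfl⟩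
  have hZcoe : (Z : LaurentSeries Kbar) =
      ((h44s_tr2 M q x : FF (M * q)) : LaurentSeries Kbar) := by
    rw [hcoe, hZ, AddSubmonoidClass.coe_finsetSum]
  have hy : h44s_tr2 M q x ∈ softV A (M * q) := by
    rw [mem_softV_iff, ← hZcoe]
    exact Z.2
  refine ⟨hy, ?_⟩
  have e : softIncl A (M * q) ⟨_, hy⟩ = Z := Subtype.ext hZcoe.symm
  show softRedT A _ (softIncl A (M * q) ⟨_, hy⟩) = _
  rw [e, hZ, map_sum]

end Red

end Fermat.Agent.S36
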