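import Fermat.Agent.S36.H16TorRoot
import Fermat.Agent.S36.H44Surj
import Fermat.Agent.S28.RSeries
import Fermat.Agent.S36.H78TorBasic

/-!
# S36, row T-ROOT-CEN (helper46): the centre of a vertical valuation is not a closed point

`h46q_torCentre : H16TorCentre` (exact frozen Prop of `S36/H16TorRoot.lean`, unconditional):
for every vertical embedding `E` (`E20`, `E11^ζ`, `E02`) of `FF (M q q)` and every maximal ideal
`𝔫` of the chart `j` over the inertia ring there is `b ∈ 𝔫` which is not Gauss-small at `E`.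

Proof.  Otherwise `𝔫` is contained in the centre of `E`.  The coordinate `j` is not small (its
reduction `ρ` at `E` is `j(t)` resp. `j(t^(q²))`, transcendental over the residue field `k`),
hence `s j + i = 1` with `s` in the chart and `i ∈ 𝔫`; reducing, `σ ρ = 1`, `σ` the reduction of
`s`.  But `σ` is integral over `k[ρ]` (`h44s_red_modelAt_integral`): reversing the integral
equation, `ρ` is a root of a polynomial with constant coefficient `1` — a contradiction.

* `h46q_red_evE` : the reduction of `Q(t)` at `E` is `Q̄(ρ)`.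
* `h46q_centre_abs` : the abstract statement (any chart, any embedding whose coordinate has a
  transcendental reduction).
* `h46q_torCentre` : the frozen leaf.
-/

set_option autoImplicit false
set_option linter.unusedSectionVars false
set_option linter.unusedVariables false
set_option linter.style.haveILetI false
set_option synthInstance.maxHeartbeats 400000

open AlgebraicCurve ModularCurve IsLocalRing Polynomial

noncomputable section

namespace Fermat.Agent.S36

open Fermat.Agent.S37 Fermat.Agent.Red Fermat.Agent.Red.GV Fermat.Agent.Red.GV.Soft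
  Fermat.Agent.Red.TRK Fermat.Agent.Red.Kron Fermat.Agent.LGC

/-! ## The abstract statement -/

section Abs

variable (A : ValuationSubring Kbar) {N : ℕ} (E : FF N →+* LaurentSeries Kbar) (t : FF N)

/-- the reduction of `Q(t)` at `E` is `Q̄ (ρ)`, `ρ` the reduction of `t`. -/
theorem h46q_red_evE (hcst : ∀ c : Kbar, E (cst N c) = HahnSeries.C c)
    (ht : E t ∈ softOT A (IsLocalRing.residue A)) (Q : Polynomial A) :
    softRedT A (IsLocalRing.residue A) (h44s_evE A E hcst t ht Q) =
      Polynomial.eval₂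
        (HahnSeries.C : IsLocalRing.ResidueField A →+* LaurentSeries (IsLocalRing.ResidueField A))
        (softRedT A (IsLocalRing.residue A) ⟨E t, ht⟩) (Q.map (IsLocalRing.residue A)) := by
  rw [Polynomial.eval₂_map]
  have key : (softRedT A (IsLocalRing.residue A)).comp (h44s_evE A E hcst t ht) =
      Polynomial.eval₂RingHom
        ((HahnSeries.C : IsLocalRing.ResidueField A →+*
          LaurentSeries (IsLocalRing.ResidueField A)).comp (IsLocalRing.residue A))
        (softRedT A (IsLocalRing.residue A) ⟨E t, ht⟩) := by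
    refine Polynomial.ringHom_ext (fun a => ?_) ?_
    · rw [RingHom.comp_apply, Polynomial.coe_eval₂RingHom, Polynomial.eval₂_C]
      have e : h44s_evE A E hcst t ht (Polynomial.C a) =
          ⟨HahnSeries.C (a : Kbar), C_mem_softOT A (IsLocalRing.residue A) a⟩ := by
        apply Subtype.ext
        rw [h44s_coe_evE, evalF_C, hcst]
      rw [e]
      exact softRedT_C A (IsLocalRing.residue A) a _
    · rw [RingHom.comp_apply, Polynomial.coe_eval₂RingHom, Polynomial.eval₂_X]
      congr 1
      apply Subtype.ext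
      rw [h44s_coe_evE, evalF_X]
  exact RingHom.congr_fun key Q

/-- **the centre of `E` on a chart is not a closed point**, abstract form: `B` a ring of
functions integral over `A[t]` and Gauss-integral at `E`, `t ∈ B`, the reduction of `t` at `E`
transcendental over the residue field. -/
theorem h46q_centre_abs (hcst : ∀ c : Kbar, E (cst N c) = HahnSeries.C c)
    (ht : E t ∈ softOT A (IsLocalRing.residue A))
    (B : Subring (FF N)) (hBm : ∀ b ∈ B, b ∈ modelAt N A t) (htB : t ∈ B)
    (hBint : ∀ b ∈ B, E b ∈ softOT A (IsLocalRing.residue A))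
    (htr : ∀ Q : Polynomial (IsLocalRing.ResidueField A), Q ≠ 0 →
      Polynomial.eval₂
        (HahnSeries.C : IsLocalRing.ResidueField A →+* LaurentSeries (IsLocalRing.ResidueField A))
        (softRedT A (IsLocalRing.residue A) ⟨E t, ht⟩) Q ≠ 0)
    (𝔫 : Ideal B) (h𝔫 : 𝔫.IsMaximal) :
    ∃ b : B, b ∈ 𝔫 ∧ ¬ h11l_Small A E (b : FF N) := by
  classical
  by_contra hcon
  push Not at hcon
  have hρ0 : softRedT A (IsLocalRing.residue A) ⟨E t, ht⟩ ≠ 0 := by
    intro h0
    have h1 := htr Polynomial.X Polynomial.X_ne_zero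
    rw [Polynomial.eval₂_X] at h1
    exact h1 h0
  have htn : (⟨t, htB⟩ : B) ∉ 𝔫 := by
    intro h
    obtain ⟨h1, h2⟩ := hcon _ h
    exact hρ0 h2
  obtain ⟨s, i, hi, hsi⟩ := h𝔫.exists_inv htn
  have hsE : E (s : FF N) ∈ softOT A (IsLocalRing.residue A) := hBint _ s.2
  obtain ⟨hiE, hi0⟩ := hcon i hi
  have hσρ : softRedT A (IsLocalRing.residue A) ⟨E (s : FF N), hsE⟩ *
      softRedT A (IsLocalRing.residue A) ⟨E t, ht⟩ = 1 := by
    have e : (⟨E (s : FF N), hsE⟩ : softOT A (IsLocalRing.residue A)) * ⟨E t, ht⟩ +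
        ⟨E (i : FF N), hiE⟩ = 1 := by
      apply Subtype.ext
      show E (s : FF N) * E t + E (i : FF N) = 1
      rw [← map_mul, ← map_add]
      have h1 : (s : FF N) * t + (i : FF N) = 1 := by
        have := congrArg (fun b : B => (b : FF N)) hsi
        simpa using this
      rw [h1, map_one]
    have h2 := congrArg (softRedT A (IsLocalRing.residue A)) e
    rw [map_add, map_mul, hi0, add_zero, map_one] at h2
    exact h2
  obtain ⟨P, hP, hPσ⟩ := h44s_red_modelAt_integral A E hcst t ht (hBm _ s.2) hsE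
  letI : Invertible (softRedT A (IsLocalRing.residue A) ⟨E (s : FF N), hsE⟩) :=
    ⟨softRedT A (IsLocalRing.residue A) ⟨E t, ht⟩, by rw [mul_comm]; exact hσρ, hσρ⟩
  have hrev := (Polynomial.eval₂_reverse_eq_zero_iff
    ((softRedT A (IsLocalRing.residue A)).comp (h44s_evE A E hcst t ht))
    (softRedT A (IsLocalRing.residue A) ⟨E (s : FF N), hsE⟩) P).mpr hPσ
  have hinv : ⅟(softRedT A (IsLocalRing.residue A) ⟨E (s : FF N), hsE⟩) =
      softRedT A (IsLocalRing.residue A) ⟨E t, ht⟩ := rfl
  rw [hinv] at hrev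
  -- the polynomial `T = (reverse P)(X)`
  have hφX : ((softRedT A (IsLocalRing.residue A)).comp (h44s_evE A E hcst t ht))
      Polynomial.X = softRedT A (IsLocalRing.residue A) ⟨E t, ht⟩ := by
    rw [RingHom.comp_apply]
    congr 1
    apply Subtype.ext
    rw [h44s_coe_evE, evalF_X]
  have hT : ((softRedT A (IsLocalRing.residue A)).comp (h44s_evE A E hcst t ht))
      (Polynomial.eval₂ (RingHom.id (Polynomial A)) Polynomial.X P.reverse) = 0 := by
    rw [Polynomial.hom_eval₂, RingHom.comp_id, hφX]
    exact hrev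
  have hT0 : (Polynomial.eval₂ (RingHom.id (Polynomial A)) Polynomial.X P.reverse).coeff 0 =
      1 := by
    rw [Polynomial.coeff_zero_eq_eval_zero, ← Polynomial.coe_evalRingHom,
      Polynomial.hom_eval₂, RingHom.comp_id, Polynomial.coe_evalRingHom, Polynomial.eval_X,
      Polynomial.eval₂_at_zero, Polynomial.coeff_zero_reverse, hP.leadingCoeff,
      Polynomial.coe_evalRingHom, Polynomial.eval_one]
  rw [RingHom.comp_apply, h46q_red_evE A E t hcst ht] at hT
  refine htr _ ?_ hT
  intro h0
  have h1 := congrArg (fun p : Polynomial (IsLocalRing.ResidueField A) => p.coeff 0) h0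
  simp only [Polynomial.coeff_map, hT0, map_one, Polynomial.coeff_zero] at h1
  exact one_ne_zero h1

end Abs

/-! ## Transcendence of the reductions of `j` -/

section Trans

variable (k : Type) [Field k]

theorem h46q_tr_j (Q : Polynomial k) (hQ : Q ≠ 0) :
    Polynomial.eval₂ (HahnSeries.C : k →+* LaurentSeries k) (jqModC k) Q ≠ 0 :=
  Fermat.Agent.S28.evalC_jqModC_ne_zero k Q hQ

theorem h46q_tr_j_pow (n : ℕ) (hn : 0 < n) (Q : Polynomial k) (hQ : Q ≠ 0) :
    Polynomial.eval₂ (HahnSeries.C : k →+* LaurentSeries k) (jqModC k ^ n) Q ≠ 0 := by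
  have h1 : Polynomial.eval₂ (HahnSeries.C : k →+* LaurentSeries k) (jqModC k ^ n) Q =
      Polynomial.eval₂ (HahnSeries.C : k →+* LaurentSeries k) (jqModC k)
        (Polynomial.expand k n Q) := by
    have e1 := Fermat.Agent.S28.h8_evalC_eq_aeval k (jqModC k ^ n) Q
    have e2 := Fermat.Agent.S28.h8_evalC_eq_aeval k (jqModC k) (Polynomial.expand k n Q)
    rw [Polynomial.expand_aeval] at e2
    exact e1.trans e2.symm
  rw [h1]
  refine h46q_tr_j k _ ?_
  intro h0
  exact hQ ((Polynomial.expand_eq_zero hn).mp h0)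

end Trans

/-! ## The frozen leaf -/

/-- **T-ROOT-CEN.** -/
theorem h46q_torCentre : H16TorCentre := by
  intro q hq M _ hqM haux
  haveI : NeZero q := ⟨hq.ne_zero⟩
  intro A hA E hE 𝔫 h𝔫 hq𝔫
  have hJm : ∀ b ∈ h92c_Chart A (M * q * q) (jB (M * q * q)),
      b ∈ modelAt (M * q * q) A (jB (M * q * q)) := fun b hb => hb.1
  have hJB : jB (M * q * q) ∈ h92c_Chart A (M * q * q) (jB (M * q * q)) :=
    ⟨Fermat.Agent.Red.ModelO.h85_self_mem_modelAt (M * q * q) A (jB (M * q * q)),
      fun σ _ => Fermat.Agent.S37.GalI.gal_smul_jB σ⟩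
  have hint : ∀ b ∈ h92c_Chart A (M * q * q) (jB (M * q * q)),
      E b ∈ softOT A (IsLocalRing.residue A) := fun b hb =>
    (h78b_torBasic q hq M hqM haux A hA).2.1 b hb E hE
  have hJE : E (jB (M * q * q)) ∈ softOT A (IsLocalRing.residue A) := hint _ hJB
  rcases hE with rfl | ⟨ζ, hζ, hE11⟩ | hE02
  · -- `E20`
    have hred : h44s_Red A (h20n_E20 M q (jB (M * q * q)))
        (jqModC (IsLocalRing.ResidueField A)) := h44s_red_J (M * q * q)
    refine h46q_centre_abs A (h20n_E20 M q) (jB (M * q * q))
      (fun c => coe_cst (M * q * q) c) hJE _ hJm hJB hint ?_ 𝔫 h𝔫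
    rw [hred.eq hJE]
    exact h46q_tr_j _
  · -- `E11`
    have hred : h44s_Red A (E (jB (M * q * q))) (jqModC (IsLocalRing.ResidueField A)) := by
      have e : jB (M * q * q) = heckeAlphaBar Kbar (M * q) q (jB (M * q)) :=
        (Fermat.Agent.Red.HKMod.heckeAlphaBar_jBar (M * q) q).symm
      rw [e, hE11.1]
      exact h44s_red_J (M * q)
    refine h46q_centre_abs A E (jB (M * q * q)) (h44s_E11_cst hE11) hJE _ hJm hJB hint ?_ 𝔫 h𝔫
    rw [hred.eq hJE]
    exact h46q_tr_j _
  · -- `E02`
    have hred : h44s_Red A (E (jB (M * q * q)))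
        (jqModC (IsLocalRing.ResidueField A) ^ (q ^ 2)) := by
      rw [h44s_E02_eq hq hqM E hE02, h44s_fricke2_jB, h44s_coe_bb, ← h44s_jq_qq q hq hA]
      exact (h44s_red_J M).qExpand (q * q)
    have hcst : ∀ c : Kbar, E (cst (M * q * q) c) = HahnSeries.C c := by
      intro c
      rw [h44s_E02_eq hq hqM E hE02, h44s_fricke2_cst, coe_cst]
    refine h46q_centre_abs A E (jB (M * q * q)) hcst hJE _ hJm hJB hint ?_ 𝔫 h𝔫
    rw [hred.eq hJE]
    exact h46q_tr_j_pow _ _ (pow_pos hq.pos 2)

end Fermat.Agent.S36
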