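import Fermat.Agent.S36.H11LocSkel
import Fermat.Agent.Red.ModelO.Mid
import Fermat.Agent.Red.GV.BarGalois

/-!
# S36, row L-TRANSFER (helper49, prefix `h49t_`): `H11LocTransfer`

Away from the cusps the datum of `h92c_LocalDatum` passes from the chart `j` to the chart
`j⁻¹`.

* `h49t_jinv_mem_F0`, `h49t_jinv_mem_V0`, `h49t_jinv_mem_chart` : `j⁻¹` lies in `F₀`, in `V₀`
  and in the chart at infinity;
* `h49t_scale` : every element of the chart `j` is carried into the chart `j⁻¹` by a power of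
  `j⁻¹` (scaling lemma `h85_exists_pow_mul_mem_modelAt`);
* `h49t_contract` : the contraction of an ideal of the chart `j⁻¹` to the chart `j` along the
  powers of `j⁻¹`;
* `h49t_locTransfer : H11LocTransfer`.
-/

set_option autoImplicit false
set_option linter.unusedVariables false

open AlgebraicCurve ModularCurve

noncomputable section

namespace Fermat.Agent.S36

open Fermat.Agent.S37 (Kbar GQ FF cst jB gal modelAt degen auxLevel)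
open Fermat.Agent.Red.ModelO (h85_exists_pow_mul_mem_modelAt h85_jB_ne_zero)

/-! ## `j⁻¹` in `F₀`, `V₀` and the chart at infinity -/

theorem h49t_jinv_mem_F0 (A : ValuationSubring Kbar) (N : ℕ) [NeZero N] :
    (jB N)⁻¹ ∈ h92c_F0 A N :=
  inv_mem (fun σ _ => Fermat.Agent.S37.GalI.gal_smul_jB σ)

theorem h49t_degen_jB {N M : ℕ} [NeZero N] [NeZero M] (h : N ∣ M) :
    degen h (jB N) = jB M :=
  Subtype.ext (by rw [Fermat.Agent.S37.coe_degen]; rfl)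

set_option synthInstance.maxHeartbeats 400000 in
theorem h49t_jinv_mem_V0 (A : ValuationSubring Kbar) (M q : ℕ) [NeZero M] [NeZero q]
    (hq : q.Prime) (hqM : ¬ q ∣ M) (hA : A.LiesOverPrime q) :
    (jB (M * q * q))⁻¹ ∈ h92c_V0 A M q := by
  refine ⟨?_, h49t_jinv_mem_F0 A (M * q * q)⟩
  have h1 : (jB (M * q * q))⁻¹ ∈ h92c_G A M q := by
    refine ⟨(jB M)⁻¹, Fermat.Agent.Red.GV.jB_inv_mem_gaussV A M hq hqM hA, ?_⟩
    change (degen (h92c_dvd M q)) (jB M)⁻¹ = _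
    rw [map_inv₀, h49t_degen_jB]
  change IsIntegral (h92c_G A M q) (jB (M * q * q))⁻¹
  exact (isIntegral_algebraMap (R := h92c_G A M q) (A := FF (M * q * q)) (x := ⟨_, h1⟩) : _)

theorem h49t_jinv_mem_modelAt (A : ValuationSubring Kbar) (N : ℕ) [NeZero N] :
    (jB N)⁻¹ ∈ modelAt N A (jB N)⁻¹ :=
  Fermat.Agent.Red.ModelO.h85_self_mem_modelAt N A _

theorem h49t_jinv_mem_chart (A : ValuationSubring Kbar) (N : ℕ) [NeZero N] :
    (jB N)⁻¹ ∈ h92c_Chart A N (jB N)⁻¹ :=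
  ⟨h49t_jinv_mem_modelAt A N, h49t_jinv_mem_F0 A N⟩

/-! ## The scaling lemma for the charts -/

theorem h49t_scale (A : ValuationSubring Kbar) (N : ℕ) [NeZero N] {x : FF N}
    (hx : x ∈ h92c_Chart A N (jB N)) :
    ∃ k : ℕ, ∀ l : ℕ, k ≤ l → ((jB N)⁻¹) ^ l * x ∈ h92c_Chart A N (jB N)⁻¹ := by
  have hb0 : (jB N)⁻¹ ≠ 0 := inv_ne_zero (h85_jB_ne_zero N)
  have hx' : x ∈ modelAt N A ((jB N)⁻¹)⁻¹ := by
    rw [inv_inv]
    exact hx.1
  obtain ⟨k, hk⟩ := h85_exists_pow_mul_mem_modelAt N A hb0 hx'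
  refine ⟨k, fun l hl => ?_⟩
  have h1 : ((jB N)⁻¹) ^ k * x ∈ h92c_Chart A N (jB N)⁻¹ :=
    ⟨hk, mul_mem (pow_mem (h49t_jinv_mem_F0 A N) k) hx.2⟩
  have h2 : ((jB N)⁻¹) ^ l * x = ((jB N)⁻¹) ^ (l - k) * (((jB N)⁻¹) ^ k * x) := by
    rw [← mul_assoc, ← pow_add, Nat.sub_add_cancel hl]
  rw [h2]
  exact mul_mem (pow_mem (h49t_jinv_mem_chart A N) _) h1

/-! ## The contraction of an ideal -/

/-- membership in the contraction: some power of `j⁻¹` carries `x` to an element of `𝔫`. -/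
def h49t_InContract {F : Type*} [Field F] (B B' : Subring F) (b : F) (𝔫 : Ideal B')
    (x : F) : Prop :=
  ∃ k : ℕ, ∃ z : B', z ∈ 𝔫 ∧ (z : F) = b ^ k * x

theorem h49t_inContract_zero {F : Type*} [Field F] (B B' : Subring F) (b : F)
    (𝔫 : Ideal B') : h49t_InContract B B' b 𝔫 0 :=
  ⟨0, 0, 𝔫.zero_mem, by rw [mul_zero]; rfl⟩

theorem h49t_inContract_add {F : Type*} [Field F] (B B' : Subring F) (b : F) (hb : b ∈ B')
    (𝔫 : Ideal B') {x y : F} (hx : h49t_InContract B B' b 𝔫 x)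
    (hy : h49t_InContract B B' b 𝔫 y) : h49t_InContract B B' b 𝔫 (x + y) := by
  obtain ⟨k, z, hz, hzx⟩ := hx
  obtain ⟨l, z', hz', hzy⟩ := hy
  refine ⟨k + l, (⟨b, hb⟩ : B') ^ l * z + (⟨b, hb⟩ : B') ^ k * z',
    𝔫.add_mem (𝔫.mul_mem_left _ hz) (𝔫.mul_mem_left _ hz'), ?_⟩
  rw [Subring.coe_add, Subring.coe_mul, Subring.coe_mul, Subring.coe_pow, Subring.coe_pow,
    hzx, hzy, pow_add]
  ring

theorem h49t_inContract_mul {F : Type*} [Field F] (B B' : Subring F) (b : F)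
    (𝔫 : Ideal B') {c x : F} (hc : ∃ l : ℕ, b ^ l * c ∈ B')
    (hx : h49t_InContract B B' b 𝔫 x) : h49t_InContract B B' b 𝔫 (c * x) := by
  obtain ⟨k, z, hz, hzx⟩ := hx
  obtain ⟨l, hl⟩ := hc
  refine ⟨l + k, (⟨_, hl⟩ : B') * z, 𝔫.mul_mem_left _ hz, ?_⟩
  rw [Subring.coe_mul, hzx, pow_add]
  ring

theorem h49t_inContract_one {F : Type*} [Field F] (B B' : Subring F) (b : F) (hb : b ∈ B')
    (𝔫 : Ideal B') (h𝔫 : 𝔫.IsPrime) (hb𝔫 : (⟨b, hb⟩ : B') ∉ 𝔫) :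
    ¬ h49t_InContract B B' b 𝔫 1 := by
  rintro ⟨k, z, hz, hzx⟩
  have heq : z = (⟨b, hb⟩ : B') ^ k := by
    apply Subtype.ext
    rw [hzx, mul_one, Subring.coe_pow]
  rw [heq] at hz
  exact hb𝔫 (h𝔫.mem_of_pow_mem k hz)

/-- the contraction of an ideal of `B'` to `B`, along the powers of `b`. -/
def h49t_contract {F : Type*} [Field F] (B B' : Subring F) (b : F) (hb : b ∈ B')
    (hsc : ∀ c ∈ B, ∃ l : ℕ, b ^ l * c ∈ B') (𝔫 : Ideal B') : Ideal B where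
  carrier := {x | h49t_InContract B B' b 𝔫 (x : F)}
  zero_mem' := h49t_inContract_zero B B' b 𝔫
  add_mem' := fun hx hy => h49t_inContract_add B B' b hb 𝔫 hx hy
  smul_mem' := fun c _ hx => h49t_inContract_mul B B' b 𝔫 (hsc c c.2) hx

theorem h49t_mem_contract {F : Type*} [Field F] (B B' : Subring F) (b : F) (hb : b ∈ B')
    (hsc : ∀ c ∈ B, ∃ l : ℕ, b ^ l * c ∈ B') (𝔫 : Ideal B') (x : B) :
    x ∈ h49t_contract B B' b hb hsc 𝔫 ↔ h49t_InContract B B' b 𝔫 (x : F) :=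
  Iff.rfl

/-- a maximal ideal of `B` above the contraction of a prime `𝔫 ∌ b`; it contains every natural
number of `𝔫` and every element which some power of `b` carries into `𝔫`. -/
theorem h49t_exists_maximal {F : Type*} [Field F] (B B' : Subring F) (b : F) (hb : b ∈ B')
    (hsc : ∀ c ∈ B, ∃ l : ℕ, b ^ l * c ∈ B') (𝔫 : Ideal B') (h𝔫 : 𝔫.IsPrime)
    (hb𝔫 : (⟨b, hb⟩ : B') ∉ 𝔫) :
    ∃ 𝔪 : Ideal B, 𝔪.IsMaximal ∧
      (∀ n : ℕ, (n : B') ∈ 𝔫 → (n : B) ∈ 𝔪) ∧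
      ∀ (x : B) (k : ℕ) (z : B'), z ∈ 𝔫 → (z : F) = b ^ k * (x : F) → x ∈ 𝔪 := by
  have hne : h49t_contract B B' b hb hsc 𝔫 ≠ ⊤ := by
    intro htop
    have h1 : (1 : B) ∈ h49t_contract B B' b hb hsc 𝔫 := by
      rw [htop]
      exact Submodule.mem_top
    rw [h49t_mem_contract, Subring.coe_one] at h1
    exact h49t_inContract_one B B' b hb 𝔫 h𝔫 hb𝔫 h1
  obtain ⟨𝔪, h𝔪, hle⟩ := Ideal.exists_le_maximal _ hne
  refine ⟨𝔪, h𝔪, fun n hn => hle ?_, fun x k z hz hzx => hle ?_⟩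
  · rw [h49t_mem_contract]
    refine ⟨0, (n : B'), hn, ?_⟩
    rw [pow_zero, one_mul, Subring.coe_natCast, Subring.coe_natCast]
  · rw [h49t_mem_contract]
    exact ⟨k, z, hz, hzx⟩

/-! ## The transfer -/

/-- **L-TRANSFER.** -/
theorem h49t_locTransfer : H11LocTransfer := by
  classical
  intro q hq M _ hqM _
  have : NeZero q := ⟨hq.ne_zero⟩
  intro A hA m w H 𝔫 h𝔫 hq𝔫 hcusp
  obtain ⟨b₀, hb₀, hb₀𝔫⟩ := hcusp
  have hb𝔫 : (⟨_, h49t_jinv_mem_chart A (M * q * q)⟩ :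
      h92c_Chart A (M * q * q) (jB (M * q * q))⁻¹) ∉ 𝔫 := by
    have : (⟨_, h49t_jinv_mem_chart A (M * q * q)⟩ :
        h92c_Chart A (M * q * q) (jB (M * q * q))⁻¹) = b₀ := Subtype.ext hb₀.symm
    rw [this]
    exact hb₀𝔫
  -- a maximal ideal of the chart `j` above the contracted ideal
  obtain ⟨𝔪, h𝔪, hnat, hmem⟩ := h49t_exists_maximal
    (h92c_Chart A (M * q * q) (jB (M * q * q)))
    (h92c_Chart A (M * q * q) (jB (M * q * q))⁻¹) (jB (M * q * q))⁻¹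
    (h49t_jinv_mem_chart A (M * q * q))
    (fun c hc => (h49t_scale A (M * q * q) hc).imp fun k hk => hk k le_rfl)
    𝔫 h𝔫.isPrime hb𝔫
  obtain ⟨g, hgF, hg0, s', hs', ⟨y, hy, hsy⟩, h1, h2⟩ := H 𝔪 h𝔪 (hnat q hq𝔫)
  -- the scaling exponents
  obtain ⟨k₁, hk₁⟩ := h49t_scale A (M * q * q) s'.2
  obtain ⟨k₂, hk₂⟩ := h49t_scale A (M * q * q) h1
  obtain ⟨k₃, hk₃⟩ := h49t_scale A (M * q * q) h2
  have hs : (jB (M * q * q))⁻¹ ^ (k₁ + k₂ + k₃) * (s' : FF (M * q * q)) ∈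
      h92c_Chart A (M * q * q) (jB (M * q * q))⁻¹ := hk₁ _ (by omega)
  refine ⟨g, hgF, hg0, ⟨_, hs⟩, ?_,
    ⟨(jB (M * q * q))⁻¹ ^ (k₁ + k₂ + k₃) * y, ?_, ?_⟩, ?_, ?_⟩
  · intro hmem'
    exact hs' (hmem s' (k₁ + k₂ + k₃) ⟨_, hs⟩ hmem' rfl)
  · exact mul_mem (pow_mem (h49t_jinv_mem_V0 A M q hq hqM hA) _) hy
  · have e : (jB (M * q * q))⁻¹ ^ (k₁ + k₂ + k₃) * (s' : FF (M * q * q)) * (g - 1) =
        (jB (M * q * q))⁻¹ ^ (k₁ + k₂ + k₃) * ((s' : FF (M * q * q)) * (g - 1)) :=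
      mul_assoc _ _ _
    exact e.trans ((congrArg _ hsy).trans (mul_left_comm _ _ _))
  · have e : (jB (M * q * q))⁻¹ ^ (k₁ + k₂ + k₃) * (s' : FF (M * q * q)) * (w * (g ^ m)⁻¹) =
        (jB (M * q * q))⁻¹ ^ (k₁ + k₂ + k₃) * ((s' : FF (M * q * q)) * (w * (g ^ m)⁻¹)) :=
      mul_assoc _ _ _
    exact e ▸ hk₂ _ (by omega)
  · have e : (jB (M * q * q))⁻¹ ^ (k₁ + k₂ + k₃) * (s' : FF (M * q * q)) * (g ^ m * w⁻¹) =
        (jB (M * q * q))⁻¹ ^ (k₁ + k₂ + k₃) * ((s' : FF (M * q * q)) * (g ^ m * w⁻¹)) :=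
      mul_assoc _ _ _
    exact e ▸ hk₃ _ (by omega)

end Fermat.Agent.S36
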