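import Fermat.Agent.S36.H49RedA
import Fermat.Agent.S36.H49Cyc
import Fermat.Agent.S36.H20Emb
import Fermat.Agent.S36.H83EmbGal
import Fermat.Agent.S36.H12EmbDF
import Fermat.Agent.S36.H40NormA
import Fermat.Agent.S36.H1Gauss

/-!
# S36, block (N): `H20RedA` unconditional (helper49)

`h49r_redA : H20RedA`, from the landed leaves `h20n_embExists`, `h83g_embGal h20n_embUnique`,
`h12e_embDF`, `h40na_normA`, `h49c_cyc`, `h1g_inert` and the assembly `h49r_redAAssembly`.
-/

set_option autoImplicit false

namespace Fermat.Agent.S36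

/-- **N-RED (a)**, unconditional. -/
theorem h49r_redA : H20RedA :=
  h49r_redAAssembly h20n_embExists (h83g_embGal h20n_embUnique) h12e_embDF h40na_normA
    h49c_cyc h1g_inert

end Fermat.Agent.S36
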