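import Mathlib
import Fermat.Agent.S36.H80OrdThm

/-!
# S36, block REG, row R-ORD (helper94): the ordinary points over `C_∞` in a GENERAL coordinate

Companion of `S36/H80OrdThm.lean` (helper80), same setting and same conclusions, but for a
general Kronecker-type polynomial

  `f = (T - a) (T ^ q - c) + q r`   over `B`

with a root `ξ ∈ B` and a second root `Ψ`, `R = B[Ψ]` (so that the *exceptional* points, where
the coordinate `Z = e₂ u` does not separate the two points over `𝔫₁`, are covered by the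
separating coordinate `Ψ = b₂ (β u + e ^ 2)`).

`B` is a noetherian local domain with `𝔪_B = (q, t₁)`, `t₁ ^ n ∉ (q)`.

* `h94g_pow_sub_mem` : `ξ ^ q - c ∈ (q)` from `f'(ξ) ∈ (q)`;
  `h94g_pow_sub_mem_of_unit` : the same from `f(ξ) = 0`, `ξ - a` a unit.
* `h94g_factor` : `f = (T - ξ) ((T - a) (T - ξ) ^ (q - 1) + q H₁)`.
* `h94g_rel` : the relation `(Ψ - a) (Ψ - ξ) ^ (q - 1) + q H₁(Ψ) = 0`.
* `h94g_mem` : a prime of `R` containing `q` contains `Ψ - a` or `Ψ - ξ`.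
* `h94g_ord20` (**the unramified point**): `ξ - a` a unit; `𝔐₂₀ = 𝔪_B R + (Ψ - a)`,
  `L = R_𝔐₂₀` is a noetherian local domain with `𝔪_L = (q, t₁)`, a UFD, integrally closed.
* `h94g_ord11` (**the ramified point**): `ξ - a` a unit, `f'(ξ) = q κ` with `κ` a unit;
  `𝔐₁₁ = 𝔪_B R + (Ψ - ξ)`, `L = R_𝔐₁₁` is a noetherian local domain with
  `𝔪_L = (Ψ - ξ, t₁)`, `q = unit * (Ψ - ξ) ^ (q - 1)`, a UFD, integrally closed.
* `h94g_isMaximal20`, `h94g_isMaximal11` : the two ideals are maximal;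
  `h94g_eq_or_eq` : they are the only maximal ideals of `R`.
* `h94g_hmin_of_finrank` : the minimality hypothesis `hmin` from a field degree.

Everything is commutative algebra; nothing is assumed.
-/

set_option autoImplicit false
set_option linter.unusedSectionVars false
set_option linter.unnecessarySimpa false

open IsLocalRing Polynomial

namespace Fermat.Agent.S36

section GenPoly

variable {B : Type*} [CommRing B]

/-- the polynomial `(T - a) (T ^ q - c) + q r` is monic. -/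
theorem h94g_monic [Nontrivial B] (q : ℕ) (hq : 0 < q) (a c : B) (r : B[X])
    (hr : r.natDegree ≤ q) (f : B[X])
    (hf : f = (X - C a) * (X ^ q - C c) + C (q : B) * r) : f.Monic := by
  rw [hf]
  have h1 : ((X - C a) * (X ^ q - C c) : B[X]).Monic :=
    (monic_X_sub_C _).mul (monic_X_pow_sub_C _ hq.ne')
  have h2 : ((X - C a) * (X ^ q - C c) : B[X]).natDegree = 1 + q := by
    rw [((monic_X_sub_C a).natDegree_mul (monic_X_pow_sub_C c hq.ne')),
      natDegree_X_sub_C, natDegree_X_pow_sub_C]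
  refine h1.add_of_left ?_
  rw [degree_eq_natDegree h1.ne_zero, h2]
  refine lt_of_le_of_lt (degree_le_natDegree) ?_
  have h3 : (C (q : B) * r).natDegree ≤ q :=
    le_trans (natDegree_C_mul_le _ _) hr
  exact_mod_cast Nat.lt_of_le_of_lt h3 (by omega)

/-- the polynomial `(T - a) (T ^ q - c) + q r` has degree `q + 1`. -/
theorem h94g_natDegree [Nontrivial B] (q : ℕ) (hq : 0 < q) (a c : B) (r : B[X])
    (hr : r.natDegree ≤ q) (f : B[X])
    (hf : f = (X - C a) * (X ^ q - C c) + C (q : B) * r) : f.natDegree = q + 1 := by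
  rw [hf]
  have h1 : ((X - C a) * (X ^ q - C c) : B[X]).Monic :=
    (monic_X_sub_C _).mul (monic_X_pow_sub_C _ hq.ne')
  have h2 : ((X - C a) * (X ^ q - C c) : B[X]).natDegree = 1 + q := by
    rw [((monic_X_sub_C a).natDegree_mul (monic_X_pow_sub_C c hq.ne')),
      natDegree_X_sub_C, natDegree_X_pow_sub_C]
  have h3 : (C (q : B) * r).natDegree ≤ q :=
    le_trans (natDegree_C_mul_le _ _) hr
  rw [natDegree_add_eq_left_of_natDegree_lt (by rw [h2]; omega), h2, add_comm]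

/-- the derivative at a point. -/
theorem h94g_derivative_eval (q : ℕ) (a c ξ : B) (r : B[X]) (f : B[X])
    (hf : f = (X - C a) * (X ^ q - C c) + C (q : B) * r) :
    (derivative f).eval ξ =
      (ξ ^ q - c) + (q : B) * ((ξ - a) * ξ ^ (q - 1) + (derivative r).eval ξ) := by
  rw [hf]
  simp only [derivative_add, derivative_mul, derivative_sub, derivative_X, derivative_C,
    derivative_X_pow, sub_zero, one_mul, zero_mul, zero_add, eval_add, eval_mul, eval_sub,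
    eval_X, eval_C, eval_pow]
  ring

/-- `ξ ^ q - c ∈ (q)` from `f'(ξ) ∈ (q)`. -/
theorem h94g_pow_sub_mem (q : ℕ) (a c ξ κ : B) (r : B[X]) (f : B[X])
    (hf : f = (X - C a) * (X ^ q - C c) + C (q : B) * r)
    (hκ : (derivative f).eval ξ = (q : B) * κ) :
    ∃ d : B, ξ ^ q - c = (q : B) * d := by
  rw [h94g_derivative_eval q a c ξ r f hf] at hκ
  exact ⟨κ - ((ξ - a) * ξ ^ (q - 1) + (derivative r).eval ξ), by linear_combination hκ⟩

/-- `ξ ^ q - c ∈ (q)` from `f(ξ) = 0` and `ξ - a` a unit. -/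
theorem h94g_pow_sub_mem_of_unit (q : ℕ) (a c ξ : B) (r : B[X]) (f : B[X])
    (hf : f = (X - C a) * (X ^ q - C c) + C (q : B) * r)
    (hroot : f.eval ξ = 0) (hsep : IsUnit (ξ - a)) :
    ∃ d : B, ξ ^ q - c = (q : B) * d := by
  rw [hf] at hroot
  simp only [eval_add, eval_mul, eval_sub, eval_X, eval_C, eval_pow] at hroot
  obtain ⟨v, hv⟩ := hsep.exists_left_inv
  refine ⟨-(v * r.eval ξ), ?_⟩
  have h1 : ξ ^ q - c = v * (ξ - a) * (ξ ^ q - c) := by rw [hv, one_mul]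
  rw [h1]
  linear_combination v * hroot

end GenPoly

section GenFactor

variable {B : Type*} [CommRing B] [IsDomain B]

/-- **the factorisation**: `f = (T - ξ) ((T - a) (T - ξ) ^ (q - 1) + q H₁)`. -/
theorem h94g_factor (q : ℕ) (hq : q.Prime) (hq0 : (q : B) ≠ 0) (a c ξ d : B) (r : B[X])
    (f : B[X]) (hf : f = (X - C a) * (X ^ q - C c) + C (q : B) * r)
    (hd : ξ ^ q - c = (q : B) * d) (hroot : f.eval ξ = 0) :
    ∃ H₁ : B[X],
      f = (X - C ξ) * ((X - C a) * (X - C ξ) ^ (q - 1) + C (q : B) * H₁) := by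
  classical
  obtain ⟨m, hm⟩ := h80q_pow_sub q hq ξ
  have hq1 : q - 1 ≠ 0 := by have := hq.two_le; omega
  set e : B[X] := (X - C a) * (X - C ξ) * (C ξ * m) + (X - C a) * C d + r with he
  have hc : (C c : B[X]) = C (ξ ^ q) - C (q : B) * C d := by
    rw [← map_mul, ← map_sub, ← hd]; ring_nf
  have hG : f = (X - C ξ) * ((X - C a) * (X - C ξ) ^ (q - 1)) + C (q : B) * e := by
    rw [hf, he, hc]
    have h1 : (X ^ q - (C (ξ ^ q) - C (q : B) * C d) : B[X]) =
        (X ^ q - C (ξ ^ q)) + C (q : B) * C d := by ring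
    rw [h1, hm]
    ring
  have heX : e.eval ξ = 0 := by
    have h1 := hroot
    rw [hG] at h1
    simp only [eval_add, eval_mul, eval_sub, eval_X, eval_C, eval_pow, sub_self, zero_mul,
      zero_add] at h1
    rcases mul_eq_zero.mp h1 with h2 | h2
    · exact absurd h2 hq0
    · exact h2
  obtain ⟨e₁, he₁⟩ := h80q_exists_factor e ξ heX
  refine ⟨e₁, ?_⟩
  rw [hG, he₁]
  ring

/-- the value of `H₁` at `ξ` is `κ`. -/
theorem h94g_H1_eval (q : ℕ) (hq : q.Prime) (hq0 : (q : B) ≠ 0) (a ξ κ : B)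
    (f H₁ : B[X])
    (hH : f = (X - C ξ) * ((X - C a) * (X - C ξ) ^ (q - 1) + C (q : B) * H₁))
    (hκ : (derivative f).eval ξ = (q : B) * κ) : H₁.eval ξ = κ := by
  have hq1 : q - 1 ≠ 0 := by have := hq.two_le; omega
  have h1 := h80q_deriv_eval f _ ξ hH
  rw [hκ] at h1
  simp only [eval_add, eval_mul, eval_sub, eval_X, eval_C, eval_pow, sub_self,
    zero_pow hq1, mul_zero, zero_add] at h1
  exact (mul_left_cancel₀ hq0 h1).symm

end GenFactor

section GenThm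

variable {B : Type*} [CommRing B] [IsDomain B] [IsNoetherianRing B] [IsLocalRing B]
  {R : Type*} [CommRing R] [IsDomain R] [Algebra B R]

/-- `Ψ` is integral over `B`. -/
theorem h94g_isIntegral (q : ℕ) (hq : 0 < q) (a c : B) (r : B[X]) (hr : r.natDegree ≤ q)
    (f : B[X]) (hf : f = (X - C a) * (X ^ q - C c) + C (q : B) * r)
    (Ψ : R) (hfΨ : aeval Ψ f = 0) : IsIntegral B Ψ :=
  ⟨f, h94g_monic q hq a c r hr f hf, by rw [← aeval_def]; exact hfΨ⟩

/-- the relation `(Ψ - a) (Ψ - ξ) ^ (q - 1) + q H₁(Ψ) = 0`. -/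
theorem h94g_rel (q : ℕ) (hq : q.Prime) (hq0 : (q : B) ≠ 0) (a c ξ d : B) (r : B[X])
    (f : B[X]) (hf : f = (X - C a) * (X ^ q - C c) + C (q : B) * r)
    (hd : ξ ^ q - c = (q : B) * d) (hroot : f.eval ξ = 0)
    (Ψ : R) (hfΨ : aeval Ψ f = 0) (hne : Ψ ≠ algebraMap B R ξ) :
    ∃ H₁ : B[X],
      f = (X - C ξ) * ((X - C a) * (X - C ξ) ^ (q - 1) + C (q : B) * H₁) ∧
      (Ψ - algebraMap B R a) * (Ψ - algebraMap B R ξ) ^ (q - 1)
        + algebraMap B R (q : B) * aeval Ψ H₁ = 0 := by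
  obtain ⟨H₁, hH⟩ := h94g_factor q hq hq0 a c ξ d r f hf hd hroot
  refine ⟨H₁, hH, ?_⟩
  have h1 := h80q_root_of_factor _ _ ξ hH Ψ hfΨ hne
  simpa only [map_add, map_mul, map_sub, map_pow, aeval_X, aeval_C] using h1

/-- a prime of `R` containing `q` contains `Ψ - a` or `Ψ - ξ`. -/
theorem h94g_mem (q : ℕ) (hq : q.Prime) (hq0 : (q : B) ≠ 0) (a c ξ d : B) (r : B[X])
    (f : B[X]) (hf : f = (X - C a) * (X ^ q - C c) + C (q : B) * r)
    (hd : ξ ^ q - c = (q : B) * d) (hroot : f.eval ξ = 0)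
    (Ψ : R) (hfΨ : aeval Ψ f = 0) (hne : Ψ ≠ algebraMap B R ξ)
    (M : Ideal R) [hM : M.IsPrime] (hqM : algebraMap B R (q : B) ∈ M) :
    Ψ - algebraMap B R a ∈ M ∨ Ψ - algebraMap B R ξ ∈ M := by
  obtain ⟨H₁, -, hrel⟩ := h94g_rel q hq hq0 a c ξ d r f hf hd hroot Ψ hfΨ hne
  have h1 : (Ψ - algebraMap B R a) * (Ψ - algebraMap B R ξ) ^ (q - 1) ∈ M := by
    have : (Ψ - algebraMap B R a) * (Ψ - algebraMap B R ξ) ^ (q - 1) =
        -(aeval Ψ H₁) * algebraMap B R (q : B) := by linear_combination hrel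
    rw [this]
    exact M.mul_mem_left _ hqM
  rcases hM.mem_or_mem h1 with h | h
  · exact Or.inl h
  · exact Or.inr (hM.mem_of_pow_mem _ h)

/-- the cofactor `H` is monic of degree `q` and divides every polynomial killing `Ψ`. -/
theorem h94g_dvd (q : ℕ) (hq : q.Prime) (a c ξ : B) (r : B[X]) (hr : r.natDegree ≤ q)
    (f : B[X]) (hf : f = (X - C a) * (X ^ q - C c) + C (q : B) * r)
    (H : B[X]) (hH : f = (X - C ξ) * H)
    (Ψ : R) (hHΨ : aeval Ψ H = 0)
    (hmin : ∀ P : B[X], P ≠ 0 → aeval Ψ P = 0 → q ≤ P.natDegree)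
    (P : B[X]) (hP : aeval Ψ P = 0) : H ∣ P := by
  have hGm := h94g_monic q hq.pos a c r hr f hf
  have hGd := h94g_natDegree q hq.pos a c r hr f hf
  have hHm : H.Monic := by
    rw [hH] at hGm
    exact (monic_X_sub_C ξ).of_mul_monic_left hGm
  have hHd : H.natDegree = q := by
    rw [hH, (monic_X_sub_C ξ).natDegree_mul hHm, natDegree_X_sub_C] at hGd
    omega
  exact h80q_dvd_of_min Ψ H hHm hHΨ (fun P hP0 hPZ => by rw [hHd]; exact hmin P hP0 hPZ) P hP

/-- the evaluation `R → B ⧸ (q)`, `Ψ ↦ a` (the component of the unramified point). -/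
theorem h94g_phi20 (q : ℕ) (hq : q.Prime) (hq0 : (q : B) ≠ 0) (a c ξ d : B) (r : B[X])
    (hr : r.natDegree ≤ q)
    (f : B[X]) (hf : f = (X - C a) * (X ^ q - C c) + C (q : B) * r)
    (hd : ξ ^ q - c = (q : B) * d) (hroot : f.eval ξ = 0)
    (Ψ : R) (hgen : Algebra.adjoin B {Ψ} = ⊤)
    (hfΨ : aeval Ψ f = 0) (hne : Ψ ≠ algebraMap B R ξ)
    (hmin : ∀ P : B[X], P ≠ 0 → aeval Ψ P = 0 → q ≤ P.natDegree) :
    ∃ φ : R →+* B ⧸ Ideal.span {(q : B)}, φ (Ψ - algebraMap B R a) = 0 ∧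
      ∀ b : B, φ (algebraMap B R b) = Ideal.Quotient.mk _ b := by
  obtain ⟨H₁, hH, hrel⟩ := h94g_rel q hq hq0 a c ξ d r f hf hd hroot Ψ hfΨ hne
  set H : B[X] := (X - C a) * (X - C ξ) ^ (q - 1) + C (q : B) * H₁ with hHdef
  have hHΨ : aeval Ψ H = 0 := by
    rw [hHdef]
    simp only [map_add, map_mul, map_sub, map_pow, aeval_X, aeval_C]
    exact hrel
  have hker : ∀ P : B[X], aeval Ψ P = 0 → P.eval a ∈ Ideal.span {(q : B)} := by
    intro P hP
    obtain ⟨Q, hQ⟩ := h94g_dvd q hq a c ξ r hr f hf H hH Ψ hHΨ hmin P hP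
    rw [hQ, eval_mul, hHdef]
    simp only [eval_add, eval_mul, eval_sub, eval_X, eval_C, eval_pow, sub_self, zero_mul,
      zero_add]
    rw [mul_assoc]
    exact Ideal.mul_mem_right _ _ (Ideal.subset_span (Set.mem_singleton _))
  obtain ⟨φ, hφZ, hφ, -⟩ := h80q_phi (q : B) Ψ a hgen hker
  exact ⟨φ, by rw [map_sub, hφZ, hφ, sub_self], hφ⟩

/-- the evaluation `R → B ⧸ (q)`, `Ψ ↦ ξ` (the component of the ramified point). -/
theorem h94g_phi11 (q : ℕ) (hq : q.Prime) (hq0 : (q : B) ≠ 0) (a c ξ d : B) (r : B[X])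
    (hr : r.natDegree ≤ q)
    (f : B[X]) (hf : f = (X - C a) * (X ^ q - C c) + C (q : B) * r)
    (hd : ξ ^ q - c = (q : B) * d) (hroot : f.eval ξ = 0)
    (Ψ : R) (hgen : Algebra.adjoin B {Ψ} = ⊤)
    (hfΨ : aeval Ψ f = 0) (hne : Ψ ≠ algebraMap B R ξ)
    (hmin : ∀ P : B[X], P ≠ 0 → aeval Ψ P = 0 → q ≤ P.natDegree) :
    ∃ φ : R →+* B ⧸ Ideal.span {(q : B)}, φ (Ψ - algebraMap B R ξ) = 0 ∧
      ∀ b : B, φ (algebraMap B R b) = Ideal.Quotient.mk _ b := by
  obtain ⟨H₁, hH, hrel⟩ := h94g_rel q hq hq0 a c ξ d r f hf hd hroot Ψ hfΨ hne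
  have hq1 : q - 1 ≠ 0 := by have := hq.two_le; omega
  set H : B[X] := (X - C a) * (X - C ξ) ^ (q - 1) + C (q : B) * H₁ with hHdef
  have hHΨ : aeval Ψ H = 0 := by
    rw [hHdef]
    simp only [map_add, map_mul, map_sub, map_pow, aeval_X, aeval_C]
    exact hrel
  have hker : ∀ P : B[X], aeval Ψ P = 0 → P.eval ξ ∈ Ideal.span {(q : B)} := by
    intro P hP
    obtain ⟨Q, hQ⟩ := h94g_dvd q hq a c ξ r hr f hf H hH Ψ hHΨ hmin P hP
    rw [hQ, eval_mul, hHdef]
    simp only [eval_add, eval_mul, eval_sub, eval_X, eval_C, eval_pow, sub_self,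
      zero_pow hq1, mul_zero, zero_add]
    rw [mul_assoc]
    exact Ideal.mul_mem_right _ _ (Ideal.subset_span (Set.mem_singleton _))
  obtain ⟨φ, hφZ, hφ, -⟩ := h80q_phi (q : B) Ψ ξ hgen hker
  exact ⟨φ, by rw [map_sub, hφZ, hφ, sub_self], hφ⟩

/-- `𝔐₂₀ = 𝔪_B R + (Ψ - a)` is maximal. -/
theorem h94g_isMaximal20 (q : ℕ) (hq : q.Prime) (hq0 : (q : B) ≠ 0) (a c ξ d : B)
    (r : B[X]) (hr : r.natDegree ≤ q)
    (f : B[X]) (hf : f = (X - C a) * (X ^ q - C c) + C (q : B) * r)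
    (hd : ξ ^ q - c = (q : B) * d) (hroot : f.eval ξ = 0)
    (hqm : (q : B) ∈ maximalIdeal B)
    (Ψ : R) (hgen : Algebra.adjoin B {Ψ} = ⊤)
    (hfΨ : aeval Ψ f = 0) (hne : Ψ ≠ algebraMap B R ξ)
    (hmin : ∀ P : B[X], P ≠ 0 → aeval Ψ P = 0 → q ≤ P.natDegree) :
    (h80rI B (Ψ - algebraMap B R a)).IsMaximal := by
  obtain ⟨φ, hφS, hφ⟩ := h94g_phi20 q hq hq0 a c ξ d r hr f hf hd hroot Ψ hgen hfΨ hne hmin
  exact h80o_isMaximal (q : B) hqm _ (h80q_adjoin_sub Ψ a hgen) φ hφS hφ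

/-- `𝔐₁₁ = 𝔪_B R + (Ψ - ξ)` is maximal. -/
theorem h94g_isMaximal11 (q : ℕ) (hq : q.Prime) (hq0 : (q : B) ≠ 0) (a c ξ d : B)
    (r : B[X]) (hr : r.natDegree ≤ q)
    (f : B[X]) (hf : f = (X - C a) * (X ^ q - C c) + C (q : B) * r)
    (hd : ξ ^ q - c = (q : B) * d) (hroot : f.eval ξ = 0)
    (hqm : (q : B) ∈ maximalIdeal B)
    (Ψ : R) (hgen : Algebra.adjoin B {Ψ} = ⊤)
    (hfΨ : aeval Ψ f = 0) (hne : Ψ ≠ algebraMap B R ξ)
    (hmin : ∀ P : B[X], P ≠ 0 → aeval Ψ P = 0 → q ≤ P.natDegree) :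
    (h80rI B (Ψ - algebraMap B R ξ)).IsMaximal := by
  obtain ⟨φ, hφS, hφ⟩ := h94g_phi11 q hq hq0 a c ξ d r hr f hf hd hroot Ψ hgen hfΨ hne hmin
  exact h80o_isMaximal (q : B) hqm _ (h80q_adjoin_sub Ψ ξ hgen) φ hφS hφ

/-- **The unramified point in a general coordinate.** -/
theorem h94g_ord20 (hinj : Function.Injective (algebraMap B R))
    (q : ℕ) (hq : q.Prime) (hq0 : (q : B) ≠ 0)
    (a c ξ t₁ : B) (r : B[X]) (hr : r.natDegree ≤ q)
    (f : B[X]) (hf : f = (X - C a) * (X ^ q - C c) + C (q : B) * r)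
    (hroot : f.eval ξ = 0)
    (hmaxB : maximalIdeal B = Ideal.span {(q : B), t₁})
    (hnil : ∀ n : ℕ, t₁ ^ n ∉ Ideal.span {(q : B)})
    (hsep : IsUnit (ξ - a))
    (Ψ : R) (hgen : Algebra.adjoin B {Ψ} = ⊤)
    (hfΨ : aeval Ψ f = 0) (hne : Ψ ≠ algebraMap B R ξ)
    (hmin : ∀ P : B[X], P ≠ 0 → aeval Ψ P = 0 → q ≤ P.natDegree)
    (𝔐 : Ideal R) [h𝔐 : 𝔐.IsPrime]
    (h𝔐eq : 𝔐 = h80rI B (Ψ - algebraMap B R a))
    (L : Type*) [CommRing L] [Algebra R L] [IsLocalization.AtPrime L 𝔐] :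
    ∃ (_ : IsLocalRing L) (_ : IsDomain L), IsNoetherianRing L ∧
      maximalIdeal L = Ideal.span {algebraMap R L (algebraMap B R (q : B)),
        algebraMap R L (algebraMap B R t₁)} ∧
      (∃ l : L, algebraMap R L (Ψ - algebraMap B R a) =
        algebraMap R L (algebraMap B R (q : B)) * l) ∧
      Prime (algebraMap R L (algebraMap B R (q : B))) ∧ UniqueFactorizationMonoid L ∧
      IsIntegrallyClosed L := by
  classical
  obtain ⟨d, hd⟩ := h94g_pow_sub_mem_of_unit q a c ξ r f hf hroot hsep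
  obtain ⟨H₁, hH, hrel⟩ := h94g_rel q hq hq0 a c ξ d r f hf hd hroot Ψ hfΨ hne
  have hqm : (q : B) ∈ maximalIdeal B := by
    rw [hmaxB]; exact Ideal.subset_span (by simp)
  obtain ⟨φ, hφS, hφ⟩ := h94g_phi20 q hq hq0 a c ξ d r hr f hf hd hroot Ψ hgen hfΨ hne hmin
  set S : R := Ψ - algebraMap B R a with hS
  have hintΨ := h94g_isIntegral q hq.pos a c r hr f hf Ψ hfΨ
  have hintS : IsIntegral B S := h80q_isIntegral_sub Ψ a hintΨ
  have hgenS : Algebra.adjoin B {S} = ⊤ := h80q_adjoin_sub Ψ a hgen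
  have hrel' : S * (Ψ - algebraMap B R ξ) ^ (q - 1) =
      algebraMap B R (q : B) * (-(aeval Ψ H₁)) := by
    linear_combination hrel
  -- `Ψ - ξ ∉ 𝔐`
  have hw : (Ψ - algebraMap B R ξ) ^ (q - 1) ∉ 𝔐 := by
    intro hmem
    have h1 : Ψ - algebraMap B R ξ ∈ 𝔐 := h𝔐.mem_of_pow_mem _ hmem
    rw [h𝔐eq] at h1
    have h2 : Ψ - algebraMap B R ξ = algebraMap B R (a - ξ) + S * 1 := by
      rw [hS, map_sub]; ring
    rw [h2] at h1
    have h3 := (h80o_not_mem_iff (q : B) hqm S φ hφS hφ (a - ξ) 1).mp h1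
    have h4 : IsUnit (a - ξ) := by
      have : a - ξ = -(ξ - a) := by ring
      rw [this]
      exact hsep.neg
    exact (IsLocalRing.mem_maximalIdeal _).mp h3 h4
  exact h80q_etale hinj (q : B) t₁ hq0 hmaxB hnil S hintS hgenS _ _ hrel' φ hφS hφ 𝔐
    h𝔐eq hw L

/-- **The ramified point in a general coordinate.** -/
theorem h94g_ord11 (hinj : Function.Injective (algebraMap B R))
    (q : ℕ) (hq : q.Prime) (hq0 : (q : B) ≠ 0)
    (a c ξ t₁ : B) (r : B[X]) (hr : r.natDegree ≤ q)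
    (f : B[X]) (hf : f = (X - C a) * (X ^ q - C c) + C (q : B) * r)
    (hroot : f.eval ξ = 0)
    (hmaxB : maximalIdeal B = Ideal.span {(q : B), t₁})
    (hnil : ∀ n : ℕ, t₁ ^ n ∉ Ideal.span {(q : B)})
    (hsep : IsUnit (ξ - a))
    (κ : B) (hκ : IsUnit κ) (hκeq : (derivative f).eval ξ = (q : B) * κ)
    (Ψ : R) (hgen : Algebra.adjoin B {Ψ} = ⊤)
    (hfΨ : aeval Ψ f = 0) (hne : Ψ ≠ algebraMap B R ξ)
    (hmin : ∀ P : B[X], P ≠ 0 → aeval Ψ P = 0 → q ≤ P.natDegree)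
    (𝔐 : Ideal R) [h𝔐 : 𝔐.IsPrime]
    (h𝔐eq : 𝔐 = h80rI B (Ψ - algebraMap B R ξ))
    (L : Type*) [CommRing L] [Algebra R L] [IsLocalization.AtPrime L 𝔐] :
    ∃ (_ : IsLocalRing L) (_ : IsDomain L), IsNoetherianRing L ∧
      maximalIdeal L = Ideal.span {algebraMap R L (Ψ - algebraMap B R ξ),
        algebraMap R L (algebraMap B R t₁)} ∧
      (∃ u : Lˣ, algebraMap R L (algebraMap B R (q : B)) =
        u * algebraMap R L (Ψ - algebraMap B R ξ) ^ (q - 1)) ∧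
      Prime (algebraMap R L (Ψ - algebraMap B R ξ)) ∧ UniqueFactorizationMonoid L ∧
      IsIntegrallyClosed L := by
  classical
  obtain ⟨d, hd⟩ := h94g_pow_sub_mem q a c ξ κ r f hf hκeq
  obtain ⟨H₁, hH, hrel⟩ := h94g_rel q hq hq0 a c ξ d r f hf hd hroot Ψ hfΨ hne
  have hq1 : 0 < q - 1 := by have := hq.two_le; omega
  have hκ' : H₁.eval ξ = κ := h94g_H1_eval q hq hq0 a ξ κ f H₁ hH hκeq
  obtain ⟨φ, hφS, hφ⟩ := h94g_phi11 q hq hq0 a c ξ d r hr f hf hd hroot Ψ hgen hfΨ hne hmin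
  set S : R := Ψ - algebraMap B R ξ with hS
  have hintΨ := h94g_isIntegral q hq.pos a c r hr f hf Ψ hfΨ
  have hintS : IsIntegral B S := h80q_isIntegral_sub Ψ ξ hintΨ
  have hgenS : Algebra.adjoin B {S} = ⊤ := h80q_adjoin_sub Ψ ξ hgen
  obtain ⟨η, hη⟩ := h80q_aeval_sub H₁ ξ Ψ
  rw [hκ'] at hη
  have hroot' : S ^ (q - 1) * (S + algebraMap B R (ξ - a))
      + algebraMap B R (q : B) * (S * η + algebraMap B R κ) = 0 := by
    rw [hη] at hrel
    rw [hS, map_sub]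
    linear_combination hrel
  exact h80o_regular hinj (q : B) t₁ hq0 hmaxB hnil S hintS hgenS (q - 1) hq1 (ξ - a) κ
    hsep hκ η hroot' φ hφS hφ 𝔐 h𝔐eq L

/-- **exactly two points**: every maximal ideal of `R = B[Ψ]` is `𝔪_B R + (Ψ - a)` or
`𝔪_B R + (Ψ - ξ)`. -/
theorem h94g_eq_or_eq (q : ℕ) (hq : q.Prime) (hq0 : (q : B) ≠ 0) (a c ξ d : B)
    (r : B[X]) (hr : r.natDegree ≤ q)
    (f : B[X]) (hf : f = (X - C a) * (X ^ q - C c) + C (q : B) * r)
    (hd : ξ ^ q - c = (q : B) * d) (hroot : f.eval ξ = 0)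
    (hqm : (q : B) ∈ maximalIdeal B)
    (Ψ : R) (hgen : Algebra.adjoin B {Ψ} = ⊤)
    (hfΨ : aeval Ψ f = 0) (hne : Ψ ≠ algebraMap B R ξ)
    (M : Ideal R) (hM : M.IsMaximal) :
    M = h80rI B (Ψ - algebraMap B R a) ∨ M = h80rI B (Ψ - algebraMap B R ξ) := by
  have hintΨ := h94g_isIntegral q hq.pos a c r hr f hf Ψ hfΨ
  have hintR : Algebra.IsIntegral B R := h80q_isIntegral Ψ hintΨ hgen
  have hcm : (M.comap (algebraMap B R)).IsMaximal :=
    Ideal.isMaximal_comap_of_isIntegral_of_isMaximal M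
  have hcm' : M.comap (algebraMap B R) = maximalIdeal B := IsLocalRing.eq_maximalIdeal hcm
  have hle1 : (maximalIdeal B).map (algebraMap B R) ≤ M := by
    rw [Ideal.map_le_iff_le_comap, hcm']
  have hqM : algebraMap B R (q : B) ∈ M := hle1 (Ideal.mem_map_of_mem _ hqm)
  have hMp := hM.isPrime
  have key : ∀ T : R, Algebra.adjoin B {T} = ⊤ → T ∈ M → M = h80rI B T := by
    intro T hT hTM
    have hle : h80rI B T ≤ M := by
      refine sup_le hle1 ?_
      rw [Ideal.span_le]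
      intro x hx
      rw [Set.mem_singleton_iff] at hx
      rw [hx]; exact hTM
    apply le_antisymm
    · intro x hx
      obtain ⟨b, c', rfl⟩ := h80r_exists_const T hT x
      have hTc : T * c' ∈ h80rI B T :=
        Ideal.mul_mem_right _ _ (Ideal.mem_sup_right (Ideal.subset_span (Set.mem_singleton T)))
      have hb : algebraMap B R b ∈ M := by
        have := M.sub_mem hx (hle hTc)
        simpa using this
      have hb' : b ∈ maximalIdeal B := by
        rw [← hcm']; exact hb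
      exact Ideal.add_mem _ (Ideal.mem_sup_left (Ideal.mem_map_of_mem _ hb')) hTc
    · exact hle
  rcases h94g_mem q hq hq0 a c ξ d r f hf hd hroot Ψ hfΨ hne M hqM with h | h
  · exact Or.inl (key _ (h80q_adjoin_sub Ψ a hgen) h)
  · exact Or.inr (key _ (h80q_adjoin_sub Ψ ξ hgen) h)

/-- the two points are different when `ξ - a` is a unit. -/
theorem h94g_ne (q : ℕ) (hq : q.Prime) (hq0 : (q : B) ≠ 0) (a c ξ d : B)
    (r : B[X]) (hr : r.natDegree ≤ q)
    (f : B[X]) (hf : f = (X - C a) * (X ^ q - C c) + C (q : B) * r)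
    (hd : ξ ^ q - c = (q : B) * d) (hroot : f.eval ξ = 0)
    (hqm : (q : B) ∈ maximalIdeal B) (hsep : IsUnit (ξ - a))
    (Ψ : R) (hgen : Algebra.adjoin B {Ψ} = ⊤)
    (hfΨ : aeval Ψ f = 0) (hne : Ψ ≠ algebraMap B R ξ)
    (hmin : ∀ P : B[X], P ≠ 0 → aeval Ψ P = 0 → q ≤ P.natDegree) :
    h80rI B (Ψ - algebraMap B R a) ≠ h80rI B (Ψ - algebraMap B R ξ) := by
  intro heq
  obtain ⟨φ, hφS, hφ⟩ := h94g_phi20 q hq hq0 a c ξ d r hr f hf hd hroot Ψ hgen hfΨ hne hmin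
  have h1 : Ψ - algebraMap B R ξ ∈ h80rI B (Ψ - algebraMap B R a) := by
    rw [heq]
    exact Ideal.mem_sup_right (Ideal.subset_span (Set.mem_singleton _))
  have h2 : Ψ - algebraMap B R ξ =
      algebraMap B R (a - ξ) + (Ψ - algebraMap B R a) * 1 := by
    rw [map_sub]; ring
  rw [h2] at h1
  have h3 := (h80o_not_mem_iff (q : B) hqm _ φ hφS hφ (a - ξ) 1).mp h1
  have h4 : IsUnit (a - ξ) := by
    have : a - ξ = -(ξ - a) := by ring
    rw [this]
    exact hsep.neg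
  exact (IsLocalRing.mem_maximalIdeal _).mp h3 h4

end GenThm

section Hmin

variable {B : Type*} [CommRing B] {K F : Type*} [Field K] [Field F] [Algebra K F]
  [Algebra B K] [Algebra B F] [IsScalarTower B K F]

/-- **`hmin` from a prime field degree**: if `[F : K] = q` is prime and `Ψ ∉ K`, then every
nonzero polynomial over `B ⊆ K` killing `Ψ` has degree `≥ q`. -/
theorem h94g_hmin_of_finrank (hBK : Function.Injective (algebraMap B K))
    (q : ℕ) (hq : q.Prime) (hdeg : Module.finrank K F = q)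
    (Ψ : F) (hΨ : Ψ ∉ (algebraMap K F).range) :
    ∀ P : B[X], P ≠ 0 → aeval Ψ P = 0 → q ≤ P.natDegree := by
  intro P hP0 hP
  have hfd : FiniteDimensional K F := by
    apply Module.finite_of_finrank_pos
    rw [hdeg]; exact hq.pos
  have hint : IsIntegral K Ψ := Algebra.IsIntegral.isIntegral Ψ
  -- the degree of `Ψ` over `K` divides `q` and is not `1`
  have hdvd : (minpoly K Ψ).natDegree ∣ q := by
    rw [← hdeg]
    exact minpoly.degree_dvd hint
  have hne1 : (minpoly K Ψ).natDegree ≠ 1 := by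
    intro h1
    apply hΨ
    have h2 : (minpoly K Ψ).degree = 1 := by
      rw [Polynomial.degree_eq_natDegree (minpoly.ne_zero hint), h1]; rfl
    exact (minpoly.degree_eq_one_iff (A := K) (B := F)).mp h2
  have hdegΨ : (minpoly K Ψ).natDegree = q := by
    rcases (Nat.dvd_prime hq).mp hdvd with h | h
    · exact absurd h hne1
    · exact h
  -- `P` over `K`
  have hPK0 : P.map (algebraMap B K) ≠ 0 := by
    intro h
    apply hP0
    exact (Polynomial.map_eq_zero_iff hBK).mp h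
  have hPK : aeval Ψ (P.map (algebraMap B K)) = 0 := by
    rw [Polynomial.aeval_map_algebraMap]; exact hP
  have h1 : (minpoly K Ψ).natDegree ≤ (P.map (algebraMap B K)).natDegree :=
    Polynomial.natDegree_le_natDegree (minpoly.degree_le_of_ne_zero K Ψ hPK0 hPK)
  calc q = (minpoly K Ψ).natDegree := hdegΨ.symm
    _ ≤ (P.map (algebraMap B K)).natDegree := h1
    _ ≤ P.natDegree := Polynomial.natDegree_map_le

/-- the same for `Ψ` in a subring `R ⊆ F`. -/
theorem h94g_hmin_of_finrank' {R : Type*} [CommRing R] [Algebra B R] [Algebra R F]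
    [IsScalarTower B R F] (hBK : Function.Injective (algebraMap B K))
    (q : ℕ) (hq : q.Prime) (hdeg : Module.finrank K F = q)
    (Ψ : R) (hΨ : algebraMap R F Ψ ∉ (algebraMap K F).range) :
    ∀ P : B[X], P ≠ 0 → aeval Ψ P = 0 → q ≤ P.natDegree := by
  intro P hP0 hP
  refine h94g_hmin_of_finrank hBK q hq hdeg (algebraMap R F Ψ) hΨ P hP0 ?_
  rw [Polynomial.aeval_algebraMap_apply, hP, map_zero]

/-- one of `Z + ε`, `Z + (1 + n) ε` is not in `K` when `Z` is not (`n ≠ 0` in `F`). -/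
theorem h94g_exists_notMem (Z ε : F) (hZ : Z ∉ (algebraMap K F).range) (n : ℕ)
    (hn : (n : F) ≠ 0) :
    Z + ε ∉ (algebraMap K F).range ∨ Z + (1 + (n : F)) * ε ∉ (algebraMap K F).range := by
  by_contra hcon
  push Not at hcon
  obtain ⟨⟨x, hx⟩, ⟨y, hy⟩⟩ := hcon
  apply hZ
  have hnK : (n : K) ≠ 0 := by
    intro h
    apply hn
    have : (n : F) = algebraMap K F (n : K) := by simp
    rw [this, h, map_zero]
  refine ⟨x - (y - x) / (n : K), ?_⟩
  rw [map_sub, map_div₀, map_sub, hx, hy, map_natCast]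
  field_simp
  ring

end Hmin

end Fermat.Agent.S36
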