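import Mathlib
import Fermat.Agent.S36.H80OrdTower2
import Fermat.Agent.S36.H94OrdGen

/-!
# S36, block REG, row R-ORD (helper94): the points over `C_∞` in a general coordinate, chart form

Chart form (vocabulary of `S36/H80OrdTower2.lean`, helper80) of `S36/H94OrdGen.lean`:
`F` a field, `C₁ → C → F` rings (the charts of level `M q`, `M q²` over the inertia ring),
`𝔫` a maximal ideal of `C` over a smooth point `𝔫₁ = 𝔫 ∩ C₁` of the component `C_∞` of level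
`M q`: `𝔫₁ = (q, t)` locally.  A polynomial

  `f = (T - a) (T ^ q - c) + q r`   over `C₁`,

a root `ξ ∈ C₁`, a root `Ψ ∈ C`, `Ψ ≠ ξ`, `ξ - a ∉ 𝔫₁` (**`Ψ` separates the two points over
`𝔫₁`**), no nonzero polynomial of degree `< q` over `C₁` kills `Ψ`, every element of `C` is a
fraction `Q(Ψ) / t`.

* `h94w_ord20` : if `Ψ - a ∈ 𝔫` then `𝔫 = (q, t)` locally.
* `h94w_ord11` : if `Ψ - ξ ∈ 𝔫` and `f'(ξ) = q κ` locally with `κ ∉ 𝔫₁`, then
  `𝔫 = (Ψ - ξ, t)` locally and `s (Ψ - ξ) ^ (q - 1) = c' q` with `s ∉ 𝔫`.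
* `h94w_kind` : `Ψ - a ∈ 𝔫` or `Ψ - ξ ∈ 𝔫` (if `ξ ^ q - c ∈ q C₁` locally).

For `Ψ = Z`, `ξ = X`, `a = Y ^ q`, `c = Y` these are `h80w_ord20`, `h80w_ord11` (there
`ξ - a ∉ 𝔫₁` is the non-exceptionality `X - X ^ (q²) ∉ 𝔫₁`); at the exceptional points
`Ψ = β₂ (β u + e ^ 2)`.

Everything is commutative algebra; nothing is assumed.
-/

set_option autoImplicit false
set_option linter.unusedSectionVars false
set_option linter.unnecessarySimpa false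
set_option linter.style.haveILetI false
set_option linter.style.longLine false

open IsLocalRing Polynomial

namespace Fermat.Agent.S36

section TowerGen

universe uF

variable {F : Type uF} [Field F] {C1 C : Type*} [CommRing C1] [CommRing C]
  [Algebra C1 C] [Algebra C1 F] [Algebra C F] [IsScalarTower C1 C F]

/-- transport of the general polynomial along a ring homomorphism. -/
theorem h94w_map {B B' : Type*} [CommRing B] [CommRing B'] (g : B →+* B') (q : ℕ) (a c : B)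
    (r : B[X]) (f : B[X]) (hf : f = (X - Polynomial.C a) * (X ^ q - Polynomial.C c) + Polynomial.C (q : B) * r) :
    f.map g = (X - Polynomial.C (g a)) * (X ^ q - Polynomial.C (g c)) + Polynomial.C ((q : ℕ) : B') * r.map g := by
  rw [hf]
  simp only [Polynomial.map_add, Polynomial.map_mul, Polynomial.map_sub, Polynomial.map_pow,
    Polynomial.map_X, Polynomial.map_C, map_natCast, Polynomial.map_natCast]

/-- `f(ξ) = 0` in `B`. -/
theorem h94w_root_B (𝔫1 : Ideal C1) [h𝔫1 : 𝔫1.IsPrime] (ξ : C1) (f : C1[X])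
    (hroot : f.eval ξ = 0) :
    (f.map (h80tMap (F := F) 𝔫1)).eval (h80tMap (F := F) 𝔫1 ξ) = 0 := by
  rw [Polynomial.eval_map, Polynomial.eval₂_at_apply, hroot, map_zero]

/-- the unit `κ` in `B`. -/
theorem h94w_kappa_B (hC1 : Function.Injective (algebraMap C1 F))
    (𝔫1 : Ideal C1) [h𝔫1 : 𝔫1.IsPrime] (q : ℕ) (ξ : C1) (f : C1[X]) (t₁ κ : C1)
    (ht₁ : t₁ ∉ 𝔫1) (hκ : κ ∉ 𝔫1)
    (hκeq : t₁ * (derivative f).eval ξ = (q : C1) * κ) :
    ∃ κ' : ↥(h80tLoc (F := F) 𝔫1), IsUnit κ' ∧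
      (derivative (f.map (h80tMap (F := F) 𝔫1))).eval
        (h80tMap (F := F) 𝔫1 ξ) = ((q : ℕ) : ↥(h80tLoc (F := F) 𝔫1)) * κ' := by
  obtain ⟨e, he⟩ := h80t_isUnit_map (F := F) hC1 𝔫1 t₁ ht₁
  have hκu := h80t_isUnit_map (F := F) hC1 𝔫1 κ hκ
  refine ⟨h80tMap (F := F) 𝔫1 κ * ((e⁻¹ : (↥(h80tLoc (F := F) 𝔫1))ˣ) :
    ↥(h80tLoc (F := F) 𝔫1)), hκu.mul (Units.isUnit _), ?_⟩
  rw [Polynomial.derivative_map, Polynomial.eval_map, Polynomial.eval₂_at_apply]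
  have h1 := congrArg (h80tMap (F := F) 𝔫1) hκeq
  rw [map_mul, map_mul, map_natCast, ← he] at h1
  have h2 : h80tMap (F := F) 𝔫1 ((derivative f).eval ξ) =
      ((e⁻¹ : (↥(h80tLoc (F := F) 𝔫1))ˣ) : ↥(h80tLoc (F := F) 𝔫1)) *
        ((e : ↥(h80tLoc (F := F) 𝔫1)) *
          h80tMap (F := F) 𝔫1 ((derivative f).eval ξ)) := by
    rw [← mul_assoc, Units.inv_mul, one_mul]
  rw [h1] at h2
  rw [h2]
  ring

/-- `f(Ψ) = 0` in `R`. -/
theorem h94w_root_R (𝔫1 : Ideal C1) [𝔫1.IsPrime] (f : C1[X]) (Ψ : C)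
    (hfΨ : aeval Ψ f = 0) :
    aeval (⟨algebraMap C F Ψ, Algebra.subset_adjoin (Set.mem_singleton _)⟩ :
        ↥(Algebra.adjoin ↥(h80tLoc (F := F) 𝔫1) {algebraMap C F Ψ}))
      (f.map (h80tMap (F := F) 𝔫1)) = 0 := by
  apply Subtype.ext
  have h1 := h80w_aeval_coe (F := F) 𝔫1 Ψ f
  rw [hfΨ, map_zero] at h1
  exact h1

/-- **The unramified point in a general coordinate**, chart form: `𝔫 = (q, t)` locally. -/
theorem h94w_ord20
    (hC1 : Function.Injective (algebraMap C1 F)) (hC : Function.Injective (algebraMap C F))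
    [IsNoetherianRing C1] [Algebra.IsIntegral C1 C]
    (𝔫 : Ideal C) [h𝔫 : 𝔫.IsMaximal]
    (q : ℕ) (hq : q.Prime) (hqF : (q : F) ≠ 0)
    (a c ξ t : C1) (r : C1[X]) (hr : r.natDegree ≤ q)
    (f : C1[X]) (hf : f = (X - Polynomial.C a) * (X ^ q - Polynomial.C c) + Polynomial.C (q : C1) * r)
    (hroot : f.eval ξ = 0)
    (Ψ : C) (hfΨ : aeval Ψ f = 0) (hne : Ψ ≠ algebraMap C1 C ξ)
    (hq1 : (q : C1) ∈ 𝔫.comap (algebraMap C1 C))
    (ht1 : t ∈ 𝔫.comap (algebraMap C1 C))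
    (hmax1 : ∀ w ∈ 𝔫.comap (algebraMap C1 C), ∃ u, u ∉ 𝔫.comap (algebraMap C1 C) ∧
      u * w ∈ Ideal.span {(q : C1), t})
    (P : Ideal C1) (hP : P.IsPrime) (hqP : (q : C1) ∈ P)
    (hPle : P ≤ 𝔫.comap (algebraMap C1 C)) (hPne : P ≠ 𝔫.comap (algebraMap C1 C))
    (hsep : ξ - a ∉ 𝔫.comap (algebraMap C1 C))
    (hmin : ∀ P : C1[X], P ≠ 0 → aeval Ψ P = 0 → q ≤ P.natDegree)
    (hfrac : ∀ x : C, ∃ (Q : C1[X]) (t : C1), t ≠ 0 ∧ algebraMap C1 C t * x = aeval Ψ Q)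
    (hkind : Ψ - algebraMap C1 C a ∈ 𝔫) :
    ((q : ℕ) : C) ∈ 𝔫 ∧ algebraMap C1 C t ∈ 𝔫 ∧
      ∀ w ∈ 𝔫, ∃ u, u ∉ 𝔫 ∧ u * w ∈ Ideal.span {((q : ℕ) : C), algebraMap C1 C t} := by
  classical
  haveI h𝔫p : 𝔫.IsPrime := h𝔫.isPrime
  haveI hn1p : (𝔫.comap (algebraMap C1 C)).IsPrime := Ideal.comap_isPrime _ _
  haveI hBloc : IsLocalRing ↥(h80tLoc (F := F) (𝔫.comap (algebraMap C1 C))) :=
    h80t_isLocalRing hC1 _
  haveI hBnoe : IsNoetherianRing ↥(h80tLoc (F := F) (𝔫.comap (algebraMap C1 C))) :=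
    h80t_isNoetherianRing hC1 _
  have hq0 := h80w_natCast_ne_zero (F := F) (𝔫.comap (algebraMap C1 C)) q hqF
  have hfB := h94w_map (h80tMap (F := F) (𝔫.comap (algebraMap C1 C))) q a c r f hf
  have hrootB := h94w_root_B (F := F) (𝔫.comap (algebraMap C1 C)) ξ f hroot
  have hmaxB := h80w_maxB (F := F) hC1 (𝔫.comap (algebraMap C1 C)) q t hq1 ht1 hmax1
  have hnilB : ∀ n : ℕ, (h80tMap (F := F) (𝔫.comap (algebraMap C1 C)) t) ^ n ∉
      Ideal.span {((q : ℕ) : ↥(h80tLoc (F := F) (𝔫.comap (algebraMap C1 C))))} := fun n =>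
    h80w_nilB (F := F) hC1 (𝔫.comap (algebraMap C1 C)) q t hmax1 P hP hqP hPle hPne n
  have hsepB : IsUnit (h80tMap (F := F) (𝔫.comap (algebraMap C1 C)) ξ -
      h80tMap (F := F) (𝔫.comap (algebraMap C1 C)) a) := by
    have h1 := h80t_isUnit_map (F := F) hC1 (𝔫.comap (algebraMap C1 C)) (ξ - a) hsep
    rw [map_sub] at h1
    exact h1
  have hrB : (r.map (h80tMap (F := F) (𝔫.comap (algebraMap C1 C)))).natDegree ≤ q :=
    le_trans natDegree_map_le hr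
  have hgen := h80w_adjoin_top (B := ↥(h80tLoc (F := F) (𝔫.comap (algebraMap C1 C))))
    (algebraMap C F Ψ)
  have hinj := h80w_BR_injective (F := F) (𝔫.comap (algebraMap C1 C)) (algebraMap C F Ψ)
  have hfΨR := h94w_root_R (F := F) (𝔫.comap (algebraMap C1 C)) f Ψ hfΨ
  have hneR := h80w_ne_R (F := F) hC (𝔫.comap (algebraMap C1 C)) ξ Ψ hne
  have hminB := fun P hP0 hPZ =>
    h80w_hmin (F := F) hC1 hC (𝔫.comap (algebraMap C1 C)) Ψ q hmin P hP0 hPZ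
  have hx : ((algebraMap ↥(h80tLoc (F := F) (𝔫.comap (algebraMap C1 C)))
      ↥(Algebra.adjoin ↥(h80tLoc (F := F) (𝔫.comap (algebraMap C1 C))) {algebraMap C F Ψ})
      ((q : ℕ) : ↥(h80tLoc (F := F) (𝔫.comap (algebraMap C1 C)))) :
        ↥(Algebra.adjoin ↥(h80tLoc (F := F) (𝔫.comap (algebraMap C1 C)))
          {algebraMap C F Ψ})) : F) = algebraMap C F ((q : ℕ) : C) := by
    rw [map_natCast, map_natCast]
    rfl
  have hy : ((algebraMap ↥(h80tLoc (F := F) (𝔫.comap (algebraMap C1 C)))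
      ↥(Algebra.adjoin ↥(h80tLoc (F := F) (𝔫.comap (algebraMap C1 C))) {algebraMap C F Ψ})
      (h80tMap (F := F) (𝔫.comap (algebraMap C1 C)) t) :
        ↥(Algebra.adjoin ↥(h80tLoc (F := F) (𝔫.comap (algebraMap C1 C)))
          {algebraMap C F Ψ})) : F) = algebraMap C F (algebraMap C1 C t) := by
    rw [← IsScalarTower.algebraMap_apply C1 C F]
    rfl
  have hcore := h80w_core (F := F) hC1 hC 𝔫 Ψ a hkind hfrac ((q : ℕ) : C)
    (algebraMap C1 C t) ((q : ℕ) : C) ((q : ℕ) : C) 1 _ _ _ _ hx hy hx hx (by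
      intro 𝔐 h𝔐p h𝔐eq L _ _ _
      obtain ⟨hloc, hdom, -, hmaxL, -, -, -, hic⟩ :=
        h94g_ord20 hinj q hq hq0 _ _ _ _ _ hrB _ hfB hrootB hmaxB hnilB hsepB _ hgen hfΨR
          hneR hminB 𝔐 h𝔐eq L
      exact ⟨hloc, hdom, hic, hmaxL, 1, by rw [Units.val_one, one_mul, pow_one]⟩)
  exact ⟨hcore.1, hcore.2.1, hcore.2.2.1⟩

/-- **The ramified point in a general coordinate**, chart form: `𝔫 = (Ψ - ξ, t)` locally and
`s (Ψ - ξ) ^ (q - 1) = c' q` with `s ∉ 𝔫`. -/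
theorem h94w_ord11
    (hC1 : Function.Injective (algebraMap C1 F)) (hC : Function.Injective (algebraMap C F))
    [IsNoetherianRing C1] [Algebra.IsIntegral C1 C]
    (𝔫 : Ideal C) [h𝔫 : 𝔫.IsMaximal]
    (q : ℕ) (hq : q.Prime) (hqF : (q : F) ≠ 0)
    (a c ξ t : C1) (r : C1[X]) (hr : r.natDegree ≤ q)
    (f : C1[X]) (hf : f = (X - Polynomial.C a) * (X ^ q - Polynomial.C c) + Polynomial.C (q : C1) * r)
    (hroot : f.eval ξ = 0)
    (Ψ : C) (hfΨ : aeval Ψ f = 0) (hne : Ψ ≠ algebraMap C1 C ξ)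
    (hq1 : (q : C1) ∈ 𝔫.comap (algebraMap C1 C))
    (ht1 : t ∈ 𝔫.comap (algebraMap C1 C))
    (hmax1 : ∀ w ∈ 𝔫.comap (algebraMap C1 C), ∃ u, u ∉ 𝔫.comap (algebraMap C1 C) ∧
      u * w ∈ Ideal.span {(q : C1), t})
    (P : Ideal C1) (hP : P.IsPrime) (hqP : (q : C1) ∈ P)
    (hPle : P ≤ 𝔫.comap (algebraMap C1 C)) (hPne : P ≠ 𝔫.comap (algebraMap C1 C))
    (hsep : ξ - a ∉ 𝔫.comap (algebraMap C1 C))
    (t₁ κ : C1) (ht₁ : t₁ ∉ 𝔫.comap (algebraMap C1 C)) (hκ : κ ∉ 𝔫.comap (algebraMap C1 C))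
    (hκeq : t₁ * (derivative f).eval ξ = (q : C1) * κ)
    (hmin : ∀ P : C1[X], P ≠ 0 → aeval Ψ P = 0 → q ≤ P.natDegree)
    (hfrac : ∀ x : C, ∃ (Q : C1[X]) (t : C1), t ≠ 0 ∧ algebraMap C1 C t * x = aeval Ψ Q)
    (hkind : Ψ - algebraMap C1 C ξ ∈ 𝔫) :
    Ψ - algebraMap C1 C ξ ∈ 𝔫 ∧ algebraMap C1 C t ∈ 𝔫 ∧
      (∀ w ∈ 𝔫, ∃ u, u ∉ 𝔫 ∧
        u * w ∈ Ideal.span {Ψ - algebraMap C1 C ξ, algebraMap C1 C t}) ∧
      ∃ s' c' : C, s' ∉ 𝔫 ∧ s' * (Ψ - algebraMap C1 C ξ) ^ (q - 1) = c' * ((q : ℕ) : C) := by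
  classical
  haveI h𝔫p : 𝔫.IsPrime := h𝔫.isPrime
  haveI hn1p : (𝔫.comap (algebraMap C1 C)).IsPrime := Ideal.comap_isPrime _ _
  haveI hBloc : IsLocalRing ↥(h80tLoc (F := F) (𝔫.comap (algebraMap C1 C))) :=
    h80t_isLocalRing hC1 _
  haveI hBnoe : IsNoetherianRing ↥(h80tLoc (F := F) (𝔫.comap (algebraMap C1 C))) :=
    h80t_isNoetherianRing hC1 _
  have hq0 := h80w_natCast_ne_zero (F := F) (𝔫.comap (algebraMap C1 C)) q hqF
  have hfB := h94w_map (h80tMap (F := F) (𝔫.comap (algebraMap C1 C))) q a c r f hf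
  have hrootB := h94w_root_B (F := F) (𝔫.comap (algebraMap C1 C)) ξ f hroot
  have hmaxB := h80w_maxB (F := F) hC1 (𝔫.comap (algebraMap C1 C)) q t hq1 ht1 hmax1
  have hnilB : ∀ n : ℕ, (h80tMap (F := F) (𝔫.comap (algebraMap C1 C)) t) ^ n ∉
      Ideal.span {((q : ℕ) : ↥(h80tLoc (F := F) (𝔫.comap (algebraMap C1 C))))} := fun n =>
    h80w_nilB (F := F) hC1 (𝔫.comap (algebraMap C1 C)) q t hmax1 P hP hqP hPle hPne n
  have hsepB : IsUnit (h80tMap (F := F) (𝔫.comap (algebraMap C1 C)) ξ -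
      h80tMap (F := F) (𝔫.comap (algebraMap C1 C)) a) := by
    have h1 := h80t_isUnit_map (F := F) hC1 (𝔫.comap (algebraMap C1 C)) (ξ - a) hsep
    rw [map_sub] at h1
    exact h1
  obtain ⟨κB, hκB, hκBeq⟩ := h94w_kappa_B (F := F) hC1 (𝔫.comap (algebraMap C1 C)) q ξ f t₁ κ
    ht₁ hκ hκeq
  have hrB : (r.map (h80tMap (F := F) (𝔫.comap (algebraMap C1 C)))).natDegree ≤ q :=
    le_trans natDegree_map_le hr
  have hgen := h80w_adjoin_top (B := ↥(h80tLoc (F := F) (𝔫.comap (algebraMap C1 C))))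
    (algebraMap C F Ψ)
  have hinj := h80w_BR_injective (F := F) (𝔫.comap (algebraMap C1 C)) (algebraMap C F Ψ)
  have hfΨR := h94w_root_R (F := F) (𝔫.comap (algebraMap C1 C)) f Ψ hfΨ
  have hneR := h80w_ne_R (F := F) hC (𝔫.comap (algebraMap C1 C)) ξ Ψ hne
  have hminB := fun P hP0 hPZ =>
    h80w_hmin (F := F) hC1 hC (𝔫.comap (algebraMap C1 C)) Ψ q hmin P hP0 hPZ
  have hπ : ((algebraMap ↥(h80tLoc (F := F) (𝔫.comap (algebraMap C1 C)))
      ↥(Algebra.adjoin ↥(h80tLoc (F := F) (𝔫.comap (algebraMap C1 C))) {algebraMap C F Ψ})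
      ((q : ℕ) : ↥(h80tLoc (F := F) (𝔫.comap (algebraMap C1 C)))) :
        ↥(Algebra.adjoin ↥(h80tLoc (F := F) (𝔫.comap (algebraMap C1 C)))
          {algebraMap C F Ψ})) : F) = algebraMap C F ((q : ℕ) : C) := by
    rw [map_natCast, map_natCast]
    rfl
  have hy : ((algebraMap ↥(h80tLoc (F := F) (𝔫.comap (algebraMap C1 C)))
      ↥(Algebra.adjoin ↥(h80tLoc (F := F) (𝔫.comap (algebraMap C1 C))) {algebraMap C F Ψ})
      (h80tMap (F := F) (𝔫.comap (algebraMap C1 C)) t) :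
        ↥(Algebra.adjoin ↥(h80tLoc (F := F) (𝔫.comap (algebraMap C1 C)))
          {algebraMap C F Ψ})) : F) = algebraMap C F (algebraMap C1 C t) := by
    rw [← IsScalarTower.algebraMap_apply C1 C F]
    rfl
  have hx : (((⟨algebraMap C F Ψ, Algebra.subset_adjoin (Set.mem_singleton _)⟩ :
        ↥(Algebra.adjoin ↥(h80tLoc (F := F) (𝔫.comap (algebraMap C1 C)))
          {algebraMap C F Ψ})) -
      algebraMap ↥(h80tLoc (F := F) (𝔫.comap (algebraMap C1 C)))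
        ↥(Algebra.adjoin ↥(h80tLoc (F := F) (𝔫.comap (algebraMap C1 C))) {algebraMap C F Ψ})
        (h80tMap (F := F) (𝔫.comap (algebraMap C1 C)) ξ) :
        ↥(Algebra.adjoin ↥(h80tLoc (F := F) (𝔫.comap (algebraMap C1 C)))
          {algebraMap C F Ψ})) : F) = algebraMap C F (Ψ - algebraMap C1 C ξ) := by
    rw [map_sub, ← IsScalarTower.algebraMap_apply C1 C F]
    rfl
  have hcore := h80w_core (F := F) hC1 hC 𝔫 Ψ ξ hkind hfrac (Ψ - algebraMap C1 C ξ)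
    (algebraMap C1 C t) ((q : ℕ) : C) (Ψ - algebraMap C1 C ξ) (q - 1) _ _ _ _ hx hy hπ hx
    (by
      intro 𝔐 h𝔐p h𝔐eq L _ _ _
      obtain ⟨hloc, hdom, -, hmaxL, hu, -, -, hic⟩ :=
        h94g_ord11 hinj q hq hq0 _ _ _ _ _ hrB _ hfB hrootB hmaxB hnilB hsepB κB hκB hκBeq _
          hgen hfΨR hneR hminB 𝔐 h𝔐eq L
      exact ⟨hloc, hdom, hic, hmaxL, hu⟩)
  exact hcore

/-- **the two kinds of points**: a prime of `C` containing `q` contains `Ψ - a` or `Ψ - ξ`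
(if `ξ ^ q - c ∈ q C₁` up to a factor `t₀` outside the prime). -/
theorem h94w_kind
    (𝔫 : Ideal C) [h𝔫 : 𝔫.IsPrime]
    (q : ℕ) (hq : q.Prime)
    (a c ξ : C1) (r : C1[X])
    (f : C1[X]) (hf : f = (X - Polynomial.C a) * (X ^ q - Polynomial.C c) + Polynomial.C (q : C1) * r)
    (Ψ : C) (hfΨ : aeval Ψ f = 0)
    (t₀ d : C1) (ht₀ : algebraMap C1 C t₀ ∉ 𝔫) (hd : t₀ * (ξ ^ q - c) = (q : C1) * d)
    (hq𝔫 : ((q : ℕ) : C) ∈ 𝔫) :
    Ψ - algebraMap C1 C a ∈ 𝔫 ∨ Ψ - algebraMap C1 C ξ ∈ 𝔫 := by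
  -- `(Ψ - a) (Ψ ^ q - c) ∈ 𝔫`
  have h1 : (Ψ - algebraMap C1 C a) * (Ψ ^ q - algebraMap C1 C c) ∈ 𝔫 := by
    have h2 := hfΨ
    rw [hf] at h2
    simp only [map_add, map_mul, map_sub, map_pow, aeval_X, aeval_C, map_natCast] at h2
    have h3 : (Ψ - algebraMap C1 C a) * (Ψ ^ q - algebraMap C1 C c) =
        -(aeval Ψ r) * ((q : ℕ) : C) := by linear_combination h2
    rw [h3]
    exact 𝔫.mul_mem_left _ hq𝔫
  rcases h𝔫.mem_or_mem h1 with h | h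
  · exact Or.inl h
  · right
    -- `Ψ ^ q - ξ ^ q ∈ 𝔫`, and `(Ψ - ξ) ^ q ≡ Ψ ^ q - ξ ^ q` modulo `q`
    have h4 : algebraMap C1 C t₀ * (algebraMap C1 C (ξ ^ q) - algebraMap C1 C c) ∈ 𝔫 := by
      have := congrArg (algebraMap C1 C) hd
      rw [map_mul, map_sub, map_mul, map_natCast] at this
      rw [this]
      exact 𝔫.mul_mem_right _ hq𝔫
    have h5 : algebraMap C1 C (ξ ^ q) - algebraMap C1 C c ∈ 𝔫 := by
      rcases h𝔫.mem_or_mem h4 with h' | h'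
      · exact absurd h' ht₀
      · exact h'
    have h6 : Ψ ^ q - algebraMap C1 C (ξ ^ q) ∈ 𝔫 := by
      have : Ψ ^ q - algebraMap C1 C (ξ ^ q) =
          (Ψ ^ q - algebraMap C1 C c) - (algebraMap C1 C (ξ ^ q) - algebraMap C1 C c) := by ring
      rw [this]
      exact 𝔫.sub_mem h h5
    obtain ⟨ρ, hρ⟩ := exists_add_pow_prime_eq hq (Ψ - algebraMap C1 C ξ) (algebraMap C1 C ξ)
    rw [sub_add_cancel] at hρ
    have h7 : (Ψ - algebraMap C1 C ξ) ^ q ∈ 𝔫 := by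
      have : (Ψ - algebraMap C1 C ξ) ^ q = (Ψ ^ q - algebraMap C1 C (ξ ^ q)) -
          ((q : ℕ) : C) * ((Ψ - algebraMap C1 C ξ) * algebraMap C1 C ξ * ρ) := by
        rw [map_pow]
        linear_combination -hρ
      rw [this]
      exact 𝔫.sub_mem h6 (𝔫.mul_mem_right _ hq𝔫)
    exact h𝔫.mem_of_pow_mem _ h7

end TowerGen

end Fermat.Agent.S36
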