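import Fermat.Agent.S36.H80FinBase
import Fermat.Agent.S36.H94OrdTowerGen
import Fermat.Agent.S36.H62L0
import Fermat.Agent.S36.H25RedIsoInst

/-!
# S36, block REG, row R-ORD (helper80): the points of `C₁₁` — the tower wiring

* `h80x_ord11_hom` : helper94's chart form `h94w_ord11` (general coordinate) in
  ring-homomorphism form, with conclusion the one-branch datum `h95s_OneDatum 𝔫 q`
  (`z = Ψ - ι ξ`, `e = q - 1`).
* `h80c_c11_of` : the modular wiring at a closed point `𝔫₂ ∋ q` of `B₂` with `α₂⁻¹ 𝔫₂ = 𝔫₁` smooth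
  on `C_∞`: from a coordinate `ψ ∈ B₁` killed by `f^α`, `f = (T - a)(T ^ q - c) + q r` over `Λ₀`,
  a root `ξ ∈ B₁` of `f^β` with `ξ - β a ∉ 𝔫₁` (separation), the unit `κ`
  (`t₁ f^β'(ξ) = q κ`, `t₁, κ ∉ 𝔫₁`), `β₂ ψ - α₂ ξ ∈ 𝔫₂`, and the generation (`hmin`, `hfrac`) of
  `Ψ = β₂ ψ`: the one-branch datum at `𝔫₂`.
-/

set_option autoImplicit false
set_option linter.unusedSectionVars false
set_option linter.style.haveILetI false
set_option linter.style.longLine false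
set_option linter.unusedVariables false

open AlgebraicCurve ModularCurve IsLocalRing Polynomial

noncomputable section

namespace Fermat.Agent.S36

open Fermat.Agent.S37 Fermat.Agent.Red.GG Fermat.Agent.LGC Fermat.Agent.Red.Kron

section HomForm

variable {F : Type*} [Field F] {C1 : Type*} [CommRing C1]

/-- **Points of `C₁₁`, general coordinate, ring-homomorphism form.** -/
theorem h80x_ord11_hom (C : Subring F) (ι : C1 →+* C) (hι : Function.Injective ι)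
    [IsNoetherianRing C1] (hint : ι.IsIntegral)
    (𝔫 : Ideal C) [h𝔫 : 𝔫.IsMaximal]
    (q : ℕ) (hq : q.Prime) (hqF : (q : F) ≠ 0)
    (a c ξ t : C1) (r : C1[X]) (hr : r.natDegree ≤ q)
    (f : C1[X]) (hf : f = (X - Polynomial.C a) * (X ^ q - Polynomial.C c)
      + Polynomial.C (q : C1) * r)
    (hroot : f.eval ξ = 0)
    (Ψ : C) (hfΨ : (f.map ι).eval Ψ = 0)
    (hq1 : (q : C1) ∈ 𝔫.comap ι)
    (ht1 : t ∈ 𝔫.comap ι)
    (hmax1 : ∀ w ∈ 𝔫.comap ι, ∃ u, u ∉ 𝔫.comap ι ∧ u * w ∈ Ideal.span {(q : C1), t})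
    (P : Ideal C1) (hP : P.IsPrime) (hqP : (q : C1) ∈ P)
    (hPle : P ≤ 𝔫.comap ι) (hPne : P ≠ 𝔫.comap ι)
    (hsep : ξ - a ∉ 𝔫.comap ι)
    (t₁ κ : C1) (ht₁ : t₁ ∉ 𝔫.comap ι) (hκ : κ ∉ 𝔫.comap ι)
    (hκeq : t₁ * (derivative f).eval ξ = (q : C1) * κ)
    (hmin : ∀ P : C1[X], P ≠ 0 → P.eval₂ ι Ψ = 0 → q ≤ P.natDegree)
    (hfrac : ∀ x : C, ∃ (Q : C1[X]) (t : C1), t ≠ 0 ∧ ι t * x = Q.eval₂ ι Ψ)
    (hkind : Ψ - ι ξ ∈ 𝔫) :
    h95s_OneDatum 𝔫 ((q : ℕ) : C) := by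
  haveI : Nontrivial C1 := RingHom.domain_nontrivial ι
  letI : Algebra C1 C := ι.toAlgebra
  letI : Algebra C1 F := (C.subtype.comp ι).toAlgebra
  haveI : IsScalarTower C1 C F := IsScalarTower.of_algebraMap_eq (fun _ => rfl)
  haveI : Algebra.IsIntegral C1 C := ⟨hint⟩
  have hC1 : Function.Injective (algebraMap C1 F) :=
    Subtype.val_injective.comp hι
  have hC : Function.Injective (algebraMap C F) := Subtype.val_injective
  have hfΨ' : aeval Ψ f = 0 := by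
    rw [Polynomial.aeval_def, Polynomial.eval₂_eq_eval_map]
    exact hfΨ
  have hne : Ψ ≠ algebraMap C1 C ξ := by
    intro h
    have h1 := hmin (X - Polynomial.C ξ) (Polynomial.X_sub_C_ne_zero ξ) (by
      rw [Polynomial.eval₂_sub, Polynomial.eval₂_X, Polynomial.eval₂_C, h]
      exact sub_self _)
    rw [Polynomial.natDegree_X_sub_C] at h1
    have := hq.two_le
    omega
  have hmin' : ∀ P : C1[X], P ≠ 0 → aeval Ψ P = 0 → q ≤ P.natDegree := by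
    intro P hP0 hPΨ
    exact hmin P hP0 ((Polynomial.aeval_def Ψ P).symm.trans hPΨ)
  have hfrac' : ∀ x : C, ∃ (Q : C1[X]) (t : C1), t ≠ 0 ∧
      algebraMap C1 C t * x = aeval Ψ Q := by
    intro x
    obtain ⟨Q, t, ht, h⟩ := hfrac x
    exact ⟨Q, t, ht, h.trans (Polynomial.aeval_def Ψ Q).symm⟩
  obtain ⟨h1, h2, h3, s', c', hs', hsc⟩ := h94w_ord11 (F := F) hC1 hC 𝔫 q hq hqF a c ξ t r hr f hf
    hroot Ψ hfΨ' hne hq1 ht1 hmax1 P hP hqP hPle hPne hsep t₁ κ ht₁ hκ hκeq hmin' hfrac' hkind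
  exact ⟨Ψ - ι ξ, ι t, h1, h2, h3, q - 1, s', c', hs', hsc⟩

end HomForm

/-! ## The modular wiring -/

section Wire

variable (A : ValuationSubring Kbar) {M q : ℕ} [NeZero M] [NeZero q]

/-- **The points of `C₁₁`: tower wiring.**  All level-`M q` data are hypotheses; the conclusion
is the one-branch datum at `𝔫₂` (`z = β₂ ψ - α₂ ξ`, `t = α₂ α u₀`, `e = q - 1`). -/
theorem h80c_c11_of (hq : q.Prime) (hM : ¬ q ∣ M) (haux : auxLevel q ∣ M)
    (hA : A.LiesOverPrime q)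
    (𝔫₂ : Ideal (h62rChart A (M * q * q) (jB (M * q * q)))) (h𝔫₂ : 𝔫₂.IsMaximal)
    (hq𝔫₂ : ((q : ℕ) : h62rChart A (M * q * q) (jB (M * q * q))) ∈ 𝔫₂)
    (hInf : H62InfDatum A M hq hM hA (𝔫₂.comap (h62rA2 A M)))
    (ψ : h62rChart A (M * q) (jSS M q)) (a c : h62rChart A M (jB M))
    (r : (h62rChart A M (jB M))[X]) (hr : r.natDegree ≤ q)
    (hf : ((X - C a) * (X ^ q - C c) + C ((q : ℕ) : h62rChart A M (jB M)) * r).eval₂
      (h62rAlpha A M) ψ = 0)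
    (ξ : h62rChart A (M * q) (jSS M q))
    (hroot : ((X - C a) * (X ^ q - C c) + C ((q : ℕ) : h62rChart A M (jB M)) * r).eval₂
      (h62rBeta A M hq hM hA) ξ = 0)
    (hsep : ξ - h62rBeta A M hq hM hA a ∉ 𝔫₂.comap (h62rA2 A M))
    (t₁ κ : h62rChart A (M * q) (jSS M q)) (ht₁ : t₁ ∉ 𝔫₂.comap (h62rA2 A M))
    (hκ : κ ∉ 𝔫₂.comap (h62rA2 A M))
    (hκeq : t₁ * (derivative (((X - C a) * (X ^ q - C c)
        + C ((q : ℕ) : h62rChart A M (jB M)) * r).map (h62rBeta A M hq hM hA))).eval ξ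
      = ((q : ℕ) : h62rChart A (M * q) (jSS M q)) * κ)
    (hkind : h59y_b2 A M hq hM hA ψ - h62rA2 A M ξ ∈ 𝔫₂)
    (hmin : ∀ P : Polynomial (h62rChart A (M * q) (jSS M q)), P ≠ 0 →
      P.eval₂ (h62rA2 A M) (h59y_b2 A M hq hM hA ψ) = 0 → q ≤ P.natDegree)
    (hfrac : ∀ x : h62rChart A (M * q * q) (jB (M * q * q)),
      ∃ (Q : Polynomial (h62rChart A (M * q) (jSS M q)))
        (t : h62rChart A (M * q) (jSS M q)), t ≠ 0 ∧
        h62rA2 A M t * x = Q.eval₂ (h62rA2 A M) (h59y_b2 A M hq hM hA ψ)) :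
    h95s_OneDatum 𝔫₂ ((q : ℕ) : h62rChart A (M * q * q) (jB (M * q * q))) := by
  have hA2 : h62rA2 A M (q := q) = h59y_a2 A M := h80i_A2_eq A M
  have hinj : Function.Injective (h62rA2 A M (q := q)) := by
    rw [hA2]; exact h59y_a2_injective A M
  have hint : (h62rA2 A M (q := q)).IsIntegral := by
    rw [hA2]; exact h59y_a2_isIntegral A M
  obtain ⟨h𝔫₁, hq₁⟩ := h59y_comap_a2 A M 𝔫₂ h𝔫₂ hq𝔫₂
  rw [← hA2] at h𝔫₁ hq₁
  obtain ⟨h𝔰, hq𝔰⟩ := h59y_comap_alpha1 A M _ h𝔫₁ hq₁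
  obtain ⟨u₀, hu₀rat, hu₀, hgen₀⟩ :=
    (h62r_L0_of h25i_redIsoStatement) q hq M hM haux A hA _ h𝔰 hq𝔰
  have hmax1 := hInf.2 u₀ hu₀ hgen₀
  obtain ⟨P, hP, -, hPle, hPne, hqP⟩ := h62m_L1Dim q hq M hM haux A hA _ h𝔫₁ hq₁
  haveI : IsNoetherianRing (h62rChart A (M * q) (jSS M q)) :=
    h59n_isNoetherianRing_chart (N := M * q) A hq hA (jSS M q) (Or.inl (h59y_jSS_eq M))
  have hqF : ((q : ℕ) : FF (M * q * q)) ≠ 0 := Nat.cast_ne_zero.mpr hq.ne_zero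
  have hf₁ := h94w_map (h62rBeta A M hq hM hA) q a c r _ rfl
  have hroot₁ : (((X - C a) * (X ^ q - C c)
      + C ((q : ℕ) : h62rChart A M (jB M)) * r).map (h62rBeta A M hq hM hA)).eval ξ = 0 := by
    rw [Polynomial.eval_map]
    exact hroot
  have hfΨ : ((((X - C a) * (X ^ q - C c)
      + C ((q : ℕ) : h62rChart A M (jB M)) * r).map (h62rBeta A M hq hM hA)).map
        (h62rA2 A M)).eval (h59y_b2 A M hq hM hA ψ) = 0 := by
    have e : (h62rA2 A M).comp (h62rBeta A M hq hM hA)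
        = (h59y_b2 A M hq hM hA).comp (h62rAlpha A M) := by
      rw [hA2]
      exact h59y_e1_eq' A M hq hM hA
    rw [Polynomial.map_map, e, ← Polynomial.map_map, Polynomial.eval_map,
      Polynomial.eval₂_at_apply, Polynomial.eval_map, hf, map_zero]
  exact h80x_ord11_hom (F := FF (M * q * q)) (h62rChart A (M * q * q) (jB (M * q * q)))
    (h62rA2 A M) hinj hint 𝔫₂ q hq hqF
    (h62rBeta A M hq hM hA a) (h62rBeta A M hq hM hA c) ξ (h62rAlpha A M u₀)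
    (r.map (h62rBeta A M hq hM hA)) (natDegree_map_le.trans hr) _ hf₁ hroot₁
    (h59y_b2 A M hq hM hA ψ) hfΨ hq₁ (Ideal.mem_comap.mp hu₀) hmax1 P hP hqP hPle hPne hsep
    t₁ κ ht₁ hκ hκeq hmin hfrac hkind

end Wire

/-! ## The remaining leaf of R-ORD-11 -/

/-- **the level-`M q` data at a point of `C₁₁`** (frozen leaf): at a closed point `𝔫₂ ∋ q` of
`B₂` with `α₂⁻¹ 𝔫₂` smooth on `C_∞` and `β₂⁻¹ 𝔫₂` smooth on `C_0` there are a coordinate
`ψ ∈ B₁` killed by `f^α`, `f = (T - a)(T ^ q - c) + q r` over `Λ₀`, a root `ξ ∈ B₁` of `f^β`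
separated from `β a` at `α₂⁻¹ 𝔫₂`, with `t₁ f^β'(ξ) = q κ`, `t₁, κ ∉ α₂⁻¹ 𝔫₂`,
`β₂ ψ - α₂ ξ ∈ 𝔫₂`, and `β₂ ψ` generates the level `M q²`. -/
def H80C11Data : Prop :=
  ∀ (q : ℕ) (hq : q.Prime) (M : ℕ) [NeZero M] (hM : ¬ q ∣ M), auxLevel q ∣ M →
    haveI : NeZero q := ⟨hq.ne_zero⟩
    ∀ (A : ValuationSubring Kbar) (hA : A.LiesOverPrime q),
      ∀ 𝔫₂ : Ideal (h62rChart A (M * q * q) (jB (M * q * q))), 𝔫₂.IsMaximal →
        (q : h62rChart A (M * q * q) (jB (M * q * q))) ∈ 𝔫₂ →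
        H62InfDatum A M hq hM hA (𝔫₂.comap (h62rA2 A M)) →
        H62ZeroDatum A M hq hM hA (𝔫₂.comap (h59y_b2 A M hq hM hA)) →
        ∃ (ψ : h62rChart A (M * q) (jSS M q)) (a c : h62rChart A M (jB M))
          (r : (h62rChart A M (jB M))[X]) (ξ t₁ κ : h62rChart A (M * q) (jSS M q)),
          r.natDegree ≤ q ∧
          ((X - C a) * (X ^ q - C c) + C ((q : ℕ) : h62rChart A M (jB M)) * r).eval₂
            (h62rAlpha A M) ψ = 0 ∧
          ((X - C a) * (X ^ q - C c) + C ((q : ℕ) : h62rChart A M (jB M)) * r).eval₂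
            (h62rBeta A M hq hM hA) ξ = 0 ∧
          ξ - h62rBeta A M hq hM hA a ∉ 𝔫₂.comap (h62rA2 A M) ∧
          t₁ ∉ 𝔫₂.comap (h62rA2 A M) ∧ κ ∉ 𝔫₂.comap (h62rA2 A M) ∧
          t₁ * (derivative (((X - C a) * (X ^ q - C c)
              + C ((q : ℕ) : h62rChart A M (jB M)) * r).map (h62rBeta A M hq hM hA))).eval ξ
            = ((q : ℕ) : h62rChart A (M * q) (jSS M q)) * κ ∧
          h59y_b2 A M hq hM hA ψ - h62rA2 A M ξ ∈ 𝔫₂ ∧
          (∀ P : Polynomial (h62rChart A (M * q) (jSS M q)), P ≠ 0 →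
            P.eval₂ (h62rA2 A M) (h59y_b2 A M hq hM hA ψ) = 0 → q ≤ P.natDegree) ∧
          (∀ x : h62rChart A (M * q * q) (jB (M * q * q)),
            ∃ (Q : Polynomial (h62rChart A (M * q) (jSS M q)))
              (t : h62rChart A (M * q) (jSS M q)), t ≠ 0 ∧
              h62rA2 A M t * x = Q.eval₂ (h62rA2 A M) (h59y_b2 A M hq hM hA ψ))

/-- **R-ORD-11** from the level-`M q` data. -/
theorem h80c_ordC11_of (h : H80C11Data) : H80OrdC11 := by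
  intro q hq M _ hM haux
  haveI : NeZero q := ⟨hq.ne_zero⟩
  intro A hA 𝔫₂ h𝔫₂ hq𝔫₂ hInf hZero
  obtain ⟨ψ, a, c, r, ξ, t₁, κ, hr, hf, hroot, hsep, ht₁, hκ, hκeq, hkind, hmin, hfrac⟩ :=
    h q hq M hM haux A hA 𝔫₂ h𝔫₂ hq𝔫₂ hInf hZero
  exact h80c_c11_of A hq hM haux hA 𝔫₂ h𝔫₂ hq𝔫₂ hInf ψ a c r hr hf ξ hroot hsep t₁ κ ht₁ hκ
    hκeq hkind hmin hfrac

end Fermat.Agent.S36
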