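import Fermat.Agent.S36.H50ExcIface
import Fermat.Agent.S36.H40Gen

/-!
# S36, block REG, row R-ORD (helper80): leaf `H50eGen` — generation by a general coordinate

`h80g_gen : H50eGen` (exact frozen Prop of `S36/H50ExcIface.lean`, helper50): for a non-constant
`u ∈ Λ₀` and any `ε ∈ B₁` one of `δ = 1`, `δ = 1 + q` makes `Ψ = β₂ (β u + δ ε)` a generator of
`F₀(M q²)` over `α₂ F₀(M q)` (minimality of the degree `q`, and fractions `Q(Ψ) / α₂ t`).

Proof: `[F_{Mq²} : α₂ F_{Mq}] = q` is prime and `Z = β₂ β u ∉ α₂ F_{Mq}`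
(`h40g_Z_not_mem_range`); if both `Z + E` and `Z + (1 + q) E` were in `α₂ F_{Mq}` then so would
be `q E`, `E` and `Z`.  Then `h40g_exists_unique` and `h40g_gen` (helper40) for the generator `Ψ`.
-/

set_option autoImplicit false
set_option linter.unusedSectionVars false
set_option linter.style.haveILetI false
set_option linter.style.longLine false
set_option linter.unusedVariables false

open AlgebraicCurve ModularCurve IsLocalRing Polynomial

noncomputable section

namespace Fermat.Agent.S36

open Fermat.Agent.S37 Fermat.Agent.Red.GG Fermat.Agent.LGC Fermat.Agent.Red.Kron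

section Gen

variable (A : ValuationSubring Kbar) {M q : ℕ} [NeZero M] [NeZero q]

/-- one of `Z + E`, `Z + (1 + q) E` is not of level `M q`. -/
theorem h80g_exists_delta (hq : q.Prime) (hM : ¬ q ∣ M) (hA : A.LiesOverPrime q)
    (u : h62rChart A M (jB M)) (hu : (u : FF M) ∉ Set.range (cst M))
    (ε : h62rChart A (M * q) (jSS M q)) :
    ∃ δ : h62rChart A (M * q) (jSS M q),
      δ - 1 ∈ Ideal.span {((q : ℕ) : h62rChart A (M * q) (jSS M q))} ∧
      ((h59y_b2 A M hq hM hA (h62rBeta A M hq hM hA u + δ * ε) :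
        h62rChart A (M * q * q) (jB (M * q * q))) : FF (M * q * q))
        ∉ Set.range (heckeAlphaBar Kbar (M * q) q) := by
  classical
  have hZ := h40g_Z_not_mem_range M q hq hM (u : FF M) hu
  set Zf : FF (M * q * q) := h40gZ M q (u : FF M) with hZf
  set Ef : FF (M * q * q) := heckeBetaBar Kbar (M * q) q (ε : FF (M * q)) with hEf
  have hq0 : ((q : ℕ) : FF (M * q * q)) ≠ 0 := Nat.cast_ne_zero.mpr hq.ne_zero
  have hΨ : ∀ δ : h62rChart A (M * q) (jSS M q),
      ((h59y_b2 A M hq hM hA (h62rBeta A M hq hM hA u + δ * ε) :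
        h62rChart A (M * q * q) (jB (M * q * q))) : FF (M * q * q))
        = Zf + heckeBetaBar Kbar (M * q) q (δ : FF (M * q)) * Ef := by
    intro δ
    rw [h59y_coe_b2]
    show heckeBetaBar Kbar (M * q) q
      (heckeBetaBar Kbar M q (u : FF M) + (δ : FF (M * q)) * (ε : FF (M * q))) = _
    rw [map_add, map_mul]
    rfl
  -- the range of `α₂` as a subfield
  let R : Subfield (FF (M * q * q)) :=
    ((heckeAlphaBar Kbar (M * q) q : FF (M * q) →ₐ[Kbar] FF (M * q * q)) :
      FF (M * q) →+* FF (M * q * q)).fieldRange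
  have hR : ∀ x : FF (M * q * q), x ∈ R ↔ x ∈ Set.range (heckeAlphaBar Kbar (M * q) q) := by
    intro x
    exact RingHom.mem_fieldRange
  by_cases h1 : Zf + Ef ∈ R
  · -- `δ = 1 + q`
    refine ⟨1 + ((q : ℕ) : h62rChart A (M * q) (jSS M q)), ?_, ?_⟩
    · rw [add_sub_cancel_left]
      exact Ideal.mem_span_singleton_self _
    · rw [hΨ, ← hR]
      intro h2
      have e1 : heckeBetaBar Kbar (M * q) q
          ((1 + ((q : ℕ) : h62rChart A (M * q) (jSS M q)) :
            h62rChart A (M * q) (jSS M q)) : FF (M * q)) = 1 + ((q : ℕ) : FF (M * q * q)) := by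
        have : ((1 + ((q : ℕ) : h62rChart A (M * q) (jSS M q)) :
            h62rChart A (M * q) (jSS M q)) : FF (M * q)) = 1 + ((q : ℕ) : FF (M * q)) := by
          push_cast
          rfl
        rw [this, map_add, map_one, map_natCast]
      rw [e1] at h2
      have h3 : ((q : ℕ) : FF (M * q * q)) * Ef ∈ R := by
        have h4 := R.sub_mem h2 h1
        have e2 : Zf + (1 + ((q : ℕ) : FF (M * q * q))) * Ef - (Zf + Ef)
            = ((q : ℕ) : FF (M * q * q)) * Ef := by ring
        rwa [e2] at h4
      have h5 : Ef ∈ R := by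
        have h6 := R.mul_mem (R.inv_mem (natCast_mem R q)) h3
        rwa [← mul_assoc, inv_mul_cancel₀ hq0, one_mul] at h6
      have h7 : Zf ∈ R := by
        have h8 := R.sub_mem h1 h5
        rwa [add_sub_cancel_right] at h8
      exact hZ ((hR Zf).mp h7)
  · -- `δ = 1`
    refine ⟨1, ?_, ?_⟩
    · rw [sub_self]
      exact Ideal.zero_mem _
    · rw [hΨ, ← hR]
      have e1 : heckeBetaBar Kbar (M * q) q
          ((1 : h62rChart A (M * q) (jSS M q)) : FF (M * q)) = 1 := by
        have : ((1 : h62rChart A (M * q) (jSS M q)) : FF (M * q)) = 1 := rfl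
        rw [this, map_one]
      rw [e1, one_mul]
      exact h1

/-- **the leaf `H50eGen`.** -/
theorem h80g_gen : H50eGen := by
  intro q hq M _ hM haux
  haveI : NeZero q := ⟨hq.ne_zero⟩
  intro A hA u hu ε
  obtain ⟨δ, hδ, hΨ⟩ := h80g_exists_delta A hq hM hA u hu ε
  refine ⟨δ, hδ, ?_, ?_⟩
  · -- minimality of the degree
    intro P hP0 hPΨ
    by_contra hlt
    have hlt' : P.natDegree < q := not_le.mp hlt
    obtain ⟨-, huniq⟩ := h40g_exists_unique (M * q) q hq (dvd_mul_left q M) _ hΨ
    have hinj : Function.Injective ((h62rChart A (M * q) (jSS M q)).subtype) :=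
      Subtype.val_injective
    have h1 : (P.map (h62rChart A (M * q) (jSS M q)).subtype).eval₂ (h40gA (M * q) q)
        ((h59y_b2 A M hq hM hA (h62rBeta A M hq hM hA u + δ * ε) :
          h62rChart A (M * q * q) (jB (M * q * q))) : FF (M * q * q)) = 0 := by
      have h2 := congrArg (h62rChart A (M * q * q) (jB (M * q * q))).subtype hPΨ
      rw [Polynomial.hom_eval₂, map_zero] at h2
      rw [Polynomial.eval₂_map]
      exact h2
    have h3 := huniq (P.map (h62rChart A (M * q) (jSS M q)).subtype) 0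
      (lt_of_le_of_lt (Polynomial.natDegree_map_le) hlt')
      (by rw [Polynomial.natDegree_zero]; exact hq.pos)
      (by rw [h1, Polynomial.eval₂_zero])
    apply hP0
    apply Polynomial.map_injective _ hinj
    rw [h3, Polynomial.map_zero]
  · -- fractions
    intro x
    obtain ⟨P, s, hs0, hs, hP, hdeg, h⟩ := h40g_gen A (M * q) q hq (dvd_mul_left q M)
      (jB (M * q)) (Fermat.Agent.Red.SM.HAlg.h81a_halg_jB (M * q))
      (fun σ _ => Fermat.Agent.S37.GalI.gal_smul_jB (N := M * q) σ)
      ((h59y_b2 A M hq hM hA (h62rBeta A M hq hM hA u + δ * ε) :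
          h62rChart A (M * q * q) (jB (M * q * q))) : FF (M * q * q))
      (h62r_mem_chart.mp (h59y_b2 A M hq hM hA (h62rBeta A M hq hM hA u + δ * ε)).2).2 hΨ
      (x : FF (M * q * q)) (h62r_mem_chart.mp x.2).2
    have hj : jSS M q = jB (M * q) := h59y_jSS_eq M
    rw [← hj] at hs hP
    have hlift : P ∈ Polynomial.lifts (h62rChart A (M * q) (jSS M q)).subtype := by
      rw [Polynomial.lifts_iff_coeff_lifts]
      intro n
      exact ⟨⟨P.coeff n, hP n⟩, rfl⟩
    obtain ⟨Q, hQ⟩ := hlift
    have hQ' : Q.map (h62rChart A (M * q) (jSS M q)).subtype = P := hQ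
    refine ⟨Q, ⟨s, hs⟩, ?_, ?_⟩
    · intro h0
      apply hs0
      exact congrArg Subtype.val h0
    · apply Subtype.ext
      have h2 : (((Q.eval₂ (h62rA2 A M)
          (h59y_b2 A M hq hM hA (h62rBeta A M hq hM hA u + δ * ε)) :
            h62rChart A (M * q * q) (jB (M * q * q))) : FF (M * q * q)))
          = P.eval₂ (h40gA (M * q) q)
            ((h59y_b2 A M hq hM hA (h62rBeta A M hq hM hA u + δ * ε) :
              h62rChart A (M * q * q) (jB (M * q * q))) : FF (M * q * q)) := by
        have h3 := Polynomial.hom_eval₂ Q (h62rA2 A M)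
          (h62rChart A (M * q * q) (jB (M * q * q))).subtype
          (h59y_b2 A M hq hM hA (h62rBeta A M hq hM hA u + δ * ε))
        rw [← hQ', Polynomial.eval₂_map]
        exact h3
      rw [h2, ← h]
      rfl

end Gen

end Fermat.Agent.S36
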