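import Fermat.Agent.S36.H50ExcIface2
import Fermat.Agent.S36.H80C11Wire
import Fermat.Agent.S36.H80ExcGen
import Fermat.Agent.S36.H62Iso

/-!
# S36, block REG, row R-ORD-11 (helper80): the tower step `H50eTower`

`h80t_tower : H50eTower` (exact frozen Prop of `S36/H50ExcIface2.lean`, helper50):
`H50ePkg → H60Kind11Geo`.

At a closed point `𝔫₂ ∋ q` of `B₂` of kind `11` (`α₂⁻¹ 𝔫₂ = 𝔫₁` on `C_∞` only, `β₂⁻¹ 𝔫₂ = 𝔫'` on
`C_0` only): `𝔫₁ = w₁⁻¹ 𝔫'` (uniqueness of the point of `C_∞` with a given contraction along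
`β`, helper62's `h62t_uniq_inf`); the package at `𝔫'` gives `u`, `ε`; `δ` from `h80g_gen`;
`ψ = β u + δ ε`, `ξ = w₁ ψ`, `Ψ = β₂ ψ`; then `h80c_c11_of` (consumer `h94w_ord11`).
-/

set_option autoImplicit false
set_option linter.unusedSectionVars false
set_option linter.style.haveILetI false
set_option linter.style.longLine false
set_option linter.unusedVariables false

open AlgebraicCurve ModularCurve IsLocalRing Polynomial

noncomputable section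

namespace Fermat.Agent.S36

open Fermat.Agent.S37 Fermat.Agent.Red Fermat.Agent.Red.GG Fermat.Agent.LGC

section Tower

variable (A : ValuationSubring Kbar) (M : ℕ) {q : ℕ} [NeZero M] [NeZero q]

/-- `w₁ ∘ α = β`. -/
theorem h80t_w1_alpha (hq : q.Prime) (hM : ¬ q ∣ M) (hA : A.LiesOverPrime q)
    (x : h62rChart A M (jB M)) :
    h62oW1 A M hq hM hA (h62rAlpha A M x) = h62rBeta A M hq hM hA x := by
  rw [← h62t_w1_beta A M hq hM hA x, h62o_w1_w1]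

/-- a component over `A` through the lift contains the component over `A₀`. -/
theorem h80t_Pinf_le (hq : q.Prime) (hM : ¬ q ∣ M) (hA : A.LiesOverPrime q)
    (𝔫₁ : Ideal (h62rChart A (M * q) (jSS M q)))
    (hq𝔫₁ : ((q : ℕ) : h62rChart A (M * q) (jSS M q)) ∈ 𝔫₁)
    (h : h62i_Pinf A M hq hM hA ≤
      h60rLift (h60rIncl A (M * q) (jSS M q)) (mExt A M q (jSS M q)) 𝔫₁) :
    h62sPinf A M hq hM hA ≤ 𝔫₁ := by
  intro z hz
  exact (h60r_mem_lift_iff' A M hq hM hA 𝔫₁ hq𝔫₁ z).mp (h (Ideal.mem_comap.mp hz))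

theorem h80t_P0_le (hq : q.Prime) (hM : ¬ q ∣ M) (hA : A.LiesOverPrime q)
    (𝔫₁ : Ideal (h62rChart A (M * q) (jSS M q)))
    (hq𝔫₁ : ((q : ℕ) : h62rChart A (M * q) (jSS M q)) ∈ 𝔫₁)
    (h : h62i_P0 A M hq hM hA ≤
      h60rLift (h60rIncl A (M * q) (jSS M q)) (mExt A M q (jSS M q)) 𝔫₁) :
    h62sP0 A M hq hM hA ≤ 𝔫₁ := by
  intro z hz
  exact (h60r_mem_lift_iff' A M hq hM hA 𝔫₁ hq𝔫₁ z).mp (h (Ideal.mem_comap.mp hz))

/-- **uniqueness**: at a point of kind `11`, `α₂⁻¹ 𝔫₂ = w₁⁻¹ (β₂⁻¹ 𝔫₂)`. -/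
theorem h80t_comap_eq (hq : q.Prime) (hM : ¬ q ∣ M) (haux : auxLevel q ∣ M)
    (hA : A.LiesOverPrime q)
    (𝔫₂ : Ideal (h62rChart A (M * q * q) (jB (M * q * q)))) (h𝔫₂ : 𝔫₂.IsMaximal)
    (hq𝔫₂ : ((q : ℕ) : h62rChart A (M * q * q) (jB (M * q * q))) ∈ 𝔫₂)
    (hinf : h62sPinf A M hq hM hA ≤ 𝔫₂.comap (h62rA2 A M))
    (h0 : h62sP0 A M hq hM hA ≤ 𝔫₂.comap (h59y_b2 A M hq hM hA)) :
    (𝔫₂.comap (h59y_b2 A M hq hM hA)).comap (h62oW1 A M hq hM hA) = 𝔫₂.comap (h62rA2 A M) := by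
  obtain ⟨hmaxa, hqa⟩ := h59y_comap_a2 A M 𝔫₂ h𝔫₂ hq𝔫₂
  rw [← h80i_A2_eq] at hmaxa hqa
  obtain ⟨hmaxb, hqb⟩ := h59y_comap_b2 A M hq hM hA 𝔫₂ h𝔫₂ hq𝔫₂
  haveI : (𝔫₂.comap (h62rA2 A M)).IsPrime := hmaxa.isPrime
  have hmaxw : ((𝔫₂.comap (h59y_b2 A M hq hM hA)).comap (h62oW1 A M hq hM hA)).IsMaximal :=
    Ideal.comap_isMaximal_of_surjective _
      (fun x => ⟨h62oW1 A M hq hM hA x, h62o_w1_w1 A M hq hM hA x⟩)
  have hinf' : h62sPinf A M hq hM hA ≤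
      (𝔫₂.comap (h59y_b2 A M hq hM hA)).comap (h62oW1 A M hq hM hA) := fun y hy =>
    Ideal.mem_comap.mpr (h0 ((h62o_w1_mem_P0_iff A M hq hM hA y).mpr hy))
  have hle : ((𝔫₂.comap (h59y_b2 A M hq hM hA)).comap (h62oW1 A M hq hM hA)).comap
      (h62rBeta A M hq hM hA) ≤ (𝔫₂.comap (h62rA2 A M)).comap (h62rBeta A M hq hM hA) := by
    intro x hx
    rw [Ideal.mem_comap, Ideal.mem_comap, h62t_w1_beta, Ideal.mem_comap] at hx
    rw [Ideal.mem_comap, Ideal.mem_comap, h62t_a2_beta]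
    exact hx
  exact hmaxw.eq_of_le hmaxa.ne_top
    (h62t_uniq_inf A M hq hM haux hA _ _ hinf' hinf hle)

end Tower

/-- **the tower step** (exact frozen Prop). -/
theorem h80t_tower : H50eTower := by
  intro hPkg q hq M _ hM haux
  haveI : NeZero q := ⟨hq.ne_zero⟩
  intro A hA 𝔫₂ h𝔫₂ hq𝔫₂ g1 g2 g3 g4
  obtain ⟨hmaxa, hqa⟩ := h59y_comap_a2 A M 𝔫₂ h𝔫₂ hq𝔫₂
  rw [← h80i_A2_eq] at hmaxa hqa
  obtain ⟨hmaxb, hqb⟩ := h59y_comap_b2 A M hq hM hA 𝔫₂ h𝔫₂ hq𝔫₂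
  have hiso := h25i_h60RedIso_Mq_fin (A := A) hq hM hA
  have hInf := h60r_infDatum A M hq hM haux hA hiso _ hmaxa hqa g1 g2
  obtain ⟨u, ε, hunc, hpkg⟩ := hPkg q hq M hM haux A hA _ hmaxb hqb g3 g4
  obtain ⟨δ, hδ, hmin, hfrac⟩ := h80g_gen q hq M hM haux A hA u hunc ε
  obtain ⟨a, r, κ, hr, hf, hψ, hsep, hκ, hκeq⟩ := hpkg δ hδ
  have heq := h80t_comap_eq A M hq hM haux hA 𝔫₂ h𝔫₂ hq𝔫₂
    (h80t_Pinf_le A M hq hM hA _ hqa g1) (h80t_P0_le A M hq hM hA _ hqb g3)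
  have hw : ∀ z : h62rChart A (M * q) (jSS M q),
      h62oW1 A M hq hM hA z ∈ 𝔫₂.comap (h62rA2 A M) ↔
        z ∈ 𝔫₂.comap (h59y_b2 A M hq hM hA) := by
    intro z
    rw [← heq, Ideal.mem_comap (f := h62oW1 A M hq hM hA), h62o_w1_w1]
  have hwα : (h62oW1 A M hq hM hA).comp (h62rAlpha A M) = h62rBeta A M hq hM hA :=
    RingHom.ext fun x => h80t_w1_alpha A M hq hM hA x
  -- the root `ξ = w₁ ψ`
  have hroot : (h62n_poly q a u r).eval₂ (h62rBeta A M hq hM hA)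
      (h62oW1 A M hq hM hA (h62rBeta A M hq hM hA u + δ * ε)) = 0 := by
    have h1 := congrArg (h62oW1 A M hq hM hA) hf
    rw [Polynomial.hom_eval₂, map_zero, hwα] at h1
    exact h1
  have hsub : h62oW1 A M hq hM hA (h62rBeta A M hq hM hA u + δ * ε)
      - h62rBeta A M hq hM hA a
      = h62oW1 A M hq hM hA (h62rBeta A M hq hM hA u + δ * ε - h62rAlpha A M a) := by
    rw [map_sub (h62oW1 A M hq hM hA), h80t_w1_alpha]
  have hsep' : h62oW1 A M hq hM hA (h62rBeta A M hq hM hA u + δ * ε)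
      - h62rBeta A M hq hM hA a ∉ 𝔫₂.comap (h62rA2 A M) := by
    rw [hsub, hw]
    exact hsep
  have ht₁ : h62oW1 A M hq hM hA (h62rBeta A M hq hM hA u + δ * ε - h62rAlpha A M a)
      ∉ 𝔫₂.comap (h62rA2 A M) := by
    rw [hw]
    exact hsep
  have hκ' : h62oW1 A M hq hM hA κ ∉ 𝔫₂.comap (h62rA2 A M) := by
    rw [hw]
    exact hκ
  have hκeq' : h62oW1 A M hq hM hA (h62rBeta A M hq hM hA u + δ * ε - h62rAlpha A M a) *
      (derivative ((h62n_poly q a u r).map (h62rBeta A M hq hM hA))).eval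
        (h62oW1 A M hq hM hA (h62rBeta A M hq hM hA u + δ * ε))
      = ((q : ℕ) : h62rChart A (M * q) (jSS M q)) * h62oW1 A M hq hM hA κ := by
    have h1 := congrArg (h62oW1 A M hq hM hA) hκeq
    rw [map_mul, map_mul, map_natCast, Polynomial.hom_eval₂, hwα] at h1
    rw [Polynomial.derivative_map, Polynomial.eval_map]
    exact h1
  have hkind : h59y_b2 A M hq hM hA (h62rBeta A M hq hM hA u + δ * ε)
      - h62rA2 A M (h62oW1 A M hq hM hA (h62rBeta A M hq hM hA u + δ * ε)) ∈ 𝔫₂ :=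
    Ideal.sub_mem _ (Ideal.mem_comap.mp hψ) (Ideal.mem_comap.mp ((hw _).mpr hψ))
  exact h80c_c11_of A hq hM haux hA 𝔫₂ h𝔫₂ hq𝔫₂ hInf
    (h62rBeta A M hq hM hA u + δ * ε) a u r hr hf
    (h62oW1 A M hq hM hA (h62rBeta A M hq hM hA u + δ * ε)) hroot hsep'
    (h62oW1 A M hq hM hA (h62rBeta A M hq hM hA u + δ * ε - h62rAlpha A M a))
    (h62oW1 A M hq hM hA κ) ht₁ hκ' hκeq' hkind hmin hfrac

end Fermat.Agent.S36
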