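import Fermat.Agent.S36.H50ExcPkg
import Fermat.Agent.S36.H27ExcShape
import Fermat.Agent.S36.H2ExcCharpoly
import Fermat.Agent.S36.H80ExcTower

/-!
# S36, block REG, row R-ORD-11 (helper50): the final plug

`h50e_ordC11_of_sep : H50eSep → H80OrdC11`: the last atom of R-ORD from the separation leaf,

  `H50eSep` + `h27x_shape h2c_charpoly : H50eShape` ⟹ `H50ePkg` (`h50e_pkg_of`)
  ⟹ `H60Kind11Geo` (`h80t_tower`) ⟹ `H80OrdC11` (`h60x_ordC11_of_geo`).
-/

set_option autoImplicit false

namespace Fermat.Agent.S36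

/-- the Kronecker shape, unconditional. -/
theorem h50e_shape : H50eShape := h27x_shape h2c_charpoly

/-- **the level-`M q` package from the separation leaf.** -/
theorem h50e_pkg_of_sep (hSep : H50eSep) : H50ePkg := h50e_pkg_of hSep h50e_shape

/-- **R-ORD-11 from the separation leaf.** -/
theorem h50e_kind11Geo_of_sep (hSep : H50eSep) : H60Kind11Geo :=
  h80t_tower (h50e_pkg_of_sep hSep)

/-- **R-ORD-11 (the frozen leaf `H80OrdC11`) from the separation leaf.** -/
theorem h50e_ordC11_of_sep (hSep : H50eSep) : H80OrdC11 :=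
  h60x_ordC11_of_geo (h50e_kind11Geo_of_sep hSep)

end Fermat.Agent.S36
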