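import Fermat.Agent.S36.H62FinIface
import Fermat.Agent.S36.H59Base2

/-!
# S36, block REG, row R-ORD (helper50): the points of `C₁₁` in a general coordinate — leaves

`Λ₀ = h62rChart A M (jB M)`, `B₁ = h62rChart A (M q) (jSS M q)`,
`B₂ = h62rChart A (M q²) (jB (M q²))` (charts over the inertia ring `A₀`), `α, β : Λ₀ → B₁`,
`α₂, β₂ : B₁ → B₂`.

With a rational local parameter `u` of level `M` (from R-L0) the coordinate `X = α u` lies in the
closed point, so **every** ordinary point is "exceptional" for the coordinates `X, Y, Z`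
(`X - X ^ (q²) ∈ 𝔫₁`).  The points of `C₁₁` are therefore treated in the coordinate
`ψ = β u + δ ε`, `ε ∈ P₀` separating (consumer: `h94w_ord11`, `S36/H94OrdTowerGen.lean`).
Two modular leaves are frozen here:

* `H50eCharpoly` : every `ψ ∈ B₁` is killed by a monic polynomial of degree `q + 1` over `Λ₀`
  (coefficients mapped by `α`) — the characteristic polynomial of `ψ` over `α (F_M)`; its
  coefficients are integral over the chart of level `M` and fixed by the inertia group.
* `H50eGen` : for non-constant `u ∈ Λ₀` and any `ε ∈ B₁` there is `δ ≡ 1` modulo `q` such that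
  `Ψ = β₂ (β u + δ ε)` generates `F₀(M q²)` over `α₂ F₀(M q)`: no nonzero polynomial of degree
  `< q` over `B₁` kills `Ψ`, and every element of `B₂` is a fraction `Q(Ψ) / α₂ t`.
  (`[F₀(M q²) : α₂ F₀(M q)] = q` is prime and `Z = β₂ β u` generates: if both `Z + E` and
  `Z + (1 + q) E` were in `α₂ F₀(M q)`, so would be `Z`.)

Every declaration is a definition; nothing is assumed.
-/

set_option autoImplicit false
set_option linter.unusedSectionVars false

open AlgebraicCurve ModularCurve

noncomputable section

namespace Fermat.Agent.S36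

open Fermat.Agent.S37 Fermat.Agent.Red.GG Fermat.Agent.LGC

/-- **the characteristic polynomial over the chart of level `M`** (over `A₀`). -/
def H50eCharpoly : Prop :=
  ∀ (q : ℕ) (hq : q.Prime) (M : ℕ) [NeZero M], ¬ q ∣ M → auxLevel q ∣ M →
    haveI : NeZero q := ⟨hq.ne_zero⟩
    ∀ (A : ValuationSubring Kbar), A.LiesOverPrime q →
      ∀ ψ : h62rChart A (M * q) (jSS M q),
        ∃ f : Polynomial (h62rChart A M (jB M)), f.Monic ∧ f.natDegree = q + 1 ∧
          f.eval₂ (h62rAlpha A M) ψ = 0

/-- **generation of the level `M q²` by a general coordinate.** -/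
def H50eGen : Prop :=
  ∀ (q : ℕ) (hq : q.Prime) (M : ℕ) [NeZero M] (hM : ¬ q ∣ M), auxLevel q ∣ M →
    haveI : NeZero q := ⟨hq.ne_zero⟩
    ∀ (A : ValuationSubring Kbar) (hA : A.LiesOverPrime q)
      (u : h62rChart A M (jB M)), (u : FF M) ∉ Set.range (cst M) →
      ∀ ε : h62rChart A (M * q) (jSS M q),
        ∃ δ : h62rChart A (M * q) (jSS M q),
          δ - 1 ∈ Ideal.span {((q : ℕ) : h62rChart A (M * q) (jSS M q))} ∧
          (∀ P : Polynomial (h62rChart A (M * q) (jSS M q)), P ≠ 0 →
            P.eval₂ (h62rA2 A M)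
              (h59y_b2 A M hq hM hA (h62rBeta A M hq hM hA u + δ * ε)) = 0 →
            q ≤ P.natDegree) ∧
          (∀ x : h62rChart A (M * q * q) (jB (M * q * q)),
            ∃ (Q : Polynomial (h62rChart A (M * q) (jSS M q)))
              (t : h62rChart A (M * q) (jSS M q)), t ≠ 0 ∧
              h62rA2 A M t * x = Q.eval₂ (h62rA2 A M)
                (h59y_b2 A M hq hM hA (h62rBeta A M hq hM hA u + δ * ε)))

end Fermat.Agent.S36
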