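import Mathlib
import Fermat.Agent.Red.LocalFact
import Fermat.Agent.LGC.NodeFinal
import Fermat.Agent.LGC.H62TwoComp

/-!
# S36, block REG, row R-ORD (helper50): the different is `ℓ` times a unit at a smooth point

Smooth-point companion of the node theorem (`LGC/NodeXY.lean`, `LGC/NodeHunr.lean`,
`S36/H67Unit.lean`), in the same vocabulary (`H26Chart`, two components `P∞`, `P₀`).

`B` the chart of level `M ℓ`, `Λ` the chart of level `M`, `algebraMap Λ B = α` finite,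
`𝔫` a closed point of the special fibre lying on `P₀` and **not** on `P∞`,
`𝔰 = α⁻¹ 𝔫`.  `ψ ∈ B` a coordinate with `f(ψ) = 0`, `f = (T - a)(T ^ ℓ - c) + ℓ r`
(`ψ ≡ α a` mod `P∞`, `ψ ^ ℓ ≡ α c` mod `P₀`), which **separates** `𝔫` from the point of `P∞`
over `𝔰` (`ψ - α a ∉ 𝔫`), and such that `t = ψ - c₀` is a local parameter of the branch
`B / P₀` at `𝔫`.

* `h50k_hgen` : `B = Λ[ψ] + 𝔰 B` (the fibre of `B` over `𝔰` is `k × k[t]/(t ^ ℓ)`, generated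
  by `ψ`).
* `h50k_hunr` : hence (landed `h62n_monogenic`, `h62n_unr_of_distinct`) `f'(ψ)` is a unit at every
  place centered at `𝔫`.
* `h50k_S_not_mem` : hence `S ∉ 𝔫` in the identity `(ψ - α a) f'(ψ) = ℓ S`
  (`S = h62n_S ℓ a r ψ`): the different `f'(ψ)` is `ℓ` times a unit at `𝔫`.
* `h50k_unit` : the three steps together.
-/

set_option autoImplicit false
set_option linter.unusedVariables false
set_option linter.unusedSectionVars false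

open Polynomial WithZero IsLocalRing

namespace Fermat.Agent.S36

open Fermat.Agent.Red Fermat.Agent.LGC

section Gen

variable {Λ B : Type*} [CommRing Λ] [CommRing B] [Algebra Λ B]

/-- units at `𝔫` are invertible modulo the `𝔫`-component of `𝔰 B`: if `𝔫` is the only maximal
ideal containing `J + P₀` and `g P₀ ⊆ J`, then for `s ∉ 𝔫` there is `s'` with
`g (s s' - 1) ∈ J`. -/
theorem h50k_inv (J 𝔫 P0 : Ideal B)
    (hmax : ∀ 𝔑 : Ideal B, 𝔑.IsMaximal → J ≤ 𝔑 → P0 ≤ 𝔑 → 𝔑 = 𝔫)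
    (g : B) (hgP0 : ∀ p ∈ P0, g * p ∈ J) (s : B) (hs : s ∉ 𝔫) :
    ∃ s' : B, g * (s * s' - 1) ∈ J := by
  -- the ideal `(J : g)`
  let Ig : Ideal B :=
    { carrier := {x | g * x ∈ J}
      zero_mem' := by simp
      add_mem' := by
        intro x y hx hy
        show g * (x + y) ∈ J
        rw [mul_add]
        exact J.add_mem hx hy
      smul_mem' := by
        intro c x hx
        show g * (c * x) ∈ J
        have : g * (c * x) = c * (g * x) := by ring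
        rw [this]
        exact J.mul_mem_left _ hx }
  have hIg : ∀ x, x ∈ Ig ↔ g * x ∈ J := fun _ => Iff.rfl
  by_cases htop : Ideal.span {s} ⊔ Ig = ⊤
  · have h1 : (1 : B) ∈ Ideal.span {s} ⊔ Ig := by rw [htop]; trivial
    obtain ⟨q, hq, j, hj, hsum⟩ := Submodule.mem_sup.mp h1
    obtain ⟨a, rfl⟩ := Ideal.mem_span_singleton'.mp hq
    refine ⟨a, ?_⟩
    have h2 : g * (s * a - 1) = -(g * j) := by
      have : a * s + j = 1 := hsum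
      linear_combination g * this
    rw [h2]
    exact J.neg_mem ((hIg j).mp hj)
  · exfalso
    obtain ⟨𝔑, h𝔑, hle⟩ := Ideal.exists_le_maximal _ htop
    have hJ𝔑 : J ≤ 𝔑 := fun x hx => hle (Ideal.mem_sup_right ((hIg x).mpr (J.mul_mem_left _ hx)))
    have hP𝔑 : P0 ≤ 𝔑 := fun x hx => hle (Ideal.mem_sup_right ((hIg x).mpr (hgP0 x hx)))
    have h𝔑eq := hmax 𝔑 h𝔑 hJ𝔑 hP𝔑
    apply hs
    rw [← h𝔑eq]
    exact hle (Ideal.mem_sup_left (Ideal.subset_span (Set.mem_singleton s)))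

/-- the `𝔫`-component of the fibre is generated by `ψ`: for every `b` there is a polynomial `P`
with `g (b - P(ψ)) ∈ 𝔰 B` (`g = ψ - α a`, a unit at `𝔫` which vanishes on `P∞`). -/
theorem h50k_gen_at (𝔰 : Ideal Λ) (𝔫 P0 : Ideal B)
    (hmax : ∀ 𝔑 : Ideal B, 𝔑.IsMaximal → 𝔰.map (algebraMap Λ B) ≤ 𝔑 → P0 ≤ 𝔑 → 𝔑 = 𝔫)
    (hres : ∀ b : B, ∃ x : Λ, b - algebraMap Λ B x ∈ 𝔫)
    (ψ g : B) (hgP0 : ∀ p ∈ P0, g * p ∈ 𝔰.map (algebraMap Λ B))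
    (t : B) (T : Λ[X]) (ht : t = aeval ψ T)
    (hLP : ∀ b ∈ 𝔫, ∃ s, s ∉ 𝔫 ∧ s * b ∈ Ideal.span {t} ⊔ P0)
    (n₀ : ℕ) (htpow : g * t ^ n₀ ∈ 𝔰.map (algebraMap Λ B)) :
    ∀ b : B, ∃ P : Λ[X], g * (b - aeval ψ P) ∈ 𝔰.map (algebraMap Λ B) := by
  set J : Ideal B := 𝔰.map (algebraMap Λ B) with hJ
  -- `g y ≡ g t b'` for `y ∈ 𝔫`
  have hstep : ∀ y ∈ 𝔫, ∃ b' : B, g * (y - t * b') ∈ J := by
    intro y hy
    obtain ⟨s, hs, hsy⟩ := hLP y hy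
    obtain ⟨s', hs'⟩ := h50k_inv J 𝔫 P0 hmax g hgP0 s hs
    obtain ⟨q, hq, p, hp, hsum⟩ := Submodule.mem_sup.mp hsy
    obtain ⟨b₁, rfl⟩ := Ideal.mem_span_singleton'.mp hq
    refine ⟨s' * b₁, ?_⟩
    have h1 : g * (y - t * (s' * b₁)) = -(g * (s * s' - 1)) * y + s' * (g * p) := by
      have h2 : s * y = b₁ * t + p := hsum.symm
      linear_combination (g * s') * h2
    rw [h1]
    exact J.add_mem (J.mul_mem_right _ (J.neg_mem hs')) (J.mul_mem_left _ (hgP0 p hp))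
  have hind : ∀ n : ℕ, ∀ b : B, ∃ (P : Λ[X]) (bn : B),
      g * (b - aeval ψ P - t ^ n * bn) ∈ J := by
    intro n
    induction n with
    | zero =>
      intro b
      exact ⟨0, b, by simp⟩
    | succ n ih =>
      intro b
      obtain ⟨P, bn, hPb⟩ := ih b
      obtain ⟨x, hx⟩ := hres bn
      obtain ⟨b', hb'⟩ := hstep _ hx
      refine ⟨P + C x * T ^ n, b', ?_⟩
      have h1 : g * (b - aeval ψ (P + C x * T ^ n) - t ^ (n + 1) * b')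
          = g * (b - aeval ψ P - t ^ n * bn)
            + t ^ n * (g * (bn - algebraMap Λ B x - t * b')) := by
        simp only [map_add, map_mul, aeval_C, map_pow, ← ht]
        ring
      rw [h1]
      exact J.add_mem hPb (J.mul_mem_left _ hb')
  intro b
  obtain ⟨P, bn, hPb⟩ := hind n₀ b
  refine ⟨P, ?_⟩
  have h1 : g * (b - aeval ψ P) = g * (b - aeval ψ P - t ^ n₀ * bn) + bn * (g * t ^ n₀) := by
    ring
  rw [h1]
  exact J.add_mem hPb (J.mul_mem_left _ htpow)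

/-- **`B = Λ[ψ] + 𝔰 B`** at a fibre with two points: `𝔫` on `P₀` (with local parameter
`t ∈ Λ[ψ]`) and the point of `P∞` (where `B = α Λ + P∞`), separated by `ψ`. -/
theorem h50k_hgen (𝔰 : Ideal Λ) [h𝔰 : 𝔰.IsMaximal] (𝔫 Pinf P0 : Ideal B)
    (hSFJ : ∀ p ∈ Pinf, ∀ p' ∈ P0, p * p' ∈ 𝔰.map (algebraMap Λ B))
    (hsurjinf : ∀ b : B, ∃ x : Λ, b - algebraMap Λ B x ∈ Pinf)
    (hmax : ∀ 𝔑 : Ideal B, 𝔑.IsMaximal → 𝔰.map (algebraMap Λ B) ≤ 𝔑 → P0 ≤ 𝔑 → 𝔑 = 𝔫)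
    (hres : ∀ b : B, ∃ x : Λ, b - algebraMap Λ B x ∈ 𝔫)
    (ψ : B) (a c : Λ) (ℓ : ℕ)
    (hψ1 : ψ - algebraMap Λ B a ∈ Pinf) (hψ2 : ψ ^ ℓ - algebraMap Λ B c ∈ P0)
    (hδ : a ^ ℓ - c ∉ 𝔰)
    (t : B) (T : Λ[X]) (ht : t = aeval ψ T)
    (hLP : ∀ b ∈ 𝔫, ∃ s, s ∉ 𝔫 ∧ s * b ∈ Ideal.span {t} ⊔ P0)
    (n₀ : ℕ) (htpow : (ψ - algebraMap Λ B a) * t ^ n₀ ∈ 𝔰.map (algebraMap Λ B)) :
    ∀ b : B, ∃ P : Λ[X], (1 : Λ) • b - aeval ψ P ∈ 𝔰.map (algebraMap Λ B) := by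
  classical
  set J : Ideal B := 𝔰.map (algebraMap Λ B) with hJ
  set g : B := ψ - algebraMap Λ B a with hg
  set h : B := ψ ^ ℓ - algebraMap Λ B c with hh
  have hgP0 : ∀ p ∈ P0, g * p ∈ J := fun p hp => hSFJ g hψ1 p hp
  have hgen := h50k_gen_at 𝔰 𝔫 P0 hmax hres ψ g hgP0 t T ht hLP n₀ htpow
  -- `δ` is invertible modulo `𝔰`
  obtain ⟨δ', hδ'⟩ : ∃ δ' : Λ, (a ^ ℓ - c) * δ' - 1 ∈ 𝔰 := by
    obtain ⟨y, i, hi, hyi⟩ := h𝔰.exists_inv hδ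
    refine ⟨y, ?_⟩
    have : (a ^ ℓ - c) * y - 1 = -i := by rw [← hyi]; ring
    rw [this]
    exact 𝔰.neg_mem hi
  -- the geometric sum
  obtain ⟨Q, hQ⟩ : ∃ Q : Λ[X], (X : Λ[X]) ^ ℓ - (C a) ^ ℓ = (X - C a) * Q :=
    sub_dvd_pow_sub_pow (X : Λ[X]) (C a) ℓ
  have hQψ : ψ ^ ℓ - (algebraMap Λ B a) ^ ℓ = g * aeval ψ Q := by
    have := congrArg (aeval ψ) hQ
    simpa [hg] using this
  have hαδ : algebraMap Λ B (a ^ ℓ - c) = h - g * aeval ψ Q := by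
    rw [← hQψ, hh, map_sub, map_pow]; ring
  intro b
  obtain ⟨x, hx⟩ := hsurjinf b
  obtain ⟨P, hP⟩ := hgen b
  refine ⟨C δ' * (X ^ ℓ - C c) * C x - C δ' * Q * ((X - C a) * P), ?_⟩
  have hev : aeval ψ (C δ' * (X ^ ℓ - C c) * C x - C δ' * Q * ((X - C a) * P))
      = algebraMap Λ B δ' * h * algebraMap Λ B x
        - algebraMap Λ B δ' * aeval ψ Q * (g * aeval ψ P) := by
    simp [hh, hg]
  have h1 : (1 : Λ) • b - aeval ψ (C δ' * (X ^ ℓ - C c) * C x - C δ' * Q * ((X - C a) * P))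
      = -(algebraMap Λ B ((a ^ ℓ - c) * δ' - 1)) * b
        + algebraMap Λ B δ' * ((b - algebraMap Λ B x) * h)
        - algebraMap Λ B δ' * aeval ψ Q * (g * (b - aeval ψ P)) := by
    rw [hev, one_smul, map_sub, map_mul, map_one, hαδ]
    ring
  rw [h1]
  refine J.sub_mem (J.add_mem (J.mul_mem_right _ (J.neg_mem (Ideal.mem_map_of_mem _ hδ'))) ?_) ?_
  · exact J.mul_mem_left _ (hSFJ _ hx _ hψ2)
  · exact J.mul_mem_left _ hP

end Gen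

/-- **`f'(ψ)` is a unit at the places centered at `𝔫`**, from `B = Λ[ψ] + 𝔰 B` and a family of
`ℓ + 1` places with sections agreeing on `Λ` (second half of the landed `h62n_hunr`). -/
theorem h50k_hunr
    {A : Type*} [CommRing A] [IsLocalRing A] {F : Type*} [Field F] [Algebra A F]
    {B : Subalgebra A F} {V : Subring F} {ι : Type*} {v : ι → Valuation F ℤᵐ⁰}
    (hC : H26Chart B V v)
    {Λ : Type*} [CommRing Λ] [Algebra Λ B] [Module.Finite Λ B]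
    {K : Type*} [CommRing K] [IsDomain K]
    (𝔫 : Ideal B) [h𝔫 : 𝔫.IsPrime]
    (ℓ : ℕ) (hℓ : ℓ ≠ 0)
    (ψ : B) (a c : Λ) (r : Λ[X]) (hr : r.natDegree ≤ ℓ)
    (hf : aeval ψ (h62n_poly ℓ a c r) = 0)
    (hgen : ∀ b : B, ∃ P : Λ[X],
      (1 : Λ) • b - aeval ψ P ∈ (𝔫.comap (algebraMap Λ B)).map (algebraMap Λ B))
    (hpl : ∀ i, h26Centered B v 𝔫 i →
      ∃ (T : Finset ι) (φ : ι → B →+* K) (φ' : Λ →+* K), i ∈ T ∧ ℓ + 1 ≤ T.card ∧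
        (∀ k ∈ T, ∀ b : B, φ k b = 0 ↔ v k (b : F) < 1) ∧
        (∀ k ∈ T, ∀ x : Λ, φ k (algebraMap Λ B x) = φ' x)) :
    ∀ i, h26Centered B v 𝔫 i → v i ((h62n_z ℓ a c r ψ : B) : F) = 1 := by
  classical
  have : Nontrivial Λ := (algebraMap Λ B).domain_nontrivial
  set 𝔰 : Ideal Λ := 𝔫.comap (algebraMap Λ B) with h𝔰
  have h𝔰p : 𝔰.IsPrime := Ideal.comap_isPrime _ _
  have h1𝔰 : (1 : Λ) ∉ 𝔰 := fun h => h𝔰p.ne_top ((Ideal.eq_top_iff_one _).mpr h)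
  obtain ⟨μ, hμ, hmono⟩ := h62n_monogenic 𝔰 ψ 1 h1𝔰 hgen
  obtain ⟨hmonic, hdeg⟩ := h62n_poly_monic ℓ hℓ a c r hr
  intro i hi
  obtain ⟨T, φ, φ', hiT, hcard, hker, hagree⟩ := hpl i hi
  -- `φ' μ ≠ 0`
  have hμ0 : φ' μ ≠ 0 := by
    intro h0
    have h2 : φ i (algebraMap Λ B μ) = 0 := by rw [hagree i hiT, h0]
    have h3 : algebraMap Λ B μ ∈ 𝔫 := hi _ ((hker i hiT _).mp h2)
    exact hμ h3
  -- evaluation of polynomials
  have hcomp : ∀ k ∈ T, ∀ P : Λ[X], φ k (aeval ψ P) = (P.map φ').eval (φ k ψ) := by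
    intro k hk P
    rw [eval_map, aeval_def, hom_eval₂]
    congr 1
    ext x
    exact hagree k hk x
  -- `ψ` separates the places of `T`
  have hinj : Function.Injective (fun k : {k // k ∈ T} => φ k.1 ψ) := by
    rintro ⟨k, hk⟩ ⟨k', hk'⟩ hkk'
    have hkk : φ k ψ = φ k' ψ := hkk'
    have hall : ∀ b : B, φ k b = φ k' b := by
      intro b
      obtain ⟨P, hP⟩ := hmono b
      have h4 : φ' μ * φ k b = φ' μ * φ k' b := by
        have e1 : φ k (μ • b) = φ' μ * φ k b := by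
          rw [Algebra.smul_def, map_mul, hagree k hk]
        have e2 : φ k' (μ • b) = φ' μ * φ k' b := by
          rw [Algebra.smul_def, map_mul, hagree k' hk']
        rw [← e1, ← e2, hP, hcomp k hk, hcomp k' hk', hkk]
      exact mul_left_cancel₀ hμ0 h4
    have h5 : k = k' := by
      apply hC.hinj
      intro b hb
      rw [← hker k' hk', ← hall b, hker k hk]
      exact hb
    exact Subtype.ext h5
  have hcard' : (h62n_poly ℓ a c r).natDegree ≤ Fintype.card {k // k ∈ T} := by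
    rw [hdeg, Fintype.card_coe]
    exact hcard
  have hne := h62n_unr_of_distinct (h62n_poly ℓ a c r) hmonic ψ hf
    (fun k : {k // k ∈ T} => φ k.1) φ' (fun k x => hagree k.1 k.2 x) hinj hcard' ⟨i, hiT⟩
  have hz : ¬ v i ((h62n_z ℓ a c r ψ : B) : F) < 1 := by
    intro hlt
    exact hne ((hker i hiT _).mpr hlt)
  exact le_antisymm (hC.hB _ (h62n_z ℓ a c r ψ).2 i) (not_lt.mp hz)

/-- **the different is `ℓ` times a unit at a separated point**: in `(ψ - α a) f'(ψ) = ℓ S`,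
`S ∉ 𝔫` as soon as `f'(ψ)` is a unit at the places centered at `𝔫` and `ψ - α a ∉ 𝔫`
(variant of the landed `h62n_node_xy` at a point off `P∞`). -/
theorem h50k_S_not_mem
    {A : Type*} [CommRing A] [IsLocalRing A] {F : Type*} [Field F] [Algebra A F]
    {B : Subalgebra A F} {V : Subring F} {ι : Type*} {v : ι → Valuation F ℤᵐ⁰}
    (hC : H26Chart B V v)
    (Winf W0 : Subring F) (hWV : ∀ x : F, x ∈ Winf → x ∈ W0 → x ∈ V)
    (hBWinf : ∀ b : B, (b : F) ∈ Winf) (hBW0 : ∀ b : B, (b : F) ∈ W0)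
    (𝔫 Pinf P0 : Ideal B) [h𝔫 : 𝔫.IsPrime] [hPinf : Pinf.IsPrime] [hP0 : P0.IsPrime]
    (hWinf : ∀ b : B, b ∉ Pinf → ((b : F))⁻¹ ∈ Winf)
    (hW0 : ∀ b : B, b ∉ P0 → ((b : F))⁻¹ ∈ W0)
    {Λ : Type*} [CommRing Λ] [Algebra Λ B]
    (ℓ : ℕ) (hℓ0 : (ℓ : B) ≠ 0) (hℓPinf : (ℓ : B) ∈ Pinf) (hℓP0 : (ℓ : B) ∈ P0)
    (ψ : B) (a c : Λ) (r : Λ[X]) (hr : r.natDegree ≤ ℓ)
    (hf : aeval ψ (h62n_poly ℓ a c r) = 0)
    (hY1 : ψ - algebraMap Λ B a ∈ Pinf)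
    (hY2 : ψ ^ ℓ - algebraMap Λ B c ∈ P0)
    (hYa : ψ - algebraMap Λ B a ∉ P0)
    (hδinf : algebraMap Λ B (a ^ ℓ - c) ∉ Pinf)
    (hδ0 : algebraMap Λ B (a ^ ℓ - c) ∉ P0)
    (hLI : ∀ g : Λ[X], g.natDegree < ℓ → aeval ψ g ∈ P0 →
      ∀ i, algebraMap Λ B (g.coeff i) ∈ P0)
    (hunr : ∀ i, h26Centered B v 𝔫 i → v i ((h62n_z ℓ a c r ψ : B) : F) = 1)
    (hsep : ψ - algebraMap Λ B a ∉ 𝔫) :
    h62n_S ℓ a r ψ ∉ 𝔫 := by
  classical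
  have : Nontrivial Λ := (algebraMap Λ B).domain_nontrivial
  have hℓne : ℓ ≠ 0 := by
    rintro rfl
    exact hℓ0 (by simp)
  obtain ⟨hSP0, hzP0, hzδ⟩ := h62n_key ℓ hℓne Pinf P0 hℓPinf hℓP0 ψ a c r hr hY1 hY2 hYa
    hδ0 hLI
  have hSz := h62n_mul_z ℓ a c r ψ hf
  set z : B := h62n_z ℓ a c r ψ with hz
  set S : B := h62n_S ℓ a r ψ with hS
  have hzPinf : z ∉ Pinf := by
    intro hmem
    apply hδinf
    have := Pinf.sub_mem hmem hzδ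
    simpa using this
  have hz0 : z ≠ 0 := fun h => hzPinf (h ▸ Pinf.zero_mem)
  have hS0 : S ≠ 0 := fun h => hSP0 (h ▸ P0.zero_mem)
  have hzF : (z : F) ≠ 0 := by
    intro h
    exact hz0 (Subtype.ext (by simpa using h))
  have hSF : (S : F) ≠ 0 := by
    intro h
    exact hS0 (Subtype.ext (by simpa using h))
  -- the element `y = ℓ / z` of `F`
  set y : F := ((ℓ : B) : F) * (z : F)⁻¹ with hy
  have hSzF : ((ψ - algebraMap Λ B a : B) : F) * (z : F) = ((ℓ : B) : F) * (S : F) := by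
    have := congrArg (fun b : B => (b : F)) hSz
    simpa using this
  have hy' : y = ((ψ - algebraMap Λ B a : B) : F) * (S : F)⁻¹ := by
    rw [hy]
    field_simp
    rw [← hSzF]; ring
  have hyWinf : y ∈ Winf := Winf.mul_mem (hBWinf _) (hWinf z hzPinf)
  have hyW0 : y ∈ W0 := by
    rw [hy']
    exact W0.mul_mem (hBW0 _) (hW0 S hSP0)
  have hyV : y ∈ V := hWV y hyWinf hyW0
  -- regular at the centered places
  have hyv : ∀ i, h26Centered B v 𝔫 i → v i y ≤ 1 := by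
    intro i hi
    rw [hy, map_mul, map_inv₀, hunr i hi, inv_one, mul_one]
    exact hC.hB _ (ℓ : B).2 i
  obtain ⟨a₀, ha₀, s, hs, hmem⟩ := h26_stepC hC.hfin hC.hint hC.hB 𝔫 y hyv
  have hsyV : (s : F) * y ∈ V := V.mul_mem (hC.hBV _ s.2) hyV
  have hsyB : (s : F) * y ∈ B := hC.hQEP a₀ ha₀ _ hsyV hmem
  set y₁ : B := ⟨(s : F) * y, hsyB⟩ with hy₁
  have hy₁z : y₁ * z = s * (ℓ : B) := by
    apply Subtype.ext
    show (s : F) * y * (z : F) = (s : F) * ((ℓ : B) : F)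
    rw [hy]
    field_simp
  have hy₁S : y₁ * S = s * (ψ - algebraMap Λ B a) := by
    apply mul_right_cancel₀ hz0
    calc y₁ * S * z = (y₁ * z) * S := by ring
      _ = s * ((ℓ : B) * S) := by rw [hy₁z]; ring
      _ = s * ((ψ - algebraMap Λ B a) * z) := by rw [hSz]
      _ = s * (ψ - algebraMap Λ B a) * z := by ring
  intro hS𝔫
  have h1 : s * (ψ - algebraMap Λ B a) ∈ 𝔫 := by
    rw [← hy₁S]
    exact 𝔫.mul_mem_left _ hS𝔫
  rcases h𝔫.mem_or_mem h1 with h | h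
  · exact hs h
  · exact hsep h

/-- **the different is `ℓ` times a unit at a smooth separated point** (abstract, one point):
monogenicity of the two-point fibre, unramifiedness at the centered places, and the Gauss
rings give `S ∉ 𝔫` in `(ψ - α a) f'(ψ) = ℓ S`. -/
theorem h50k_unit
    {A : Type*} [CommRing A] [IsLocalRing A] {F : Type*} [Field F] [Algebra A F]
    {B : Subalgebra A F} {V : Subring F} {ι : Type*} {v : ι → Valuation F ℤᵐ⁰}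
    (hC : H26Chart B V v)
    (Winf W0 : Subring F) (hWV : ∀ x : F, x ∈ Winf → x ∈ W0 → x ∈ V)
    (hBWinf : ∀ b : B, (b : F) ∈ Winf) (hBW0 : ∀ b : B, (b : F) ∈ W0)
    (𝔫 Pinf P0 : Ideal B) [h𝔫 : 𝔫.IsMaximal] [hPinf : Pinf.IsPrime] [hP0 : P0.IsPrime]
    (hP0𝔫 : P0 ≤ 𝔫)
    (hSF : Pinf ⊓ P0 ≤ (maximalIdeal A).map (algebraMap A B))
    (hWinf : ∀ b : B, b ∉ Pinf → ((b : F))⁻¹ ∈ Winf)
    (hW0 : ∀ b : B, b ∉ P0 → ((b : F))⁻¹ ∈ W0)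
    {Λ : Type*} [CommRing Λ] [Algebra Λ B] [Module.Finite Λ B]
    (hm𝔰 : (maximalIdeal A).map (algebraMap A B)
      ≤ (𝔫.comap (algebraMap Λ B)).map (algebraMap Λ B))
    (ℓ : ℕ) (hℓ : ℓ.Prime) (hℓ0 : (ℓ : B) ≠ 0)
    (hℓm : (ℓ : B) ∈ (maximalIdeal A).map (algebraMap A B))
    (hmPinf : (maximalIdeal A).map (algebraMap A B) ≤ Pinf)
    (hmP0 : (maximalIdeal A).map (algebraMap A B) ≤ P0)
    (ψ : B) (a c : Λ) (r : Λ[X]) (hr : r.natDegree ≤ ℓ)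
    (hf : aeval ψ (h62n_poly ℓ a c r) = 0)
    (hY1 : ψ - algebraMap Λ B a ∈ Pinf)
    (hY2 : ψ ^ ℓ - algebraMap Λ B c ∈ P0)
    (hsep : ψ - algebraMap Λ B a ∉ 𝔫)
    (hδinf : algebraMap Λ B (a ^ ℓ - c) ∉ Pinf)
    (hδ0 : algebraMap Λ B (a ^ ℓ - c) ∉ P0)
    (hLI : ∀ g : Λ[X], g.natDegree < ℓ → aeval ψ g ∈ P0 →
      ∀ i, algebraMap Λ B (g.coeff i) ∈ P0)
    (t : B) (T : Λ[X]) (ht : t = aeval ψ T) (ht𝔫 : t ∈ 𝔫)
    (hLP : ∀ b ∈ 𝔫, ∃ s, s ∉ 𝔫 ∧ s * b ∈ Ideal.span {t} ⊔ P0)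
    (hmax : ∀ 𝔑 : Ideal B, 𝔑.IsMaximal →
      (𝔫.comap (algebraMap Λ B)).map (algebraMap Λ B) ≤ 𝔑 → P0 ≤ 𝔑 → 𝔑 = 𝔫)
    (hres : ∀ b : B, ∃ x : Λ, b - algebraMap Λ B x ∈ 𝔫)
    (hsurjinf : ∀ b : B, ∃ x : Λ, b - algebraMap Λ B x ∈ Pinf)
    (n₀ : ℕ) (htpow : (ψ - algebraMap Λ B a) * t ^ n₀
      ∈ (𝔫.comap (algebraMap Λ B)).map (algebraMap Λ B))
    {K : Type*} [CommRing K] [IsDomain K]
    (hpl : ∀ i, h26Centered B v 𝔫 i →
      ∃ (T : Finset ι) (φ : ι → B →+* K) (φ' : Λ →+* K), i ∈ T ∧ ℓ + 1 ≤ T.card ∧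
        (∀ k ∈ T, ∀ b : B, φ k b = 0 ↔ v k (b : F) < 1) ∧
        (∀ k ∈ T, ∀ x : Λ, φ k (algebraMap Λ B x) = φ' x)) :
    h62n_S ℓ a r ψ ∉ 𝔫 := by
  classical
  have h𝔫p : 𝔫.IsPrime := h𝔫.isPrime
  set 𝔰 : Ideal Λ := 𝔫.comap (algebraMap Λ B) with h𝔰
  set J : Ideal B := 𝔰.map (algebraMap Λ B) with hJ
  have hℓPinf : (ℓ : B) ∈ Pinf := hmPinf hℓm
  have hℓP0 : (ℓ : B) ∈ P0 := hmP0 hℓm
  have hℓ𝔫 : (ℓ : B) ∈ 𝔫 := hP0𝔫 hℓP0
  -- `𝔰` is maximal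
  have h𝔰max : 𝔰.IsMaximal := by
    rw [Ideal.isMaximal_iff]
    refine ⟨fun h => ?_, fun I x hle hx hxI => ?_⟩
    · rw [h𝔰, Ideal.mem_comap, map_one] at h
      exact h𝔫.ne_top ((Ideal.eq_top_iff_one _).mpr h)
    · have hφx : algebraMap Λ B x ∉ 𝔫 := fun h => hx (Ideal.mem_comap.mpr h)
      obtain ⟨b, c', hc', hbc⟩ := h𝔫.exists_inv hφx
      obtain ⟨y, hy⟩ := hres b
      have h1 : 1 - y * x ∈ 𝔰 := by
        rw [h𝔰, Ideal.mem_comap, map_sub, map_one, map_mul]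
        have h2 : 1 - algebraMap Λ B y * algebraMap Λ B x
            = (b - algebraMap Λ B y) * algebraMap Λ B x + c' := by rw [← hbc]; ring
        rw [h2]
        exact 𝔫.add_mem (𝔫.mul_mem_right _ hy) hc'
      have h3 : (1 : Λ) = (1 - y * x) + y * x := by ring
      rw [h3]
      exact I.add_mem (hle h1) (I.mul_mem_left _ hxI)
  -- `δ = a ^ ℓ - c ∉ 𝔰`
  have hδ : a ^ ℓ - c ∉ 𝔰 := by
    intro h
    have h1 : algebraMap Λ B (a ^ ℓ - c) ∈ 𝔫 := h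
    have h2 : (algebraMap Λ B a) ^ ℓ - ψ ^ ℓ ∈ 𝔫 := by
      have e : (algebraMap Λ B a) ^ ℓ - ψ ^ ℓ
          = algebraMap Λ B (a ^ ℓ - c) - (ψ ^ ℓ - algebraMap Λ B c) := by
        rw [map_sub, map_pow]; ring
      rw [e]
      exact 𝔫.sub_mem h1 (hP0𝔫 hY2)
    -- in `B ⧸ 𝔫` (characteristic `ℓ`): `(α a - ψ) ^ ℓ = (α a) ^ ℓ - ψ ^ ℓ`
    have : Fact ℓ.Prime := ⟨hℓ⟩
    have : Nontrivial (B ⧸ 𝔫) := Ideal.Quotient.nontrivial_iff.mpr h𝔫p.ne_top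
    have : CharP (B ⧸ 𝔫) ℓ := by
      rw [CharP.charP_iff_prime_eq_zero hℓ]
      have := Ideal.Quotient.eq_zero_iff_mem.mpr hℓ𝔫
      simpa using this
    have h3 : (algebraMap Λ B a - ψ) ^ ℓ ∈ 𝔫 := by
      have e1 : Ideal.Quotient.mk 𝔫 ((algebraMap Λ B a - ψ) ^ ℓ)
          = Ideal.Quotient.mk 𝔫 ((algebraMap Λ B a) ^ ℓ - ψ ^ ℓ) := by
        rw [map_pow, map_sub, map_sub, map_pow, map_pow]
        exact sub_pow_char _ _
      rw [← Ideal.Quotient.eq_zero_iff_mem, e1, Ideal.Quotient.eq_zero_iff_mem]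
      exact h2
    have h4 : algebraMap Λ B a - ψ ∈ 𝔫 := h𝔫p.mem_of_pow_mem _ h3
    apply hsep
    have := 𝔫.neg_mem h4
    simpa using this
  have hSFJ : ∀ p ∈ Pinf, ∀ p' ∈ P0, p * p' ∈ J := fun p hp p' hp' =>
    hm𝔰 (hSF ⟨Pinf.mul_mem_right _ hp, P0.mul_mem_left _ hp'⟩)
  have hgen := h50k_hgen 𝔰 𝔫 Pinf P0 hSFJ hsurjinf hmax hres ψ a c ℓ hY1 hY2 hδ t T ht hLP
    n₀ htpow
  have hunr := h50k_hunr hC (K := K) 𝔫 ℓ hℓ.ne_zero ψ a c r hr hf hgen hpl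
  have hYa : ψ - algebraMap Λ B a ∉ P0 := fun h => hsep (hP0𝔫 h)
  exact h50k_S_not_mem hC Winf W0 hWV hBWinf hBW0 𝔫 Pinf P0 hWinf hW0 ℓ hℓ0 hℓPinf hℓP0
    ψ a c r hr hf hY1 hY2 hYa hδinf hδ0 hLI hunr hsep

end Fermat.Agent.S36
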