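import Mathlib
import Fermat.Agent.S36.H50Kappa

/-!
# S36, block REG, row R-ORD (helper50): the different at the smooth points of `C₀`, local form

Smooth companion of `h67u_local_unit` (`S36/H67Unit.lean`), same hypotheses (those of the landed
`h62l_local`, `LGC/H62TwoComp.lean`), with `hpl` at the points of `P₀`.

`h50k_local_unit` : at every maximal ideal `𝔫 ⊇ P₀` of the chart `B` of level `M ℓ`, for every
rational `u ∈ R` and constant `c₀ ∈ A` such that `u - c₀` is a local parameter of the special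
fibre of `Λ` at `β⁻¹ 𝔫` and `β u - (α u) ^ ℓ ∉ 𝔫` (the point is off `P∞` and `β u` separates it
from the point of `P∞` over `α⁻¹ 𝔫`: `u(β⁻¹ 𝔫) ∉ 𝔽_{ℓ²}`), and every Kronecker remainder `r`
(`f = (T - (α u) ^ ℓ)(T ^ ℓ - α u) + ℓ r`, `f(β u) = 0`):

  `S = - r(β u) + (β u - (α u) ^ ℓ)² (β u) ^ (ℓ - 1) + (β u - (α u) ^ ℓ) r'(β u) ∉ 𝔫`,

where `(β u - (α u) ^ ℓ) f'(β u) = ℓ S` (`h50k_mul_z`).  So `f'(β u) = ℓ * unit` at `𝔫`.
-/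

set_option autoImplicit false
set_option linter.style.haveILetI false
set_option linter.unusedVariables false
set_option linter.unusedSectionVars false

open Polynomial WithZero IsLocalRing

namespace Fermat.Agent.S36

open Fermat.Agent.Red Fermat.Agent.LGC

/-- the formal identity `(Y - a) f'(Y) = ℓ S` in `eval₂` form. -/
theorem h50k_mul_z {Λ B : Type*} [CommRing Λ] [CommRing B] (α : Λ →+* B) (ℓ : ℕ) (a c : Λ)
    (r : Λ[X]) (Y : B) (hf : (h62n_poly ℓ a c r).eval₂ α Y = 0) :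
    (Y - α a) * (derivative (h62n_poly ℓ a c r)).eval₂ α Y
      = (ℓ : B) * (-(r.eval₂ α Y) + (Y - α a) ^ 2 * Y ^ (ℓ - 1)
          + (Y - α a) * (derivative r).eval₂ α Y) := by
  letI : Algebra Λ B := α.toAlgebra
  have h := h62n_mul_z ℓ a c r Y (by rw [Polynomial.aeval_def]; exact hf)
  unfold h62n_z h62n_S at h
  simp only [Polynomial.aeval_def] at h
  exact h

/-- linear independence modulo `P₀` is invariant under translation of the coordinate by an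
element of `Λ`. -/
theorem h50k_shift_LI {Λ B : Type*} [CommRing Λ] [CommRing B] [Algebra Λ B] (ℓ : ℕ)
    (𝔪 : Ideal Λ) (P0 : Ideal B)
    (hαP0 : ∀ x : Λ, algebraMap Λ B x ∈ P0 → x ∈ 𝔪)
    (h𝔪P0 : ∀ x ∈ 𝔪, algebraMap Λ B x ∈ P0)
    (Y : B) (c : Λ)
    (hLI : ∀ g : Λ[X], g.natDegree < ℓ → aeval (Y - algebraMap Λ B c) g ∈ P0 →
      ∀ i, algebraMap Λ B (g.coeff i) ∈ P0) :
    ∀ g : Λ[X], g.natDegree < ℓ → aeval Y g ∈ P0 →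
      ∀ i, algebraMap Λ B (g.coeff i) ∈ P0 := by
  intro g hg hgY i
  set g₁ : Λ[X] := g.comp (X + C c) with hg₁
  have hdeg : g₁.natDegree < ℓ := by
    refine lt_of_le_of_lt ?_ hg
    refine (natDegree_comp_le).trans ?_
    have h1 : (X + C c : Λ[X]).natDegree ≤ 1 := by
      rw [natDegree_add_C]
      exact natDegree_X_le
    calc g.natDegree * (X + C c : Λ[X]).natDegree ≤ g.natDegree * 1 :=
          Nat.mul_le_mul_left _ h1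
      _ = g.natDegree := mul_one _
  have hev : aeval (Y - algebraMap Λ B c) g₁ = aeval Y g := by
    rw [hg₁, aeval_comp]
    congr 1
    simp
  have h1 := hLI g₁ hdeg (by rw [hev]; exact hgY)
  have h2 : ∀ j, g₁.coeff j ∈ 𝔪 := fun j => hαP0 _ (h1 j)
  have h3 : g₁.map (Ideal.Quotient.mk 𝔪) = 0 := by
    ext j
    rw [coeff_map, coeff_zero]
    exact Ideal.Quotient.eq_zero_iff_mem.mpr (h2 j)
  have h4 : g = g₁.comp (X - C c) := by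
    rw [hg₁, comp_assoc]
    simp
  have h5 : g.map (Ideal.Quotient.mk 𝔪) = 0 := by
    rw [h4, map_comp, h3, zero_comp]
  have h6 : g.coeff i ∈ 𝔪 := by
    have := congrArg (fun p => p.coeff i) h5
    simp only [coeff_map, coeff_zero] at this
    exact Ideal.Quotient.eq_zero_iff_mem.mp this
  exact h𝔪P0 _ h6

/-- **The different is `ℓ` times a unit at the separated smooth points of `C₀`** (abstract
two-component chart; the hypotheses are those of the landed `h62l_local`, with `hpl` at the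
points of `P₀`). -/
theorem h50k_local_unit
    {A : Type*} [CommRing A] [IsLocalRing A] {F : Type*} [Field F] [Algebra A F]
    {B : Subalgebra A F} {V : Subring F} {ι : Type*} {v : ι → Valuation F ℤᵐ⁰}
    (hC : H26Chart B V v)
    (Winf W0 : Subring F) (hWV : ∀ x : F, x ∈ Winf → x ∈ W0 → x ∈ V)
    (hBWinf : ∀ b : B, (b : F) ∈ Winf) (hBW0 : ∀ b : B, (b : F) ∈ W0)
    (Pinf P0 : Ideal B) [hPinf : Pinf.IsPrime] [hP0 : P0.IsPrime]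
    (hSF : Pinf ⊓ P0 ≤ (maximalIdeal A).map (algebraMap A B))
    (hmPinf : (maximalIdeal A).map (algebraMap A B) ≤ Pinf)
    (hmP0 : (maximalIdeal A).map (algebraMap A B) ≤ P0)
    (hWinf : ∀ b : B, b ∉ Pinf → ((b : F))⁻¹ ∈ Winf)
    (hW0 : ∀ b : B, b ∉ P0 → ((b : F))⁻¹ ∈ W0)
    {Λ : Type*} [CommRing Λ] [Algebra A Λ] (α β : Λ →ₐ[A] B)
    (hfin : (α : Λ →+* B).Finite)
    [hded : IsDedekindDomain (Λ ⧸ (maximalIdeal A).map (algebraMap A Λ))]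
    (hnf : ¬ IsField (Λ ⧸ (maximalIdeal A).map (algebraMap A Λ)))
    (hres : ∀ 𝔰 : Ideal Λ, 𝔰.IsMaximal → (maximalIdeal A).map (algebraMap A Λ) ≤ 𝔰 →
      ∀ x : Λ, ∃ a : A, x - algebraMap A Λ a ∈ 𝔰)
    (hαPinf : ∀ x : Λ, α x ∈ Pinf → x ∈ (maximalIdeal A).map (algebraMap A Λ))
    (hαP0 : ∀ x : Λ, α x ∈ P0 → x ∈ (maximalIdeal A).map (algebraMap A Λ))
    (hβP0 : ∀ x : Λ, β x ∈ P0 → x ∈ (maximalIdeal A).map (algebraMap A Λ))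
    (hsurjinf : ∀ b : B, ∃ x : Λ, b - α x ∈ Pinf)
    (hsurj0 : ∀ b : B, ∃ x : Λ, b - β x ∈ P0)
    (R : Subring Λ) (hRspan : ∀ x : Λ, x ∈ Submodule.span A (R : Set Λ))
    (ℓ : ℕ) (hℓ : ℓ.Prime) (hℓA : (ℓ : A) ∈ maximalIdeal A) (hℓ0 : (ℓ : B) ≠ 0)
    (hRα : ∀ u ∈ R, β u - (α u) ^ ℓ ∈ Pinf)
    (hRβ : ∀ u ∈ R, α u - (β u) ^ ℓ ∈ P0)
    (hperf : ∀ a : A, ∃ a' : A, a - a' ^ ℓ ∈ maximalIdeal A)
    {K : Type*} [CommRing K] [IsDomain K]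
    (hpl : ∀ 𝔫 : Ideal B, 𝔫.IsMaximal → P0 ≤ 𝔫 → ∀ i, h26Centered B v 𝔫 i →
      ∃ (T : Finset ι) (φ : ι → B →+* K) (φ' : Λ →+* K), i ∈ T ∧ ℓ + 1 ≤ T.card ∧
        (∀ k ∈ T, ∀ b : B, φ k b = 0 ↔ v k (b : F) < 1) ∧
        (∀ k ∈ T, ∀ x : Λ, φ k (α x) = φ' x)) :
    ∀ 𝔫 : Ideal B, 𝔫.IsMaximal → P0 ≤ 𝔫 →
      ∀ u ∈ R, ∀ c₀ : A,
        h62l_LP ((maximalIdeal A).map (algebraMap A Λ)) (𝔫.comap (β : Λ →+* B))
          (u - algebraMap A Λ c₀) →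
        β u - α u ^ ℓ ∉ 𝔫 →
        ∀ r : Λ[X], r.natDegree ≤ ℓ →
          (h62n_poly ℓ (u ^ ℓ) u r).eval₂ (α : Λ →+* B) (β u) = 0 →
          -(r.eval₂ (α : Λ →+* B) (β u)) + (β u - α (u ^ ℓ)) ^ 2 * β u ^ (ℓ - 1)
            + (β u - α (u ^ ℓ)) * (derivative r).eval₂ (α : Λ →+* B) (β u) ∉ 𝔫 := by
  classical
  intro 𝔫 h𝔫 hP0𝔫 u huR c₀ hLPu hsep r hr hf
  have hm𝔫 : (maximalIdeal A).map (algebraMap A B) ≤ 𝔫 := le_trans hmP0 hP0𝔫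
  haveI h𝔫p : 𝔫.IsPrime := h𝔫.isPrime
  set 𝔪 : Ideal Λ := (maximalIdeal A).map (algebraMap A Λ) with h𝔪def
  haveI h𝔪prime : 𝔪.IsPrime := (Ideal.Quotient.isDomain_iff_prime 𝔪).mp inferInstance
  have hne_of_max : ∀ 𝔰 : Ideal Λ, 𝔰.IsMaximal → 𝔪 ≤ 𝔰 → ¬ 𝔰 ≤ 𝔪 := by
    intro 𝔰 h𝔰 hle hle'
    have h1 : 𝔪 = 𝔰 := le_antisymm hle hle'
    apply hnf
    have h2 : 𝔪.IsMaximal := h1 ▸ h𝔰
    exact (Ideal.Quotient.maximal_ideal_iff_isField_quotient 𝔪).mp h2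
  have hcomap𝔪 : ∀ φ : Λ →ₐ[A] B, 𝔪 ≤ 𝔫.comap (φ : Λ →+* B) := fun φ x hx =>
    Ideal.mem_comap.mpr (hm𝔫 (h62l_map_mem _ φ hx))
  have h𝔰'max : (𝔫.comap (β : Λ →+* B)).IsMaximal :=
    h62l_comap_isMaximal (β : Λ →+* B) 𝔫 P0 hP0𝔫 hsurj0
  haveI h𝔰'p : (𝔫.comap (β : Λ →+* B)).IsPrime := h𝔰'max.isPrime
  have h𝔪A : ∀ a ∈ maximalIdeal A, algebraMap A Λ a ∈ 𝔪 := fun a ha =>
    Ideal.mem_map_of_mem _ ha
  set u₁ : Λ := u - algebraMap A Λ c₀ with hu₁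
  have husq' := h62l_not_mem_sq_of_LP 𝔪 (𝔫.comap (β : Λ →+* B)) (hcomap𝔪 β)
    (hne_of_max _ h𝔰'max (hcomap𝔪 β)) hLPu
  have hβu₁𝔫 : β u₁ ∈ 𝔫 := hLPu.1
  have hℓm : (ℓ : B) ∈ (maximalIdeal A).map (algebraMap A B) := by
    have h1 : (ℓ : B) = algebraMap A B (ℓ : A) := (map_natCast (algebraMap A B) ℓ).symm
    rw [h1]
    exact Ideal.mem_map_of_mem _ hℓA
  have hℓP0 : (ℓ : B) ∈ P0 := hmP0 hℓm
  have hfrob := h62l_frob α β P0 hmP0 R hRspan ℓ hℓ hℓP0 hRβ hperf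
  have hfrob' := h62l_frob' α β P0 R hRspan ℓ hℓ hℓP0 hRβ
  -- `(β u ^ ℓ) ^ ℓ - α u ^ ℓ ∈ P₀`
  have hpowP0 : (β u ^ ℓ) ^ ℓ - α u ^ ℓ ∈ P0 := by
    obtain ⟨d, hd⟩ := sub_dvd_pow_sub_pow (β u ^ ℓ) (α u) ℓ
    rw [hd]
    have h1 : β u ^ ℓ - α u = -(α u - β u ^ ℓ) := by ring
    rw [h1]
    exact P0.mul_mem_right _ (P0.neg_mem (hRβ u huR))
  -- `u ^ (ℓ²) - u ∉ 𝔪`
  have hδ : (u ^ ℓ) ^ ℓ - u ∉ 𝔪 := by
    intro h
    apply hsep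
    have h2 : β ((u ^ ℓ) ^ ℓ - u) ∈ 𝔫 := hcomap𝔪 β h
    rw [map_sub, map_pow, map_pow] at h2
    have h3 : β u - α u ^ ℓ = -((β u ^ ℓ) ^ ℓ - β u) + ((β u ^ ℓ) ^ ℓ - α u ^ ℓ) := by ring
    rw [h3]
    exact 𝔫.add_mem (𝔫.neg_mem h2) (hP0𝔫 hpowP0)
  letI : Algebra Λ B := (α : Λ →+* B).toAlgebra
  haveI : Module.Finite Λ B := hfin
  have halg : ∀ x : Λ, algebraMap Λ B x = α x := fun _ => rfl
  have hm𝔰 : (maximalIdeal A).map (algebraMap A B)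
      ≤ (𝔫.comap (algebraMap Λ B)).map (algebraMap Λ B) := by
    rw [Ideal.map_le_iff_le_comap]
    intro a ha
    rw [Ideal.mem_comap]
    have h1 : algebraMap A B a = algebraMap Λ B (algebraMap A Λ a) := by
      rw [halg, AlgHom.commutes]
    rw [h1]
    refine Ideal.mem_map_of_mem _ ?_
    exact hcomap𝔪 α (h𝔪A a ha)
  set J : Ideal B := (𝔫.comap (algebraMap Λ B)).map (algebraMap Λ B) with hJ
  have hf' : aeval (β u) (h62n_poly ℓ (u ^ ℓ) u r) = 0 := by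
    rw [Polynomial.aeval_def]
    exact hf
  have hY1 : β u - algebraMap Λ B (u ^ ℓ) ∈ Pinf := by
    rw [halg, map_pow]
    exact hRα u huR
  have hY2 : β u ^ ℓ - algebraMap Λ B u ∈ P0 := by
    rw [halg]
    have h1 : β u ^ ℓ - α u = -(α u - β u ^ ℓ) := by ring
    rw [h1]
    exact P0.neg_mem (hRβ u huR)
  have hsep' : β u - algebraMap Λ B (u ^ ℓ) ∉ 𝔫 := by
    rw [halg, map_pow]
    exact hsep
  have hδinf : algebraMap Λ B ((u ^ ℓ) ^ ℓ - u) ∉ Pinf := fun h => hδ (hαPinf _ h)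
  have hδ0 : algebraMap Λ B ((u ^ ℓ) ^ ℓ - u) ∉ P0 := fun h => hδ (hαP0 _ h)
  -- the constant `c₀` in `B`
  have hc₀ : algebraMap Λ B (algebraMap A Λ c₀) = β (algebraMap A Λ c₀) := by
    rw [halg, AlgHom.commutes, AlgHom.commutes]
  have hβu₁ : β u₁ = β u - algebraMap Λ B (algebraMap A Λ c₀) := by
    rw [hu₁, map_sub, hc₀]
  -- linear independence for the shifted coordinate `β u₁`
  have hLI₁ : ∀ g : Λ[X], g.natDegree < ℓ → aeval (β u₁) g ∈ P0 →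
      ∀ i, algebraMap Λ B (g.coeff i) ∈ P0 := by
    intro g hg hgP0 i
    choose g' hg' using fun i => hfrob (g.coeff i)
    have h1 : β (∑ i ∈ Finset.range ℓ, g' i ^ ℓ * u₁ ^ i) ∈ P0 := by
      rw [Polynomial.aeval_eq_sum_range' hg] at hgP0
      have h2 : β (∑ i ∈ Finset.range ℓ, g' i ^ ℓ * u₁ ^ i)
          = ∑ i ∈ Finset.range ℓ, g.coeff i • β u₁ ^ i
            - ∑ i ∈ Finset.range ℓ, (α (g.coeff i) - β (g' i) ^ ℓ) * β u₁ ^ i := by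
        rw [map_sum, ← Finset.sum_sub_distrib]
        apply Finset.sum_congr rfl
        intro k _
        rw [map_mul, map_pow, map_pow, Algebra.smul_def, halg]
        ring
      rw [h2]
      refine P0.sub_mem hgP0 (P0.sum_mem fun k _ => P0.mul_mem_right _ (hg' k))
    have h3 := h62l_LI_of_dedekind 𝔪 (𝔫.comap (β : Λ →+* B)) (hcomap𝔪 β)
      (hne_of_max _ h𝔰'max (hcomap𝔪 β)) u₁ hLPu.1 husq' ℓ g' (hβP0 _ h1)
    by_cases hi : i < ℓ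
    · have h4 : β (g' i) ^ ℓ ∈ P0 :=
        P0.pow_mem_of_mem (hmP0 (h62l_map_mem _ β (h3 i hi))) ℓ hℓ.pos
      have h5 : algebraMap Λ B (g.coeff i) = (α (g.coeff i) - β (g' i) ^ ℓ) + β (g' i) ^ ℓ := by
        rw [halg]; ring
      rw [h5]
      exact P0.add_mem (hg' i) h4
    · have h4 : g.coeff i = 0 :=
        Polynomial.coeff_eq_zero_of_natDegree_lt (lt_of_lt_of_le hg (not_lt.mp hi))
      rw [h4, map_zero]
      exact P0.zero_mem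
  have hLI : ∀ g : Λ[X], g.natDegree < ℓ → aeval (β u) g ∈ P0 →
      ∀ i, algebraMap Λ B (g.coeff i) ∈ P0 := by
    refine h50k_shift_LI ℓ 𝔪 P0 (fun x hx => hαP0 x hx)
      (fun x hx => hmP0 (h62l_map_mem _ α hx)) (β u) (algebraMap A Λ c₀) ?_
    rw [← hβu₁]
    exact hLI₁
  -- the local parameter
  have hLP0 : ∀ b ∈ 𝔫, ∃ s, s ∉ 𝔫 ∧ s * b ∈ Ideal.span {β u₁} ⊔ P0 :=
    h62l_LP_transport (maximalIdeal A) β 𝔫 P0 hmP0 hP0𝔫 hsurj0 u₁ hLPu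
  have ht : β u₁ = aeval (β u) (X - C (algebraMap A Λ c₀) : Λ[X]) := by
    rw [hβu₁]
    simp
  -- uniqueness of the point of `P₀` over `𝔰`
  have hmax : ∀ 𝔑 : Ideal B, 𝔑.IsMaximal → J ≤ 𝔑 → P0 ≤ 𝔑 → 𝔑 = 𝔫 := by
    intro 𝔑 h𝔑 hJ𝔑 hP𝔑
    have h𝔑p : 𝔑.IsPrime := h𝔑.isPrime
    have hle : 𝔫 ≤ 𝔑 := by
      intro b hb
      obtain ⟨y, hy⟩ := hsurj0 b
      have hβy : β y ∈ 𝔫 := by
        have h1 : β y = b - (b - β y) := by ring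
        rw [h1]
        exact 𝔫.sub_mem hb (hP0𝔫 hy)
      obtain ⟨x, hx⟩ := hfrob' y
      have hαx : α x ∈ 𝔫 := by
        have h1 : α x = (α x - β y ^ ℓ) + β y ^ ℓ := by ring
        rw [h1]
        exact 𝔫.add_mem (hP0𝔫 hx) (𝔫.pow_mem_of_mem hβy ℓ hℓ.pos)
      have hαxJ : α x ∈ J := Ideal.mem_map_of_mem _ (Ideal.mem_comap.mpr hαx)
      have hpow : β y ^ ℓ ∈ 𝔑 := by
        have h1 : β y ^ ℓ = α x - (α x - β y ^ ℓ) := by ring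
        rw [h1]
        exact 𝔑.sub_mem (hJ𝔑 hαxJ) (hP𝔑 hx)
      have hβy𝔑 : β y ∈ 𝔑 := h𝔑p.mem_of_pow_mem _ hpow
      have h2 : b = β y + (b - β y) := by ring
      rw [h2]
      exact 𝔑.add_mem hβy𝔑 (hP𝔑 hy)
    exact (h𝔫.eq_of_le h𝔑.ne_top hle).symm
  -- residue field
  have hresB : ∀ b : B, ∃ x : Λ, b - algebraMap Λ B x ∈ 𝔫 := by
    intro b
    obtain ⟨y, hy⟩ := hsurj0 b
    obtain ⟨a₀, ha₀⟩ := hres _ h𝔰'max (hcomap𝔪 β) y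
    refine ⟨algebraMap A Λ a₀, ?_⟩
    have h1 : β (y - algebraMap A Λ a₀) ∈ 𝔫 := ha₀
    have h2 : algebraMap Λ B (algebraMap A Λ a₀) = β (algebraMap A Λ a₀) := by
      rw [halg, AlgHom.commutes, AlgHom.commutes]
    have h3 : b - algebraMap Λ B (algebraMap A Λ a₀)
        = (b - β y) + β (y - algebraMap A Λ a₀) := by
      rw [h2, map_sub]; ring
    rw [h3]
    exact 𝔫.add_mem (hP0𝔫 hy) h1
  -- `g t ^ ℓ ∈ J`
  have hSFJ : ∀ p ∈ Pinf, ∀ p' ∈ P0, p * p' ∈ J := fun p hp p' hp' =>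
    hm𝔰 (hSF ⟨Pinf.mul_mem_right _ hp, P0.mul_mem_left _ hp'⟩)
  have htpow : (β u - algebraMap Λ B (u ^ ℓ)) * β u₁ ^ ℓ ∈ J := by
    obtain ⟨x, hx⟩ := hfrob' u₁
    have hαx : α x ∈ 𝔫 := by
      have h1 : α x = (α x - β u₁ ^ ℓ) + β u₁ ^ ℓ := by ring
      rw [h1]
      exact 𝔫.add_mem (hP0𝔫 hx) (𝔫.pow_mem_of_mem hβu₁𝔫 ℓ hℓ.pos)
    have hαxJ : α x ∈ J := Ideal.mem_map_of_mem _ (Ideal.mem_comap.mpr hαx)
    have h1 : (β u - algebraMap Λ B (u ^ ℓ)) * β u₁ ^ ℓ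
        = (β u - algebraMap Λ B (u ^ ℓ)) * α x
          - (β u - algebraMap Λ B (u ^ ℓ)) * (α x - β u₁ ^ ℓ) := by ring
    rw [h1]
    exact J.sub_mem (J.mul_mem_left _ hαxJ) (hSFJ _ hY1 _ hx)
  have hunit := h50k_unit hC Winf W0 hWV hBWinf hBW0 𝔫 Pinf P0 hP0𝔫 hSF hWinf hW0 hm𝔰
    ℓ hℓ hℓ0 hℓm hmPinf hmP0 (β u) (u ^ ℓ) u r hr hf' hY1 hY2 hsep' hδinf hδ0 hLI
    (β u₁) (X - C (algebraMap A Λ c₀)) ht hβu₁𝔫 hLP0 hmax hresB hsurjinf ℓ htpow (K := K)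
    (hpl 𝔫 h𝔫 hP0𝔫)
  unfold h62n_S at hunit
  rw [Polynomial.aeval_def, Polynomial.aeval_def] at hunit
  exact hunit

end Fermat.Agent.S36
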