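import Mathlib
import Fermat.Agent.S36.H50KappaLoc
import Fermat.Agent.S36.H2Kron

/-!
# S36, block REG, row R-ORD (helper50): the different in a general coordinate, local form

General-coordinate version of `h50k_local_unit` (`S36/H50KappaLoc.lean`): the coordinate `β u` of
the level `M ℓ` is replaced by `ψ = β u + ε`, `ε ∈ P₀`, which separates the closed point
`𝔫 ⊇ P₀` from the point of `P∞` over `α⁻¹ 𝔫` (this is possible at every smooth point of `C₀`,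
also at the exceptional ones, where no function `β u` separates).

* `h50e_LI` : linear independence of `1, β u, …, (β u) ^ (ℓ - 1)` over `α Λ` modulo `P₀`.
* `h50e_unique` : the point of `P₀` over `α⁻¹ 𝔫` is unique.
* `h50e_delta` : `a ^ ℓ - u ∉ 𝔪 Λ` for every `a`, if `u - c₀` is a local parameter somewhere.
* `h50e_local_unit` : for `ψ = β u + ε`, `ε ∈ P₀`, `ψ ≡ α a` modulo `P∞`, `ψ - α a ∉ 𝔫`,
  `f = (T - a)(T ^ ℓ - u) + ℓ r`, `f(ψ) = 0`: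
  `S = - r(ψ) + (ψ - α a)² ψ ^ (ℓ - 1) + (ψ - α a) r'(ψ) ∉ 𝔫`,
  where `(ψ - α a) f'(ψ) = ℓ S` (`h50k_mul_z`).
-/

set_option autoImplicit false
set_option linter.style.haveILetI false
set_option linter.unusedVariables false
set_option linter.unusedSectionVars false

open Polynomial WithZero IsLocalRing

namespace Fermat.Agent.S36

open Fermat.Agent.Red Fermat.Agent.LGC

section Aux

variable {A : Type*} [CommRing A] [IsLocalRing A] {B : Type*} [CommRing B] [Algebra A B]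
  {Λ : Type*} [CommRing Λ] [Algebra A Λ] (α β : Λ →ₐ[A] B)

/-- **the point of `P₀` over `α⁻¹ 𝔫` is unique.** -/
theorem h50e_unique (P0 : Ideal B) [hP0 : P0.IsPrime]
    (hsurj0 : ∀ b : B, ∃ x : Λ, b - β x ∈ P0)
    (R : Subring Λ) (hRspan : ∀ x : Λ, x ∈ Submodule.span A (R : Set Λ))
    (ℓ : ℕ) (hℓ : ℓ.Prime) (hℓP0 : (ℓ : B) ∈ P0)
    (hRβ : ∀ u ∈ R, α u - (β u) ^ ℓ ∈ P0)
    (𝔫 : Ideal B) (h𝔫 : 𝔫.IsMaximal) (hP0𝔫 : P0 ≤ 𝔫)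
    (𝔑 : Ideal B) (h𝔑 : 𝔑.IsMaximal)
    (hJ𝔑 : ∀ x : Λ, α x ∈ 𝔫 → α x ∈ 𝔑) (hP𝔑 : P0 ≤ 𝔑) : 𝔑 = 𝔫 := by
  have hfrob' := h62l_frob' α β P0 R hRspan ℓ hℓ hℓP0 hRβ
  have h𝔑p : 𝔑.IsPrime := h𝔑.isPrime
  have hle : 𝔫 ≤ 𝔑 := by
    intro b hb
    obtain ⟨y, hy⟩ := hsurj0 b
    have hβy : β y ∈ 𝔫 := by
      have h1 : β y = b - (b - β y) := by ring
      rw [h1]
      exact 𝔫.sub_mem hb (hP0𝔫 hy)
    obtain ⟨x, hx⟩ := hfrob' y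
    have hαx : α x ∈ 𝔫 := by
      have h1 : α x = (α x - β y ^ ℓ) + β y ^ ℓ := by ring
      rw [h1]
      exact 𝔫.add_mem (hP0𝔫 hx) (𝔫.pow_mem_of_mem hβy ℓ hℓ.pos)
    have hpow : β y ^ ℓ ∈ 𝔑 := by
      have h1 : β y ^ ℓ = α x - (α x - β y ^ ℓ) := by ring
      rw [h1]
      exact 𝔑.sub_mem (hJ𝔑 x hαx) (hP𝔑 hx)
    have hβy𝔑 : β y ∈ 𝔑 := h𝔑p.mem_of_pow_mem _ hpow
    have h2 : b = β y + (b - β y) := by ring
    rw [h2]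
    exact 𝔑.add_mem hβy𝔑 (hP𝔑 hy)
  exact (h𝔫.eq_of_le h𝔑.ne_top hle).symm

/-- `a ^ ℓ - u ∉ 𝔪 Λ` if `u - c₀` is a local parameter of the special fibre at some closed
point: a local parameter is not an `ℓ`-th power modulo `𝔪`. -/
theorem h50e_delta
    [hded : IsDomain (Λ ⧸ (maximalIdeal A).map (algebraMap A Λ))]
    (ℓ : ℕ) (hℓ : ℓ.Prime) (hℓA : (ℓ : A) ∈ maximalIdeal A)
    (hperf : ∀ a : A, ∃ a' : A, a - a' ^ ℓ ∈ maximalIdeal A)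
    (𝔰 : Ideal Λ) [h𝔰 : 𝔰.IsPrime] (h𝔪𝔰 : (maximalIdeal A).map (algebraMap A Λ) ≤ 𝔰)
    (hne : ¬ 𝔰 ≤ (maximalIdeal A).map (algebraMap A Λ))
    (u : Λ) (c₀ : A)
    (hLP : h62l_LP ((maximalIdeal A).map (algebraMap A Λ)) 𝔰 (u - algebraMap A Λ c₀))
    (a : Λ) : a ^ ℓ - u ∉ (maximalIdeal A).map (algebraMap A Λ) := by
  classical
  set 𝔪 : Ideal Λ := (maximalIdeal A).map (algebraMap A Λ) with h𝔪def
  haveI h𝔪prime : 𝔪.IsPrime := (Ideal.Quotient.isDomain_iff_prime 𝔪).mp inferInstance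
  have husq := h62l_not_mem_sq_of_LP 𝔪 𝔰 h𝔪𝔰 hne hLP
  intro h
  apply husq
  obtain ⟨c', hc'⟩ := hperf c₀
  have hℓ𝔪 : (ℓ : Λ) ∈ 𝔪 := by
    have h1 : (ℓ : Λ) = algebraMap A Λ (ℓ : A) := (map_natCast (algebraMap A Λ) ℓ).symm
    rw [h1]
    exact Ideal.mem_map_of_mem _ hℓA
  have hc𝔪 : algebraMap A Λ c₀ - algebraMap A Λ c' ^ ℓ ∈ 𝔪 := by
    rw [← map_pow, ← map_sub]
    exact Ideal.mem_map_of_mem _ hc'
  -- `(a - c') ^ ℓ ≡ a ^ ℓ - c' ^ ℓ` modulo `ℓ`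
  set v : Λ := a - algebraMap A Λ c' with hv
  have hpow : v ^ ℓ - (a ^ ℓ - algebraMap A Λ c' ^ ℓ) ∈ 𝔪 := by
    haveI : Fact ℓ.Prime := ⟨hℓ⟩
    haveI : Nontrivial (Λ ⧸ 𝔪) := Ideal.Quotient.nontrivial_iff.mpr h𝔪prime.ne_top
    haveI : CharP (Λ ⧸ 𝔪) ℓ := by
      rw [CharP.charP_iff_prime_eq_zero hℓ]
      have := Ideal.Quotient.eq_zero_iff_mem.mpr hℓ𝔪
      simpa using this
    rw [← Ideal.Quotient.eq_zero_iff_mem, map_sub, map_sub, map_pow, map_pow, map_pow, hv,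
      map_sub, sub_pow_char, sub_self]
  -- `u - c₀ ≡ v ^ ℓ`
  have hu : (u - algebraMap A Λ c₀) - v ^ ℓ ∈ 𝔪 := by
    have h1 : (u - algebraMap A Λ c₀) - v ^ ℓ
        = -(a ^ ℓ - u) - (algebraMap A Λ c₀ - algebraMap A Λ c' ^ ℓ)
          - (v ^ ℓ - (a ^ ℓ - algebraMap A Λ c' ^ ℓ)) := by ring
    rw [h1]
    exact 𝔪.sub_mem (𝔪.sub_mem (𝔪.neg_mem h) hc𝔪) hpow
  have hv𝔰 : v ∈ 𝔰 := by
    have h1 : v ^ ℓ ∈ 𝔰 := by
      have h2 : v ^ ℓ = (u - algebraMap A Λ c₀) - ((u - algebraMap A Λ c₀) - v ^ ℓ) := by ring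
      rw [h2]
      exact 𝔰.sub_mem hLP.1 (h𝔪𝔰 hu)
    exact h𝔰.mem_of_pow_mem ℓ h1
  refine ⟨1, (Ideal.ne_top_iff_one 𝔰).mp h𝔰.ne_top, ?_⟩
  rw [one_mul]
  have h2 : u - algebraMap A Λ c₀ = v ^ ℓ + ((u - algebraMap A Λ c₀) - v ^ ℓ) := by ring
  rw [h2]
  refine Submodule.add_mem_sup ?_ hu
  obtain ⟨k, hk⟩ : ∃ k, ℓ = k + 2 := ⟨ℓ - 2, by have := hℓ.two_le; omega⟩
  rw [hk, pow_add, pow_two]
  exact Ideal.mul_mem_left _ _ (Ideal.mul_mem_mul hv𝔰 hv𝔰)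

end Aux

section Main

/-- **linear independence of the powers of `β u` over `α Λ` modulo `P₀`** (for `u - c₀` a local
parameter of the special fibre of `Λ` at `β⁻¹ 𝔫`). -/
theorem h50e_LI
    {A : Type*} [CommRing A] [IsLocalRing A] {B : Type*} [CommRing B] [Algebra A B]
    (P0 : Ideal B) [hP0 : P0.IsPrime]
    (hmP0 : (maximalIdeal A).map (algebraMap A B) ≤ P0)
    {Λ : Type*} [CommRing Λ] [Algebra A Λ] (α β : Λ →ₐ[A] B)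
    [hded : IsDedekindDomain (Λ ⧸ (maximalIdeal A).map (algebraMap A Λ))]
    (hnf : ¬ IsField (Λ ⧸ (maximalIdeal A).map (algebraMap A Λ)))
    (hαP0 : ∀ x : Λ, α x ∈ P0 → x ∈ (maximalIdeal A).map (algebraMap A Λ))
    (hβP0 : ∀ x : Λ, β x ∈ P0 → x ∈ (maximalIdeal A).map (algebraMap A Λ))
    (hsurj0 : ∀ b : B, ∃ x : Λ, b - β x ∈ P0)
    (R : Subring Λ) (hRspan : ∀ x : Λ, x ∈ Submodule.span A (R : Set Λ))
    (ℓ : ℕ) (hℓ : ℓ.Prime) (hℓA : (ℓ : A) ∈ maximalIdeal A)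
    (hRβ : ∀ u ∈ R, α u - (β u) ^ ℓ ∈ P0)
    (hperf : ∀ a : A, ∃ a' : A, a - a' ^ ℓ ∈ maximalIdeal A)
    (𝔫 : Ideal B) (h𝔫 : 𝔫.IsMaximal) (hP0𝔫 : P0 ≤ 𝔫) (u : Λ) (c₀ : A)
    (hLPu : h62l_LP ((maximalIdeal A).map (algebraMap A Λ)) (𝔫.comap (β : Λ →+* B))
      (u - algebraMap A Λ c₀)) :
    ∀ g : Λ[X], g.natDegree < ℓ → g.eval₂ (α : Λ →+* B) (β u) ∈ P0 →
      ∀ i, α (g.coeff i) ∈ P0 := by
  classical
  have hm𝔫 : (maximalIdeal A).map (algebraMap A B) ≤ 𝔫 := le_trans hmP0 hP0𝔫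
  haveI h𝔫p : 𝔫.IsPrime := h𝔫.isPrime
  set 𝔪 : Ideal Λ := (maximalIdeal A).map (algebraMap A Λ) with h𝔪def
  haveI h𝔪prime : 𝔪.IsPrime := (Ideal.Quotient.isDomain_iff_prime 𝔪).mp inferInstance
  have hne_of_max : ∀ 𝔰 : Ideal Λ, 𝔰.IsMaximal → 𝔪 ≤ 𝔰 → ¬ 𝔰 ≤ 𝔪 := by
    intro 𝔰 h𝔰 hle hle'
    have h1 : 𝔪 = 𝔰 := le_antisymm hle hle'
    apply hnf
    have h2 : 𝔪.IsMaximal := h1 ▸ h𝔰
    exact (Ideal.Quotient.maximal_ideal_iff_isField_quotient 𝔪).mp h2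
  have hcomap𝔪 : ∀ φ : Λ →ₐ[A] B, 𝔪 ≤ 𝔫.comap (φ : Λ →+* B) := fun φ x hx =>
    Ideal.mem_comap.mpr (hm𝔫 (h62l_map_mem _ φ hx))
  have h𝔰'max : (𝔫.comap (β : Λ →+* B)).IsMaximal :=
    h62l_comap_isMaximal (β : Λ →+* B) 𝔫 P0 hP0𝔫 hsurj0
  haveI h𝔰'p : (𝔫.comap (β : Λ →+* B)).IsPrime := h𝔰'max.isPrime
  set u₁ : Λ := u - algebraMap A Λ c₀ with hu₁
  have husq' := h62l_not_mem_sq_of_LP 𝔪 (𝔫.comap (β : Λ →+* B)) (hcomap𝔪 β)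
    (hne_of_max _ h𝔰'max (hcomap𝔪 β)) hLPu
  have hℓm : (ℓ : B) ∈ (maximalIdeal A).map (algebraMap A B) := by
    have h1 : (ℓ : B) = algebraMap A B (ℓ : A) := (map_natCast (algebraMap A B) ℓ).symm
    rw [h1]
    exact Ideal.mem_map_of_mem _ hℓA
  have hℓP0 : (ℓ : B) ∈ P0 := hmP0 hℓm
  have hfrob := h62l_frob α β P0 hmP0 R hRspan ℓ hℓ hℓP0 hRβ hperf
  letI : Algebra Λ B := (α : Λ →+* B).toAlgebra
  have halg : ∀ x : Λ, algebraMap Λ B x = α x := fun _ => rfl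
  have hc₀ : algebraMap Λ B (algebraMap A Λ c₀) = β (algebraMap A Λ c₀) := by
    rw [halg, AlgHom.commutes, AlgHom.commutes]
  have hβu₁ : β u₁ = β u - algebraMap Λ B (algebraMap A Λ c₀) := by
    rw [hu₁, map_sub, hc₀]
  have hLI₁ : ∀ g : Λ[X], g.natDegree < ℓ → aeval (β u₁) g ∈ P0 →
      ∀ i, algebraMap Λ B (g.coeff i) ∈ P0 := by
    intro g hg hgP0 i
    choose g' hg' using fun i => hfrob (g.coeff i)
    have h1 : β (∑ i ∈ Finset.range ℓ, g' i ^ ℓ * u₁ ^ i) ∈ P0 := by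
      rw [Polynomial.aeval_eq_sum_range' hg] at hgP0
      have h2 : β (∑ i ∈ Finset.range ℓ, g' i ^ ℓ * u₁ ^ i)
          = ∑ i ∈ Finset.range ℓ, g.coeff i • β u₁ ^ i
            - ∑ i ∈ Finset.range ℓ, (α (g.coeff i) - β (g' i) ^ ℓ) * β u₁ ^ i := by
        rw [map_sum, ← Finset.sum_sub_distrib]
        apply Finset.sum_congr rfl
        intro k _
        rw [map_mul, map_pow, map_pow, Algebra.smul_def, halg]
        ring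
      rw [h2]
      refine P0.sub_mem hgP0 (P0.sum_mem fun k _ => P0.mul_mem_right _ (hg' k))
    have h3 := h62l_LI_of_dedekind 𝔪 (𝔫.comap (β : Λ →+* B)) (hcomap𝔪 β)
      (hne_of_max _ h𝔰'max (hcomap𝔪 β)) u₁ hLPu.1 husq' ℓ g' (hβP0 _ h1)
    by_cases hi : i < ℓ
    · have h4 : β (g' i) ^ ℓ ∈ P0 :=
        P0.pow_mem_of_mem (hmP0 (h62l_map_mem _ β (h3 i hi))) ℓ hℓ.pos
      have h5 : algebraMap Λ B (g.coeff i) = (α (g.coeff i) - β (g' i) ^ ℓ) + β (g' i) ^ ℓ := by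
        rw [halg]; ring
      rw [h5]
      exact P0.add_mem (hg' i) h4
    · have h4 : g.coeff i = 0 :=
        Polynomial.coeff_eq_zero_of_natDegree_lt (lt_of_lt_of_le hg (not_lt.mp hi))
      rw [h4, map_zero]
      exact P0.zero_mem
  have hLI : ∀ g : Λ[X], g.natDegree < ℓ → aeval (β u) g ∈ P0 →
      ∀ i, algebraMap Λ B (g.coeff i) ∈ P0 := by
    refine h50k_shift_LI ℓ 𝔪 P0 (fun x hx => hαP0 x hx)
      (fun x hx => hmP0 (h62l_map_mem _ α hx)) (β u) (algebraMap A Λ c₀) ?_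
    rw [← hβu₁]
    exact hLI₁
  intro g hg hgP0 i
  have := hLI g hg (by rw [Polynomial.aeval_def]; exact hgP0) i
  rw [halg] at this
  exact this

/-- **The different is `ℓ` times a unit at the smooth points of `C₀`, in a general coordinate**
`ψ = β u + ε`, `ε ∈ P₀` (abstract two-component chart; hypotheses of `h50k_local_unit`). -/
theorem h50e_local_unit
    {A : Type*} [CommRing A] [IsLocalRing A] {F : Type*} [Field F] [Algebra A F]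
    {B : Subalgebra A F} {V : Subring F} {ι : Type*} {v : ι → Valuation F ℤᵐ⁰}
    (hC : H26Chart B V v)
    (Winf W0 : Subring F) (hWV : ∀ x : F, x ∈ Winf → x ∈ W0 → x ∈ V)
    (hBWinf : ∀ b : B, (b : F) ∈ Winf) (hBW0 : ∀ b : B, (b : F) ∈ W0)
    (Pinf P0 : Ideal B) [hPinf : Pinf.IsPrime] [hP0 : P0.IsPrime]
    (hSF : Pinf ⊓ P0 ≤ (maximalIdeal A).map (algebraMap A B))
    (hmPinf : (maximalIdeal A).map (algebraMap A B) ≤ Pinf)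
    (hmP0 : (maximalIdeal A).map (algebraMap A B) ≤ P0)
    (hWinf : ∀ b : B, b ∉ Pinf → ((b : F))⁻¹ ∈ Winf)
    (hW0 : ∀ b : B, b ∉ P0 → ((b : F))⁻¹ ∈ W0)
    {Λ : Type*} [CommRing Λ] [Algebra A Λ] (α β : Λ →ₐ[A] B)
    (hfin : (α : Λ →+* B).Finite)
    [hded : IsDedekindDomain (Λ ⧸ (maximalIdeal A).map (algebraMap A Λ))]
    (hnf : ¬ IsField (Λ ⧸ (maximalIdeal A).map (algebraMap A Λ)))
    (hres : ∀ 𝔰 : Ideal Λ, 𝔰.IsMaximal → (maximalIdeal A).map (algebraMap A Λ) ≤ 𝔰 →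
      ∀ x : Λ, ∃ a : A, x - algebraMap A Λ a ∈ 𝔰)
    (hαPinf : ∀ x : Λ, α x ∈ Pinf → x ∈ (maximalIdeal A).map (algebraMap A Λ))
    (hαP0 : ∀ x : Λ, α x ∈ P0 → x ∈ (maximalIdeal A).map (algebraMap A Λ))
    (hβP0 : ∀ x : Λ, β x ∈ P0 → x ∈ (maximalIdeal A).map (algebraMap A Λ))
    (hsurjinf : ∀ b : B, ∃ x : Λ, b - α x ∈ Pinf)
    (hsurj0 : ∀ b : B, ∃ x : Λ, b - β x ∈ P0)
    (R : Subring Λ) (hRspan : ∀ x : Λ, x ∈ Submodule.span A (R : Set Λ))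
    (ℓ : ℕ) (hℓ : ℓ.Prime) (hℓA : (ℓ : A) ∈ maximalIdeal A) (hℓ0 : (ℓ : B) ≠ 0)
    (hRα : ∀ u ∈ R, β u - (α u) ^ ℓ ∈ Pinf)
    (hRβ : ∀ u ∈ R, α u - (β u) ^ ℓ ∈ P0)
    (hperf : ∀ a : A, ∃ a' : A, a - a' ^ ℓ ∈ maximalIdeal A)
    {K : Type*} [CommRing K] [IsDomain K]
    (hpl : ∀ 𝔫 : Ideal B, 𝔫.IsMaximal → P0 ≤ 𝔫 → ∀ i, h26Centered B v 𝔫 i →
      ∃ (T : Finset ι) (φ : ι → B →+* K) (φ' : Λ →+* K), i ∈ T ∧ ℓ + 1 ≤ T.card ∧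
        (∀ k ∈ T, ∀ b : B, φ k b = 0 ↔ v k (b : F) < 1) ∧
        (∀ k ∈ T, ∀ x : Λ, φ k (α x) = φ' x)) :
    ∀ 𝔫 : Ideal B, 𝔫.IsMaximal → P0 ≤ 𝔫 →
      ∀ u ∈ R, ∀ c₀ : A,
        h62l_LP ((maximalIdeal A).map (algebraMap A Λ)) (𝔫.comap (β : Λ →+* B))
          (u - algebraMap A Λ c₀) →
        ∀ ε ∈ P0, ∀ a : Λ, β u + ε - α a ∈ Pinf → β u + ε - α a ∉ 𝔫 →
        ∀ r : Λ[X], r.natDegree ≤ ℓ →
          (h62n_poly ℓ a u r).eval₂ (α : Λ →+* B) (β u + ε) = 0 →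
          -(r.eval₂ (α : Λ →+* B) (β u + ε)) + (β u + ε - α a) ^ 2 * (β u + ε) ^ (ℓ - 1)
            + (β u + ε - α a) * (derivative r).eval₂ (α : Λ →+* B) (β u + ε) ∉ 𝔫 := by
  classical
  intro 𝔫 h𝔫 hP0𝔫 u huR c₀ hLPu ε hε a hY1' hsep r hr hf
  have hm𝔫 : (maximalIdeal A).map (algebraMap A B) ≤ 𝔫 := le_trans hmP0 hP0𝔫
  haveI h𝔫p : 𝔫.IsPrime := h𝔫.isPrime
  set 𝔪 : Ideal Λ := (maximalIdeal A).map (algebraMap A Λ) with h𝔪def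
  haveI h𝔪prime : 𝔪.IsPrime := (Ideal.Quotient.isDomain_iff_prime 𝔪).mp inferInstance
  have hne_of_max : ∀ 𝔰 : Ideal Λ, 𝔰.IsMaximal → 𝔪 ≤ 𝔰 → ¬ 𝔰 ≤ 𝔪 := by
    intro 𝔰 h𝔰 hle hle'
    have h1 : 𝔪 = 𝔰 := le_antisymm hle hle'
    apply hnf
    have h2 : 𝔪.IsMaximal := h1 ▸ h𝔰
    exact (Ideal.Quotient.maximal_ideal_iff_isField_quotient 𝔪).mp h2
  have hcomap𝔪 : ∀ φ : Λ →ₐ[A] B, 𝔪 ≤ 𝔫.comap (φ : Λ →+* B) := fun φ x hx =>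
    Ideal.mem_comap.mpr (hm𝔫 (h62l_map_mem _ φ hx))
  have h𝔰'max : (𝔫.comap (β : Λ →+* B)).IsMaximal :=
    h62l_comap_isMaximal (β : Λ →+* B) 𝔫 P0 hP0𝔫 hsurj0
  haveI h𝔰'p : (𝔫.comap (β : Λ →+* B)).IsPrime := h𝔰'max.isPrime
  have h𝔪A : ∀ a ∈ maximalIdeal A, algebraMap A Λ a ∈ 𝔪 := fun a ha =>
    Ideal.mem_map_of_mem _ ha
  set u₁ : Λ := u - algebraMap A Λ c₀ with hu₁
  have hβu₁𝔫 : β u₁ ∈ 𝔫 := hLPu.1
  have hℓm : (ℓ : B) ∈ (maximalIdeal A).map (algebraMap A B) := by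
    have h1 : (ℓ : B) = algebraMap A B (ℓ : A) := (map_natCast (algebraMap A B) ℓ).symm
    rw [h1]
    exact Ideal.mem_map_of_mem _ hℓA
  have hℓP0 : (ℓ : B) ∈ P0 := hmP0 hℓm
  have hfrob' := h62l_frob' α β P0 R hRspan ℓ hℓ hℓP0 hRβ
  -- `a ^ ℓ - u ∉ 𝔪`
  have hδ : a ^ ℓ - u ∉ 𝔪 :=
    h50e_delta ℓ hℓ hℓA hperf (𝔫.comap (β : Λ →+* B)) (hcomap𝔪 β)
      (hne_of_max _ h𝔰'max (hcomap𝔪 β)) u c₀ hLPu a
  -- linear independence for `β u`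
  have hLIβ := h50e_LI P0 hmP0 α β hnf hαP0 hβP0 hsurj0 R hRspan ℓ hℓ hℓA hRβ hperf 𝔫 h𝔫
    hP0𝔫 u c₀ hLPu
  letI : Algebra Λ B := (α : Λ →+* B).toAlgebra
  haveI : Module.Finite Λ B := hfin
  have halg : ∀ x : Λ, algebraMap Λ B x = α x := fun _ => rfl
  have hm𝔰 : (maximalIdeal A).map (algebraMap A B)
      ≤ (𝔫.comap (algebraMap Λ B)).map (algebraMap Λ B) := by
    rw [Ideal.map_le_iff_le_comap]
    intro a ha
    rw [Ideal.mem_comap]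
    have h1 : algebraMap A B a = algebraMap Λ B (algebraMap A Λ a) := by
      rw [halg, AlgHom.commutes]
    rw [h1]
    refine Ideal.mem_map_of_mem _ ?_
    exact hcomap𝔪 α (h𝔪A a ha)
  set J : Ideal B := (𝔫.comap (algebraMap Λ B)).map (algebraMap Λ B) with hJ
  set ψ : B := β u + ε with hψ
  have hf' : aeval ψ (h62n_poly ℓ a u r) = 0 := by
    rw [Polynomial.aeval_def]
    exact hf
  have hY1 : ψ - algebraMap Λ B a ∈ Pinf := by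
    rw [halg]
    exact hY1'
  have hY2β : β u ^ ℓ - algebraMap Λ B u ∈ P0 := by
    rw [halg]
    have h1 : β u ^ ℓ - α u = -(α u - β u ^ ℓ) := by ring
    rw [h1]
    exact P0.neg_mem (hRβ u huR)
  have hY2 : ψ ^ ℓ - algebraMap Λ B u ∈ P0 := h2k_shift_pow ℓ P0 (β u) ε hε u hY2β
  have hsep' : ψ - algebraMap Λ B a ∉ 𝔫 := by
    rw [halg]
    exact hsep
  have hδinf : algebraMap Λ B (a ^ ℓ - u) ∉ Pinf := fun h => hδ (hαPinf _ h)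
  have hδ0 : algebraMap Λ B (a ^ ℓ - u) ∉ P0 := fun h => hδ (hαP0 _ h)
  have hLI : ∀ g : Λ[X], g.natDegree < ℓ → aeval ψ g ∈ P0 →
      ∀ i, algebraMap Λ B (g.coeff i) ∈ P0 := by
    refine h2k_shift_LI ℓ P0 (β u) ε hε ?_
    intro g hg hgP0 i
    rw [halg]
    rw [Polynomial.aeval_def] at hgP0
    exact hLIβ g hg hgP0 i
  -- the constant `c₀` in `B`
  have hc₀ : algebraMap Λ B (algebraMap A Λ c₀) = β (algebraMap A Λ c₀) := by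
    rw [halg, AlgHom.commutes, AlgHom.commutes]
  have hβu₁ : β u₁ = β u - algebraMap Λ B (algebraMap A Λ c₀) := by
    rw [hu₁, map_sub, hc₀]
  -- the local parameter `t = ψ - c₀`
  set t : B := β u₁ + ε with htdef
  have ht𝔫 : t ∈ 𝔫 := 𝔫.add_mem hβu₁𝔫 (hP0𝔫 hε)
  have hLP0 : ∀ b ∈ 𝔫, ∃ s, s ∉ 𝔫 ∧ s * b ∈ Ideal.span {t} ⊔ P0 := by
    intro b hb
    obtain ⟨s, hs, hsb⟩ :=
      h62l_LP_transport (maximalIdeal A) β 𝔫 P0 hmP0 hP0𝔫 hsurj0 u₁ hLPu b hb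
    refine ⟨s, hs, ?_⟩
    obtain ⟨x, hx, p, hp, hsum⟩ := Submodule.mem_sup.mp hsb
    obtain ⟨d, rfl⟩ := Ideal.mem_span_singleton'.mp hx
    have h1 : s * b = d * t + (p - d * ε) := by
      rw [← hsum, htdef]; ring
    rw [h1]
    exact Submodule.add_mem_sup (Ideal.mem_span_singleton'.mpr ⟨d, rfl⟩)
      (P0.sub_mem hp (P0.mul_mem_left _ hε))
  have ht : t = aeval ψ (X - C (algebraMap A Λ c₀) : Λ[X]) := by
    rw [htdef, hβu₁, hψ]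
    simp
    ring
  -- uniqueness of the point of `P₀` over `𝔰`
  have hmax : ∀ 𝔑 : Ideal B, 𝔑.IsMaximal → J ≤ 𝔑 → P0 ≤ 𝔑 → 𝔑 = 𝔫 := by
    intro 𝔑 h𝔑 hJ𝔑 hP𝔑
    refine h50e_unique α β P0 hsurj0 R hRspan ℓ hℓ hℓP0 hRβ 𝔫 h𝔫 hP0𝔫 𝔑 h𝔑 ?_ hP𝔑
    intro x hx
    exact hJ𝔑 (Ideal.mem_map_of_mem _ (Ideal.mem_comap.mpr hx))
  -- residue field
  have hresB : ∀ b : B, ∃ x : Λ, b - algebraMap Λ B x ∈ 𝔫 := by
    intro b
    obtain ⟨y, hy⟩ := hsurj0 b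
    obtain ⟨a₀, ha₀⟩ := hres _ h𝔰'max (hcomap𝔪 β) y
    refine ⟨algebraMap A Λ a₀, ?_⟩
    have h1 : β (y - algebraMap A Λ a₀) ∈ 𝔫 := ha₀
    have h2 : algebraMap Λ B (algebraMap A Λ a₀) = β (algebraMap A Λ a₀) := by
      rw [halg, AlgHom.commutes, AlgHom.commutes]
    have h3 : b - algebraMap Λ B (algebraMap A Λ a₀)
        = (b - β y) + β (y - algebraMap A Λ a₀) := by
      rw [h2, map_sub]; ring
    rw [h3]
    exact 𝔫.add_mem (hP0𝔫 hy) h1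
  -- `g t ^ ℓ ∈ J`
  have hSFJ : ∀ p ∈ Pinf, ∀ p' ∈ P0, p * p' ∈ J := fun p hp p' hp' =>
    hm𝔰 (hSF ⟨Pinf.mul_mem_right _ hp, P0.mul_mem_left _ hp'⟩)
  have htpow : (ψ - algebraMap Λ B a) * t ^ ℓ ∈ J := by
    obtain ⟨x, hx⟩ := hfrob' u₁
    have hαx : α x ∈ 𝔫 := by
      have h1 : α x = (α x - β u₁ ^ ℓ) + β u₁ ^ ℓ := by ring
      rw [h1]
      exact 𝔫.add_mem (hP0𝔫 hx) (𝔫.pow_mem_of_mem hβu₁𝔫 ℓ hℓ.pos)
    have hαxJ : α x ∈ J := Ideal.mem_map_of_mem _ (Ideal.mem_comap.mpr hαx)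
    have htx : α x - t ^ ℓ ∈ P0 := by
      obtain ⟨d, hd⟩ := sub_dvd_pow_sub_pow (β u₁ + ε) (β u₁) ℓ
      have h1 : α x - t ^ ℓ = (α x - β u₁ ^ ℓ) - (β u₁ + ε - β u₁) * d := by
        rw [← hd, htdef]; ring
      rw [h1]
      refine P0.sub_mem hx (P0.mul_mem_right _ ?_)
      simpa using hε
    have h1 : (ψ - algebraMap Λ B a) * t ^ ℓ
        = (ψ - algebraMap Λ B a) * α x
          - (ψ - algebraMap Λ B a) * (α x - t ^ ℓ) := by ring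
    rw [h1]
    exact J.sub_mem (J.mul_mem_left _ hαxJ) (hSFJ _ hY1 _ htx)
  have hunit := h50k_unit hC Winf W0 hWV hBWinf hBW0 𝔫 Pinf P0 hP0𝔫 hSF hWinf hW0 hm𝔰
    ℓ hℓ hℓ0 hℓm hmPinf hmP0 ψ a u r hr hf' hY1 hY2 hsep' hδinf hδ0 hLI
    t (X - C (algebraMap A Λ c₀)) ht ht𝔫 hLP0 hmax hresB hsurjinf ℓ htpow (K := K)
    (hpl 𝔫 h𝔫 hP0𝔫)
  unfold h62n_S at hunit
  rw [Polynomial.aeval_def, Polynomial.aeval_def] at hunit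
  exact hunit

end Main

end Fermat.Agent.S36
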