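import Fermat.Agent.S36.H50ExcIface2
import Fermat.Agent.S36.H50ExcFin

/-!
# S36, block REG, row R-ORD-11 (helper50): the level-`M q` package

`h50e_pkg_of : H50eSep → H50eShape → H50ePkg`: at a smooth point `𝔫'` of `C₀` (chart over `A₀`
of level `M q`), the separating coordinate `ψ = β u + δ ε` (`H50eSep`), its Kronecker shape
(`H50eShape`), and the unit `κ` with `(ψ - α a) f'(ψ) = q κ`: `κ ∉ 𝔫'` by the landed
`h50e_unit_fin` (chart over `A`) at the closed point `lift 𝔫'`.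
-/

set_option autoImplicit false
set_option linter.unusedSectionVars false
set_option linter.unusedVariables false
set_option linter.style.haveILetI false

open AlgebraicCurve ModularCurve IsLocalRing Polynomial

noncomputable section

namespace Fermat.Agent.S36

open Fermat.Agent.S37 Fermat.Agent.Red Fermat.Agent.Red.GG Fermat.Agent.LGC

section Compat

variable (A : ValuationSubring Kbar) (M : ℕ) {q : ℕ} [NeZero M] [NeZero q]

/-- `ι ∘ α = α ∘ ι`. -/
theorem h50e_incl_alpha (x : h62rChart A M (jB M)) :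
    h60rIncl A (M * q) (jSS M q) (h62rAlpha A M x) = h62i_α A M q (h60rIncl A M (jB M) x) := by
  apply Subtype.ext
  show heckeAlphaBar Kbar M q (x : FF M) = heckeAlphaBar Kbar M q (x : FF M)
  rfl

set_option maxHeartbeats 400000 in
/-- `ι ∘ β = β ∘ ι`. -/
theorem h50e_incl_beta (hq : q.Prime) (hM : ¬ q ∣ M) (hA : A.LiesOverPrime q)
    (x : h62rChart A M (jB M)) :
    h60rIncl A (M * q) (jSS M q) (h62rBeta A M hq hM hA x) =
      h62i_β A M hq hM hA (h60rIncl A M (jB M) x) := by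
  apply Subtype.ext
  show heckeBetaBar Kbar M q (x : FF M) = heckeBetaBar Kbar M q (x : FF M)
  rfl

theorem h50e_incl_alpha_comp :
    (h60rIncl A (M * q) (jSS M q)).comp (h62rAlpha A M) =
      ((h62i_α A M q : chart M A (jB M) →ₐ[A] chart (M * q) A (jSS M q)) :
        chart M A (jB M) →+* chart (M * q) A (jSS M q)).comp (h60rIncl A M (jB M)) := by
  apply RingHom.ext
  intro x
  rw [RingHom.comp_apply, RingHom.comp_apply, h50e_incl_alpha]
  rfl

end Compat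

/-- transport of `h62n_poly` along a ring homomorphism. -/
theorem h50e_map_poly {Λ Λ' : Type*} [CommRing Λ] [CommRing Λ'] (g : Λ →+* Λ') (ℓ : ℕ)
    (a c : Λ) (r : Λ[X]) :
    (h62n_poly ℓ a c r).map g = h62n_poly ℓ (g a) (g c) (r.map g) := by
  unfold h62n_poly
  simp only [Polynomial.map_add, Polynomial.map_mul, Polynomial.map_sub, Polynomial.map_pow,
    Polynomial.map_X, Polynomial.map_C, map_natCast, Polynomial.map_natCast]

/-- transport of an `eval₂` along a commutative square. -/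
theorem h50e_eval₂_square {Λ Λ' B B' : Type*} [CommRing Λ] [CommRing Λ'] [CommRing B]
    [CommRing B'] (α : Λ →+* B) (α' : Λ' →+* B') (g : Λ →+* Λ') (h : B →+* B')
    (hsq : h.comp α = α'.comp g) (p : Λ[X]) (x : B) :
    (p.map g).eval₂ α' (h x) = h (p.eval₂ α x) := by
  rw [Polynomial.eval₂_map, ← hsq, Polynomial.hom_eval₂]

/-- **the level-`M q` package.** -/
theorem h50e_pkg_of (hSep : H50eSep) (hShape : H50eShape) : H50ePkg := by
  intro q hq M _ hM haux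
  haveI : NeZero q := ⟨hq.ne_zero⟩
  intro A hA 𝔫' h𝔫' hq𝔫' hP0 hPinf
  obtain ⟨u, ε, hrat, hnc, hLP, hε, hδ⟩ := hSep q hq M hM haux A hA 𝔫' h𝔫' hq𝔫' hP0 hPinf
  refine ⟨u, ε, hnc, fun δ hδ1 => ?_⟩
  obtain ⟨a, haPinf, hsep⟩ := hδ δ hδ1
  set ι := h60rIncl A (M * q) (jSS M q) with hι
  set ι₀ := h60rIncl A M (jB M) with hι₀
  set 𝔫 := h60rLift (h60rIncl A (M * q) (jSS M q)) (mExt A M q (jSS M q)) 𝔫' with h𝔫def
  have h𝔫 : 𝔫.IsMaximal := h60r_lift_isMaximal' A M hq hM hA 𝔫' h𝔫' hq𝔫'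
  have hmem : ∀ x, ι x ∈ 𝔫 ↔ x ∈ 𝔫' := h60r_mem_lift_iff' A M hq hM hA 𝔫' hq𝔫'
  set ψ := h62rBeta A M hq hM hA u + δ * ε with hψ
  have hδε : ι (δ * ε) ∈ h62i_P0 A M hq hM hA := by
    rw [map_mul]
    exact Ideal.mul_mem_left _ _ hε
  have hψβ : ι (ψ - h62rBeta A M hq hM hA u) ∈ h62i_P0 A M hq hM hA := by
    have h1 : ψ - h62rBeta A M hq hM hA u = δ * ε := by rw [hψ]; ring
    rw [h1]
    exact hδε
  obtain ⟨r, hr, hroot⟩ := hShape q hq M hM haux A hA 𝔫' h𝔫' hq𝔫' hP0 u hrat hLP ψ a hψβ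
    haPinf hsep
  -- `ψ ∈ 𝔫'`
  have hβu : h62rBeta A M hq hM hA u ∈ 𝔫' := by
    rw [← hmem, hι, h50e_incl_beta]
    exact Ideal.mem_comap.mp hLP.1
  have hε𝔫 : δ * ε ∈ 𝔫' := by
    rw [← hmem]
    exact hP0 hδε
  have hψ𝔫 : ψ ∈ 𝔫' := 𝔫'.add_mem hβu hε𝔫
  -- the unit
  set κ : h62rChart A (M * q) (jSS M q) :=
    -(r.eval₂ (h62rAlpha A M) ψ) + (ψ - h62rAlpha A M a) ^ 2 * ψ ^ (q - 1)
      + (ψ - h62rAlpha A M a) * (derivative r).eval₂ (h62rAlpha A M) ψ with hκ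
  have hid : (ψ - h62rAlpha A M a) *
      (derivative (h62n_poly q a u r)).eval₂ (h62rAlpha A M) ψ
      = ((q : ℕ) : h62rChart A (M * q) (jSS M q)) * κ :=
    h50k_mul_z (h62rAlpha A M) q a u r ψ hroot
  refine ⟨a, r, κ, hr, hroot, hψ𝔫, hsep, ?_, hid⟩
  -- `κ ∉ 𝔫'`, over `A`
  have huR : ι₀ u ∈ h62i_R A M := (h62i_mem_R A M (ι₀ u)).mpr hrat
  have hLP' : h62l_LP (h62i_mΛ A M) (𝔫.comap
      ((h62i_β A M hq hM hA : chart M A (jB M) →ₐ[A] chart (M * q) A (jSS M q)) :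
        chart M A (jB M) →+* chart (M * q) A (jSS M q)))
      (ι₀ u - algebraMap A (chart M A (jB M)) 0) := by
    rw [map_zero, sub_zero]
    exact hLP
  have hsq := h50e_incl_alpha_comp A M (q := q)
  have hιψ : ι ψ = h62i_β A M hq hM hA (ι₀ u) + ι (δ * ε) := by
    rw [hψ, map_add, hι, hι₀, h50e_incl_beta]
  have hιa : ι (h62rAlpha A M a) = h62i_α A M q (ι₀ a) := h50e_incl_alpha A M a
  have hY1 : h62i_β A M hq hM hA (ι₀ u) + ι (δ * ε) - h62i_α A M q (ι₀ a)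
      ∈ h62i_Pinf A M hq hM hA := by
    rw [← hιψ, ← hιa, ← map_sub]
    exact haPinf
  have hsepA : h62i_β A M hq hM hA (ι₀ u) + ι (δ * ε) - h62i_α A M q (ι₀ a) ∉ 𝔫 := by
    rw [← hιψ, ← hιa, ← map_sub, hmem]
    exact hsep
  have hrA : (r.map ι₀).natDegree ≤ q := le_trans natDegree_map_le hr
  have hrootA : (h62n_poly q (ι₀ a) (ι₀ u) (r.map ι₀)).eval₂
      ((h62i_α A M q : chart M A (jB M) →ₐ[A] chart (M * q) A (jSS M q)) :
        chart M A (jB M) →+* chart (M * q) A (jSS M q))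
      (h62i_β A M hq hM hA (ι₀ u) + ι (δ * ε)) = 0 := by
    rw [← hιψ, ← h50e_map_poly, h50e_eval₂_square _ _ ι₀ ι hsq, hroot, map_zero]
  have key := h50e_unit_fin A M hq hM haux hA 𝔫 h𝔫 hP0 (ι₀ u) huR 0 hLP' (ι (δ * ε)) hδε
    (ι₀ a) hY1 hsepA (r.map ι₀) hrA hrootA
  intro hκ𝔫
  apply key
  have hικ : ι κ = -((r.map ι₀).eval₂
        ((h62i_α A M q : chart M A (jB M) →ₐ[A] chart (M * q) A (jSS M q)) :
          chart M A (jB M) →+* chart (M * q) A (jSS M q))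
        (h62i_β A M hq hM hA (ι₀ u) + ι (δ * ε)))
      + (h62i_β A M hq hM hA (ι₀ u) + ι (δ * ε) - h62i_α A M q (ι₀ a)) ^ 2
          * (h62i_β A M hq hM hA (ι₀ u) + ι (δ * ε)) ^ (q - 1)
      + (h62i_β A M hq hM hA (ι₀ u) + ι (δ * ε) - h62i_α A M q (ι₀ a))
          * (derivative (r.map ι₀)).eval₂
            ((h62i_α A M q : chart M A (jB M) →ₐ[A] chart (M * q) A (jSS M q)) :
              chart M A (jB M) →+* chart (M * q) A (jSS M q))
            (h62i_β A M hq hM hA (ι₀ u) + ι (δ * ε)) := by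
    rw [← hιψ, Polynomial.derivative_map, h50e_eval₂_square _ _ ι₀ ι hsq,
      h50e_eval₂_square _ _ ι₀ ι hsq, ← hιa, hκ]
    simp only [map_add, map_neg, map_mul, map_pow, map_sub]
  rw [← hικ, hmem]
  exact hκ𝔫

end Fermat.Agent.S36
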