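import Mathlib

/-!
# S36 block (V): abstract VERT lemmas (helper51)

Mathlib only.  `R` is a discrete valuation ring with uniformiser `π`, `S` a Dedekind domain which
is a finite torsion-free `R`-algebra of rank `n` (in the application: `R` the Gauss DVR of the
function field `F₀(Mq)` over the inertia field at the component `Z_∞` (resp. `Z_0`), `S` its
integral closure in `F₀(Mq²)` along `α`, `n = q`), `Z ∈ S` with minimal polynomial `G`
(`Z = j(q² z)`, `G = Φ_q(j(qz), T) / (T - j(z))`).

* `h51v_exists_max_of_root` : every root `c` of `G` modulo `π` is the residue of `Z` at some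
  maximal ideal of `S` (lying over).
* `h51v_two_primes` (**L1**) : if `G = (T - b) (T - a)^(n-1) + π r`, `b - a` a unit,
  `r(a)` a unit (i.e. `G(a) = π · unit`), then `S` has exactly two nonzero primes
  `P₂₀ ∋ Z - b`, `P₁₁ ∋ Z - a`, with `(e, f) = (1, 1)` and `(n - 1, 1)`, and `Z - a` is a
  uniformiser at `P₁₁`.
* `h51v_one_prime` (**L2**) : if `G` is irreducible modulo `π` (e.g. `G = T^q - Y` modulo `π`
  with `Y` not a `q`-th power in the residue field), then `S` has exactly one nonzero prime,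
  `(e, f) = (1, n)`.
-/

set_option autoImplicit false
set_option linter.unusedSectionVars false
set_option linter.unusedVariables false
set_option linter.style.haveILetI false

open Polynomial IsLocalRing

namespace Fermat.Agent.S36

section Setup

variable {R S : Type*} [CommRing R] [IsDomain R] [IsDiscreteValuationRing R]
  [CommRing S] [IsDedekindDomain S] [Algebra R S] [Module.Finite R S]
  [Module.IsTorsionFree R S]

/-- every nonzero prime of `S` lies over the maximal ideal of `R`. -/
theorem h51v_liesOver (P : Ideal S) [hP : P.IsPrime] (hP0 : P ≠ ⊥) :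
    P.LiesOver (maximalIdeal R) := by
  have hmax : P.IsMaximal := hP.isMaximal hP0
  have h1 : (P.under R).IsMaximal := Ideal.isMaximal_comap_of_isIntegral_of_isMaximal P
  exact ⟨(IsLocalRing.eq_maximalIdeal h1).symm⟩

theorem h51v_mem_of_mem_maximalIdeal (P : Ideal S) [hP : P.IsPrime] (hP0 : P ≠ ⊥)
    {x : R} (hx : x ∈ maximalIdeal R) : algebraMap R S x ∈ P := by
  have := h51v_liesOver (R := R) P hP0
  have h := this.over
  rw [h] at hx
  exact hx

/-- **lying over a root modulo `π`.**  If `G` generates the kernel of the evaluation at `Z` and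
`G(c) ≡ 0` modulo the maximal ideal, then some maximal ideal of `S` contains `Z - c`. -/
theorem h51v_exists_max_of_root (G : R[X]) (Z : S)
    (hker : ∀ f : R[X], aeval Z f = 0 → G ∣ f)
    (c : R) (hc : G.eval c ∈ maximalIdeal R) :
    ∃ Q : Ideal S, Q.IsMaximal ∧ Z - algebraMap R S c ∈ Q := by
  classical
  let f : R[X] →+* S := (aeval Z : R[X] →ₐ[R] S).toRingHom
  let ψ : R[X] →+* ResidueField R := (residue R).comp (evalRingHom c)
  have hf : f.IsIntegral := by
    intro s
    have hs : IsIntegral R s := Algebra.IsIntegral.isIntegral s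
    obtain ⟨p, hp, hps⟩ := hs
    refine ⟨p.map C, hp.map _, ?_⟩
    rw [Polynomial.eval₂_map]
    have : f.comp C = algebraMap R S := by
      ext x
      simp [f]
    rw [this]
    exact hps
  have hle : RingHom.ker f ≤ RingHom.ker ψ := by
    intro p hp
    have hp' : aeval Z p = 0 := hp
    obtain ⟨g, rfl⟩ := hker p hp'
    rw [RingHom.mem_ker, map_mul]
    have : ψ G = 0 := by
      simp only [ψ, RingHom.comp_apply, coe_evalRingHom]
      exact (residue_eq_zero_iff _).mpr hc
    rw [this, zero_mul]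
  have hne : RingHom.ker ψ ≠ ⊤ := RingHom.ker_ne_top ψ
  have hmap : (RingHom.ker ψ).map f ≠ ⊤ :=
    fun h => hne ((Ideal.map_eq_top_iff_of_ker_le f hle hf).mp h)
  obtain ⟨Q, hQ, hQle⟩ := Ideal.exists_le_maximal _ hmap
  refine ⟨Q, hQ, hQle ?_⟩
  have h1 : (X - C c : R[X]) ∈ RingHom.ker ψ := by
    simp [ψ, RingHom.mem_ker]
  have h2 := Ideal.mem_map_of_mem f h1
  simpa [f] using h2


/-- the valuation of the uniformiser at a nonzero prime of `S` is `exp (-e)`. -/
theorem h51v_intValuation_unif (π : R) (hπ : Irreducible π)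
    (w : IsDedekindDomain.HeightOneSpectrum S) :
    w.intValuation (algebraMap R S π) = WithZero.exp (-(w.asIdeal.ramificationIdx R : ℤ)) := by
  have hπ0 : algebraMap R S π ≠ 0 := by
    intro h
    exact hπ.ne_zero ((FaithfulSMul.algebraMap_injective R S) (by rw [h, map_zero]))
  have := h51v_liesOver (R := R) w.asIdeal w.ne_bot
  have hm : maximalIdeal R = Ideal.span {π} := hπ.maximalIdeal_eq
  have hmap : Ideal.map (algebraMap R S) (maximalIdeal R) = Ideal.span {algebraMap R S π} := by
    rw [hm, Ideal.map_span, Set.image_singleton]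
  have hne : Ideal.map (algebraMap R S) (maximalIdeal R) ≠ ⊥ := by
    rw [hmap]
    intro h
    exact hπ0 (Ideal.span_singleton_eq_bot.mp h)
  rw [IsDedekindDomain.HeightOneSpectrum.intValuation_eq_exp_neg_multiplicity w hπ0,
    Ideal.IsDedekindDomain.ramificationIdx_eq_multiplicity (maximalIdeal R) w.asIdeal hne, hmap]


/-- the basic relation `(Z - b) (Z - a)^(n-1) + π r(Z) = 0`. -/
theorem h51v_star (n : ℕ) (π : R) (G r : R[X]) (Z : S) (hZ : aeval Z G = 0) (a b : R)
    (hG : G = (X - C b) * (X - C a) ^ (n - 1) + C π * r) :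
    (Z - algebraMap R S b) * (Z - algebraMap R S a) ^ (n - 1)
      + algebraMap R S π * aeval Z r = 0 := by
  rw [hG] at hZ
  simpa using hZ

/-- at a prime containing `Z - a` the value `r(Z)` is a unit. -/
theorem h51v_r_notMem (r : R[X]) (Z : S) (a : R) (hra : IsUnit (r.eval a))
    (P : Ideal S) [hP : P.IsPrime] (hZa : Z - algebraMap R S a ∈ P) : aeval Z r ∉ P := by
  intro h
  have h1 : Z - algebraMap R S a ∣ (r.map (algebraMap R S)).eval Z
      - (r.map (algebraMap R S)).eval (algebraMap R S a) :=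
    Polynomial.sub_dvd_eval_sub _ _ _
  rw [Polynomial.eval_map_algebraMap, Polynomial.eval_map, Polynomial.eval₂_at_apply] at h1
  have h2 : aeval Z r - algebraMap R S (r.eval a) ∈ P := Ideal.mem_of_dvd _ h1 hZa
  have h3 : algebraMap R S (r.eval a) ∈ P := by
    have := P.sub_mem h h2
    simpa using this
  exact hP.ne_top (Ideal.eq_top_of_isUnit_mem _ h3 (hra.map _))

/-- **the key computation**: at a nonzero prime `P ∋ Z - a`, `e(P) = (n - 1) · v_P(Z - a)`. -/
theorem h51v_key (n : ℕ) (π : R) (hπ : Irreducible π) (G r : R[X]) (Z : S)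
    (hZ : aeval Z G = 0) (a b : R) (hab : IsUnit (b - a))
    (hG : G = (X - C b) * (X - C a) ^ (n - 1) + C π * r) (hra : IsUnit (r.eval a))
    (w : IsDedekindDomain.HeightOneSpectrum S) (hZa : Z - algebraMap R S a ∈ w.asIdeal) :
    w.intValuation (Z - algebraMap R S a) ^ (n - 1)
      = WithZero.exp (-(w.asIdeal.ramificationIdx R : ℤ)) := by
  have hstar := h51v_star n π G r Z hZ a b hG
  have hr : aeval Z r ∉ w.asIdeal := h51v_r_notMem r Z a hra w.asIdeal hZa
  have hb : Z - algebraMap R S b ∉ w.asIdeal := by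
    intro h
    have h1 : algebraMap R S (b - a) ∈ w.asIdeal := by
      have := w.asIdeal.sub_mem hZa h
      rw [map_sub]
      convert this using 1
      ring
    exact w.isPrime.ne_top (Ideal.eq_top_of_isUnit_mem _ h1 (hab.map _))
  have h1 : (Z - algebraMap R S b) * (Z - algebraMap R S a) ^ (n - 1)
      = -(algebraMap R S π * aeval Z r) := eq_neg_of_add_eq_zero_left hstar
  have h2 := congrArg w.intValuation h1
  rw [map_mul, map_pow, Valuation.map_neg, map_mul,
    IsDedekindDomain.HeightOneSpectrum.intValuation_eq_one_iff.mpr hb,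
    IsDedekindDomain.HeightOneSpectrum.intValuation_eq_one_iff.mpr hr, one_mul, mul_one,
    h51v_intValuation_unif π hπ w] at h2
  exact h2


/-- integer form of `h51v_key`: `e(P) = (n - 1) * k` with `k ≥ 1` and
`v_P(Z - a) = exp (-k)`. -/
theorem h51v_key_nat (n : ℕ) (hn : 2 ≤ n) (π : R) (hπ : Irreducible π) (G r : R[X]) (Z : S)
    (hZ : aeval Z G = 0) (a b : R) (hab : IsUnit (b - a))
    (hG : G = (X - C b) * (X - C a) ^ (n - 1) + C π * r) (hra : IsUnit (r.eval a))
    (w : IsDedekindDomain.HeightOneSpectrum S) (hZa : Z - algebraMap R S a ∈ w.asIdeal) :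
    ∃ k : ℕ, 1 ≤ k ∧ w.asIdeal.ramificationIdx R = (n - 1) * k ∧
      w.intValuation (Z - algebraMap R S a) = WithZero.exp (-(k : ℤ)) := by
  have hkey := h51v_key n π hπ G r Z hZ a b hab hG hra w hZa
  have hZa0 : Z - algebraMap R S a ≠ 0 := by
    intro h
    rw [h, map_zero, zero_pow (by omega)] at hkey
    exact WithZero.exp_ne_zero hkey.symm
  have hval := IsDedekindDomain.HeightOneSpectrum.intValuation_eq_exp_neg_multiplicity w hZa0
  set k : ℕ := multiplicity w.asIdeal (Ideal.span {Z - algebraMap R S a}) with hk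
  refine ⟨k, ?_, ?_, hval⟩
  · by_contra hlt
    have hk0 : k = 0 := by omega
    rw [hk0] at hval
    have h1 : w.intValuation (Z - algebraMap R S a) < 1 :=
      (IsDedekindDomain.HeightOneSpectrum.intValuation_lt_one_iff_mem w _).mpr hZa
    rw [hval] at h1
    simp at h1
  · rw [hval, ← WithZero.exp_nsmul, WithZero.exp_inj] at hkey
    have : ((n - 1 : ℕ) : ℤ) * (k : ℤ) = (w.asIdeal.ramificationIdx R : ℤ) := by
      simp only [nsmul_eq_mul] at hkey
      linarith
    exact_mod_cast this.symm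


/-- counting: two distinct primes over `𝔪_R` whose `e f` add up to at least the rank are the
only ones, and the bounds are equalities. -/
theorem h51v_count (n : ℕ) (hrank : Module.finrank R S = n)
    (Qa Qb : Ideal S) [hQa : Qa.IsPrime] [hQb : Qb.IsPrime] (hQa0 : Qa ≠ ⊥) (hQb0 : Qb ≠ ⊥)
    (hne : Qa ≠ Qb) (ca cb : ℕ) (hca : ca ≤ Qa.ramificationIdx R * Qa.inertiaDeg R)
    (hcb : cb ≤ Qb.ramificationIdx R * Qb.inertiaDeg R) (hsum : n ≤ ca + cb) :
    Qa.ramificationIdx R * Qa.inertiaDeg R = ca ∧ Qb.ramificationIdx R * Qb.inertiaDeg R = cb ∧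
      ∀ P : Ideal S, P.IsPrime → P ≠ ⊥ → P = Qa ∨ P = Qb := by
  classical
  haveI : Fintype ((maximalIdeal R).primesOver S) := Fintype.ofFinite _
  have hs := Ideal.sum_ramification_inertia_eq_finrank (maximalIdeal R) S
  rw [hrank] at hs
  set F : (maximalIdeal R).primesOver S → ℕ :=
    fun q => q.1.ramificationIdx R * q.1.inertiaDeg R with hF
  have hFpos : ∀ q, 0 < F q := by
    intro q
    haveI : q.1.IsPrime := q.2.1
    exact Nat.mul_pos (Ideal.ramificationIdx_pos q.1 R) (Ideal.inertiaDeg_pos q.1 R)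
  let qa : (maximalIdeal R).primesOver S := ⟨Qa, hQa, h51v_liesOver Qa hQa0⟩
  let qb : (maximalIdeal R).primesOver S := ⟨Qb, hQb, h51v_liesOver Qb hQb0⟩
  have hqne : qa ≠ qb := fun h => hne (congrArg Subtype.val h)
  have h2 : F qa + F qb ≤ n := by
    rw [← hs, ← Finset.sum_pair hqne]
    exact Finset.sum_le_sum_of_subset (Finset.subset_univ _)
  have hFa : F qa = Qa.ramificationIdx R * Qa.inertiaDeg R := rfl
  have hFb : F qb = Qb.ramificationIdx R * Qb.inertiaDeg R := rfl
  refine ⟨by omega, by omega, ?_⟩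
  intro P hP hP0
  by_contra hcon
  rw [not_or] at hcon
  let qP : (maximalIdeal R).primesOver S := ⟨P, hP, h51v_liesOver P hP0⟩
  have h1 : qP ≠ qa := fun h => hcon.1 (congrArg Subtype.val h)
  have h2' : qP ≠ qb := fun h => hcon.2 (congrArg Subtype.val h)
  have h3 : F qP + (F qa + F qb) ≤ n := by
    rw [← hs]
    have hsub : ({qP, qa, qb} : Finset _) ⊆ Finset.univ := Finset.subset_univ _
    have := Finset.sum_le_sum_of_subset (f := F) hsub
    rw [Finset.sum_insert (by simp [h1, h2']), Finset.sum_pair hqne] at this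
    exact this
  have := hFpos qP
  omega

/-- **L1 (two primes).**  Let `R` be a DVR with uniformiser `π`, `S` a Dedekind domain, finite
and torsion-free of rank `n ≥ 2` over `R`, `Z ∈ S` a root of `G` such that `G` divides every
polynomial vanishing at `Z`, and `G = (T - b) (T - a)^(n-1) + π r` with `b - a` and `r(a)` units
of `R`.  Then `S` has exactly two nonzero primes `P₂₀ ∋ Z - b` and `P₁₁ ∋ Z - a`, with
`(e, f) = (1, 1)`, resp. `(n - 1, 1)`, and `Z - a` is a uniformiser at `P₁₁`. -/
theorem h51v_two_primes (n : ℕ) (hn : 2 ≤ n) (hrank : Module.finrank R S = n)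
    (π : R) (hπ : Irreducible π) (G r : R[X]) (Z : S) (hZ : aeval Z G = 0)
    (hker : ∀ f : R[X], aeval Z f = 0 → G ∣ f)
    (a b : R) (hab : IsUnit (b - a))
    (hG : G = (X - C b) * (X - C a) ^ (n - 1) + C π * r) (hra : IsUnit (r.eval a)) :
    ∃ P20 P11 : IsDedekindDomain.HeightOneSpectrum S, P20 ≠ P11 ∧
      (∀ P : IsDedekindDomain.HeightOneSpectrum S, P = P20 ∨ P = P11) ∧
      Z - algebraMap R S b ∈ P20.asIdeal ∧ Z - algebraMap R S a ∈ P11.asIdeal ∧
      Z - algebraMap R S a ∉ P20.asIdeal ∧ Z - algebraMap R S b ∉ P11.asIdeal ∧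
      P20.asIdeal.ramificationIdx R = 1 ∧ P20.asIdeal.inertiaDeg R = 1 ∧
      P11.asIdeal.ramificationIdx R = n - 1 ∧ P11.asIdeal.inertiaDeg R = 1 ∧
      P11.intValuation (Z - algebraMap R S a) = WithZero.exp (-1 : ℤ) ∧
      P11.intValuation (algebraMap R S π) = WithZero.exp (-((n - 1 : ℕ) : ℤ)) ∧
      P20.intValuation (algebraMap R S π) = WithZero.exp (-1 : ℤ) := by
  classical
  have hπm : π ∈ maximalIdeal R := by
    rw [hπ.maximalIdeal_eq]; exact Ideal.mem_span_singleton_self π
  have hGa : G.eval a ∈ maximalIdeal R := by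
    rw [hG]
    simp only [eval_add, eval_mul, eval_sub, eval_X, eval_C, eval_pow, sub_self]
    rw [zero_pow (by omega), mul_zero, zero_add]
    exact Ideal.mul_mem_right _ _ hπm
  have hGb : G.eval b ∈ maximalIdeal R := by
    rw [hG]
    simp only [eval_add, eval_mul, eval_sub, eval_X, eval_C, eval_pow, sub_self]
    rw [zero_mul, zero_add]
    exact Ideal.mul_mem_right _ _ hπm
  obtain ⟨Qa, hQa, hZa⟩ := h51v_exists_max_of_root G Z hker a hGa
  obtain ⟨Qb, hQb, hZb⟩ := h51v_exists_max_of_root G Z hker b hGb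
  have hπ0 : algebraMap R S π ≠ 0 := by
    intro h
    exact hπ.ne_zero ((FaithfulSMul.algebraMap_injective R S) (by rw [h, map_zero]))
  have hmax0 : ∀ Q : Ideal S, Q.IsMaximal → Q ≠ ⊥ := by
    intro Q hQ h
    have h1 : (Q.under R).IsMaximal := Ideal.isMaximal_comap_of_isIntegral_of_isMaximal Q
    have h2 : π ∈ Q.under R := by rw [IsLocalRing.eq_maximalIdeal h1]; exact hπm
    have h3 : algebraMap R S π ∈ Q := h2
    rw [h] at h3
    exact hπ0 h3
  have hQa0 := hmax0 Qa hQa
  have hQb0 := hmax0 Qb hQb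
  haveI := hQa.isPrime
  haveI := hQb.isPrime
  let wa : IsDedekindDomain.HeightOneSpectrum S := ⟨Qa, hQa.isPrime, hQa0⟩
  let wb : IsDedekindDomain.HeightOneSpectrum S := ⟨Qb, hQb.isPrime, hQb0⟩
  have hba : algebraMap R S b - algebraMap R S a ∉ Qa := by
    intro h
    rw [← map_sub] at h
    exact hQa.ne_top (Ideal.eq_top_of_isUnit_mem _ h (hab.map _))
  have hbb : algebraMap R S b - algebraMap R S a ∉ Qb := by
    intro h
    rw [← map_sub] at h
    exact hQb.ne_top (Ideal.eq_top_of_isUnit_mem _ h (hab.map _))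
  have hZba : Z - algebraMap R S b ∉ Qa := by
    intro h
    apply hba
    have := Qa.sub_mem hZa h
    convert this using 1
    ring
  have hZab : Z - algebraMap R S a ∉ Qb := by
    intro h
    apply hbb
    have := Qb.sub_mem h hZb
    convert this using 1
    ring
  have hne : Qa ≠ Qb := by
    intro h
    rw [h] at hZa
    exact hZab hZa
  obtain ⟨k, hk1, hke, hkv⟩ := h51v_key_nat n hn π hπ G r Z hZ a b hab hG hra wa hZa
  have hfa : 0 < Qa.inertiaDeg R := Ideal.inertiaDeg_pos Qa R
  have hfb : 0 < Qb.inertiaDeg R := Ideal.inertiaDeg_pos Qb R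
  have heb : 0 < Qb.ramificationIdx R := Ideal.ramificationIdx_pos Qb R
  have hea : Qa.ramificationIdx R = (n - 1) * k := hke
  have hca : n - 1 ≤ Qa.ramificationIdx R * Qa.inertiaDeg R := by
    rw [hea]
    calc n - 1 = (n - 1) * 1 * 1 := by ring
      _ ≤ (n - 1) * k * Qa.inertiaDeg R :=
        Nat.mul_le_mul (Nat.mul_le_mul_left _ hk1) hfa
  have hcb : 1 ≤ Qb.ramificationIdx R * Qb.inertiaDeg R := Nat.mul_pos heb hfb
  obtain ⟨h1, h2, h3⟩ := h51v_count n hrank Qa Qb hQa0 hQb0 hne (n - 1) 1 hca hcb (by omega)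
  have hn1 : 0 < n - 1 := by omega
  have hkf : k * Qa.inertiaDeg R = 1 := by
    rw [hea, mul_assoc] at h1
    exact Nat.eq_of_mul_eq_mul_left hn1 (by rw [h1, mul_one])
  have hk : k = 1 := Nat.eq_one_of_mul_eq_one_right hkf
  have hfa1 : Qa.inertiaDeg R = 1 := Nat.eq_one_of_mul_eq_one_left hkf
  have heb1 : Qb.ramificationIdx R = 1 := Nat.eq_one_of_mul_eq_one_right h2
  have hfb1 : Qb.inertiaDeg R = 1 := Nat.eq_one_of_mul_eq_one_left h2
  have hea1 : Qa.ramificationIdx R = n - 1 := by rw [hea, hk, mul_one]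
  refine ⟨wb, wa, ?_, ?_, hZb, hZa, hZab, hZba, heb1, hfb1, hea1, hfa1, ?_, ?_, ?_⟩
  · intro h
    exact hne (congrArg IsDedekindDomain.HeightOneSpectrum.asIdeal h).symm
  · intro P
    rcases h3 P.asIdeal P.isPrime P.ne_bot with h | h
    · right
      exact IsDedekindDomain.HeightOneSpectrum.ext h
    · left
      exact IsDedekindDomain.HeightOneSpectrum.ext h
  · rw [hkv, hk]
    rfl
  · rw [h51v_intValuation_unif π hπ wa]
    show WithZero.exp (-(Qa.ramificationIdx R : ℤ)) = _
    rw [hea1]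
  · rw [h51v_intValuation_unif π hπ wb]
    show WithZero.exp (-(Qb.ramificationIdx R : ℤ)) = _
    rw [heb1]
    rfl

/-- counting with one prime. -/
theorem h51v_count_one (n : ℕ) (hrank : Module.finrank R S = n)
    (Q : Ideal S) [hQ : Q.IsPrime] (hQ0 : Q ≠ ⊥)
    (hf : n ≤ Q.inertiaDeg R) :
    Q.ramificationIdx R = 1 ∧ Q.inertiaDeg R = n ∧
      ∀ P : Ideal S, P.IsPrime → P ≠ ⊥ → P = Q := by
  classical
  haveI : Fintype ((maximalIdeal R).primesOver S) := Fintype.ofFinite _
  have hs := Ideal.sum_ramification_inertia_eq_finrank (maximalIdeal R) S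
  rw [hrank] at hs
  set F : (maximalIdeal R).primesOver S → ℕ :=
    fun q => q.1.ramificationIdx R * q.1.inertiaDeg R with hF
  have hFpos : ∀ q, 0 < F q := by
    intro q
    haveI : q.1.IsPrime := q.2.1
    exact Nat.mul_pos (Ideal.ramificationIdx_pos q.1 R) (Ideal.inertiaDeg_pos q.1 R)
  let q₀ : (maximalIdeal R).primesOver S := ⟨Q, hQ, h51v_liesOver Q hQ0⟩
  have h2 : F q₀ ≤ n := by
    rw [← hs]
    exact Finset.single_le_sum (f := F) (fun _ _ => Nat.zero_le _) (Finset.mem_univ q₀)
  have hF0 : F q₀ = Q.ramificationIdx R * Q.inertiaDeg R := rfl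
  have he : 0 < Q.ramificationIdx R := Ideal.ramificationIdx_pos Q R
  have hn0 : 0 < n := by
    rw [← hrank]
    exact Module.finrank_pos
  have h3 : Q.ramificationIdx R * Q.inertiaDeg R ≤ n := hF0 ▸ h2
  have he1 : Q.ramificationIdx R = 1 := by
    by_contra hne
    have h4 : 2 ≤ Q.ramificationIdx R := by omega
    have : 2 * n ≤ Q.ramificationIdx R * Q.inertiaDeg R := Nat.mul_le_mul h4 hf
    omega
  have hf1 : Q.inertiaDeg R = n := by
    rw [he1, one_mul] at h3
    omega
  refine ⟨he1, hf1, ?_⟩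
  intro P hP hP0
  by_contra hcon
  let qP : (maximalIdeal R).primesOver S := ⟨P, hP, h51v_liesOver P hP0⟩
  have h1 : qP ≠ q₀ := fun h => hcon (congrArg Subtype.val h)
  have h5 : F qP + F q₀ ≤ n := by
    rw [← hs, ← Finset.sum_pair h1]
    exact Finset.sum_le_sum_of_subset (Finset.subset_univ _)
  have := hFpos qP
  rw [hF0, he1, hf1, one_mul] at h5
  omega

/-- the inertia degree at a maximal ideal is at least the degree of an irreducible polynomial
over the residue field which has a root in the residue field of the maximal ideal. -/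
theorem h51v_le_inertiaDeg (Q : Ideal S) [hQ : Q.IsMaximal] [Q.LiesOver (maximalIdeal R)]
    (G : R[X]) (hGm : G.Monic) (Z : S) (hZ : aeval Z G = 0)
    (hirr : Irreducible (G.map (Ideal.Quotient.mk (maximalIdeal R)))) :
    G.natDegree ≤ Q.inertiaDeg R := by
  classical
  rw [Ideal.inertiaDeg_eq_of_isMaximal (maximalIdeal R) Q]
  letI : Field (R ⧸ maximalIdeal R) := Ideal.Quotient.field _
  letI : Field (S ⧸ Q) := Ideal.Quotient.field _
  set Gbar := G.map (Ideal.Quotient.mk (maximalIdeal R)) with hGbar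
  set Zbar : S ⧸ Q := Ideal.Quotient.mk Q Z with hZbar
  have hroot : aeval Zbar Gbar = 0 := by
    rw [hGbar, Polynomial.aeval_def, Polynomial.eval₂_map]
    have hcomp : (algebraMap (R ⧸ maximalIdeal R) (S ⧸ Q)).comp
        (Ideal.Quotient.mk (maximalIdeal R)) = (Ideal.Quotient.mk Q).comp (algebraMap R S) := by
      ext x
      simp [Ideal.Quotient.algebraMap_mk_of_liesOver]
    rw [hcomp, hZbar, ← Polynomial.hom_eval₂, ← Polynomial.aeval_def, hZ, map_zero]
  have hint : IsIntegral (R ⧸ maximalIdeal R) Zbar :=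
    ⟨Gbar, hGm.map _, by rw [← Polynomial.aeval_def]; exact hroot⟩
  have hdvd : minpoly (R ⧸ maximalIdeal R) Zbar ∣ Gbar := minpoly.dvd _ _ hroot
  have hassoc : Associated (minpoly (R ⧸ maximalIdeal R) Zbar) Gbar :=
    (minpoly.irreducible hint).associated_of_dvd hirr hdvd
  have hdeg : (minpoly (R ⧸ maximalIdeal R) Zbar).natDegree = G.natDegree := by
    rw [Polynomial.natDegree_eq_of_degree_eq (Polynomial.degree_eq_degree_of_associated hassoc),
      hGbar, hGm.natDegree_map]
  rw [← hdeg]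
  haveI : Module.Finite (R ⧸ maximalIdeal R) (S ⧸ Q) := inferInstance
  exact minpoly.natDegree_le Zbar

/-- **L2 (one prime).**  Let `R` be a DVR, `S` a Dedekind domain, finite and torsion-free of
rank `n` over `R`, `Z ∈ S` a root of a monic polynomial `G` of degree `n` which is irreducible
modulo the maximal ideal of `R`.  Then `S` has exactly one nonzero prime `P`, and
`(e, f) = (1, n)`. -/
theorem h51v_one_prime (n : ℕ) (hrank : Module.finrank R S = n)
    (G : R[X]) (hGm : G.Monic) (hdeg : G.natDegree = n) (Z : S) (hZ : aeval Z G = 0)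
    (hirr : Irreducible (G.map (Ideal.Quotient.mk (maximalIdeal R)))) :
    ∃ P : IsDedekindDomain.HeightOneSpectrum S,
      (∀ P' : IsDedekindDomain.HeightOneSpectrum S, P' = P) ∧
      P.asIdeal.ramificationIdx R = 1 ∧ P.asIdeal.inertiaDeg R = n ∧
      ∀ π : R, Irreducible π → P.intValuation (algebraMap R S π) = WithZero.exp (-1 : ℤ) := by
  classical
  obtain ⟨Q, hQ, hQover⟩ :=
    Ideal.exists_maximal_ideal_liesOver_of_isIntegral (S := S) (maximalIdeal R)
  have hR : maximalIdeal R ≠ ⊥ := IsDiscreteValuationRing.not_a_field R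
  have hQ0 : Q ≠ ⊥ := Ideal.ne_bot_of_liesOver_of_ne_bot hR Q
  haveI := hQ.isPrime
  have hf : n ≤ Q.inertiaDeg R := hdeg ▸ h51v_le_inertiaDeg Q G hGm Z hZ hirr
  obtain ⟨he1, hf1, huniq⟩ := h51v_count_one n hrank Q hQ0 hf
  let w : IsDedekindDomain.HeightOneSpectrum S := ⟨Q, hQ.isPrime, hQ0⟩
  refine ⟨w, fun P' => IsDedekindDomain.HeightOneSpectrum.ext
    (huniq P'.asIdeal P'.isPrime P'.ne_bot), he1, hf1, ?_⟩
  intro π hπ
  rw [h51v_intValuation_unif π hπ w]
  show WithZero.exp (-(Q.ramificationIdx R : ℤ)) = _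
  rw [he1]
  rfl

/-- the hypothesis `hker` of `h51v_two_primes` from `minpoly R Z = G`. -/
theorem h51v_hker_of_minpoly (G : R[X]) (Z : S) (hmin : minpoly R Z = G) :
    ∀ f : R[X], aeval Z f = 0 → G ∣ f := by
  intro f hf
  rw [← hmin]
  exact minpoly.isIntegrallyClosed_dvd (Algebra.IsIntegral.isIntegral Z) hf

/-- the hypothesis `hker` of `h51v_two_primes` for a monic `G` of degree `rank S` with root
`Z`, when no nonzero polynomial of smaller degree vanishes at `Z`. -/
theorem h51v_hker_of_natDegree (G : R[X]) (hGm : G.Monic) (Z : S) (hZ : aeval Z G = 0)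
    (hmin : ∀ f : R[X], f.Monic → aeval Z f = 0 → G.natDegree ≤ f.natDegree) :
    ∀ f : R[X], aeval Z f = 0 → G ∣ f := by
  have hint : IsIntegral R Z := Algebra.IsIntegral.isIntegral Z
  have h1 : minpoly R Z ∣ G := minpoly.isIntegrallyClosed_dvd hint hZ
  have h2 : G.natDegree ≤ (minpoly R Z).natDegree := hmin _ (minpoly.monic hint) (minpoly.aeval R Z)
  have h3 : minpoly R Z = G :=
    (Polynomial.eq_of_monic_of_dvd_of_natDegree_le (minpoly.monic hint) hGm h1 h2).symm
  exact h51v_hker_of_minpoly G Z h3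

/-- at a prime of inertia degree one, every element of `S` is congruent to an element of
`R`. -/
theorem h51v_residue_surj (Q : Ideal S) [hQ : Q.IsPrime] (hQ0 : Q ≠ ⊥)
    (hf : Q.inertiaDeg R = 1) (s : S) : ∃ x : R, s - algebraMap R S x ∈ Q := by
  classical
  haveI : Q.IsMaximal := hQ.isMaximal hQ0
  haveI := h51v_liesOver (R := R) Q hQ0
  rw [Ideal.inertiaDeg_eq_of_isMaximal (maximalIdeal R) Q] at hf
  letI : Field (R ⧸ maximalIdeal R) := Ideal.Quotient.field _
  letI : Field (S ⧸ Q) := Ideal.Quotient.field _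
  have h1 : (⊥ : Subalgebra (R ⧸ maximalIdeal R) (S ⧸ Q)) = ⊤ :=
    Subalgebra.bot_eq_top_of_finrank_eq_one hf
  have h2 : Ideal.Quotient.mk Q s ∈ (⊥ : Subalgebra (R ⧸ maximalIdeal R) (S ⧸ Q)) := by
    rw [h1]; exact Algebra.mem_top
  obtain ⟨y, hy⟩ := Algebra.mem_bot.mp h2
  obtain ⟨x, rfl⟩ := Ideal.Quotient.mk_surjective y
  refine ⟨x, ?_⟩
  rw [← Ideal.Quotient.eq, ← hy, Ideal.Quotient.algebraMap_mk_of_liesOver]

end Setup

end Fermat.Agent.S36
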