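import Fermat.Agent.S36.H51Vert

/-!
# S36 block (V): completeness of a family of vertical valuations (helper51)

Mathlib only (+ `H51Vert`).  `R` is a discrete valuation ring, `S` a Dedekind domain which is a
finite torsion-free `R`-algebra, `L` the fraction field of `S`.

* `h51v_center O` : the centre on `S` of a valuation subring `O ⊇ S` of `L`;
* `h51v_eq_valuationSubring` : `O = ` the valuation subring of the `P`-adic valuation, `P` the
  centre of `O` (for `O ≠ ⊤`); `h51v_center_injective`;
* `h51v_le_ramificationIdx`, `h51v_le_inertiaDeg'` : lower bounds for `e`, `f` from witnesses;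
* `h51v_count_family` : a family of distinct primes with `∑ c i ≥ rank`, `c i ≤ e f`, is
  complete;
* `h51v_complete_S` : **completeness**: a finite family of distinct valuation subrings
  containing `S` with witnesses for `e ≥ a i`, `f ≥ b i` and `rank ≤ ∑ a i * b i` contains every
  valuation subring `≠ ⊤` containing `S`; moreover `e = a i`, `f = b i`;
* `h51v_mem_of_forall_mem` : an element of `L` lying in all the `W i` is in `S`.
-/

set_option autoImplicit false
set_option linter.unusedSectionVars false
set_option linter.unusedVariables false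
set_option linter.style.haveILetI false

open Polynomial IsLocalRing IsDedekindDomain

namespace Fermat.Agent.S36

section Dict

variable {S L : Type*} [CommRing S] [IsDedekindDomain S] [Field L] [Algebra S L]
  [IsFractionRing S L]

/-- the ring homomorphism `S → O`. -/
def h51v_toO (O : ValuationSubring L) (hO : ∀ s : S, algebraMap S L s ∈ O) : S →+* O :=
  (algebraMap S L).codRestrict O.toSubring hO

theorem h51v_toO_coe (O : ValuationSubring L) (hO : ∀ s : S, algebraMap S L s ∈ O) (s : S) :
    ((h51v_toO O hO s : O) : L) = algebraMap S L s := rfl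

/-- the centre on `S` of a valuation subring of `L` containing `S`. -/
def h51v_center (O : ValuationSubring L) (hO : ∀ s : S, algebraMap S L s ∈ O) : Ideal S :=
  (maximalIdeal O).comap (h51v_toO O hO)

theorem h51v_mem_center (O : ValuationSubring L) (hO : ∀ s : S, algebraMap S L s ∈ O) (s : S) :
    s ∈ h51v_center O hO ↔ algebraMap S L s ∈ O.nonunits := by
  rw [h51v_center, Ideal.mem_comap, ← ValuationSubring.coe_mem_nonunits_iff, h51v_toO_coe]

instance h51v_center_isPrime (O : ValuationSubring L) (hO : ∀ s : S, algebraMap S L s ∈ O) :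
    (h51v_center O hO).IsPrime :=
  Ideal.comap_isPrime _ _

theorem h51v_center_ne_bot (O : ValuationSubring L) (hO : ∀ s : S, algebraMap S L s ∈ O)
    (hne : O ≠ ⊤) : h51v_center O hO ≠ ⊥ := by
  intro h
  apply hne
  rw [eq_top_iff]
  intro x _
  obtain ⟨a, b, hb, rfl⟩ := IsFractionRing.div_surjective (A := S) x
  have hb0 : b ≠ 0 := nonZeroDivisors.ne_zero hb
  have hbL : algebraMap S L b ≠ 0 := by
    intro h0
    exact hb0 ((IsFractionRing.injective S L) (by rw [h0, map_zero]))
  have hbn : algebraMap S L b ∉ O.nonunits := by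
    intro hmem
    have : b ∈ h51v_center O hO := (h51v_mem_center O hO b).mpr hmem
    rw [h] at this
    exact hb0 this
  rw [ValuationSubring.mem_nonunits_iff_or, not_or, not_not] at hbn
  rw [div_eq_mul_inv]
  exact O.mul_mem _ _ (hO a) hbn.2

/-- the height one prime of the centre. -/
def h51v_centerH (O : ValuationSubring L) (hO : ∀ s : S, algebraMap S L s ∈ O)
    (hne : O ≠ ⊤) : HeightOneSpectrum S :=
  ⟨h51v_center O hO, inferInstance, h51v_center_ne_bot O hO hne⟩

/-- **dictionary**: a valuation subring `O ≠ ⊤` of `L` containing `S` is the valuation subring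
of the adic valuation of its centre. -/
theorem h51v_eq_valuationSubring (O : ValuationSubring L)
    (hO : ∀ s : S, algebraMap S L s ∈ O) (hne : O ≠ ⊤) :
    O = ((h51v_centerH O hO hne).valuation L).valuationSubring := by
  set v := h51v_centerH O hO hne with hv
  rw [← HeightOneSpectrum.valuationSubringAtPrime_eq_valuationSubring]
  symm
  refine ValuationSubring.eq_of_le_of_ne_top _ ?_ hne
  intro x hx
  have hx' : (v.valuation L) x ≤ 1 := by
    have := HeightOneSpectrum.valuationSubringAtPrime_le_valuation (K := L) v hx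
    exact this
  obtain ⟨n, d, hnd⟩ := HeightOneSpectrum.exists_primeCompl_mul_eq_of_integer v x hx'
  have hd : (d : S) ∉ h51v_center O hO := d.2
  rw [h51v_mem_center, ValuationSubring.mem_nonunits_iff_or, not_or, not_not] at hd
  have hxe : x = algebraMap S L n * (algebraMap S L (d : S))⁻¹ := by
    rw [← hnd, mul_assoc, mul_inv_cancel₀ hd.1, mul_one]
  rw [hxe]
  exact O.mul_mem _ _ (hO n) hd.2

/-- the centre determines the valuation subring. -/
theorem h51v_center_injective (O O' : ValuationSubring L)
    (hO : ∀ s : S, algebraMap S L s ∈ O) (hO' : ∀ s : S, algebraMap S L s ∈ O')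
    (hne : O ≠ ⊤) (hne' : O' ≠ ⊤) (h : h51v_center O hO = h51v_center O' hO') : O = O' := by
  rw [h51v_eq_valuationSubring O hO hne, h51v_eq_valuationSubring O' hO' hne']
  have : h51v_centerH O hO hne = h51v_centerH O' hO' hne' := HeightOneSpectrum.ext h
  rw [this]

/-- elements of `O` have adic valuation `≤ 1` at the centre. -/
theorem h51v_valuation_le_one (O : ValuationSubring L)
    (hO : ∀ s : S, algebraMap S L s ∈ O) (hne : O ≠ ⊤) (x : L) :
    x ∈ O ↔ (h51v_centerH O hO hne).valuation L x ≤ 1 := by
  conv_lhs => rw [h51v_eq_valuationSubring O hO hne]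
  exact Valuation.mem_valuationSubring_iff _ _

/-- non-units of `O` have adic valuation `< 1` at the centre. -/
theorem h51v_valuation_lt_one (O : ValuationSubring L)
    (hO : ∀ s : S, algebraMap S L s ∈ O) (hne : O ≠ ⊤) (x : L) :
    x ∈ O.nonunits ↔ (h51v_centerH O hO hne).valuation L x < 1 := by
  rw [ValuationSubring.mem_nonunits_iff_or]
  rcases eq_or_ne x 0 with rfl | hx
  · simp
  · simp only [hx, false_or]
    rw [h51v_valuation_le_one O hO hne, map_inv₀, not_le]
    constructor
    · intro h
      by_contra hcon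
      rw [not_lt] at hcon
      have : (1 : WithZero (Multiplicative ℤ)) < 1 := by
        calc (1 : WithZero (Multiplicative ℤ)) < ((h51v_centerH O hO hne).valuation L x)⁻¹ := h
          _ ≤ 1 := inv_le_one_of_one_le₀ hcon
      exact lt_irrefl _ this
    · intro h
      have h0 : (h51v_centerH O hO hne).valuation L x ≠ 0 := by
        rw [Valuation.ne_zero_iff]; exact hx
      exact (one_lt_inv₀ (zero_lt_iff.mpr h0)).mpr h

end Dict

section Bounds

variable {R S L : Type*} [CommRing R] [IsDomain R] [IsDiscreteValuationRing R]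
  [CommRing S] [IsDedekindDomain S] [Algebra R S] [Module.Finite R S]
  [Module.IsTorsionFree R S] [Field L] [Algebra S L] [IsFractionRing S L]
  [Algebra R L] [IsScalarTower R S L]

/-- the adic valuation of the uniformiser of `R` at the centre of `O`. -/
theorem h51v_valuation_unif (O : ValuationSubring L) (hO : ∀ s : S, algebraMap S L s ∈ O)
    (hne : O ≠ ⊤) (π : R) (hπ : Irreducible π) :
    (h51v_centerH O hO hne).valuation L (algebraMap R L π)
      = WithZero.exp (-((h51v_center O hO).ramificationIdx R : ℤ)) := by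
  rw [IsScalarTower.algebraMap_apply R S L, HeightOneSpectrum.valuation_of_algebraMap,
    h51v_intValuation_unif π hπ]
  rfl

/-- **lower bound for the ramification index** from a witness `z`: `z` a nonzero non-unit of
`O` with `π / z ^ a ∈ O`. -/
theorem h51v_le_ramificationIdx (O : ValuationSubring L) (hO : ∀ s : S, algebraMap S L s ∈ O)
    (hne : O ≠ ⊤) (π : R) (hπ : Irreducible π) (a : ℕ) (z : L) (hz0 : z ≠ 0)
    (hz : z ∈ O.nonunits) (hπz : algebraMap R L π * (z ^ a)⁻¹ ∈ O) :
    a ≤ (h51v_center O hO).ramificationIdx R := by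
  set v := (h51v_centerH O hO hne).valuation L with hv
  have h1 : v z < 1 := (h51v_valuation_lt_one O hO hne z).mp hz
  have h2 : v (algebraMap R L π * (z ^ a)⁻¹) ≤ 1 := (h51v_valuation_le_one O hO hne _).mp hπz
  have hvz0 : v z ≠ 0 := (Valuation.ne_zero_iff v).mpr hz0
  obtain ⟨m, hm⟩ : ∃ m : ℤ, v z = WithZero.exp m := ⟨WithZero.log (v z), (WithZero.exp_log hvz0).symm⟩
  rw [hm] at h1
  have hm1 : m ≤ -1 := by
    have : m < 0 := by
      rw [← WithZero.exp_zero] at h1
      exact WithZero.exp_lt_exp.mp h1
    omega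
  rw [map_mul, map_inv₀, map_pow, h51v_valuation_unif O hO hne π hπ, hm, ← WithZero.exp_nsmul,
    ← WithZero.exp_neg, ← WithZero.exp_add, ← WithZero.exp_zero, WithZero.exp_le_exp] at h2
  simp only [nsmul_eq_mul] at h2
  have h3 : (a : ℤ) ≤ ((h51v_center O hO).ramificationIdx R : ℤ) := by
    have ha : (0 : ℤ) ≤ a := Int.natCast_nonneg a
    nlinarith
  exact_mod_cast h3

/-- every element of `O` is congruent modulo the maximal ideal of `O` to an element of `S`. -/
theorem h51v_exists_congr (O : ValuationSubring L) (hO : ∀ s : S, algebraMap S L s ∈ O)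
    (hne : O ≠ ⊤) (y : L) (hy : y ∈ O) : ∃ s : S, algebraMap S L s - y ∈ O.nonunits := by
  set v := h51v_centerH O hO hne with hv
  have hy' : v.valuation L y ≤ 1 := (h51v_valuation_le_one O hO hne y).mp hy
  obtain ⟨n, d, hnd⟩ := HeightOneSpectrum.exists_primeCompl_mul_eq_of_integer v y hy'
  have hd : (d : S) ∉ h51v_center O hO := d.2
  haveI hmax : (h51v_center O hO).IsMaximal :=
    (h51v_center_isPrime O hO).isMaximal (h51v_center_ne_bot O hO hne)
  obtain ⟨d', i, hi, hdi⟩ := hmax.exists_inv hd
  refine ⟨n * d', ?_⟩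
  have hd0 : algebraMap S L (d : S) ≠ 0 := by
    intro h0
    apply hd
    have : (d : S) = 0 := (IsFractionRing.injective S L) (by rw [h0, map_zero])
    rw [this]
    exact Ideal.zero_mem _
  have hye : y = algebraMap S L n * (algebraMap S L (d : S))⁻¹ := by
    rw [← hnd, mul_assoc, mul_inv_cancel₀ hd0, mul_one]
  have hi' : algebraMap S L i ∈ O.nonunits := (h51v_mem_center O hO i).mp hi
  have hkey : algebraMap S L (n * d') - y = -(y * algebraMap S L i) := by
    have h1 : algebraMap S L (d' * (d : S) + i) = 1 := by rw [hdi, map_one]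
    rw [map_add, map_mul] at h1
    rw [map_mul, ← hnd]
    have h2 : algebraMap S L d' * algebraMap S L (d : S) = 1 - algebraMap S L i := by
      rw [← h1]; ring
    calc y * algebraMap S L (d : S) * algebraMap S L d' - y
        = y * (algebraMap S L d' * algebraMap S L (d : S)) - y := by ring
      _ = -(y * algebraMap S L i) := by rw [h2]; ring
  rw [hkey]
  rw [ValuationSubring.mem_nonunits_iff_exists_mem_maximalIdeal] at hi' ⊢
  obtain ⟨hi1, hi2⟩ := hi'
  refine ⟨O.neg_mem _ (O.mul_mem _ _ hy hi1), ?_⟩
  have : (⟨-(y * algebraMap S L i), O.neg_mem _ (O.mul_mem _ _ hy hi1)⟩ : O)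
      = -((⟨y, hy⟩ : O) * ⟨algebraMap S L i, hi1⟩) := rfl
  rw [this]
  exact (maximalIdeal O).neg_mem ((maximalIdeal O).mul_mem_left _ hi2)


/-- **lower bound for the inertia degree** from witnesses: `b` elements of `O` whose residues
are linearly independent over the residue field of `R`. -/
theorem h51v_le_inertiaDeg' (O : ValuationSubring L) (hO : ∀ s : S, algebraMap S L s ∈ O)
    (hne : O ≠ ⊤) (b : ℕ) (y : Fin b → L) (hy : ∀ j, y j ∈ O)
    (hf : ∀ c : Fin b → R, (∑ j, algebraMap R L (c j) * y j) ∈ O.nonunits →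
      ∀ j, c j ∈ maximalIdeal R) :
    b ≤ (h51v_center O hO).inertiaDeg R := by
  classical
  set P := h51v_center O hO with hP
  have hP0 : P ≠ ⊥ := h51v_center_ne_bot O hO hne
  haveI hmax : P.IsMaximal := (h51v_center_isPrime O hO).isMaximal hP0
  haveI := h51v_liesOver (R := R) P hP0
  rw [Ideal.inertiaDeg_eq_of_isMaximal (maximalIdeal R) P]
  letI : Field (R ⧸ maximalIdeal R) := Ideal.Quotient.field _
  letI : Field (S ⧸ P) := Ideal.Quotient.field _
  choose s hs using fun j => h51v_exists_congr O hO hne (y j) (hy j)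
  have hli : LinearIndependent (R ⧸ maximalIdeal R) (fun j => Ideal.Quotient.mk P (s j)) := by
    rw [Fintype.linearIndependent_iff]
    intro g hg j
    choose c hc using fun j => Ideal.Quotient.mk_surjective (g j)
    have h1 : ∑ j, g j • Ideal.Quotient.mk P (s j)
        = Ideal.Quotient.mk P (∑ j, algebraMap R S (c j) * s j) := by
      rw [map_sum]
      refine Finset.sum_congr rfl fun j _ => ?_
      rw [← hc j, Algebra.smul_def, Ideal.Quotient.algebraMap_mk_of_liesOver, map_mul]
    rw [h1, Ideal.Quotient.eq_zero_iff_mem, hP, h51v_mem_center] at hg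
    have h2 : (∑ j, algebraMap R L (c j) * y j) ∈ O.nonunits := by
      have h3 : (∑ j, algebraMap R L (c j) * y j)
          = algebraMap S L (∑ j, algebraMap R S (c j) * s j)
            - ∑ j, algebraMap R L (c j) * (algebraMap S L (s j) - y j) := by
        rw [map_sum, ← Finset.sum_sub_distrib]
        refine Finset.sum_congr rfl fun j _ => ?_
        rw [map_mul, ← IsScalarTower.algebraMap_apply R S L]
        ring
      rw [h3, ValuationSubring.mem_nonunits_iff]
      have hsum : O.valuation (∑ j, algebraMap R L (c j) * (algebraMap S L (s j) - y j)) < 1 := by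
        refine Valuation.map_sum_lt _ one_ne_zero fun j _ => ?_
        rw [map_mul]
        have h5 : O.valuation (algebraMap R L (c j)) ≤ 1 := by
          rw [ValuationSubring.valuation_le_one_iff, IsScalarTower.algebraMap_apply R S L]
          exact hO _
        have h6 : O.valuation (algebraMap S L (s j) - y j) < 1 :=
          (ValuationSubring.mem_nonunits_iff O).mp (hs j)
        calc O.valuation (algebraMap R L (c j)) * O.valuation (algebraMap S L (s j) - y j)
            ≤ 1 * O.valuation (algebraMap S L (s j) - y j) := by gcongr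
          _ < 1 := by rw [one_mul]; exact h6
      have hg' : O.valuation (algebraMap S L (∑ j, algebraMap R S (c j) * s j)) < 1 :=
        (ValuationSubring.mem_nonunits_iff O).mp hg
      rw [sub_eq_add_neg]
      refine Valuation.map_add_lt _ hg' ?_
      rw [Valuation.map_neg]
      exact hsum
    have h4 := hf c h2 j
    rw [← hc j]
    exact Ideal.Quotient.eq_zero_iff_mem.mpr h4
  have := hli.fintype_card_le_finrank
  simpa using this


end Bounds

section Family

variable {R S : Type*} [CommRing R] [IsDomain R] [IsDiscreteValuationRing R]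
  [CommRing S] [IsDedekindDomain S] [Algebra R S] [Module.Finite R S]
  [Module.IsTorsionFree R S]

/-- counting for a finite family of distinct nonzero primes: if the lower bounds `c i` for
`e f` add up to at least the rank, then the family contains all nonzero primes and the bounds
are equalities. -/
theorem h51v_count_family {ι : Type*} [Fintype ι] (Q : ι → Ideal S)
    (hQ : ∀ i, (Q i).IsPrime) (hQ0 : ∀ i, Q i ≠ ⊥) (hinj : Function.Injective Q)
    (c : ι → ℕ) (hc : ∀ i, c i ≤ (Q i).ramificationIdx R * (Q i).inertiaDeg R)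
    (hsum : Module.finrank R S ≤ ∑ i, c i) :
    (∀ P : Ideal S, P.IsPrime → P ≠ ⊥ → ∃ i, P = Q i) ∧
      ∀ i, (Q i).ramificationIdx R * (Q i).inertiaDeg R = c i := by
  classical
  haveI : Fintype ((maximalIdeal R).primesOver S) := Fintype.ofFinite _
  have hR0 : maximalIdeal R ≠ ⊥ := IsDiscreteValuationRing.not_a_field R
  let F : (maximalIdeal R).primesOver S → ℕ :=
    fun q => q.1.ramificationIdx R * q.1.inertiaDeg R
  have hs : ∑ q, F q = Module.finrank R S := by
    exact Ideal.sum_ramification_inertia_eq_finrank (maximalIdeal R) S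
  have hFpos : ∀ q, 0 < F q := by
    intro q
    haveI : q.1.IsPrime := q.2.1
    exact Nat.mul_pos (Ideal.ramificationIdx_pos q.1 R) (Ideal.inertiaDeg_pos q.1 R)
  let e : ι → (maximalIdeal R).primesOver S :=
    fun i => ⟨Q i, hQ i, @h51v_liesOver R S _ _ _ _ _ _ _ _ (Q i) (hQ i) (hQ0 i)⟩
  have he : Function.Injective e := fun i j h => hinj (congrArg Subtype.val h)
  have h1 : ∑ i, F (e i) = ∑ q ∈ Finset.univ.image e, F q := by
    rw [Finset.sum_image (fun i _ j _ h => he h)]
  have h2 : ∑ q ∈ Finset.univ.image e, F q ≤ ∑ q, F q :=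
    Finset.sum_le_sum_of_subset (Finset.subset_univ _)
  have h3 : ∑ i, c i ≤ ∑ i, F (e i) := Finset.sum_le_sum fun i _ => hc i
  have h4 : ∑ i, F (e i) = ∑ i, c i := by
    refine le_antisymm ?_ h3
    calc ∑ i, F (e i) = ∑ q ∈ Finset.univ.image e, F q := h1
      _ ≤ ∑ q, F q := h2
      _ = Module.finrank R S := hs
      _ ≤ ∑ i, c i := hsum
  have h5 : ∑ q ∈ Finset.univ.image e, F q = ∑ q, F q := by
    refine le_antisymm h2 ?_
    calc ∑ q, F q = Module.finrank R S := hs
      _ ≤ ∑ i, c i := hsum
      _ ≤ ∑ i, F (e i) := h3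
      _ = ∑ q ∈ Finset.univ.image e, F q := h1
  constructor
  · intro P hP hP0
    by_contra hcon
    rw [not_exists] at hcon
    let qP : (maximalIdeal R).primesOver S := ⟨P, hP, h51v_liesOver P hP0⟩
    have hq : qP ∉ Finset.univ.image e := by
      intro hmem
      obtain ⟨i, _, hi⟩ := Finset.mem_image.mp hmem
      exact hcon i (congrArg Subtype.val hi).symm
    have h6 : ∑ q ∈ insert qP (Finset.univ.image e), F q ≤ ∑ q, F q :=
      Finset.sum_le_sum_of_subset (Finset.subset_univ _)
    rw [Finset.sum_insert hq, h5] at h6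
    have h7 := hFpos qP
    exact absurd h6 (by
      intro h8
      have : F qP + ∑ q, F q ≤ 0 + ∑ q, F q := by rw [zero_add]; exact h8
      have := Nat.le_of_add_le_add_right this
      exact absurd h7 (by rw [Nat.le_zero.mp this]; exact lt_irrefl 0))
  · intro i
    by_contra hcon
    have hlt : c i < F (e i) := lt_of_le_of_ne (hc i) (fun h => hcon h.symm)
    have h8 : ∑ i, c i < ∑ i, F (e i) :=
      Finset.sum_lt_sum (fun j _ => hc j) ⟨i, Finset.mem_univ i, hlt⟩
    rw [h4] at h8
    exact lt_irrefl _ h8

end Family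

section Complete

variable {R S L : Type*} [CommRing R] [IsDomain R] [IsDiscreteValuationRing R]
  [CommRing S] [IsDedekindDomain S] [Algebra R S] [Module.Finite R S]
  [Module.IsTorsionFree R S] [Field L] [Algebra S L] [IsFractionRing S L]
  [Algebra R L] [IsScalarTower R S L]

/-- **COMPLETENESS (Dedekind form).**  Let `W i` be finitely many distinct valuation subrings
`≠ ⊤` of `L = Frac S` containing `S`, with witnesses for `e(W i) ≥ a i` (a nonzero non-unit
`z i` with `π / z i ^ a i ∈ W i`) and for `f(W i) ≥ b i` (`b i` elements of `W i` with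
linearly independent residues).  If `rank S ≤ ∑ a i * b i` then every valuation subring `≠ ⊤`
of `L` containing `S` is one of the `W i`, and `e(W i) = a i`, `f(W i) = b i`. -/
theorem h51v_complete_S {ι : Type*} [Fintype ι] (W : ι → ValuationSubring L)
    (hW : ∀ i, ∀ s : S, algebraMap S L s ∈ W i) (hWne : ∀ i, W i ≠ ⊤)
    (hinj : Function.Injective W) (π : R) (hπ : Irreducible π) (a b : ι → ℕ)
    (z : ι → L) (hz0 : ∀ i, z i ≠ 0) (hz : ∀ i, z i ∈ (W i).nonunits)
    (hπz : ∀ i, algebraMap R L π * (z i ^ a i)⁻¹ ∈ W i)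
    (y : ∀ i, Fin (b i) → L) (hy : ∀ i j, y i j ∈ W i)
    (hf : ∀ i, ∀ c : Fin (b i) → R, (∑ j, algebraMap R L (c j) * y i j) ∈ (W i).nonunits →
      ∀ j, c j ∈ maximalIdeal R)
    (hsum : Module.finrank R S ≤ ∑ i, a i * b i) :
    (∀ O : ValuationSubring L, (∀ s : S, algebraMap S L s ∈ O) → O ≠ ⊤ → ∃ i, O = W i) ∧
      (∀ i, (h51v_center (W i) (hW i)).ramificationIdx R = a i) ∧
      (∀ i, (h51v_center (W i) (hW i)).inertiaDeg R = b i) := by
  classical
  set Q : ι → Ideal S := fun i => h51v_center (W i) (hW i) with hQdef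
  have hQ : ∀ i, (Q i).IsPrime := fun i => h51v_center_isPrime (W i) (hW i)
  have hQ0 : ∀ i, Q i ≠ ⊥ := fun i => h51v_center_ne_bot (W i) (hW i) (hWne i)
  have hQinj : Function.Injective Q := by
    intro i j h
    exact hinj (h51v_center_injective (W i) (W j) (hW i) (hW j) (hWne i) (hWne j) h)
  have hea : ∀ i, a i ≤ (Q i).ramificationIdx R := fun i =>
    h51v_le_ramificationIdx (W i) (hW i) (hWne i) π hπ (a i) (z i) (hz0 i) (hz i) (hπz i)
  have hfb : ∀ i, b i ≤ (Q i).inertiaDeg R := fun i =>
    h51v_le_inertiaDeg' (W i) (hW i) (hWne i) (b i) (y i) (hy i) (hf i)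
  have hc : ∀ i, a i * b i ≤ (Q i).ramificationIdx R * (Q i).inertiaDeg R := fun i =>
    Nat.mul_le_mul (hea i) (hfb i)
  obtain ⟨hall, heq⟩ := h51v_count_family Q hQ hQ0 hQinj (fun i => a i * b i) hc hsum
  have hpos : ∀ i, 0 < (Q i).ramificationIdx R ∧ 0 < (Q i).inertiaDeg R := by
    intro i
    haveI := hQ i
    exact ⟨Ideal.ramificationIdx_pos (Q i) R, Ideal.inertiaDeg_pos (Q i) R⟩
  have hab : ∀ i, (Q i).ramificationIdx R = a i ∧ (Q i).inertiaDeg R = b i := by
    intro i
    have h1 := heq i
    have h2 := hea i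
    have h3 := hfb i
    obtain ⟨h4, h5⟩ := hpos i
    constructor
    · by_contra hcon
      have hlt : a i < (Q i).ramificationIdx R := lt_of_le_of_ne h2 (fun h => hcon h.symm)
      have : a i * b i < (Q i).ramificationIdx R * (Q i).inertiaDeg R :=
        calc a i * b i ≤ a i * (Q i).inertiaDeg R := Nat.mul_le_mul_left _ h3
          _ < (Q i).ramificationIdx R * (Q i).inertiaDeg R := Nat.mul_lt_mul_of_pos_right hlt h5
      omega
    · by_contra hcon
      have hlt : b i < (Q i).inertiaDeg R := lt_of_le_of_ne h3 (fun h => hcon h.symm)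
      have : a i * b i < (Q i).ramificationIdx R * (Q i).inertiaDeg R :=
        calc a i * b i ≤ (Q i).ramificationIdx R * b i := Nat.mul_le_mul_right _ h2
          _ < (Q i).ramificationIdx R * (Q i).inertiaDeg R := Nat.mul_lt_mul_of_pos_left hlt h4
      omega
  refine ⟨?_, fun i => (hab i).1, fun i => (hab i).2⟩
  intro O hO hOne
  obtain ⟨i, hi⟩ := hall (h51v_center O hO) (h51v_center_isPrime O hO)
    (h51v_center_ne_bot O hO hOne)
  exact ⟨i, h51v_center_injective O (W i) hO (hW i) hOne (hWne i) hi⟩

/-- under the hypotheses of `h51v_complete_S`: an element of `L` which lies in every `W i` is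
in (the image of) `S`. -/
theorem h51v_mem_of_forall_mem {ι : Type*} [Fintype ι] (W : ι → ValuationSubring L)
    (hW : ∀ i, ∀ s : S, algebraMap S L s ∈ W i) (hWne : ∀ i, W i ≠ ⊤)
    (hall : ∀ O : ValuationSubring L, (∀ s : S, algebraMap S L s ∈ O) → O ≠ ⊤ → ∃ i, O = W i)
    (x : L) (hx : ∀ i, x ∈ W i) : ∃ s : S, algebraMap S L s = x := by
  have h : ∀ v : HeightOneSpectrum S, v.valuation L x ≤ 1 := by
    intro v
    set O : ValuationSubring L := (v.valuation L).valuationSubring with hOdef
    have hO : ∀ s : S, algebraMap S L s ∈ O := by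
      intro s
      rw [hOdef, Valuation.mem_valuationSubring_iff]
      exact v.valuation_le_one s
    have hne : O ≠ ⊤ := by
      intro htop
      obtain ⟨π, hπ⟩ := v.valuation_exists_uniformizer L
      have hπ0 : π ≠ 0 := by
        intro h0
        rw [h0, map_zero] at hπ
        exact WithZero.exp_ne_zero.symm hπ
      have hmem : π⁻¹ ∈ O := by rw [htop]; trivial
      rw [hOdef, Valuation.mem_valuationSubring_iff, map_inv₀, hπ, ← WithZero.exp_neg,
        ← WithZero.exp_zero, WithZero.exp_le_exp] at hmem
      omega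
    obtain ⟨i, hi⟩ := hall O hO hne
    have hxO : x ∈ O := by rw [hi]; exact hx i
    rw [hOdef, Valuation.mem_valuationSubring_iff] at hxO
    exact hxO
  obtain ⟨s, hs⟩ := HeightOneSpectrum.mem_integers_of_valuation_le_one L x h
  exact ⟨s, hs⟩

end Complete

end Fermat.Agent.S36
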