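import Fermat.Agent.S36.H53TraceGen
import Fermat.Agent.S36.H92Chain
import Fermat.Agent.Red.GGChart18
import Fermat.Agent.Red.GGChartAsm
import Fermat.Agent.Red.GateGoodOf
import Fermat.Agent.Bridge.H47Inertia

/-!
# S36, GATE (helper53): denominators at the closed points of the generic fibre of `B₀(t)`

`A` a valuation subring of `ℚ̄` over `q`, `I` its inertia group, `F₀ = FF N ^ I`,
`B₀(t) = modelAt N A t ∩ F₀` (`h92c_Chart`), `t ∈ F₀` transcendental.

* `h53p_den` : for a place `v` of `FF N` (over `ℚ̄`) at which `t` is regular and `f ∈ F₀`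
  regular at `v` there is `s ∈ B₀(t)`, a unit at `v`, with `s f ∈ B₀(t)`.

So the local ring of `B₀(t)` at the centre of `v` is `O_v ∩ F₀`: the closed points of the
generic fibre of the model over `A₀` are regular.  Proof: over `ℚ̄` this is `h26_stepC` for the
chart `modelAt N A t` (denominator `s₀`, constant `a ∣ q ^ k`); the `A`-module
`{x ∈ modelAt | ∃ k, q ^ k x f ∈ modelAt}` is stable under `I`, so the trace argument
`h53p_trace` produces an `I`-invariant denominator.
-/

set_option autoImplicit false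
set_option synthInstance.maxHeartbeats 400000
set_option linter.unusedSectionVars false

open AlgebraicCurve ModularCurve WithZero IsLocalRing
open scoped Pointwise

noncomputable section

namespace Fermat.Agent.S36

open Fermat.Agent.S37 (Kbar GQ FF cst gal modelAt)
open Fermat.Agent.Red.Desc (Ge)
open Fermat.Agent.Red Fermat.Agent.Red.GG

variable {N : ℕ} [NeZero N]

/-! ## The centre of a place on the chart over `ℚ̄` -/

/-- the centre of the place `v` on the chart `modelAt N A t`. -/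
def h53pCentre (A : ValuationSubring Kbar) (t : FF N) (v : ChartPlace N t) :
    Ideal (chart N A t) where
  carrier := {b | chartVal N t v (b : FF N) < 1}
  add_mem' := fun {a b} ha hb => by
    show chartVal N t v ((a + b : chart N A t) : FF N) < 1
    rw [Subalgebra.coe_add]
    exact Valuation.map_add_lt _ ha hb
  zero_mem' := by
    show chartVal N t v ((0 : chart N A t) : FF N) < 1
    rw [Subalgebra.coe_zero, map_zero]
    exact zero_lt_one
  smul_mem' := fun c x hx => by
    show chartVal N t v ((c • x : chart N A t) : FF N) < 1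
    rw [smul_eq_mul, Subalgebra.coe_mul, map_mul]
    have h1 : chartVal N t v (c : FF N) ≤ 1 := GGC97_hB N A t c c.2 v
    calc chartVal N t v (c : FF N) * chartVal N t v (x : FF N)
        ≤ 1 * chartVal N t v (x : FF N) := mul_le_mul_left h1 _
      _ = chartVal N t v (x : FF N) := one_mul _
      _ < 1 := hx

theorem h53p_mem_centre (A : ValuationSubring Kbar) (t : FF N) (v : ChartPlace N t)
    (b : chart N A t) : b ∈ h53pCentre A t v ↔ chartVal N t v (b : FF N) < 1 := Iff.rfl

instance h53p_centre_isPrime (A : ValuationSubring Kbar) (t : FF N) (v : ChartPlace N t) :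
    (h53pCentre A t v).IsPrime := by
  refine ⟨?_, ?_⟩
  · rw [Ideal.ne_top_iff_one, h53p_mem_centre, Subalgebra.coe_one, map_one]
    exact lt_irrefl _
  · intro x y hxy
    rw [h53p_mem_centre, Subalgebra.coe_mul, map_mul] at hxy
    by_contra hcon
    rw [not_or] at hcon
    have hx : chartVal N t v (x : FF N) = 1 :=
      le_antisymm (GGC97_hB N A t x x.2 v) (not_lt.mp hcon.1)
    have hy : chartVal N t v (y : FF N) = 1 :=
      le_antisymm (GGC97_hB N A t y y.2 v) (not_lt.mp hcon.2)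
    rw [hx, hy, mul_one] at hxy
    exact lt_irrefl _ hxy

/-- **denominators over `ℚ̄`**: a function regular at `v` has a denominator in the chart which
is a unit at `v`, up to a nonzero constant of `A`. -/
theorem h53p_den_bar (A : ValuationSubring Kbar) (t : FF N) (ht : Transcendental Kbar t)
    (v : Place Kbar (FF N)) (htv : t ∈ v.toValuationSubring)
    (f : FF N) (hf : f ∈ v.toValuationSubring) :
    ∃ a : A, (a : Kbar) ≠ 0 ∧ ∃ s : FF N, s ∈ modelAt N A t ∧ s ≠ 0 ∧ v.ord s = 0 ∧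
      cst N (a : Kbar) * (s * f) ∈ modelAt N A t := by
  set i₀ : ChartPlace N t := ⟨v, htv⟩ with hi₀
  have hcen : ∀ i : ChartPlace N t,
      h26Centered (chart N A t) (chartVal N t) (h53pCentre A t i₀) i → i = i₀ := by
    intro i hi
    exact GGC97_hinj A t ht i i₀ hi
  obtain ⟨a, ha, s, hs, hmem⟩ := h26_stepC (GGC97_hfin N t)
    (fun f hf => h18c_hint N A t f hf) (GGC97_hB N A t) (h53pCentre A t i₀) f
    (fun i hi => by
      rw [hcen i hi]
      exact (GGC97_le_one_iff v f).mpr hf)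
  refine ⟨a, GGC97_coe_ne_zero ha, (s : FF N), s.2, ?_, ?_, ?_⟩
  · rintro h0
    apply hs
    rw [h53p_mem_centre, h0, map_zero]
    exact zero_lt_one
  · have h1 : ¬ chartVal N t i₀ (s : FF N) < 1 := hs
    have h2 : chartVal N t i₀ (s : FF N) ≤ 1 := GGC97_hB N A t s s.2 i₀
    have h3 : v.adicValuation (s : FF N) = 1 := le_antisymm h2 (not_lt.mp h1)
    unfold Place.ord
    rw [h3]
    simp
  · have h1 : a • ((s : FF N) * f) = cst N (a : Kbar) * ((s : FF N) * f) := GGC97_smul_eq a _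
    rw [← h1]
    exact hmem

/-! ## Stability of the chart under the inertia group -/

omit [NeZero N] in
/-- the inertia group maps `A` into `A`. -/
theorem h53p_inertia_map_mem (A : ValuationSubring Kbar) {σ : GQ}
    (hσ : σ ∈ A.inertiaSubgroupIn ℚ) : ∀ a ∈ A, σ a ∈ A := by
  intro a ha
  have h2 := ((Fermat.Agent.Bridge.H47.mem_inertiaSubgroupIn_iff A).mp hσ).2 a ha
  have h3 : σ a = (σ a - a) + a := by ring
  rw [h3]
  exact A.add_mem _ _ (A.nonunits_le h2) ha

omit [NeZero N] in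
/-- an automorphism preserving `A` preserves a chart with invariant coordinate. -/
theorem h53p_gal_mem_modelAt (A : ValuationSubring Kbar) (t : FF N) {σ : GQ}
    (hσ : ∀ a ∈ A, σ a ∈ A) (ht : gal N σ • t = t) {b : FF N} (hb : b ∈ modelAt N A t) :
    gal N σ • b ∈ modelAt N A t := by
  rw [ModelO.h85_mem_modelAt_iff_forall] at hb ⊢
  intro W hW htW
  have h1 : b ∈ ((gal N σ)⁻¹ • W : ValuationSubring (FF N)) := by
    apply hb
    · intro a ha
      rw [ValuationSubring.mem_pointwise_smul_iff_inv_smul_mem, inv_inv,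
        Fermat.Agent.S37.GalI.gal_smul_cst]
      exact hW _ (hσ a ha)
    · rw [ValuationSubring.mem_pointwise_smul_iff_inv_smul_mem, inv_inv, ht]
      exact htW
  rw [ValuationSubring.mem_pointwise_smul_iff_inv_smul_mem, inv_inv] at h1
  exact h1

omit [NeZero N] in
/-- rational constants are `I`-invariant. -/
theorem h53p_natCast_mem_F0 (I : Subgroup GQ) (n : ℕ) : cst N (n : Kbar) ∈ h53d_F0 N I := by
  intro σ _
  rw [Fermat.Agent.S37.GalI.gal_smul_cst, map_natCast]

omit [NeZero N] in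
theorem h53p_cst_mem_modelAt (A : ValuationSubring Kbar) (t : FF N) {c : Kbar} (hc : c ∈ A) :
    cst N c ∈ modelAt N A t := ModelO.h85_cst_mem_modelAt N A t hc

/-- algebraic integers lie in `A`. -/
theorem h53p_mem_of_isIntegral (A : ValuationSubring Kbar) {c : Kbar} (hc : IsIntegral ℤ c) :
    c ∈ A := by
  have h1 : IsIntegrallyClosed A := inferInstance
  have h2 : IsIntegral A c := hc.tower_top
  obtain ⟨y, hy⟩ := (IsIntegrallyClosed.isIntegral_iff (R := A) (K := Kbar)).mp h2
  rw [← hy]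
  exact y.2

/-! ## Invariant denominators -/

omit [NeZero N] in
theorem h53p_cst_mul (a b : Kbar) : cst N (a * b) = cst N a * cst N b :=
  map_mul (algebraMap Kbar (FF N)) a b

/-- the module of the denominators of `f` on the chart, up to powers of `q`. -/
def h53pDenMod (A : ValuationSubring Kbar) (q : ℕ) (t f : FF N) : AddSubgroup (FF N) where
  carrier := {x | x ∈ modelAt N A t ∧ ∃ k : ℕ, cst N ((q : Kbar) ^ k) * (x * f) ∈ modelAt N A t}
  add_mem' := by
    rintro x y ⟨hx, k₁, hk₁⟩ ⟨hy, k₂, hk₂⟩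
    refine ⟨add_mem hx hy, k₁ + k₂, ?_⟩
    have hq₁ : cst N ((q : Kbar) ^ k₁) ∈ modelAt N A t :=
      h53p_cst_mem_modelAt A t (pow_mem (natCast_mem A q) _)
    have hq₂ : cst N ((q : Kbar) ^ k₂) ∈ modelAt N A t :=
      h53p_cst_mem_modelAt A t (pow_mem (natCast_mem A q) _)
    have e : cst N ((q : Kbar) ^ (k₁ + k₂)) * ((x + y) * f)
        = cst N ((q : Kbar) ^ k₂) * (cst N ((q : Kbar) ^ k₁) * (x * f))
          + cst N ((q : Kbar) ^ k₁) * (cst N ((q : Kbar) ^ k₂) * (y * f)) := by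
      rw [pow_add, h53p_cst_mul]
      ring
    rw [e]
    exact add_mem (mul_mem hq₂ hk₁) (mul_mem hq₁ hk₂)
  zero_mem' := ⟨zero_mem _, 0, by rw [zero_mul, mul_zero]; exact zero_mem _⟩
  neg_mem' := by
    rintro x ⟨hx, k, hk⟩
    refine ⟨neg_mem hx, k, ?_⟩
    have e : cst N ((q : Kbar) ^ k) * (-x * f) = -(cst N ((q : Kbar) ^ k) * (x * f)) := by ring
    rw [e]
    exact neg_mem hk

/-- **invariant denominators**: for a place `v` at which `t` is regular and `f ∈ F₀` regular at
`v` there is `s ∈ B₀(t)`, a unit at `v`, with `s f ∈ B₀(t)`. -/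
theorem h53p_den {q : ℕ} (hq : q.Prime) (A : ValuationSubring Kbar) (hA : A.LiesOverPrime q)
    (t : FF N) (ht : Transcendental Kbar t) (htF : t ∈ h92c_F0 A N)
    (v : Place Kbar (FF N)) (htv : t ∈ v.toValuationSubring)
    (f : FF N) (hfF : f ∈ h92c_F0 A N) (hf : f ∈ v.toValuationSubring) :
    ∃ s : FF N, s ∈ h92c_Chart A N t ∧ s ≠ 0 ∧ v.ord s = 0 ∧ s * f ∈ h92c_Chart A N t := by
  obtain ⟨a, ha, s₀, hs₀, hs₀0, hs₀v, hmem⟩ := h53p_den_bar A t ht v htv f hf
  -- `a ∣ q ^ k`
  have hqA : (⟨(q : Kbar), natCast_mem A q⟩ : A) ∈ maximalIdeal A := by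
    rw [mem_maximalIdeal, mem_nonunits_iff]
    intro hu
    have h1 : (q : Kbar) ∈ A.nonunits := hA
    rw [ValuationSubring.mem_nonunits_iff_exists_mem_maximalIdeal] at h1
    obtain ⟨hq', hq''⟩ := h1
    exact (mem_maximalIdeal _).mp hq'' hu
  have hq0 : (⟨(q : Kbar), natCast_mem A q⟩ : A) ≠ 0 := by
    intro h
    have h1 : (q : Kbar) = 0 := congrArg Subtype.val h
    exact hq.ne_zero (Nat.cast_eq_zero.mp h1)
  have ha0 : a ≠ 0 := fun h => ha (by rw [h]; rfl)
  obtain ⟨k, a', hk⟩ := harch_of_liesOver A hq hA _ hqA hq0 a ha0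
  have hk' : (q : Kbar) ^ k = (a : Kbar) * (a' : Kbar) := by
    have := congrArg Subtype.val hk
    simpa using this
  have hmem' : cst N ((q : Kbar) ^ k) * (s₀ * f) ∈ modelAt N A t := by
    have e : cst N ((q : Kbar) ^ k) * (s₀ * f)
        = cst N (a' : Kbar) * (cst N (a : Kbar) * (s₀ * f)) := by
      rw [hk', h53p_cst_mul]
      ring
    rw [e]
    exact mul_mem (h53p_cst_mem_modelAt A t a'.2) hmem
  -- the trace argument
  have hgalA : ∀ σ ∈ A.inertiaSubgroupIn ℚ, ∀ x ∈ modelAt N A t,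
      gal N σ • x ∈ modelAt N A t := fun σ hσ x hx =>
    h53p_gal_mem_modelAt A t (h53p_inertia_map_mem A hσ) (htF σ hσ) hx
  obtain ⟨s₁, hs₁F, ⟨hs₁B, k₁, hs₁⟩, hs₁0, hs₁v⟩ := h53p_trace (A.inertiaSubgroupIn ℚ) v
    (h53pDenMod A q t f)
    (by
      rintro σ hσ x ⟨hx, k₁, hk₁⟩
      refine ⟨hgalA σ hσ x hx, k₁, ?_⟩
      have h1 := hgalA σ hσ _ hk₁
      have h2 : gal N σ • (cst N ((q : Kbar) ^ k₁) * (x * f))
          = cst N ((q : Kbar) ^ k₁) * (gal N σ • x * f) := by
        rw [smul_mul', smul_mul', hfF σ hσ, Fermat.Agent.S37.GalI.gal_smul_cst, map_pow,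
          map_natCast]
      rw [h2] at h1
      exact h1)
    (by
      rintro c hc x ⟨hx, k₁, hk₁⟩
      have hcB : cst N c ∈ modelAt N A t :=
        h53p_cst_mem_modelAt A t (h53p_mem_of_isIntegral A hc)
      refine ⟨mul_mem hx hcB, k₁, ?_⟩
      have e : cst N ((q : Kbar) ^ k₁) * (x * cst N c * f)
          = cst N c * (cst N ((q : Kbar) ^ k₁) * (x * f)) := by ring
      rw [e]
      exact mul_mem hcB hk₁)
    s₀ ⟨hs₀, k, hmem'⟩ hs₀0
    (by
      intro σ hσ
      rw [hs₀v]
      have h1 : gal N σ • s₀ ∈ v.toValuationSubring :=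
        (ModelO.h85_mem_modelAt_iff_forall N A t _).mp (hgalA σ hσ s₀ hs₀) v.toValuationSubring
          (fun a _ => v.algebraMap_mem' a) htv
      have h2 := (GGC97_le_one_iff v _).mpr h1
      rcases v.adicValuation_le_one_iff.mp h2 with h0 | h0
      · rw [h0, Place.ord_zero]
      · exact h0)
  -- conclusion
  have hqk0 : cst N ((q : Kbar) ^ k₁) ≠ 0 := by
    intro h
    have h1 := (map_eq_zero (algebraMap Kbar (FF N))).mp h
    exact pow_ne_zero k₁ (Nat.cast_ne_zero.mpr hq.ne_zero) h1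
  have hqkF : cst N ((q : Kbar) ^ k₁) ∈ h92c_F0 A N := by
    have h1 := h53p_natCast_mem_F0 (N := N) (A.inertiaSubgroupIn ℚ) (q ^ k₁)
    rwa [Nat.cast_pow] at h1
  have hqkB : cst N ((q : Kbar) ^ k₁) ∈ modelAt N A t :=
    h53p_cst_mem_modelAt A t (pow_mem (natCast_mem A q) _)
  refine ⟨cst N ((q : Kbar) ^ k₁) * s₁, ⟨mul_mem hqkB hs₁B, mul_mem hqkF hs₁F⟩,
    mul_ne_zero hqk0 hs₁0, ?_, ?_⟩
  · rw [Place.ord_mul v hqk0 hs₁0, Fermat.Agent.S24.DiffPlace.ord_algebraMap, zero_add, hs₁v,
      hs₀v]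
  · have e : cst N ((q : Kbar) ^ k₁) * s₁ * f = cst N ((q : Kbar) ^ k₁) * (s₁ * f) := by ring
    rw [e]
    exact ⟨hs₁, mul_mem hqkF (mul_mem hs₁F hfF)⟩

end Fermat.Agent.S36
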