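import Fermat.Agent.S36.H53Centre
import Fermat.Agent.S36.H53Unram
import Fermat.Agent.S36.H63ChartPkg
import Fermat.Agent.S36.H86LocOneIface

/-!
# S36, GATE / LOC (helper53): the datum at the horizontal primes of the charts over `A₀`

`A` a valuation subring of `ℚ̄` over `q`, `I` its inertia group, `F₀ = FF N ^ I`,
`B₀(t) = modelAt N A t ∩ F₀` (`h92c_Chart`), `t ∈ F₀` transcendental.

* `h53p_horDatum` : at a prime `𝔭 ≠ ⊥` of `B₀(t)` with `q ∉ 𝔭`, a function `w ∈ F₀`, `w ≠ 0`,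
  with `m ∣ div w` (over `ℚ̄`) is `g ^ m` times a unit of `B₀(t)_𝔭`, `g ∈ F₀`, and `g` is a
  fraction of elements of `B₀(t)`.
* `h53p_genDatum : H63GenDatum` (exact frozen Prop of `S36/H63ChartPkg.lean`, row G-GEN).
* `h53p_locHor : H86LocHor` (exact frozen Prop of `S36/H86LocOneIface.lean`, row LOC-HOR).

Proof: `𝔭` lies in the centre of a place `v` of `FF N` (`h53p_centre`); `v` has an
`I`-invariant uniformiser `t₀` (`h53u2_descUnram`); `g = t₀ ^ (ord_v w / m)`; the two functions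
`w / g ^ m`, `g ^ m / w` are `I`-invariant units at `v` and have denominators in `B₀(t)` which
are units at `v` (`h53p_den`).
-/

set_option autoImplicit false
set_option synthInstance.maxHeartbeats 400000
set_option linter.unusedSectionVars false

open AlgebraicCurve ModularCurve WithZero IsLocalRing

noncomputable section

namespace Fermat.Agent.S36

open Fermat.Agent.S37 (Kbar GQ FF cst gal modelAt jB auxLevel)
open Fermat.Agent.Red.Desc (Ge)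
open Fermat.Agent.Red Fermat.Agent.Red.GG

variable {N : ℕ} [NeZero N]

/-- every function of `F₀` is a fraction of elements of the chart `B₀(t)`, if there is a place
regular at `t`. -/
theorem h53p_isFrac {q : ℕ} (hq : q.Prime) (A : ValuationSubring Kbar) (hA : A.LiesOverPrime q)
    (t : FF N) (ht : Transcendental Kbar t) (htF : t ∈ h92c_F0 A N)
    (v : Place Kbar (FF N)) (htv : t ∈ v.toValuationSubring)
    (f : FF N) (hfF : f ∈ h92c_F0 A N) : h86l_IsFrac (h92c_Chart A N t) f := by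
  rcases eq_or_ne f 0 with rfl | hf0
  · exact ⟨0, 1, one_ne_zero, by simp⟩
  rcases v.toValuationSubring.mem_or_inv_mem f with hf | hf
  · obtain ⟨s, hsB, hs0, -, hsf⟩ := h53p_den hq A hA t ht htF v htv f hfF hf
    refine ⟨⟨s * f, hsf⟩, ⟨s, hsB⟩, fun h => hs0 (congrArg Subtype.val h), ?_⟩
    show f * s = s * f
    ring
  · obtain ⟨s, hsB, hs0, -, hsf⟩ := h53p_den hq A hA t ht htF v htv f⁻¹ (inv_mem hfF) hf
    refine ⟨⟨s, hsB⟩, ⟨s * f⁻¹, hsf⟩, fun h => ?_, ?_⟩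
    · have h1 : s * f⁻¹ = 0 := congrArg Subtype.val h
      exact mul_ne_zero hs0 (inv_ne_zero hf0) h1
    · show f * (s * f⁻¹) = s
      field_simp

/-- **the datum at a horizontal prime** of the chart `B₀(t)`. -/
theorem h53p_horDatum {q : ℕ} (hq : q.Prime) (A : ValuationSubring Kbar) (hA : A.LiesOverPrime q)
    (t : FF N) (ht : Transcendental Kbar t) (htF : t ∈ h92c_F0 A N)
    (𝔭 : Ideal (h92c_Chart A N t)) [h𝔭 : 𝔭.IsPrime] (hbot : 𝔭 ≠ ⊥)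
    (hq𝔭 : ((q : ℕ) : h92c_Chart A N t) ∉ 𝔭)
    (m : ℕ) (w : FF N) (hw0 : w ≠ 0) (hwF : w ∈ h92c_F0 A N)
    (hdiv : ∀ v : Place Kbar (FF N), (m : ℤ) ∣ v.ord w) :
    ∃ g : FF N, g ∈ h92c_F0 A N ∧ g ≠ 0 ∧ h86l_IsFrac (h92c_Chart A N t) g ∧
      ∃ s : h92c_Chart A N t, s ∉ 𝔭 ∧
        (s : FF N) * (w * (g ^ m)⁻¹) ∈ h92c_Chart A N t ∧
        (s : FF N) * (g ^ m * w⁻¹) ∈ h92c_Chart A N t := by
  obtain ⟨v, htv, hv𝔭⟩ := h53p_centre hq A hA t htF 𝔭 hbot hq𝔭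
  obtain ⟨t₀, ht₀F, ht₀⟩ := h53u2_descUnram N (A.inertiaSubgroupIn ℚ) v
  have ht₀0 : t₀ ≠ 0 := by
    rintro rfl
    rw [Place.ord_zero] at ht₀
    exact absurd ht₀ (by norm_num)
  obtain ⟨k, hk⟩ := hdiv v
  set g : FF N := t₀ ^ k with hg
  have hg0 : g ≠ 0 := zpow_ne_zero k ht₀0
  have hgF : g ∈ h92c_F0 A N := zpow_mem ht₀F k
  have hgm0 : g ^ m ≠ 0 := pow_ne_zero m hg0
  have hgm : v.ord (g ^ m) = v.ord w := by
    rw [Fermat.Agent.Red.Desc.ord_pow', hg, v.ord_zpow, ht₀, hk]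
    ring
  -- the two units at `v`
  have hf₁ : w * (g ^ m)⁻¹ ∈ v.toValuationSubring := by
    apply Fermat.Agent.S24.DiffPlace.mem_of_ord_nonneg
    rw [Place.ord_mul v hw0 (inv_ne_zero hgm0), Place.ord_inv, hgm]
    omega
  have hf₂ : g ^ m * w⁻¹ ∈ v.toValuationSubring := by
    apply Fermat.Agent.S24.DiffPlace.mem_of_ord_nonneg
    rw [Place.ord_mul v hgm0 (inv_ne_zero hw0), Place.ord_inv, hgm]
    omega
  have hf₁F : w * (g ^ m)⁻¹ ∈ h92c_F0 A N := mul_mem hwF (inv_mem (pow_mem hgF m))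
  have hf₂F : g ^ m * w⁻¹ ∈ h92c_F0 A N := mul_mem (pow_mem hgF m) (inv_mem hwF)
  obtain ⟨s₁, hs₁B, hs₁0, hs₁v, hs₁⟩ := h53p_den hq A hA t ht htF v htv _ hf₁F hf₁
  obtain ⟨s₂, hs₂B, hs₂0, hs₂v, hs₂⟩ := h53p_den hq A hA t ht htF v htv _ hf₂F hf₂
  refine ⟨g, hgF, hg0, h53p_isFrac hq A hA t ht htF v htv g hgF,
    ⟨s₁ * s₂, mul_mem hs₁B hs₂B⟩, ?_, ?_, ?_⟩
  · intro hmem
    rcases hv𝔭 _ hmem with h0 | h1
    · exact mul_ne_zero hs₁0 hs₂0 h0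
    · have h2 : v.ord (s₁ * s₂) = 0 := by
        rw [Place.ord_mul v hs₁0 hs₂0, hs₁v, hs₂v, add_zero]
      have h3 : (1 : ℤ) ≤ v.ord (s₁ * s₂) := h1
      omega
  · have e : s₁ * s₂ * (w * (g ^ m)⁻¹) = s₂ * (s₁ * (w * (g ^ m)⁻¹)) := by ring
    show s₁ * s₂ * (w * (g ^ m)⁻¹) ∈ h92c_Chart A N t
    rw [e]
    exact mul_mem hs₂B hs₁
  · have e : s₁ * s₂ * (g ^ m * w⁻¹) = s₁ * (s₂ * (g ^ m * w⁻¹)) := by ring
    show s₁ * s₂ * (g ^ m * w⁻¹) ∈ h92c_Chart A N t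
    rw [e]
    exact mul_mem hs₁B hs₂

/-- the chart `B₀(t)` is not a field. -/
theorem h53p_not_isField (A : ValuationSubring Kbar) (t : FF N) (ht : Transcendental Kbar t)
    (htF : t ∈ h92c_F0 A N) : ¬ IsField (h92c_Chart A N t) := by
  intro hfield
  have ht0 : t ≠ 0 := by
    rintro rfl
    exact ht isAlgebraic_zero
  have htB : t ∈ h92c_Chart A N t := h53p_t_mem_chart A t htF
  have hne : (⟨t, htB⟩ : h92c_Chart A N t) ≠ 0 := fun h => ht0 (congrArg Subtype.val h)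
  obtain ⟨y, hy⟩ := hfield.mul_inv_cancel hne
  have h1 : t * (y : FF N) = 1 := by
    have := congrArg (Subtype.val : h92c_Chart A N t → FF N) hy
    simpa using this
  have h2 : t⁻¹ = (y : FF N) := by
    rw [← mul_one t⁻¹, ← h1, ← mul_assoc, inv_mul_cancel₀ ht0, one_mul]
  have h3 : t⁻¹ ∈ modelAt N A t := by
    rw [h2]
    exact y.2.1
  have h4 : t⁻¹ ∈ modelAt N A t⁻¹ := ModelO.h85_self_mem_modelAt N A t⁻¹
  obtain ⟨a, -, ha⟩ := ModelO.h85_overlap N A t h3 h4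
  apply ht
  have h5 : t = cst N a⁻¹ := by
    have h6 : cst N a⁻¹ = (cst N a)⁻¹ := map_inv₀ (algebraMap Kbar (FF N)) a
    rw [h6, ← ha, inv_inv]
  rw [h5]
  exact isAlgebraic_algebraMap _

theorem h53p_jB_mem_F0 (A : ValuationSubring Kbar) : jB N ∈ h92c_F0 A N :=
  fun σ _ => Fermat.Agent.S37.GalI.gal_smul_jB σ

/-- **the datum at the closed points of the generic fibre**, any level, any chart. -/
theorem h53p_genDatum_at {q : ℕ} (hq : q.Prime) (A : ValuationSubring Kbar)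
    (hA : A.LiesOverPrime q)
    (t : FF N) (ht : Transcendental Kbar t) (htF : t ∈ h92c_F0 A N)
    (m : ℕ) (w : FF N) (hw0 : w ≠ 0) (hwF : w ∈ h92c_F0 A N)
    (hdiv : ∀ v : Place Kbar (FF N), (m : ℤ) ∣ v.ord w)
    (𝔫 : Ideal (h92c_Chart A N t)) (h𝔫 : 𝔫.IsMaximal)
    (hq𝔫 : ((q : ℕ) : h92c_Chart A N t) ∉ 𝔫) :
    ∃ g : FF N, g ∈ h92c_F0 A N ∧ g ≠ 0 ∧
      ∃ s : h92c_Chart A N t, s ∉ 𝔫 ∧
        (s : FF N) * (w * (g ^ m)⁻¹) ∈ h92c_Chart A N t ∧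
        (s : FF N) * (g ^ m * w⁻¹) ∈ h92c_Chart A N t := by
  have hbot : 𝔫 ≠ ⊥ := by
    rintro rfl
    exact h53p_not_isField A t ht htF (Ring.isField_iff_maximal_bot.mpr h𝔫)
  have : 𝔫.IsPrime := h𝔫.isPrime
  obtain ⟨g, hgF, hg0, -, s, hs, h1, h2⟩ :=
    h53p_horDatum hq A hA t ht htF 𝔫 hbot hq𝔫 m w hw0 hwF hdiv
  exact ⟨g, hgF, hg0, s, hs, h1, h2⟩

/-- **G-GEN.** -/
theorem h53p_genDatum : H63GenDatum := by
  intro q hq M _ _ _
  have : NeZero q := ⟨hq.ne_zero⟩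
  intro A hA m _ w hw0 hwF hdiv 𝔫 h𝔫 hq𝔫
  exact h53p_genDatum_at hq A hA (jB (M * q * q)) (GGC97_transcendental_jB (M * q * q))
    (h53p_jB_mem_F0 A) m w hw0 hwF hdiv 𝔫 h𝔫 hq𝔫

/-- **LOC-HOR at a chart.** -/
theorem h53p_locHorAt {q : ℕ} (hq : q.Prime) (A : ValuationSubring Kbar)
    (hA : A.LiesOverPrime q)
    (t : FF N) (ht : Transcendental Kbar t) (htF : t ∈ h92c_F0 A N) :
    H86LocHorAt A N q t := by
  intro 𝔭 h𝔭 hbot hq𝔭 m w hw0 hwF hdiv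
  have : 𝔭.IsPrime := h𝔭
  obtain ⟨g, -, hg0, hfrac, s, hs, h1, h2⟩ :=
    h53p_horDatum hq A hA t ht htF 𝔭 hbot hq𝔭 m w hw0 hwF hdiv
  exact ⟨g, hg0, hfrac, s, hs, h1, h2⟩

/-- **LOC-HOR.** -/
theorem h53p_locHor : H86LocHor := by
  intro q hq M _ _ _
  have : NeZero q := ⟨hq.ne_zero⟩
  intro A hA
  exact ⟨h53p_locHorAt hq A hA (jB (M * q * q)) (GGC97_transcendental_jB (M * q * q))
      (h53p_jB_mem_F0 A),
    h53p_locHorAt hq A hA (jB (M * q * q))⁻¹ (GGC97_transcendental_jB_inv (M * q * q))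
      (inv_mem (h53p_jB_mem_F0 A))⟩

end Fermat.Agent.S36
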