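import Fermat.Agent.S36.H53UnramTrace

/-!
# S36, GATE (helper53): the trace argument with values in a Galois stable module

Let `I` be a subgroup of `G_ℚ`, `v` a place of `F = FF N`, `S ⊆ F` an additive subgroup which is
stable under `I` and under multiplication by the algebraic integers, and `E ∈ S`, `E ≠ 0`, with
`ord_v E ≤ ord_v (σ E)` for all `σ ∈ I`.  Then there is an `I`-invariant `t ∈ S` with
`ord_v t = ord_v E`.

(`t = ∑_e e(a) · σ_e(E)`, the sum over the restrictions `e` to a field of definition `L` of the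
elements of `I`, for a suitable algebraic integer `a ∈ L`: Dedekind's independence of
characters.)
-/

set_option autoImplicit false

open AlgebraicCurve ModularCurve

noncomputable section

namespace Fermat.Agent.S36

open Fermat.Agent.S37 (Kbar GQ FF cst gal ValueAt)
open Fermat.Agent.Jac
open Fermat.Agent.Red.Desc (Ge)

variable {N : ℕ} [NeZero N]

set_option maxHeartbeats 1000000 in
/-- **the trace argument with values in a stable module.** -/
theorem h53p_trace (I : Subgroup GQ) (v : Place Kbar (FF N)) (S : AddSubgroup (FF N))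
    (hgal : ∀ σ ∈ I, ∀ x ∈ S, gal N σ • x ∈ S)
    (hcst : ∀ c : Kbar, IsIntegral ℤ c → ∀ x ∈ S, x * cst N c ∈ S)
    (E : FF N) (hES : E ∈ S) (hE0 : E ≠ 0)
    (hconj : ∀ σ ∈ I, v.ord E ≤ v.ord (gal N σ • E)) :
    ∃ t : FF N, t ∈ h53d_F0 N I ∧ t ∈ S ∧ t ≠ 0 ∧ v.ord t = v.ord E := by
  classical
  obtain ⟨L, hLfin, hL⟩ := h18_exists_fixing_field N E
  have hL' : ∀ σ : GQ, (∀ y ∈ L, σ y = y) → gal N σ • E = E := hL
  -- two automorphisms which agree on `L` act in the same way on `E`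
  have hagree : ∀ σ τ : GQ, h53u2_res L σ = h53u2_res L τ → gal N σ • E = gal N τ • E := by
    intro σ τ hστ
    have h1 : gal N (τ⁻¹ * σ) • E = E := by
      apply hL'
      intro y hy
      show τ⁻¹ (σ y) = y
      have h2 : σ y = τ y := DFunLike.congr_fun hστ (⟨y, hy⟩ : L)
      rw [h2]
      exact τ.symm_apply_apply y
    have h2 : gal N σ • E = gal N τ • (gal N (τ⁻¹ * σ) • E) := by
      rw [← mul_smul, ← h53u2_gal_mul, mul_inv_cancel_left]
    rw [h2, h1]
  -- the conjugates of `E`, indexed by the embeddings of `L`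
  let cE : (L →ₐ[ℚ] Kbar) → FF N := fun e =>
    if he : ∃ τ ∈ I, h53u2_res L τ = e then gal N he.choose • E else 0
  have hcE : ∀ τ ∈ I, cE (h53u2_res L τ) = gal N τ • E := by
    intro τ hτ
    have he : ∃ τ' ∈ I, h53u2_res L τ' = h53u2_res L τ := ⟨τ, hτ, rfl⟩
    show (if he : ∃ τ' ∈ I, h53u2_res L τ' = h53u2_res L τ then gal N he.choose • E else 0)
      = gal N τ • E
    rw [dif_pos he]
    exact hagree _ _ he.choose_spec.2
  let 𝓔 : Finset (L →ₐ[ℚ] Kbar) := Finset.univ.filter fun e => ∃ τ ∈ I, h53u2_res L τ = e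
  have hmem𝓔 : ∀ e, e ∈ 𝓔 ↔ ∃ τ ∈ I, h53u2_res L τ = e := by
    intro e
    simp [𝓔]
  let b : L → FF N := fun a => ∑ e ∈ 𝓔, cE e * cst N (e a)
  -- invariance
  have hinv : ∀ σ ∈ I, ∀ a : L, gal N σ • b a = b a := by
    intro σ hσ a
    have hterm : ∀ e ∈ 𝓔, gal N σ • (cE e * cst N (e a))
        = cE ((σ : Kbar →ₐ[ℚ] Kbar).comp e)
            * cst N (((σ : Kbar →ₐ[ℚ] Kbar).comp e) a) := by
      intro e he
      obtain ⟨τ, hτ, rfl⟩ := (hmem𝓔 e).mp he
      have hστ : σ * τ ∈ I := I.mul_mem hσ hτ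
      have hc : gal N σ • cst N (τ (a : Kbar)) = cst N (σ (τ (a : Kbar))) :=
        SemilinearAut.smul_algebraMap (gal N σ) _
      rw [hcE τ hτ, ← h53u2_res_mul, hcE (σ * τ) hστ, smul_mul', h53u2_gal_mul, mul_smul]
      congr 1
    show gal N σ • (∑ e ∈ 𝓔, cE e * cst N (e a)) = ∑ e ∈ 𝓔, cE e * cst N (e a)
    rw [Finset.smul_sum, Finset.sum_congr rfl hterm]
    refine Finset.sum_nbij' (fun e => (σ : Kbar →ₐ[ℚ] Kbar).comp e)
      (fun e => ((σ⁻¹ : GQ) : Kbar →ₐ[ℚ] Kbar).comp e) ?_ ?_ ?_ ?_ ?_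
    · intro e he
      obtain ⟨τ, hτ, rfl⟩ := (hmem𝓔 e).mp he
      exact (hmem𝓔 _).mpr ⟨σ * τ, I.mul_mem hσ hτ, rfl⟩
    · intro e he
      obtain ⟨τ, hτ, rfl⟩ := (hmem𝓔 e).mp he
      exact (hmem𝓔 _).mpr ⟨σ⁻¹ * τ, I.mul_mem (I.inv_mem hσ) hτ, rfl⟩
    · intro e _
      ext a
      show σ⁻¹ (σ (e a)) = e a
      exact σ.symm_apply_apply (e a)
    · intro e _
      ext a
      show σ (σ⁻¹ (e a)) = e a
      exact σ.apply_symm_apply (e a)
    · intro e _
      rfl
  -- membership in `S`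
  have hbS : ∀ a : L, IsIntegral ℤ a → b a ∈ S := by
    intro a ha
    refine S.sum_mem fun e he => ?_
    obtain ⟨τ, hτ, rfl⟩ := (hmem𝓔 e).mp he
    rw [hcE τ hτ]
    refine hcst _ ?_ _ (hgal τ hτ E hES)
    exact ha.map ((h53u2_res L τ).restrictScalars ℤ)
  -- the values `A e` of `cE e / E` at `v`
  have hval : ∀ e ∈ 𝓔, ∃ c : Kbar, Ge v (v.ord E + 1) (cE e - cst N c * E) := by
    intro e he
    obtain ⟨τ, hτ, rfl⟩ := (hmem𝓔 e).mp he
    rw [hcE τ hτ]
    have hτ0 : gal N τ • E ≠ 0 := by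
      intro h
      apply hE0
      have := congrArg (fun y => (gal N τ)⁻¹ • y) h
      simpa using this
    have hmem : gal N τ • E * E⁻¹ ∈ v.toValuationSubring := by
      apply Fermat.Agent.S24.DiffPlace.mem_of_ord_nonneg
      rw [Place.ord_mul v hτ0 (inv_ne_zero hE0), Place.ord_inv]
      have := hconj τ hτ
      omega
    obtain ⟨c, hc⟩ := Fermat.Agent.Red.Match.exists_valueAt v hmem
    refine ⟨c, ?_⟩
    have h1 : Ge v 1 (gal N τ • E * E⁻¹ - cst N c) := by
      have h2 : gal N τ • E * E⁻¹ - cst N c ∈ v.toValuationSubring.nonunits := hc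
      have h3 := v.toValuationSubring.nonunits_le h2
      have h4 : (⟨_, h3⟩ : v.toValuationSubring) ∈
          IsLocalRing.maximalIdeal v.toValuationSubring :=
        ValuationSubring.coe_mem_nonunits_iff.mp h2
      exact Fermat.Agent.Red.Desc.ge_one_of_mem_maximalIdeal h4
    have h5 : Ge v (v.ord E) E := Or.inr le_rfl
    have h6 := h5.mul h1
    have h7 : E * (gal N τ • E * E⁻¹ - cst N c) = gal N τ • E - cst N c * E := by
      rw [mul_sub, mul_comm E (gal N τ • E * E⁻¹), mul_assoc, inv_mul_cancel₀ hE0, mul_one,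
        mul_comm E]
    rw [h7] at h6
    exact h6
  let A : (L →ₐ[ℚ] Kbar) → Kbar := fun e =>
    if he : e ∈ 𝓔 then (hval e he).choose else 0
  have hA : ∀ e ∈ 𝓔, Ge v (v.ord E + 1) (cE e - cst N (A e) * E) := by
    intro e he
    show Ge v (v.ord E + 1) (cE e - cst N (if he : e ∈ 𝓔 then (hval e he).choose else 0) * E)
    rw [dif_pos he]
    exact (hval e he).choose_spec
  have h1mem : h53u2_res L 1 ∈ 𝓔 := (hmem𝓔 _).mpr ⟨1, I.one_mem, rfl⟩
  have hA1 : A (h53u2_res L 1) ≠ 0 := by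
    intro h0
    have h1 := hA _ h1mem
    have hz : cst N (0 : Kbar) = 0 := map_zero _
    have hg1 : gal N (1 : GQ) = 1 := map_one (arithmeticGalois (modularFunctionFieldFull N))
    rw [h0, hz, zero_mul, sub_zero, hcE 1 I.one_mem, hg1, one_smul] at h1
    exact Fermat.Agent.Red.Desc.not_ge_succ hE0 h1
  -- Dedekind
  have hne : ∃ a : L, ∑ e ∈ 𝓔, A e * e a ≠ 0 := by
    by_contra hcon
    have hcon' : ∀ a : L, ∑ e ∈ 𝓔, A e * e a = 0 := by
      intro a
      by_contra h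
      exact hcon ⟨a, h⟩
    have hli : LinearIndependent Kbar (fun e : L →ₐ[ℚ] Kbar => (h53u2_chi L e : L → Kbar)) :=
      (linearIndependent_monoidHom L Kbar).comp _ (h53u2_chi_injective L)
    have hsum : ∑ e ∈ 𝓔, A e • (h53u2_chi L e : L → Kbar) = 0 := by
      funext a
      rw [Finset.sum_apply]
      exact hcon' a
    exact hA1 (linearIndependent_iff'.mp hli 𝓔 A hsum (h53u2_res L 1) h1mem)
  have hne' : ∃ a : L, IsIntegral ℤ a ∧ ∑ e ∈ 𝓔, A e * e a ≠ 0 := by
    obtain ⟨a₀, ha₀⟩ := hne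
    have halg : IsAlgebraic ℤ a₀ := by
      have h1 : IsAlgebraic ℚ a₀ := Algebra.IsAlgebraic.isAlgebraic a₀
      exact (IsFractionRing.isAlgebraic_iff ℤ ℚ L).mpr h1
    obtain ⟨d, hd0, hdint⟩ := IsAlgebraic.exists_integral_multiple halg
    refine ⟨d • a₀, hdint, ?_⟩
    have h1 : ∀ e : L →ₐ[ℚ] Kbar, e (d • a₀) = (d : Kbar) * e a₀ := by
      intro e
      rw [zsmul_eq_mul, map_mul, map_intCast]
    have h2 : ∑ e ∈ 𝓔, A e * e (d • a₀) = (d : Kbar) * ∑ e ∈ 𝓔, A e * e a₀ := by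
      rw [Finset.mul_sum]
      refine Finset.sum_congr rfl fun e _ => ?_
      rw [h1]
      ring
    rw [h2]
    exact mul_ne_zero (Int.cast_ne_zero.mpr hd0) ha₀
  obtain ⟨a, hdint, ha⟩ := hne'
  set c₀ : Kbar := ∑ e ∈ 𝓔, A e * e a with hc₀
  have hc₀' : cst N c₀ ≠ 0 := by
    intro h
    apply ha
    exact (map_eq_zero (algebraMap Kbar (FF N))).mp h
  have hx0 : cst N c₀ * E ≠ 0 := mul_ne_zero hc₀' hE0
  have hxord : v.ord (cst N c₀ * E) = v.ord E := by
    rw [Place.ord_mul v hc₀' hE0, Fermat.Agent.S24.DiffPlace.ord_algebraMap, zero_add]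
  have hdiff : Ge v (v.ord E + 1) (cst N c₀ * E - b a) := by
    have h1 : cst N c₀ * E - b a = - ∑ e ∈ 𝓔, (cE e - cst N (A e) * E) * cst N (e a) := by
      show cst N c₀ * E - ∑ e ∈ 𝓔, cE e * cst N (e a) = _
      have hs : cst N (∑ e ∈ 𝓔, A e * e a) = ∑ e ∈ 𝓔, cst N (A e) * cst N (e a) :=
        (map_sum (algebraMap Kbar (FF N)) _ _).trans
          (Finset.sum_congr rfl fun e _ => map_mul (algebraMap Kbar (FF N)) _ _)
      rw [hc₀, hs, Finset.sum_mul, ← Finset.sum_sub_distrib, ← Finset.sum_neg_distrib]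
      refine Finset.sum_congr rfl fun e _ => ?_
      ring
    rw [h1]
    refine Fermat.Agent.Red.Desc.Ge.neg (Fermat.Agent.Red.Desc.Ge.sum _ fun e he => ?_)
    have := (hA e he).mul (h53u2_ge_cst v (e a))
    simpa using this
  have hfin := Fermat.Agent.Red.Desc.ord_eq_of_ge_sub (v := v) hx0 (by rw [hxord]; exact hdiff)
  have hb0 : b a ≠ 0 := hfin.1
  have hbord : v.ord (b a) = v.ord E := by rw [hfin.2, hxord]
  have hbF : b a ∈ h53d_F0 N I := fun σ hσ => hinv σ hσ a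
  have hbS' : b a ∈ S := hbS a hdint
  exact ⟨b a, hbF, hbS', hb0, hbord⟩

end Fermat.Agent.S36
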