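import Fermat.Agent.S36.H53DescIface
import Fermat.Agent.Jac.OS
import Fermat.Agent.Red.Desc.Val
import Fermat.Agent.Red.MatchLoc
import Fermat.Agent.S37.Inertia

/-!
# S36, block (D), leaf D-UNRAM, part 1 (helper53): the trace argument

Let `I` be a subgroup of `G_ℚ`, `v` a place of `F = FF N` and `E ∈ F` a function with
`ord_v E = 1` such that all conjugates `σ E`, `σ ∈ I`, vanish at `v`.  Then there is an
`I`-invariant function `t` with `ord_v t = 1`.

Proof: `E` is fixed by `Gal(ℚ̄ / L)` for a finite extension `L / ℚ`; for `a ∈ L` put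
`t_a = ∑_e e(a) · σ_e(E)`, the sum over the restrictions `e` to `L` of the elements of `I`.
Then `t_a` is `I`-invariant, and `t_a ≡ (∑_e A_e e(a)) E` modulo `𝔪_v ^ 2`, where `A_e` is the
value at `v` of `σ_e(E) / E`.  Since `A_1 = 1`, Dedekind's independence of characters gives an
`a` with `∑_e A_e e(a) ≠ 0`.
-/

set_option autoImplicit false

open AlgebraicCurve ModularCurve

noncomputable section

namespace Fermat.Agent.S36

open Fermat.Agent.S37 (Kbar GQ FF cst gal ValueAt)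
open Fermat.Agent.Jac
open Fermat.Agent.Red.Desc (Ge)

variable {N : ℕ} [NeZero N]

omit [NeZero N] in
theorem h53u2_gal_mul (σ τ : GQ) : gal N (σ * τ) = gal N σ * gal N τ :=
  map_mul (arithmeticGalois (modularFunctionFieldFull N)) σ τ

/-- restriction of an automorphism to an intermediate field. -/
def h53u2_res (L : IntermediateField ℚ Kbar) (σ : GQ) : L →ₐ[ℚ] Kbar :=
  (σ : Kbar →ₐ[ℚ] Kbar).comp L.val

theorem h53u2_res_apply (L : IntermediateField ℚ Kbar) (σ : GQ) (a : L) :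
    h53u2_res L σ a = σ (a : Kbar) := rfl

theorem h53u2_res_mul (L : IntermediateField ℚ Kbar) (σ τ : GQ) :
    h53u2_res L (σ * τ) = (σ : Kbar →ₐ[ℚ] Kbar).comp (h53u2_res L τ) := rfl

/-- the character `a ↦ e a` of the multiplicative monoid of `L`. -/
def h53u2_chi (L : IntermediateField ℚ Kbar) (e : L →ₐ[ℚ] Kbar) : L →* Kbar :=
  ((e : L →+* Kbar) : L →* Kbar)

theorem h53u2_chi_injective (L : IntermediateField ℚ Kbar) :
    Function.Injective (h53u2_chi L) := by
  intro e e' h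
  ext a
  exact DFunLike.congr_fun h a

omit [NeZero N] in
/-- constants have order `0`. -/
theorem h53u2_ge_cst (v : Place Kbar (FF N)) (c : Kbar) : Ge v 0 (cst N c) :=
  Fermat.Agent.Red.Desc.ge_zero_iff_mem.mpr (v.algebraMap_mem' c)

/-- **the trace argument.** -/
theorem h53u2_trace (I : Subgroup GQ) (v : Place Kbar (FF N)) (E : FF N)
    (hE : v.ord E = 1) (hconj : ∀ σ ∈ I, 1 ≤ v.ord (gal N σ • E)) :
    ∃ t : FF N, t ∈ h53d_F0 N I ∧ v.ord t = 1 := by
  classical
  have hE0 : E ≠ 0 := by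
    rintro rfl
    rw [Place.ord_zero] at hE
    exact absurd hE (by norm_num)
  obtain ⟨L, hLfin, hL⟩ := h18_exists_fixing_field N E
  have hL' : ∀ σ : GQ, (∀ y ∈ L, σ y = y) → gal N σ • E = E := hL
  -- two automorphisms which agree on `L` act in the same way on `E`
  have hagree : ∀ σ τ : GQ, h53u2_res L σ = h53u2_res L τ → gal N σ • E = gal N τ • E := by
    intro σ τ hστ
    have h1 : gal N (τ⁻¹ * σ) • E = E := by
      apply hL'
      intro y hy
      show τ⁻¹ (σ y) = y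
      have h2 : σ y = τ y := DFunLike.congr_fun hστ (⟨y, hy⟩ : L)
      rw [h2]
      exact τ.symm_apply_apply y
    have h2 : gal N σ • E = gal N τ • (gal N (τ⁻¹ * σ) • E) := by
      rw [← mul_smul, ← h53u2_gal_mul, mul_inv_cancel_left]
    rw [h2, h1]
  -- the conjugates of `E`, indexed by the embeddings of `L`
  let cE : (L →ₐ[ℚ] Kbar) → FF N := fun e =>
    if he : ∃ τ ∈ I, h53u2_res L τ = e then gal N he.choose • E else 0
  have hcE : ∀ τ ∈ I, cE (h53u2_res L τ) = gal N τ • E := by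
    intro τ hτ
    have he : ∃ τ' ∈ I, h53u2_res L τ' = h53u2_res L τ := ⟨τ, hτ, rfl⟩
    show (if he : ∃ τ' ∈ I, h53u2_res L τ' = h53u2_res L τ then gal N he.choose • E else 0)
      = gal N τ • E
    rw [dif_pos he]
    exact hagree _ _ he.choose_spec.2
  let 𝓔 : Finset (L →ₐ[ℚ] Kbar) := Finset.univ.filter fun e => ∃ τ ∈ I, h53u2_res L τ = e
  have hmem𝓔 : ∀ e, e ∈ 𝓔 ↔ ∃ τ ∈ I, h53u2_res L τ = e := by
    intro e
    simp [𝓔]
  let b : L → FF N := fun a => ∑ e ∈ 𝓔, cE e * cst N (e a)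
  -- invariance
  have hinv : ∀ σ ∈ I, ∀ a : L, gal N σ • b a = b a := by
    intro σ hσ a
    have hterm : ∀ e ∈ 𝓔, gal N σ • (cE e * cst N (e a))
        = cE ((σ : Kbar →ₐ[ℚ] Kbar).comp e)
            * cst N (((σ : Kbar →ₐ[ℚ] Kbar).comp e) a) := by
      intro e he
      obtain ⟨τ, hτ, rfl⟩ := (hmem𝓔 e).mp he
      have hστ : σ * τ ∈ I := I.mul_mem hσ hτ
      have hc : gal N σ • cst N (τ (a : Kbar)) = cst N (σ (τ (a : Kbar))) :=
        SemilinearAut.smul_algebraMap (gal N σ) _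
      rw [hcE τ hτ, ← h53u2_res_mul, hcE (σ * τ) hστ, smul_mul', h53u2_gal_mul, mul_smul]
      congr 1
    show gal N σ • (∑ e ∈ 𝓔, cE e * cst N (e a)) = ∑ e ∈ 𝓔, cE e * cst N (e a)
    rw [Finset.smul_sum, Finset.sum_congr rfl hterm]
    refine Finset.sum_nbij' (fun e => (σ : Kbar →ₐ[ℚ] Kbar).comp e)
      (fun e => ((σ⁻¹ : GQ) : Kbar →ₐ[ℚ] Kbar).comp e) ?_ ?_ ?_ ?_ ?_
    · intro e he
      obtain ⟨τ, hτ, rfl⟩ := (hmem𝓔 e).mp he
      exact (hmem𝓔 _).mpr ⟨σ * τ, I.mul_mem hσ hτ, rfl⟩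
    · intro e he
      obtain ⟨τ, hτ, rfl⟩ := (hmem𝓔 e).mp he
      exact (hmem𝓔 _).mpr ⟨σ⁻¹ * τ, I.mul_mem (I.inv_mem hσ) hτ, rfl⟩
    · intro e _
      ext a
      show σ⁻¹ (σ (e a)) = e a
      exact σ.symm_apply_apply (e a)
    · intro e _
      ext a
      show σ (σ⁻¹ (e a)) = e a
      exact σ.apply_symm_apply (e a)
    · intro e _
      rfl
  -- the values `A e` of `cE e / E` at `v`
  have hval : ∀ e ∈ 𝓔, ∃ c : Kbar, Ge v 2 (cE e - cst N c * E) := by
    intro e he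
    obtain ⟨τ, hτ, rfl⟩ := (hmem𝓔 e).mp he
    rw [hcE τ hτ]
    have hτ0 : gal N τ • E ≠ 0 := by
      intro h
      apply hE0
      have := congrArg (fun y => (gal N τ)⁻¹ • y) h
      simpa using this
    have hmem : gal N τ • E * E⁻¹ ∈ v.toValuationSubring := by
      apply Fermat.Agent.S24.DiffPlace.mem_of_ord_nonneg
      rw [Place.ord_mul v hτ0 (inv_ne_zero hE0), Place.ord_inv, hE]
      have := hconj τ hτ
      omega
    obtain ⟨c, hc⟩ := Fermat.Agent.Red.Match.exists_valueAt v hmem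
    refine ⟨c, ?_⟩
    have h1 : Ge v 1 (gal N τ • E * E⁻¹ - cst N c) := by
      have h2 : gal N τ • E * E⁻¹ - cst N c ∈ v.toValuationSubring.nonunits := hc
      have h3 := v.toValuationSubring.nonunits_le h2
      have h4 : (⟨_, h3⟩ : v.toValuationSubring) ∈
          IsLocalRing.maximalIdeal v.toValuationSubring :=
        ValuationSubring.coe_mem_nonunits_iff.mp h2
      exact Fermat.Agent.Red.Desc.ge_one_of_mem_maximalIdeal h4
    have h5 : Ge v 1 E := Or.inr (by omega)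
    have h6 := h1.mul h5
    have h7 : (gal N τ • E * E⁻¹ - cst N c) * E = gal N τ • E - cst N c * E := by
      rw [sub_mul, mul_assoc, inv_mul_cancel₀ hE0, mul_one]
    rw [h7] at h6
    exact h6
  let A : (L →ₐ[ℚ] Kbar) → Kbar := fun e =>
    if he : e ∈ 𝓔 then (hval e he).choose else 0
  have hA : ∀ e ∈ 𝓔, Ge v 2 (cE e - cst N (A e) * E) := by
    intro e he
    show Ge v 2 (cE e - cst N (if he : e ∈ 𝓔 then (hval e he).choose else 0) * E)
    rw [dif_pos he]
    exact (hval e he).choose_spec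
  have h1mem : h53u2_res L 1 ∈ 𝓔 := (hmem𝓔 _).mpr ⟨1, I.one_mem, rfl⟩
  have hA1 : A (h53u2_res L 1) ≠ 0 := by
    intro h0
    have h1 := hA _ h1mem
    have hz : cst N (0 : Kbar) = 0 := map_zero _
    have hg1 : gal N (1 : GQ) = 1 := map_one (arithmeticGalois (modularFunctionFieldFull N))
    rw [h0, hz, zero_mul, sub_zero, hcE 1 I.one_mem, hg1, one_smul] at h1
    rcases h1 with h1 | h1
    · exact hE0 h1
    · omega
  -- Dedekind
  have hne : ∃ a : L, ∑ e ∈ 𝓔, A e * e a ≠ 0 := by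
    by_contra hcon
    have hcon' : ∀ a : L, ∑ e ∈ 𝓔, A e * e a = 0 := by
      intro a
      by_contra h
      exact hcon ⟨a, h⟩
    have hli : LinearIndependent Kbar (fun e : L →ₐ[ℚ] Kbar => (h53u2_chi L e : L → Kbar)) :=
      (linearIndependent_monoidHom L Kbar).comp _ (h53u2_chi_injective L)
    have hsum : ∑ e ∈ 𝓔, A e • (h53u2_chi L e : L → Kbar) = 0 := by
      funext a
      rw [Finset.sum_apply]
      exact hcon' a
    exact hA1 (linearIndependent_iff'.mp hli 𝓔 A hsum (h53u2_res L 1) h1mem)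
  obtain ⟨a, ha⟩ := hne
  refine ⟨b a, fun σ hσ => hinv σ hσ a, ?_⟩
  set c₀ : Kbar := ∑ e ∈ 𝓔, A e * e a with hc₀
  have hc₀' : cst N c₀ ≠ 0 := by
    intro h
    apply ha
    exact (map_eq_zero (algebraMap Kbar (FF N))).mp h
  have hx0 : cst N c₀ * E ≠ 0 := mul_ne_zero hc₀' hE0
  have hxord : v.ord (cst N c₀ * E) = 1 := by
    rw [Place.ord_mul v hc₀' hE0, Fermat.Agent.S24.DiffPlace.ord_algebraMap, zero_add, hE]
  have hdiff : Ge v 2 (cst N c₀ * E - b a) := by
    have h1 : cst N c₀ * E - b a = - ∑ e ∈ 𝓔, (cE e - cst N (A e) * E) * cst N (e a) := by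
      show cst N c₀ * E - ∑ e ∈ 𝓔, cE e * cst N (e a) = _
      have hs : cst N (∑ e ∈ 𝓔, A e * e a) = ∑ e ∈ 𝓔, cst N (A e) * cst N (e a) :=
        (map_sum (algebraMap Kbar (FF N)) _ _).trans
          (Finset.sum_congr rfl fun e _ => map_mul (algebraMap Kbar (FF N)) _ _)
      rw [hc₀, hs, Finset.sum_mul, ← Finset.sum_sub_distrib, ← Finset.sum_neg_distrib]
      refine Finset.sum_congr rfl fun e _ => ?_
      ring
    rw [h1]
    refine Fermat.Agent.Red.Desc.Ge.neg (Fermat.Agent.Red.Desc.Ge.sum _ fun e he => ?_)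
    have := (hA e he).mul (h53u2_ge_cst v (e a))
    simpa using this
  have hfin := Fermat.Agent.Red.Desc.ord_eq_of_ge_sub (v := v) hx0 (by rw [hxord]; exact hdiff)
  rw [hfin.2, hxord]

end Fermat.Agent.S36
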