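import Mathlib

/-!
# S36, block (N), leaf N-EMB (helper55): the abstract counting lemma (Mathlib only)

Tower `F₀ → F₁ → F₂` (`α₀ = algebraMap F₀ F₁`, `α = algebraMap F₁ F₂`), second maps
`β₀ : F₀ → F₁`, `β : F₁ → F₂` with `α ∘ β₀ = β ∘ α₀`, `F₂` generated by `α F₁ ∪ β F₁`,
`[F₁ : F₀] = [F₂ : F₁] + 1`, all finite separable.  Let `φ : F₁ → L` be an embedding.
Every embedding `E` of `F₂` (into an algebraic closure `Ω` of `L`) with `E ∘ α = φ` has
`(E ∘ β) ∘ α₀ = φ ∘ β₀`; there are `[F₂ : F₁]` such `E`, they are determined by `E ∘ β`, and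
there are `[F₁ : F₀] = [F₂ : F₁] + 1` embeddings `e` of `F₁` with `e ∘ α₀ = φ ∘ β₀`.  Hence
exactly one `e` is *not* of the form `E ∘ β`.  If `ex` is known to be excluded, every other
`e` (with values in `L`) is `E ∘ β` for an embedding `E : F₂ → L` with `E ∘ α = φ`.
-/

set_option autoImplicit false
set_option linter.style.haveILetI false

noncomputable section

namespace Fermat.Agent.S36

section Abs

universe u

variable {F₀ F₁ F₂ : Type*} {L : Type u} [Field F₀] [Field F₁] [Field F₂] [Field L]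

/-- a ring homomorphism into `Ω` with values in the range of `ι : L → Ω` descends to `L`. -/
theorem h55e_descend {Ω : Type*} [Field Ω] (ι : L →+* Ω) (E : F₂ →+* Ω)
    (h : ∀ x, ∃ y, ι y = E x) : ∃ E' : F₂ →+* L, ∀ x, ι (E' x) = E x := by
  choose g hg using h
  refine ⟨{ toFun := g, map_one' := ?_, map_mul' := ?_, map_zero' := ?_, map_add' := ?_ }, hg⟩
  · apply ι.injective
    rw [hg, map_one, map_one]
  · intro x y
    apply ι.injective
    rw [hg, map_mul, map_mul, hg, hg]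
  · apply ι.injective
    rw [hg, map_zero, map_zero]
  · intro x y
    apply ι.injective
    rw [hg, map_add, map_add, hg, hg]

variable [Algebra F₀ F₁] [Algebra F₁ F₂] [FiniteDimensional F₀ F₁] [FiniteDimensional F₁ F₂]
  [Algebra.IsSeparable F₀ F₁] [Algebra.IsSeparable F₁ F₂]

/-- **the counting lemma.** -/
theorem h55e_exists_emb (β₀ : F₀ →+* F₁) (β : F₁ →+* F₂)
    (hcomm : ∀ x, algebraMap F₁ F₂ (β₀ x) = β (algebraMap F₀ F₁ x))
    (hgen : Subfield.closure (Set.range (algebraMap F₁ F₂) ∪ Set.range β) = ⊤)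
    (hdeg : Module.finrank F₀ F₁ = Module.finrank F₁ F₂ + 1)
    (φ e ex : F₁ →+* L)
    (he : ∀ x, e (algebraMap F₀ F₁ x) = φ (β₀ x))
    (hex : ∀ x, ex (algebraMap F₀ F₁ x) = φ (β₀ x))
    (hne : e ≠ ex)
    (a b : F₁) (hab : algebraMap F₁ F₂ a ≠ β b) (hφ : φ a = ex b) :
    ∃ E : F₂ →+* L, (∀ x, E (algebraMap F₁ F₂ x) = φ x) ∧ (∀ x, E (β x) = e x) := by
  classical
  let Ω := AlgebraicClosure L
  let ι : L →+* Ω := algebraMap L Ω
  letI i1 : Algebra F₁ Ω := (ι.comp φ).toAlgebra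
  letI i0 : Algebra F₀ Ω := (ι.comp (φ.comp β₀)).toAlgebra
  have h1 : ∀ x : F₁, algebraMap F₁ Ω x = ι (φ x) := fun _ => rfl
  have h0 : ∀ x : F₀, algebraMap F₀ Ω x = ι (φ (β₀ x)) := fun _ => rfl
  -- the map `E ↦ E ∘ β`
  let Φ : (F₂ →ₐ[F₁] Ω) → (F₁ →ₐ[F₀] Ω) := fun E =>
    { (E : F₂ →+* Ω).comp β with
      commutes' := fun r => by
        show E (β (algebraMap F₀ F₁ r)) = algebraMap F₀ Ω r
        rw [← hcomm, E.commutes, h1, h0] }
  have hΦ : ∀ (E : F₂ →ₐ[F₁] Ω) (x : F₁), Φ E x = E (β x) := fun _ _ => rfl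
  have hΦinj : Function.Injective Φ := by
    intro E E' hEE
    have hsub : (⊤ : Subfield F₂) ≤ RingHom.eqLocusField (E : F₂ →+* Ω) (E' : F₂ →+* Ω) := by
      rw [← hgen, Subfield.closure_le]
      rintro x (⟨y, rfl⟩ | ⟨y, rfl⟩)
      · show E (algebraMap F₁ F₂ y) = E' (algebraMap F₁ F₂ y)
        rw [E.commutes, E'.commutes]
      · show E (β y) = E' (β y)
        rw [← hΦ E, ← hΦ E', hEE]
    ext x
    exact hsub (Subfield.mem_top x)
  -- the two distinguished elements of the target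
  let eT : F₁ →ₐ[F₀] Ω :=
    { ι.comp e with
      commutes' := fun r => by
        show ι (e (algebraMap F₀ F₁ r)) = algebraMap F₀ Ω r
        rw [he, h0] }
  let exT : F₁ →ₐ[F₀] Ω :=
    { ι.comp ex with
      commutes' := fun r => by
        show ι (ex (algebraMap F₀ F₁ r)) = algebraMap F₀ Ω r
        rw [hex, h0] }
  have heT : ∀ x, eT x = ι (e x) := fun _ => rfl
  have hexT : ∀ x, exT x = ι (ex x) := fun _ => rfl
  have hneT : eT ≠ exT := by
    intro h
    apply hne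
    ext x
    apply ι.injective
    rw [← heT, ← hexT, h]
  have hexcl : exT ∉ Finset.univ.image Φ := by
    intro h
    obtain ⟨E, -, hE⟩ := Finset.mem_image.mp h
    apply hab
    apply (E : F₂ →+* Ω).injective
    show E (algebraMap F₁ F₂ a) = E (β b)
    rw [E.commutes, h1, ← hΦ, hE, hexT, hφ]
  have hcard2 : Fintype.card (F₂ →ₐ[F₁] Ω) = Module.finrank F₁ F₂ := AlgHom.card F₁ F₂ Ω
  have hcard1 : Fintype.card (F₁ →ₐ[F₀] Ω) = Module.finrank F₀ F₁ := AlgHom.card F₀ F₁ Ω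
  have hsub : Finset.univ.image Φ ⊆ Finset.univ.erase exT := by
    intro x hx
    refine Finset.mem_erase.mpr ⟨?_, Finset.mem_univ _⟩
    rintro rfl
    exact hexcl hx
  have hle : (Finset.univ.erase exT).card ≤ (Finset.univ.image Φ).card := by
    rw [Finset.card_image_of_injective _ hΦinj, Finset.card_univ, hcard2,
      Finset.card_erase_of_mem (Finset.mem_univ _), Finset.card_univ, hcard1, hdeg]
    simp
  have heq := Finset.eq_of_subset_of_card_le hsub hle
  have hmem : eT ∈ Finset.univ.image Φ := by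
    rw [heq]
    exact Finset.mem_erase.mpr ⟨hneT, Finset.mem_univ _⟩
  obtain ⟨E, -, hE⟩ := Finset.mem_image.mp hmem
  -- `E` takes its values in `L`
  have hrange : ∀ x : F₂, ∃ y, ι y = E x := by
    have hsub : (⊤ : Subfield F₂) ≤ (ι.fieldRange).comap (E : F₂ →+* Ω) := by
      rw [← hgen, Subfield.closure_le]
      rintro x (⟨y, rfl⟩ | ⟨y, rfl⟩)
      · show E (algebraMap F₁ F₂ y) ∈ ι.fieldRange
        rw [E.commutes, h1]
        exact ⟨_, rfl⟩
      · show E (β y) ∈ ι.fieldRange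
        rw [← hΦ, hE, heT]
        exact ⟨_, rfl⟩
    intro x
    exact hsub (Subfield.mem_top x)
  obtain ⟨E', hE'⟩ := h55e_descend ι (E : F₂ →+* Ω) hrange
  refine ⟨E', ?_, ?_⟩
  · intro x
    apply ι.injective
    rw [hE']
    show E (algebraMap F₁ F₂ x) = _
    rw [E.commutes, h1]
  · intro x
    apply ι.injective
    rw [hE']
    show E (β x) = _
    rw [← hΦ, hE, heT]

/-- **the counting lemma**, with the structure maps given as explicit ring homomorphisms. -/
theorem h55e_exists_emb' (α₀ β₀ : F₀ →+* F₁) (α β : F₁ →+* F₂)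
    (hα₀ : ∀ x, algebraMap F₀ F₁ x = α₀ x) (hα : ∀ x, algebraMap F₁ F₂ x = α x)
    (hcomm : ∀ x, α (β₀ x) = β (α₀ x))
    (hgen : Subfield.closure (Set.range α ∪ Set.range β) = ⊤)
    (hdeg : Module.finrank F₀ F₁ = Module.finrank F₁ F₂ + 1)
    (φ e ex : F₁ →+* L)
    (he : ∀ x, e (α₀ x) = φ (β₀ x))
    (hex : ∀ x, ex (α₀ x) = φ (β₀ x))
    (hne : e ≠ ex)
    (a b : F₁) (hab : α a ≠ β b) (hφ : φ a = ex b) :
    ∃ E : F₂ →+* L, (∀ x, E (α x) = φ x) ∧ (∀ x, E (β x) = e x) := by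
  have h0 : algebraMap F₀ F₁ = α₀ := RingHom.ext hα₀
  have h1 : algebraMap F₁ F₂ = α := RingHom.ext hα
  subst h0
  subst h1
  exact h55e_exists_emb β₀ β hcomm hgen hdeg φ e ex he hex hne a b hab hφ

end Abs

end Fermat.Agent.S36
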