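import Fermat.Agent.S36.H20NormSkel
import Fermat.Agent.S36.H55EmbAbs
import Fermat.Agent.S36.H71NormBeta

/-!
# S36, block (N), leaf N-EMB (helper55): `H20EmbExists`

The embeddings `E11^ζ` (`ζ ≠ 1`, `ζ ^ q = 1`) and `E02` of `F₂ = FF (M q q)` into `ℚ̄((t))`
exist.  Proof by counting (`h55e_exists_emb`): `[F₂ : α F₁] = q`, `[F₁ : α₀ F₀] = q + 1`,
`F₂ = α F₁ · β F₁`; the embeddings `E` of `F₂` with prescribed `E ∘ α = φ` inject by
`E ↦ E ∘ β` into the `q + 1` embeddings `e` of `F₁` with `e ∘ α₀ = φ ∘ β₀`, and the excluded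
one is identified by `j(t) ≠ j(t^(q²))`.
-/

set_option autoImplicit false
set_option linter.style.haveILetI false
set_option linter.unusedSectionVars false

open AlgebraicCurve ModularCurve

noncomputable section

namespace Fermat.Agent.S36

open Fermat.Agent.S24 Fermat.Agent.Red.Kron Fermat.Agent.Red.HKComm

section Level

variable (N q : ℕ) [NeZero N] [NeZero q]

/-- **degree along `α` at `q ∣ N`.** -/
theorem h55e_finrank_alpha (hq : q.Prime) (hqN : q ∣ N) :
    letI := algebraAlong (heckeAlphaBar Kbar N q)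
    Module.finrank (FF N) (FF (N * q)) = q := by
  have hdiv : N * 1 ∣ N * q := by rw [mul_one]; exact dvd_mul_right N q
  have h := deg N (N * q) hdiv
  rw [hkdeg_psi_mul_prime N q (Nat.pos_of_ne_zero (NeZero.ne N)) hq, if_pos hqN, mul_comm] at h
  have hN : dedekindPsi N ≠ 0 := hksq_dedekindPsi_ne_zero N (NeZero.ne N)
  have h2 := Nat.eq_of_mul_eq_mul_left (Nat.pos_of_ne_zero hN) h
  rw [← heckeAlphaBar_eq_degenE] at h2
  exact h2

/-- `F_{Nq}` is generated by `α F_N` and `β F_N`. -/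
theorem h55e_closure (hq : q.Prime) :
    Subfield.closure (Set.range (heckeAlphaBar Kbar N q : FF N → FF (N * q)) ∪
      Set.range (heckeBetaBar Kbar N q : FF N → FF (N * q))) = ⊤ := by
  rw [eq_top_iff]
  intro f _
  refine kFF_induction_ab N q hq (P := fun f => f ∈ Subfield.closure
    (Set.range (heckeAlphaBar Kbar N q : FF N → FF (N * q)) ∪
      Set.range (heckeBetaBar Kbar N q : FF N → FF (N * q)))) ?_ ?_ ?_ ?_ ?_ ?_ f
  · intro a
    apply Subfield.subset_closure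
    left
    exact ⟨cst N a, (heckeAlphaBar Kbar N q).commutes a⟩
  · intro x
    exact Subfield.subset_closure (Or.inl ⟨x, rfl⟩)
  · intro x
    exact Subfield.subset_closure (Or.inr ⟨x, rfl⟩)
  · intro x y hx hy
    exact Subfield.add_mem _ hx hy
  · intro x hx
    exact Subfield.inv_mem _ hx
  · intro x y hx hy
    exact Subfield.mul_mem _ hx hy

end Level

section Main

variable (M q : ℕ) [NeZero M] [NeZero q]

/-- `α₀ : F₀ → F₁` as a ring homomorphism. -/
def h55eA0 : FF M →+* FF (M * q) := (heckeAlphaBar Kbar M q).toRingHom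

/-- `β₀ : F₀ → F₁` as a ring homomorphism. -/
def h55eB0 : FF M →+* FF (M * q) := (heckeBetaBar Kbar M q).toRingHom

/-- `α : F₁ → F₂` as a ring homomorphism. -/
def h55eA : FF (M * q) →+* FF (M * q * q) := (heckeAlphaBar Kbar (M * q) q).toRingHom

/-- `β : F₁ → F₂` as a ring homomorphism. -/
def h55eB : FF (M * q) →+* FF (M * q * q) := (heckeBetaBar Kbar (M * q) q).toRingHom

theorem h55eA0_apply (x : FF M) : h55eA0 M q x = heckeAlphaBar Kbar M q x := rfl

theorem h55eB0_apply (x : FF M) : h55eB0 M q x = heckeBetaBar Kbar M q x := rfl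

theorem h55eA_apply (x : FF (M * q)) : h55eA M q x = heckeAlphaBar Kbar (M * q) q x := rfl

theorem h55eB_apply (x : FF (M * q)) : h55eB M q x = heckeBetaBar Kbar (M * q) q x := rfl

theorem h55e_algebraMap0 (x : FF M) :
    letI := algebraAlong (heckeAlphaBar Kbar M q)
    algebraMap (FF M) (FF (M * q)) x = h55eA0 M q x := rfl

theorem h55e_algebraMap1 (x : FF (M * q)) :
    letI := algebraAlong (heckeAlphaBar Kbar (M * q) q)
    algebraMap (FF (M * q)) (FF (M * q * q)) x = h55eA M q x := rfl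

/-- `α ∘ β₀ = β ∘ α₀`. -/
theorem h55e_comm (x : FF M) : h55eA M q (h55eB0 M q x) = h55eB M q (h55eA0 M q x) := by
  rw [h55eA_apply, h55eB0_apply, h55eB_apply, h55eA0_apply]
  apply Subtype.ext
  rw [coe_heckeAlphaBar, coe_heckeBetaBar, coe_heckeBetaBar, coe_heckeAlphaBar]

theorem h55e_gen (hq : q.Prime) :
    Subfield.closure (Set.range (h55eA M q) ∪ Set.range (h55eB M q)) = ⊤ :=
  h55e_closure (M * q) q hq

/-- the standard embedding of `F₁`. -/
def h55eCoe : FF (M * q) →+* LaurentSeries Kbar :=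
  algebraMap (FF (M * q)) (LaurentSeries Kbar)

theorem h55eCoe_apply (x : FF (M * q)) : h55eCoe M q x = (x : LaurentSeries Kbar) := rfl

/-- `x ↦ (w x)(t)`. -/
def h55eW (hq : q.Prime) (hqM : ¬ q ∣ M) : FF (M * q) →+* LaurentSeries Kbar :=
  (h55eCoe M q).comp (kFricke M q hq hqM).toAlgHom.toRingHom

theorem h55eW_apply (hq : q.Prime) (hqM : ¬ q ∣ M) (x : FF (M * q)) :
    h55eW M q hq hqM x = ((kFricke M q hq hqM x : FF (M * q)) : LaurentSeries Kbar) := rfl

/-- `x ↦ (w x)(ζ t)`. -/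
def h55eWT (hq : q.Prime) (hqM : ¬ q ∣ M) (ζ : Kbar) (hζ : ζ ≠ 0) :
    FF (M * q) →+* LaurentSeries Kbar :=
  (twistHom ζ hζ).comp (h55eW M q hq hqM)

theorem h55eWT_apply (hq : q.Prime) (hqM : ¬ q ∣ M) (ζ : Kbar) (hζ : ζ ≠ 0) (x : FF (M * q)) :
    h55eWT M q hq hqM ζ hζ x =
      twistK ζ ((kFricke M q hq hqM x : FF (M * q)) : LaurentSeries Kbar) := rfl

/-- `x ↦ (w x)(t^q)`. -/
def h55eWQ (hq : q.Prime) (hqM : ¬ q ∣ M) : FF (M * q) →+* LaurentSeries Kbar :=
  (qExpand Kbar q).comp (h55eW M q hq hqM)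

theorem h55eWQ_apply (hq : q.Prime) (hqM : ¬ q ∣ M) (x : FF (M * q)) :
    h55eWQ M q hq hqM x =
      qExpand Kbar q ((kFricke M q hq hqM x : FF (M * q)) : LaurentSeries Kbar) := rfl

/-- `x ↦ x(t^q)`. -/
def h55eQ : FF (M * q) →+* LaurentSeries Kbar :=
  (qExpand Kbar q).comp (h55eCoe M q)

theorem h55eQ_apply (x : FF (M * q)) :
    h55eQ M q x = qExpand Kbar q (x : LaurentSeries Kbar) := rfl

theorem h55e_coeff_j_alpha :
    ((heckeAlphaBar Kbar M q (jBar M) : FF (M * q)) : LaurentSeries Kbar).coeff (-1) = 1 := by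
  rw [coe_heckeAlphaBar]
  exact h71m_coeff_jBar_neg_one M

theorem h55e_coeff_qExpand (hq : q.Prime) (s : LaurentSeries Kbar) :
    (qExpand Kbar q s).coeff (-1) = 0 := by
  apply qExpand_coeff_of_not_dvd
  intro h
  have h1 : (q : ℤ) ∣ 1 := (Int.dvd_neg).mp h
  have h2 : q ∣ 1 := by exact_mod_cast h1
  exact hq.one_lt.ne' (Nat.dvd_one.mp h2)

/-- `α (α₀ j) ≠ β (β₀ j)`: `j(t) ≠ j(t^(q²))`. -/
theorem h55e_ab_ne (hq : q.Prime) :
    h55eA M q (h55eA0 M q (jBar M)) ≠ h55eB M q (h55eB0 M q (jBar M)) := by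
  intro h
  rw [h55eA_apply, h55eB0_apply, h55eB_apply, h55eA0_apply] at h
  have h1 := congrArg (fun f : FF (M * q * q) => (f : LaurentSeries Kbar).coeff (-1)) h
  simp only [coe_heckeAlphaBar, coe_heckeBetaBar] at h1
  rw [h55e_coeff_qExpand q hq, h71m_coeff_jBar_neg_one M] at h1
  exact one_ne_zero h1

/-! ### the hypotheses of the counting lemma -/

theorem h55e_he11 (hq : q.Prime) (hqM : ¬ q ∣ M) (ζ : Kbar) (hζ : ζ ≠ 0) (hζq : ζ ^ q = 1)
    (x : FF M) : h55eWT M q hq hqM ζ hζ (h55eA0 M q x) = h55eCoe M q (h55eB0 M q x) := by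
  rw [h55eWT_apply, h55eCoe_apply, h55eA0_apply, h55eB0_apply, kFricke_alpha,
    coe_heckeBetaBar, twistK_qExpand q hζq]

theorem h55e_hex11 (hq : q.Prime) (hqM : ¬ q ∣ M) (x : FF M) :
    h55eW M q hq hqM (h55eA0 M q x) = h55eCoe M q (h55eB0 M q x) := by
  rw [h55eW_apply, h55eCoe_apply, h55eA0_apply, h55eB0_apply, kFricke_alpha]

theorem h55e_hne11 (hq : q.Prime) (hqM : ¬ q ∣ M) (ζ : Kbar) (hζ : ζ ≠ 0) (hζ1 : ζ ≠ 1) :
    h55eWT M q hq hqM ζ hζ ≠ h55eW M q hq hqM := by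
  intro h
  have h1 : (h55eWT M q hq hqM ζ hζ (heckeBetaBar Kbar M q (jBar M))).coeff (-1) =
      (h55eW M q hq hqM (heckeBetaBar Kbar M q (jBar M))).coeff (-1) := by rw [h]
  rw [h55eWT_apply, h55eW_apply, coeff_twistK, kFricke_beta, h55e_coeff_j_alpha, one_mul,
    zpow_neg_one] at h1
  exact hζ1 (inv_eq_one.mp h1)

theorem h55e_hphi11 (hq : q.Prime) (hqM : ¬ q ∣ M) :
    h55eCoe M q (h55eA0 M q (jBar M)) = h55eW M q hq hqM (h55eB0 M q (jBar M)) := by
  rw [h55eW_apply, h55eCoe_apply, h55eA0_apply, h55eB0_apply, kFricke_beta]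

theorem h55e_he02 (hq : q.Prime) (hqM : ¬ q ∣ M) (x : FF M) :
    h55eW M q hq hqM (h55eA0 M q x) = h55eWQ M q hq hqM (h55eB0 M q x) := by
  rw [h55eW_apply, h55eWQ_apply, h55eA0_apply, h55eB0_apply, kFricke_alpha, kFricke_beta,
    coe_heckeBetaBar, coe_heckeAlphaBar]

theorem h55e_hex02 (hq : q.Prime) (hqM : ¬ q ∣ M) (x : FF M) :
    h55eQ M q (h55eA0 M q x) = h55eWQ M q hq hqM (h55eB0 M q x) := by
  rw [h55eQ_apply, h55eWQ_apply, h55eA0_apply, h55eB0_apply, kFricke_beta]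

theorem h55e_hne02 (hq : q.Prime) (hqM : ¬ q ∣ M) : h55eW M q hq hqM ≠ h55eQ M q := by
  intro h
  have h1 : (h55eW M q hq hqM (heckeBetaBar Kbar M q (jBar M))).coeff (-1) =
      (h55eQ M q (heckeBetaBar Kbar M q (jBar M))).coeff (-1) := by rw [h]
  rw [h55eW_apply, h55eQ_apply, kFricke_beta, h55e_coeff_j_alpha,
    h55e_coeff_qExpand q hq] at h1
  exact one_ne_zero h1

theorem h55e_hphi02 (hq : q.Prime) (hqM : ¬ q ∣ M) :
    h55eWQ M q hq hqM (h55eA0 M q (jBar M)) = h55eQ M q (h55eB0 M q (jBar M)) := by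
  rw [h55eWQ_apply, h55eQ_apply, h55eA0_apply, h55eB0_apply, kFricke_alpha]

/-- the counting lemma at the levels `M`, `M q`, `M q q`. -/
theorem h55e_count (hq : q.Prime) (hqM : ¬ q ∣ M) (φ e ex : FF (M * q) →+* LaurentSeries Kbar)
    (he : ∀ x, e (h55eA0 M q x) = φ (h55eB0 M q x))
    (hex : ∀ x, ex (h55eA0 M q x) = φ (h55eB0 M q x))
    (hne : e ≠ ex)
    (hφ : φ (h55eA0 M q (jBar M)) = ex (h55eB0 M q (jBar M))) :
    ∃ E : FF (M * q * q) →+* LaurentSeries Kbar,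
      (∀ x, E (h55eA M q x) = φ x) ∧ (∀ x, E (h55eB M q x) = e x) := by
  letI i01 : Algebra (FF M) (FF (M * q)) := algebraAlong (heckeAlphaBar Kbar M q)
  letI i12 : Algebra (FF (M * q)) (FF (M * q * q)) :=
    algebraAlong (heckeAlphaBar Kbar (M * q) q)
  haveI : FiniteDimensional (FF M) (FF (M * q)) :=
    Fermat.Agent.Red.HKMod.finiteAlong_heckeAlphaBar M q
  haveI : FiniteDimensional (FF (M * q)) (FF (M * q * q)) :=
    Fermat.Agent.Red.HKMod.finiteAlong_heckeAlphaBar (M * q) q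
  haveI : Algebra.IsSeparable (FF M) (FF (M * q)) := inferInstance
  haveI : Algebra.IsSeparable (FF (M * q)) (FF (M * q * q)) := inferInstance
  have hdeg : Module.finrank (FF M) (FF (M * q)) =
      Module.finrank (FF (M * q)) (FF (M * q * q)) + 1 := by
    rw [finrank_heckeAlphaBar M q hq hqM, h55e_finrank_alpha (M * q) q hq (dvd_mul_left q M)]
  exact h55e_exists_emb' (h55eA0 M q) (h55eB0 M q) (h55eA M q) (h55eB M q)
    (h55e_algebraMap0 M q) (h55e_algebraMap1 M q) (h55e_comm M q) (h55e_gen M q hq) hdeg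
    φ e ex he hex hne (h55eA0 M q (jBar M)) (h55eB0 M q (jBar M)) (h55e_ab_ne M q hq) hφ

end Main

/-- **N-EMB.** -/
theorem h55e_embExists : H20EmbExists := by
  intro q hq M _ hqM
  haveI : NeZero q := ⟨hq.ne_zero⟩
  constructor
  · -- `E11^ζ`
    intro ζ hζq hζ1
    have hζ0 : ζ ≠ 0 := by
      rintro rfl
      rw [zero_pow hq.ne_zero] at hζq
      exact zero_ne_one hζq
    obtain ⟨E, hEa, hEb⟩ := h55e_count M q hq hqM (h55eCoe M q) (h55eWT M q hq hqM ζ hζ0)
      (h55eW M q hq hqM) (h55e_he11 M q hq hqM ζ hζ0 hζq) (h55e_hex11 M q hq hqM)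
      (h55e_hne11 M q hq hqM ζ hζ0 hζ1) (h55e_hphi11 M q hq hqM)
    refine ⟨E, ?_, ?_⟩
    · intro x
      have h := hEa x
      rw [h55eA_apply, h55eCoe_apply] at h
      exact h
    · intro x
      have h := hEb x
      rw [h55eB_apply, h55eWT_apply] at h
      exact h
  · -- `E02`
    obtain ⟨E, hEa, hEb⟩ := h55e_count M q hq hqM (h55eWQ M q hq hqM) (h55eW M q hq hqM)
      (h55eQ M q) (h55e_he02 M q hq hqM) (h55e_hex02 M q hq hqM)
      (h55e_hne02 M q hq hqM) (h55e_hphi02 M q hq hqM)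
    refine ⟨E, ?_, ?_⟩
    · intro x
      have h := hEa x
      rw [h55eA_apply, h55eWQ_apply] at h
      exact h
    · intro x
      have h := hEb x
      rw [h55eB_apply, h55eW_apply] at h
      exact h

end Fermat.Agent.S36
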