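import Fermat.Agent.S36.H12EmbDF
import Fermat.Agent.S36.H1Gauss
import Fermat.Agent.S36.H43Frob
import Fermat.Agent.S36.H71NormB
import Fermat.Agent.S36.H16RedD
import Fermat.Agent.S36.H93NormD
import Fermat.Agent.S36.H49RedA
import Fermat.Agent.S36.H20Emb
import Fermat.Agent.S36.H83EmbGal
import Fermat.Agent.S36.H40NormA
import Fermat.Agent.S36.H34Cyc
import Fermat.Agent.S36.H64NAsm

/-!
# S36, block (N): wiring of the landed leaves (helper55)

All leaves of `S36/H20NormSkel.lean` are landed; this file checks that they are co-importable
and records the unconditional outputs of the block: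

* `h55w_embGal : H20EmbGal`, `h55w_redD : H20RedD`, `h55w_redA : H20RedA`;
* `h55w_newGate36 : H20NewGate36`  (**output of block (N)**).
-/

set_option autoImplicit false

noncomputable section

namespace Fermat.Agent.S36

/-- **N-GAL**, unconditional. -/
theorem h55w_embGal : H20EmbGal := h83g_embGal h20n_embUnique

/-- **N-RED (d)**, unconditional. -/
theorem h55w_redD : H20RedD := h16n_redDAssembly h93n_normD h12e_embDF h1g_twist

/-- **N-RED (a)**, unconditional. -/
theorem h55w_redA : H20RedA :=
  h49r_redAAssembly h20n_embExists h55w_embGal h12e_embDF h40na_normA h34y_cyc h1g_inert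

/-- **N-GATE (output of block (N))**, unconditional. -/
theorem h55w_newGate36 : H20NewGate36 :=
  h64a_newGateAssembly h12e_embDF h1g_root h43f_frob h71m_redB h55w_redD h55w_redA

end Fermat.Agent.S36
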