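import Fermat.Agent.S36.H90ApproxVal
import Fermat.Agent.S36.V28DiscFinal
import Fermat.Agent.S36.H57Unif11
import Fermat.Agent.S36.H55Emb

/-!
# S36, block (V) + (N), leaf VN-L2 (helper55): `H20Val`

Every nonzero function of `F₀ = FF(M q q)^I` has integral valuations at `E20`, `E11^ζ`, `E02`:

* `E20` : landed `V28.h28v_exists_zpow` (uniformiser `q`);
* `E02` : `H74Disc02` (uniformiser `q`);
* `E11` : `H74Disc11` (uniformiser `z = j(t^(q²)) - j(t)`) and `H74Unif11`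
  (`z / (1 - ζ)` is a Gauss unit), which translates to the normalisation by `1 - ζ`.

`h55v_val_of : H74Disc02 → H74Disc11 → H74Unif11 → H20Val` and the unconditional `h55v_val`.
-/

set_option autoImplicit false
set_option linter.style.haveILetI false

open AlgebraicCurve ModularCurve

noncomputable section

namespace Fermat.Agent.S36

open Fermat.Agent.S37 (Kbar GQ FF cst gal jB)
open Fermat.Agent.Red.GV.Soft (softOT softV)
open Fermat.Agent.S36.V28 (h28v_F0 h28v_IFixed h28v_exists_zpow)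

/-- `z = j(t^(q²)) - j(t) ≠ 0`. -/
theorem h55v_z_ne_zero (M q : ℕ) [NeZero M] [NeZero q] (hq : q.Prime) : h74w_z M q ≠ 0 := by
  intro h
  unfold h74w_z at h
  exact h55e_ab_ne M q hq (sub_eq_zero.mp h).symm

/-- **VN-L2** from the leaves of block (V). -/
theorem h55v_val_of (hD02 : H74Disc02) (hD11 : H74Disc11) (hU : H74Unif11) : H20Val := by
  intro q hq M _ hqM _ 
  haveI : NeZero q := ⟨hq.ne_zero⟩
  intro A hA ζ E11 E02 hT u hu hu0
  have hfix : h28v_IFixed A (M * q * q) u := hu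
  -- `E20`
  obtain ⟨n₂₀, h20a, h20b⟩ := h28v_exists_zpow A (M * q * q) hq hA u hu0 hfix
  -- `E11`
  obtain ⟨n₁₁, h11⟩ := hD11 q hq M hqM A hA ζ hT.prim E11 hT.e11 u hu0 hfix
  have hUz := hU q hq M hqM A hA ζ hT.prim E11 hT.e11
  -- `E02`
  obtain ⟨n₀₂, h02⟩ := hD02 q hq M hqM A hA E02 hT.e02 u hu0 hfix
  have hq0 : ((q : ℕ) : Kbar) ≠ 0 := Nat.cast_ne_zero.mpr hq.ne_zero
  have hζ1 : (1 : Kbar) - ζ ≠ 0 := by
    intro h
    have h1 : ζ = 1 := (sub_eq_zero.mp h).symm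
    exact hT.prim.ne_one hq.one_lt h1
  have hcst : ∀ c : Kbar, c ≠ 0 → cst (M * q * q) c ≠ 0 := by
    intro c hc h
    apply hc
    have h2 : algebraMap Kbar (FF (M * q * q)) c = algebraMap Kbar (FF (M * q * q)) 0 := by
      rw [map_zero]
      exact h
    exact (algebraMap Kbar (FF (M * q * q))).injective h2
  have hz0 : h74w_z M q ≠ 0 := h55v_z_ne_zero M q hq
  refine ⟨n₂₀, n₁₁, n₀₂, ?_, ?_, ?_⟩
  · refine ⟨?_, h20a, ?_⟩
    · exact (map_ne_zero_iff (h20n_E20 M q) (h20n_E20 M q).injective).mpr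
        (mul_ne_zero (hcst _ (zpow_ne_zero _ hq0)) hu0)
    · have h1 : (h20n_E20 M q (cst (M * q * q) (((q : ℕ) : Kbar) ^ n₂₀) * u))⁻¹ =
          h20n_E20 M q (cst (M * q * q) (((q : ℕ) : Kbar) ^ n₂₀) * u)⁻¹ := (map_inv₀ _ _).symm
      rw [h1]
      exact h20b
  · have e1 : cst (M * q * q) ((1 - ζ) ^ n₁₁) * u =
        ((cst (M * q * q) (1 - ζ)⁻¹ * h74w_z M q) ^ n₁₁)⁻¹ * (h74w_z M q ^ n₁₁ * u) := by
      have e2 : cst (M * q * q) ((1 - ζ) ^ n₁₁) = cst (M * q * q) (1 - ζ) ^ n₁₁ :=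
        map_zpow₀ (algebraMap Kbar (FF (M * q * q))) _ _
      have e3 : cst (M * q * q) (1 - ζ)⁻¹ = (cst (M * q * q) (1 - ζ))⁻¹ :=
        map_inv₀ (algebraMap Kbar (FF (M * q * q))) _
      rw [e2, e3]
      exact h90v_field_id _ _ _ hz0 _
    rw [e1]
    apply h90v_unit_of A E11 _ _
      (h90v_unit_mul A E11 (h90v_unit_inv A E11 (h90v_unit_zpow A E11 hUz n₁₁)) h11)
    apply mul_ne_zero
    · apply inv_ne_zero
      apply zpow_ne_zero
      exact mul_ne_zero (hcst _ (inv_ne_zero hζ1)) hz0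
    · exact mul_ne_zero (zpow_ne_zero _ hz0) hu0
  · exact h90v_unit_of A E02 _ (mul_ne_zero (hcst _ (zpow_ne_zero _ hq0)) hu0) h02

/-- **VN-L2**, unconditional. -/
theorem h55v_val : H20Val :=
  h55v_val_of V28.h28f_H74Disc02 (V28.h28f_H74Disc11_of h57u_unif11) h57u_unif11

end Fermat.Agent.S36
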