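import Fermat.Agent.S36.H20VertSkel
import Fermat.Agent.S36.H27VertAsm
import Fermat.Agent.S36.H55Emb
import Fermat.Agent.S36.H88VFinal
import Fermat.Agent.S36.V28Val
import Fermat.Agent.S36.H17CompGroup
import Fermat.Agent.S36.H90ApproxValFinal
import Fermat.Agent.S36.H71Roots
import Fermat.Agent.S36.H93ApproxRes
import Fermat.Agent.S36.H75Unip

/-!
# S36, block H92VERT: unconditional wiring (helper55)

`h55x_vert : H92Vert` — the exact frozen Prop of `S36/H92Chain.lean`, with no hypotheses:
the assembly `h27a_vertAssembly` (helper27) applied to the eight landed leaves of the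
skeleton `S36/H20VertSkel.lean`.
-/

namespace Fermat.Agent.S36

theorem h55x_vert : H92Vert :=
  h27a_vertAssembly h55e_embExists h88v_vcomplete_final V28.h28f_H20Val h17c_compGroup
    h90v_approxVal_final h71x_roots h93a_approxRes h75u_unip

end Fermat.Agent.S36
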