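import Mathlib

/-!
# S36, step (N) (norms), no-regret leaf (helper57): reduction of a norm modulo the maximal ideal

Mathlib only.  `R` a local ring with maximal ideal `p`, `k = R ⧸ p`, `S` a finite free
`R`-algebra of rank `n` (e.g. `R` a discrete valuation ring of a function field `F₁`, `S` its
integral closure in a finite extension `F₂`, so that `N_{S/R} = N_{F₂/F₁}` on `S`).

* `h57n_norm_quotient_mk` : `N_{(S/pS)/k}(u mod pS) = N_{S/R}(u) mod p`.
* `h57n_det_of_isNilpotent_sub` : `det f = c ^ dim` if `f - c` is nilpotent.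
* `h57n_norm_purelyInseparable` : `N_{L/K}(x) = x ^ [L : K]` for a finite purely inseparable
  extension.
* `h57n_norm_red_two_gen` : if `J₁ J₂ ≤ pS`, `u ≡ c₁` modulo `J₁` and `u ≡ c₂` modulo the radical
  of `J₂` (`c₁, c₂ ∈ R`), then `N_{S/R}(u) ≡ c₁ ^ d · c₂ ^ (n - d)` modulo `p`,
  `d = dim_k S/(J₁ + pS)`.
* `h57n_norm_red_two` : the case `S/J₁ = k` (`e = f = 1`):
  `N_{S/R}(u) ≡ c₁ · c₂ ^ (n - 1)` modulo `p`
  (two places above `p`, `(e, f) = (1, 1)` and `(n - 1, 1)`).
* `h57n_norm_red_insep` : if `pS` is maximal and `S/pS` is purely inseparable over `k`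
  (one place above `p`, `e = 1`, `f = n` inseparable), then `N_{S/R}(u) ≡ u ^ n` modulo `pS`.
-/

set_option autoImplicit false

open IsLocalRing Module

namespace Fermat.Agent.S36

/-- `det f = c ^ dim` if `f - c` is nilpotent. -/
theorem h57n_det_of_isNilpotent_sub {k V : Type*} [CommRing k] [IsDomain k] [AddCommGroup V]
    [Module k V] [Module.Finite k V] [Module.Free k V] (f : Module.End k V) (c : k)
    (h : IsNilpotent (f - algebraMap k (Module.End k V) c)) :
    LinearMap.det f = c ^ Module.finrank k V := by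
  have hg : IsNilpotent (algebraMap k (Module.End k V) c - f) := by
    rw [← neg_sub]
    exact h.neg
  have h1 := LinearMap.eval_charpoly (algebraMap k (Module.End k V) c - f) c
  rw [IsNilpotent.charpoly_eq_X_pow_finrank hg] at h1
  simpa using h1.symm

/-- The norm of a finite purely inseparable extension is the `[L : K]`-th power. -/
theorem h57n_norm_purelyInseparable {K L : Type*} [Field K] [Field L] [Algebra K L]
    [FiniteDimensional K L] [IsPurelyInseparable K L] (x : L) :
    algebraMap K L (Algebra.norm K x) = x ^ Module.finrank K L := by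
  classical
  obtain ⟨n, hn⟩ := IsPurelyInseparable.minpoly_eq_X_sub_C_pow K (ringExpChar K) x
  have hsplit : ((minpoly K x).map (algebraMap K L)).Splits := by
    rw [hn]
    exact (Polynomial.Splits.X_sub_C x).pow _
  rw [Algebra.norm_eq_prod_roots L hsplit]
  have hroots : (minpoly K x).aroots L = (ringExpChar K ^ n) • ({x} : Multiset L) := by
    rw [Polynomial.aroots_def, hn, Polynomial.roots_pow, Polynomial.roots_X_sub_C]
  have hdeg : (minpoly K x).natDegree = ringExpChar K ^ n := by
    have h1 := congrArg Polynomial.natDegree hn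
    rw [Polynomial.natDegree_map, Polynomial.natDegree_pow, Polynomial.natDegree_X_sub_C,
      mul_one] at h1
    exact h1
  have hx : IsIntegral K x := Algebra.IsIntegral.isIntegral x
  rw [hroots, Multiset.prod_nsmul, Multiset.prod_singleton, ← pow_mul, ← hdeg,
    ← IntermediateField.adjoin.finrank hx, Module.finrank_mul_finrank]

section Red

variable {R S : Type*} [CommRing R] [CommRing S] [Algebra R S] [IsLocalRing R]
  [Module.Finite R S] [Module.Free R S]

attribute [local instance] Ideal.Quotient.field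

/-- **Norm and reduction.**  For a finite free algebra `S` over a local ring `R` the norm commutes
with reduction modulo the maximal ideal. -/
theorem h57n_norm_quotient_mk (x : S) :
    Algebra.norm (R ⧸ maximalIdeal R)
        (Ideal.Quotient.mk (Ideal.map (algebraMap R S) (maximalIdeal R)) x) =
      Ideal.Quotient.mk (maximalIdeal R) (Algebra.norm R x) := by
  classical
  let b : Module.Basis (Module.Free.ChooseBasisIndex R S) R S := Module.Free.chooseBasis R S
  rw [Algebra.norm_eq_matrix_det b, Algebra.norm_eq_matrix_det (basisQuotient b),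
    RingHom.map_det]
  congr 1
  ext i j
  simp only [Algebra.leftMulMatrix_apply, Algebra.coe_lmul_eq_mul, LinearMap.toMatrix_apply,
    basisQuotient_apply, LinearMap.mul_apply', RingHom.mapMatrix_apply, Matrix.map_apply,
    ← map_mul, basisQuotient_repr]

/-- **Reduction of a norm, two ideals.**  `J₁ J₂ ≤ pS`.  There is `d ≤ n = rank_R S`
(`d = dim_k S/(J₁ + pS)`; `d = 1` if `J₁ + pS` is proper and `R → S/J₁` is onto) such that
`N_{S/R}(u) ≡ c₁ ^ d · c₂ ^ (n - d)` modulo `p` whenever `u - c₁` is nilpotent modulo `J₁` and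
`u - c₂` is nilpotent modulo `J₂`. -/
theorem h57n_norm_red_two_gen (J₁ J₂ : Ideal S)
    (hJ : J₁ * J₂ ≤ Ideal.map (algebraMap R S) (maximalIdeal R)) :
    ∃ d : ℕ, d ≤ Module.finrank R S ∧
      (J₁ ⊔ Ideal.map (algebraMap R S) (maximalIdeal R) ≠ ⊤ →
        (∀ s : S, ∃ r : R, s - algebraMap R S r ∈ J₁) → d = 1) ∧
      ∀ (u : S) (c₁ c₂ : R), (∃ m : ℕ, (u - algebraMap R S c₁) ^ m ∈ J₁) →
        (∃ m : ℕ, (u - algebraMap R S c₂) ^ m ∈ J₂) →
        Algebra.norm R u - c₁ ^ d * c₂ ^ (Module.finrank R S - d) ∈ maximalIdeal R := by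
  classical
  have hfin : Module.Finite (R ⧸ maximalIdeal R)
      (S ⧸ Ideal.map (algebraMap R S) (maximalIdeal R)) :=
    Module.Finite.of_restrictScalars_finite R _ _
  set mkS := Ideal.Quotient.mk (Ideal.map (algebraMap R S) (maximalIdeal R)) with hmkS
  have hmk_surj : Function.Surjective mkS := Ideal.Quotient.mk_surjective
  set W : Submodule (R ⧸ maximalIdeal R) (S ⧸ Ideal.map (algebraMap R S) (maximalIdeal R)) :=
    (J₁.map mkS).restrictScalars (R ⧸ maximalIdeal R) with hW
  have hmemW : ∀ v, v ∈ W ↔ v ∈ J₁.map mkS := fun v => Iff.rfl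
  have hrank : Module.finrank (R ⧸ maximalIdeal R)
        ((S ⧸ Ideal.map (algebraMap R S) (maximalIdeal R)) ⧸ W) +
      Module.finrank (R ⧸ maximalIdeal R) W = Module.finrank R S := by
    rw [Submodule.finrank_quotient_add_finrank, finrank_quotient_map]
  have halg : ∀ c : R, algebraMap (R ⧸ maximalIdeal R)
      (S ⧸ Ideal.map (algebraMap R S) (maximalIdeal R)) (Ideal.Quotient.mk _ c) =
      mkS (algebraMap R S c) := fun c => rfl
  refine ⟨Module.finrank (R ⧸ maximalIdeal R)
        ((S ⧸ Ideal.map (algebraMap R S) (maximalIdeal R)) ⧸ W), by omega, ?_, ?_⟩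
  · -- `d = 1`
    intro htop hres
    apply le_antisymm
    · refine finrank_le_one (W.mkQ 1) ?_
      intro w
      obtain ⟨v, rfl⟩ := W.mkQ_surjective w
      obtain ⟨s, rfl⟩ := hmk_surj v
      obtain ⟨r, hr⟩ := hres s
      refine ⟨Ideal.Quotient.mk _ r, ?_⟩
      rw [← map_smul, Algebra.smul_def, mul_one, halg, ← sub_eq_zero, ← map_sub,
        Submodule.mkQ_apply, Submodule.Quotient.mk_eq_zero, hmemW, ← map_sub]
      have : algebraMap R S r - s ∈ J₁ := by
        rw [← neg_sub]
        exact J₁.neg_mem hr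
      exact Ideal.mem_map_of_mem _ this
    · rw [Nat.succ_le_iff, Module.finrank_pos_iff]
      rw [Submodule.Quotient.nontrivial_iff]
      intro h
      apply htop
      have h2 : J₁.map mkS = ⊤ := by
        rw [eq_top_iff]
        intro v _
        have : v ∈ W := by rw [h]; trivial
        exact this
      have h3 := congrArg (Ideal.comap mkS) h2
      rw [Ideal.comap_map_of_surjective mkS hmk_surj, Ideal.comap_top] at h3
      have h4 : Ideal.comap mkS ⊥ = Ideal.map (algebraMap R S) (maximalIdeal R) := by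
        rw [← RingHom.ker_eq_comap_bot, hmkS, Ideal.mk_ker]
      rwa [h4] at h3
  · intro u c₁ c₂ ⟨m₁, h₁⟩ ⟨m₂, h₂⟩
    set L : Module.End (R ⧸ maximalIdeal R) (S ⧸ Ideal.map (algebraMap R S) (maximalIdeal R)) :=
      Algebra.lmul (R ⧸ maximalIdeal R) (S ⧸ Ideal.map (algebraMap R S) (maximalIdeal R))
        (mkS u) with hL
    have hLapp : ∀ v, L v = mkS u * v := fun v => rfl
    have he : W ≤ W.comap L := by
      intro w hw
      rw [Submodule.mem_comap, hLapp, hmemW]
      exact Ideal.mul_mem_left _ _ hw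
    -- the restriction to `W`
    have hdet₂ : LinearMap.det (L.restrict he) =
        (Ideal.Quotient.mk (maximalIdeal R) c₂) ^ Module.finrank (R ⧸ maximalIdeal R) W := by
      apply h57n_det_of_isNilpotent_sub
      refine ⟨m₂, ?_⟩
      set D : Module.End (R ⧸ maximalIdeal R) W :=
        L.restrict he - algebraMap (R ⧸ maximalIdeal R) (Module.End (R ⧸ maximalIdeal R) W)
            (Ideal.Quotient.mk _ c₂) with hD
      have hD1 : ∀ w : W, ((D w : W) : S ⧸ Ideal.map (algebraMap R S) (maximalIdeal R)) =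
          mkS (u - algebraMap R S c₂) * (w : S ⧸ _) := by
        intro w
        rw [hD, LinearMap.sub_apply, Submodule.coe_sub, LinearMap.coe_restrict_apply, hLapp,
          Module.algebraMap_end_apply, Submodule.coe_smul, Algebra.smul_def, halg, map_sub]
        ring
      have key : ∀ (j : ℕ) (w : W),
          (((D ^ j) w : W) : S ⧸ Ideal.map (algebraMap R S) (maximalIdeal R)) =
            mkS (u - algebraMap R S c₂) ^ j * (w : S ⧸ _) := by
        intro j
        induction j with
        | zero => intro w; simp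
        | succ j ih =>
          intro w
          rw [pow_succ', Module.End.mul_apply, hD1, ih, pow_succ']
          ring
      refine LinearMap.ext fun w => Subtype.ext ?_
      rw [key, LinearMap.zero_apply, Submodule.coe_zero, ← map_pow]
      obtain ⟨a, ha, haw⟩ := (Ideal.mem_map_iff_of_surjective mkS hmk_surj).mp
        ((hmemW _).mp w.2)
      rw [← haw, ← map_mul, Ideal.Quotient.eq_zero_iff_mem]
      apply hJ
      exact Ideal.mul_mem_mul_rev ha h₂
    -- the quotient by `W`
    have hdet₁ : LinearMap.det (W.mapQ W L he) =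
        (Ideal.Quotient.mk (maximalIdeal R) c₁) ^ Module.finrank (R ⧸ maximalIdeal R)
          ((S ⧸ Ideal.map (algebraMap R S) (maximalIdeal R)) ⧸ W) := by
      apply h57n_det_of_isNilpotent_sub
      refine ⟨m₁, ?_⟩
      set D : Module.End (R ⧸ maximalIdeal R)
          ((S ⧸ Ideal.map (algebraMap R S) (maximalIdeal R)) ⧸ W) :=
        W.mapQ W L he - algebraMap (R ⧸ maximalIdeal R)
            (Module.End (R ⧸ maximalIdeal R) (_ ⧸ W)) (Ideal.Quotient.mk _ c₁) with hD
      have hD1 : ∀ v : S ⧸ Ideal.map (algebraMap R S) (maximalIdeal R),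
          D (W.mkQ v) = W.mkQ (mkS (u - algebraMap R S c₁) * v) := by
        intro v
        rw [hD, LinearMap.sub_apply, Module.algebraMap_end_apply, Submodule.mkQ_apply,
          Submodule.mapQ_apply, ← Submodule.Quotient.mk_smul, ← Submodule.Quotient.mk_sub,
          Submodule.mkQ_apply, hLapp, Algebra.smul_def, halg, map_sub, sub_mul]
      have key : ∀ (j : ℕ) (v : S ⧸ Ideal.map (algebraMap R S) (maximalIdeal R)),
          (D ^ j) (W.mkQ v) = W.mkQ (mkS (u - algebraMap R S c₁) ^ j * v) := by
        intro j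
        induction j with
        | zero => intro v; simp
        | succ j ih =>
          intro v
          rw [pow_succ', Module.End.mul_apply, ih, hD1, pow_succ', mul_assoc]
      refine LinearMap.ext fun v => ?_
      obtain ⟨v, rfl⟩ := W.mkQ_surjective v
      rw [key, LinearMap.zero_apply, Submodule.mkQ_apply, Submodule.Quotient.mk_eq_zero, hmemW,
        ← map_pow]
      exact Ideal.mul_mem_right _ _ (Ideal.mem_map_of_mem _ h₁)
    have hdet := LinearMap.det_eq_det_mul_det W L he
    rw [hdet₁, hdet₂] at hdet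
    have hnorm := h57n_norm_quotient_mk (R := R) (S := S) u
    rw [Algebra.norm_apply, ← hL, hdet] at hnorm
    rw [← Ideal.Quotient.eq_zero_iff_mem, map_sub, ← hnorm, map_mul, map_pow, map_pow]
    have hsub : Module.finrank R S - Module.finrank (R ⧸ maximalIdeal R)
        ((S ⧸ Ideal.map (algebraMap R S) (maximalIdeal R)) ⧸ W) =
        Module.finrank (R ⧸ maximalIdeal R) W := by omega
    rw [hsub]
    ring

omit [Module.Free R S] in
/-- A proper ideal of a finite algebra over a local ring stays proper after adding `pS`. -/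
theorem h57n_sup_map_ne_top (J : Ideal S) (hJ : J ≠ ⊤) :
    J ⊔ Ideal.map (algebraMap R S) (maximalIdeal R) ≠ ⊤ := by
  obtain ⟨M, hM, hJM⟩ := Ideal.exists_le_maximal J hJ
  have hint : Algebra.IsIntegral R S := inferInstance
  have hmax : (M.comap (algebraMap R S)).IsMaximal :=
    Ideal.isMaximal_comap_of_isIntegral_of_isMaximal (R := R) M
  have hp : M.comap (algebraMap R S) = maximalIdeal R := IsLocalRing.eq_maximalIdeal hmax
  have hle : Ideal.map (algebraMap R S) (maximalIdeal R) ≤ M := by
    rw [Ideal.map_le_iff_le_comap, hp]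
  intro h
  apply hM.ne_top
  rw [eq_top_iff, ← h]
  exact sup_le hJM hle

/-- **Reduction of a norm, two places with `(e, f) = (1, 1)` and `(n - 1, 1)`.**
`J₁ J₂ ≤ pS`, `J₁` proper with `R → S/J₁` onto, `u ≡ c₁` modulo `J₁` and `u - c₂` nilpotent
modulo `J₂` (`c₁, c₂ ∈ R`).  Then `N_{S/R}(u) ≡ c₁ · c₂ ^ (n - 1)` modulo `p`. -/
theorem h57n_norm_red_two (J₁ J₂ : Ideal S)
    (hJ : J₁ * J₂ ≤ Ideal.map (algebraMap R S) (maximalIdeal R)) (hJ₁ : J₁ ≠ ⊤)
    (hres : ∀ s : S, ∃ r : R, s - algebraMap R S r ∈ J₁) (u : S) (c₁ c₂ : R)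
    (h₁ : u - algebraMap R S c₁ ∈ J₁) (h₂ : ∃ m : ℕ, (u - algebraMap R S c₂) ^ m ∈ J₂) :
    Algebra.norm R u - c₁ * c₂ ^ (Module.finrank R S - 1) ∈ maximalIdeal R := by
  obtain ⟨d, -, hd, H⟩ := h57n_norm_red_two_gen (R := R) J₁ J₂ hJ
  have hd1 : d = 1 := hd (h57n_sup_map_ne_top J₁ hJ₁) hres
  subst hd1
  have := H u c₁ c₂ ⟨1, by simpa using h₁⟩ h₂
  simpa using this

/-- **Reduction of a norm, one place with `e = 1` and purely inseparable residue extension.**
If `pS` is a maximal ideal and every element of `S/pS` has a `q`-power in `k` (`q` the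
characteristic exponent of `k`), then `N_{S/R}(u) ≡ u ^ n` modulo `pS`, `n = rank_R S`. -/
theorem h57n_norm_red_insep (q : ℕ) [ExpChar (R ⧸ maximalIdeal R) q]
    (hmax : (Ideal.map (algebraMap R S) (maximalIdeal R)).IsMaximal)
    (hins : ∀ s : S, ∃ (m : ℕ) (r : R),
      s ^ q ^ m - algebraMap R S r ∈ Ideal.map (algebraMap R S) (maximalIdeal R)) (u : S) :
    algebraMap R S (Algebra.norm R u) - u ^ Module.finrank R S ∈
      Ideal.map (algebraMap R S) (maximalIdeal R) := by
  have hfin : Module.Finite (R ⧸ maximalIdeal R)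
      (S ⧸ Ideal.map (algebraMap R S) (maximalIdeal R)) :=
    Module.Finite.of_restrictScalars_finite R _ _
  have halg : ∀ c : R, algebraMap (R ⧸ maximalIdeal R)
      (S ⧸ Ideal.map (algebraMap R S) (maximalIdeal R)) (Ideal.Quotient.mk _ c) =
      Ideal.Quotient.mk _ (algebraMap R S c) := fun c => rfl
  have hpi : IsPurelyInseparable (R ⧸ maximalIdeal R)
      (S ⧸ Ideal.map (algebraMap R S) (maximalIdeal R)) := by
    rw [isPurelyInseparable_iff_pow_mem (R ⧸ maximalIdeal R) q]
    intro x
    obtain ⟨s, rfl⟩ := Ideal.Quotient.mk_surjective x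
    obtain ⟨m, r, hr⟩ := hins s
    refine ⟨m, Ideal.Quotient.mk _ r, ?_⟩
    rw [halg, ← map_pow, eq_comm, Ideal.Quotient.eq]
    exact hr
  have h1 := h57n_norm_purelyInseparable (K := R ⧸ maximalIdeal R)
    (L := S ⧸ Ideal.map (algebraMap R S) (maximalIdeal R)) (Ideal.Quotient.mk _ u)
  rw [h57n_norm_quotient_mk, halg, finrank_quotient_map, ← map_pow] at h1
  exact Ideal.Quotient.eq.mp h1

end Red

end Fermat.Agent.S36
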