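import Fermat.Agent.Red.Kron.CharpolyAbs
import Mathlib.RingTheory.Polynomial.IsIntegral
import Mathlib.RingTheory.Polynomial.ScaleRoots

/-!
# S36, block REG, row R-CUSP-UNIT11 (helper58): integrality at infinity from the expansions

Abstract criterion (Mathlib + `Red/Kron/CharpolyAbs`).  `L / K` finite separable, `e i : L → Ω`
the full family of embeddings over `ι : K → Ω`, `φ : R₀ → K` with `R₀` "integrally closed in `K`",
`T ∈ R₀` a "parameter", `PS ⊆ Ω` a subring ("power series") such that
`ι (φ P) = ι (φ T) ^ m · w`, `w ∈ PS` implies `T ^ m ∣ P`.  Then for `x ∈ L`: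

  `T ^ n · x` integral over `R₀` and `e i x ∈ PS` for all `i`  ⟹  `x` integral over `R₀`.

(The characteristic polynomial of `T ^ n x` has coefficients `φ (P_k)`, and
`ι (φ P_k) = ι (φ T) ^ (n (d - k)) · (coefficient of ∏ (X - e i x))`.)
-/

set_option autoImplicit false
set_option linter.style.haveILetI false
set_option linter.unusedSectionVars false

open Polynomial

noncomputable section

namespace Fermat.Agent.S36

section Abstract

/-- scaling the roots of a split monic polynomial. -/
theorem h58e_prod_scale {Ω : Type*} [Field Ω] {I : Type*} (s : Finset I) (r : I → Ω) (a : Ω) :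
    (∏ i ∈ s, (X - C (r i))).scaleRoots a = ∏ i ∈ s, (X - C (r i * a)) := by
  classical
  induction s using Finset.induction with
  | empty => simp
  | insert i s hi IH =>
    rw [Finset.prod_insert hi, Finset.prod_insert hi, mul_scaleRoots_of_noZeroDivisors, IH,
      X_sub_C_scaleRoots]

/-- the coefficients of a product of `X - C r`, `r` in a subring, are in the subring. -/
theorem h58e_coeff_prod_mem {Ω : Type*} [Field Ω] (PS : Subring Ω) {I : Type*} (s : Finset I)
    (r : I → Ω) (hr : ∀ i, r i ∈ PS) (k : ℕ) :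
    (∏ i ∈ s, (X - C (r i))).coeff k ∈ PS := by
  have h : ∏ i ∈ s, (X - C (r i)) =
      (∏ i ∈ s, (X - C (⟨r i, hr i⟩ : PS))).map PS.subtype := by
    rw [Polynomial.map_prod]
    refine Finset.prod_congr rfl (fun i _ => ?_)
    rw [Polynomial.map_sub, Polynomial.map_X, Polynomial.map_C]
    rfl
  rw [h, Polynomial.coeff_map]
  exact ((∏ i ∈ s, (X - C (⟨r i, hr i⟩ : PS))).coeff k).2

variable {R₀ K L Ω : Type*} [CommRing R₀] [Field K] [Field L] [Field Ω]
  [Algebra K L] [FiniteDimensional K L] [Algebra.IsSeparable K L] [Infinite K]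

/-- **the criterion.** -/
theorem h58e_crit_abs (φ : R₀ →+* K) (T : R₀) (hT : φ T ≠ 0)
    (hclosed : ∀ u : K, φ.IsIntegralElem u → ∃ P : R₀, φ P = u)
    (ι : K →+* Ω) {I : Type*} [Fintype I] (e : I → (L →+* Ω)) (he : Function.Injective e)
    (hcomm : ∀ i x, e i (algebraMap K L x) = ι x)
    (hcard : Fintype.card I = Module.finrank K L)
    (PS : Subring Ω)
    (hdiv : ∀ (m : ℕ) (P : R₀) (w : Ω), w ∈ PS → ι (φ P) = ι (φ T) ^ m * w →
      ∃ Q : R₀, P = T ^ m * Q)
    (n : ℕ) (x : L)
    (hx : ((algebraMap K L).comp φ).IsIntegralElem (algebraMap K L (φ T) ^ n * x))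
    (hps : ∀ i, e i x ∈ PS) :
    ((algebraMap K L).comp φ).IsIntegralElem x := by
  classical
  set x' : L := algebraMap K L (φ T) ^ n * x with hx'
  set θ : Ω := ι (φ T) with hθ
  set d := Module.finrank K L with hd
  set χ : K[X] := (LinearMap.mulLeft K x').charpoly with hχ
  have hmonic : χ.Monic := LinearMap.charpoly_monic _
  have hdeg : χ.natDegree = d := LinearMap.charpoly_natDegree _
  have hex' : ∀ i, e i x' = e i x * θ ^ n := by
    intro i
    rw [hx', map_mul, map_pow, hcomm, mul_comm]
  have hprod : χ.map ι = ∏ i, (X - C (e i x')) :=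
    Fermat.Agent.Red.Kron.charpoly_map_eq_prod_of_embeddings ι e he hcomm hcard x'
  -- the conjugates of `x'` are integral
  have hint : ∀ i, (ι.comp φ).IsIntegralElem (e i x') := by
    intro i
    obtain ⟨p, hp, hpx⟩ := hx
    refine ⟨p, hp, ?_⟩
    have h1 := Polynomial.hom_eval₂ p ((algebraMap K L).comp φ) (e i) x'
    rw [hpx, map_zero] at h1
    have h2 : (e i).comp ((algebraMap K L).comp φ) = ι.comp φ := by
      ext a
      exact hcomm i (φ a)
    rw [h2] at h1
    exact h1.symm
  -- Step A: the coefficients of `χ` are integral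
  have hA : ∀ k, φ.IsIntegralElem (χ.coeff k) := by
    intro k
    letI : Algebra R₀ Ω := (ι.comp φ).toAlgebra
    have h1 : IsIntegral R₀ ((∏ i, (X - C (e i x'))).coeff k) := by
      refine Polynomial.isIntegral_coeff_prod Finset.univ (fun i => X - C (e i x')) ?_ k
      intro i _ j
      rw [Polynomial.coeff_sub, Polynomial.coeff_X, Polynomial.coeff_C]
      refine IsIntegral.sub ?_ ?_
      · split_ifs
        · exact isIntegral_one
        · exact isIntegral_zero
      · split_ifs
        · exact hint i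
        · exact isIntegral_zero
    rw [← hprod, Polynomial.coeff_map] at h1
    obtain ⟨p, hp, hpx⟩ := h1
    refine ⟨p, hp, ?_⟩
    have h2 := Polynomial.hom_eval₂ p φ ι (χ.coeff k)
    have h3 : eval₂ (ι.comp φ) (ι (χ.coeff k)) p = 0 := hpx
    rw [h3] at h2
    exact ι.injective (h2.trans (map_zero ι).symm)
  -- Step B
  choose P hP using fun k => hclosed (χ.coeff k) (hA k)
  -- Step C
  have hnat : (∏ i : I, (X - C (e i x))).natDegree = d := by
    rw [Polynomial.natDegree_prod_of_monic _ _ (fun i _ => Polynomial.monic_X_sub_C _)]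
    simp only [Polynomial.natDegree_X_sub_C, Finset.sum_const, Finset.card_univ, smul_eq_mul,
      mul_one]
    exact hcard
  have hC : ∀ k, ι (φ (P k)) = θ ^ (n * (d - k)) * (∏ i : I, (X - C (e i x))).coeff k := by
    intro k
    rw [hP k, ← Polynomial.coeff_map, hprod]
    have h1 : ∏ i, (X - C (e i x')) = (∏ i : I, (X - C (e i x))).scaleRoots (θ ^ n) := by
      rw [h58e_prod_scale]
      exact Finset.prod_congr rfl (fun i _ => by rw [hex' i])
    rw [h1, Polynomial.coeff_scaleRoots, hnat, ← pow_mul, mul_comm]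
  -- Step D
  have hD : ∀ k, ∃ Q : R₀, P k = T ^ (n * (d - k)) * Q := fun k =>
    hdiv _ (P k) _ (h58e_coeff_prod_mem PS Finset.univ (fun i => e i x) hps k) (hC k)
  choose Q hQ using hD
  -- Step E: Cayley–Hamilton
  have hCH : Polynomial.aeval x' χ = 0 := by
    have h := LinearMap.aeval_self_charpoly (LinearMap.mulLeft K x')
    have h1 : LinearMap.mulLeft K x' = Algebra.lmul K L x' := rfl
    rw [h1, Polynomial.aeval_algHom_apply] at h
    have h2 := congrArg (fun S : Module.End K L => S 1) h
    have h3 : Polynomial.aeval x' (LinearMap.mulLeft K x').charpoly * 1 = 0 := h2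
    rw [mul_one] at h3
    exact h3
  have hτ : algebraMap K L (φ T) ≠ 0 := (_root_.map_ne_zero _).mpr hT
  have hQd : φ (Q d) = 1 := by
    have h1 := hP d
    rw [hQ d, Nat.sub_self, mul_zero, pow_zero, one_mul] at h1
    rw [h1, ← hdeg]
    exact hmonic.coeff_natDegree
  have hsum : ∑ k ∈ Finset.range (d + 1), algebraMap K L (φ (Q k)) * x ^ k = 0 := by
    have h1 : Polynomial.aeval x' χ =
        ∑ k ∈ Finset.range (d + 1), algebraMap K L (χ.coeff k) * x' ^ k := by
      rw [Polynomial.aeval_eq_sum_range, hdeg]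
      refine Finset.sum_congr rfl (fun k _ => ?_)
      rw [Algebra.smul_def]
    have h2 : ∀ k ∈ Finset.range (d + 1), algebraMap K L (χ.coeff k) * x' ^ k =
        algebraMap K L (φ T) ^ (n * d) * (algebraMap K L (φ (Q k)) * x ^ k) := by
      intro k hk
      have hk' : k ≤ d := Nat.lt_succ_iff.mp (Finset.mem_range.mp hk)
      rw [← hP k, hQ k, map_mul, map_pow, map_mul, map_pow, hx', mul_pow, ← pow_mul]
      have h3 : n * d = n * (d - k) + n * k := by
        rw [← Nat.mul_add, Nat.sub_add_cancel hk']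
      rw [h3, pow_add]
      ring
    rw [h1, Finset.sum_congr rfl h2, ← Finset.mul_sum] at hCH
    exact (mul_eq_zero.mp hCH).resolve_left (pow_ne_zero _ hτ)
  -- the monic polynomial
  refine ⟨X ^ d + ∑ k ∈ Finset.range d, C (Q k) * X ^ k, ?_, ?_⟩
  · apply Polynomial.monic_X_pow_add
    refine lt_of_le_of_lt (Polynomial.degree_sum_le _ _) ?_
    refine (Finset.sup_lt_iff (WithBot.bot_lt_coe d)).mpr ?_
    intro k hk
    exact lt_of_le_of_lt (Polynomial.degree_C_mul_X_pow_le k (Q k))
      (WithBot.coe_lt_coe.mpr (Finset.mem_range.mp hk))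
  · rw [Polynomial.eval₂_add, Polynomial.eval₂_pow, Polynomial.eval₂_X,
      Polynomial.eval₂_finsetSum]
    rw [Finset.sum_range_succ, hQd, map_one, one_mul] at hsum
    rw [add_comm]
    convert hsum using 2
    refine Finset.sum_congr rfl (fun k _ => ?_)
    rw [Polynomial.eval₂_mul, Polynomial.eval₂_C, Polynomial.eval₂_pow, Polynomial.eval₂_X]
    rfl

end Abstract

end Fermat.Agent.S36
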