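import Fermat.Agent.S36.H58C11Fam
import Fermat.Agent.S36.H58C11IntAbs
import Fermat.Agent.S36.H90CuspLevel1
import Fermat.Agent.S36.H20Emb

/-!
# S36, block REG, row R-CUSP-UNIT11 (helper58): integrality at infinity at the level `q²`

`q` prime, `A` a valuation subring of `ℚ̄`, `t₀ = 1/j` in `FF (1 q q)`.

* `h58e_PS` : the subring of the power series of `ℚ̄((s))` (`h58e_mem_PS_iff`: the coefficients
  of negative index vanish); stable under `qExpand`, `twistK`.
* `h58e_int_inf` : **the criterion**: if `t₀ ^ n · x` is integral over `A[t₀]` and the expansions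
  of `x` at `E20` (the standard one), at every `E11^ζ` and at every `E02` are power series, then
  `x` is integral over `A[t₀]`.
* `h58e_int_inf_level` : the same, transported to the level `M q q`.

(`S = σ y₁ (1 - j₀/j₂) + (1 - y₁)` is not in the ring generated by the known elements of the
chart; only `t₀ S` is.)
-/

set_option autoImplicit false
set_option linter.style.haveILetI false
set_option linter.unusedSectionVars false
set_option linter.unusedVariables false
set_option synthInstance.maxHeartbeats 400000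

open AlgebraicCurve ModularCurve Polynomial

noncomputable section

namespace Fermat.Agent.S36

open Fermat.Agent.S24 Fermat.Agent.Red.Kron Fermat.Agent.Red.TRK Fermat.Agent.LGC
  Fermat.Agent.Red.HKComm
open Fermat.Agent.Red.GV (evalF evalF_C evalF_X)

/-! ## Power series -/

/-- the power series inside `ℚ̄((s))`. -/
def h58e_PS : Subring (LaurentSeries Kbar) := (HahnSeries.ofPowerSeries ℤ Kbar).range

theorem h58e_mem_PS_iff (w : LaurentSeries Kbar) :
    w ∈ h58e_PS ↔ ∀ n : ℤ, n < 0 → w.coeff n = 0 := by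
  constructor
  · rintro ⟨f, rfl⟩ n hn
    have h := PowerSeries.coeff_coe (R := Kbar) f n
    change ((f : LaurentSeries Kbar)).coeff n = _ at h
    change ((f : LaurentSeries Kbar)).coeff n = 0
    rw [h, if_pos hn]
  · intro h
    refine ⟨PowerSeries.mk (fun n => w.coeff (n : ℤ)), ?_⟩
    ext n
    have h1 := PowerSeries.coeff_coe (R := Kbar) (PowerSeries.mk (fun n => w.coeff (n : ℤ))) n
    change ((PowerSeries.mk (fun n => w.coeff (n : ℤ)) : PowerSeries Kbar) :
      LaurentSeries Kbar).coeff n = _ at h1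
    change ((PowerSeries.mk (fun n => w.coeff (n : ℤ)) : PowerSeries Kbar) :
      LaurentSeries Kbar).coeff n = w.coeff n
    rw [h1]
    split_ifs with hn
    · exact (h n hn).symm
    · rw [PowerSeries.coeff_mk]
      change w.coeff ((n.natAbs : ℕ) : ℤ) = w.coeff n
      rw [Int.natAbs_of_nonneg (not_lt.mp hn)]

theorem h58e_PS_qExpand (e : ℕ) [NeZero e] {w : LaurentSeries Kbar} (hw : w ∈ h58e_PS) :
    qExpand Kbar e w ∈ h58e_PS := by
  rw [h58e_mem_PS_iff] at hw ⊢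
  intro n hn
  by_cases hd : (e : ℤ) ∣ n
  · obtain ⟨k, rfl⟩ := hd
    rw [qExpand_coeff_mul]
    apply hw
    have he : (0 : ℤ) < e := by exact_mod_cast Nat.pos_of_ne_zero (NeZero.ne e)
    by_contra hk
    have : 0 ≤ (e : ℤ) * k := mul_nonneg he.le (not_lt.mp hk)
    omega
  · exact qExpand_coeff_of_not_dvd e w hd

theorem h58e_PS_twistK (ω : Kbar) {w : LaurentSeries Kbar} (hw : w ∈ h58e_PS) :
    twistK ω w ∈ h58e_PS := by
  rw [h58e_mem_PS_iff] at hw ⊢
  intro n hn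
  rw [coeff_twistK, hw n hn, zero_mul]

/-- the constant coefficient is multiplicative on power series. -/
theorem h58e_coeff_zero_mul {a b : LaurentSeries Kbar} (ha : a ∈ h58e_PS) (hb : b ∈ h58e_PS) :
    (a * b).coeff 0 = a.coeff 0 * b.coeff 0 := by
  obtain ⟨f, rfl⟩ := ha
  obtain ⟨g, rfl⟩ := hb
  rw [← map_mul]
  have h := fun p : PowerSeries Kbar => PowerSeries.coeff_coe (R := Kbar) p 0
  simp only [lt_irrefl, if_false, Int.natAbs_zero] at h
  change ((f * g : PowerSeries Kbar) : LaurentSeries Kbar).coeff 0 =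
    ((f : LaurentSeries Kbar)).coeff 0 * ((g : LaurentSeries Kbar)).coeff 0
  rw [h, h, h, PowerSeries.coeff_zero_eq_constantCoeff_apply,
    PowerSeries.coeff_zero_eq_constantCoeff_apply, PowerSeries.coeff_zero_eq_constantCoeff_apply,
    map_mul]

/-! ## The series of `1/j` -/

theorem h58e_coe_jinv (N : ℕ) [NeZero N] :
    (((jBar N)⁻¹ : FF N) : LaurentSeries Kbar) = (jqModC Kbar)⁻¹ := by
  have h1 : (((jBar N)⁻¹ : FF N) : LaurentSeries Kbar) =
      ((jBar N : FF N) : LaurentSeries Kbar)⁻¹ := rfl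
  rw [h1]
  have h2 := Fermat.Agent.Red.GV.coe_jB N
  change ((jBar N : FF N) : LaurentSeries Kbar) = _ at h2
  rw [h2]
  rfl

theorem h58e_order_jinv (N : ℕ) [NeZero N] :
    0 < (((jBar N)⁻¹ : FF N) : LaurentSeries Kbar).order := by
  rw [h58e_coe_jinv, h90u_order_jqModC_inv]
  exact one_pos

theorem h58e_jinv_mem_PS (N : ℕ) [NeZero N] :
    (((jBar N)⁻¹ : FF N) : LaurentSeries Kbar) ∈ h58e_PS := by
  rw [h58e_mem_PS_iff]
  intro n hn
  apply HahnSeries.coeff_eq_zero_of_lt_order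
  exact lt_trans hn (h58e_order_jinv N)

theorem h58e_jinv_coeff_zero (N : ℕ) [NeZero N] :
    (((jBar N)⁻¹ : FF N) : LaurentSeries Kbar).coeff 0 = 0 :=
  HahnSeries.coeff_eq_zero_of_lt_order (h58e_order_jinv N)

section Crit

variable (q : ℕ) [NeZero q]

theorem h58e_not_dvd_one (hq : q.Prime) : ¬ q ∣ 1 := fun h => hq.one_lt.ne' (Nat.dvd_one.mp h)

/-- `inc (1/j) = 1/j`. -/
theorem h58e_inc_jinv (M : ℕ) [NeZero M] :
    h58k_inc M q (jBar M)⁻¹ = (jBar (M * q * q))⁻¹ := by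
  rw [map_inv₀, h58k_inc, degenE_one_jBar]

variable (A : ValuationSubring Kbar)

theorem h58e_iota_X :
    h58k_iota 1 q (evalF 1 A (jBar 1)⁻¹ X) =
      qExpand Kbar (q * q) (((jBar 1)⁻¹ : FF 1) : LaurentSeries Kbar) := by
  rw [evalF_X, h58k_iota_apply]

theorem h58e_theta_mem :
    h58k_iota 1 q (evalF 1 A (jBar 1)⁻¹ X) ∈ h58e_PS := by
  rw [h58e_iota_X]
  exact h58e_PS_qExpand (q * q) (h58e_jinv_mem_PS 1)

theorem h58e_theta_coeff_zero :
    (h58k_iota 1 q (evalF 1 A (jBar 1)⁻¹ X)).coeff 0 = 0 := by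
  rw [h58e_iota_X]
  have h := qExpand_coeff_mul (R := Kbar) (q * q) (((jBar 1)⁻¹ : FF 1) : LaurentSeries Kbar) 0
  rw [mul_zero] at h
  rw [h]
  exact h58e_jinv_coeff_zero 1

theorem h58e_theta_ne_zero :
    h58k_iota 1 q (evalF 1 A (jBar 1)⁻¹ X) ≠ 0 := by
  rw [evalF_X]
  intro h
  have h1 := (h58k_iota 1 q).injective (h.trans (map_zero _).symm)
  have hj : jBar 1 ≠ 0 := by
    intro h0
    apply Fermat.Agent.S24.transcendental_jBar 1
    rw [h0]
    exact isAlgebraic_zero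
  exact inv_ne_zero hj h1

/-- the constant coefficient of the expansion of `P (1/j)`. -/
theorem h58e_coeff_zero (P : Polynomial A) :
    (h58k_iota 1 q (evalF 1 A (jBar 1)⁻¹ P)).coeff 0 = ((P.coeff 0 : A) : Kbar) := by
  rw [h58k_iota_apply]
  have h := qExpand_coeff_mul (R := Kbar) (q * q)
    ((evalF 1 A (jBar 1)⁻¹ P : FF 1) : LaurentSeries Kbar) 0
  rw [mul_zero] at h
  rw [h, Fermat.Agent.Red.GV.coe_evalF]
  exact h90u_coeff_zero_eval₂ A.subtype _ (h58e_order_jinv 1) P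

/-- divisibility by the orders. -/
theorem h58e_hdiv (m : ℕ) (P : Polynomial A) (w : LaurentSeries Kbar) (hw : w ∈ h58e_PS)
    (h : h58k_iota 1 q (evalF 1 A (jBar 1)⁻¹ P) =
      h58k_iota 1 q (evalF 1 A (jBar 1)⁻¹ X) ^ m * w) :
    ∃ Q : Polynomial A, P = X ^ m * Q := by
  induction m generalizing P with
  | zero => exact ⟨P, by rw [pow_zero, one_mul]⟩
  | succ m IH =>
    have hθ := h58e_theta_mem q A
    have h1 : (h58k_iota 1 q (evalF 1 A (jBar 1)⁻¹ P)).coeff 0 = 0 := by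
      rw [h, pow_succ', mul_assoc,
        h58e_coeff_zero_mul hθ (h58e_PS.mul_mem (h58e_PS.pow_mem hθ m) hw),
        h58e_theta_coeff_zero, zero_mul]
    rw [h58e_coeff_zero] at h1
    have h2 : P.coeff 0 = 0 := Subtype.ext h1
    have h3 : P = X * P.divX := by
      conv_lhs => rw [← Polynomial.X_mul_divX_add P, h2, map_zero, add_zero]
    have h4 : h58k_iota 1 q (evalF 1 A (jBar 1)⁻¹ P.divX) =
        h58k_iota 1 q (evalF 1 A (jBar 1)⁻¹ X) ^ m * w := by
      have h5 := h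
      rw [h3, map_mul, map_mul, pow_succ', mul_assoc] at h5
      exact mul_left_cancel₀ (h58e_theta_ne_zero q A) h5
    obtain ⟨Q, hQ⟩ := IH P.divX h4
    refine ⟨Q, ?_⟩
    rw [h3, hQ, pow_succ', mul_assoc]

/-- **the criterion at the level `q²`.** -/
theorem h58e_int_inf (hq : q.Prime) (n : ℕ) (x : FF (1 * q * q))
    (hx : (jBar (1 * q * q))⁻¹ ^ n * x ∈
      Fermat.Agent.S37.modelAt (1 * q * q) A (jBar (1 * q * q))⁻¹)
    (h20 : ((x : FF (1 * q * q)) : LaurentSeries Kbar) ∈ h58e_PS)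
    (h11 : ∀ (ζ : Kbar) (E : FF (1 * q * q) →+* LaurentSeries Kbar), ζ ^ q = 1 → ζ ≠ 1 →
      h20n_IsE11 1 q hq (h58e_not_dvd_one q hq) ζ E → E x ∈ h58e_PS)
    (h02 : ∀ E0 : FF (1 * q * q) →+* LaurentSeries Kbar,
      h20n_IsE02 1 q hq (h58e_not_dvd_one q hq) E0 → E0 x ∈ h58e_PS) :
    x ∈ Fermat.Agent.S37.modelAt (1 * q * q) A (jBar (1 * q * q))⁻¹ := by
  have hq1 := h58e_not_dvd_one q hq
  have hqq : 0 < q * q := Nat.mul_pos hq.pos hq.pos
  obtain ⟨ξ, hξ⟩ := HasEnoughRootsOfUnity.exists_primitiveRoot Kbar (q * q)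
  have hζ : IsPrimitiveRoot (ξ ^ q) q := hξ.pow hqq rfl
  -- the embeddings
  have hex : ∀ b : ℕ, ∃ E : FF (1 * q * q) →+* LaurentSeries Kbar,
      0 < b → b < q → h20n_IsE11 1 q hq hq1 ((ξ ^ q) ^ b) E := by
    intro b
    by_cases hb : 0 < b ∧ b < q
    · obtain ⟨E, hE⟩ := h20n_exists_E11 1 q hq hq1 ((ξ ^ q) ^ b)
        (by rw [← pow_mul, mul_comm, pow_mul, hζ.pow_eq_one, one_pow])
        (hζ.pow_ne_one_of_pos_of_lt hb.1.ne' hb.2)
      exact ⟨E, fun _ _ => hE⟩
    · exact ⟨algebraMap _ _, fun h1 h2 => absurd ⟨h1, h2⟩ hb⟩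
  choose E hE using hex
  obtain ⟨E0, hE0⟩ := h20n_exists_E02 1 q hq hq1
  -- the algebra structure
  letI := algebraAlong (h58k_inc 1 q)
  haveI : FiniteDimensional (FF 1) (FF (1 * q * q)) :=
    hkdeg_finiteAlong_degenE_one (h58k_dvd 1 q)
  haveI : Algebra.IsSeparable (FF 1) (FF (1 * q * q)) := inferInstance
  haveI : Infinite (FF 1) := inferInstance
  have hcomp : (algebraMap (FF 1) (FF (1 * q * q))).comp (evalF 1 A (jBar 1)⁻¹) =
      evalF (1 * q * q) A (jBar (1 * q * q))⁻¹ := by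
    have h := Fermat.Agent.Red.KR.comp_evalF (h58k_inc 1 q) A (jBar 1)⁻¹
    rw [h58e_inc_jinv] at h
    exact h
  have hT : evalF 1 A (jBar 1)⁻¹ X ≠ 0 := by
    intro h
    apply h58e_theta_ne_zero q A
    rw [h, map_zero]
  have hτ : algebraMap (FF 1) (FF (1 * q * q)) (evalF 1 A (jBar 1)⁻¹ X) =
      (jBar (1 * q * q))⁻¹ := by
    rw [evalF_X]
    exact h58e_inc_jinv q 1
  have key := h58e_crit_abs (R₀ := Polynomial A) (K := FF 1) (L := FF (1 * q * q))
    (Ω := LaurentSeries Kbar) (evalF 1 A (jBar 1)⁻¹) X hT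
    (fun u hu => h90u_level1_poly A u
      ((Fermat.Agent.Red.KR.mem_modelAt_iff_evalF A _ u).mpr hu))
    (h58k_iota 1 q) (h58k_fam 1 q E E0 ξ (hξ.ne_zero (NeZero.ne (q * q))))
    (h58k_fam_injective 1 q hq hq1 (ξ ^ q) hζ E hE E0 hE0 ξ hξ)
    (fun i y => h58k_fam_inc 1 q hq hq1 (ξ ^ q) E hE E0 hE0 ξ (hξ.ne_zero (NeZero.ne (q * q)))
      hξ.pow_eq_one i y)
    (h58k_card 1 q hq hq1) h58e_PS
    (fun m P w hw h => h58e_hdiv q A m P w hw h) n x
    (by
      rw [hcomp, hτ]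
      exact (Fermat.Agent.Red.KR.mem_modelAt_iff_evalF A _ _).mp hx)
    (by
      rintro (c | b)
      · rw [h58k_fam_inl]
        apply h58e_PS_qExpand
        rcases Nat.eq_zero_or_pos (c : ℕ) with hc | hc
        · rw [hc, h40naFam_zero]
          exact h20
        · rw [h40naFam_pos 1 q E hc]
          exact h11 _ _ (by rw [← pow_mul, mul_comm, pow_mul, hζ.pow_eq_one, one_pow])
            (hζ.pow_ne_one_of_pos_of_lt hc.ne' c.2) (hE c hc c.2)
      · rw [h58k_fam_inr]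
        exact h58e_PS_twistK _ (h02 E0 hE0))
  rw [hcomp] at key
  exact (Fermat.Agent.Red.KR.mem_modelAt_iff_evalF A _ _).mpr key

/-- **the criterion, transported to the level `M q²`.** -/
theorem h58e_int_inf_level (hq : q.Prime) (M : ℕ) [NeZero M] (n : ℕ) (x : FF (1 * q * q))
    (hx : (jBar (1 * q * q))⁻¹ ^ n * x ∈
      Fermat.Agent.S37.modelAt (1 * q * q) A (jBar (1 * q * q))⁻¹)
    (h20 : ((x : FF (1 * q * q)) : LaurentSeries Kbar) ∈ h58e_PS)
    (h11 : ∀ (ζ : Kbar) (E : FF (1 * q * q) →+* LaurentSeries Kbar), ζ ^ q = 1 → ζ ≠ 1 →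
      h20n_IsE11 1 q hq (h58e_not_dvd_one q hq) ζ E → E x ∈ h58e_PS)
    (h02 : ∀ E0 : FF (1 * q * q) →+* LaurentSeries Kbar,
      h20n_IsE02 1 q hq (h58e_not_dvd_one q hq) E0 → E0 x ∈ h58e_PS)
    (h : 1 * q * q * 1 ∣ M * q * q) :
    degenE 1 h x ∈ Fermat.Agent.S37.modelAt (M * q * q) A (jBar (M * q * q))⁻¹ := by
  have h1 := Fermat.Agent.Red.KR.map_mem_modelAt (degenE 1 h) A
    (h58e_int_inf q A hq n x hx h20 h11 h02)
  rw [map_inv₀, degenE_one_jBar] at h1
  exact h1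

end Crit

end Fermat.Agent.S36
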