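import Fermat.Agent.S36.H58ConjK
import Fermat.Agent.Red.HKComm.Deg
import Fermat.Agent.Red.KR.Basic

/-!
# S36 / blocks V, N (helper58): the conjugates of `u ∈ F_{M q²}` over `α₂(F_{Mq})`

`q` prime, `q ∤ M`, `ζ` a primitive `q`-th root of unity.  The `q` conjugates of `u ∈ F_{Mq²}`
over `α₂(F_{Mq})` are, as elements of `ℚ̄((s))`,

  `u(s)` (standard expansion)  and  `ε_{ζ^c}(u)`, `0 < c < q` (middle cusps).

* `h58c_finrank_alpha` : `[F_{Nℓ} : α(F_N)] = ℓ` for a prime `ℓ ∣ N`;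
* `h58c_conj`, `h58c_conj_alpha`, `h58c_conj_injective` : the family of conjugates;
* `h58c_charpoly_alpha`, `h58c_charpolyAlong_alpha` : the characteristic polynomial;
* `h58c_norm_alpha`, `h58c_normAlong_alpha` : `Nm_{α₂}(u)(s) = ∏_{c<q} conj_c(u)`.
-/

set_option autoImplicit false
set_option linter.style.haveILetI false
set_option linter.unusedSectionVars false
set_option synthInstance.maxHeartbeats 400000

open ModularCurve AlgebraicCurve CongruenceSubgroup IntermediateField UpperHalfPlane Polynomial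
open scoped MatrixGroups Manifold

noncomputable section

namespace Fermat.Agent.S36

open Fermat.Agent.S24 Fermat.Agent.Red.Kron Fermat.Agent.Red.TRK Fermat.Agent.LGC
open Fermat.Agent.Red.KR (normAlong)

/-- `[F_{Nℓ} : α(F_N)] = ℓ` for a prime `ℓ ∣ N`. -/
theorem h58c_finrank_alpha (N ℓ : ℕ) [NeZero N] [NeZero ℓ] (hℓ : ℓ.Prime) (hN : ℓ ∣ N) :
    letI := algebraAlong (heckeAlphaBar Kbar N ℓ)
    Module.finrank (FF N) (FF (N * ℓ)) = ℓ := by
  have h1 := finrank_adjoin_mul_finrank_along (heckeAlphaBar Kbar N ℓ) (jBar N) (jBar (N * ℓ))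
    (Fermat.Agent.Red.HKMod.heckeAlphaBar_jBar N ℓ)
  rw [(kIfaceFin N).2.2, (kIfaceFin (N * ℓ)).2.2] at h1
  have h2 : dedekindPsi (N * ℓ) = dedekindPsi N * ℓ := by
    rw [Fermat.Agent.Red.HKComm.hkdeg_psi_mul_prime N ℓ (Nat.pos_of_ne_zero (NeZero.ne N)) hℓ,
      if_pos hN]
  rw [h2] at h1
  exact Nat.eq_of_mul_eq_mul_left (Nat.pos_of_ne_zero (dedekindPsi_ne_zero' N)) h1

variable (M q : ℕ) [NeZero M] [NeZero q]

/-- the standard expansion `F_{M q²} → ℚ̄((s))`. -/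
def h58c_std : FF (M * q * q) →+* LaurentSeries Kbar :=
  algebraMap (FF (M * q * q)) (LaurentSeries Kbar)

theorem h58c_std_apply (u : FF (M * q * q)) : h58c_std M q u = (u : LaurentSeries Kbar) := rfl

/-- **the family of conjugates** over `α₂(F_{Mq})`: the standard expansion for `q ∣ c`, the
middle-cusp embedding attached to `ζ ^ c` otherwise. -/
def h58c_conj (hq : q.Prime) (hM : ¬ q ∣ M) (ζ : Kbar) (hζ : IsPrimitiveRoot ζ q) (c : ℕ) :
    FF (M * q * q) →+* LaurentSeries Kbar :=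
  if h : q ∣ c then h58c_std M q
  else h58c_emb M q hq hM (ζ ^ c)
    (hζ.pow_of_coprime c ((Nat.Prime.coprime_iff_not_dvd hq).mpr h).symm)

theorem h58c_conj_of_dvd (hq : q.Prime) (hM : ¬ q ∣ M) (ζ : Kbar) (hζ : IsPrimitiveRoot ζ q)
    {c : ℕ} (h : q ∣ c) : h58c_conj M q hq hM ζ hζ c = h58c_std M q := by
  rw [h58c_conj, dif_pos h]

theorem h58c_conj_zero (hq : q.Prime) (hM : ¬ q ∣ M) (ζ : Kbar) (hζ : IsPrimitiveRoot ζ q) :
    h58c_conj M q hq hM ζ hζ 0 = h58c_std M q :=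
  h58c_conj_of_dvd M q hq hM ζ hζ (dvd_zero q)

theorem h58c_conj_of_not_dvd (hq : q.Prime) (hM : ¬ q ∣ M) (ζ : Kbar)
    (hζ : IsPrimitiveRoot ζ q) {c : ℕ} (h : ¬ q ∣ c) :
    h58c_conj M q hq hM ζ hζ c = h58c_emb M q hq hM (ζ ^ c)
      (hζ.pow_of_coprime c ((Nat.Prime.coprime_iff_not_dvd hq).mpr h).symm) := by
  rw [h58c_conj, dif_neg h]

/-- all conjugates restrict to the standard expansion on `α₂(F_{Mq})`. -/
theorem h58c_conj_alpha (hq : q.Prime) (hM : ¬ q ∣ M) (ζ : Kbar) (hζ : IsPrimitiveRoot ζ q)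
    (c : ℕ) (y : FF (M * q)) :
    h58c_conj M q hq hM ζ hζ c (heckeAlphaBar Kbar (M * q) q y) = (y : LaurentSeries Kbar) := by
  by_cases h : q ∣ c
  · rw [h58c_conj_of_dvd M q hq hM ζ hζ h, h58c_std_apply, coe_heckeAlphaBar]
  · rw [h58c_conj_of_not_dvd M q hq hM ζ hζ h, h58c_emb_alpha]

theorem h58c_coeff_jBar_neg_one : ((jBar M : FF M) : LaurentSeries Kbar).coeff (-1) = 1 := by
  rw [coe_jBar, coeffEmb_coeff, coeff_jq_neg_one, map_one]

/-- the coefficient of `s⁻¹` of the `c`-th conjugate of `j(q² τ)`: `0` for the standard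
expansion, `ζ^(-c)` at the middle cusps. -/
theorem h58c_conj_jj_coeff (hq : q.Prime) (hM : ¬ q ∣ M) (ζ : Kbar) (hζ : IsPrimitiveRoot ζ q)
    (c : ℕ) :
    (h58c_conj M q hq hM ζ hζ c
      (heckeBetaBar Kbar (M * q) q (heckeBetaBar Kbar M q (jBar M)))).coeff (-1) =
      if q ∣ c then 0 else (ζ ^ c)⁻¹ := by
  by_cases h : q ∣ c
  · rw [h58c_conj_of_dvd M q hq hM ζ hζ h, if_pos h, h58c_std_apply, coe_heckeBetaBar,
      coe_heckeBetaBar, qExpand_qExpand]
    apply qExpand_coeff_of_not_dvd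
    rintro ⟨d, hd⟩
    have h1 : (((q * q : ℕ) : ℤ)) ∣ 1 := ⟨-d, by rw [mul_neg, ← hd]; ring⟩
    have h2 : ((q * q : ℕ) : ℤ) ≤ 1 := Int.le_of_dvd one_pos h1
    have h3 : 1 < q := hq.one_lt
    have h4 : 1 < q * q := by nlinarith
    omega
  · rw [h58c_conj_of_not_dvd M q hq hM ζ hζ h, if_neg h, h58c_emb_beta_beta, coeff_twistK,
      h58c_coeff_jBar_neg_one, one_mul, zpow_neg_one]

/-- the `q` conjugates are pairwise distinct. -/
theorem h58c_conj_injective (hq : q.Prime) (hM : ¬ q ∣ M) (ζ : Kbar)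
    (hζ : IsPrimitiveRoot ζ q) :
    Function.Injective (fun i : Fin q => h58c_conj M q hq hM ζ hζ (i : ℕ)) := by
  intro i j hij
  have hζ0 : ζ ≠ 0 := hζ.ne_zero (NeZero.ne q)
  have h1 := h58c_conj_jj_coeff M q hq hM ζ hζ (i : ℕ)
  have h2 := h58c_conj_jj_coeff M q hq hM ζ hζ (j : ℕ)
  have hij' : h58c_conj M q hq hM ζ hζ (i : ℕ) = h58c_conj M q hq hM ζ hζ (j : ℕ) := hij
  rw [hij', h2] at h1
  have hdvd : ∀ k : Fin q, q ∣ (k : ℕ) ↔ (k : ℕ) = 0 := fun k =>
    ⟨fun hd => Nat.eq_zero_of_dvd_of_lt hd k.2, fun h0 => by rw [h0]; exact dvd_zero q⟩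
  apply Fin.ext
  by_cases hi : q ∣ (i : ℕ)
  · by_cases hj : q ∣ (j : ℕ)
    · rw [(hdvd i).mp hi, (hdvd j).mp hj]
    · rw [if_pos hi, if_neg hj] at h1
      exact absurd h1 (inv_ne_zero (pow_ne_zero _ hζ0))
  · by_cases hj : q ∣ (j : ℕ)
    · rw [if_neg hi, if_pos hj] at h1
      exact absurd h1.symm (inv_ne_zero (pow_ne_zero _ hζ0))
    · rw [if_neg hi, if_neg hj] at h1
      exact (hζ.pow_inj j.2 i.2 (inv_injective h1)).symm

/-- **the characteristic polynomial of `u ∈ F_{M q²}` over `α₂(F_{Mq})`**, in `ℚ̄((s))[X]`. -/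
theorem h58c_charpoly_alpha (hq : q.Prime) (hM : ¬ q ∣ M) (ζ : Kbar) (hζ : IsPrimitiveRoot ζ q)
    (u : FF (M * q * q)) :
    letI := algebraAlong (heckeAlphaBar Kbar (M * q) q)
    haveI : FiniteDimensional (FF (M * q)) (FF (M * q * q)) :=
      Fermat.Agent.Red.HKMod.finiteAlong_heckeAlphaBar (M * q) q
    (LinearMap.mulLeft (FF (M * q)) u).charpoly.map
        (algebraMap (FF (M * q)) (LaurentSeries Kbar)) =
      ∏ c ∈ Finset.range q, (X - C (h58c_conj M q hq hM ζ hζ c u)) := by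
  letI := algebraAlong (heckeAlphaBar Kbar (M * q) q)
  haveI : FiniteDimensional (FF (M * q)) (FF (M * q * q)) :=
    Fermat.Agent.Red.HKMod.finiteAlong_heckeAlphaBar (M * q) q
  haveI : Algebra.IsSeparable (FF (M * q)) (FF (M * q * q)) := inferInstance
  haveI : Infinite (FF (M * q)) := inferInstance
  rw [charpoly_map_eq_prod_of_embeddings (K := FF (M * q)) (L := FF (M * q * q))
    (algebraMap (FF (M * q)) (LaurentSeries Kbar))
    (fun i : Fin q => h58c_conj M q hq hM ζ hζ (i : ℕ)) (h58c_conj_injective M q hq hM ζ hζ)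
    (fun i y => h58c_conj_alpha M q hq hM ζ hζ (i : ℕ) y)
    (by rw [Fintype.card_fin]; exact (h58c_finrank_alpha (M * q) q hq (dvd_mul_left q M)).symm)
    u]
  exact Fin.prod_univ_eq_prod_range
    (fun c : ℕ => (X - C (h58c_conj M q hq hM ζ hζ c u) : Polynomial (LaurentSeries Kbar))) q

/-- the same, in the `charpolyAlong` vocabulary. -/
theorem h58c_charpolyAlong_alpha (hq : q.Prime) (hM : ¬ q ∣ M) (ζ : Kbar)
    (hζ : IsPrimitiveRoot ζ q) (hfin : FiniteAlong Kbar (heckeAlphaBar Kbar (M * q) q))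
    (u : FF (M * q * q)) :
    (charpolyAlong (heckeAlphaBar Kbar (M * q) q) hfin u).map
        (algebraMap (FF (M * q)) (LaurentSeries Kbar)) =
      ∏ c ∈ Finset.range q, (X - C (h58c_conj M q hq hM ζ hζ c u)) :=
  h58c_charpoly_alpha M q hq hM ζ hζ u

/-- **the norm of `u ∈ F_{M q²}` along `α₂`**: `Nm_{α₂}(u)(s) = ∏_{c<q} conj_c(u)`. -/
theorem h58c_norm_alpha (hq : q.Prime) (hM : ¬ q ∣ M) (ζ : Kbar) (hζ : IsPrimitiveRoot ζ q)
    (u : FF (M * q * q)) :
    ((normAlong (heckeAlphaBar Kbar (M * q) q) u : FF (M * q)) : LaurentSeries Kbar) =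
      ∏ c ∈ Finset.range q, h58c_conj M q hq hM ζ hζ c u := by
  letI := algebraAlong (heckeAlphaBar Kbar (M * q) q)
  haveI : FiniteDimensional (FF (M * q)) (FF (M * q * q)) :=
    Fermat.Agent.Red.HKMod.finiteAlong_heckeAlphaBar (M * q) q
  haveI : Algebra.IsSeparable (FF (M * q)) (FF (M * q * q)) := inferInstance
  have key := norm_eq_prod_of_embeddings (K := FF (M * q)) (L := FF (M * q * q))
    (algebraMap (FF (M * q)) (LaurentSeries Kbar))
    (fun i : Fin q => h58c_conj M q hq hM ζ hζ (i : ℕ)) (h58c_conj_injective M q hq hM ζ hζ)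
    (fun i y => h58c_conj_alpha M q hq hM ζ hζ (i : ℕ) y)
    (by rw [Fintype.card_fin]; exact (h58c_finrank_alpha (M * q) q hq (dvd_mul_left q M)).symm)
    u
  rw [Fin.prod_univ_eq_prod_range (fun c : ℕ => h58c_conj M q hq hM ζ hζ c u) q] at key
  exact key

/-- **the norm along `α₂`, split form**:
`Nm_{α₂}(u)(s) = u(s) · ∏_{c < q - 1} ε_{ζ^(c+1)}(u)`. -/
theorem h58c_norm_alpha_split (hq : q.Prime) (hM : ¬ q ∣ M) (ζ : Kbar)
    (hζ : IsPrimitiveRoot ζ q) (u : FF (M * q * q)) :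
    ((normAlong (heckeAlphaBar Kbar (M * q) q) u : FF (M * q)) : LaurentSeries Kbar) =
      (u : LaurentSeries Kbar) *
        ∏ c ∈ Finset.range (q - 1), h58c_conj M q hq hM ζ hζ (c + 1) u := by
  rw [h58c_norm_alpha M q hq hM ζ hζ u]
  have hr : Finset.range q = Finset.range (q - 1 + 1) := by
    rw [Nat.sub_add_cancel hq.one_lt.le]
  rw [hr, Finset.prod_range_succ', mul_comm, h58c_conj_zero, h58c_std_apply]

end Fermat.Agent.S36
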