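import Fermat.Agent.LGC.Conj

/-!
# S36 / blocks V, N (helper58): the middle-cusp embeddings of `F_{M q²}`

`q` prime, `q ∤ M`, `F₁ = FF (M * q)`, `F₂ = FF (M * q * q)`,
`α₂ = heckeAlphaBar Kbar (M * q) q`, `β₂ = heckeBetaBar Kbar (M * q) q : F₁ → F₂`,
`w = kFricke M q` the Fricke involution of `F₁`.

For `b : ℤ` prime to `q` the matrix `γ_b = (1, 0; M q b, 1) ∈ Γ₀(M q)` is not in `Γ₀(M q²)`;
the expansion of `G ∘ γ_b` (in `𝕋 = exp (2πiτ/(M q²))`) is the expansion of `G` at a "middle"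
cusp of `X₀(M q²)` (Tate picture: `(E₀, E₁, E₂) = (T(s), T(s^q), T(ω s))`, `ω^q = 1`, `ω ≠ 1`).

* `h58c_embC_alpha`      : `ε (α₂ y) = y(s)`;
* `h58c_embC_beta_beta`  : `ε (β₂ (β x)) = x(ω s)`;
* `h58c_embC_beta`       : `ε (β₂ y) = (w y)(ω s)`.
-/

set_option autoImplicit false
set_option linter.style.haveILetI false
set_option linter.unusedSectionVars false

open ModularCurve AlgebraicCurve CongruenceSubgroup IntermediateField UpperHalfPlane Polynomial
open scoped MatrixGroups Manifold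

noncomputable section

namespace Fermat.Agent.S36

open Fermat.Agent.S28 (HasTExp jAn jAt cEmb scaleH affH twist twistDil)
open Fermat.Agent.S24 Fermat.Agent.Red.Kron Fermat.Agent.Red.TRK Fermat.Agent.LGC

/-! ## the matrices -/

/-- `γ_b = (1, 0; M q b, 1)`. -/
def h58c_gam (M q : ℕ) (b : ℤ) : SL(2, ℤ) :=
  ⟨!![1, 0; (M : ℤ) * (q : ℤ) * b, 1], by rw [Matrix.det_fin_two_of]; ring⟩

/-- `γ' = (q, y; M b, m)`, where `q m - M b y = 1`. -/
def h58c_gamP (M q : ℕ) (b m y : ℤ) (h : (q : ℤ) * m - (M : ℤ) * b * y = 1) : SL(2, ℤ) :=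
  ⟨!![(q : ℤ), y; (M : ℤ) * b, m], by rw [Matrix.det_fin_two_of]; linear_combination h⟩

theorem h58c_gam_mem (M q : ℕ) (b : ℤ) : h58c_gam M q b ∈ Gamma0 (M * q) := by
  rw [Fermat.Agent.S28.Cusp.mem_Gamma0_iff_dvd]
  refine ⟨b, ?_⟩
  simp [h58c_gam]

theorem h58c_gamP_mem (M q : ℕ) (b m y : ℤ) (h : (q : ℤ) * m - (M : ℤ) * b * y = 1) :
    h58c_gamP M q b m y h ∈ Gamma0 M := by
  rw [Fermat.Agent.S28.Cusp.mem_Gamma0_iff_dvd]
  refine ⟨b, ?_⟩
  simp [h58c_gamP]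

/-- the point identity `q² · (γ_b τ) = γ' ((q τ - y) / q)`. -/
theorem h58c_scaleH_gam_smul (M q : ℕ) (hq : 0 < q) (b m y : ℤ)
    (h : (q : ℤ) * m - (M : ℤ) * b * y = 1) (τ : ℍ) :
    scaleH (q * q) (h58c_gam M q b • τ) =
      h58c_gamP M q b m y h •
        affH (q : ℝ) ((-y : ℤ) : ℝ) (q : ℝ) (by exact_mod_cast hq) (by exact_mod_cast hq) τ := by
  have hqc : (q : ℂ) ≠ 0 := by exact_mod_cast hq.ne'
  have hden : (((h58c_gam M q b) 1 0 : ℤ) : ℂ) * (τ : ℂ) + (((h58c_gam M q b) 1 1 : ℤ) : ℂ)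
      ≠ 0 := by
    have := UpperHalfPlane.denom_ne_zero ((h58c_gam M q b : SL(2, ℤ)) : GL (Fin 2) ℝ) τ
    rwa [ModularGroup.denom_apply] at this
  have hden' : (((h58c_gamP M q b m y h) 1 0 : ℤ) : ℂ) *
      ((affH (q : ℝ) ((-y : ℤ) : ℝ) (q : ℝ) (by exact_mod_cast hq) (by exact_mod_cast hq) τ : ℍ) :
        ℂ) + (((h58c_gamP M q b m y h) 1 1 : ℤ) : ℂ) ≠ 0 := by
    have := UpperHalfPlane.denom_ne_zero ((h58c_gamP M q b m y h : SL(2, ℤ)) : GL (Fin 2) ℝ)
      (affH (q : ℝ) ((-y : ℤ) : ℝ) (q : ℝ) (by exact_mod_cast hq) (by exact_mod_cast hq) τ)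
    rwa [ModularGroup.denom_apply] at this
  have hc : ((q : ℂ)) * (m : ℂ) - (M : ℂ) * (b : ℂ) * (y : ℂ) = 1 := by exact_mod_cast h
  apply UpperHalfPlane.ext
  rw [Fermat.Agent.S28.coe_scaleH (Nat.mul_pos hq hq),
    UpperHalfPlane.coe_specialLinearGroup_apply, UpperHalfPlane.coe_specialLinearGroup_apply]
  simp only [algebraMap_int_eq, Int.coe_castRingHom, Complex.ofReal_intCast]
  rw [Fermat.Agent.S28.coe_affH] at hden' ⊢
  simp only [h58c_gam, h58c_gamP, Matrix.SpecialLinearGroup.coe_mk, Matrix.of_apply,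
    Matrix.cons_val', Matrix.cons_val_zero, Matrix.cons_val_one,
    Matrix.cons_val_fin_one] at hden hden' ⊢
  push_cast at hden hden' ⊢
  field_simp
  have hd2 : (M : ℂ) * (b : ℂ) * ((q : ℂ) * (τ : ℂ) + -(y : ℂ)) + (q : ℂ) * (m : ℂ) =
      (q : ℂ) * (τ : ℂ) * (M : ℂ) * (b : ℂ) + 1 := by linear_combination hc
  rw [hd2]
  ring

/-! ## the embedding and its values on the generators -/

section Embeddings

variable (M q : ℕ) [NeZero M] [NeZero q] (b : ℤ)

/-- the middle-cusp embedding `F_{M q²} → ℂ((𝕋))`, `𝕋 = exp (2πiτ/(M q²))`: "expansion of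
`G ∘ γ_b`". -/
def h58c_embC : FF (M * q * q) →+* LaurentSeries ℂ :=
  h19_cuspEmb (M * q * q) (h58c_gam M q b)⁻¹

theorem h58c_embC_cst (a : Kbar) :
    h58c_embC M q b (cst (M * q * q) a) = HahnSeries.C (embC a) :=
  h19_cuspEmb_cst (M * q * q) _ a

/-- on `α₂(F_{Mq})` the middle-cusp embedding is the standard expansion. -/
theorem h58c_embC_alpha (y : FF (M * q)) :
    h58c_embC M q b (heckeAlphaBar Kbar (M * q) q y) =
      qExpand ℂ (M * q * q) (coeffMap embC (y : LaurentSeries Kbar)) := by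
  obtain ⟨P, Q, hx⟩ := exists_isAn (M * q) y
  obtain ⟨p₁, q₁, hP, hQ, hrel⟩ := hx.rel
  have hq₁ : q₁ ≠ 0 := h23_series_ne_zero hQ hx.Q_ne
  have hp : HasTExp (M * q * q) (fun τ => P ((h58c_gam M q b)⁻¹⁻¹ • τ))
      (qExpand ℂ (M * q * q) p₁) :=
    (HasTExp.of_one hP).congr (fun τ => by
      rw [inv_inv]; exact (hx.invP _ (h58c_gam_mem M q b) τ).symm)
  have hq : HasTExp (M * q * q) (fun τ => Q ((h58c_gam M q b)⁻¹⁻¹ • τ))
      (qExpand ℂ (M * q * q) q₁) :=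
    (HasTExp.of_one hQ).congr (fun τ => by
      rw [inv_inv]; exact (hx.invQ _ (h58c_gam_mem M q b) τ).symm)
  have hrel' : coeffMap embC
      ((heckeAlphaBar Kbar (M * q) q y : FF (M * q * q)) : LaurentSeries Kbar) * q₁ = p₁ := by
    rw [coe_heckeAlphaBar]; exact hrel
  have key := kEval (M * q * q) (h58c_gam M q b)⁻¹ (heckeAlphaBar Kbar (M * q) q y) hP hQ hrel'
    hp hq
  rw [← hrel, map_mul] at key
  exact mul_right_cancel₀ ((map_ne_zero (qExpand ℂ (M * q * q))).mpr hq₁) key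

/-- on `β₂ β (F_M)` the middle-cusp embedding is the expansion twisted by the root of unity
`exp (-2πi y / q)`, where `q m - M b y = 1`. -/
theorem h58c_embC_beta_beta (m y : ℤ) (h : (q : ℤ) * m - (M : ℤ) * b * y = 1) (x : FF M) :
    h58c_embC M q b (heckeBetaBar Kbar (M * q) q (heckeBetaBar Kbar M q x)) =
      qExpand ℂ (M * q * q) (twistK (kOmega q (-y)) (coeffMap embC (x : LaurentSeries Kbar))) := by
  have hq0 : 0 < q := Nat.pos_of_ne_zero (NeZero.ne q)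
  have hL : 0 < M * q * q := Nat.pos_of_ne_zero (NeZero.ne _)
  obtain ⟨P, Q, hx⟩ := exists_isAn M x
  obtain ⟨p₁, q₁, hP, hQ, hrel⟩ := hx.rel
  have hq₁ : q₁ ≠ 0 := h23_series_ne_zero hQ hx.Q_ne
  have hω : Complex.exp (2 * Real.pi * Complex.I * ((-y : ℤ) : ℂ) / ((q : ℂ) * ((1 : ℕ) : ℂ)))
      = kOmega q (-y) := by
    rw [kOmega, Nat.cast_one, mul_one]
  -- the expansions of the translates
  have haff : ∀ {F : ℍ → ℂ} {s : LaurentSeries ℂ}, HasTExp 1 F s →
      (∀ γ ∈ Gamma0 M, ∀ τ : ℍ, F (γ • τ) = F τ) →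
      HasTExp (M * q * q) (fun τ => F (scaleH (q * q) ((h58c_gam M q b)⁻¹⁻¹ • τ)))
        (qExpand ℂ (M * q * q) (twistK (kOmega q (-y)) s)) := by
    intro F s hF hinv
    have h1 := hF.affine (M := 1) (N := M * q * q) (a := q) (d := q) (e := M * q * q) (b := -y)
      hq0 one_pos hL (by ring)
      (affH (q : ℝ) ((-y : ℤ) : ℝ) (q : ℝ) (by exact_mod_cast hq0) (by exact_mod_cast hq0))
      (fun τ => by rw [Fermat.Agent.S28.coe_affH]; push_cast; ring)
    rw [hω] at h1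
    refine h1.congr (fun τ => ?_)
    rw [inv_inv, h58c_scaleH_gam_smul M q hq0 b m y h τ]
    exact (hinv _ (h58c_gamP_mem M q b m y h) _).symm
  have hP' : HasTExp 1 (fun τ => P (scaleH (q * q) τ)) (qExpand ℂ (q * q) p₁) :=
    hP.scale (q * q)
  have hQ' : HasTExp 1 (fun τ => Q (scaleH (q * q) τ)) (qExpand ℂ (q * q) q₁) :=
    hQ.scale (q * q)
  have hrel' : coeffMap embC
      ((heckeBetaBar Kbar (M * q) q (heckeBetaBar Kbar M q x) : FF (M * q * q)) :
        LaurentSeries Kbar) * qExpand ℂ (q * q) q₁ = qExpand ℂ (q * q) p₁ := by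
    rw [coe_heckeBetaBar, coe_heckeBetaBar, qExpand_qExpand, ModularCurve.coeffMap_qExpand,
      ← map_mul, hrel]
  have key := kEval (M * q * q) (h58c_gam M q b)⁻¹
    (heckeBetaBar Kbar (M * q) q (heckeBetaBar Kbar M q x)) hP' hQ' hrel'
    (haff hP hx.invP) (haff hQ hx.invQ)
  rw [← hrel, ← twistHom_apply _ (kOmega_ne_zero q (-y)),
    ← twistHom_apply _ (kOmega_ne_zero q (-y)), map_mul, map_mul] at key
  exact mul_right_cancel₀ ((map_ne_zero (qExpand ℂ (M * q * q))).mpr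
    ((map_ne_zero (twistHom (kOmega q (-y)) (kOmega_ne_zero q (-y)))).mpr hq₁)) key

/-- `β₂ ∘ α = α₂ ∘ β` on `F_M`. -/
theorem h58c_beta_alpha (x : FF M) :
    heckeBetaBar Kbar (M * q) q (heckeAlphaBar Kbar M q x) =
      heckeAlphaBar Kbar (M * q) q (heckeBetaBar Kbar M q x) :=
  Subtype.ext (by rw [coe_heckeBetaBar, coe_heckeAlphaBar, coe_heckeAlphaBar, coe_heckeBetaBar])

/-- the embedding `y ↦ (w y)(ω s)` of `F_{Mq}` into `ℂ((𝕋))`. -/
def h58c_embW (hq : q.Prime) (hM : ¬ q ∣ M) (ω : ℂ) (hω : ω ≠ 0) :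
    FF (M * q) →+* LaurentSeries ℂ :=
  (qExpand ℂ (M * q * q)).comp ((twistHom ω hω).comp ((coeffMap embC).comp
    ((algebraMap (FF (M * q)) (LaurentSeries Kbar)).comp
      (kFricke M q hq hM : FF (M * q) →+* FF (M * q)))))

theorem h58c_embW_apply (hq : q.Prime) (hM : ¬ q ∣ M) (ω : ℂ) (hω : ω ≠ 0) (z : FF (M * q)) :
    h58c_embW M q hq hM ω hω z =
      qExpand ℂ (M * q * q) (twistK ω (coeffMap embC
        ((kFricke M q hq hM z : FF (M * q)) : LaurentSeries Kbar))) := rfl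

/-- **the middle-cusp embedding on `β₂(F_{Mq})`**: `ε (β₂ z) = (w z)(ω s)`,
`ω = exp (-2πi y / q)`, `q m - M b y = 1`. -/
theorem h58c_embC_beta (hq : q.Prime) (hM : ¬ q ∣ M) (m y : ℤ)
    (h : (q : ℤ) * m - (M : ℤ) * b * y = 1) (z : FF (M * q)) :
    h58c_embC M q b (heckeBetaBar Kbar (M * q) q z) =
      h58c_embW M q hq hM (kOmega q (-y)) (kOmega_ne_zero q (-y)) z := by
  induction z using kFF_induction_ab M q hq with
  | hc a =>
    have h0 : heckeBetaBar Kbar (M * q) q (cst (M * q) a) = cst (M * q * q) a :=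
      (heckeBetaBar Kbar (M * q) q).commutes a
    rw [h0, h58c_embC_cst, h58c_embW_apply, kFricke_cst]
    have h1 : ((cst (M * q) a : FF (M * q)) : LaurentSeries Kbar) = HahnSeries.C a := by
      change algebraMap Kbar (LaurentSeries Kbar) a = HahnSeries.C a
      rw [algebraMap_laurentSeries_eq_single]
      rfl
    have h2 : coeffMap embC (HahnSeries.C a : LaurentSeries Kbar) = HahnSeries.C (embC a) := by
      have : (HahnSeries.C a : LaurentSeries Kbar) = HahnSeries.single 0 a := rfl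
      rw [this, coeffMap_single]
      rfl
    rw [h1, h2, twistK_C, qExpand_C]
  | ha x =>
    rw [h58c_beta_alpha, h58c_embC_alpha, h58c_embW_apply, kFricke_alpha, coe_heckeBetaBar,
      ModularCurve.coeffMap_qExpand, twistK_qExpand q (h44g_kOmega_pow q (-y))]
  | hb x =>
    rw [h58c_embC_beta_beta M q b m y h, h58c_embW_apply, kFricke_beta, coe_heckeAlphaBar]
  | hadd x y hx hy => rw [map_add, map_add, map_add, hx, hy]
  | hinv x hx => rw [map_inv₀, map_inv₀, map_inv₀, hx]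
  | hmul x y hx hy => rw [map_mul, map_mul, map_mul, hx, hy]

end Embeddings

end Fermat.Agent.S36
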