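import Fermat.Agent.S36.H58ConjEmb

/-!
# S36 / blocks V, N (helper58): the middle-cusp embeddings of `F_{M q²}` over `ℚ̄`

`q` prime, `q ∤ M`, `α₂, β₂ : F_{Mq} → F_{Mq²}`, `w = kFricke M q`.  For every primitive `q`-th
root of unity `ζ ∈ ℚ̄` there is a unique ring homomorphism

  `h58c_emb ζ : F_{M q²} → ℚ̄((s))`,  `ε (α₂ y) = y(s)`,  `ε (β₂ z) = (w z)(ζ s)`

(the expansion at a middle cusp; Tate picture `(E₀, E₁, E₂) = (T(s), T(s^q), T(ζ s))`).

* `h58c_exists_emb`, `h58c_emb`, `h58c_emb_cst`, `h58c_emb_alpha`, `h58c_emb_beta`;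
* `h58c_emb_unique` : uniqueness;
* `h58c_FF2_induction` : `F_{Mq²}` is generated by `α₂(F_{Mq})` and `β₂(F_{Mq})`;
* `h58c_emb_beta_beta_j` : `ε (β₂ β j) = j(ζ s)`, with coefficient `ζ⁻¹` at `s⁻¹`.
-/

set_option autoImplicit false
set_option linter.style.haveILetI false
set_option linter.unusedSectionVars false

open ModularCurve AlgebraicCurve CongruenceSubgroup IntermediateField UpperHalfPlane Polynomial
open scoped MatrixGroups Manifold

noncomputable section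

namespace Fermat.Agent.S36

open Fermat.Agent.S28 (HasTExp jAn jAt cEmb scaleH affH twist twistDil)
open Fermat.Agent.S24 Fermat.Agent.Red.Kron Fermat.Agent.Red.TRK Fermat.Agent.LGC

variable (M q : ℕ) [NeZero M] [NeZero q]

/-- induction principle for `F_{M q²}`: it is generated by `α₂(F_{Mq})` and `β₂(F_{Mq})`. -/
theorem h58c_FF2_induction (hq : q.Prime) {P : FF (M * q * q) → Prop}
    (hc : ∀ a : Kbar, P (cst (M * q * q) a))
    (ha : ∀ y : FF (M * q), P (heckeAlphaBar Kbar (M * q) q y))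
    (hb : ∀ z : FF (M * q), P (heckeBetaBar Kbar (M * q) q z))
    (hadd : ∀ x y, P x → P y → P (x + y))
    (hinv : ∀ x, P x → P x⁻¹)
    (hmul : ∀ x y, P x → P y → P (x * y)) (f : FF (M * q * q)) : P f :=
  kFF_induction_ab (M * q) q hq hc ha hb hadd hinv hmul f

/-- Bezout data for a primitive `q`-th root of unity. -/
theorem h58c_exists_data (hq : q.Prime) (hM : ¬ q ∣ M) (ζ : Kbar) (hζ : IsPrimitiveRoot ζ q) :
    ∃ b m y : ℤ, (q : ℤ) * m - (M : ℤ) * b * y = 1 ∧ embC ζ = kOmega q (-y) := by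
  have hζC : IsPrimitiveRoot (embC ζ) q := hζ.map_of_injective embC.injective
  obtain ⟨c, hc, hce⟩ := (Complex.isPrimitiveRoot_exp q (NeZero.ne q)).eq_pow_of_pow_eq_one
    hζC.pow_eq_one
  have hc0 : c ≠ 0 := by
    rintro rfl
    rw [pow_zero] at hce
    exact hζC.ne_one hq.one_lt hce.symm
  have hcop : IsCoprime (q : ℤ) ((M : ℤ) * (c : ℤ)) := by
    have h1 : IsCoprime (q : ℤ) (M : ℤ) := by
      rw [Int.isCoprime_iff_gcd_eq_one, Int.gcd_natCast_natCast]
      exact (Nat.Prime.coprime_iff_not_dvd hq).mpr hM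
    have h2 : IsCoprime (q : ℤ) (c : ℤ) := by
      rw [Int.isCoprime_iff_gcd_eq_one, Int.gcd_natCast_natCast]
      exact (Nat.Prime.coprime_iff_not_dvd hq).mpr
        (fun hd => absurd (Nat.le_of_dvd (Nat.pos_of_ne_zero hc0) hd) (not_le.mpr hc))
    exact h1.mul_right h2
  obtain ⟨m, n, hmn⟩ := hcop
  refine ⟨n, m, -(c : ℤ), by linear_combination hmn, ?_⟩
  rw [neg_neg, kOmega_eq_pow, hce]

theorem h58c_kTheta_cst (L : ℕ) [NeZero L] (a : Kbar) :
    kTheta L (HahnSeries.C a) = HahnSeries.C (embC a) := by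
  have h2 : coeffMap embC (HahnSeries.C a : LaurentSeries Kbar) = HahnSeries.C (embC a) := by
    have : (HahnSeries.C a : LaurentSeries Kbar) = HahnSeries.single 0 a := rfl
    rw [this, coeffMap_single]
    rfl
  rw [kTheta_apply, h2, qExpand_C]

/-- the values of the middle-cusp embedding have coefficients in `ℚ̄`. -/
theorem h58c_embC_mem_range (hq : q.Prime) (hM : ¬ q ∣ M) (b m y : ℤ)
    (h : (q : ℤ) * m - (M : ℤ) * b * y = 1) (ζ : Kbar) (hζ : embC ζ = kOmega q (-y))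
    (f : FF (M * q * q)) :
    ∃ s : LaurentSeries Kbar, kTheta (M * q * q) s = h58c_embC M q b f := by
  induction f using h58c_FF2_induction M q hq with
  | hc a => exact ⟨HahnSeries.C a, by rw [h58c_kTheta_cst, h58c_embC_cst]⟩
  | ha y => exact ⟨(y : LaurentSeries Kbar), by rw [h58c_embC_alpha, kTheta_apply]⟩
  | hb z =>
    refine ⟨twistK ζ ((kFricke M q hq hM z : FF (M * q)) : LaurentSeries Kbar), ?_⟩
    rw [h58c_embC_beta M q b hq hM m y h, h58c_embW_apply, kTheta_apply, coeffMap_twistK, hζ]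
  | hadd x y hx hy =>
    obtain ⟨s₁, h₁⟩ := hx
    obtain ⟨s₂, h₂⟩ := hy
    exact ⟨s₁ + s₂, by rw [map_add, map_add, h₁, h₂]⟩
  | hinv x hx =>
    obtain ⟨s₁, h₁⟩ := hx
    exact ⟨s₁⁻¹, by rw [map_inv₀, map_inv₀, h₁]⟩
  | hmul x y hx hy =>
    obtain ⟨s₁, h₁⟩ := hx
    obtain ⟨s₂, h₂⟩ := hy
    exact ⟨s₁ * s₂, by rw [map_mul, map_mul, h₁, h₂]⟩

/-- `ℚ̄((s))` is isomorphic to its image under `kTheta`. -/
def h58c_thetaEquiv (L : ℕ) [NeZero L] : LaurentSeries Kbar ≃+* (kTheta L).range :=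
  RingEquiv.ofBijective (kTheta L).rangeRestrict
    ⟨fun _ _ hab => kTheta_injective L (congrArg Subtype.val hab),
      (kTheta L).rangeRestrict_surjective⟩

theorem h58c_coe_thetaEquiv (L : ℕ) [NeZero L] (s : LaurentSeries Kbar) :
    ((h58c_thetaEquiv L s : (kTheta L).range) : LaurentSeries ℂ) = kTheta L s := rfl

/-- the middle-cusp embedding over `ℚ̄`, for given Bezout data. -/
def h58c_embK (hq : q.Prime) (hM : ¬ q ∣ M) (b m y : ℤ)
    (h : (q : ℤ) * m - (M : ℤ) * b * y = 1) (ζ : Kbar) (hζ : embC ζ = kOmega q (-y)) :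
    FF (M * q * q) →+* LaurentSeries Kbar :=
  ((h58c_thetaEquiv (M * q * q)).symm : (kTheta (M * q * q)).range →+* LaurentSeries Kbar).comp
    ((h58c_embC M q b).codRestrict (kTheta (M * q * q)).range
      (fun f => by
        obtain ⟨s, hs⟩ := h58c_embC_mem_range M q hq hM b m y h ζ hζ f
        exact ⟨s, hs⟩))

theorem h58c_kTheta_embK (hq : q.Prime) (hM : ¬ q ∣ M) (b m y : ℤ)
    (h : (q : ℤ) * m - (M : ℤ) * b * y = 1) (ζ : Kbar) (hζ : embC ζ = kOmega q (-y))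
    (f : FF (M * q * q)) :
    kTheta (M * q * q) (h58c_embK M q hq hM b m y h ζ hζ f) = h58c_embC M q b f := by
  have h1 : h58c_thetaEquiv (M * q * q) (h58c_embK M q hq hM b m y h ζ hζ f) =
      (h58c_embC M q b).codRestrict (kTheta (M * q * q)).range
        (fun f => by
          obtain ⟨s, hs⟩ := h58c_embC_mem_range M q hq hM b m y h ζ hζ f
          exact ⟨s, hs⟩) f :=
    (h58c_thetaEquiv (M * q * q)).apply_symm_apply _
  rw [← h58c_coe_thetaEquiv, h1]
  rfl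

/-- **existence of the middle-cusp embedding** attached to a primitive `q`-th root of unity. -/
theorem h58c_exists_emb (hq : q.Prime) (hM : ¬ q ∣ M) (ζ : Kbar) (hζ : IsPrimitiveRoot ζ q) :
    ∃ ε : FF (M * q * q) →+* LaurentSeries Kbar,
      (∀ a : Kbar, ε (cst (M * q * q) a) = HahnSeries.C a) ∧
      (∀ y : FF (M * q), ε (heckeAlphaBar Kbar (M * q) q y) = (y : LaurentSeries Kbar)) ∧
      (∀ z : FF (M * q), ε (heckeBetaBar Kbar (M * q) q z) =
        twistK ζ ((kFricke M q hq hM z : FF (M * q)) : LaurentSeries Kbar)) := by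
  obtain ⟨b, m, y, h, hy⟩ := h58c_exists_data M q hq hM ζ hζ
  refine ⟨h58c_embK M q hq hM b m y h ζ hy, fun a => ?_, fun z => ?_, fun z => ?_⟩
  · apply kTheta_injective (M * q * q)
    rw [h58c_kTheta_embK, h58c_embC_cst, h58c_kTheta_cst]
  · apply kTheta_injective (M * q * q)
    rw [h58c_kTheta_embK, h58c_embC_alpha, kTheta_apply]
  · apply kTheta_injective (M * q * q)
    rw [h58c_kTheta_embK, h58c_embC_beta M q b hq hM m y h, h58c_embW_apply, kTheta_apply,
      coeffMap_twistK, hy]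

/-- **the middle-cusp embedding** `F_{M q²} → ℚ̄((s))` attached to a primitive `q`-th root of
unity `ζ` (a choice; it is unique, `h58c_emb_unique`). -/
def h58c_emb (hq : q.Prime) (hM : ¬ q ∣ M) (ζ : Kbar) (hζ : IsPrimitiveRoot ζ q) :
    FF (M * q * q) →+* LaurentSeries Kbar :=
  (h58c_exists_emb M q hq hM ζ hζ).choose

theorem h58c_emb_cst (hq : q.Prime) (hM : ¬ q ∣ M) (ζ : Kbar) (hζ : IsPrimitiveRoot ζ q)
    (a : Kbar) : h58c_emb M q hq hM ζ hζ (cst (M * q * q) a) = HahnSeries.C a :=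
  (h58c_exists_emb M q hq hM ζ hζ).choose_spec.1 a

theorem h58c_emb_alpha (hq : q.Prime) (hM : ¬ q ∣ M) (ζ : Kbar) (hζ : IsPrimitiveRoot ζ q)
    (y : FF (M * q)) :
    h58c_emb M q hq hM ζ hζ (heckeAlphaBar Kbar (M * q) q y) = (y : LaurentSeries Kbar) :=
  (h58c_exists_emb M q hq hM ζ hζ).choose_spec.2.1 y

theorem h58c_emb_beta (hq : q.Prime) (hM : ¬ q ∣ M) (ζ : Kbar) (hζ : IsPrimitiveRoot ζ q)
    (z : FF (M * q)) :
    h58c_emb M q hq hM ζ hζ (heckeBetaBar Kbar (M * q) q z) =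
      twistK ζ ((kFricke M q hq hM z : FF (M * q)) : LaurentSeries Kbar) :=
  (h58c_exists_emb M q hq hM ζ hζ).choose_spec.2.2 z

/-- a ring homomorphism out of `F_{M q²}` is determined by its values on the constants, on
`α₂(F_{Mq})` and on `β₂(F_{Mq})`. -/
theorem h58c_hom_ext (hq : q.Prime) {R : Type*} [DivisionRing R]
    (e₁ e₂ : FF (M * q * q) →+* R)
    (hc : ∀ a : Kbar, e₁ (cst (M * q * q) a) = e₂ (cst (M * q * q) a))
    (ha : ∀ y : FF (M * q), e₁ (heckeAlphaBar Kbar (M * q) q y) =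
      e₂ (heckeAlphaBar Kbar (M * q) q y))
    (hb : ∀ z : FF (M * q), e₁ (heckeBetaBar Kbar (M * q) q z) =
      e₂ (heckeBetaBar Kbar (M * q) q z)) : e₁ = e₂ := by
  ext1 f
  induction f using h58c_FF2_induction M q hq with
  | hc a => exact hc a
  | ha y => exact ha y
  | hb z => exact hb z
  | hadd x y hx hy => rw [map_add, map_add, hx, hy]
  | hinv x hx => rw [map_inv₀, map_inv₀, hx]
  | hmul x y hx hy => rw [map_mul, map_mul, hx, hy]

/-- uniqueness of the middle-cusp embedding. -/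
theorem h58c_emb_unique (hq : q.Prime) (hM : ¬ q ∣ M) (ζ : Kbar) (hζ : IsPrimitiveRoot ζ q)
    (ε : FF (M * q * q) →+* LaurentSeries Kbar)
    (hc : ∀ a : Kbar, ε (cst (M * q * q) a) = HahnSeries.C a)
    (ha : ∀ y : FF (M * q), ε (heckeAlphaBar Kbar (M * q) q y) = (y : LaurentSeries Kbar))
    (hb : ∀ z : FF (M * q), ε (heckeBetaBar Kbar (M * q) q z) =
      twistK ζ ((kFricke M q hq hM z : FF (M * q)) : LaurentSeries Kbar)) :
    ε = h58c_emb M q hq hM ζ hζ :=
  h58c_hom_ext M q hq _ _ (fun a => by rw [hc, h58c_emb_cst])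
    (fun y => by rw [ha, h58c_emb_alpha]) (fun z => by rw [hb, h58c_emb_beta])

/-- `ε (β₂ β x) = x(ζ s)`. -/
theorem h58c_emb_beta_beta (hq : q.Prime) (hM : ¬ q ∣ M) (ζ : Kbar) (hζ : IsPrimitiveRoot ζ q)
    (x : FF M) :
    h58c_emb M q hq hM ζ hζ (heckeBetaBar Kbar (M * q) q (heckeBetaBar Kbar M q x)) =
      twistK ζ (x : LaurentSeries Kbar) := by
  rw [h58c_emb_beta, kFricke_beta, coe_heckeAlphaBar]

/-- `ε (α₂ α x) = x(s)`. -/
theorem h58c_emb_alpha_alpha (hq : q.Prime) (hM : ¬ q ∣ M) (ζ : Kbar)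
    (hζ : IsPrimitiveRoot ζ q) (x : FF M) :
    h58c_emb M q hq hM ζ hζ (heckeAlphaBar Kbar (M * q) q (heckeAlphaBar Kbar M q x)) =
      (x : LaurentSeries Kbar) := by
  rw [h58c_emb_alpha, coe_heckeAlphaBar]

/-- `ε (α₂ β x) = ε (β₂ α x) = x(s^q)`. -/
theorem h58c_emb_alpha_beta (hq : q.Prime) (hM : ¬ q ∣ M) (ζ : Kbar)
    (hζ : IsPrimitiveRoot ζ q) (x : FF M) :
    h58c_emb M q hq hM ζ hζ (heckeAlphaBar Kbar (M * q) q (heckeBetaBar Kbar M q x)) =
      qExpand Kbar q (x : LaurentSeries Kbar) := by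
  rw [h58c_emb_alpha, coe_heckeBetaBar]

end Fermat.Agent.S36
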