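import Mathlib
import Fermat.Agent.S36.H59CuspBeta
import Fermat.Agent.Red.HKComm.Deg
import Fermat.Agent.Red.KR.Basic

/-!
# S36, block REG, row R-CUSP-UNIT11, tools (helper59): the level `1` and the transfer

* `h59u_adjoin_top` : `FF 1 = ℚ̄(t)` for `t = j, 1/j`.
* `h59u_model_one` : the chart of level `1` over `A` is `A[t]`:
  `x ∈ modelAt 1 A t → ∃ ξ ∈ A[X], x = ξ(t)`.
* `h59u_chart_one` (**level-1 descent**): the chart of level `1` over the inertia ring is `A₀[t]`:
  `x ∈ h62rChart A 1 t → ∃ P ∈ A₀[X], x = P(t)`.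
-/

set_option autoImplicit false
set_option linter.style.haveILetI false
set_option linter.unusedSectionVars false

open Polynomial AlgebraicCurve ModularCurve IntermediateField

noncomputable section

namespace Fermat.Agent.S36

open Fermat.Agent.S37 (Kbar GQ FF cst gal jB modelAt modelFin ringAdj auxLevel)
open Fermat.Agent.Red.GV (evalF evalF_C evalF_X)

/-! ### `FF 1 = ℚ̄(j)` -/

theorem h59u_adjoin_jB_top : Kbar⟮jB 1⟯ = ⊤ := by
  have h := Fermat.Agent.Red.HKComm.hkdeg_finrank_jBar 1
  rw [dedekindPsi_one] at h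
  exact IntermediateField.finrank_eq_one_iff_eq_top.mp h

theorem h59u_adjoin_top (t : FF 1) (ht : t = jB 1 ∨ t = (jB 1)⁻¹) : Kbar⟮t⟯ = ⊤ := by
  rcases ht with rfl | rfl
  · exact h59u_adjoin_jB_top
  · rw [eq_top_iff, ← h59u_adjoin_jB_top, IntermediateField.adjoin_simple_le_iff]
    have h1 : (jB 1)⁻¹ ∈ Kbar⟮(jB 1)⁻¹⟯ := IntermediateField.mem_adjoin_simple_self _ _
    have h2 := inv_mem h1
    rwa [inv_inv] at h2

/-! ### The chart of level `1` over `A` -/

section Model

variable (A : ValuationSubring Kbar)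

theorem h59u_evalF_eq_aeval (N : ℕ) (t : FF N) (P : Polynomial A) :
    evalF N A t P = aeval t (P.map A.subtype) := by
  rw [aeval_def, eval₂_map]
  rfl

theorem h59u_evalF_injective (N : ℕ) (t : FF N) (ht : Transcendental Kbar t) :
    Function.Injective (evalF N A t) := by
  intro P Q hPQ
  rw [h59u_evalF_eq_aeval, h59u_evalF_eq_aeval] at hPQ
  have h1 := (transcendental_iff_injective.mp ht) hPQ
  exact Polynomial.map_injective _ Subtype.val_injective h1

/-- clearing denominators: `r(t) = r'(t) / c` with `r' ∈ A[X]`, `0 ≠ c ∈ A`. -/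
theorem h59u_exists_clear (N : ℕ) (t : FF N) (r : Polynomial Kbar) :
    ∃ (r' : Polynomial A) (c : A), c ≠ 0 ∧
      evalF N A t r' = evalF N A t (C c) * aeval t r := by
  obtain ⟨b, hbM, hb⟩ := IsLocalization.integerNormalization_spec (nonZeroDivisors A) r
  refine ⟨IsLocalization.integerNormalization (nonZeroDivisors A) r, b,
    nonZeroDivisors.ne_zero hbM, ?_⟩
  rw [h59u_evalF_eq_aeval, h59u_evalF_eq_aeval]
  have h1 : (IsLocalization.integerNormalization (nonZeroDivisors A) r).map A.subtype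
      = C ((b : A) : Kbar) * r := by
    have h2 : (IsLocalization.integerNormalization (nonZeroDivisors A) r).map
        (algebraMap A Kbar) = b • r := hb
    rw [Algebra.smul_def] at h2
    exact h2
  rw [h1, map_mul, Polynomial.map_C]
  rfl

/-- **the chart of level `1` over `A` is `A[t]`.** -/
theorem h59u_model_one (t : FF 1) (ht : t = jB 1 ∨ t = (jB 1)⁻¹) (x : FF 1)
    (hx : x ∈ modelAt 1 A t) : ∃ ξ : Polynomial A, x = evalF 1 A t ξ := by
  have htr : Transcendental Kbar t := by
    rcases ht with rfl | rfl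
    · exact Fermat.Agent.S24.transcendental_jBar 1
    · exact Fermat.Agent.Red.ModelO.h85_transcendental_jB_inv 1
  have hinj := h59u_evalF_injective A 1 t htr
  letI : Algebra (Polynomial A) (FF 1) := (evalF 1 A t).toAlgebra
  have hmap : ∀ P : Polynomial A, algebraMap (Polynomial A) (FF 1) P = evalF 1 A t P :=
    fun _ => rfl
  haveI : FaithfulSMul (Polynomial A) (FF 1) :=
    (faithfulSMul_iff_algebraMap_injective _ _).mpr hinj
  haveI : IsFractionRing (Polynomial A) (FF 1) := by
    refine IsFractionRing.of_field (Polynomial A) (FF 1) (fun z => ?_)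
    have hz : z ∈ Kbar⟮t⟯ := by rw [h59u_adjoin_top t ht]; trivial
    obtain ⟨r, s, rfl⟩ := (IntermediateField.mem_adjoin_simple_iff Kbar z).mp hz
    obtain ⟨r', c, hc, hr⟩ := h59u_exists_clear A 1 t r
    obtain ⟨s', d, hd, hs⟩ := h59u_exists_clear A 1 t s
    refine ⟨r' * C d, s' * C c, ?_⟩
    rw [hmap, hmap, map_mul, map_mul, hr, hs]
    have hc' : evalF 1 A t (C c) ≠ 0 := by
      intro h
      rw [← map_zero (evalF 1 A t)] at h
      exact hc (C_eq_zero.mp (hinj h))
    have hd' : evalF 1 A t (C d) ≠ 0 := by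
      intro h
      rw [← map_zero (evalF 1 A t)] at h
      exact hd (C_eq_zero.mp (hinj h))
    by_cases hs0 : aeval t s = 0
    · rw [hs0, div_zero, mul_zero, zero_mul, div_zero]
    · field_simp
  have hint : IsIntegral (Polynomial A) x :=
    (Fermat.Agent.Red.KR.mem_modelAt_iff_evalF A t x).mp hx
  obtain ⟨ξ, hξ⟩ := IsIntegrallyClosed.isIntegral_iff.mp hint
  exact ⟨ξ, hξ.symm⟩

end Model

/-! ### The chart of level `1` over the inertia ring -/

section Descent

variable (A : ValuationSubring Kbar)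

/-- the Galois action on the polynomial functions of a fixed `t`. -/
theorem h59u_gal_eval₂ (N : ℕ) (t : FF N) (σ : GQ) (ht : gal N σ • t = t)
    (r : Polynomial Kbar) :
    gal N σ • eval₂ (algebraMap Kbar (FF N)) t r
      = eval₂ (algebraMap Kbar (FF N)) t (r.map (σ : Kbar →+* Kbar)) := by
  induction r using Polynomial.induction_on' with
  | add p q hp hq =>
    rw [eval₂_add, Polynomial.map_add, eval₂_add, smul_add, hp, hq]
  | monomial n a =>
    rw [Polynomial.map_monomial, eval₂_monomial, eval₂_monomial, smul_mul', smul_pow', ht]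
    congr 1
    exact Fermat.Agent.S37.GalI.gal_smul_cst σ a

theorem h59u_gal_aeval (N : ℕ) (t : FF N) (σ : GQ) (ht : gal N σ • t = t)
    (r : Polynomial Kbar) :
    gal N σ • aeval t r = aeval t (r.map (σ : Kbar →+* Kbar)) := by
  rw [aeval_def, aeval_def]
  exact h59u_gal_eval₂ N t σ ht r

/-- polynomial functions of `t` with inertia-fixed coefficients in `A` come from `A₀[X]`. -/
theorem h59u_exists_lift (N : ℕ) (t : FF N) (r : Polynomial Kbar)
    (hr : ∀ i, r.coeff i ∈ h59cA0 A) :
    ∃ P : Polynomial (h59bA0 A), aeval t r = h59nEv N A t P := by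
  have hl : r ∈ Polynomial.lifts ((algebraMap (h59bK0 A) Kbar).comp (h59bA0 A).subtype) := by
    rw [Polynomial.lifts_iff_coeff_lifts]
    intro i
    rw [h59n_range_iota]
    exact hr i
  obtain ⟨P, hP⟩ := (Polynomial.mem_lifts r).mp hl
  refine ⟨P, ?_⟩
  rw [← hP, aeval_def, eval₂_map]
  rfl

/-- **level-1 descent**: the chart of level `1` over the inertia ring is `A₀[t]`. -/
theorem h59u_chart_one (t : FF 1) (ht : t = jB 1 ∨ t = (jB 1)⁻¹) (x : FF 1)
    (hx : x ∈ h62rChart A 1 t) : ∃ P : Polynomial (h59bA0 A), x = h59nEv 1 A t P := by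
  have htr : Transcendental Kbar t := by
    rcases ht with rfl | rfl
    · exact Fermat.Agent.S24.transcendental_jBar 1
    · exact Fermat.Agent.Red.ModelO.h85_transcendental_jB_inv 1
  have htfix : ∀ σ : GQ, gal 1 σ • t = t := by
    intro σ
    rcases ht with rfl | rfl
    · exact h59z_jB_fixed 1 σ
    · exact h59z_jB_inv_fixed 1 σ
  obtain ⟨ξ, rfl⟩ := h59u_model_one A t ht x hx.1
  rw [h59u_evalF_eq_aeval]
  refine h59u_exists_lift A 1 t _ (fun i => ⟨?_, fun σ hσ => ?_⟩)
  · rw [coeff_map]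
    exact (ξ.coeff i).2
  · have h1 : gal 1 σ • evalF 1 A t ξ = evalF 1 A t ξ := hx.2 σ hσ
    rw [h59u_evalF_eq_aeval, h59u_gal_aeval 1 t σ (htfix σ)] at h1
    have h2 := (transcendental_iff_injective.mp htr) h1
    have h3 := congrArg (fun p => Polynomial.coeff p i) h2
    simpa [coeff_map] using h3

/-- the same, as surjectivity of `A₀[T] → B₀`, `T ↦ 1/j` (level `1`). -/
theorem h59u_evB_surjective : Function.Surjective (h59wEvB 1 A) := by
  intro x
  obtain ⟨P, hP⟩ := h59u_chart_one A (jB 1)⁻¹ (Or.inr rfl) (x : FF 1) x.2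
  exact ⟨P, Subtype.ext hP.symm⟩

end Descent

/-! ### Units at the cusps -/

section Units

variable (N : ℕ) [NeZero N] (A : ValuationSubring Kbar)

/-- `P(1/j)` with `P(0)` a unit of `A₀` is a unit at every cusp. -/
theorem h59u_evB_not_mem (q : ℕ) (P : Polynomial (h59bA0 A)) (hP : IsUnit (P.coeff 0))
    (𝔫 : Ideal (h62rChart A N (jB N)⁻¹)) (h𝔫 : h18c_IsCusp A N q 𝔫) :
    h59wEvB N A P ∉ 𝔫 := by
  obtain ⟨u, hu⟩ := hP
  haveI := h𝔫.1.isPrime
  have h1 : P = C (u : h59bA0 A) * (C ((u⁻¹ : (h59bA0 A)ˣ) : h59bA0 A) * P) := by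
    rw [← mul_assoc, ← C_mul, Units.mul_inv, C_1, one_mul]
  have h2 : (C ((u⁻¹ : (h59bA0 A)ˣ) : h59bA0 A) * P).coeff 0 = 1 := by
    rw [coeff_C_mul, ← hu, Units.inv_mul]
  intro hmem
  rw [h1, map_mul] at hmem
  rcases Ideal.IsPrime.mem_or_mem inferInstance hmem with h | h
  · have hunit : IsUnit (h59wEvB N A (C (u : h59bA0 A))) :=
      (u.isUnit.map C).map (h59wEvB N A)
    exact h𝔫.1.ne_top (Ideal.eq_top_of_isUnit_mem _ h hunit)
  · exact h59w_evB_not_mem N A q _ h2 𝔫 h𝔫 h

end Units

/-! ### Transfer along the degeneracy inclusions -/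

section Transfer

open Fermat.Agent.S37 (degen coe_degen)

variable (A : ValuationSubring Kbar) {N N' : ℕ} [NeZero N] [NeZero N'] (h : N ∣ N')

theorem h59u_degen_jB : degen h (jB N) = jB N' :=
  Subtype.ext (by rw [coe_degen]; rfl)

/-- the degeneracy inclusions commute with the Galois actions. -/
theorem h59u_gal_degen (σ : GQ) (x : FF N) :
    gal N' σ • degen h x = degen h (gal N σ • x) := by
  apply Subtype.ext
  have h1 : ((gal N' σ • degen h x : FF N') : LaurentSeries Kbar)
      = coeffMap (σ : Kbar →+* Kbar) ((degen h x : FF N') : LaurentSeries Kbar) :=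
    coe_arithmeticGalois_smul (modularFunctionFieldFull N') σ (degen h x)
  have h2 : ((gal N σ • x : FF N) : LaurentSeries Kbar)
      = coeffMap (σ : Kbar →+* Kbar) (x : LaurentSeries Kbar) :=
    coe_arithmeticGalois_smul (modularFunctionFieldFull N) σ x
  rw [h1, coe_degen, coe_degen, h2]

/-- the degeneracy inclusions map the finite charts over `A₀` to the finite charts. -/
theorem h59u_degen_mem_fin {x : FF N} (hx : x ∈ h62rChart A N (jB N)) :
    degen h x ∈ h62rChart A N' (jB N') := by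
  have h1 := h59z_map_mem_chart (degen h) (h59u_gal_degen h) A hx
  rwa [h59u_degen_jB] at h1

/-- the degeneracy inclusions map the charts at infinity over `A₀` to the charts at
infinity. -/
theorem h59u_degen_mem_inf {x : FF N} (hx : x ∈ h62rChart A N (jB N)⁻¹) :
    degen h x ∈ h62rChart A N' (jB N')⁻¹ := by
  have h1 := h59z_map_mem_chart (degen h) (h59u_gal_degen h) A hx
  rwa [map_inv₀, h59u_degen_jB] at h1

/-- the degeneracy inclusion on the charts at infinity over `A₀`. -/
def h59uDegen : h62rChart A N (jB N)⁻¹ →+* h62rChart A N' (jB N')⁻¹ :=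
  h59yMap A (degen h : FF N →+* FF N') _ _ (fun _ hx => h59u_degen_mem_inf A h hx)

theorem h59u_coe_degen (x : h62rChart A N (jB N)⁻¹) :
    ((h59uDegen A h x : h62rChart A N' (jB N')⁻¹) : FF N') = degen h (x : FF N) := rfl

/-- the degeneracy inclusion carries `P(1/j)` to `P(1/j)`. -/
theorem h59u_degen_evB (P : Polynomial (h59bA0 A)) :
    h59uDegen A h (h59wEvB N A P) = h59wEvB N' A P := by
  apply Subtype.ext
  rw [h59u_coe_degen, h59w_coe_evB, h59w_coe_evB]
  have h1 := h59z_comp_ev N A (degen h) (jB N)⁻¹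
  have h2 := congrArg (fun f => f P) h1
  simp only [RingHom.comp_apply] at h2
  rw [map_inv₀, h59u_degen_jB] at h2
  exact h2

/-- **transfer of the certificate from the level `N` to the level `N'`**: a relation
`S · S' = q · P(1/j)` in the chart at infinity of level `N ∣ N'`, with `P(0)` a unit of `A₀`,
gives the relation `S · S' = q · p` at level `N'` with `p` a unit at every cusp. -/
theorem h59u_transfer (q : ℕ) (S₁ S₁' : h62rChart A N (jB N)⁻¹) (P : Polynomial (h59bA0 A))
    (hP : IsUnit (P.coeff 0)) (hrel : S₁ * S₁' = (q : h62rChart A N (jB N)⁻¹) * h59wEvB N A P) :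
    ∃ S S' p : h62rChart A N' (jB N')⁻¹,
      (S : FF N') = degen h (S₁ : FF N) ∧
      S * S' = (q : h62rChart A N' (jB N')⁻¹) * p ∧
      ∀ 𝔫 : Ideal (h62rChart A N' (jB N')⁻¹), h18c_IsCusp A N' q 𝔫 → p ∉ 𝔫 := by
  refine ⟨h59uDegen A h S₁, h59uDegen A h S₁', h59wEvB N' A P, rfl, ?_,
    fun 𝔫 h𝔫 => h59u_evB_not_mem N' A q P hP 𝔫 h𝔫⟩
  rw [← map_mul, hrel, map_mul, map_natCast, h59u_degen_evB]

end Transfer

end Fermat.Agent.S36
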