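import Fermat.Agent.S36.H50ExcIface2
import Fermat.Agent.S36.H50ExcFin
import Fermat.Agent.S36.H60L1Excl

/-!
# S36, block REG, row R-ORD-11 (helper59): the level-`M q` package from separation and shape

`h59o_pkg_of : H50eSep → H50eShape → H50ePkg` (exact frozen Props of `S36/H50ExcIface2.lean`).

For `ψ = β u + δ ε`, `f = (T - a)(T ^ q - u) + q r`, `f^α(ψ) = 0`:
`(ψ - α a) f'(ψ) = q κ` with `κ = - r(ψ) + (ψ - α a)² ψ^(q-1) + (ψ - α a) r'(ψ)`, and `κ` is a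
unit at the smooth point by the landed `h50e_unit_fin` (helper50) applied at the closed point of
the chart over `A` above the given closed point of the chart over the inertia ring.
-/

set_option autoImplicit false
set_option linter.unusedSectionVars false
set_option linter.unusedVariables false
set_option linter.style.haveILetI false

open AlgebraicCurve ModularCurve IsLocalRing Polynomial

noncomputable section

namespace Fermat.Agent.S36

open Fermat.Agent.S37 Fermat.Agent.Red Fermat.Agent.Red.GG Fermat.Agent.LGC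

/-! ## Abstract algebra -/

/-- the different of `f = (T - a)(T ^ ℓ - c) + ℓ r` at a root `ψ`, multiplied by `ψ - a`. -/
theorem h59o_kappa_identity {Λ B : Type*} [CommRing Λ] [CommRing B] (φ : Λ →+* B) (ℓ : ℕ)
    (a c : Λ) (r : Λ[X]) (ψ : B) (hroot : (h62n_poly ℓ a c r).eval₂ φ ψ = 0) :
    (ψ - φ a) * (derivative (h62n_poly ℓ a c r)).eval₂ φ ψ =
      ((ℓ : ℕ) : B) * (-(r.eval₂ φ ψ) + (ψ - φ a) ^ 2 * ψ ^ (ℓ - 1)
        + (ψ - φ a) * (derivative r).eval₂ φ ψ) := by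
  rw [h62n_derivative_poly]
  unfold h62n_poly at hroot
  simp only [eval₂_add, eval₂_mul, eval₂_sub, eval₂_X, eval₂_C, eval₂_pow, map_natCast,
    eval₂_natCast] at hroot ⊢
  linear_combination hroot

theorem h59o_map_poly {Λ Λ' : Type*} [CommRing Λ] [CommRing Λ'] (g : Λ →+* Λ') (ℓ : ℕ)
    (a c : Λ) (r : Λ[X]) :
    (h62n_poly ℓ a c r).map g = h62n_poly ℓ (g a) (g c) (r.map g) := by
  unfold h62n_poly
  simp only [Polynomial.map_add, Polynomial.map_mul, Polynomial.map_sub, Polynomial.map_pow,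
    Polynomial.map_X, Polynomial.map_C, map_natCast, Polynomial.map_natCast]

/-- transport of `eval₂` through a commutative square. -/
theorem h59o_eval₂_square {Λ Λ' B B' : Type*} [CommRing Λ] [CommRing Λ'] [CommRing B]
    [CommRing B'] (φ : Λ →+* B) (φ' : Λ' →+* B') (g : Λ →+* Λ') (h : B →+* B')
    (hsq : ∀ x, h (φ x) = φ' (g x)) (p : Λ[X]) (ψ : B) :
    h (p.eval₂ φ ψ) = (p.map g).eval₂ φ' (h ψ) := by
  rw [Polynomial.hom_eval₂, Polynomial.eval₂_map]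
  congr 1
  exact RingHom.ext hsq

/-- **the package, abstractly**: descent of the unit `κ` along a commutative square. -/
theorem h59o_pkg_abs {Λ₀ Λ B₀ B : Type*} [CommRing Λ₀] [CommRing Λ] [CommRing B₀] [CommRing B]
    (α₀ β₀ : Λ₀ →+* B₀) (α β : Λ →+* B) (g : Λ₀ →+* Λ) (h : B₀ →+* B)
    (hα : ∀ x, h (α₀ x) = α (g x)) (hβ : ∀ x, h (β₀ x) = β (g x))
    (𝔫' : Ideal B₀) (𝔫 : Ideal B) (hiff : ∀ x, h x ∈ 𝔫 ↔ x ∈ 𝔫')
    (P0 Pinf : Ideal B) (hP0 : P0 ≤ 𝔫)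
    (ℓ : ℕ) (u a : Λ₀) (ε δ : B₀) (r : Λ₀[X])
    (hβu : β (g u) ∈ 𝔫) (hε : h ε ∈ P0)
    (hroot : (h62n_poly ℓ a u r).eval₂ α₀ (β₀ u + δ * ε) = 0)
    (hunit : ∀ ε' ∈ P0, β (g u) + ε' - α (g a) ∈ Pinf → β (g u) + ε' - α (g a) ∉ 𝔫 →
      ∀ r' : Λ[X], r'.natDegree ≤ ℓ →
        (h62n_poly ℓ (g a) (g u) r').eval₂ α (β (g u) + ε') = 0 →
        -(r'.eval₂ α (β (g u) + ε')) + (β (g u) + ε' - α (g a)) ^ 2 * (β (g u) + ε') ^ (ℓ - 1)
          + (β (g u) + ε' - α (g a)) * (derivative r').eval₂ α (β (g u) + ε') ∉ 𝔫)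
    (haP : h (β₀ u + δ * ε - α₀ a) ∈ Pinf) (hsep : β₀ u + δ * ε - α₀ a ∉ 𝔫')
    (hr : r.natDegree ≤ ℓ) :
    β₀ u + δ * ε ∈ 𝔫' ∧
    -(r.eval₂ α₀ (β₀ u + δ * ε)) + (β₀ u + δ * ε - α₀ a) ^ 2 * (β₀ u + δ * ε) ^ (ℓ - 1)
      + (β₀ u + δ * ε - α₀ a) * (derivative r).eval₂ α₀ (β₀ u + δ * ε) ∉ 𝔫' ∧
    (β₀ u + δ * ε - α₀ a) * (derivative (h62n_poly ℓ a u r)).eval₂ α₀ (β₀ u + δ * ε) =
      ((ℓ : ℕ) : B₀) *
        (-(r.eval₂ α₀ (β₀ u + δ * ε)) + (β₀ u + δ * ε - α₀ a) ^ 2 * (β₀ u + δ * ε) ^ (ℓ - 1)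
          + (β₀ u + δ * ε - α₀ a) * (derivative r).eval₂ α₀ (β₀ u + δ * ε)) := by
  have hδε : h (δ * ε) ∈ P0 := by
    rw [map_mul]
    exact Ideal.mul_mem_left _ _ hε
  have hψ : h (β₀ u + δ * ε) = β (g u) + h (δ * ε) := by
    rw [map_add, hβ]
  have hψa : h (β₀ u + δ * ε - α₀ a) = β (g u) + h (δ * ε) - α (g a) := by
    rw [map_sub, hψ, hα]
  refine ⟨?_, ?_, h59o_kappa_identity α₀ ℓ a u r _ hroot⟩
  · rw [← hiff, hψ]
    exact Ideal.add_mem _ hβu (hP0 hδε)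
  · rw [← hiff]
    have haP' : β (g u) + h (δ * ε) - α (g a) ∈ Pinf := by
      rw [← hψa]
      exact haP
    have hsep' : β (g u) + h (δ * ε) - α (g a) ∉ 𝔫 := by
      rw [← hψa, hiff]
      exact hsep
    have hroot' : (h62n_poly ℓ (g a) (g u) (r.map g)).eval₂ α (β (g u) + h (δ * ε)) = 0 := by
      have h1 := congrArg h hroot
      rw [map_zero, h59o_eval₂_square α₀ α g h hα, h59o_map_poly, hψ] at h1
      exact h1
    have hu := hunit (h (δ * ε)) hδε haP' hsep' (r.map g) ((natDegree_map_le).trans hr) hroot'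
    have hκ : h (-(r.eval₂ α₀ (β₀ u + δ * ε))
        + (β₀ u + δ * ε - α₀ a) ^ 2 * (β₀ u + δ * ε) ^ (ℓ - 1)
        + (β₀ u + δ * ε - α₀ a) * (derivative r).eval₂ α₀ (β₀ u + δ * ε)) =
        -((r.map g).eval₂ α (β (g u) + h (δ * ε)))
          + (β (g u) + h (δ * ε) - α (g a)) ^ 2 * (β (g u) + h (δ * ε)) ^ (ℓ - 1)
          + (β (g u) + h (δ * ε) - α (g a))
            * (derivative (r.map g)).eval₂ α (β (g u) + h (δ * ε)) := by
      rw [map_add, map_add, map_neg, map_mul, map_mul, map_pow, map_pow, hψa, hψ,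
        h59o_eval₂_square α₀ α g h hα, h59o_eval₂_square α₀ α g h hα, hψ,
        Polynomial.derivative_map]
    rw [hκ]
    exact hu

/-! ## The two squares -/

section Squares

variable (A : ValuationSubring Kbar) (M : ℕ) {q : ℕ} [NeZero M] [NeZero q]

theorem h59o_incl_alpha (x : h62rChart A M (jB M)) :
    h60rIncl A (M * q) (jSS M q) (h62rAlpha A M x) =
      ((h62i_α A M q : chart M A (jB M) →ₐ[A] chart (M * q) A (jSS M q)) :
        chart M A (jB M) →+* chart (M * q) A (jSS M q)) (h60rIncl A M (jB M) x) := rfl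

theorem h59o_incl_beta (hq : q.Prime) (hM : ¬ q ∣ M) (hA : A.LiesOverPrime q)
    (x : h62rChart A M (jB M)) :
    h60rIncl A (M * q) (jSS M q) (h62rBeta A M hq hM hA x) =
      ((h62i_β A M hq hM hA : chart M A (jB M) →ₐ[A] chart (M * q) A (jSS M q)) :
        chart M A (jB M) →+* chart (M * q) A (jSS M q)) (h60rIncl A M (jB M) x) := rfl

theorem h59o_incl_mem_R (u : h62rChart A M (jB M)) (hu : IsRat (u : FF M)) :
    h60rIncl A M (jB M) u ∈ h62i_R A M :=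
  (h62i_mem_R A M _).mpr hu

end Squares

/-! ## The package -/

/-- **the level-`M q` package from separation and shape.** -/
theorem h59o_pkg_of (hSep : H50eSep) (hShape : H50eShape) : H50ePkg := by
  intro q hq M _ hM haux
  haveI : NeZero q := ⟨hq.ne_zero⟩
  intro A hA 𝔫' h𝔫' hq𝔫' hP0 hPinf
  obtain ⟨u, ε, hrat, hnc, hLP, hε, hδ⟩ :=
    hSep q hq M hM haux A hA 𝔫' h𝔫' hq𝔫' hP0 hPinf
  refine ⟨u, ε, hnc, fun δ hδ1 => ?_⟩
  obtain ⟨a, haP, hsep⟩ := hδ δ hδ1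
  have hδε : h60rIncl A (M * q) (jSS M q) (δ * ε) ∈ h62i_P0 A M hq hM hA := by
    rw [map_mul]
    exact Ideal.mul_mem_left _ _ hε
  have hψP0 : h60rIncl A (M * q) (jSS M q)
      (h62rBeta A M hq hM hA u + δ * ε - h62rBeta A M hq hM hA u) ∈ h62i_P0 A M hq hM hA := by
    rw [add_sub_cancel_left]
    exact hδε
  obtain ⟨r, hr, hroot⟩ :=
    hShape q hq M hM haux A hA 𝔫' h𝔫' hq𝔫' hP0 u hrat hLP _ a hψP0 haP hsep
  have hmax := h60r_lift_isMaximal' A M hq hM hA 𝔫' h𝔫' hq𝔫'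
  have hLP' : h62l_LP (h62i_mΛ A M)
      ((h60rLift (h60rIncl A (M * q) (jSS M q)) (mExt A M q (jSS M q)) 𝔫').comap
        ((h62i_β A M hq hM hA : chart M A (jB M) →ₐ[A] chart (M * q) A (jSS M q)) :
          chart M A (jB M) →+* chart (M * q) A (jSS M q)))
      (h60rIncl A M (jB M) u - algebraMap A (chart M A (jB M)) 0) := by
    rw [map_zero, sub_zero]
    exact hLP
  have hunit := h50e_unit_fin A M hq hM haux hA _ hmax hP0 (h60rIncl A M (jB M) u)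
    (h59o_incl_mem_R A M u hrat) 0 hLP'
  obtain ⟨h1, h2, h3⟩ := h59o_pkg_abs (h62rAlpha A M) (h62rBeta A M hq hM hA)
    ((h62i_α A M q : chart M A (jB M) →ₐ[A] chart (M * q) A (jSS M q)) :
      chart M A (jB M) →+* chart (M * q) A (jSS M q))
    ((h62i_β A M hq hM hA : chart M A (jB M) →ₐ[A] chart (M * q) A (jSS M q)) :
      chart M A (jB M) →+* chart (M * q) A (jSS M q))
    (h60rIncl A M (jB M)) (h60rIncl A (M * q) (jSS M q))
    (h59o_incl_alpha A M) (h59o_incl_beta A M hq hM hA)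
    𝔫' (h60rLift (h60rIncl A (M * q) (jSS M q)) (mExt A M q (jSS M q)) 𝔫')
    (h60r_mem_lift_iff' A M hq hM hA 𝔫' hq𝔫')
    (h62i_P0 A M hq hM hA) (h62i_Pinf A M hq hM hA) hP0 q u a ε δ r
    (Ideal.mem_comap.mp hLP.1) hε hroot
    (fun ε' hε' hP hn r' hr' hroot' => by
      simp only [RingHom.coe_coe] at hP hn hroot' ⊢
      exact hunit ε' hε' (h60rIncl A M (jB M) a) hP hn r' hr' hroot')
    haP hsep hr
  exact ⟨a, r, _, hr, hroot, h1, hsep, h2, h3⟩

end Fermat.Agent.S36
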