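import Mathlib

/-!
# S36, block ALG36: frozen interfaces of the pure algebra (sub-architect helper5)

Every declaration is a frozen interface `Prop`; nothing is assumed.  Mathlib only.

## Design

The representation of S36 is cut out of the SUB-eigenlattice `Λ' ⊆ T ⊗ 𝒪` (`T` the `p`-adic Tate
module of `J₀(N)`), not of the quotient lattice of S30: invariants of a subobject are controlled
by the invariants of `T`, which is what the geometry (GEOM36) controls.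

* `SubEigenLatticeStatement` (ALG36-SUB): as `Fermat.Agent.S30.EigenLattice.exists_eigenlattice`,
  with a fourth transfer property: if a Hecke operator `Θ E` with `χ E ≠ 0` kills the vectors of
  `M` fixed by a set `I ⊆ G`, then `Λ'` has no nonzero vector fixed by `I`.
  (`Λ' = {φ : M* →ₗ 𝒪 | φ ∘ (Θ P)* = χ P • φ}`, `M* = Hom(M, ℤ_p)`, `g • φ = φ ∘ (ρ g)*`.)
* `KolchinQuadStatement` (ALG36-KOL): a group acting on a nonzero finite free module over a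
  domain of characteristic zero such that `(ρ σ - 1)² = 0` for all `σ` in a subgroup `I` has a
  nonzero vector fixed by `I`.  (`a_σ = ρ σ - 1`; `a_{σ^k} = k a_σ`; expanding
  `(a_{σ^k τ})² = 0` for `k = ±1` gives `a_σ a_τ = - a_τ a_σ`; a stable submodule of minimal
  positive rank is killed by all `a_σ`.)

Consequence (ALG36-CORE, `H5Core36.lean`): if the rank two representation `ρ''` produced by
`QuadRepOdd` from `Λ'` is unipotent on an inertia group `I` at `q ≠ p`, then for `σ ∈ I` the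
quadratic relation of `ρ' σ` on `Λ'` is `X² - b X + 1` with `X² - b X + 1 = (X - 1)²`, so
`(ρ' σ - 1)² = 0`, Kolchin gives a nonzero `I`-fixed vector of `Λ'`: contradiction.
-/

set_option autoImplicit false

namespace Fermat.Agent.S36

/-- **ALG36-KOL (Kolchin, quadratic form).** -/
def KolchinQuadStatement : Prop :=
  ∀ (𝒪 : Type) [CommRing 𝒪] [IsDomain 𝒪] [CharZero 𝒪]
    (Λ : Type) [AddCommGroup Λ] [Module 𝒪 Λ] [Module.Free 𝒪 Λ] [Module.Finite 𝒪 Λ]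
    [Nontrivial Λ]
    (G : Type) [Group G] (ρ : G →* Module.End 𝒪 Λ) (I : Subgroup G),
    (∀ σ ∈ I, (ρ σ - 1) * (ρ σ - 1) = 0) →
    ∃ w : Λ, w ≠ 0 ∧ ∀ σ ∈ I, ρ σ w = w

/-- **ALG36-SUB (the sub-eigenlattice).** -/
def SubEigenLatticeStatement : Prop :=
  ∀ {p : ℕ} [Fact p.Prime]
    {M : Type} [AddCommGroup M] [Module ℤ_[p] M] [Module.Free ℤ_[p] M] [Module.Finite ℤ_[p] M]
    {ι : Type} (Θ : MvPolynomial ι ℤ →+* Module.End ℤ_[p] M)
    {G : Type} [Group G] (ρ : G →* Module.End ℤ_[p] M),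
    (∀ (P : MvPolynomial ι ℤ) (g : G), Commute (Θ P) (ρ g)) →
    ∀ {𝒪 : Type} [CommRing 𝒪] [IsDomain 𝒪] [IsDiscreteValuationRing 𝒪] [Algebra ℤ_[p] 𝒪],
    (p : 𝒪) ∈ IsLocalRing.maximalIdeal 𝒪 → (p : 𝒪) ≠ 0 →
    ∀ (χ : MvPolynomial ι ℤ →+* 𝒪),
    (∀ (P : MvPolynomial ι ℤ) (k : ℕ),
      (∀ v : M, ∃ w : M, Θ P v = ((p : ℤ_[p]) ^ k) • w) → ∃ y : 𝒪, χ P = (p : 𝒪) ^ k * y) →
    ∃ (Λ : Type) (_ : AddCommGroup Λ) (_ : Module 𝒪 Λ) (_ : Module.Free 𝒪 Λ)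
      (_ : Module.Finite 𝒪 Λ) (_ : Nontrivial Λ) (ρΛ : G →* Module.End 𝒪 Λ),
      (∀ g : G, ρ g = 1 → ρΛ g = 1) ∧
      (∀ (g : G) (n : ℕ), (∀ v : M, ∃ v' : M, ρ g v - v = ((p : ℤ_[p]) ^ n) • v') →
        ∀ w : Λ, ρΛ g w - w ∈ (IsLocalRing.maximalIdeal 𝒪 ^ n) • (⊤ : Submodule 𝒪 Λ)) ∧
      (∀ (g : G) (P : MvPolynomial ι ℤ) (c : ℤ_[p]),
        ρ g * ρ g - Θ P * ρ g + c • (1 : Module.End ℤ_[p] M) = 0 →
        ρΛ g * ρΛ g - χ P • ρΛ g + (algebraMap ℤ_[p] 𝒪 c) • (1 : Module.End 𝒪 Λ) = 0) ∧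
      (∀ (I : Set G) (E : MvPolynomial ι ℤ), χ E ≠ 0 →
        (∀ v : M, (∀ g ∈ I, ρ g v = v) → Θ E v = 0) →
        ∀ w : Λ, (∀ g ∈ I, ρΛ g w = w) → w = 0)

end Fermat.Agent.S36
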