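import Fermat.Agent.S36.H5Pkg36
import Fermat.Agent.S35.H5Asm
import Fermat.Agent.S30.Inputs

/-!
# S36, ALG36-ASM: `S36Assembly`

helper5.

* `h5c_s36Assembly : S36Assembly` (frozen in `S36/Skeleton.lean`): S36 from its two open inputs
  `InertiaNewStatement` (all levels) and `OldKillAllStatement`.  Everything else is landed: the
  geometric inputs of P-GALREP (`Fermat.Agent.S30.geometricInputsFull`), the full Tate package,
  the sub-eigenlattice (`h5c_subEigenLattice`), Kolchin (`h8q_kolchinQuad`, helper8), and the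
  pure algebra of S30.
  The frozen statement of S36 follows by `h37u_s36_of` (`S36/Top.lean`, helper37).
-/

set_option autoImplicit false

open Polynomial

namespace Fermat.Agent.S36

/-- **ALG36-ASM.** -/
theorem h5c_s36Assembly : S36Assembly := by
  intro hInv hOld M _ g hg lam _ S O' _ _ _ _ _ _ hlamO' chig hchig iota hlamS hMS
  have hp : lam.Prime := Fact.out
  have hGeo := Fermat.Agent.S30.geometricInputsFull
  have hLat : h5c_ESLatticeInv lam M S O' (iota.comp chig.rangeRestrict) :=
    h5c_esLatticeInv M lam hp (hGeo.1 M) (hGeo.2.1 M lam hp)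
      (fun k => hGeo.2.2.1 M (lam ^ k) (pow_pos hp.pos k))
      (fun k => Fermat.Agent.S31.heckeKeyInt_of_lattice M (hGeo.2.2.2 M) (lam ^ k))
      (hInv M lam hp) S hlamS hMS O' hlamO' _ (fun q hq _ hfac => by
        have hqM : q ∣ M := Nat.dvd_of_factorization_pos (by rw [hfac]; exact two_ne_zero)
        obtain ⟨e, he, hk⟩ := hOld M g hg S chig hchig hMS q hq hqM
        exact ⟨e, Fermat.Agent.S35.h5r_iota_ne_zero S O' chig iota _ he, hk⟩)
  exact h5c_core36 lam hp M S hlamS hMS O' hlamO' _ hLat

end Fermat.Agent.S36
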