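import Mathlib
import Fermat.Agent.S36.H5AlgSkeleton

/-!
# S36, block ALG36: the quadratic Kolchin theorem (`KolchinQuadStatement`), helper8

`h8q_kolchinQuad : KolchinQuadStatement`.

A group `I` acting on a nonzero finite free module `Λ` over a domain of characteristic zero such
that `(ρ σ - 1)² = 0` for all `σ ∈ I` has a nonzero fixed vector.

Proof.  Put `a σ = ρ σ - 1`.  Then `ρ σ⁻¹ = 1 - a σ`, and expanding
`(a (σ^{±1} τ^{±1}))² = 0` gives (the module is torsion free) `a σ * a τ = - (a τ * a σ)`.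
For a set `S` of pairwise anticommuting endomorphisms of square zero, a nonzero `S`-stable
submodule `W` either is killed by `S` or contains the nonzero `S`-stable submodule `x W`
(`x ∈ S`) of smaller rank (rank-nullity over a domain, `x W ⊆ W ∩ ker x`); induction on the rank.

Mathlib only.
-/

set_option autoImplicit false

namespace Fermat.Agent.S36

section Algebra

variable {𝒪 : Type*} [CommRing 𝒪] [IsDomain 𝒪] [CharZero 𝒪]
  {Λ : Type*} [AddCommGroup Λ] [Module 𝒪 Λ] [Module.Free 𝒪 Λ]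

/-- endomorphisms of a free module over a domain of characteristic zero have no `ℕ`-torsion. -/
theorem h8q_end_torsion (n : ℕ) (hn : n ≠ 0) (T : Module.End 𝒪 Λ) (h : n • T = 0) : T = 0 := by
  ext v
  have h1 : (n • T) v = 0 := by rw [h]; rfl
  have h2 : (n : 𝒪) • T v = 0 := by
    rw [Nat.cast_smul_eq_nsmul]
    simpa using h1
  rcases smul_eq_zero.mp h2 with h3 | h3
  · exact absurd (Nat.cast_eq_zero.mp h3) hn
  · simpa using h3

/-- the anticommutation relation. -/
theorem h8q_anticomm (x y : Module.End 𝒪 Λ) (hx : x * x = 0) (hy : y * y = 0)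
    (h1 : (x + y + x * y) * (x + y + x * y) = 0)
    (h2 : (-x + y - x * y) * (-x + y - x * y) = 0)
    (h3 : (x - y - x * y) * (x - y - x * y) = 0)
    (h4 : (-x - y + x * y) * (-x - y + x * y) = 0) : x * y = -(y * x) := by
  have e1 : x * y + y * x + y * x * y + x * y * x + x * y * x * y = 0 := by
    have : (x + y + x * y) * (x + y + x * y)
        = x * y + y * x + y * x * y + x * y * x + x * y * x * y
          + (x * x) + (y * y) + (x * x) * y + x * (y * y) := by noncomm_ring
    rw [h1, hx, hy] at this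
    simpa using this.symm
  have e2 : -(x * y) - y * x - y * x * y + x * y * x + x * y * x * y = 0 := by
    have : (-x + y - x * y) * (-x + y - x * y)
        = -(x * y) - y * x - y * x * y + x * y * x + x * y * x * y
          + (x * x) + (y * y) + (x * x) * y - x * (y * y) := by noncomm_ring
    rw [h2, hx, hy] at this
    simpa using this.symm
  have e3 : -(x * y) - y * x + y * x * y - x * y * x + x * y * x * y = 0 := by
    have : (x - y - x * y) * (x - y - x * y)
        = -(x * y) - y * x + y * x * y - x * y * x + x * y * x * y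
          + (x * x) + (y * y) - (x * x) * y + x * (y * y) := by noncomm_ring
    rw [h3, hx, hy] at this
    simpa using this.symm
  have e4 : x * y + y * x - y * x * y - x * y * x + x * y * x * y = 0 := by
    have : (-x - y + x * y) * (-x - y + x * y)
        = x * y + y * x - y * x * y - x * y * x + x * y * x * y
          + (x * x) + (y * y) - (x * x) * y - x * (y * y) := by noncomm_ring
    rw [h4, hx, hy] at this
    simpa using this.symm
  have f4 : x * y * x * y = 0 := by
    apply h8q_end_torsion 4 (by norm_num)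
    have : 4 • (x * y * x * y)
        = (x * y + y * x + y * x * y + x * y * x + x * y * x * y)
          + (-(x * y) - y * x - y * x * y + x * y * x + x * y * x * y)
          + (-(x * y) - y * x + y * x * y - x * y * x + x * y * x * y)
          + (x * y + y * x - y * x * y - x * y * x + x * y * x * y) := by
      noncomm_ring
    rw [this, e1, e2, e3, e4]; simp
  have f2 : x * y + y * x = 0 := by
    apply h8q_end_torsion 2 (by norm_num)
    have : 2 • (x * y + y * x)
        = (x * y + y * x + y * x * y + x * y * x + x * y * x * y)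
          + (x * y + y * x - y * x * y - x * y * x + x * y * x * y)
          - 2 • (x * y * x * y) := by
      noncomm_ring
    rw [this, e1, e4, f4]; simp
  exact eq_neg_of_add_eq_zero_left f2

/-- the rank drops: if `x² = 0`, `x W ⊆ W` and `x W ≠ 0` then `rank (x W) < rank W`. -/
theorem h8q_finrank_map_lt [Module.Finite 𝒪 Λ] (x : Module.End 𝒪 Λ) (hx : x * x = 0)
    (W : Submodule 𝒪 Λ) (hW : ∀ w ∈ W, x w ∈ W) (hne : W.map x ≠ ⊥) :
    Module.finrank 𝒪 (W.map x) < Module.finrank 𝒪 W := by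
  classical
  set f : W →ₗ[𝒪] Λ := x.domRestrict W with hf
  have hrange : LinearMap.range f = W.map x := LinearMap.range_domRestrict W x
  have hrn := LinearMap.rank_range_add_rank_ker f
  -- an injection of `x W` into the kernel
  have hker : ∀ v : W.map x, x (v : Λ) = 0 := by
    rintro ⟨v, hv⟩
    obtain ⟨w, -, rfl⟩ := hv
    change (x * x) w = 0
    rw [hx]; rfl
  have hmem : ∀ v : W.map x, (v : Λ) ∈ W := by
    rintro ⟨v, hv⟩
    obtain ⟨w, hw, rfl⟩ := hv
    exact hW w hw
  let g : W.map x →ₗ[𝒪] LinearMap.ker f :=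
    { toFun := fun v => ⟨⟨(v : Λ), hmem v⟩, by
        rw [LinearMap.mem_ker]; exact hker v⟩
      map_add' := fun a b => by ext; rfl
      map_smul' := fun c a => by ext; rfl }
  have hg : Function.Injective g := by
    intro a b hab
    have := congrArg (fun z : LinearMap.ker f => ((z : W) : Λ)) hab
    exact Subtype.ext this
  have h1 : Module.rank 𝒪 (W.map x) ≤ Module.rank 𝒪 (LinearMap.ker f) :=
    LinearMap.rank_le_of_injective g hg
  have hfinW : Module.rank 𝒪 W < Cardinal.aleph0 :=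
    lt_of_le_of_lt (Submodule.rank_le W) (Module.rank_lt_aleph0 𝒪 Λ)
  have hfinM : Module.rank 𝒪 (W.map x) < Cardinal.aleph0 :=
    lt_of_le_of_lt (Submodule.rank_le _) (Module.rank_lt_aleph0 𝒪 Λ)
  have hfinK : Module.rank 𝒪 (LinearMap.ker f) < Cardinal.aleph0 :=
    lt_of_le_of_lt (Submodule.rank_le _) hfinW
  have hpos : 0 < Module.rank 𝒪 (W.map x) := by
    obtain ⟨v, hv, hv0⟩ := Submodule.exists_mem_ne_zero_of_ne_bot hne
    rw [rank_pos_iff_exists_ne_zero]
    exact ⟨⟨v, hv⟩, fun h => hv0 (congrArg Subtype.val h)⟩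
  rw [hrange] at hrn
  obtain ⟨a, ha⟩ := Cardinal.lt_aleph0.mp hfinM
  obtain ⟨b, hb⟩ := Cardinal.lt_aleph0.mp hfinK
  obtain ⟨c, hc⟩ := Cardinal.lt_aleph0.mp hfinW
  rw [ha, hb, hc] at hrn
  rw [ha, hb] at h1
  rw [ha] at hpos
  have hrn' : a + b = c := by exact_mod_cast hrn
  have h1' : a ≤ b := by exact_mod_cast h1
  have hpos' : 0 < a := by exact_mod_cast hpos
  have fa : Module.finrank 𝒪 (W.map x) = a := by
    rw [Module.finrank, ha]; simp
  have fc : Module.finrank 𝒪 W = c := by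
    rw [Module.finrank, hc]; simp
  rw [fa, fc]; omega

/-- a set of pairwise anticommuting endomorphisms of square zero of a nonzero finite free module
over a domain has a common nonzero kernel vector. -/
theorem h8q_common_kernel [Module.Finite 𝒪 Λ] [Nontrivial Λ] (S : Set (Module.End 𝒪 Λ))
    (hsq : ∀ x ∈ S, x * x = 0) (hanti : ∀ x ∈ S, ∀ y ∈ S, x * y = -(y * x)) :
    ∃ w : Λ, w ≠ 0 ∧ ∀ x ∈ S, x w = 0 := by
  classical
  have key : ∀ n : ℕ, ∀ W : Submodule 𝒪 Λ, W ≠ ⊥ → (∀ x ∈ S, ∀ w ∈ W, x w ∈ W) →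
      Module.finrank 𝒪 W = n → ∃ w ∈ W, w ≠ 0 ∧ ∀ x ∈ S, x w = 0 := by
    intro n
    induction n using Nat.strong_induction_on with
    | _ n ih =>
      intro W hW hst hn
      by_cases hall : ∀ x ∈ S, ∀ w ∈ W, x w = 0
      · obtain ⟨w, hw, hw0⟩ := Submodule.exists_mem_ne_zero_of_ne_bot hW
        exact ⟨w, hw, hw0, fun x hx => hall x hx w hw⟩
      · push Not at hall
        obtain ⟨x, hxS, w0, hw0, hxw0⟩ := hall
        have hne : W.map x ≠ ⊥ := by
          intro h
          have : x w0 ∈ W.map x := Submodule.mem_map_of_mem hw0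
          rw [h, Submodule.mem_bot] at this
          exact hxw0 this
        have hlt := h8q_finrank_map_lt x (hsq x hxS) W (hst x hxS) hne
        have hst' : ∀ y ∈ S, ∀ v ∈ W.map x, y v ∈ W.map x := by
          intro y hy v hv
          obtain ⟨w, hw, rfl⟩ := hv
          have h1 : y (x w) = x (-(y w)) := by
            have := congrArg (fun T : Module.End 𝒪 Λ => T w) (hanti y hy x hxS)
            simpa using this
          rw [h1]
          exact Submodule.mem_map_of_mem (W.neg_mem (hst y hy w hw))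
        obtain ⟨w, hw, hw0', hk⟩ := ih _ (hn ▸ hlt) (W.map x) hne hst' rfl
        obtain ⟨w', hw', rfl⟩ := hw
        exact ⟨x w', hst x hxS w' hw', hw0', hk⟩
  obtain ⟨w, -, hw0, hk⟩ := key _ ⊤ (by simp) (fun _ _ _ _ => Submodule.mem_top) rfl
  exact ⟨w, hw0, hk⟩

end Algebra

/-- **ALG36-KOL**: the quadratic Kolchin theorem. -/
theorem h8q_kolchinQuad : KolchinQuadStatement := by
  intro 𝒪 _ _ _ Λ _ _ _ _ _ G _ ρ I hI
  -- the inverse
  have hinv : ∀ σ ∈ I, ρ σ⁻¹ - 1 = -(ρ σ - 1) := by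
    intro σ hσ
    have h1 : ρ σ * ρ σ⁻¹ = 1 := by rw [← map_mul, mul_inv_cancel, map_one]
    have h2 : (1 - (ρ σ - 1)) * ρ σ = 1 := by
      have : (1 - (ρ σ - 1)) * ρ σ = 1 - (ρ σ - 1) * (ρ σ - 1) := by noncomm_ring
      rw [this, hI σ hσ, sub_zero]
    have h3 : ρ σ⁻¹ = 1 - (ρ σ - 1) := by
      calc ρ σ⁻¹ = ((1 - (ρ σ - 1)) * ρ σ) * ρ σ⁻¹ := by rw [h2, one_mul]
        _ = (1 - (ρ σ - 1)) * (ρ σ * ρ σ⁻¹) := by rw [mul_assoc]
        _ = 1 - (ρ σ - 1) := by rw [h1, mul_one]
    rw [h3]; abel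
  set S : Set (Module.End 𝒪 Λ) := {x | ∃ σ ∈ I, x = ρ σ - 1} with hS
  have hsq : ∀ x ∈ S, x * x = 0 := by
    rintro x ⟨σ, hσ, rfl⟩
    exact hI σ hσ
  have hprod : ∀ σ ∈ I, ∀ τ ∈ I,
      ρ (σ * τ) - 1 = (ρ σ - 1) + (ρ τ - 1) + (ρ σ - 1) * (ρ τ - 1) := by
    intro σ _ τ _
    rw [map_mul]; noncomm_ring
  have hanti : ∀ x ∈ S, ∀ y ∈ S, x * y = -(y * x) := by
    rintro x ⟨σ, hσ, rfl⟩ y ⟨τ, hτ, rfl⟩
    have hσ' := I.inv_mem hσ
    have hτ' := I.inv_mem hτ
    apply h8q_anticomm _ _ (hI σ hσ) (hI τ hτ)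
    · rw [← hprod σ hσ τ hτ]; exact hI _ (I.mul_mem hσ hτ)
    · have := hI _ (I.mul_mem hσ' hτ)
      rw [hprod _ hσ' _ hτ, hinv σ hσ] at this
      have e : -(ρ σ - 1) + (ρ τ - 1) - (ρ σ - 1) * (ρ τ - 1)
          = -(ρ σ - 1) + (ρ τ - 1) + -(ρ σ - 1) * (ρ τ - 1) := by noncomm_ring
      rw [e]; exact this
    · have := hI _ (I.mul_mem hσ hτ')
      rw [hprod _ hσ _ hτ', hinv τ hτ] at this
      have e : (ρ σ - 1) - (ρ τ - 1) - (ρ σ - 1) * (ρ τ - 1)
          = (ρ σ - 1) + -(ρ τ - 1) + (ρ σ - 1) * -(ρ τ - 1) := by noncomm_ring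
      rw [e]; exact this
    · have := hI _ (I.mul_mem hσ' hτ')
      rw [hprod _ hσ' _ hτ', hinv σ hσ, hinv τ hτ] at this
      have e : -(ρ σ - 1) - (ρ τ - 1) + (ρ σ - 1) * (ρ τ - 1)
          = -(ρ σ - 1) + -(ρ τ - 1) + -(ρ σ - 1) * -(ρ τ - 1) := by noncomm_ring
      rw [e]; exact this
  obtain ⟨w, hw0, hk⟩ := h8q_common_kernel S hsq hanti
  refine ⟨w, hw0, fun σ hσ => ?_⟩
  have := hk (ρ σ - 1) ⟨σ, hσ, rfl⟩
  rw [LinearMap.sub_apply, sub_eq_zero] at this
  simpa using this

end Fermat.Agent.S36
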