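import Fermat.Agent.S36.Skeleton
import Fermat.Agent.S36.H8KolQuad
import Fermat.Agent.S30.Assembly
import Fermat.Agent.S30.QuadRepOdd
import Fermat.Agent.S54.Frobenius

/-!
# S36, ALG36-CORE: the conclusion of S36 from a lattice without inertia invariants

helper5.  Clone of `Fermat.Agent.S35.h5r_coreAdicNew_of`.

`h5c_ESLatticeInv p N S 𝒪 χ` : an Eichler–Shimura lattice `Λ` (continuous, with the quadratic
relations at the Frobenius elements at `ℓ ∉ S`) such that for every prime `q ≠ p` with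
`q² ∥ N` and every place `A` over `q`, `Λ` has no nonzero vector fixed by the inertia group
`I_A`.

`h5c_core36` : such a lattice gives `GalRepNotUnipConclusion` (`S36/Skeleton.lean`).  If the
rank two representation `ρ'` of `QuadRepOdd` were unipotent on `I_A`, then for `σ ∈ I_A` the
quadratic relation `ρ σ² - b ρ σ + d σ = 0` on `Λ` (adic closure) has `d σ = 1` (cyclotomic
character) and `X² - b X + 1 = charpoly (ρ' σ) = (X - 1)²`, so `b = 2` and `(ρ σ - 1)² = 0` on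
`Λ`; by Kolchin (`KolchinQuadStatement`, landed `h8q_kolchinQuad`) `Λ` has a nonzero vector
fixed by `I_A`.
-/

set_option autoImplicit false

open Polynomial

namespace Fermat.Agent.S36

open Fermat.Agent.S29 (GQ WeakChebotarev)
open Fermat.Agent.S30 (QuadRepOddStatement CycCharAdicStatement AdicClosureStatement)

/-- An Eichler–Shimura lattice without inertia invariants at the primes `q ≠ p`, `q² ∥ N`. -/
def h5c_ESLatticeInv (p N : ℕ) [NeZero N] (S : Finset ℕ)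
    (𝒪 : Type) [CommRing 𝒪] [IsLocalRing 𝒪]
    (χ : CuspForm.heckeAlgebra N 2 (↑S : Set ℕ) →+* 𝒪) : Prop :=
  ∃ (Λ : Type) (_ : AddCommGroup Λ) (_ : Module 𝒪 Λ) (_ : Module.Free 𝒪 Λ)
    (_ : Module.Finite 𝒪 Λ) (_ : Nontrivial Λ) (ρ : GQ →* Module.End 𝒪 Λ),
    GaloisActionIsAdicContinuous 𝒪 ρ ∧
    (∀ (ℓ : ℕ) (hℓ : ℓ.Prime) (hℓN : ¬ ℓ ∣ N) (hℓS : ℓ ∉ (↑S : Set ℕ)),
      ∀ A : ValuationSubring (AlgebraicClosure ℚ), A.LiesOverPrime ℓ →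
        ∀ σ : GQ, A.IsFrobeniusAt σ ℓ →
          ρ σ * ρ σ - χ (CuspForm.heckeAlgebra.T hℓ hℓN hℓS) • ρ σ
            + (ℓ : 𝒪) • (1 : Module.End 𝒪 Λ) = 0) ∧
    (∀ q : ℕ, q.Prime → q ≠ p → N.factorization q = 2 →
      ∀ A : ValuationSubring (AlgebraicClosure ℚ), A.LiesOverPrime q →
        ∀ w : Λ, (∀ σ ∈ A.inertiaSubgroupIn ℚ, ρ σ w = w) → w = 0)

/-- a monic quadratic `X² - b X + 1` which is `(X - 1)²` has `b = 2` -/
theorem h5c_b_eq_two {𝒪 : Type*} [CommRing 𝒪] (b : 𝒪)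
    (h : (X ^ 2 - C b * X + C (1 : 𝒪) : 𝒪[X]) = (X - 1) ^ 2) : b = 2 := by
  have h1 := congrArg (fun f : 𝒪[X] => f.coeff 1) h
  have e1 : (X ^ 2 - C b * X + C (1 : 𝒪) : 𝒪[X]).coeff 1 = - b := by
    simp [coeff_X_pow, coeff_C, coeff_one]
  have e2 : ((X - 1) ^ 2 : 𝒪[X]).coeff 1 = -2 := by
    have : ((X - 1) ^ 2 : 𝒪[X]) = X ^ 2 - C 2 * X + C 1 := by
      simp only [map_ofNat, map_one]
      ring
    rw [this]
    simp [coeff_X_pow, coeff_C, coeff_one]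
  simp only [e1, e2] at h1
  exact neg_injective h1

/-- the quadratic relation with `b = 2`, `d = 1` is `(T - 1)² = 0` -/
theorem h5c_sq_of_quadratic {𝒪 : Type*} [CommRing 𝒪] {Λ : Type*} [AddCommGroup Λ] [Module 𝒪 Λ]
    (T : Module.End 𝒪 Λ)
    (h : T * T - (2 : 𝒪) • T + (1 : 𝒪) • (1 : Module.End 𝒪 Λ) = 0) :
    (T - 1) * (T - 1) = 0 := by
  have e : (T - 1) * (T - 1) = T * T - (2 : 𝒪) • T + (1 : 𝒪) • (1 : Module.End 𝒪 Λ) := by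
    rw [sub_mul, mul_sub, mul_sub, one_mul, mul_one, mul_one, one_smul, two_smul]
    abel
  rw [e, h]

/-- **ALG36-CORE**, relative to Kolchin and to the pure algebra modules A1, A2, A5 of S30. -/
theorem h5c_core36_of (hK : KolchinQuadStatement) (hQ : QuadRepOddStatement)
    (hC : CycCharAdicStatement) (hA : AdicClosureStatement) (hCheb : WeakChebotarev)
    (p : ℕ) (hp : p.Prime) (N : ℕ) [NeZero N] (S : Finset ℕ) (hpS : p ∈ S)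
    (hNS : ∀ q : ℕ, q.Prime → q ∣ N → q ∈ S)
    (𝒪 : Type) [CommRing 𝒪] [IsDomain 𝒪] [IsDiscreteValuationRing 𝒪]
    [IsAdicComplete (IsLocalRing.maximalIdeal 𝒪) 𝒪] [CharZero 𝒪]
    (hp𝒪 : (p : 𝒪) ∈ IsLocalRing.maximalIdeal 𝒪)
    (χ : CuspForm.heckeAlgebra N 2 (↑S : Set ℕ) →+* 𝒪)
    (hES : h5c_ESLatticeInv p N S 𝒪 χ) : GalRepNotUnipConclusion p N S 𝒪 χ := by
  obtain ⟨Λ, _, _, _, _, _, ρ, hcont, hfrob, hinv⟩ := hES
  obtain ⟨d, hdcont, hdunr, hdfrob, c, hcc, hdc⟩ := hC p hp 𝒪 hp𝒪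
  have hnotN : ∀ ℓ : ℕ, ℓ.Prime → ℓ ∉ S → ¬ ℓ ∣ N := fun ℓ hℓ hℓS h => hℓS (hNS ℓ hℓ h)
  have hnep : ∀ ℓ : ℕ, ℓ ∉ S → ℓ ≠ p := fun ℓ hℓS h => hℓS (h ▸ hpS)
  have hmem : ∀ ℓ : ℕ, ℓ ∉ S → ℓ ∉ (↑S : Set ℕ) := fun ℓ hℓS h => hℓS (Finset.mem_coe.mp h)
  have hquadFrob : ∀ ℓ : ℕ, ℓ.Prime → ℓ ∉ S →
      ∀ A : ValuationSubring (AlgebraicClosure ℚ), A.LiesOverPrime ℓ →
        ∀ σ : GQ, A.IsFrobeniusAt σ ℓ →
          ∃ b : 𝒪, ρ σ * ρ σ - b • ρ σ + ((d σ : 𝒪ˣ) : 𝒪) • (1 : Module.End 𝒪 Λ) = 0 := by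
    intro ℓ hℓ hℓS A hA σ hσ
    refine ⟨χ (CuspForm.heckeAlgebra.T hℓ (hnotN ℓ hℓ hℓS) (hmem ℓ hℓS)), ?_⟩
    rw [hdfrob ℓ hℓ (hnep ℓ hℓS) A hA σ hσ]
    exact hfrob ℓ hℓ (hnotN ℓ hℓ hℓS) (hmem ℓ hℓS) A hA σ hσ
  have hquad := hA hCheb 𝒪 Λ ρ d S hcont hdcont hquadFrob
  obtain ⟨ρ', hchar, hcont', -⟩ := hQ 𝒪 GQ Λ ρ d c hcc hdc hquad
  refine ⟨{ V := Fin 2 → 𝒪
            finrank_eq := by simp
            ρ := ρ'
            isAdicContinuous := ?_ }, ?_, ?_⟩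
  · intro n
    obtain ⟨L₁, hL₁, h₁⟩ := hcont n
    obtain ⟨L₂, hL₂, h₂⟩ := hdcont n
    have := hL₁
    have := hL₂
    refine ⟨L₁ ⊔ L₂, IntermediateField.finiteDimensional_sup L₁ L₂, fun σ hσ w => ?_⟩
    exact hcont' σ n
      (h₁ σ fun x hx => hσ x ((le_sup_left : L₁ ≤ L₁ ⊔ L₂) hx))
      (h₂ σ fun x hx => hσ x ((le_sup_right : L₂ ≤ L₁ ⊔ L₂) hx)) w
  · intro ℓ hℓ hℓN hℓS A hA σ hσ
    have hℓS' : ℓ ∉ S := fun h => hℓS (Finset.mem_coe.mpr h)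
    have hd := hdfrob ℓ hℓ (hnep ℓ hℓS') A hA σ hσ
    have := hchar σ (χ (CuspForm.heckeAlgebra.T hℓ hℓN hℓS))
      (by rw [hd]; exact hfrob ℓ hℓ hℓN hℓS A hA σ hσ)
    rw [hd] at this
    exact this
  · -- not unipotent on inertia at the primes `q² ∥ N`
    intro q hq hqp hfac hunip
    obtain ⟨A, hAq⟩ := Fermat.Agent.S54.exists_liesOverPrime hq
    have hsq : ∀ σ ∈ A.inertiaSubgroupIn ℚ, (ρ σ - 1) * (ρ σ - 1) = 0 := by
      intro σ hσ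
      obtain ⟨b, hb⟩ := hquad σ
      have hd1 : ((d σ : 𝒪ˣ) : 𝒪) = 1 := by
        rw [hdunr q hq hqp A hAq σ hσ, Units.val_one]
      have hcp := hchar σ b hb
      rw [hd1] at hcp hb
      have hu : LinearMap.charpoly (ρ' σ) = (X - 1) ^ 2 := hunip A hAq σ hσ
      rw [hcp] at hu
      have hb2 := h5c_b_eq_two b hu
      rw [hb2] at hb
      exact h5c_sq_of_quadratic (ρ σ) hb
    obtain ⟨w, hw0, hw⟩ := hK 𝒪 Λ GQ ρ (A.inertiaSubgroupIn ℚ) hsq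
    exact hw0 (hinv q hq hqp hfac A hAq w hw)

/-- **ALG36-CORE.** -/
theorem h5c_core36 (p : ℕ) (hp : p.Prime) (N : ℕ) [NeZero N] (S : Finset ℕ) (hpS : p ∈ S)
    (hNS : ∀ q : ℕ, q.Prime → q ∣ N → q ∈ S)
    (𝒪 : Type) [CommRing 𝒪] [IsDomain 𝒪] [IsDiscreteValuationRing 𝒪]
    [IsAdicComplete (IsLocalRing.maximalIdeal 𝒪) 𝒪] [CharZero 𝒪]
    (hp𝒪 : (p : 𝒪) ∈ IsLocalRing.maximalIdeal 𝒪)
    (χ : CuspForm.heckeAlgebra N 2 (↑S : Set ℕ) →+* 𝒪)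
    (hES : h5c_ESLatticeInv p N S 𝒪 χ) : GalRepNotUnipConclusion p N S 𝒪 χ :=
  h5c_core36_of h8q_kolchinQuad Fermat.Agent.S30.quadRepOdd Fermat.Agent.S30.cycCharAdic
    Fermat.Agent.S30.adicClosure Fermat.Agent.Cheb.weakChebotarev p hp N S hpS hNS 𝒪 hp𝒪 χ hES

end Fermat.Agent.S36
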