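import Fermat.Agent.S36.H5SubLattice
import Fermat.Agent.S36.H5Core36
import Fermat.Agent.S35.H5Package
import Fermat.Agent.S34.TatePackageFull
import Fermat.Agent.S30.Tate

/-!
# S36, ALG36-PKG: from the torsion points to the lattice without inertia invariants

helper5.  Clone of `Fermat.Agent.S35.h95k_packageNew_of` with the SUB-eigenlattice
(`h5c_subEigenLattice`, `S36/H5SubLattice.lean`).

Input: `InertiaNewStatement N p` (`S36/Skeleton.lean`) and, for every prime `q ≠ p` with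
`q² ∥ N`, a Hecke polynomial `e` with `χ e ≠ 0` killing `S₂(Γ₀(N / q))`.  On the Tate module
`M`: if `v ∈ M` is fixed by the inertia group `I_A`, then `π k v` is a `p ^ k`-torsion point
fixed by `I_A`, so `t • (e • π k v) = 0` for all `k`, hence `t • Θ e v ∈ ⋂ p ^ k M = 0` and
`Θ e v = 0`.  The sub-eigenlattice then has no nonzero vector fixed by `I_A`.
-/

set_option autoImplicit false

namespace Fermat.Agent.S36

open Fermat.Agent.S29 (GQ HeckeGaloisCommute EichlerShimuraTorsion TorsionFiniteLevel)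
open Fermat.Agent.S30 (TateStatement HeckeKeyInt)
open Fermat.Agent.S30.PackageAdic (GoodPrime evS evS_X key_congruence not_dvd_of_good)
open Fermat.Agent.S35 (KillsOld)

/-- **ALG36-PKG**, from the Tate statement and the full Tate package. -/
theorem h5c_esLatticeInv_of_tatePackageFull (N p : ℕ) [NeZero N] (hT : TateStatement)
    (hTP : ∀ [Fact p.Prime], Fermat.Agent.S34.TatePackageFullStatement N p)
    (hp : p.Prime) (hHG : HeckeGaloisCommute N) (hES : EichlerShimuraTorsion N p)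
    (hTF : ∀ k : ℕ, TorsionFiniteLevel N (p ^ k)) (hKey : ∀ k : ℕ, HeckeKeyInt N (p ^ k))
    (hInv : InertiaNewStatement N p)
    (S : Finset ℕ) (hpS : p ∈ S) (_hNS : ∀ q : ℕ, q.Prime → q ∣ N → q ∈ S)
    (𝒪 : Type) [CommRing 𝒪] [IsDomain 𝒪] [IsDiscreteValuationRing 𝒪]
    [IsAdicComplete (IsLocalRing.maximalIdeal 𝒪) 𝒪] [CharZero 𝒪]
    (hp𝒪 : (p : 𝒪) ∈ IsLocalRing.maximalIdeal 𝒪)
    (χ : CuspForm.heckeAlgebra N 2 (↑S : Set ℕ) →+* 𝒪)
    (hOld : ∀ q : ℕ, q.Prime → q ≠ p → N.factorization q = 2 →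
      ∃ e : MvPolynomial (GoodPrime N S) ℤ,
        χ (evS S e) ≠ 0 ∧ KillsOld N q (MvPolynomial.rename Subtype.val e)) :
    h5c_ESLatticeInv p N S 𝒪 χ := by
  have : Fact p.Prime := ⟨hp⟩
  obtain ⟨M, iM1, iM2, iM3, iM4, ρ, Θ, π, hcomm, hcont, hunr, hfrob, hlink, hπtors, hπker,
    hπgal, hπhecke⟩ := hTP hT hHG hES hTF
  let _ : Algebra ℤ_[p] 𝒪 := (Fermat.Agent.S30.CycCharAdic.padicLift p 𝒪 hp𝒪).toAlgebra
  have hp0 : (p : 𝒪) ≠ 0 := Nat.cast_ne_zero.mpr hp.ne_zero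
  let Θ' : MvPolynomial (GoodPrime N S) ℤ →+* Module.End ℤ_[p] M :=
    Θ.comp (MvPolynomial.rename Subtype.val : _ →ₐ[ℤ] MvPolynomial Nat.Primes ℤ).toRingHom
  let χ' : MvPolynomial (GoodPrime N S) ℤ →+* 𝒪 := χ.comp (evS S).toRingHom
  obtain ⟨Λ, iΛ1, iΛ2, iΛ3, iΛ4, iΛ5, ρΛ, -, h2, h3, h4⟩ :=
    h5c_subEigenLattice Θ' ρ (fun P g => hcomm _ g) hp𝒪 hp0 χ'
      (fun P k hP => key_congruence S hKey hpS Θ hlink χ P k hP)
  have hnd : ∀ q : ℕ, q.Prime → ¬ q ∣ N → q ≠ p → ¬ q ∣ N * p := by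
    intro q hq hqN hqp h
    rcases (Nat.Prime.dvd_mul hq).mp h with h4 | h4
    · exact hqN h4
    · exact hqp ((Nat.prime_dvd_prime_iff_eq hq hp).mp h4)
  refine ⟨Λ, iΛ1, iΛ2, iΛ3, iΛ4, iΛ5, ρΛ, ?_, ?_, ?_⟩
  · intro n
    obtain ⟨L, hL, hLσ⟩ := hcont n
    refine ⟨L, hL, fun σ hσ w => h2 σ n (fun v => ?_) w⟩
    exact Fermat.Agent.S30.PackageAdicAux.exists_eq_smul_of_mem n _ (hLσ σ hσ v)
  · intro ℓ hℓ hℓN hℓS A hA σ hσ
    have hℓp : ℓ ≠ p := fun h => hℓS (by rw [h]; exact Finset.mem_coe.mpr hpS)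
    have h4' := h3 σ (MvPolynomial.X ⟨⟨ℓ, hℓ⟩, hℓN, hℓS⟩) (ℓ : ℤ_[p]) (by
      have h5 := hfrob ℓ hℓ (hnd ℓ hℓ hℓN hℓp) A hA σ hσ
      have h6 : Θ' (MvPolynomial.X ⟨⟨ℓ, hℓ⟩, hℓN, hℓS⟩) = Θ (MvPolynomial.X ⟨ℓ, hℓ⟩) := by
        show Θ (MvPolynomial.rename Subtype.val (MvPolynomial.X _)) = _
        rw [MvPolynomial.rename_X]
      rw [h6]
      exact h5)
    have h7 : χ' (MvPolynomial.X ⟨⟨ℓ, hℓ⟩, hℓN, hℓS⟩) = χ (CuspForm.heckeAlgebra.T hℓ hℓN hℓS) := by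
      show χ (evS S (MvPolynomial.X _)) = _
      rw [evS_X]
      rfl
    rw [h7, map_natCast] at h4'
    exact h4'
  · -- no inertia invariants at the primes `q² ∥ N`
    intro q hq hqp hfac A hA w hw
    obtain ⟨e, he, hkillOld⟩ := hOld q hq hqp hfac
    have hvars : ∀ ℓ ∈ (MvPolynomial.rename Subtype.val e : MvPolynomial Nat.Primes ℤ).vars,
        ¬ (ℓ : ℕ) ∣ N * p := by
      classical
      intro ℓ hℓ
      have h2' := MvPolynomial.vars_rename _ _ hℓ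
      obtain ⟨i, -, rfl⟩ := Finset.mem_image.mp h2'
      have := not_dvd_of_good S hpS i 1
      rwa [pow_one] at this
    obtain ⟨tt, htt, hkill⟩ := hInv q hq hqp hfac A hA _ hvars hkillOld
    refine h4 (↑(A.inertiaSubgroupIn ℚ) : Set GQ) e he (fun v hv => ?_) w hw
    have ht0 : (tt : ℤ_[p]) • Θ' e v = 0 := by
      refine Fermat.Agent.S35.h5r_eq_zero_of_forall_dvd (p := p) _ fun k => ?_
      refine hπker k _ ?_
      rw [Nat.cast_smul_eq_nsmul, map_nsmul]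
      letI := ModularCurve.heckeModuleBar N
      have h5 : π k (Θ' e v) = (MvPolynomial.rename Subtype.val e : MvPolynomial Nat.Primes ℤ)
          • π k v := hπhecke _ k v
      rw [h5]
      refine hkill k (π k v) (hπtors k v) fun σ hσ => ?_
      rw [← hπgal, hv σ hσ]
    exact (smul_eq_zero.mp ht0).resolve_left (Nat.cast_ne_zero.mpr htt.ne')

/-- **ALG36-PKG.** -/
theorem h5c_esLatticeInv (N p : ℕ) [NeZero N]
    (hp : p.Prime) (hHG : HeckeGaloisCommute N) (hES : EichlerShimuraTorsion N p)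
    (hTF : ∀ k : ℕ, TorsionFiniteLevel N (p ^ k)) (hKey : ∀ k : ℕ, HeckeKeyInt N (p ^ k))
    (hInv : InertiaNewStatement N p)
    (S : Finset ℕ) (hpS : p ∈ S) (hNS : ∀ q : ℕ, q.Prime → q ∣ N → q ∈ S)
    (𝒪 : Type) [CommRing 𝒪] [IsDomain 𝒪] [IsDiscreteValuationRing 𝒪]
    [IsAdicComplete (IsLocalRing.maximalIdeal 𝒪) 𝒪] [CharZero 𝒪]
    (hp𝒪 : (p : 𝒪) ∈ IsLocalRing.maximalIdeal 𝒪)
    (χ : CuspForm.heckeAlgebra N 2 (↑S : Set ℕ) →+* 𝒪)
    (hOld : ∀ q : ℕ, q.Prime → q ≠ p → N.factorization q = 2 →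
      ∃ e : MvPolynomial (GoodPrime N S) ℤ,
        χ (evS S e) ≠ 0 ∧ KillsOld N q (MvPolynomial.rename Subtype.val e)) :
    h5c_ESLatticeInv p N S 𝒪 χ :=
  h5c_esLatticeInv_of_tatePackageFull N p Fermat.Agent.S30.tate
    (fun {_} => Fermat.Agent.S34.tatePackageFull N p) hp hHG hES hTF hKey hInv S hpS hNS 𝒪 hp𝒪 χ
    hOld

end Fermat.Agent.S36
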