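import Fermat.Agent.S30.EigenLattice
import Fermat.Agent.S36.H5AlgSkeleton

/-!
# S36, ALG36-SUB: the sub-eigenlattice

helper5.  Mathlib only (through `S30/EigenLattice.lean`).

`M` a finite free `ℤ_[p]`-module with commuting actions `ρ` of a group `G` and `Θ` of a
polynomial ring, `M* = Hom(M, ℤ_[p])` with the transposed actions.  The sub-eigenlattice is
`Λ' = eigenFun Θ* χ = {φ : M* →ₗ 𝒪 | φ ∘ (Θ P)* = χ P • φ}` (the `χ`-eigenvectors of
`M ⊗ 𝒪 = Hom(M*, 𝒪)`), with `g • φ = φ ∘ (ρ g)*`.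

* `h5c_subEigenLattice : SubEigenLatticeStatement`.
-/

set_option autoImplicit false

namespace Fermat.Agent.S36

open Fermat.Agent.S30.EigenLattice

section Defs

variable {p : ℕ} [Fact p.Prime] {M : Type} [AddCommGroup M] [Module ℤ_[p] M]
  {ι : Type} (Θ : MvPolynomial ι ℤ →+* Module.End ℤ_[p] M)
  {𝒪 : Type} [CommRing 𝒪] [Algebra ℤ_[p] 𝒪] (χ : MvPolynomial ι ℤ →+* 𝒪)
  {G : Type} [Group G] (ρ : G →* Module.End ℤ_[p] M)

/-- the transposed Hecke action on the dual module -/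
noncomputable def h5c_thetaDual :
    MvPolynomial ι ℤ →+* Module.End ℤ_[p] (Module.Dual ℤ_[p] M) where
  toFun P := (Θ P).dualMap
  map_one' := by
    refine LinearMap.ext fun ξ => LinearMap.ext fun v => ?_
    rw [LinearMap.dualMap_apply, map_one]
    rfl
  map_mul' P Q := by
    refine LinearMap.ext fun ξ => LinearMap.ext fun v => ?_
    have h : Θ (P * Q) = Θ Q * Θ P := by rw [← map_mul, mul_comm]
    rw [LinearMap.dualMap_apply, h]
    rfl
  map_zero' := by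
    refine LinearMap.ext fun ξ => LinearMap.ext fun v => ?_
    rw [LinearMap.dualMap_apply, map_zero]
    simp
  map_add' P Q := by
    refine LinearMap.ext fun ξ => LinearMap.ext fun v => ?_
    rw [LinearMap.dualMap_apply, map_add]
    simp

theorem h5c_thetaDual_apply (P : MvPolynomial ι ℤ) (ξ : Module.Dual ℤ_[p] M) (v : M) :
    h5c_thetaDual Θ P ξ v = ξ (Θ P v) := rfl

variable {Θ} {ρ}

/-- the action of `g` on the sub-eigenlattice: `φ ↦ φ ∘ (ρ g)*` -/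
noncomputable def h5c_subTrans (hcomm : ∀ (P : MvPolynomial ι ℤ) (g : G), Commute (Θ P) (ρ g))
    (g : G) : eigenFun (h5c_thetaDual Θ) χ →ₗ[𝒪] eigenFun (h5c_thetaDual Θ) χ where
  toFun φ := ⟨φ.1.comp (ρ g).dualMap, fun P ξ => by
    show φ.1 ((ρ g).dualMap (h5c_thetaDual Θ P ξ)) = χ P * φ.1 ((ρ g).dualMap ξ)
    have h : (ρ g).dualMap (h5c_thetaDual Θ P ξ) = h5c_thetaDual Θ P ((ρ g).dualMap ξ) := by
      refine LinearMap.ext fun v => ?_
      show ξ (Θ P (ρ g v)) = ξ (ρ g (Θ P v))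
      exact congrArg ξ (LinearMap.congr_fun (hcomm P g).eq v)
    rw [h]
    exact φ.2 P _⟩
  map_add' φ ψ := rfl
  map_smul' c φ := rfl

@[simp] theorem h5c_subTrans_apply
    (hcomm : ∀ (P : MvPolynomial ι ℤ) (g : G), Commute (Θ P) (ρ g)) (g : G)
    (φ : eigenFun (h5c_thetaDual Θ) χ) (ξ : Module.Dual ℤ_[p] M) :
    (h5c_subTrans χ hcomm g φ : Module.Dual ℤ_[p] M →ₗ[ℤ_[p]] 𝒪) ξ
      = (φ : Module.Dual ℤ_[p] M →ₗ[ℤ_[p]] 𝒪) (ξ.comp (ρ g)) := rfl

/-- the representation on the sub-eigenlattice -/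
noncomputable def h5c_subRho (hcomm : ∀ (P : MvPolynomial ι ℤ) (g : G), Commute (Θ P) (ρ g)) :
    G →* Module.End 𝒪 (eigenFun (h5c_thetaDual Θ) χ) where
  toFun g := h5c_subTrans χ hcomm g
  map_one' := by
    refine LinearMap.ext fun φ => Subtype.ext (LinearMap.ext fun ξ => ?_)
    show φ.1 (ξ.comp (ρ 1)) = φ.1 ξ
    rw [map_one]
    rfl
  map_mul' a b := by
    refine LinearMap.ext fun φ => Subtype.ext (LinearMap.ext fun ξ => ?_)
    show φ.1 (ξ.comp (ρ (a * b))) = φ.1 ((ξ.comp (ρ a)).comp (ρ b))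
    rw [map_mul]
    rfl

theorem h5c_subRho_apply (hcomm : ∀ (P : MvPolynomial ι ℤ) (g : G), Commute (Θ P) (ρ g))
    (g : G) (φ : eigenFun (h5c_thetaDual Θ) χ) (ξ : Module.Dual ℤ_[p] M) :
    (h5c_subRho χ hcomm g φ : Module.Dual ℤ_[p] M →ₗ[ℤ_[p]] 𝒪) ξ
      = (φ : Module.Dual ℤ_[p] M →ₗ[ℤ_[p]] 𝒪) (ξ.comp (ρ g)) := rfl

/-- elements acting trivially on `M` act trivially on the sub-eigenlattice -/
theorem h5c_subRho_eq_one (hcomm : ∀ (P : MvPolynomial ι ℤ) (g : G), Commute (Θ P) (ρ g))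
    (g : G) (hg : ρ g = 1) : h5c_subRho χ hcomm g = 1 := by
  refine LinearMap.ext fun φ => Subtype.ext (LinearMap.ext fun ξ => ?_)
  show φ.1 (ξ.comp (ρ g)) = φ.1 ξ
  rw [hg]
  rfl

/-- quadratic relations on `M` transfer to the sub-eigenlattice (applied form) -/
theorem h5c_sub_quadratic (hcomm : ∀ (P : MvPolynomial ι ℤ) (g : G), Commute (Θ P) (ρ g))
    (g : G) (P : MvPolynomial ι ℤ) (c : ℤ_[p])
    (h : ρ g * ρ g - Θ P * ρ g + c • (1 : Module.End ℤ_[p] M) = 0)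
    (φ : eigenFun (h5c_thetaDual Θ) χ) (ξ : Module.Dual ℤ_[p] M) :
    φ.1 ((ξ.comp (ρ g)).comp (ρ g)) - χ P * φ.1 (ξ.comp (ρ g))
      + (algebraMap ℤ_[p] 𝒪 c) * φ.1 ξ = 0 := by
  have h1 : χ P * φ.1 (ξ.comp (ρ g)) = φ.1 (h5c_thetaDual Θ P (ξ.comp (ρ g))) :=
    (φ.2 P (ξ.comp (ρ g))).symm
  have h2 : (algebraMap ℤ_[p] 𝒪 c) * φ.1 ξ = φ.1 (c • ξ) := by
    rw [map_smul, Algebra.smul_def]
  rw [h1, h2, ← map_sub, ← map_add]
  have h3 : (ξ.comp (ρ g)).comp (ρ g) - h5c_thetaDual Θ P (ξ.comp (ρ g)) + c • ξ = 0 := by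
    refine LinearMap.ext fun v => ?_
    show ξ (ρ g (ρ g v)) - ξ (ρ g (Θ P v)) + c • ξ v = 0
    have h4 := LinearMap.congr_fun h v
    simp only [LinearMap.add_apply, LinearMap.sub_apply, Module.End.mul_apply,
      LinearMap.smul_apply, Module.End.one_apply, LinearMap.zero_apply] at h4
    have h5 : Θ P (ρ g v) = ρ g (Θ P v) := LinearMap.congr_fun (hcomm P g).eq v
    rw [h5] at h4
    have h6 := congrArg ξ h4
    rw [map_add, map_sub, map_smul, map_zero] at h6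
    exact h6
  rw [h3, map_zero]

/-- if a Hecke operator `Θ E` with `χ E ≠ 0` kills the vectors of `M` fixed by `I`, then the
sub-eigenlattice has no nonzero vector fixed by `I` -/
theorem h5c_subRho_fixed_eq_zero [Module.Free ℤ_[p] M] [Module.Finite ℤ_[p] M] [IsDomain 𝒪]
    [Module.IsTorsionFree ℤ_[p] 𝒪]
    (hcomm : ∀ (P : MvPolynomial ι ℤ) (g : G), Commute (Θ P) (ρ g))
    (I : Set G) (E : MvPolynomial ι ℤ) (hE : χ E ≠ 0)
    (hkill : ∀ v : M, (∀ g ∈ I, ρ g v = v) → Θ E v = 0)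
    (φ : eigenFun (h5c_thetaDual Θ) χ) (hφ : ∀ g ∈ I, h5c_subRho χ hcomm g φ = φ) : φ = 0 := by
  classical
  -- the range of `φ` is a finite free `ℤ_[p]`-module
  let R : Submodule ℤ_[p] 𝒪 := LinearMap.range φ.1
  have hRfin : Module.Finite ℤ_[p] R := inferInstance
  have hRtf : Module.IsTorsionFree ℤ_[p] R := inferInstance
  have hRfree : Module.Free ℤ_[p] R := Module.free_of_finite_type_torsion_free'
  let ω := Module.Free.chooseBasis ℤ_[p] R
  let φR : Module.Dual ℤ_[p] M →ₗ[ℤ_[p]] R := φ.1.rangeRestrict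
  -- the coordinates of `φ` are evaluations at vectors of `M`
  have hx : ∀ j, ∃ x : M, ∀ ξ : Module.Dual ℤ_[p] M, ω.coord j (φR ξ) = ξ x := by
    intro j
    refine ⟨(Module.evalEquiv ℤ_[p] M).symm ((ω.coord j).comp φR), fun ξ => ?_⟩
    have := LinearMap.congr_fun
      ((Module.evalEquiv ℤ_[p] M).apply_symm_apply ((ω.coord j).comp φR)) ξ
    rw [Module.evalEquiv_apply] at this
    exact this.symm
  choose x hx using hx
  -- the vectors `x j` are fixed by `I`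
  have hfix : ∀ j, ∀ g ∈ I, ρ g (x j) = x j := by
    intro j g hg
    rw [← sub_eq_zero]
    refine (Module.forall_dual_apply_eq_zero_iff ℤ_[p] _).mp fun ξ => ?_
    rw [map_sub, sub_eq_zero]
    have h1 : (h5c_subRho χ hcomm g φ).1 ξ = φ.1 ξ := by rw [hφ g hg]
    have h2 : φR (ξ.comp (ρ g)) = φR ξ := Subtype.ext h1
    have h3 := congrArg (ω.coord j) h2
    rw [hx, hx] at h3
    exact h3
  -- hence `φ ∘ (Θ E)* = 0`
  have hzero : ∀ ξ : Module.Dual ℤ_[p] M, φR (h5c_thetaDual Θ E ξ) = 0 := by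
    intro ξ
    refine ω.ext_elem fun j => ?_
    have h1 := hx j (h5c_thetaDual Θ E ξ)
    rw [h5c_thetaDual_apply, hkill (x j) (hfix j), map_zero] at h1
    rw [map_zero, Finsupp.zero_apply]
    exact h1
  refine Subtype.ext (LinearMap.ext fun ξ => ?_)
  have h1 : χ E * φ.1 ξ = 0 := by
    rw [← φ.2 E ξ]
    exact congrArg Subtype.val (hzero ξ)
  rcases mul_eq_zero.mp h1 with h | h
  · exact absurd h hE
  · exact h

/-- the key congruence for the transposed action -/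
theorem h5c_key_dual [Module.Free ℤ_[p] M] [Module.Finite ℤ_[p] M]
    (P : MvPolynomial ι ℤ) (k : ℕ)
    (h : ∀ ξ : Module.Dual ℤ_[p] M, ∃ η : Module.Dual ℤ_[p] M,
      h5c_thetaDual Θ P ξ = ((p : ℤ_[p]) ^ k) • η) :
    ∀ v : M, ∃ w : M, Θ P v = ((p : ℤ_[p]) ^ k) • w := by
  classical
  let b := Module.Free.chooseBasis ℤ_[p] M
  choose η hη using h
  intro v
  refine ⟨∑ i, (η (b.coord i) v) • b i, ?_⟩
  rw [Finset.smul_sum]
  conv_lhs => rw [← b.sum_repr (Θ P v)]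
  refine Finset.sum_congr rfl fun i _ => ?_
  have h1 : b.repr (Θ P v) i = ((p : ℤ_[p]) ^ k) * η (b.coord i) v := by
    have h2 := LinearMap.congr_fun (hη (b.coord i)) v
    rw [h5c_thetaDual_apply, LinearMap.smul_apply, smul_eq_mul] at h2
    rw [← h2]
    rfl
  rw [h1, mul_smul]

/-- elements acting trivially on `M` modulo `p ^ n` act trivially on the sub-eigenlattice
modulo `p ^ n` (applied form) -/
theorem h5c_sub_congr [Module.Free ℤ_[p] M] [IsDomain 𝒪]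
    (hcomm : ∀ (P : MvPolynomial ι ℤ) (g : G), Commute (Θ P) (ρ g))
    (g : G) (n : ℕ) (hg : ∀ v : M, ∃ v' : M, ρ g v - v = ((p : ℤ_[p]) ^ n) • v')
    (φ : eigenFun (h5c_thetaDual Θ) χ) :
    ∃ ψ : eigenFun (h5c_thetaDual Θ) χ, ∀ ξ : Module.Dual ℤ_[p] M,
      φ.1 (ξ.comp (ρ g)) - φ.1 ξ = (p : 𝒪) ^ n * ψ.1 ξ := by
  have hp0 : (p : ℤ_[p]) ≠ 0 := Nat.cast_ne_zero.mpr (Fact.out : p.Prime).ne_zero
  have hpn : ((p : ℤ_[p]) ^ n) ≠ 0 := pow_ne_zero n hp0
  have hinj : Function.Injective fun v : M => ((p : ℤ_[p]) ^ n) • v :=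
    smul_right_injective M hpn
  choose u hu using hg
  -- the divided difference as a linear map
  let U : M →ₗ[ℤ_[p]] M :=
    { toFun := u
      map_add' := fun v w => hinj (by
        show ((p : ℤ_[p]) ^ n) • u (v + w) = ((p : ℤ_[p]) ^ n) • (u v + u w)
        rw [smul_add, ← hu, ← hu, ← hu, map_add]
        abel)
      map_smul' := fun c v => hinj (by
        show ((p : ℤ_[p]) ^ n) • u (c • v) = ((p : ℤ_[p]) ^ n) • (c • u v)
        rw [smul_comm, ← hu, ← hu, map_smul, smul_sub]) }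
  have hU : ∀ v : M, ρ g v - v = ((p : ℤ_[p]) ^ n) • U v := hu
  have hUc : ∀ (P : MvPolynomial ι ℤ) (v : M), U (Θ P v) = Θ P (U v) := by
    intro P v
    apply hinj
    show ((p : ℤ_[p]) ^ n) • U (Θ P v) = ((p : ℤ_[p]) ^ n) • Θ P (U v)
    rw [← hU, ← map_smul, ← hU, map_sub]
    have h5 : Θ P (ρ g v) = ρ g (Θ P v) := LinearMap.congr_fun (hcomm P g).eq v
    rw [h5]
  refine ⟨⟨φ.1.comp U.dualMap, fun P ξ => ?_⟩, fun ξ => ?_⟩
  · show φ.1 (U.dualMap (h5c_thetaDual Θ P ξ)) = χ P * φ.1 (U.dualMap ξ)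
    have h : U.dualMap (h5c_thetaDual Θ P ξ) = h5c_thetaDual Θ P (U.dualMap ξ) := by
      refine LinearMap.ext fun v => ?_
      show ξ (Θ P (U v)) = ξ (U (Θ P v))
      rw [hUc]
    rw [h]
    exact φ.2 P _
  · show φ.1 (ξ.comp (ρ g)) - φ.1 ξ = (p : 𝒪) ^ n * φ.1 (U.dualMap ξ)
    have h : ξ.comp (ρ g) - ξ = ((p : ℤ_[p]) ^ n) • U.dualMap ξ := by
      refine LinearMap.ext fun v => ?_
      show ξ (ρ g v) - ξ v = ((p : ℤ_[p]) ^ n) • ξ (U v)
      rw [← map_sub, hU, map_smul]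
    rw [← map_sub, h, map_smul, Algebra.smul_def, map_pow, map_natCast]

end Defs

section Main

/-- the structure map of a `ℤ_[p]`-algebra which is a domain with `p ≠ 0` is injective -/
theorem h5c_algebraMap_injective {p : ℕ} [Fact p.Prime] {𝒪 : Type} [CommRing 𝒪] [IsDomain 𝒪]
    [Algebra ℤ_[p] 𝒪] (hp0 : (p : 𝒪) ≠ 0) : Function.Injective (algebraMap ℤ_[p] 𝒪) := by
  rw [injective_iff_map_eq_zero]
  intro a ha
  by_contra ha0
  obtain ⟨n, u, rfl⟩ : ∃ (n : ℕ) (u : ℤ_[p]ˣ), a = (u : ℤ_[p]) * (p : ℤ_[p]) ^ n :=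
    PadicInt.unitCoeff_spec ha0 ▸ ⟨_, _, rfl⟩
  rw [map_mul, map_pow, map_natCast] at ha
  rcases mul_eq_zero.mp ha with h | h
  · exact (IsUnit.map (algebraMap ℤ_[p] 𝒪) u.isUnit).ne_zero h
  · exact hp0 (pow_eq_zero_iff (fun h0 => by
      rw [h0, pow_zero] at h
      exact one_ne_zero h) |>.mp h)

/-- **ALG36-SUB.** -/
theorem h5c_subEigenLattice : SubEigenLatticeStatement := by
  intro p _ M _ _ _ _ ι Θ G _ ρ hcomm 𝒪 _ _ _ _ hp hp0 χ key
  classical
  have htfO : Module.IsTorsionFree ℤ_[p] 𝒪 :=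
    Module.isTorsionFree_iff_algebraMap_injective.mpr (h5c_algebraMap_injective hp0)
  obtain ⟨f₀, hf₀, hf₀'⟩ := exists_eigen_linear (h5c_thetaDual Θ) χ
    (fun P k h => key P k (h5c_key_dual P k h)) (eq_zero_of_forall_pow_dvd hp)
  have hNT : Nontrivial (eigenFun (h5c_thetaDual Θ) χ) :=
    ⟨⟨⟨f₀, hf₀'⟩, 0, fun h => hf₀ (congrArg Subtype.val h)⟩⟩
  have hfin : Module.Finite 𝒪 (eigenFun (h5c_thetaDual Θ) χ) := inferInstance
  have htf0 : Module.IsTorsionFree 𝒪 (Module.Dual ℤ_[p] M →ₗ[ℤ_[p]] 𝒪) := inferInstance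
  have htf : Module.IsTorsionFree 𝒪 (eigenFun (h5c_thetaDual Θ) χ) := inferInstance
  have hfree : Module.Free 𝒪 (eigenFun (h5c_thetaDual Θ) χ) :=
    Module.free_of_finite_type_torsion_free' (R := 𝒪) (M := eigenFun (h5c_thetaDual Θ) χ)
  refine ⟨eigenFun (h5c_thetaDual Θ) χ, inferInstance, inferInstance, hfree, hfin, hNT,
    h5c_subRho χ hcomm, ?_, ?_, ?_, ?_⟩
  · exact fun g hg => h5c_subRho_eq_one χ hcomm g hg
  · intro g n hg φ
    obtain ⟨ψ, hψ⟩ := h5c_sub_congr χ hcomm g n hg φ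
    have h1 : h5c_subRho χ hcomm g φ - φ = ((p : 𝒪) ^ n) • ψ := by
      refine Subtype.ext (LinearMap.ext fun ξ => ?_)
      exact hψ ξ
    rw [h1]
    exact Submodule.smul_mem_smul (Ideal.pow_mem_pow hp n) Submodule.mem_top
  · intro g P c h
    refine LinearMap.ext fun φ => Subtype.ext (LinearMap.ext fun ξ => ?_)
    exact h5c_sub_quadratic χ hcomm g P c h φ ξ
  · intro I E hE hkill φ hφ
    exact h5c_subRho_fixed_eq_zero χ hcomm I E hE hkill φ hφ

end Main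

end Fermat.Agent.S36
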