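import Fermat.Agent.S36.H60L1

/-!
# S36, block REG, leaf R-L1 (helper60): proof

`h60r_L1 : H60RedIso A (M q) j q → ∀ 𝔫₁ maximal ∋ q, H60L1At A M q 𝔫₁`, and
`h60r_L1_statement : (R-REDISO at all good levels) → H60L1Statement`.

The closed point `𝔫₁` of the special fibre of the chart over `A₀` is lifted to the closed point
`𝔫 = 𝔫₁ B + 𝔪_A B` of the chart over `A` (`H60L1Abs`); the landed local data at `𝔫`
(`h67u_unit_fin`, `h62x_smooth_inf`, `h62x_smooth_zero`) have rational parameters and are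
descended to `𝔫₁` by `h60r_descend`, `h60r_descend_mem`.
-/

set_option autoImplicit false
set_option linter.unusedSectionVars false
set_option linter.style.haveILetI false

open AlgebraicCurve ModularCurve IsLocalRing Polynomial

noncomputable section

namespace Fermat.Agent.S36

open Fermat.Agent.S37 Fermat.Agent.Red Fermat.Agent.Red.GG Fermat.Agent.Red.GV
  Fermat.Agent.Red.GV.Soft Fermat.Agent.Red.Kron Fermat.Agent.Red.KR Fermat.Agent.Red.ModelO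
  Fermat.Agent.LGC Fermat.Agent.S35

variable (A : ValuationSubring Kbar) (M : ℕ) {q : ℕ} [NeZero M] [NeZero q]

/-- `B = β Λ + P₀`. -/
theorem h60r_surj0 (hq : q.Prime) (hM : ¬ q ∣ M) (haux : auxLevel q ∣ M)
    (hA : A.LiesOverPrime q) (b : chart (M * q) A (jSS M q)) :
    ∃ x : chart M A (jB M), b - h62i_β A M hq hM hA x ∈ h62i_P0 A M hq hM hA := by
  obtain ⟨x, hx⟩ := h62d_surj A M hq hM haux hA (h62i_w A M hq hM hA b)
  refine ⟨x, ?_⟩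
  rw [h62i_mem_P0_iff_w, map_sub, h62i_w_β]
  exact hx

/-- `α u ≡ (β u)^q` modulo `P₀` for rational `u`. -/
theorem h60r_frob0 (hq : q.Prime) (hM : ¬ q ∣ M) (hA : A.LiesOverPrime q)
    (u : chart M A (jB M)) (hu : u ∈ h62i_R A M) :
    h62i_α A M q u - (h62i_β A M hq hM hA u) ^ q ∈ h62i_P0 A M hq hM hA := by
  rw [h62i_mem_P0_iff_w, map_sub, map_pow, h62i_w_α, h62i_w_β]
  exact h62d_frob A M hq hM hA u hu

/-- the Kronecker relation in the chart over `A`, in expanded form. -/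
theorem h60r_kron_expand (hq : q.Prime) (hM : ¬ q ∣ M) (hA : A.LiesOverPrime q)
    (u : chart M A (jB M)) (r : (chart M A (jB M))[X])
    (h : (h62n_poly q (u ^ q) u r).eval₂
      ((h62i_α A M q : chart M A (jB M) →ₐ[A] chart (M * q) A (jSS M q)) :
        chart M A (jB M) →+* chart (M * q) A (jSS M q))
      (h62i_β A M hq hM hA u) = 0) :
    (h62i_β A M hq hM hA u - (h62i_α A M q u) ^ q) *
        ((h62i_β A M hq hM hA u) ^ q - h62i_α A M q u) =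
      ((q : ℕ) : chart (M * q) A (jSS M q)) *
        (-(r.eval₂
          ((h62i_α A M q : chart M A (jB M) →ₐ[A] chart (M * q) A (jSS M q)) :
            chart M A (jB M) →+* chart (M * q) A (jSS M q))
          (h62i_β A M hq hM hA u))) := by
  unfold h62n_poly at h
  rw [Polynomial.eval₂_add, Polynomial.eval₂_mul, Polynomial.eval₂_mul, Polynomial.eval₂_sub,
    Polynomial.eval₂_sub, Polynomial.eval₂_X, Polynomial.eval₂_C, Polynomial.eval₂_C,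
    Polynomial.eval₂_pow, Polynomial.eval₂_X, Polynomial.eval₂_C] at h
  simp only [RingHom.coe_coe, map_pow, map_natCast] at h
  linear_combination h

section Main


/-- the node case. -/
theorem h60r_L1_node (hq : q.Prime) (hM : ¬ q ∣ M) (haux : auxLevel q ∣ M)
    (hA : A.LiesOverPrime q) (hiso : H60RedIso A (M * q) (jSS M q) q)
    (𝔫₁ : Ideal (h62rChart A (M * q) (jSS M q))) (h𝔫₁ : 𝔫₁.IsMaximal)
    (hq𝔫₁ : (q : h62rChart A (M * q) (jSS M q)) ∈ 𝔫₁)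
    (hPinf : h62i_Pinf A M hq hM hA ≤
      h60rLift (h60rIncl A (M * q) (jSS M q)) (mExt A M q (jSS M q)) 𝔫₁)
    (hP0 : h62i_P0 A M hq hM hA ≤
      h60rLift (h60rIncl A (M * q) (jSS M q)) (mExt A M q (jSS M q)) 𝔫₁) :
    ∃ (u : chart M A (jB M)) (hu : u ∈ h62i_R A M),
      H60L1Node 𝔫₁ q (h60rX A M u hu) (h60rY A M hq hM hA u hu) := by
  classical
  set ι := h60rIncl A (M * q) (jSS M q) with hι
  set 𝔪 := mExt A M q (jSS M q) with h𝔪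
  set 𝔫 := h60rLift ι 𝔪 𝔫₁ with h𝔫def
  have h𝔫 : 𝔫.IsMaximal := h60r_lift_isMaximal hiso.1 hiso.2 𝔫₁ hq𝔫₁ h𝔫₁
  haveI h𝔫p : 𝔫.IsPrime := h𝔫.isPrime
  haveI h𝔫₁p : 𝔫₁.IsPrime := h𝔫₁.isPrime
  obtain ⟨u, huR, hLPα, hLPβ, hX, hY, hunit⟩ :=
    h67u_unit_fin A M hq hM haux hA 𝔫 h𝔫 hPinf hP0
  obtain ⟨r, hrR, hrdeg, hkron⟩ := h62x_kron A M hq hM hA u huR
  have hρ𝔫 := hunit r hrdeg hkron
  have hrel := h60r_kron_expand A M hq hM hA u r hkron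
  set α' : chart M A (jB M) →+* chart (M * q) A (jSS M q) :=
    ((h62i_α A M q : chart M A (jB M) →ₐ[A] chart (M * q) A (jSS M q)) :
      chart M A (jB M) →+* chart (M * q) A (jSS M q)) with hα'
  -- `ρ` is fixed by Galois
  have hαfix : ∀ x ∈ h62i_R A M, α' x ∈ h62x_fixedB A M (ℓ := q) :=
    fun x hx => h62x_α_mem_fixedB (ℓ := q) A M x hx
  have hρfix : -(r.eval₂ α' (h62i_β A M hq hM hA u)) ∈ h62x_fixedB A M (ℓ := q) :=
    Subring.neg_mem (h62x_fixedB A M (ℓ := q))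
      (h62x_eval₂_mem α' (h62i_R A M) (h62x_fixedB A M (ℓ := q)) hαfix
        (h62i_β A M hq hM hA u) (h62x_β_mem_fixedB A M hq hM hA u huR) r hrR)
  obtain ⟨ρ₀, hρ₀⟩ := h60r_exists_incl A (M * q) (jSS M q)
    (-(r.eval₂ α' (h62i_β A M hq hM hA u))) (fun σ _ => hρfix σ)
  have hρ₀𝔫 : ρ₀ ∉ 𝔫₁ := by
    intro h
    have h1 : ι ρ₀ ∈ 𝔫 := h60r_map_mem_lift ι 𝔪 𝔫₁ h
    rw [hρ₀] at h1
    exact hρ𝔫 ((Ideal.neg_mem_iff 𝔫).mp h1)
  set X₀ := h60rX (q := q) A M u huR with hX₀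
  set Y₀ := h60rY A M hq hM hA u huR with hY₀
  have hιX : ι X₀ = h62i_α A M q u := rfl
  have hιY : ι Y₀ = h62i_β A M hq hM hA u := rfl
  have hX₀𝔫 : X₀ ∈ 𝔫₁ :=
    (h60r_mem_lift_iff hiso.1 hiso.2 𝔫₁ hq𝔫₁ X₀).mp (by rw [hιX]; exact hX)
  have hY₀𝔫 : Y₀ ∈ 𝔫₁ :=
    (h60r_mem_lift_iff hiso.1 hiso.2 𝔫₁ hq𝔫₁ Y₀).mp (by rw [hιY]; exact hY)
  -- the relation in the chart over `A₀`
  have hrel₀ : (Y₀ - X₀ ^ q) * (Y₀ ^ q - X₀) = (q : h62rChart A (M * q) (jSS M q)) * ρ₀ := by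
    apply h60r_incl_injective A (M * q) (jSS M q)
    rw [map_mul, map_mul, map_sub, map_sub, map_pow, map_pow, map_natCast]
    show (ι Y₀ - ι X₀ ^ q) * (ι Y₀ ^ q - ι X₀) = _ * ι ρ₀
    rw [hιX, hιY, hρ₀]
    exact hrel
  -- generation over `A`
  have hgenA : ∀ b ∈ 𝔫, ∃ s, s ∉ 𝔫 ∧
      s * b ∈ Ideal.span {h62i_α A M q u, h62i_β A M hq hM hA u} ⊔ 𝔪 :=
    h60r_gen_of_LP (h62i_α A M q) (h62i_β A M hq hM hA) 𝔫 (h62i_Pinf A M hq hM hA)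
      (h62i_P0 A M hq hM hA) hPinf hP0 (h62c_comp A M hq hM hA) (h62i_m_le_Pinf A M hq hM hA)
      (h62i_m_le_P0 A M hq hM hA) (h62d_surj A M hq hM haux hA)
      (h60r_surj0 A M hq hM haux hA) u q hq.two_le (h62d_frob A M hq hM hA u huR)
      (h60r_frob0 A M hq hM hA u huR) hLPα hLPβ
  have hmap : (Ideal.span {X₀, Y₀}).map ι =
      Ideal.span {h62i_α A M q u, h62i_β A M hq hM hA u} := by
    rw [Ideal.map_span, Set.image_pair, hιX, hιY]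
  have hgen₀ := h60r_descend hiso.1 hiso.2 𝔫₁ hq𝔫₁ (Ideal.span {X₀, Y₀})
    (fun z hz => by rw [hmap]; exact hgenA z hz)
  refine ⟨u, huR, hX₀𝔫, hY₀𝔫, ?_, ρ₀, hρ₀𝔫, hrel₀⟩
  intro z hz
  obtain ⟨s, hs, hsz⟩ := hgen₀ z hz
  obtain ⟨g, hg, c, hc, hsum⟩ := Submodule.mem_sup.mp hsz
  obtain ⟨c', rfl⟩ := Ideal.mem_span_singleton'.mp hc
  refine ⟨ρ₀ * s, fun h => (h𝔫₁p.mem_or_mem h).elim hρ₀𝔫 hs, ?_⟩
  have h1 : ρ₀ * s * z = ρ₀ * g + c' * ((Y₀ - X₀ ^ q) * (Y₀ ^ q - X₀)) := by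
    rw [hrel₀]
    have : ρ₀ * s * z = ρ₀ * (s * z) := by ring
    rw [this, ← hsum]
    ring
  rw [h1]
  have hXm : X₀ ∈ Ideal.span {X₀, Y₀} := Ideal.subset_span (by simp)
  have hYm : Y₀ ∈ Ideal.span {X₀, Y₀} := Ideal.subset_span (by simp)
  refine Ideal.add_mem _ (Ideal.mul_mem_left _ _ hg) (Ideal.mul_mem_left _ _ ?_)
  exact Ideal.mul_mem_right _ _
    (Ideal.sub_mem _ hYm (Ideal.pow_mem_of_mem _ hXm q hq.pos))

/-- the points on `C∞` only. -/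
theorem h60r_L1_inf (hq : q.Prime) (hM : ¬ q ∣ M) (haux : auxLevel q ∣ M)
    (hA : A.LiesOverPrime q) (hiso : H60RedIso A (M * q) (jSS M q) q)
    (𝔫₁ : Ideal (h62rChart A (M * q) (jSS M q))) (h𝔫₁ : 𝔫₁.IsMaximal)
    (hq𝔫₁ : (q : h62rChart A (M * q) (jSS M q)) ∈ 𝔫₁)
    (hPinf : h62i_Pinf A M hq hM hA ≤
      h60rLift (h60rIncl A (M * q) (jSS M q)) (mExt A M q (jSS M q)) 𝔫₁)
    (hP0 : ¬ h62i_P0 A M hq hM hA ≤
      h60rLift (h60rIncl A (M * q) (jSS M q)) (mExt A M q (jSS M q)) 𝔫₁) :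
    ∃ (u : chart M A (jB M)) (hu : u ∈ h62i_R A M),
      H60L1Inf 𝔫₁ q (h60rX A M u hu) (h60rY A M hq hM hA u hu) := by
  classical
  set ι := h60rIncl A (M * q) (jSS M q) with hι
  set 𝔪 := mExt A M q (jSS M q) with h𝔪
  set 𝔫 := h60rLift ι 𝔪 𝔫₁ with h𝔫def
  have h𝔫 : 𝔫.IsMaximal := h60r_lift_isMaximal hiso.1 hiso.2 𝔫₁ hq𝔫₁ h𝔫₁
  haveI h𝔫p : 𝔫.IsPrime := h𝔫.isPrime
  obtain ⟨u, hrat, hLP, -, hgenA⟩ := h62x_smooth_inf A M hq hM haux hA 𝔫 h𝔫 hPinf hP0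
  have huR : u ∈ h62i_R A M := (h62i_mem_R A M u).mpr hrat
  set X₀ := h60rX (q := q) A M u huR with hX₀
  set Y₀ := h60rY A M hq hM hA u huR with hY₀
  have hιX : ι X₀ = h62i_α A M q u := rfl
  have hιY : ι Y₀ = h62i_β A M hq hM hA u := rfl
  have hX₀𝔫 : X₀ ∈ 𝔫₁ :=
    (h60r_mem_lift_iff hiso.1 hiso.2 𝔫₁ hq𝔫₁ X₀).mp
      (by rw [hιX]; exact Ideal.mem_comap.mp hLP.1)
  have hmap : (Ideal.span {X₀}).map ι = Ideal.span {h62i_α A M q u} := by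
    rw [Ideal.map_span, Set.image_singleton, hιX]
  have hgen₀ := h60r_descend hiso.1 hiso.2 𝔫₁ hq𝔫₁ (Ideal.span {X₀})
    (fun z hz => by rw [hmap]; exact hgenA z hz)
  refine ⟨u, huR, hX₀𝔫, ?_, ?_⟩
  · intro z hz
    obtain ⟨s, hs, hsz⟩ := hgen₀ z hz
    refine ⟨s, hs, ?_⟩
    have hle : Ideal.span {X₀} ⊔ Ideal.span {(q : h62rChart A (M * q) (jSS M q))} ≤
        Ideal.span {(q : h62rChart A (M * q) (jSS M q)), X₀} := by
      refine sup_le ?_ ?_ <;> rw [Ideal.span_singleton_le_iff_mem] <;>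
        exact Ideal.subset_span (by simp)
    exact hle hsz
  · obtain ⟨p, hp0, hp𝔫⟩ := SetLike.not_le_iff_exists.mp hP0
    have hcomp : h62i_Pinf A M hq hM hA ⊓ h62i_P0 A M hq hM hA ≤ mExt A M q (jSS M q) :=
      h62c_comp A M hq hM hA
    have h1 : p * (h62i_β A M hq hM hA u - (h62i_α A M q u) ^ q) ∈ 𝔪 :=
      hcomp ⟨Ideal.mul_mem_left _ _ (h62d_frob A M hq hM hA u huR),
        Ideal.mul_mem_right _ _ hp0⟩
    refine h60r_descend_mem hiso.1 hiso.2 𝔫₁ hq𝔫₁ (Y₀ - X₀ ^ q) ⟨p, hp𝔫, ?_⟩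
    rw [map_sub, map_pow, hιX, hιY]
    exact h1

/-- the points on `C₀` only. -/
theorem h60r_L1_zero (hq : q.Prime) (hM : ¬ q ∣ M) (haux : auxLevel q ∣ M)
    (hA : A.LiesOverPrime q) (hiso : H60RedIso A (M * q) (jSS M q) q)
    (𝔫₁ : Ideal (h62rChart A (M * q) (jSS M q))) (h𝔫₁ : 𝔫₁.IsMaximal)
    (hq𝔫₁ : (q : h62rChart A (M * q) (jSS M q)) ∈ 𝔫₁)
    (hP0 : h62i_P0 A M hq hM hA ≤
      h60rLift (h60rIncl A (M * q) (jSS M q)) (mExt A M q (jSS M q)) 𝔫₁)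
    (hPinf : ¬ h62i_Pinf A M hq hM hA ≤
      h60rLift (h60rIncl A (M * q) (jSS M q)) (mExt A M q (jSS M q)) 𝔫₁) :
    ∃ (u : chart M A (jB M)) (hu : u ∈ h62i_R A M),
      H60L1Zero 𝔫₁ q (h60rX A M u hu) (h60rY A M hq hM hA u hu) := by
  classical
  set ι := h60rIncl A (M * q) (jSS M q) with hι
  set 𝔪 := mExt A M q (jSS M q) with h𝔪
  set 𝔫 := h60rLift ι 𝔪 𝔫₁ with h𝔫def
  have h𝔫 : 𝔫.IsMaximal := h60r_lift_isMaximal hiso.1 hiso.2 𝔫₁ hq𝔫₁ h𝔫₁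
  haveI h𝔫p : 𝔫.IsPrime := h𝔫.isPrime
  obtain ⟨u, hrat, hLP, -, hgenA⟩ := h62x_smooth_zero A M hq hM haux hA 𝔫 h𝔫 hP0 hPinf
  have huR : u ∈ h62i_R A M := (h62i_mem_R A M u).mpr hrat
  set X₀ := h60rX (q := q) A M u huR with hX₀
  set Y₀ := h60rY A M hq hM hA u huR with hY₀
  have hιX : ι X₀ = h62i_α A M q u := rfl
  have hιY : ι Y₀ = h62i_β A M hq hM hA u := rfl
  have hY₀𝔫 : Y₀ ∈ 𝔫₁ :=
    (h60r_mem_lift_iff hiso.1 hiso.2 𝔫₁ hq𝔫₁ Y₀).mp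
      (by rw [hιY]; exact Ideal.mem_comap.mp hLP.1)
  have hmap : (Ideal.span {Y₀}).map ι = Ideal.span {h62i_β A M hq hM hA u} := by
    rw [Ideal.map_span, Set.image_singleton, hιY]
  have hgen₀ := h60r_descend hiso.1 hiso.2 𝔫₁ hq𝔫₁ (Ideal.span {Y₀})
    (fun z hz => by rw [hmap]; exact hgenA z hz)
  refine ⟨u, huR, hY₀𝔫, ?_, ?_⟩
  · intro z hz
    obtain ⟨s, hs, hsz⟩ := hgen₀ z hz
    refine ⟨s, hs, ?_⟩
    have hle : Ideal.span {Y₀} ⊔ Ideal.span {(q : h62rChart A (M * q) (jSS M q))} ≤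
        Ideal.span {(q : h62rChart A (M * q) (jSS M q)), Y₀} := by
      refine sup_le ?_ ?_ <;> rw [Ideal.span_singleton_le_iff_mem] <;>
        exact Ideal.subset_span (by simp)
    exact hle hsz
  · obtain ⟨p, hpinf, hp𝔫⟩ := SetLike.not_le_iff_exists.mp hPinf
    have hcomp : h62i_Pinf A M hq hM hA ⊓ h62i_P0 A M hq hM hA ≤ mExt A M q (jSS M q) :=
      h62c_comp A M hq hM hA
    have h1 : p * (h62i_α A M q u - (h62i_β A M hq hM hA u) ^ q) ∈ 𝔪 :=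
      hcomp ⟨Ideal.mul_mem_right _ _ hpinf,
        Ideal.mul_mem_left _ _ (h60r_frob0 A M hq hM hA u huR)⟩
    refine h60r_descend_mem hiso.1 hiso.2 𝔫₁ hq𝔫₁ (X₀ - Y₀ ^ q) ⟨p, hp𝔫, ?_⟩
    rw [map_sub, map_pow, hιX, hιY]
    exact h1

/-- **R-L1** at a good level, from R-REDISO. -/
theorem h60r_L1 (hq : q.Prime) (hM : ¬ q ∣ M) (haux : auxLevel q ∣ M)
    (hA : A.LiesOverPrime q) (hiso : H60RedIso A (M * q) (jSS M q) q)
    (𝔫₁ : Ideal (h62rChart A (M * q) (jSS M q))) (h𝔫₁ : 𝔫₁.IsMaximal)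
    (hq𝔫₁ : (q : h62rChart A (M * q) (jSS M q)) ∈ 𝔫₁) :
    H60L1At A M q 𝔫₁ := by
  classical
  have h𝔫 : (h60rLift (h60rIncl A (M * q) (jSS M q)) (mExt A M q (jSS M q)) 𝔫₁).IsMaximal :=
    h60r_lift_isMaximal hiso.1 hiso.2 𝔫₁ hq𝔫₁ h𝔫₁
  have hm : mExt A M q (jSS M q) ≤
      h60rLift (h60rIncl A (M * q) (jSS M q)) (mExt A M q (jSS M q)) 𝔫₁ :=
    h60r_le_lift _ _ 𝔫₁
  by_cases hPinf : h62i_Pinf A M hq hM hA ≤
      h60rLift (h60rIncl A (M * q) (jSS M q)) (mExt A M q (jSS M q)) 𝔫₁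
  · by_cases hP0 : h62i_P0 A M hq hM hA ≤
        h60rLift (h60rIncl A (M * q) (jSS M q)) (mExt A M q (jSS M q)) 𝔫₁
    · obtain ⟨u, hu, h⟩ := h60r_L1_node A M hq hM haux hA hiso 𝔫₁ h𝔫₁ hq𝔫₁ hPinf hP0
      exact ⟨(u : FF M), (h62i_mem_R A M u).mp hu, u.2, _, _, rfl, rfl, Or.inl h⟩
    · obtain ⟨u, hu, h⟩ := h60r_L1_inf A M hq hM haux hA hiso 𝔫₁ h𝔫₁ hq𝔫₁ hPinf hP0
      exact ⟨(u : FF M), (h62i_mem_R A M u).mp hu, u.2, _, _, rfl, rfl, Or.inr (Or.inl h)⟩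
  · have hP0 := (h62x_dichotomy A M hq hM hA _ h𝔫 hm).resolve_left hPinf
    obtain ⟨u, hu, h⟩ := h60r_L1_zero A M hq hM haux hA hiso 𝔫₁ h𝔫₁ hq𝔫₁ hP0 hPinf
    exact ⟨(u : FF M), (h62i_mem_R A M u).mp hu, u.2, _, _, rfl, rfl, Or.inr (Or.inr h)⟩

end Main

/-- **R-L1** from R-REDISO at the good levels. -/
theorem h60r_L1_statement
    (hiso : ∀ (q : ℕ) (hq : q.Prime) (M : ℕ) [NeZero M], ¬ q ∣ M → auxLevel q ∣ M →
      haveI : NeZero q := ⟨hq.ne_zero⟩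
      ∀ A : ValuationSubring Kbar, A.LiesOverPrime q → H60RedIso A (M * q) (jSS M q) q) :
    H60L1Statement := by
  intro q hq M _ hM haux A hA 𝔫₁ h𝔫₁ hq𝔫₁
  haveI : NeZero q := ⟨hq.ne_zero⟩
  exact h60r_L1 A M hq hM haux hA (hiso q hq M hM haux A hA) 𝔫₁ h𝔫₁ hq𝔫₁

end Fermat.Agent.S36
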