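import Fermat.Agent.S36.H80OrdIface
import Fermat.Agent.S36.H60L1Final

/-!
# S36, block REG, row R-ORD-X (helper60): `H80OrdExcl`

`h60x_ordExcl : H80OrdExcl` (the frozen Prop of `S36/H80OrdIface.lean`, unconditional): a closed
point `𝔫₂ ∋ q` of the finite chart of level `M q²` over `A₀` whose contraction along `α₂` carries
a `H62InfDatum` does not lie over a node along `β₂`.

Proof (formal).  Let `𝔫₁ = α₂⁻¹ 𝔫₂`, `𝔫₁' = β₂⁻¹ 𝔫₂`, `(u, ρ')` the node datum at `𝔫₁'`,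
`r` the rational Kronecker remainder of `u`, `r₀ = r(0)`.  Then `ρ' = α r₀ + β u · g`
(`h60x_kron_split`).  As `α₂ β = β₂ α`: `β u ∈ 𝔫₁`, hence `α u ∈ 𝔫₁` (Frobenius congruence),
hence `ρ' ∈ 𝔫₁` (Kronecker relation and Frobenius congruence), hence `α r₀ ∈ 𝔫₁`, hence
`β r₀ ∈ 𝔫₁` (Frobenius congruence for `r₀`), hence `α r₀ ∈ 𝔫₁'`, hence `ρ' ∈ 𝔫₁'`.
-/

set_option autoImplicit false
set_option linter.unusedSectionVars false
set_option linter.style.haveILetI false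

open AlgebraicCurve ModularCurve IsLocalRing Polynomial

noncomputable section

namespace Fermat.Agent.S36

open Fermat.Agent.S37 Fermat.Agent.Red Fermat.Agent.Red.GG Fermat.Agent.Red.GV
  Fermat.Agent.Red.GV.Soft Fermat.Agent.Red.Kron Fermat.Agent.Red.KR Fermat.Agent.Red.ModelO
  Fermat.Agent.LGC Fermat.Agent.S35

/-! ## The abstract argument -/

section Abs

variable {Λ₀ B₁ B₂ : Type*} [CommRing Λ₀] [CommRing B₁] [IsDomain B₁] [CommRing B₂]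

/-- **R-ORD-X, abstract form.** -/
theorem h60x_excl_abs (α₀ β₀ : Λ₀ →+* B₁) (a2 b2 : B₁ →+* B₂)
    (hcomm : ∀ x, a2 (β₀ x) = b2 (α₀ x))
    (𝔫₂ : Ideal B₂) [h𝔫₂ : 𝔫₂.IsPrime] (q : ℕ) (hq : 0 < q) (hq0 : (q : B₁) ≠ 0)
    (hq𝔫₂ : (q : B₂) ∈ 𝔫₂)
    (u r₀ : Λ₀) (g ρ : B₁)
    (hsplit : (β₀ u - α₀ u ^ q) * (β₀ u ^ q - α₀ u) + (q : B₁) * (α₀ r₀ + β₀ u * g) = 0)
    (hrel : (β₀ u - α₀ u ^ q) * (β₀ u ^ q - α₀ u) + (q : B₁) * ρ = 0)
    (hfrob_u : ∃ s, s ∉ 𝔫₂.comap a2 ∧ s * (β₀ u - α₀ u ^ q) ∈ Ideal.span {(q : B₁)})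
    (hfrob_r : ∃ s, s ∉ 𝔫₂.comap a2 ∧ s * (β₀ r₀ - α₀ r₀ ^ q) ∈ Ideal.span {(q : B₁)})
    (hX : α₀ u ∈ 𝔫₂.comap b2) (hY : β₀ u ∈ 𝔫₂.comap b2) (hρ : ρ ∉ 𝔫₂.comap b2) : False := by
  haveI h1p : (𝔫₂.comap a2).IsPrime := Ideal.comap_isPrime _ _
  have hq1 : (q : B₁) ∈ 𝔫₂.comap a2 := by
    rw [Ideal.mem_comap, map_natCast]
    exact hq𝔫₂
  have hspan : Ideal.span {(q : B₁)} ≤ 𝔫₂.comap a2 :=
    (Ideal.span_singleton_le_iff_mem _).mpr hq1
  -- `ρ = α r₀ + β u g`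
  have hρeq : ρ = α₀ r₀ + β₀ u * g := by
    have h1 : (q : B₁) * (ρ - (α₀ r₀ + β₀ u * g)) = 0 := by
      linear_combination hrel - hsplit
    exact sub_eq_zero.mp ((mul_eq_zero.mp h1).resolve_left hq0)
  -- `β u ∈ 𝔫₁`
  have hβu : β₀ u ∈ 𝔫₂.comap a2 := by
    rw [Ideal.mem_comap, hcomm]
    exact Ideal.mem_comap.mp hX
  -- `α u ∈ 𝔫₁`
  obtain ⟨s, hs, hsz⟩ := hfrob_u
  have h2 : β₀ u - α₀ u ^ q ∈ 𝔫₂.comap a2 :=
    (h1p.mem_or_mem (hspan hsz)).resolve_left hs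
  have hαu : α₀ u ∈ 𝔫₂.comap a2 := by
    have h3 : α₀ u ^ q ∈ 𝔫₂.comap a2 := by
      have := (𝔫₂.comap a2).sub_mem hβu h2
      simpa using this
    exact h1p.mem_of_pow_mem q h3
  -- `ρ ∈ 𝔫₁`
  obtain ⟨c, hc⟩ := Ideal.mem_span_singleton'.mp hsz
  have hρ1 : ρ ∈ 𝔫₂.comap a2 := by
    have h3 : (q : B₁) * (s * ρ + c * (β₀ u ^ q - α₀ u)) = 0 := by
      linear_combination s * hrel + (β₀ u ^ q - α₀ u) * hc
    have h4 := (mul_eq_zero.mp h3).resolve_left hq0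
    have h5 : s * ρ ∈ 𝔫₂.comap a2 := by
      rw [eq_neg_of_add_eq_zero_left h4]
      exact (Ideal.neg_mem_iff _).mpr (Ideal.mul_mem_left _ _
        (Ideal.sub_mem _ (Ideal.pow_mem_of_mem _ hβu q hq) hαu))
    exact (h1p.mem_or_mem h5).resolve_left hs
  -- `α r₀ ∈ 𝔫₁`
  have hαr : α₀ r₀ ∈ 𝔫₂.comap a2 := by
    have h3 : α₀ r₀ = ρ - β₀ u * g := by rw [hρeq]; ring
    rw [h3]
    exact Ideal.sub_mem _ hρ1 (Ideal.mul_mem_right _ _ hβu)
  -- `β r₀ ∈ 𝔫₁`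
  obtain ⟨s', hs', hsz'⟩ := hfrob_r
  have h6 : β₀ r₀ - α₀ r₀ ^ q ∈ 𝔫₂.comap a2 :=
    (h1p.mem_or_mem (hspan hsz')).resolve_left hs'
  have hβr : β₀ r₀ ∈ 𝔫₂.comap a2 := by
    have := (𝔫₂.comap a2).add_mem h6 (Ideal.pow_mem_of_mem _ hαr q hq)
    simpa using this
  -- `α r₀ ∈ 𝔫₁'`
  have hαr' : α₀ r₀ ∈ 𝔫₂.comap b2 := by
    rw [Ideal.mem_comap, ← hcomm]
    exact Ideal.mem_comap.mp hβr
  apply hρ
  rw [hρeq]
  exact Ideal.add_mem _ hαr' (Ideal.mul_mem_right _ _ hY)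

end Abs

variable (A : ValuationSubring Kbar) (M : ℕ) {q : ℕ} [NeZero M] [NeZero q]

/-! ## The Kronecker unit modulo `β u` -/

theorem h60x_incl_alpha (x : h62rChart A M (jB M)) :
    h60rIncl A (M * q) (jSS M q) (h62rAlpha A M x) = h62i_α A M q (h62rIncl A M (jB M) x) :=
  rfl

theorem h60x_incl_beta (hq : q.Prime) (hM : ¬ q ∣ M) (hA : A.LiesOverPrime q)
    (x : h62rChart A M (jB M)) :
    h60rIncl A (M * q) (jSS M q) (h62rBeta A M hq hM hA x) =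
      h62i_β A M hq hM hA (h62rIncl A M (jB M) x) :=
  rfl

/-- the Kronecker relation of a rational `u`, with the Kronecker unit written as
`α r₀ + β u · g`, `r₀` rational. -/
theorem h60x_kron_split (hq : q.Prime) (hM : ¬ q ∣ M) (hA : A.LiesOverPrime q)
    (u : h62rChart A M (jB M)) (hu : IsRat (u : FF M)) :
    ∃ r₀ : h62rChart A M (jB M), IsRat (r₀ : FF M) ∧
      ∃ g : h62rChart A (M * q) (jSS M q),
        (h62rBeta A M hq hM hA u - h62rAlpha A M u ^ q) *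
            (h62rBeta A M hq hM hA u ^ q - h62rAlpha A M u)
          + (q : h62rChart A (M * q) (jSS M q)) *
            (h62rAlpha A M r₀ + h62rBeta A M hq hM hA u * g) = 0 := by
  classical
  have huR : h62rIncl A M (jB M) u ∈ h62i_R A M := h60r_incl_mem_R A M u hu
  obtain ⟨r, hrR, hrdeg, hkron⟩ := h62x_kron A M hq hM hA (h62rIncl A M (jB M) u) huR
  have hrel := h60r_kron_expand A M hq hM hA (h62rIncl A M (jB M) u) r hkron
  have hr0 : IsRat ((r.coeff 0 : chart M A (jB M)) : FF M) :=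
    (h62i_mem_R A M (r.coeff 0)).mp (hrR 0)
  -- the quotient of the Kronecker unit by `β u`
  have hαfix : ∀ x ∈ h62i_R A M,
      ((h62i_α A M q : chart M A (jB M) →ₐ[A] chart (M * q) A (jSS M q)) :
        chart M A (jB M) →+* chart (M * q) A (jSS M q)) x ∈ h62x_fixedB A M (ℓ := q) :=
    fun x hx => h62x_α_mem_fixedB (ℓ := q) A M x hx
  have hgfix : (r.divX).eval₂
      ((h62i_α A M q : chart M A (jB M) →ₐ[A] chart (M * q) A (jSS M q)) :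
        chart M A (jB M) →+* chart (M * q) A (jSS M q))
      (h62i_β A M hq hM hA (h62rIncl A M (jB M) u)) ∈ h62x_fixedB A M (ℓ := q) :=
    h62x_eval₂_mem
      ((h62i_α A M q : chart M A (jB M) →ₐ[A] chart (M * q) A (jSS M q)) :
        chart M A (jB M) →+* chart (M * q) A (jSS M q))
      (h62i_R A M) (h62x_fixedB A M (ℓ := q)) hαfix
      (h62i_β A M hq hM hA (h62rIncl A M (jB M) u))
      (h62x_β_mem_fixedB A M hq hM hA (h62rIncl A M (jB M) u) huR) r.divX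
      (fun n => by rw [Polynomial.coeff_divX]; exact hrR (n + 1))
  obtain ⟨g, hg⟩ := h60r_exists_incl A (M * q) (jSS M q) _ (fun σ _ => hgfix σ)
  refine ⟨h62rOfRat A M (jB M) (r.coeff 0) hr0, hr0, g, ?_⟩
  apply h60r_incl_injective A (M * q) (jSS M q)
  rw [map_add, map_mul, map_mul, map_sub, map_sub, map_pow, map_pow, map_add, map_mul,
    map_natCast, map_zero, h60x_incl_alpha, h60x_incl_alpha, h60x_incl_beta, hg,
    h62r_incl_ofRat, hrel]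
  have hsplit : r.eval₂
      ((h62i_α A M q : chart M A (jB M) →ₐ[A] chart (M * q) A (jSS M q)) :
        chart M A (jB M) →+* chart (M * q) A (jSS M q))
      (h62i_β A M hq hM hA (h62rIncl A M (jB M) u)) =
      (r.divX).eval₂
        ((h62i_α A M q : chart M A (jB M) →ₐ[A] chart (M * q) A (jSS M q)) :
          chart M A (jB M) →+* chart (M * q) A (jSS M q))
        (h62i_β A M hq hM hA (h62rIncl A M (jB M) u)) *
          h62i_β A M hq hM hA (h62rIncl A M (jB M) u) + h62i_α A M q (r.coeff 0) := by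
    conv_lhs => rw [← Polynomial.divX_mul_X_add r]
    rw [Polynomial.eval₂_add, Polynomial.eval₂_mul, Polynomial.eval₂_X, Polynomial.eval₂_C]
    rfl
  rw [hsplit]
  ring

/-! ## R-ORD-X -/

/-- **R-ORD-X** (the frozen Prop `H80OrdExcl`, unconditional). -/
theorem h60x_ordExcl : H80OrdExcl := by
  intro q hq M _ hM haux
  haveI : NeZero q := ⟨hq.ne_zero⟩
  intro A hA 𝔫₂ h𝔫₂ hq𝔫₂ hInf hNode
  haveI h𝔫₂p : 𝔫₂.IsPrime := h𝔫₂.isPrime
  obtain ⟨u, hrat, hX, hY, ⟨ρ, hρ, hrel⟩, -⟩ := hNode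
  obtain ⟨r₀, hr₀, g, hsplit⟩ := h60x_kron_split A M hq hM hA u hrat
  have hcomm : ∀ x : h62rChart A M (jB M),
      h62rA2 A M (h62rBeta A M hq hM hA x) = h59y_b2 A M hq hM hA (h62rAlpha A M x) :=
    fun x => Subtype.ext (h67i_e1_eq M q (x : FF M))
  exact h60x_excl_abs (h62rAlpha A M) (h62rBeta A M hq hM hA) (h62rA2 A M)
    (h59y_b2 A M hq hM hA) hcomm 𝔫₂ q hq.pos (Nat.cast_ne_zero.mpr hq.ne_zero) hq𝔫₂
    u r₀ g ρ hsplit hrel (hInf.1 u hrat) (hInf.1 r₀ hr₀) hX hY hρ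

end Fermat.Agent.S36
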