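import Fermat.Agent.S36.H40Tower
import Fermat.Agent.S36.H12TorUniq
import Fermat.Agent.S36.H71TorExp

/-!
# S36, block REG → TOR (helper60): the exports `H12TowerUniq`, `H71TowerGen` of the tower

Both frozen Props are projections of helper40's landed `h40t_tower_a2` (the full conclusion of
`h67t_tower` at `ι = α₂`):

* `h60t_towerUniq : H12TowerUniq` (third output: the point over a node is unique);
* `h60t_towerGen : H71TowerGen` (first and fourth outputs: `e₂ u ∈ 𝔫₂` and the local ring is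
  generated by `e₂ u`).
-/

set_option autoImplicit false
set_option linter.unusedSectionVars false
set_option linter.style.haveILetI false

open AlgebraicCurve ModularCurve IsLocalRing Polynomial

noncomputable section

namespace Fermat.Agent.S36

open Fermat.Agent.S37 Fermat.Agent.Red.GG Fermat.Agent.LGC

/-- **tower uniqueness.** -/
theorem h60t_towerUniq : H12TowerUniq := by
  intro q hq M _ hM haux
  haveI : NeZero q := ⟨hq.ne_zero⟩
  intro A hA 𝔫₂ h𝔫₂ hq𝔫₂ hnode 𝔫' h𝔫' hcomap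
  have h : 𝔫₂.comap (h62rA2 A M) = 𝔫₂.comap (h59y_a2 A M) := by rw [h40t_a2_eq]
  have h' : 𝔫'.comap (h62rA2 A M) = 𝔫'.comap (h59y_a2 A M) := by rw [h40t_a2_eq]
  rw [h] at hnode
  rw [h, h'] at hcomap
  obtain ⟨u, hrat, hX, hY, ⟨ρ, hρ, hrel⟩, hgen⟩ := hnode
  exact (h40t_tower_a2 A M hq hM hA 𝔫₂ h𝔫₂ hq𝔫₂ u hrat hX hY ρ hρ hrel hgen).2.2.1
    𝔫' h𝔫' hcomap

/-- **tower generation.** -/
theorem h60t_towerGen : H71TowerGen := by
  intro q hq M _ hM haux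
  haveI : NeZero q := ⟨hq.ne_zero⟩
  intro A hA 𝔫₂ h𝔫₂ hq𝔫₂ hnode
  have h : 𝔫₂.comap (h62rA2 A M) = 𝔫₂.comap (h59y_a2 A M) := by rw [h40t_a2_eq]
  have hnode' := hnode
  rw [h] at hnode'
  obtain ⟨u, hrat, hX, hY, ⟨ρ, hρ, hrel⟩, hgen⟩ := hnode'
  obtain ⟨hZ, -, -, hfrac⟩ :=
    h40t_tower_a2 A M hq hM hA 𝔫₂ h𝔫₂ hq𝔫₂ u hrat hX hY ρ hρ hrel hgen
  refine ⟨u, hrat, ?_, ?_, h59y_e2 A M hq hM hA u, rfl, hZ, ?_⟩
  · rw [h]; exact hX
  · rw [h]; exact hY
  · intro b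
    obtain ⟨p, d, hd, hb⟩ := hfrac b
    refine ⟨p, d, ?_, ?_⟩
    · rw [h40t_a2_eq]; exact hd
    · rw [h40t_a2_eq]; exact hb

end Fermat.Agent.S36
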