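import Fermat.Agent.S36.H62Iso
import Fermat.Agent.S36.H60L1Excl

/-!
# S36, block REG, row R-ORD-11 (helper62): the two contractions of a point of `C₁₁`

`B₁ = h62rChart A (M q) (jSS M q)`, `B₂ = h62rChart A (M q²) (jB (M q²))` (charts over `A₀`),
`α₂ = h62rA2`, `β₂ = h59y_b2 : B₁ →+* B₂`, `w₁ = h62oW1` the Fricke involution of `B₁`.

At a prime `𝔫₂` of `B₂` whose contraction along `α₂` lies on `C_∞` and whose contraction along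
`β₂` lies on `C_0` (the points of `C₁₁`, and the points over the nodes):

* `h62k_comap_a2_eq` : `α₂⁻¹ 𝔫₂ = w₁⁻¹ (β₂⁻¹ 𝔫₂)`;
* `h62k_comap_b2_eq` : `β₂⁻¹ 𝔫₂ = w₁⁻¹ (α₂⁻¹ 𝔫₂)`;
* `h62k_a2_w1_mem_iff` : `α₂ (w₁ x) ∈ 𝔫₂ ↔ β₂ x ∈ 𝔫₂`;
* `h62k_b2_w1_mem_iff` : `β₂ (w₁ x) ∈ 𝔫₂ ↔ α₂ x ∈ 𝔫₂`;
* `h62k_not_mem_a2_of_w1`, `h62k_kind` : transport of `∉`, and
  `β₂ ψ - α₂ (w₁ ψ) ∈ 𝔫₂` for `ψ ∈ β₂⁻¹ 𝔫₂`;
* `h62k_sPinf_le_of_lift`, `h62k_sP0_le_of_lift` : the hypotheses in lift form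
  (`P∞ ≤ lift 𝔫₁`, vocabulary of `H60Kind11Geo`) give the chart forms; `…_lift` versions of the
  statements above.

(Proof: both sides lie on `C_∞` and have the same contraction along `β`, since
`α₂ ∘ β = β₂ ∘ α` and `w₁ ∘ β = α`; a point of `C_∞` is determined by its contraction along
`β`, `h62t_uniq_inf`.)
-/

set_option autoImplicit false
set_option linter.unusedSectionVars false
set_option linter.style.haveILetI false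

open AlgebraicCurve ModularCurve IsLocalRing

noncomputable section

namespace Fermat.Agent.S36

open Fermat.Agent.S37 Fermat.Agent.Red Fermat.Agent.Red.GG Fermat.Agent.LGC

section C11

variable (A : ValuationSubring Kbar) (M : ℕ) {q : ℕ} [NeZero M] [NeZero q]

/-- **the contraction along `α₂` is the Fricke image of the contraction along `β₂`.** -/
theorem h62k_comap_a2_eq (hq : q.Prime) (hM : ¬ q ∣ M) (haux : auxLevel q ∣ M)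
    (hA : A.LiesOverPrime q)
    (𝔫₂ : Ideal (h62rChart A (M * q * q) (jB (M * q * q)))) [h𝔫₂ : 𝔫₂.IsPrime]
    (hinf : h62sPinf A M hq hM hA ≤ 𝔫₂.comap (h62rA2 A M))
    (h0 : h62sP0 A M hq hM hA ≤ 𝔫₂.comap (h59y_b2 A M hq hM hA)) :
    𝔫₂.comap (h62rA2 A M) =
      (𝔫₂.comap (h59y_b2 A M hq hM hA)).comap (h62oW1 A M hq hM hA) := by
  haveI : (𝔫₂.comap (h62rA2 A M)).IsPrime := Ideal.comap_isPrime _ _
  haveI : (𝔫₂.comap (h59y_b2 A M hq hM hA)).IsPrime := Ideal.comap_isPrime _ _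
  haveI : ((𝔫₂.comap (h59y_b2 A M hq hM hA)).comap (h62oW1 A M hq hM hA)).IsPrime :=
    Ideal.comap_isPrime _ _
  have hinf' : h62sPinf A M hq hM hA ≤
      (𝔫₂.comap (h59y_b2 A M hq hM hA)).comap (h62oW1 A M hq hM hA) := fun y hy =>
    Ideal.mem_comap.mpr (h0 ((h62o_w1_mem_P0_iff A M hq hM hA y).mpr hy))
  have hmem : ∀ x : h62rChart A M (jB M),
      h62rBeta A M hq hM hA x ∈
        (𝔫₂.comap (h59y_b2 A M hq hM hA)).comap (h62oW1 A M hq hM hA) ↔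
      h62rBeta A M hq hM hA x ∈ 𝔫₂.comap (h62rA2 A M) := by
    intro x
    rw [Ideal.mem_comap, Ideal.mem_comap, Ideal.mem_comap, h62t_w1_beta, h62t_a2_beta]
  apply le_antisymm
  · exact h62t_uniq_inf A M hq hM haux hA _ _ hinf hinf'
      (fun x hx => Ideal.mem_comap.mpr ((hmem x).mpr (Ideal.mem_comap.mp hx)))
  · exact h62t_uniq_inf A M hq hM haux hA _ _ hinf' hinf
      (fun x hx => Ideal.mem_comap.mpr ((hmem x).mp (Ideal.mem_comap.mp hx)))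

/-- `β₂ (w₁ x) ∈ 𝔫₂ ↔ α₂ x ∈ 𝔫₂` at the points of `C₁₁`. -/
theorem h62k_b2_w1_mem_iff (hq : q.Prime) (hM : ¬ q ∣ M) (haux : auxLevel q ∣ M)
    (hA : A.LiesOverPrime q)
    (𝔫₂ : Ideal (h62rChart A (M * q * q) (jB (M * q * q)))) [h𝔫₂ : 𝔫₂.IsPrime]
    (hinf : h62sPinf A M hq hM hA ≤ 𝔫₂.comap (h62rA2 A M))
    (h0 : h62sP0 A M hq hM hA ≤ 𝔫₂.comap (h59y_b2 A M hq hM hA))
    (x : h62rChart A (M * q) (jSS M q)) :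
    h59y_b2 A M hq hM hA (h62oW1 A M hq hM hA x) ∈ 𝔫₂ ↔ h62rA2 A M x ∈ 𝔫₂ := by
  have h := h62k_comap_a2_eq A M hq hM haux hA 𝔫₂ hinf h0
  constructor
  · intro hx
    have h1 : x ∈ (𝔫₂.comap (h59y_b2 A M hq hM hA)).comap (h62oW1 A M hq hM hA) :=
      Ideal.mem_comap.mpr (Ideal.mem_comap.mpr hx)
    exact Ideal.mem_comap.mp (h.ge h1)
  · intro hx
    have h1 : x ∈ 𝔫₂.comap (h62rA2 A M) := Ideal.mem_comap.mpr hx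
    exact Ideal.mem_comap.mp (Ideal.mem_comap.mp (h.le h1))

/-- `α₂ (w₁ x) ∈ 𝔫₂ ↔ β₂ x ∈ 𝔫₂` at the points of `C₁₁`. -/
theorem h62k_a2_w1_mem_iff (hq : q.Prime) (hM : ¬ q ∣ M) (haux : auxLevel q ∣ M)
    (hA : A.LiesOverPrime q)
    (𝔫₂ : Ideal (h62rChart A (M * q * q) (jB (M * q * q)))) [h𝔫₂ : 𝔫₂.IsPrime]
    (hinf : h62sPinf A M hq hM hA ≤ 𝔫₂.comap (h62rA2 A M))
    (h0 : h62sP0 A M hq hM hA ≤ 𝔫₂.comap (h59y_b2 A M hq hM hA))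
    (x : h62rChart A (M * q) (jSS M q)) :
    h62rA2 A M (h62oW1 A M hq hM hA x) ∈ 𝔫₂ ↔ h59y_b2 A M hq hM hA x ∈ 𝔫₂ := by
  rw [← h62k_b2_w1_mem_iff A M hq hM haux hA 𝔫₂ hinf h0, h62o_w1_w1]

/-- **the contraction along `β₂` is the Fricke image of the contraction along `α₂`.** -/
theorem h62k_comap_b2_eq (hq : q.Prime) (hM : ¬ q ∣ M) (haux : auxLevel q ∣ M)
    (hA : A.LiesOverPrime q)
    (𝔫₂ : Ideal (h62rChart A (M * q * q) (jB (M * q * q)))) [h𝔫₂ : 𝔫₂.IsPrime]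
    (hinf : h62sPinf A M hq hM hA ≤ 𝔫₂.comap (h62rA2 A M))
    (h0 : h62sP0 A M hq hM hA ≤ 𝔫₂.comap (h59y_b2 A M hq hM hA)) :
    𝔫₂.comap (h59y_b2 A M hq hM hA) =
      (𝔫₂.comap (h62rA2 A M)).comap (h62oW1 A M hq hM hA) := by
  ext x
  rw [Ideal.mem_comap, Ideal.mem_comap, Ideal.mem_comap,
    h62k_a2_w1_mem_iff A M hq hM haux hA 𝔫₂ hinf h0]

/-- transport of `∉` by the Fricke involution: `z ∉ β₂⁻¹ 𝔫₂ ⟹ w₁ z ∉ α₂⁻¹ 𝔫₂`. -/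
theorem h62k_not_mem_a2_of_w1 (hq : q.Prime) (hM : ¬ q ∣ M) (haux : auxLevel q ∣ M)
    (hA : A.LiesOverPrime q)
    (𝔫₂ : Ideal (h62rChart A (M * q * q) (jB (M * q * q)))) [h𝔫₂ : 𝔫₂.IsPrime]
    (hinf : h62sPinf A M hq hM hA ≤ 𝔫₂.comap (h62rA2 A M))
    (h0 : h62sP0 A M hq hM hA ≤ 𝔫₂.comap (h59y_b2 A M hq hM hA))
    (z : h62rChart A (M * q) (jSS M q)) (hz : z ∉ 𝔫₂.comap (h59y_b2 A M hq hM hA)) :
    h62oW1 A M hq hM hA z ∉ 𝔫₂.comap (h62rA2 A M) := fun h =>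
  hz (Ideal.mem_comap.mpr
    ((h62k_a2_w1_mem_iff A M hq hM haux hA 𝔫₂ hinf h0 z).mp (Ideal.mem_comap.mp h)))

/-- **the kind**: for `ψ ∈ β₂⁻¹ 𝔫₂` the difference `β₂ ψ - α₂ (w₁ ψ)` lies in `𝔫₂`. -/
theorem h62k_kind (hq : q.Prime) (hM : ¬ q ∣ M) (haux : auxLevel q ∣ M)
    (hA : A.LiesOverPrime q)
    (𝔫₂ : Ideal (h62rChart A (M * q * q) (jB (M * q * q)))) [h𝔫₂ : 𝔫₂.IsPrime]
    (hinf : h62sPinf A M hq hM hA ≤ 𝔫₂.comap (h62rA2 A M))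
    (h0 : h62sP0 A M hq hM hA ≤ 𝔫₂.comap (h59y_b2 A M hq hM hA))
    (ψ : h62rChart A (M * q) (jSS M q)) (hψ : ψ ∈ 𝔫₂.comap (h59y_b2 A M hq hM hA)) :
    h59y_b2 A M hq hM hA ψ - h62rA2 A M (h62oW1 A M hq hM hA ψ) ∈ 𝔫₂ :=
  𝔫₂.sub_mem (Ideal.mem_comap.mp hψ)
    ((h62k_a2_w1_mem_iff A M hq hM haux hA 𝔫₂ hinf h0 ψ).mpr (Ideal.mem_comap.mp hψ))

/-! ## The hypotheses in lift form -/

/-- `P∞ ≤ lift 𝔫₁ ⟹ P∞ ∩ B₁ ≤ 𝔫₁`. -/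
theorem h62k_sPinf_le_of_lift (hq : q.Prime) (hM : ¬ q ∣ M) (hA : A.LiesOverPrime q)
    (𝔫₁ : Ideal (h62rChart A (M * q) (jSS M q)))
    (hq𝔫₁ : (q : h62rChart A (M * q) (jSS M q)) ∈ 𝔫₁)
    (h : h62i_Pinf A M hq hM hA ≤
      h60rLift (h60rIncl A (M * q) (jSS M q)) (mExt A M q (jSS M q)) 𝔫₁) :
    h62sPinf A M hq hM hA ≤ 𝔫₁ := fun x hx =>
  (h60r_mem_lift_iff' A M hq hM hA 𝔫₁ hq𝔫₁ x).mp (h (Ideal.mem_comap.mp hx))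

/-- `P₀ ≤ lift 𝔫₁ ⟹ P₀ ∩ B₁ ≤ 𝔫₁`. -/
theorem h62k_sP0_le_of_lift (hq : q.Prime) (hM : ¬ q ∣ M) (hA : A.LiesOverPrime q)
    (𝔫₁ : Ideal (h62rChart A (M * q) (jSS M q)))
    (hq𝔫₁ : (q : h62rChart A (M * q) (jSS M q)) ∈ 𝔫₁)
    (h : h62i_P0 A M hq hM hA ≤
      h60rLift (h60rIncl A (M * q) (jSS M q)) (mExt A M q (jSS M q)) 𝔫₁) :
    h62sP0 A M hq hM hA ≤ 𝔫₁ := fun x hx =>
  (h60r_mem_lift_iff' A M hq hM hA 𝔫₁ hq𝔫₁ x).mp (h (Ideal.mem_comap.mp hx))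

/-- `q ∈ β₂⁻¹ 𝔫₂`. -/
theorem h62k_q_mem_comap_b2 (hq : q.Prime) (hM : ¬ q ∣ M) (hA : A.LiesOverPrime q)
    (𝔫₂ : Ideal (h62rChart A (M * q * q) (jB (M * q * q))))
    (hq𝔫₂ : (q : h62rChart A (M * q * q) (jB (M * q * q))) ∈ 𝔫₂) :
    (q : h62rChart A (M * q) (jSS M q)) ∈ 𝔫₂.comap (h59y_b2 A M hq hM hA) := by
  rw [Ideal.mem_comap, map_natCast]
  exact hq𝔫₂

/-- `h62k_comap_a2_eq`, hypotheses in lift form (vocabulary of `H60Kind11Geo`). -/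
theorem h62k_comap_a2_eq_lift (hq : q.Prime) (hM : ¬ q ∣ M) (haux : auxLevel q ∣ M)
    (hA : A.LiesOverPrime q)
    (𝔫₂ : Ideal (h62rChart A (M * q * q) (jB (M * q * q)))) [h𝔫₂ : 𝔫₂.IsPrime]
    (hq𝔫₂ : (q : h62rChart A (M * q * q) (jB (M * q * q))) ∈ 𝔫₂)
    (hinf : h62i_Pinf A M hq hM hA ≤ h60rLift (h60rIncl A (M * q) (jSS M q))
      (mExt A M q (jSS M q)) (𝔫₂.comap (h62rA2 A M)))
    (h0 : h62i_P0 A M hq hM hA ≤ h60rLift (h60rIncl A (M * q) (jSS M q))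
      (mExt A M q (jSS M q)) (𝔫₂.comap (h59y_b2 A M hq hM hA))) :
    𝔫₂.comap (h62rA2 A M) =
      (𝔫₂.comap (h59y_b2 A M hq hM hA)).comap (h62oW1 A M hq hM hA) :=
  h62k_comap_a2_eq A M hq hM haux hA 𝔫₂
    (h62k_sPinf_le_of_lift A M hq hM hA _ (h62g_q_mem_comap A M 𝔫₂ hq𝔫₂) hinf)
    (h62k_sP0_le_of_lift A M hq hM hA _ (h62k_q_mem_comap_b2 A M hq hM hA 𝔫₂ hq𝔫₂) h0)

/-- `h62k_a2_w1_mem_iff`, hypotheses in lift form. -/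
theorem h62k_a2_w1_mem_iff_lift (hq : q.Prime) (hM : ¬ q ∣ M) (haux : auxLevel q ∣ M)
    (hA : A.LiesOverPrime q)
    (𝔫₂ : Ideal (h62rChart A (M * q * q) (jB (M * q * q)))) [h𝔫₂ : 𝔫₂.IsPrime]
    (hq𝔫₂ : (q : h62rChart A (M * q * q) (jB (M * q * q))) ∈ 𝔫₂)
    (hinf : h62i_Pinf A M hq hM hA ≤ h60rLift (h60rIncl A (M * q) (jSS M q))
      (mExt A M q (jSS M q)) (𝔫₂.comap (h62rA2 A M)))
    (h0 : h62i_P0 A M hq hM hA ≤ h60rLift (h60rIncl A (M * q) (jSS M q))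
      (mExt A M q (jSS M q)) (𝔫₂.comap (h59y_b2 A M hq hM hA)))
    (x : h62rChart A (M * q) (jSS M q)) :
    h62rA2 A M (h62oW1 A M hq hM hA x) ∈ 𝔫₂ ↔ h59y_b2 A M hq hM hA x ∈ 𝔫₂ :=
  h62k_a2_w1_mem_iff A M hq hM haux hA 𝔫₂
    (h62k_sPinf_le_of_lift A M hq hM hA _ (h62g_q_mem_comap A M 𝔫₂ hq𝔫₂) hinf)
    (h62k_sP0_le_of_lift A M hq hM hA _ (h62k_q_mem_comap_b2 A M hq hM hA 𝔫₂ hq𝔫₂) h0) x

/-- `h62k_b2_w1_mem_iff`, hypotheses in lift form. -/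
theorem h62k_b2_w1_mem_iff_lift (hq : q.Prime) (hM : ¬ q ∣ M) (haux : auxLevel q ∣ M)
    (hA : A.LiesOverPrime q)
    (𝔫₂ : Ideal (h62rChart A (M * q * q) (jB (M * q * q)))) [h𝔫₂ : 𝔫₂.IsPrime]
    (hq𝔫₂ : (q : h62rChart A (M * q * q) (jB (M * q * q))) ∈ 𝔫₂)
    (hinf : h62i_Pinf A M hq hM hA ≤ h60rLift (h60rIncl A (M * q) (jSS M q))
      (mExt A M q (jSS M q)) (𝔫₂.comap (h62rA2 A M)))
    (h0 : h62i_P0 A M hq hM hA ≤ h60rLift (h60rIncl A (M * q) (jSS M q))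
      (mExt A M q (jSS M q)) (𝔫₂.comap (h59y_b2 A M hq hM hA)))
    (x : h62rChart A (M * q) (jSS M q)) :
    h59y_b2 A M hq hM hA (h62oW1 A M hq hM hA x) ∈ 𝔫₂ ↔ h62rA2 A M x ∈ 𝔫₂ :=
  h62k_b2_w1_mem_iff A M hq hM haux hA 𝔫₂
    (h62k_sPinf_le_of_lift A M hq hM hA _ (h62g_q_mem_comap A M 𝔫₂ hq𝔫₂) hinf)
    (h62k_sP0_le_of_lift A M hq hM hA _ (h62k_q_mem_comap_b2 A M hq hM hA 𝔫₂ hq𝔫₂) h0) x

/-- `h62k_kind`, hypotheses in lift form. -/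
theorem h62k_kind_lift (hq : q.Prime) (hM : ¬ q ∣ M) (haux : auxLevel q ∣ M)
    (hA : A.LiesOverPrime q)
    (𝔫₂ : Ideal (h62rChart A (M * q * q) (jB (M * q * q)))) [h𝔫₂ : 𝔫₂.IsPrime]
    (hq𝔫₂ : (q : h62rChart A (M * q * q) (jB (M * q * q))) ∈ 𝔫₂)
    (hinf : h62i_Pinf A M hq hM hA ≤ h60rLift (h60rIncl A (M * q) (jSS M q))
      (mExt A M q (jSS M q)) (𝔫₂.comap (h62rA2 A M)))
    (h0 : h62i_P0 A M hq hM hA ≤ h60rLift (h60rIncl A (M * q) (jSS M q))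
      (mExt A M q (jSS M q)) (𝔫₂.comap (h59y_b2 A M hq hM hA)))
    (ψ : h62rChart A (M * q) (jSS M q)) (hψ : ψ ∈ 𝔫₂.comap (h59y_b2 A M hq hM hA)) :
    h59y_b2 A M hq hM hA ψ - h62rA2 A M (h62oW1 A M hq hM hA ψ) ∈ 𝔫₂ :=
  h62k_kind A M hq hM haux hA 𝔫₂
    (h62k_sPinf_le_of_lift A M hq hM hA _ (h62g_q_mem_comap A M 𝔫₂ hq𝔫₂) hinf)
    (h62k_sP0_le_of_lift A M hq hM hA _ (h62k_q_mem_comap_b2 A M hq hM hA 𝔫₂ hq𝔫₂) h0) ψ hψ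

end C11

end Fermat.Agent.S36
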