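import Fermat.Agent.S36.H50ExcIface2
import Fermat.Agent.S36.H50ExcFin
import Fermat.Agent.S36.H62Iso
import Fermat.Agent.S36.H60L1Excl
import Fermat.Agent.S36.H40Gen

/-!
# S36, block REG, row R-ORD-11 (helper62): the separation leaf `H50eSep`

`h62e_sep : H50eSep` (the frozen Prop of `S36/H50ExcIface2.lean`, helper50).

At a smooth point `𝔫'` of `C₀` (level `M q`, chart over `A₀`), `𝔫 = lift 𝔫'`:

* `u` : a rational local parameter at `β⁻¹ 𝔫` (`h62x_smooth_zero`), made non-constant by adding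
  `q j` if necessary;
* `𝔑` : a maximal ideal containing `P∞ + α (α⁻¹ 𝔫) B` (proper because `B / P∞ = Λ / 𝔪 Λ` through
  `α`); `P₀ ⊄ 𝔑` because the point of `C₀` over `α⁻¹ 𝔫` is unique (`h50e_unique_fin`) and `𝔫` is
  not on `C∞`;
* `ε ∈ P₀ ∖ 𝔑`, descended to the chart over `A₀` (R-REDISO);
* for `ψ = β u + δ ε`, `δ ≡ 1 (q)`, and `a` with `ψ ≡ α a` modulo `P∞`: if `ψ - α a ∈ 𝔫'` then
  `α a ∈ 𝔫'`, hence `α a ∈ 𝔑`, `ψ ∈ 𝔑`; but `β u ∈ 𝔑` (Frobenius congruences, `u` rational), so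
  `δ ε ∈ 𝔑`, which is absurd.
-/

set_option autoImplicit false
set_option linter.unusedSectionVars false
set_option linter.unusedVariables false
set_option linter.style.haveILetI false

open AlgebraicCurve ModularCurve IsLocalRing Polynomial

noncomputable section

namespace Fermat.Agent.S36

open Fermat.Agent.S37 Fermat.Agent.Red Fermat.Agent.Red.GG Fermat.Agent.Red.GV
  Fermat.Agent.Red.GV.Soft Fermat.Agent.Red.Kron Fermat.Agent.Red.KR Fermat.Agent.Red.ModelO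
  Fermat.Agent.LGC Fermat.Agent.S35

section Abs

variable {Λ : Type*} [CommRing Λ]

/-- a local parameter modulo `𝔪` may be changed by an element of `𝔪`. -/
theorem h62e_LP_add (𝔪 𝔰 : Ideal Λ) (h𝔪𝔰 : 𝔪 ≤ 𝔰) (t m : Λ) (hm : m ∈ 𝔪)
    (h : h62l_LP 𝔪 𝔰 t) : h62l_LP 𝔪 𝔰 (t + m) := by
  refine ⟨𝔰.add_mem h.1 (h𝔪𝔰 hm), fun y hy => ?_⟩
  obtain ⟨s, hs, hsy⟩ := h.2 y hy
  refine ⟨s, hs, ?_⟩
  have hle : Ideal.span {t} ⊔ 𝔪 ≤ Ideal.span {t + m} ⊔ 𝔪 := by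
    refine sup_le ?_ le_sup_right
    rw [Ideal.span_singleton_le_iff_mem]
    have h2 : (t + m) + (-m) ∈ Ideal.span {t + m} ⊔ 𝔪 :=
      Ideal.add_mem _ (Ideal.mem_sup_left (Ideal.mem_span_singleton_self _))
        (Ideal.mem_sup_right (𝔪.neg_mem hm))
    have h1 : (t + m) + (-m) = t := by ring
    rwa [h1] at h2
  exact hle hsy

end Abs

section Param

variable (A : ValuationSubring Kbar) (M : ℕ) {q : ℕ} [NeZero M] [NeZero q]

/-- a rational function of the chart over `A₀` becomes non-constant after adding `0` or `q j`. -/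
theorem h62e_param (u₁ : h62rChart A M (jB M)) (hrat : IsRat (u₁ : FF M)) :
    ∃ (u J : h62rChart A M (jB M)), IsRat (u : FF M) ∧ (u : FF M) ∉ Set.range (cst M) ∧
      u = u₁ + ((q : ℕ) : h62rChart A M (jB M)) * J := by
  by_cases hc : (u₁ : FF M) ∈ Set.range (cst M)
  · obtain ⟨c, hc⟩ := hc
    let J : h62rChart A M (jB M) := ⟨jB M, h62r_mem_chart.mpr
      ⟨Fermat.Agent.Red.ModelO.h85_self_mem_modelAt M A (jB M),
        fun σ _ => Fermat.Agent.S37.GalI.gal_smul_jB σ⟩⟩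
    have hq0 : ((q : ℕ) : FF M) ≠ 0 := Nat.cast_ne_zero.mpr (NeZero.ne q)
    refine ⟨u₁ + ((q : ℕ) : h62rChart A M (jB M)) * J, J, ?_, ?_, rfl⟩
    · have h1 : (u₁ : FF M) ∈ h53d_F0 M ⊤ :=
        fun σ _ => (Fermat.Agent.Red.GV.Soft.isRat_iff_gal_fixed M _).mp hrat σ
      have h2 : jB M ∈ h53d_F0 M ⊤ := fun σ _ => Fermat.Agent.S37.GalI.gal_smul_jB σ
      have h3 : (u₁ : FF M) + ((q : ℕ) : FF M) * jB M ∈ h53d_F0 M ⊤ :=
        (h53d_F0 M ⊤).add_mem h1 ((h53d_F0 M ⊤).mul_mem (natCast_mem _ q) h2)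
      exact (Fermat.Agent.Red.GV.Soft.isRat_iff_gal_fixed M _).mpr
        fun σ => h3 σ (Subgroup.mem_top σ)
    · rintro ⟨c', hc'⟩
      apply h40g_jB_not_cst M
      refine ⟨(c' - c) / ((q : ℕ) : Kbar), ?_⟩
      have h1 : (cst M c' : FF M) = (u₁ : FF M) + ((q : ℕ) : FF M) * jB M := hc'
      have hqK : ((q : ℕ) : Kbar) ≠ 0 := Nat.cast_ne_zero.mpr (NeZero.ne q)
      have h2 : ((q : ℕ) : FF M) * jB M = cst M c' - cst M c := by
        rw [h1, hc]; ring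
      have h3 : cst M ((q : ℕ) : Kbar) = ((q : ℕ) : FF M) := map_natCast _ q
      have h4 : cst M ((c' - c) / ((q : ℕ) : Kbar)) * ((q : ℕ) : FF M) =
          jB M * ((q : ℕ) : FF M) := by
        rw [← h3, ← map_mul, div_mul_cancel₀ _ hqK, map_sub, ← h2, h3]
        ring
      exact mul_right_cancel₀ hq0 h4
  · exact ⟨u₁, 0, hrat, hc, by rw [mul_zero, add_zero]⟩

end Param

set_option maxHeartbeats 1600000 in
/-- **the separation leaf.** -/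
theorem h62e_sep : H50eSep := by
  intro q hq M _ hM haux
  haveI : NeZero q := ⟨hq.ne_zero⟩
  intro A hA 𝔫' h𝔫' hq𝔫' hP0 hPinf
  classical
  have hiso := h25i_h60RedIso_Mq_fin (A := A) (M := M) hq hM hA
  have h𝔫 : (h60rLift (h60rIncl A (M * q) (jSS M q)) (mExt A M q (jSS M q)) 𝔫').IsMaximal :=
    h60r_lift_isMaximal' A M hq hM hA 𝔫' h𝔫' hq𝔫'
  haveI h𝔫p : (h60rLift (h60rIncl A (M * q) (jSS M q)) (mExt A M q (jSS M q)) 𝔫').IsPrime :=
    h𝔫.isPrime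
  have hm𝔫 : mExt A M q (jSS M q) ≤
      h60rLift (h60rIncl A (M * q) (jSS M q)) (mExt A M q (jSS M q)) 𝔫' := h60r_le_lift _ _ 𝔫'
  have hmem : ∀ x : h62rChart A (M * q) (jSS M q),
      h60rIncl A (M * q) (jSS M q) x ∈
        h60rLift (h60rIncl A (M * q) (jSS M q)) (mExt A M q (jSS M q)) 𝔫' ↔ x ∈ 𝔫' :=
    h60r_mem_lift_iff' A M hq hM hA 𝔫' hq𝔫'
  -- the rational local parameter
  obtain ⟨u₀, hrat₀, hLP₀, -, -⟩ := h62x_smooth_zero A M hq hM haux hA _ h𝔫 hP0 hPinf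
  obtain ⟨u, J, hrat, hnc, huJ⟩ := h62e_param (q := q) A M (h62rOfRat A M (jB M) u₀ hrat₀)
    (show IsRat ((h62rOfRat A M (jB M) u₀ hrat₀ : h62rChart A M (jB M)) : FF M) from hrat₀)
  have hmΛ𝔰 : h62i_mΛ A M ≤
      (h60rLift (h60rIncl A (M * q) (jSS M q)) (mExt A M q (jSS M q)) 𝔫').comap
        ((h62i_β A M hq hM hA : chart M A (jB M) →ₐ[A] chart (M * q) A (jSS M q)) :
          chart M A (jB M) →+* chart (M * q) A (jSS M q)) := fun x hx =>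
    Ideal.mem_comap.mpr (hm𝔫 (h62l_map_mem _ (h62i_β A M hq hM hA) hx))
  have hqmΛ : ((q : ℕ) : chart M A (jB M)) ∈ h62i_mΛ A M := by
    have h1 : ((q : ℕ) : chart M A (jB M)) = algebraMap A (chart M A (jB M)) ((q : ℕ) : A) :=
      (map_natCast _ q).symm
    rw [h1]
    exact Ideal.mem_map_of_mem _ (h62i_natCast_mem A hA)
  have hιu : h60rIncl A M (jB M) u = u₀ + ((q : ℕ) : chart M A (jB M)) * h60rIncl A M (jB M) J := by
    rw [huJ, map_add, map_mul, map_natCast]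
    rfl
  have hLP : h62l_LP (h62i_mΛ A M)
      ((h60rLift (h60rIncl A (M * q) (jSS M q)) (mExt A M q (jSS M q)) 𝔫').comap
        ((h62i_β A M hq hM hA : chart M A (jB M) →ₐ[A] chart (M * q) A (jSS M q)) :
          chart M A (jB M) →+* chart (M * q) A (jSS M q)))
      (h60rIncl A M (jB M) u) := by
    rw [hιu]
    exact h62e_LP_add _ _ hmΛ𝔰 u₀ _ (Ideal.mul_mem_right _ _ hqmΛ) hLP₀
  have huR : h60rIncl A M (jB M) u ∈ h62i_R A M := (h62i_mem_R A M _).mpr hrat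
  -- `β u ∈ 𝔫`, `α u ∈ 𝔫`
  have hβu : h62i_β A M hq hM hA (h60rIncl A M (jB M) u) ∈
      h60rLift (h60rIncl A (M * q) (jSS M q)) (mExt A M q (jSS M q)) 𝔫' :=
    Ideal.mem_comap.mp hLP.1
  have hαu : h62i_α A M q (h60rIncl A M (jB M) u) ∈
      h60rLift (h60rIncl A (M * q) (jSS M q)) (mExt A M q (jSS M q)) 𝔫' := by
    have h1 := hP0 (h50e_frob0 A M hq hM hA _ huR)
    have h2 : h62i_α A M q (h60rIncl A M (jB M) u) =
        (h62i_α A M q (h60rIncl A M (jB M) u) -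
          h62i_β A M hq hM hA (h60rIncl A M (jB M) u) ^ q) +
        h62i_β A M hq hM hA (h60rIncl A M (jB M) u) ^ q := by ring
    rw [h2]
    exact Ideal.add_mem _ h1 (Ideal.pow_mem_of_mem _ hβu q hq.pos)
  -- the point `𝔑` of `C∞` over `α⁻¹ 𝔫`
  set 𝔰₁ : Ideal (chart M A (jB M)) :=
    (h60rLift (h60rIncl A (M * q) (jSS M q)) (mExt A M q (jSS M q)) 𝔫').comap
      ((h62i_α A M q : chart M A (jB M) →ₐ[A] chart (M * q) A (jSS M q)) :
        chart M A (jB M) →+* chart (M * q) A (jSS M q)) with h𝔰₁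
  haveI h𝔰₁p : 𝔰₁.IsPrime := Ideal.comap_isPrime _ _
  have hmΛ𝔰₁ : h62i_mΛ A M ≤ 𝔰₁ := fun x hx =>
    Ideal.mem_comap.mpr (hm𝔫 (h62l_map_mem _ (h62i_α A M q) hx))
  have hne : h60rLift
      ((h62i_α A M q : chart M A (jB M) →ₐ[A] chart (M * q) A (jSS M q)) :
        chart M A (jB M) →+* chart (M * q) A (jSS M q))
      (h62i_Pinf A M hq hM hA) 𝔰₁ ≠ ⊤ := by
    intro htop
    have h1 : (1 : chart (M * q) A (jSS M q)) ∈ h60rLift
        ((h62i_α A M q : chart M A (jB M) →ₐ[A] chart (M * q) A (jSS M q)) :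
          chart M A (jB M) →+* chart (M * q) A (jSS M q))
        (h62i_Pinf A M hq hM hA) 𝔰₁ := by
      rw [htop]
      exact Submodule.mem_top
    obtain ⟨g, hg, hg1⟩ := h60r_exists_of_mem_lift (h62d_surj A M hq hM haux hA) 𝔰₁ h1
    have h2 : h62i_α A M q (1 - g) ∈ h62i_Pinf A M hq hM hA := by
      rw [map_sub, map_one]
      exact hg1
    have h3 : (1 - g) ∈ 𝔰₁ := hmΛ𝔰₁ ((h62d_ker A M hq hM hA).1 _ h2)
    have h4 : (1 : chart M A (jB M)) ∈ 𝔰₁ := by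
      have := 𝔰₁.add_mem h3 hg
      simpa using this
    exact h𝔰₁p.ne_top ((Ideal.eq_top_iff_one _).mpr h4)
  obtain ⟨𝔑, h𝔑max, h𝔑le⟩ := Ideal.exists_le_maximal _ hne
  haveI h𝔑p : 𝔑.IsPrime := h𝔑max.isPrime
  have hPinf𝔑 : h62i_Pinf A M hq hM hA ≤ 𝔑 := le_trans (h60r_le_lift _ _ 𝔰₁) h𝔑le
  have hα𝔑 : ∀ x : chart M A (jB M), x ∈ 𝔰₁ → h62i_α A M q x ∈ 𝔑 := fun x hx =>
    h𝔑le (h60r_map_mem_lift _ _ 𝔰₁ hx)
  have hm𝔑 : mExt A M q (jSS M q) ≤ 𝔑 := le_trans (h62i_m_le_Pinf A M hq hM hA) hPinf𝔑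
  have hP0𝔑 : ¬ h62i_P0 A M hq hM hA ≤ 𝔑 := by
    intro hle
    have heq : 𝔑 = h60rLift (h60rIncl A (M * q) (jSS M q)) (mExt A M q (jSS M q)) 𝔫' :=
      h50e_unique_fin A M hq hM haux hA _ h𝔫 hP0 𝔑 h𝔑max
        (fun x hx => hα𝔑 x (Ideal.mem_comap.mpr hx)) hle
    exact hPinf (heq ▸ hPinf𝔑)
  -- `ε`
  obtain ⟨εA, hεP0, hε𝔑⟩ := SetLike.not_le_iff_exists.mp hP0𝔑
  obtain ⟨ε, hε⟩ := hiso.1 εA
  have hεP0' : h60rIncl A (M * q) (jSS M q) ε ∈ h62i_P0 A M hq hM hA := by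
    have h1 : h60rIncl A (M * q) (jSS M q) ε =
        εA - (εA - h60rIncl A (M * q) (jSS M q) ε) := by ring
    rw [h1]
    exact Ideal.sub_mem _ hεP0 (h62i_m_le_P0 A M hq hM hA hε)
  have hε𝔑' : h60rIncl A (M * q) (jSS M q) ε ∉ 𝔑 := by
    intro h
    apply hε𝔑
    have h1 : εA = h60rIncl A (M * q) (jSS M q) ε +
        (εA - h60rIncl A (M * q) (jSS M q) ε) := by ring
    rw [h1]
    exact Ideal.add_mem _ h (hm𝔑 hε)
  have hε𝔫' : ε ∈ 𝔫' := (hmem ε).mp (hP0 hεP0')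
  have hβu𝔫' : h62rBeta A M hq hM hA u ∈ 𝔫' := (hmem _).mp hβu
  -- `β u ∈ 𝔑`
  have hβu𝔑 : h62i_β A M hq hM hA (h60rIncl A M (jB M) u) ∈ 𝔑 := by
    have h1 := hPinf𝔑 (h62d_frob A M hq hM hA _ huR)
    have h2 : h62i_β A M hq hM hA (h60rIncl A M (jB M) u) =
        (h62i_β A M hq hM hA (h60rIncl A M (jB M) u) -
          h62i_α A M q (h60rIncl A M (jB M) u) ^ q) +
        h62i_α A M q (h60rIncl A M (jB M) u) ^ q := by ring
    rw [h2]
    exact Ideal.add_mem _ h1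
      (Ideal.pow_mem_of_mem _ (hα𝔑 _ (Ideal.mem_comap.mpr hαu)) q hq.pos)
  refine ⟨u, ε, hrat, hnc, hLP, hεP0', fun δ hδ => ?_⟩
  obtain ⟨a, ha⟩ := h62t_surj_inf A M hq hM haux hA
    (h62rBeta A M hq hM hA u + δ * ε)
  refine ⟨a, Ideal.mem_comap.mp ha, fun hcon => ?_⟩
  -- `α a ∈ 𝔫'`
  have hψ𝔫' : h62rBeta A M hq hM hA u + δ * ε ∈ 𝔫' :=
    𝔫'.add_mem hβu𝔫' (𝔫'.mul_mem_left _ hε𝔫')
  have hαa𝔫' : h62rAlpha A M a ∈ 𝔫' := by
    have h1 : h62rAlpha A M (q := q) a =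
        (h62rBeta A M hq hM hA u + δ * ε) -
          (h62rBeta A M hq hM hA u + δ * ε - h62rAlpha A M a) := by ring
    rw [h1]
    exact 𝔫'.sub_mem hψ𝔫' hcon
  have hαa𝔑 : h62i_α A M q (h60rIncl A M (jB M) a) ∈ 𝔑 :=
    hα𝔑 _ (Ideal.mem_comap.mpr ((hmem (h62rAlpha A M a)).mpr hαa𝔫'))
  -- `ψ ∈ 𝔑`
  have hψ𝔑 : h60rIncl A (M * q) (jSS M q) (h62rBeta A M hq hM hA u + δ * ε) ∈ 𝔑 := by
    have h1 : h60rIncl A (M * q) (jSS M q) (h62rBeta A M hq hM hA u + δ * ε) =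
        h60rIncl A (M * q) (jSS M q)
          (h62rBeta A M hq hM hA u + δ * ε - h62rAlpha A M a) +
        h62i_α A M q (h60rIncl A M (jB M) a) := by
      rw [map_sub]
      show _ = _ - h62i_α A M q (h60rIncl A M (jB M) a) + _
      ring
    rw [h1]
    exact Ideal.add_mem _ (hPinf𝔑 (Ideal.mem_comap.mp ha)) hαa𝔑
  have hδε : h60rIncl A (M * q) (jSS M q) δ * h60rIncl A (M * q) (jSS M q) ε ∈ 𝔑 := by
    have h1 : h60rIncl A (M * q) (jSS M q) δ * h60rIncl A (M * q) (jSS M q) ε =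
        h60rIncl A (M * q) (jSS M q) (h62rBeta A M hq hM hA u + δ * ε) -
          h62i_β A M hq hM hA (h60rIncl A M (jB M) u) := by
      rw [map_add, map_mul]
      show _ = h62i_β A M hq hM hA (h60rIncl A M (jB M) u) + _ - _
      ring
    rw [h1]
    exact Ideal.sub_mem _ hψ𝔑 hβu𝔑
  have hδ𝔑 : h60rIncl A (M * q) (jSS M q) δ ∈ 𝔑 :=
    (h𝔑p.mem_or_mem hδε).resolve_right hε𝔑'
  -- `δ ≡ 1` modulo `𝔪`
  obtain ⟨c, hc⟩ := Ideal.mem_span_singleton'.mp hδ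
  have hq𝔑 : ((q : ℕ) : chart (M * q) A (jSS M q)) ∈ 𝔑 := by
    apply hm𝔑
    have h1 : ((q : ℕ) : chart (M * q) A (jSS M q)) =
        algebraMap A (chart (M * q) A (jSS M q)) ((q : ℕ) : A) := (map_natCast _ q).symm
    rw [h1]
    exact Ideal.mem_map_of_mem _ (h62i_natCast_mem A hA)
  have h1𝔑 : (1 : chart (M * q) A (jSS M q)) ∈ 𝔑 := by
    have h2 := congrArg (h60rIncl A (M * q) (jSS M q)) hc
    rw [map_mul, map_natCast, map_sub, map_one] at h2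
    have h3 : h60rIncl A (M * q) (jSS M q) δ -
        h60rIncl A (M * q) (jSS M q) c * ((q : ℕ) : chart (M * q) A (jSS M q)) ∈ 𝔑 :=
      Ideal.sub_mem _ hδ𝔑 (Ideal.mul_mem_left _ _ hq𝔑)
    have h4 : h60rIncl A (M * q) (jSS M q) δ -
        h60rIncl A (M * q) (jSS M q) c * ((q : ℕ) : chart (M * q) A (jSS M q)) = 1 := by
      rw [h2]
      ring
    rw [h4] at h3
    exact h3
  exact h𝔑p.ne_top ((Ideal.eq_top_iff_one _).mpr h1𝔑)

end Fermat.Agent.S36
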