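import Fermat.Agent.S36.H62L1Smooth
import Fermat.Agent.S36.H62FinIface
import Fermat.Agent.S36.H62LeafNoeth
import Fermat.Agent.S36.H59Base2
import Fermat.Agent.S36.H31RegOverlap

/-!
# S36, block REG (helper62): the finite chart of level `M q²` — GEOMETRIC case leaves and the
final assembly of `H62RegStatement`

`𝔫₂` a closed point `∋ q` of `B₂ = h62rChart A (M q²) (jB (M q²))`, `𝔫₁ = α₂⁻¹ 𝔫₂`
(`α₂ = h62rA2`), `P∞₀ = h62sPinf`, `P0₀ = h62sP0` the two components of the special fibre of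
`B₁ = h62rChart A (M q) (jSS M q)` (`z ∈ P∞₀ ↔ z` is a non-unit of the Gauss ring `W∞`,
`z ∈ P0₀ ↔ kFricke z` is; these are `h29l_OnInf`, `h29l_OnZero` of helper29 as ideals).

* `H62GeoNode` : `P∞₀ ≤ 𝔫₁ → P0₀ ≤ 𝔫₁ → H62Datum 𝔫₂ q`   (supersingular points);
* `H62GeoInf`  : `¬ P0₀ ≤ 𝔫₁ → H62Datum 𝔫₂ q`             (ordinary points over `C_∞`);
* `H62GeoZero` : `¬ P∞₀ ≤ 𝔫₁ → H62Datum 𝔫₂ q`             (ordinary points over `C_0`);
* `h62g_leafFin_of : H62GeoNode → H62GeoInf → H62GeoZero → H62LeafFin`;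
* `h62g_regStatement_of : H62GeoNode → H62GeoInf → H62GeoZero → H62LeafCusp → H62RegStatement`
  (R-BASE0 `h62r_leafNoeth`, R-OVERLAP `h31v_leafOverlap` are landed);
* adapters from the datum leaves of `S36/H62FinIface.lean`:
  `h62g_node_of : H62L1NodeCase → H62FinNode → H62GeoNode`, `h62g_inf_of : H62FinInf → H62GeoInf`,
  `h62g_zero_of : H62FinZero → H62GeoZero`; `h62g_finContr : H62FinContr` (from helper59).
* `h62s_mem_Pinf`, `h62s_mem_P0` : membership in `P∞₀`, `P0₀` in terms of the Gauss ring.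
-/

set_option autoImplicit false
set_option linter.unusedSectionVars false
set_option linter.style.haveILetI false

open AlgebraicCurve ModularCurve IsLocalRing

noncomputable section

namespace Fermat.Agent.S36

open Fermat.Agent.S37 Fermat.Agent.Red Fermat.Agent.Red.GG Fermat.Agent.LGC
open Fermat.Agent.Red.GV.Soft (softRing)
open Fermat.Agent.Red.Kron (kFricke)

section Mem

variable (A : ValuationSubring Kbar) (M : ℕ) {q : ℕ} [NeZero M] [NeZero q]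
  (hq : q.Prime) (hM : ¬ q ∣ M) (hA : A.LiesOverPrime q)

theorem h62s_mem_Pinf (z : h62rChart A (M * q) (jSS M q)) :
    z ∈ h62sPinf A M hq hM hA ↔ (z : FF (M * q)) ∈ (softRing A (M * q) hq hA).nonunits := by
  rw [h62sPinf, Ideal.mem_comap, h62i_mem_Pinf]
  rfl

theorem h62s_mem_P0 (z : h62rChart A (M * q) (jSS M q)) :
    z ∈ h62sP0 A M hq hM hA ↔
      kFricke M q hq hM (z : FF (M * q)) ∈ (softRing A (M * q) hq hA).nonunits := by
  rw [h62sP0, Ideal.mem_comap, h62i_mem_P0]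
  rfl

theorem h62g_A2_eq : h62rA2 A M (q := q) = h59y_a2 A M :=
  RingHom.ext fun _ => Subtype.ext rfl

end Mem

/-- **R-BASE2 (contraction)**, from helper59's integrality of `α₂`. -/
theorem h62g_finContr : H62FinContr := by
  intro q hq M _ hM haux
  haveI : NeZero q := ⟨hq.ne_zero⟩
  intro A hA 𝔫₂ h𝔫₂ hq𝔫₂
  rw [h62g_A2_eq]
  exact (h59y_comap_a2 A M 𝔫₂ h𝔫₂ hq𝔫₂).1

/-- **supersingular points** of the finite chart of level `M q²` (geometric form). -/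
def H62GeoNode : Prop :=
  ∀ (q : ℕ) (hq : q.Prime) (M : ℕ) [NeZero M] (hM : ¬ q ∣ M), auxLevel q ∣ M →
    haveI : NeZero q := ⟨hq.ne_zero⟩
    ∀ (A : ValuationSubring Kbar) (hA : A.LiesOverPrime q),
      ∀ 𝔫₂ : Ideal (h62rChart A (M * q * q) (jB (M * q * q))), 𝔫₂.IsMaximal →
        (q : h62rChart A (M * q * q) (jB (M * q * q))) ∈ 𝔫₂ →
        h62sPinf A M hq hM hA ≤ 𝔫₂.comap (h62rA2 A M) →
        h62sP0 A M hq hM hA ≤ 𝔫₂.comap (h62rA2 A M) → H62Datum 𝔫₂ q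

/-- **ordinary points over `C_∞`** (geometric form). -/
def H62GeoInf : Prop :=
  ∀ (q : ℕ) (hq : q.Prime) (M : ℕ) [NeZero M] (hM : ¬ q ∣ M), auxLevel q ∣ M →
    haveI : NeZero q := ⟨hq.ne_zero⟩
    ∀ (A : ValuationSubring Kbar) (hA : A.LiesOverPrime q),
      ∀ 𝔫₂ : Ideal (h62rChart A (M * q * q) (jB (M * q * q))), 𝔫₂.IsMaximal →
        (q : h62rChart A (M * q * q) (jB (M * q * q))) ∈ 𝔫₂ →
        ¬ h62sP0 A M hq hM hA ≤ 𝔫₂.comap (h62rA2 A M) → H62Datum 𝔫₂ q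

/-- **ordinary points over `C_0`** (geometric form). -/
def H62GeoZero : Prop :=
  ∀ (q : ℕ) (hq : q.Prime) (M : ℕ) [NeZero M] (hM : ¬ q ∣ M), auxLevel q ∣ M →
    haveI : NeZero q := ⟨hq.ne_zero⟩
    ∀ (A : ValuationSubring Kbar) (hA : A.LiesOverPrime q),
      ∀ 𝔫₂ : Ideal (h62rChart A (M * q * q) (jB (M * q * q))), 𝔫₂.IsMaximal →
        (q : h62rChart A (M * q * q) (jB (M * q * q))) ∈ 𝔫₂ →
        ¬ h62sPinf A M hq hM hA ≤ 𝔫₂.comap (h62rA2 A M) → H62Datum 𝔫₂ q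

/-- **R-FIN (geometric assembly).** -/
theorem h62g_leafFin_of (hn : H62GeoNode) (hi : H62GeoInf) (hz : H62GeoZero) : H62LeafFin := by
  intro q hq M _ hqM haux
  haveI : NeZero q := ⟨hq.ne_zero⟩
  intro A hA 𝔫₂ h𝔫₂ hq𝔫₂
  by_cases h0 : h62sP0 A M hq hqM hA ≤ 𝔫₂.comap (h62rA2 A M)
  · by_cases hinf : h62sPinf A M hq hqM hA ≤ 𝔫₂.comap (h62rA2 A M)
    · exact hn q hq M hqM haux A hA 𝔫₂ h𝔫₂ hq𝔫₂ hinf h0
    · exact hz q hq M hqM haux A hA 𝔫₂ h𝔫₂ hq𝔫₂ hinf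
  · exact hi q hq M hqM haux A hA 𝔫₂ h𝔫₂ hq𝔫₂ h0

/-- **REG, final assembly**: the three geometric leaves of the finite chart and the cusps. -/
theorem h62g_regStatement_of (hn : H62GeoNode) (hi : H62GeoInf) (hz : H62GeoZero)
    (hC : H62LeafCusp) : H62RegStatement :=
  h62r_regStatement_of' (h62g_leafFin_of hn hi hz) hC h31v_leafOverlap

/-! ## Adapters from the datum leaves -/

theorem h62g_q_mem_comap (A : ValuationSubring Kbar) (M : ℕ) {q : ℕ} [NeZero M] [NeZero q]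
    (𝔫₂ : Ideal (h62rChart A (M * q * q) (jB (M * q * q))))
    (hq𝔫₂ : (q : h62rChart A (M * q * q) (jB (M * q * q))) ∈ 𝔫₂) :
    (q : h62rChart A (M * q) (jSS M q)) ∈ 𝔫₂.comap (h62rA2 A M) := by
  rw [Ideal.mem_comap, map_natCast]
  exact hq𝔫₂

theorem h62g_node_of (h1 : H62L1NodeCase) (hn : H62FinNode) : H62GeoNode := by
  intro q hq M _ hM haux
  haveI : NeZero q := ⟨hq.ne_zero⟩
  intro A hA 𝔫₂ h𝔫₂ hq𝔫₂ hinf h0
  exact hn q hq M hM haux A hA 𝔫₂ h𝔫₂ hq𝔫₂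
    (h1 q hq M hM haux A hA _ (h62g_finContr q hq M hM haux A hA 𝔫₂ h𝔫₂ hq𝔫₂)
      (h62g_q_mem_comap A M 𝔫₂ hq𝔫₂) hinf h0)

theorem h62g_inf_of (hi : H62FinInf) : H62GeoInf := by
  intro q hq M _ hM haux
  haveI : NeZero q := ⟨hq.ne_zero⟩
  intro A hA 𝔫₂ h𝔫₂ hq𝔫₂ h0
  haveI : 𝔫₂.IsPrime := h𝔫₂.isPrime
  haveI : (𝔫₂.comap (h62rA2 A M)).IsPrime := Ideal.comap_isPrime _ _
  exact hi q hq M hM haux A hA 𝔫₂ h𝔫₂ hq𝔫₂
    (h62s_infDatum A M hq hM hA _ haux (h62g_q_mem_comap A M 𝔫₂ hq𝔫₂) h0)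

theorem h62g_zero_of (hz : H62FinZero) : H62GeoZero := by
  intro q hq M _ hM haux
  haveI : NeZero q := ⟨hq.ne_zero⟩
  intro A hA 𝔫₂ h𝔫₂ hq𝔫₂ hinf
  haveI : 𝔫₂.IsPrime := h𝔫₂.isPrime
  haveI : (𝔫₂.comap (h62rA2 A M)).IsPrime := Ideal.comap_isPrime _ _
  exact hz q hq M hM haux A hA 𝔫₂ h𝔫₂ hq𝔫₂
    (h62s_zeroDatum A M hq hM hA _ haux (h62g_q_mem_comap A M 𝔫₂ hq𝔫₂) hinf)

end Fermat.Agent.S36
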