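import Fermat.Agent.S36.H62Dim
import Fermat.Agent.S36.H62L0

/-!
# S36, block REG, row R-L1 (helper62): the smooth points of the special fibre of level `M q`
over `A₀`, and the trichotomy

`B₀ = h62rChart A (M q) (jSS M q)`, `ι = h62rIncl`, `P∞₀ = ι⁻¹ P∞`, `P0₀ = ι⁻¹ P₀`.

* `h62s_loc_principal` (abstract): if `P0₀ ⊄ 𝔫₁` then `P∞₀ = (π)` locally at `𝔫₁`.
* `h62s_transport` (abstract): if `P0₀ ⊄ 𝔫₁`, a local parameter `t` of `Λ₀` at `α₀⁻¹ 𝔫₁`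
  gives `𝔫₁ = (π, α₀ t)` locally.
* `h62s_infDatum`  : `P0₀ ⊄ 𝔫₁ → H62InfDatum`   (frozen datum of `S36/H62L1Iface.lean`);
* `h62s_zeroDatum` : `P∞₀ ⊄ 𝔫₁ → H62ZeroDatum`;
* `H62L1NodeCase`  : the node case (`P∞₀, P0₀ ⊆ 𝔫₁ → H62NodeDatum`), frozen;
* `h62s_L1_of : H62L1NodeCase → H62L1`.
-/

set_option autoImplicit false
set_option linter.unusedSectionVars false
set_option linter.style.haveILetI false

open AlgebraicCurve ModularCurve IsLocalRing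

noncomputable section

namespace Fermat.Agent.S36

section Abs

variable {Λ₀ Λ B₀ B : Type*} [CommRing Λ₀] [CommRing Λ] [CommRing B₀] [CommRing B]

/-- if `𝔫₁` does not lie on the component `P'`, the other component `P` is `(π)` locally. -/
theorem h62s_loc_principal (ι : B₀ →+* B) (𝔪 : Ideal B) (π : B₀)
    (inj : ∀ x : B₀, ι x ∈ 𝔪 → ∃ y : B₀, x = π * y)
    (P P' : Ideal B) (hPQ : P ⊓ P' ≤ 𝔪)
    (𝔫₁ : Ideal B₀) (hP' : ¬ P'.comap ι ≤ 𝔫₁) (z : B₀) (hz : ι z ∈ P) :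
    ∃ s, s ∉ 𝔫₁ ∧ s * z ∈ Ideal.span {π} := by
  obtain ⟨x, hxP, hx𝔫⟩ := Set.not_subset.mp hP'
  refine ⟨x, hx𝔫, ?_⟩
  have h1 : ι (x * z) ∈ 𝔪 := by
    apply hPQ
    rw [map_mul]
    exact ⟨P.mul_mem_left _ hz, P'.mul_mem_right _ (Ideal.mem_comap.mp hxP)⟩
  obtain ⟨y, hy⟩ := inj _ h1
  rw [hy]
  exact Ideal.mem_span_singleton'.mpr ⟨y, mul_comm _ _⟩

/-- transport of a local parameter along `α₀` at a point lying on the component `P` only. -/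
theorem h62s_transport (ιΛ : Λ₀ →+* Λ) (ι : B₀ →+* B) (α₀ : Λ₀ →+* B₀) (α : Λ →+* B)
    (hcompat : ∀ x, ι (α₀ x) = α (ιΛ x))
    (𝔪Λ : Ideal Λ) (𝔪 : Ideal B) (π : B₀) (πΛ : Λ₀) (hαπ : α₀ πΛ = π)
    (surjΛ : ∀ b : Λ, ∃ b₀ : Λ₀, b - ιΛ b₀ ∈ 𝔪Λ)
    (inj : ∀ x : B₀, ι x ∈ 𝔪 → ∃ y : B₀, x = π * y)
    (P P' : Ideal B) (hPQ : P ⊓ P' ≤ 𝔪)
    (hα𝔪 : ∀ m ∈ 𝔪Λ, α m ∈ P)
    (hsurj : ∀ b : B, ∃ x : Λ, b - α x ∈ P)
    (𝔫₁ : Ideal B₀) [h𝔫 : 𝔫₁.IsPrime] (hπ𝔫 : π ∈ 𝔫₁) (hP' : ¬ P'.comap ι ≤ 𝔫₁)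
    (t : Λ₀)
    (hgen : ∀ z ∈ 𝔫₁.comap α₀, ∃ s, s ∉ 𝔫₁.comap α₀ ∧ s * z ∈ Ideal.span {πΛ, t}) :
    ∀ z ∈ 𝔫₁, ∃ s, s ∉ 𝔫₁ ∧ s * z ∈ Ideal.span {π, α₀ t} := by
  intro z hz
  obtain ⟨x, hxP, hx𝔫⟩ := Set.not_subset.mp hP'
  obtain ⟨l, hl⟩ := hsurj (ι z)
  obtain ⟨l₀, hl₀⟩ := surjΛ l
  -- `z - α₀ l₀ ∈ P∞₀`
  have h1 : ι (z - α₀ l₀) ∈ P := by
    have h2 : ι (z - α₀ l₀) = (ι z - α l) + α (l - ιΛ l₀) := by
      rw [map_sub, hcompat, map_sub]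
      ring
    rw [h2]
    exact P.add_mem hl (hα𝔪 _ hl₀)
  have h3 : ι (x * (z - α₀ l₀)) ∈ 𝔪 := by
    apply hPQ
    rw [map_mul]
    exact ⟨P.mul_mem_left _ h1, P'.mul_mem_right _ (Ideal.mem_comap.mp hxP)⟩
  obtain ⟨y, hy⟩ := inj _ h3
  -- `α₀ l₀ ∈ 𝔫₁`
  have h4 : x * (z - α₀ l₀) ∈ 𝔫₁ := by
    rw [hy]
    exact 𝔫₁.mul_mem_right _ hπ𝔫
  have h5 : z - α₀ l₀ ∈ 𝔫₁ := (h𝔫.mem_or_mem h4).resolve_left hx𝔫
  have h6 : α₀ l₀ ∈ 𝔫₁ := by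
    have h7 : α₀ l₀ = z - (z - α₀ l₀) := by ring
    rw [h7]
    exact 𝔫₁.sub_mem hz h5
  obtain ⟨s', hs', hs'l⟩ := hgen l₀ (Ideal.mem_comap.mpr h6)
  obtain ⟨a, b, hab⟩ := Ideal.mem_span_pair.mp hs'l
  have hs'𝔫 : α₀ s' ∉ 𝔫₁ := fun h => hs' (Ideal.mem_comap.mpr h)
  refine ⟨x * α₀ s', fun h => (h𝔫.mem_or_mem h).elim hx𝔫 hs'𝔫, ?_⟩
  have h8 : α₀ s' * α₀ l₀ = α₀ a * π + α₀ b * α₀ t := by
    rw [← map_mul, ← hab, map_add, map_mul, map_mul, hαπ]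
  have h9 : x * α₀ s' * z = (α₀ s' * y + x * α₀ a) * π + (x * α₀ b) * α₀ t := by
    have h10 : x * α₀ s' * z = α₀ s' * (x * (z - α₀ l₀)) + x * (α₀ s' * α₀ l₀) := by ring
    rw [h10, hy, h8]
    ring
  rw [h9]
  exact Ideal.mem_span_pair.mpr ⟨_, _, rfl⟩

end Abs

open Fermat.Agent.S37 Fermat.Agent.Red Fermat.Agent.Red.GG Fermat.Agent.LGC

section Inst

variable (A : ValuationSubring Kbar) (M : ℕ) {q : ℕ} [NeZero M] [NeZero q]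
  (hq : q.Prime) (hM : ¬ q ∣ M) (hA : A.LiesOverPrime q)

/-- the component `C_∞` of the special fibre of the chart over `A₀`. -/
def h62sPinf : Ideal (h62rChart A (M * q) (jSS M q)) :=
  (h62i_Pinf A M hq hM hA).comap (h62rIncl A (M * q) (jSS M q))

/-- the component `C_0` of the special fibre of the chart over `A₀`. -/
def h62sP0 : Ideal (h62rChart A (M * q) (jSS M q)) :=
  (h62i_P0 A M hq hM hA).comap (h62rIncl A (M * q) (jSS M q))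

theorem h62s_incl_alpha (x : h62rChart A M (jB M)) :
    h62rIncl A (M * q) (jSS M q) (h62rAlpha A M x) =
      (h62i_α A M q : chart M A (jB M) →+* chart (M * q) A (jSS M q))
        (h62rIncl A M (jB M) x) := rfl

theorem h62s_incl_beta (x : h62rChart A M (jB M)) :
    h62rIncl A (M * q) (jSS M q) (h62rBeta A M hq hM hA x) =
      (h62i_β A M hq hM hA : chart M A (jB M) →+* chart (M * q) A (jSS M q))
        (h62rIncl A M (jB M) x) := rfl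

/-- `B = β Λ + P₀`. -/
theorem h62s_surj_beta (haux : auxLevel q ∣ M) (b : chart (M * q) A (jSS M q)) :
    ∃ x : chart M A (jB M),
      b - (h62i_β A M hq hM hA : chart M A (jB M) →+* chart (M * q) A (jSS M q)) x ∈
        h62i_P0 A M hq hM hA := by
  obtain ⟨x, hx⟩ := h62d_surj A M hq hM haux hA (h62i_w A M hq hM hA b)
  refine ⟨x, ?_⟩
  rw [h62i_mem_P0_iff_w, map_sub]
  have h1 : h62i_w A M hq hM hA
      ((h62i_β A M hq hM hA : chart M A (jB M) →+* chart (M * q) A (jSS M q)) x) =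
      h62i_α A M q x := h62i_w_β A M hq hM hA x
  rw [h1]
  exact hx

/-- Frobenius congruence on `C_0`: `α u ≡ (β u) ^ q` modulo `P₀`, `u` rational. -/
theorem h62s_frob_zero (u : chart M A (jB M)) (hu : u ∈ h62i_R A M) :
    h62i_α A M q u - (h62i_β A M hq hM hA u) ^ q ∈ h62i_P0 A M hq hM hA := by
  rw [h62i_mem_P0_iff_w, map_sub, map_pow, h62i_w_α, h62i_w_β]
  exact h62d_frob A M hq hM hA u hu

variable (𝔫₁ : Ideal (h62rChart A (M * q) (jSS M q)))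

/-- **the smooth points of `C_∞`**. -/
theorem h62s_infDatum (haux : auxLevel q ∣ M) [h𝔫 : 𝔫₁.IsPrime]
    (hq𝔫 : (q : h62rChart A (M * q) (jSS M q)) ∈ 𝔫₁)
    (hP0 : ¬ h62sP0 A M hq hM hA ≤ 𝔫₁) : H62InfDatum A M hq hM hA 𝔫₁ := by
  obtain ⟨surjΛ, -⟩ := h25i_redIso_M_fin (A := A) (M := M) hq hM hA
  obtain ⟨-, inj⟩ := h25i_redIso_Mq_fin (A := A) (M := M) hq hM hA
  refine ⟨fun u hu => ?_, fun t _ hgen => ?_⟩
  · refine h62s_loc_principal (h62rIncl A (M * q) (jSS M q)) (h62rM A (M * q) (jSS M q))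
      (q : h62rChart A (M * q) (jSS M q)) inj (h62i_Pinf A M hq hM hA) (h62i_P0 A M hq hM hA)
      (h62c_comp A M hq hM hA) 𝔫₁ hP0 _ ?_
    have h1 := h62d_frob A M hq hM hA (h62rIncl A M (jB M) u)
      ((h62i_mem_R A M _).mpr hu)
    rw [map_sub, map_pow]
    exact h1
  · refine h62s_transport (h62rIncl A M (jB M)) (h62rIncl A (M * q) (jSS M q))
      (h62rAlpha A M) (h62i_α A M q : chart M A (jB M) →+* chart (M * q) A (jSS M q))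
      (fun x => h62s_incl_alpha A M x)
      (h62rM A M (jB M)) (h62rM A (M * q) (jSS M q))
      (q : h62rChart A (M * q) (jSS M q)) (q : h62rChart A M (jB M)) (map_natCast _ q)
      surjΛ inj (h62i_Pinf A M hq hM hA) (h62i_P0 A M hq hM hA) (h62c_comp A M hq hM hA)
      (fun m hm => h62i_m_le_Pinf A M hq hM hA (h62l_map_mem _ (h62i_α A M q) hm))
      (fun b => h62d_surj A M hq hM haux hA b) 𝔫₁ hq𝔫 hP0 t hgen

/-- **the smooth points of `C_0`**. -/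
theorem h62s_zeroDatum (haux : auxLevel q ∣ M) [h𝔫 : 𝔫₁.IsPrime]
    (hq𝔫 : (q : h62rChart A (M * q) (jSS M q)) ∈ 𝔫₁)
    (hPinf : ¬ h62sPinf A M hq hM hA ≤ 𝔫₁) : H62ZeroDatum A M hq hM hA 𝔫₁ := by
  obtain ⟨surjΛ, -⟩ := h25i_redIso_M_fin (A := A) (M := M) hq hM hA
  obtain ⟨-, inj⟩ := h25i_redIso_Mq_fin (A := A) (M := M) hq hM hA
  have hcomp : h62i_P0 A M hq hM hA ⊓ h62i_Pinf A M hq hM hA ≤ h62rM A (M * q) (jSS M q) := by
    rw [inf_comm]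
    exact h62c_comp A M hq hM hA
  refine ⟨fun u hu => ?_, fun t _ hgen => ?_⟩
  · refine h62s_loc_principal (h62rIncl A (M * q) (jSS M q)) (h62rM A (M * q) (jSS M q))
      (q : h62rChart A (M * q) (jSS M q)) inj (h62i_P0 A M hq hM hA) (h62i_Pinf A M hq hM hA)
      hcomp 𝔫₁ hPinf _ ?_
    have h1 := h62s_frob_zero A M hq hM hA (h62rIncl A M (jB M) u)
      ((h62i_mem_R A M _).mpr hu)
    rw [map_sub, map_pow]
    exact h1
  · refine h62s_transport (h62rIncl A M (jB M)) (h62rIncl A (M * q) (jSS M q))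
      (h62rBeta A M hq hM hA)
      (h62i_β A M hq hM hA : chart M A (jB M) →+* chart (M * q) A (jSS M q))
      (fun x => h62s_incl_beta A M hq hM hA x)
      (h62rM A M (jB M)) (h62rM A (M * q) (jSS M q))
      (q : h62rChart A (M * q) (jSS M q)) (q : h62rChart A M (jB M)) (map_natCast _ q)
      surjΛ inj (h62i_P0 A M hq hM hA) (h62i_Pinf A M hq hM hA) hcomp
      (fun m hm => h62i_m_le_P0 A M hq hM hA (h62l_map_mem _ (h62i_β A M hq hM hA) hm))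
      (fun b => h62s_surj_beta A M hq hM hA haux b) 𝔫₁ hq𝔫 hPinf t hgen

end Inst

/-- **R-L1, node case** (frozen): a closed point lying on both components carries the node
datum. -/
def H62L1NodeCase : Prop :=
  ∀ (q : ℕ) (hq : q.Prime) (M : ℕ) [NeZero M] (hM : ¬ q ∣ M), auxLevel q ∣ M →
    haveI : NeZero q := ⟨hq.ne_zero⟩
    ∀ (A : ValuationSubring Kbar) (hA : A.LiesOverPrime q),
      ∀ 𝔫₁ : Ideal (h62rChart A (M * q) (jSS M q)), 𝔫₁.IsMaximal →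
        (q : h62rChart A (M * q) (jSS M q)) ∈ 𝔫₁ →
        h62sPinf A M hq hM hA ≤ 𝔫₁ → h62sP0 A M hq hM hA ≤ 𝔫₁ →
          H62NodeDatum A M hq hM hA 𝔫₁

/-- **R-L1** from the node case. -/
theorem h62s_L1_of (hN : H62L1NodeCase) : H62L1 := by
  intro q hq M _ hM haux
  haveI : NeZero q := ⟨hq.ne_zero⟩
  intro A hA 𝔫₁ h𝔫 hq𝔫
  haveI : 𝔫₁.IsPrime := h𝔫.isPrime
  by_cases h0 : h62sP0 A M hq hM hA ≤ 𝔫₁
  · by_cases hinf : h62sPinf A M hq hM hA ≤ 𝔫₁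
    · exact Or.inl (hN q hq M hM haux A hA 𝔫₁ h𝔫 hq𝔫 hinf h0)
    · exact Or.inr (Or.inr (h62s_zeroDatum A M hq hM hA 𝔫₁ haux hq𝔫 hinf))
  · exact Or.inr (Or.inl (h62s_infDatum A M hq hM hA 𝔫₁ haux hq𝔫 h0))

end Fermat.Agent.S36
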