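import Mathlib

/-!
# S36, block REG (helper62): `Y ^ n ∉ (X)` locally at a two-generator point of dimension `≥ 2`

`h62n_pow_not_mem` : `B` a noetherian domain, `𝔫` a prime with `𝔫 = (X, Y)` locally, and a
nonzero prime `P ⊊ 𝔫` (the point lies on a curve of the fibre).  Then `s * Y ^ n ∉ (X)` for
`s ∉ 𝔫` (Krull's principal ideal theorem).  This is the hypothesis `hnil` of `h80r_regular`,
`h80u_ufd_of_two_gen`, in chart form.

Mathlib only.
-/

set_option autoImplicit false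

namespace Fermat.Agent.S36

variable {B : Type*} [CommRing B]

theorem h62n_pow_not_mem [IsDomain B] [IsNoetherianRing B] (𝔫 : Ideal B) [h𝔫 : 𝔫.IsPrime]
    (X Y : B) (hX : X ∈ 𝔫)
    (hgen : ∀ z ∈ 𝔫, ∃ s, s ∉ 𝔫 ∧ s * z ∈ Ideal.span {X, Y})
    (P : Ideal B) [hP : P.IsPrime] (hP0 : P ≠ ⊥) (hle : P ≤ 𝔫) (hne : P ≠ 𝔫) :
    ∀ (n : ℕ) (s : B), s ∉ 𝔫 → s * Y ^ n ∉ Ideal.span {X} := by
  intro n s hs hmem
  -- `𝔫` is a minimal prime over `(X)`
  have hmin : 𝔫 ∈ (Ideal.span {X}).minimalPrimes := by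
    refine ⟨⟨h𝔫, (Ideal.span_singleton_le_iff_mem 𝔫).mpr hX⟩, ?_⟩
    rintro Q ⟨hQ, hXQ⟩ hQ𝔫
    have hXQ' : X ∈ Q := (Ideal.span_singleton_le_iff_mem Q).mp hXQ
    have hsQ : s ∉ Q := fun h => hs (hQ𝔫 h)
    have hYQ : Y ∈ Q := by
      have h1 : s * Y ^ n ∈ Q := hXQ hmem
      rcases hQ.mem_or_mem h1 with h | h
      · exact absurd h hsQ
      · exact hQ.mem_of_pow_mem n h
    intro z hz
    obtain ⟨s', hs', hz'⟩ := hgen z hz
    have h2 : s' * z ∈ Q := by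
      have hle' : Ideal.span {X, Y} ≤ Q := by
        rw [Ideal.span_le]
        intro w hw
        rcases hw with rfl | rfl
        · exact hXQ'
        · exact hYQ
      exact hle' hz'
    rcases hQ.mem_or_mem h2 with h | h
    · exact absurd (hQ𝔫 h) hs'
    · exact h
  have h1 : 𝔫.height ≤ 1 :=
    Ideal.height_le_one_of_isPrincipal_of_mem_minimalPrimes (Ideal.span {X}) 𝔫 hmin
  have hbot : (⊥ : Ideal B) < P := bot_lt_iff_ne_bot.mpr hP0
  have hP𝔫 : P < 𝔫 := lt_of_le_of_ne hle hne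
  have hbp : (⊥ : Ideal B).IsPrime := Ideal.isPrime_bot
  have h2 : (⊥ : Ideal B).height + 1 ≤ P.height := Ideal.height_add_one_le_of_lt_of_isPrime hbot
  have h3 : P.height + 1 ≤ 𝔫.height := Ideal.height_add_one_le_of_lt_of_isPrime hP𝔫
  have h4 : (1 : ℕ∞) ≤ P.height := le_trans (le_add_self) h2
  have h5 : (2 : ℕ∞) ≤ 𝔫.height := by
    calc (2 : ℕ∞) = 1 + 1 := by norm_num
      _ ≤ P.height + 1 := by gcongr
      _ ≤ 𝔫.height := h3
  have h6 : (2 : ℕ∞) ≤ 1 := le_trans h5 h1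
  exact absurd h6 (by decide)

end Fermat.Agent.S36
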