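import Fermat.Agent.S36.H62FinIface
import Fermat.Agent.S36.H59Base2
import Fermat.Agent.S36.H95Cusp

/-!
# S36, block REG, row R-ORD (helper80): frozen leaves of the ordinary points, and the assembly

`B₁ = h62rChart A (M q) (jSS M q)`, `B₂ = h62rChart A (M q²) (jB (M q²))` (charts over `A₀`),
`α₂ = h62rA2 A M`, `β₂ = h59y_b2 A M hq hM hA : B₁ →+* B₂`.  A closed point `𝔫₂ ∋ q` of `B₂` has
the two contractions `α₂⁻¹ 𝔫₂` and `β₂⁻¹ 𝔫₂`, closed points of `B₁`.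

All conclusions are in the STRONG form `h95s_OneDatum 𝔫₂ q` (the one-branch datum).

* `H80FinZeroOne` (**R-ORD-0**, points of `C₀₂`): `α₂⁻¹ 𝔫₂` smooth on `C_0`.
* `H80FinInfOne` (points of `C₂₀` and `C₁₁`): `α₂⁻¹ 𝔫₂` smooth on `C_∞`.
* `H80OrdC20` (**R-ORD-20**): `β₂⁻¹ 𝔫₂` smooth on `C_∞`  (Fricke transport of R-ORD-0).
* `H80OrdC11` (**R-ORD-11**): `α₂⁻¹ 𝔫₂` smooth on `C_∞` and `β₂⁻¹ 𝔫₂` smooth on `C_0`.
* `H80OrdExcl` (**R-ORD-X**): `α₂⁻¹ 𝔫₂` smooth on `C_∞` excludes a node at `β₂⁻¹ 𝔫₂`.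
* `h80i_finInfOne_of : H62L1 → H80OrdExcl → H80OrdC20 → H80OrdC11 → H80FinInfOne`,
  `h80i_finInf_of : H80FinInfOne → H62FinInf`, `h80i_finZero_of : H80FinZeroOne → H62FinZero`.

Every declaration is a definition or a proved theorem; nothing is assumed.
-/

set_option autoImplicit false
set_option linter.unusedSectionVars false
set_option linter.style.haveILetI false

open AlgebraicCurve ModularCurve IsLocalRing

noncomputable section

namespace Fermat.Agent.S36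

open Fermat.Agent.S37 Fermat.Agent.Red.GG Fermat.Agent.LGC

/-- `h62rA2` is `h59y_a2`. -/
theorem h80i_A2_eq (A : ValuationSubring Kbar) (M : ℕ) {q : ℕ} [NeZero M] [NeZero q] :
    h62rA2 A M (q := q) = h59y_a2 A M (q := q) :=
  RingHom.ext fun _ => rfl

/-- **R-ORD-0 (strong form)**: the closed points over a smooth point of `C_0`. -/
def H80FinZeroOne : Prop :=
  ∀ (q : ℕ) (hq : q.Prime) (M : ℕ) [NeZero M] (hM : ¬ q ∣ M), auxLevel q ∣ M →
    haveI : NeZero q := ⟨hq.ne_zero⟩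
    ∀ (A : ValuationSubring Kbar) (hA : A.LiesOverPrime q),
      ∀ 𝔫₂ : Ideal (h62rChart A (M * q * q) (jB (M * q * q))), 𝔫₂.IsMaximal →
        (q : h62rChart A (M * q * q) (jB (M * q * q))) ∈ 𝔫₂ →
        H62ZeroDatum A M hq hM hA (𝔫₂.comap (h62rA2 A M)) →
          h95s_OneDatum 𝔫₂ (q : h62rChart A (M * q * q) (jB (M * q * q)))

/-- **R-ORD-∞ (strong form)**: the closed points over a smooth point of `C_∞`. -/
def H80FinInfOne : Prop :=
  ∀ (q : ℕ) (hq : q.Prime) (M : ℕ) [NeZero M] (hM : ¬ q ∣ M), auxLevel q ∣ M →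
    haveI : NeZero q := ⟨hq.ne_zero⟩
    ∀ (A : ValuationSubring Kbar) (hA : A.LiesOverPrime q),
      ∀ 𝔫₂ : Ideal (h62rChart A (M * q * q) (jB (M * q * q))), 𝔫₂.IsMaximal →
        (q : h62rChart A (M * q * q) (jB (M * q * q))) ∈ 𝔫₂ →
        H62InfDatum A M hq hM hA (𝔫₂.comap (h62rA2 A M)) →
          h95s_OneDatum 𝔫₂ (q : h62rChart A (M * q * q) (jB (M * q * q)))

/-- **R-ORD-20**: the closed points whose contraction along `β₂` is a smooth point of `C_∞`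
(the points of `C₂₀`). -/
def H80OrdC20 : Prop :=
  ∀ (q : ℕ) (hq : q.Prime) (M : ℕ) [NeZero M] (hM : ¬ q ∣ M), auxLevel q ∣ M →
    haveI : NeZero q := ⟨hq.ne_zero⟩
    ∀ (A : ValuationSubring Kbar) (hA : A.LiesOverPrime q),
      ∀ 𝔫₂ : Ideal (h62rChart A (M * q * q) (jB (M * q * q))), 𝔫₂.IsMaximal →
        (q : h62rChart A (M * q * q) (jB (M * q * q))) ∈ 𝔫₂ →
        H62InfDatum A M hq hM hA (𝔫₂.comap (h59y_b2 A M hq hM hA)) →
          h95s_OneDatum 𝔫₂ (q : h62rChart A (M * q * q) (jB (M * q * q)))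

/-- **R-ORD-11**: the closed points whose contraction along `α₂` is a smooth point of `C_∞` and
whose contraction along `β₂` is a smooth point of `C_0` (the points of `C₁₁`). -/
def H80OrdC11 : Prop :=
  ∀ (q : ℕ) (hq : q.Prime) (M : ℕ) [NeZero M] (hM : ¬ q ∣ M), auxLevel q ∣ M →
    haveI : NeZero q := ⟨hq.ne_zero⟩
    ∀ (A : ValuationSubring Kbar) (hA : A.LiesOverPrime q),
      ∀ 𝔫₂ : Ideal (h62rChart A (M * q * q) (jB (M * q * q))), 𝔫₂.IsMaximal →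
        (q : h62rChart A (M * q * q) (jB (M * q * q))) ∈ 𝔫₂ →
        H62InfDatum A M hq hM hA (𝔫₂.comap (h62rA2 A M)) →
        H62ZeroDatum A M hq hM hA (𝔫₂.comap (h59y_b2 A M hq hM hA)) →
          h95s_OneDatum 𝔫₂ (q : h62rChart A (M * q * q) (jB (M * q * q)))

/-- **R-ORD-X**: a closed point whose contraction along `α₂` is a smooth point of `C_∞` does
not lie over a node along `β₂`. -/
def H80OrdExcl : Prop :=
  ∀ (q : ℕ) (hq : q.Prime) (M : ℕ) [NeZero M] (hM : ¬ q ∣ M), auxLevel q ∣ M →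
    haveI : NeZero q := ⟨hq.ne_zero⟩
    ∀ (A : ValuationSubring Kbar) (hA : A.LiesOverPrime q),
      ∀ 𝔫₂ : Ideal (h62rChart A (M * q * q) (jB (M * q * q))), 𝔫₂.IsMaximal →
        (q : h62rChart A (M * q * q) (jB (M * q * q))) ∈ 𝔫₂ →
        H62InfDatum A M hq hM hA (𝔫₂.comap (h62rA2 A M)) →
          ¬ H62NodeDatum A M hq hM hA (𝔫₂.comap (h59y_b2 A M hq hM hA))

/-- **R-ORD-∞ assembly.** -/
theorem h80i_finInfOne_of (h1 : H62L1) (hE : H80OrdExcl) (h20 : H80OrdC20) (h11 : H80OrdC11) :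
    H80FinInfOne := by
  intro q hq M _ hM haux
  haveI : NeZero q := ⟨hq.ne_zero⟩
  intro A hA 𝔫₂ h𝔫₂ hq𝔫₂ hInf
  obtain ⟨hmax, hq₁⟩ := h59y_comap_b2 A M hq hM hA 𝔫₂ h𝔫₂ hq𝔫₂
  rcases h1 q hq M hM haux A hA _ hmax hq₁ with h | h | h
  · exact absurd h (hE q hq M hM haux A hA 𝔫₂ h𝔫₂ hq𝔫₂ hInf)
  · exact h20 q hq M hM haux A hA 𝔫₂ h𝔫₂ hq𝔫₂ h
  · exact h11 q hq M hM haux A hA 𝔫₂ h𝔫₂ hq𝔫₂ hInf h

/-- the strong form gives the frozen leaf `H62FinInf`. -/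
theorem h80i_finInf_of (h : H80FinInfOne) : H62FinInf := by
  intro q hq M _ hM haux
  haveI : NeZero q := ⟨hq.ne_zero⟩
  intro A hA 𝔫₂ h𝔫₂ hq𝔫₂ hInf
  exact h95s_datum_of_one 𝔫₂ q (h q hq M hM haux A hA 𝔫₂ h𝔫₂ hq𝔫₂ hInf)

/-- the strong form gives the frozen leaf `H62FinZero`. -/
theorem h80i_finZero_of (h : H80FinZeroOne) : H62FinZero := by
  intro q hq M _ hM haux
  haveI : NeZero q := ⟨hq.ne_zero⟩
  intro A hA 𝔫₂ h𝔫₂ hq𝔫₂ hZero
  exact h95s_datum_of_one 𝔫₂ q (h q hq M hM haux A hA 𝔫₂ h𝔫₂ hq𝔫₂ hZero)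

end Fermat.Agent.S36
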