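import Fermat.Agent.S36.H62Strong
import Fermat.Agent.S36.H80OrdIface

/-!
# S36, block REG, row R-ORD (helper62): the leaves `H80OrdExcl`, `H80OrdC20` of helper80's tree
(`S36/H80OrdIface.lean`), and the reduction of ALL of R-ORD to `H80FinZeroOne` + `H80OrdC11`

* `h62v_node_geo` : `H62NodeDatum` at `𝔫₁` ⟹ `𝔫₁` lies on both components.
* `h62v_ordExcl : H80OrdExcl` (unconditional).
* `h62v_ordC20_of : H80FinZeroOne → H80OrdC20` (Fricke mirror).
* `h62v_finInfOne_of : H80FinZeroOne → H80OrdC11 → H80FinInfOne`.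
* `h62v_geoZeroOne_of : H80FinZeroOne → H62GeoZeroOne`,
  `h62v_ord11One_of : H80OrdC11 → H62Ord11One` (datum leaves ⟹ geometric leaves).
* `h62v_h31_zero_of : H80FinZeroOne → H31FinZeroOne`,
  `h62v_h31_inf_of : H80FinZeroOne → H80OrdC11 → H31FinInfOne`.
* `h62v_regStatement_of : H62FinNode → H80FinZeroOne → H80OrdC11 → H62LeafCusp →
  H62RegStatement`.
-/

set_option autoImplicit false
set_option linter.unusedSectionVars false
set_option linter.style.haveILetI false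

open AlgebraicCurve ModularCurve IsLocalRing

noncomputable section

namespace Fermat.Agent.S36

open Fermat.Agent.S37 Fermat.Agent.Red Fermat.Agent.Red.GG Fermat.Agent.LGC

section Node

variable (A : ValuationSubring Kbar) (M : ℕ) {q : ℕ} [NeZero M] [NeZero q]

theorem h62v_natCast_ne_zero (hq : q.Prime) :
    (q : h62rChart A (M * q) (jSS M q)) ≠ 0 := by
  intro h0
  have h1 : ((q : h62rChart A (M * q) (jSS M q)) : FF (M * q)) = 0 := by rw [h0]; rfl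
  have h2 : ((q : ℕ) : FF (M * q)) = 0 := by
    rw [← h1]; push_cast; rfl
  exact hq.ne_zero (Nat.cast_eq_zero.mp h2)

/-- **datum ⟹ geometry (node)**: a point carrying `H62NodeDatum` lies on both components. -/
theorem h62v_node_geo (hq : q.Prime) (hM : ¬ q ∣ M) (haux : auxLevel q ∣ M)
    (hA : A.LiesOverPrime q) (𝔫₁ : Ideal (h62rChart A (M * q) (jSS M q))) [h𝔫 : 𝔫₁.IsPrime]
    (hq𝔫 : (q : h62rChart A (M * q) (jSS M q)) ∈ 𝔫₁)
    (hd : H62NodeDatum A M hq hM hA 𝔫₁) :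
    h62sPinf A M hq hM hA ≤ 𝔫₁ ∧ h62sP0 A M hq hM hA ≤ 𝔫₁ := by
  obtain ⟨u, hu, hX, hY, ⟨ρ, hρ, hrel⟩, -⟩ := hd
  have hq0 := h62v_natCast_ne_zero A M hq
  constructor
  · by_contra hinf
    obtain ⟨s, hs, hsu⟩ := (h62s_zeroDatum A M hq hM hA 𝔫₁ haux hq𝔫 hinf).1 u hu
    obtain ⟨c, hc⟩ := Ideal.mem_span_singleton'.mp hsu
    -- `c (Y - X ^ q) = ρ s`
    have h1 : (q : h62rChart A (M * q) (jSS M q)) *
        (c * (h62rBeta A M hq hM hA u - h62rAlpha A M u ^ q) - ρ * s) = 0 := by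
      linear_combination (-s) * hrel +
        (h62rBeta A M hq hM hA u - h62rAlpha A M u ^ q) * hc
    have h2 : c * (h62rBeta A M hq hM hA u - h62rAlpha A M u ^ q) - ρ * s = 0 :=
      (mul_eq_zero.mp h1).resolve_left hq0
    have h3 : ρ * s ∈ 𝔫₁ := by
      have h4 : ρ * s = c * (h62rBeta A M hq hM hA u - h62rAlpha A M u ^ q) := by
        linear_combination -h2
      rw [h4]
      exact 𝔫₁.mul_mem_left _ (𝔫₁.sub_mem hY (𝔫₁.pow_mem_of_mem hX q hq.pos))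
    exact (h𝔫.mem_or_mem h3).elim hρ hs
  · by_contra h0
    obtain ⟨s, hs, hsu⟩ := (h62s_infDatum A M hq hM hA 𝔫₁ haux hq𝔫 h0).1 u hu
    obtain ⟨c, hc⟩ := Ideal.mem_span_singleton'.mp hsu
    have h1 : (q : h62rChart A (M * q) (jSS M q)) *
        (c * (h62rBeta A M hq hM hA u ^ q - h62rAlpha A M u) + ρ * s) = 0 := by
      linear_combination s * hrel +
        (h62rBeta A M hq hM hA u ^ q - h62rAlpha A M u) * hc
    have h2 : c * (h62rBeta A M hq hM hA u ^ q - h62rAlpha A M u) + ρ * s = 0 :=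
      (mul_eq_zero.mp h1).resolve_left hq0
    have h3 : ρ * s ∈ 𝔫₁ := by
      have h4 : ρ * s = - (c * (h62rBeta A M hq hM hA u ^ q - h62rAlpha A M u)) := by
        linear_combination h2
      rw [h4]
      exact 𝔫₁.neg_mem (𝔫₁.mul_mem_left _ (𝔫₁.sub_mem (𝔫₁.pow_mem_of_mem hY q hq.pos) hX))
    exact (h𝔫.mem_or_mem h3).elim hρ hs

end Node

/-- **R-ORD-X** (unconditional). -/
theorem h62v_ordExcl : H80OrdExcl := by
  intro q hq M _ hM haux
  haveI : NeZero q := ⟨hq.ne_zero⟩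
  intro A hA 𝔫₂ h𝔫₂ hq𝔫₂ hInf hNode
  haveI : 𝔫₂.IsPrime := h𝔫₂.isPrime
  haveI : (𝔫₂.comap (h59y_b2 A M hq hM hA)).IsPrime := Ideal.comap_isPrime _ _
  have hqb : (q : h62rChart A (M * q) (jSS M q)) ∈ 𝔫₂.comap (h59y_b2 A M hq hM hA) := by
    rw [Ideal.mem_comap, map_natCast]
    exact hq𝔫₂
  obtain ⟨hb, hb0⟩ := h62v_node_geo A M hq hM haux hA _ hqb hNode
  exact h62u_not_P0_of_infDatum A M _ hq hM haux hA hInf
    (h62t_iso A M hq hM haux hA 𝔫₂ hq𝔫₂ hb hb0).2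

/-- **R-ORD-20** from **R-ORD-0** (Fricke mirror). -/
theorem h62v_ordC20_of (hz : H80FinZeroOne) : H80OrdC20 := by
  intro q hq M _ hM haux
  haveI : NeZero q := ⟨hq.ne_zero⟩
  intro A hA 𝔫₂ h𝔫₂ hq𝔫₂ hInf
  haveI : 𝔫₂.IsPrime := h𝔫₂.isPrime
  have hb0 : ¬ h62sP0 A M hq hM hA ≤ 𝔫₂.comap (h59y_b2 A M hq hM hA) :=
    h62u_not_P0_of_infDatum A M _ hq hM haux hA hInf
  have hmax : (𝔫₂.comap (h62oW2 A M hq hM hA)).IsMaximal :=
    h62o_comap_isMaximal _ (h62o_w2_w2 A M hq hM hA) 𝔫₂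
  have hq' : (q : h62rChart A (M * q * q) (jB (M * q * q))) ∈
      𝔫₂.comap (h62oW2 A M hq hM hA) := by
    rw [Ideal.mem_comap, map_natCast]
    exact hq𝔫₂
  have hinf' : ¬ h62sPinf A M hq hM hA ≤
      (𝔫₂.comap (h62oW2 A M hq hM hA)).comap (h62rA2 A M) := by
    rw [h62o_comap_a2_w2]
    intro hle
    apply hb0
    intro y hy
    have h1 : h62oW1 A M hq hM hA y ∈ h62sPinf A M hq hM hA :=
      (h62o_w1_mem_Pinf_iff A M hq hM hA y).mpr hy
    have h2 := Ideal.mem_comap.mp (hle h1)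
    rwa [h62o_w1_w1] at h2
  haveI : (𝔫₂.comap (h62oW2 A M hq hM hA)).IsPrime := hmax.isPrime
  haveI : ((𝔫₂.comap (h62oW2 A M hq hM hA)).comap (h62rA2 A M)).IsPrime :=
    Ideal.comap_isPrime _ _
  exact h62u_one_comap (h62oW2 A M hq hM hA) (h62o_w2_w2 A M hq hM hA) 𝔫₂ q
    (hz q hq M hM haux A hA _ hmax hq'
      (h62s_zeroDatum A M hq hM hA _ haux (h62g_q_mem_comap A M _ hq') hinf'))

/-- the datum leaf of `C_{02}` gives the geometric leaf. -/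
theorem h62v_geoZeroOne_of (hz : H80FinZeroOne) : H62GeoZeroOne := by
  intro q hq M _ hM haux
  haveI : NeZero q := ⟨hq.ne_zero⟩
  intro A hA 𝔫₂ h𝔫₂ hq𝔫₂ hinf
  haveI : 𝔫₂.IsPrime := h𝔫₂.isPrime
  haveI : (𝔫₂.comap (h62rA2 A M)).IsPrime := Ideal.comap_isPrime _ _
  exact hz q hq M hM haux A hA 𝔫₂ h𝔫₂ hq𝔫₂
    (h62s_zeroDatum A M hq hM hA _ haux (h62g_q_mem_comap A M 𝔫₂ hq𝔫₂) hinf)

/-- the datum leaf of `C_{11}` gives the geometric leaf. -/
theorem h62v_ord11One_of (h11 : H80OrdC11) : H62Ord11One := by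
  intro q hq M _ hM haux
  haveI : NeZero q := ⟨hq.ne_zero⟩
  intro A hA 𝔫₂ h𝔫₂ hq𝔫₂ h0 hb
  haveI : 𝔫₂.IsPrime := h𝔫₂.isPrime
  haveI : (𝔫₂.comap (h62rA2 A M)).IsPrime := Ideal.comap_isPrime _ _
  haveI : (𝔫₂.comap (h59y_b2 A M hq hM hA)).IsPrime := Ideal.comap_isPrime _ _
  have hqb : (q : h62rChart A (M * q) (jSS M q)) ∈ 𝔫₂.comap (h59y_b2 A M hq hM hA) := by
    rw [Ideal.mem_comap, map_natCast]
    exact hq𝔫₂
  exact h11 q hq M hM haux A hA 𝔫₂ h𝔫₂ hq𝔫₂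
    (h62s_infDatum A M hq hM hA _ haux (h62g_q_mem_comap A M 𝔫₂ hq𝔫₂) h0)
    (h62s_zeroDatum A M hq hM hA _ haux hqb hb)

/-- **R-ORD-∞** from **R-ORD-0** and **R-ORD-11**. -/
theorem h62v_finInfOne_of (hz : H80FinZeroOne) (h11 : H80OrdC11) : H80FinInfOne :=
  h80i_finInfOne_of h62t_L1 h62v_ordExcl (h62v_ordC20_of hz) h11

theorem h62v_h31_zero_of (hz : H80FinZeroOne) : H31FinZeroOne := hz

theorem h62v_h31_inf_of (hz : H80FinZeroOne) (h11 : H80OrdC11) : H31FinInfOne :=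
  h62v_finInfOne_of hz h11

/-- **REG** from the open leaves of R-TOWER-SS, R-ORD, R-CUSP. -/
theorem h62v_regStatement_of (hn : H62FinNode) (hz : H80FinZeroOne) (h11 : H80OrdC11)
    (hC : H62LeafCusp) : H62RegStatement :=
  h62u_regStatement_of (h62t_geoNode_of hn) (h62v_geoZeroOne_of hz) (h62v_ord11One_of h11) hC

end Fermat.Agent.S36
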