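import Fermat.Agent.S36.H80FinBase
import Fermat.Agent.S36.H62L0
import Fermat.Agent.S36.H25RedIsoInst

/-!
# S36, block REG, row R-ORD (helper80): the points of `C₀₂` (leaf R-ORD-0)

`h80z_finZeroOne : H80FinZeroOne` : at a closed point `𝔫₂ ∋ q` of the finite chart of level
`M q²` over `A₀` whose contraction along `α₂` is a smooth point of `C_0` of the level `M q`:
`𝔫₂ = (q, e₂ u)` locally, `u` a rational local parameter of the level `M` (one-branch datum with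
`z = q`, `e = 1`).  Hence `h80z_finZero : H62FinZero`.
-/

set_option autoImplicit false
set_option linter.unusedSectionVars false
set_option linter.style.haveILetI false
set_option linter.style.longLine false
set_option linter.unusedVariables false

open AlgebraicCurve ModularCurve IsLocalRing Polynomial

noncomputable section

namespace Fermat.Agent.S36

open Fermat.Agent.S37 Fermat.Agent.Red.GG Fermat.Agent.LGC Fermat.Agent.Red.Kron

/-- **R-ORD-0** from R-L0. -/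
theorem h80z_finZeroOne_of (hL0 : H62L0) : H80FinZeroOne := by
  intro q hq M _ hM haux
  haveI : NeZero q := ⟨hq.ne_zero⟩
  intro A hA 𝔫₂ h𝔫₂ hq𝔫₂ hZero
  rw [h80i_A2_eq] at hZero
  obtain ⟨h𝔫₁, hq₁⟩ := h59y_comap_a2 A M 𝔫₂ h𝔫₂ hq𝔫₂
  obtain ⟨h𝔰, hq𝔰⟩ := h59y_comap_beta1 A M hq hM hA _ h𝔫₁ hq₁
  obtain ⟨u₀, hu₀rat, hu₀, hgen₀⟩ := hL0 q hq M hM haux A hA _ h𝔰 hq𝔰
  obtain ⟨u, hurat, hunc, hu, hgen⟩ := h80x_param A _ hq𝔰 u₀ hu₀rat hu₀ hgen₀
  obtain ⟨hZ1, hZ2⟩ := hZero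
  obtain ⟨t₀, ht₀, hXY⟩ := hZ1 u hurat
  obtain ⟨x₁, hx₁⟩ := Ideal.mem_span_singleton'.mp hXY
  have hmax1 := hZ2 u hu hgen
  obtain ⟨r, hdeg, -, -, hR2, -, -, hR4⟩ := h80x_relations A hq hM hA u hurat
  obtain ⟨P, hP, -, hPle, hPne, hqP⟩ := h62m_L1Dim q hq M hM haux A hA _ h𝔫₁ hq₁
  haveI : IsNoetherianRing (h62rChart A (M * q) (jSS M q)) :=
    h59n_isNoetherianRing_chart (N := M * q) A hq hA (jSS M q) (Or.inl (h59y_jSS_eq M))
  have hqF : ((q : ℕ) : FF (M * q * q)) ≠ 0 := Nat.cast_ne_zero.mpr hq.ne_zero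
  have e0 : h62rBeta A M hq hM hA u - (0 : h62rChart A (M * q) (jSS M q)) ^ q
      = h62rBeta A M hq hM hA u := by
    rw [zero_pow hq.ne_zero, sub_zero]
  have hGZ : (h80qG q (h59y_a2 A M (h62rBeta A M hq hM hA u))
      ((r.map (h62rBeta A M hq hM hA)).map (h59y_a2 A M))).eval (h59y_e2 A M hq hM hA u) = 0 := by
    rw [Polynomial.map_map]
    exact hR4
  have hne : h59y_e2 A M hq hM hA u ≠ h59y_a2 A M (h62rAlpha A M u) := by
    intro h
    apply h40g_Z_not_mem_range M q hq hM (u : FF M) hunc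
    exact ⟨heckeAlphaBar Kbar M q (u : FF M), (congrArg Subtype.val h).symm⟩
  have hXY' : t₀ * (h62rAlpha A M u - h62rBeta A M hq hM hA u ^ q)
      = (q : h62rChart A (M * q) (jSS M q)) * x₁ := by
    rw [← hx₁]; ring
  have ht1 : h62rBeta A M hq hM hA u - (0 : h62rChart A (M * q) (jSS M q)) ^ q
      ∈ 𝔫₂.comap (h59y_a2 A M) := by
    rw [e0]
    exact Ideal.mem_comap.mp hu
  have hmax1' : ∀ w ∈ 𝔫₂.comap (h59y_a2 A M), ∃ t, t ∉ 𝔫₂.comap (h59y_a2 A M) ∧
      t * w ∈ Ideal.span {(q : h62rChart A (M * q) (jSS M q)),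
        h62rBeta A M hq hM hA u - (0 : h62rChart A (M * q) (jSS M q)) ^ q} := by
    rw [e0]
    exact hmax1
  obtain ⟨h1, h2, h3⟩ := h80x_ord0_hom (F := FF (M * q * q))
    (h62rChart A (M * q * q) (jB (M * q * q))) (h59y_a2 A M) (h59y_a2_injective A M)
    (h59y_a2_isIntegral A M) 𝔫₂ q hq hqF
    (h62rAlpha A M u) (h62rBeta A M hq hM hA u) 0 (r.map (h62rBeta A M hq hM hA))
    (natDegree_map_le.trans hdeg) hR2 (h59y_e2 A M hq hM hA u) hGZ hne t₀ x₁ ht₀ hXY' hq₁ ht1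
    hmax1' P hP hqP hPle hPne (h80x_hfrac A hq hM hA u hunc)
  refine ⟨(q : h62rChart A (M * q * q) (jB (M * q * q))),
    h59y_e2 A M hq hM hA u - h59y_a2 A M 0, h1, h2, h3, 1, 1, 1, ?_, ?_⟩
  · exact (Ideal.ne_top_iff_one _).mp h𝔫₂.ne_top
  · rw [pow_one]

/-- **R-ORD-0**: the points of `C₀₂` (strong form, unconditional). -/
theorem h80z_finZeroOne : H80FinZeroOne :=
  h80z_finZeroOne_of (h62r_L0_of h25i_redIsoStatement)

/-- **the frozen leaf `H62FinZero`** (unconditional). -/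
theorem h80z_finZero : H62FinZero :=
  h80i_finZero_of h80z_finZeroOne

end Fermat.Agent.S36
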