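import Fermat.Agent.S36.H62OrdGlue
import Fermat.Agent.S36.H40Tower
import Fermat.Agent.S36.H80FinZero
import Fermat.Agent.S36.H18CuspWire

/-!
# S36, block REG (helper62): the statement `H62RegStatement` from the TWO remaining atoms

Plugged in (all landed, unconditional):

* R-TOWER-SS : `h40t_finNode : H62FinNode` (helper40, abstract tower helper67);
* R-ORD-0    : `h80z_finZeroOne : H80FinZeroOne` (helper80);
* R-ORD-X, R-ORD-20 : `h62v_ordExcl`, `h62v_ordC20_of` (inside `h62v_regStatement_of`);
* R-CUSP     : `h18c_leafCusp_of_unit11 : H18cUnit11 → H62LeafCusp` (helper18 and the cusp team).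

Remaining atoms: `H80OrdC11` (ordinary points of `C₁₁`) and `H18cUnit11` (certificate at the
middle cusps).

* `h62f_regStatement_of : H80OrdC11 → H18cUnit11 → H62RegStatement`;
* the leaves of `h92f_s36_of` on the REG side: `h62f_finNode`, `h62f_finZero`,
  `h62f_finInf_of : H80OrdC11 → H62FinInf`;
* the canonical strong pair for block T: `h62f_h31_zero : H31FinZeroOne`,
  `h62f_h31_inf_of : H80OrdC11 → H31FinInfOne`.
-/

set_option autoImplicit false

namespace Fermat.Agent.S36

/-- **REG from the two remaining atoms.** -/
theorem h62f_regStatement_of (h11 : H80OrdC11) (hu : H18cUnit11) : H62RegStatement :=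
  h62v_regStatement_of h40t_finNode h80z_finZeroOne h11 (h18c_leafCusp_of_unit11 hu)

/-- R-TOWER-SS (landed by helper40). -/
theorem h62f_finNode : H62FinNode := h40t_finNode

/-- R-ORD-0 (landed by helper80). -/
theorem h62f_finZero : H62FinZero := h80z_finZero

/-- R-ORD-∞, strong form, from the atom `H80OrdC11`. -/
theorem h62f_finInfOne_of (h11 : H80OrdC11) : H80FinInfOne :=
  h62v_finInfOne_of h80z_finZeroOne h11

/-- R-ORD-∞ from the atom `H80OrdC11`. -/
theorem h62f_finInf_of (h11 : H80OrdC11) : H62FinInf :=
  h80i_finInf_of (h62f_finInfOne_of h11)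

/-- the canonical strong pair for block T: the `C₀₂` half (unconditional). -/
theorem h62f_h31_zero : H31FinZeroOne := h62v_h31_zero_of h80z_finZeroOne

/-- the canonical strong pair for block T: the `C_∞` half, from the atom `H80OrdC11`. -/
theorem h62f_h31_inf_of (h11 : H80OrdC11) : H31FinInfOne :=
  h62v_h31_inf_of h80z_finZeroOne h11

end Fermat.Agent.S36
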