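import Fermat.Agent.S36.H62Iso
import Fermat.Agent.S36.H31SSNode

/-!
# S36, block REG → TOR (helper62): the STRONG form of the ordinary points (one-branch datum),
mirror reduction, datum ⟹ geometry

`𝔫₂` a closed point `∋ q` of `B₂ = h62rChart A (M q²) (jB (M q²))`, `𝔫₁a = α₂⁻¹ 𝔫₂`,
`𝔫₁b = β₂⁻¹ 𝔫₂`.

* `H62GeoZeroOne` (frozen): `¬ P∞₀ ≤ 𝔫₁a → h95s_OneDatum 𝔫₂ q` (points of `C_{02}`);
* `H62Ord11One`  (frozen): `¬ P0₀ ≤ 𝔫₁a → ¬ P∞₀ ≤ 𝔫₁b → h95s_OneDatum 𝔫₂ q` (ordinary points of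
  `C_{11}`);
* `h62u_geoInfOne_of : H62GeoZeroOne → H62Ord11One → H62GeoInfOne` (`¬ P0₀ ≤ 𝔫₁a →
  h95s_OneDatum 𝔫₂ q`): mirror + `h62t_iso`;
* `h62u_not_P0_of_infDatum`, `h62u_not_Pinf_of_zeroDatum` : **datum ⟹ geometry**;
* `h62u_finInfOne_of : H62GeoZeroOne → H62Ord11One → H31FinInfOne`,
  `h62u_finZeroOne_of : H62GeoZeroOne → H31FinZeroOne` (the strong leaves consumed by block T);
* `h62u_geoZero_of`, `h62u_ord11_of` : the strong leaves give the leaves of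
  `h62o_regStatement_of`.
-/

set_option autoImplicit false
set_option linter.unusedSectionVars false
set_option linter.style.haveILetI false

open AlgebraicCurve ModularCurve IsLocalRing

noncomputable section

namespace Fermat.Agent.S36

open Fermat.Agent.S37 Fermat.Agent.Red Fermat.Agent.Red.GG Fermat.Agent.LGC

/-! ## Transport of the one-branch datum -/

theorem h62u_one_comap {B : Type*} [CommRing B] (e : B →+* B) (he : ∀ x, e (e x) = x)
    (𝔫 : Ideal B) (q : ℕ) (h : h95s_OneDatum (𝔫.comap e) (q : B)) :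
    h95s_OneDatum 𝔫 (q : B) := by
  have hq : e (q : B) = (q : B) := map_natCast e q
  obtain ⟨z, t, hz, ht, hg, n, s, c, hs, hsc⟩ := h
  refine ⟨e z, e t, Ideal.mem_comap.mp hz, Ideal.mem_comap.mp ht, ?_,
    n, e s, e c, fun h => hs (Ideal.mem_comap.mpr h), ?_⟩
  · intro w hw
    have hw' : e w ∈ 𝔫.comap e := by
      rw [Ideal.mem_comap, he]
      exact hw
    obtain ⟨s', hs', hsw⟩ := hg (e w) hw'
    refine ⟨e s', fun h => hs' (Ideal.mem_comap.mpr h), ?_⟩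
    have h1 := h62o_span_pair_map e hsw
    rwa [map_mul, he] at h1
  · have h3 := congrArg e hsc
    rwa [map_mul, map_mul, map_pow, hq] at h3

/-! ## The strong geometric leaves -/

/-- **the points of `C_{02}`, strong form** (frozen). -/
def H62GeoZeroOne : Prop :=
  ∀ (q : ℕ) (hq : q.Prime) (M : ℕ) [NeZero M] (hM : ¬ q ∣ M), auxLevel q ∣ M →
    haveI : NeZero q := ⟨hq.ne_zero⟩
    ∀ (A : ValuationSubring Kbar) (hA : A.LiesOverPrime q),
      ∀ 𝔫₂ : Ideal (h62rChart A (M * q * q) (jB (M * q * q))), 𝔫₂.IsMaximal →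
        (q : h62rChart A (M * q * q) (jB (M * q * q))) ∈ 𝔫₂ →
        ¬ h62sPinf A M hq hM hA ≤ 𝔫₂.comap (h62rA2 A M) →
          h95s_OneDatum 𝔫₂ (q : h62rChart A (M * q * q) (jB (M * q * q)))

/-- **the ordinary points of `C_{11}`, strong form** (frozen). -/
def H62Ord11One : Prop :=
  ∀ (q : ℕ) (hq : q.Prime) (M : ℕ) [NeZero M] (hM : ¬ q ∣ M), auxLevel q ∣ M →
    haveI : NeZero q := ⟨hq.ne_zero⟩
    ∀ (A : ValuationSubring Kbar) (hA : A.LiesOverPrime q),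
      ∀ 𝔫₂ : Ideal (h62rChart A (M * q * q) (jB (M * q * q))), 𝔫₂.IsMaximal →
        (q : h62rChart A (M * q * q) (jB (M * q * q))) ∈ 𝔫₂ →
        ¬ h62sP0 A M hq hM hA ≤ 𝔫₂.comap (h62rA2 A M) →
        ¬ h62sPinf A M hq hM hA ≤ 𝔫₂.comap (h59y_b2 A M hq hM hA) →
          h95s_OneDatum 𝔫₂ (q : h62rChart A (M * q * q) (jB (M * q * q)))

/-- the points over `C_∞` only, strong form. -/
def H62GeoInfOne : Prop :=
  ∀ (q : ℕ) (hq : q.Prime) (M : ℕ) [NeZero M] (hM : ¬ q ∣ M), auxLevel q ∣ M →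
    haveI : NeZero q := ⟨hq.ne_zero⟩
    ∀ (A : ValuationSubring Kbar) (hA : A.LiesOverPrime q),
      ∀ 𝔫₂ : Ideal (h62rChart A (M * q * q) (jB (M * q * q))), 𝔫₂.IsMaximal →
        (q : h62rChart A (M * q * q) (jB (M * q * q))) ∈ 𝔫₂ →
        ¬ h62sP0 A M hq hM hA ≤ 𝔫₂.comap (h62rA2 A M) →
          h95s_OneDatum 𝔫₂ (q : h62rChart A (M * q * q) (jB (M * q * q)))

theorem h62u_geoZero_of (h : H62GeoZeroOne) : H62GeoZero := by
  intro q hq M _ hM haux
  haveI : NeZero q := ⟨hq.ne_zero⟩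
  intro A hA 𝔫₂ h𝔫₂ hq𝔫₂ hinf
  exact Or.inr (h q hq M hM haux A hA 𝔫₂ h𝔫₂ hq𝔫₂ hinf)

theorem h62u_ord11_of (h : H62Ord11One) : H62Ord11 := by
  intro q hq M _ hM haux
  haveI : NeZero q := ⟨hq.ne_zero⟩
  intro A hA 𝔫₂ h𝔫₂ hq𝔫₂ h0 hb
  exact Or.inr (h q hq M hM haux A hA 𝔫₂ h𝔫₂ hq𝔫₂ h0 hb)

/-- **the mirror, strong form**: the points of `C_{20}` are mirror images of points of
`C_{02}`; a point over `C_∞` only is never over a node through `β₂` (`h62t_iso`). -/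
theorem h62u_geoInfOne_of (hz : H62GeoZeroOne) (h11 : H62Ord11One) : H62GeoInfOne := by
  intro q hq M _ hM haux
  haveI : NeZero q := ⟨hq.ne_zero⟩
  intro A hA 𝔫₂ h𝔫₂ hq𝔫₂ h0
  haveI : 𝔫₂.IsPrime := h𝔫₂.isPrime
  by_cases hb : h62sPinf A M hq hM hA ≤ 𝔫₂.comap (h59y_b2 A M hq hM hA)
  · have hb0 : ¬ h62sP0 A M hq hM hA ≤ 𝔫₂.comap (h59y_b2 A M hq hM hA) := fun hb0 =>
      h0 (h62t_iso A M hq hM haux hA 𝔫₂ hq𝔫₂ hb hb0).2
    have hmax : (𝔫₂.comap (h62oW2 A M hq hM hA)).IsMaximal :=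
      h62o_comap_isMaximal _ (h62o_w2_w2 A M hq hM hA) 𝔫₂
    have hq' : (q : h62rChart A (M * q * q) (jB (M * q * q))) ∈
        𝔫₂.comap (h62oW2 A M hq hM hA) := by
      rw [Ideal.mem_comap, map_natCast]
      exact hq𝔫₂
    have hinf' : ¬ h62sPinf A M hq hM hA ≤
        (𝔫₂.comap (h62oW2 A M hq hM hA)).comap (h62rA2 A M) := by
      rw [h62o_comap_a2_w2]
      intro hle
      apply hb0
      intro y hy
      have h1 : h62oW1 A M hq hM hA y ∈ h62sPinf A M hq hM hA :=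
        (h62o_w1_mem_Pinf_iff A M hq hM hA y).mpr hy
      have h2 := Ideal.mem_comap.mp (hle h1)
      rwa [h62o_w1_w1] at h2
    exact h62u_one_comap (h62oW2 A M hq hM hA) (h62o_w2_w2 A M hq hM hA) 𝔫₂ q
      (hz q hq M hM haux A hA _ hmax hq' hinf')
  · exact h11 q hq M hM haux A hA 𝔫₂ h𝔫₂ hq𝔫₂ h0 hb


/-! ## Datum ⟹ geometry -/

section NA

open Polynomial

/-- if the residue ring `Λ / 𝔪` is spanned over the local ring `R` by roots of `T ^ n - T`,
it is a field. -/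
theorem h62u_isMaximal_of_alg {R Λ : Type*} [CommRing R] [IsLocalRing R] [CommRing Λ]
    [Algebra R Λ] (𝔪 : Ideal Λ) [h𝔪 : 𝔪.IsPrime]
    (hm : (maximalIdeal R).map (algebraMap R Λ) ≤ 𝔪)
    (S : Set Λ) (hS : ∀ x : Λ, x ∈ Submodule.span R S) (n : ℕ) (hn : 2 ≤ n)
    (halg : ∀ u ∈ S, u ^ n - u ∈ 𝔪) : 𝔪.IsMaximal := by
  haveI : IsDomain (Λ ⧸ 𝔪) := (Ideal.Quotient.isDomain_iff_prime 𝔪).mpr h𝔪
  have hint : ∀ x : Λ, IsIntegral R (Ideal.Quotient.mk 𝔪 x) := by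
    intro x
    have hx := hS x
    induction hx using Submodule.span_induction with
    | mem u hu =>
      refine ⟨X ^ n - X, monic_X_pow_sub (by rw [degree_X]; exact_mod_cast hn), ?_⟩
      rw [eval₂_sub, eval₂_X_pow, eval₂_X, ← map_pow, ← map_sub]
      exact Ideal.Quotient.eq_zero_iff_mem.mpr (halg u hu)
    | zero =>
      rw [map_zero]
      exact isIntegral_zero
    | add x y _ _ hx hy =>
      rw [map_add]
      exact hx.add hy
    | smul a x _ hx =>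
      rw [Algebra.smul_def, map_mul]
      exact (isIntegral_algebraMap (x := a)).mul hx |> fun h => by
        have e : Ideal.Quotient.mk 𝔪 (algebraMap R Λ a) = algebraMap R (Λ ⧸ 𝔪) a := rfl
        rw [e]
        exact h
  haveI : Algebra.IsIntegral R (Λ ⧸ 𝔪) := ⟨fun y => by
    obtain ⟨x, rfl⟩ := Ideal.Quotient.mk_surjective y
    exact hint x⟩
  have hcomap : ((⊥ : Ideal (Λ ⧸ 𝔪)).comap (algebraMap R (Λ ⧸ 𝔪))).IsMaximal := by
    have hle : maximalIdeal R ≤ (⊥ : Ideal (Λ ⧸ 𝔪)).comap (algebraMap R (Λ ⧸ 𝔪)) := by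
      intro a ha
      rw [Ideal.mem_comap, Ideal.mem_bot]
      have e : algebraMap R (Λ ⧸ 𝔪) a = Ideal.Quotient.mk 𝔪 (algebraMap R Λ a) := rfl
      rw [e]
      exact Ideal.Quotient.eq_zero_iff_mem.mpr (hm (Ideal.mem_map_of_mem _ ha))
    have hne : (⊥ : Ideal (Λ ⧸ 𝔪)).comap (algebraMap R (Λ ⧸ 𝔪)) ≠ ⊤ := by
      intro h
      have h1 : (1 : R) ∈ (⊥ : Ideal (Λ ⧸ 𝔪)).comap (algebraMap R (Λ ⧸ 𝔪)) := by
        rw [h]; exact Submodule.mem_top
      rw [Ideal.mem_comap, map_one, Ideal.mem_bot] at h1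
      exact one_ne_zero h1
    have heq := (IsLocalRing.maximalIdeal.isMaximal R).eq_of_le hne hle
    rw [← heq]
    exact IsLocalRing.maximalIdeal.isMaximal R
  haveI : (⊥ : Ideal (Λ ⧸ 𝔪)).IsPrime := Ideal.isPrime_bot
  have hbot : (⊥ : Ideal (Λ ⧸ 𝔪)).IsMaximal :=
    Ideal.isMaximal_of_isIntegral_of_isMaximal_comap (R := R) ⊥ hcomap
  exact Ideal.Quotient.maximal_of_isField 𝔪 (Ring.isField_iff_maximal_bot.mpr hbot)

end NA

section Geo

variable (A : ValuationSubring Kbar) (M : ℕ) {q : ℕ} [NeZero M] [NeZero q]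

/-- not every rational function of level `M` is algebraic over `𝔽_q` in the special fibre. -/
theorem h62u_exists_rat (hq : q.Prime) (hM : ¬ q ∣ M) (haux : auxLevel q ∣ M)
    (hA : A.LiesOverPrime q) :
    ∃ u ∈ h62i_R A M, u ^ (q * q) - u ∉ h62i_mΛ A M := by
  by_contra hcon
  have hcon : ∀ u ∈ h62i_R A M, u ^ (q * q) - u ∈ h62i_mΛ A M := fun u hu => by
    by_contra h
    exact hcon ⟨u, hu, h⟩
  haveI hded : IsDedekindDomain (chart M A (jB M) ⧸ h62i_mΛ A M) :=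
    h13l_hded_fin M A hq hM haux hA
  haveI h𝔪prime : (h62i_mΛ A M).IsPrime :=
    (Ideal.Quotient.isDomain_iff_prime _).mp hded.toIsDomain
  have hmax : (h62i_mΛ A M).IsMaximal :=
    h62u_isMaximal_of_alg (R := A) (h62i_mΛ A M) le_rfl (h62i_R A M : Set (chart M A (jB M)))
      (h62d_span A M hq hM hA) (q * q)
      (le_trans hq.two_le (Nat.le_mul_of_pos_right q hq.pos)) hcon
  exact h13l_hnf_fin M A hq hM hA ((Ideal.Quotient.maximal_ideal_iff_isField_quotient _).mp hmax)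

variable (𝔫₁ : Ideal (h62rChart A (M * q) (jSS M q)))

/-- **datum ⟹ geometry (∞)**: a point carrying `H62InfDatum` does not lie on `C_0`. -/
theorem h62u_not_P0_of_infDatum (hq : q.Prime) (hM : ¬ q ∣ M) (haux : auxLevel q ∣ M)
    (hA : A.LiesOverPrime q) (hd : H62InfDatum A M hq hM hA 𝔫₁) :
    ¬ h62sP0 A M hq hM hA ≤ 𝔫₁ := by
  intro h0
  obtain ⟨u, hu, hnot⟩ := h62u_exists_rat A M hq hM haux hA
  apply hnot
  have hrat : IsRat ((u : chart M A (jB M)) : FF M) := (h62i_mem_R A M u).mp hu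
  obtain ⟨s, hs, hsu⟩ := hd.1 (h62rOfRat A M (jB M) u hrat) hrat
  -- `β u - (α u) ^ q ∈ P₀`
  have hsP0 : h62rIncl A (M * q) (jSS M q) s ∉ h62i_P0 A M hq hM hA := fun h =>
    hs (h0 (Ideal.mem_comap.mpr h))
  have h1 : h62i_β A M hq hM hA u - (h62i_α A M q u) ^ q ∈ h62i_P0 A M hq hM hA := by
    obtain ⟨c, hc⟩ := Ideal.mem_span_singleton'.mp hsu
    have h2 : h62rIncl A (M * q) (jSS M q) s *
        (h62i_β A M hq hM hA u - (h62i_α A M q u) ^ q) =
        h62rIncl A (M * q) (jSS M q) c * ((q : ℕ) : chart (M * q) A (jSS M q)) := by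
      have h3 := congrArg (h62rIncl A (M * q) (jSS M q)) hc
      rw [map_mul, map_mul, map_natCast, map_sub, map_pow] at h3
      exact h3.symm
    have h4 : h62rIncl A (M * q) (jSS M q) s *
        (h62i_β A M hq hM hA u - (h62i_α A M q u) ^ q) ∈ h62i_P0 A M hq hM hA := by
      rw [h2]
      refine Ideal.mul_mem_left _ _ (h62i_m_le_P0 A M hq hM hA ?_)
      have h5 : ((q : ℕ) : chart (M * q) A (jSS M q)) =
          algebraMap A (chart (M * q) A (jSS M q)) (q : A) := by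
        rw [map_natCast]
      rw [h5]
      exact Ideal.mem_map_of_mem _ (h57_natCast_mem_maximalIdeal A hA)
    exact ((h62i_P0_isPrime A M hq hM hA).mem_or_mem h4).resolve_left hsP0
  -- `α u - (β u) ^ q ∈ P₀`
  have h6 := h62s_frob_zero A M hq hM hA u hu
  -- `β (u - u ^ (q q)) ∈ P₀`
  have h7 : h62i_β A M hq hM hA (u ^ (q * q) - u) ∈ h62i_P0 A M hq hM hA := by
    have h8 : h62i_β A M hq hM hA (u ^ (q * q) - u) =
        ((h62i_β A M hq hM hA u) ^ q) ^ q - (h62i_α A M q u) ^ q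
          - (h62i_β A M hq hM hA u - (h62i_α A M q u) ^ q) := by
      rw [map_sub, map_pow, pow_mul]
      ring
    rw [h8]
    refine Ideal.sub_mem _ ?_ h1
    obtain ⟨d, hd'⟩ := sub_dvd_pow_sub_pow ((h62i_β A M hq hM hA u) ^ q) (h62i_α A M q u) q
    rw [hd']
    have h9 : (h62i_β A M hq hM hA u) ^ q - h62i_α A M q u ∈ h62i_P0 A M hq hM hA := by
      have := (Ideal.neg_mem_iff _).mpr h6
      rwa [neg_sub] at this
    exact Ideal.mul_mem_right _ _ h9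
  -- `u ^ (q q) - u ∈ 𝔪 Λ`
  rw [h62i_mem_P0_iff_w, h62i_w_β] at h7
  exact (h62d_ker A M hq hM hA).1 _ h7

/-- **datum ⟹ geometry (0)**: a point carrying `H62ZeroDatum` does not lie on `C_∞`. -/
theorem h62u_not_Pinf_of_zeroDatum (hq : q.Prime) (hM : ¬ q ∣ M) (haux : auxLevel q ∣ M)
    (hA : A.LiesOverPrime q) (hd : H62ZeroDatum A M hq hM hA 𝔫₁) :
    ¬ h62sPinf A M hq hM hA ≤ 𝔫₁ := by
  intro hinf
  obtain ⟨u, hu, hnot⟩ := h62u_exists_rat A M hq hM haux hA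
  apply hnot
  have hrat : IsRat ((u : chart M A (jB M)) : FF M) := (h62i_mem_R A M u).mp hu
  obtain ⟨s, hs, hsu⟩ := hd.1 (h62rOfRat A M (jB M) u hrat) hrat
  have hsP : h62rIncl A (M * q) (jSS M q) s ∉ h62i_Pinf A M hq hM hA := fun h =>
    hs (hinf (Ideal.mem_comap.mpr h))
  have h1 : h62i_α A M q u - (h62i_β A M hq hM hA u) ^ q ∈ h62i_Pinf A M hq hM hA := by
    obtain ⟨c, hc⟩ := Ideal.mem_span_singleton'.mp hsu
    have h2 : h62rIncl A (M * q) (jSS M q) s *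
        (h62i_α A M q u - (h62i_β A M hq hM hA u) ^ q) =
        h62rIncl A (M * q) (jSS M q) c * ((q : ℕ) : chart (M * q) A (jSS M q)) := by
      have h3 := congrArg (h62rIncl A (M * q) (jSS M q)) hc
      rw [map_mul, map_mul, map_natCast, map_sub, map_pow] at h3
      exact h3.symm
    have h4 : h62rIncl A (M * q) (jSS M q) s *
        (h62i_α A M q u - (h62i_β A M hq hM hA u) ^ q) ∈ h62i_Pinf A M hq hM hA := by
      rw [h2]
      refine Ideal.mul_mem_left _ _ (h62i_m_le_Pinf A M hq hM hA ?_)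
      have h5 : ((q : ℕ) : chart (M * q) A (jSS M q)) =
          algebraMap A (chart (M * q) A (jSS M q)) (q : A) := by
        rw [map_natCast]
      rw [h5]
      exact Ideal.mem_map_of_mem _ (h57_natCast_mem_maximalIdeal A hA)
    exact ((h62i_Pinf_isPrime A M hq hM hA).mem_or_mem h4).resolve_left hsP
  have h6 := h62d_frob A M hq hM hA u hu
  have h7 : h62i_α A M q (u ^ (q * q) - u) ∈ h62i_Pinf A M hq hM hA := by
    have h8 : h62i_α A M q (u ^ (q * q) - u) =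
        ((h62i_α A M q u) ^ q) ^ q - (h62i_β A M hq hM hA u) ^ q
          - (h62i_α A M q u - (h62i_β A M hq hM hA u) ^ q) := by
      rw [map_sub, map_pow, pow_mul]
      ring
    rw [h8]
    refine Ideal.sub_mem _ ?_ h1
    obtain ⟨d, hd'⟩ := sub_dvd_pow_sub_pow ((h62i_α A M q u) ^ q) (h62i_β A M hq hM hA u) q
    rw [hd']
    have h9 : (h62i_α A M q u) ^ q - h62i_β A M hq hM hA u ∈ h62i_Pinf A M hq hM hA := by
      have := (Ideal.neg_mem_iff _).mpr h6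
      rwa [neg_sub] at this
    exact Ideal.mul_mem_right _ _ h9
  exact (h62d_ker A M hq hM hA).1 _ h7

end Geo

/-! ## The strong leaves of block T -/

theorem h62u_finZeroOne_of (hz : H62GeoZeroOne) : H31FinZeroOne := by
  intro q hq M _ hM haux
  haveI : NeZero q := ⟨hq.ne_zero⟩
  intro A hA 𝔫₂ h𝔫₂ hq𝔫₂ hd
  exact hz q hq M hM haux A hA 𝔫₂ h𝔫₂ hq𝔫₂
    (h62u_not_Pinf_of_zeroDatum A M _ hq hM haux hA hd)

theorem h62u_finInfOne_of (hz : H62GeoZeroOne) (h11 : H62Ord11One) : H31FinInfOne := by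
  intro q hq M _ hM haux
  haveI : NeZero q := ⟨hq.ne_zero⟩
  intro A hA 𝔫₂ h𝔫₂ hq𝔫₂ hd
  exact h62u_geoInfOne_of hz h11 q hq M hM haux A hA 𝔫₂ h𝔫₂ hq𝔫₂
    (h62u_not_P0_of_infDatum A M _ hq hM haux hA hd)

/-- **REG from the strong leaves.** -/
theorem h62u_regStatement_of (hn : H62GeoNode) (hz : H62GeoZeroOne) (h11 : H62Ord11One)
    (hC : H62LeafCusp) : H62RegStatement :=
  h62o_regStatement_of hn (h62u_geoZero_of hz) (h62u_ord11_of h11) hC

end Fermat.Agent.S36
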