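import Fermat.Agent.S36.H50ExcIface
import Fermat.Agent.Red.TransferRed
import Fermat.Agent.Red.Kron.Finrank
import Fermat.Agent.LGC.SSInt

/-!
# S36, block REG, row R-ORD, leaf `H50eCharpoly` (helper63)

`h63k_charpoly : H50eCharpoly` (exact frozen Prop of `S36/H50ExcIface.lean`, helper50):
every `ψ` of the finite chart `B₁ = h62rChart A (M q) (jSS M q)` over the inertia ring is killed
by a monic polynomial of degree `q + 1` over the chart `Λ₀ = h62rChart A M (jB M)` of level `M`
(coefficients mapped by `α`).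

`f` is the characteristic polynomial of `ψ` along `α`:

* `h63k_eval_charpolyAlong` : `(charpolyAlong φ g).eval c = normAlong φ (φ c - g)`;
* `h63k_gal_normAlong` : the norm along `α` commutes with the Galois action
  (`Algebra.norm_eq_of_equiv_equiv`);
* `h63k_charpoly_fixed` : if `σ g = g` then the coefficients of the characteristic polynomial of
  `g` are fixed by `σ` (the polynomial `p^σ - p` vanishes at every natural number);
* `h63k_natDegree` : the degree is `[F_{Mq} : α F_M] = q + 1`;
* integrality of the coefficients: `h87_coeff_mem_modelAt`.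
-/

set_option autoImplicit false
set_option linter.unusedSectionVars false
set_option linter.style.haveILetI false

open AlgebraicCurve ModularCurve Polynomial

noncomputable section

namespace Fermat.Agent.S36

open Fermat.Agent.S37 Fermat.Agent.Red.GG Fermat.Agent.LGC
open Fermat.Agent.Red.TRK Fermat.Agent.Red.KR

/-! ## Abstract: values of the characteristic polynomial are norms -/

/-- the value of the characteristic polynomial of `g` at `c` is the norm of `φ c - g`. -/
theorem h63k_eval_charpolyAlong {K F F' : Type*} [Field K] [Field F] [Field F'] [Algebra K F]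
    [Algebra K F'] (φ : F →ₐ[K] F') (hfin : FiniteAlong K φ) (g : F') (c : F) :
    (charpolyAlong φ hfin g).eval c = normAlong φ (φ c - g) := by
  letI := algebraAlong φ
  haveI : Module.Finite F F' := hfin
  show (LinearMap.mulLeft F g).charpoly.eval c = Algebra.norm F (φ c - g)
  rw [LinearMap.eval_charpoly, Algebra.norm_apply]
  congr 1
  ext x
  simp only [LinearMap.sub_apply, Module.algebraMap_end_apply, LinearMap.mulLeft_apply,
    Algebra.coe_lmul_eq_mul, LinearMap.mul_apply', sub_mul]
  rfl

/-! ## The Galois action -/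

section Gal

variable (N ℓ : ℕ) [NeZero N] [NeZero ℓ]

/-- the norm along `α` commutes with the Galois action. -/
theorem h63k_gal_normAlong (σ : GQ) (y : FF (N * ℓ)) :
    gal N σ • normAlong (heckeAlphaBar Kbar N ℓ) y =
      normAlong (heckeAlphaBar Kbar N ℓ) (gal (N * ℓ) σ • y) := by
  letI := algebraAlong (heckeAlphaBar Kbar N ℓ)
  have he : RingHom.comp (algebraMap (FF N) (FF (N * ℓ)))
      (SemilinearAut.toRingAut (gal N σ) : FF N →+* FF N) =
      RingHom.comp (SemilinearAut.toRingAut (gal (N * ℓ) σ) : FF (N * ℓ) →+* FF (N * ℓ))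
        (algebraMap (FF N) (FF (N * ℓ))) := by
    refine RingHom.ext fun x => ?_
    exact (h83g_gal_alpha N ℓ σ x).symm
  have h := Algebra.norm_eq_of_equiv_equiv (SemilinearAut.toRingAut (gal N σ))
    (SemilinearAut.toRingAut (gal (N * ℓ) σ)) he y
  have h2 := congrArg (SemilinearAut.toRingAut (gal N σ)) h
  rw [RingEquiv.apply_symm_apply] at h2
  exact h2

/-- **the coefficients of the characteristic polynomial of a `σ`-fixed function are
`σ`-fixed.** -/
theorem h63k_charpoly_fixed (σ : GQ) (g : FF (N * ℓ)) (hg : gal (N * ℓ) σ • g = g) (i : ℕ) :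
    gal N σ • (charpolyAlong (heckeAlphaBar Kbar N ℓ)
      (Fermat.Agent.Red.HKMod.finiteAlong_heckeAlphaBar N ℓ) g).coeff i =
    (charpolyAlong (heckeAlphaBar Kbar N ℓ)
      (Fermat.Agent.Red.HKMod.finiteAlong_heckeAlphaBar N ℓ) g).coeff i := by
  set p := charpolyAlong (heckeAlphaBar Kbar N ℓ)
    (Fermat.Agent.Red.HKMod.finiteAlong_heckeAlphaBar N ℓ) g with hp
  set τ : FF N →+* FF N := h83g_galHom N σ with hτ
  have hτapp : ∀ x : FF N, τ x = gal N σ • x := fun x => rfl
  have hroot : ∀ n : ℕ, (p.map τ - p).IsRoot ((n : ℕ) : FF N) := by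
    intro n
    have h1 : τ ((n : ℕ) : FF N) = ((n : ℕ) : FF N) := map_natCast τ n
    have h2 : (p.map τ).eval ((n : ℕ) : FF N) = τ (p.eval ((n : ℕ) : FF N)) := by
      conv_lhs => rw [← h1]
      rw [Polynomial.eval_map, Polynomial.eval₂_at_apply]
    have h3 : τ (p.eval ((n : ℕ) : FF N)) = p.eval ((n : ℕ) : FF N) := by
      rw [hp, h63k_eval_charpolyAlong, hτapp, h63k_gal_normAlong]
      congr 1
      rw [smul_sub, hg, h83g_gal_alpha, ← hτapp, h1]
    rw [Polynomial.IsRoot, Polynomial.eval_sub, h2, h3, sub_self]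
  have hzero : p.map τ - p = 0 := by
    apply Polynomial.eq_zero_of_infinite_isRoot
    refine Set.Infinite.mono ?_ (Set.infinite_range_of_injective
      (Nat.cast_injective : Function.Injective (Nat.cast : ℕ → FF N)))
    rintro x ⟨n, rfl⟩
    exact hroot n
  have heq : p.map τ = p := sub_eq_zero.mp hzero
  have h4 := congrArg (fun r : (FF N)[X] => r.coeff i) heq
  simp only [Polynomial.coeff_map] at h4
  exact h4

set_option synthInstance.maxHeartbeats 400000 in
/-- the degree of the characteristic polynomial along `α`. -/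
theorem h63k_natDegree (hℓ : ℓ.Prime) (hN : ¬ ℓ ∣ N) (g : FF (N * ℓ)) :
    (charpolyAlong (heckeAlphaBar Kbar N ℓ)
      (Fermat.Agent.Red.HKMod.finiteAlong_heckeAlphaBar N ℓ) g).natDegree = ℓ + 1 := by
  letI := algebraAlong (heckeAlphaBar Kbar N ℓ)
  haveI : Module.Finite (FF N) (FF (N * ℓ)) :=
    Fermat.Agent.Red.HKMod.finiteAlong_heckeAlphaBar N ℓ
  show (LinearMap.mulLeft (FF N) g).charpoly.natDegree = ℓ + 1
  rw [LinearMap.charpoly_natDegree]
  exact Fermat.Agent.Red.Kron.finrank_heckeAlphaBar N ℓ hℓ hN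

end Gal

/-! ## The leaf -/

/-- **`H50eCharpoly`.** -/
theorem h63k_charpoly : H50eCharpoly := by
  intro q hq M _ hqM _
  haveI : NeZero q := ⟨hq.ne_zero⟩
  intro A hA ψ
  set φ := heckeAlphaBar Kbar M q with hφ
  set hfin := Fermat.Agent.Red.HKMod.finiteAlong_heckeAlphaBar M q with hhfin
  set p := charpolyAlong φ hfin (ψ : FF (M * q)) with hp
  have hψ := h62r_mem_chart.mp ψ.2
  have hmem : ∀ i, p.coeff i ∈ h62rChart A M (jB M) := by
    intro i
    refine h62r_mem_chart.mpr ⟨?_, fun σ hσ => ?_⟩
    · exact h87_coeff_mem_modelAt φ hfin A (jB M) hψ.1 i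
    · exact h63k_charpoly_fixed M q σ (ψ : FF (M * q)) (hψ.2 σ hσ) i
  have hsub : (↑p.coeffs : Set (FF M)) ⊆ h62rChart A M (jB M) := by
    intro c hc
    rw [Finset.mem_coe, Polynomial.mem_coeffs_iff] at hc
    obtain ⟨n, -, rfl⟩ := hc
    exact hmem n
  refine ⟨p.toSubring (h62rChart A M (jB M)) hsub, ?_, ?_, ?_⟩
  · rw [Polynomial.monic_toSubring]
    exact charpolyAlong_monic φ hfin _
  · rw [Polynomial.natDegree_toSubring]
    exact h63k_natDegree M q hq hqM _
  · apply Subtype.ext
    have h1 : ((h62rChart A (M * q) (jSS M q)).subtype).comp (h62rAlpha A M (q := q)) =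
        φ.toRingHom.comp (h62rChart A M (jB M)).subtype := RingHom.ext fun x => rfl
    have h2 := Polynomial.hom_eval₂ (p.toSubring (h62rChart A M (jB M)) hsub)
      (h62rAlpha A M (q := q)) ((h62rChart A (M * q) (jSS M q)).subtype) ψ
    have h3 : ((h62rChart A (M * q) (jSS M q)).subtype)
        ((p.toSubring (h62rChart A M (jB M)) hsub).eval₂ (h62rAlpha A M (q := q)) ψ) =
        p.eval₂ φ.toRingHom (ψ : FF (M * q)) := by
      rw [h2, h1, ← Polynomial.eval₂_map, Polynomial.map_toSubring]
      rfl
    rw [show ((0 : h62rChart A (M * q) (jSS M q)) : FF (M * q)) = 0 from rfl]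
    exact h3.trans (h44g_eval₂_charpolyAlong φ hfin _)

end Fermat.Agent.S36
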