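import Fermat.Agent.S36.H18CuspIface
import Fermat.Agent.S36.H44Surj
import Fermat.Agent.S36.H25RedIsoInst

/-!
# S36, block REG, row R-CUSP-RES11 (helper63): residue degree one at `W₁₁`, cusp chart

`h63r_cuspRes11 : H18cRes11` (exact frozen Prop of `S36/H18CuspIface.lean`, helper18).

Pure adapter:

* `b := u x` lies in the chart at infinity of level `M q²` over `A` and is fixed by inertia;
  `h44s_surj11_inf` (helper44, V-SURJ) gives `x' ∈ modelInf M A` with `E11 (b - αα x')`
  Gauss-small;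
* R-REDISO at the level `M` (`h25i_redIsoStatement`, helper25): `x' = l + 𝔪_A · chart` with `l`
  in the chart over the inertia ring; the elements of `𝔪_A · chart` are Gauss-small;
* `E11 (αα y) = y` (`h44s_E11_aa`).

Also exported: `h63r_small_iff` (the smallness `h18c_Small` of helper18 is `softRedT = 0`),
`h63r_small_add`, `h63r_mExt_small`.
-/

set_option autoImplicit false
set_option linter.unusedSectionVars false
set_option linter.style.haveILetI false

open AlgebraicCurve ModularCurve IsLocalRing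

noncomputable section

namespace Fermat.Agent.S36

open Fermat.Agent.S37 Fermat.Agent.Red Fermat.Agent.Red.GV Fermat.Agent.Red.GV.Soft
open Fermat.Agent.Red.GG (chart)

/-- the smallness of helper18 is the vanishing of the Gauss reduction. -/
theorem h63r_small_iff (A : ValuationSubring Kbar) (s : LaurentSeries Kbar) :
    h18c_Small A s ↔ ∃ h : s ∈ softOT A (IsLocalRing.residue A),
      softRedT A (IsLocalRing.residue A) ⟨s, h⟩ = 0 := by
  constructor
  · rintro ⟨h, h0⟩
    exact ⟨h, (softRedT_eq_zero_iff (⟨s, h⟩ : softOT A (IsLocalRing.residue A))).2 h0⟩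
  · rintro ⟨h, h0⟩
    exact ⟨h, (softRedT_eq_zero_iff (⟨s, h⟩ : softOT A (IsLocalRing.residue A))).1 h0⟩

/-- the sum of two small series is small. -/
theorem h63r_small_add (A : ValuationSubring Kbar) {s s' : LaurentSeries Kbar}
    (hs : h18c_Small A s) (hs' : h18c_Small A s') : h18c_Small A (s + s') := by
  rw [h63r_small_iff] at hs hs' ⊢
  obtain ⟨h, h0⟩ := hs
  obtain ⟨h', h0'⟩ := hs'
  refine ⟨add_mem h h', ?_⟩
  have e : (⟨s + s', add_mem h h'⟩ : softOT A (IsLocalRing.residue A)) =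
      ⟨s, h⟩ + ⟨s', h'⟩ := rfl
  rw [e, map_add, h0, h0', add_zero]

/-- the elements of `𝔪_A · modelAt` are Gauss-small. -/
theorem h63r_mExt_small {A : ValuationSubring Kbar} {N : ℕ} {t : FF N}
    (hle : modelAt N A t ≤ softV A N) {x : FF N} (hx : x ∈ h25i_mExt A N t) :
    h18c_Small A ((x : FF N) : LaurentSeries Kbar) := by
  rw [h63r_small_iff]
  have key : ∀ y : FF N, y ∈ h25i_mExt A N t →
      ∃ h : y ∈ softV A N, softR A N ⟨y, h⟩ = 0 := by
    intro y hy
    unfold h25i_mExt at hy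
    induction hy using AddSubgroup.closure_induction with
    | mem z hz =>
      obtain ⟨a, b, ha, hb, rfl⟩ := hz
      have hc : cst N a ∈ softV A N := (cst_mem_softV_iff A N a).2 (A.nonunits_subset ha)
      have hb' : b ∈ softV A N := hle hb
      refine ⟨mul_mem hc hb', ?_⟩
      have e : (⟨cst N a * b, mul_mem hc hb'⟩ : softV A N) = ⟨cst N a, hc⟩ * ⟨b, hb'⟩ := rfl
      rw [e, map_mul, softR_cst_of_nonunit A N a ha hc, zero_mul]
    | zero => exact ⟨zero_mem _, map_zero _⟩
    | add y z _ _ hy hz =>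
      obtain ⟨h1, h1'⟩ := hy
      obtain ⟨h2, h2'⟩ := hz
      refine ⟨add_mem h1 h2, ?_⟩
      have e : (⟨y + z, add_mem h1 h2⟩ : softV A N) = ⟨y, h1⟩ + ⟨z, h2⟩ := rfl
      rw [e, map_add, h1', h2', add_zero]
    | neg y _ hy =>
      obtain ⟨h1, h1'⟩ := hy
      refine ⟨neg_mem h1, ?_⟩
      have e : (⟨-y, neg_mem h1⟩ : softV A N) = -⟨y, h1⟩ := rfl
      rw [e, map_neg, h1', neg_zero]
  obtain ⟨h, h0⟩ := key x hx
  exact ⟨h, h0⟩

/-- **R-CUSP-RES11.** -/
theorem h63r_cuspRes11 : H18cRes11 := by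
  intro q hq M _ hqM haux
  haveI : NeZero q := ⟨hq.ne_zero⟩
  intro A hA ζ E11 E02 hT x u hx hu _ _
  have hb : u * x ∈ modelInf (M * q * q) A := mul_mem hu.1 hx.1
  have hfix : ∀ σ ∈ A.inertiaSubgroupIn ℚ, gal (M * q * q) σ • (u * x) = u * x :=
    (mul_mem hu.2 hx.2 : u * x ∈ h53d_F0 (M * q * q) (A.inertiaSubgroupIn ℚ))
  obtain ⟨x', hx', h1, h2⟩ :=
    h44s_surj11_inf hq hqM haux hA ζ hT.prim E11 hT.e11 (u * x) hb hfix
  obtain ⟨-, hRinf, -, -⟩ := h25i_redIsoStatement q hq M hqM haux A hA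
  obtain ⟨l, hl⟩ := hRinf.1 ⟨x', hx'⟩
  have hm : x' - (l : FF M) ∈ h25i_mExt A M (jB M)⁻¹ := h25i_mExt_of_mem_h62rM hl
  refine ⟨(l : FF M), l.2, ?_⟩
  have e : E11 (u * x - h18c_aa M q (l : FF M)) =
      E11 (u * x - h44s_aa M q x') + ((x' - (l : FF M) : FF M) : LaurentSeries Kbar) := by
    have e1 : h18c_aa M q (l : FF M) = h44s_aa M q (l : FF M) := rfl
    have e2 : ((x' - (l : FF M) : FF M) : LaurentSeries Kbar) =
        E11 (h44s_aa M q (x' - (l : FF M))) := (h44s_E11_aa hT.e11 _).symm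
    rw [e1, e2, ← map_add]
    congr 1
    rw [map_sub (h44s_aa M q)]
    ring
  rw [e]
  exact h63r_small_add A ((h63r_small_iff A _).2 ⟨h1, h2⟩)
    (h63r_mExt_small (h44s_inf_le A M q hq hqM hA) hm)

end Fermat.Agent.S36
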