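import Mathlib
import Fermat.Agent.S36.H63GateLoc
import Fermat.Agent.LGC.Integrate63

/-!
# S36, block GATE (helper63): the abstract gate from factoriality-type local data

`h63g_gate36` is the gate of `LGC/Integrate63.lean` (`h63_gateAsmOfLocal`) with the local data at
the closed points of the special fibre produced by `h63g_local` from

* **(LOC)** `H63gLoc B Wv r w 𝔫` : a local `r`-th root `G` of `w` up to a unit of `B_𝔫` (local
  factoriality), whose residues on the branches through `𝔫` lie in the local rings of the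
  branches and have the same value at `𝔫` (trivial toric datum);
* **(CD)** `H63gCond B Wv q 𝔫` : the conductor property.

No sections, no rational points, no smoothness and no reducedness of the special fibre are
required: the vertical valuations `Wv k` may have any ramification index over `A`, and the
horizontal places `v₀ i`, `v₁ i` any degree.  The base `A` is any rank-one valuation ring (for
instance a discrete valuation ring), `π ∣ q` is any modulus.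

The closed points of the generic fibre are treated by `h26_local_generic`.
-/

set_option autoImplicit false
set_option linter.unusedSectionVars false

open WithZero IsLocalRing

namespace Fermat.Agent.S36

open Fermat.Agent.Red Fermat.Agent.LGC

universe u v w x

/-- **the abstract gate over a valuation ring with finitely many vertical valuations.** -/
theorem h63g_gate36
    {A : Type u} [CommRing A] [IsDomain A] [ValuationRing A]
    {F : Type v} [Field F] [Algebra A F]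
    (hAF : Function.Injective (algebraMap A F))
    (harch : ∀ c ∈ maximalIdeal A, c ≠ 0 → ∀ a : A, a ≠ 0 → ∃ k : ℕ, a ∣ c ^ k)
    (V : Subring F)
    (hVnt : ∀ m ∈ maximalIdeal A, ∀ x ∈ V, algebraMap A F m * x ≠ 1)
    (j : F) (hj : j ≠ 0) (B₀ Binf Bm : Subalgebra A F)
    (hj₀ : j ∈ B₀) (hjinf : j⁻¹ ∈ Binf) (h0m : B₀ ≤ Bm) (hinfm : Binf ≤ Bm)
    (hm0 : ∀ x ∈ Bm, ∃ k : ℕ, j ^ k * x ∈ B₀)
    (hminf : ∀ x ∈ Bm, ∃ k : ℕ, j⁻¹ ^ k * x ∈ Binf)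
    (r : ℕ) (hr : 0 < r) (hrA : IsUnit (r : A))
    (hroot₀ : ∀ x : F, x ^ r ∈ B₀ → x ∈ B₀)
    (hrootinf : ∀ x : F, x ^ r ∈ Binf → x ∈ Binf)
    (hrootm : ∀ x : F, x ^ r ∈ Bm → x ∈ Bm)
    (hqepm : ∀ a : A, algebraMap A F a ≠ 0 → ∀ x ∈ V, a • x ∈ Bm → x ∈ Bm)
    {ι₀ ι₁ : Type w} (v₀ : ι₀ → Valuation F ℤᵐ⁰) (v₁ : ι₁ → Valuation F ℤᵐ⁰)
    (hC₀ : H26Chart B₀ V v₀) (hC₁ : H26Chart Binf V v₁)
    (hgen₀ : ∀ 𝔫 : Ideal B₀, 𝔫.IsMaximal → ¬ (maximalIdeal A).map (algebraMap A B₀) ≤ 𝔫 →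
      ∀ i k, h26Centered B₀ v₀ 𝔫 i → h26Centered B₀ v₀ 𝔫 k → i = k)
    (hgen₁ : ∀ 𝔫 : Ideal Binf, 𝔫.IsMaximal →
      ¬ (maximalIdeal A).map (algebraMap A Binf) ≤ 𝔫 →
      ∀ i k, h26Centered Binf v₁ 𝔫 i → h26Centered Binf v₁ 𝔫 k → i = k)
    (S : Finset F) (hS : ∀ s ∈ S, s ∈ B₀)
    (hfin : ∀ x ∈ B₀, x ∈ Submodule.span A {y : F | ∃ a : ℕ, ∃ s ∈ S, y = j ^ a * s})
    -- the vertical valuations
    (q : ℕ) (hq : q.Prime) (hrq : Nat.Coprime r q)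
    {κ : Type x} [Finite κ] (Wv : κ → Valuation F ℤᵐ⁰)
    (hV : ∀ f : F, f ∈ V ↔ ∀ k, Wv k f ≤ 1)
    (π : A) (hπ : π ∈ maximalIdeal A) (hπ0 : π ≠ 0) (hqπ : π ∣ ((q : ℕ) : A))
    (hπW : ∀ k, Wv k (algebraMap A F π) < 1)
    (hrad : ∃ e : ℕ, ∀ k f, Wv k f < 1 → Wv k (f ^ e) ≤ Wv k (algebraMap A F π))
    -- the function
    (w : F) (hw0 : w ≠ 0)
    (hrw₀ : ∀ i, ∃ n : ℤ, v₀ i w = exp (-((r : ℤ) * n)))
    (hrw₁ : ∀ i, ∃ n : ℤ, v₁ i w = exp (-((r : ℤ) * n)))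
    (hwU : w ∈ h26U π V)
    -- the local data at the closed points of the special fibre
    (hloc₀ : ∀ 𝔫 : Ideal B₀, 𝔫.IsMaximal → (maximalIdeal A).map (algebraMap A B₀) ≤ 𝔫 →
      H63gLoc B₀ Wv r w 𝔫 ∧ H63gCond B₀ Wv q 𝔫)
    (hloc₁ : ∀ 𝔫 : Ideal Binf, 𝔫.IsMaximal → (maximalIdeal A).map (algebraMap A Binf) ≤ 𝔫 →
      H63gLoc Binf Wv r w 𝔫 ∧ H63gCond Binf Wv q 𝔫) :
    ∃ t : F, t ≠ 0 ∧ t ^ r * w⁻¹ ∈ B₀ ∧ t ^ r * w⁻¹ ∈ Binf := by
  classical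
  have hπF : algebraMap A F π ≠ 0 := fun h => hπ0 (hAF (by rw [h, map_zero]))
  -- the local data on a chart
  have key : ∀ {ι : Type w} (B : Subalgebra A F) (val : ι → Valuation F ℤᵐ⁰),
      H26Chart B V val →
      (∀ 𝔫 : Ideal B, 𝔫.IsMaximal → ¬ (maximalIdeal A).map (algebraMap A B) ≤ 𝔫 →
        ∀ i k, h26Centered B val 𝔫 i → h26Centered B val 𝔫 k → i = k) →
      (∀ i, ∃ n : ℤ, val i w = exp (-((r : ℤ) * n))) →
      (∀ 𝔫 : Ideal B, 𝔫.IsMaximal → (maximalIdeal A).map (algebraMap A B) ≤ 𝔫 →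
        H63gLoc B Wv r w 𝔫 ∧ H63gCond B Wv q 𝔫) →
      ∀ 𝔫 : Ideal B, 𝔫.IsMaximal →
        ∃ g : F, g ≠ 0 ∧ ((maximalIdeal A).map (algebraMap A B) ≤ 𝔫 → g ∈ h26U π V) ∧
          ∃ s : B, s ∉ 𝔫 ∧ (s : F) * (w * (g ^ r)⁻¹) ∈ B ∧ (s : F) * (g ^ r * w⁻¹) ∈ B := by
    intro ι B val hC hgen hrw hloc 𝔫 h𝔫
    have := h𝔫.isPrime
    by_cases hle : (maximalIdeal A).map (algebraMap A B) ≤ 𝔫
    · obtain ⟨h1, h2⟩ := hloc 𝔫 h𝔫 hle
      obtain ⟨g, hgU, s, hs, hs1, hs2⟩ := h63g_local hC hV π hπF hπW q hq hqπ hrad r hrq w hw0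
        hwU 𝔫 (hle (Ideal.mem_map_of_mem _ hπ)) h1 h2
      exact ⟨g, h26U_ne_zero (hVnt π hπ) hgU, fun _ => hgU, s, hs, hs1, hs2⟩
    · obtain ⟨g, hg0, s, hs, hs1, hs2⟩ := h26_local_generic hC 𝔫 (by
        intro a ha ha𝔫
        have ha0 : a ≠ 0 := fun h => ha (by rw [h, map_zero])
        apply hle
        rw [Ideal.map_le_iff_le_comap]
        intro m hm
        rw [Ideal.mem_comap]
        by_cases hm0 : m = 0
        · rw [hm0, map_zero]; exact 𝔫.zero_mem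
        obtain ⟨k, b, hk⟩ := harch m hm hm0 a ha0
        have h1 : algebraMap A B m ^ k ∈ 𝔫 := by
          rw [← map_pow, hk, map_mul]
          exact 𝔫.mul_mem_right _ ha𝔫
        exact h𝔫.isPrime.mem_of_pow_mem k h1) (hgen 𝔫 h𝔫 hle) w r hrw
      exact ⟨g, hg0, fun h => (hle h).elim, s, hs, hs1, hs2⟩
  exact h63_gateAsmOfLocal.{u, v, w} hAF harch V hVnt j hj B₀ Binf Bm hj₀ hjinf h0m hinfm hm0
    hminf r hr hrA hroot₀ hrootinf hrootm hqepm v₀ v₁ hC₀ hC₁ S hS hfin w hw0 π hπ hπ0 hwU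
    (key B₀ v₀ hC₀ hgen₀ hrw₀ hloc₀) (key Binf v₁ hC₁ hgen₁ hrw₁ hloc₁)

end Fermat.Agent.S36
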