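import Fermat.Agent.S36.H63GateInst
import Fermat.Agent.S36.H37FinA0
import Fermat.Agent.S36.H53Places

/-!
# S36, block (G): `H92Gate`, unconditional (helper63)

`h63i_h92Gate : H92Gate` (exact frozen Prop of `S36/H92Chain.lean`), from

* `h63i_h92Gate_of : H63FinA0 → H63GenDatum → H92Gate` (`S36/H63GateInst.lean`: instantiation of
  the places-free semi-local gate `h26y_gate_asm_semi` of helper26 over `A₀`, `F₀`, `V₀`),
* `h37v_finA0 : H63FinA0` (helper37, `S36/H37FinA0.lean`),
* `h53p_genDatum : H63GenDatum` (helper53, `S36/H53Places.lean`).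
-/

set_option autoImplicit false

namespace Fermat.Agent.S36

/-- **H92GATE**, unconditional. -/
theorem h63i_h92Gate : H92Gate :=
  h63i_h92Gate_of h37v_finA0 h53p_genDatum

end Fermat.Agent.S36
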