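import Mathlib
import Fermat.Agent.S36.H26GateSemi

/-!
# S36, block (G), H92GATE (helper63): the abstract gate inside a subfield

`h63i_gate_sub`: the places-free semi-local gate `h26y_gate_asm_semi` (helper26) for a
valuation ring `R`, a field `E`, a ring homomorphism `φ : R → E` and a subfield `F₀ ⊆ E`
containing `φ R`, with ALL the data (charts `C₀, C₁, Cm`, the ring `V`, the function `w`, the
local data) given elementwise in `E`: the charts are subrings of `E` contained in `F₀`.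

This is the type-level plumbing of the instantiation of the gate over the inertia field
(`R = A₀`, `E = FF N`, `F₀ = FF N ^ I`): `F₀` is made a field with an `R`-algebra structure, the
charts become subalgebras, the maximal ideals are transported along the evident isomorphisms.
-/

set_option autoImplicit false
set_option linter.unusedSectionVars false
set_option linter.style.haveILetI false

open WithZero IsLocalRing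

namespace Fermat.Agent.S36

open Fermat.Agent.Red Fermat.Agent.LGC

section Sub

variable {R : Type*} [CommRing R] [IsDomain R] [ValuationRing R]
  {E : Type*} [Field E]

/-- the `R`-algebra structure of a subfield containing the image of `φ`. -/
@[reducible] def h63i_alg (F0 : Subfield E) (φ : R →+* E) (hφF : ∀ a, φ a ∈ F0) :
    Algebra R ↥F0 :=
  (φ.codRestrict F0 hφF).toAlgebra

/-- a subring `C ⊇ φ R` of `E`, as a subalgebra of `F₀` (the elements of `F₀` lying in `C`). -/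
def h63i_chart (F0 : Subfield E) (φ : R →+* E) (hφF : ∀ a, φ a ∈ F0) (C : Subring E)
    (hC : ∀ a, φ a ∈ C) : @Subalgebra R ↥F0 _ _ (h63i_alg F0 φ hφF) :=
  letI := h63i_alg F0 φ hφF
  { carrier := {x : ↥F0 | (x : E) ∈ C}
    mul_mem' := fun ha hb => C.mul_mem ha hb
    one_mem' := C.one_mem
    add_mem' := fun ha hb => C.add_mem ha hb
    zero_mem' := C.zero_mem
    algebraMap_mem' := fun a => hC a }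

theorem h63i_mem_chart (F0 : Subfield E) (φ : R →+* E) (hφF : ∀ a, φ a ∈ F0) (C : Subring E)
    (hC : ∀ a, φ a ∈ C) (x : ↥F0) : x ∈ h63i_chart F0 φ hφF C hC ↔ (x : E) ∈ C := Iff.rfl

/-- the isomorphism between a subring `C ⊆ F₀` of `E` and the corresponding subalgebra. -/
def h63i_equiv (F0 : Subfield E) (φ : R →+* E) (hφF : ∀ a, φ a ∈ F0) (C : Subring E)
    (hC : ∀ a, φ a ∈ C) (hCF : ∀ x ∈ C, x ∈ F0) :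
    ↥C ≃+* ↥(h63i_chart F0 φ hφF C hC) where
  toFun y := ⟨⟨y.1, hCF _ y.2⟩, y.2⟩
  invFun x := ⟨x.1.1, x.2⟩
  left_inv := fun _ => rfl
  right_inv := fun _ => rfl
  map_mul' := fun _ _ => rfl
  map_add' := fun _ _ => rfl

/-- transport of a maximal ideal. -/
theorem h63i_ideal (F0 : Subfield E) (φ : R →+* E) (hφF : ∀ a, φ a ∈ F0) (C : Subring E)
    (hC : ∀ a, φ a ∈ C) (hCF : ∀ x ∈ C, x ∈ F0)
    (𝔫 : Ideal ↥(h63i_chart F0 φ hφF C hC)) (h𝔫 : 𝔫.IsMaximal) :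
    ∃ 𝔫' : Ideal ↥C, 𝔫'.IsMaximal ∧
      ∀ y : ↥C, y ∈ 𝔫' ↔ h63i_equiv F0 φ hφF C hC hCF y ∈ 𝔫 := by
  refine ⟨𝔫.comap (h63i_equiv F0 φ hφF C hC hCF), ?_, fun y => Iff.rfl⟩
  exact Ideal.comap_isMaximal_of_equiv _

/-- a finite subset of `C ⊆ F₀`, as a finite subset of `F₀`. -/
def h63i_finset (F0 : Subfield E) (C : Subring E) (hCF : ∀ x ∈ C, x ∈ F0)
    (S : Finset E) (hS : ∀ s ∈ S, s ∈ C) : Finset ↥F0 :=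
  S.attach.map ⟨fun s => (⟨s.1, hCF s.1 (hS s.1 s.2)⟩ : ↥F0), fun s t h => by
    apply Subtype.ext
    exact congrArg (fun z : ↥F0 => (z : E)) h⟩

theorem h63i_mem_finset (F0 : Subfield E) (C : Subring E) (hCF : ∀ x ∈ C, x ∈ F0)
    (S : Finset E) (hS : ∀ s ∈ S, s ∈ C) (s : {s // s ∈ S}) :
    (⟨s.1, hCF s.1 (hS s.1 s.2)⟩ : ↥F0) ∈ h63i_finset F0 C hCF S hS :=
  Finset.mem_map.2 ⟨s, Finset.mem_attach _ _, rfl⟩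

theorem h63i_coe_mem_of_mem_finset (F0 : Subfield E) (C : Subring E) (hCF : ∀ x ∈ C, x ∈ F0)
    (S : Finset E) (hS : ∀ s ∈ S, s ∈ C) {s : ↥F0} (hs : s ∈ h63i_finset F0 C hCF S hS) :
    (s : E) ∈ S := by
  obtain ⟨s₀, -, rfl⟩ := Finset.mem_map.1 hs
  exact s₀.2

/-- the span form of finiteness, inside the subfield. -/
theorem h63i_fin (F0 : Subfield E) (φ : R →+* E) (hφF : ∀ a, φ a ∈ F0) (j : E) (hjF : j ∈ F0)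
    (C : Subring E) (hCF : ∀ x ∈ C, x ∈ F0)
    (S : Finset E) (hS : ∀ s ∈ S, s ∈ C)
    (x : ↥F0) (c : E → Polynomial R)
    (hx : (x : E) = ∑ s ∈ S, Polynomial.eval₂ φ j (c s) * s) :
    letI := h63i_alg F0 φ hφF
    x ∈ Submodule.span R {y : ↥F0 | ∃ a : ℕ, ∃ s ∈ h63i_finset F0 C hCF S hS,
      y = (⟨j, hjF⟩ : ↥F0) ^ a * s} := by
  classical
  letI := h63i_alg F0 φ hφF
  set T : Submodule R ↥F0 :=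
    Submodule.span R {y : ↥F0 | ∃ a : ℕ, ∃ s ∈ h63i_finset F0 C hCF S hS,
      y = (⟨j, hjF⟩ : ↥F0) ^ a * s} with hT
  have hterm : ∀ s : {s // s ∈ S},
      Polynomial.eval₂ (algebraMap R ↥F0) (⟨j, hjF⟩ : ↥F0) (c s.1) *
        (⟨s.1, hCF s.1 (hS s.1 s.2)⟩ : ↥F0) ∈ T := by
    intro s
    rw [Polynomial.eval₂_eq_sum_range, Finset.sum_mul]
    refine Submodule.sum_mem _ fun a _ => ?_
    rw [mul_assoc, ← Algebra.smul_def]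
    exact Submodule.smul_mem _ _
      (Submodule.subset_span ⟨a, _, h63i_mem_finset F0 C hCF S hS s, rfl⟩)
  have hsum : x = ∑ s ∈ S.attach,
      Polynomial.eval₂ (algebraMap R ↥F0) (⟨j, hjF⟩ : ↥F0) (c s.1) *
        (⟨s.1, hCF s.1 (hS s.1 s.2)⟩ : ↥F0) := by
    apply Subtype.ext
    rw [hx, ← Finset.sum_attach S]
    have h1 : ((∑ s ∈ S.attach,
        Polynomial.eval₂ (algebraMap R ↥F0) (⟨j, hjF⟩ : ↥F0) (c s.1) *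
          (⟨s.1, hCF s.1 (hS s.1 s.2)⟩ : ↥F0) : ↥F0) : E) =
        F0.subtype (∑ s ∈ S.attach,
          Polynomial.eval₂ (algebraMap R ↥F0) (⟨j, hjF⟩ : ↥F0) (c s.1) *
            (⟨s.1, hCF s.1 (hS s.1 s.2)⟩ : ↥F0)) := rfl
    rw [h1, map_sum]
    refine Finset.sum_congr rfl fun s _ => ?_
    rw [map_mul, Polynomial.hom_eval₂]
    rfl
  rw [hsum]
  exact Submodule.sum_mem _ fun s _ => hterm s

theorem h63i_algebraMap_coe (F0 : Subfield E) (φ : R →+* E) (hφF : ∀ a, φ a ∈ F0) (a : R) :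
    letI := h63i_alg F0 φ hφF
    ((algebraMap R ↥F0 a : ↥F0) : E) = φ a := rfl

/-- transport of the semi-local datum at the closed points of the special fibre. -/
theorem h63i_loc (F0 : Subfield E) (φ : R →+* E) (hφF : ∀ a, φ a ∈ F0)
    (V : Subring E) (hVF : ∀ x ∈ V, x ∈ F0)
    (C : Subring E) (hC : ∀ a, φ a ∈ C) (hCF : ∀ x ∈ C, x ∈ F0)
    (r : ℕ) (w : E) (hwF : w ∈ F0) (π : R)
    (hloc : ∀ 𝔫 : Ideal ↥C, 𝔫.IsMaximal → (⟨φ π, hC π⟩ : ↥C) ∈ 𝔫 →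
      ∃ g : E, g ∈ F0 ∧ g ≠ 0 ∧ ∃ s : ↥C, s ∉ 𝔫 ∧
        (∃ y ∈ V, (s : E) * (g - 1) = φ π * y) ∧
        (s : E) * (w * (g ^ r)⁻¹) ∈ C ∧ (s : E) * (g ^ r * w⁻¹) ∈ C) :
    letI := h63i_alg F0 φ hφF
    ∀ 𝔫 : Ideal ↥(h63i_chart F0 φ hφF C hC), 𝔫.IsMaximal →
      algebraMap R ↥(h63i_chart F0 φ hφF C hC) π ∈ 𝔫 →
      ∃ g : ↥F0, g ≠ 0 ∧ ∃ s : ↥(h63i_chart F0 φ hφF C hC), s ∉ 𝔫 ∧
        ((s : ↥F0) * (g - 1) ∈ h26mV π (V.comap F0.subtype)) ∧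
        (s : ↥F0) * ((⟨w, hwF⟩ : ↥F0) * (g ^ r)⁻¹) ∈ h63i_chart F0 φ hφF C hC ∧
        (s : ↥F0) * (g ^ r * (⟨w, hwF⟩ : ↥F0)⁻¹) ∈ h63i_chart F0 φ hφF C hC := by
  letI := h63i_alg F0 φ hφF
  intro 𝔫 h𝔫 hπ𝔫
  obtain ⟨𝔫', h𝔫', hmem⟩ := h63i_ideal F0 φ hφF C hC hCF 𝔫 h𝔫
  have hπ' : (⟨φ π, hC π⟩ : ↥C) ∈ 𝔫' := (hmem _).2 hπ𝔫
  obtain ⟨g, hgF, hg0, s, hs, ⟨y, hy, hsy⟩, h1, h2⟩ := hloc 𝔫' h𝔫' hπ'
  refine ⟨⟨g, hgF⟩, fun h => hg0 (congrArg (fun z : ↥F0 => (z : E)) h),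
    h63i_equiv F0 φ hφF C hC hCF s, fun h => hs ((hmem s).2 h), ?_, h1, h2⟩
  exact ⟨⟨y, hVF y hy⟩, hy, Subtype.ext hsy⟩

/-- transport of the datum at the closed points of the generic fibre. -/
theorem h63i_gen (F0 : Subfield E) (φ : R →+* E) (hφF : ∀ a, φ a ∈ F0)
    (C : Subring E) (hC : ∀ a, φ a ∈ C) (hCF : ∀ x ∈ C, x ∈ F0)
    (r : ℕ) (w : E) (hwF : w ∈ F0) (π : R)
    (hgen : ∀ 𝔫 : Ideal ↥C, 𝔫.IsMaximal → (⟨φ π, hC π⟩ : ↥C) ∉ 𝔫 →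
      ∃ g : E, g ∈ F0 ∧ g ≠ 0 ∧ ∃ s : ↥C, s ∉ 𝔫 ∧
        (s : E) * (w * (g ^ r)⁻¹) ∈ C ∧ (s : E) * (g ^ r * w⁻¹) ∈ C) :
    letI := h63i_alg F0 φ hφF
    ∀ 𝔫 : Ideal ↥(h63i_chart F0 φ hφF C hC), 𝔫.IsMaximal →
      algebraMap R ↥(h63i_chart F0 φ hφF C hC) π ∉ 𝔫 →
      ∃ g : ↥F0, g ≠ 0 ∧ ∃ s : ↥(h63i_chart F0 φ hφF C hC), s ∉ 𝔫 ∧
        (s : ↥F0) * ((⟨w, hwF⟩ : ↥F0) * (g ^ r)⁻¹) ∈ h63i_chart F0 φ hφF C hC ∧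
        (s : ↥F0) * (g ^ r * (⟨w, hwF⟩ : ↥F0)⁻¹) ∈ h63i_chart F0 φ hφF C hC := by
  letI := h63i_alg F0 φ hφF
  intro 𝔫 h𝔫 hπ𝔫
  obtain ⟨𝔫', h𝔫', hmem⟩ := h63i_ideal F0 φ hφF C hC hCF 𝔫 h𝔫
  have hπ' : (⟨φ π, hC π⟩ : ↥C) ∉ 𝔫' := fun h => hπ𝔫 ((hmem _).1 h)
  obtain ⟨g, hgF, hg0, s, hs, h1, h2⟩ := hgen 𝔫' h𝔫' hπ'
  exact ⟨⟨g, hgF⟩, fun h => hg0 (congrArg (fun z : ↥F0 => (z : E)) h),
    h63i_equiv F0 φ hφF C hC hCF s, fun h => hs ((hmem s).2 h), h1, h2⟩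

set_option maxHeartbeats 1600000 in
/-- **The places-free semi-local gate inside a subfield**: all the data elementwise in `E`. -/
theorem h63i_gate_sub (F0 : Subfield E) (φ : R →+* E) (hφ : Function.Injective φ)
    (hφF : ∀ a, φ a ∈ F0)
    (V : Subring E) (hVF : ∀ x ∈ V, x ∈ F0)
    (j : E) (hj : j ≠ 0) (hjF : j ∈ F0)
    (C₀ C₁ Cm : Subring E)
    (hC₀ : ∀ a, φ a ∈ C₀) (hC₁ : ∀ a, φ a ∈ C₁) (hCm : ∀ a, φ a ∈ Cm)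
    (hC₀F : ∀ x ∈ C₀, x ∈ F0) (hC₁F : ∀ x ∈ C₁, x ∈ F0)
    (hj₀ : j ∈ C₀) (hj₁ : j⁻¹ ∈ C₁) (h0m : C₀ ≤ Cm) (h1m : C₁ ≤ Cm)
    (hm0 : ∀ x ∈ Cm, ∃ k : ℕ, j ^ k * x ∈ C₀)
    (hm1 : ∀ x ∈ Cm, ∃ k : ℕ, j⁻¹ ^ k * x ∈ C₁)
    (r : ℕ) (hr : 0 < r) (hrR : IsUnit (r : R))
    (hroot₀ : ∀ x : E, x ∈ F0 → x ^ r ∈ C₀ → x ∈ C₀)
    (hroot₁ : ∀ x : E, x ∈ F0 → x ^ r ∈ C₁ → x ∈ C₁)
    (hrootm : ∀ x : E, x ∈ F0 → x ^ r ∈ Cm → x ∈ Cm)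
    (hBV₀ : ∀ x ∈ C₀, x ∈ V) (hBV₁ : ∀ x ∈ C₁, x ∈ V)
    (S : Finset E) (hS : ∀ s ∈ S, s ∈ C₀)
    (hfin : ∀ x ∈ C₀, ∃ c : E → Polynomial R, x = ∑ s ∈ S, Polynomial.eval₂ φ j (c s) * s)
    (w : E) (hwF : w ∈ F0) (hw0 : w ≠ 0)
    (π : R) (hπ0 : π ≠ 0) (harch : ∀ a : R, a ≠ 0 → ∃ k : ℕ, a ∣ π ^ k)
    (hVinv : ∀ x ∈ V, (1 + φ π * x)⁻¹ ∈ V)
    (hVnt : ∀ x ∈ V, φ π * x ≠ 1)
    (hqep₀ : ∀ x ∈ V, φ π * x ∈ C₀ → x ∈ C₀)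
    (hqep₁ : ∀ x ∈ V, φ π * x ∈ C₁ → x ∈ C₁)
    (hqepm : ∀ x ∈ V, φ π * x ∈ Cm → x ∈ Cm)
    (hwU : ∃ y ∈ V, w = 1 + φ π * y)
    (hloc₀ : ∀ 𝔫 : Ideal ↥C₀, 𝔫.IsMaximal → (⟨φ π, hC₀ π⟩ : ↥C₀) ∈ 𝔫 →
      ∃ g : E, g ∈ F0 ∧ g ≠ 0 ∧ ∃ s : ↥C₀, s ∉ 𝔫 ∧
        (∃ y ∈ V, (s : E) * (g - 1) = φ π * y) ∧
        (s : E) * (w * (g ^ r)⁻¹) ∈ C₀ ∧ (s : E) * (g ^ r * w⁻¹) ∈ C₀)
    (hgen₀ : ∀ 𝔫 : Ideal ↥C₀, 𝔫.IsMaximal → (⟨φ π, hC₀ π⟩ : ↥C₀) ∉ 𝔫 →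
      ∃ g : E, g ∈ F0 ∧ g ≠ 0 ∧ ∃ s : ↥C₀, s ∉ 𝔫 ∧
        (s : E) * (w * (g ^ r)⁻¹) ∈ C₀ ∧ (s : E) * (g ^ r * w⁻¹) ∈ C₀)
    (hloc₁ : ∀ 𝔫 : Ideal ↥C₁, 𝔫.IsMaximal → (⟨φ π, hC₁ π⟩ : ↥C₁) ∈ 𝔫 →
      ∃ g : E, g ∈ F0 ∧ g ≠ 0 ∧ ∃ s : ↥C₁, s ∉ 𝔫 ∧
        (∃ y ∈ V, (s : E) * (g - 1) = φ π * y) ∧
        (s : E) * (w * (g ^ r)⁻¹) ∈ C₁ ∧ (s : E) * (g ^ r * w⁻¹) ∈ C₁) :
    ∃ t : E, t ∈ F0 ∧ t ≠ 0 ∧ t ^ r * w⁻¹ ∈ C₀ ∧ t ^ r * w⁻¹ ∈ C₁ := by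
  classical
  letI := h63i_alg F0 φ hφF
  have hAF : Function.Injective (algebraMap R ↥F0) := by
    intro a b hab
    exact hφ (congrArg (fun z : ↥F0 => (z : E)) hab)
  have hj' : (⟨j, hjF⟩ : ↥F0) ≠ 0 := fun h => hj (congrArg (fun z : ↥F0 => (z : E)) h)
  have hw' : (⟨w, hwF⟩ : ↥F0) ≠ 0 := fun h => hw0 (congrArg (fun z : ↥F0 => (z : E)) h)
  obtain ⟨t, ht0, ht₀, ht₁⟩ := h26y_gate_asm_semi (A := R) (F := ↥F0) hAF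
    (V.comap F0.subtype) (⟨j, hjF⟩ : ↥F0) hj'
    (h63i_chart F0 φ hφF C₀ hC₀) (h63i_chart F0 φ hφF C₁ hC₁) (h63i_chart F0 φ hφF Cm hCm)
    hj₀ hj₁ (fun x hx => h0m hx) (fun x hx => h1m hx)
    (fun x hx => hm0 _ hx) (fun x hx => hm1 _ hx)
    r hr hrR
    (fun x hx => hroot₀ _ x.2 hx) (fun x hx => hroot₁ _ x.2 hx) (fun x hx => hrootm _ x.2 hx)
    (fun x hx => hBV₀ _ hx) (fun x hx => hBV₁ _ hx)
    (h63i_finset F0 C₀ hC₀F S hS)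
    (fun s hs => hS _ (h63i_coe_mem_of_mem_finset F0 C₀ hC₀F S hS hs))
    (fun x hx => by
      obtain ⟨c, hc⟩ := hfin _ hx
      exact h63i_fin F0 φ hφF j hjF C₀ hC₀F S hS x c hc)
    (⟨w, hwF⟩ : ↥F0) hw' π hπ0 harch
    (fun x hx => hVinv _ hx) (fun x hx h => hVnt _ hx (congrArg (fun z : ↥F0 => (z : E)) h))
    (fun x hx h => hqep₀ _ hx h) (fun x hx h => hqep₁ _ hx h) (fun x hx h => hqepm _ hx h)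
    (by
      obtain ⟨y, hy, hwy⟩ := hwU
      exact ⟨⟨y, hVF y hy⟩, hy, Subtype.ext hwy⟩)
    (h63i_loc F0 φ hφF V hVF C₀ hC₀ hC₀F r w hwF π hloc₀)
    (h63i_gen F0 φ hφF C₀ hC₀ hC₀F r w hwF π hgen₀)
    (h63i_loc F0 φ hφF V hVF C₁ hC₁ hC₁F r w hwF π hloc₁)
  exact ⟨t.1, t.2, fun h => ht0 (Subtype.ext h), ht₀, ht₁⟩

end Sub

end Fermat.Agent.S36
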