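import Fermat.Agent.S36.H63ChartPkg
import Fermat.Agent.S36.H63GateSub
import Fermat.Agent.S36.H3Gate92V
import Fermat.Agent.Red.ModelO.Mid
import Fermat.Agent.S37.Inertia

/-!
# S36, block (G), H92GATE (helper63): the instantiation of the gate over the inertia field

`h63i_h92Gate_of : H63FinA0 → H63GenDatum → H92Gate`.

The abstract places-free semi-local gate (`h26y_gate_asm_semi`, helper26, in the subfield form
`h63i_gate_sub`) is applied to

* `R = A₀ = A ∩ K₀` (`h81a_A0 A`, a discrete valuation ring with uniformiser `q`),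
* `E = FF N`, `N = M * q * q`, `F₀ = FF N ^ I` (`h92c_F0 A N`), `φ = h63p_cst0 A N`,
* the charts `h92c_Chart A N j`, `h92c_Chart A N j⁻¹`, the middle chart
  `h63i_mid A N = h85modelMid N A ⊓ F₀`,
* `V = h92c_V0 A M q`, `π = q`.

Inputs: `H63FinA0` (finiteness of the finite chart over `A₀[j]`), `H63GenDatum` (the datum at
the closed points of the generic fibre); everything else is landed: the chart axioms of `V`
(`S36/H3Gate92V.lean`, helper3), the middle chart (`Red/ModelO/Mid.lean`), root closedness of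
`modelAt`, the constants `modelFin ∩ modelInf` (`Red/ModelO/ValCrit.lean`).

Then `t ^ m / w ∈ B₀(j) ∩ B₀(j⁻¹)` is a constant `a ∈ ℚ̄`, and `a` is an `m`-th power in `ℚ̄`.
-/

set_option autoImplicit false
set_option linter.unusedSectionVars false
set_option linter.style.haveILetI false

open AlgebraicCurve ModularCurve IsLocalRing

noncomputable section

namespace Fermat.Agent.S36

open Fermat.Agent.S37 Fermat.Agent.Red Fermat.Agent.Red.ModelO

section Inst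

variable (A : ValuationSubring Kbar) (N : ℕ) [NeZero N]

/-- the constants of the inertia field are `I`-invariant functions. -/
theorem h63i_cst_mem_F0 (c : ↥(h81a_K0 A)) : cst N (c : Kbar) ∈ h92c_F0 A N := by
  intro σ hσ
  rw [GalI.gal_smul_cst]
  exact congrArg (cst N) ((h81a_mem_K0 A _).mp c.2 σ hσ)

theorem h63i_cst0_mem_F0 (a : ↥(h81a_A0 A)) : h63p_cst0 A N a ∈ h92c_F0 A N :=
  h63i_cst_mem_F0 A N a.1

theorem h63i_cst0_mem_modelAt (t : FF N) (a : ↥(h81a_A0 A)) :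
    h63p_cst0 A N a ∈ modelAt N A t :=
  h85_cst_mem_modelAt N A t a.2

theorem h63i_cst0_mem_chart (t : FF N) (a : ↥(h81a_A0 A)) :
    h63p_cst0 A N a ∈ h92c_Chart A N t :=
  ⟨h63i_cst0_mem_modelAt A N t a, h63i_cst0_mem_F0 A N a⟩

theorem h63i_cst0_injective : Function.Injective (h63p_cst0 A N) := by
  intro a b hab
  have h1 : ((a : ↥(h81a_K0 A)) : Kbar) = ((b : ↥(h81a_K0 A)) : Kbar) :=
    (algebraMap Kbar (FF N)).injective hab
  exact Subtype.ext (Subtype.ext h1)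

theorem h63i_jB_mem_F0 : jB N ∈ h92c_F0 A N := fun σ _ => GalI.gal_smul_jB σ

/-- the middle chart over the inertia field. -/
def h63i_mid : Subring (FF N) := h85modelMid N A ⊓ (h92c_F0 A N).toSubring

theorem h63i_chart_le_mid : h92c_Chart A N (jB N) ≤ h63i_mid A N :=
  fun _ hx => ⟨h85_modelFin_le_modelMid N A hx.1, hx.2⟩

theorem h63i_chartInv_le_mid : h92c_Chart A N (jB N)⁻¹ ≤ h63i_mid A N :=
  fun _ hx => ⟨h85_modelInf_le_modelMid N A hx.1, hx.2⟩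

theorem h63i_mid_scale_fin {x : FF N} (hx : x ∈ h63i_mid A N) :
    ∃ k : ℕ, jB N ^ k * x ∈ h92c_Chart A N (jB N) := by
  obtain ⟨k, hk⟩ := h85_modelMid_scale_fin N A hx.1
  exact ⟨k, hk, mul_mem (pow_mem (h63i_jB_mem_F0 A N) k) hx.2⟩

theorem h63i_mid_scale_inf {x : FF N} (hx : x ∈ h63i_mid A N) :
    ∃ k : ℕ, (jB N)⁻¹ ^ k * x ∈ h92c_Chart A N (jB N)⁻¹ := by
  obtain ⟨k, hk⟩ := h85_modelMid_scale_inf N A hx.1
  exact ⟨k, hk, mul_mem (pow_mem (inv_mem (h63i_jB_mem_F0 A N)) k) hx.2⟩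

theorem h63i_mid_root_closed {x : FF N} {n : ℕ} (hn : n ≠ 0) (hxF : x ∈ h92c_F0 A N)
    (hx : x ^ n ∈ h63i_mid A N) : x ∈ h63i_mid A N :=
  ⟨h85_modelMid_root_closed N A hn hx.1, hxF⟩

theorem h63i_chart_root_closed (t : FF N) {x : FF N} {n : ℕ} (hn : n ≠ 0)
    (hxF : x ∈ h92c_F0 A N) (hx : x ^ n ∈ h92c_Chart A N t) : x ∈ h92c_Chart A N t :=
  ⟨h85_modelAt_root_closed N A t hn hx.1, hxF⟩

end Inst

/-- an integer prime to `q` is a unit of `A₀`. -/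
theorem h63i_isUnit_natCast {q : ℕ} (hq : q.Prime) {A : ValuationSubring Kbar}
    (hA : A.LiesOverPrime q) (m : ℕ) (hm : ¬ q ∣ m) :
    IsUnit ((m : ℕ) : ↥(h81a_A0 A)) := by
  by_contra hu
  obtain ⟨c, hc⟩ := h81a_dvd_of_not_isUnit hq hA hu
  have hcop : IsCoprime (m : ℤ) (q : ℤ) :=
    Nat.isCoprime_iff_coprime.mpr (Nat.Coprime.symm ((Nat.Prime.coprime_iff_not_dvd hq).2 hm))
  obtain ⟨a, b, hab⟩ := hcop
  have h1 : ((a : ℤ) : ↥(h81a_A0 A)) * ((m : ℕ) : ↥(h81a_A0 A)) +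
      ((b : ℤ) : ↥(h81a_A0 A)) * ((q : ℕ) : ↥(h81a_A0 A)) = 1 := by
    have := congrArg (Int.cast : ℤ → ↥(h81a_A0 A)) hab
    push_cast at this
    exact this
  have h2 : ((q : ℕ) : ↥(h81a_A0 A)) ∣ 1 := by
    rw [← h1]
    exact dvd_add (Dvd.dvd.mul_left ⟨c, hc⟩ _) (dvd_mul_left _ _)
  exact h81a_not_isUnit hA (isUnit_of_dvd_one h2)

/-- `A₀` has rank one: every non-zero element divides a power of `q`. -/
theorem h63i_harch {q : ℕ} (hq : q.Prime) {A : ValuationSubring Kbar}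
    (hA : A.LiesOverPrime q) (a : ↥(h81a_A0 A)) (ha : a ≠ 0) :
    ∃ k : ℕ, a ∣ ((q : ℕ) : ↥(h81a_A0 A)) ^ k := by
  obtain ⟨n, hn⟩ := h81a_associated_pow hq hA ha
  exact ⟨n, hn.symm.dvd⟩

set_option maxHeartbeats 1600000 in
/-- **H92GATE.**  The block (G) of the chain contract from the finiteness of the finite chart
over `A₀[j]` and the datum at the closed points of the generic fibre. -/
theorem h63i_h92Gate_of (hF : H63FinA0) (hG : H63GenDatum) : H92Gate := by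
  intro q hq M _ hqM haux
  haveI : NeZero q := ⟨hq.ne_zero⟩
  intro A hA m hm w hw0 hwF hwU hord hloc₀ hloc₁
  obtain ⟨S, hS, hfin⟩ := hF q hq M hqM haux A hA
  have hgen := hG q hq M hqM haux A hA m hm w hw0 hwF hord
  have hm0 : m ≠ 0 := by
    rintro rfl
    exact hm (dvd_zero q)
  have hφπ : h63p_cst0 A (M * q * q) ((q : ℕ) : ↥(h81a_A0 A)) = ((q : ℕ) : FF (M * q * q)) :=
    map_natCast _ q
  have hπ0 : ((q : ℕ) : ↥(h81a_A0 A)) ≠ 0 := by exact_mod_cast hq.ne_zero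
  have hπeq : ∀ t : FF (M * q * q),
      (⟨h63p_cst0 A (M * q * q) ((q : ℕ) : ↥(h81a_A0 A)),
        h63i_cst0_mem_chart A (M * q * q) t _⟩ : ↥(h92c_Chart A (M * q * q) t)) =
      ((q : ℕ) : ↥(h92c_Chart A (M * q * q) t)) := fun t => Subtype.ext hφπ
  obtain ⟨t, -, ht0, ht₀, ht₁⟩ := h63i_gate_sub (R := ↥(h81a_A0 A)) (E := FF (M * q * q))
    (h92c_F0 A (M * q * q)) (h63p_cst0 A (M * q * q)) (h63i_cst0_injective A _)
    (h63i_cst0_mem_F0 A _)
    (h92c_V0 A M q) (fun x hx => hx.2)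
    (jB (M * q * q)) (h85_jB_ne_zero _) (h63i_jB_mem_F0 A _)
    (h92c_Chart A (M * q * q) (jB (M * q * q))) (h92c_Chart A (M * q * q) (jB (M * q * q))⁻¹)
    (h63i_mid A (M * q * q))
    (h63i_cst0_mem_chart A _ _) (h63i_cst0_mem_chart A _ _)
    (fun a => h63i_chart_le_mid A _ (h63i_cst0_mem_chart A _ _ a))
    (fun x hx => hx.2) (fun x hx => hx.2)
    ⟨h85_jB_mem_modelFin _ A, h63i_jB_mem_F0 A _⟩
    ⟨h85_jB_inv_mem_modelInf _ A, (h92c_F0 A (M * q * q)).inv_mem (h63i_jB_mem_F0 A _)⟩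
    (h63i_chart_le_mid A _) (h63i_chartInv_le_mid A _)
    (fun x hx => h63i_mid_scale_fin A _ hx) (fun x hx => h63i_mid_scale_inf A _ hx)
    m (Nat.pos_of_ne_zero hm0) (h63i_isUnit_natCast hq hA m hm)
    (fun x hxF hx => h63i_chart_root_closed A _ _ hm0 hxF hx)
    (fun x hxF hx => h63i_chart_root_closed A _ _ hm0 hxF hx)
    (fun x hxF hx => h63i_mid_root_closed A _ hm0 hxF hx)
    (h3w_chart_le_V0 hq hqM hA) (h3w_chartInv_le_V0 hq hqM hA)
    S hS hfin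
    w hwF hw0 ((q : ℕ) : ↥(h81a_A0 A)) hπ0 (h63i_harch hq hA)
    (fun x hx => by rw [hφπ]; exact h3w_unit0_nat hq hqM hA hx)
    (fun x hx => by rw [hφπ]; exact h3w_nt_nat hq hqM hA hx.1)
    (fun x hx h => by rw [hφπ] at h; exact h3w_qep0_nat hq hqM hA hx h)
    (fun x hx h => by rw [hφπ] at h; exact h3w_qep0Inv_nat hq hqM hA hx h)
    (fun x hx h => by
      rw [hφπ] at h
      refine ⟨h85_modelMid_qep (M * q * q) A (h92c_V A M q)
        (h3w_modelAt_le_V hq hqM hA (h85_jB_mem_modelFin _ A)) ((q : ℕ) : FF (M * q * q))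
        (fun y hy hqy => ?_) hx.1 h.1, hx.2⟩
      rw [h3w_natCast_eq] at hqy
      exact h3w_qep hq hqM hA (h3w_natCast_mem_A q) (Nat.cast_ne_zero.2 hq.ne_zero) hy hqy)
    (by
      obtain ⟨y, hy, hwy⟩ := hwU
      exact ⟨y, hy, by rw [hφπ]; exact hwy⟩)
    (fun 𝔫 h𝔫 hπ𝔫 => by
      rw [hπeq] at hπ𝔫
      obtain ⟨g, hgF, hg0, s, hs, hsg, h1, h2⟩ := hloc₀ 𝔫 h𝔫 hπ𝔫
      exact ⟨g, hgF, hg0, s, hs, by rw [hφπ]; exact hsg, h1, h2⟩)
    (fun 𝔫 h𝔫 hπ𝔫 => by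
      rw [hπeq] at hπ𝔫
      exact hgen 𝔫 h𝔫 hπ𝔫)
    (fun 𝔫 h𝔫 hπ𝔫 => by
      rw [hπeq] at hπ𝔫
      obtain ⟨g, hgF, hg0, s, hs, hsg, h1, h2⟩ := hloc₁ 𝔫 h𝔫 hπ𝔫
      exact ⟨g, hgF, hg0, s, hs, by rw [hφπ]; exact hsg, h1, h2⟩)
  -- `t ^ m / w` is a constant
  obtain ⟨a, -, ha⟩ := h85_modelFin_inf_modelInf (M * q * q) A ht₀.1 ht₁.1
  have ha0 : a ≠ 0 := by
    rintro rfl
    rw [cst, map_zero] at ha
    exact mul_ne_zero (pow_ne_zero _ ht0) (inv_ne_zero hw0) ha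
  obtain ⟨b, hb⟩ := IsAlgClosed.exists_pow_nat_eq a (Nat.pos_of_ne_zero hm0)
  have hb0 : b ≠ 0 := by
    rintro rfl
    rw [zero_pow hm0] at hb
    exact ha0 hb.symm
  have hcb0 : cst (M * q * q) b ≠ 0 := by
    simpa only [cst, ne_eq, map_eq_zero] using hb0
  refine ⟨t * (cst (M * q * q) b)⁻¹, ?_⟩
  have h1 : cst (M * q * q) b ^ m = t ^ m * w⁻¹ := by
    rw [ha, ← hb]
    exact (map_pow _ _ _).symm
  rw [mul_pow, inv_pow, h1]
  field_simp

end Fermat.Agent.S36
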