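import Mathlib
import Fermat.Agent.S36.H63GateVal

/-!
# S36, hand-off N → G (helper63): the unipotent lifting (gap G3 of the audit, finding #1056)

Abstract, Mathlib + `Red/RootLemmas.lean`.  `Wv : κ → Valuation F ℤᵐ⁰` are the vertical
valuations, `V = {x | ∀ k, Wv k x ≤ 1}`, `r` is invertible in `V`.

If `w ≡ 1` modulo the radical (`Wv k (w - 1) < 1` for all `k`: the reductions of `w` on all
components are `1`), then `w / g ^ r ∈ 1 + π V` for some `g ≡ 1` modulo the radical.  No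
approximation theorem is needed: `g` is a polynomial in `w` (Newton iteration for `X ^ r = w`).

* `h63g_unip_lift` : the Newton iteration, `Wv k (w / g ^ r - 1) ≤ Wv k (w - 1) ^ 2 ^ n`.
* `h63g_unip` : the statement with the modulus `π` (`hrad`: `x ^ e ∈ π V` for `x` in the
  radical, e.g. `e = q - 1` for the model of `X₀(q² M)` with fibre `C₂₀ + (q - 1) C₁₁ + C₀₂`).
-/

set_option autoImplicit false

open WithZero

namespace Fermat.Agent.S36

open Fermat.Agent.Red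

variable {F : Type*} [Field F] {κ : Type*} {Wv : κ → Valuation F ℤᵐ⁰}

/-- **Newton iteration for `X ^ r = w`** in the semi-local ring of the vertical valuations. -/
theorem h63g_unip_lift (V : Subring F) (hV : ∀ x : F, x ∈ V ↔ ∀ k, Wv k x ≤ 1)
    (r : ℕ) (ρ : F) (hρ : (r : F) * ρ = 1) (hρV : ρ ∈ V)
    (w : F) (hw : ∀ k, Wv k (w - 1) < 1) (n : ℕ) :
    ∃ g : F, g ≠ 0 ∧ (∀ k, Wv k (g - 1) < 1) ∧
      ∀ k, Wv k (w * (g ^ r)⁻¹ - 1) ≤ Wv k (w - 1) ^ 2 ^ n := by
  induction n with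
  | zero =>
    refine ⟨1, one_ne_zero, fun k => by simp, fun k => ?_⟩
    simp
  | succ n ih =>
    obtain ⟨g, hg0, hg1, hgw⟩ := ih
    set b : F := w * (g ^ r)⁻¹ - 1 with hb
    have hblt : ∀ k, Wv k b < 1 := by
      intro k
      refine lt_of_le_of_lt (hgw k) ?_
      exact pow_lt_one₀ zero_le (hw k) (pow_ne_zero _ two_ne_zero)
    have hbV : b ∈ V := (hV b).mpr fun k => (hblt k).le
    have hxV : ρ * b ∈ V := V.mul_mem hρV hbV
    obtain ⟨c, hc⟩ := h26_one_add_pow_expand (⟨ρ * b, hxV⟩ : V) r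
    have hc' : (1 + ρ * b) ^ r = 1 + b + (ρ * b) ^ 2 * (c : F) := by
      have h1 := congrArg (Subtype.val) hc
      simp only [Subring.coe_add, Subring.coe_pow, Subring.coe_mul, Subring.coe_one,
        Subring.coe_natCast] at h1
      rw [h1, ← mul_assoc, hρ, one_mul]
    have hρk : ∀ k, Wv k ρ ≤ 1 := (hV ρ).mp hρV
    have hck : ∀ k, Wv k (c : F) ≤ 1 := (hV _).mp c.2
    have hxlt : ∀ k, Wv k (ρ * b) < 1 := by
      intro k
      rw [map_mul]
      exact lt_of_le_of_lt (mul_le_of_le_one_left' (hρk k)) (hblt k)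
    -- `1 + ρ b` is a unit of every `Wv k`; in particular it is nonzero
    have hu1 : ∀ k, Wv k (1 + ρ * b) = 1 := fun k => (Wv k).map_one_add_of_lt (hxlt k)
    by_cases hu0 : 1 + ρ * b = 0
    · -- only possible when there is no valuation at all
      refine ⟨1, one_ne_zero, fun k => by simp, fun k => ?_⟩
      have := hu1 k
      rw [hu0, map_zero] at this
      exact absurd this zero_ne_one
    refine ⟨g * (1 + ρ * b), mul_ne_zero hg0 hu0, fun k => ?_, fun k => ?_⟩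
    · have h1 : g * (1 + ρ * b) - 1 = (g - 1) * (1 + ρ * b) + ρ * b := by ring
      rw [h1]
      refine lt_of_le_of_lt (Valuation.map_add _ _ _) (max_lt ?_ (hxlt k))
      rw [map_mul, hu1 k, mul_one]
      exact hg1 k
    · have hD0 : (1 + ρ * b) ^ r ≠ 0 := pow_ne_zero _ hu0
      have hgr0 : g ^ r ≠ 0 := pow_ne_zero _ hg0
      have hDv : Wv k ((1 + ρ * b) ^ r) = 1 := by rw [map_pow, hu1 k, one_pow]
      have e1 : 1 + b = (1 + ρ * b) ^ r - (ρ * b) ^ 2 * (c : F) := by rw [hc']; ring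
      have h1 : w * ((g * (1 + ρ * b)) ^ r)⁻¹ - 1
          = -((ρ * b) ^ 2 * (c : F)) * ((1 + ρ * b) ^ r)⁻¹ := by
        have h2 : w * (g ^ r)⁻¹ = 1 + b := by rw [hb]; ring
        rw [mul_pow, mul_inv, ← mul_assoc, h2, e1, sub_mul, mul_inv_cancel₀ hD0]
        ring
      have h4 : Wv k (-((ρ * b) ^ 2 * (c : F)) * ((1 + ρ * b) ^ r)⁻¹)
          = (Wv k ρ * Wv k b) ^ 2 * Wv k (c : F) := by
        rw [map_mul, map_inv₀, hDv, inv_one, mul_one, Valuation.map_neg, map_mul, map_pow,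
          map_mul]
      rw [h1, h4]
      have h3 : (Wv k ρ * Wv k b) ^ 2 * Wv k (c : F) ≤ Wv k b ^ 2 := by
        refine le_trans (mul_le_of_le_one_right' (hck k)) ?_
        exact pow_le_pow_left₀ zero_le (mul_le_of_le_one_left' (hρk k)) 2
      refine le_trans h3 ?_
      have h5 : Wv k (w - 1) ^ 2 ^ (n + 1) = (Wv k (w - 1) ^ 2 ^ n) ^ 2 := by
        rw [← pow_mul, pow_succ]
      rw [h5]
      exact pow_le_pow_left₀ zero_le (hgw k) 2

/-- **the unipotent lifting**: a function with trivial reductions on all components is, up to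
an `r`-th power, `≡ 1` modulo `π`. -/
theorem h63g_unip {A : Type*} [CommRing A] [Algebra A F]
    (V : Subring F) (hV : ∀ x : F, x ∈ V ↔ ∀ k, Wv k x ≤ 1)
    (hAV : ∀ a : A, algebraMap A F a ∈ V)
    (π : A) (hπ0 : algebraMap A F π ≠ 0)
    (hrad : ∃ e : ℕ, ∀ k x, Wv k x < 1 → Wv k (x ^ e) ≤ Wv k (algebraMap A F π))
    (r : ℕ) (hrA : IsUnit ((r : ℕ) : A))
    (w : F) (hw : ∀ k, Wv k (w - 1) < 1) :
    ∃ g : F, g ≠ 0 ∧ (∀ k, Wv k (g - 1) < 1) ∧ w * (g ^ r)⁻¹ ∈ h26U π V := by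
  obtain ⟨ρ₀, hρ₀⟩ := hrA.exists_right_inv
  have hρ : ((r : ℕ) : F) * algebraMap A F ρ₀ = 1 := by
    have := congrArg (algebraMap A F) hρ₀
    rwa [map_mul, map_natCast, map_one] at this
  obtain ⟨e, he⟩ := hrad
  obtain ⟨g, hg0, hg1, hgw⟩ := h63g_unip_lift V hV r (algebraMap A F ρ₀) hρ (hAV ρ₀) w hw e
  refine ⟨g, hg0, hg1, (w * (g ^ r)⁻¹ - 1) * (algebraMap A F π)⁻¹, ?_, ?_⟩
  · rw [hV]
    intro k
    rw [map_mul, map_inv₀]
    have hπk : Wv k (algebraMap A F π) ≠ 0 := by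
      rw [Valuation.ne_zero_iff]; exact hπ0
    have h1 : Wv k (w * (g ^ r)⁻¹ - 1) ≤ Wv k (algebraMap A F π) := by
      refine le_trans (hgw k) ?_
      have h2 : Wv k (w - 1) ^ 2 ^ e ≤ Wv k (w - 1) ^ e :=
        pow_le_pow_right_of_le_one' (hw k).le (Nat.lt_two_pow_self).le
      refine le_trans h2 ?_
      rw [← map_pow]
      exact he k _ (hw k)
    calc Wv k (w * (g ^ r)⁻¹ - 1) * (Wv k (algebraMap A F π))⁻¹
        ≤ Wv k (algebraMap A F π) * (Wv k (algebraMap A F π))⁻¹ :=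
          mul_le_mul_of_nonneg_right h1 zero_le
      _ = 1 := mul_inv_cancel₀ hπk
  · field_simp
    ring

end Fermat.Agent.S36
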