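/-
S36, base leaf A0-DVR core (helper64): the inertia field of a place of `ℚ̄` over `q` is
unramified over `ℚ`.

For a valuation subring `A` of `ℚ̄` over the prime `q` and `x ≠ 0` fixed by the inertia subgroup
`A.inertiaSubgroupIn ℚ`, some `x * q ^ (-k)` (`k : ℤ`) is a unit of `A`.  Hence an inertia-fixed
non-unit of `A` is divisible by `q` in `A`.

Proof: transport to `padicPlace q` (all places over `q` are conjugate), then to the local
algebraic closure: `ι (g x)` is fixed by the local inertia group, hence lies in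
`ℚ_q^{ur} = ℚ_q(μ_m, q ∤ m)` (infinite Galois theory), hence in some `ℚ_q(μ_{q^n-1})`, whose
elements have the norm of an element of `ℚ_q` (landed local-field material of the S55 library).
-/
import Mathlib
import Fermat.Agent.PT.Bridge.Unram
import Fermat.Agent.PT.Bridge.LocGrpE
import Fermat.Agent.PT.Loc.H66URVal
import Fermat.Agent.PT.Loc.H96RDBase

set_option autoImplicit false
set_option linter.style.haveILetI false

open scoped Pointwise

namespace Fermat.Agent.S36

open Fermat.Agent.PT.Bridge Fermat.Agent.PT.Loc Fermat.Agent.Bridge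

/-- Local statement: an element of `ℚ̄_q` fixed by the local inertia group has the norm of a
power of `q`. -/
theorem h64s_local_norm (q : ℕ) [Fact q.Prime] {z : PadicAlgCl q} (hz0 : z ≠ 0)
    (hfix : ∀ h : PadicAlgCl q ≃ₐ[ℚ_[q]] PadicAlgCl q,
      (∀ (w : PadicAlgCl q) (m : ℕ), 0 < m → ¬ q ∣ m → w ^ m = 1 → h w = w) → h z = z) :
    ∃ k : ℤ, ‖z‖ = ((q : ℝ)⁻¹) ^ k := by
  haveI := h23b_isGalois_padicAlgCl q
  -- `z` lies in `ℚ_q^{ur}`
  have hzur : z ∈ h23b_Qur q := by
    rw [← InfiniteGalois.fixedField_fixingSubgroup (h23b_Qur q)]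
    rw [IntermediateField.mem_fixedField_iff]
    intro h hh
    exact hfix h ((h23b_mem_fixingSubgroup_Qur_iff q h).mp hh)
  -- the finite extension generated by `z`
  have hzint : IsIntegral ℚ_[q] z := Algebra.IsIntegral.isIntegral z
  haveI : FiniteDimensional ℚ_[q] (IntermediateField.adjoin ℚ_[q] ({z} : Set (PadicAlgCl q))) :=
    IntermediateField.adjoin.finiteDimensional hzint
  have hle : IntermediateField.adjoin ℚ_[q] ({z} : Set (PadicAlgCl q)) ≤ h23b_Qur q := by
    rw [IntermediateField.adjoin_le_iff]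
    intro w hw
    rw [Set.mem_singleton_iff] at hw
    rw [hw]
    exact hzur
  obtain ⟨n, hn, hEn⟩ := h23b_le_QurFin_of_le_Qur q _ hle
  have hzn : z ∈ Kur (⊥ : LF q) n := by
    rw [h23b_Kur_bot_eq q (h96b_resCard_bot q) n]
    exact hEn (IntermediateField.mem_adjoin_simple_self ℚ_[q] z)
  haveI : FiniteDimensional ℚ_[q] (⊥ : LF q) := by
    infer_instance
  obtain ⟨-, hval, -⟩ := h66v_urVal h34lf_lfTeich q (⊥ : LF q) n hn
  obtain ⟨y, hy, hzy⟩ := hval z hzn
  obtain ⟨c, rfl⟩ := IntermediateField.mem_bot.mp hy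
  rw [norm_algebraMap'] at hzy
  have hc0 : c ≠ 0 := by
    rintro rfl
    rw [norm_zero, norm_eq_zero] at hzy
    exact hz0 hzy
  refine ⟨c.valuation, ?_⟩
  rw [hzy, Padic.norm_eq_zpow_neg_valuation hc0, zpow_neg, inv_zpow]

/-- membership in `padicPlace q` through the real-valued norm. -/
theorem h64s_mem_padicPlace_iff (q : ℕ) [Fact q.Prime] (x : Qb) :
    x ∈ padicPlace q ↔ ‖padicEmbedding q x‖ ≤ 1 := by
  rw [mem_padicPlace_iff, ← NNReal.coe_le_coe, coe_nnnorm, NNReal.coe_one]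

/-- **The inertia field is unramified.**  A nonzero element of `ℚ̄` fixed by the inertia subgroup
of a place `A` over `q` is a power of `q` times a unit of `A`. -/
theorem h64s_exists_zpow (A : ValuationSubring Qb) {q : ℕ} (hq : q.Prime)
    (hA : A.LiesOverPrime q) {x : Qb} (hx0 : x ≠ 0)
    (hfix : ∀ σ ∈ A.inertiaSubgroupIn ℚ, σ x = x) :
    ∃ k : ℤ, x * (q : Qb) ^ (-k) ∈ A ∧ (x * (q : Qb) ^ (-k))⁻¹ ∈ A := by
  haveI : Fact q.Prime := ⟨hq⟩
  obtain ⟨g, hg⟩ := h23b_exists_smul_padicPlace q hA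
  have hz0 : padicEmbedding q (g x) ≠ 0 :=
    (map_ne_zero (padicEmbedding q)).2 ((map_ne_zero g).2 hx0)
  have hzfix : ∀ h : PadicAlgCl q ≃ₐ[ℚ_[q]] PadicAlgCl q,
      (∀ (w : PadicAlgCl q) (m : ℕ), 0 < m → ¬ q ∣ m → w ^ m = 1 → h w = w) →
        h (padicEmbedding q (g x)) = padicEmbedding q (g x) := by
    intro h hh
    have hσ : g⁻¹ * localGaloisToGlobal q h * g ∈ A.inertiaSubgroupIn ℚ := by
      rw [← hg]
      exact (h23b_mem_inertia_conj_iff q g _).mpr ⟨h, hh, rfl⟩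
    have h1 := hfix _ hσ
    have h2 : localGaloisToGlobal q h (g x) = g x := by
      have h3 : g ((g⁻¹ * localGaloisToGlobal q h * g) x) = g x := congrArg g h1
      have h4 : g ((g⁻¹ * localGaloisToGlobal q h * g) x) = localGaloisToGlobal q h (g x) := by
        rw [AlgEquiv.mul_apply, AlgEquiv.mul_apply]
        exact g.apply_symm_apply _
      rw [← h4, h3]
    rw [← padicEmbedding_localGaloisToGlobal, h2]
  obtain ⟨k, hk⟩ := h64s_local_norm q hz0 hzfix
  have hq0 : ((q : ℝ)⁻¹) ≠ 0 := by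
    have : (q : ℝ) ≠ 0 := by exact_mod_cast hq.ne_zero
    exact inv_ne_zero this
  have hnorm : ‖padicEmbedding q (g (x * (q : Qb) ^ (-k)))‖ = 1 := by
    rw [map_mul, map_mul, norm_mul, map_zpow₀, map_zpow₀, map_natCast, map_natCast, norm_zpow,
      hk, h96b_norm_q, ← zpow_add₀ hq0, add_neg_cancel, zpow_zero]
  have hw0 : x * (q : Qb) ^ (-k) ≠ 0 := by
    have hqQ : (q : Qb) ≠ 0 := by exact_mod_cast hq.ne_zero
    exact mul_ne_zero hx0 (zpow_ne_zero _ hqQ)
  have hnorm' : ‖padicEmbedding q (g (x * (q : Qb) ^ (-k))⁻¹)‖ = 1 := by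
    rw [map_inv₀, map_inv₀, norm_inv, hnorm, inv_one]
  have key : ∀ w : Qb, ‖padicEmbedding q (g w)‖ = 1 → w ∈ A := by
    intro w hw
    rw [← hg, ValuationSubring.mem_pointwise_smul_iff_inv_smul_mem, inv_inv, AlgEquiv.smul_def,
      h64s_mem_padicPlace_iff, hw]
  exact ⟨k, key _ hnorm, key _ hnorm'⟩

/-- An inertia-fixed non-unit of `A` is divisible by `q` in `A`. -/
theorem h64s_div_mem (A : ValuationSubring Qb) {q : ℕ} (hq : q.Prime)
    (hA : A.LiesOverPrime q) {x : Qb} (hx : x ∈ A.nonunits)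
    (hfix : ∀ σ ∈ A.inertiaSubgroupIn ℚ, σ x = x) :
    x / (q : Qb) ∈ A := by
  by_cases hx0 : x = 0
  · rw [hx0, zero_div]
    exact A.zero_mem
  obtain ⟨k, hk1, hk2⟩ := h64s_exists_zpow A hq hA hx0 hfix
  have hqQ : (q : Qb) ≠ 0 := by exact_mod_cast hq.ne_zero
  have hqA : (q : Qb) ∈ A := natCast_mem A q
  have hxinv : x⁻¹ ∉ A := by
    rcases (ValuationSubring.mem_nonunits_iff_or (A := A)).mp hx with h | h
    · exact absurd h hx0
    · exact h
  -- `1 ≤ k`
  have hk : 1 ≤ k := by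
    by_contra hcon
    have hk0 : 0 ≤ -k := by omega
    have h1 : x⁻¹ = (x * (q : Qb) ^ (-k))⁻¹ * (q : Qb) ^ (-k) := by
      rw [mul_inv, mul_assoc, inv_mul_cancel₀ (zpow_ne_zero _ hqQ), mul_one]
    have h2 : (q : Qb) ^ (-k) ∈ A := by
      obtain ⟨m, hm⟩ := Int.eq_ofNat_of_zero_le hk0
      rw [hm, zpow_natCast]
      exact pow_mem hqA m
    exact hxinv (by rw [h1]; exact mul_mem hk2 h2)
  have h1 : x / (q : Qb) = (x * (q : Qb) ^ (-k)) * (q : Qb) ^ (k - 1) := by
    rw [mul_assoc, ← zpow_add₀ hqQ, show -k + (k - 1) = -1 by ring, zpow_neg_one, div_eq_mul_inv]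
  have h2 : (q : Qb) ^ (k - 1) ∈ A := by
    obtain ⟨m, hm⟩ := Int.eq_ofNat_of_zero_le (show (0 : ℤ) ≤ k - 1 by omega)
    rw [hm, zpow_natCast]
    exact pow_mem hqA m
  rw [h1]
  exact mul_mem hk1 h2

end Fermat.Agent.S36
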