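import Fermat.Agent.S36.H66RegGlue
import Fermat.Agent.S36.H86LocOneIface

/-!
# S36, row LOC-REGDATA: `H86LocRegData` (helper66, prefix `h66d_`)

`h66d_locRegData : H86LocRegData` (exact frozen Prop of `S36/H86LocOneIface.lean`), from
`h66r_glue_data` (`S36/H66RegGlue.lean`): at a one-branch closed point the index set of the
vertical primes is a singleton.
-/

set_option autoImplicit false

open IsLocalRing

namespace Fermat.Agent.S36

theorem h66d_locRegData : H86LocRegData := by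
  intro F _ B hN 𝔫 h𝔫 q _ _ hq0 hreg hnm P hP
  classical
  have hπ0 : ((q : ℕ) : B) ≠ 0 := by
    intro h
    apply hq0
    have h1 : (((q : ℕ) : B) : F) = 0 := by rw [h]; rfl
    simpa using h1
  have hP' : h66rVert B 𝔫 ((q : ℕ) : B) P := hP
  obtain ⟨hfin, f, e, he, hf, -, hass, -, hval, hmap⟩ :=
    h66r_glue_data (B := B) (𝔫 := 𝔫) ((q : ℕ) : B) hπ0 hreg.two_gen hreg.branch
      hreg.transversal ⟨P, hP'⟩
  have hsub : ∀ i : {P : Ideal B // h66rVert B 𝔫 ((q : ℕ) : B) P}, i = ⟨P, hP'⟩ := by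
    rintro ⟨P₁, hP₁⟩
    by_contra hne
    apply hnm
    refine ⟨P₁, P, hP₁.1, hP'.1, hP₁.2.1, hP'.2.1, hP₁.2.2.1, hP'.2.2.1, hP₁.2.2.2, hP'.2.2.2, ?_⟩
    intro h
    apply hne
    exact Subtype.ext h
  have hprod : (∏ i, f i ^ e i) = f ⟨P, hP'⟩ ^ e ⟨P, hP'⟩ := by
    rw [Finset.prod_eq_single (⟨P, hP'⟩ : {P : Ideal B // h66rVert B 𝔫 ((q : ℕ) : B) P})]
    · intro b _ hb
      exact absurd (hsub b) hb
    · intro h
      exact absurd (Finset.mem_univ _) h
  refine ⟨f ⟨P, hP'⟩, e ⟨P, hP'⟩, he _, hf _, ?_, hval _, ?_⟩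
  · rw [← hprod]
    have h1 : (((q : ℕ) : h66sO B 𝔫)) = algebraMap B (h66sO B 𝔫) ((q : ℕ) : B) := by
      apply Subtype.ext
      simp
    rw [h1]
    exact hass
  · intro b
    have hm := hmap ⟨P, hP'⟩
    have hb : (⟨(b : F), h66s_B_le_O b.2⟩ : h66sO B 𝔫) = algebraMap B (h66sO B 𝔫) b := rfl
    rw [hb, ← Ideal.mem_span_singleton, ← hm]
    constructor
    · intro h
      have h2 : b ∈ (P.map (algebraMap B (h66sO B 𝔫))).comap (algebraMap B (h66sO B 𝔫)) :=
        Ideal.mem_comap.mpr h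
      rwa [h66r_vert_comap_map hP'] at h2
    · intro h
      exact Ideal.mem_map_of_mem _ h

end Fermat.Agent.S36
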