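import Fermat.Agent.S36.H66TNormB

/-!
# S36, row T-NORM-A: `H11TorNormA` from (CEN) + (TN2) (helper66, prefix `h66u_`)

`h66u_normA_of : H11TorBasic → H71TorCenA → H71TorGenA → H11TorNormA`
(exact frozen Prop of `S36/H11TorSkel.lean`; the inputs are the frozen Props of
`S36/H71TorIface.lean`).  Mirror of `S36/H66TNormB.lean`: the abstract core `h66n_sep`,
`h66n_insep` with (TN1) `= h41x_tn1_alpha_inf_add`, `h41x_tn1_alpha_zero_add` (helper41),
`α (chart (M q)) ⊆ chart (M q q)` (`h12u_alpha_mem`), `[F₂ : α F₁] = q`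
(`h40na_finrank_alpha`).
-/

set_option autoImplicit false

open AlgebraicCurve ModularCurve

noncomputable section

namespace Fermat.Agent.S36

open Fermat.Agent.S37 (Kbar GQ FF cst jB gal modelAt degen auxLevel)
open Fermat.Agent.Red.KR (normAlong normAlong_mul normAlong_map)
open Fermat.Agent.Red.Kron (kFricke)
open Fermat.Agent.Red.GV.Soft (softOT softRedT softRedT_ne_zero_iff)

/-- `Nm_α (α y) = y ^ q`. -/
theorem h66u_norm_alpha_map {M q : ℕ} [NeZero M] [NeZero q] (hq : q.Prime) (y : FF (M * q)) :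
    normAlong (heckeAlphaBar Kbar (M * q) q) (heckeAlphaBar Kbar (M * q) q y) = y ^ q := by
  rw [normAlong_map]
  congr 1
  exact h40na_finrank_alpha (M * q) q hq (Dvd.intro_left M rfl)

/-- **T-NORM-α** from centredness (CEN) and branch generation (TN2) at the supersingular
points. -/
theorem h66u_normA_of (hBasic : H11TorBasic) (hCen : H71TorCenA) (hGen : H71TorGenA) :
    H11TorNormA := by
  intro q hq M _ hqM haux
  have : NeZero q := ⟨hq.ne_zero⟩
  intro A hA 𝔫 hSS 𝔫a hnode x hxF a₀ a₁ a₂ ha₀ ha₁ ha₂ hBV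
  obtain ⟨hcst, hint2, hint1, -, -, -⟩ := hBasic q hq M hqM haux A hA
  have hCen' := hCen q hq M hqM haux A hA 𝔫 hSS 𝔫a hnode
  have hGen' := hGen q hq M hqM haux A hA 𝔫 hSS 𝔫a hnode
  obtain ⟨h𝔫amax, hunder, hcenInf, hcenZero⟩ := hnode
  obtain ⟨h𝔫max, hq𝔫, -⟩ := hSS
  have h𝔫p : 𝔫.IsPrime := h𝔫max.isPrime
  have h𝔫ap : 𝔫a.IsPrime := h𝔫amax.isPrime
  obtain ⟨hBV0, hBV1, hBV2⟩ := hBV
  -- the map `α` on the charts
  set ι : FF (M * q) →+* FF (M * q * q) :=
    (heckeAlphaBar Kbar (M * q) q : FF (M * q) →+* FF (M * q * q)) with hιdef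
  have hι : ∀ b' : h92c_Chart A (M * q) (jB (M * q)),
      ι (b' : FF (M * q)) ∈ h92c_Chart A (M * q * q) (jB (M * q * q)) :=
    fun b' => h12u_alpha_mem M q A b'.2
  have hund : ∀ b' : h92c_Chart A (M * q) (jB (M * q)),
      b' ∈ 𝔫a ↔ h66nIota ι hι b' ∈ 𝔫 := by
    intro b'
    rw [hunder b']
    constructor
    · rintro ⟨b, hb, hbe⟩
      have e : h66nIota ι hι b' = b := Subtype.ext hbe.symm
      rw [e]
      exact hb
    · intro h
      exact ⟨h66nIota ι hι b', h, rfl⟩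
  -- the branches
  have hsmInf := h11t_sm A (h11t_Einf M q) (h92c_Chart A (M * q) (jB (M * q)))
    (fun b hb => (hint1 b hb).1)
  have hsmZero := h11t_sm A (h11t_Ezero M q hq hqM) (h92c_Chart A (M * q) (jB (M * q)))
    (fun b hb => (hint1 b hb).2)
  have hsmE : ∀ E : FF (M * q * q) →+* LaurentSeries Kbar, h11l_IsVE M q hq hqM E →
      H11aSm (h92c_Chart A (M * q * q) (jB (M * q * q))) (h11t_Int A E) (h11l_Small A E) :=
    fun E hE => h11t_sm A E _ (fun b hb => hint2 b hb E hE)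
  -- the norm
  have hNmul : ∀ y z : FF (M * q * q),
      normAlong (heckeAlphaBar Kbar (M * q) q) (y * z)
        = normAlong (heckeAlphaBar Kbar (M * q) q) y
          * normAlong (heckeAlphaBar Kbar (M * q) q) z :=
    fun y z => normAlong_mul _ y z
  have hNm : ∀ y : FF (M * q), normAlong (heckeAlphaBar Kbar (M * q) q) (ι y) = y ^ q :=
    fun y => h66u_norm_alpha_map hq y
  -- the constants
  have hcstB : ∀ a : Kbar, h11t_IsC A a →
      cst (M * q * q) a ∈ h92c_Chart A (M * q * q) (jB (M * q * q)) ∧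
      cst (M * q) a ∈ h92c_Chart A (M * q) (jB (M * q)) :=
    fun a ha => hcst a ha.2.1 ha.2.2.2
  have hCinv : ∀ a : Kbar, h11t_IsC A a → h11t_IsC A a⁻¹ := by
    intro a ha
    refine ⟨inv_ne_zero ha.1, ha.2.2.1, by rw [inv_inv]; exact ha.2.1, fun σ hσ => ?_⟩
    rw [map_inv₀, ha.2.2.2 σ hσ]
  have hCmul : ∀ a b : Kbar, h11t_IsC A a → h11t_IsC A b → h11t_IsC A (a * b) := by
    intro a b ha hb
    refine ⟨mul_ne_zero ha.1 hb.1, A.mul_mem _ _ ha.2.1 hb.2.1, ?_, fun σ hσ => ?_⟩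
    · rw [mul_inv]
      exact A.mul_mem _ _ ha.2.2.1 hb.2.2.1
    · rw [map_mul, ha.2.2.2 σ hσ, hb.2.2.2 σ hσ]
  have hCpow : ∀ (a : Kbar) (n : ℕ), h11t_IsC A a → h11t_IsC A (a ^ n) := by
    intro a n ha
    induction n with
    | zero =>
      rw [pow_zero]
      exact ⟨one_ne_zero, A.one_mem, by rw [inv_one]; exact A.one_mem, fun σ _ => map_one σ⟩
    | succ n ih =>
      rw [pow_succ]
      exact hCmul _ _ ih ha
  have hcn : ∀ (a : Kbar), h11t_IsC A a →
      ∀ c : h92c_Chart A (M * q * q) (jB (M * q * q)), (c : FF (M * q * q)) = cst (M * q * q) a →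
        c ∉ 𝔫 :=
    fun a ha c hc => h66t_cst_not_mem A _ 𝔫 h𝔫p.ne_top ha.1 (hcstB _ (hCinv a ha)).1 hc
  have hαcst : ∀ a : Kbar, ι (cst (M * q) a) = cst (M * q * q) a :=
    fun a => (heckeAlphaBar Kbar (M * q) q).commutes a
  have hαcoe : ∀ y : FF (M * q), h20n_E20 M q (ι y) = h11t_Einf M q y := by
    intro y
    rw [h41x_E20_apply]
    exact coe_heckeAlphaBar (L := Kbar) (N := M * q) (ℓ := q) y
  refine ⟨?_, ?_⟩
  · -- the separable branches `E20, E11 → E_∞`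
    have : NeZero ((q : ℕ) : Kbar) := ⟨by exact_mod_cast hq.ne_zero⟩
    obtain ⟨ζ, hζ⟩ := HasEnoughRootsOfUnity.exists_primitiveRoot Kbar q
    obtain ⟨hex11, -⟩ := h20n_embExists q hq M hqM
    obtain ⟨E, hE⟩ := hex11 ζ hζ.pow_eq_one (hζ.ne_one hq.one_lt)
    obtain ⟨c₁, hc₁, hx₁⟩ := hBV1 ζ E hζ hE
    obtain ⟨c₂, hc₂, hx₂⟩ := hBV0
    have hVE1 : h11l_IsVE M q hq hqM E := Or.inr (Or.inl ⟨ζ, hζ, hE⟩)
    have hVE2 : h11l_IsVE M q hq hqM (h20n_E20 M q) := Or.inl rfl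
    have key := h66n_sep ι hι hund (hsmE _ hVE1) (hsmE _ hVE2) (h66t_unit A E)
      (h66t_unit A (h20n_E20 M q)) (hCen' _ hVE1) (hCen' _ hVE2) hsmInf hcenInf
      (normAlong (heckeAlphaBar Kbar (M * q) q)) hNmul q hq.pos hNm
      (fun z => z ∈ h92c_F0 A (M * q * q))
      (fun b' z hz => mul_mem (hι b').2 hz)
      ?_ (fun b => (hGen' b).2.1 ζ E hζ hE) (fun b => (hGen' b).1) hxF
      (c₁' := ⟨cst (M * q) a₁, (hcstB _ ha₁).2⟩) (c₂' := ⟨cst (M * q) a₀, (hcstB _ ha₀).2⟩)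
      (Subtype.ext ((hαcst a₁).trans hc₁.symm)) (Subtype.ext ((hαcst a₀).trans hc₂.symm))
      (hcn a₁ ha₁ c₁ hc₁) (hcn a₀ ha₀ c₂ hc₂) hx₁ hx₂
    · refine ⟨_, ?_, key⟩
      rw [Subring.coe_mul, SubmonoidClass.coe_pow]
      show algebraMap Kbar (FF (M * q)) a₁ ^ (q - 1) * algebraMap Kbar (FF (M * q)) a₀
        = algebraMap Kbar (FF (M * q)) (a₀ * a₁ ^ (q - 1))
      rw [map_mul, map_pow]
      exact mul_comm _ _
    · -- (TN1)
      intro z hz y₁ y₂ hy₁ hy₁ns hy₂ hy₂ns h₁ h₂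
      have h1 : h41x_Small A (E (z - ι y₁)) := h₁
      have h2 : h41x_Small A (h20n_E20 M q (z - ι y₂)) := h₂
      rw [map_sub] at h1 h2
      rw [hαcoe] at h2
      have e1 : E (ι y₁) = h11t_Einf M q y₁ := hE.1 y₁
      rw [e1] at h1
      have h3 := h41x_tn1_alpha_inf_add M q hq hqM A hA ζ hζ E hE z hz y₂ y₁
        (h66t_gunit A (h11t_Einf M q) y₂ hy₂ hy₂ns)
        (h66t_gunit A (h11t_Einf M q) y₁ hy₁ hy₁ns) h2 h1
      have h4 : h41x_Small A (h11t_Einf M q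
          (normAlong (heckeAlphaBar Kbar (M * q) q) z - y₁ ^ (q - 1) * y₂)) := by
        rw [map_sub, mul_comm (y₁ ^ (q - 1)) y₂]
        exact h3
      exact h4
  · -- the inseparable branch `E02 → E_0`
    obtain ⟨-, E0, hE0⟩ := h20n_embExists q hq M hqM
    obtain ⟨c, hc, hx⟩ := hBV2 E0 hE0
    have hVE : h11l_IsVE M q hq hqM E0 := Or.inr (Or.inr hE0)
    refine ⟨⟨cst (M * q) (a₂ ^ q), (hcstB _ (hCpow a₂ q ha₂)).2⟩, rfl, ?_⟩
    refine h66n_insep ι hι hund (hsmE _ hVE) (hCen' _ hVE) hsmZero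
      (h66t_unit A (h11t_Ezero M q hq hqM)) hcenZero
      (normAlong (heckeAlphaBar Kbar (M * q) q)) hNmul q hNm ?_ ?_ ?_ (hcn a₂ ha₂ c hc) hx
    · -- (TN1)
      intro z y hy hyns hz
      have h1 : h41x_Small A (E0 (z ^ q - ι y)) := hz
      rw [map_sub, map_pow] at h1
      have h2 := h41x_tn1_alpha_zero_add M q hq hqM A hA E0 hE0 z y
        (h66t_gunit A (h11t_Ezero M q hq hqM) y hy hyns) h1
      have h3 : h41x_Small A (h11t_Ezero M q hq hqM
          (normAlong (heckeAlphaBar Kbar (M * q) q) z - y)) := by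
        rw [map_sub]
        exact h2
      exact h3
    · -- (TN2)
      intro b
      exact (hGen' b).2.2 E0 hE0
    · -- the value
      apply Subtype.ext
      show ι (cst (M * q) (a₂ ^ q)) = ((c ^ q : h92c_Chart A (M * q * q) (jB (M * q * q))) :
        FF (M * q * q))
      rw [hαcst, SubmonoidClass.coe_pow, hc]
      exact map_pow (algebraMap Kbar (FF (M * q * q))) a₂ q

end Fermat.Agent.S36
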