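import Mathlib
import Fermat.Agent.S36.H11TorCalc

/-!
# S36, rows T-NORM-A / T-NORM-B: the abstract core (helper66, prefix `h66n_`)

Mathlib + `S36/H11TorCalc.lean` (calculus of branch values of helper11).

`B ≤ F` the chart of level `M q²`, `𝔫` a closed point; `B' ≤ F'` the chart of level `M q`,
`𝔫'` the node under `𝔫` along `ι : F' → F` (`α` or `β`), `Nm : F → F'` the norm;
`(Int, Sm)` a branch through `𝔫`, `(Int', Sm')` a branch through `𝔫'`.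

* `h66n_sep_step` : (TN2, separable) transfers a branch value at `𝔫` along a separable branch
  to a fraction of the chart of level `M q`.
* `h66n_sep` : **separable branches**: branch values `c₁, c₂` of `x` along the branches
  `Sm₁` (`e = q - 1`), `Sm₂` (`e = 1`) ⟹ branch value `c₁ ^ (q - 1) c₂` of `Nm x`.
* `h66n_insep_step`, `h66n_insep` : **purely inseparable branch**: branch value `c` of `x`
  ⟹ branch value `c ^ q` of `Nm x`.
-/

set_option autoImplicit false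

namespace Fermat.Agent.S36

section Abs

variable {F F' : Type*} [Field F] [Field F'] {B : Subring F} {B' : Subring F'}
  {𝔫 : Ideal B} {𝔫' : Ideal B'}

/-- a chart function outside a point at which the branch is centred is a Gauss unit. -/
theorem h66n_int_inv {Int Sm : F → Prop} (hsm : H11aSm B Int Sm)
    (hunit : ∀ v : F, Int v → ¬ Sm v → Int v⁻¹) (hcen : h11a_Centred B 𝔫 Sm)
    {s : B} (hs : s ∉ 𝔫) : Int ((s : F))⁻¹ :=
  hunit _ (hsm.int_of_mem s) fun h => hs (hcen s h)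

theorem h66n_coe_ne_zero {Int Sm : F → Prop} (hsm : H11aSm B Int Sm)
    (hcen : h11a_Centred B 𝔫 Sm) {s : B} (hs : s ∉ 𝔫) : (s : F) ≠ 0 := by
  intro h0
  apply hs
  apply hcen
  rw [h0]
  exact hsm.sm_zero

/-- a function with a branch value at `𝔫` is Gauss-integral along a branch centred at `𝔫`. -/
theorem h66n_int_of_bv {Int Sm : F → Prop} (hsm : H11aSm B Int Sm)
    (hunit : ∀ v : F, Int v → ¬ Sm v → Int v⁻¹) (hcen : h11a_Centred B 𝔫 Sm)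
    {x : F} {c : B} (hx : h11a_BV B 𝔫 Sm x c) : Int x := by
  obtain ⟨b, s, hs, hsm', -⟩ := hx
  have hs0 : (s : F) ≠ 0 := h66n_coe_ne_zero hsm hcen hs
  have h1 : Int ((s : F) * x) := by
    have e : (s : F) * x = ((s : F) * x - b) + b := by ring
    rw [e]
    exact hsm.int_add (hsm.sm_int hsm') (hsm.int_of_mem b)
  have e : x = ((s : F))⁻¹ * ((s : F) * x) := by
    field_simp
  rw [e]
  exact hsm.int_mul (h66n_int_inv hsm hunit hcen hs) h1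

/-- the numerator of a branch value outside `𝔫` is outside `𝔫`. -/
theorem h66n_num_not_mem [h𝔫 : 𝔫.IsPrime] {b s c : B} (hs : s ∉ 𝔫) (hc : c ∉ 𝔫)
    (hb : b - c * s ∈ 𝔫) : b ∉ 𝔫 := by
  intro h
  have h1 : c * s ∈ 𝔫 := by
    have e : c * s = b - (b - c * s) := by ring
    rw [e]
    exact 𝔫.sub_mem h hb
  exact (h𝔫.mem_or_mem h1).elim hc hs

variable (ι : F' →+* F) (hι : ∀ b' : B', ι (b' : F') ∈ B)

/-- the map induced by `ι` on the charts. -/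
def h66nIota : B' →+* B where
  toFun b' := ⟨ι (b' : F'), hι b'⟩
  map_one' := Subtype.ext (by simp)
  map_mul' x y := Subtype.ext (by simp)
  map_zero' := Subtype.ext (by simp)
  map_add' x y := Subtype.ext (by simp)

@[simp] theorem h66nIota_coe (b' : B') : ((h66nIota ι hι b' : B) : F) = ι (b' : F') := rfl

end Abs

section Sep

variable {F F' : Type*} [Field F] [Field F'] {B : Subring F} {B' : Subring F'}
  {𝔫 : Ideal B} {𝔫' : Ideal B'}
  (ι : F' →+* F) (hι : ∀ b' : B', ι (b' : F') ∈ B)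

/-- **(TN2, separable) transfers a branch value.**  If every function of the chart `B` is, along
the branch `Sm`, a fraction of the chart `B'` with denominator outside `𝔫'`, then a function `x`
with branch value `c ∉ 𝔫` is congruent along `Sm` to `ι N / ι D` with `D, N ∈ B' ∖ 𝔫'` and
`ι N ≡ c ι D` modulo `𝔫`. -/
theorem h66n_sep_step [h𝔫 : 𝔫.IsPrime] [h𝔫' : 𝔫'.IsPrime]
    (hund : ∀ b' : B', b' ∈ 𝔫' ↔ h66nIota ι hι b' ∈ 𝔫)
    {Int Sm : F → Prop} (hsm : H11aSm B Int Sm)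
    (hunit : ∀ v : F, Int v → ¬ Sm v → Int v⁻¹) (hcen : h11a_Centred B 𝔫 Sm)
    (TN2 : ∀ b : B, ∃ d b' : B', d ∉ 𝔫' ∧ Sm (ι (d : F') * (b : F) - ι (b' : F')))
    {x : F} {c : B} (hc : c ∉ 𝔫) (hx : h11a_BV B 𝔫 Sm x c) :
    ∃ D N : B', D ∉ 𝔫' ∧ N ∉ 𝔫' ∧ Sm (ι (D : F') * x - ι (N : F')) ∧
      h66nIota ι hι N - c * h66nIota ι hι D ∈ 𝔫 := by
  have hxint : Int x := h66n_int_of_bv hsm hunit hcen hx
  obtain ⟨b, s, hs, hsx, hb⟩ := hx
  have hbn : b ∉ 𝔫 := h66n_num_not_mem hs hc hb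
  obtain ⟨d, b', hd, hdb⟩ := TN2 b
  obtain ⟨e, s', he, hes⟩ := TN2 s
  have hd' : h66nIota ι hι d ∉ 𝔫 := fun h => hd ((hund d).mpr h)
  have he' : h66nIota ι hι e ∉ 𝔫 := fun h => he ((hund e).mpr h)
  -- the two differences lie in `𝔫`
  have wb : h66nIota ι hι d * b - h66nIota ι hι b' ∈ 𝔫 := by
    apply hcen
    have e1 : ((h66nIota ι hι d * b - h66nIota ι hι b' : B) : F)
        = ι (d : F') * (b : F) - ι (b' : F') := by push_cast; rfl
    rw [e1]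
    exact hdb
  have ws : h66nIota ι hι e * s - h66nIota ι hι s' ∈ 𝔫 := by
    apply hcen
    have e1 : ((h66nIota ι hι e * s - h66nIota ι hι s' : B) : F)
        = ι (e : F') * (s : F) - ι (s' : F') := by push_cast; rfl
    rw [e1]
    exact hes
  have hs'n : s' ∉ 𝔫' := by
    intro h
    have h1 : h66nIota ι hι s' ∈ 𝔫 := (hund s').mp h
    have h2 : h66nIota ι hι e * s ∈ 𝔫 := by
      have e1 : h66nIota ι hι e * s
          = (h66nIota ι hι e * s - h66nIota ι hι s') + h66nIota ι hι s' := by ring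
      rw [e1]
      exact 𝔫.add_mem ws h1
    exact (h𝔫.mem_or_mem h2).elim he' hs
  have hb'n : b' ∉ 𝔫' := by
    intro h
    have h1 : h66nIota ι hι b' ∈ 𝔫 := (hund b').mp h
    have h2 : h66nIota ι hι d * b ∈ 𝔫 := by
      have e1 : h66nIota ι hι d * b
          = (h66nIota ι hι d * b - h66nIota ι hι b') + h66nIota ι hι b' := by ring
      rw [e1]
      exact 𝔫.add_mem wb h1
    exact (h𝔫.mem_or_mem h2).elim hd' hbn
  refine ⟨d * s', e * b', fun h => (h𝔫'.mem_or_mem h).elim hd hs'n,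
    fun h => (h𝔫'.mem_or_mem h).elim he hb'n, ?_, ?_⟩
  · have e1 : ι ((d * s' : B') : F') * x - ι ((e * b' : B') : F')
        = -(ι (d : F') * x * (ι (e : F') * (s : F) - ι (s' : F')))
          + ι (d : F') * ι (e : F') * ((s : F) * x - (b : F))
          + ι (e : F') * (ι (d : F') * (b : F) - ι (b' : F')) := by
      push_cast
      rw [map_mul, map_mul]
      ring
    rw [e1]
    have id : Int (ι (d : F')) := hsm.int_of_mem (h66nIota ι hι d)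
    have ie : Int (ι (e : F')) := hsm.int_of_mem (h66nIota ι hι e)
    exact hsm.sm_add (hsm.sm_add (hsm.sm_neg (hsm.sm_mul (hsm.int_mul id hxint) hes))
      (hsm.sm_mul (hsm.int_mul id ie) hsx)) (hsm.sm_mul ie hdb)
  · have e1 : h66nIota ι hι (e * b') - c * h66nIota ι hι (d * s')
        = -(h66nIota ι hι e * (h66nIota ι hι d * b - h66nIota ι hι b'))
          + c * h66nIota ι hι d * (h66nIota ι hι e * s - h66nIota ι hι s')
          + h66nIota ι hι d * h66nIota ι hι e * (b - c * s) := by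
      rw [map_mul, map_mul]
      ring
    rw [e1]
    exact 𝔫.add_mem (𝔫.add_mem (𝔫.neg_mem (𝔫.mul_mem_left _ wb)) (𝔫.mul_mem_left _ ws))
      (𝔫.mul_mem_left _ hb)

/-- **Branch norm formula, separable branches** (chart form).  `Sm₁`, `Sm₂` two branches
through `𝔫` over the branch `Sm'` through `𝔫'`, with (TN1) in congruence form on the functions
of `K` (`K = F₀`) and (TN2) in fraction form. -/
theorem h66n_sep [h𝔫 : 𝔫.IsPrime] [h𝔫' : 𝔫'.IsPrime]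
    (hund : ∀ b' : B', b' ∈ 𝔫' ↔ h66nIota ι hι b' ∈ 𝔫)
    {Int₁ Sm₁ Int₂ Sm₂ : F → Prop} (hsm₁ : H11aSm B Int₁ Sm₁) (hsm₂ : H11aSm B Int₂ Sm₂)
    (hunit₁ : ∀ v : F, Int₁ v → ¬ Sm₁ v → Int₁ v⁻¹)
    (hunit₂ : ∀ v : F, Int₂ v → ¬ Sm₂ v → Int₂ v⁻¹)
    (hcen₁ : h11a_Centred B 𝔫 Sm₁) (hcen₂ : h11a_Centred B 𝔫 Sm₂)
    {Int' Sm' : F' → Prop} (hsm' : H11aSm B' Int' Sm') (hcen' : h11a_Centred B' 𝔫' Sm')
    (Nm : F → F') (hNmul : ∀ y z : F, Nm (y * z) = Nm y * Nm z) (q : ℕ) (hq : 0 < q)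
    (hNm : ∀ y : F', Nm (ι y) = y ^ q)
    (K : F → Prop) (hK : ∀ (b' : B') (x : F), K x → K (ι (b' : F') * x))
    (TN1 : ∀ z : F, K z → ∀ y₁ y₂ : F', Int' y₁ → ¬ Sm' y₁ → Int' y₂ → ¬ Sm' y₂ →
      Sm₁ (z - ι y₁) → Sm₂ (z - ι y₂) → Sm' (Nm z - y₁ ^ (q - 1) * y₂))
    (TN2₁ : ∀ b : B, ∃ d b' : B', d ∉ 𝔫' ∧ Sm₁ (ι (d : F') * (b : F) - ι (b' : F')))
    (TN2₂ : ∀ b : B, ∃ d b' : B', d ∉ 𝔫' ∧ Sm₂ (ι (d : F') * (b : F) - ι (b' : F')))
    {x : F} (hxK : K x) {c₁ c₂ : B} {c₁' c₂' : B'}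
    (hc₁' : h66nIota ι hι c₁' = c₁) (hc₂' : h66nIota ι hι c₂' = c₂)
    (hc₁ : c₁ ∉ 𝔫) (hc₂ : c₂ ∉ 𝔫)
    (h₁ : h11a_BV B 𝔫 Sm₁ x c₁) (h₂ : h11a_BV B 𝔫 Sm₂ x c₂) :
    h11a_BV B' 𝔫' Sm' (Nm x) (c₁' ^ (q - 1) * c₂') := by
  obtain ⟨D₁, N₁, hD₁, hN₁, hS₁, hV₁⟩ := h66n_sep_step ι hι hund hsm₁ hunit₁ hcen₁ TN2₁ hc₁ h₁
  obtain ⟨D₂, N₂, hD₂, hN₂, hS₂, hV₂⟩ := h66n_sep_step ι hι hund hsm₂ hunit₂ hcen₂ TN2₂ hc₂ h₂
  -- the values at the node
  have hV₁' : N₁ - c₁' * D₁ ∈ 𝔫' := by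
    rw [hund, map_sub, map_mul, hc₁']
    exact hV₁
  have hV₂' : N₂ - c₂' * D₂ ∈ 𝔫' := by
    rw [hund, map_sub, map_mul, hc₂']
    exact hV₂
  -- the common denominator
  have hz : K (ι ((D₁ * D₂ : B') : F') * x) := hK _ _ hxK
  have hy₁ : (D₂ * N₁ : B') ∉ 𝔫' := fun h => (h𝔫'.mem_or_mem h).elim hD₂ hN₁
  have hy₂ : (D₁ * N₂ : B') ∉ 𝔫' := fun h => (h𝔫'.mem_or_mem h).elim hD₁ hN₂
  have hz₁ : Sm₁ (ι ((D₁ * D₂ : B') : F') * x - ι ((D₂ * N₁ : B') : F')) := by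
    have e1 : ι ((D₁ * D₂ : B') : F') * x - ι ((D₂ * N₁ : B') : F')
        = ι (D₂ : F') * (ι (D₁ : F') * x - ι (N₁ : F')) := by
      push_cast
      rw [map_mul, map_mul]
      ring
    rw [e1]
    exact hsm₁.sm_mul (hsm₁.int_of_mem (h66nIota ι hι D₂)) hS₁
  have hz₂ : Sm₂ (ι ((D₁ * D₂ : B') : F') * x - ι ((D₁ * N₂ : B') : F')) := by
    have e1 : ι ((D₁ * D₂ : B') : F') * x - ι ((D₁ * N₂ : B') : F')
        = ι (D₁ : F') * (ι (D₂ : F') * x - ι (N₂ : F')) := by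
      push_cast
      rw [map_mul, map_mul]
      ring
    rw [e1]
    exact hsm₂.sm_mul (hsm₂.int_of_mem (h66nIota ι hι D₁)) hS₂
  have key := TN1 _ hz ((D₂ * N₁ : B') : F') ((D₁ * N₂ : B') : F')
    (hsm'.int_of_mem _) (fun h => hy₁ (hcen' _ h))
    (hsm'.int_of_mem _) (fun h => hy₂ (hcen' _ h)) hz₁ hz₂
  rw [hNmul, hNm] at key
  refine ⟨(D₂ * N₁) ^ (q - 1) * (D₁ * N₂), (D₁ * D₂) ^ q,
    fun h => (h𝔫'.mem_or_mem (h𝔫'.mem_of_pow_mem _ h)).elim hD₁ hD₂, ?_, ?_⟩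
  · have e1 : (((D₁ * D₂) ^ q : B') : F') * Nm x
        - (((D₂ * N₁) ^ (q - 1) * (D₁ * N₂) : B') : F')
        = ((D₁ * D₂ : B') : F') ^ q * Nm x
          - ((D₂ * N₁ : B') : F') ^ (q - 1) * ((D₁ * N₂ : B') : F') := by
      push_cast
      ring
    rw [e1]
    exact key
  · rw [← Ideal.Quotient.eq_zero_iff_mem] at hV₁' hV₂' ⊢
    rw [map_sub, sub_eq_zero] at hV₁' hV₂' ⊢
    obtain ⟨k, rfl⟩ : ∃ k, q = k + 1 := ⟨q - 1, by omega⟩
    simp only [map_mul, map_pow, Nat.add_sub_cancel] at hV₁' hV₂' ⊢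
    rw [hV₁', hV₂']
    ring

end Sep

section Insep

variable {F F' : Type*} [Field F] [Field F'] {B : Subring F} {B' : Subring F'}
  {𝔫 : Ideal B} {𝔫' : Ideal B'}
  (ι : F' →+* F) (hι : ∀ b' : B', ι (b' : F') ∈ B)

theorem h66n_sm_pow_sub_pow {Int Sm : F → Prop} (hsm : H11aSm B Int Sm) {z w : F}
    (hz : Int z) (hw : Int w) (h : Sm (z - w)) (q : ℕ) : Sm (z ^ q - w ^ q) := by
  have h1 := (Commute.all z w).mul_geom_sum₂ q
  rw [← h1, mul_comm]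
  refine hsm.sm_mul ?_ h
  have hsum : ∀ (S : Finset ℕ) (f : ℕ → F), (∀ i ∈ S, Int (f i)) → Int (∑ i ∈ S, f i) := by
    intro S f
    classical
    induction S using Finset.induction_on with
    | empty =>
      intro _
      rw [Finset.sum_empty]
      have := hsm.int_of_mem (0 : B)
      simpa using this
    | insert a S ha ih =>
      intro hf
      rw [Finset.sum_insert ha]
      exact hsm.int_add (hf a (Finset.mem_insert_self a S))
        (ih fun i hi => hf i (Finset.mem_insert_of_mem hi))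
  exact hsum _ _ fun i _ => hsm.int_mul (hsm.int_pow hz _) (hsm.int_pow hw _)

/-- **purely inseparable branch, one step.**  A function `z ≡ b` along `Sm` with
`b ∈ B ∖ 𝔫` has `D · Nm z ≡ N` along `Sm'` with `D, N ∈ B' ∖ 𝔫'` and `ι N ≡ ι D · b ^ q`
modulo `𝔫`. -/
theorem h66n_insep_step [h𝔫 : 𝔫.IsPrime] [h𝔫' : 𝔫'.IsPrime]
    (hund : ∀ b' : B', b' ∈ 𝔫' ↔ h66nIota ι hι b' ∈ 𝔫)
    {Int Sm : F → Prop} (hsm : H11aSm B Int Sm) (hcen : h11a_Centred B 𝔫 Sm)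
    {Int' Sm' : F' → Prop} (hsm' : H11aSm B' Int' Sm') (hcen' : h11a_Centred B' 𝔫' Sm')
    (Nm : F → F') (hNmul : ∀ y z : F, Nm (y * z) = Nm y * Nm z) (q : ℕ)
    (hNm : ∀ y : F', Nm (ι y) = y ^ q)
    (TN1 : ∀ (z : F) (y : F'), Int' y → ¬ Sm' y → Sm (z ^ q - ι y) → Sm' (Nm z - y))
    (TN2 : ∀ b : B, ∃ d b' : B', d ∉ 𝔫' ∧ Sm ((ι (d : F') * (b : F)) ^ q - ι (b' : F')))
    {z : F} {b : B} (hb : b ∉ 𝔫) (hz : Sm (z - (b : F))) :
    ∃ D N : B', D ∉ 𝔫' ∧ N ∉ 𝔫' ∧ Sm' ((D : F') * Nm z - (N : F')) ∧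
      h66nIota ι hι N - h66nIota ι hι D * b ^ q ∈ 𝔫 := by
  obtain ⟨d, b', hd, hdb⟩ := TN2 b
  have hd' : h66nIota ι hι d ∉ 𝔫 := fun h => hd ((hund d).mpr h)
  have wb : (h66nIota ι hι d * b) ^ q - h66nIota ι hι b' ∈ 𝔫 := by
    apply hcen
    have e1 : (((h66nIota ι hι d * b) ^ q - h66nIota ι hι b' : B) : F)
        = (ι (d : F') * (b : F)) ^ q - ι (b' : F') := by push_cast; rfl
    rw [e1]
    exact hdb
  have hb'n : b' ∉ 𝔫' := by
    intro h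
    have h1 : h66nIota ι hι b' ∈ 𝔫 := (hund b').mp h
    have h2 : (h66nIota ι hι d * b) ^ q ∈ 𝔫 := by
      have e1 : (h66nIota ι hι d * b) ^ q
          = ((h66nIota ι hι d * b) ^ q - h66nIota ι hι b') + h66nIota ι hι b' := by ring
      rw [e1]
      exact 𝔫.add_mem wb h1
    exact (h𝔫.mem_or_mem (h𝔫.mem_of_pow_mem _ h2)).elim hd' hb
  have hzint : Int z := by
    have e1 : z = (z - (b : F)) + (b : F) := by ring
    rw [e1]
    exact hsm.int_add (hsm.sm_int hz) (hsm.int_of_mem b)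
  have id : Int (ι (d : F')) := hsm.int_of_mem (h66nIota ι hι d)
  -- `(ι d z) ^ q ≡ ι b'`
  have h1 : Sm ((ι (d : F') * z) ^ q - ι (b' : F')) := by
    have e1 : (ι (d : F') * z) ^ q - ι (b' : F')
        = ((ι (d : F') * z) ^ q - (ι (d : F') * (b : F)) ^ q)
          + ((ι (d : F') * (b : F)) ^ q - ι (b' : F')) := by ring
    rw [e1]
    refine hsm.sm_add (h66n_sm_pow_sub_pow hsm (hsm.int_mul id hzint)
      (hsm.int_mul id (hsm.int_of_mem b)) ?_ q) hdb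
    have e2 : ι (d : F') * z - ι (d : F') * (b : F) = ι (d : F') * (z - (b : F)) := by ring
    rw [e2]
    exact hsm.sm_mul id hz
  have key := TN1 _ (b' : F') (hsm'.int_of_mem b') (fun h => hb'n (hcen' _ h)) h1
  rw [hNmul, hNm] at key
  refine ⟨d ^ q, b', fun h => hd (h𝔫'.mem_of_pow_mem _ h), hb'n, ?_, ?_⟩
  · have e1 : ((d ^ q : B') : F') * Nm z - (b' : F') = (d : F') ^ q * Nm z - (b' : F') := by
      push_cast
      ring
    rw [e1]
    exact key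
  · have e1 : h66nIota ι hι b' - h66nIota ι hι (d ^ q) * b ^ q
        = -((h66nIota ι hι d * b) ^ q - h66nIota ι hι b') := by
      rw [map_pow]
      ring
    rw [e1]
    exact 𝔫.neg_mem wb

/-- **Branch norm formula, purely inseparable branch** (chart form). -/
theorem h66n_insep [h𝔫 : 𝔫.IsPrime] [h𝔫' : 𝔫'.IsPrime]
    (hund : ∀ b' : B', b' ∈ 𝔫' ↔ h66nIota ι hι b' ∈ 𝔫)
    {Int Sm : F → Prop} (hsm : H11aSm B Int Sm) (hcen : h11a_Centred B 𝔫 Sm)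
    {Int' Sm' : F' → Prop} (hsm' : H11aSm B' Int' Sm')
    (hunit' : ∀ v : F', Int' v → ¬ Sm' v → Int' v⁻¹) (hcen' : h11a_Centred B' 𝔫' Sm')
    (Nm : F → F') (hNmul : ∀ y z : F, Nm (y * z) = Nm y * Nm z) (q : ℕ)
    (hNm : ∀ y : F', Nm (ι y) = y ^ q)
    (TN1 : ∀ (z : F) (y : F'), Int' y → ¬ Sm' y → Sm (z ^ q - ι y) → Sm' (Nm z - y))
    (TN2 : ∀ b : B, ∃ d b' : B', d ∉ 𝔫' ∧ Sm ((ι (d : F') * (b : F)) ^ q - ι (b' : F')))
    {x : F} {c : B} {c' : B'} (hc' : h66nIota ι hι c' = c ^ q) (hc : c ∉ 𝔫)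
    (hx : h11a_BV B 𝔫 Sm x c) :
    h11a_BV B' 𝔫' Sm' (Nm x) c' := by
  obtain ⟨b, s, hs, hsx, hb⟩ := hx
  have hbn : b ∉ 𝔫 := h66n_num_not_mem hs hc hb
  obtain ⟨D₁, N₁, hD₁, hN₁, hS₁, hV₁⟩ :=
    h66n_insep_step ι hι hund hsm hcen hsm' hcen' Nm hNmul q hNm TN1 TN2 hbn hsx
  obtain ⟨D₂, N₂, hD₂, hN₂, hS₂, hV₂⟩ :=
    h66n_insep_step ι hι hund hsm hcen hsm' hcen' Nm hNmul q hNm TN1 TN2 hs
      (z := (s : F)) (by rw [sub_self]; exact hsm.sm_zero)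
  rw [hNmul] at hS₁
  -- `D₂ Nm s` is a Gauss unit
  have hu_int : Int' ((D₂ : F') * Nm (s : F)) := by
    have e1 : (D₂ : F') * Nm (s : F) = ((D₂ : F') * Nm (s : F) - (N₂ : F')) + (N₂ : F') := by
      ring
    rw [e1]
    exact hsm'.int_add (hsm'.sm_int hS₂) (hsm'.int_of_mem N₂)
  have hu_ns : ¬ Sm' ((D₂ : F') * Nm (s : F)) := by
    intro h
    apply hN₂
    apply hcen'
    have e1 : (N₂ : F') = (D₂ : F') * Nm (s : F) - ((D₂ : F') * Nm (s : F) - (N₂ : F')) := by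
      ring
    rw [e1]
    exact hsm'.sm_sub h hS₂
  have hu0 : (D₂ : F') * Nm (s : F) ≠ 0 := by
    intro h0
    apply hu_ns
    rw [h0]
    exact hsm'.sm_zero
  have hD₁0 : (D₁ : F') ≠ 0 := h66n_coe_ne_zero hsm' hcen' hD₁
  have hNx : Int' (Nm x) := by
    have h1 : Int' ((D₁ : F') * (Nm (s : F) * Nm x)) := by
      have e1 : (D₁ : F') * (Nm (s : F) * Nm x)
          = ((D₁ : F') * (Nm (s : F) * Nm x) - (N₁ : F')) + (N₁ : F') := by ring
      rw [e1]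
      exact hsm'.int_add (hsm'.sm_int hS₁) (hsm'.int_of_mem N₁)
    have e2 : Nm x = (D₂ : F') * ((D₂ : F') * Nm (s : F))⁻¹ * ((D₁ : F'))⁻¹
        * ((D₁ : F') * (Nm (s : F) * Nm x)) := by
      have hs0 : Nm (s : F) ≠ 0 := right_ne_zero_of_mul hu0
      have hD₂0 : (D₂ : F') ≠ 0 := left_ne_zero_of_mul hu0
      field_simp
    rw [e2]
    exact hsm'.int_mul (hsm'.int_mul (hsm'.int_mul (hsm'.int_of_mem D₂)
      (hunit' _ hu_int hu_ns)) (h66n_int_inv hsm' hunit' hcen' hD₁)) h1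
  refine ⟨D₂ * N₁, D₁ * N₂, fun h => (h𝔫'.mem_or_mem h).elim hD₁ hN₂, ?_, ?_⟩
  · have e1 : ((D₁ * N₂ : B') : F') * Nm x - ((D₂ * N₁ : B') : F')
        = (D₂ : F') * ((D₁ : F') * (Nm (s : F) * Nm x) - (N₁ : F'))
          - (D₁ : F') * Nm x * ((D₂ : F') * Nm (s : F) - (N₂ : F')) := by
      push_cast
      ring
    rw [e1]
    exact hsm'.sm_sub (hsm'.sm_mul (hsm'.int_of_mem D₂) hS₁)
      (hsm'.sm_mul (hsm'.int_mul (hsm'.int_of_mem D₁) hNx) hS₂)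
  · rw [hund, map_sub, map_mul, map_mul, map_mul, hc']
    have h3 : b ^ q - (c * s) ^ q ∈ 𝔫 := by
      obtain ⟨k, hk⟩ := sub_dvd_pow_sub_pow b (c * s) q
      rw [hk]
      exact 𝔫.mul_mem_right _ hb
    have e1 : h66nIota ι hι D₂ * h66nIota ι hι N₁
          - c ^ q * (h66nIota ι hι D₁ * h66nIota ι hι N₂)
        = h66nIota ι hι D₂ * (h66nIota ι hι N₁ - h66nIota ι hι D₁ * b ^ q)
          - c ^ q * h66nIota ι hι D₁ * (h66nIota ι hι N₂ - h66nIota ι hι D₂ * s ^ q)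
          + h66nIota ι hι D₁ * h66nIota ι hι D₂ * (b ^ q - (c * s) ^ q) := by
      ring
    rw [e1]
    exact 𝔫.add_mem (𝔫.sub_mem (𝔫.mul_mem_left _ hV₁) (𝔫.mul_mem_left _ hV₂))
      (𝔫.mul_mem_left _ h3)

end Insep

end Fermat.Agent.S36
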