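import Fermat.Agent.S36.H67Inst
import Fermat.Agent.LGC.Fin71Inst

/-!
# S36 (R): the three Kronecker relations at level `M q²` with a rational remainder (helper67)

`h67k_relations` = `h67i_relations` (`S36/H67Inst.lean`) with the additional information that the
coefficients of the Kronecker remainder `r` have rational `q`-expansions (so that they, and their
images under the degeneracy maps, lie in the charts over the inertia ring).
-/

set_option autoImplicit false
set_option linter.unusedSectionVars false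

open ModularCurve AlgebraicCurve Polynomial

noncomputable section

namespace Fermat.Agent.S36

open Fermat.Agent.S37 Fermat.Agent.Red.Kron Fermat.Agent.LGC

variable {M q : ℕ} [NeZero M] [NeZero q]

/-- the Kronecker remainder has rational coefficients. -/
theorem h67k_isRat_coeff (hq : q.Prime) (hM : ¬ q ∣ M) (v : FF M) (hrat : IsRat v)
    (r : (FF M)[X])
    (heq : h55k_Psi M q v = (X - C (v ^ q)) * (X ^ q - C v) + C ((q : ℕ) : FF M) * r) (n : ℕ) :
    IsRat (r.coeff n) := by
  have hq0 : ((q : ℕ) : Kbar) ≠ 0 := Nat.cast_ne_zero.mpr hq.ne_zero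
  have h0 := h55k_isRat_coeff M q hq hM v hrat n
  have h1 : (h55k_Psi M q v - h55k_P0 M q v).coeff n = ((q : ℕ) : FF M) * r.coeff n := by
    rw [heq, h55k_P0, add_sub_cancel_left, coeff_C_mul]
  have h2 : r.coeff n = (((q : ℕ) : Kbar))⁻¹ • (h55k_Psi M q v - h55k_P0 M q v).coeff n := by
    rw [h1, Algebra.smul_def, ← mul_assoc]
    have h3 : ((q : ℕ) : FF M) = algebraMap Kbar (FF M) ((q : ℕ) : Kbar) :=
      (map_natCast _ q).symm
    rw [h3, ← map_mul, inv_mul_cancel₀ hq0, map_one, one_mul]
  rw [h2]
  exact h71i_isRat_div M q h0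

/-- **The three Kronecker relations at level `M q²`**, with a remainder `r` whose coefficients
are integral (in the finite chart of level `M`) and rational. -/
theorem h67k_relations (A : ValuationSubring Kbar) (hq : q.Prime) (hM : ¬ q ∣ M)
    (hA : A.LiesOverPrime q) (v : FF M) (hv : v ∈ modelFin M A) (hrat : IsRat v) :
    ∃ r : (FF M)[X], (∀ n, r.coeff n ∈ modelFin M A) ∧ (∀ n, IsRat (r.coeff n)) ∧
      r.natDegree ≤ q ∧
      (heckeBetaBar Kbar M q v - heckeAlphaBar Kbar M q v ^ q)
          * (heckeBetaBar Kbar M q v ^ q - heckeAlphaBar Kbar M q v)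
        + (q : FF (M * q)) * r.eval₂ (heckeAlphaBar Kbar M q).toRingHom
            (heckeBetaBar Kbar M q v) = 0 ∧
      (heckeAlphaBar Kbar M q v - heckeBetaBar Kbar M q v ^ q)
          * (heckeAlphaBar Kbar M q v ^ q - heckeBetaBar Kbar M q v)
        + (q : FF (M * q)) * r.eval₂ (heckeBetaBar Kbar M q).toRingHom
            (heckeAlphaBar Kbar M q v) = 0 ∧
      (h67i_e2 M q v - h67i_e1 M q v ^ q) * (h67i_e2 M q v ^ q - h67i_e1 M q v)
        + (q : FF (M * q * q)) * (r.map (h67i_e1 M q)).eval (h67i_e2 M q v) = 0 := by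
  obtain ⟨r, hr, hdeg, heq⟩ := h55k_charpoly_eq M q A hq hM hA v hv hrat
  have h0 : ((X - C (v ^ q)) * (X ^ q - C v) + C ((q : ℕ) : FF M) * r).eval₂
      (heckeAlphaBar Kbar M q).toRingHom (heckeBetaBar Kbar M q v) = 0 := by
    rw [← heq]
    exact h44g_eval₂_charpolyAlong (heckeAlphaBar Kbar M q) _ _
  refine ⟨r, hr, h67k_isRat_coeff hq hM v hrat r heq, hdeg, ?_, ?_, ?_⟩
  · have h1 := h0
    rw [h67i_eval₂] at h1
    exact h1
  · have hw := congrArg (kFricke M q hq hM).toAlgHom.toRingHom h0
    rw [Polynomial.hom_eval₂, map_zero] at hw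
    have hwa : (kFricke M q hq hM).toAlgHom.toRingHom.comp (heckeAlphaBar Kbar M q).toRingHom
        = (heckeBetaBar Kbar M q).toRingHom :=
      RingHom.ext fun x => kFricke_alpha M q hq hM x
    have hwb : (kFricke M q hq hM).toAlgHom.toRingHom (heckeBetaBar Kbar M q v)
        = heckeAlphaBar Kbar M q v := kFricke_beta M q hq hM v
    rw [hwa, hwb, h67i_eval₂] at hw
    exact hw
  · have h1 := congrArg (heckeBetaBar Kbar (M * q) q).toRingHom h0
    rw [Polynomial.hom_eval₂, map_zero, ← h67i_e1_eq', h67i_eval₂, ← Polynomial.eval_map] at h1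
    exact h1

end Fermat.Agent.S36
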