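import Fermat.Agent.S36.H67TowerHom
import Fermat.Agent.S36.H67KronRat
import Fermat.Agent.S36.H62FinIface
import Fermat.Agent.S36.H59Base0
import Fermat.Agent.S36.H40Gen

/-!
# S36 (R), row R-TOWER-SS: the node case of the finite chart of level `M q²`, at one point
(helper67)

`B₁ = h62rChart A (M q) (jSS M q)`, `B₂ = h62rChart A (M q²) (jB (M q²))` (charts over the
inertia ring), `α₂ = h62rA2 : B₁ → B₂`.

* `h67f_relations` : the Kronecker remainder as a polynomial `r'` over the chart of level `M`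
  over the inertia ring, with the relations `(GX)` (in `B₁`) and `(GZ)` (in `F_{M q²}`).
* `h67f_Z_mem` : `Z = u(t^(q²)) ∈ B₂` for a rational `u` of the finite chart of level `M`.
* `h67f_isIntegral`, `h67f_noeth` : `B₂` is integral over `α₂ B₁`; `B₁` is noetherian.
* `h67f_node_at` : **the triple datum `H62Datum 𝔫₂ q`** at a closed point `𝔫₂ ∋ q` of `B₂` over
  a node `𝔫₁ = α₂⁻¹ 𝔫₂` (data `u, ρ` of `H62NodeDatum`), given
  (1) a dimension witness: a prime `⊥ ≠ P ⊊ 𝔫₁` of `B₁`;
  (2) `u` is not constant;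
  (3) R-GEN: every `b ∈ B₂` is `p(Z) / d` (`p ∈ B₁[T]`, `0 ≠ d ∈ B₁`).
-/

set_option autoImplicit false
set_option linter.unusedSectionVars false
set_option linter.style.haveILetI false

open AlgebraicCurve ModularCurve IsLocalRing Polynomial

noncomputable section

namespace Fermat.Agent.S36

open Fermat.Agent.S37 Fermat.Agent.Red.GG Fermat.Agent.LGC Fermat.Agent.Red.Kron

variable (A : ValuationSubring Kbar) (M : ℕ) {q : ℕ} [NeZero M] [NeZero q]

/-- rational functions of a chart over `A` lie in the chart over the inertia ring. -/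
theorem h67f_mem_chart_of_isRat {N : ℕ} {t x : FF N} (hx : x ∈ modelAt N A t) (hrat : IsRat x) :
    x ∈ h62rChart A N t :=
  h62r_mem_chart.mpr
    ⟨hx, fun σ _ => (Fermat.Agent.Red.GV.Soft.isRat_iff_gal_fixed N x).mp hrat σ⟩

/-- **the relations over the charts**: the Kronecker remainder as a polynomial over the chart
of level `M` over the inertia ring. -/
theorem h67f_relations (hq : q.Prime) (hM : ¬ q ∣ M) (hA : A.LiesOverPrime q)
    (u : h62rChart A M (jB M)) (hurat : IsRat (u : FF M)) :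
    ∃ r' : (h62rChart A M (jB M))[X], r'.natDegree ≤ q ∧
      (h62rAlpha A M u - h62rBeta A M hq hM hA u ^ q)
          * (h62rAlpha A M u ^ q - h62rBeta A M hq hM hA u)
        + (q : h62rChart A (M * q) (jSS M q))
          * (r'.map (h62rBeta A M hq hM hA)).eval (h62rAlpha A M u) = 0 ∧
      (h40gZ M q (u : FF M) - heckeAlphaBar Kbar (M * q) q (heckeBetaBar Kbar M q (u : FF M)) ^ q)
          * (h40gZ M q (u : FF M) ^ q
            - heckeAlphaBar Kbar (M * q) q (heckeBetaBar Kbar M q (u : FF M)))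
        + (q : FF (M * q * q))
          * (r'.map ((h67i_e1 M q).comp (Subring.subtype _))).eval (h40gZ M q (u : FF M)) = 0 := by
  have huM : (u : FF M) ∈ modelFin M A := (h62r_mem_chart.mp u.2).1
  obtain ⟨r, hrint, hrrat, hrdeg, -, hGX0, hGZ0⟩ :=
    h67k_relations A hq hM hA (u : FF M) huM hurat
  have hι₀inj : Function.Injective (Subring.subtype (h62rChart A M (jB M))) :=
    Subtype.val_injective
  have hlift : r ∈ Polynomial.lifts (Subring.subtype (h62rChart A M (jB M))) := by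
    rw [Polynomial.lifts_iff_coeff_lifts]
    intro n
    exact ⟨⟨r.coeff n, h67f_mem_chart_of_isRat A (hrint n) (hrrat n)⟩, rfl⟩
  rw [Polynomial.mem_lifts] at hlift
  obtain ⟨r', hr'⟩ := hlift
  refine ⟨r', ?_, ?_, ?_⟩
  · rw [← Polynomial.natDegree_map_eq_of_injective hι₀inj r', hr']
    exact hrdeg
  · have hcomp1 : (Subring.subtype (h62rChart A (M * q) (jSS M q))).comp (h62rBeta A M hq hM hA)
        = (heckeBetaBar Kbar M q).toRingHom.comp (Subring.subtype (h62rChart A M (jB M))) :=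
      RingHom.ext fun x => h62r_coe_beta A M hq hM hA x
    have hev : (Subring.subtype (h62rChart A (M * q) (jSS M q)))
        ((r'.map (h62rBeta A M hq hM hA)).eval (h62rAlpha A M u))
        = r.eval₂ (heckeBetaBar Kbar M q).toRingHom (heckeAlphaBar Kbar M q (u : FF M)) := by
      rw [eval_map, Polynomial.hom_eval₂, hcomp1, ← Polynomial.eval₂_map, hr']
      rfl
    apply Subtype.ext
    show (heckeAlphaBar Kbar M q (u : FF M) - heckeBetaBar Kbar M q (u : FF M) ^ q)
      * (heckeAlphaBar Kbar M q (u : FF M) ^ q - heckeBetaBar Kbar M q (u : FF M))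
      + (q : FF (M * q)) * (Subring.subtype (h62rChart A (M * q) (jSS M q)))
        ((r'.map (h62rBeta A M hq hM hA)).eval (h62rAlpha A M u)) = 0
    rw [hev]
    exact hGX0
  · rw [← Polynomial.map_map, hr']
    exact hGZ0

/-- the composite `chart₀(M q) → chart₀(M q²) → F_{M q²}`. -/
def h67fMap1 : h62rChart A (M * q) (jSS M q) →+* FF (M * q * q) :=
  (Subring.subtype (h62rChart A (M * q * q) (jB (M * q * q)))).comp (h62rA2 A M)

theorem h67f_map1_apply (x : h62rChart A (M * q) (jSS M q)) :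
    h67fMap1 A M x = heckeAlphaBar Kbar (M * q) q (x : FF (M * q)) := rfl

theorem h67f_map1_injective : Function.Injective (h67fMap1 A M (q := q)) := by
  intro x y h
  apply Subtype.ext
  exact (heckeAlphaBar Kbar (M * q) q).toRingHom.injective h

theorem h67f_map1_comp_beta (hq : q.Prime) (hM : ¬ q ∣ M) (hA : A.LiesOverPrime q) :
    (h67fMap1 A M).comp (h62rBeta A M hq hM hA)
      = (h67i_e1 M q).comp (Subring.subtype (h62rChart A M (jB M))) :=
  RingHom.ext fun _ => rfl

/-- **`Z = u(t^(q²))` lies in the chart of level `M q²` over the inertia ring.** -/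
theorem h67f_Z_mem (hq : q.Prime) (hM : ¬ q ∣ M) (hA : A.LiesOverPrime q)
    (u : h62rChart A M (jB M)) (hurat : IsRat (u : FF M)) :
    h40gZ M q (u : FF M) ∈ h62rChart A (M * q * q) (jB (M * q * q)) := by
  obtain ⟨r', hr'deg, -, hGZ0⟩ := h67f_relations A M hq hM hA u hurat
  have hZF0 : h40gZ M q (u : FF M) ∈ h53d_F0 (M * q * q) (A.inertiaSubgroupIn ℚ) :=
    h40g_Z_fixed M q _ (u : FF M) (h62r_mem_chart.mp u.2).2
  have hGm : (h67tG q (q : h62rChart A (M * q) (jSS M q)) (h62rBeta A M hq hM hA u)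
      (r'.map (h62rBeta A M hq hM hA))).Monic :=
    h67t_G_monic q hq.one_le _ _ _ ((natDegree_map_le).trans hr'deg)
  refine h59z_chart_closed (M * q * q) A (jB (M * q * q))
    ((h67tG q (q : h62rChart A (M * q) (jSS M q)) (h62rBeta A M hq hM hA u)
      (r'.map (h62rBeta A M hq hM hA))).map (h67fMap1 A M)) (hGm.map _)
    (fun i => ?_) _ hZF0 ?_
  · rw [coeff_map]
    exact (h62rA2 A M _).2
  · rw [h67t_G_map, h67t_G_eval, Polynomial.map_map, h67f_map1_comp_beta, map_natCast]
    exact hGZ0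

/-- the chart of level `M q²` is integral over (the image of) the chart of level `M q`. -/
theorem h67f_isIntegral (b : h62rChart A (M * q * q) (jB (M * q * q))) :
    ∃ p : (h62rChart A (M * q) (jSS M q))[X], p.Monic ∧
      p.eval₂ (h67fMap1 A M) (b : FF (M * q * q)) = 0 := by
  obtain ⟨p, hpm, hpc, hpe⟩ := h59z_chart_integral_alpha_fin (M * q) A q b.2
  have hpc' : ∀ i, p.coeff i ∈ h62rChart A (M * q) (jSS M q) := by
    rw [h71i_jSS_eq]; exact hpc
  have hinj : Function.Injective (Subring.subtype (h62rChart A (M * q) (jSS M q))) :=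
    Subtype.val_injective
  have hlift : p ∈ Polynomial.lifts (Subring.subtype (h62rChart A (M * q) (jSS M q))) := by
    rw [Polynomial.lifts_iff_coeff_lifts]
    intro n
    exact ⟨⟨p.coeff n, hpc' n⟩, rfl⟩
  rw [Polynomial.mem_lifts] at hlift
  obtain ⟨p', hp'⟩ := hlift
  refine ⟨p', Polynomial.monic_of_injective hinj (by rw [hp']; exact hpm), ?_⟩
  have h1 : h67fMap1 A M (q := q) = (heckeAlphaBar Kbar (M * q) q : FF (M * q) →+* FF (M * q * q)).comp
      (Subring.subtype (h62rChart A (M * q) (jSS M q))) := rfl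
  rw [h1, ← Polynomial.eval₂_map, hp']
  exact hpe

theorem h67f_noeth (hq : q.Prime) (hA : A.LiesOverPrime q) :
    IsNoetherianRing (h62rChart A (M * q) (jSS M q)) :=
  h59n_isNoetherianRing_chart (M * q) A hq hA (jSS M q) (Or.inl (h71i_jSS_eq M q))

/-- the relation `(GZ)` in the chart of level `M q²`. -/
theorem h67f_GZ (hq : q.Prime) (hM : ¬ q ∣ M) (hA : A.LiesOverPrime q)
    (u : h62rChart A M (jB M)) (r' : (h62rChart A M (jB M))[X])
    (hGZ0 : (h40gZ M q (u : FF M)
          - heckeAlphaBar Kbar (M * q) q (heckeBetaBar Kbar M q (u : FF M)) ^ q)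
          * (h40gZ M q (u : FF M) ^ q
            - heckeAlphaBar Kbar (M * q) q (heckeBetaBar Kbar M q (u : FF M)))
        + (q : FF (M * q * q))
          * (r'.map ((h67i_e1 M q).comp (Subring.subtype _))).eval (h40gZ M q (u : FF M)) = 0)
    (Z : h62rChart A (M * q * q) (jB (M * q * q)))
    (hZ : (Z : FF (M * q * q)) = h40gZ M q (u : FF M)) :
    (Z - h62rA2 A M (h62rBeta A M hq hM hA u) ^ q)
      * (Z ^ q - h62rA2 A M (h62rBeta A M hq hM hA u))
      + (q : h62rChart A (M * q * q) (jB (M * q * q)))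
        * ((r'.map (h62rBeta A M hq hM hA)).map (h62rA2 A M)).eval Z = 0 := by
  have hev : (Subring.subtype (h62rChart A (M * q * q) (jB (M * q * q))))
      (((r'.map (h62rBeta A M hq hM hA)).map (h62rA2 A M)).eval Z)
      = (r'.map ((h67i_e1 M q).comp (Subring.subtype _))).eval (h40gZ M q (u : FF M)) := by
    rw [eval_map, Polynomial.hom_eval₂, Polynomial.eval₂_map, eval_map,
      ← h67f_map1_comp_beta A M hq hM hA, ← hZ]
    rfl
  apply Subtype.ext
  show ((Z : FF (M * q * q))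
      - heckeAlphaBar Kbar (M * q) q (heckeBetaBar Kbar M q (u : FF M)) ^ q)
    * ((Z : FF (M * q * q)) ^ q
      - heckeAlphaBar Kbar (M * q) q (heckeBetaBar Kbar M q (u : FF M)))
    + (q : FF (M * q * q)) * (Subring.subtype (h62rChart A (M * q * q) (jB (M * q * q))))
      (((r'.map (h62rBeta A M hq hM hA)).map (h62rA2 A M)).eval Z) = 0
  rw [hev, hZ]
  exact hGZ0

theorem h67f_ZX (hq : q.Prime) (hM : ¬ q ∣ M)
    (u : h62rChart A M (jB M)) (hnc : (u : FF M) ∉ Set.range (cst M))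
    (Z : h62rChart A (M * q * q) (jB (M * q * q)))
    (hZ : (Z : FF (M * q * q)) = h40gZ M q (u : FF M)) :
    Z ≠ h62rA2 A M (h62rAlpha A M u) := by
  intro h
  apply h40g_Z_not_mem_range M q hq hM (u : FF M) hnc
  have h1 : (Z : FF (M * q * q)) = ((h62rA2 A M (h62rAlpha A M u) :
    h62rChart A (M * q * q) (jB (M * q * q))) : FF (M * q * q)) := congrArg Subtype.val h
  rw [← hZ]
  exact ⟨heckeAlphaBar Kbar M q (u : FF M), h1.symm⟩

/-- **H62FinNode at one point**, from the dimension witness `P`, the non-constancy of `u` and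
R-GEN. -/
theorem h67f_node_at (hq : q.Prime) (hM : ¬ q ∣ M) (hA : A.LiesOverPrime q)
    (𝔫₂ : Ideal (h62rChart A (M * q * q) (jB (M * q * q)))) (h𝔫₂ : 𝔫₂.IsMaximal)
    (hq𝔫₂ : (q : h62rChart A (M * q * q) (jB (M * q * q))) ∈ 𝔫₂)
    (u : h62rChart A M (jB M)) (hurat : IsRat (u : FF M))
    (hX1 : h62rAlpha A M u ∈ 𝔫₂.comap (h62rA2 A M))
    (hY1 : h62rBeta A M hq hM hA u ∈ 𝔫₂.comap (h62rA2 A M))
    (ρ : h62rChart A (M * q) (jSS M q)) (hρ : ρ ∉ 𝔫₂.comap (h62rA2 A M))
    (hf : (h62rBeta A M hq hM hA u - h62rAlpha A M u ^ q) *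
        (h62rBeta A M hq hM hA u ^ q - h62rAlpha A M u)
        + (q : h62rChart A (M * q) (jSS M q)) * ρ = 0)
    (hgen1 : h62rLocGen (𝔫₂.comap (h62rA2 A M))
      (Ideal.span {h62rAlpha A M u, h62rBeta A M hq hM hA u}))
    (P : Ideal (h62rChart A (M * q) (jSS M q))) (hP : P.IsPrime) (hP0 : P ≠ ⊥)
    (hP𝔫 : P ≤ 𝔫₂.comap (h62rA2 A M)) (hPne : P ≠ 𝔫₂.comap (h62rA2 A M))
    (hnc : (u : FF M) ∉ Set.range (cst M))
    (hfrac : ∀ Z : h62rChart A (M * q * q) (jB (M * q * q)),
      (Z : FF (M * q * q)) = h40gZ M q (u : FF M) →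
      ∀ b : h62rChart A (M * q * q) (jB (M * q * q)),
        ∃ (p : (h62rChart A (M * q) (jSS M q))[X]) (d : h62rChart A (M * q) (jSS M q)),
          d ≠ 0 ∧ h62rA2 A M d * b = (p.map (h62rA2 A M)).eval Z) :
    H62Datum 𝔫₂ q := by
  obtain ⟨r', hr'deg, hGX, hGZ0⟩ := h67f_relations A M hq hM hA u hurat
  obtain ⟨Z, hZ⟩ : ∃ Z : h62rChart A (M * q * q) (jB (M * q * q)),
      (Z : FF (M * q * q)) = h40gZ M q (u : FF M) :=
    ⟨⟨_, h67f_Z_mem A M hq hM hA u hurat⟩, rfl⟩
  haveI hnoeth : IsNoetherianRing (h62rChart A (M * q) (jSS M q)) := h67f_noeth A M hq hA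
  exact Or.inl (h67t_tower_hom (h67fMap1 A M)
    (Subring.subtype (h62rChart A (M * q * q) (jB (M * q * q))))
    (h67f_map1_injective A M) Subtype.val_injective (h62rA2 A M) (fun _ => rfl)
    (fun b => h67f_isIntegral A M b) 𝔫₂ h𝔫₂ q hq.two_le hq𝔫₂
    (h62rAlpha A M u) (h62rBeta A M hq hM hA u) ρ hX1 hY1 hρ hgen1 P hP hP0 hP𝔫 hPne hf
    (r'.map (h62rBeta A M hq hM hA)) ((natDegree_map_le).trans hr'deg) hGX Z
    (h67f_ZX A M hq hM u hnc Z hZ) (h67f_GZ A M hq hM hA u r' hGZ0 Z hZ) (hfrac Z hZ)).1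

end Fermat.Agent.S36
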