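import Mathlib
import Fermat.Agent.S36.H67Tower

/-!
# S36 (R), row R-TOWER-SS: the abstract tower theorem with explicit ring homomorphisms (helper67)

`h67t_tower_hom` = `h67t_tower` (`S36/H67Tower.lean`) for rings `B1`, `Bc` mapped to the field
`F` by explicit injective ring homomorphisms `f₁`, `f₂` (no `Algebra` instances in the
statement), with the conclusion in the shape of the *triple datum* of `H62Datum`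
(`S36/H62RegLeaves.lean`).
-/

set_option autoImplicit false
set_option linter.style.haveILetI false

open Polynomial IsLocalRing

namespace Fermat.Agent.S36

variable {F : Type*} [Field F]
  {B1 : Type*} [CommRing B1] [IsDomain B1] [IsNoetherianRing B1]
  {Bc : Type*} [CommRing Bc]

/-- **R-TOWER-SS (abstract, ring-hom form).** -/
theorem h67t_tower_hom (f₁ : B1 →+* F) (f₂ : Bc →+* F)
    (hf₁ : Function.Injective f₁) (hf₂ : Function.Injective f₂)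
    (ι : B1 →+* Bc) (hι : ∀ b, f₂ (ι b) = f₁ b)
    (hint : ∀ b : Bc, ∃ p : B1[X], p.Monic ∧ p.eval₂ f₁ (f₂ b) = 0)
    (𝔫 : Ideal Bc) (h𝔫 : 𝔫.IsMaximal)
    (q : ℕ) (hq2 : 2 ≤ q) (hq𝔫 : (q : Bc) ∈ 𝔫)
    (X1 Y1 ρ : B1) (hX1 : X1 ∈ 𝔫.comap ι) (hY1 : Y1 ∈ 𝔫.comap ι) (hρ : ρ ∉ 𝔫.comap ι)
    (hgen1 : ∀ z ∈ 𝔫.comap ι, ∃ t, t ∉ 𝔫.comap ι ∧ t * z ∈ Ideal.span {X1, Y1})
    (P : Ideal B1) (hP : P.IsPrime) (hP0 : P ≠ ⊥) (hP𝔫 : P ≤ 𝔫.comap ι)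
    (hPne : P ≠ 𝔫.comap ι)
    (hf : (Y1 - X1 ^ q) * (Y1 ^ q - X1) + (q : B1) * ρ = 0)
    (s : B1[X]) (hsdeg : s.natDegree ≤ q)
    (hGX : (X1 - Y1 ^ q) * (X1 ^ q - Y1) + (q : B1) * s.eval X1 = 0)
    (Z : Bc) (hZX : Z ≠ ι X1)
    (hGZ : (Z - ι Y1 ^ q) * (Z ^ q - ι Y1) + (q : Bc) * (s.map ι).eval Z = 0)
    (hfrac : ∀ b : Bc, ∃ (p : B1[X]) (d : B1), d ≠ 0 ∧ ι d * b = (p.map ι).eval Z) :
    (∃ X Y Z : Bc, X ∈ 𝔫 ∧ Z ∈ 𝔫 ∧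
      (∀ w ∈ 𝔫, ∃ s, s ∉ 𝔫 ∧ s * w ∈ Ideal.span {X, Z}) ∧
      (Y - X ^ q) * (Y ^ q - X) ∈ Ideal.span {(q : Bc)} ∧
      (Z - Y ^ q) * (Z ^ q - Y) ∈ Ideal.span {(q : Bc)}) ∧
    (∀ 𝔫' : Ideal Bc, 𝔫'.IsMaximal → 𝔫'.comap ι = 𝔫.comap ι → 𝔫' = 𝔫) ∧
    (∀ b : Bc, ∃ (p : B1[X]) (d : B1), ι d ∉ 𝔫 ∧ ι d * b = (p.map ι).eval Z) := by
  letI alg1 : Algebra B1 F := f₁.toAlgebra
  letI alg2 : Algebra Bc F := f₂.toAlgebra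
  haveI := h𝔫
  haveI := hP
  have hPne' : ∃ b, ι b ∈ 𝔫 ∧ b ∉ P := by
    by_contra hcon
    push Not at hcon
    exact hPne (le_antisymm hP𝔫 fun b hb => hcon b hb)
  obtain ⟨hZ𝔫, hgen, huniq, hloc⟩ := h67t_tower (F := F) (B1 := B1) (Bc := Bc) hf₁ hf₂ ι hι
    (fun b => hint b) 𝔫 q hq2 hq𝔫 X1 Y1 ρ hX1 hY1 hρ (fun b hb => hgen1 b hb) P hP0
    (fun b hb => hP𝔫 hb) hPne' hf s hsdeg hGX Z hZX hGZ hfrac
  refine ⟨⟨ι X1, ι Y1, Z, hX1, hZ𝔫, hgen, ?_, ?_⟩, huniq, hloc⟩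
  · rw [Ideal.mem_span_singleton']
    refine ⟨- ι ρ, ?_⟩
    have h1 := congrArg ι hf
    rw [map_zero, map_add, map_mul, map_mul, map_sub, map_sub, map_pow, map_pow,
      map_natCast] at h1
    linear_combination -h1
  · rw [Ideal.mem_span_singleton']
    refine ⟨- (s.map ι).eval Z, ?_⟩
    linear_combination -hGZ

end Fermat.Agent.S36
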