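import Mathlib
import Fermat.Agent.Red.LocalFact
import Fermat.Agent.LGC.NodeFinal
import Fermat.Agent.LGC.H62TwoComp

/-!
# S36 (R): the Kronecker remainder is a unit at a node (helper67)

`h67u_node_unit` : under the hypotheses of the landed node theorem `h62n_node_final`
(helper62, `LGC/NodeFinal.lean`), the remainder `r(β u)` of Kronecker's congruence
`f = (T - a₁ ^ ℓ)(T ^ ℓ - c) + ℓ r`, `f(β u) = 0`, is a unit at the crossing point `𝔫`.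
(The landed proof shows `S ∉ 𝔫` for `S = - r(Y) + (Y - a)² Y^{ℓ-1} + (Y - a) r'(Y)`,
`Y - a ∈ 𝔫`; the landed statement only keeps `∃ c' ∉ 𝔫`.)

This is the unit `ρ` needed by `h67r_key_local` at the supersingular points of level `M ℓ²`.
-/

set_option autoImplicit false
set_option linter.style.haveILetI false
set_option linter.unusedVariables false

open Polynomial WithZero IsLocalRing

namespace Fermat.Agent.S36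

open Fermat.Agent.Red Fermat.Agent.LGC

theorem h67u_node_unit
    {A : Type*} [CommRing A] [IsLocalRing A] {F : Type*} [Field F] [Algebra A F]
    {B : Subalgebra A F} {V : Subring F} {ι : Type*} {v : ι → Valuation F ℤᵐ⁰}
    (hC : H26Chart B V v)
    (Winf W0 : Subring F) (hWV : ∀ x : F, x ∈ Winf → x ∈ W0 → x ∈ V)
    (hBWinf : ∀ b : B, (b : F) ∈ Winf) (hBW0 : ∀ b : B, (b : F) ∈ W0)
    (𝔫 Pinf P0 : Ideal B) [h𝔫 : 𝔫.IsPrime] [hPinf : Pinf.IsPrime] [hP0 : P0.IsPrime]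
    (hPinf𝔫 : Pinf ≤ 𝔫) (hP0𝔫 : P0 ≤ 𝔫)
    (hSF : Pinf ⊓ P0 ≤ (maximalIdeal A).map (algebraMap A B))
    (hWinf : ∀ b : B, b ∉ Pinf → ((b : F))⁻¹ ∈ Winf)
    (hW0 : ∀ b : B, b ∉ P0 → ((b : F))⁻¹ ∈ W0)
    {Λ : Type*} [CommRing Λ] [Algebra Λ B] [Module.Finite Λ B] (β : Λ →+* B)
    (hm𝔰 : (maximalIdeal A).map (algebraMap A B)
      ≤ (𝔫.comap (algebraMap Λ B)).map (algebraMap Λ B))
    (ℓ : ℕ) (hℓ2 : 2 ≤ ℓ) (hℓ0 : (ℓ : B) ≠ 0)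
    (hℓm : (ℓ : B) ∈ (maximalIdeal A).map (algebraMap A B))
    (hmPinf : (maximalIdeal A).map (algebraMap A B) ≤ Pinf)
    (hmP0 : (maximalIdeal A).map (algebraMap A B) ≤ P0)
    (u a₁ c : Λ) (r : Λ[X]) (hr : r.natDegree ≤ ℓ)
    (hf : aeval (β u) (h62n_poly ℓ (a₁ ^ ℓ) c r) = 0)
    (hu𝔫 : β u ∈ 𝔫)
    (hY1 : β u - algebraMap Λ B (a₁ ^ ℓ) ∈ Pinf)
    (hY2 : β u ^ ℓ - algebraMap Λ B c ∈ P0)
    (hYa : β u - algebraMap Λ B (a₁ ^ ℓ) ∉ P0)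
    (hδinf : algebraMap Λ B ((a₁ ^ ℓ) ^ ℓ - c) ∉ Pinf)
    (hδ0 : algebraMap Λ B ((a₁ ^ ℓ) ^ ℓ - c) ∉ P0)
    (hLI : ∀ g : Λ[X], g.natDegree < ℓ → aeval (β u) g ∈ P0 →
      ∀ i, algebraMap Λ B (g.coeff i) ∈ P0)
    (hLPinf : ∀ b ∈ 𝔫, ∃ s, s ∉ 𝔫 ∧ s * b ∈ Ideal.span {algebraMap Λ B c} ⊔ Pinf)
    (hLP0 : ∀ b ∈ 𝔫, ∃ s, s ∉ 𝔫 ∧ s * b ∈ Ideal.span {β u} ⊔ P0)
    (hU : ∀ s : B, s ∉ 𝔫 → ∃ s' : B,
      s * s' - 1 ∈ (𝔫.comap (algebraMap Λ B)).map (algebraMap Λ B))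
    (hsurj : ∀ b : B, ∃ x : Λ, b - algebraMap Λ B x ∈ Pinf)
    {K : Type*} [CommRing K] [IsDomain K]
    (hpl : ∀ i, h26Centered B v 𝔫 i →
      ∃ (T : Finset ι) (φ : ι → B →+* K) (φ' : Λ →+* K), i ∈ T ∧ ℓ + 1 ≤ T.card ∧
        (∀ k ∈ T, ∀ b : B, φ k b = 0 ↔ v k (b : F) < 1) ∧
        (∀ k ∈ T, ∀ x : Λ, φ k (algebraMap Λ B x) = φ' x)) :
    aeval (β u) r ∉ 𝔫 := by
  classical
  set J : Ideal B := (𝔫.comap (algebraMap Λ B)).map (algebraMap Λ B) with hJ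
  have hℓPinf : (ℓ : B) ∈ Pinf := hmPinf hℓm
  have hℓP0 : (ℓ : B) ∈ P0 := hmP0 hℓm
  have hy𝔫 : β u - algebraMap Λ B (a₁ ^ ℓ) ∈ 𝔫 := hPinf𝔫 hY1
  have ha𝔫 : algebraMap Λ B (a₁ ^ ℓ) ∈ 𝔫 := by
    have := 𝔫.sub_mem hu𝔫 hy𝔫
    simpa using this
  have ha₁𝔫 : algebraMap Λ B a₁ ∈ 𝔫 := by
    rw [map_pow] at ha𝔫
    exact h𝔫.mem_of_pow_mem _ ha𝔫
  have hc𝔫 : algebraMap Λ B c ∈ 𝔫 := by
    have h1 : β u ^ ℓ ∈ 𝔫 := 𝔫.pow_mem_of_mem hu𝔫 ℓ (by omega)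
    have := 𝔫.sub_mem h1 (hP0𝔫 hY2)
    simpa using this
  have haJ : algebraMap Λ B (a₁ ^ ℓ) ∈ J := Ideal.mem_map_of_mem _ ha𝔫
  -- `𝔫 = (y) + P₀` locally, `y = β u - α a`
  have hLPy : ∀ b ∈ 𝔫, ∃ s, s ∉ 𝔫 ∧
      s * b ∈ Ideal.span {β u - algebraMap Λ B (a₁ ^ ℓ)} ⊔ P0 := by
    have h1 : ∀ b ∈ 𝔫, ∃ s, s ∉ 𝔫 ∧
        s * b ∈ Ideal.span {-(β u - algebraMap Λ B (a₁ ^ ℓ))} ⊔ P0 := by
      refine h62n_lp_change 𝔫 P0 (β u) (algebraMap Λ B a₁)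
        (-(β u - algebraMap Λ B (a₁ ^ ℓ))) ℓ hℓ2 hu𝔫 ha₁𝔫 ?_ hLP0
      have h2 : -(β u - algebraMap Λ B (a₁ ^ ℓ)) - (algebraMap Λ B a₁ ^ ℓ - β u) = 0 := by
        rw [map_pow (algebraMap Λ B) a₁ ℓ]; ring
      rw [h2]
      exact P0.zero_mem
    rw [Ideal.span_singleton_neg] at h1
    exact h1
  -- `P∞ ⊆ Y B + 𝔰 B` locally
  have hPloc : ∀ p ∈ Pinf, ∃ s, s ∉ 𝔫 ∧ s * p ∈ Ideal.span {β u} ⊔ J := by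
    intro p hp
    obtain ⟨s, hs, hsp⟩ := hLPy p (hPinf𝔫 hp)
    obtain ⟨q, hq, p₂, hp₂, hsum⟩ := Submodule.mem_sup.mp hsp
    obtain ⟨b', rfl⟩ := Ideal.mem_span_singleton'.mp hq
    have hp₂inf : p₂ ∈ Pinf := by
      have h1 : p₂ = s * p - b' * (β u - algebraMap Λ B (a₁ ^ ℓ)) := by rw [← hsum]; ring
      rw [h1]
      exact Pinf.sub_mem (Pinf.mul_mem_left _ hp) (Pinf.mul_mem_left _ hY1)
    have hp₂J : p₂ ∈ J := hm𝔰 (hSF ⟨hp₂inf, hp₂⟩)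
    refine ⟨s, hs, ?_⟩
    have h2 : s * p = b' * β u + (p₂ - b' * algebraMap Λ B (a₁ ^ ℓ)) := by
      rw [← hsum]; ring
    rw [h2]
    exact Submodule.add_mem_sup (Ideal.mem_span_singleton'.mpr ⟨b', rfl⟩)
      (J.sub_mem hp₂J (J.mul_mem_left _ haJ))
  have hunr := h62n_hunr hC (K := K) 𝔫 Pinf hU hsurj ℓ (by omega) (hm𝔰 hℓm) (β u) (a₁ ^ ℓ) c r hr
    hf ha𝔫 hc𝔫 hPloc hpl
  have hunif : ∀ s : B, s ∉ 𝔫 → s * (β u - algebraMap Λ B (a₁ ^ ℓ)) ∉ 𝔫 * 𝔫 :=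
    h62n_unif_of_lp 𝔫 P0 hP0𝔫 (β u - algebraMap Λ B (a₁ ^ ℓ)) hy𝔫 hYa hLPy
  obtain ⟨hS𝔫, -, -, -⟩ := h62n_node_xy hC Winf W0 hWV hBWinf hBW0 𝔫 Pinf P0 hPinf𝔫 hWinf hW0
    ℓ hℓ0 hℓPinf hℓP0 (β u) (a₁ ^ ℓ) c r hr hf hY1 hY2 hYa hδinf hδ0 hLI hunr hunif
  intro hr𝔫
  apply hS𝔫
  unfold h62n_S
  exact 𝔫.add_mem (𝔫.add_mem (𝔫.neg_mem hr𝔫) (𝔫.mul_mem_right _ (𝔫.pow_mem_of_mem hy𝔫 2 (by omega))))
    (𝔫.mul_mem_right _ hy𝔫)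


/-- **The Kronecker remainder is a unit at every crossing point** (abstract two-component
chart; the hypotheses are those of the landed `h62l_local`). -/
theorem h67u_local_unit
    {A : Type*} [CommRing A] [IsLocalRing A] {F : Type*} [Field F] [Algebra A F]
    {B : Subalgebra A F} {V : Subring F} {ι : Type*} {v : ι → Valuation F ℤᵐ⁰}
    (hC : H26Chart B V v)
    (Winf W0 : Subring F) (hWV : ∀ x : F, x ∈ Winf → x ∈ W0 → x ∈ V)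
    (hBWinf : ∀ b : B, (b : F) ∈ Winf) (hBW0 : ∀ b : B, (b : F) ∈ W0)
    (Pinf P0 : Ideal B) [hPinf : Pinf.IsPrime] [hP0 : P0.IsPrime]
    (hSF : Pinf ⊓ P0 ≤ (maximalIdeal A).map (algebraMap A B))
    (hmPinf : (maximalIdeal A).map (algebraMap A B) ≤ Pinf)
    (hmP0 : (maximalIdeal A).map (algebraMap A B) ≤ P0)
    (hWinf : ∀ b : B, b ∉ Pinf → ((b : F))⁻¹ ∈ Winf)
    (hW0 : ∀ b : B, b ∉ P0 → ((b : F))⁻¹ ∈ W0)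
    {Λ : Type*} [CommRing Λ] [Algebra A Λ] (α β : Λ →ₐ[A] B)
    (hfin : (α : Λ →+* B).Finite)
    [hded : IsDedekindDomain (Λ ⧸ (maximalIdeal A).map (algebraMap A Λ))]
    (hnf : ¬ IsField (Λ ⧸ (maximalIdeal A).map (algebraMap A Λ)))
    (hres : ∀ 𝔰 : Ideal Λ, 𝔰.IsMaximal → (maximalIdeal A).map (algebraMap A Λ) ≤ 𝔰 →
      ∀ x : Λ, ∃ a : A, x - algebraMap A Λ a ∈ 𝔰)
    (hαPinf : ∀ x : Λ, α x ∈ Pinf → x ∈ (maximalIdeal A).map (algebraMap A Λ))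
    (hαP0 : ∀ x : Λ, α x ∈ P0 → x ∈ (maximalIdeal A).map (algebraMap A Λ))
    (hβP0 : ∀ x : Λ, β x ∈ P0 → x ∈ (maximalIdeal A).map (algebraMap A Λ))
    (hsurjinf : ∀ b : B, ∃ x : Λ, b - α x ∈ Pinf)
    (hsurj0 : ∀ b : B, ∃ x : Λ, b - β x ∈ P0)
    (R : Subring Λ) (hRspan : ∀ x : Λ, x ∈ Submodule.span A (R : Set Λ))
    (ℓ : ℕ) (hℓ : ℓ.Prime) (hℓA : (ℓ : A) ∈ maximalIdeal A) (hℓ0 : (ℓ : B) ≠ 0)
    (hRα : ∀ u ∈ R, β u - (α u) ^ ℓ ∈ Pinf)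
    (hRβ : ∀ u ∈ R, α u - (β u) ^ ℓ ∈ P0)
    (hperf : ∀ a : A, ∃ a' : A, a - a' ^ ℓ ∈ maximalIdeal A)
    (hsep : ∀ a : A, ∃ m : ℤ[X], aeval a m ∈ maximalIdeal A ∧
      aeval a (derivative m) ∉ maximalIdeal A)
    {K : Type*} [CommRing K] [IsDomain K]
    (hpl : ∀ 𝔫 : Ideal B, 𝔫.IsMaximal → Pinf ≤ 𝔫 → P0 ≤ 𝔫 → ∀ i, h26Centered B v 𝔫 i →
      ∃ (T : Finset ι) (φ : ι → B →+* K) (φ' : Λ →+* K), i ∈ T ∧ ℓ + 1 ≤ T.card ∧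
        (∀ k ∈ T, ∀ b : B, φ k b = 0 ↔ v k (b : F) < 1) ∧
        (∀ k ∈ T, ∀ x : Λ, φ k (α x) = φ' x)) :
    ∀ 𝔫 : Ideal B, 𝔫.IsMaximal → Pinf ≤ 𝔫 → P0 ≤ 𝔫 →
      ∃ u ∈ R, h62l_LP ((maximalIdeal A).map (algebraMap A Λ)) (𝔫.comap (α : Λ →+* B)) u ∧
        h62l_LP ((maximalIdeal A).map (algebraMap A Λ)) (𝔫.comap (β : Λ →+* B)) u ∧
        α u ∈ 𝔫 ∧ β u ∈ 𝔫 ∧
        ∀ r : Λ[X], r.natDegree ≤ ℓ →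
          (h62n_poly ℓ (u ^ ℓ) u r).eval₂ (α : Λ →+* B) (β u) = 0 →
          r.eval₂ (α : Λ →+* B) (β u) ∉ 𝔫 := by
  classical
  intro 𝔫 h𝔫 hPinf𝔫 hP0𝔫
  have hm𝔫 : (maximalIdeal A).map (algebraMap A B) ≤ 𝔫 := le_trans hmPinf hPinf𝔫
  haveI h𝔫p : 𝔫.IsPrime := h𝔫.isPrime
  set 𝔪 : Ideal Λ := (maximalIdeal A).map (algebraMap A Λ) with h𝔪def
  haveI h𝔪prime : 𝔪.IsPrime := (Ideal.Quotient.isDomain_iff_prime 𝔪).mp inferInstance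
  have hdich : Pinf ≤ 𝔫 ∨ P0 ≤ 𝔫 := (Ideal.IsPrime.inf_le h𝔫p).mp (le_trans hSF hm𝔫)
  have hLPex : ∀ 𝔰 : Ideal Λ, 𝔰.IsMaximal → 𝔪 ≤ 𝔰 → ∃ t, h62l_LP 𝔪 𝔰 t := by
    intro 𝔰 h𝔰 hle
    obtain ⟨t, ht, -, s, hs, hall⟩ := h3_exists_local_uniformizer 𝔪 hnf 𝔰 hle
    exact ⟨t, ht, fun y hy => ⟨s, hs, hall y hy⟩⟩
  have hne_of_max : ∀ 𝔰 : Ideal Λ, 𝔰.IsMaximal → 𝔪 ≤ 𝔰 → ¬ 𝔰 ≤ 𝔪 := by
    intro 𝔰 h𝔰 hle hle'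
    have h1 : 𝔪 = 𝔰 := le_antisymm hle hle'
    apply hnf
    have h2 : 𝔪.IsMaximal := h1 ▸ h𝔰
    exact (Ideal.Quotient.maximal_ideal_iff_isField_quotient 𝔪).mp h2
  have hcomap𝔪 : ∀ φ : Λ →ₐ[A] B, 𝔪 ≤ 𝔫.comap (φ : Λ →+* B) := fun φ x hx =>
    Ideal.mem_comap.mpr (hm𝔫 (h62l_map_mem _ φ hx))
  have h𝔰max : (𝔫.comap (α : Λ →+* B)).IsMaximal :=
    h62l_comap_isMaximal (α : Λ →+* B) 𝔫 Pinf hPinf𝔫 hsurjinf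
  have h𝔰'max : (𝔫.comap (β : Λ →+* B)).IsMaximal :=
    h62l_comap_isMaximal (β : Λ →+* B) 𝔫 P0 hP0𝔫 hsurj0
  haveI h𝔰p : (𝔫.comap (α : Λ →+* B)).IsPrime := h𝔰max.isPrime
  haveI h𝔰'p : (𝔫.comap (β : Λ →+* B)).IsPrime := h𝔰'max.isPrime
  obtain ⟨t₁, ht₁⟩ := hLPex _ h𝔰max (hcomap𝔪 α)
  obtain ⟨t₁', ht₁'⟩ := hLPex _ h𝔰'max (hcomap𝔪 β)
  have h𝔪A : ∀ a ∈ maximalIdeal A, algebraMap A Λ a ∈ 𝔪 := fun a ha =>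
    Ideal.mem_map_of_mem _ ha
  have hR𝔰 : ∀ x ∈ R, x ∈ 𝔫.comap (α : Λ →+* B) ↔ x ∈ 𝔫.comap (β : Λ →+* B) := by
    intro x hx
    rw [Ideal.mem_comap, Ideal.mem_comap]
    show α x ∈ 𝔫 ↔ β x ∈ 𝔫
    constructor
    · intro h
      have h1 : β x = (β x - α x ^ ℓ) + α x ^ ℓ := by ring
      rw [h1]
      exact 𝔫.add_mem (hPinf𝔫 (hRα x hx)) (𝔫.pow_mem_of_mem h ℓ hℓ.pos)
    · intro h
      have h1 : α x ^ ℓ = β x - (β x - α x ^ ℓ) := by ring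
      have h2 : α x ^ ℓ ∈ 𝔫 := by
        rw [h1]
        exact 𝔫.sub_mem h (hPinf𝔫 (hRα x hx))
      exact h𝔫p.mem_of_pow_mem _ h2
  obtain ⟨u, huR, hu𝔰, hu𝔰'⟩ := h62l_exists_LP_both 𝔪 (𝔫.comap (α : Λ →+* B))
    (𝔫.comap (β : Λ →+* B)) (hcomap𝔪 α) (hcomap𝔪 β)
    (hne_of_max _ h𝔰max (hcomap𝔪 α)) (hne_of_max _ h𝔰'max (hcomap𝔪 β)) h𝔪A R hRspan
    (hres _ h𝔰max (hcomap𝔪 α)) (hres _ h𝔰'max (hcomap𝔪 β)) hsep hR𝔰 ht₁ ht₁'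
  refine ⟨u, huR, hu𝔰, hu𝔰', hu𝔰.1, hu𝔰'.1, fun r hr hf => ?_⟩
  have husq := h62l_not_mem_sq_of_LP 𝔪 (𝔫.comap (α : Λ →+* B)) (hcomap𝔪 α)
    (hne_of_max _ h𝔰max (hcomap𝔪 α)) hu𝔰
  have husq' := h62l_not_mem_sq_of_LP 𝔪 (𝔫.comap (β : Λ →+* B)) (hcomap𝔪 β)
    (hne_of_max _ h𝔰'max (hcomap𝔪 β)) hu𝔰'
  have hu𝔪 : u ∉ 𝔪 := fun h => husq (h62l_le_sq 𝔪 _ h)
  have hαu𝔫 : α u ∈ 𝔫 := hu𝔰.1
  have hβu𝔫 : β u ∈ 𝔫 := hu𝔰'.1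
  have hδ : (u ^ ℓ) ^ ℓ - u ∉ 𝔪 := by
    intro h
    have h2 : 1 ≤ ℓ * ℓ := Nat.mul_pos hℓ.pos hℓ.pos
    have h1 : (u ^ ℓ) ^ ℓ - u = u * (u ^ (ℓ * ℓ - 1) - 1) := by
      have h3 : (u ^ ℓ) ^ ℓ = u * u ^ (ℓ * ℓ - 1) := by
        rw [← pow_mul, ← pow_succ', Nat.sub_add_cancel h2]
      rw [h3]; ring
    rw [h1] at h
    rcases h𝔪prime.mem_or_mem h with h4 | h4
    · exact hu𝔪 h4
    · have h5 : u ^ (ℓ * ℓ - 1) - 1 ∈ 𝔫.comap (α : Λ →+* B) := hcomap𝔪 α h4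
      have h6 : 0 < ℓ * ℓ - 1 := by
        have := hℓ.two_le
        have h7 : 2 * 2 ≤ ℓ * ℓ := Nat.mul_le_mul this this
        omega
      have h8 : u ^ (ℓ * ℓ - 1) ∈ 𝔫.comap (α : Λ →+* B) :=
        Ideal.pow_mem_of_mem _ hu𝔰.1 _ h6
      have h9 : (1 : Λ) ∈ 𝔫.comap (α : Λ →+* B) := by
        have := Ideal.sub_mem _ h8 h5
        simpa using this
      exact h𝔰max.ne_top ((Ideal.eq_top_iff_one _).mpr h9)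
  have hℓm : (ℓ : B) ∈ (maximalIdeal A).map (algebraMap A B) := by
    have h1 : (ℓ : B) = algebraMap A B (ℓ : A) := (map_natCast (algebraMap A B) ℓ).symm
    rw [h1]
    exact Ideal.mem_map_of_mem _ hℓA
  have hℓP0 : (ℓ : B) ∈ P0 := hmP0 hℓm
  have hfrob := h62l_frob α β P0 hmP0 R hRspan ℓ hℓ hℓP0 hRβ hperf
  have hfrob' := h62l_frob' α β P0 R hRspan ℓ hℓ hℓP0 hRβ
  letI : Algebra Λ B := (α : Λ →+* B).toAlgebra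
  haveI : Module.Finite Λ B := hfin
  have halg : ∀ x : Λ, algebraMap Λ B x = α x := fun _ => rfl
  have hm𝔰 : (maximalIdeal A).map (algebraMap A B)
      ≤ (𝔫.comap (algebraMap Λ B)).map (algebraMap Λ B) := by
    rw [Ideal.map_le_iff_le_comap]
    intro a ha
    rw [Ideal.mem_comap]
    have h1 : algebraMap A B a = algebraMap Λ B (algebraMap A Λ a) := by
      rw [halg, AlgHom.commutes]
    rw [h1]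
    refine Ideal.mem_map_of_mem _ ?_
    exact hcomap𝔪 α (h𝔪A a ha)
  have hf' : aeval (β u) (h62n_poly ℓ (u ^ ℓ) u r) = 0 := by
    rw [Polynomial.aeval_def]
    exact hf
  have hY1 : β u - algebraMap Λ B (u ^ ℓ) ∈ Pinf := by
    rw [halg, map_pow]
    exact hRα u huR
  have hY2 : β u ^ ℓ - algebraMap Λ B u ∈ P0 := by
    rw [halg]
    have h1 : β u ^ ℓ - α u = -(α u - β u ^ ℓ) := by ring
    rw [h1]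
    exact P0.neg_mem (hRβ u huR)
  have hYa : β u - algebraMap Λ B (u ^ ℓ) ∉ P0 := by
    rw [halg, map_pow]
    intro h
    apply hδ
    have h1 : α u ^ ℓ - (β u ^ ℓ) ^ ℓ ∈ P0 := by
      obtain ⟨d, hd⟩ := sub_dvd_pow_sub_pow (α u) (β u ^ ℓ) ℓ
      rw [hd]
      exact P0.mul_mem_right _ (hRβ u huR)
    have h2 : β ((u ^ ℓ) ^ ℓ - u) ∈ P0 := by
      rw [map_sub, map_pow, map_pow]
      have h3 : (β u ^ ℓ) ^ ℓ - β u = -((β u - α u ^ ℓ) + (α u ^ ℓ - (β u ^ ℓ) ^ ℓ)) := by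
        ring
      rw [h3]
      exact P0.neg_mem (P0.add_mem h h1)
    exact hβP0 _ h2
  have hδinf : algebraMap Λ B ((u ^ ℓ) ^ ℓ - u) ∉ Pinf := fun h => hδ (hαPinf _ h)
  have hδ0 : algebraMap Λ B ((u ^ ℓ) ^ ℓ - u) ∉ P0 := fun h => hδ (hαP0 _ h)
  have hLI : ∀ g : Λ[X], g.natDegree < ℓ → aeval (β u) g ∈ P0 →
      ∀ i, algebraMap Λ B (g.coeff i) ∈ P0 := by
    intro g hg hgP0 i
    choose g' hg' using fun i => hfrob (g.coeff i)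
    have h1 : β (∑ i ∈ Finset.range ℓ, g' i ^ ℓ * u ^ i) ∈ P0 := by
      rw [Polynomial.aeval_eq_sum_range' hg] at hgP0
      have h2 : β (∑ i ∈ Finset.range ℓ, g' i ^ ℓ * u ^ i)
          = ∑ i ∈ Finset.range ℓ, g.coeff i • β u ^ i
            - ∑ i ∈ Finset.range ℓ, (α (g.coeff i) - β (g' i) ^ ℓ) * β u ^ i := by
        rw [map_sum, ← Finset.sum_sub_distrib]
        apply Finset.sum_congr rfl
        intro k _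
        rw [map_mul, map_pow, map_pow, Algebra.smul_def, halg]
        ring
      rw [h2]
      refine P0.sub_mem hgP0 (P0.sum_mem fun k _ => P0.mul_mem_right _ (hg' k))
    have h3 := h62l_LI_of_dedekind 𝔪 (𝔫.comap (β : Λ →+* B)) (hcomap𝔪 β)
      (hne_of_max _ h𝔰'max (hcomap𝔪 β)) u hu𝔰'.1 husq' ℓ g' (hβP0 _ h1)
    by_cases hi : i < ℓ
    · have h4 : β (g' i) ^ ℓ ∈ P0 :=
        P0.pow_mem_of_mem (hmP0 (h62l_map_mem _ β (h3 i hi))) ℓ hℓ.pos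
      have h5 : algebraMap Λ B (g.coeff i) = (α (g.coeff i) - β (g' i) ^ ℓ) + β (g' i) ^ ℓ := by
        rw [halg]; ring
      rw [h5]
      exact P0.add_mem (hg' i) h4
    · have h4 : g.coeff i = 0 :=
        Polynomial.coeff_eq_zero_of_natDegree_lt (lt_of_lt_of_le hg (not_lt.mp hi))
      rw [h4, map_zero]
      exact P0.zero_mem
  have hLPinf : ∀ b ∈ 𝔫, ∃ s, s ∉ 𝔫 ∧ s * b ∈ Ideal.span {algebraMap Λ B u} ⊔ Pinf :=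
    h62l_LP_transport (maximalIdeal A) α 𝔫 Pinf hmPinf hPinf𝔫 hsurjinf u hu𝔰
  have hLP0 : ∀ b ∈ 𝔫, ∃ s, s ∉ 𝔫 ∧ s * b ∈ Ideal.span {β u} ⊔ P0 :=
    h62l_LP_transport (maximalIdeal A) β 𝔫 P0 hmP0 hP0𝔫 hsurj0 u hu𝔰'
  have hU : ∀ s : B, s ∉ 𝔫 → ∃ s' : B,
      s * s' - 1 ∈ (𝔫.comap (algebraMap Λ B)).map (algebraMap Λ B) :=
    h62l_hU (α : Λ →+* B) (β : Λ →+* B) 𝔫 Pinf P0 hPinf𝔫 hP0𝔫 (le_trans hSF hm𝔰)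
      hsurjinf hsurj0 ℓ hℓ.pos hfrob'
  have hunit := h67u_node_unit hC Winf W0 hWV hBWinf hBW0
    𝔫 Pinf P0 hPinf𝔫 hP0𝔫 hSF hWinf hW0 (β : Λ →+* B) hm𝔰 ℓ hℓ.two_le hℓ0 hℓm hmPinf hmP0
    u u u r hr hf' hβu𝔫 hY1 hY2 hYa hδinf hδ0 hLI hLPinf hLP0 hU hsurjinf (K := K)
    (hpl 𝔫 h𝔫 hPinf𝔫 hP0𝔫)
  rw [Polynomial.aeval_def] at hunit
  exact hunit

end Fermat.Agent.S36
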