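import Mathlib
import Fermat.Prelude.Def_GaloisRep_LocalConditions

/-!
# S36, block ALG (helper68): the `2 × 2` Kolchin lemma

If every element of the inertia group at `P` acts on a rank-two Galois representation with
characteristic polynomial `(X - 1) ^ 2`, the inertia group has a nonzero fixed vector.
Consequently: a representation **without** nonzero inertia-fixed vectors is not unipotent on
inertia (`h68k_not_unipotent_of_no_fixed`).

Pure algebra (Mathlib + the definition `GaloisRepAdic.IsUnipotentOnInertiaAt`).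
-/

set_option autoImplicit false

open Polynomial

namespace Fermat.Agent.S36

/-- a `2 × 2` matrix with characteristic polynomial `(X - 1) ^ 2` has trace `2` and
determinant `1`. -/
theorem h68k_trace_det_of_charpoly {R : Type*} [CommRing R] [Nontrivial R]
    (M : Matrix (Fin 2) (Fin 2) R) (h : M.charpoly = (X - 1) ^ 2) :
    M.trace = 2 ∧ M.det = 1 := by
  have h2 := Matrix.charpoly_fin_two M
  rw [h] at h2
  have e1 := congrArg (fun p : R[X] => p.coeff 1) h2
  have e0 := congrArg (fun p : R[X] => p.coeff 0) h2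
  have hsq : ((X : R[X]) - 1) ^ 2 = X ^ 2 - C (2 : R) * X + C (1 : R) := by
    simp only [map_ofNat, map_one]
    ring
  simp only [hsq] at e1 e0
  simp only [coeff_add, coeff_sub, coeff_X_pow, coeff_C_mul, coeff_X_one,
    coeff_X_zero, coeff_C, mul_one, mul_zero] at e1 e0
  norm_num at e1 e0
  exact ⟨e1.symm, e0.symm⟩

/-- **the key identity**: over a domain, if `M₀`, `M` and `M₀ * M` all have trace `2` and
`M₀`, `M` have determinant `1`, then `(M - 1) * (M₀ - 1) = 0`. -/
theorem h68k_mat_key {R : Type*} [CommRing R] [IsDomain R] (M₀ M : Matrix (Fin 2) (Fin 2) R)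
    (h₀t : M₀.trace = 2) (h₀d : M₀.det = 1) (ht : M.trace = 2) (hd : M.det = 1)
    (hp : (M₀ * M).trace = 2) : (M - 1) * (M₀ - 1) = 0 := by
  rw [Matrix.trace_fin_two] at h₀t ht hp
  rw [Matrix.det_fin_two] at h₀d hd
  simp only [Matrix.mul_apply, Fin.sum_univ_two] at hp
  set p₁ := M₀ 0 0
  set q := M₀ 0 1
  set r := M₀ 1 0
  set p₂ := M₀ 1 1
  set a₁ := M 0 0
  set b := M 0 1
  set c := M 1 0
  set a₂ := M 1 1
  have hp₂ : p₂ = 2 - p₁ := by linear_combination h₀t
  have ha₂ : a₂ = 2 - a₁ := by linear_combination ht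
  have h1 : p₁ * (2 - p₁) - q * r = 1 := by rw [← hp₂]; exact h₀d
  have h2 : a₁ * (2 - a₁) - b * c = 1 := by rw [← ha₂]; exact hd
  have h3 : p₁ * a₁ + q * c + (r * b + (2 - p₁) * (2 - a₁)) = 2 := by
    rw [← hp₂, ← ha₂]; exact hp
  have e00 : (a₁ - 1) * (p₁ - 1) + b * r = 0 := by
    have : ((a₁ - 1) * (p₁ - 1) + b * r) ^ 2 = 0 := by
      linear_combination (-(p₁ - 1) ^ 2) * h2 + (b * c) * h1 + (b * r) * h3
    exact pow_eq_zero_iff (two_ne_zero) |>.1 this
  have e01 : (a₁ - 1) * q + b * (p₂ - 1) = 0 := by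
    have : ((a₁ - 1) * q + b * (p₂ - 1)) ^ 2 = 0 := by
      rw [hp₂]
      linear_combination (-(q ^ 2)) * h2 + (-(b ^ 2)) * h1 + (-(q * b)) * h3
    exact pow_eq_zero_iff (two_ne_zero) |>.1 this
  have e10 : c * (p₁ - 1) + (a₂ - 1) * r = 0 := by
    have : (c * (p₁ - 1) + (a₂ - 1) * r) ^ 2 = 0 := by
      rw [ha₂]
      linear_combination (-(c ^ 2)) * h1 + (-(r ^ 2)) * h2 + (-(c * r)) * h3
    exact pow_eq_zero_iff (two_ne_zero) |>.1 this
  have e11 : c * q + (a₂ - 1) * (p₂ - 1) = 0 := by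
    have : (c * q + (a₂ - 1) * (p₂ - 1)) ^ 2 = 0 := by
      rw [ha₂, hp₂]
      linear_combination (-(p₁ - 1) ^ 2) * h2 + (b * c) * h1 + (c * q) * h3
    exact pow_eq_zero_iff (two_ne_zero) |>.1 this
  ext i j
  fin_cases i <;> fin_cases j
  · simpa [Matrix.mul_apply, Fin.sum_univ_two, Matrix.sub_apply] using e00
  · simpa [Matrix.mul_apply, Fin.sum_univ_two, Matrix.sub_apply] using e01
  · simpa [Matrix.mul_apply, Fin.sum_univ_two, Matrix.sub_apply] using e10
  · simpa [Matrix.mul_apply, Fin.sum_univ_two, Matrix.sub_apply] using e11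

/-- **Kolchin for rank two.**  A multiplicatively closed set of endomorphisms of a free module
of rank `2` over a domain, all of characteristic polynomial `(X - 1) ^ 2`, has a common nonzero
fixed vector. -/
theorem h68k_exists_fixed {R : Type*} [CommRing R] [IsDomain R] {V : Type*} [AddCommGroup V]
    [Module R V] [Module.Free R V] [Module.Finite R V] (hV : Module.finrank R V = 2)
    (S : Set (Module.End R V)) (hmul : ∀ a ∈ S, ∀ b ∈ S, a * b ∈ S)
    (hS : ∀ a ∈ S, LinearMap.charpoly a = (X - 1) ^ 2) :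
    ∃ v : V, v ≠ 0 ∧ ∀ a ∈ S, a v = v := by
  classical
  by_cases hall : ∀ a ∈ S, a = 1
  · have : Nontrivial V := Module.nontrivial_of_finrank_pos (R := R) (by rw [hV]; norm_num)
    obtain ⟨v, hv⟩ := exists_ne (0 : V)
    exact ⟨v, hv, fun a ha => by rw [hall a ha]; rfl⟩
  · push Not at hall
    obtain ⟨a₀, ha₀, hne⟩ := hall
    let b : Module.Basis (Fin 2) R V := Module.finBasisOfFinrankEq R V hV
    have htd : ∀ a ∈ S, (LinearMap.toMatrix b b a).trace = 2 ∧ (LinearMap.toMatrix b b a).det = 1 :=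
      fun a ha => h68k_trace_det_of_charpoly _ (by rw [LinearMap.charpoly_toMatrix]; exact hS a ha)
    have hkey : ∀ a ∈ S, (a - 1) * (a₀ - 1) = 0 := by
      intro a ha
      apply (LinearMap.toMatrix b b).injective
      have hp := (htd (a₀ * a) (hmul a₀ ha₀ a ha)).1
      rw [LinearMap.toMatrix_mul] at hp
      have := h68k_mat_key (LinearMap.toMatrix b b a₀) (LinearMap.toMatrix b b a)
        (htd a₀ ha₀).1 (htd a₀ ha₀).2 (htd a ha).1 (htd a ha).2 hp
      rw [LinearMap.toMatrix_mul, map_sub, map_sub, LinearMap.toMatrix_one, this, map_zero]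
    have hw : ∃ w : V, (a₀ - 1) w ≠ 0 := by
      by_contra hcon
      push Not at hcon
      apply hne
      ext w
      have := hcon w
      rw [LinearMap.sub_apply, sub_eq_zero] at this
      exact this
    obtain ⟨w, hw⟩ := hw
    refine ⟨(a₀ - 1) w, hw, fun a ha => ?_⟩
    have := congrArg (fun f : Module.End R V => f w) (hkey a ha)
    simp only [Module.End.mul_apply, LinearMap.zero_apply] at this
    rw [LinearMap.sub_apply, Module.End.one_apply, sub_eq_zero] at this
    exact this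

/-- **S36, block ALG.**  A rank-two Galois representation over a domain which is unipotent on
inertia at `q` has, for every `P` over `q`, a nonzero vector fixed by the inertia group
at `P`. -/
theorem h68k_exists_inertia_fixed {A : Type} [CommRing A] [IsLocalRing A] [IsDomain A]
    (ρ : GaloisRepAdic A) (q : ℕ) (h : ρ.IsUnipotentOnInertiaAt q)
    (P : ValuationSubring (AlgebraicClosure ℚ)) (hP : P.LiesOverPrime q) :
    ∃ v : ρ.V, v ≠ 0 ∧ ∀ σ ∈ P.inertiaSubgroupIn ℚ, ρ.ρ σ v = v := by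
  obtain ⟨v, hv, hfix⟩ := h68k_exists_fixed ρ.finrank_eq
    {a | ∃ σ ∈ P.inertiaSubgroupIn ℚ, ρ.ρ σ = a}
    (by
      rintro _ ⟨σ, hσ, rfl⟩ _ ⟨τ, hτ, rfl⟩
      exact ⟨σ * τ, mul_mem hσ hτ, map_mul _ _ _⟩)
    (by
      rintro _ ⟨σ, hσ, rfl⟩
      exact h P hP σ hσ)
  exact ⟨v, hv, fun σ hσ => hfix _ ⟨σ, hσ, rfl⟩⟩

/-- **S36, block ALG (contrapositive form).**  If for some `P` over `q` the inertia group at
`P` has no nonzero fixed vector, the representation is not unipotent on inertia at `q`. -/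
theorem h68k_not_unipotent_of_no_fixed {A : Type} [CommRing A] [IsLocalRing A] [IsDomain A]
    (ρ : GaloisRepAdic A) (q : ℕ)
    (P : ValuationSubring (AlgebraicClosure ℚ)) (hP : P.LiesOverPrime q)
    (hfix : ∀ v : ρ.V, (∀ σ ∈ P.inertiaSubgroupIn ℚ, ρ.ρ σ v = v) → v = 0) :
    ¬ ρ.IsUnipotentOnInertiaAt q := by
  intro h
  obtain ⟨v, hv, hv'⟩ := h68k_exists_inertia_fixed ρ q h P hP
  exact hv (hfix v hv')

end Fermat.Agent.S36
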