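import Fermat.Agent.S36.H69HorChart
import Fermat.Agent.S36.H7DescLocFinal
import Fermat.Agent.S36.H86LocOneIface

/-!
# S36, row LOC-HOR: `H86LocHor`, unconditional (helper69, prefix `h69h_`)

At a nonzero prime `𝔭 ∌ q` of a chart `B = h92c_Chart A N t` (`t = j` or `1/j`) the local ring
`B_𝔭` is a valuation subring of `F₀` over the constants `K₀`
(`h69h_normal` + `h69h_exists_valuationSubring`), hence `DescLoc` (`h7l_descLoc_final`) gives
`G ∈ F₀` with `w / G ^ m` a unit of `B_𝔭`.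

* `h69h_horAt` : `H86LocHorAt A N q t` for `t = j`, `1/j` at every level `N`.
* `h69h_locHor : H86LocHor` (exact frozen Prop of `S36/H86LocOneIface.lean`).
-/

set_option autoImplicit false
set_option linter.style.haveILetI false
set_option linter.unusedSectionVars false

open Polynomial AlgebraicCurve ModularCurve

noncomputable section

namespace Fermat.Agent.S36

open Fermat.Agent.S37 (Kbar GQ FF cst jB gal modelAt ringAdj auxLevel)

/-- **LOC-HOR at one chart.** -/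
theorem h69h_horAt (N : ℕ) [NeZero N] (A : ValuationSubring Kbar) {q : ℕ} (hq : q.Prime)
    (hA : A.LiesOverPrime q) (t : FF N) (ht : t = jB N ∨ t = (jB N)⁻¹) :
    H86LocHorAt A N q t := by
  classical
  letI := h69hAlg N A
  haveI := h59b_isDVR A hq hA
  intro 𝔭 h𝔭 h𝔭0 hq𝔭 m w hw0 hwF hdiv
  have hN := h69h_normal N A hq hA t ht
  have hA1 : ∀ a : h59bA0 A, algebraMap (h59bA0 A) ↥(h92c_F0 A N) a ≠ 0 →
      ∃ k : ℕ, a ∣ ((q : ℕ) : h59bA0 A) ^ k :=
    (h75c_base_of_dvr (A := h59bA0 A) (F := ↥(h92c_F0 A N)) ((q : ℕ) : h59bA0 A)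
      (h59b_irreducible A hq hA)).1
  -- the transported prime
  set 𝔓 : Ideal ↥(h69hB N A t) := 𝔭.comap (h69hEquiv N A t).symm.toRingHom with h𝔓def
  have hmem𝔓 : ∀ y : ↥(h69hB N A t), y ∈ 𝔓 ↔ (h69hEquiv N A t).symm y ∈ 𝔭 := fun y => Iff.rfl
  have h𝔓 : 𝔓.IsPrime := Ideal.comap_isPrime _ _
  have h𝔓0 : 𝔓 ≠ ⊥ := by
    intro h
    apply h𝔭0
    rw [eq_bot_iff]
    intro x hx
    have h1 : h69hEquiv N A t x ∈ 𝔓 := by
      rw [hmem𝔓, RingEquiv.symm_apply_apply]
      exact hx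
    rw [h, Ideal.mem_bot] at h1
    rw [Ideal.mem_bot]
    exact (h69hEquiv N A t).injective (h1.trans (map_zero _).symm)
  have hq𝔓 : algebraMap (h59bA0 A) ↥(h69hB N A t) ((q : ℕ) : h59bA0 A) ∉ 𝔓 := by
    intro h
    apply hq𝔭
    rw [hmem𝔓] at h
    have h1 : (h69hEquiv N A t).symm
        (algebraMap (h59bA0 A) ↥(h69hB N A t) ((q : ℕ) : h59bA0 A)) =
        ((q : ℕ) : ↥(h92c_Chart A N t)) := by
      apply Subtype.ext
      rw [h69hEquiv_symm_coe]
      show cst N _ = _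
      rw [map_natCast]
      have h2 : cst N ((q : ℕ) : Kbar) = ((q : ℕ) : FF N) := map_natCast (algebraMap Kbar (FF N)) q
      rw [h2]
      simp
    rw [h1] at h
    exact h
  obtain ⟨O, hOtop, hOA, hOAinv, hOmem⟩ :=
    h69h_exists_valuationSubring (h69hB N A t) ((q : ℕ) : h59bA0 A) hN hA1 𝔓 h𝔓 h𝔓0 hq𝔓
  -- the constants
  have hconst : ∀ (c : Kbar) (hc : cst N c ∈ h53d_F0 N (A.inertiaSubgroupIn ℚ)),
      (⟨cst N c, hc⟩ : h53d_F0 N (A.inertiaSubgroupIn ℚ)) ∈ O := by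
    intro c hc
    have hcK : c ∈ h59bK0 A := by
      rw [h59b_mem_K0_iff]
      intro σ hσ
      have h1 := hc σ hσ
      rw [Fermat.Agent.S37.GalI.gal_smul_cst] at h1
      exact (algebraMap Kbar (FF N)).injective h1
    rcases (h59bA0 A).mem_or_inv_mem (⟨c, hcK⟩ : h59bK0 A) with hk | hk
    · have h1 : (⟨cst N c, hc⟩ : h53d_F0 N (A.inertiaSubgroupIn ℚ)) =
          algebraMap (h59bA0 A) ↥(h92c_F0 A N) ⟨⟨c, hcK⟩, hk⟩ := rfl
      rw [h1]
      exact hOA _
    · by_cases hc0 : c = 0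
      · have h1 : (⟨cst N c, hc⟩ : h53d_F0 N (A.inertiaSubgroupIn ℚ)) = 0 := by
          apply Subtype.ext
          show cst N c = 0
          rw [hc0]
          exact map_zero (algebraMap Kbar (FF N))
        rw [h1]
        exact O.zero_mem
      · have h2 : ((algebraMap (h59bA0 A) ↥(h92c_F0 A N)
            ⟨(⟨c, hcK⟩ : h59bK0 A)⁻¹, hk⟩ : ↥(h92c_F0 A N)) : FF N) = (cst N c)⁻¹ := by
          show cst N _ = _
          rw [← map_inv₀]
          rfl
        have hne : algebraMap (h59bA0 A) ↥(h92c_F0 A N) ⟨(⟨c, hcK⟩ : h59bK0 A)⁻¹, hk⟩ ≠ 0 := by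
          intro h
          have h3 := congrArg (Subtype.val) h
          rw [h2] at h3
          have h4 : cst N c ≠ 0 := fun h5 =>
            hc0 ((algebraMap Kbar (FF N)).injective (h5.trans (map_zero _).symm))
          exact inv_ne_zero h4 h3
        have h1 : (⟨cst N c, hc⟩ : h53d_F0 N (A.inertiaSubgroupIn ℚ)) =
            (algebraMap (h59bA0 A) ↥(h92c_F0 A N) ⟨(⟨c, hcK⟩ : h59bK0 A)⁻¹, hk⟩)⁻¹ := by
          apply Subtype.ext
          show cst N c = ((_ : ↥(h92c_F0 A N)) : FF N)⁻¹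
          rw [h2, inv_inv]
        rw [h1]
        exact hOAinv _ hne
  -- `DescLoc`
  have hw0' : (⟨w, hwF⟩ : h53d_F0 N (A.inertiaSubgroupIn ℚ)) ≠ 0 := fun h =>
    hw0 (congrArg Subtype.val h)
  obtain ⟨g, hg0, h1, h2⟩ := h7l_descLoc_final N (A.inertiaSubgroupIn ℚ) O hOtop hconst m
    ⟨w, hwF⟩ hw0' hdiv
  obtain ⟨b1, s1, hs1, e1⟩ := (hOmem _).mp h1
  obtain ⟨b2, s2, hs2, e2⟩ := (hOmem _).mp h2
  obtain ⟨a, c, hc0, hac⟩ := hN.frac g
  have hgF : (g : FF N) ≠ 0 := fun h => hg0 (Subtype.ext h)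
  refine ⟨(g : FF N), hgF, ⟨(h69hEquiv N A t).symm a, (h69hEquiv N A t).symm c, ?_, ?_⟩,
    (h69hEquiv N A t).symm (s1 * s2), ?_, ?_, ?_⟩
  · intro h
    apply hc0
    have h3 : c = 0 := by
      have := congrArg (h69hEquiv N A t) h
      rwa [RingEquiv.apply_symm_apply, map_zero] at this
    rw [h3]
    rfl
  · rw [h69hEquiv_symm_coe, h69hEquiv_symm_coe]
    exact congrArg Subtype.val hac
  · rw [← hmem𝔓]
    intro h
    rcases h𝔓.mem_or_mem h with h | h
    · exact hs1 h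
    · exact hs2 h
  · have h3 : (((h69hEquiv N A t).symm (s1 * s2) : ↥(h92c_Chart A N t)) : FF N) *
        (w * ((g : FF N) ^ m)⁻¹) = (((b1 * s2 : ↥(h69hB N A t)) : ↥(h92c_F0 A N)) : FF N) := by
      rw [h69hEquiv_symm_coe]
      have e1' := congrArg Subtype.val e1
      push_cast at e1'
      push_cast
      rw [← e1']
      simp only [div_eq_mul_inv]
      ring
    rw [h3]
    exact (h69h_mem_B N A t _).mp (b1 * s2).2
  · have h3 : (((h69hEquiv N A t).symm (s1 * s2) : ↥(h92c_Chart A N t)) : FF N) *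
        ((g : FF N) ^ m * w⁻¹) = (((b2 * s1 : ↥(h69hB N A t)) : ↥(h92c_F0 A N)) : FF N) := by
      rw [h69hEquiv_symm_coe]
      have e2' := congrArg Subtype.val e2
      push_cast at e2'
      push_cast
      rw [← e2']
      simp only [div_eq_mul_inv]
      ring
    rw [h3]
    exact (h69h_mem_B N A t _).mp (b2 * s1).2

/-- **LOC-HOR**, unconditional. -/
theorem h69h_locHor : H86LocHor := by
  intro q hq M _ hqM haux
  haveI : NeZero q := ⟨hq.ne_zero⟩
  intro A hA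
  exact ⟨h69h_horAt (M * q * q) A hq hA _ (Or.inl rfl),
    h69h_horAt (M * q * q) A hq hA _ (Or.inr rfl)⟩

end Fermat.Agent.S36
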