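import Mathlib
import Fermat.Agent.S36.H75ChartAbs

/-!
# S36, row LOC-HOR: the horizontal primes of a normal noetherian chart (helper69, `h69h_`)

Abstract; Mathlib + `S36/H75ChartAbs` (helper75).

* `h69h_polyDim` : in `R[X]`, `R` a discrete valuation ring with uniformiser `ϖ`, the nonzero
  primes which do not contain `ϖ` are pairwise incomparable (the hypothesis `hR` of
  `h75c_dim_of_integral`).
* `h69h_exists_place` : for a chart `B` with `H75Normal B π`, every nonzero prime `𝔭 ∌ π` of `B`
  is the centre of a place of the generic fibre `B[1/π]`.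
* `h69h_exists_valuationSubring` : the local ring `B_𝔭` of such a prime is a valuation subring
  `O ≠ ⊤` of `F` containing the constants and their inverses.
-/

set_option autoImplicit false
set_option linter.style.haveILetI false

open Polynomial

namespace Fermat.Agent.S36

/-- nonzero primes of `R[X]` (`R` a discrete valuation ring with uniformiser `ϖ`) which do not
contain `ϖ` are pairwise incomparable. -/
theorem h69h_polyDim {R : Type*} [CommRing R] [IsDomain R] [IsDiscreteValuationRing R]
    (ϖ : R) (hϖ : Irreducible ϖ) (p q : Ideal R[X]) (hp : p.IsPrime) (hq : q.IsPrime)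
    (hp0 : p ≠ ⊥) (hpq : p ≤ q) (hϖq : C ϖ ∉ q) : q ≤ p := by
  classical
  letI : Algebra R[X] (FractionRing R)[X] := Polynomial.algebra R (FractionRing R)
  haveI : IsLocalization ((nonZeroDivisors R).map (C : R →+* R[X])) (FractionRing R)[X] :=
    Polynomial.isLocalization _ _
  set M : Submonoid R[X] := (nonZeroDivisors R).map (C : R →+* R[X]) with hM
  have hdisj : ∀ I : Ideal R[X], I.IsPrime → C ϖ ∉ I →
      Disjoint (M : Set R[X]) (I : Set R[X]) := by
    intro I hI hϖI
    rw [Set.disjoint_left]
    rintro _ ⟨a, ha, rfl⟩ haI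
    have ha0 : a ≠ 0 := nonZeroDivisors.ne_zero ha
    obtain ⟨n, u, hu⟩ := IsDiscreteValuationRing.eq_unit_mul_pow_irreducible ha0 hϖ
    have haI' : C (u : R) * C ϖ ^ n ∈ I := by
      have : (C a : R[X]) = C (u : R) * C ϖ ^ n := by rw [hu, C_mul, C_pow]
      rw [← this]
      exact haI
    rcases hI.mem_or_mem haI' with h | h
    · exact hI.ne_top (Ideal.eq_top_of_isUnit_mem _ h (u.isUnit.map C))
    · exact hϖI (hI.mem_of_pow_mem n h)
  have hdp := hdisj p hp (fun h => hϖq (hpq h))
  have hdq := hdisj q hq hϖq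
  have hP' : (p.map (algebraMap R[X] (FractionRing R)[X])).IsPrime :=
    IsLocalization.isPrime_of_isPrime_disjoint M _ p hp hdp
  have hQ' : (q.map (algebraMap R[X] (FractionRing R)[X])).IsPrime :=
    IsLocalization.isPrime_of_isPrime_disjoint M _ q hq hdq
  have hcp : (p.map (algebraMap R[X] (FractionRing R)[X])).comap
      (algebraMap R[X] (FractionRing R)[X]) = p :=
    IsLocalization.under_map_of_isPrime_disjoint M _ hp hdp
  have hcq : (q.map (algebraMap R[X] (FractionRing R)[X])).comap
      (algebraMap R[X] (FractionRing R)[X]) = q :=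
    IsLocalization.under_map_of_isPrime_disjoint M _ hq hdq
  have hP0 : p.map (algebraMap R[X] (FractionRing R)[X]) ≠ ⊥ := by
    intro h
    apply hp0
    rw [eq_bot_iff]
    intro x hx
    have h1 : algebraMap R[X] (FractionRing R)[X] x ∈
        p.map (algebraMap R[X] (FractionRing R)[X]) := Ideal.mem_map_of_mem _ hx
    rw [h, Ideal.mem_bot] at h1
    have hinj : Function.Injective (algebraMap R[X] (FractionRing R)[X]) :=
      Polynomial.map_injective _ (IsFractionRing.injective R (FractionRing R))
    rw [Ideal.mem_bot]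
    exact hinj (by rw [h1, map_zero])
  have hmax : (p.map (algebraMap R[X] (FractionRing R)[X])).IsMaximal := hP'.isMaximal hP0
  have heq : p.map (algebraMap R[X] (FractionRing R)[X]) =
      q.map (algebraMap R[X] (FractionRing R)[X]) :=
    hmax.eq_of_le hQ'.ne_top (Ideal.map_mono hpq)
  rw [← hcq, ← heq, hcp]

section Place

variable {A F : Type*} [CommRing A] [Field F] [Algebra A F]
variable (B : Subalgebra A F) (π : A)

/-- a nonzero prime of `B` not containing `π` is the centre of a place of the generic fibre. -/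
theorem h69h_exists_place (hN : H75Normal B π) (𝔭 : Ideal B) (hp : 𝔭.IsPrime) (h0 : 𝔭 ≠ ⊥)
    (hπ : algebraMap A B π ∉ 𝔭) : ∃ v : h75cPlace B π, h75cCentre B π v = 𝔭 := by
  have hdisj : Disjoint (Submonoid.powers (algebraMap A B π) : Set B) (𝔭 : Set B) := by
    rw [Set.disjoint_left]
    rintro _ ⟨n, rfl⟩ h
    exact hπ (hp.mem_of_pow_mem n h)
  have hP' : (𝔭.map (algebraMap B (h75cC B π))).IsPrime :=
    IsLocalization.isPrime_of_isPrime_disjoint (Submonoid.powers (algebraMap A B π)) _ 𝔭 hp hdisj
  have hc : (𝔭.map (algebraMap B (h75cC B π))).comap (algebraMap B (h75cC B π)) = 𝔭 :=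
    IsLocalization.under_map_of_isPrime_disjoint (Submonoid.powers (algebraMap A B π)) _ hp hdisj
  have hne : 𝔭.map (algebraMap B (h75cC B π)) ≠ ⊥ := by
    intro h
    apply h0
    rw [← hc, h]
    rw [eq_bot_iff]
    intro x hx
    rw [Ideal.mem_comap, Ideal.mem_bot] at hx
    rw [Ideal.mem_bot]
    have hle : Submonoid.powers (algebraMap A B π) ≤ nonZeroDivisors B :=
      powers_le_nonZeroDivisors_of_noZeroDivisors (h75c_algebraMap_ne_zero B π hN.pi_ne)
    exact (IsLocalization.injective (h75cC B π) hle) (by rw [hx, map_zero])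
  exact ⟨⟨𝔭.map (algebraMap B (h75cC B π)), hP', hne⟩, hc⟩

/-- **the local ring of a horizontal prime is a valuation ring.**  For a nonzero prime `𝔭 ∌ π`
of a normal noetherian chart `B` over a base in which every nonzero element divides a power of
`π`, the local ring `B_𝔭` is a valuation subring `O ≠ ⊤` of `F` in which the nonzero constants
are units. -/
theorem h69h_exists_valuationSubring (hN : H75Normal B π)
    (hA1 : ∀ a : A, algebraMap A F a ≠ 0 → ∃ k : ℕ, a ∣ π ^ k)
    (𝔭 : Ideal B) (hp : 𝔭.IsPrime) (h0 : 𝔭 ≠ ⊥) (hπ : algebraMap A B π ∉ 𝔭) :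
    ∃ O : ValuationSubring F, O ≠ ⊤ ∧
      (∀ a : A, algebraMap A F a ∈ O) ∧
      (∀ a : A, algebraMap A F a ≠ 0 → (algebraMap A F a)⁻¹ ∈ O) ∧
      ∀ x : F, x ∈ O ↔ ∃ b s : B, s ∉ 𝔭 ∧ x * (s : F) = (b : F) := by
  obtain ⟨v, hv⟩ := h69h_exists_place B π hN 𝔭 hp h0 hπ
  refine ⟨(h75cVal B π hN v).valuationSubring, ?_, ?_, ?_, ?_⟩
  · intro htop
    obtain ⟨b, hb, hb0⟩ := Submodule.exists_mem_ne_zero_of_ne_bot h0
    have hbF : (b : F) ≠ 0 := fun h => hb0 (Subtype.ext h)
    have h1 : h75cVal B π hN v (b : F) < 1 := by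
      rw [h75c_val_lt_one_iff B π hN v b, hv]
      exact hb
    have h2 : ((b : F))⁻¹ ∈ (h75cVal B π hN v).valuationSubring := by
      rw [htop]
      trivial
    rw [Valuation.mem_valuationSubring_iff, map_inv₀] at h2
    have h3 : h75cVal B π hN v (b : F) ≠ 0 := (Valuation.ne_zero_iff _).mpr hbF
    have h4 : (1 : WithZero (Multiplicative ℤ)) ≤ h75cVal B π hN v (b : F) := by
      have := (inv_le_one₀ (zero_lt_iff.mpr h3)).mp h2
      exact this
    exact absurd h1 (not_lt.mpr h4)
  · intro a
    rw [Valuation.mem_valuationSubring_iff]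
    exact h75c_chart_aux B π hN _ (B.algebraMap_mem a) v
  · intro a ha
    rw [Valuation.mem_valuationSubring_iff, map_inv₀, h75c_val_const B π hN hA1 v a ha, inv_one]
  · intro x
    rw [Valuation.mem_valuationSubring_iff, h75c_val_le_one_iff B π hN v x, hv]

end Place

end Fermat.Agent.S36
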