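import Fermat.Agent.S36.H69HorAbs
import Fermat.Agent.S36.H59Noeth
import Fermat.Agent.S36.H40Gen
import Fermat.Agent.S36.H92Chain

/-!
# S36, row LOC-HOR: the charts over the inertia ring are normal noetherian charts
(helper69, prefix `h69h_`)

`F₀ = ↥(h92c_F0 A N)` (the inertia-fixed functions, as a field), `A₀ = h59bA0 A` (the inertia
ring, a discrete valuation ring with uniformiser `q`), `B = h69hB N A t` : the chart
`h92c_Chart A N t` as an `A₀`-subalgebra of `F₀`.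

* `h69h_normal` : `H75Normal (h69hB N A t) q` for `t = j` and `t = 1/j` (noetherian: helper59;
  integrally closed; fraction field `F₀`: helper40; the generic fibre has dimension `≤ 1`:
  integral over `A₀[t]` + `h69h_polyDim`).
-/

set_option autoImplicit false
set_option linter.style.haveILetI false
set_option linter.unusedSectionVars false

open Polynomial AlgebraicCurve ModularCurve

noncomputable section

namespace Fermat.Agent.S36

open Fermat.Agent.S37 (Kbar GQ FF cst jB gal modelAt ringAdj)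

section Chart

variable (N : ℕ) (A : ValuationSubring Kbar)

/-- the constants of `A₀`, as elements of `F₀`. -/
def h69hPsi : h59bA0 A →+* ↥(h92c_F0 A N) :=
  (h59nPsi N A).codRestrict (h92c_F0 A N) (fun a => by
    intro σ hσ
    rw [h59nPsi_apply, Fermat.Agent.S37.GalI.gal_smul_cst]
    congr 1
    exact (h59b_mem_K0_iff A _).mp (a : h59bK0 A).2 σ hσ)

theorem h69hPsi_coe (a : h59bA0 A) :
    ((h69hPsi N A a : ↥(h92c_F0 A N)) : FF N) = cst N (((a : h59bK0 A) : Kbar)) := rfl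

/-- the `A₀`-algebra structure of `F₀`. -/
@[reducible] def h69hAlg : Algebra (h59bA0 A) ↥(h92c_F0 A N) := (h69hPsi N A).toAlgebra

/-- the chart `h92c_Chart A N t` as an `A₀`-subalgebra of `F₀`. -/
def h69hB (t : FF N) :
    letI := h69hAlg N A
    Subalgebra (h59bA0 A) ↥(h92c_F0 A N) :=
  letI := h69hAlg N A
  { (h92c_Chart A N t).comap (h92c_F0 A N).subtype with
    algebraMap_mem' := fun a => by
      show ((h69hPsi N A a : ↥(h92c_F0 A N)) : FF N) ∈ h92c_Chart A N t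
      refine ⟨?_, (h69hPsi N A a).2⟩
      rw [h69hPsi_coe]
      exact Fermat.Agent.Red.Match.cst_mem_modelAt N A t ((h59b_mem_A0_iff A _).mp a.2) }

theorem h69h_mem_B (t : FF N) (x : ↥(h92c_F0 A N)) :
    x ∈ h69hB N A t ↔ (x : FF N) ∈ h92c_Chart A N t := Iff.rfl

/-- the chart as a subring of `FF N` and as a subalgebra of `F₀` are isomorphic. -/
def h69hEquiv (t : FF N) :
    letI := h69hAlg N A
    ↥(h92c_Chart A N t) ≃+* ↥(h69hB N A t) :=
  letI := h69hAlg N A
  { toFun := fun x => ⟨⟨x.1, x.2.2⟩, x.2⟩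
    invFun := fun y => ⟨y.1.1, y.2⟩
    left_inv := fun _ => rfl
    right_inv := fun _ => rfl
    map_mul' := fun _ _ => rfl
    map_add' := fun _ _ => rfl }

theorem h69hEquiv_coe (t : FF N) (x : ↥(h92c_Chart A N t)) :
    letI := h69hAlg N A
    (((h69hEquiv N A t x : ↥(h69hB N A t)) : ↥(h92c_F0 A N)) : FF N) = (x : FF N) := rfl

theorem h69hEquiv_symm_coe (t : FF N) :
    letI := h69hAlg N A
    ∀ y : ↥(h69hB N A t), (((h69hEquiv N A t).symm y : ↥(h92c_Chart A N t)) : FF N) =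
      ((y : ↥(h92c_F0 A N)) : FF N) := by
  letI := h69hAlg N A
  intro y
  rfl

set_option synthInstance.maxHeartbeats 400000 in
/-- `B` is integrally closed in `F₀`. -/
theorem h69h_norm (t : FF N) :
    letI := h69hAlg N A
    ∀ x : ↥(h92c_F0 A N), IsIntegral ↥(h69hB N A t) x → x ∈ h69hB N A t := by
  letI := h69hAlg N A
  intro x hx
  rw [h69h_mem_B]
  refine ⟨?_, x.2⟩
  obtain ⟨p, hp, hpx⟩ := hx
  let φ : ↥(h69hB N A t) →+* ↥(integralClosure (ringAdj N A t) (FF N)) :=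
    { toFun := fun b => ⟨((b : ↥(h92c_F0 A N)) : FF N), b.2.1⟩
      map_one' := rfl
      map_mul' := fun _ _ => rfl
      map_zero' := rfl
      map_add' := fun _ _ => rfl }
  have h1 : IsIntegral (integralClosure (ringAdj N A t) (FF N)) (x : FF N) := by
    refine ⟨p.map φ, hp.map φ, ?_⟩
    rw [Polynomial.eval₂_map]
    have h2 : (algebraMap ↥(integralClosure (ringAdj N A t) (FF N)) (FF N)).comp φ =
        (h92c_F0 A N).subtype.comp (algebraMap ↥(h69hB N A t) ↥(h92c_F0 A N)) := rfl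
    rw [h2]
    have h4 := Polynomial.hom_eval₂ p (algebraMap ↥(h69hB N A t) ↥(h92c_F0 A N))
      (h92c_F0 A N).subtype x
    rw [hpx, map_zero] at h4
    exact h4.symm
  have h3 : IsIntegral (ringAdj N A t) (x : FF N) := isIntegral_trans _ h1
  exact h3

end Chart

section Normal

variable (N : ℕ) [NeZero N] (A : ValuationSubring Kbar)

/-- `F₀` is the fraction field of `B`. -/
theorem h69h_frac (t : FF N) (ht : t = jB N ∨ t = (jB N)⁻¹) :
    letI := h69hAlg N A
    ∀ x : ↥(h92c_F0 A N), ∃ b c : ↥(h69hB N A t),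
      ((c : ↥(h92c_F0 A N))) ≠ 0 ∧ x * (c : ↥(h92c_F0 A N)) = (b : ↥(h92c_F0 A N)) := by
  letI := h69hAlg N A
  intro x
  have halg : ∀ y : FF N, IsAlgebraic (Algebra.adjoin Kbar {t}) y := by
    rcases ht with rfl | rfl
    · exact Fermat.Agent.Red.SM.HAlg.h81a_halg_jB N
    · exact Fermat.Agent.Red.SM.HAlg.h81a_halg_jB_inv N
  have hfix : ∀ σ ∈ A.inertiaSubgroupIn ℚ, gal N σ • t = t := by
    intro σ _
    rcases ht with rfl | rfl
    · exact Fermat.Agent.S37.GalI.gal_smul_jB σ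
    · exact Fermat.Agent.S37.GalI.gal_smul_jB_inv σ
  obtain ⟨s, -, hs0, hsc, hsx⟩ := h40g_den A N t halg hfix (x : FF N) x.2
  refine ⟨⟨⟨s * (x : FF N), hsx.2⟩, hsx⟩, ⟨⟨s, hsc.2⟩, hsc⟩, ?_, ?_⟩
  · intro h
    exact hs0 (congrArg Subtype.val h)
  · apply Subtype.ext
    show (x : FF N) * s = s * (x : FF N)
    exact mul_comm _ _

/-- `B` is noetherian (helper59). -/
theorem h69h_noeth {q : ℕ} (hq : q.Prime) (hA : A.LiesOverPrime q) (t : FF N)
    (ht : t = jB N ∨ t = (jB N)⁻¹) :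
    letI := h69hAlg N A
    IsNoetherianRing ↥(h69hB N A t) := by
  letI := h69hAlg N A
  haveI h1 : IsNoetherianRing ↥(h92c_Chart A N t) := h59n_isNoetherianRing_chart N A hq hA t ht
  exact isNoetherianRing_of_ringEquiv _ (h69hEquiv N A t)

/-- the evaluation `A₀[X] → F₀`, `X ↦ t`. -/
def h69hEv0 (t : FF N) (hfix : ∀ σ ∈ A.inertiaSubgroupIn ℚ, gal N σ • t = t) :
    (h59bA0 A)[X] →+* ↥(h92c_F0 A N) :=
  (h59nEv N A t).codRestrict (h92c_F0 A N)
    (fun P => h59nK_le_F0 N A t hfix (h59nEv_mem_K N A t P))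

theorem h69hEv0_mem (t : FF N) (hfix : ∀ σ ∈ A.inertiaSubgroupIn ℚ, gal N σ • t = t)
    (P : (h59bA0 A)[X]) :
    letI := h69hAlg N A
    h69hEv0 N A t hfix P ∈ h69hB N A t := by
  letI := h69hAlg N A
  rw [h69h_mem_B]
  exact (h59n_mem_chart_iff N A t _).mpr ⟨(h69hEv0 N A t hfix P).2,
    (h59nEv N A t).isIntegralElem_map⟩

/-- the evaluation `A₀[X] → B`, `X ↦ t`. -/
def h69hEv (t : FF N) (hfix : ∀ σ ∈ A.inertiaSubgroupIn ℚ, gal N σ • t = t) :
    letI := h69hAlg N A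
    (h59bA0 A)[X] →+* ↥(h69hB N A t) :=
  letI := h69hAlg N A
  (h69hEv0 N A t hfix).codRestrict (h69hB N A t) (h69hEv0_mem N A t hfix)

theorem h69hEv_coe (t : FF N) (hfix : ∀ σ ∈ A.inertiaSubgroupIn ℚ, gal N σ • t = t)
    (P : (h59bA0 A)[X]) :
    letI := h69hAlg N A
    (((h69hEv N A t hfix P : ↥(h69hB N A t)) : ↥(h92c_F0 A N)) : FF N) = h59nEv N A t P := rfl

/-- `B` is integral over `A₀[t]`. -/
theorem h69h_integral (t : FF N) (hfix : ∀ σ ∈ A.inertiaSubgroupIn ℚ, gal N σ • t = t) :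
    letI := h69hAlg N A
    (h69hEv N A t hfix).IsIntegral := by
  letI := h69hAlg N A
  intro b
  obtain ⟨-, p, hp, hpb⟩ := (h59n_mem_chart_iff N A t _).mp ((h69h_mem_B N A t b).mp b.2)
  refine ⟨p, hp, ?_⟩
  apply Subtype.ext
  apply Subtype.ext
  have h4 := Polynomial.hom_eval₂ p (h69hEv N A t hfix)
    ((h92c_F0 A N).subtype.comp (h69hB N A t).val.toRingHom) b
  have h5 : ((h92c_F0 A N).subtype.comp (h69hB N A t).val.toRingHom).comp (h69hEv N A t hfix) =
      h59nEv N A t := rfl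
  rw [h5] at h4
  exact h4.trans hpb

/-- the generic fibre of `B` has dimension `≤ 1`. -/
theorem h69h_dim {q : ℕ} (hq : q.Prime) (hA : A.LiesOverPrime q) (t : FF N)
    (hfix : ∀ σ ∈ A.inertiaSubgroupIn ℚ, gal N σ • t = t) :
    letI := h69hAlg N A
    ∀ P Q : Ideal ↥(h69hB N A t), P.IsPrime → Q.IsPrime → P ≠ ⊥ → P ≤ Q →
      algebraMap (h59bA0 A) ↥(h69hB N A t) ((q : ℕ) : h59bA0 A) ∉ Q → Q ≤ P := by
  letI := h69hAlg N A
  haveI := h59b_isDVR A hq hA
  letI : Algebra (h59bA0 A)[X] ↥(h69hB N A t) := (h69hEv N A t hfix).toAlgebra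
  haveI : Algebra.IsIntegral (h59bA0 A)[X] ↥(h69hB N A t) := ⟨h69h_integral N A t hfix⟩
  refine h75c_dim_of_integral (h69hB N A t) ((q : ℕ) : h59bA0 A) (R := (h59bA0 A)[X])
    (C ((q : ℕ) : h59bA0 A)) ?_ ?_
  · apply Subtype.ext
    apply Subtype.ext
    show h59nEv N A t (C ((q : ℕ) : h59bA0 A)) = _
    rw [h59nEv_C]
    rfl
  · intro p q' hp hq' hp0 hpq hqq
    exact h69h_polyDim ((q : ℕ) : h59bA0 A) (h59b_irreducible A hq hA) p q' hp hq' hp0 hpq hqq

/-- **the charts over the inertia ring are normal noetherian charts** (`H75Normal`). -/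
theorem h69h_normal {q : ℕ} (hq : q.Prime) (hA : A.LiesOverPrime q) (t : FF N)
    (ht : t = jB N ∨ t = (jB N)⁻¹) :
    letI := h69hAlg N A
    H75Normal (h69hB N A t) ((q : ℕ) : h59bA0 A) := by
  letI := h69hAlg N A
  have hfix : ∀ σ ∈ A.inertiaSubgroupIn ℚ, gal N σ • t = t := by
    intro σ _
    rcases ht with rfl | rfl
    · exact Fermat.Agent.S37.GalI.gal_smul_jB σ
    · exact Fermat.Agent.S37.GalI.gal_smul_jB_inv σ
  refine ⟨h69h_noeth N A hq hA t ht, h69h_norm N A t, h69h_frac N A t ht, ?_,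
    h69h_dim N A hq hA t hfix⟩
  intro h
  have h1 : ((algebraMap (h59bA0 A) ↥(h92c_F0 A N) ((q : ℕ) : h59bA0 A) : ↥(h92c_F0 A N)) :
      FF N) = 0 := by rw [h]; rfl
  have h2 : ((algebraMap (h59bA0 A) ↥(h92c_F0 A N) ((q : ℕ) : h59bA0 A) : ↥(h92c_F0 A N)) :
      FF N) = cst N ((q : ℕ) : Kbar) := by
    show cst N _ = _
    congr 1
  rw [h2] at h1
  have h3 : ((q : ℕ) : Kbar) = 0 := (algebraMap Kbar (FF N)).injective (h1.trans (map_zero _).symm)
  exact hq.ne_zero (by exact_mod_cast h3)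

end Normal

end Fermat.Agent.S36
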