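import Fermat.Agent.S36.H86LocOneIface

/-!
# S36, row LOC-ONE: assembly of `H86LocOne` from its leaves (helper86, prefix `h86l_`)

`h86l_locOneAssembly : H86LocOneAssembly`, i.e.
`H86LocRegData → H86LocFactAbs → H62RegStatement → H86LocVComp → H86LocHor → H86LocFrac →
  H86LocOne`.
-/

set_option autoImplicit false

open AlgebraicCurve ModularCurve IsLocalRing

noncomputable section

namespace Fermat.Agent.S36

open Fermat.Agent.S37 (Kbar GQ FF cst jB gal modelAt degen auxLevel)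

/-- the one-branch datum at one chart, from the leaves at this chart. -/
theorem h86l_locOneAt (hRD : H86LocRegData) (hFA : H86LocFactAbs)
    (A : ValuationSubring Kbar) (M q : ℕ) [NeZero M] [NeZero q] (hq : q.Prime)
    (t : FF (M * q * q))
    (hreg : H62RegChart A (M * q * q) q t)
    (hvc : H86LocVCompAt A M q t)
    (hhor : H86LocHorAt A (M * q * q) q t)
    (hfrac : H86LocFracAt A (M * q * q) t)
    (hBV : ∀ x ∈ h92c_Chart A (M * q * q) t, x ∈ h92c_V0 A M q)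
    (hUinv : ∀ w ∈ h92c_U A M q, w⁻¹ ∈ h92c_V0 A M q) :
    H86LocOneAt A M q t := by
  intro m hm w hw0 hwF hwU hord 𝔫 h𝔫 hq𝔫 hmulti
  obtain ⟨hex, hden, hinv⟩ := hvc
  obtain ⟨hnoeth, hfr⟩ := hfrac
  haveI : IsNoetherianRing (h92c_Chart A (M * q * q) t) := hnoeth
  haveI : 𝔫.IsMaximal := h𝔫
  have hqF : ((q : ℕ) : FF (M * q * q)) ≠ 0 := Nat.cast_ne_zero.mpr hq.ne_zero
  have hregAt : H62RegAt 𝔫 ((q : ℕ) : h92c_Chart A (M * q * q) t) := hreg.2 𝔫 h𝔫 hq𝔫
  obtain ⟨P, hP⟩ := hex 𝔫 h𝔫 hq𝔫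
  have hPmax : ∀ P' : Ideal (h92c_Chart A (M * q * q) t),
      h86l_IsVert 𝔫 ((q : ℕ) : h92c_Chart A (M * q * q) t) P' → ¬ P'.IsMaximal := by
    intro P' hP' hmax
    exact hP'.2.2.2 (hmax.eq_of_le h𝔫.ne_top hP'.2.2.1)
  have hPuniq : ∀ P' : Ideal (h92c_Chart A (M * q * q) t),
      h86l_IsVert 𝔫 ((q : ℕ) : h92c_Chart A (M * q * q) t) P' → P' = P := by
    intro P' hP'
    by_contra hne
    exact hmulti ((h86l_isMulti_iff _ _).mpr ⟨P', P, hP', hP, hne⟩)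
  -- the REG data
  obtain ⟨g, e, he, hg, hassoc, hval, hgP⟩ := hRD (h92c_Chart A (M * q * q) t) 𝔫 q hq hq𝔫 hqF
    hregAt hmulti P hP
  -- `w` is a unit of `V₀`
  have hwV : w ∈ h92c_V0 A M q := by
    obtain ⟨y, hy, rfl⟩ := hwU
    exact add_mem (one_mem _) (mul_mem (natCast_mem _ q) hy)
  have hw'V : w⁻¹ ∈ h92c_V0 A M q := hUinv w hwU
  -- the local factorisation
  obtain ⟨g₀, hg₀, hg₀frac, hg₀V, s₀, hs₀, h1, h2⟩ :=
    hFA (h92c_Chart A (M * q * q) t) (h92c_V0 A M q) hBV 𝔫 q hq hq𝔫 hqF hregAt ⟨P, hP⟩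
      (fun P' hP' v hv => hden P' hP'.1 (hPmax P' hP') hP'.2.1 v hv)
      (fun s hs => hinv 𝔫 h𝔫 hq𝔫 s hs)
      m w hw0 ((hfr w).mp hwF) hwV hw'V
      (fun 𝔭 h𝔭 h𝔭0 hq𝔭 _ => hhor 𝔭 h𝔭 h𝔭0 hq𝔭 m w hw0 hwF hord)
  -- Lemma A at a one-branch point
  have hcop : m.Coprime q := ((Nat.Prime.coprime_iff_not_dvd hq).mpr hm).symm
  obtain ⟨η, hηO, -, hgη, s, hs, hcong, h1', h2'⟩ :=
    h66s_datum_unibranch (h92c_Chart A (M * q * q) t) (h92c_V0 A M q) hBV 𝔫
      ((q : ℕ) : FF (M * q * q)) q hq ((q : ℕ) : h66sO (h92c_Chart A (M * q * q) t) 𝔫)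
      (by push_cast; rfl) (dvd_refl _) g e he hg hassoc hval
      (by
        -- `hden`
        rintro v ⟨c, hc, hcv⟩
        obtain ⟨s', hs', hs'v⟩ := hden P hP.1 (hPmax P hP) hP.2.1 _ hcv
        have hcP : c ∉ P := fun h => hc (hP.2.2.1 h)
        refine ⟨⟨((s' * c : h92c_Chart A (M * q * q) t) : FF (M * q * q)),
          h66s_B_le_O (s' * c).2⟩, ?_, ?_⟩
        · rw [hgP]
          exact fun h => (hP.1.mem_or_mem h).elim hs' hcP
        · have e1 : ((s' * c : h92c_Chart A (M * q * q) t) : FF (M * q * q)) * v =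
              (s' : FF (M * q * q)) * ((c : FF (M * q * q)) * v) := by
            push_cast; ring
          show ((s' * c : h92c_Chart A (M * q * q) t) : FF (M * q * q)) * v ∈ _
          rw [e1]
          exact h66s_B_le_O hs'v)
      (by
        -- `hinv`
        intro x hx
        obtain ⟨t', ht', b, hb⟩ : ∃ t' : h92c_Chart A (M * q * q) t, t' ∉ 𝔫 ∧
            ∃ b : h92c_Chart A (M * q * q) t, (t' : FF (M * q * q)) * (x : FF (M * q * q)) = b := by
          obtain ⟨t', ht', h⟩ := x.2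
          exact ⟨t', ht', ⟨_, h⟩, rfl⟩
        have hbP : b ∉ P := by
          intro hbP
          have h3 : g ∣ (⟨(b : FF (M * q * q)), h66s_B_le_O b.2⟩ :
              h66sO (h92c_Chart A (M * q * q) t) 𝔫) := (hgP b).mpr hbP
          have h4 : (⟨(b : FF (M * q * q)), h66s_B_le_O b.2⟩ :
              h66sO (h92c_Chart A (M * q * q) t) 𝔫) =
              ⟨(t' : FF (M * q * q)), h66s_B_le_O t'.2⟩ * x := Subtype.ext hb.symm
          rw [h4] at h3
          rcases hg.dvd_or_dvd h3 with h5 | h5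
          · exact ht' (hP.2.2.1 ((hgP t').mp h5))
          · exact hx h5
        obtain ⟨c, hc, hcb⟩ := hinv 𝔫 h𝔫 hq𝔫 b (fun P' hP' => by rw [hPuniq P' hP']; exact hbP)
        refine ⟨c, hc, ?_⟩
        have hx0 : (x : FF (M * q * q)) ≠ 0 := by
          intro h0
          apply hx
          have : x = 0 := Subtype.ext h0
          rw [this]
          exact dvd_zero g
        have ht0 : (t' : FF (M * q * q)) ≠ 0 := h66s_coe_ne_zero ht'
        have e1 : (c : FF (M * q * q)) * ((x : FF (M * q * q)))⁻¹ =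
            (t' : FF (M * q * q)) * ((c : FF (M * q * q)) * ((b : FF (M * q * q)))⁻¹) := by
          rw [← hb]
          field_simp
        rw [e1]
        exact mul_mem (hBV _ t'.2) hcb)
      m hcop w hw0 (by
        obtain ⟨y, hy, rfl⟩ := hwU
        exact ⟨y, hy, rfl⟩)
      g₀ hg₀ hg₀V s₀ hs₀ h1 h2
  -- the datum
  have hBF : ∀ x ∈ h92c_Chart A (M * q * q) t, x ∈ h92c_F0 A (M * q * q) := fun x hx => hx.2
  refine ⟨g₀ * η, mul_mem ((hfr g₀).mpr hg₀frac) (h66s_O_le_subfield _ hBF hηO), hgη, s, hs,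
    hcong, h1', h2'⟩

/-- **LOC-ONE-ASM.** -/
theorem h86l_locOneAssembly : H86LocOneAssembly := by
  intro hRD hFA hReg hVC hHor hFrac q hq M _ hqM haux
  haveI : NeZero q := ⟨hq.ne_zero⟩
  intro A hA
  obtain ⟨hreg₀, hreg₁⟩ := hReg q hq M hqM haux A hA
  obtain ⟨hvc₀, hvc₁⟩ := hVC q hq M hqM haux A hA
  obtain ⟨hhor₀, hhor₁⟩ := hHor q hq M hqM haux A hA
  obtain ⟨hfr₀, hfr₁, hBV₀, hBV₁, hUinv⟩ := hFrac q hq M hqM haux A hA
  exact ⟨h86l_locOneAt hRD hFA A M q hq _ hreg₀ hvc₀ hhor₀ hfr₀ hBV₀ hUinv,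
    h86l_locOneAt hRD hFA A M q hq _ hreg₁ hvc₁ hhor₁ hfr₁ hBV₁ hUinv⟩

end Fermat.Agent.S36
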