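import Fermat.Agent.S36.H11LocSkel
import Fermat.Agent.S36.H86LocOneAsm

/-!
# S36, row L-ORD: `H11LocOrd` is `H86LocOne` (helper69, prefix `h69l_`)

The leaf `H11LocOrd` of the skeleton `S36/H11LocSkel.lean` (helper11) and the leaf `H86LocOne`
of the split `S36/H86LocIface.lean` (helper86) are the same statement in two vocabularies:
`h11l_DatumAt` and `h86l_DatumAt` have the same body, and `h11l_OneBranch π 𝔫` is the negation
of `h86l_IsMulti 𝔫 π`.  Hence the landed assembly `h86l_locOneAssembly` of helper86 proves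
`H11LocOrd` from the leaves of `S36/H86LocOneIface.lean`.

* `h69l_oneBranch_iff` : `h11l_OneBranch π 𝔫 ↔ ¬ h86l_IsMulti 𝔫 π`.
* `h69l_datumAt_iff` : `h11l_DatumAt ↔ h86l_DatumAt`.
* `h69l_locOrd_of_locOne : H86LocOne → H11LocOrd`, `h69l_locOne_of_locOrd : H11LocOrd → H86LocOne`.
* `h69l_locOrd_of : H86LocRegData → H86LocFactAbs → H62RegStatement → H86LocVComp → H86LocHor →
  H86LocFrac → H11LocOrd`.
-/

set_option autoImplicit false

open AlgebraicCurve ModularCurve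

noncomputable section

namespace Fermat.Agent.S36

open Fermat.Agent.S37 (Kbar GQ FF cst jB gal modelAt degen auxLevel)

theorem h69l_oneBranch_iff {R : Type*} [CommRing R] (π : R) (𝔫 : Ideal R) :
    h11l_OneBranch π 𝔫 ↔ ¬ h86l_IsMulti 𝔫 π := by
  constructor
  · rintro h ⟨P, P', hP, hP', h1, h2, h3, h4, h5, h6, h7⟩
    exact h7 (h P P' hP hP' h1 h2 h3 h4 h5 h6)
  · intro h P P' hP hP' h1 h2 h3 h4 h5 h6
    by_contra h7
    exact h ⟨P, P', hP, hP', h1, h2, h3, h4, h5, h6, h7⟩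

theorem h69l_datumAt_iff (A : ValuationSubring Kbar) (M q : ℕ) [NeZero M] [NeZero q]
    (t : FF (M * q * q)) (m : ℕ) (w : FF (M * q * q))
    (𝔫 : Ideal (h92c_Chart A (M * q * q) t)) :
    h11l_DatumAt A M q t m w 𝔫 ↔ h86l_DatumAt A M q t m w 𝔫 :=
  Iff.rfl

/-- **L-ORD from LOC-ONE.** -/
theorem h69l_locOrd_of_locOne (h : H86LocOne) : H11LocOrd := by
  intro q hq M _ hqM haux
  haveI : NeZero q := ⟨hq.ne_zero⟩
  intro A hA t ht m hm w hw0 hwF hwU hord 𝔫 h𝔫 hq𝔫 h1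
  obtain ⟨h0, hinf⟩ := h q hq M hqM haux A hA
  rcases ht with rfl | rfl
  · exact (h69l_datumAt_iff A M q _ m w 𝔫).mpr
      (h0 m hm w hw0 hwF hwU hord 𝔫 h𝔫 hq𝔫 ((h69l_oneBranch_iff _ _).mp h1))
  · exact (h69l_datumAt_iff A M q _ m w 𝔫).mpr
      (hinf m hm w hw0 hwF hwU hord 𝔫 h𝔫 hq𝔫 ((h69l_oneBranch_iff _ _).mp h1))

/-- **LOC-ONE from L-ORD.** -/
theorem h69l_locOne_of_locOrd (h : H11LocOrd) : H86LocOne := by
  intro q hq M _ hqM haux
  haveI : NeZero q := ⟨hq.ne_zero⟩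
  intro A hA
  refine ⟨?_, ?_⟩
  · intro m hm w hw0 hwF hwU hord 𝔫 h𝔫 hq𝔫 h1
    exact (h69l_datumAt_iff A M q _ m w 𝔫).mp
      (h q hq M hqM haux A hA _ (Or.inl rfl) m hm w hw0 hwF hwU hord 𝔫 h𝔫 hq𝔫
        ((h69l_oneBranch_iff _ _).mpr h1))
  · intro m hm w hw0 hwF hwU hord 𝔫 h𝔫 hq𝔫 h1
    exact (h69l_datumAt_iff A M q _ m w 𝔫).mp
      (h q hq M hqM haux A hA _ (Or.inr rfl) m hm w hw0 hwF hwU hord 𝔫 h𝔫 hq𝔫
        ((h69l_oneBranch_iff _ _).mpr h1))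

/-- **L-ORD** from the leaves of `S36/H86LocOneIface.lean` (assembly of helper86). -/
theorem h69l_locOrd_of (hRD : H86LocRegData) (hFA : H86LocFactAbs) (hreg : H62RegStatement)
    (hvc : H86LocVComp) (hhor : H86LocHor) (hfrac : H86LocFrac) : H11LocOrd :=
  h69l_locOrd_of_locOne (h86l_locOneAssembly hRD hFA hreg hvc hhor hfrac)

end Fermat.Agent.S36
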