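import Mathlib

/-!
# S36, block ALG (helper6): Kolchin's lemma in arbitrary rank

`h6k_exists_fixed` : a multiplicatively closed set `S` of endomorphisms of a nonzero finite
torsion-free module over a noetherian domain (in which `2 ≠ 0`), all of whose elements `a`
satisfy `(a - 1) ^ 2 = 0`, has a nonzero common fixed vector.

`h6k_exists_fixed_of_monoidHom` : the same for the image of a subgroup under a representation.

This is the form needed to pass from "`ρ'` is unipotent on inertia" (a statement on the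
rank-two representation produced by `QuadRepOdd`, hence the relation `(ρ σ - 1) ^ 2 = 0` on the
eigenlattice `Λ` of arbitrary rank) to an inertia-fixed vector of `Λ`.

Proof: the relation for `a ^ i * b ^ j`, `i, j ∈ {1, 2}`, forces the nilpotents `a - 1`,
`b - 1` to anticommute; hence `ker (a - 1)` is stable under `S`, and one concludes by induction
on the rank.  Mathlib only.
-/

set_option autoImplicit false

namespace Fermat.Agent.S36

/-- **anticommutation.**  In a ring without `2`-torsion: if `A`, `B`, `A * B`, `A * B ^ 2`,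
`A ^ 2 * B`, `A ^ 2 * B ^ 2` all satisfy `(u - 1) ^ 2 = 0`, then `A - 1` and `B - 1`
anticommute. -/
theorem h6k_anticomm {E : Type*} [Ring E] (h2 : ∀ x : E, 2 * x = 0 → x = 0)
    (A B : E) (hA : (A - 1) * (A - 1) = 0) (hB : (B - 1) * (B - 1) = 0)
    (h11 : (A * B - 1) * (A * B - 1) = 0)
    (h12 : (A * (B * B) - 1) * (A * (B * B) - 1) = 0)
    (h21 : (A * A * B - 1) * (A * A * B - 1) = 0)
    (h22 : (A * A * (B * B) - 1) * (A * A * (B * B) - 1) = 0) :
    (A - 1) * (B - 1) + (B - 1) * (A - 1) = 0 := by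
  set a := A - 1 with ha
  set b := B - 1 with hb
  have eA : A = 1 + a := by rw [ha]; abel
  have eB : B = 1 + b := by rw [hb]; abel
  have eAA : A * A = 1 + 2 * a := by
    rw [eA]
    have : (1 + a) * (1 + a) = 1 + 2 * a + a * a := by noncomm_ring
    rw [this, hA, add_zero]
  have eBB : B * B = 1 + 2 * b := by
    rw [eB]
    have : (1 + b) * (1 + b) = 1 + 2 * b + b * b := by noncomm_ring
    rw [this, hB, add_zero]
  -- the four words
  set X := a * b + b * a with hX
  set Y := b * a * b with hY
  set Z := a * b * a with hZ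
  set W := a * b * a * b with hW
  have haab : a * a * b = 0 := by rw [hA, zero_mul]
  have habb : a * b * b = 0 := by rw [mul_assoc, hB, mul_zero]
  have e11 : X + Y + Z + W = 0 := by
    have : (A * B - 1) * (A * B - 1)
        = X + Y + Z + W + (a * a + b * b + a * a * b + a * b * b) := by
      rw [eA, eB, hX, hY, hZ, hW]; noncomm_ring
    rw [this, haab, habb, hA, hB] at h11
    simpa using h11
  have e12 : 2 * (X + 2 * Y + Z + 2 * W) = 0 := by
    have : (A * (B * B) - 1) * (A * (B * B) - 1)
        = 2 * (X + 2 * Y + Z + 2 * W)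
          + (a * a + 4 * (b * b) + 2 * (a * a * b) + 4 * (a * b * b)) := by
      rw [eA, eBB, hX, hY, hZ, hW]; noncomm_ring
    rw [this, haab, habb, hA, hB] at h12
    simpa using h12
  have e21 : 2 * (X + Y + 2 * Z + 2 * W) = 0 := by
    have : (A * A * B - 1) * (A * A * B - 1)
        = 2 * (X + Y + 2 * Z + 2 * W)
          + (4 * (a * a) + b * b + 4 * (a * a * b) + 2 * (a * b * b)) := by
      rw [eAA, eB, hX, hY, hZ, hW]; noncomm_ring
    rw [this, haab, habb, hA, hB] at h21
    simpa using h21
  have e22 : 2 * (2 * (X + 2 * Y + 2 * Z + 4 * W)) = 0 := by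
    have : (A * A * (B * B) - 1) * (A * A * (B * B) - 1)
        = 2 * (2 * (X + 2 * Y + 2 * Z + 4 * W))
          + (4 * (a * a) + 4 * (b * b) + 8 * (a * a * b) + 8 * (a * b * b)) := by
      rw [eAA, eBB, hX, hY, hZ, hW]; noncomm_ring
    rw [this, haab, habb, hA, hB] at h22
    simpa using h22
  have f12 := h2 _ e12
  have f21 := h2 _ e21
  have f22 := h2 _ (h2 _ e22)
  have hYW : Y + W = 0 := by
    have : Y + W = (X + 2 * Y + Z + 2 * W) - (X + Y + Z + W) := by noncomm_ring
    rw [this, f12, e11, sub_zero]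
  have hZW : Z + W = 0 := by
    have : Z + W = (X + Y + 2 * Z + 2 * W) - (X + Y + Z + W) := by noncomm_ring
    rw [this, f21, e11, sub_zero]
  have hW0 : W = 0 := by
    have : W = (X + 2 * Y + 2 * Z + 4 * W) - (X + Y + Z + W) - (Y + W) - (Z + W) := by
      noncomm_ring
    rw [this, f22, e11, hYW, hZW]; simp
  have hX0 : X = 0 := by
    have : X = (X + Y + Z + W) - (Y + W) - (Z + W) + W := by noncomm_ring
    rw [this, e11, hYW, hZW, hW0]; simp
  exact hX0


section Main

set_option linter.unusedSectionVars false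

variable {O Λ : Type*} [CommRing O] [IsDomain O] [IsNoetherianRing O]
  [AddCommGroup Λ] [Module O Λ] [Module.Finite O Λ] [Module.IsTorsionFree O Λ]

/-- no `2`-torsion in the endomorphism ring. -/
theorem h6k_end_two (h2 : (2 : O) ≠ 0) (x : Module.End O Λ) (hx : 2 * x = 0) : x = 0 := by
  ext v
  have h := congrArg (fun f : Module.End O Λ => f v) hx
  simp only [two_mul, LinearMap.add_apply, LinearMap.zero_apply] at h
  have h' : (2 : O) • x v = 0 := by rw [two_smul]; exact h
  rcases smul_eq_zero.mp h' with h0 | h0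
  · exact (h2 h0).elim
  · simpa using h0

/-- the nilpotents `a - 1`, `a ∈ S`, anticommute. -/
theorem h6k_anticomm_of_mem (h2 : (2 : O) ≠ 0) (S : Set (Module.End O Λ))
    (hmul : ∀ a ∈ S, ∀ b ∈ S, a * b ∈ S) (hsq : ∀ a ∈ S, (a - 1) * (a - 1) = 0)
    {a b : Module.End O Λ} (ha : a ∈ S) (hb : b ∈ S) :
    (a - 1) * (b - 1) + (b - 1) * (a - 1) = 0 := by
  have haa := hmul a ha a ha
  have hbb := hmul b hb b hb
  exact h6k_anticomm (h6k_end_two h2) a b (hsq a ha) (hsq b hb) (hsq _ (hmul a ha b hb))
    (hsq _ (hmul a ha _ hbb)) (hsq _ (hmul _ haa b hb)) (hsq _ (hmul _ haa _ hbb))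

/-- **Kolchin's lemma**, submodule form. -/
theorem h6k_exists_fixed_aux (h2 : (2 : O) ≠ 0) (S : Set (Module.End O Λ))
    (hmul : ∀ a ∈ S, ∀ b ∈ S, a * b ∈ S) (hsq : ∀ a ∈ S, (a - 1) * (a - 1) = 0) :
    ∀ (n : ℕ) (W : Submodule O Λ), Module.finrank O W = n → W ≠ ⊥ →
      (∀ a ∈ S, ∀ w ∈ W, a w ∈ W) → ∃ v ∈ W, v ≠ 0 ∧ ∀ a ∈ S, a v = v := by
  intro n
  induction n using Nat.strong_induction_on with
  | _ n ih =>
    intro W hn hW hst
    by_cases h : ∀ a ∈ S, ∀ w ∈ W, a w = w
    · obtain ⟨w, hw, hw0⟩ := Submodule.exists_mem_ne_zero_of_ne_bot hW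
      exact ⟨w, hw, hw0, fun a ha => h a ha w hw⟩
    · push Not at h
      obtain ⟨a, ha, w0, hw0, hne⟩ := h
      -- the nilpotent `N = a - 1` preserves `W`
      set N : Module.End O Λ := a - 1 with hN
      have hNN : N * N = 0 := hsq a ha
      have hNW : ∀ w ∈ W, N w ∈ W := fun w hw => by
        rw [hN, LinearMap.sub_apply]
        exact W.sub_mem (hst a ha w hw) (by simpa using hw)
      have hNw0 : N w0 ≠ 0 := by
        rw [hN, LinearMap.sub_apply]
        simpa [sub_eq_zero] using hne
      -- the smaller submodule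
      set W1 : Submodule O Λ := W ⊓ LinearMap.ker N with hW1
      have hW1ne : W1 ≠ ⊥ := by
        intro hbot
        have : N w0 ∈ W1 := by
          refine ⟨hNW w0 hw0, ?_⟩
          rw [SetLike.mem_coe, LinearMap.mem_ker]
          have := congrArg (fun f : Module.End O Λ => f w0) hNN
          simpa using this
        rw [hbot] at this
        exact hNw0 (by simpa using this)
      have hW1st : ∀ b ∈ S, ∀ w ∈ W1, b w ∈ W1 := by
        intro b hb w hw
        refine ⟨hst b hb w hw.1, ?_⟩
        rw [SetLike.mem_coe, LinearMap.mem_ker]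
        have hNw : N w = 0 := LinearMap.mem_ker.mp hw.2
        have hac := h6k_anticomm_of_mem h2 S hmul hsq ha hb
        have hac' := congrArg (fun f : Module.End O Λ => f w) hac
        simp only [LinearMap.add_apply, Module.End.mul_apply, LinearMap.zero_apply,
          LinearMap.sub_apply, Module.End.one_apply] at hac'
        rw [hN, LinearMap.sub_apply, Module.End.one_apply] at hNw ⊢
        have haw : a w = w := sub_eq_zero.mp hNw
        have h3 : a (b w) - w - (b w - w) = 0 := by
          have h4 := hac'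
          simp only [map_sub, haw, sub_self, map_zero, add_zero] at h4
          exact h4
        have : a (b w) - b w = a (b w) - w - (b w - w) := by abel
        rw [this]; exact h3
      -- the rank drops
      have hlt : Module.finrank O W1 < n := by
        let f : W →ₗ[O] W := N.restrict hNW
        have hrn := (LinearMap.ker f).finrank_quotient_add_finrank
        rw [LinearEquiv.finrank_eq f.quotKerEquivRange] at hrn
        have hker : Module.finrank O (LinearMap.ker f) = Module.finrank O W1 := by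
          refine LinearEquiv.finrank_eq ?_
          refine LinearEquiv.ofBijective
            ((W.subtype.comp (LinearMap.ker f).subtype).codRestrict W1 ?_) ⟨?_, ?_⟩
          · rintro ⟨⟨w, hw⟩, hfw⟩
            refine ⟨hw, ?_⟩
            rw [SetLike.mem_coe, LinearMap.mem_ker]
            have := congrArg Subtype.val (LinearMap.mem_ker.mp hfw)
            simpa [f] using this
          · rintro ⟨⟨w, hw⟩, hfw⟩ ⟨⟨w', hw'⟩, hfw'⟩ h
            have := congrArg Subtype.val h
            simp only [LinearMap.codRestrict_apply, LinearMap.coe_comp, Function.comp_apply,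
              Submodule.subtype_apply] at this
            exact Subtype.ext (Subtype.ext this)
          · rintro ⟨w, hw⟩
            refine ⟨⟨⟨w, hw.1⟩, ?_⟩, rfl⟩
            rw [LinearMap.mem_ker]
            apply Subtype.ext
            simpa [f] using LinearMap.mem_ker.mp hw.2
        have hpos : 0 < Module.finrank O (LinearMap.range f) := by
          rw [Module.finrank_pos_iff_exists_ne_zero]
          refine ⟨⟨f ⟨w0, hw0⟩, LinearMap.mem_range_self f _⟩, ?_⟩
          intro h0
          have := congrArg (fun x : LinearMap.range f => ((x : W) : Λ)) h0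
          exact hNw0 (by simpa [f] using this)
        omega
      obtain ⟨v, hv, hv0, hfix⟩ := ih _ hlt W1 rfl hW1ne hW1st
      exact ⟨v, hv.1, hv0, hfix⟩

/-- **Kolchin's lemma** for a multiplicatively closed set of endomorphisms `a` with
`(a - 1) ^ 2 = 0` of a nonzero finite torsion-free module over a noetherian domain with
`2 ≠ 0`: there is a nonzero common fixed vector. -/
theorem h6k_exists_fixed [Nontrivial Λ] (h2 : (2 : O) ≠ 0) (S : Set (Module.End O Λ))
    (hmul : ∀ a ∈ S, ∀ b ∈ S, a * b ∈ S) (hsq : ∀ a ∈ S, (a - 1) * (a - 1) = 0) :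
    ∃ v : Λ, v ≠ 0 ∧ ∀ a ∈ S, a v = v := by
  obtain ⟨v, -, hv0, hfix⟩ := h6k_exists_fixed_aux h2 S hmul hsq _ ⊤ rfl
    (by simp) (fun _ _ _ _ => Submodule.mem_top)
  exact ⟨v, hv0, hfix⟩

/-- **Kolchin's lemma** for a representation restricted to a subgroup. -/
theorem h6k_exists_fixed_of_monoidHom [Nontrivial Λ] (h2 : (2 : O) ≠ 0)
    {G : Type*} [Group G] (ρ : G →* Module.End O Λ) (H : Subgroup G)
    (hsq : ∀ σ ∈ H, (ρ σ - 1) * (ρ σ - 1) = 0) :
    ∃ v : Λ, v ≠ 0 ∧ ∀ σ ∈ H, ρ σ v = v := by
  obtain ⟨v, hv0, hfix⟩ := h6k_exists_fixed h2 (ρ '' (H : Set G))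
    (by
      rintro _ ⟨σ, hσ, rfl⟩ _ ⟨τ, hτ, rfl⟩
      exact ⟨σ * τ, H.mul_mem hσ hτ, map_mul ρ σ τ⟩)
    (by
      rintro _ ⟨σ, hσ, rfl⟩
      exact hsq σ hσ)
  exact ⟨v, hv0, fun σ hσ => hfix _ ⟨σ, hσ, rfl⟩⟩

end Main

section Quad

open Polynomial

/-- a quadratic relation `T² - b T + d = 0` with `X² - b X + d = (X - 1)²` is the relation
`(T - 1)² = 0`. -/
theorem h6k_sq_zero_of_quadratic {O Λ : Type*} [CommRing O] [AddCommGroup Λ] [Module O Λ]
    (T : Module.End O Λ) (b d : O)
    (hrel : T * T - b • T + d • (1 : Module.End O Λ) = 0)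
    (hch : (X : O[X]) ^ 2 - C b * X + C d = (X - 1) ^ 2) :
    (T - 1) * (T - 1) = 0 := by
  have hsq : ((X : O[X]) - 1) ^ 2 = X ^ 2 - C (2 : O) * X + C (1 : O) := by
    simp only [map_ofNat, map_one]
    ring
  rw [hsq] at hch
  have e1 := congrArg (fun p : O[X] => p.coeff 1) hch
  have e0 := congrArg (fun p : O[X] => p.coeff 0) hch
  simp only [coeff_add, coeff_sub, coeff_X_pow, coeff_C_mul, coeff_X_one,
    coeff_X_zero, coeff_C, mul_one, mul_zero] at e1 e0
  norm_num at e1 e0
  have hb : b = 2 := e1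
  have hd : d = 1 := e0
  rw [hb, hd, one_smul] at hrel
  have : (T - 1) * (T - 1) = T * T - (2 : O) • T + 1 := by
    rw [sub_mul, mul_sub, mul_sub, mul_one, one_mul, mul_one, two_smul]
    abel
  rw [this, hrel]

/-- **from unipotency of the rank-two representation to a fixed vector of the lattice.**
In the situation of `QuadRepOdd` (`Fermat.Agent.S30.QuadRepOddStatement`): `ρ` acts on a
nonzero finite free module `Λ` over a noetherian domain `O` with `2 ≠ 0`, every `g` satisfies a
quadratic relation `ρ g ² - b ρ g + d g = 0`, and `ρ'` is a rank-two representation whose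
characteristic polynomials are given by these relations.  If all `σ` in a subgroup `H` have
`charpoly (ρ' σ) = (X - 1)²`, then `H` has a nonzero fixed vector in `Λ`. -/
theorem h6k_fixed_of_unipotent {O Λ : Type*} [CommRing O] [IsDomain O] [IsNoetherianRing O]
    [AddCommGroup Λ] [Module O Λ] [Module.Finite O Λ] [Module.IsTorsionFree O Λ] [Nontrivial Λ]
    (h2 : (2 : O) ≠ 0) {G : Type*} [Group G] (ρ : G →* Module.End O Λ) (d : G →* Oˣ)
    (ρ' : G →* Module.End O (Fin 2 → O))
    (hquad : ∀ g : G, ∃ b : O,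
      ρ g * ρ g - b • ρ g + ((d g : Oˣ) : O) • (1 : Module.End O Λ) = 0)
    (hchar : ∀ (g : G) (b : O),
      ρ g * ρ g - b • ρ g + ((d g : Oˣ) : O) • (1 : Module.End O Λ) = 0 →
        LinearMap.charpoly (ρ' g) = X ^ 2 - C b * X + C ((d g : Oˣ) : O))
    (H : Subgroup G) (hun : ∀ σ ∈ H, LinearMap.charpoly (ρ' σ) = (X - 1) ^ 2) :
    ∃ v : Λ, v ≠ 0 ∧ ∀ σ ∈ H, ρ σ v = v := by
  refine h6k_exists_fixed_of_monoidHom h2 ρ H ?_
  intro σ hσ
  obtain ⟨b, hb⟩ := hquad σ
  exact h6k_sq_zero_of_quadratic (ρ σ) b _ hb ((hchar σ b hb).symm.trans (hun σ hσ))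

end Quad

end Fermat.Agent.S36
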