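import Fermat.Agent.S36.H20NormSkel
import Fermat.Agent.LGC.SSV44

/-!
# S36, block (V): no fourth extension of the Gauss valuation at level `M q²` (helper6)

`q` prime, `q ∤ M`, `A` a valuation subring of `ℚ̄` over `q`, `α : F₁ = FF (M q) → F₂ = FF (M q q)`
the inclusion, `E20` (standard), `E11^ζ`, `E02` the cusp embeddings of `F₂` (`S36/H20NormSkel`).

* `h6v_charpoly_infty` : from the norm formula `H20NormA`, the characteristic polynomial of `x`
  over `α(F₁)` is `(X - E20 x) ∏_{0 < b < q} (X - E11^{ζ^b} x)` (in the standard expansion).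
* `h6v_charpoly_zero` : from `H20NormD`, in the expansion `y ↦ (w y)(t^q)` it is
  `∏_{b < q} (X - (E02 x)(ζ^b t))`.
* `h6v_coeff_mem_ssV` : if `E20 x`, `E11^ζ x` (all `ζ`) and `E02 x` are Gauss-integral fractions,
  the coefficients of the characteristic polynomial lie in the semistable Gauss ring
  `ssV A M q = W_∞ ∩ W_0` of level `M q`.
* `h6v_noFourth` : hence `x` is integral over `α(ssV A M q)`: the integral closure of the Gauss
  ring in `F₂` is `W₂₀ ∩ W₁₁ ∩ W₀₂`.
-/

set_option autoImplicit false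
set_option linter.style.haveILetI false
set_option linter.unusedSectionVars false

open AlgebraicCurve ModularCurve Polynomial

noncomputable section

namespace Fermat.Agent.S36

open Fermat.Agent.S37 (Kbar GQ FF cst gal)
open Fermat.Agent.Red.KR (normAlong normAlong_sub_eq_eval)
open Fermat.Agent.Red.Kron (kFricke twistK)
open Fermat.Agent.Red.TRK (charpolyAlong charpolyAlong_monic)
open Fermat.Agent.LGC (h44g_IsFrac h44g_fracRing ssV)

/-- the standard expansion as a ring homomorphism. -/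
def h6v_coe (N : ℕ) : FF N →+* LaurentSeries Kbar :=
  (modularFunctionFieldBar N).val.toRingHom

theorem h6v_coe_apply (N : ℕ) (x : FF N) : h6v_coe N x = (x : LaurentSeries Kbar) := rfl

theorem h6v_coe_injective (N : ℕ) : Function.Injective (h6v_coe N) :=
  (h6v_coe N).injective

/-- two polynomials over the field of Laurent series which agree at the expansions `ι c` of all
functions `c` of level `N` are equal. -/
theorem h6v_poly_ext (N : ℕ) (ι : FF N →+* LaurentSeries Kbar)
    (P Q : Polynomial (LaurentSeries Kbar))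
    (h : ∀ c : FF N, P.eval (ι c) = Q.eval (ι c)) : P = Q := by
  apply Polynomial.eq_of_infinite_eval_eq
  have hinf : (Set.range ι).Infinite := Set.infinite_range_of_injective ι.injective
  exact hinf.mono (by rintro _ ⟨c, rfl⟩; exact h c)

/-- coefficients of a product of linear factors with roots in a subring. -/
theorem h6v_coeff_prod_mem {R : Type*} [CommRing R] (S : Subring R) {ι : Type*}
    (s : Finset ι) (c : ι → R) (h : ∀ i ∈ s, c i ∈ S) (c₀ : R) (h₀ : c₀ ∈ S) (m : ℕ) :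
    ((∏ i ∈ s, (X - C (c i))).coeff m ∈ S) ∧
      (((X - C c₀) * ∏ i ∈ s, (X - C (c i))).coeff m ∈ S) := by
  have hX : (X : R[X]) ∈ liftsRing S.subtype :=
    (lifts_iff_liftsRing S.subtype _).1 (X_mem_lifts _)
  have hC : ∀ r ∈ S, (C r : R[X]) ∈ liftsRing S.subtype := fun r hr =>
    (lifts_iff_liftsRing S.subtype _).1 (C'_mem_lifts ⟨⟨r, hr⟩, rfl⟩)
  have key1 : (∏ i ∈ s, (X - C (c i))) ∈ liftsRing S.subtype :=
    prod_mem fun i hi => sub_mem hX (hC _ (h i hi))
  have key2 : ((X - C c₀) * ∏ i ∈ s, (X - C (c i))) ∈ liftsRing S.subtype :=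
    mul_mem (sub_mem hX (hC _ h₀)) key1
  constructor
  · obtain ⟨y, hy⟩ := (lifts_iff_coeff_lifts _).1 ((lifts_iff_liftsRing S.subtype _).2 key1) m
    rw [← hy]
    exact y.2
  · obtain ⟨y, hy⟩ := (lifts_iff_coeff_lifts _).1 ((lifts_iff_liftsRing S.subtype _).2 key2) m
    rw [← hy]
    exact y.2

section Level

variable {q : ℕ} {M : ℕ} [NeZero M]

/-- **the characteristic polynomial at the cusp `∞`** (from `H20NormA`). -/
theorem h6v_charpoly_infty (hNA : H20NormA) (hq : q.Prime) (hqM : ¬ q ∣ M)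
    (ζ : Kbar) (hζ : IsPrimitiveRoot ζ q)
    (E : ℕ → (FF (M * q * q) →+* LaurentSeries Kbar)) :
    haveI : NeZero q := ⟨hq.ne_zero⟩
    (∀ b : ℕ, 0 < b → b < q → h20n_IsE11 M q hq hqM (ζ ^ b) (E b)) →
    ∀ (hfin : FiniteAlong Kbar (heckeAlphaBar Kbar (M * q) q)) (x : FF (M * q * q)),
    (charpolyAlong (heckeAlphaBar Kbar (M * q) q) hfin x).map (h6v_coe (M * q)) =
      (X - C (x : LaurentSeries Kbar)) * ∏ b ∈ Finset.Ioo 0 q, (X - C (E b x)) := by
  haveI : NeZero q := ⟨hq.ne_zero⟩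
  intro hE hfin x
  apply h6v_poly_ext (M * q) (h6v_coe (M * q))
  intro c
  rw [Polynomial.eval_map, Polynomial.eval₂_at_apply, ← normAlong_sub_eq_eval,
    h6v_coe_apply, hNA q hq M hqM ζ hζ E hE]
  rw [Polynomial.eval_mul, Polynomial.eval_sub, Polynomial.eval_X, Polynomial.eval_C,
    Polynomial.eval_prod]
  have h1 : ((heckeAlphaBar Kbar (M * q) q c - x : FF (M * q * q)) : LaurentSeries Kbar) =
      h6v_coe (M * q) c - (x : LaurentSeries Kbar) := by
    show h6v_coe (M * q * q) (heckeAlphaBar Kbar (M * q) q c - x) = _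
    rw [map_sub, h6v_coe_apply, h6v_coe_apply, h6v_coe_apply, coe_heckeAlphaBar]
  have h2 : ∀ b ∈ Finset.Ioo 0 q, E b (heckeAlphaBar Kbar (M * q) q c - x) =
      Polynomial.eval (h6v_coe (M * q) c) (X - C (E b x)) := by
    intro b hb
    rw [Finset.mem_Ioo] at hb
    rw [Polynomial.eval_sub, Polynomial.eval_X, Polynomial.eval_C, map_sub,
      (hE b hb.1 hb.2).1 c]
    rfl
  rw [h1, Finset.prod_congr rfl h2]

/-- the expansion `y ↦ (w y)(t^q)` of the functions of level `M q` (the restriction of the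
cusp-`0` embeddings `E02` along `α`). -/
def h6v_iotaZero (hq : q.Prime) (hqM : ¬ q ∣ M) : FF (M * q) →+* LaurentSeries Kbar :=
  haveI : NeZero q := ⟨hq.ne_zero⟩
  (qExpand Kbar q).comp ((h6v_coe (M * q)).comp
    (kFricke M q hq hqM : FF (M * q) →+* FF (M * q)))

theorem h6v_iotaZero_apply (hq : q.Prime) (hqM : ¬ q ∣ M) (y : FF (M * q)) :
    haveI : NeZero q := ⟨hq.ne_zero⟩
    h6v_iotaZero hq hqM y =
      qExpand Kbar q ((kFricke M q hq hqM y : FF (M * q)) : LaurentSeries Kbar) := rfl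

/-- **the characteristic polynomial at the cusp `0`** (from `H20NormD`). -/
theorem h6v_charpoly_zero (hND : H20NormD) (hq : q.Prime) (hqM : ¬ q ∣ M)
    (ζ : Kbar) (hζ : IsPrimitiveRoot ζ q)
    (E0 : FF (M * q * q) →+* LaurentSeries Kbar) :
    haveI : NeZero q := ⟨hq.ne_zero⟩
    h20n_IsE02 M q hq hqM E0 →
    ∀ (hfin : FiniteAlong Kbar (heckeAlphaBar Kbar (M * q) q)) (x : FF (M * q * q)),
    (charpolyAlong (heckeAlphaBar Kbar (M * q) q) hfin x).map (h6v_iotaZero hq hqM) =
      ∏ b ∈ Finset.range q, (X - C (twistK (ζ ^ b) (E0 x))) := by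
  haveI : NeZero q := ⟨hq.ne_zero⟩
  intro hE0 hfin x
  apply h6v_poly_ext (M * q) (h6v_iotaZero hq hqM)
  intro c
  rw [Polynomial.eval_map, Polynomial.eval₂_at_apply, ← normAlong_sub_eq_eval,
    h6v_iotaZero_apply, hND q hq M hqM ζ hζ E0 hE0, Polynomial.eval_prod]
  refine Finset.prod_congr rfl fun b _ => ?_
  have hζ0 : ζ ^ b ≠ 0 := pow_ne_zero _ (hζ.ne_zero hq.ne_zero)
  have hζq : (ζ ^ b) ^ q = 1 := by rw [← pow_mul, mul_comm, pow_mul, hζ.pow_eq_one, one_pow]
  rw [Polynomial.eval_sub, Polynomial.eval_X, Polynomial.eval_C, map_sub,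
    ← Fermat.Agent.Red.Kron.twistHom_apply (ζ ^ b) hζ0, map_sub,
    Fermat.Agent.Red.Kron.twistHom_apply, Fermat.Agent.Red.Kron.twistHom_apply, hE0.1 c,
    Fermat.Agent.Red.Kron.twistK_qExpand q hζq, h6v_iotaZero_apply]

/-- **the coefficients of the characteristic polynomial are semistably Gauss-integral.** -/
theorem h6v_coeff_mem_ssV (hNA : H20NormA) (hND : H20NormD) (hq : q.Prime) (hqM : ¬ q ∣ M)
    (A : ValuationSubring Kbar) (hA : A.LiesOverPrime q)
    (ζ : Kbar) (hζ : IsPrimitiveRoot ζ q)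
    (E : ℕ → (FF (M * q * q) →+* LaurentSeries Kbar))
    (E0 : FF (M * q * q) →+* LaurentSeries Kbar) :
    haveI : NeZero q := ⟨hq.ne_zero⟩
    (∀ b : ℕ, 0 < b → b < q → h20n_IsE11 M q hq hqM (ζ ^ b) (E b)) →
    h20n_IsE02 M q hq hqM E0 →
    ∀ (hfin : FiniteAlong Kbar (heckeAlphaBar Kbar (M * q) q)) (x : FF (M * q * q)),
    h44g_IsFrac A (IsLocalRing.residue A) (x : LaurentSeries Kbar) →
    (∀ b : ℕ, 0 < b → b < q → h44g_IsFrac A (IsLocalRing.residue A) (E b x)) →
    h44g_IsFrac A (IsLocalRing.residue A) (E0 x) →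
    ∀ m : ℕ, (charpolyAlong (heckeAlphaBar Kbar (M * q) q) hfin x).coeff m ∈ ssV A M q := by
  haveI : NeZero q := ⟨hq.ne_zero⟩
  intro hE hE0 hfin x hx20 hx11 hx02 m
  set cm := (charpolyAlong (heckeAlphaBar Kbar (M * q) q) hfin x).coeff m with hcm
  apply Fermat.Agent.LGC.h44v_mem_ssV_of_isFrac A M q hq hqM hA
  · -- the expansion at `∞`
    have key := h6v_charpoly_infty hNA hq hqM ζ hζ E hE hfin x
    have hc := congrArg (fun p : Polynomial (LaurentSeries Kbar) => p.coeff m) key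
    simp only [Polynomial.coeff_map] at hc
    rw [← h6v_coe_apply, hc]
    exact (h6v_coeff_prod_mem (h44g_fracRing A (IsLocalRing.residue A)) (Finset.Ioo 0 q)
      (fun b => E b x) (fun b hb => hx11 b (Finset.mem_Ioo.1 hb).1 (Finset.mem_Ioo.1 hb).2)
      (x : LaurentSeries Kbar) hx20 m).2
  · -- the expansion at `0`
    have key := h6v_charpoly_zero hND hq hqM ζ hζ E0 hE0 hfin x
    have hc := congrArg (fun p : Polynomial (LaurentSeries Kbar) => p.coeff m) key
    simp only [Polynomial.coeff_map] at hc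
    obtain ⟨u, hu⟩ := Fermat.Agent.LGC.h44g_exists_unit_of_pow_eq_one A hq.ne_zero hζ.pow_eq_one
    have hmem : qExpand Kbar q ((kFricke M q hq hqM cm : FF (M * q)) : LaurentSeries Kbar) ∈
        h44g_fracRing A (IsLocalRing.residue A) := by
      rw [← h6v_iotaZero_apply, hc]
      refine (h6v_coeff_prod_mem (h44g_fracRing A (IsLocalRing.residue A)) (Finset.range q)
        (fun b => twistK (ζ ^ b) (E0 x)) (fun b _ => ?_) 0 (zero_mem _) m).1
      have h1 : (((u ^ b : Aˣ) : A) : Kbar) = ζ ^ b := by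
        rw [Units.val_pow_eq_pow_val, ← hu]
        rfl
      rw [Fermat.Agent.LGC.h44g_mem_fracRing_iff, ← h1]
      exact Fermat.Agent.LGC.h44g_isFrac_twistK (u ^ b) hx02
    have hβ : heckeBetaBar Kbar (M * q) q (kFricke M q hq hqM cm) ∈
        Fermat.Agent.Red.GV.Soft.softV A (M * q * q) := by
      rw [Fermat.Agent.Red.GV.Soft.mem_softV_iff, coe_heckeBetaBar]
      exact hmem
    exact (Fermat.Agent.Red.GV.Soft.beta_mem_softV_iff A hq hA q _).1 hβ

/-- **no fourth extension**: a function of level `M q²` whose expansions at the three kinds of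
cusps `E20`, `E11^ζ` (`ζ ≠ 1`), `E02` are Gauss-integral fractions is integral over the
semistable Gauss ring `ssV A M q` of level `M q`. -/
theorem h6v_noFourth (hNA : H20NormA) (hND : H20NormD) (hq : q.Prime) (hqM : ¬ q ∣ M)
    (A : ValuationSubring Kbar) (hA : A.LiesOverPrime q)
    (ζ : Kbar) (hζ : IsPrimitiveRoot ζ q)
    (E : ℕ → (FF (M * q * q) →+* LaurentSeries Kbar))
    (E0 : FF (M * q * q) →+* LaurentSeries Kbar) :
    haveI : NeZero q := ⟨hq.ne_zero⟩
    (∀ b : ℕ, 0 < b → b < q → h20n_IsE11 M q hq hqM (ζ ^ b) (E b)) →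
    h20n_IsE02 M q hq hqM E0 →
    ∀ x : FF (M * q * q),
    h44g_IsFrac A (IsLocalRing.residue A) (x : LaurentSeries Kbar) →
    (∀ b : ℕ, 0 < b → b < q → h44g_IsFrac A (IsLocalRing.residue A) (E b x)) →
    h44g_IsFrac A (IsLocalRing.residue A) (E0 x) →
    ((heckeAlphaBar Kbar (M * q) q).toRingHom.comp (ssV A M q).subtype).IsIntegralElem x := by
  haveI : NeZero q := ⟨hq.ne_zero⟩
  intro hE hE0 x hx20 hx11 hx02
  have hfin : FiniteAlong Kbar (heckeAlphaBar Kbar (M * q) q) :=
    Fermat.Agent.Red.HKMod.finiteAlong_heckeAlphaBar (M * q) q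
  have hmem : charpolyAlong (heckeAlphaBar Kbar (M * q) q) hfin x ∈
      Polynomial.lifts (ssV A M q).subtype := by
    rw [lifts_iff_coeff_lifts]
    intro m
    exact ⟨⟨_, h6v_coeff_mem_ssV hNA hND hq hqM A hA ζ hζ E E0 hE hE0 hfin x hx20 hx11 hx02 m⟩,
      rfl⟩
  obtain ⟨p, hp, -, hpm⟩ := Polynomial.lifts_and_degree_eq_and_monic hmem
    (charpolyAlong_monic _ hfin x)
  refine ⟨p, hpm, ?_⟩
  rw [← Polynomial.eval₂_map, hp]
  exact Fermat.Agent.LGC.h44g_eval₂_charpolyAlong (heckeAlphaBar Kbar (M * q) q) hfin x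

end Level

end Fermat.Agent.S36
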