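import Mathlib

/-!
# S36, block REG, row R-OVERLAP (helper70): the residue field at a closed point of a chart

`R` a ring with a surjection `ρ : R → k₀` onto an algebraically closed field, `S` an `R`-ring
(`f : R → S`) which is integral over `R[x]` for some `x : S` (in the form: integral over a ring
`D → S` whose image lies in `R[x]`), `𝔫` a maximal ideal of `S` containing `f (ker ρ)`.  Then `R → S / 𝔫` is surjective: every element of `S` is congruent
modulo `𝔫` to a constant (`h70o_res_surj`).

Mathlib only.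
-/

set_option autoImplicit false
set_option linter.style.haveILetI false

open Polynomial

namespace Fermat.Agent.S36

/-- integrality over a ring mapping into a subalgebra gives integrality over the subalgebra. -/
theorem h70o_isIntegral_subalgebra {k₀ k D : Type*} [CommRing k₀] [CommRing k] [CommRing D]
    [Algebra k₀ k] (T : Subalgebra k₀ k) (h : D →+* k) (hT : ∀ d, h d ∈ T) (y : k)
    (hy : h.IsIntegralElem y) : IsIntegral T y := by
  obtain ⟨p, hp, hpy⟩ := hy
  refine ⟨p.map (h.codRestrict T hT), hp.map _, ?_⟩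
  rw [eval₂_map]
  have h1 : (algebraMap T k).comp (h.codRestrict T hT) = h := by
    ext d
    rfl
  rw [h1]
  exact hpy

/-- an element `x ≠ 0` of a field `k` such that `k` is integral over `k₀[x]` is algebraic
over `k₀`. -/
theorem h70o_isIntegral_gen {k₀ k : Type*} [Field k₀] [Field k] [Algebra k₀ k] (x : k)
    (hint : ∀ y : k, IsIntegral (Algebra.adjoin k₀ {x}) y) : IsIntegral k₀ x := by
  classical
  by_cases hx : x = 0
  · rw [hx]
    exact isIntegral_zero
  set T : Subalgebra k₀ k := Algebra.adjoin k₀ {x} with hT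
  have : Algebra.IsIntegral T k := ⟨hint⟩
  have hinj : Function.Injective (algebraMap T k) := Subtype.val_injective
  have hfield : IsField T := isField_of_isIntegral_of_isField hinj (Field.toIsField k)
  have hxT : x ∈ T := Algebra.subset_adjoin (Set.mem_singleton x)
  have hx0 : (⟨x, hxT⟩ : T) ≠ 0 := fun h => hx (congrArg Subtype.val h)
  obtain ⟨y, hy⟩ := hfield.mul_inv_cancel hx0
  have hy' : x * (y : k) = 1 := congrArg Subtype.val hy
  have hyT : (y : k) ∈ Algebra.adjoin k₀ {x} := y.2
  rw [Algebra.adjoin_singleton_eq_range_aeval] at hyT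
  obtain ⟨Q, hQ⟩ := hyT
  have hQ' : aeval x Q = (y : k) := hQ
  have halg : IsAlgebraic k₀ x := by
    refine ⟨X * Q - 1, ?_, ?_⟩
    · intro h0
      have h1 := congrArg (fun p : k₀[X] => p.coeff 0) h0
      simp at h1
    · rw [map_sub, map_mul, aeval_X, map_one, hQ', hy', sub_self]
  exact halg.isIntegral

/-- **the residue field of a closed point of a chart.**  Every element of `S` is congruent
modulo `𝔫` to a constant. -/
theorem h70o_res_surj {R S k₀ : Type*} [CommRing R] [CommRing S] [Field k₀] [IsAlgClosed k₀]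
    (ρ : R →+* k₀) (hρ : Function.Surjective ρ) (f : R →+* S) (x : S)
    {D : Type*} [CommRing D] (h₀ : D →+* S)
    (hD : ∀ d, h₀ d ∈ Subring.closure (Set.range f ∪ {x}))
    (hint : ∀ s : S, h₀.IsIntegralElem s)
    (𝔫 : Ideal S) [h𝔫 : 𝔫.IsMaximal] (hker : ∀ a, ρ a = 0 → f a ∈ 𝔫) (s : S) :
    ∃ a : R, s - f a ∈ 𝔫 := by
  classical
  letI : Field (S ⧸ 𝔫) := Ideal.Quotient.field 𝔫
  set φ : S →+* S ⧸ 𝔫 := Ideal.Quotient.mk 𝔫 with hφ
  set g : R →+* S ⧸ 𝔫 := φ.comp f with hg
  have hgker : RingHom.ker ρ ≤ RingHom.ker g := by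
    intro a ha
    rw [RingHom.mem_ker] at ha ⊢
    rw [hg, RingHom.comp_apply, hφ, Ideal.Quotient.eq_zero_iff_mem]
    exact hker a ha
  set ψ : k₀ →+* S ⧸ 𝔫 := RingHom.liftOfSurjective ρ hρ ⟨g, hgker⟩ with hψ
  have hψρ : ∀ a, ψ (ρ a) = g a := fun a =>
    RingHom.liftOfRightInverse_comp_apply ρ _ (Function.surjInv_eq hρ) ⟨g, hgker⟩ a
  letI : Algebra k₀ (S ⧸ 𝔫) := ψ.toAlgebra
  have halg : ∀ c : k₀, algebraMap k₀ (S ⧸ 𝔫) c = ψ c := fun _ => rfl
  -- the map `D → S / 𝔫`
  set h : D →+* S ⧸ 𝔫 := φ.comp h₀ with hh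
  have hhint : ∀ y : S ⧸ 𝔫, h.IsIntegralElem y := by
    intro y
    obtain ⟨s', rfl⟩ := Ideal.Quotient.mk_surjective y
    obtain ⟨p, hp, hps⟩ := hint s'
    refine ⟨p, hp, ?_⟩
    have h1 : eval₂ h (φ s') p = φ (eval₂ h₀ s' p) := by
      rw [hh, ← Polynomial.hom_eval₂]
    rw [h1, hps, map_zero]
  -- the image of `D` lies in any subalgebra containing the image of `x`
  have himg : ∀ T : Subalgebra k₀ (S ⧸ 𝔫), φ x ∈ T → ∀ d : D, h d ∈ T := by
    intro T hxT d
    have hd : h₀ d ∈ Subring.closure (Set.range f ∪ {x}) := hD d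
    have h2 : ∀ z ∈ Subring.closure (Set.range f ∪ {x}), φ z ∈ T := by
      intro z hz
      induction hz using Subring.closure_induction with
      | mem z hz =>
        rcases hz with ⟨a, rfl⟩ | hz
        · have h3 : φ (f a) = algebraMap k₀ (S ⧸ 𝔫) (ρ a) := by
            rw [halg, hψρ]
            rfl
          rw [h3]
          exact T.algebraMap_mem _
        · rw [Set.mem_singleton_iff] at hz
          rw [hz]
          exact hxT
      | zero => rw [map_zero]; exact T.zero_mem
      | one => rw [map_one]; exact T.one_mem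
      | add a b _ _ ha hb => rw [map_add]; exact T.add_mem ha hb
      | neg a _ ha => rw [map_neg]; exact T.neg_mem ha
      | mul a b _ _ ha hb => rw [map_mul]; exact T.mul_mem ha hb
    exact h2 _ hd
  -- `x` is integral over `k₀`
  have hxint : IsIntegral k₀ (φ x) := by
    apply h70o_isIntegral_gen
    intro y
    exact h70o_isIntegral_subalgebra _ h
      (himg _ (Algebra.subset_adjoin (Set.mem_singleton _))) y (hhint y)
  -- every element is integral over `k₀`
  have : Algebra.IsIntegral k₀ (S ⧸ 𝔫) := by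
    refine ⟨fun y => ?_⟩
    have h1 : IsIntegral (integralClosure k₀ (S ⧸ 𝔫)) y :=
      h70o_isIntegral_subalgebra _ h (himg _ hxint) y (hhint y)
    exact isIntegral_trans y h1
  obtain ⟨c, hc⟩ := (IsAlgClosed.algebraMap_bijective_of_isIntegral (k := k₀) (K := S ⧸ 𝔫)).2 (φ s)
  obtain ⟨a, rfl⟩ := hρ c
  refine ⟨a, ?_⟩
  rw [← Ideal.Quotient.eq_zero_iff_mem, map_sub, sub_eq_zero]
  rw [halg, hψρ] at hc
  exact hc.symm

end Fermat.Agent.S36
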