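import Fermat.Agent.S36.H11TorSkel
import Fermat.Agent.S36.H11TorAbs

/-!
# S36, rows L-TOR / L-GLUE: calculus of the branch values `h11l_BV` (helper8, prefix `h8v_`)

Vocabulary of `S36/H11LocSkel.lean`, `S36/H11TorSkel.lean` (helper11): `B = h92c_Chart A N t`,
`𝔫` a prime ideal of `B`, `E : FF N →+* ℚ̄((t))` an embedding,
`h11l_Small A E x` (`E x` Gauss-integral with reduction `0`),
`h11l_BV A t 𝔫 E x c` (`∃ b s ∈ B, s ∉ 𝔫, s x - b` small, `b - c s ∈ 𝔫`).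

Hypotheses on `E`, when needed:
* `hint : ∀ b ∈ B, E b ∈ softOT A` (the chart is Gauss-integral at `E`; `H11TorBasic` (2), (3));
* `hcen : h11l_Centred A t 𝔫 E` (the component of `E` passes through `𝔫`).

## Results

* `h8v_small_*` : the small functions form an ideal of the Gauss-integral functions;
  a Gauss-integral function which is not small is a Gauss unit.
* `h8v_bv_of_mem`, `h8v_bv_mul`, `h8v_bv_pow`, `h8v_bv_inv`, `h8v_bv_unique`,
  `h8v_bv_val_congr`, `h8v_bv_congr`, `h8v_bv_int`, `h8v_bv_ne_zero`, `h8v_bv_unit`: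
  the calculus of `h11l_BV`.
* `h8v_bv_of_unitAt` : a unit of `B_𝔫` has the same branch value along every `E`.
* `h8v_cbv_*` : the same for the constant branch values `h11t_cBV`.
-/

set_option autoImplicit false
set_option linter.unusedSectionVars false

open AlgebraicCurve ModularCurve

noncomputable section

namespace Fermat.Agent.S36

open Fermat.Agent.S37 (Kbar GQ FF cst jB gal modelAt degen auxLevel)
open Fermat.Agent.Red.GV.Soft (softOT softRedT softRedT_ne_zero_iff)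

/-! ## Small functions -/

section Small

variable (A : ValuationSubring Kbar) {N : ℕ} (E : FF N →+* LaurentSeries Kbar)

theorem h8v_small_int {x : FF N} (h : h11l_Small A E x) :
    E x ∈ softOT A (IsLocalRing.residue A) := h.1

theorem h8v_small_iff {x : FF N} (hx : E x ∈ softOT A (IsLocalRing.residue A)) :
    h11l_Small A E x ↔ softRedT A (IsLocalRing.residue A) ⟨E x, hx⟩ = 0 :=
  ⟨fun ⟨_, h⟩ => h, fun h => ⟨hx, h⟩⟩

theorem h8v_small_zero : h11l_Small A E 0 := by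
  have h0 : E 0 ∈ softOT A (IsLocalRing.residue A) := by
    rw [map_zero]; exact Subring.zero_mem _
  refine ⟨h0, ?_⟩
  have : (⟨E 0, h0⟩ : softOT A (IsLocalRing.residue A)) = 0 := Subtype.ext (map_zero E)
  rw [this, map_zero]

theorem h8v_small_add {x y : FF N} (hx : h11l_Small A E x) (hy : h11l_Small A E y) :
    h11l_Small A E (x + y) := by
  obtain ⟨hx1, hx2⟩ := hx
  obtain ⟨hy1, hy2⟩ := hy
  have h0 : E (x + y) ∈ softOT A (IsLocalRing.residue A) := by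
    rw [map_add]; exact Subring.add_mem _ hx1 hy1
  refine ⟨h0, ?_⟩
  have : (⟨E (x + y), h0⟩ : softOT A (IsLocalRing.residue A)) = ⟨E x, hx1⟩ + ⟨E y, hy1⟩ :=
    Subtype.ext (map_add E x y)
  rw [this, map_add, hx2, hy2, add_zero]

theorem h8v_small_neg {x : FF N} (hx : h11l_Small A E x) : h11l_Small A E (-x) := by
  obtain ⟨hx1, hx2⟩ := hx
  have h0 : E (-x) ∈ softOT A (IsLocalRing.residue A) := by
    rw [map_neg]; exact Subring.neg_mem _ hx1
  refine ⟨h0, ?_⟩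
  have : (⟨E (-x), h0⟩ : softOT A (IsLocalRing.residue A)) = -⟨E x, hx1⟩ :=
    Subtype.ext (map_neg E x)
  rw [this, map_neg, hx2, neg_zero]

theorem h8v_small_sub {x y : FF N} (hx : h11l_Small A E x) (hy : h11l_Small A E y) :
    h11l_Small A E (x - y) := by
  rw [sub_eq_add_neg]
  exact h8v_small_add A E hx (h8v_small_neg A E hy)

/-- small times Gauss-integral is small. -/
theorem h8v_small_mul {x y : FF N} (hx : h11l_Small A E x)
    (hy : E y ∈ softOT A (IsLocalRing.residue A)) : h11l_Small A E (x * y) := by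
  obtain ⟨hx1, hx2⟩ := hx
  have h0 : E (x * y) ∈ softOT A (IsLocalRing.residue A) := by
    rw [map_mul]; exact Subring.mul_mem _ hx1 hy
  refine ⟨h0, ?_⟩
  have : (⟨E (x * y), h0⟩ : softOT A (IsLocalRing.residue A)) = ⟨E x, hx1⟩ * ⟨E y, hy⟩ :=
    Subtype.ext (map_mul E x y)
  rw [this, map_mul, hx2, zero_mul]

theorem h8v_small_mul' {x y : FF N} (hx : E x ∈ softOT A (IsLocalRing.residue A))
    (hy : h11l_Small A E y) : h11l_Small A E (x * y) := by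
  rw [mul_comm]
  exact h8v_small_mul A E hy hx

theorem h8v_not_small_one : ¬ h11l_Small A E (1 : FF N) := by
  rintro ⟨h1, h2⟩
  have : (⟨E 1, h1⟩ : softOT A (IsLocalRing.residue A)) = 1 := Subtype.ext (map_one E)
  rw [this, map_one] at h2
  exact one_ne_zero h2

/-- a Gauss-integral function which is not small is a Gauss unit. -/
theorem h8v_inv_int {x : FF N} (hx : E x ∈ softOT A (IsLocalRing.residue A))
    (hns : ¬ h11l_Small A E x) : E x⁻¹ ∈ softOT A (IsLocalRing.residue A) := by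
  have h1 : softRedT A (IsLocalRing.residue A) ⟨E x, hx⟩ ≠ 0 := fun h => hns ⟨hx, h⟩
  have h2 := ((softRedT_ne_zero_iff (⟨E x, hx⟩ : softOT A (IsLocalRing.residue A))).mp h1).2
  rw [map_inv₀]
  exact h2

/-- a Gauss unit is not small. -/
theorem h8v_not_small_of_inv {x : FF N} (hx0 : x ≠ 0)
    (hx' : E x⁻¹ ∈ softOT A (IsLocalRing.residue A)) : ¬ h11l_Small A E x := by
  intro hs
  have := h8v_small_mul A E hs hx'
  rw [mul_inv_cancel₀ hx0] at this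
  exact h8v_not_small_one A E this

/-- congruent modulo small, one of them not small: neither is small. -/
theorem h8v_not_small_congr {x y : FF N} (hxy : h11l_Small A E (x - y))
    (hy : ¬ h11l_Small A E y) : ¬ h11l_Small A E x := by
  intro hx
  apply hy
  have : y = x - (x - y) := by ring
  rw [this]
  exact h8v_small_sub A E hx hxy

end Small

/-! ## Branch values -/

section BV

variable (A : ValuationSubring Kbar) {N : ℕ} (t : FF N) (𝔫 : Ideal (h92c_Chart A N t))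
  (E : FF N →+* LaurentSeries Kbar)

theorem h8v_bv_of_mem [h𝔫 : 𝔫.IsPrime] (b : h92c_Chart A N t) :
    h11l_BV A t 𝔫 E (b : FF N) b := by
  refine ⟨b, 1, (Ideal.ne_top_iff_one 𝔫).mp h𝔫.ne_top, ?_, ?_⟩
  · have : ((1 : h92c_Chart A N t) : FF N) * (b : FF N) - (b : FF N) = 0 := by
      rw [Subring.coe_one, one_mul, sub_self]
    rw [this]
    exact h8v_small_zero A E
  · rw [mul_one, sub_self]
    exact 𝔫.zero_mem

/-- the value may be changed modulo `𝔫`. -/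
theorem h8v_bv_val_congr {x : FF N} {c c' : h92c_Chart A N t} (h : h11l_BV A t 𝔫 E x c)
    (hc : c - c' ∈ 𝔫) : h11l_BV A t 𝔫 E x c' := by
  obtain ⟨b, s, hs, hsm, hb⟩ := h
  refine ⟨b, s, hs, hsm, ?_⟩
  have e : b - c' * s = (b - c * s) + (c - c') * s := by ring
  rw [e]
  exact 𝔫.add_mem hb (𝔫.mul_mem_right _ hc)

/-- the function may be changed by a small function. -/
theorem h8v_bv_congr (hint : ∀ b : h92c_Chart A N t, E (b : FF N) ∈ softOT A (IsLocalRing.residue A))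
    {x y : FF N} {c : h92c_Chart A N t} (h : h11l_BV A t 𝔫 E x c)
    (hxy : h11l_Small A E (y - x)) : h11l_BV A t 𝔫 E y c := by
  obtain ⟨b, s, hs, hsm, hb⟩ := h
  refine ⟨b, s, hs, ?_, hb⟩
  have e : (s : FF N) * y - (b : FF N) = ((s : FF N) * x - (b : FF N)) + (s : FF N) * (y - x) := by
    ring
  rw [e]
  exact h8v_small_add A E hsm (h8v_small_mul' A E (hint s) hxy)

/-- a function with a branch value is Gauss-integral up to a denominator outside `𝔫`. -/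
theorem h8v_bv_int (hint : ∀ b : h92c_Chart A N t, E (b : FF N) ∈ softOT A (IsLocalRing.residue A))
    {x : FF N} {c : h92c_Chart A N t} (h : h11l_BV A t 𝔫 E x c) :
    ∃ s : h92c_Chart A N t, s ∉ 𝔫 ∧ E ((s : FF N) * x) ∈ softOT A (IsLocalRing.residue A) := by
  obtain ⟨b, s, hs, hsm, -⟩ := h
  refine ⟨s, hs, ?_⟩
  have e : (s : FF N) * x = ((s : FF N) * x - (b : FF N)) + (b : FF N) := by ring
  rw [e, map_add]
  exact Subring.add_mem _ hsm.1 (hint b)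

/-- **multiplicativity.** -/
theorem h8v_bv_mul (hint : ∀ b : h92c_Chart A N t, E (b : FF N) ∈ softOT A (IsLocalRing.residue A))
    [h𝔫 : 𝔫.IsPrime] {x y : FF N} {c d : h92c_Chart A N t}
    (hx : h11l_BV A t 𝔫 E x c) (hy : h11l_BV A t 𝔫 E y d) :
    h11l_BV A t 𝔫 E (x * y) (c * d) := by
  obtain ⟨b, s, hs, hsm, hb⟩ := hx
  obtain ⟨b', s', hs', hsm', hb'⟩ := hy
  refine ⟨b * b', s * s', fun h => (h𝔫.mem_or_mem h).elim hs hs', ?_, ?_⟩
  · have hy' : E ((s' : FF N) * y) ∈ softOT A (IsLocalRing.residue A) := by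
      have e : (s' : FF N) * y = ((s' : FF N) * y - (b' : FF N)) + (b' : FF N) := by ring
      rw [e, map_add]
      exact Subring.add_mem _ hsm'.1 (hint b')
    have e : ((s * s' : h92c_Chart A N t) : FF N) * (x * y) - ((b * b' : h92c_Chart A N t) : FF N)
        = ((s : FF N) * x - (b : FF N)) * ((s' : FF N) * y)
          + (b : FF N) * ((s' : FF N) * y - (b' : FF N)) := by
      rw [Subring.coe_mul, Subring.coe_mul]; ring
    rw [e]
    exact h8v_small_add A E (h8v_small_mul A E hsm hy') (h8v_small_mul' A E (hint b) hsm')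
  · have e : b * b' - c * d * (s * s') = (b - c * s) * b' + c * s * (b' - d * s') := by ring
    rw [e]
    exact 𝔫.add_mem (𝔫.mul_mem_right _ hb) (𝔫.mul_mem_left _ hb')

theorem h8v_bv_one [h𝔫 : 𝔫.IsPrime] : h11l_BV A t 𝔫 E (1 : FF N) 1 := by
  have := h8v_bv_of_mem A t 𝔫 E (1 : h92c_Chart A N t)
  rwa [Subring.coe_one] at this

theorem h8v_bv_pow (hint : ∀ b : h92c_Chart A N t, E (b : FF N) ∈ softOT A (IsLocalRing.residue A))
    [h𝔫 : 𝔫.IsPrime] {x : FF N} {c : h92c_Chart A N t}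
    (hx : h11l_BV A t 𝔫 E x c) (n : ℕ) : h11l_BV A t 𝔫 E (x ^ n) (c ^ n) := by
  induction n with
  | zero => rw [pow_zero, pow_zero]; exact h8v_bv_one A t 𝔫 E
  | succ n ih => rw [pow_succ, pow_succ]; exact h8v_bv_mul A t 𝔫 E hint ih hx

/-- **uniqueness** of the branch value modulo `𝔫`. -/
theorem h8v_bv_unique (hint : ∀ b : h92c_Chart A N t, E (b : FF N) ∈ softOT A (IsLocalRing.residue A))
    (hcen : h11l_Centred A t 𝔫 E) [h𝔫 : 𝔫.IsPrime] {x : FF N} {c c' : h92c_Chart A N t}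
    (h : h11l_BV A t 𝔫 E x c) (h' : h11l_BV A t 𝔫 E x c') : c - c' ∈ 𝔫 := by
  obtain ⟨b, s, hs, hsm, hb⟩ := h
  obtain ⟨b', s', hs', hsm', hb'⟩ := h'
  have h1 : h11l_Small A E (((s * b' - s' * b : h92c_Chart A N t)) : FF N) := by
    have e : (((s * b' - s' * b : h92c_Chart A N t)) : FF N)
        = (s' : FF N) * ((s : FF N) * x - (b : FF N))
          - (s : FF N) * ((s' : FF N) * x - (b' : FF N)) := by
      push_cast; ring
    rw [e]
    exact h8v_small_sub A E (h8v_small_mul' A E (hint s') hsm) (h8v_small_mul' A E (hint s) hsm')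
  have h2 : s * b' - s' * b ∈ 𝔫 := hcen _ h1
  have h3 : s * s' * (c' - c) ∈ 𝔫 := by
    have e : s * s' * (c' - c) = (s * b' - s' * b) - s * (b' - c' * s') + s' * (b - c * s) := by
      ring
    rw [e]
    exact 𝔫.add_mem (𝔫.sub_mem h2 (𝔫.mul_mem_left _ hb')) (𝔫.mul_mem_left _ hb)
  have h4 : c' - c ∈ 𝔫 :=
    (h𝔫.mem_or_mem h3).resolve_left fun h => (h𝔫.mem_or_mem h).elim hs hs'
  have e : c - c' = -(c' - c) := by ring
  rw [e]
  exact 𝔫.neg_mem h4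

/-- a function with a branch value outside `𝔫` is nonzero, and a Gauss unit up to a factor of
the chart outside `𝔫`. -/
theorem h8v_bv_unit (hint : ∀ b : h92c_Chart A N t, E (b : FF N) ∈ softOT A (IsLocalRing.residue A))
    (hcen : h11l_Centred A t 𝔫 E) [h𝔫 : 𝔫.IsPrime] {x : FF N} {c : h92c_Chart A N t}
    (h : h11l_BV A t 𝔫 E x c) (hc : c ∉ 𝔫) :
    x ≠ 0 ∧ E x⁻¹ ∈ softOT A (IsLocalRing.residue A) := by
  obtain ⟨b, s, hs, hsm, hb⟩ := h
  have hb𝔫 : b ∉ 𝔫 := by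
    intro hb'
    have h1 : c * s ∈ 𝔫 := by
      have e : c * s = b - (b - c * s) := by ring
      rw [e]
      exact 𝔫.sub_mem hb' hb
    exact (h𝔫.mem_or_mem h1).elim hc hs
  have hbns : ¬ h11l_Small A E (b : FF N) := fun h => hb𝔫 (hcen b h)
  have hsx : ¬ h11l_Small A E ((s : FF N) * x) := h8v_not_small_congr A E hsm hbns
  have hx0 : x ≠ 0 := by
    rintro rfl
    apply hsx
    rw [mul_zero]
    exact h8v_small_zero A E
  refine ⟨hx0, ?_⟩
  have hsxi : E ((s : FF N) * x) ∈ softOT A (IsLocalRing.residue A) := by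
    have e : (s : FF N) * x = ((s : FF N) * x - (b : FF N)) + (b : FF N) := by ring
    rw [e, map_add]
    exact Subring.add_mem _ hsm.1 (hint b)
  have h2 := h8v_inv_int A E hsxi hsx
  have hs0 : (s : FF N) ≠ 0 := by
    intro h0
    apply hsx
    rw [h0, zero_mul]
    exact h8v_small_zero A E
  have e : x⁻¹ = (s : FF N) * ((s : FF N) * x)⁻¹ := by
    rw [mul_inv, ← mul_assoc, mul_inv_cancel₀ hs0, one_mul]
  rw [e, map_mul]
  exact Subring.mul_mem _ (hint s) h2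

/-- **inverse.** -/
theorem h8v_bv_inv (hint : ∀ b : h92c_Chart A N t, E (b : FF N) ∈ softOT A (IsLocalRing.residue A))
    (hcen : h11l_Centred A t 𝔫 E) [h𝔫 : 𝔫.IsPrime] {x : FF N} {c c' : h92c_Chart A N t}
    (h : h11l_BV A t 𝔫 E x c) (hcc' : c * c' - 1 ∈ 𝔫) : h11l_BV A t 𝔫 E x⁻¹ c' := by
  have hc : c ∉ 𝔫 := by
    intro hc
    apply (Ideal.ne_top_iff_one 𝔫).mp h𝔫.ne_top
    have e : (1 : h92c_Chart A N t) = c * c' - (c * c' - 1) := by ring
    rw [e]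
    exact 𝔫.sub_mem (𝔫.mul_mem_right _ hc) hcc'
  obtain ⟨hx0, hxi⟩ := h8v_bv_unit A t 𝔫 E hint hcen h hc
  obtain ⟨b, s, hs, hsm, hb⟩ := h
  have hb𝔫 : b ∉ 𝔫 := by
    intro hb'
    have h1 : c * s ∈ 𝔫 := by
      have e : c * s = b - (b - c * s) := by ring
      rw [e]
      exact 𝔫.sub_mem hb' hb
    exact (h𝔫.mem_or_mem h1).elim hc hs
  refine ⟨s, b, hb𝔫, ?_, ?_⟩
  · have e : (b : FF N) * x⁻¹ - (s : FF N) = -(((s : FF N) * x - (b : FF N)) * x⁻¹) := by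
      field_simp
      ring
    rw [e]
    exact h8v_small_neg A E (h8v_small_mul A E hsm hxi)
  · have e : s - c' * b = -(c' * (b - c * s)) - (c * c' - 1) * s := by ring
    rw [e]
    exact 𝔫.sub_mem (𝔫.neg_mem (𝔫.mul_mem_left _ hb)) (𝔫.mul_mem_right _ hcc')

end BV

/-! ## Units of the local ring -/

section Unit

variable (A : ValuationSubring Kbar) {N : ℕ} (t : FF N) (𝔫 : Ideal (h92c_Chart A N t))

/-- inverse modulo a maximal ideal. -/
theorem h8v_exists_inv_mod [h𝔫 : 𝔫.IsMaximal] {s : h92c_Chart A N t} (hs : s ∉ 𝔫) :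
    ∃ s' : h92c_Chart A N t, s * s' - 1 ∈ 𝔫 := by
  obtain ⟨s', hs'⟩ := Ideal.Quotient.exists_inv (I := 𝔫) (a := Ideal.Quotient.mk 𝔫 s)
    (by rwa [Ne, Ideal.Quotient.eq_zero_iff_mem])
  obtain ⟨s'', rfl⟩ := Ideal.Quotient.mk_surjective s'
  refine ⟨s'', ?_⟩
  rw [← Ideal.Quotient.eq_zero_iff_mem, map_sub, map_mul, map_one, hs', sub_self]

/-- **a unit of `B_𝔫` has the same branch value along every embedding.** -/
theorem h8v_bv_of_unitAt [h𝔫 : 𝔫.IsMaximal] {u : FF N} (hu : h11t_UnitAt A t 𝔫 u) :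
    ∃ c : h92c_Chart A N t, c ∉ 𝔫 ∧
      ∀ E : FF N →+* LaurentSeries Kbar, h11l_BV A t 𝔫 E u c := by
  have hpr : 𝔫.IsPrime := h𝔫.isPrime
  obtain ⟨hu0, s, hs, hsu, hsu'⟩ := hu
  set b : h92c_Chart A N t := ⟨_, hsu⟩ with hb
  set b' : h92c_Chart A N t := ⟨_, hsu'⟩ with hb'
  have hbb' : b * b' = s * s := by
    apply Subtype.ext
    show ((s : FF N) * u) * ((s : FF N) * u⁻¹) = (s : FF N) * (s : FF N)
    field_simp
  have hb𝔫 : b ∉ 𝔫 := by
    intro h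
    have : s * s ∈ 𝔫 := by rw [← hbb']; exact 𝔫.mul_mem_right _ h
    exact (hpr.mem_or_mem this).elim hs hs
  obtain ⟨s', hs'⟩ := h8v_exists_inv_mod A t 𝔫 hs
  have hs'𝔫 : s' ∉ 𝔫 := by
    intro h
    apply (Ideal.ne_top_iff_one 𝔫).mp hpr.ne_top
    have e : (1 : h92c_Chart A N t) = s * s' - (s * s' - 1) := by ring
    rw [e]
    exact 𝔫.sub_mem (𝔫.mul_mem_left _ h) hs'
  refine ⟨b * s', fun h => (hpr.mem_or_mem h).elim hb𝔫 hs'𝔫, fun E => ?_⟩
  refine ⟨b, s, hs, ?_, ?_⟩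
  · have : (s : FF N) * u - (b : FF N) = 0 := by
      show (s : FF N) * u - (s : FF N) * u = 0
      rw [sub_self]
    rw [this]
    exact h8v_small_zero A E
  · have e : b - b * s' * s = -(b * (s * s' - 1)) := by ring
    rw [e]
    exact 𝔫.neg_mem (𝔫.mul_mem_left _ hs')

/-- products of units of `B_𝔫`. -/
theorem h8v_unitAt_mul [h𝔫 : 𝔫.IsPrime] {u v : FF N} (hu : h11t_UnitAt A t 𝔫 u)
    (hv : h11t_UnitAt A t 𝔫 v) : h11t_UnitAt A t 𝔫 (u * v) := by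
  obtain ⟨hu0, s, hs, hsu, hsu'⟩ := hu
  obtain ⟨hv0, s', hs', hsv, hsv'⟩ := hv
  refine ⟨mul_ne_zero hu0 hv0, s * s', fun h => (h𝔫.mem_or_mem h).elim hs hs', ?_, ?_⟩
  · have e : ((s * s' : h92c_Chart A N t) : FF N) * (u * v)
        = ((s : FF N) * u) * ((s' : FF N) * v) := by push_cast; ring
    rw [e]
    exact Subring.mul_mem _ hsu hsv
  · have e : ((s * s' : h92c_Chart A N t) : FF N) * (u * v)⁻¹
        = ((s : FF N) * u⁻¹) * ((s' : FF N) * v⁻¹) := by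
      rw [mul_inv]; push_cast; ring
    rw [e]
    exact Subring.mul_mem _ hsu' hsv'

theorem h8v_unitAt_inv {u : FF N} (hu : h11t_UnitAt A t 𝔫 u) : h11t_UnitAt A t 𝔫 u⁻¹ := by
  obtain ⟨hu0, s, hs, hsu, hsu'⟩ := hu
  exact ⟨inv_ne_zero hu0, s, hs, hsu', by rwa [inv_inv]⟩

theorem h8v_unitAt_one [h𝔫 : 𝔫.IsPrime] : h11t_UnitAt A t 𝔫 (1 : FF N) := by
  refine ⟨one_ne_zero, 1, (Ideal.ne_top_iff_one 𝔫).mp h𝔫.ne_top, ?_, ?_⟩
  · rw [mul_one]; exact (1 : h92c_Chart A N t).2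
  · rw [inv_one, mul_one]; exact (1 : h92c_Chart A N t).2

theorem h8v_unitAt_of_notMem {s : h92c_Chart A N t} (hs : s ∉ 𝔫) (hs0 : (s : FF N) ≠ 0) :
    h11t_UnitAt A t 𝔫 (s : FF N) := by
  refine ⟨hs0, s, hs, ?_, ?_⟩
  · exact Subring.mul_mem _ s.2 s.2
  · rw [mul_inv_cancel₀ hs0]; exact Subring.one_mem _

end Unit

/-! ## Constant branch values -/

section CBV

variable (A : ValuationSubring Kbar) {N : ℕ} (t : FF N) (𝔫 : Ideal (h92c_Chart A N t))
  (E : FF N →+* LaurentSeries Kbar)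

/-- a function congruent to a constant of the chart modulo the small functions has this
constant as branch value at every point. -/
theorem h8v_cbv_of_small [h𝔫 : 𝔫.IsPrime] {x : FF N} {a : Kbar}
    (ha : cst N a ∈ h92c_Chart A N t) (h : h11l_Small A E (x - cst N a)) :
    h11t_cBV A t 𝔫 E x a := by
  refine ⟨⟨cst N a, ha⟩, rfl, ⟨cst N a, ha⟩, 1, (Ideal.ne_top_iff_one 𝔫).mp h𝔫.ne_top, ?_, ?_⟩
  · have e : ((1 : h92c_Chart A N t) : FF N) * x - ((⟨cst N a, ha⟩ : h92c_Chart A N t) : FF N)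
        = x - cst N a := by
      rw [Subring.coe_one, one_mul]
    rw [e]
    exact h
  · rw [mul_one, sub_self]
    exact 𝔫.zero_mem

theorem h8v_cbv_one [h𝔫 : 𝔫.IsPrime] : h11t_cBV A t 𝔫 E (1 : FF N) 1 :=
  ⟨1, by rw [Subring.coe_one]; exact (map_one (algebraMap Kbar (FF N))).symm,
    h8v_bv_one A t 𝔫 E⟩

theorem h8v_cbv_mul
    (hint : ∀ b : h92c_Chart A N t, E (b : FF N) ∈ softOT A (IsLocalRing.residue A))
    [h𝔫 : 𝔫.IsPrime] {x y : FF N} {a a' : Kbar}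
    (hx : h11t_cBV A t 𝔫 E x a) (hy : h11t_cBV A t 𝔫 E y a') :
    h11t_cBV A t 𝔫 E (x * y) (a * a') := by
  obtain ⟨c, hc, hxc⟩ := hx
  obtain ⟨c', hc', hyc⟩ := hy
  exact ⟨c * c', by
    rw [Subring.coe_mul, hc, hc']; exact (map_mul (algebraMap Kbar (FF N)) a a').symm,
    h8v_bv_mul A t 𝔫 E hint hxc hyc⟩

theorem h8v_cbv_pow
    (hint : ∀ b : h92c_Chart A N t, E (b : FF N) ∈ softOT A (IsLocalRing.residue A))
    [h𝔫 : 𝔫.IsPrime] {x : FF N} {a : Kbar}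
    (hx : h11t_cBV A t 𝔫 E x a) (n : ℕ) : h11t_cBV A t 𝔫 E (x ^ n) (a ^ n) := by
  induction n with
  | zero => rw [pow_zero, pow_zero]; exact h8v_cbv_one A t 𝔫 E
  | succ n ih => rw [pow_succ, pow_succ]; exact h8v_cbv_mul A t 𝔫 E hint ih hx

theorem h8v_cbv_inv
    (hint : ∀ b : h92c_Chart A N t, E (b : FF N) ∈ softOT A (IsLocalRing.residue A))
    (hcen : h11l_Centred A t 𝔫 E) [h𝔫 : 𝔫.IsPrime] {x : FF N} {a : Kbar} (ha : a ≠ 0)
    (ha' : cst N a⁻¹ ∈ h92c_Chart A N t) (hx : h11t_cBV A t 𝔫 E x a) :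
    h11t_cBV A t 𝔫 E x⁻¹ a⁻¹ := by
  obtain ⟨c, hc, hxc⟩ := hx
  refine ⟨⟨cst N a⁻¹, ha'⟩, rfl, h8v_bv_inv A t 𝔫 E hint hcen hxc ?_⟩
  have : c * ⟨cst N a⁻¹, ha'⟩ - 1 = 0 := by
    apply Subtype.ext
    show (c : FF N) * cst N a⁻¹ - 1 = 0
    rw [hc]
    show algebraMap Kbar (FF N) a * algebraMap Kbar (FF N) a⁻¹ - 1 = 0
    rw [← map_mul, mul_inv_cancel₀ ha, map_one, sub_self]
  rw [this]
  exact 𝔫.zero_mem

/-- uniqueness of the constant branch value: the difference of two values lies in `𝔫`. -/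
theorem h8v_cbv_unique
    (hint : ∀ b : h92c_Chart A N t, E (b : FF N) ∈ softOT A (IsLocalRing.residue A))
    (hcen : h11l_Centred A t 𝔫 E) [h𝔫 : 𝔫.IsPrime] {x : FF N} {a a' : Kbar}
    (hx : h11t_cBV A t 𝔫 E x a) (hx' : h11t_cBV A t 𝔫 E x a') :
    ∃ c : h92c_Chart A N t, (c : FF N) = cst N (a - a') ∧ c ∈ 𝔫 := by
  obtain ⟨c, hc, hxc⟩ := hx
  obtain ⟨c', hc', hxc'⟩ := hx'
  exact ⟨c - c', by
    show (c : FF N) - (c' : FF N) = _
    rw [hc, hc']; exact (map_sub (algebraMap Kbar (FF N)) a a').symm,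
    h8v_bv_unique A t 𝔫 E hint hcen hxc hxc'⟩

theorem h8v_cbv_congr
    (hint : ∀ b : h92c_Chart A N t, E (b : FF N) ∈ softOT A (IsLocalRing.residue A))
    {x y : FF N} {a : Kbar} (hx : h11t_cBV A t 𝔫 E x a) (hxy : h11l_Small A E (y - x)) :
    h11t_cBV A t 𝔫 E y a := by
  obtain ⟨c, hc, hxc⟩ := hx
  exact ⟨c, hc, h8v_bv_congr A t 𝔫 E hint hxc hxy⟩

end CBV

/-! ## The abstract branches (`H11Branch`, `H11Local`) with values in the residue field of `A` -/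

section Branch

variable (A : ValuationSubring Kbar)

theorem h8v_isC_mul {a a' : Kbar} (ha : h11t_IsC A a) (ha' : h11t_IsC A a') :
    h11t_IsC A (a * a') := by
  obtain ⟨h0, h1, h2, h3⟩ := ha
  obtain ⟨h0', h1', h2', h3'⟩ := ha'
  refine ⟨mul_ne_zero h0 h0', A.mul_mem _ _ h1 h1', ?_, fun σ hσ => ?_⟩
  · rw [mul_inv]; exact A.mul_mem _ _ h2 h2'
  · rw [map_mul, h3 σ hσ, h3' σ hσ]

theorem h8v_isC_inv {a : Kbar} (ha : h11t_IsC A a) : h11t_IsC A a⁻¹ := by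
  obtain ⟨h0, h1, h2, h3⟩ := ha
  refine ⟨inv_ne_zero h0, h2, by rwa [inv_inv], fun σ hσ => ?_⟩
  rw [map_inv₀, h3 σ hσ]

theorem h8v_isC_one : h11t_IsC A 1 :=
  ⟨one_ne_zero, A.one_mem, by rw [inv_one]; exact A.one_mem, fun σ _ => map_one σ⟩

theorem h8v_residue_mul {a a' : Kbar} (ha : a ∈ A) (ha' : a' ∈ A) :
    IsLocalRing.residue A ⟨a * a', A.mul_mem _ _ ha ha'⟩ =
      IsLocalRing.residue A ⟨a, ha⟩ * IsLocalRing.residue A ⟨a', ha'⟩ := by
  rw [← map_mul]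
  rfl

theorem h8v_residue_ne_zero {a : Kbar} (ha : h11t_IsC A a) :
    IsLocalRing.residue A ⟨a, ha.2.1⟩ ≠ 0 := by
  intro h
  have h1 := h8v_residue_mul A ha.2.1 ha.2.2.1
  rw [h, zero_mul] at h1
  have h2 : (⟨a * a⁻¹, A.mul_mem _ _ ha.2.1 ha.2.2.1⟩ : A) = 1 :=
    Subtype.ext (mul_inv_cancel₀ ha.1)
  rw [h2, map_one] at h1
  exact one_ne_zero h1

theorem h8v_residue_inv {a : Kbar} (ha : h11t_IsC A a) :
    IsLocalRing.residue A ⟨a⁻¹, ha.2.2.1⟩ = (IsLocalRing.residue A ⟨a, ha.2.1⟩)⁻¹ := by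
  refine eq_inv_of_mul_eq_one_right ?_
  rw [← h8v_residue_mul A ha.2.1 ha.2.2.1]
  have h2 : (⟨a * a⁻¹, A.mul_mem _ _ ha.2.1 ha.2.2.1⟩ : A) = 1 :=
    Subtype.ext (mul_inv_cancel₀ ha.1)
  rw [h2, map_one]

/-- an element of `A` with nonzero residue has its inverse in `A`. -/
theorem h8v_inv_mem_of_residue_ne_zero {a : Kbar} (ha : a ∈ A)
    (h : IsLocalRing.residue A ⟨a, ha⟩ ≠ 0) : a⁻¹ ∈ A := by
  have hu : IsUnit (⟨a, ha⟩ : A) := (IsLocalRing.residue_ne_zero_iff_isUnit _).mp h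
  obtain ⟨u, hu'⟩ := hu
  have h1 : ((u⁻¹ : Aˣ) : A) * ⟨a, ha⟩ = 1 := by rw [← hu']; exact u.inv_mul
  have h2 : (((u⁻¹ : Aˣ) : A) : Kbar) * a = 1 := by
    have := congrArg (Subtype.val : A → Kbar) h1
    simpa using this
  rw [← eq_inv_of_mul_eq_one_left h2]
  exact ((u⁻¹ : Aˣ) : A).2

variable {N : ℕ} (t : FF N) (𝔫 : Ideal (h92c_Chart A N t))

/-- two constants of `A₀` whose difference lies in `𝔫` have the same residue. -/
theorem h8v_residue_eq_of_mem [h𝔫 : 𝔫.IsPrime]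
    (hcstB : ∀ a ∈ A, (∀ σ ∈ A.inertiaSubgroupIn ℚ, σ a = a) → cst N a ∈ h92c_Chart A N t)
    {a a' : Kbar} (ha : h11t_IsC A a) (ha' : h11t_IsC A a')
    (h : ∃ c : h92c_Chart A N t, (c : FF N) = cst N (a - a') ∧ c ∈ 𝔫) :
    IsLocalRing.residue A ⟨a, ha.2.1⟩ = IsLocalRing.residue A ⟨a', ha'.2.1⟩ := by
  by_contra hne
  obtain ⟨c, hc, hc𝔫⟩ := h
  have hd : a - a' ∈ A := A.toSubring.sub_mem ha.2.1 ha'.2.1
  have h1 : IsLocalRing.residue A ⟨a - a', hd⟩ ≠ 0 := by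
    intro h0
    apply hne
    have e : (⟨a - a', hd⟩ : A) = ⟨a, ha.2.1⟩ - ⟨a', ha'.2.1⟩ := rfl
    rw [e, map_sub, sub_eq_zero] at h0
    exact h0
  have h2 : (a - a')⁻¹ ∈ A := h8v_inv_mem_of_residue_ne_zero A hd h1
  have h3 : ∀ σ ∈ A.inertiaSubgroupIn ℚ, σ (a - a')⁻¹ = (a - a')⁻¹ := by
    intro σ hσ
    rw [map_inv₀, map_sub, ha.2.2.2 σ hσ, ha'.2.2.2 σ hσ]
  have h4 := hcstB _ h2 h3
  have h0 : a - a' ≠ 0 := by
    intro h0
    apply h1
    have : (⟨a - a', hd⟩ : A) = 0 := Subtype.ext h0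
    rw [this, map_zero]
  apply (Ideal.ne_top_iff_one 𝔫).mp h𝔫.ne_top
  have e : (1 : h92c_Chart A N t) = c * ⟨_, h4⟩ := by
    apply Subtype.ext
    show (1 : FF N) = (c : FF N) * cst N (a - a')⁻¹
    rw [hc]
    show (1 : FF N) = algebraMap Kbar (FF N) (a - a') * algebraMap Kbar (FF N) (a - a')⁻¹
    rw [← map_mul, mul_inv_cancel₀ h0, map_one]
  rw [e]
  exact 𝔫.mul_mem_right _ hc𝔫

/-- a constant of `A₀ˣ` is not in `𝔫`. -/
theorem h8v_cst_notMem [h𝔫 : 𝔫.IsPrime]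
    (hcstB : ∀ a ∈ A, (∀ σ ∈ A.inertiaSubgroupIn ℚ, σ a = a) → cst N a ∈ h92c_Chart A N t)
    {a : Kbar} (ha : h11t_IsC A a) {c : h92c_Chart A N t} (hc : (c : FF N) = cst N a) :
    c ∉ 𝔫 := by
  intro hc𝔫
  have h4 := hcstB _ ha.2.2.1 (h8v_isC_inv A ha).2.2.2
  apply (Ideal.ne_top_iff_one 𝔫).mp h𝔫.ne_top
  have e : (1 : h92c_Chart A N t) = c * ⟨_, h4⟩ := by
    apply Subtype.ext
    show (1 : FF N) = (c : FF N) * cst N a⁻¹
    rw [hc]
    show (1 : FF N) = algebraMap Kbar (FF N) a * algebraMap Kbar (FF N) a⁻¹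
    rw [← map_mul, mul_inv_cancel₀ ha.1, map_one]
  rw [e]
  exact 𝔫.mul_mem_right _ hc𝔫

/-- **the branch of `E` at `𝔫`** as an abstract branch with values in the residue field of
`A`: `rel x κ` iff `x` has a constant branch value `a ∈ A₀ˣ` with residue `κ`. -/
def h8v_branch [h𝔫 : 𝔫.IsPrime] (E : FF N →+* LaurentSeries Kbar)
    (hint : ∀ b : h92c_Chart A N t, E (b : FF N) ∈ softOT A (IsLocalRing.residue A))
    (hcen : h11l_Centred A t 𝔫 E)
    (hcstB : ∀ a ∈ A, (∀ σ ∈ A.inertiaSubgroupIn ℚ, σ a = a) → cst N a ∈ h92c_Chart A N t) :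
    H11Branch (FF N) (IsLocalRing.ResidueField A) where
  rel x κ := ∃ a : Kbar, ∃ ha : h11t_IsC A a,
    IsLocalRing.residue A ⟨a, ha.2.1⟩ = κ ∧ h11t_cBV A t 𝔫 E x a
  mul := by
    rintro x y κ κ' ⟨a, ha, rfl, hx⟩ ⟨a', ha', rfl, hy⟩
    exact ⟨a * a', h8v_isC_mul A ha ha', h8v_residue_mul A ha.2.1 ha'.2.1,
      h8v_cbv_mul A t 𝔫 E hint hx hy⟩
  inv := by
    rintro x κ ⟨a, ha, rfl, hx⟩
    exact ⟨a⁻¹, h8v_isC_inv A ha, h8v_residue_inv A ha,
      h8v_cbv_inv A t 𝔫 E hint hcen ha.1 (hcstB _ ha.2.2.1 (h8v_isC_inv A ha).2.2.2) hx⟩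
  ne_zero := by
    rintro x κ ⟨a, ha, rfl, -⟩
    exact h8v_residue_ne_zero A ha
  ne_zero' := by
    rintro x κ ⟨a, ha, -, c, hc, hx⟩
    exact (h8v_bv_unit A t 𝔫 E hint hcen hx (h8v_cst_notMem A t 𝔫 hcstB ha hc)).1
  uniq := by
    rintro x κ κ' ⟨a, ha, rfl, hx⟩ ⟨a', ha', rfl, hx'⟩
    exact h8v_residue_eq_of_mem A t 𝔫 hcstB ha ha' (h8v_cbv_unique A t 𝔫 E hint hcen hx hx')

theorem h8v_branch_rel [h𝔫 : 𝔫.IsPrime] (E : FF N →+* LaurentSeries Kbar)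
    (hint : ∀ b : h92c_Chart A N t, E (b : FF N) ∈ softOT A (IsLocalRing.residue A))
    (hcen : h11l_Centred A t 𝔫 E)
    (hcstB : ∀ a ∈ A, (∀ σ ∈ A.inertiaSubgroupIn ℚ, σ a = a) → cst N a ∈ h92c_Chart A N t)
    (x : FF N) (κ : IsLocalRing.ResidueField A) :
    (h8v_branch A t 𝔫 E hint hcen hcstB).rel x κ ↔
      ∃ a : Kbar, ∃ ha : h11t_IsC A a,
        IsLocalRing.residue A ⟨a, ha.2.1⟩ = κ ∧ h11t_cBV A t 𝔫 E x a :=
  Iff.rfl

/-- **the units of `B_𝔫`** as an `H11Local`, at a rational closed point `𝔫` (`hrat`). -/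
def h8v_local [h𝔫 : 𝔫.IsMaximal] {ι : Type*} (Es : ι → (FF N →+* LaurentSeries Kbar))
    (hint : ∀ i, ∀ b : h92c_Chart A N t, Es i (b : FF N) ∈ softOT A (IsLocalRing.residue A))
    (hcen : ∀ i, h11l_Centred A t 𝔫 (Es i))
    (hcstB : ∀ a ∈ A, (∀ σ ∈ A.inertiaSubgroupIn ℚ, σ a = a) → cst N a ∈ h92c_Chart A N t)
    (hrat : ∀ c : h92c_Chart A N t, c ∉ 𝔫 → ∃ a : Kbar, h11t_IsC A a ∧
      ∃ c' : h92c_Chart A N t, (c' : FF N) = cst N a ∧ c - c' ∈ 𝔫) :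
    H11Local (FF N) (IsLocalRing.ResidueField A) ι
      (fun i => h8v_branch A t 𝔫 (Es i) (hint i) (hcen i) hcstB) where
  unit := h11t_UnitAt A t 𝔫
  mul := fun hx hy => h8v_unitAt_mul A t 𝔫 hx hy
  inv := fun hx => h8v_unitAt_inv A t 𝔫 hx
  val := by
    intro x hx
    obtain ⟨c, hc, hbv⟩ := h8v_bv_of_unitAt A t 𝔫 hx
    obtain ⟨a, ha, c', hc', hcc'⟩ := hrat c hc
    exact ⟨IsLocalRing.residue A ⟨a, ha.2.1⟩, fun i =>
      ⟨a, ha, rfl, c', hc', h8v_bv_val_congr A t 𝔫 (Es i) (hbv (Es i)) hcc'⟩⟩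

end Branch

end Fermat.Agent.S36
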