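import Fermat.Agent.S36.H71TorIface
import Fermat.Agent.S36.H41TN2
import Fermat.Agent.S36.H12TorUnit
import Fermat.Agent.S36.H8BVCalc
import Fermat.Agent.S36.V28TorBasic
import Fermat.Agent.LGC.H60CompInf

/-!
# S36, block T, rows T-NORM-A / T-NORM-B: the adapter (helper71, prefix `h71z_`)

`H71TorExpA/B` (export of R-TOWER-SS: generation of the local ring at a supersingular point)
gives the two inputs of the cores of T-NORM-A/B (`S36/H71TorIface.lean`):

* `h71z_genA`, `h71z_genB` : `H71TorExpA → H71TorGenA`, `H71TorExpB → H71TorGenB` (TN2);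
* `h71z_cenA`, `h71z_cenB` : `H71TorExpA → H71TorCenA`, `H71TorExpB → H71TorCenB`
  (the three components pass through a supersingular point).

Ingredients: the congruences of the generators (`S36/H41TN2.lean`, helper41):
`Z ≡ Y^q` (`E20`), `Z ≡ X` (`E11`), `Z^q ≡ Y` (`E02`), `X^q ≡ Y` (`E20`), `X ≡ Y^q` (`E02`);
the polynomial congruences `h71z_poly_sep`, `h71z_poly_insep`; `H11TorBasic`
(`V28.h28t_torBasic`, helper28).

## Abstract part (any `φ : FF N' →+* FF N`, charts `B'`, `B`, embedding `E`)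

* `h71z_poly_sep`   : `G ≡ φ g` ⟹ `p(G) ≡ φ (p(g))`;
* `h71z_poly_insep` : `G^q ≡ φ g` ⟹ `p(G)^q ≡ φ (∑ pᵢ^q g^i)`;
* `h71z_sep_of_exp`, `h71z_insep_of_exp` : TN2 from the generation;
* `h71z_cen_sep_of_exp`, `h71z_cen_insep_of_exp` : centredness from the generation.
-/

set_option autoImplicit false
set_option linter.unusedSectionVars false
set_option linter.style.haveILetI false

open AlgebraicCurve ModularCurve Polynomial

noncomputable section

namespace Fermat.Agent.S36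

open Fermat.Agent.S37 (Kbar GQ FF cst jB gal modelAt degen auxLevel IsRat)
open Fermat.Agent.Red.KR (normAlong)
open Fermat.Agent.Red.Kron (kFricke twistK)
open Fermat.Agent.Red.GV.Soft

/-! ## Reduction of polynomial values -/

section Poly

variable (A : ValuationSubring Kbar) {N' N : ℕ} (φ : FF N' →+* FF N) (t' : FF N')
  (E : FF N →+* LaurentSeries Kbar)

/-- `E ∘ φ` on the chart, with values in the Gauss ring. -/
def h71zF (hint : ∀ b' : h92c_Chart A N' t', E (φ (b' : FF N')) ∈ softOT A (IsLocalRing.residue A)) :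
    h92c_Chart A N' t' →+* softOT A (IsLocalRing.residue A) :=
  (E.comp (φ.comp (h92c_Chart A N' t').subtype)).codRestrict (softOT A (IsLocalRing.residue A))
    (fun b => hint b)

theorem h71z_coe_F
    (hint : ∀ b' : h92c_Chart A N' t', E (φ (b' : FF N')) ∈ softOT A (IsLocalRing.residue A))
    (b' : h92c_Chart A N' t') :
    ((h71zF A φ t' E hint b' : softOT A (IsLocalRing.residue A)) : LaurentSeries Kbar) =
      E (φ (b' : FF N')) := rfl

/-- the value of a polynomial at a Gauss-integral point, in the Gauss ring. -/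
theorem h71z_eval₂_coe
    (hint : ∀ b' : h92c_Chart A N' t', E (φ (b' : FF N')) ∈ softOT A (IsLocalRing.residue A))
    (p : (h92c_Chart A N' t')[X]) {G : FF N} (hG : E G ∈ softOT A (IsLocalRing.residue A)) :
    E (p.eval₂ (φ.comp (h92c_Chart A N' t').subtype) G) =
      ((p.eval₂ (h71zF A φ t' E hint) ⟨E G, hG⟩ : softOT A (IsLocalRing.residue A)) :
        LaurentSeries Kbar) := by
  have h1 := Polynomial.hom_eval₂ p (φ.comp (h92c_Chart A N' t').subtype) E G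
  have h2 := Polynomial.hom_eval₂ p (h71zF A φ t' E hint)
    (softOT A (IsLocalRing.residue A)).subtype ⟨E G, hG⟩
  rw [h1]
  exact h2.symm

theorem h71z_eval₂_mem
    (hint : ∀ b' : h92c_Chart A N' t', E (φ (b' : FF N')) ∈ softOT A (IsLocalRing.residue A))
    (p : (h92c_Chart A N' t')[X]) {G : FF N} (hG : E G ∈ softOT A (IsLocalRing.residue A)) :
    E (p.eval₂ (φ.comp (h92c_Chart A N' t').subtype) G) ∈ softOT A (IsLocalRing.residue A) := by
  rw [h71z_eval₂_coe A φ t' E hint p hG]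
  exact Subtype.property _

/-- the reduction of the value of a polynomial. -/
theorem h71z_red_eval₂
    (hint : ∀ b' : h92c_Chart A N' t', E (φ (b' : FF N')) ∈ softOT A (IsLocalRing.residue A))
    (p : (h92c_Chart A N' t')[X]) {G : FF N} (hG : E G ∈ softOT A (IsLocalRing.residue A)) :
    softRedT A (IsLocalRing.residue A)
        ⟨E (p.eval₂ (φ.comp (h92c_Chart A N' t').subtype) G), h71z_eval₂_mem A φ t' E hint p hG⟩ =
      p.eval₂ ((softRedT A (IsLocalRing.residue A)).comp (h71zF A φ t' E hint))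
        (softRedT A (IsLocalRing.residue A) ⟨E G, hG⟩) := by
  have e : (⟨E (p.eval₂ (φ.comp (h92c_Chart A N' t').subtype) G),
      h71z_eval₂_mem A φ t' E hint p hG⟩ : softOT A (IsLocalRing.residue A)) =
      p.eval₂ (h71zF A φ t' E hint) ⟨E G, hG⟩ :=
    Subtype.ext (h71z_eval₂_coe A φ t' E hint p hG)
  rw [e]
  exact Polynomial.hom_eval₂ p (h71zF A φ t' E hint) (softRedT A (IsLocalRing.residue A)) _

/-- `x ≡ y` (small difference) iff the reductions coincide. -/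
theorem h71z_small_sub_iff {x y : FF N} (hx : E x ∈ softOT A (IsLocalRing.residue A))
    (hy : E y ∈ softOT A (IsLocalRing.residue A)) :
    h11l_Small A E (x - y) ↔
      softRedT A (IsLocalRing.residue A) ⟨E x, hx⟩ =
        softRedT A (IsLocalRing.residue A) ⟨E y, hy⟩ := by
  have hxy : E (x - y) ∈ softOT A (IsLocalRing.residue A) := by
    rw [map_sub]; exact sub_mem hx hy
  have e : (⟨E (x - y), hxy⟩ : softOT A (IsLocalRing.residue A)) = ⟨E x, hx⟩ - ⟨E y, hy⟩ :=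
    Subtype.ext (map_sub E x y)
  constructor
  · rintro ⟨h1, h2⟩
    have h3 : softRedT A (IsLocalRing.residue A) ⟨E (x - y), hxy⟩ = 0 := h2
    rw [e, map_sub, sub_eq_zero] at h3
    exact h3
  · intro h
    refine ⟨hxy, ?_⟩
    rw [e, map_sub, h, sub_self]

/-- **polynomial congruence, separable form.** -/
theorem h71z_poly_sep
    (hint : ∀ b' : h92c_Chart A N' t', E (φ (b' : FF N')) ∈ softOT A (IsLocalRing.residue A))
    (p : (h92c_Chart A N' t')[X]) {G : FF N} (g : h92c_Chart A N' t')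
    (h : h11l_Small A E (G - φ (g : FF N'))) :
    h11l_Small A E (p.eval₂ (φ.comp (h92c_Chart A N' t').subtype) G -
      φ ((p.eval g : h92c_Chart A N' t') : FF N')) := by
  have hG : E G ∈ softOT A (IsLocalRing.residue A) := by
    have e : G = (G - φ (g : FF N')) + φ (g : FF N') := by ring
    rw [e, map_add]
    exact add_mem h.1 (hint g)
  rw [h71z_small_sub_iff A E (h71z_eval₂_mem A φ t' E hint p hG) (hint _),
    h71z_red_eval₂ A φ t' E hint p hG]
  have h1 := (h71z_small_sub_iff A E hG (hint g)).mp h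
  rw [h1]
  have h2 := Polynomial.eval₂_at_apply (p := p)
    ((softRedT A (IsLocalRing.residue A)).comp (h71zF A φ t' E hint)) g
  exact h2


/-- the coefficientwise `q`-th power twist of the value of `p` at `g`:
`∑ pᵢ ^ q g ^ i`. -/
def h71zPq (q : ℕ) (p : (h92c_Chart A N' t')[X]) (g : h92c_Chart A N' t') :
    h92c_Chart A N' t' :=
  ∑ i ∈ p.support, p.coeff i ^ q * g ^ i

/-- **polynomial congruence, Frobenius form.** -/
theorem h71z_poly_insep (q : ℕ) (hq : q.Prime) (hA : A.LiesOverPrime q)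
    (hint : ∀ b' : h92c_Chart A N' t', E (φ (b' : FF N')) ∈ softOT A (IsLocalRing.residue A))
    (p : (h92c_Chart A N' t')[X]) {G : FF N} (hG : E G ∈ softOT A (IsLocalRing.residue A))
    (g : h92c_Chart A N' t') (h : h11l_Small A E (G ^ q - φ (g : FF N'))) :
    h11l_Small A E ((p.eval₂ (φ.comp (h92c_Chart A N' t').subtype) G) ^ q -
      φ ((h71zPq A t' q p g : h92c_Chart A N' t') : FF N')) := by
  haveI : Fact q.Prime := ⟨hq⟩
  haveI := h1g_charP_laurent q hq A hA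
  have hP := h71z_eval₂_mem A φ t' E hint p hG
  have hPq : E ((p.eval₂ (φ.comp (h92c_Chart A N' t').subtype) G) ^ q) ∈
      softOT A (IsLocalRing.residue A) := by
    rw [map_pow]; exact pow_mem hP q
  have hGq : E (G ^ q) ∈ softOT A (IsLocalRing.residue A) := by
    rw [map_pow]; exact pow_mem hG q
  rw [h71z_small_sub_iff A E hPq (hint _)]
  have h1 := (h71z_small_sub_iff A E hGq (hint g)).mp h
  have e1 : (⟨E (G ^ q), hGq⟩ : softOT A (IsLocalRing.residue A)) = ⟨E G, hG⟩ ^ q :=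
    Subtype.ext (map_pow E G q)
  rw [e1, map_pow] at h1
  have e2 : (⟨E ((p.eval₂ (φ.comp (h92c_Chart A N' t').subtype) G) ^ q), hPq⟩ :
      softOT A (IsLocalRing.residue A)) =
      ⟨E (p.eval₂ (φ.comp (h92c_Chart A N' t').subtype) G), hP⟩ ^ q :=
    Subtype.ext (map_pow E _ q)
  rw [e2, map_pow, h71z_red_eval₂ A φ t' E hint p hG, Polynomial.eval₂_eq_sum,
    Polynomial.sum_def, sum_pow_char]
  set ρ := (softRedT A (IsLocalRing.residue A)).comp (h71zF A φ t' E hint) with hρ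
  have e3 : softRedT A (IsLocalRing.residue A) ⟨E (φ ((h71zPq A t' q p g :
      h92c_Chart A N' t') : FF N')), hint _⟩ = ρ (h71zPq A t' q p g) := rfl
  have e4 : softRedT A (IsLocalRing.residue A) ⟨E (φ (g : FF N')), hint g⟩ = ρ g := rfl
  rw [e3, h71zPq, map_sum]
  refine Finset.sum_congr rfl fun i _ => ?_
  rw [map_mul, map_pow, map_pow, mul_pow, ← pow_mul, mul_comm i q, pow_mul, h1, e4]

end Poly


/-! ## The abstract adapter -/

section Adapter

variable (A : ValuationSubring Kbar) {N' N : ℕ} (φ : FF N' →+* FF N) (t' : FF N') (t : FF N)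
  (𝔫' : Ideal (h92c_Chart A N' t')) (𝔫 : Ideal (h92c_Chart A N t))
  (E : FF N →+* LaurentSeries Kbar)

/-- `𝔫' = φ⁻¹ 𝔫`, in the form of a membership criterion. -/
theorem h71z_under_iff (hφ : ∀ b' : h92c_Chart A N' t', φ (b' : FF N') ∈ h92c_Chart A N t)
    (hU : h11t_Under A φ t' t 𝔫' 𝔫) (y : h92c_Chart A N' t') :
    y ∈ 𝔫' ↔ (⟨φ (y : FF N'), hφ y⟩ : h92c_Chart A N t) ∈ 𝔫 := by
  rw [hU y]
  constructor
  · rintro ⟨b, hb, hbe⟩
    have e : b = ⟨φ (y : FF N'), hφ y⟩ := Subtype.ext hbe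
    rw [← e]
    exact hb
  · intro h
    exact ⟨_, h, rfl⟩

/-- **TN2 (separable)** from the generation. -/
theorem h71z_sep_of_exp
    (hint : ∀ b' : h92c_Chart A N' t', E (φ (b' : FF N')) ∈ softOT A (IsLocalRing.residue A))
    {G b : FF N} (g : h92c_Chart A N' t') (hG : h11l_Small A E (G - φ (g : FF N')))
    (hexp : h71z_ExpAt A φ t' 𝔫' G b) : h71z_SepAt A φ t' 𝔫' E b := by
  obtain ⟨d, p, hd, hdp⟩ := hexp
  refine ⟨d, p.eval g, hd, ?_⟩
  rw [hdp]
  exact h71z_poly_sep A φ t' E hint p g hG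

/-- **TN2 (purely inseparable)** from the generation. -/
theorem h71z_insep_of_exp (q : ℕ) (hq : q.Prime) (hA : A.LiesOverPrime q)
    (hint : ∀ b' : h92c_Chart A N' t', E (φ (b' : FF N')) ∈ softOT A (IsLocalRing.residue A))
    {G b : FF N} (hGint : E G ∈ softOT A (IsLocalRing.residue A))
    (g : h92c_Chart A N' t') (hG : h11l_Small A E (G ^ q - φ (g : FF N')))
    (hexp : h71z_ExpAt A φ t' 𝔫' G b) : h71z_InsepAt A φ t' 𝔫' E q b := by
  obtain ⟨d, p, hd, hdp⟩ := hexp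
  refine ⟨d, h71zPq A t' q p g, hd, ?_⟩
  rw [hdp]
  exact h71z_poly_insep A φ t' E q hq hA hint p hGint g hG

/-- the constant coefficient lies in `𝔫'` if the value at a point of `𝔫'` does. -/
theorem h71z_coeff_zero_of_eval (p : (h92c_Chart A N' t')[X]) (g : h92c_Chart A N' t')
    (hg : g ∈ 𝔫') (h : p.eval g ∈ 𝔫') : p.coeff 0 ∈ 𝔫' := by
  have h1 : g - 0 ∣ p.eval g - p.eval 0 := Polynomial.sub_dvd_eval_sub g 0 p
  rw [sub_zero, ← Polynomial.coeff_zero_eq_eval_zero] at h1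
  obtain ⟨c, hc⟩ := h1
  have h2 : p.coeff 0 = p.eval g - g * c := by rw [← hc]; ring
  rw [h2]
  exact Ideal.sub_mem _ h (Ideal.mul_mem_right _ _ hg)

/-- the same for the Frobenius twist. -/
theorem h71z_coeff_zero_of_Pq [h𝔫' : 𝔫'.IsPrime] (q : ℕ)
    (p : (h92c_Chart A N' t')[X]) (g : h92c_Chart A N' t')
    (hg : g ∈ 𝔫') (h : h71zPq A t' q p g ∈ 𝔫') : p.coeff 0 ∈ 𝔫' := by
  classical
  by_cases h0 : p.coeff 0 = 0
  · rw [h0]; exact 𝔫'.zero_mem
  have hs : (0 : ℕ) ∈ p.support := Polynomial.mem_support_iff.mpr h0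
  rw [h71zPq, ← Finset.add_sum_erase _ _ hs, pow_zero, mul_one] at h
  have h1 : ∑ i ∈ p.support.erase 0, p.coeff i ^ q * g ^ i ∈ 𝔫' := by
    refine Ideal.sum_mem _ fun i hi => ?_
    have hi0 : i ≠ 0 := (Finset.mem_erase.mp hi).1
    exact Ideal.mul_mem_left _ _ (Ideal.pow_mem_of_mem _ hg i (Nat.pos_of_ne_zero hi0))
  have h2 : p.coeff 0 ^ q ∈ 𝔫' := by
    have e : p.coeff 0 ^ q = (p.coeff 0 ^ q + ∑ i ∈ p.support.erase 0, p.coeff i ^ q * g ^ i)
        - ∑ i ∈ p.support.erase 0, p.coeff i ^ q * g ^ i := by ring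
    rw [e]
    exact Ideal.sub_mem _ h h1
  exact h𝔫'.mem_of_pow_mem q h2

/-- the end of the centredness argument: `φ d · b = p(G)`, `G ∈ 𝔫`, `p(0) ∈ 𝔫'` ⟹ `b ∈ 𝔫`. -/
theorem h71z_mem_of_coeff_zero [h𝔫 : 𝔫.IsPrime]
    (hφ : ∀ b' : h92c_Chart A N' t', φ (b' : FF N') ∈ h92c_Chart A N t)
    (hU : h11t_Under A φ t' t 𝔫' 𝔫) (Z : h92c_Chart A N t) (hZ : Z ∈ 𝔫)
    (b : h92c_Chart A N t) (d : h92c_Chart A N' t') (hd : d ∉ 𝔫')
    (p : (h92c_Chart A N' t')[X])
    (hdp : φ (d : FF N') * (b : FF N) =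
      p.eval₂ (φ.comp (h92c_Chart A N' t').subtype) (Z : FF N))
    (h0 : p.coeff 0 ∈ 𝔫') : b ∈ 𝔫 := by
  let fB : h92c_Chart A N' t' →+* h92c_Chart A N t :=
    (φ.comp (h92c_Chart A N' t').subtype).codRestrict (h92c_Chart A N t) (fun b' => hφ b')
  have hfB : ∀ y, fB y = ⟨φ (y : FF N'), hφ y⟩ := fun y => rfl
  have hcoe : ((p.eval₂ fB Z : h92c_Chart A N t) : FF N) =
      p.eval₂ (φ.comp (h92c_Chart A N' t').subtype) (Z : FF N) :=
    Polynomial.hom_eval₂ p fB (h92c_Chart A N t).subtype Z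
  have h1 : p.eval₂ fB Z ∈ 𝔫 := by
    rw [Polynomial.eval₂_eq_eval_map]
    have h2 : Z - 0 ∣ (p.map fB).eval Z - (p.map fB).eval 0 :=
      Polynomial.sub_dvd_eval_sub Z 0 (p.map fB)
    rw [sub_zero, ← Polynomial.coeff_zero_eq_eval_zero, Polynomial.coeff_map] at h2
    obtain ⟨c, hc⟩ := h2
    have h3 : (p.map fB).eval Z = fB (p.coeff 0) + Z * c := by rw [← hc]; ring
    rw [h3]
    refine Ideal.add_mem _ ?_ (Ideal.mul_mem_right _ _ hZ)
    rw [hfB]
    exact (h71z_under_iff A φ t' t 𝔫' 𝔫 hφ hU _).mp h0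
  have h4 : fB d * b = p.eval₂ fB Z := by
    apply Subtype.ext
    rw [hcoe, ← hdp]
    rfl
  rw [← h4] at h1
  rcases h𝔫.mem_or_mem h1 with h | h
  · exact absurd ((h71z_under_iff A φ t' t 𝔫' 𝔫 hφ hU d).mpr (by rw [← hfB]; exact h)) hd
  · exact h

/-- **centredness (separable branch)** from the generation. -/
theorem h71z_cen_sep_of_exp [h𝔫 : 𝔫.IsPrime]
    (hφ : ∀ b' : h92c_Chart A N' t', φ (b' : FF N') ∈ h92c_Chart A N t)
    (hU : h11t_Under A φ t' t 𝔫' 𝔫)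
    (hintB : ∀ b : h92c_Chart A N t, E (b : FF N) ∈ softOT A (IsLocalRing.residue A))
    (hrefl : ∀ y : h92c_Chart A N' t', h11l_Small A E (φ (y : FF N')) → y ∈ 𝔫')
    (Z : h92c_Chart A N t) (hZ : Z ∈ 𝔫) (g : h92c_Chart A N' t') (hg : g ∈ 𝔫')
    (hG : h11l_Small A E ((Z : FF N) - φ (g : FF N')))
    (b : h92c_Chart A N t) (hexp : h71z_ExpAt A φ t' 𝔫' (Z : FF N) (b : FF N))
    (hb : h11l_Small A E (b : FF N)) : b ∈ 𝔫 := by
  have hint : ∀ b' : h92c_Chart A N' t',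
      E (φ (b' : FF N')) ∈ softOT A (IsLocalRing.residue A) := fun b' => hintB ⟨_, hφ b'⟩
  obtain ⟨d, p, hd, hdp⟩ := hexp
  have h1 : h11l_Small A E (p.eval₂ (φ.comp (h92c_Chart A N' t').subtype) (Z : FF N)) := by
    rw [← hdp]
    exact h8v_small_mul' A E (hint d) hb
  have h2 := h71z_poly_sep A φ t' E hint p g hG
  have h3 : h11l_Small A E (φ ((p.eval g : h92c_Chart A N' t') : FF N')) := by
    have e : φ ((p.eval g : h92c_Chart A N' t') : FF N') =
        p.eval₂ (φ.comp (h92c_Chart A N' t').subtype) (Z : FF N) -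
          (p.eval₂ (φ.comp (h92c_Chart A N' t').subtype) (Z : FF N) -
            φ ((p.eval g : h92c_Chart A N' t') : FF N')) := by ring
    rw [e]
    exact h8v_small_sub A E h1 h2
  have h4 := h71z_coeff_zero_of_eval A t' 𝔫' p g hg (hrefl _ h3)
  exact h71z_mem_of_coeff_zero A φ t' t 𝔫' 𝔫 hφ hU Z hZ b d hd p hdp h4

/-- **centredness (purely inseparable branch)** from the generation. -/
theorem h71z_cen_insep_of_exp [h𝔫 : 𝔫.IsPrime] [h𝔫' : 𝔫'.IsPrime]
    (q : ℕ) (hq : q.Prime) (hA : A.LiesOverPrime q)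
    (hφ : ∀ b' : h92c_Chart A N' t', φ (b' : FF N') ∈ h92c_Chart A N t)
    (hU : h11t_Under A φ t' t 𝔫' 𝔫)
    (hintB : ∀ b : h92c_Chart A N t, E (b : FF N) ∈ softOT A (IsLocalRing.residue A))
    (hrefl : ∀ y : h92c_Chart A N' t', h11l_Small A E (φ (y : FF N')) → y ∈ 𝔫')
    (Z : h92c_Chart A N t) (hZ : Z ∈ 𝔫) (g : h92c_Chart A N' t') (hg : g ∈ 𝔫')
    (hG : h11l_Small A E ((Z : FF N) ^ q - φ (g : FF N')))
    (b : h92c_Chart A N t) (hexp : h71z_ExpAt A φ t' 𝔫' (Z : FF N) (b : FF N))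
    (hb : h11l_Small A E (b : FF N)) : b ∈ 𝔫 := by
  have hint : ∀ b' : h92c_Chart A N' t',
      E (φ (b' : FF N')) ∈ softOT A (IsLocalRing.residue A) := fun b' => hintB ⟨_, hφ b'⟩
  obtain ⟨d, p, hd, hdp⟩ := hexp
  have h1 : h11l_Small A E (p.eval₂ (φ.comp (h92c_Chart A N' t').subtype) (Z : FF N)) := by
    rw [← hdp]
    exact h8v_small_mul' A E (hint d) hb
  have h1' : h11l_Small A E
      ((p.eval₂ (φ.comp (h92c_Chart A N' t').subtype) (Z : FF N)) ^ q) := by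
    obtain ⟨k, hk⟩ : ∃ k, q = k + 1 := ⟨q - 1, (Nat.succ_pred_eq_of_pos hq.pos).symm⟩
    rw [hk, pow_succ]
    refine h8v_small_mul' A E ?_ h1
    rw [map_pow]
    exact pow_mem h1.1 k
  have h2 := h71z_poly_insep A φ t' E q hq hA hint p (hintB Z) g hG
  have h3 : h11l_Small A E (φ ((h71zPq A t' q p g : h92c_Chart A N' t') : FF N')) := by
    have e : φ ((h71zPq A t' q p g : h92c_Chart A N' t') : FF N') =
        (p.eval₂ (φ.comp (h92c_Chart A N' t').subtype) (Z : FF N)) ^ q -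
          ((p.eval₂ (φ.comp (h92c_Chart A N' t').subtype) (Z : FF N)) ^ q -
            φ ((h71zPq A t' q p g : h92c_Chart A N' t') : FF N')) := by ring
    rw [e]
    exact h8v_small_sub A E h1' h2
  have h4 := h71z_coeff_zero_of_Pq A t' 𝔫' q p g hg (hrefl _ h3)
  exact h71z_mem_of_coeff_zero A φ t' t 𝔫' 𝔫 hφ hU Z hZ b d hd p hdp h4

end Adapter

/-! ## Reflection of smallness -/

section Reflect

variable (A : ValuationSubring Kbar)

/-- `s(t^d)` small ⟹ `s` small, for Gauss-integral `s`. -/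
theorem h71z_small_of_qExpand (d : ℕ) [NeZero d] {s : LaurentSeries Kbar}
    (hs : s ∈ softOT A (IsLocalRing.residue A)) (h : h41x_Small A (qExpand Kbar d s)) :
    h41x_Small A s := by
  obtain ⟨m, r⟩ := h
  refine ⟨hs, ?_⟩
  have h1 := softRedT_qExpand A (IsLocalRing.residue A) d ⟨s, hs⟩ m
  rw [r] at h1
  apply qExpand_injective (R := IsLocalRing.ResidueField A) (N := d)
  rw [← h1, map_zero]

/-- `s(ζ t)` small ⟹ `s` small, for Gauss-integral `s` of finite denominator type. -/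
theorem h71z_small_of_twist (q : ℕ) (hq : q.Prime) (hA : A.LiesOverPrime q) (ζ : Kbar)
    (hζ : ζ ^ q = 1) {s : LaurentSeries Kbar} (hs : s ∈ softOT A (IsLocalRing.residue A))
    (hsDF : s ∈ dfField (K := Kbar)) (h : h41x_Small A (twistK ζ s)) : h41x_Small A s := by
  have h1 := h41y_smallS_twist (A := A) q hq hA ζ 1 (by rw [pow_one]; exact hζ) hs hsDF
  have e : s = twistK ζ s - (twistK ζ s - s) := by ring
  rw [e]
  exact h41y_smallS_sub h h1

end Reflect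


/-! ## The concrete adapter: `H71TorExpA/B → H71TorGenA/B ∧ H71TorCenA/B` -/

section Concrete

theorem h71z_softV_of_chart {q : ℕ} (hq : q.Prime) (A : ValuationSubring Kbar)
    (hA : A.LiesOverPrime q) (M : ℕ) [NeZero M] {u : FF M}
    (hu : u ∈ h92c_Chart A M (jB M)) : u ∈ softV A M :=
  haveI : NeZero q := ⟨hq.ne_zero⟩
  Fermat.Agent.LGC.h60i_modelAt_le_softV (ℓ := q) hq hA M
    ⟨jB M, gaussV_le_softV A M (Fermat.Agent.Red.GV.jB_mem_gaussV A M)⟩ hu.1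

variable {M q : ℕ} [NeZero M] [NeZero q]

/-- `E20 (α y) = Einf y`. -/
theorem h71z_small_E20_alpha (A : ValuationSubring Kbar) (y : FF (M * q)) :
    h11l_Small A (h20n_E20 M q) (heckeAlphaBar Kbar (M * q) q y) ↔
      h11l_Small A (h11t_Einf M q) y := by
  rw [h41y_small_iff, h41y_small_iff, h41x_E20_apply, coe_heckeAlphaBar, h41y_Einf_apply]

/-- `E11 (α y) = Einf y`. -/
theorem h71z_small_E11_alpha (A : ValuationSubring Kbar) (hq : q.Prime) (hqM : ¬ q ∣ M)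
    (ζ : Kbar) (E : FF (M * q * q) →+* LaurentSeries Kbar) (hE : h20n_IsE11 M q hq hqM ζ E)
    (y : FF (M * q)) :
    h11l_Small A E (heckeAlphaBar Kbar (M * q) q y) ↔ h11l_Small A (h11t_Einf M q) y := by
  rw [h41y_small_iff, h41y_small_iff, hE.1, h41y_Einf_apply]

/-- `E02 (β y) = Ezero y`. -/
theorem h71z_small_E02_beta (A : ValuationSubring Kbar) (hq : q.Prime) (hqM : ¬ q ∣ M)
    (E : FF (M * q * q) →+* LaurentSeries Kbar) (hE : h20n_IsE02 M q hq hqM E)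
    (y : FF (M * q)) :
    h11l_Small A E (heckeBetaBar Kbar (M * q) q y) ↔
      h11l_Small A (h11t_Ezero M q hq hqM) y := by
  rw [h41y_small_iff, h41y_small_iff, hE.2, h41y_Ezero_apply]

/-- `E02 (α y) = (Ezero y)(t^q)`. -/
theorem h71z_small_E02_alpha (A : ValuationSubring Kbar) (hq : q.Prime) (hqM : ¬ q ∣ M)
    (E : FF (M * q * q) →+* LaurentSeries Kbar) (hE : h20n_IsE02 M q hq hqM E)
    (y : FF (M * q))
    (hy : h11t_Ezero M q hq hqM y ∈ softOT A (IsLocalRing.residue A))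
    (h : h11l_Small A E (heckeAlphaBar Kbar (M * q) q y)) :
    h11l_Small A (h11t_Ezero M q hq hqM) y := by
  rw [h41y_small_iff, hE.1] at h
  rw [h41y_small_iff]
  rw [h41y_Ezero_apply] at hy ⊢
  exact h71z_small_of_qExpand A q hy h

/-- `E20 (β y) = (Einf y)(t^q)`. -/
theorem h71z_small_E20_beta (A : ValuationSubring Kbar) (y : FF (M * q))
    (hy : h11t_Einf M q y ∈ softOT A (IsLocalRing.residue A))
    (h : h11l_Small A (h20n_E20 M q) (heckeBetaBar Kbar (M * q) q y)) :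
    h11l_Small A (h11t_Einf M q) y := by
  rw [h41y_small_iff, h41x_E20_apply, coe_heckeBetaBar] at h
  rw [h41y_small_iff]
  rw [h41y_Einf_apply] at hy ⊢
  exact h71z_small_of_qExpand A q hy h

/-- `E11 (β y) = (Ezero y)(ζ t)`. -/
theorem h71z_small_E11_beta (A : ValuationSubring Kbar) (hq : q.Prime) (hqM : ¬ q ∣ M)
    (hA : A.LiesOverPrime q) (ζ : Kbar) (hζ : ζ ^ q = 1)
    (E : FF (M * q * q) →+* LaurentSeries Kbar) (hE : h20n_IsE11 M q hq hqM ζ E)
    (y : FF (M * q))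
    (hy : h11t_Ezero M q hq hqM y ∈ softOT A (IsLocalRing.residue A))
    (h : h11l_Small A E (heckeBetaBar Kbar (M * q) q y)) :
    h11l_Small A (h11t_Ezero M q hq hqM) y := by
  rw [h41y_small_iff, hE.2] at h
  rw [h41y_small_iff]
  rw [h41y_Ezero_apply] at hy ⊢
  exact h71z_small_of_twist A q hq hA ζ hζ hy (FF_le_dfField (M * q) _) h

/-! ### The congruences for the generators `Z = β β u` (over `α`) and `X = α α u` (over `β`) -/

section Cong

variable (A : ValuationSubring Kbar) (hq : q.Prime) (hqM : ¬ q ∣ M) (hA : A.LiesOverPrime q)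
  (u : FF M) (hrat : IsRat u) (hu : u ∈ softV A M)
  (X₁ Y₁ : h92c_Chart A (M * q) (jB (M * q)))
  (hX₁e : (X₁ : FF (M * q)) = heckeAlphaBar Kbar M q u)
  (hY₁e : (Y₁ : FF (M * q)) = heckeBetaBar Kbar M q u)

include hq hA hrat hu hY₁e in
/-- `Z ≡ α (Y₁ ^ q)` at `E20`. -/
theorem h71z_cong_A20 :
    h11l_Small A (h20n_E20 M q)
      (heckeBetaBar Kbar (M * q) q (heckeBetaBar Kbar M q u) -
        (heckeAlphaBar Kbar (M * q) q : FF (M * q) →+* FF (M * q * q))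
          ((Y₁ ^ q : h92c_Chart A (M * q) (jB (M * q))) : FF (M * q))) := by
  have h := h41y_tn2_E20_ZY A hq hA u hrat hu
  rw [h41y_e2_apply, h41y_e1_apply] at h
  have e : (heckeAlphaBar Kbar (M * q) q : FF (M * q) →+* FF (M * q * q))
      ((Y₁ ^ q : h92c_Chart A (M * q) (jB (M * q))) : FF (M * q)) =
      heckeAlphaBar Kbar (M * q) q (heckeBetaBar Kbar M q u) ^ q := by
    rw [SubmonoidClass.coe_pow, hY₁e, map_pow]
    rfl
  rw [e]
  exact h

include hq hqM hA hu hX₁e in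
/-- `Z ≡ α X₁` at `E11`. -/
theorem h71z_cong_A11 (ζ : Kbar) (hζ : ζ ^ q = 1)
    (E : FF (M * q * q) →+* LaurentSeries Kbar) (hE : h20n_IsE11 M q hq hqM ζ E) :
    h11l_Small A E
      (heckeBetaBar Kbar (M * q) q (heckeBetaBar Kbar M q u) -
        (heckeAlphaBar Kbar (M * q) q : FF (M * q) →+* FF (M * q * q)) (X₁ : FF (M * q))) := by
  have h := h41y_tn2_E11_ZX A hq hqM hA ζ hζ E hE u hu
  rw [h41y_e2_apply, h41y_e0_apply] at h
  rw [hX₁e]
  exact h

include hq hqM hA hrat hu hY₁e in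
/-- `Z ^ q ≡ α Y₁` at `E02`. -/
theorem h71z_cong_A02
    (E : FF (M * q * q) →+* LaurentSeries Kbar) (hE : h20n_IsE02 M q hq hqM E) :
    h11l_Small A E
      (heckeBetaBar Kbar (M * q) q (heckeBetaBar Kbar M q u) ^ q -
        (heckeAlphaBar Kbar (M * q) q : FF (M * q) →+* FF (M * q * q)) (Y₁ : FF (M * q))) := by
  have h := h41y_tn2_E02_ZY A hq hqM hA E hE u hrat hu
  rw [h41y_e2_apply, h41y_e1_apply] at h
  rw [hY₁e]
  exact h

include hq hA hrat hu hX₁e in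
/-- `X ^ q ≡ β X₁` at `E20`. -/
theorem h71z_cong_B20 :
    h11l_Small A (h20n_E20 M q)
      (heckeAlphaBar Kbar (M * q) q (heckeAlphaBar Kbar M q u) ^ q -
        (heckeBetaBar Kbar (M * q) q : FF (M * q) →+* FF (M * q * q)) (X₁ : FF (M * q))) := by
  have h := h41y_tn2_E20_XY A hq hA u hrat hu
  rw [h41y_e0_apply, h67i_e1_eq] at h
  rw [hX₁e]
  exact h

include hq hqM hA hu hY₁e in
/-- `X ≡ β Y₁` at `E11`. -/
theorem h71z_cong_B11 (ζ : Kbar) (hζ : ζ ^ q = 1)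
    (E : FF (M * q * q) →+* LaurentSeries Kbar) (hE : h20n_IsE11 M q hq hqM ζ E) :
    h11l_Small A E
      (heckeAlphaBar Kbar (M * q) q (heckeAlphaBar Kbar M q u) -
        (heckeBetaBar Kbar (M * q) q : FF (M * q) →+* FF (M * q * q)) (Y₁ : FF (M * q))) := by
  have h := h41y_tn2_E11_XZ A hq hqM hA ζ hζ E hE u hu
  rw [h41y_e0_apply, h41y_e2_apply] at h
  rw [hY₁e]
  exact h

include hq hqM hA hrat hu hX₁e in
/-- `X ≡ β (X₁ ^ q)` at `E02`. -/
theorem h71z_cong_B02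
    (E : FF (M * q * q) →+* LaurentSeries Kbar) (hE : h20n_IsE02 M q hq hqM E) :
    h11l_Small A E
      (heckeAlphaBar Kbar (M * q) q (heckeAlphaBar Kbar M q u) -
        (heckeBetaBar Kbar (M * q) q : FF (M * q) →+* FF (M * q * q))
          ((X₁ ^ q : h92c_Chart A (M * q) (jB (M * q))) : FF (M * q))) := by
  have h := h41y_tn2_E02_XY A hq hqM hA E hE u hrat hu
  rw [h41y_e0_apply, h67i_e1_eq] at h
  have e : (heckeBetaBar Kbar (M * q) q : FF (M * q) →+* FF (M * q * q))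
      ((X₁ ^ q : h92c_Chart A (M * q) (jB (M * q))) : FF (M * q)) =
      heckeBetaBar Kbar (M * q) q (heckeAlphaBar Kbar M q u) ^ q := by
    rw [SubmonoidClass.coe_pow, hX₁e, map_pow]
    rfl
  rw [e]
  exact h

end Cong

end Concrete

/-- **TN2 (α)** from the export of R-TOWER-SS. -/
theorem h71z_genA_of_exp (hExp : H71TorExpA) (hB : H11TorBasic) : H71TorGenA := by
  intro q hq M _ hqM haux
  haveI : NeZero q := ⟨hq.ne_zero⟩
  intro A hA 𝔫 hSS 𝔫a hNU b
  obtain ⟨u, huB, hrat, ⟨X₁, hX₁, hX₁e⟩, ⟨Y₁, hY₁, hY₁e⟩, ⟨Z, hZ, hZe⟩, hgen⟩ :=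
    hExp q hq M hqM haux A hA 𝔫 hSS 𝔫a hNU
  obtain ⟨-, hB2, -, -, -, -⟩ := hB q hq M hqM haux A hA
  have hu : u ∈ softV A M := h71z_softV_of_chart hq A hA M huB
  have hint : ∀ E : FF (M * q * q) →+* LaurentSeries Kbar, h11l_IsVE M q hq hqM E →
      ∀ b' : h92c_Chart A (M * q) (jB (M * q)),
        E ((heckeAlphaBar Kbar (M * q) q : FF (M * q) →+* FF (M * q * q)) (b' : FF (M * q))) ∈
          softOT A (IsLocalRing.residue A) :=
    fun E hE b' => hB2 _ (h12u_alpha_mem M q A b'.2) E hE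
  refine ⟨?_, ?_, ?_⟩
  · refine h71z_sep_of_exp A _ (jB (M * q)) 𝔫a (h20n_E20 M q) (hint _ (Or.inl rfl)) (Y₁ ^ q) ?_
      (hgen b)
    exact h71z_cong_A20 A hq hA u hrat hu Y₁ hY₁e
  · intro ζ E hζ hE
    refine h71z_sep_of_exp A _ (jB (M * q)) 𝔫a E (hint E (Or.inr (Or.inl ⟨ζ, hζ, hE⟩))) X₁ ?_
      (hgen b)
    exact h71z_cong_A11 A hq hqM hA u hu X₁ hX₁e ζ hζ.pow_eq_one E hE
  · intro E hE
    refine h71z_insep_of_exp A _ (jB (M * q)) 𝔫a E q hq hA (hint E (Or.inr (Or.inr hE))) ?_ Y₁ ?_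
      (hgen b)
    · rw [← hZe]
      exact hB2 _ Z.2 E (Or.inr (Or.inr hE))
    · exact h71z_cong_A02 A hq hqM hA u hrat hu Y₁ hY₁e E hE

/-- **centredness (α)** from the export of R-TOWER-SS. -/
theorem h71z_cenA_of_exp (hExp : H71TorExpA) (hB : H11TorBasic) : H71TorCenA := by
  intro q hq M _ hqM haux
  haveI : NeZero q := ⟨hq.ne_zero⟩
  intro A hA 𝔫 hSS 𝔫a hNU E hE b hb
  obtain ⟨u, huB, hrat, ⟨X₁, hX₁, hX₁e⟩, ⟨Y₁, hY₁, hY₁e⟩, ⟨Z, hZ, hZe⟩, hgen⟩ :=
    hExp q hq M hqM haux A hA 𝔫 hSS 𝔫a hNU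
  obtain ⟨-, hB2, hB3, -, -, -⟩ := hB q hq M hqM haux A hA
  have hu : u ∈ softV A M := h71z_softV_of_chart hq A hA M huB
  haveI : 𝔫.IsPrime := hSS.1.isPrime
  haveI : 𝔫a.IsPrime := hNU.1.isPrime
  have hφ : ∀ b' : h92c_Chart A (M * q) (jB (M * q)),
      (heckeAlphaBar Kbar (M * q) q : FF (M * q) →+* FF (M * q * q)) (b' : FF (M * q)) ∈
        h92c_Chart A (M * q * q) (jB (M * q * q)) := fun b' => h12u_alpha_mem M q A b'.2
  have hintB : ∀ E : FF (M * q * q) →+* LaurentSeries Kbar, h11l_IsVE M q hq hqM E →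
      ∀ b : h92c_Chart A (M * q * q) (jB (M * q * q)),
        E (b : FF (M * q * q)) ∈ softOT A (IsLocalRing.residue A) :=
    fun E hE b => hB2 _ b.2 E hE
  have hexp : h71z_ExpAt A (heckeAlphaBar Kbar (M * q) q : FF (M * q) →+* FF (M * q * q))
      (jB (M * q)) 𝔫a (Z : FF (M * q * q)) (b : FF (M * q * q)) := by
    rw [hZe]; exact hgen b
  rcases hE with rfl | ⟨ζ, hζ, hE11⟩ | hE02
  · refine h71z_cen_sep_of_exp A _ (jB (M * q)) (jB (M * q * q)) 𝔫a 𝔫 (h20n_E20 M q) hφ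
      hNU.2.1 (hintB _ (Or.inl rfl)) ?_ Z hZ (Y₁ ^ q)
      (Ideal.pow_mem_of_mem _ hY₁ q hq.pos) ?_ b hexp hb
    · intro y hy
      exact hNU.2.2.1 y ((h71z_small_E20_alpha A _).mp hy)
    · rw [hZe]
      exact h71z_cong_A20 A hq hA u hrat hu Y₁ hY₁e
  · refine h71z_cen_sep_of_exp A _ (jB (M * q)) (jB (M * q * q)) 𝔫a 𝔫 E hφ
      hNU.2.1 (hintB _ (Or.inr (Or.inl ⟨ζ, hζ, hE11⟩))) ?_ Z hZ X₁ hX₁ ?_ b hexp hb
    · intro y hy
      exact hNU.2.2.1 y ((h71z_small_E11_alpha A hq hqM ζ E hE11 _).mp hy)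
    · rw [hZe]
      exact h71z_cong_A11 A hq hqM hA u hu X₁ hX₁e ζ hζ.pow_eq_one E hE11
  · refine h71z_cen_insep_of_exp A _ (jB (M * q)) (jB (M * q * q)) 𝔫a 𝔫 E q hq hA hφ
      hNU.2.1 (hintB _ (Or.inr (Or.inr hE02))) ?_ Z hZ Y₁ hY₁ ?_ b hexp hb
    · intro y hy
      exact hNU.2.2.2 y (h71z_small_E02_alpha A hq hqM E hE02 _ (hB3 _ y.2).2 hy)
    · rw [hZe]
      exact h71z_cong_A02 A hq hqM hA u hrat hu Y₁ hY₁e E hE02

/-- **TN2 (β)** from the export of R-TOWER-SS. -/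
theorem h71z_genB_of_exp (hExp : H71TorExpB) (hB : H11TorBasic) : H71TorGenB := by
  intro q hq M _ hqM haux
  haveI : NeZero q := ⟨hq.ne_zero⟩
  intro A hA 𝔫 hSS 𝔫b hNU b
  obtain ⟨u, huB, hrat, ⟨X₁, hX₁, hX₁e⟩, ⟨Y₁, hY₁, hY₁e⟩, ⟨X, hX, hXe⟩, hgen⟩ :=
    hExp q hq M hqM haux A hA 𝔫 hSS 𝔫b hNU
  obtain ⟨-, hB2, -, -, -, -⟩ := hB q hq M hqM haux A hA
  have hu : u ∈ softV A M := h71z_softV_of_chart hq A hA M huB
  have hint : ∀ E : FF (M * q * q) →+* LaurentSeries Kbar, h11l_IsVE M q hq hqM E →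
      ∀ b' : h92c_Chart A (M * q) (jB (M * q)),
        E ((heckeBetaBar Kbar (M * q) q : FF (M * q) →+* FF (M * q * q)) (b' : FF (M * q))) ∈
          softOT A (IsLocalRing.residue A) :=
    fun E hE b' => hB2 _ (h12u_beta_mem A hq hqM hA b'.2) E hE
  refine ⟨?_, ?_, ?_⟩
  · refine h71z_insep_of_exp A _ (jB (M * q)) 𝔫b (h20n_E20 M q) q hq hA (hint _ (Or.inl rfl)) ?_
      X₁ ?_ (hgen b)
    · rw [← hXe]
      exact hB2 _ X.2 _ (Or.inl rfl)
    · exact h71z_cong_B20 A hq hA u hrat hu X₁ hX₁e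
  · intro ζ E hζ hE
    refine h71z_sep_of_exp A _ (jB (M * q)) 𝔫b E (hint E (Or.inr (Or.inl ⟨ζ, hζ, hE⟩))) Y₁ ?_
      (hgen b)
    exact h71z_cong_B11 A hq hqM hA u hu Y₁ hY₁e ζ hζ.pow_eq_one E hE
  · intro E hE
    refine h71z_sep_of_exp A _ (jB (M * q)) 𝔫b E (hint E (Or.inr (Or.inr hE))) (X₁ ^ q) ?_
      (hgen b)
    exact h71z_cong_B02 A hq hqM hA u hrat hu X₁ hX₁e E hE

/-- **centredness (β)** from the export of R-TOWER-SS. -/
theorem h71z_cenB_of_exp (hExp : H71TorExpB) (hB : H11TorBasic) : H71TorCenB := by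
  intro q hq M _ hqM haux
  haveI : NeZero q := ⟨hq.ne_zero⟩
  intro A hA 𝔫 hSS 𝔫b hNU E hE b hb
  obtain ⟨u, huB, hrat, ⟨X₁, hX₁, hX₁e⟩, ⟨Y₁, hY₁, hY₁e⟩, ⟨X, hX, hXe⟩, hgen⟩ :=
    hExp q hq M hqM haux A hA 𝔫 hSS 𝔫b hNU
  obtain ⟨-, hB2, hB3, -, -, -⟩ := hB q hq M hqM haux A hA
  have hu : u ∈ softV A M := h71z_softV_of_chart hq A hA M huB
  haveI : 𝔫.IsPrime := hSS.1.isPrime
  haveI : 𝔫b.IsPrime := hNU.1.isPrime
  have hφ : ∀ b' : h92c_Chart A (M * q) (jB (M * q)),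
      (heckeBetaBar Kbar (M * q) q : FF (M * q) →+* FF (M * q * q)) (b' : FF (M * q)) ∈
        h92c_Chart A (M * q * q) (jB (M * q * q)) := fun b' => h12u_beta_mem A hq hqM hA b'.2
  have hintB : ∀ E : FF (M * q * q) →+* LaurentSeries Kbar, h11l_IsVE M q hq hqM E →
      ∀ b : h92c_Chart A (M * q * q) (jB (M * q * q)),
        E (b : FF (M * q * q)) ∈ softOT A (IsLocalRing.residue A) :=
    fun E hE b => hB2 _ b.2 E hE
  have hexp : h71z_ExpAt A (heckeBetaBar Kbar (M * q) q : FF (M * q) →+* FF (M * q * q))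
      (jB (M * q)) 𝔫b (X : FF (M * q * q)) (b : FF (M * q * q)) := by
    rw [hXe]; exact hgen b
  rcases hE with rfl | ⟨ζ, hζ, hE11⟩ | hE02
  · refine h71z_cen_insep_of_exp A _ (jB (M * q)) (jB (M * q * q)) 𝔫b 𝔫 (h20n_E20 M q) q hq hA
      hφ hNU.2.1 (hintB _ (Or.inl rfl)) ?_ X hX X₁ hX₁ ?_ b hexp hb
    · intro y hy
      exact hNU.2.2.1 y (h71z_small_E20_beta A _ (hB3 _ y.2).1 hy)
    · rw [hXe]
      exact h71z_cong_B20 A hq hA u hrat hu X₁ hX₁e
  · refine h71z_cen_sep_of_exp A _ (jB (M * q)) (jB (M * q * q)) 𝔫b 𝔫 E hφ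
      hNU.2.1 (hintB _ (Or.inr (Or.inl ⟨ζ, hζ, hE11⟩))) ?_ X hX Y₁ hY₁ ?_ b hexp hb
    · intro y hy
      exact hNU.2.2.2 y
        (h71z_small_E11_beta A hq hqM hA ζ hζ.pow_eq_one E hE11 _ (hB3 _ y.2).2 hy)
    · rw [hXe]
      exact h71z_cong_B11 A hq hqM hA u hu Y₁ hY₁e ζ hζ.pow_eq_one E hE11
  · refine h71z_cen_sep_of_exp A _ (jB (M * q)) (jB (M * q * q)) 𝔫b 𝔫 E hφ
      hNU.2.1 (hintB _ (Or.inr (Or.inr hE02))) ?_ X hX (X₁ ^ q)
      (Ideal.pow_mem_of_mem _ hX₁ q hq.pos) ?_ b hexp hb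
    · intro y hy
      exact hNU.2.2.2 y ((h71z_small_E02_beta A hq hqM E hE02 _).mp hy)
    · rw [hXe]
      exact h71z_cong_B02 A hq hqM hA u hrat hu X₁ hX₁e E hE02

/-! ## Unconditional in `H11TorBasic` -/

theorem h71z_genA (hExp : H71TorExpA) : H71TorGenA := h71z_genA_of_exp hExp V28.h28t_torBasic

theorem h71z_cenA (hExp : H71TorExpA) : H71TorCenA := h71z_cenA_of_exp hExp V28.h28t_torBasic

theorem h71z_genB (hExp : H71TorExpB) : H71TorGenB := h71z_genB_of_exp hExp V28.h28t_torBasic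

theorem h71z_cenB (hExp : H71TorExpB) : H71TorCenB := h71z_cenB_of_exp hExp V28.h28t_torBasic

end Fermat.Agent.S36
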