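import Fermat.Agent.S36.H11TorSkel

/-!
# S36, block T, rows T-NORM-A / T-NORM-B: the inputs from the block R (helper71, prefix `h71z_`)

Vocabulary of `S36/H11TorSkel.lean`.  `B = h92c_Chart A (M q q) j`, `B' = h92c_Chart A (M q) j`,
`𝔫` a supersingular point of `B`, `𝔫a = α⁻¹ 𝔫`, `𝔫b = β⁻¹ 𝔫` the nodes under it.

Every declaration is a definition (a frozen interface `Prop`); nothing is assumed.

* `H71TorCenA`, `H71TorCenB` (**centredness**): the three components `C20`, `C11`, `C02` pass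
  through a supersingular point (over a node along `α`, resp. `β`).
* `H71TorGenA`, `H71TorGenB` (**TN2**, fraction form): every `b ∈ B` is, up to a denominator
  `φ d`, `d ∈ B' ∖ 𝔫'`, congruent to `φ b'`, `b' ∈ B'`, along the separable branches; and
  `(φ d · b) ^ q` is congruent to `φ b'` along the purely inseparable branch.
  (`α`: `E20`, `E11` separable, `E02` inseparable; `β`: `E11`, `E02` separable, `E20`
  inseparable.)
* `h71z_ExpAt` , `H71TorExpA`, `H71TorExpB` (**export of R-TOWER-SS**): the local ring of `B` at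
  `𝔫` is generated over the local ring of `B'` at the node by `Z = β β u` (for `α`), resp.
  `X = α α u` (for `β`), `u` a rational function of the chart of level `M` with
  `α u, β u` in the node  (conclusion of `h67t_tower`).
-/

set_option autoImplicit false

open AlgebraicCurve ModularCurve Polynomial

noncomputable section

namespace Fermat.Agent.S36

open Fermat.Agent.S37 (Kbar GQ FF cst jB gal modelAt degen auxLevel IsRat)
open Fermat.Agent.Red.KR (normAlong)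
open Fermat.Agent.Red.Kron (kFricke)
open Fermat.Agent.Red.GV.Soft (softOT softRedT)

/-! ## Centredness -/

/-- **T-CEN (α).**  The three components pass through a supersingular point. -/
def H71TorCenA : Prop :=
  ∀ (q : ℕ) (hq : q.Prime) (M : ℕ) [NeZero M] (hqM : ¬ q ∣ M), auxLevel q ∣ M →
    haveI : NeZero q := ⟨hq.ne_zero⟩
    ∀ A : ValuationSubring Kbar, A.LiesOverPrime q →
    ∀ 𝔫 : Ideal (h92c_Chart A (M * q * q) (jB (M * q * q))), h11t_IsSS A M q 𝔫 →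
    ∀ 𝔫a, h11t_NodeUnder A M q hq hqM (heckeAlphaBar Kbar (M * q) q) 𝔫a 𝔫 →
    ∀ E : FF (M * q * q) →+* LaurentSeries Kbar, h11l_IsVE M q hq hqM E →
      h11l_Centred A (jB (M * q * q)) 𝔫 E

/-- **T-CEN (β).** -/
def H71TorCenB : Prop :=
  ∀ (q : ℕ) (hq : q.Prime) (M : ℕ) [NeZero M] (hqM : ¬ q ∣ M), auxLevel q ∣ M →
    haveI : NeZero q := ⟨hq.ne_zero⟩
    ∀ A : ValuationSubring Kbar, A.LiesOverPrime q →
    ∀ 𝔫 : Ideal (h92c_Chart A (M * q * q) (jB (M * q * q))), h11t_IsSS A M q 𝔫 →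
    ∀ 𝔫b, h11t_NodeUnder A M q hq hqM (heckeBetaBar Kbar (M * q) q) 𝔫b 𝔫 →
    ∀ E : FF (M * q * q) →+* LaurentSeries Kbar, h11l_IsVE M q hq hqM E →
      h11l_Centred A (jB (M * q * q)) 𝔫 E

/-! ## TN2 (fraction form) -/

/-- `b ≡ φ b' / φ d` along `E`, `d ∉ 𝔫'` (separable branch). -/
def h71z_SepAt (A : ValuationSubring Kbar) {N' N : ℕ} (φ : FF N' →+* FF N) (t' : FF N')
    (𝔫' : Ideal (h92c_Chart A N' t')) (E : FF N →+* LaurentSeries Kbar) (b : FF N) : Prop :=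
  ∃ d b' : h92c_Chart A N' t', d ∉ 𝔫' ∧
    h11l_Small A E (φ (d : FF N') * b - φ (b' : FF N'))

/-- `(φ d · b) ^ q ≡ φ b'` along `E`, `d ∉ 𝔫'` (purely inseparable branch). -/
def h71z_InsepAt (A : ValuationSubring Kbar) {N' N : ℕ} (φ : FF N' →+* FF N) (t' : FF N')
    (𝔫' : Ideal (h92c_Chart A N' t')) (E : FF N →+* LaurentSeries Kbar) (q : ℕ) (b : FF N) :
    Prop :=
  ∃ d b' : h92c_Chart A N' t', d ∉ 𝔫' ∧
    h11l_Small A E ((φ (d : FF N') * b) ^ q - φ (b' : FF N'))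

/-- **TN2 (α).** -/
def H71TorGenA : Prop :=
  ∀ (q : ℕ) (hq : q.Prime) (M : ℕ) [NeZero M] (hqM : ¬ q ∣ M), auxLevel q ∣ M →
    haveI : NeZero q := ⟨hq.ne_zero⟩
    ∀ A : ValuationSubring Kbar, A.LiesOverPrime q →
    ∀ 𝔫 : Ideal (h92c_Chart A (M * q * q) (jB (M * q * q))), h11t_IsSS A M q 𝔫 →
    ∀ 𝔫a, h11t_NodeUnder A M q hq hqM (heckeAlphaBar Kbar (M * q) q) 𝔫a 𝔫 →
    ∀ b : h92c_Chart A (M * q * q) (jB (M * q * q)),
      h71z_SepAt A (heckeAlphaBar Kbar (M * q) q : FF (M * q) →+* FF (M * q * q))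
        (jB (M * q)) 𝔫a (h20n_E20 M q) (b : FF (M * q * q)) ∧
      (∀ (ζ : Kbar) (E : FF (M * q * q) →+* LaurentSeries Kbar), IsPrimitiveRoot ζ q →
        h20n_IsE11 M q hq hqM ζ E →
        h71z_SepAt A (heckeAlphaBar Kbar (M * q) q : FF (M * q) →+* FF (M * q * q))
          (jB (M * q)) 𝔫a E (b : FF (M * q * q))) ∧
      (∀ E : FF (M * q * q) →+* LaurentSeries Kbar, h20n_IsE02 M q hq hqM E →
        h71z_InsepAt A (heckeAlphaBar Kbar (M * q) q : FF (M * q) →+* FF (M * q * q))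
          (jB (M * q)) 𝔫a E q (b : FF (M * q * q)))

/-- **TN2 (β).** -/
def H71TorGenB : Prop :=
  ∀ (q : ℕ) (hq : q.Prime) (M : ℕ) [NeZero M] (hqM : ¬ q ∣ M), auxLevel q ∣ M →
    haveI : NeZero q := ⟨hq.ne_zero⟩
    ∀ A : ValuationSubring Kbar, A.LiesOverPrime q →
    ∀ 𝔫 : Ideal (h92c_Chart A (M * q * q) (jB (M * q * q))), h11t_IsSS A M q 𝔫 →
    ∀ 𝔫b, h11t_NodeUnder A M q hq hqM (heckeBetaBar Kbar (M * q) q) 𝔫b 𝔫 →
    ∀ b : h92c_Chart A (M * q * q) (jB (M * q * q)),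
      h71z_InsepAt A (heckeBetaBar Kbar (M * q) q : FF (M * q) →+* FF (M * q * q))
        (jB (M * q)) 𝔫b (h20n_E20 M q) q (b : FF (M * q * q)) ∧
      (∀ (ζ : Kbar) (E : FF (M * q * q) →+* LaurentSeries Kbar), IsPrimitiveRoot ζ q →
        h20n_IsE11 M q hq hqM ζ E →
        h71z_SepAt A (heckeBetaBar Kbar (M * q) q : FF (M * q) →+* FF (M * q * q))
          (jB (M * q)) 𝔫b E (b : FF (M * q * q))) ∧
      (∀ E : FF (M * q * q) →+* LaurentSeries Kbar, h20n_IsE02 M q hq hqM E →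
        h71z_SepAt A (heckeBetaBar Kbar (M * q) q : FF (M * q) →+* FF (M * q * q))
          (jB (M * q)) 𝔫b E (b : FF (M * q * q)))

/-! ## The export of R-TOWER-SS -/

/-- the local ring of `B` at `𝔫` is generated over `φ (B'_𝔫')` by `G`:
every `b ∈ B` is `p(G) / φ d` with `p ∈ B'[T]`, `d ∈ B' ∖ 𝔫'`. -/
def h71z_ExpAt (A : ValuationSubring Kbar) {N' N : ℕ} (φ : FF N' →+* FF N) (t' : FF N')
    (𝔫' : Ideal (h92c_Chart A N' t')) (G : FF N) (b : FF N) : Prop :=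
  ∃ (d : h92c_Chart A N' t') (p : (h92c_Chart A N' t')[X]), d ∉ 𝔫' ∧
    φ (d : FF N') * b = p.eval₂ (φ.comp (h92c_Chart A N' t').subtype) G

/-- **T-EXP (α)** = export of R-TOWER-SS along `α`: at a supersingular point `𝔫` over the node
`𝔫a` there is a rational function `u` of the chart of level `M` with `X₁ = α u ∈ 𝔫a`,
`Y₁ = β u ∈ 𝔫a`, `Z = β Y₁ ∈ 𝔫`, and the local ring at `𝔫` is generated by `Z` over the local
ring at `𝔫a`. -/
def H71TorExpA : Prop :=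
  ∀ (q : ℕ) (hq : q.Prime) (M : ℕ) [NeZero M] (hqM : ¬ q ∣ M), auxLevel q ∣ M →
    haveI : NeZero q := ⟨hq.ne_zero⟩
    ∀ A : ValuationSubring Kbar, A.LiesOverPrime q →
    ∀ 𝔫 : Ideal (h92c_Chart A (M * q * q) (jB (M * q * q))), h11t_IsSS A M q 𝔫 →
    ∀ 𝔫a, h11t_NodeUnder A M q hq hqM (heckeAlphaBar Kbar (M * q) q) 𝔫a 𝔫 →
    ∃ u : FF M, u ∈ h92c_Chart A M (jB M) ∧ IsRat u ∧
      (∃ X₁ ∈ 𝔫a, (X₁ : FF (M * q)) = heckeAlphaBar Kbar M q u) ∧
      (∃ Y₁ ∈ 𝔫a, (Y₁ : FF (M * q)) = heckeBetaBar Kbar M q u) ∧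
      (∃ Z ∈ 𝔫, (Z : FF (M * q * q)) =
        heckeBetaBar Kbar (M * q) q (heckeBetaBar Kbar M q u)) ∧
      ∀ b : h92c_Chart A (M * q * q) (jB (M * q * q)),
        h71z_ExpAt A (heckeAlphaBar Kbar (M * q) q : FF (M * q) →+* FF (M * q * q))
          (jB (M * q)) 𝔫a (heckeBetaBar Kbar (M * q) q (heckeBetaBar Kbar M q u))
          (b : FF (M * q * q))

/-- **T-EXP (β)** = export of R-TOWER-SS along `β`: the same with the generator
`X = α α u` over the local ring at `𝔫b`. -/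
def H71TorExpB : Prop :=
  ∀ (q : ℕ) (hq : q.Prime) (M : ℕ) [NeZero M] (hqM : ¬ q ∣ M), auxLevel q ∣ M →
    haveI : NeZero q := ⟨hq.ne_zero⟩
    ∀ A : ValuationSubring Kbar, A.LiesOverPrime q →
    ∀ 𝔫 : Ideal (h92c_Chart A (M * q * q) (jB (M * q * q))), h11t_IsSS A M q 𝔫 →
    ∀ 𝔫b, h11t_NodeUnder A M q hq hqM (heckeBetaBar Kbar (M * q) q) 𝔫b 𝔫 →
    ∃ u : FF M, u ∈ h92c_Chart A M (jB M) ∧ IsRat u ∧
      (∃ X₁ ∈ 𝔫b, (X₁ : FF (M * q)) = heckeAlphaBar Kbar M q u) ∧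
      (∃ Y₁ ∈ 𝔫b, (Y₁ : FF (M * q)) = heckeBetaBar Kbar M q u) ∧
      (∃ X ∈ 𝔫, (X : FF (M * q * q)) =
        heckeAlphaBar Kbar (M * q) q (heckeAlphaBar Kbar M q u)) ∧
      ∀ b : h92c_Chart A (M * q * q) (jB (M * q * q)),
        h71z_ExpAt A (heckeBetaBar Kbar (M * q) q : FF (M * q) →+* FF (M * q * q))
          (jB (M * q)) 𝔫b (heckeAlphaBar Kbar (M * q) q (heckeAlphaBar Kbar M q u))
          (b : FF (M * q * q))

end Fermat.Agent.S36
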