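import Fermat.Agent.S36.H71TorExp
import Fermat.Agent.S36.H2TNormA
import Fermat.Agent.S36.V28TNormB

/-!
# S36, block T, rows T-NORM-A / T-NORM-B: the leaves from the tower (helper71, prefix `h71z_`)

`H71TowerGen` (`S36/H71TorExp.lean`: outputs 1 and 4 of `h67t_tower` at `ι = h62rA2`) gives both
frozen leaves:

* `h71z_torNormA_of_tower : H71TowerGen → H11TorNormA`
  (core `h2t_torNormA_of`, helper2; adapter `h71z_genA_of_tower`, `h71z_cenA_of_tower`);
* `h71z_torNormB_of_tower : H71TowerGen → H11TorNormB`
  (Fricke transport `h28n_torNormB_of`, helper28).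
-/

set_option autoImplicit false

namespace Fermat.Agent.S36

/-- **T-NORM-α** from the tower generation. -/
theorem h71z_torNormA_of_tower (hT : H71TowerGen) : H11TorNormA :=
  h2t_torNormA_of (h71z_genA_of_tower hT) (h71z_cenA_of_tower hT) V28.h28t_torBasic

/-- **T-NORM-β** from the tower generation. -/
theorem h71z_torNormB_of_tower (hT : H71TowerGen) : H11TorNormB :=
  V28.h28n_torNormB_of (h71z_torNormA_of_tower hT)

end Fermat.Agent.S36
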