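import Mathlib
import Fermat.Agent.S36.H40Tower
import Fermat.Agent.S36.H71TorNormFinal

/-!
# S36, block T, rows T-NORM-A / T-NORM-B: the leaves, unconditionally (helper71, prefix `h71z_`)

* `h71z_towerGen : H71TowerGen` (the frozen interface of `S36/H71TorExp.lean`), from the tower
  argument at the charts `h40t_tower_a2` (helper40, R-TOWER-SS).
* `h71z_torNormA : H11TorNormA`, `h71z_torNormB : H11TorNormB` (the frozen leaves of
  `S36/H11TorSkel.lean`), unconditional.
-/

set_option autoImplicit false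
set_option linter.style.haveILetI false
set_option linter.unusedSectionVars false

open AlgebraicCurve ModularCurve Polynomial

noncomputable section

namespace Fermat.Agent.S36

open Fermat.Agent.S37 (Kbar GQ FF cst jB gal modelAt modelFin auxLevel IsRat)
open Fermat.Agent.LGC (jSS)

set_option maxHeartbeats 800000 in
/-- **tower generation** (`H71TowerGen`), unconditional. -/
theorem h71z_towerGen : H71TowerGen := by
  intro q hq M _ hM haux
  haveI : NeZero q := ⟨hq.ne_zero⟩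
  intro A hA 𝔫₂ h𝔫₂ hq𝔫₂ hnode
  have h : 𝔫₂.comap (h62rA2 A M) = 𝔫₂.comap (h59y_a2 A M) := by rw [h40t_a2_eq]
  obtain ⟨u, hrat, hX, hY, ⟨ρ, hρ, hrel⟩, hgen⟩ := hnode
  have hX' : h62rAlpha A M u ∈ 𝔫₂.comap (h59y_a2 A M) := by
    rw [← h]
    exact hX
  have hY' : h62rBeta A M hq hM hA u ∈ 𝔫₂.comap (h59y_a2 A M) := by
    rw [← h]
    exact hY
  have hρ' : ρ ∉ 𝔫₂.comap (h59y_a2 A M) := by
    rw [← h]
    exact hρ
  have hgen' : h62rLocGen (𝔫₂.comap (h59y_a2 A M))
      (Ideal.span {h62rAlpha A M u, h62rBeta A M hq hM hA u}) := by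
    rw [← h]
    exact hgen
  obtain ⟨hZ, -, -, hfrac⟩ :=
    h40t_tower_a2 A M hq hM hA 𝔫₂ h𝔫₂ hq𝔫₂ u hrat hX' hY' ρ hρ' hrel hgen'
  refine ⟨u, hrat, hX, hY, h59y_e2 A M hq hM hA u, h59y_coe_e2 A M hq hM hA u, hZ, ?_⟩
  intro b
  obtain ⟨p, d, hd, he⟩ := hfrac b
  refine ⟨p, d, ?_, ?_⟩
  · rw [h40t_a2_eq]
    exact hd
  · rw [h40t_a2_eq]
    exact he

/-- **T-NORM-A** (`H11TorNormA`), unconditional. -/
theorem h71z_torNormA : H11TorNormA := h71z_torNormA_of_tower h71z_towerGen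

/-- **T-NORM-B** (`H11TorNormB`), unconditional. -/
theorem h71z_torNormB : H11TorNormB := h71z_torNormB_of_tower h71z_towerGen

end Fermat.Agent.S36
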