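import Mathlib
import Fermat.Agent.S36.H40Tower
import Fermat.Agent.S36.H12TorUniq
import Fermat.Agent.S36.H60L1Final

/-!
# S36, block T, row T-UNIT: the leaf, unconditionally (helper71, prefix `h71z_`)

* `h71z_towerUniq : H12TowerUniq` (the frozen interface of `S36/H12TorUniq.lean`), from the third
  conclusion of the tower argument at the charts `h40t_tower_a2` (helper40, R-TOWER-SS).
* `h71z_torUnit : H11TorUnit` (the frozen leaf of `S36/H11TorSkel.lean`), unconditional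
  (`h12w_torUnit_of`, helper12; `h60r_H62L1`, helper60).
-/

set_option autoImplicit false
set_option linter.style.haveILetI false
set_option linter.unusedSectionVars false

open AlgebraicCurve ModularCurve Polynomial

noncomputable section

namespace Fermat.Agent.S36

open Fermat.Agent.S37 (Kbar GQ FF cst jB gal modelAt modelFin auxLevel IsRat)
open Fermat.Agent.LGC (jSS)

set_option maxHeartbeats 800000 in
/-- **tower uniqueness** (`H12TowerUniq`), unconditional. -/
theorem h71z_towerUniq : H12TowerUniq := by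
  intro q hq M _ hM haux
  haveI : NeZero q := ⟨hq.ne_zero⟩
  intro A hA 𝔫₂ h𝔫₂ hq𝔫₂ hnode 𝔫' h𝔫' hc
  have h : 𝔫₂.comap (h62rA2 A M) = 𝔫₂.comap (h59y_a2 A M) := by rw [h40t_a2_eq]
  have h' : 𝔫'.comap (h62rA2 A M) = 𝔫'.comap (h59y_a2 A M) := by rw [h40t_a2_eq]
  obtain ⟨u, hrat, hX, hY, ⟨ρ, hρ, hrel⟩, hgen⟩ := hnode
  have hX' : h62rAlpha A M u ∈ 𝔫₂.comap (h59y_a2 A M) := by
    rw [← h]
    exact hX
  have hY' : h62rBeta A M hq hM hA u ∈ 𝔫₂.comap (h59y_a2 A M) := by
    rw [← h]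
    exact hY
  have hρ' : ρ ∉ 𝔫₂.comap (h59y_a2 A M) := by
    rw [← h]
    exact hρ
  have hgen' : h62rLocGen (𝔫₂.comap (h59y_a2 A M))
      (Ideal.span {h62rAlpha A M u, h62rBeta A M hq hM hA u}) := by
    rw [← h]
    exact hgen
  obtain ⟨-, -, huniq, -⟩ :=
    h40t_tower_a2 A M hq hM hA 𝔫₂ h𝔫₂ hq𝔫₂ u hrat hX' hY' ρ hρ' hrel hgen'
  refine huniq 𝔫' h𝔫' ?_
  rw [← h', ← h]
  exact hc

/-- **T-UNIT** (`H11TorUnit`), unconditional. -/
theorem h71z_torUnit : H11TorUnit := h12w_torUnit_of h60r_H62L1 h71z_towerUniq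

end Fermat.Agent.S36
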