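import Mathlib

/-!
# S36, block (N), leaf (N2): the norm-residue formula (helper72)

Mathlib only.  For a finite free extension `S / R` with `S` a Dedekind domain and a maximal
ideal `p` of `R` with `p S = ∏ i, P i ^ e i` (`P i` nonzero primes of `S` over `p`):

  `(N_{S/R} x) mod p = ∏ i, N_{(S/P i)/(R/p)} (x mod P i) ^ e i`        (`h72n_norm_residue`)

No separability assumption on the residue extensions and no distinctness assumption on the
`P i` is needed.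

Main statements:
* `h72n_det_ses`       : determinant along a short exact sequence of vector spaces;
* `h72n_norm_quotient_map` : `N_{(S/IS)/(R/I)} (x mod IS) = (N_{S/R} x) mod I` (any ideal `I`);
* `h72n_norm_ses`      : `N(B/I) = N(B/(I : t)) * N(B/(I + (t)))` for a finite `k`-algebra;
* `h72n_norm_prod_abs` : the abstract product formula inside `S / 𝔫`;
* `h72n_norm_residue`  : the norm-residue formula;
* `h72n_norm_of_bijective` : a factor with trivial residue extension is the residue itself;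
* `h72n_norm_purelyInseparable` : for a purely inseparable residue extension the factor is
  the `[L : K]`-th power.
-/

set_option linter.unusedSectionVars false
set_option linter.style.longLine false

open TensorProduct

namespace Fermat.Agent.S36.H72N

section DetSES

variable {k V₁ V₂ V₃ : Type*} [Field k] [AddCommGroup V₁] [AddCommGroup V₂] [AddCommGroup V₃]
  [Module k V₁] [Module k V₂] [Module k V₃]

/-- determinant along a short exact sequence of vector spaces with compatible endomorphisms. -/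
theorem h72n_det_ses [Module.Finite k V₂]
    (i : V₁ →ₗ[k] V₂) (π : V₂ →ₗ[k] V₃) (hi : Function.Injective i)
    (hπ : Function.Surjective π) (hex : LinearMap.range i = LinearMap.ker π)
    (f₁ : V₁ →ₗ[k] V₁) (f₂ : V₂ →ₗ[k] V₂) (f₃ : V₃ →ₗ[k] V₃)
    (h₁ : ∀ v, i (f₁ v) = f₂ (i v)) (h₃ : ∀ v, π (f₂ v) = f₃ (π v)) :
    LinearMap.det f₂ = LinearMap.det f₁ * LinearMap.det f₃ := by
  set W : Submodule k V₂ := LinearMap.range i with hW
  have he : W ≤ W.comap f₂ := by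
    rintro _ ⟨v, rfl⟩
    exact ⟨f₁ v, h₁ v⟩
  rw [LinearMap.det_eq_det_mul_det W f₂ he]
  let e₁ : V₁ ≃ₗ[k] W := LinearEquiv.ofInjective i hi
  let e₃ : (V₂ ⧸ W) ≃ₗ[k] V₃ :=
    (Submodule.quotEquivOfEq W (LinearMap.ker π) hex).trans (π.quotKerEquivOfSurjective hπ)
  have hr : f₂.restrict he = e₁.toLinearMap ∘ₗ f₁ ∘ₗ e₁.symm.toLinearMap := by
    apply LinearMap.ext
    intro w
    obtain ⟨v, rfl⟩ := e₁.surjective w
    apply Subtype.ext
    simp only [LinearMap.coe_restrict_apply, LinearMap.coe_comp, LinearEquiv.coe_coe,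
      Function.comp_apply, LinearEquiv.symm_apply_apply]
    change f₂ (i v) = i (f₁ v)
    exact (h₁ v).symm
  have hq : W.mapQ W f₂ he = e₃.symm.toLinearMap ∘ₗ f₃ ∘ₗ e₃.toLinearMap := by
    apply LinearMap.ext
    intro w
    obtain ⟨v, rfl⟩ := Submodule.Quotient.mk_surjective W w
    apply e₃.injective
    simp only [LinearMap.coe_comp, LinearEquiv.coe_coe, Function.comp_apply,
      LinearEquiv.apply_symm_apply, Submodule.mapQ_apply]
    change π (f₂ v) = f₃ (π v)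
    exact h₃ v
  rw [hr, hq]
  have hd1 := LinearMap.det_conj f₁ e₁
  have hd3 := LinearMap.det_conj f₃ e₃.symm
  rw [LinearEquiv.symm_symm] at hd3
  rw [hd1, hd3]

end DetSES

section BaseChange

variable {R S : Type*} [CommRing R] [CommRing S] [Algebra R S]

/-- base change of the norm along a quotient map. -/
theorem h72n_norm_quotient_map [Module.Free R S] [Module.Finite R S] (I : Ideal R) (x : S) :
    Algebra.norm (R ⧸ I) (Ideal.Quotient.mk (I.map (algebraMap R S)) x) =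
      Ideal.Quotient.mk I (Algebra.norm R x) := by
  rw [← Algebra.norm_eq_of_algEquiv (Algebra.TensorProduct.quotIdealMapEquivQuotTensor S I),
    Algebra.TensorProduct.quotIdealMapEquivQuotTensor_mk, Algebra.norm_apply, Algebra.norm_apply]
  have h : Algebra.lmul (R ⧸ I) ((R ⧸ I) ⊗[R] S) (1 ⊗ₜ[R] x) =
      (Algebra.lmul R S x).baseChange (R ⧸ I) := by
    ext y
    simp
  rw [h, LinearMap.det_baseChange]
  rfl

end BaseChange

section NormSES

variable {k B : Type*} [Field k] [CommRing B] [Algebra k B]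

/-- multiplicativity of the norm of residue algebras along `0 → B/Q → B/I → B/J → 0`
where `J = I + (t)` and `Q = (I : t)`. -/
theorem h72n_norm_ses (I J Q : Ideal B) (t : B) [Module.Finite k (B ⧸ I)]
    (hJ : J = I ⊔ Ideal.span {t}) (hQ : ∀ s, s ∈ Q ↔ s * t ∈ I) (y : B) :
    Algebra.norm k (Ideal.Quotient.mk I y) =
      Algebra.norm k (Ideal.Quotient.mk Q y) * Algebra.norm k (Ideal.Quotient.mk J y) := by
  have hIJ : I ≤ J := hJ ▸ le_sup_left
  -- the map `B/Q → B/I`, multiplication by `t`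
  let μ : B →ₗ[B] B ⧸ I := (Submodule.mkQ I) ∘ₗ (LinearMap.mulRight B t)
  have hμ : Q ≤ LinearMap.ker μ := by
    intro s hs
    rw [LinearMap.mem_ker]
    change Submodule.Quotient.mk (s * t) = 0
    rw [Submodule.Quotient.mk_eq_zero]
    exact (hQ s).1 hs
  let i : (B ⧸ Q) →ₗ[k] (B ⧸ I) := (Submodule.liftQ Q μ hμ).restrictScalars k
  let π : (B ⧸ I) →ₗ[k] (B ⧸ J) := (Ideal.Quotient.factorₐ k hIJ).toLinearMap
  have hi_mk : ∀ s : B, i (Ideal.Quotient.mk Q s) = Ideal.Quotient.mk I (s * t) := fun s => rfl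
  have hπ_mk : ∀ s : B, π (Ideal.Quotient.mk I s) = Ideal.Quotient.mk J s := fun s => rfl
  have hi : Function.Injective i := by
    rw [injective_iff_map_eq_zero]
    intro a ha
    obtain ⟨s, rfl⟩ := Ideal.Quotient.mk_surjective a
    rw [hi_mk, Ideal.Quotient.eq_zero_iff_mem] at ha
    rw [Ideal.Quotient.eq_zero_iff_mem]
    exact (hQ s).2 ha
  have hπ : Function.Surjective π := by
    intro a
    obtain ⟨s, rfl⟩ := Ideal.Quotient.mk_surjective a
    exact ⟨Ideal.Quotient.mk I s, hπ_mk s⟩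
  have hex : LinearMap.range i = LinearMap.ker π := by
    ext a
    obtain ⟨s, rfl⟩ := Ideal.Quotient.mk_surjective a
    rw [LinearMap.mem_ker, hπ_mk, Ideal.Quotient.eq_zero_iff_mem, hJ]
    constructor
    · rintro ⟨b, hb⟩
      obtain ⟨r, rfl⟩ := Ideal.Quotient.mk_surjective b
      rw [hi_mk, Ideal.Quotient.eq] at hb
      have h1 : s = r * t - (r * t - s) := by ring
      rw [h1]
      refine Ideal.sub_mem _ ?_ (Ideal.mem_sup_left hb)
      exact Ideal.mem_sup_right (Ideal.mem_span_singleton'.2 ⟨r, rfl⟩)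
    · intro hs
      obtain ⟨a, ha, b, hb, rfl⟩ := Submodule.mem_sup.1 hs
      obtain ⟨r, rfl⟩ := Ideal.mem_span_singleton'.1 hb
      refine ⟨Ideal.Quotient.mk Q r, ?_⟩
      rw [hi_mk, Ideal.Quotient.eq]
      have h1 : r * t - (a + r * t) = -a := by ring
      rw [h1]
      exact I.neg_mem ha
  rw [Algebra.norm_apply, Algebra.norm_apply, Algebra.norm_apply]
  refine h72n_det_ses i π hi hπ hex _ _ _ ?_ ?_
  · intro a
    obtain ⟨s, rfl⟩ := Ideal.Quotient.mk_surjective a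
    simp only [Algebra.coe_lmul_eq_mul, LinearMap.mul_apply', ← map_mul, hi_mk]
    rw [mul_assoc]
  · intro a
    obtain ⟨s, rfl⟩ := Ideal.Quotient.mk_surjective a
    simp only [Algebra.coe_lmul_eq_mul, LinearMap.mul_apply', ← map_mul, hπ_mk]

end NormSES

section Dedekind

variable {S : Type*} [CommRing S] [IsDedekindDomain S]

/-- In a Dedekind domain, `𝔞 P` is a maximal proper sub-ideal of `𝔞`: there is `t ∈ 𝔞` with
`𝔞 = 𝔞 P + (t)` and `(𝔞 P : t) = P`. -/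
theorem h72n_exists_gen (𝔞 P : Ideal S) (h𝔞 : 𝔞 ≠ ⊥) (hP : P.IsPrime) (hP0 : P ≠ ⊥) :
    ∃ t : S, t ∈ 𝔞 ∧ 𝔞 = 𝔞 * P ⊔ Ideal.span {t} ∧ ∀ s, s ∈ P ↔ s * t ∈ 𝔞 * P := by
  have hmax : P.IsMaximal := Ideal.IsPrime.isMaximal hP hP0
  have hlt : 𝔞 * P < 𝔞 := by
    refine lt_of_le_of_ne Ideal.mul_le_left ?_
    intro h
    have h1 : 𝔞 * P = 𝔞 * ⊤ := by rw [h, Ideal.mul_top]
    have h2 : P = ⊤ := mul_left_cancel₀ h𝔞 h1
    exact hP.ne_top h2
  obtain ⟨t, ht, htn⟩ := SetLike.exists_of_lt hlt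
  refine ⟨t, ht, ?_, ?_⟩
  · have hle : 𝔞 * P ⊔ Ideal.span {t} ≤ 𝔞 :=
      sup_le Ideal.mul_le_left ((Ideal.span_singleton_le_iff_mem 𝔞).2 ht)
    obtain ⟨𝔠, h𝔠⟩ := Ideal.dvd_iff_le.2 hle
    have h3 : 𝔞 * 𝔠 ∣ 𝔞 * P := by
      rw [← h𝔠]
      exact Ideal.dvd_iff_le.2 le_sup_left
    have h4 : 𝔠 ∣ P := (mul_dvd_mul_iff_left h𝔞).1 h3
    have h5 : P ≤ 𝔠 := Ideal.dvd_iff_le.1 h4
    by_cases h6 : 𝔠 = ⊤
    · rw [h𝔠, h6, Ideal.mul_top]
    · exfalso
      apply htn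
      rw [hmax.eq_of_le h6 h5, ← h𝔠]
      exact Ideal.mem_sup_right (Ideal.mem_span_singleton_self t)
  · intro s
    constructor
    · intro hs
      exact Ideal.mul_mem_mul_rev ht hs
    · intro hs
      by_contra hsP
      obtain ⟨y, i, hi, hy⟩ := hmax.exists_inv hsP
      apply htn
      have h1 : t = y * (s * t) + t * i := by
        calc t = (y * s + i) * t := by rw [hy, one_mul]
          _ = y * (s * t) + t * i := by ring
      rw [h1]
      exact Ideal.add_mem _ (Ideal.mul_mem_left _ _ hs) (Ideal.mul_mem_mul ht hi)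

variable (k : Type*) [Field k] (𝔫 : Ideal S) [Algebra k (S ⧸ 𝔫)]

/-- the norm over `k` of the image of `x` in `(S/𝔫)/𝔞`. -/
noncomputable def h72n_nrm (𝔞 : Ideal S) (x : S) : k :=
  Algebra.norm k (Ideal.Quotient.mk (𝔞.map (Ideal.Quotient.mk 𝔫)) (Ideal.Quotient.mk 𝔫 x))

theorem h72n_nrm_top (x : S) : h72n_nrm k 𝔫 ⊤ x = 1 := by
  unfold h72n_nrm
  rw [Algebra.norm_apply]
  have : Subsingleton ((S ⧸ 𝔫) ⧸ (⊤ : Ideal S).map (Ideal.Quotient.mk 𝔫)) := by
    rw [Ideal.map_top]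
    exact Ideal.Quotient.subsingleton_iff.2 rfl
  exact LinearMap.det_eq_one_of_subsingleton _

/-- transfer: if `S/𝔞` carries a compatible `k`-algebra structure, `h72n_nrm` is its norm. -/
theorem h72n_nrm_eq (𝔞 : Ideal S) (h : 𝔫 ≤ 𝔞) [Algebra k (S ⧸ 𝔞)]
    (hc : ∀ c : k, Ideal.Quotient.factor h (algebraMap k (S ⧸ 𝔫) c) = algebraMap k (S ⧸ 𝔞) c)
    (x : S) :
    h72n_nrm k 𝔫 𝔞 x = Algebra.norm k (Ideal.Quotient.mk 𝔞 x) := by
  let e : ((S ⧸ 𝔫) ⧸ 𝔞.map (Ideal.Quotient.mk 𝔫)) ≃ₐ[k] (S ⧸ 𝔞) :=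
    AlgEquiv.ofRingEquiv (f := DoubleQuot.quotQuotEquivQuotOfLE h) (by
      intro c
      obtain ⟨s, hs⟩ := Ideal.Quotient.mk_surjective (algebraMap k (S ⧸ 𝔫) c)
      have h1 : algebraMap k ((S ⧸ 𝔫) ⧸ 𝔞.map (Ideal.Quotient.mk 𝔫)) c =
          DoubleQuot.quotQuotMk 𝔫 𝔞 s := by
        change Ideal.Quotient.mk _ (algebraMap k (S ⧸ 𝔫) c) = _
        rw [← hs]
        rfl
      rw [h1, DoubleQuot.quotQuotEquivQuotOfLE_quotQuotMk, ← hc c, ← hs]
      rfl)
  have h2 : e (Ideal.Quotient.mk (𝔞.map (Ideal.Quotient.mk 𝔫)) (Ideal.Quotient.mk 𝔫 x)) =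
      Ideal.Quotient.mk 𝔞 x := DoubleQuot.quotQuotEquivQuotOfLE_quotQuotMk x h
  unfold h72n_nrm
  rw [← h2, Algebra.norm_eq_of_algEquiv]

theorem h72n_nrm_self (x : S) :
    h72n_nrm k 𝔫 𝔫 x = Algebra.norm k (Ideal.Quotient.mk 𝔫 x) := by
  refine h72n_nrm_eq k 𝔫 𝔫 le_rfl ?_ x
  intro c
  obtain ⟨s, hs⟩ := Ideal.Quotient.mk_surjective (algebraMap k (S ⧸ 𝔫) c)
  rw [← hs]
  rfl

variable [Module.Finite k (S ⧸ 𝔫)]

theorem h72n_finite_quot (I : Ideal (S ⧸ 𝔫)) : Module.Finite k ((S ⧸ 𝔫) ⧸ I) :=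
  Module.Finite.of_surjective (Ideal.Quotient.mkₐ k I).toLinearMap
    (Ideal.Quotient.mkₐ_surjective k I)

theorem h72n_nrm_mul_prime (𝔞 P : Ideal S) (h𝔞 : 𝔞 ≠ ⊥) (hP : P.IsPrime) (hP0 : P ≠ ⊥)
    (h𝔫 : 𝔫 ≤ 𝔞 * P) (x : S) :
    h72n_nrm k 𝔫 (𝔞 * P) x = h72n_nrm k 𝔫 𝔞 x * h72n_nrm k 𝔫 P x := by
  obtain ⟨t, -, hsup, hcol⟩ := h72n_exists_gen 𝔞 P h𝔞 hP hP0
  have := h72n_finite_quot k 𝔫 ((𝔞 * P).map (Ideal.Quotient.mk 𝔫))
  have h𝔫P : 𝔫 ≤ P := h𝔫.trans Ideal.mul_le_right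
  have hJ : 𝔞.map (Ideal.Quotient.mk 𝔫) =
      (𝔞 * P).map (Ideal.Quotient.mk 𝔫) ⊔ Ideal.span {Ideal.Quotient.mk 𝔫 t} := by
    conv_lhs => rw [hsup]
    rw [Ideal.map_sup, Ideal.map_span, Set.image_singleton]
  have hQ : ∀ s', s' ∈ P.map (Ideal.Quotient.mk 𝔫) ↔
      s' * Ideal.Quotient.mk 𝔫 t ∈ (𝔞 * P).map (Ideal.Quotient.mk 𝔫) := by
    intro s'
    obtain ⟨s, rfl⟩ := Ideal.Quotient.mk_surjective s'
    rw [← map_mul, Ideal.mem_quotient_iff_mem h𝔫P, Ideal.mem_quotient_iff_mem h𝔫]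
    exact hcol s
  unfold h72n_nrm
  rw [h72n_norm_ses (k := k) _ _ _ (Ideal.Quotient.mk 𝔫 t) hJ hQ (Ideal.Quotient.mk 𝔫 x),
    mul_comm]

theorem h72n_nrm_mul_prime_pow (𝔞 P : Ideal S) (h𝔞 : 𝔞 ≠ ⊥) (hP : P.IsPrime) (hP0 : P ≠ ⊥)
    (e : ℕ) (h𝔫 : 𝔫 ≤ 𝔞 * P ^ e) (x : S) :
    h72n_nrm k 𝔫 (𝔞 * P ^ e) x = h72n_nrm k 𝔫 𝔞 x * h72n_nrm k 𝔫 P x ^ e := by
  induction e with
  | zero => simp
  | succ e ih =>
    have h1 : 𝔞 * P ^ (e + 1) = 𝔞 * P ^ e * P := by rw [pow_succ, mul_assoc]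
    have h2 : 𝔞 * P ^ e ≠ ⊥ := mul_ne_zero h𝔞 (pow_ne_zero e hP0)
    rw [h1] at h𝔫 ⊢
    rw [h72n_nrm_mul_prime k 𝔫 _ P h2 hP hP0 h𝔫, ih (h𝔫.trans Ideal.mul_le_left), pow_succ,
      mul_assoc]

theorem h72n_nrm_prod {ι : Type*} (s : Finset ι) (P : ι → Ideal S) (e : ι → ℕ)
    (hP : ∀ i ∈ s, (P i).IsPrime) (hP0 : ∀ i ∈ s, P i ≠ ⊥)
    (h𝔫 : 𝔫 ≤ ∏ i ∈ s, P i ^ e i) (x : S) :
    h72n_nrm k 𝔫 (∏ i ∈ s, P i ^ e i) x = ∏ i ∈ s, h72n_nrm k 𝔫 (P i) x ^ e i := by
  classical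
  induction s using Finset.induction_on with
  | empty => simp [Ideal.one_eq_top, h72n_nrm_top]
  | insert a s ha ih =>
    rw [Finset.prod_insert ha, mul_comm] at h𝔫 ⊢
    rw [Finset.prod_insert ha]
    have h0 : ∏ i ∈ s, P i ^ e i ≠ ⊥ := by
      rw [← Ideal.zero_eq_bot, Finset.prod_ne_zero_iff]
      intro i hi
      exact pow_ne_zero _ (hP0 i (Finset.mem_insert_of_mem hi))
    rw [h72n_nrm_mul_prime_pow k 𝔫 _ (P a) h0 (hP a (Finset.mem_insert_self a s))
      (hP0 a (Finset.mem_insert_self a s)) (e a) h𝔫,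
      ih (fun i hi => hP i (Finset.mem_insert_of_mem hi))
        (fun i hi => hP0 i (Finset.mem_insert_of_mem hi)) (h𝔫.trans Ideal.mul_le_left), mul_comm]

/-- abstract product formula: if `𝔫 = ∏ P i ^ e i` in the Dedekind domain `S` and `S/𝔫` is a
finite algebra over a field `k`, the norm of `x mod 𝔫` is the product of the norms of `x` in
the residue algebras `(S/𝔫)/P i`. -/
theorem h72n_norm_prod_abs {ι : Type*} [Fintype ι] (P : ι → Ideal S) (e : ι → ℕ)
    (hP : ∀ i, (P i).IsPrime) (hP0 : ∀ i, P i ≠ ⊥) (hfac : 𝔫 = ∏ i, P i ^ e i) (x : S) :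
    Algebra.norm k (Ideal.Quotient.mk 𝔫 x) = ∏ i, h72n_nrm k 𝔫 (P i) x ^ e i := by
  rw [← h72n_nrm_self k 𝔫 x]
  have h1 := h72n_nrm_prod k 𝔫 Finset.univ P e (fun i _ => hP i) (fun i _ => hP0 i)
    (le_of_eq hfac) x
  rw [← hfac] at h1
  exact h1

end Dedekind

section Fields

/-- trivial residue extension: the norm is the element itself. -/
theorem h72n_norm_of_bijective {A B : Type*} [CommRing A] [CommRing B] [Algebra A B]
    (h : Function.Bijective (algebraMap A B)) (y : B) :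
    algebraMap A B (Algebra.norm A y) = y := by
  let e : A ≃ₐ[A] B := AlgEquiv.ofBijective (Algebra.ofId A B) h
  obtain ⟨a, rfl⟩ := h.2 y
  have h1 : Algebra.norm A (e a) = Algebra.norm A a := Algebra.norm_eq_of_algEquiv e a
  have h2 : e a = algebraMap A B a := rfl
  rw [← h2, h1, Algebra.norm_self]
  rfl

/-- purely inseparable extension: the norm is the `[L : K]`-th power. -/
theorem h72n_norm_purelyInseparable {K L : Type*} [Field K] [Field L] [Algebra K L]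
    [IsPurelyInseparable K L] (x : L) :
    algebraMap K L (Algebra.norm K x) = x ^ Module.finrank K L := by
  obtain ⟨q, hq⟩ := ExpChar.exists K
  obtain ⟨n, hn⟩ := IsPurelyInseparable.minpoly_eq_X_sub_C_pow K q x
  have hx : IsIntegral K x := IsPurelyInseparable.isIntegral' K x
  have hsplit : ((minpoly K x).map (algebraMap K L)).Splits := by
    rw [hn]
    exact (Polynomial.Splits.X_sub_C x).pow _
  rw [Algebra.norm_eq_prod_roots (F := L) hsplit]
  have hroots : (minpoly K x).aroots L = (q ^ n) • {x} := by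
    rw [Polynomial.aroots_def, hn, Polynomial.roots_pow, Polynomial.roots_X_sub_C]
  have hdeg : (minpoly K x).natDegree = q ^ n := by
    have h1 := congrArg Polynomial.natDegree hn
    rw [Polynomial.natDegree_map, Polynomial.natDegree_pow, Polynomial.natDegree_X_sub_C,
      mul_one] at h1
    exact h1
  rw [hroots, Multiset.prod_nsmul, Multiset.prod_singleton, ← pow_mul,
    ← hdeg, ← IntermediateField.adjoin.finrank hx, Module.finrank_mul_finrank]

end Fields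

section Main

variable {R S : Type*} [CommRing R] [CommRing S] [IsDedekindDomain S] [Algebra R S]
  [Module.Free R S] [Module.Finite R S]

/-- **Norm-residue formula.**  `S` a Dedekind domain, finite free over `R`; `p` a maximal
ideal of `R` with `p S = ∏ i, P i ^ e i`, the `P i` nonzero primes of `S` over `p`.  Then
`(N_{S/R} x) mod p = ∏ i, N_{(S/P i)/(R/p)} (x mod P i) ^ e i`. -/
theorem h72n_norm_residue (p : Ideal R) [p.IsMaximal] {ι : Type*} [Fintype ι]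
    (P : ι → Ideal S) (e : ι → ℕ) [∀ i, (P i).IsPrime] [∀ i, (P i).LiesOver p]
    (hP0 : ∀ i, P i ≠ ⊥) (hfac : p.map (algebraMap R S) = ∏ i, P i ^ e i) (x : S) :
    Ideal.Quotient.mk p (Algebra.norm R x) =
      ∏ i, Algebra.norm (R ⧸ p) (Ideal.Quotient.mk (P i) x) ^ e i := by
  let _ : Field (R ⧸ p) := Ideal.Quotient.field p
  have hfin : Module.Finite (R ⧸ p) (S ⧸ p.map (algebraMap R S)) :=
    Module.Finite.of_restrictScalars_finite R _ _
  rw [← h72n_norm_quotient_map p x,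
    h72n_norm_prod_abs (R ⧸ p) (p.map (algebraMap R S)) P e (fun i => inferInstance) hP0 hfac x]
  refine Finset.prod_congr rfl fun i _ => ?_
  have hle : p.map (algebraMap R S) ≤ P i := by
    rw [Ideal.map_le_iff_le_comap]
    exact le_of_eq ((P i).over_def p)
  rw [h72n_nrm_eq (R ⧸ p) (p.map (algebraMap R S)) (P i) hle ?_ x]
  intro c
  obtain ⟨r, rfl⟩ := Ideal.Quotient.mk_surjective c
  rfl

end Main

end Fermat.Agent.S36.H72N
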