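import Fermat.Agent.S35.HK.FinalB

/-!
# S36, block HECKE (helper73): `OldKill` at every prime divisor of the level

The landed `Fermat.Agent.S35.OldKillStatement` carries the hypothesis `¬ q ^ 2 ∣ N`, which its
proof never uses.  For S36 (`q ^ 2 ∥ N`) we need the same statement without it:

* `h73k_oldKill_all` : for a newform `g` of level `N` and **every** prime `q ∣ N` there is a Hecke
  polynomial `e` (in the `T_r`, `r ∉ S`) with `χ_g(e) ≠ 0` which kills `S₂(Γ₀(N / q))`.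
* `h73k_oldKill_sq` : the special case `q ^ 2 ∣ N` in the shape used by S36.

Unconditional (uses the landed `h45e_eigenOfChar`, `h73s_sIndep`).
-/

set_option autoImplicit false

open AlgebraicCurve ModularCurve

noncomputable section

namespace Fermat.Agent.S36

open Fermat.Agent.S35
open Fermat.Agent.S30 (heckeTAll)
open Fermat.Agent.S30.PackageAdic (GoodPrime evS evS_X heckeT)
open Fermat.Agent.S31 (TI_evS TI_tS TI_Sc TI_Kills TI_evS_X TI_coe_evS)

/-- **OldKill at every prime divisor of the level** (no hypothesis `¬ q ^ 2 ∣ N`). -/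
theorem h73k_oldKill_all (N : ℕ) [NeZero N] (g : CuspForm (CongruenceSubgroup.Gamma0 N) 2)
    (hg : g.IsNewform) (S : Finset ℕ) (chig : CuspForm.heckeAlgebra N 2 (↑S : Set ℕ) →+* ℂ)
    (hchig : ∀ (ℓ : ℕ) (hℓ : ℓ.Prime) (hℓN : ¬ ℓ ∣ N) (hℓS : ℓ ∉ (↑S : Set ℕ)),
      chig (CuspForm.heckeAlgebra.T hℓ hℓN hℓS) = ModularFormClass.qCoeff g ℓ)
    (hS : ∀ q : ℕ, q.Prime → q ∣ N → q ∈ S) (q : ℕ) (hq : q.Prime) (hqN : q ∣ N) :
    ∃ e : MvPolynomial (GoodPrime N S) ℤ,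
      chig (evS S e) ≠ 0 ∧ KillsOld N q (MvPolynomial.rename Subtype.val e) := by
  have hEig : ∀ (N : ℕ) [NeZero N], EigenOfChar N := fun N _ => h45e_eigenOfChar N
  have hInd : SIndep := h73s_sIndep
  obtain ⟨M, hM⟩ : ∃ M, N = M * q := by
    obtain ⟨M, hM⟩ := hqN
    exact ⟨M, by rw [hM, mul_comm]⟩
  have hM0 : M ≠ 0 := by
    rintro rfl
    rw [zero_mul] at hM
    exact NeZero.ne N hM
  have : NeZero M := ⟨hM0⟩
  have hMN : M ∣ N := ⟨q, hM⟩
  have hSM : ∀ r : ℕ, r.Prime → r ∣ M → r ∈ S := fun r hr hrM => hS r hr (hrM.trans hMN)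
  by_contra hcon
  push Not at hcon
  -- the evaluation at the level `M` of the polynomials in the good primes of level `N`
  set f : MvPolynomial (GoodPrime N S) ℤ →+* CuspForm.heckeAlgebra M 2 (↑S : Set ℕ) :=
    ((TI_evS M S).comp (MvPolynomial.rename Subtype.val)).toRingHom with hf
  have hfapp : ∀ e, f e = TI_evS M S (MvPolynomial.rename Subtype.val e) := fun e => rfl
  set φ : MvPolynomial (GoodPrime N S) ℤ →+* ℂ := chig.comp (evS S).toRingHom with hφ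
  have hker : RingHom.ker f ≤ RingHom.ker φ := by
    intro e he
    rw [RingHom.mem_ker] at he ⊢
    rw [hfapp] at he
    have hsup := hk_rename_mem_supported N S e
    have hkill : KillsOld N q (MvPolynomial.rename Subtype.val e) := by
      intro M' _ hM'
      have hMM' : M' = M := by
        have hq0 : 0 < q := hq.pos
        exact Nat.eq_of_mul_eq_mul_right hq0 (hM'.symm.trans hM)
      subst hMM'
      rw [← TI_coe_evS hSM hsup, he]
      rfl
    show chig (evS S e) = 0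
    by_contra hne
    exact hcon e hne hkill
  have hsurj : Function.Surjective f := by
    intro z
    obtain ⟨P, hP⟩ := hk_evS_surjective M S hSM z
    have hcut : hkCut S P ∈ MvPolynomial.supported ℤ (TI_Sc S) := hkCut_mem_supported S P
    have hrange : ∀ Q ∈ MvPolynomial.supported ℤ (TI_Sc S),
        ∃ e : MvPolynomial (GoodPrime N S) ℤ, MvPolynomial.rename Subtype.val e = Q := by
      intro Q hQ
      rw [MvPolynomial.supported_eq_adjoin_X] at hQ
      refine Algebra.adjoin_induction (p := fun Q _ =>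
        ∃ e : MvPolynomial (GoodPrime N S) ℤ, MvPolynomial.rename Subtype.val e = Q)
        ?_ ?_ ?_ ?_ hQ
      · rintro _ ⟨ℓ, hℓ, rfl⟩
        have hℓS : (ℓ : ℕ) ∉ (↑S : Set ℕ) := fun h => hℓ (Finset.mem_coe.mp h)
        have hℓN : ¬ (ℓ : ℕ) ∣ N := fun h => hℓ (hS ℓ ℓ.2 h)
        exact ⟨MvPolynomial.X ⟨ℓ, hℓN, hℓS⟩, MvPolynomial.rename_X _ _⟩
      · intro r
        exact ⟨MvPolynomial.C r, by rw [MvPolynomial.rename_C]; rfl⟩
      · rintro x y _ _ ⟨a, ha⟩ ⟨b, hb⟩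
        exact ⟨a + b, by rw [map_add, ha, hb]⟩
      · rintro x y _ _ ⟨a, ha⟩ ⟨b, hb⟩
        exact ⟨a * b, by rw [map_mul, ha, hb]⟩
    obtain ⟨e, he⟩ := hrange _ hcut
    refine ⟨e, ?_⟩
    rw [hfapp, he, hk_evS_cut, hP]
  set χ' : CuspForm.heckeAlgebra M 2 (↑S : Set ℕ) →+* ℂ :=
    RingHom.liftOfSurjective f hsurj ⟨φ, hker⟩ with hχ'
  have hχ'ev : ∀ e : MvPolynomial (GoodPrime N S) ℤ, χ' (f e) = φ e := fun e =>
    RingHom.liftOfRightInverse_comp_apply _ _ _ ⟨φ, hker⟩ e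
  obtain ⟨g', hg', hg'coeff⟩ := hEig M S hSM χ'
  have hagree : ∀ ℓ : ℕ, ℓ.Prime → ℓ ∉ S →
      ModularFormClass.qCoeff g' ℓ = ModularFormClass.qCoeff g ℓ := by
    intro ℓ hℓ hℓS
    have hℓN : ¬ ℓ ∣ N := fun h => hℓS (hS ℓ hℓ h)
    have hℓM : ¬ ℓ ∣ M := fun h => hℓS (hSM ℓ hℓ h)
    have hℓS' : ℓ ∉ (↑S : Set ℕ) := fun h => hℓS (Finset.mem_coe.mp h)
    have e0 : f (MvPolynomial.X (⟨⟨ℓ, hℓ⟩, hℓN, hℓS'⟩ : GoodPrime N S)) =
        CuspForm.heckeAlgebra.T hℓ hℓM hℓS' := by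
      rw [hfapp, MvPolynomial.rename_X]
      exact TI_evS_X M S ⟨ℓ, hℓ⟩ hℓM hℓS'
    rw [hg'coeff ℓ hℓ hℓM hℓS', ← e0, hχ'ev, hφ, RingHom.comp_apply]
    have e1 : (evS S).toRingHom (MvPolynomial.X (⟨⟨ℓ, hℓ⟩, hℓN, hℓS'⟩ : GoodPrime N S)) =
        CuspForm.heckeAlgebra.T hℓ hℓN hℓS' := evS_X S _
    rw [e1, hchig ℓ hℓ hℓN hℓS']
  have hall := hInd N M hMN g g' hg.isNormalizedEigenform hg' S hagree
  have hMne : M ≠ N := by
    intro h
    have hMpos : 0 < M := Nat.pos_of_ne_zero hM0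
    have h1 : M * 1 = M * q := by rw [mul_one, ← hM, h]
    exact hq.one_lt.ne (Nat.eq_of_mul_eq_mul_left hMpos h1)
  exact hg.2 M hMN hMne ⟨g', hg', hall⟩

/-- the shape used by S36: `M.factorization q = 2`. -/
theorem h73k_oldKill_sq (N : ℕ) [NeZero N] (g : CuspForm (CongruenceSubgroup.Gamma0 N) 2)
    (hg : g.IsNewform) (S : Finset ℕ) (chig : CuspForm.heckeAlgebra N 2 (↑S : Set ℕ) →+* ℂ)
    (hchig : ∀ (ℓ : ℕ) (hℓ : ℓ.Prime) (hℓN : ¬ ℓ ∣ N) (hℓS : ℓ ∉ (↑S : Set ℕ)),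
      chig (CuspForm.heckeAlgebra.T hℓ hℓN hℓS) = ModularFormClass.qCoeff g ℓ)
    (hS : ∀ q : ℕ, q.Prime → q ∣ N → q ∈ S) (q : ℕ) (hq : q.Prime)
    (hfac : N.factorization q = 2) :
    ∃ e : MvPolynomial (GoodPrime N S) ℤ,
      chig (evS S e) ≠ 0 ∧ KillsOld N q (MvPolynomial.rename Subtype.val e) := by
  have hqN : q ∣ N := by
    have h1 : 0 < N.factorization q := by rw [hfac]; norm_num
    exact Nat.dvd_of_factorization_pos h1.ne'
  exact h73k_oldKill_all N g hg S chig hchig hS q hq hqN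

end Fermat.Agent.S36
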