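import Fermat.Agent.S36.Skeleton
import Fermat.Agent.S36.H73OldKill

/-!
# S36, row OLDKILL (helper73): `OldKillAllStatement`, unconditional

`h73k_oldKillAllStatement : OldKillAllStatement` (the exact frozen `Prop` of
`S36/Skeleton.lean`), from `h73k_oldKill_all` (`S36/H73OldKill.lean`).
-/

set_option autoImplicit false

namespace Fermat.Agent.S36

/-- **OLDKILL**: the frozen interface `OldKillAllStatement`, unconditional. -/
theorem h73k_oldKillAllStatement : OldKillAllStatement :=
  fun N _ g hg S chig hchig hS q hq hqN => h73k_oldKill_all N g hg S chig hchig hS q hq hqN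

end Fermat.Agent.S36
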