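import Fermat.Agent.S36.H74VIface

/-!
# S36, block (V), leaf V-ABSVAL (helper74): a subring with a uniformiser is the valuation ring
of a `ℤᵐ⁰`-valued valuation

`h74w_absVal : H74AbsVal` (Mathlib only in content).
-/

set_option autoImplicit false

open WithZero

noncomputable section

namespace Fermat.Agent.S36

/-- **V-ABSVAL.** -/
theorem h74w_absVal : H74AbsVal := by
  intro F _ W z hz hz' H
  classical
  have hz0 : z ≠ 0 := by
    rintro rfl
    exact hz' (by rw [inv_zero]; exact zero_mem W)
  have hpow : ∀ n : ℤ, 0 ≤ n → z ^ n ∈ W := by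
    intro n hn
    lift n to ℕ using hn
    rw [zpow_natCast]
    exact pow_mem hz n
  -- an element of `W` has non-positive "exponent"
  have key : ∀ (w : F) (n : ℤ), w ∈ W → (z ^ n * w)⁻¹ ∈ W → w ≠ 0 → n ≤ 0 := by
    intro w n hw hu hw0
    by_contra hn
    have hn' : 0 ≤ n - 1 := by omega
    apply hz'
    have e : z⁻¹ = (z ^ n * w)⁻¹ * (z ^ (n - 1) * w) := by
      have h1 : z ^ n = z ^ (n - 1) * z := by
        rw [← zpow_add_one₀ hz0]
        congr 1
        omega
      rw [h1]
      have h2 : z ^ (n - 1) ≠ 0 := zpow_ne_zero _ hz0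
      field_simp
    rw [e]
    exact mul_mem hu (mul_mem (hpow _ hn') hw)
  -- uniqueness of the exponent
  have uniq : ∀ (x : F) (a b : ℤ), x ≠ 0 → z ^ a * x ∈ W → (z ^ a * x)⁻¹ ∈ W →
      z ^ b * x ∈ W → (z ^ b * x)⁻¹ ∈ W → a = b := by
    intro x a b hx ha ha' hb hb'
    have hne : ∀ c : ℤ, z ^ c * x ≠ 0 := fun c => mul_ne_zero (zpow_ne_zero _ hz0) hx
    have h1 : a - b ≤ 0 := by
      refine key (z ^ b * x) (a - b) hb ?_ (hne b)
      have : z ^ (a - b) * (z ^ b * x) = z ^ a * x := by
        rw [← mul_assoc, ← zpow_add₀ hz0]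
        congr 2
        omega
      rw [this]
      exact ha'
    have h2 : b - a ≤ 0 := by
      refine key (z ^ a * x) (b - a) ha ?_ (hne a)
      have : z ^ (b - a) * (z ^ a * x) = z ^ b * x := by
        rw [← mul_assoc, ← zpow_add₀ hz0]
        congr 2
        omega
      rw [this]
      exact hb'
    omega
  -- the exponent function
  let n : F → ℤ := fun x => if h : x = 0 then 0 else Classical.choose (H x h)
  have hn : ∀ x : F, x ≠ 0 → z ^ n x * x ∈ W ∧ (z ^ n x * x)⁻¹ ∈ W := by
    intro x hx
    have := Classical.choose_spec (H x hx)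
    simpa [n, hx] using this
  have hn_eq : ∀ (x : F) (a : ℤ), x ≠ 0 → z ^ a * x ∈ W → (z ^ a * x)⁻¹ ∈ W → n x = a :=
    fun x a hx ha ha' => uniq x (n x) a hx (hn x hx).1 (hn x hx).2 ha ha'
  have hn_one : n 1 = 0 := by
    refine hn_eq 1 0 one_ne_zero ?_ ?_
    · simp [one_mem]
    · simp [one_mem]
  have hn_mul : ∀ x y : F, x ≠ 0 → y ≠ 0 → n (x * y) = n x + n y := by
    intro x y hx hy
    have e : z ^ (n x + n y) * (x * y) = (z ^ n x * x) * (z ^ n y * y) := by
      rw [zpow_add₀ hz0]
      ring
    refine hn_eq (x * y) (n x + n y) (mul_ne_zero hx hy) ?_ ?_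
    · rw [e]
      exact mul_mem (hn x hx).1 (hn y hy).1
    · rw [e, mul_inv]
      exact mul_mem (hn x hx).2 (hn y hy).2
  have hn_mem : ∀ x : F, x ≠ 0 → (n x ≤ 0 ↔ x ∈ W) := by
    intro x hx
    constructor
    · intro h
      have e : x = z ^ (-n x) * (z ^ n x * x) := by
        rw [← mul_assoc, ← zpow_add₀ hz0]
        simp
      rw [e]
      exact mul_mem (hpow _ (by omega)) (hn x hx).1
    · intro h
      exact key x (n x) h (hn x hx).2 hx
  -- the valuation
  let v : Valuation F ℤᵐ⁰ :=
    { toFun := fun x => if x = 0 then 0 else exp (n x)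
      map_zero' := by simp
      map_one' := by
        simp only [one_ne_zero, if_false, hn_one]
        exact exp_zero
      map_mul' := by
        intro x y
        by_cases hx : x = 0
        · simp [hx]
        by_cases hy : y = 0
        · simp [hy]
        simp only [hx, hy, mul_ne_zero hx hy, if_false, hn_mul x y hx hy]
        exact exp_add _ _
      map_add_le_max' := by
        intro x y
        by_cases hx : x = 0
        · simp [hx]
        by_cases hy : y = 0
        · simp [hy]
        by_cases hxy : x + y = 0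
        · simp [hxy]
        simp only [hx, hy, hxy, if_false]
        -- WLOG on the order of the exponents
        have main : ∀ a b : F, a ≠ 0 → b ≠ 0 → a + b ≠ 0 → n a ≤ n b → n (a + b) ≤ n b := by
          intro a b ha hb hab hle
          have hw : z ^ n b * (a + b) ∈ W := by
            have e : z ^ n b * (a + b) = z ^ (n b - n a) * (z ^ n a * a) + z ^ n b * b := by
              rw [← mul_assoc, ← zpow_add₀ hz0]
              have : n b - n a + n a = n b := by omega
              rw [this]
              ring
            rw [e]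
            exact add_mem (mul_mem (hpow _ (by omega)) (hn a ha).1) (hn b hb).1
          have hc : n (a + b) - n b ≤ 0 := by
            refine key (z ^ n b * (a + b)) (n (a + b) - n b) hw ?_
              (mul_ne_zero (zpow_ne_zero _ hz0) hab)
            have e : z ^ (n (a + b) - n b) * (z ^ n b * (a + b)) = z ^ n (a + b) * (a + b) := by
              rw [← mul_assoc, ← zpow_add₀ hz0]
              congr 2
              omega
            rw [e]
            exact (hn (a + b) hab).2
          omega
        rcases le_total (n x) (n y) with h | h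
        · exact le_max_of_le_right (exp_le_exp.mpr (main x y hx hy hxy h))
        · refine le_max_of_le_left (exp_le_exp.mpr ?_)
          have := main y x hy hx (by rwa [add_comm]) h
          rwa [add_comm] at this }
  refine ⟨v, ?_, ?_⟩
  · intro x
    by_cases hx : x = 0
    · subst hx
      simp [zero_mem]
    · show (if x = 0 then (0 : ℤᵐ⁰) else exp (n x)) ≤ 1 ↔ x ∈ W
      rw [if_neg hx, ← exp_zero, exp_le_exp]
      exact hn_mem x hx
  · show (if z = 0 then (0 : ℤᵐ⁰) else exp (n z)) = exp (-1 : ℤ)
    rw [if_neg hz0]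
    congr 1
    refine hn_eq z (-1) hz0 ?_ ?_
    · rw [zpow_neg_one, inv_mul_cancel₀ hz0]
      exact one_mem W
    · rw [zpow_neg_one, inv_mul_cancel₀ hz0, inv_one]
      exact one_mem W

end Fermat.Agent.S36
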