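import Fermat.Agent.S36.H76CuspLv1
import Fermat.Agent.S36.H64ChartNoeth
import Fermat.Agent.S36.H83EmbGal
import Fermat.Agent.LGC.Cusp21Loc
import Fermat.Agent.Red.KR.NormFin

/-!
# S36, block REG, row R-CUSP-UNIT11 (helper76): the function `S` and its integrality

Level `M q²`, `j₀ = j`, `j₁ = j(t^q)`, `j₂ = j(t^{q²})`, `t₀ = 1/j₀`, `y₁ = j₁ t₀^q`,
`x = j₀ / j₂`, `σ = s(t₀)^E` (`s ∈ A₀[X]`, `s(0) = 1`) and

  `S = σ · y₁ · (1 - x) + (1 - y₁)`.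

* `h76u_exists_mult` : there are `s`, `E` with `σ · y₁ · x` integral over `A[t₀]`
  (`(σ y₁ x)^q = σ^(q-1) · (σ · β (w y)) · y₁^(q-1)`; reflect + mult; the charts are root closed).
* `h76u_S_mem` : then `S` lies in the chart over the inertia ring.
-/

set_option autoImplicit false
set_option linter.style.haveILetI false
set_option linter.unusedSectionVars false
set_option synthInstance.maxHeartbeats 400000

open ModularCurve AlgebraicCurve Polynomial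

noncomputable section

namespace Fermat.Agent.S36

open Fermat.Agent.S37 (Kbar GQ FF cst gal jB modelAt)
open Fermat.Agent.Red.Kron (kFricke kFricke_alpha kFricke_beta)
open Fermat.Agent.LGC (h21c_y h21c_t h21c_U)

section Defs

variable (M q : ℕ) [NeZero M] [NeZero q]

/-- `j₁ = j(t^q)` at the level `M q²`. -/
def h76u_j1 : FF (M * q * q) :=
  heckeAlphaBar Kbar (M * q) q (heckeBetaBar Kbar M q (jB M))

/-- `j₂ = j(t^{q²})` at the level `M q²`. -/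
def h76u_j2 : FF (M * q * q) :=
  heckeBetaBar Kbar (M * q) q (heckeBetaBar Kbar M q (jB M))

/-- `t₀ = 1/j`. -/
def h76u_t0 : FF (M * q * q) := (jB (M * q * q))⁻¹

/-- `y₁ = j₁ t₀^q`. -/
def h76u_y1 : FF (M * q * q) := h76u_j1 M q * h76u_t0 M q ^ q

/-- `x = j₀ / j₂`. -/
def h76u_x : FF (M * q * q) := jB (M * q * q) * (h76u_j2 M q)⁻¹

variable (A : ValuationSubring Kbar)

/-- the multiplier `σ = s(t₀)^E`. -/
def h76u_sig (s : (h81a_A0 A)[X]) (E : ℕ) : FF (M * q * q) :=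
  h64c_ev A (M * q * q) (h76u_t0 M q) s ^ E

/-- the function `S`. -/
def h76u_S (s : (h81a_A0 A)[X]) (E : ℕ) : FF (M * q * q) :=
  h76u_sig M q A s E * h76u_y1 M q * (1 - h76u_x M q) + (1 - h76u_y1 M q)

/-- `z = σ · y₁ · x`. -/
def h76u_Z (s : (h81a_A0 A)[X]) (E : ℕ) : FF (M * q * q) :=
  h76u_sig M q A s E * (h76u_j1 M q * h76u_t0 M q ^ (q - 1) * (h76u_j2 M q)⁻¹)

theorem h76u_beta_alpha (x : FF M) :
    heckeBetaBar Kbar (M * q) q (heckeAlphaBar Kbar M q x) =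
      heckeAlphaBar Kbar (M * q) q (heckeBetaBar Kbar M q x) :=
  Subtype.ext (by
    rw [coe_heckeBetaBar, coe_heckeAlphaBar, coe_heckeAlphaBar, coe_heckeBetaBar])

theorem h76u_jB_eq : jB (M * q * q) = heckeAlphaBar Kbar (M * q) q (jB (M * q)) :=
  (Fermat.Agent.Red.HKMod.heckeAlphaBar_jBar (M * q) q).symm

theorem h76u_jB1_eq : jB (M * q) = heckeAlphaBar Kbar M q (jB M) :=
  (Fermat.Agent.Red.HKMod.heckeAlphaBar_jBar M q).symm

theorem h76u_j1_eq_beta : h76u_j1 M q = heckeBetaBar Kbar (M * q) q (jB (M * q)) := by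
  rw [h76u_j1, h76u_jB1_eq, h76u_beta_alpha]

theorem h76u_jB_ne_zero : jB (M * q * q) ≠ 0 := Fermat.Agent.LGC.h21c_jB_ne_zero _

theorem h76u_t0_eq_alpha : h76u_t0 M q = heckeAlphaBar Kbar (M * q) q (jB (M * q))⁻¹ := by
  rw [h76u_t0, h76u_jB_eq, map_inv₀]

theorem h76u_y1_eq : h76u_y1 M q = heckeAlphaBar Kbar (M * q) q (h21c_y M q) := by
  rw [h76u_y1, h21c_y, map_mul, map_pow, h76u_t0_eq_alpha]
  rfl

theorem h76u_Z_eq (s : (h81a_A0 A)[X]) (E : ℕ) (hq : 0 < q) :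
    h76u_Z M q A s E = h76u_sig M q A s E * h76u_y1 M q * h76u_x M q := by
  have h0 := h76u_jB_ne_zero M q
  have e : h76u_t0 M q ^ q = h76u_t0 M q ^ (q - 1) * h76u_t0 M q := by
    rw [← pow_succ, Nat.sub_add_cancel hq]
  rw [h76u_Z, h76u_y1, h76u_x, e, h76u_t0]
  field_simp

theorem h76u_S_eq (s : (h81a_A0 A)[X]) (E : ℕ) (hq : 0 < q) :
    h76u_S M q A s E =
      h76u_sig M q A s E * h76u_y1 M q - h76u_Z M q A s E + (1 - h76u_y1 M q) := by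
  rw [h76u_Z_eq M q A s E hq, h76u_S]
  ring

end Defs

section Int

variable (M q : ℕ) [NeZero M] [NeZero q] (A : ValuationSubring Kbar)

theorem h76u_t0_mem : h76u_t0 M q ∈ modelAt (M * q * q) A (h76u_t0 M q) :=
  Fermat.Agent.Red.ModelO.h85_self_mem_modelAt _ A _

/-- `y₁` is integral over `A[t₀]`. -/
theorem h76u_y1_mem (hq : q.Prime) (hqM : ¬ q ∣ M) (hA : A.LiesOverPrime q) :
    h76u_y1 M q ∈ modelAt (M * q * q) A (h76u_t0 M q) := by
  have h1 : h21c_y M q ∈ modelAt (M * q) A (jB (M * q))⁻¹ := by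
    have h := Fermat.Agent.LGC.h21c_y_mem_chart A M q hq hqM hA
    rw [Fermat.Agent.LGC.h21c_jSS_eq] at h
    exact h
  have h2 := Fermat.Agent.Red.KR.map_mem_modelAt (heckeAlphaBar Kbar (M * q) q) A h1
  rw [← h76u_t0_eq_alpha, ← h76u_y1_eq] at h2
  exact h2

/-- `j₁ t₂^q` is integral over `A[t₂]`. -/
theorem h76u_f_mem (hq : q.Prime) (hqM : ¬ q ∣ M) (hA : A.LiesOverPrime q) :
    h76u_j1 M q * (h76u_j2 M q)⁻¹ ^ q ∈ modelAt (M * q * q) A (h76u_j2 M q)⁻¹ := by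
  have h1 : h21c_y M q ∈ modelAt (M * q) A (jB (M * q))⁻¹ := by
    have h := Fermat.Agent.LGC.h21c_y_mem_chart A M q hq hqM hA
    rw [Fermat.Agent.LGC.h21c_jSS_eq] at h
    exact h
  have h2 := Fermat.Agent.Red.KR.map_mem_modelAt
    ((kFricke M q hq hqM : FF (M * q) ≃ₐ[Kbar] FF (M * q)) : FF (M * q) →ₐ[Kbar] FF (M * q)) A h1
  have h3 := Fermat.Agent.Red.KR.map_mem_modelAt (heckeBetaBar Kbar (M * q) q) A h2
  have e1 : (heckeBetaBar Kbar (M * q) q)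
      (((kFricke M q hq hqM : FF (M * q) ≃ₐ[Kbar] FF (M * q)) : FF (M * q) →ₐ[Kbar] FF (M * q))
        (jB (M * q))⁻¹) = (h76u_j2 M q)⁻¹ := by
    rw [AlgEquiv.coe_toAlgHom, map_inv₀, map_inv₀, h76u_jB1_eq, kFricke_alpha]
    rfl
  have e2 : (heckeBetaBar Kbar (M * q) q)
      (((kFricke M q hq hqM : FF (M * q) ≃ₐ[Kbar] FF (M * q)) : FF (M * q) →ₐ[Kbar] FF (M * q))
        (h21c_y M q)) = h76u_j1 M q * (h76u_j2 M q)⁻¹ ^ q := by
    rw [AlgEquiv.coe_toAlgHom, h21c_y, map_mul, map_pow, kFricke_beta, h21c_t, map_inv₀,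
      map_mul, map_pow, map_inv₀, h76u_jB1_eq, kFricke_alpha, h76u_beta_alpha]
    rfl
  rw [e1, e2] at h3
  exact h3

/-- `j₀` is integral over `A[j₂]`. -/
theorem h76u_j0_mem (hq : q.Prime) (hqM : ¬ q ∣ M) (hA : A.LiesOverPrime q) :
    jB (M * q * q) ∈ modelAt (M * q * q) A (h76u_j2 M q) := by
  have hmeb : jB (M * q) ∈ modelAt (M * q) A (heckeBetaBar Kbar M q (jB M)) :=
    Fermat.Agent.Red.KR.meBeta Fermat.Agent.Red.KR.meAlpha M q hq hqM A hA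
  have h1 := Fermat.Agent.Red.KR.map_mem_modelAt (heckeAlphaBar Kbar (M * q) q) A hmeb
  rw [← h76u_jB_eq] at h1
  have h2 := Fermat.Agent.Red.KR.map_mem_modelAt (heckeBetaBar Kbar (M * q) q) A hmeb
  rw [← h76u_j1_eq_beta] at h2
  exact Fermat.Agent.Red.KR.h66_modelAt_le_of_mem (M * q * q) A h2 h1

theorem h76u_j2_ne_zero : h76u_j2 M q ≠ 0 := by
  unfold h76u_j2
  rw [_root_.map_ne_zero, _root_.map_ne_zero]
  exact Fermat.Agent.LGC.h21c_jB_ne_zero M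

theorem h76u_j1_ne_zero : h76u_j1 M q ≠ 0 := by
  unfold h76u_j1
  rw [_root_.map_ne_zero, _root_.map_ne_zero]
  exact Fermat.Agent.LGC.h21c_jB_ne_zero M

theorem h76u_sig_mem (s : (h81a_A0 A)[X]) (E : ℕ) :
    h76u_sig M q A s E ∈ modelAt (M * q * q) A (h76u_t0 M q) := by
  refine pow_mem ?_ E
  rw [h64c_mem_modelAt_iff]
  exact (h64c_ev A (M * q * q) (h76u_t0 M q)).isIntegralElem_map

theorem h76u_pow_identity {R : Type*} [CommRing R] (k : ℕ) (σ j₁ t₀ u : R) :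
    (σ * (j₁ * t₀ ^ k * u)) ^ (k + 1) =
      σ ^ k * (σ * (j₁ * u ^ (k + 1))) * (j₁ * t₀ ^ (k + 1)) ^ k := by
  ring

/-- **the multiplier**: there are `s ∈ A₀[X]`, `s(0) = 1`, and `E` such that `σ y₁ x` is
integral over `A[t₀]`. -/
theorem h76u_exists_mult (hq : q.Prime) (hqM : ¬ q ∣ M) (hA : A.LiesOverPrime q) :
    ∃ (s : (h81a_A0 A)[X]) (E : ℕ), s.coeff 0 = 1 ∧
      h76u_Z M q A s E ∈ modelAt (M * q * q) A (h76u_t0 M q) := by
  have hj0 := h76u_j0_mem M q A hq hqM hA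
  rw [h64c_mem_modelAt_iff] at hj0
  obtain ⟨s, hs0, hsU⟩ := Fermat.Agent.Red.KR.reflect (↥(h81a_A0 A)) (FF (M * q * q))
    (h64c_cst A (M * q * q)) (h76u_j2 M q) (jB (M * q * q)) (h76u_j2_ne_zero M q)
    (h76u_jB_ne_zero M q) hj0
  have hf := h76u_f_mem M q A hq hqM hA
  rw [h64c_mem_modelAt_iff] at hf
  obtain ⟨E, hE⟩ := Fermat.Agent.Red.KR.mult (↥(h81a_A0 A)) (FF (M * q * q))
    (h64c_cst A (M * q * q)) (h76u_j2 M q)⁻¹ (jB (M * q * q))⁻¹ s hsU _ hf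
  refine ⟨s, E, hs0, ?_⟩
  have hσf : h76u_sig M q A s E * (h76u_j1 M q * (h76u_j2 M q)⁻¹ ^ q) ∈
      modelAt (M * q * q) A (h76u_t0 M q) := by
    rw [h64c_mem_modelAt_iff]
    exact hE
  have hσ := h76u_sig_mem M q A s E
  have hy := h76u_y1_mem M q A hq hqM hA
  have hq1 : q - 1 + 1 = q := Nat.sub_add_cancel hq.pos
  have key : h76u_Z M q A s E ^ q =
      h76u_sig M q A s E ^ (q - 1) *
        (h76u_sig M q A s E * (h76u_j1 M q * (h76u_j2 M q)⁻¹ ^ q)) * h76u_y1 M q ^ (q - 1) := by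
    have h := h76u_pow_identity (q - 1) (h76u_sig M q A s E) (h76u_j1 M q) (h76u_t0 M q)
      (h76u_j2 M q)⁻¹
    rw [hq1] at h
    exact h
  apply Fermat.Agent.Red.ModelO.h85_modelAt_root_closed (M * q * q) A _ hq.ne_zero
  rw [key]
  exact mul_mem (mul_mem (pow_mem hσ _) hσf) (pow_mem hy _)

/-- `S` is integral over `A[t₀]`. -/
theorem h76u_S_mem_modelAt (hq : q.Prime) (hqM : ¬ q ∣ M) (hA : A.LiesOverPrime q)
    (s : (h81a_A0 A)[X]) (E : ℕ)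
    (hZ : h76u_Z M q A s E ∈ modelAt (M * q * q) A (h76u_t0 M q)) :
    h76u_S M q A s E ∈ modelAt (M * q * q) A (h76u_t0 M q) := by
  rw [h76u_S_eq M q A s E hq.pos]
  have hσ := h76u_sig_mem M q A s E
  have hy := h76u_y1_mem M q A hq hqM hA
  exact add_mem (sub_mem (mul_mem hσ hy) hZ) (sub_mem (one_mem _) hy)

/-! ### invariance under the inertia group -/

theorem h76u_j1_fixed (σ : GQ) : gal (M * q * q) σ • h76u_j1 M q = h76u_j1 M q := by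
  rw [h76u_j1, h83g_gal_alpha, h83g_gal_beta, Fermat.Agent.S37.GalI.gal_smul_jB]

theorem h76u_j2_fixed (σ : GQ) : gal (M * q * q) σ • h76u_j2 M q = h76u_j2 M q := by
  rw [h76u_j2, h83g_gal_beta, h83g_gal_beta, Fermat.Agent.S37.GalI.gal_smul_jB]

theorem h76u_t0_fixed (σ : GQ) : gal (M * q * q) σ • h76u_t0 M q = h76u_t0 M q :=
  Fermat.Agent.S37.GalI.gal_smul_jB_inv σ

theorem h76u_t0_mem_F0 : h76u_t0 M q ∈ h53d_F0 (M * q * q) (A.inertiaSubgroupIn ℚ) :=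
  fun σ _ => h76u_t0_fixed M q σ

theorem h76u_sig_mem_F0 (s : (h81a_A0 A)[X]) (E : ℕ) :
    h76u_sig M q A s E ∈ h53d_F0 (M * q * q) (A.inertiaSubgroupIn ℚ) := by
  refine pow_mem ?_ E
  rw [← h64c_coe_ev0 A (M * q * q) (h76u_t0 M q) (h76u_t0_mem_F0 M q A)]
  exact Subtype.mem _

theorem h76u_S_mem_F0 (s : (h81a_A0 A)[X]) (E : ℕ) :
    h76u_S M q A s E ∈ h53d_F0 (M * q * q) (A.inertiaSubgroupIn ℚ) := by
  have hσ := h76u_sig_mem_F0 M q A s E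
  have ht := h76u_t0_mem_F0 M q A
  have hj0 : jB (M * q * q) ∈ h53d_F0 (M * q * q) (A.inertiaSubgroupIn ℚ) :=
    fun σ _ => Fermat.Agent.S37.GalI.gal_smul_jB σ
  have hj1 : h76u_j1 M q ∈ h53d_F0 (M * q * q) (A.inertiaSubgroupIn ℚ) :=
    fun σ _ => h76u_j1_fixed M q σ
  have hj2 : h76u_j2 M q ∈ h53d_F0 (M * q * q) (A.inertiaSubgroupIn ℚ) :=
    fun σ _ => h76u_j2_fixed M q σ
  have hy : h76u_y1 M q ∈ h53d_F0 (M * q * q) (A.inertiaSubgroupIn ℚ) :=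
    mul_mem hj1 (pow_mem ht q)
  have hx : h76u_x M q ∈ h53d_F0 (M * q * q) (A.inertiaSubgroupIn ℚ) :=
    mul_mem hj0 (inv_mem hj2)
  exact add_mem (mul_mem (mul_mem hσ hy) (sub_mem (one_mem _) hx)) (sub_mem (one_mem _) hy)

/-- **`S` lies in the chart at infinity over the inertia ring.** -/
theorem h76u_S_mem (hq : q.Prime) (hqM : ¬ q ∣ M) (hA : A.LiesOverPrime q)
    (s : (h81a_A0 A)[X]) (E : ℕ)
    (hZ : h76u_Z M q A s E ∈ modelAt (M * q * q) A (h76u_t0 M q)) :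
    h76u_S M q A s E ∈ h62rChart A (M * q * q) (jB (M * q * q))⁻¹ :=
  ⟨h76u_S_mem_modelAt M q A hq hqM hA s E hZ, h76u_S_mem_F0 M q A s E⟩

end Int

end Fermat.Agent.S36
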