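import Fermat.Agent.S36.H76CuspPS
import Fermat.Prelude.Def_ModularCurve_JqCoeff

/-!
# S36, block REG, row R-CUSP-UNIT11 (helper76): the `j`-series in the power series calculus

`J = t⁻¹ · u`, `u ∈ 1 + t ℤ[[t]]`.
* `h76u_Mon_jq`  : `J` is a monomial unit of order `-1`.
* `h76u_frob`    : `J(t^q) = J^q · (1 - q d)`, `d ∈ t A[[t]]` (Frobenius congruence).
* `h76u_cyc`     : `J(ζ t) - J(t) = J(ζ t) · (1 - ζ) · v`, `v ∈ A[[t]]ˣ`.
-/

set_option autoImplicit false
set_option linter.style.haveILetI false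

open ModularCurve

noncomputable section

namespace Fermat.Agent.S36

open Fermat.Agent.Red.Kron Fermat.Agent.Red.ESTF

variable {K : Type} [Field K] (A : ValuationSubring K)

/-- the unit part of `j` over `A`. -/
def h76u_uA : PowerSeries A := jNum.map (Int.castRingHom A)

theorem h76u_uA_const : PowerSeries.constantCoeff (h76u_uA A) = 1 := by
  have h : PowerSeries.constantCoeff (h76u_uA A) =
      Int.castRingHom A (PowerSeries.constantCoeff jNum) := by
    unfold h76u_uA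
    rw [← PowerSeries.coeff_zero_eq_constantCoeff_apply, PowerSeries.coeff_map,
      PowerSeries.coeff_zero_eq_constantCoeff_apply]
  rw [h, constantCoeff_jNum, map_one]

theorem h76u_uA_unit : IsUnit (h76u_uA A) := by
  rw [PowerSeries.isUnit_iff_constantCoeff, h76u_uA_const]
  exact isUnit_one

theorem h76u_ps_uA :
    h76u_ps A (h76u_uA A) = HahnSeries.ofPowerSeries ℤ K (jNum.map (Int.castRingHom K)) := by
  rw [h76u_ps_apply, h76u_uA]
  congr 1

/-- the unit part of `j` as a series. -/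
def h76u_U : LaurentSeries K := h76u_ps A (h76u_uA A)

theorem h76u_U_ps1 : h76u_PS1 A (h76u_U A) := ⟨_, h76u_uA_unit A, rfl⟩

theorem h76u_U_coeff_zero : (h76u_U A).coeff 0 = 1 := by
  unfold h76u_U
  rw [h76u_ps_coeff_zero, h76u_uA_const]
  rfl

theorem h76u_jq_eq : jqModC K = HahnSeries.single (-1 : ℤ) (1 : K) * h76u_U A := by
  unfold h76u_U
  rw [h76u_ps_uA]
  rfl

theorem h76u_Mon_jq : h76u_Mon A (-1) (jqModC K) := ⟨_, h76u_U_ps1 A, h76u_jq_eq A⟩

theorem h76u_Mon_jq_inv : h76u_Mon A 1 (jqModC K)⁻¹ := by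
  have h := (h76u_Mon_jq A).inv
  rwa [neg_neg] at h

/-! ### the Frobenius congruence -/

/-- `u ^ q - u (t ^ q) = q · G` in `ℤ[[t]]`, `G (0) = 0`. -/
theorem h76u_frob_int {q : ℕ} (hq : q.Prime) :
    ∃ G : PowerSeries ℤ, PowerSeries.constantCoeff G = 0 ∧
      jNum ^ q - PowerSeries.expand q hq.ne_zero jNum = PowerSeries.C (q : ℤ) * G := by
  haveI : Fact q.Prime := ⟨hq⟩
  set F : PowerSeries ℤ := jNum ^ q - PowerSeries.expand q hq.ne_zero jNum with hF
  have hmap : PowerSeries.map (Int.castRingHom (ZMod q)) F = 0 := by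
    rw [hF, map_sub, map_pow, PowerSeries.map_expand,
      h76_powerSeries_pow_char q hq.ne_zero, ZMod.frobenius_zmod]
    have : PowerSeries.map (RingHom.id (ZMod q)) (PowerSeries.map (Int.castRingHom (ZMod q)) jNum)
        = PowerSeries.map (Int.castRingHom (ZMod q)) jNum := by
      ext n
      simp [PowerSeries.coeff_map]
    rw [this, sub_self]
  have hdvd : ∀ n, (q : ℤ) ∣ PowerSeries.coeff n F := by
    intro n
    have h1 := congrArg (PowerSeries.coeff n) hmap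
    rw [PowerSeries.coeff_map, map_zero] at h1
    exact (ZMod.intCast_zmod_eq_zero_iff_dvd _ _).mp h1
  refine ⟨PowerSeries.mk fun n => PowerSeries.coeff n F / (q : ℤ), ?_, ?_⟩
  · rw [← PowerSeries.coeff_zero_eq_constantCoeff_apply, PowerSeries.coeff_mk]
    have h0 : PowerSeries.coeff 0 F = 0 := by
      rw [hF, map_sub, PowerSeries.coeff_zero_eq_constantCoeff_apply, map_pow,
        constantCoeff_jNum, one_pow]
      have h2 := PowerSeries.coeff_expand_mul q hq.ne_zero jNum 0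
      rw [mul_zero] at h2
      rw [h2, PowerSeries.coeff_zero_eq_constantCoeff_apply, constantCoeff_jNum, sub_self]
    rw [h0, Int.zero_ediv]
  · ext n
    rw [PowerSeries.coeff_C_mul, PowerSeries.coeff_mk]
    exact (Int.mul_ediv_cancel' (hdvd n)).symm

/-- **Frobenius congruence**: `J (t ^ q) = J ^ q · (1 - q d)` with `d ∈ t A[[t]]`. -/
theorem h76u_frob {q : ℕ} (hq : q.Prime) :
    haveI : NeZero q := ⟨hq.ne_zero⟩
    ∃ d : LaurentSeries K, h76u_PS0 A d ∧
      qExpand K q (jqModC K) = jqModC K ^ q * (1 - HahnSeries.C (q : K) * d) := by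
  haveI : NeZero q := ⟨hq.ne_zero⟩
  obtain ⟨G, hG0, hG⟩ := h76u_frob_int hq
  set GA : PowerSeries A := G.map (Int.castRingHom A) with hGA
  have hGA0 : PowerSeries.constantCoeff GA = 0 := by
    rw [hGA, ← PowerSeries.coeff_zero_eq_constantCoeff_apply, PowerSeries.coeff_map,
      PowerSeries.coeff_zero_eq_constantCoeff_apply, hG0, map_zero]
  have hrel : h76u_uA A ^ q - PowerSeries.expand q hq.ne_zero (h76u_uA A) =
      PowerSeries.C ((q : ℕ) : A) * GA := by
    have h := congrArg (PowerSeries.map (Int.castRingHom A)) hG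
    rw [map_sub, map_pow, PowerSeries.map_expand, map_mul, PowerSeries.map_C] at h
    rw [h76u_uA, hGA, h]
    simp
  have hU := h76u_U_ps1 (K := K) A
  have hUq : h76u_PS1 A (h76u_U A ^ q) := hU.pow q
  refine ⟨h76u_ps A GA * (h76u_U A ^ q)⁻¹, h76u_PS0.mul_ps ⟨GA, hGA0, rfl⟩ hUq.inv.ps, ?_⟩
  have hexp : qExpand K q (h76u_U A) = h76u_ps A (PowerSeries.expand q hq.ne_zero (h76u_uA A)) := by
    unfold h76u_U
    rw [h76u_ps_apply, h76_qExpand_ofPowerSeries, h76u_ps_apply, PowerSeries.map_expand]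
  have hrel' : h76u_U A ^ q - qExpand K q (h76u_U A) =
      HahnSeries.C (q : K) * h76u_ps A GA := by
    rw [hexp]
    unfold h76u_U
    rw [← map_pow, ← map_sub, hrel, map_mul, h76u_ps_C]
    rfl
  have hne : h76u_U A ^ q ≠ 0 := hUq.ne_zero
  rw [h76u_jq_eq A, map_mul, qExpand_single, mul_pow, HahnSeries.single_pow, one_pow]
  have e1 : ((q : ℕ) : ℤ) * (-1 : ℤ) = q • (-1 : ℤ) := by simp
  rw [e1]
  have e2 : qExpand K q (h76u_U A) = h76u_U A ^ q - HahnSeries.C (q : K) * h76u_ps A GA := by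
    rw [← hrel']
    ring
  rw [e2]
  field_simp

/-! ### the cyclotomic difference -/

theorem h76u_geom {ζ : K} (hζ : ζ ∈ A) (m : ℕ) :
    ∃ g : K, g ∈ A ∧ ζ ^ m - ζ = g * (1 - ζ) ∧ (m = 0 → g = 1) := by
  rcases Nat.eq_zero_or_pos m with rfl | hm
  · exact ⟨1, A.one_mem, by ring, fun _ => rfl⟩
  · obtain ⟨n, rfl⟩ : ∃ n, m = n + 1 := ⟨m - 1, by omega⟩
    refine ⟨-ζ * ∑ i ∈ Finset.range n, ζ ^ i, ?_, ?_, fun h => by omega⟩
    · exact A.mul_mem _ _ (A.neg_mem _ hζ) (sum_mem fun i _ => pow_mem hζ i)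
    · have h := geom_sum_mul_neg ζ n
      rw [mul_assoc, h]
      ring

/-- **the cyclotomic difference**: `J (ζ t) - J (t) = J (ζ t) · (1 - ζ) · v`, `v` a unit. -/
theorem h76u_cyc {ζ : K} (hζ : ζ ∈ A) (hζ0 : ζ ≠ 0) (hζ1 : ζ ≠ 1) :
    ∃ v : LaurentSeries K, h76u_PS1 A v ∧
      twistK ζ (jqModC K) - jqModC K =
        twistK ζ (jqModC K) * (HahnSeries.C (1 - ζ) * v) := by
  have hU := h76u_U_ps1 (K := K) A
  have hTU : h76u_PS1 A (twistK ζ (h76u_U A)) := hU.twist hζ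
  have h1ζ : (1 : K) - ζ ≠ 0 := sub_ne_zero.mpr (Ne.symm hζ1)
  -- the numerator
  set W : LaurentSeries K :=
    HahnSeries.C ((1 - ζ)⁻¹) * (twistK ζ (h76u_U A) - HahnSeries.C ζ * h76u_U A) with hW
  have hcoeff : ∀ n : ℤ, W.coeff n = (1 - ζ)⁻¹ * ((h76u_U A).coeff n * (ζ ^ n - ζ)) := by
    intro n
    rw [hW, HahnSeries.C_mul_eq_smul, HahnSeries.coeff_smul, HahnSeries.coeff_sub,
      coeff_twistK, HahnSeries.C_mul_eq_smul, HahnSeries.coeff_smul, smul_eq_mul, smul_eq_mul]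
    ring
  have hUps := (h76u_PS_iff _).mp hU.ps
  have hWps1 : h76u_PS1 A W := by
    rw [h76u_PS1_iff, h76u_PS_iff]
    refine ⟨⟨fun n hn => ?_, fun n => ?_⟩, ?_⟩
    · rw [hcoeff, hUps.1 n hn]
      ring
    · rw [hcoeff]
      rcases lt_or_ge n 0 with hn | hn
      · rw [hUps.1 n hn]
        simp only [zero_mul, mul_zero]
        exact A.zero_mem
      · lift n to ℕ using hn
        obtain ⟨g, hg, hgeq, -⟩ := h76u_geom A hζ n
        rw [zpow_natCast, hgeq]
        have : (1 - ζ)⁻¹ * ((h76u_U A).coeff (n : ℤ) * (g * (1 - ζ))) =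
            (h76u_U A).coeff (n : ℤ) * g := by
          field_simp
        rw [this]
        exact A.mul_mem _ _ (hUps.2 _) hg
    · rw [hcoeff, h76u_U_coeff_zero, zpow_zero, one_mul, inv_mul_cancel₀ h1ζ]
      exact ⟨one_ne_zero, by rw [inv_one]; exact A.one_mem⟩
  refine ⟨W * (twistK ζ (h76u_U A))⁻¹, hWps1.mul hTU.inv, ?_⟩
  have hTUne : twistK ζ (h76u_U A) ≠ 0 := hTU.ne_zero
  rw [h76u_jq_eq A, twistK_mul hζ0, twistK_single, one_mul]
  have e : (HahnSeries.single (-1 : ℤ) (ζ ^ (-1 : ℤ)) : LaurentSeries K) =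
      HahnSeries.C ζ⁻¹ * HahnSeries.single (-1 : ℤ) (1 : K) := by
    rw [HahnSeries.C_apply, HahnSeries.single_mul_single, zero_add, mul_one, zpow_neg_one]
  rw [e, hW]
  have hC : (HahnSeries.C ζ⁻¹ : LaurentSeries K) * HahnSeries.C ζ = 1 := by
    rw [← map_mul, inv_mul_cancel₀ hζ0, map_one]
  have hC2 : (HahnSeries.C (1 - ζ) : LaurentSeries K) * HahnSeries.C ((1 - ζ)⁻¹) = 1 := by
    rw [← map_mul, mul_inv_cancel₀ h1ζ, map_one]
  have key : HahnSeries.C ζ⁻¹ * HahnSeries.single (-1 : ℤ) (1 : K) * twistK ζ (h76u_U A) *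
      (HahnSeries.C (1 - ζ) *
        (HahnSeries.C ((1 - ζ)⁻¹) * (twistK ζ (h76u_U A) - HahnSeries.C ζ * h76u_U A) *
          (twistK ζ (h76u_U A))⁻¹)) =
      (HahnSeries.C (1 - ζ) * HahnSeries.C ((1 - ζ)⁻¹)) *
        (HahnSeries.single (-1 : ℤ) (1 : K) *
          (HahnSeries.C ζ⁻¹ * twistK ζ (h76u_U A) -
            (HahnSeries.C ζ⁻¹ * HahnSeries.C ζ) * h76u_U A)) *
        (twistK ζ (h76u_U A) * (twistK ζ (h76u_U A))⁻¹) := by
    ring
  rw [key, hC, hC2, mul_inv_cancel₀ hTUne]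
  ring

end Fermat.Agent.S36
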