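import Fermat.Agent.S36.H76CuspJ
import Fermat.Agent.Red.GGChart
import Fermat.Agent.Red.Kron.Fricke
import Fermat.Agent.Red.GV.Bar

/-!
# S36, block REG, row R-CUSP-UNIT11 (helper76): functions of level one

* `h76u_lv1_poly`  : a function of level `1` which is integral over `ℚ̄[1/j]` is a polynomial in
  `1/j` (`FF 1 = ℚ̄(j)`, `ℚ̄[X]` is integrally closed).
* `h76u_poly_coeff` : if the `q`-expansion of `Q (1/j)` lies in `A[[t]]`, then `Q ∈ A[X]`.
-/

set_option autoImplicit false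
set_option linter.style.haveILetI false
set_option synthInstance.maxHeartbeats 400000

open ModularCurve AlgebraicCurve Polynomial

noncomputable section

namespace Fermat.Agent.S36

open Fermat.Agent.S37 (Kbar FF cst jB)
open Fermat.Agent.Red.Kron Fermat.Agent.Red.GG
open Fermat.Agent.S24 (jdBar)

/-! ### `FF 1 = ℚ̄(1/j)` -/

theorem h76u_lv1_surj (z : FF 1) :
    ∃ x y : Kbar[X], y ≠ 0 ∧ z = aeval (jB 1)⁻¹ x / aeval (jB 1)⁻¹ y := by
  have htr : Transcendental Kbar (jB 1)⁻¹ := GGC97_transcendental_jB_inv 1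
  have hinj : Function.Injective (aeval (R := Kbar) (jB 1)⁻¹) := transcendental_iff_injective.mp htr
  have hne : ∀ y : Kbar[X], y ≠ 0 → aeval (jB 1)⁻¹ y ≠ 0 := fun y hy h0 =>
    hy (hinj (h0.trans (map_zero _).symm))
  induction z using kFF_induction 1 with
  | hc a =>
    refine ⟨C a, 1, one_ne_zero, ?_⟩
    rw [aeval_C, map_one, div_one]
  | hj d hd =>
    have hd1 : d = 1 := Nat.eq_one_of_dvd_one hd
    subst hd1
    have e : jdBar 1 1 hd = jB 1 := by
      apply Subtype.ext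
      show coeffEmb Kbar (qExpand ℚ 1 jq) = _
      rw [qExpand_one_apply]
      rfl
    refine ⟨1, X, X_ne_zero, ?_⟩
    rw [e, map_one, aeval_X, one_div, inv_inv]
  | hadd x y hx hy =>
    obtain ⟨a, b, hb, rfl⟩ := hx
    obtain ⟨c, d, hd, rfl⟩ := hy
    refine ⟨a * d + b * c, b * d, mul_ne_zero hb hd, ?_⟩
    rw [map_add, map_mul, map_mul, map_mul, div_add_div _ _ (hne b hb) (hne d hd)]
  | hinv x hx =>
    obtain ⟨a, b, hb, rfl⟩ := hx
    by_cases ha : a = 0
    · refine ⟨0, 1, one_ne_zero, ?_⟩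
      rw [ha, map_zero, zero_div, inv_zero, zero_div]
    · exact ⟨b, a, ha, by rw [inv_div]⟩
  | hmul x y hx hy =>
    obtain ⟨a, b, hb, rfl⟩ := hx
    obtain ⟨c, d, hd, rfl⟩ := hy
    refine ⟨a * c, b * d, mul_ne_zero hb hd, ?_⟩
    rw [map_mul, map_mul, div_mul_div_comm]

/-- a function of level `1` which is integral over `ℚ̄[1/j]` is a polynomial in `1/j`. -/
theorem h76u_lv1_poly (f : FF 1) (p : Kbar[X][X]) (hp : p.Monic)
    (hroot : p.eval₂ (aeval (R := Kbar) (jB 1)⁻¹).toRingHom f = 0) :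
    ∃ P : Kbar[X], aeval (jB 1)⁻¹ P = f := by
  have htr : Transcendental Kbar (jB 1)⁻¹ := GGC97_transcendental_jB_inv 1
  letI alg : Algebra Kbar[X] (FF 1) := (aeval (R := Kbar) (jB 1)⁻¹).toRingHom.toAlgebra
  have hmap : ∀ x : Kbar[X], algebraMap Kbar[X] (FF 1) x = aeval (jB 1)⁻¹ x := fun _ => rfl
  have hinj : Function.Injective (algebraMap Kbar[X] (FF 1)) :=
    transcendental_iff_injective.mp htr
  haveI : FaithfulSMul Kbar[X] (FF 1) := (faithfulSMul_iff_algebraMap_injective _ _).mpr hinj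
  haveI : IsFractionRing Kbar[X] (FF 1) := IsFractionRing.of_field Kbar[X] (FF 1) (fun z => by
    obtain ⟨x, y, -, h⟩ := h76u_lv1_surj z
    exact ⟨x, y, h⟩)
  have hint : IsIntegral Kbar[X] f := ⟨p, hp, hroot⟩
  obtain ⟨P, hP⟩ := IsIntegrallyClosed.isIntegral_iff.mp hint
  exact ⟨P, hP⟩

/-! ### coefficients from the `q`-expansion -/

variable (A : ValuationSubring Kbar)

/-- the `q`-expansion of `1/j`. -/
theorem h76u_coe_jB_inv (N : ℕ) [NeZero N] :
    (((jB N)⁻¹ : FF N) : LaurentSeries Kbar) = (jqModC Kbar)⁻¹ := by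
  have h : (((jB N)⁻¹ : FF N) : LaurentSeries Kbar) = ((jB N : FF N) : LaurentSeries Kbar)⁻¹ :=
    map_inv₀ (algebraMap (FF N) (LaurentSeries Kbar)) _
  rw [h, Fermat.Agent.Red.GV.coe_jB]
  rfl

theorem h76u_coe_aeval (N : ℕ) (t : FF N) (P : Kbar[X]) :
    ((aeval t P : FF N) : LaurentSeries Kbar) =
      eval₂ (HahnSeries.C : Kbar →+* LaurentSeries Kbar) (t : LaurentSeries Kbar) P := by
  have h := Polynomial.hom_eval₂ P (algebraMap Kbar (FF N))
    (algebraMap (FF N) (LaurentSeries Kbar)) t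
  rw [aeval_def]
  refine h.trans ?_
  congr 1
  ext a : 1
  show algebraMap Kbar (LaurentSeries Kbar) a = HahnSeries.C a
  rw [algebraMap_laurentSeries_eq_single]
  rfl

/-- every polynomial expression in a power series is a power series. -/
theorem h76u_PS_eval₂_top {τ : LaurentSeries Kbar} (hτ : h76u_PS (⊤ : ValuationSubring Kbar) τ)
    (Q : Kbar[X]) :
    h76u_PS (⊤ : ValuationSubring Kbar)
      (eval₂ (HahnSeries.C : Kbar →+* LaurentSeries Kbar) τ Q) := by
  induction Q using Polynomial.induction_on' with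
  | add p q hp hq =>
    rw [eval₂_add]
    exact hp.add hq
  | monomial n a =>
    rw [eval₂_monomial]
    exact (h76u_PS_C (ValuationSubring.mem_top a)).mul (hτ.pow n)

theorem h76u_PS_top_of {s : LaurentSeries Kbar} (hs : h76u_PS A s) :
    h76u_PS (⊤ : ValuationSubring Kbar) s := by
  rw [h76u_PS_iff] at hs ⊢
  exact ⟨hs.1, fun _ => ValuationSubring.mem_top _⟩

/-- `t · x ∈ A[[t]]` implies `x ∈ A[[t]]` for a power series `x`. -/
theorem h76u_PS_of_single_mul {x : LaurentSeries Kbar}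
    (hx : h76u_PS (⊤ : ValuationSubring Kbar) x)
    (h : h76u_PS A (HahnSeries.single (1 : ℤ) (1 : Kbar) * x)) : h76u_PS A x := by
  rw [h76u_PS_iff] at hx h ⊢
  refine ⟨hx.1, fun n => ?_⟩
  have h1 := h.2 (n + 1)
  rw [HahnSeries.coeff_single_mul_add, one_mul] at h1
  exact h1

/-- if the `q`-expansion of `Q (τ)`, `τ = t · (unit)`, lies in `A[[t]]`, then `Q ∈ A[X]`. -/
theorem h76u_poly_coeff_aux {τ : LaurentSeries Kbar} (hτ : h76u_Mon A 1 τ) :
    ∀ (n : ℕ) (Q : Kbar[X]), Q.natDegree ≤ n →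
      h76u_PS A (eval₂ (HahnSeries.C : Kbar →+* LaurentSeries Kbar) τ Q) →
      ∀ i, Q.coeff i ∈ A := by
  obtain ⟨w, hw, rfl⟩ := hτ
  have hτ0 : h76u_PS0 A (HahnSeries.single (1 : ℤ) (1 : Kbar) * w) :=
    h76u_Mon.ps0 ⟨w, hw, rfl⟩ one_pos
  have hτtop : h76u_PS (⊤ : ValuationSubring Kbar) (HahnSeries.single (1 : ℤ) (1 : Kbar) * w) :=
    h76u_PS_top_of A hτ0.ps
  have hw' : h76u_PS (⊤ : ValuationSubring Kbar) w := h76u_PS_top_of A hw.ps
  -- the common step
  have step : ∀ Q : Kbar[X],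
      h76u_PS A (eval₂ (HahnSeries.C : Kbar →+* LaurentSeries Kbar)
        (HahnSeries.single (1 : ℤ) (1 : Kbar) * w) Q) →
      Q.coeff 0 ∈ A ∧
      h76u_PS A (eval₂ (HahnSeries.C : Kbar →+* LaurentSeries Kbar)
        (HahnSeries.single (1 : ℤ) (1 : Kbar) * w) Q.divX) := by
    intro Q hQ
    set s' : LaurentSeries Kbar := eval₂ (HahnSeries.C : Kbar →+* LaurentSeries Kbar)
      (HahnSeries.single (1 : ℤ) (1 : Kbar) * w) Q.divX with hs'
    have hs'top : h76u_PS (⊤ : ValuationSubring Kbar) s' := h76u_PS_eval₂_top hτtop _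
    have hdec : eval₂ (HahnSeries.C : Kbar →+* LaurentSeries Kbar)
        (HahnSeries.single (1 : ℤ) (1 : Kbar) * w) Q =
        s' * (HahnSeries.single (1 : ℤ) (1 : Kbar) * w) + HahnSeries.C (Q.coeff 0) := by
      conv_lhs => rw [← Polynomial.divX_mul_X_add Q]
      rw [eval₂_add, eval₂_mul, eval₂_X, eval₂_C]
    have hprod0 : (s' * (HahnSeries.single (1 : ℤ) (1 : Kbar) * w)).coeff 0 = 0 := by
      have h1 : h76u_PS0 (⊤ : ValuationSubring Kbar)
          (s' * (HahnSeries.single (1 : ℤ) (1 : Kbar) * w)) := by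
        refine h76u_PS0.ps_mul hs'top ?_
        rw [h76u_PS0_iff]
        exact ⟨hτtop, ((h76u_PS0_iff _).mp hτ0).2⟩
      exact ((h76u_PS0_iff _).mp h1).2
    have hQ0 : Q.coeff 0 ∈ A := by
      have h2 := ((h76u_PS_iff _).mp hQ).2 0
      rw [hdec, HahnSeries.coeff_add, hprod0, zero_add, HahnSeries.C_apply,
        HahnSeries.coeff_single_same] at h2
      exact h2
    refine ⟨hQ0, ?_⟩
    have h3 : h76u_PS A (HahnSeries.single (1 : ℤ) (1 : Kbar) * (w * s')) := by
      have e : HahnSeries.single (1 : ℤ) (1 : Kbar) * (w * s') =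
          eval₂ (HahnSeries.C : Kbar →+* LaurentSeries Kbar)
            (HahnSeries.single (1 : ℤ) (1 : Kbar) * w) Q - HahnSeries.C (Q.coeff 0) := by
        rw [hdec]
        ring
      rw [e]
      exact hQ.sub (h76u_PS_C hQ0)
    have h4 : h76u_PS A (w * s') := h76u_PS_of_single_mul A (hw'.mul hs'top) h3
    have h5 : s' = w⁻¹ * (w * s') := by
      rw [← mul_assoc, inv_mul_cancel₀ hw.ne_zero, one_mul]
    rw [h5]
    exact hw.inv.ps.mul h4
  intro n
  induction n with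
  | zero =>
    intro Q hQ hPS i
    rcases Nat.eq_zero_or_pos i with rfl | hi
    · exact (step Q hPS).1
    · rw [Polynomial.coeff_eq_zero_of_natDegree_lt (by omega)]
      exact A.zero_mem
  | succ n ih =>
    intro Q hQ hPS i
    rcases Nat.eq_zero_or_pos i with rfl | hi
    · exact (step Q hPS).1
    · obtain ⟨k, rfl⟩ : ∃ k, i = k + 1 := ⟨i - 1, by omega⟩
      have hdeg : Q.divX.natDegree ≤ n := by
        rw [Polynomial.natDegree_divX_eq_natDegree_tsub_one]
        omega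
      have := ih Q.divX hdeg (step Q hPS).2 k
      rwa [Polynomial.coeff_divX] at this

/-- if the `q`-expansion of `Q (1/j)` lies in `A[[t]]`, then `Q ∈ A[X]`. -/
theorem h76u_poly_coeff (N : ℕ) [NeZero N] (Q : Kbar[X])
    (h : h76u_PS A ((aeval (jB N)⁻¹ Q : FF N) : LaurentSeries Kbar)) :
    ∀ i, Q.coeff i ∈ A := by
  rw [h76u_coe_aeval, h76u_coe_jB_inv] at h
  exact h76u_poly_coeff_aux A (h76u_Mon_jq_inv A) Q.natDegree Q le_rfl h

/-- the constant coefficient of the `q`-expansion of `Q (1/j)`. -/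
theorem h76u_poly_coeff_zero (N : ℕ) [NeZero N] (Q : Kbar[X]) :
    ((aeval (jB N)⁻¹ Q : FF N) : LaurentSeries Kbar).coeff 0 = Q.coeff 0 := by
  rw [h76u_coe_aeval, h76u_coe_jB_inv]
  have hτ0 : h76u_PS0 (⊤ : ValuationSubring Kbar) (jqModC Kbar)⁻¹ :=
    h76u_Mon.ps0 (h76u_Mon_jq_inv _) one_pos
  have hs' := h76u_PS_eval₂_top hτ0.ps Q.divX
  conv_lhs => rw [← Polynomial.divX_mul_X_add Q]
  rw [eval₂_add, eval₂_mul, eval₂_X, eval₂_C, HahnSeries.coeff_add,
    ((h76u_PS0_iff _).mp (h76u_PS0.ps_mul hs' hτ0)).2, zero_add, HahnSeries.C_apply,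
    HahnSeries.coeff_single_same]

end Fermat.Agent.S36
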