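import Mathlib
import Fermat.Agent.Red.ESTF.FrobSeries
import Fermat.Agent.Red.Kron.Twist
import Fermat.Agent.Red.GV.Defs

/-!
# S36, block REG, row R-CUSP-UNIT11 (helper76): a calculus of power series inside `K((t))`

`A` a valuation subring of a field `K`.  Inside `K((t))`:
* `h76u_PS A s`  : `s ∈ A[[t]]`;
* `h76u_PS1 A s` : `s ∈ A[[t]]ˣ` (unit constant term);
* `h76u_PS0 A s` : `s ∈ t A[[t]]`;
* `h76u_Mon A k s` : `s = t ^ k · (unit of A[[t]])`.
Closure under the ring operations, `t ↦ t ^ n` (`qExpand`), `t ↦ ω t` (`twistK`), and the converse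
for `qExpand`.  Everything is Mathlib plus the definitions of `qExpand`, `twistK`.
-/

set_option autoImplicit false

open ModularCurve

noncomputable section

namespace Fermat.Agent.S36

open Fermat.Agent.Red.Kron

variable {K : Type} [Field K] (A : ValuationSubring K)

/-- `A[[t]] → K((t))`. -/
def h76u_ps : PowerSeries A →+* LaurentSeries K :=
  (HahnSeries.ofPowerSeries ℤ K).comp (PowerSeries.map A.subtype)

theorem h76u_ps_apply (f : PowerSeries A) :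
    h76u_ps A f = HahnSeries.ofPowerSeries ℤ K (PowerSeries.map A.subtype f) := rfl

theorem h76u_ps_coeff_nat (f : PowerSeries A) (n : ℕ) :
    (h76u_ps A f).coeff (n : ℤ) = ((PowerSeries.coeff n f : A) : K) := by
  rw [h76u_ps_apply, HahnSeries.ofPowerSeries_apply_coeff, PowerSeries.coeff_map]
  rfl

theorem h76u_ps_coeff_neg (f : PowerSeries A) {n : ℤ} (hn : n < 0) :
    (h76u_ps A f).coeff n = 0 := by
  rw [h76u_ps_apply]
  exact ofPowerSeries_coeff_of_neg _ hn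

theorem h76u_ps_coeff_zero (f : PowerSeries A) :
    (h76u_ps A f).coeff 0 = ((PowerSeries.constantCoeff f : A) : K) := by
  have h := h76u_ps_coeff_nat A f 0
  rw [PowerSeries.coeff_zero_eq_constantCoeff] at h
  exact_mod_cast h

theorem h76u_ps_injective : Function.Injective (h76u_ps A) := by
  intro f g h
  ext n
  have h1 := congrArg (fun s : LaurentSeries K => s.coeff (n : ℤ)) h
  simp only [h76u_ps_coeff_nat] at h1
  exact_mod_cast h1

/-- `s ∈ A[[t]]`. -/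
def h76u_PS (s : LaurentSeries K) : Prop := ∃ f : PowerSeries A, h76u_ps A f = s

/-- `s ∈ A[[t]]ˣ`. -/
def h76u_PS1 (s : LaurentSeries K) : Prop := ∃ f : PowerSeries A, IsUnit f ∧ h76u_ps A f = s

/-- `s ∈ t A[[t]]`. -/
def h76u_PS0 (s : LaurentSeries K) : Prop :=
  ∃ f : PowerSeries A, PowerSeries.constantCoeff f = 0 ∧ h76u_ps A f = s

variable {A}

theorem h76u_PS1.ps {s : LaurentSeries K} (h : h76u_PS1 A s) : h76u_PS A s :=
  let ⟨f, _, hf⟩ := h; ⟨f, hf⟩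

theorem h76u_PS0.ps {s : LaurentSeries K} (h : h76u_PS0 A s) : h76u_PS A s :=
  let ⟨f, _, hf⟩ := h; ⟨f, hf⟩

/-! ### coefficient characterisations -/

theorem h76u_PS_iff (s : LaurentSeries K) :
    h76u_PS A s ↔ (∀ n : ℤ, n < 0 → s.coeff n = 0) ∧ ∀ n : ℤ, s.coeff n ∈ A := by
  constructor
  · rintro ⟨f, rfl⟩
    refine ⟨fun n hn => h76u_ps_coeff_neg A f hn, fun n => ?_⟩
    rcases lt_or_ge n 0 with hn | hn
    · rw [h76u_ps_coeff_neg A f hn]
      exact A.zero_mem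
    · lift n to ℕ using hn
      rw [h76u_ps_coeff_nat]
      exact (PowerSeries.coeff n f).2
  · rintro ⟨h1, h2⟩
    refine ⟨PowerSeries.mk fun n => ⟨s.coeff (n : ℤ), h2 n⟩, ?_⟩
    ext n
    rcases lt_or_ge n 0 with hn | hn
    · rw [h76u_ps_coeff_neg A _ hn, h1 n hn]
    · lift n to ℕ using hn
      rw [h76u_ps_coeff_nat, PowerSeries.coeff_mk]

theorem h76u_isUnit_iff (a : A) : IsUnit a ↔ (a : K) ≠ 0 ∧ (a : K)⁻¹ ∈ A := by
  constructor
  · rintro ⟨u, rfl⟩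
    have h1 : ((u : A) : K) * (((u⁻¹ : Aˣ) : A) : K) = 1 := by
      have h := congrArg (Subtype.val : A → K) u.mul_inv
      exact h
    have hne : ((u : A) : K) ≠ 0 := left_ne_zero_of_mul_eq_one h1
    refine ⟨hne, ?_⟩
    rw [inv_eq_of_mul_eq_one_right h1]
    exact ((u⁻¹ : Aˣ) : A).2
  · rintro ⟨hne, hinv⟩
    refine isUnit_iff_exists_inv.mpr ⟨⟨(a : K)⁻¹, hinv⟩, ?_⟩
    apply Subtype.ext
    show (a : K) * (a : K)⁻¹ = 1
    exact mul_inv_cancel₀ hne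

theorem h76u_PS1_iff (s : LaurentSeries K) :
    h76u_PS1 A s ↔ h76u_PS A s ∧ s.coeff 0 ≠ 0 ∧ (s.coeff 0)⁻¹ ∈ A := by
  constructor
  · rintro ⟨f, hu, rfl⟩
    refine ⟨⟨f, rfl⟩, ?_⟩
    rw [h76u_ps_coeff_zero]
    rw [PowerSeries.isUnit_iff_constantCoeff] at hu
    exact (h76u_isUnit_iff _).mp hu
  · rintro ⟨⟨f, rfl⟩, h⟩
    refine ⟨f, ?_, rfl⟩
    rw [h76u_ps_coeff_zero] at h
    rw [PowerSeries.isUnit_iff_constantCoeff]
    exact (h76u_isUnit_iff _).mpr h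

theorem h76u_PS0_iff (s : LaurentSeries K) :
    h76u_PS0 A s ↔ h76u_PS A s ∧ s.coeff 0 = 0 := by
  constructor
  · rintro ⟨f, h0, rfl⟩
    refine ⟨⟨f, rfl⟩, ?_⟩
    rw [h76u_ps_coeff_zero, h0]
    rfl
  · rintro ⟨⟨f, rfl⟩, h⟩
    refine ⟨f, ?_, rfl⟩
    rw [h76u_ps_coeff_zero] at h
    exact Subtype.ext h

/-! ### ring operations -/

theorem h76u_PS.add {s t : LaurentSeries K} (hs : h76u_PS A s) (ht : h76u_PS A t) :
    h76u_PS A (s + t) := by
  obtain ⟨f, rfl⟩ := hs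
  obtain ⟨g, rfl⟩ := ht
  exact ⟨f + g, map_add _ _ _⟩

theorem h76u_PS.mul {s t : LaurentSeries K} (hs : h76u_PS A s) (ht : h76u_PS A t) :
    h76u_PS A (s * t) := by
  obtain ⟨f, rfl⟩ := hs
  obtain ⟨g, rfl⟩ := ht
  exact ⟨f * g, map_mul _ _ _⟩

theorem h76u_PS.neg {s : LaurentSeries K} (hs : h76u_PS A s) : h76u_PS A (-s) := by
  obtain ⟨f, rfl⟩ := hs
  exact ⟨-f, map_neg _ _⟩

theorem h76u_PS.sub {s t : LaurentSeries K} (hs : h76u_PS A s) (ht : h76u_PS A t) :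
    h76u_PS A (s - t) := by
  obtain ⟨f, rfl⟩ := hs
  obtain ⟨g, rfl⟩ := ht
  exact ⟨f - g, map_sub _ _ _⟩

theorem h76u_PS.pow {s : LaurentSeries K} (hs : h76u_PS A s) (n : ℕ) : h76u_PS A (s ^ n) := by
  obtain ⟨f, rfl⟩ := hs
  exact ⟨f ^ n, map_pow _ _ _⟩

theorem h76u_PS_one : h76u_PS A (1 : LaurentSeries K) := ⟨1, map_one _⟩

theorem h76u_PS_zero : h76u_PS A (0 : LaurentSeries K) := ⟨0, map_zero _⟩

theorem h76u_ps_C (a : A) : h76u_ps A (PowerSeries.C a) = HahnSeries.C (a : K) := by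
  rw [h76u_ps_apply, PowerSeries.map_C]
  exact HahnSeries.ofPowerSeries_C _

theorem h76u_PS_C {a : K} (ha : a ∈ A) : h76u_PS A (HahnSeries.C a : LaurentSeries K) :=
  ⟨PowerSeries.C ⟨a, ha⟩, h76u_ps_C _⟩

theorem h76u_PS1_one : h76u_PS1 A (1 : LaurentSeries K) := ⟨1, isUnit_one, map_one _⟩

theorem h76u_PS1_C {a : K} (ha : a ∈ A) (ha0 : a ≠ 0) (hai : a⁻¹ ∈ A) :
    h76u_PS1 A (HahnSeries.C a : LaurentSeries K) := by
  refine ⟨PowerSeries.C ⟨a, ha⟩, ?_, h76u_ps_C _⟩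
  rw [PowerSeries.isUnit_iff_constantCoeff, PowerSeries.constantCoeff_C]
  exact (h76u_isUnit_iff _).mpr ⟨ha0, hai⟩

theorem h76u_PS1.mul {s t : LaurentSeries K} (hs : h76u_PS1 A s) (ht : h76u_PS1 A t) :
    h76u_PS1 A (s * t) := by
  obtain ⟨f, hf, rfl⟩ := hs
  obtain ⟨g, hg, rfl⟩ := ht
  exact ⟨f * g, hf.mul hg, map_mul _ _ _⟩

theorem h76u_PS1.pow {s : LaurentSeries K} (hs : h76u_PS1 A s) (n : ℕ) :
    h76u_PS1 A (s ^ n) := by
  obtain ⟨f, hf, rfl⟩ := hs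
  exact ⟨f ^ n, hf.pow n, map_pow _ _ _⟩

theorem h76u_PS1.ne_zero {s : LaurentSeries K} (hs : h76u_PS1 A s) : s ≠ 0 := by
  obtain ⟨f, hf, rfl⟩ := hs
  intro h0
  have h1 : f = 0 := h76u_ps_injective A (h0.trans (map_zero _).symm)
  rw [h1] at hf
  exact not_isUnit_zero hf

theorem h76u_PS1.inv {s : LaurentSeries K} (hs : h76u_PS1 A s) : h76u_PS1 A s⁻¹ := by
  obtain ⟨f, ⟨u, rfl⟩, rfl⟩ := hs
  refine ⟨((u⁻¹ : (PowerSeries A)ˣ) : PowerSeries A), Units.isUnit _, ?_⟩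
  have h1 : h76u_ps A ((u⁻¹ : (PowerSeries A)ˣ) : PowerSeries A) * h76u_ps A (u : PowerSeries A)
      = 1 := by
    rw [← map_mul, Units.inv_mul, map_one]
  exact eq_inv_of_mul_eq_one_left h1

theorem h76u_PS1.div {s t : LaurentSeries K} (hs : h76u_PS1 A s) (ht : h76u_PS1 A t) :
    h76u_PS1 A (s / t) := by
  rw [div_eq_mul_inv]
  exact hs.mul ht.inv

theorem h76u_PS0.add {s t : LaurentSeries K} (hs : h76u_PS0 A s) (ht : h76u_PS0 A t) :
    h76u_PS0 A (s + t) := by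
  obtain ⟨f, hf, rfl⟩ := hs
  obtain ⟨g, hg, rfl⟩ := ht
  exact ⟨f + g, by rw [map_add, hf, hg, add_zero], map_add _ _ _⟩

theorem h76u_PS0.neg {s : LaurentSeries K} (hs : h76u_PS0 A s) : h76u_PS0 A (-s) := by
  obtain ⟨f, hf, rfl⟩ := hs
  exact ⟨-f, by rw [map_neg, hf, neg_zero], map_neg _ _⟩

theorem h76u_PS0.sub {s t : LaurentSeries K} (hs : h76u_PS0 A s) (ht : h76u_PS0 A t) :
    h76u_PS0 A (s - t) := by
  rw [sub_eq_add_neg]
  exact hs.add ht.neg

theorem h76u_PS0.mul_ps {s t : LaurentSeries K} (hs : h76u_PS0 A s) (ht : h76u_PS A t) :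
    h76u_PS0 A (s * t) := by
  obtain ⟨f, hf, rfl⟩ := hs
  obtain ⟨g, rfl⟩ := ht
  exact ⟨f * g, by rw [map_mul, hf, zero_mul], map_mul _ _ _⟩

theorem h76u_PS0.ps_mul {s t : LaurentSeries K} (hs : h76u_PS A s) (ht : h76u_PS0 A t) :
    h76u_PS0 A (s * t) := by
  rw [mul_comm]
  exact ht.mul_ps hs

theorem h76u_PS0_zero : h76u_PS0 A (0 : LaurentSeries K) := ⟨0, map_zero _, map_zero _⟩

theorem h76u_PS1.add_ps0 {s t : LaurentSeries K} (hs : h76u_PS1 A s) (ht : h76u_PS0 A t) :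
    h76u_PS1 A (s + t) := by
  obtain ⟨f, hf, rfl⟩ := hs
  obtain ⟨g, hg, rfl⟩ := ht
  refine ⟨f + g, ?_, map_add _ _ _⟩
  rw [PowerSeries.isUnit_iff_constantCoeff] at hf ⊢
  rw [map_add, hg, add_zero]
  exact hf

theorem h76u_PS1.sub_ps0 {s t : LaurentSeries K} (hs : h76u_PS1 A s) (ht : h76u_PS0 A t) :
    h76u_PS1 A (s - t) := by
  rw [sub_eq_add_neg]
  exact hs.add_ps0 ht.neg

theorem h76u_PS1.ps0_add {s t : LaurentSeries K} (hs : h76u_PS0 A s) (ht : h76u_PS1 A t) :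
    h76u_PS1 A (s + t) := by
  rw [add_comm]
  exact ht.add_ps0 hs

/-! ### `t ↦ t ^ n` -/

theorem h76u_PS.qExpand {s : LaurentSeries K} (hs : h76u_PS A s) (n : ℕ) [NeZero n] :
    h76u_PS A (qExpand K n s) := by
  rw [h76u_PS_iff] at hs ⊢
  have hn : (0 : ℤ) < n := by exact_mod_cast Nat.pos_of_ne_zero (NeZero.ne n)
  refine ⟨fun m hm => ?_, fun m => ?_⟩
  · by_cases hd : (n : ℤ) ∣ m
    · obtain ⟨j, rfl⟩ := hd
      rw [qExpand_coeff_mul]
      apply hs.1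
      rcases lt_or_ge j 0 with hj | hj
      · exact hj
      · have := mul_nonneg hn.le hj
        omega
    · exact qExpand_coeff_of_not_dvd n s hd
  · by_cases hd : (n : ℤ) ∣ m
    · obtain ⟨j, rfl⟩ := hd
      rw [qExpand_coeff_mul]
      exact hs.2 j
    · rw [qExpand_coeff_of_not_dvd n s hd]
      exact A.zero_mem

theorem h76u_qExpand_coeff_zero (s : LaurentSeries K) (n : ℕ) [NeZero n] :
    (qExpand K n s).coeff 0 = s.coeff 0 := by
  have h := qExpand_coeff_mul n s 0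
  rw [mul_zero] at h
  exact h

theorem h76u_PS1.qExpand {s : LaurentSeries K} (hs : h76u_PS1 A s) (n : ℕ) [NeZero n] :
    h76u_PS1 A (qExpand K n s) := by
  rw [h76u_PS1_iff] at hs ⊢
  rw [h76u_qExpand_coeff_zero]
  exact ⟨hs.1.qExpand n, hs.2⟩

theorem h76u_PS0.qExpand {s : LaurentSeries K} (hs : h76u_PS0 A s) (n : ℕ) [NeZero n] :
    h76u_PS0 A (qExpand K n s) := by
  rw [h76u_PS0_iff] at hs ⊢
  rw [h76u_qExpand_coeff_zero]
  exact ⟨hs.1.qExpand n, hs.2⟩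

/-- the converse: `s(t ^ n) ∈ A[[t]]ˣ` implies `s ∈ A[[t]]ˣ`. -/
theorem h76u_PS1_of_qExpand {s : LaurentSeries K} (n : ℕ) [NeZero n]
    (hs : h76u_PS1 A (qExpand K n s)) : h76u_PS1 A s := by
  rw [h76u_PS1_iff] at hs ⊢
  rw [h76u_qExpand_coeff_zero] at hs
  refine ⟨?_, hs.2⟩
  have h1 := (h76u_PS_iff _).mp hs.1
  rw [h76u_PS_iff]
  have hn : (0 : ℤ) < n := by exact_mod_cast Nat.pos_of_ne_zero (NeZero.ne n)
  refine ⟨fun m hm => ?_, fun m => ?_⟩
  · rw [← qExpand_coeff_mul n s m]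
    exact h1.1 _ (mul_neg_of_pos_of_neg hn hm)
  · rw [← qExpand_coeff_mul n s m]
    exact h1.2 _

/-! ### `t ↦ ω t` -/

theorem h76u_PS.twist {s : LaurentSeries K} (hs : h76u_PS A s) {ω : K} (hω : ω ∈ A) :
    h76u_PS A (twistK ω s) := by
  rw [h76u_PS_iff] at hs ⊢
  refine ⟨fun m hm => ?_, fun m => ?_⟩
  · rw [coeff_twistK, hs.1 m hm, zero_mul]
  · rw [coeff_twistK]
    rcases lt_or_ge m 0 with hm | hm
    · rw [hs.1 m hm, zero_mul]
      exact A.zero_mem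
    · lift m to ℕ using hm
      rw [zpow_natCast]
      exact A.mul_mem _ _ (hs.2 _) (pow_mem hω m)

theorem h76u_twist_coeff_zero (s : LaurentSeries K) (ω : K) :
    (twistK ω s).coeff 0 = s.coeff 0 := by
  rw [coeff_twistK, zpow_zero, mul_one]

theorem h76u_PS1.twist {s : LaurentSeries K} (hs : h76u_PS1 A s) {ω : K} (hω : ω ∈ A) :
    h76u_PS1 A (twistK ω s) := by
  rw [h76u_PS1_iff] at hs ⊢
  rw [h76u_twist_coeff_zero]
  exact ⟨hs.1.twist hω, hs.2⟩

theorem h76u_PS0.twist {s : LaurentSeries K} (hs : h76u_PS0 A s) {ω : K} (hω : ω ∈ A) :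
    h76u_PS0 A (twistK ω s) := by
  rw [h76u_PS0_iff] at hs ⊢
  rw [h76u_twist_coeff_zero]
  exact ⟨hs.1.twist hω, hs.2⟩

/-! ### monomial units -/

/-- `s = t ^ k · (unit of A[[t]])`. -/
def h76u_Mon (A : ValuationSubring K) (k : ℤ) (s : LaurentSeries K) : Prop :=
  ∃ v : LaurentSeries K, h76u_PS1 A v ∧ s = HahnSeries.single k (1 : K) * v

theorem h76u_Mon_zero_iff (s : LaurentSeries K) : h76u_Mon A 0 s ↔ h76u_PS1 A s := by
  constructor
  · rintro ⟨v, hv, rfl⟩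
    have : (HahnSeries.single (0 : ℤ) (1 : K) : LaurentSeries K) = 1 := rfl
    rw [this, one_mul]
    exact hv
  · intro h
    refine ⟨s, h, ?_⟩
    have : (HahnSeries.single (0 : ℤ) (1 : K) : LaurentSeries K) = 1 := rfl
    rw [this, one_mul]

theorem h76u_single_mul_single (k l : ℤ) :
    (HahnSeries.single k (1 : K) : LaurentSeries K) * HahnSeries.single l 1 =
      HahnSeries.single (k + l) 1 := by
  rw [HahnSeries.single_mul_single, mul_one]

theorem h76u_Mon.mul {k l : ℤ} {s t : LaurentSeries K} (hs : h76u_Mon A k s)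
    (ht : h76u_Mon A l t) : h76u_Mon A (k + l) (s * t) := by
  obtain ⟨v, hv, rfl⟩ := hs
  obtain ⟨w, hw, rfl⟩ := ht
  refine ⟨v * w, hv.mul hw, ?_⟩
  rw [← h76u_single_mul_single]
  ring

theorem h76u_Mon.inv {k : ℤ} {s : LaurentSeries K} (hs : h76u_Mon A k s) :
    h76u_Mon A (-k) s⁻¹ := by
  obtain ⟨v, hv, rfl⟩ := hs
  refine ⟨v⁻¹, hv.inv, ?_⟩
  rw [mul_inv]
  congr 1
  have h1 : (HahnSeries.single (-k) (1 : K) : LaurentSeries K) * HahnSeries.single k 1 = 1 := by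
    rw [h76u_single_mul_single, neg_add_cancel]
    rfl
  exact (eq_inv_of_mul_eq_one_left h1).symm

theorem h76u_Mon.pow {k : ℤ} {s : LaurentSeries K} (hs : h76u_Mon A k s) (n : ℕ) :
    h76u_Mon A (n * k) (s ^ n) := by
  induction n with
  | zero =>
    rw [pow_zero, Nat.cast_zero, zero_mul, h76u_Mon_zero_iff]
    exact h76u_PS1_one
  | succ n ih =>
    rw [pow_succ]
    have := ih.mul hs
    have e : ((n + 1 : ℕ) : ℤ) * k = (n : ℤ) * k + k := by push_cast; ring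
    rw [e]
    exact this

theorem h76u_Mon.qExpand {k : ℤ} {s : LaurentSeries K} (hs : h76u_Mon A k s) (n : ℕ)
    [NeZero n] : h76u_Mon A (n * k) (qExpand K n s) := by
  obtain ⟨v, hv, rfl⟩ := hs
  refine ⟨ModularCurve.qExpand K n v, hv.qExpand n, ?_⟩
  rw [map_mul, qExpand_single]

theorem h76u_Mon.twist {k : ℤ} {s : LaurentSeries K} (hs : h76u_Mon A k s) {ω : K}
    (hω : ω ∈ A) (hω0 : ω ≠ 0) (hωi : ω⁻¹ ∈ A) : h76u_Mon A k (twistK ω s) := by
  obtain ⟨v, hv, rfl⟩ := hs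
  have hu : h76u_PS1 A (HahnSeries.C (ω ^ k) : LaurentSeries K) := by
    rcases le_or_gt 0 k with hk | hk
    · lift k to ℕ using hk
      rw [zpow_natCast]
      refine h76u_PS1_C (pow_mem hω k) (pow_ne_zero _ hω0) ?_
      rw [← inv_pow]
      exact pow_mem hωi k
    · obtain ⟨m, rfl⟩ : ∃ m : ℕ, k = -(m : ℤ) := ⟨(-k).toNat, by omega⟩
      rw [zpow_neg, zpow_natCast]
      refine h76u_PS1_C ?_ (inv_ne_zero (pow_ne_zero _ hω0)) ?_
      · rw [← inv_pow]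
        exact pow_mem hωi m
      · rw [inv_inv]
        exact pow_mem hω m
  refine ⟨HahnSeries.C (ω ^ k) * twistK ω v, hu.mul (hv.twist hω), ?_⟩
  rw [twistK_mul hω0, twistK_single, one_mul]
  have e : (HahnSeries.single k (ω ^ k) : LaurentSeries K) =
      HahnSeries.single k 1 * HahnSeries.C (ω ^ k) := by
    rw [HahnSeries.C_apply, HahnSeries.single_mul_single, add_zero, one_mul]
  rw [e]
  ring

theorem h76u_ps_X_pow (k : ℕ) :
    h76u_ps A ((PowerSeries.X : PowerSeries A) ^ k) = HahnSeries.single (k : ℤ) (1 : K) := by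
  rw [h76u_ps_apply, map_pow, PowerSeries.map_X, map_pow, HahnSeries.ofPowerSeries_X,
    HahnSeries.single_pow, one_pow]
  congr 1
  simp

theorem h76u_Mon.ps0 {k : ℤ} {s : LaurentSeries K} (hs : h76u_Mon A k s) (hk : 0 < k) :
    h76u_PS0 A s := by
  obtain ⟨v, hv, rfl⟩ := hs
  obtain ⟨m, rfl⟩ : ∃ m : ℕ, k = (m : ℤ) := ⟨k.toNat, by omega⟩
  have hm : m ≠ 0 := by
    rintro rfl
    simp at hk
  refine h76u_PS0.mul_ps ⟨(PowerSeries.X : PowerSeries A) ^ m, ?_, h76u_ps_X_pow m⟩ hv.ps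
  rw [map_pow, PowerSeries.constantCoeff_X, zero_pow hm]

/-! ### polynomial expressions -/

/-- the value of a polynomial with constant term `1` and coefficients in `A` at a series of
`t A[[t]]` is a unit of `A[[t]]`. -/
theorem h76u_PS1_eval₂ {R : Type*} [CommRing R] (g : R →+* K) (hg : ∀ a, g a ∈ A)
    (s : Polynomial R) (hs : s.coeff 0 = 1) {τ : LaurentSeries K} (hτ : h76u_PS0 A τ) :
    h76u_PS1 A (Polynomial.eval₂ ((HahnSeries.C : K →+* LaurentSeries K).comp g) τ s) := by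
  have hps : ∀ p : Polynomial R,
      h76u_PS A (Polynomial.eval₂ ((HahnSeries.C : K →+* LaurentSeries K).comp g) τ p) := by
    intro p
    induction p using Polynomial.induction_on' with
    | add p q hp hq =>
      rw [Polynomial.eval₂_add]
      exact hp.add hq
    | monomial n a =>
      rw [Polynomial.eval₂_monomial]
      exact (h76u_PS_C (hg a)).mul (hτ.ps.pow n)
  have h1 : s = s.divX * Polynomial.X + Polynomial.C 1 := by
    conv_lhs => rw [← Polynomial.divX_mul_X_add s, hs]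
  rw [h1, Polynomial.eval₂_add, Polynomial.eval₂_mul, Polynomial.eval₂_X, Polynomial.eval₂_C,
    map_one]
  exact h76u_PS1.ps0_add (h76u_PS0.ps_mul (hps _) hτ) h76u_PS1_one

end Fermat.Agent.S36
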