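import Fermat.Agent.S36.H53DescIface

/-!
# S36, block (D) DESCENT, leaf D-LOC (helper7)

`h7l_descLoc : DescUnram → DescExt → DescLoc`: the local datum at the closed points of the
generic fibre.  Given a non-trivial valuation subring `O` of `F0 = F^I` over the constants,
`DescExt` gives a place `v` of `F` restricting to `O`, `DescUnram` gives a uniformiser `t ∈ F0`
of `v`; if `m ∣ ord_v w` then `g = t ^ (ord_v w / m)` has `ord_v (w / g ^ m) = 0`, so
`w / g ^ m` is a unit of `O`.
-/

set_option autoImplicit false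

open AlgebraicCurve ModularCurve

noncomputable section

namespace Fermat.Agent.S36

open Fermat.Agent.S37 (Kbar GQ FF cst gal IsRat)

/-- A nonzero function of order `0` at a place lies in its valuation ring. -/
theorem h7l_mem_of_ord_eq_zero {K F : Type*} [Field K] [Field F] [Algebra K F]
    (v : Place K F) {f : F} (hf : f ≠ 0) (h : v.ord f = 0) : f ∈ v.toValuationSubring := by
  obtain ⟨π, hπ⟩ := IsDiscreteValuationRing.exists_irreducible v.toValuationSubring
  obtain ⟨u, hu⟩ := v.exists_unit_mul_zpow hf hπ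
  rw [h, zpow_zero, mul_one] at hu
  rw [hu]
  exact (u : v.toValuationSubring).2

/-- **D-LOC** from **D-UNRAM** and **D-EXT**. -/
theorem h7l_descLoc (hU : DescUnram) (hE : DescExt) : DescLoc := by
  intro N _ I O hO hc m w hw hdiv
  obtain ⟨v, hv⟩ := hE N I O hO hc
  obtain ⟨t, ht, hto⟩ := hU N I v
  obtain ⟨k, hk⟩ := hdiv v
  have ht0 : t ≠ 0 := by
    rintro rfl
    simp at hto
  have hw0 : (w : FF N) ≠ 0 := fun h => hw (Subtype.ext h)
  set g : h53d_F0 N I := (⟨t, ht⟩ : h53d_F0 N I) ^ k with hg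
  have hg0 : g ≠ 0 := zpow_ne_zero _ (fun h => ht0 (congrArg Subtype.val h))
  have hgF0 : ((g : h53d_F0 N I) : FF N) ≠ 0 := fun h => hg0 (Subtype.ext h)
  have hgcoe : ((g : h53d_F0 N I) : FF N) = t ^ k := by
    rw [hg]
    rfl
  have hordg : v.ord ((g : h53d_F0 N I) : FF N) = k := by
    rw [hgcoe, v.ord_zpow, hto, mul_one]
  have hgm0 : ((g : h53d_F0 N I) : FF N) ^ m ≠ 0 := pow_ne_zero _ hgF0
  have hordgm : v.ord (((g : h53d_F0 N I) : FF N) ^ m) = m * k := by
    have := v.ord_zpow ((g : h53d_F0 N I) : FF N) (m : ℤ)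
    rw [zpow_natCast] at this
    rw [this, hordg]
  refine ⟨g, hg0, ?_, ?_⟩
  · rw [hv]
    have hne : (w : FF N) / ((g : h53d_F0 N I) : FF N) ^ m ≠ 0 := div_ne_zero hw0 hgm0
    have hord : v.ord ((w : FF N) / ((g : h53d_F0 N I) : FF N) ^ m) = 0 := by
      rw [div_eq_mul_inv, v.ord_mul hw0 (inv_ne_zero hgm0), v.ord_inv, hordgm, hk]
      ring
    have := h7l_mem_of_ord_eq_zero v hne hord
    simpa using this
  · rw [hv]
    have hne : ((g : h53d_F0 N I) : FF N) ^ m / (w : FF N) ≠ 0 := div_ne_zero hgm0 hw0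
    have hord : v.ord (((g : h53d_F0 N I) : FF N) ^ m / (w : FF N)) = 0 := by
      rw [div_eq_mul_inv, v.ord_mul hgm0 (inv_ne_zero hw0), v.ord_inv, hordgm, hk]
      ring
    have := h7l_mem_of_ord_eq_zero v hne hord
    simpa using this

end Fermat.Agent.S36
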