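import Fermat.Agent.S36.H80OrdIface

/-!
# S36, block REG, row R-ORD (helper80): the kind of a point of `C₁₁`

At a closed point `𝔫₂ ∋ q` of `B₂` with `α₂⁻¹ 𝔫₂` smooth on `C_∞` and `β₂⁻¹ 𝔫₂` smooth on `C_0`:

* `h80k_e1_sub_e0_pow`, `h80k_e1_sub_e2_pow` : `e₁ u - (e₀ u) ^ q ∈ 𝔫₂`, `e₁ u - (e₂ u) ^ q ∈ 𝔫₂`
  for rational `u ∈ Λ₀`;
* `h80k_e2_sub_e0` : `e₂ u - e₀ u ∈ 𝔫₂` for rational `u`;
* `h80k_kind` : `β₂ (β u + η) - α₂ (α u + η') ∈ 𝔫₂` for rational `u`, `η ∈ β₂⁻¹ 𝔫₂`,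
  `η' ∈ α₂⁻¹ 𝔫₂` (the hypothesis `hkind` of `h80c_c11_of` for `ψ = β u + η`,
  `ξ = w ψ = α u + w η`).
-/

set_option autoImplicit false
set_option linter.unusedSectionVars false
set_option linter.style.haveILetI false
set_option linter.style.longLine false
set_option linter.unusedVariables false

open AlgebraicCurve ModularCurve IsLocalRing Polynomial

noncomputable section

namespace Fermat.Agent.S36

open Fermat.Agent.S37 Fermat.Agent.Red.GG Fermat.Agent.LGC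

section Kind

variable (A : ValuationSubring Kbar) {M q : ℕ} [NeZero M] [NeZero q]

/-- the Frobenius congruence along `α₂`. -/
theorem h80k_e1_sub_e0_pow (hq : q.Prime) (hM : ¬ q ∣ M) (hA : A.LiesOverPrime q)
    (𝔫₂ : Ideal (h62rChart A (M * q * q) (jB (M * q * q)))) [h𝔫₂ : 𝔫₂.IsPrime]
    (hq𝔫₂ : ((q : ℕ) : h62rChart A (M * q * q) (jB (M * q * q))) ∈ 𝔫₂)
    (hInf : H62InfDatum A M hq hM hA (𝔫₂.comap (h62rA2 A M)))
    (u : h62rChart A M (jB M)) (hu : IsRat (u : FF M)) :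
    h59y_e1 A M hq hM hA u - h59y_e0 A M u ^ q ∈ 𝔫₂ := by
  rw [h80i_A2_eq] at hInf
  obtain ⟨s, hs, hsu⟩ := hInf.1 u hu
  obtain ⟨y, hy⟩ := Ideal.mem_span_singleton'.mp hsu
  have h1 : h59y_a2 A M s * (h59y_e1 A M hq hM hA u - h59y_e0 A M u ^ q) ∈ 𝔫₂ := by
    have h2 : h59y_a2 A M s * (h59y_e1 A M hq hM hA u - h59y_e0 A M u ^ q)
        = h59y_a2 A M (s * (h62rBeta A M hq hM hA u - h62rAlpha A M u ^ q)) := by
      rw [map_mul, map_sub, map_pow]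
      rfl
    rw [h2, ← hy, map_mul, map_natCast]
    exact Ideal.mul_mem_left _ _ hq𝔫₂
  rcases h𝔫₂.mem_or_mem h1 with h | h
  · exact absurd (Ideal.mem_comap.mpr h) hs
  · exact h

/-- the Frobenius congruence along `β₂`. -/
theorem h80k_e1_sub_e2_pow (hq : q.Prime) (hM : ¬ q ∣ M) (hA : A.LiesOverPrime q)
    (𝔫₂ : Ideal (h62rChart A (M * q * q) (jB (M * q * q)))) [h𝔫₂ : 𝔫₂.IsPrime]
    (hq𝔫₂ : ((q : ℕ) : h62rChart A (M * q * q) (jB (M * q * q))) ∈ 𝔫₂)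
    (hZero : H62ZeroDatum A M hq hM hA (𝔫₂.comap (h59y_b2 A M hq hM hA)))
    (u : h62rChart A M (jB M)) (hu : IsRat (u : FF M)) :
    h59y_e1 A M hq hM hA u - h59y_e2 A M hq hM hA u ^ q ∈ 𝔫₂ := by
  obtain ⟨s, hs, hsu⟩ := hZero.1 u hu
  obtain ⟨y, hy⟩ := Ideal.mem_span_singleton'.mp hsu
  have h1 : h59y_b2 A M hq hM hA s *
      (h59y_e1 A M hq hM hA u - h59y_e2 A M hq hM hA u ^ q) ∈ 𝔫₂ := by
    have h2 : h59y_b2 A M hq hM hA s *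
        (h59y_e1 A M hq hM hA u - h59y_e2 A M hq hM hA u ^ q)
        = h59y_b2 A M hq hM hA (s * (h62rAlpha A M u - h62rBeta A M hq hM hA u ^ q)) := by
      rw [map_mul, map_sub, map_pow, h59y_e1_eq' A M hq hM hA]
      rfl
    rw [h2, ← hy, map_mul, map_natCast]
    exact Ideal.mul_mem_left _ _ hq𝔫₂
  rcases h𝔫₂.mem_or_mem h1 with h | h
  · exact absurd (Ideal.mem_comap.mpr h) hs
  · exact h

/-- **`e₂ u ≡ e₀ u` at a point of `C₁₁`** (`u` rational). -/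
theorem h80k_e2_sub_e0 (hq : q.Prime) (hM : ¬ q ∣ M) (hA : A.LiesOverPrime q)
    (𝔫₂ : Ideal (h62rChart A (M * q * q) (jB (M * q * q)))) [h𝔫₂ : 𝔫₂.IsPrime]
    (hq𝔫₂ : ((q : ℕ) : h62rChart A (M * q * q) (jB (M * q * q))) ∈ 𝔫₂)
    (hInf : H62InfDatum A M hq hM hA (𝔫₂.comap (h62rA2 A M)))
    (hZero : H62ZeroDatum A M hq hM hA (𝔫₂.comap (h59y_b2 A M hq hM hA)))
    (u : h62rChart A M (jB M)) (hu : IsRat (u : FF M)) :
    h59y_e2 A M hq hM hA u - h59y_e0 A M u ∈ 𝔫₂ := by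
  have h0 := h80k_e1_sub_e0_pow A hq hM hA 𝔫₂ hq𝔫₂ hInf u hu
  have h2 := h80k_e1_sub_e2_pow A hq hM hA 𝔫₂ hq𝔫₂ hZero u hu
  obtain ⟨r, hr⟩ := exists_add_pow_prime_eq hq
    (h59y_e2 A M hq hM hA u - h59y_e0 A M u) (h59y_e0 A M u)
  rw [sub_add_cancel] at hr
  have h3 : (h59y_e2 A M hq hM hA u - h59y_e0 A M u) ^ q ∈ 𝔫₂ := by
    have h4 : (h59y_e2 A M hq hM hA u - h59y_e0 A M u) ^ q
        = (h59y_e1 A M hq hM hA u - h59y_e0 A M u ^ q)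
          - (h59y_e1 A M hq hM hA u - h59y_e2 A M hq hM hA u ^ q)
          - ((q : ℕ) : h62rChart A (M * q * q) (jB (M * q * q))) *
            ((h59y_e2 A M hq hM hA u - h59y_e0 A M u) * h59y_e0 A M u * r) := by
      linear_combination (-1 : h62rChart A (M * q * q) (jB (M * q * q))) * hr
    rw [h4]
    exact Ideal.sub_mem _ (Ideal.sub_mem _ h0 h2) (Ideal.mul_mem_right _ _ hq𝔫₂)
  exact h𝔫₂.mem_of_pow_mem q h3

/-- **the kind of the general coordinate**: `β₂ (β u + η) - α₂ (α u + η') ∈ 𝔫₂`. -/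
theorem h80k_kind (hq : q.Prime) (hM : ¬ q ∣ M) (hA : A.LiesOverPrime q)
    (𝔫₂ : Ideal (h62rChart A (M * q * q) (jB (M * q * q)))) [h𝔫₂ : 𝔫₂.IsPrime]
    (hq𝔫₂ : ((q : ℕ) : h62rChart A (M * q * q) (jB (M * q * q))) ∈ 𝔫₂)
    (hInf : H62InfDatum A M hq hM hA (𝔫₂.comap (h62rA2 A M)))
    (hZero : H62ZeroDatum A M hq hM hA (𝔫₂.comap (h59y_b2 A M hq hM hA)))
    (u : h62rChart A M (jB M)) (hu : IsRat (u : FF M))
    (η η' : h62rChart A (M * q) (jSS M q))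
    (hη : η ∈ 𝔫₂.comap (h59y_b2 A M hq hM hA)) (hη' : η' ∈ 𝔫₂.comap (h62rA2 A M)) :
    h59y_b2 A M hq hM hA (h62rBeta A M hq hM hA u + η)
      - h62rA2 A M (h62rAlpha A M u + η') ∈ 𝔫₂ := by
  have h1 := h80k_e2_sub_e0 A hq hM hA 𝔫₂ hq𝔫₂ hInf hZero u hu
  have h2 : h59y_b2 A M hq hM hA (h62rBeta A M hq hM hA u + η)
      - h62rA2 A M (h62rAlpha A M u + η')
      = (h59y_e2 A M hq hM hA u - h59y_e0 A M u)
        + (h59y_b2 A M hq hM hA η - h62rA2 A M η') := by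
    rw [map_add, map_add, h80i_A2_eq]
    show h59y_e2 A M hq hM hA u + h59y_b2 A M hq hM hA η
      - (h59y_e0 A M u + h59y_a2 A M η') = _
    ring
  rw [h2]
  exact Ideal.add_mem _ h1 (Ideal.sub_mem _ (Ideal.mem_comap.mp hη) (Ideal.mem_comap.mp hη'))

end Kind

end Fermat.Agent.S36
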