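import Fermat.Agent.S36.H50ExcPkg
import Fermat.Agent.S36.H40FinNode
import Fermat.Agent.S36.H62L0
import Fermat.Agent.S36.H60L1Excl
import Fermat.Agent.S35.H62Node

/-!
# S36, block REG, row R-ORD-11 (helper80): the separation `H50eSep`

`h80s_sep : H50eSep` (exact frozen Prop of `S36/H50ExcIface2.lean`, helper50).

At a smooth point `𝔫'` of `C₀` (level `M q`, chart over `A₀`), `𝔫 = lift 𝔫'`:

* `u` : a rational local parameter at `β⁻¹ 𝔫` (`h62x_smooth_zero`), not constant;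
* `ε` : the point `𝔫*` of `C∞` with `α⁻¹ 𝔫* = α⁻¹ 𝔫` does not lie on `C₀` (uniqueness of the
  point of `C₀` over `α⁻¹ 𝔫`, `h50e_unique_fin`), so some `ε₀ ∈ P₀` is not in `𝔫*`
  (`h80s_eps`); `ε` is a descent of `ε₀` to the chart over `A₀`;
* for `δ ≡ 1 (q)`, `ψ = β u + δ ε`: `ψ ≡ α a` modulo `P∞` (surjectivity of `α` modulo `P∞`,
  descent of `a`), and `ψ - α a ≡ - α a ∉ 𝔫`, because `α (a - u ^ q) ≡ ε₀` modulo `P∞`.
-/

set_option autoImplicit false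
set_option linter.unusedSectionVars false
set_option linter.unusedVariables false
set_option linter.style.haveILetI false
set_option linter.style.longLine false

open AlgebraicCurve ModularCurve IsLocalRing Polynomial

noncomputable section

namespace Fermat.Agent.S36

open Fermat.Agent.S37 Fermat.Agent.Red Fermat.Agent.Red.GG Fermat.Agent.LGC Fermat.Agent.S35

/-- **abstract separation**: if the point of `P₀` over `α⁻¹ 𝔫` is unique and `𝔫` is not on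
`P∞`, some `ε ∈ P₀` is separated from `𝔫` along `P∞`. -/
theorem h80s_eps {Λ B : Type*} [CommRing Λ] [CommRing B] (α : Λ →+* B)
    (Pinf P0 𝔫 : Ideal B) (h𝔫 : 𝔫.IsMaximal)
    (hsurj : ∀ b : B, ∃ x : Λ, b - α x ∈ Pinf)
    (hker : ∀ w : Λ, α w ∈ Pinf → α w ∈ 𝔫)
    (huniq : ∀ 𝔑 : Ideal B, 𝔑.IsMaximal → (∀ x : Λ, α x ∈ 𝔫 → α x ∈ 𝔑) → P0 ≤ 𝔑 → 𝔑 = 𝔫)
    (hPinf : ¬ Pinf ≤ 𝔫) :
    ∃ ε ∈ P0, ∀ a : Λ, ε - α a ∈ Pinf → α a ∉ 𝔫 := by
  by_contra hcon
  push Not at hcon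
  have hne : (𝔫.comap α).map α ⊔ Pinf ≠ ⊤ := by
    intro htop
    have h1 : (1 : B) ∈ (𝔫.comap α).map α ⊔ Pinf := by
      rw [htop]
      trivial
    have hf : Function.Surjective ((Ideal.Quotient.mk Pinf).comp α) := by
      intro y
      obtain ⟨b, rfl⟩ := Ideal.Quotient.mk_surjective y
      obtain ⟨x, hx⟩ := hsurj b
      exact ⟨x, by rw [RingHom.comp_apply]; exact (Ideal.Quotient.eq.mpr hx).symm⟩
    have h2 : Ideal.Quotient.mk Pinf 1 ∈
        ((𝔫.comap α).map α ⊔ Pinf).map (Ideal.Quotient.mk Pinf) :=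
      Ideal.mem_map_of_mem _ h1
    rw [Ideal.map_sup, Ideal.map_quotient_self, sup_bot_eq, Ideal.map_map] at h2
    obtain ⟨z, hz, hz1⟩ := (Ideal.mem_map_iff_of_surjective _ hf).mp h2
    have h3 : α z - 1 ∈ Pinf := Ideal.Quotient.eq.mp hz1
    have h4 : α (z - 1) ∈ 𝔫 := hker _ (by rw [map_sub, map_one]; exact h3)
    rw [map_sub, map_one] at h4
    have h5 : (1 : B) ∈ 𝔫 := by
      have := 𝔫.sub_mem (Ideal.mem_comap.mp hz) h4
      simpa using this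
    exact h𝔫.ne_top ((Ideal.eq_top_iff_one _).mpr h5)
  obtain ⟨𝔑, h𝔑, hle⟩ := Ideal.exists_le_maximal _ hne
  have h1 : 𝔑 = 𝔫 := by
    refine huniq 𝔑 h𝔑 (fun x hx => hle (Ideal.mem_sup_left (Ideal.mem_map_of_mem α
      (Ideal.mem_comap.mpr hx)))) (fun ε hε => ?_)
    obtain ⟨a, ha1, ha2⟩ := hcon ε hε
    have h2 : ε = (ε - α a) + α a := by ring
    rw [h2]
    exact 𝔑.add_mem (hle (Ideal.mem_sup_right ha1))
      (hle (Ideal.mem_sup_left (Ideal.mem_map_of_mem α (Ideal.mem_comap.mpr ha2))))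
  apply hPinf
  rw [← h1]
  exact le_trans le_sup_right hle

section Modular

variable (A : ValuationSubring Kbar) (M : ℕ) {q : ℕ} [NeZero M] [NeZero q]

/-- **non-constancy** of a local parameter at `β⁻¹ 𝔫`. -/
theorem h80s_not_cst (hq : q.Prime) (hM : ¬ q ∣ M) (haux : auxLevel q ∣ M)
    (hA : A.LiesOverPrime q)
    (𝔫 : Ideal (chart (M * q) A (jSS M q))) (h𝔫 : 𝔫.IsMaximal)
    (hP0 : h62i_P0 A M hq hM hA ≤ 𝔫) (u₀ : chart M A (jB M))
    (hLP : h62l_LP (h62i_mΛ A M)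
      (𝔫.comap ((h62i_β A M hq hM hA : chart M A (jB M) →ₐ[A] chart (M * q) A (jSS M q)) :
        chart M A (jB M) →+* chart (M * q) A (jSS M q))) u₀) :
    (u₀ : FF M) ∉ Set.range (cst M) := by
  rintro ⟨c, hc⟩
  have hc' : cst M c = (u₀ : FF M) := hc
  haveI hded : IsDedekindDomain (chart M A (jB M) ⧸ h62i_mΛ A M) :=
    h13l_hded_fin M A hq hM haux hA
  have hnf : ¬ IsField (chart M A (jB M) ⧸ h62i_mΛ A M) := h13l_hnf_fin M A hq hM hA
  haveI h𝔪prime : (h62i_mΛ A M).IsPrime :=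
    (Ideal.Quotient.isDomain_iff_prime _).mp hded.toIsDomain
  haveI := h𝔫
  have hmax : (𝔫.comap ((h62i_β A M hq hM hA : chart M A (jB M) →ₐ[A]
      chart (M * q) A (jSS M q)) : chart M A (jB M) →+* chart (M * q) A (jSS M q))).IsMaximal :=
    h62l_comap_isMaximal _ 𝔫 (h62i_P0 A M hq hM hA) hP0 (h50e_surj0 A M hq hM haux hA)
  have hm𝔰 : h62i_mΛ A M ≤ 𝔫.comap ((h62i_β A M hq hM hA : chart M A (jB M) →ₐ[A]
      chart (M * q) A (jSS M q)) : chart M A (jB M) →+* chart (M * q) A (jSS M q)) :=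
    fun x hx => Ideal.mem_comap.mpr (hP0 (h62i_m_le_P0 A M hq hM hA
      (h62l_map_mem _ (h62i_β A M hq hM hA) hx)))
  have hne : ¬ 𝔫.comap ((h62i_β A M hq hM hA : chart M A (jB M) →ₐ[A]
      chart (M * q) A (jSS M q)) : chart M A (jB M) →+* chart (M * q) A (jSS M q))
      ≤ h62i_mΛ A M := by
    intro hle'
    have h1 : h62i_mΛ A M = _ := le_antisymm hm𝔰 hle'
    apply hnf
    have h2 : (h62i_mΛ A M).IsMaximal := h1 ▸ hmax
    exact (Ideal.Quotient.maximal_ideal_iff_isField_quotient _).mp h2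
  -- the constant is in `A`
  have hcA : c ∈ A := h40x_cst_mem_modelAt A M (jB M)
    (Fermat.Agent.Red.GG.GGC97_transcendental_jB M) c (by rw [hc']; exact u₀.2)
  have hu₀ : u₀ = algebraMap A (chart M A (jB M)) ⟨c, hcA⟩ := Subtype.ext hc'.symm
  -- the constant is not a unit
  have hcm : (⟨c, hcA⟩ : A) ∈ maximalIdeal A := by
    by_contra hunit
    have hu : IsUnit (⟨c, hcA⟩ : A) := by
      by_contra h
      exact hunit ((IsLocalRing.mem_maximalIdeal _).mpr h)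
    have h1 : IsUnit u₀ := by
      rw [hu₀]
      exact hu.map _
    exact hmax.ne_top (Ideal.eq_top_of_isUnit_mem _ hLP.1 h1)
  have hu₀m : u₀ ∈ h62i_mΛ A M := by
    rw [hu₀]
    exact Ideal.mem_map_of_mem _ hcm
  apply hne
  intro y hy
  obtain ⟨s, hs, hsy⟩ := hLP.2 y hy
  have h1 : Ideal.span {u₀} ⊔ h62i_mΛ A M ≤ h62i_mΛ A M :=
    sup_le ((Ideal.span_singleton_le_iff_mem _).mpr hu₀m) le_rfl
  exact (h𝔪prime.mem_or_mem (h1 hsy)).resolve_left fun h => hs (hm𝔰 h)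

end Modular

/-- **the separation** (exact frozen Prop). -/
theorem h80s_sep : H50eSep := by
  intro q hq M _ hM haux
  haveI : NeZero q := ⟨hq.ne_zero⟩
  intro A hA 𝔫' h𝔫' hq𝔫' hP0 hPinf
  have h𝔫 := h60r_lift_isMaximal' A M hq hM hA 𝔫' h𝔫' hq𝔫'
  have hmem := h60r_mem_lift_iff' A M hq hM hA 𝔫' hq𝔫'
  obtain ⟨u₀, hrat, hLP, -, -⟩ := h62x_smooth_zero A M hq hM haux hA _ h𝔫 hP0 hPinf
  have hnc := h80s_not_cst A M hq hM haux hA _ h𝔫 hP0 u₀ hLP
  have huR : u₀ ∈ h62i_R A M := (h62i_mem_R A M u₀).mpr hrat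
  -- `ε₀`
  have hker : ∀ w : chart M A (jB M),
      ((h62i_α A M q : chart M A (jB M) →ₐ[A] chart (M * q) A (jSS M q)) :
        chart M A (jB M) →+* chart (M * q) A (jSS M q)) w ∈ h62i_Pinf A M hq hM hA →
      ((h62i_α A M q : chart M A (jB M) →ₐ[A] chart (M * q) A (jSS M q)) :
        chart M A (jB M) →+* chart (M * q) A (jSS M q)) w ∈
        h60rLift (h60rIncl A (M * q) (jSS M q)) (mExt A M q (jSS M q)) 𝔫' := fun w hw =>
    hP0 (h62i_m_le_P0 A M hq hM hA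
      (h62l_map_mem _ (h62i_α A M q) ((h62d_ker A M hq hM hA).1 w hw)))
  obtain ⟨ε₀, hε₀, hε₀sep⟩ := h80s_eps
    ((h62i_α A M q : chart M A (jB M) →ₐ[A] chart (M * q) A (jSS M q)) :
      chart M A (jB M) →+* chart (M * q) A (jSS M q))
    (h62i_Pinf A M hq hM hA) (h62i_P0 A M hq hM hA) _ h𝔫
    (h62d_surj A M hq hM haux hA) hker
    (fun 𝔑 h𝔑 hJ hP => h50e_unique_fin A M hq hM haux hA _ h𝔫 hP0 𝔑 h𝔑 hJ hP) hPinf
  obtain ⟨ε, hε⟩ := (h25i_h60RedIso_Mq_fin hq hM hA).1 ε₀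
  have hεP0 : h60rIncl A (M * q) (jSS M q) ε ∈ h62i_P0 A M hq hM hA := by
    have h1 : h60rIncl A (M * q) (jSS M q) ε = ε₀ - (ε₀ - h60rIncl A (M * q) (jSS M q) ε) := by
      ring
    rw [h1]
    exact Ideal.sub_mem _ hε₀ (h62i_m_le_P0 A M hq hM hA hε)
  have hqm : ((q : ℕ) : chart (M * q) A (jSS M q)) ∈ mExt A M q (jSS M q) := by
    have h1 : ((q : ℕ) : chart (M * q) A (jSS M q)) =
        algebraMap A (chart (M * q) A (jSS M q)) (q : A) := (map_natCast _ q).symm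
    rw [h1]
    exact Ideal.mem_map_of_mem _ (h62i_natCast_mem A hA)
  have hβu₀ : h62i_β A M hq hM hA u₀ ∈
      h60rLift (h60rIncl A (M * q) (jSS M q)) (mExt A M q (jSS M q)) 𝔫' :=
    Ideal.mem_comap.mp hLP.1
  have hαu₀ : h62i_α A M q u₀ ∈
      h60rLift (h60rIncl A (M * q) (jSS M q)) (mExt A M q (jSS M q)) 𝔫' := by
    have h1 := hP0 (h50e_frob0 A M hq hM hA u₀ huR)
    have h2 : h62i_α A M q u₀ = (h62i_α A M q u₀ - h62i_β A M hq hM hA u₀ ^ q)
        + h62i_β A M hq hM hA u₀ ^ q := by ring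
    rw [h2]
    exact Ideal.add_mem _ h1 (Ideal.pow_mem_of_mem _ hβu₀ q hq.pos)
  refine ⟨h62rOfRat A M (jB M) u₀ hrat, ε, hrat, hnc, hLP, hεP0, fun δ hδ => ?_⟩
  -- `ι (δ - 1) ∈ 𝔪_A B`
  have hδm : h60rIncl A (M * q) (jSS M q) δ - 1 ∈ mExt A M q (jSS M q) := by
    obtain ⟨t, ht⟩ := Ideal.mem_span_singleton'.mp hδ
    have h1 : h60rIncl A (M * q) (jSS M q) δ - 1 =
        h60rIncl A (M * q) (jSS M q) t * ((q : ℕ) : chart (M * q) A (jSS M q)) := by
      rw [← map_one (h60rIncl A (M * q) (jSS M q)), ← map_sub, ← ht, map_mul, map_natCast]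
    rw [h1]
    exact Ideal.mul_mem_left _ _ hqm
  have hιψ : h60rIncl A (M * q) (jSS M q)
      (h62rBeta A M hq hM hA (h62rOfRat A M (jB M) u₀ hrat) + δ * ε)
      = h62i_β A M hq hM hA u₀ + h60rIncl A (M * q) (jSS M q) δ *
          h60rIncl A (M * q) (jSS M q) ε := by
    rw [map_add, map_mul, h50e_incl_beta]
    rfl
  obtain ⟨a₀, ha₀⟩ := h62d_surj A M hq hM haux hA (h60rIncl A (M * q) (jSS M q)
      (h62rBeta A M hq hM hA (h62rOfRat A M (jB M) u₀ hrat) + δ * ε))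
  obtain ⟨a, ha⟩ := (h25i_h60RedIso_M_fin hq hM hA).1 a₀
  have hX : h60rIncl A (M * q) (jSS M q)
      (h62rBeta A M hq hM hA (h62rOfRat A M (jB M) u₀ hrat) + δ * ε - h62rAlpha A M a)
      ∈ h62i_Pinf A M hq hM hA := by
    rw [map_sub, h50e_incl_alpha]
    have h1 : h60rIncl A (M * q) (jSS M q)
        (h62rBeta A M hq hM hA (h62rOfRat A M (jB M) u₀ hrat) + δ * ε)
        - h62i_α A M q (h60rIncl A M (jB M) a)
        = (h60rIncl A (M * q) (jSS M q)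
            (h62rBeta A M hq hM hA (h62rOfRat A M (jB M) u₀ hrat) + δ * ε)
            - h62i_α A M q a₀) + h62i_α A M q (a₀ - h60rIncl A M (jB M) a) := by
      rw [map_sub]
      ring
    rw [h1]
    exact Ideal.add_mem _ ha₀ (h62i_m_le_Pinf A M hq hM hA
      (h62l_map_mem _ (h62i_α A M q) ha))
  refine ⟨a, hX, fun hcon => ?_⟩
  have hcon' := (hmem _).mpr hcon
  rw [map_sub, h50e_incl_alpha, hιψ] at hcon' hX
  -- `α (ι a) ∈ 𝔫`
  have hιε𝔫 : h60rIncl A (M * q) (jSS M q) δ * h60rIncl A (M * q) (jSS M q) ε ∈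
      h60rLift (h60rIncl A (M * q) (jSS M q)) (mExt A M q (jSS M q)) 𝔫' :=
    Ideal.mul_mem_left _ _ (hP0 hεP0)
  have hαa : h62i_α A M q (h60rIncl A M (jB M) a) ∈
      h60rLift (h60rIncl A (M * q) (jSS M q)) (mExt A M q (jSS M q)) 𝔫' := by
    have h1 : h62i_α A M q (h60rIncl A M (jB M) a) =
        (h62i_β A M hq hM hA u₀ + h60rIncl A (M * q) (jSS M q) δ *
          h60rIncl A (M * q) (jSS M q) ε)
        - (h62i_β A M hq hM hA u₀ + h60rIncl A (M * q) (jSS M q) δ *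
          h60rIncl A (M * q) (jSS M q) ε - h62i_α A M q (h60rIncl A M (jB M) a)) := by ring
    rw [h1]
    exact Ideal.sub_mem _ (Ideal.add_mem _ hβu₀ hιε𝔫) hcon'
  -- the separation of `ε₀`
  apply hε₀sep (h60rIncl A M (jB M) a - u₀ ^ q)
  · have h1 : ε₀ - ((h62i_α A M q : chart M A (jB M) →ₐ[A] chart (M * q) A (jSS M q)) :
          chart M A (jB M) →+* chart (M * q) A (jSS M q)) (h60rIncl A M (jB M) a - u₀ ^ q)
        = (ε₀ - h60rIncl A (M * q) (jSS M q) ε)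
          - (h60rIncl A (M * q) (jSS M q) δ - 1) * h60rIncl A (M * q) (jSS M q) ε
          - (h62i_β A M hq hM hA u₀ - h62i_α A M q u₀ ^ q)
          + (h62i_β A M hq hM hA u₀ + h60rIncl A (M * q) (jSS M q) δ *
              h60rIncl A (M * q) (jSS M q) ε - h62i_α A M q (h60rIncl A M (jB M) a)) := by
      show ε₀ - h62i_α A M q (h60rIncl A M (jB M) a - u₀ ^ q) = _
      rw [map_sub, map_pow]
      ring
    rw [h1]
    refine Ideal.add_mem _ (Ideal.sub_mem _ (Ideal.sub_mem _ ?_ ?_) ?_) hX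
    · exact h62i_m_le_Pinf A M hq hM hA hε
    · exact Ideal.mul_mem_right _ _ (h62i_m_le_Pinf A M hq hM hA hδm)
    · exact h62d_frob A M hq hM hA u₀ huR
  · show h62i_α A M q (h60rIncl A M (jB M) a - u₀ ^ q) ∈ _
    rw [map_sub, map_pow]
    exact Ideal.sub_mem _ hαa (Ideal.pow_mem_of_mem _ hαu₀ q hq.pos)

end Fermat.Agent.S36
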