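import Fermat.Agent.S36.H20VertSkel
import Fermat.Agent.S36.H1Gauss
import Fermat.Agent.S36.H12EmbDF
import Fermat.Agent.S36.H20Emb
import Fermat.Agent.S36.H83EmbGal
import Fermat.Agent.S36.H81Cyc
import Fermat.Agent.S36.H40NormA
import Fermat.Agent.S36.H71NormB
import Fermat.Agent.S36.H40NormC
import Fermat.Agent.S36.H93NormD
import Fermat.Agent.S36.H55DescPow
import Fermat.Agent.S36.V28Fix
import Fermat.Agent.S36.H64NAsm

/-!
# S36, blocks (V) + (N), leaf (L3) `H20CompGroup` (helper81, prefix `h81g_`)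

`h81g_compGroup : H20CompGroup` (the exact frozen `Prop` of `S36/H20VertSkel.lean`).

For `u ∈ F₀` with valuations `(-n₂₀, -n₁₁, -n₀₂)` at `(E20, E11, E02)` the norm formulas
(a)-(d) give the Gauss valuations of the two norms at the two components of the level `M q`:

* (a) `v(Nm_α u) = -(n₂₀ + n₁₁)`        (`∏_{0<b<q} (1 - ζ^b) = q`, `E11^{ζ^b} u = σ_b (E11^ζ u)`);
* (d) `v(w Nm_α u) = - q n₀₂`;
* (b) `v(Nm_β u) = - q n₂₀`;
* (c) `v(w Nm_β u) = -(n₀₂ + n₁₁)`.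

If `Nm u = h ^ m`, then `Nm u = c g ^ m` with `g ∈ F₀(M q)` (`DescPow`), and `g`, `w g` have
integral valuations (`h28v_exists_zpow`); the constant `c` cancels in `v(Nm u) - v(w Nm u)`.
-/

set_option autoImplicit false
set_option linter.unusedSectionVars false

open AlgebraicCurve ModularCurve

noncomputable section

namespace Fermat.Agent.S36

open Fermat.Agent.S37 (Kbar GQ FF cst gal auxLevel)
open Fermat.Agent.Red.KR (normAlong)
open Fermat.Agent.Red.GV (embA redA)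
open Fermat.Agent.Red.GV.Soft (softOT dfField IsWit)
open Fermat.Agent.Red.Kron (kFricke twistK)

/-! ## The calculus of Gauss units up to constants -/

section Calculus

/-- `x ≠ 0`, `s ≠ 0` and `C x * s` is a unit of the Gauss ring ("`v(s) = - v(x)`"). -/
def h81g_UC (A : ValuationSubring Kbar) (x : Kbar) (s : LaurentSeries Kbar) : Prop :=
  x ≠ 0 ∧ s ≠ 0 ∧ h20v_Unit A (HahnSeries.C x * s)

variable {A : ValuationSubring Kbar}

theorem h81g_C_ne_zero {x : Kbar} (hx : x ≠ 0) :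
    (HahnSeries.C x : LaurentSeries Kbar) ≠ 0 := by
  intro h0
  exact hx (HahnSeries.C_injective (by rw [h0, map_zero]))

theorem h81g_unit_mul {s t : LaurentSeries Kbar} (hs : h20v_Unit A s) (ht : h20v_Unit A t) :
    h20v_Unit A (s * t) := by
  refine ⟨mul_ne_zero hs.1 ht.1, mul_mem hs.2.1 ht.2.1, ?_⟩
  rw [mul_inv]
  exact mul_mem hs.2.2 ht.2.2

theorem h81g_unit_one : h20v_Unit A 1 :=
  ⟨one_ne_zero, one_mem _, by rw [inv_one]; exact one_mem _⟩

theorem h81g_cong_ne_zero {s : LaurentSeries Kbar} (hs : h20n_CongOneS A s) : s ≠ 0 := by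
  rintro rfl
  obtain ⟨h, h1⟩ := (h64a_cong_iff A 0).mp hs
  have e : (⟨0, h⟩ : softOT A (IsLocalRing.residue A)) = 0 := rfl
  rw [e, map_zero] at h1
  exact zero_ne_one h1

theorem h81g_unit_of_cong {s : LaurentSeries Kbar} (hs : h20n_CongOneS A s) :
    h20v_Unit A s := by
  have h1 := (h64a_cong_iff A s).mp hs
  have h2 := (h64a_cong_iff A s⁻¹).mp (h64a_cong_inv hs)
  exact ⟨h81g_cong_ne_zero hs, h1.1, h2.1⟩

theorem h81g_uc_mem {x : Kbar} {s : LaurentSeries Kbar} (h : h81g_UC A x s) :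
    HahnSeries.C x * s ∈ softOT A (IsLocalRing.residue A) := h.2.2.2.1

theorem h81g_uc_inv_mem {x : Kbar} {s : LaurentSeries Kbar} (h : h81g_UC A x s) :
    (HahnSeries.C x * s)⁻¹ ∈ softOT A (IsLocalRing.residue A) := h.2.2.2.2

theorem h81g_uc_mk {x : Kbar} {s : LaurentSeries Kbar} (hx : x ≠ 0) (hs : s ≠ 0)
    (h1 : HahnSeries.C x * s ∈ softOT A (IsLocalRing.residue A))
    (h2 : (HahnSeries.C x * s)⁻¹ ∈ softOT A (IsLocalRing.residue A)) : h81g_UC A x s :=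
  ⟨hx, hs, mul_ne_zero (h81g_C_ne_zero hx) hs, h1, h2⟩

theorem h81g_uc_one : h81g_UC A 1 1 :=
  ⟨one_ne_zero, one_ne_zero, by rw [map_one, one_mul]; exact h81g_unit_one⟩

theorem h81g_uc_mul {x y : Kbar} {s t : LaurentSeries Kbar} (hs : h81g_UC A x s)
    (ht : h81g_UC A y t) : h81g_UC A (x * y) (s * t) := by
  refine ⟨mul_ne_zero hs.1 ht.1, mul_ne_zero hs.2.1 ht.2.1, ?_⟩
  have e : (HahnSeries.C (x * y) : LaurentSeries Kbar) * (s * t) =
      (HahnSeries.C x * s) * (HahnSeries.C y * t) := by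
    rw [map_mul]
    ring
  rw [e]
  exact h81g_unit_mul hs.2.2 ht.2.2

theorem h81g_uc_prod {ι : Type*} (S : Finset ι) (x : ι → Kbar) (s : ι → LaurentSeries Kbar)
    (h : ∀ i ∈ S, h81g_UC A (x i) (s i)) : h81g_UC A (∏ i ∈ S, x i) (∏ i ∈ S, s i) := by
  classical
  induction S using Finset.induction_on with
  | empty =>
    rw [Finset.prod_empty, Finset.prod_empty]
    exact h81g_uc_one
  | insert a S ha ih =>
    rw [Finset.prod_insert ha, Finset.prod_insert ha]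
    exact h81g_uc_mul (h a (Finset.mem_insert_self a S))
      (ih fun i hi => h i (Finset.mem_insert_of_mem hi))

theorem h81g_uc_pow {x : Kbar} {s : LaurentSeries Kbar} (hs : h81g_UC A x s) (n : ℕ) :
    h81g_UC A (x ^ n) (s ^ n) := by
  induction n with
  | zero =>
    rw [pow_zero, pow_zero]
    exact h81g_uc_one
  | succ n ih =>
    rw [pow_succ, pow_succ]
    exact h81g_uc_mul ih hs

/-- rescaling the series by a nonzero constant. -/
theorem h81g_uc_C_mul {x c : Kbar} {s : LaurentSeries Kbar} (hs : h81g_UC A x s)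
    (hc : c ≠ 0) : h81g_UC A (x * c⁻¹) (HahnSeries.C c * s) := by
  refine ⟨mul_ne_zero hs.1 (inv_ne_zero hc), mul_ne_zero (h81g_C_ne_zero hc) hs.2.1, ?_⟩
  have e : (HahnSeries.C (x * c⁻¹) : LaurentSeries Kbar) * (HahnSeries.C c * s) =
      HahnSeries.C x * s := by
    rw [← mul_assoc, ← map_mul, mul_assoc, inv_mul_cancel₀ hc, mul_one]
  rw [e]
  exact hs.2.2

/-- comparison: two scalings of the same series differ by an element of `A`. -/
theorem h81g_uc_cmp {x y : Kbar} {s : LaurentSeries Kbar} (hx : h81g_UC A x s)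
    (hy : h81g_UC A y s) : y * x⁻¹ ∈ A := by
  have hs0 := hx.2.1
  have hx0 := h81g_C_ne_zero hx.1
  have h1 : (HahnSeries.C (y * x⁻¹) : LaurentSeries Kbar) =
      (HahnSeries.C y * s) * (HahnSeries.C x * s)⁻¹ := by
    rw [map_mul, map_inv₀]
    field_simp
  have h2 : (HahnSeries.C (y * x⁻¹) : LaurentSeries Kbar) ∈
      softOT A (IsLocalRing.residue A) := by
    rw [h1]
    exact mul_mem (h81g_uc_mem hy) (h81g_uc_inv_mem hx)
  exact (Fermat.Agent.Red.GV.Soft.C_mem_softOT_iff A _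
    (Fermat.Agent.Red.GV.Soft.residue_eq_zero_of_nonunit A) _).mp h2

/-- a scaling may be changed by a unit of `A`. -/
theorem h81g_uc_of_unit {x y : Kbar} {s : LaurentSeries Kbar} (hx : h81g_UC A x s)
    (hy0 : y ≠ 0) (h1 : y * x⁻¹ ∈ A) (h2 : x * y⁻¹ ∈ A) : h81g_UC A y s := by
  have hs0 := hx.2.1
  have hx0 := h81g_C_ne_zero hx.1
  have hy0' := h81g_C_ne_zero hy0
  refine h81g_uc_mk hy0 hx.2.1 ?_ ?_
  · have e : (HahnSeries.C y : LaurentSeries Kbar) * s =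
        HahnSeries.C (y * x⁻¹) * (HahnSeries.C x * s) := by
      rw [← mul_assoc, ← map_mul, mul_assoc, inv_mul_cancel₀ hx.1, mul_one]
    rw [e]
    exact mul_mem (Fermat.Agent.Red.GV.Soft.C_mem_softOT A _ ⟨_, h1⟩) (h81g_uc_mem hx)
  · have e : ((HahnSeries.C y : LaurentSeries Kbar) * s)⁻¹ =
        HahnSeries.C (x * y⁻¹) * (HahnSeries.C x * s)⁻¹ := by
      rw [map_mul, map_inv₀]
      field_simp
    rw [e]
    exact mul_mem (Fermat.Agent.Red.GV.Soft.C_mem_softOT A _ ⟨_, h2⟩) (h81g_uc_inv_mem hx)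

/-- the Galois action of the decomposition group. -/
theorem h81g_uc_coeffMap {σ : GQ} (hσ : σ ∈ A.decompositionSubgroup ℚ) {x : Kbar}
    {s : LaurentSeries Kbar} (hs : h81g_UC A x s) :
    h81g_UC A (σ x) (coeffMap (σ : Kbar →+* Kbar) s) := by
  have hmem : ∀ y : LaurentSeries Kbar, y ∈ softOT A (IsLocalRing.residue A) →
      coeffMap (σ : Kbar →+* Kbar) y ∈ softOT A (IsLocalRing.residue A) := fun y hy =>
    Fermat.Agent.Red.GV.Soft.mem_softOT_coeffMap (σ : Kbar →+* Kbar)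
      (Fermat.Agent.Red.GV.decompA A σ hσ) (Fermat.Agent.Red.GV.coe_decompA A σ hσ)
      (Fermat.Agent.Red.GV.decompK A σ hσ) (Fermat.Agent.Red.GV.residue_decompA A σ hσ) hy
  have hC : coeffMap (σ : Kbar →+* Kbar) (HahnSeries.C x) = HahnSeries.C (σ x) := by
    simp only [HahnSeries.C_apply, coeffMap_single]
    rfl
  refine h81g_uc_mk ((map_ne_zero σ).mpr hs.1)
    ((map_ne_zero (coeffMap (σ : Kbar →+* Kbar))).mpr hs.2.1) ?_ ?_
  · rw [← hC, ← map_mul]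
    exact hmem _ (h81g_uc_mem hs)
  · rw [← hC, ← map_mul, ← map_inv₀]
    exact hmem _ (h81g_uc_inv_mem hs)

/-- the substitution `t ↦ t ^ n`. -/
theorem h81g_uc_qExpand (n : ℕ) [NeZero n] {x : Kbar} {s : LaurentSeries Kbar}
    (hs : h81g_UC A x s) : h81g_UC A x (qExpand Kbar n s) := by
  have hC : qExpand Kbar n (HahnSeries.C x) = HahnSeries.C x := qExpand_C n x
  refine h81g_uc_mk hs.1 ((map_ne_zero (qExpand Kbar n)).mpr hs.2.1) ?_ ?_
  · rw [← hC, ← map_mul]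
    exact Fermat.Agent.Red.GV.Soft.mem_softOT_qExpand A _ n (h81g_uc_mem hs)
  · rw [← hC, ← map_mul, ← map_inv₀]
    exact Fermat.Agent.Red.GV.Soft.mem_softOT_qExpand A _ n (h81g_uc_inv_mem hs)

variable {q : ℕ}

/-- every nonzero element of `dfField` has a scaling. -/
theorem h81g_uc_of_df (hq : q.Prime) (hA : A.LiesOverPrime q) {s : LaurentSeries Kbar}
    (hdf : s ∈ dfField (K := Kbar)) (hs0 : s ≠ 0) : ∃ c : Kbar, h81g_UC A c s := by
  obtain ⟨c, a, b, hc, ha, hb, hab⟩ := h1g_exists_scale q hq A hA hdf hs0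
  have hw : IsWit A (IsLocalRing.residue A) (HahnSeries.C c * s) a b := ⟨hb, hab⟩
  exact ⟨c, h81g_uc_mk hc hs0 ⟨a, b, hw⟩ ⟨b, a, hw.inv ha⟩⟩

/-- the substitution `t ↦ t ^ n` reflects scalings on `dfField`. -/
theorem h81g_uc_of_qExpand (hq : q.Prime) (hA : A.LiesOverPrime q) (n : ℕ) [NeZero n]
    {x : Kbar} {s : LaurentSeries Kbar} (hdf : s ∈ dfField (K := Kbar))
    (hs : h81g_UC A x (qExpand Kbar n s)) : h81g_UC A x s := by
  have hs0 : s ≠ 0 := fun h0 => hs.2.1 (by rw [h0, map_zero])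
  obtain ⟨c, hc⟩ := h81g_uc_of_df hq hA hdf hs0
  have hc' := h81g_uc_qExpand n hc
  exact h81g_uc_of_unit hc hs.1 (h81g_uc_cmp hc' hs) (h81g_uc_cmp hs hc')

/-- the twist `t ↦ ω t` by a `q`-th root of unity. -/
theorem h81g_uc_twist (hq : q.Prime) (hA : A.LiesOverPrime q) {ω : Kbar} (hω : ω ^ q = 1)
    {x : Kbar} {s : LaurentSeries Kbar} (hdf : s ∈ dfField (K := Kbar))
    (hs : h81g_UC A x s) : h81g_UC A x (twistK ω s) := by
  have hω0 : ω ≠ 0 := by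
    rintro rfl
    rw [zero_pow hq.ne_zero] at hω
    exact zero_ne_one hω
  have hs0 := hs.2.1
  have hcong := h1g_twist q hq A hA ω 1 (by rw [pow_one]; exact hω) s hdf hs0
  have hu : h20v_Unit A (twistK ω s * s⁻¹) := h81g_unit_of_cong hcong
  have hne : twistK ω s ≠ 0 := fun h0 =>
    hs0 (Fermat.Agent.Red.Kron.twistK_injective hω0
      (h0.trans (Fermat.Agent.Red.Kron.twistK_zero ω).symm))
  refine ⟨hs.1, hne, ?_⟩
  have e : (HahnSeries.C x : LaurentSeries Kbar) * twistK ω s =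
      (twistK ω s * s⁻¹) * (HahnSeries.C x * s) := by
    field_simp
  rw [e]
  exact h81g_unit_mul hu hs.2.2

theorem h81g_not_inv_mem {x : Kbar} (hx : x ∈ A.nonunits) (hx0 : x ≠ 0) : x⁻¹ ∉ A := by
  intro h
  have hv := (A.valuation_le_one_iff _).mpr h
  rw [map_inv₀] at hv
  have h1 := (A.mem_nonunits_iff).mp hx
  have h0 : A.valuation x ≠ 0 := (map_ne_zero _).mpr hx0
  have h2 : 1 ≤ A.valuation x := (inv_le_one₀ (zero_lt_iff.mpr h0)).mp hv
  exact absurd h1 (not_lt.mpr h2)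

/-- a power of `q` which is a unit of `A` is trivial. -/
theorem h81g_zpow_eq_zero (hq : q.Prime) (hA : A.LiesOverPrime q) {n : ℤ}
    (h1 : ((q : ℕ) : Kbar) ^ n ∈ A) (h2 : (((q : ℕ) : Kbar) ^ n)⁻¹ ∈ A) : n = 0 := by
  have hq0 : ((q : ℕ) : Kbar) ≠ 0 := Nat.cast_ne_zero.mpr hq.ne_zero
  by_contra hn
  rcases lt_or_gt_of_ne hn with h | h
  · have h3 := Fermat.Agent.Red.GV.Soft.natCast_zpow_mem_nonunits A hA (k := -n) (by omega)
    have h4 := h81g_not_inv_mem h3 (zpow_ne_zero _ hq0)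
    rw [zpow_neg, inv_inv] at h4
    exact h4 h1
  · have h3 := Fermat.Agent.Red.GV.Soft.natCast_zpow_mem_nonunits A hA (k := n) h
    exact h81g_not_inv_mem h3 (zpow_ne_zero _ hq0) h2

end Calculus

/-! ## Norms and the Galois action -/

section NormGal

/-- the norm along a Galois-equivariant homomorphism is Galois-equivariant. -/
theorem h81g_norm_gal {N N' : ℕ} (φ : FF N →ₐ[Kbar] FF N') (σ : GQ)
    (hφ : ∀ x : FF N, gal N' σ • φ x = φ (gal N σ • x)) (u : FF N') :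
    normAlong φ (gal N' σ • u) = gal N σ • normAlong φ u := by
  let _ := algebraAlong φ
  have h := Algebra.norm_eq_of_equiv_equiv (A₁ := FF N) (B₁ := FF N') (A₂ := FF N)
    (B₂ := FF N') (SemilinearAut.toRingAut (gal N σ)) (SemilinearAut.toRingAut (gal N' σ))
    (RingHom.ext fun x => by
      show φ (gal N σ • x) = gal N' σ • φ x
      exact (hφ x).symm) u
  show Algebra.norm (FF N) (gal N' σ • u) = gal N σ • Algebra.norm (FF N) u
  rw [h]
  exact (RingEquiv.apply_symm_apply (SemilinearAut.toRingAut (gal N σ)) _).symm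

theorem h81g_norm_mem_F0 {N N' : ℕ} (φ : FF N →ₐ[Kbar] FF N') (I : Subgroup GQ)
    (hφ : ∀ (σ : GQ) (x : FF N), gal N' σ • φ x = φ (gal N σ • x)) {u : FF N'}
    (hu : u ∈ h53d_F0 N' I) : normAlong φ u ∈ h53d_F0 N I := by
  intro σ hσ
  rw [← h81g_norm_gal φ σ (hφ σ), hu σ hσ]

end NormGal

/-! ## The level `M q` -/

section Level

variable {M q : ℕ} [NeZero M] [NeZero q]

theorem h81g_coe_cst_mul (N : ℕ) (c : Kbar) (x : FF N) :
    ((cst N c * x : FF N) : LaurentSeries Kbar) = HahnSeries.C c * (x : LaurentSeries Kbar) := by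
  show ((cst N c : FF N) : LaurentSeries Kbar) * (x : LaurentSeries Kbar) = _
  rw [Fermat.Agent.Red.GV.Soft.soft_coe_cst]

theorem h81g_coe_ne_zero (N : ℕ) {x : FF N} (hx : x ≠ 0) : (x : LaurentSeries Kbar) ≠ 0 :=
  fun h0 => hx (Subtype.ext h0)

/-- a nonzero function of `F₀` of any level has an integral Gauss valuation. -/
theorem h81g_uc_level (hq : q.Prime) (A : ValuationSubring Kbar) (hA : A.LiesOverPrime q)
    (N : ℕ) (g : FF N) (hg : g ≠ 0) (hgF : g ∈ h92c_F0 A N) :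
    ∃ k : ℤ, h81g_UC A (((q : ℕ) : Kbar) ^ k) (g : LaurentSeries Kbar) := by
  obtain ⟨k, h1, h2⟩ := V28.h28v_exists_zpow A N hq hA g hg hgF
  refine ⟨k, h81g_uc_mk (zpow_ne_zero _ (Nat.cast_ne_zero.mpr hq.ne_zero))
    (h81g_coe_ne_zero N hg) ?_ ?_⟩
  · rw [← h81g_coe_cst_mul]
    exact h1
  · rw [← h81g_coe_cst_mul]
    exact h2

/-- **the level `M q`.**  If `g ∈ F₀(M q)` is an `m`-th power, then the Gauss valuations of
`g` and of `w g` differ by a multiple of `m`. -/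
theorem h81g_pow_cmp (hq : q.Prime) (hqM : ¬ q ∣ M) (A : ValuationSubring Kbar)
    (hA : A.LiesOverPrime q) (m : ℕ) (g h : FF (M * q)) (hg0 : g ≠ 0)
    (hgF : g ∈ h92c_F0 A (M * q)) (hgh : g = h ^ m) {x y : Kbar}
    (hx : h81g_UC A x (g : LaurentSeries Kbar))
    (hy : h81g_UC A y ((kFricke M q hq hqM g : FF (M * q)) : LaurentSeries Kbar)) :
    ∃ d : ℤ, y * x⁻¹ * ((q : ℕ) : Kbar) ^ (d * m) ∈ A ∧
      (y * x⁻¹ * ((q : ℕ) : Kbar) ^ (d * m))⁻¹ ∈ A := by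
  have hq0 : ((q : ℕ) : Kbar) ≠ 0 := Nat.cast_ne_zero.mpr hq.ne_zero
  obtain ⟨c', g', -, hg'F, hgeq⟩ := h55p_descPow (M * q) (A.inertiaSubgroupIn ℚ) m g h 1 hg0
    hgF (by
      show g = algebraMap Kbar (FF (M * q)) 1 * h ^ m
      rw [map_one (algebraMap Kbar (FF (M * q))), one_mul]
      exact hgh)
  obtain ⟨g'', hg''0, hg''F, hgeq'⟩ : ∃ g'' : FF (M * q), g'' ≠ 0 ∧
      g'' ∈ h92c_F0 A (M * q) ∧ g = cst (M * q) c' * g'' ^ m := by
    by_cases h0 : g' = 0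
    · have hm : m = 0 := by
        by_contra hm
        apply hg0
        rw [hgeq, h0, zero_pow hm, mul_zero]
      refine ⟨1, one_ne_zero, Subfield.one_mem _, ?_⟩
      rw [hgeq, hm, pow_zero, pow_zero]
    · exact ⟨g', h0, hg'F, hgeq⟩
  have hc'0 : c' ≠ 0 := by
    rintro rfl
    apply hg0
    have hz : cst (M * q) (0 : Kbar) = 0 := map_zero (algebraMap Kbar (FF (M * q)))
    rw [hgeq', hz, zero_mul]
  have hwF : kFricke M q hq hqM g'' ∈ h92c_F0 A (M * q) := by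
    intro σ hσ
    have h1 := Fermat.Agent.Red.Kron.kFricke_gal M q hq hqM σ g''
    have h2 : gal (M * q) σ • g'' = g'' := hg''F σ hσ
    change kFricke M q hq hqM (gal (M * q) σ • g'') = gal (M * q) σ • kFricke M q hq hqM g''
      at h1
    rw [h2] at h1
    exact h1.symm
  have hw0 : kFricke M q hq hqM g'' ≠ 0 := (map_ne_zero (kFricke M q hq hqM)).mpr hg''0
  obtain ⟨k, hk⟩ := h81g_uc_level hq A hA (M * q) g'' hg''0 hg''F
  obtain ⟨k', hk'⟩ := h81g_uc_level hq A hA (M * q) (kFricke M q hq hqM g'') hw0 hwF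
  have e1 : (g : LaurentSeries Kbar) =
      HahnSeries.C c' * (g'' : LaurentSeries Kbar) ^ m := by
    conv_lhs => rw [hgeq']
    rw [h81g_coe_cst_mul]
    rfl
  have e2 : ((kFricke M q hq hqM g : FF (M * q)) : LaurentSeries Kbar) =
      HahnSeries.C c' * ((kFricke M q hq hqM g'' : FF (M * q)) : LaurentSeries Kbar) ^ m := by
    conv_lhs => rw [hgeq', map_mul, Fermat.Agent.Red.Kron.kFricke_cst, map_pow]
    rw [h81g_coe_cst_mul]
    rfl
  have hx' : h81g_UC A ((((q : ℕ) : Kbar) ^ k) ^ m * c'⁻¹) (g : LaurentSeries Kbar) := by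
    rw [e1]
    exact h81g_uc_C_mul (h81g_uc_pow hk m) hc'0
  have hy' : h81g_UC A ((((q : ℕ) : Kbar) ^ k') ^ m * c'⁻¹)
      ((kFricke M q hq hqM g : FF (M * q)) : LaurentSeries Kbar) := by
    rw [e2]
    exact h81g_uc_C_mul (h81g_uc_pow hk' m) hc'0
  have a1 := h81g_uc_cmp hx hx'
  have a2 := h81g_uc_cmp hx' hx
  have b1 := h81g_uc_cmp hy hy'
  have b2 := h81g_uc_cmp hy' hy
  have hx0 := hx.1
  have hy0 := hy.1
  have hk0 : ((q : ℕ) : Kbar) ^ k ≠ 0 := zpow_ne_zero _ hq0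
  have hk'0 : ((q : ℕ) : Kbar) ^ k' ≠ 0 := zpow_ne_zero _ hq0
  have epow : ((q : ℕ) : Kbar) ^ ((k - k') * (m : ℤ)) =
      (((q : ℕ) : Kbar) ^ k) ^ m * ((((q : ℕ) : Kbar) ^ k') ^ m)⁻¹ := by
    rw [sub_mul, zpow_sub₀ hq0, zpow_mul, zpow_mul, zpow_natCast, zpow_natCast]
    rfl
  refine ⟨k - k', ?_, ?_⟩
  · have e : y * x⁻¹ * ((q : ℕ) : Kbar) ^ ((k - k') * (m : ℤ)) =
        (y * ((((q : ℕ) : Kbar) ^ k') ^ m * c'⁻¹)⁻¹) *
          (((((q : ℕ) : Kbar) ^ k) ^ m * c'⁻¹) * x⁻¹) := by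
      rw [epow]
      field_simp
    rw [e]
    exact A.mul_mem _ _ b2 a1
  · have e : (y * x⁻¹ * ((q : ℕ) : Kbar) ^ ((k - k') * (m : ℤ)))⁻¹ =
        (((((q : ℕ) : Kbar) ^ k') ^ m * c'⁻¹) * y⁻¹) *
          (x * ((((q : ℕ) : Kbar) ^ k) ^ m * c'⁻¹)⁻¹) := by
      rw [epow]
      field_simp
    rw [e]
    exact A.mul_mem _ _ b1 a2

/-- `∏_{0 < b < q} (1 - ζ ^ b) = q`. -/
theorem h81g_prod_one_sub {ζ : Kbar} (hq : q.Prime) (hζ : IsPrimitiveRoot ζ q) :
    ∏ b ∈ Finset.Ioo 0 q, (1 - ζ ^ b) = ((q : ℕ) : Kbar) := by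
  obtain ⟨n, rfl⟩ : ∃ n, q = n + 1 := ⟨q - 1, (Nat.sub_add_cancel hq.pos).symm⟩
  have h := IsPrimitiveRoot.prod_one_sub_pow_eq_order hζ
  have h2 : ((n + 1 : ℕ) : Kbar) = ∏ k ∈ Finset.range n, (1 - ζ ^ (k + 1)) := by
    rw [h]
    push_cast
    rfl
  rw [h2]
  symm
  refine Finset.prod_nbij' (fun k => k + 1) (fun b => b - 1) ?_ ?_ ?_ ?_ ?_
  · intro k hk
    have := Finset.mem_range.mp hk
    exact Finset.mem_Ioo.mpr ⟨by omega, by omega⟩
  · intro b hb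
    have := Finset.mem_Ioo.mp hb
    exact Finset.mem_range.mpr (by omega)
  · intro k _
    show k + 1 - 1 = k
    omega
  · intro b hb
    have := Finset.mem_Ioo.mp hb
    show b - 1 + 1 = b
    omega
  · intro k _
    rfl

/-- `∏_{0 < b < q} (1 - ζ ^ (q - b)) = q`. -/
theorem h81g_prod_one_sub_reflect {ζ : Kbar} (hq : q.Prime) (hζ : IsPrimitiveRoot ζ q) :
    ∏ b ∈ Finset.Ioo 0 q, (1 - ζ ^ (q - b)) = ((q : ℕ) : Kbar) := by
  rw [← h81g_prod_one_sub hq hζ]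
  refine Finset.prod_nbij' (fun b => q - b) (fun b => q - b) ?_ ?_ ?_ ?_ ?_
  · intro b hb
    have := Finset.mem_Ioo.mp hb
    exact Finset.mem_Ioo.mpr ⟨by omega, by omega⟩
  · intro b hb
    have := Finset.mem_Ioo.mp hb
    exact Finset.mem_Ioo.mpr ⟨by omega, by omega⟩
  · intro b hb
    have := Finset.mem_Ioo.mp hb
    show q - (q - b) = b
    omega
  · intro b hb
    have := Finset.mem_Ioo.mp hb
    show q - (q - b) = b
    omega
  · intro b _
    rfl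

/-- an embedding of type `E11` is the identity on the constants. -/
theorem h81g_E11_cst (hq : q.Prime) (hqM : ¬ q ∣ M) (ζ : Kbar)
    (E : FF (M * q * q) →+* LaurentSeries Kbar) (hE : h20n_IsE11 M q hq hqM ζ E) (c : Kbar) :
    E (cst (M * q * q) c) = HahnSeries.C c := by
  have h1 : cst (M * q * q) c = heckeAlphaBar Kbar (M * q) q (cst (M * q) c) :=
    ((heckeAlphaBar Kbar (M * q) q).commutes c).symm
  rw [h1, hE.1]
  exact Fermat.Agent.Red.GV.Soft.soft_coe_cst (M * q) c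

/-- an embedding of type `E02` is the identity on the constants. -/
theorem h81g_E02_cst (hq : q.Prime) (hqM : ¬ q ∣ M)
    (E : FF (M * q * q) →+* LaurentSeries Kbar) (hE : h20n_IsE02 M q hq hqM E) (c : Kbar) :
    E (cst (M * q * q) c) = HahnSeries.C c := by
  have h1 : cst (M * q * q) c = heckeBetaBar Kbar (M * q) q (cst (M * q) c) :=
    ((heckeBetaBar Kbar (M * q) q).commutes c).symm
  rw [h1, hE.2, Fermat.Agent.Red.Kron.kFricke_cst]
  exact Fermat.Agent.Red.GV.Soft.soft_coe_cst (M * q) c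

end Level

/-! ## The component group -/

/-- **(L3) N1-VAL.** -/
theorem h81g_compGroup : H20CompGroup := by
  intro q hq M _ hqM _
  have : NeZero q := ⟨hq.ne_zero⟩
  intro A hA ζ E11 E02 hT m u huF hu0 hNP n₂₀ n₁₁ n₀₂ hV
  obtain ⟨hζ, hE11, hE02⟩ := hT
  obtain ⟨⟨hα, hαeq⟩, ⟨hβ, hβeq⟩⟩ := hNP
  obtain ⟨hV20, hV11, hV02⟩ := hV
  have hq0 : ((q : ℕ) : Kbar) ≠ 0 := Nat.cast_ne_zero.mpr hq.ne_zero
  have hζ1 : (1 : Kbar) - ζ ≠ 0 := sub_ne_zero.mpr (hζ.ne_one hq.one_lt).symm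
  have hroot : ∀ b : ℕ, (ζ ^ b) ^ q = 1 := fun b => by
    rw [← pow_mul, mul_comm, pow_mul, hζ.pow_eq_one, one_pow]
  have hu0' : (u : LaurentSeries Kbar) ≠ 0 := h81g_coe_ne_zero _ hu0
  -- the three scalings
  have u20 : h81g_UC A (((q : ℕ) : Kbar) ^ n₂₀) (u : LaurentSeries Kbar) := by
    refine ⟨zpow_ne_zero _ hq0, hu0', ?_⟩
    rw [← h81g_coe_cst_mul]
    exact hV20
  have u11 : h81g_UC A ((1 - ζ) ^ n₁₁) (E11 u) := by
    refine ⟨zpow_ne_zero _ hζ1, (map_ne_zero E11).mpr hu0, ?_⟩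
    rw [← h81g_E11_cst hq hqM ζ E11 hE11, ← map_mul]
    exact hV11
  have u02 : h81g_UC A (((q : ℕ) : Kbar) ^ n₀₂) (E02 u) := by
    refine ⟨zpow_ne_zero _ hq0, (map_ne_zero E02).mpr hu0, ?_⟩
    rw [← h81g_E02_cst hq hqM E02 hE02, ← map_mul]
    exact hV02
  -- the family of the middle embeddings
  have hex : ∀ b : ℕ, 0 < b → b < q → ∃ E, h20n_IsE11 M q hq hqM (ζ ^ b) E :=
    fun b hb0 hbq => (h20n_embExists q hq M hqM).1 (ζ ^ b) (hroot b)
      (hζ.pow_ne_one_of_pos_of_lt hb0.ne' hbq)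
  let E : ℕ → (FF (M * q * q) →+* LaurentSeries Kbar) := fun b =>
    if h : 0 < b ∧ b < q then Classical.choose (hex b h.1 h.2) else E11
  have hE : ∀ b : ℕ, 0 < b → b < q → h20n_IsE11 M q hq hqM (ζ ^ b) (E b) := by
    intro b hb0 hbq
    have hEb : E b = Classical.choose (hex b hb0 hbq) := dif_pos ⟨hb0, hbq⟩
    rw [hEb]
    exact Classical.choose_spec (hex b hb0 hbq)
  have uE : ∀ b : ℕ, 0 < b → b < q → h81g_UC A ((1 - ζ ^ b) ^ n₁₁) (E b u) := by
    intro b hb0 hbq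
    have hqb : ¬ q ∣ b := Nat.not_dvd_of_pos_of_lt hb0 hbq
    obtain ⟨σ, hσ, hσζ⟩ := h81c_transitive (A := A) hζ hq hA hqb
    have hEb : h20n_IsE11 M q hq hqM (σ ζ) (E b) := by
      rw [hσζ]
      exact hE b hb0 hbq
    have hgal := (h83g_embGal h20n_embUnique q hq M hqM σ).1 ζ E11 (E b) hE11 hEb u
    have hfix : gal (M * q * q) σ • u = u := huF σ hσ
    rw [hfix] at hgal
    rw [hgal]
    have h1 := h81g_uc_coeffMap (Fermat.Agent.Red.GV.mem_decomp_of_mem_inertia A hσ) u11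
    rwa [map_zpow₀, map_sub, map_one, hσζ] at h1
  have dfE : ∀ b : ℕ, 0 < b → b < q → E b u ∈ dfField (K := Kbar) := fun b hb0 hbq =>
    h12e_embDF q hq M hqM (E b) (Or.inl ⟨ζ ^ b, hroot b, hE b hb0 hbq⟩) u
  have df02 : E02 u ∈ dfField (K := Kbar) := h12e_embDF q hq M hqM E02 (Or.inr hE02) u
  have df20 : (u : LaurentSeries Kbar) ∈ dfField (K := Kbar) :=
    Fermat.Agent.Red.GV.Soft.FF_le_dfField (M * q * q) u
  -- (a)
  have vA : h81g_UC A (((q : ℕ) : Kbar) ^ n₂₀ * ((q : ℕ) : Kbar) ^ n₁₁)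
      ((normAlong (heckeAlphaBar Kbar (M * q) q) u : FF (M * q)) : LaurentSeries Kbar) := by
    rw [h40na_normA q hq M hqM ζ hζ E hE u]
    refine h81g_uc_mul u20 ?_
    have h1 := h81g_uc_prod (A := A) (Finset.Ioo 0 q) (fun b => (1 - ζ ^ b) ^ n₁₁)
      (fun b => E b u) (fun b hb => uE b (Finset.mem_Ioo.mp hb).1 (Finset.mem_Ioo.mp hb).2)
    rwa [Finset.prod_zpow, h81g_prod_one_sub hq hζ] at h1
  -- (d)
  have vD : h81g_UC A ((((q : ℕ) : Kbar) ^ n₀₂) ^ q)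
      ((kFricke M q hq hqM (normAlong (heckeAlphaBar Kbar (M * q) q) u) : FF (M * q)) :
        LaurentSeries Kbar) := by
    apply h81g_uc_of_qExpand hq hA q (Fermat.Agent.Red.GV.Soft.FF_le_dfField (M * q) _)
    rw [h93n_normD q hq M hqM ζ hζ E02 hE02 u]
    have h1 := h81g_uc_prod (A := A) (Finset.range q) (fun _ => ((q : ℕ) : Kbar) ^ n₀₂)
      (fun b => twistK (ζ ^ b) (E02 u)) (fun b _ => h81g_uc_twist hq hA (hroot b) df02 u02)
    rwa [Finset.prod_const, Finset.card_range] at h1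
  -- (b)
  have vB : h81g_UC A ((((q : ℕ) : Kbar) ^ n₂₀) ^ q)
      ((normAlong (heckeBetaBar Kbar (M * q) q) u : FF (M * q)) : LaurentSeries Kbar) := by
    apply h81g_uc_of_qExpand hq hA q (Fermat.Agent.Red.GV.Soft.FF_le_dfField (M * q) _)
    rw [h71m_normB q hq (M * q) (Dvd.intro_left M rfl) ζ hζ u]
    have h1 := h81g_uc_prod (A := A) (Finset.range q) (fun _ => ((q : ℕ) : Kbar) ^ n₂₀)
      (fun b => twistK (ζ ^ b) (u : LaurentSeries Kbar))
      (fun b _ => h81g_uc_twist hq hA (hroot b) df20 u20)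
    rwa [Finset.prod_const, Finset.card_range] at h1
  -- (c)
  have vC : h81g_UC A (((q : ℕ) : Kbar) ^ n₀₂ * ((q : ℕ) : Kbar) ^ n₁₁)
      ((kFricke M q hq hqM (normAlong (heckeBetaBar Kbar (M * q) q) u) : FF (M * q)) :
        LaurentSeries Kbar) := by
    rw [h40nc_normC q hq M hqM ζ hζ E02 hE02 E hE u]
    refine h81g_uc_mul u02 ?_
    have h1 := h81g_uc_prod (A := A) (Finset.Ioo 0 q) (fun b => (1 - ζ ^ (q - b)) ^ n₁₁)
      (fun b => twistK (ζ ^ b) (E (q - b) u)) (fun b hb => by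
        have hb' := Finset.mem_Ioo.mp hb
        exact h81g_uc_twist hq hA (hroot b) (dfE (q - b) (by omega) (by omega))
          (uE (q - b) (by omega) (by omega)))
    rwa [Finset.prod_zpow, h81g_prod_one_sub_reflect hq hζ] at h1
  -- the norms are fixed by inertia and nonzero
  have hαF : normAlong (heckeAlphaBar Kbar (M * q) q) u ∈ h92c_F0 A (M * q) :=
    h81g_norm_mem_F0 _ _ (fun σ x => h83g_gal_alpha (M * q) q σ x) huF
  have hβF : normAlong (heckeBetaBar Kbar (M * q) q) u ∈ h92c_F0 A (M * q) :=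
    h81g_norm_mem_F0 _ _ (fun σ x => h83g_gal_beta (M * q) q σ x) huF
  have hα0 := h92c_norm_ne_zero (heckeAlphaBar Kbar (M * q) q) hu0
  have hβ0 := h92c_norm_ne_zero (heckeBetaBar Kbar (M * q) q) hu0
  obtain ⟨d, hd1, hd2⟩ := h81g_pow_cmp hq hqM A hA m _ hα hα0 hαF hαeq vA vD
  obtain ⟨d', hd'1, hd'2⟩ := h81g_pow_cmp hq hqM A hA m _ hβ hβ0 hβF hβeq vB vC
  have eA : (((q : ℕ) : Kbar) ^ n₀₂) ^ q * (((q : ℕ) : Kbar) ^ n₂₀ * ((q : ℕ) : Kbar) ^ n₁₁)⁻¹ *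
      ((q : ℕ) : Kbar) ^ (d * (m : ℤ)) =
      ((q : ℕ) : Kbar) ^ (n₀₂ * (q : ℤ) - (n₂₀ + n₁₁) + d * (m : ℤ)) := by
    rw [zpow_add₀ hq0, zpow_sub₀ hq0, zpow_add₀ hq0, zpow_mul _ n₀₂ (q : ℤ), zpow_natCast,
      div_eq_mul_inv]
  have eB : ((q : ℕ) : Kbar) ^ n₀₂ * ((q : ℕ) : Kbar) ^ n₁₁ * ((((q : ℕ) : Kbar) ^ n₂₀) ^ q)⁻¹ *
      ((q : ℕ) : Kbar) ^ (d' * (m : ℤ)) =
      ((q : ℕ) : Kbar) ^ (n₀₂ + n₁₁ - n₂₀ * (q : ℤ) + d' * (m : ℤ)) := by
    rw [zpow_add₀ hq0, zpow_sub₀ hq0, zpow_add₀ hq0, zpow_mul _ n₂₀ (q : ℤ), zpow_natCast,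
      div_eq_mul_inv]
  rw [eA] at hd1 hd2
  rw [eB] at hd'1 hd'2
  have zA := h81g_zpow_eq_zero hq hA hd1 hd2
  have zB := h81g_zpow_eq_zero hq hA hd'1 hd'2
  exact ⟨Dvd.intro_left d (by linarith), Dvd.intro_left d' (by linarith)⟩

end Fermat.Agent.S36
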