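/-
S36 (Carayol), block REG, leaf R-CUSP-UNIT11 (helper81): the calculus of integral power series.

`A` a valuation subring of `ℚ̄`.  Inside `ℚ̄((t))`:

* `h81u_PI A`      : the subring `A⟦t⟧` (range of `h81u_emb A : A⟦t⟧ →+* ℚ̄((t))`);
* `h81u_PU A x`    : `x` is a unit of `A⟦t⟧` (`x ∈ A⟦t⟧`, `x(0) ∈ Aˣ`);
* `h81u_PU1 A c x` : `x = 1 + c · y`, `y ∈ t A⟦t⟧`  (`x ≡ 1` modulo `c`, `x(0) = 1`).

Stability under products, inverses, twists `t ↦ ω t` (`ω ∈ A`), substitutions `t ↦ t ^ n`;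
units of `A⟦t⟧` are units of the Gauss ring (`h81u_pu_unit`).
-/
import Mathlib
import Fermat.Agent.S36.H20VertSkel

set_option autoImplicit false

open AlgebraicCurve ModularCurve

noncomputable section

namespace Fermat.Agent.S36

open Fermat.Agent.S37 (Kbar)
open Fermat.Agent.Red.GV (embA)
open Fermat.Agent.Red.GV.Soft (softOT embA_mem_softOT)
open Fermat.Agent.Red.Kron (twistK)

variable (A : ValuationSubring Kbar)

/-- the coefficientwise inclusion `A⟦t⟧ → ℚ̄((t))`. -/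
def h81u_emb : PowerSeries A →+* LaurentSeries Kbar :=
  (embA A).comp (HahnSeries.ofPowerSeries ℤ A)

theorem h81u_emb_coeff_nat (f : PowerSeries A) (n : ℕ) :
    (h81u_emb A f).coeff (n : ℤ) = ((PowerSeries.coeff n f : A) : Kbar) := by
  show (coeffMap A.subtype (HahnSeries.ofPowerSeries ℤ A f)).coeff (n : ℤ) = _
  rw [coeffMap_coeff, HahnSeries.ofPowerSeries_apply_coeff]
  rfl

theorem h81u_emb_coeff_neg (f : PowerSeries A) {k : ℤ} (hk : k < 0) :
    (h81u_emb A f).coeff k = 0 := by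
  show (coeffMap A.subtype (HahnSeries.ofPowerSeries ℤ A f)).coeff k = _
  rw [coeffMap_coeff, ofPowerSeries_coeff_of_neg f hk, map_zero]

theorem h81u_emb_coeff_zero (f : PowerSeries A) :
    (h81u_emb A f).coeff 0 = ((PowerSeries.constantCoeff f : A) : Kbar) := by
  have h := h81u_emb_coeff_nat A f 0
  rw [PowerSeries.coeff_zero_eq_constantCoeff_apply] at h
  exact_mod_cast h

theorem h81u_emb_injective : Function.Injective (h81u_emb A) := by
  intro f g h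
  refine PowerSeries.ext fun n => ?_
  have h1 := congrArg (fun x : LaurentSeries Kbar => x.coeff (n : ℤ)) h
  simp only [h81u_emb_coeff_nat] at h1
  exact Subtype.ext h1

/-- the subring `A⟦t⟧` of `ℚ̄((t))`. -/
def h81u_PI : Subring (LaurentSeries Kbar) := (h81u_emb A).range

theorem h81u_emb_mem (f : PowerSeries A) : h81u_emb A f ∈ h81u_PI A := ⟨f, rfl⟩

theorem h81u_mem_PI_iff (x : LaurentSeries Kbar) :
    x ∈ h81u_PI A ↔ (∀ n : ℤ, x.coeff n ∈ A) ∧ ∀ n : ℤ, n < 0 → x.coeff n = 0 := by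
  constructor
  · rintro ⟨f, rfl⟩
    refine ⟨fun n => ?_, fun n hn => h81u_emb_coeff_neg A f hn⟩
    rcases lt_or_ge n 0 with hn | hn
    · rw [h81u_emb_coeff_neg A f hn]
      exact A.zero_mem
    · obtain ⟨m, rfl⟩ := Int.eq_ofNat_of_zero_le hn
      rw [h81u_emb_coeff_nat]
      exact (PowerSeries.coeff m f).2
  · rintro ⟨h1, h2⟩
    refine ⟨PowerSeries.mk fun n => ⟨x.coeff (n : ℤ), h1 n⟩, ?_⟩
    ext k
    rcases lt_or_ge k 0 with hk | hk
    · rw [h81u_emb_coeff_neg A _ hk, h2 k hk]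
    · obtain ⟨m, rfl⟩ := Int.eq_ofNat_of_zero_le hk
      rw [h81u_emb_coeff_nat, PowerSeries.coeff_mk]

/-- `x` is a unit of `A⟦t⟧`. -/
def h81u_PU (x : LaurentSeries Kbar) : Prop :=
  ∃ f : PowerSeries A, IsUnit f ∧ h81u_emb A f = x

variable {A}

theorem h81u_pu_mem {x : LaurentSeries Kbar} (hx : h81u_PU A x) : x ∈ h81u_PI A := by
  obtain ⟨f, -, rfl⟩ := hx
  exact h81u_emb_mem A f

theorem h81u_pu_one : h81u_PU A 1 := ⟨1, isUnit_one, map_one _⟩

theorem h81u_pu_mul {x y : LaurentSeries Kbar} (hx : h81u_PU A x) (hy : h81u_PU A y) :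
    h81u_PU A (x * y) := by
  obtain ⟨f, hf, rfl⟩ := hx
  obtain ⟨g, hg, rfl⟩ := hy
  exact ⟨f * g, hf.mul hg, map_mul _ _ _⟩

theorem h81u_pu_inv {x : LaurentSeries Kbar} (hx : h81u_PU A x) : h81u_PU A x⁻¹ := by
  obtain ⟨f, hf, rfl⟩ := hx
  obtain ⟨u, rfl⟩ := hf
  refine ⟨(u⁻¹ : (PowerSeries A)ˣ), Units.isUnit _, ?_⟩
  symm
  apply inv_eq_of_mul_eq_one_right
  rw [← map_mul, Units.mul_inv, map_one]

theorem h81u_pu_ne_zero {x : LaurentSeries Kbar} (hx : h81u_PU A x) : x ≠ 0 := by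
  intro h
  obtain ⟨f, hf, rfl⟩ := hx
  have h0 : f = 0 := h81u_emb_injective A (by rw [h, map_zero])
  rw [h0] at hf
  exact not_isUnit_zero hf

theorem h81u_pu_pow {x : LaurentSeries Kbar} (hx : h81u_PU A x) (n : ℕ) :
    h81u_PU A (x ^ n) := by
  induction n with
  | zero => rw [pow_zero]; exact h81u_pu_one
  | succ n ih => rw [pow_succ]; exact h81u_pu_mul ih hx

theorem h81u_pu_neg {x : LaurentSeries Kbar} (hx : h81u_PU A x) : h81u_PU A (-x) := by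
  obtain ⟨f, hf, rfl⟩ := hx
  exact ⟨-f, hf.neg, map_neg _ _⟩

theorem h81u_pu_prod {ι : Type*} (s : Finset ι) (f : ι → LaurentSeries Kbar)
    (h : ∀ i ∈ s, h81u_PU A (f i)) : h81u_PU A (∏ i ∈ s, f i) := by
  classical
  induction s using Finset.induction_on with
  | empty => rw [Finset.prod_empty]; exact h81u_pu_one
  | insert a s ha ih =>
    rw [Finset.prod_insert ha]
    exact h81u_pu_mul (h a (Finset.mem_insert_self a s))
      (ih fun i hi => h i (Finset.mem_insert_of_mem hi))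

/-- a unit of `A⟦t⟧` is a unit of the Gauss ring. -/
theorem h81u_pu_unit {x : LaurentSeries Kbar} (hx : h81u_PU A x) : h20v_Unit A x := by
  refine ⟨h81u_pu_ne_zero hx, ?_, ?_⟩
  · obtain ⟨f, -, rfl⟩ := hx
    exact embA_mem_softOT A _ _
  · obtain ⟨f, -, hf⟩ := h81u_pu_inv hx
    rw [← hf]
    exact embA_mem_softOT A _ _

theorem h81u_pi_soft {x : LaurentSeries Kbar} (hx : x ∈ h81u_PI A) : x ∈ h20v_G A := by
  obtain ⟨f, rfl⟩ := hx
  exact embA_mem_softOT A _ _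

/-- the constant term is multiplicative on `A⟦t⟧`. -/
theorem h81u_coeff_zero_mul {x y : LaurentSeries Kbar} (hx : x ∈ h81u_PI A)
    (hy : y ∈ h81u_PI A) : (x * y).coeff 0 = x.coeff 0 * y.coeff 0 := by
  obtain ⟨f, rfl⟩ := hx
  obtain ⟨g, rfl⟩ := hy
  rw [← map_mul, h81u_emb_coeff_zero, h81u_emb_coeff_zero, h81u_emb_coeff_zero, map_mul]
  rfl

theorem h81u_coeff_zero_mem {x : LaurentSeries Kbar} (hx : x ∈ h81u_PI A) : x.coeff 0 ∈ A :=
  ((h81u_mem_PI_iff A x).mp hx).1 0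

/-- characterisation of the units of `A⟦t⟧`. -/
theorem h81u_pu_iff {x : LaurentSeries Kbar} :
    h81u_PU A x ↔ x ∈ h81u_PI A ∧ x.coeff 0 ≠ 0 ∧ (x.coeff 0)⁻¹ ∈ A := by
  constructor
  · intro hx
    refine ⟨h81u_pu_mem hx, ?_, ?_⟩
    · intro h0
      have h1 := h81u_coeff_zero_mul (h81u_pu_mem hx) (h81u_pu_mem (h81u_pu_inv hx))
      rw [mul_inv_cancel₀ (h81u_pu_ne_zero hx), h0, zero_mul] at h1
      rw [HahnSeries.coeff_one, if_pos rfl] at h1
      exact one_ne_zero h1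
    · have h1 := h81u_coeff_zero_mul (h81u_pu_mem hx) (h81u_pu_mem (h81u_pu_inv hx))
      rw [mul_inv_cancel₀ (h81u_pu_ne_zero hx), HahnSeries.coeff_one, if_pos rfl] at h1
      have h2 : (x.coeff 0)⁻¹ = (x⁻¹).coeff 0 := by
        symm
        apply eq_inv_of_mul_eq_one_right
        exact h1.symm
      rw [h2]
      exact h81u_coeff_zero_mem (h81u_pu_mem (h81u_pu_inv hx))
  · rintro ⟨⟨f, rfl⟩, h0, h1⟩
    refine ⟨f, ?_, rfl⟩
    rw [PowerSeries.isUnit_iff_constantCoeff]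
    rw [h81u_emb_coeff_zero] at h0 h1
    have hne : (PowerSeries.constantCoeff f : A) ≠ 0 := by
      intro h
      rw [h] at h0
      exact h0 rfl
    refine IsUnit.of_mul_eq_one ⟨_, h1⟩ ?_
    apply Subtype.ext
    show ((PowerSeries.constantCoeff f : A) : Kbar) * _ = 1
    exact mul_inv_cancel₀ h0

/-! ### Constants, the variable, coefficientwise criteria -/

theorem h81u_C_mem {a : Kbar} (ha : a ∈ A) : (HahnSeries.C a : LaurentSeries Kbar) ∈ h81u_PI A := by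
  rw [h81u_mem_PI_iff]
  refine ⟨fun n => ?_, fun n hn => ?_⟩
  · show (HahnSeries.single (0 : ℤ) a).coeff n ∈ A
    rw [HahnSeries.coeff_single]
    split_ifs
    · exact ha
    · exact A.zero_mem
  · show (HahnSeries.single (0 : ℤ) a).coeff n = 0
    rw [HahnSeries.coeff_single, if_neg hn.ne]

theorem h81u_C_coeff_zero (a : Kbar) : (HahnSeries.C a : LaurentSeries Kbar).coeff 0 = a := by
  show (HahnSeries.single (0 : ℤ) a).coeff 0 = a
  rw [HahnSeries.coeff_single, if_pos rfl]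

theorem h81u_pu_C {a : Kbar} (ha : a ∈ A) (ha' : a⁻¹ ∈ A) (ha0 : a ≠ 0) :
    h81u_PU A (HahnSeries.C a : LaurentSeries Kbar) := by
  rw [h81u_pu_iff]
  refine ⟨h81u_C_mem ha, ?_, ?_⟩
  · rw [h81u_C_coeff_zero]
    exact ha0
  · rw [h81u_C_coeff_zero]
    exact ha'

theorem h81u_pu_of_mem {x : LaurentSeries Kbar} (hx : x ∈ h81u_PI A) (h0 : x.coeff 0 ≠ 0)
    (h1 : (x.coeff 0)⁻¹ ∈ A) : h81u_PU A x :=
  h81u_pu_iff.mpr ⟨hx, h0, h1⟩

theorem h81u_pu_of_coeff_one {x : LaurentSeries Kbar} (hx : x ∈ h81u_PI A)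
    (h0 : x.coeff 0 = 1) : h81u_PU A x := by
  refine h81u_pu_of_mem hx ?_ ?_
  · rw [h0]; exact one_ne_zero
  · rw [h0, inv_one]; exact A.one_mem

theorem h81u_single_mem (n : ℕ) :
    (HahnSeries.single (n : ℤ) (1 : Kbar) : LaurentSeries Kbar) ∈ h81u_PI A := by
  rw [h81u_mem_PI_iff]
  refine ⟨fun k => ?_, fun k hk => ?_⟩
  · rw [HahnSeries.coeff_single]
    split_ifs
    · exact A.one_mem
    · exact A.zero_mem
  · rw [HahnSeries.coeff_single, if_neg]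
    omega

/-- `t ^ n · x` has no constant term for `n ≥ 1`. -/
theorem h81u_single_mul_coeff_zero {n : ℕ} (hn : 0 < n) {x : LaurentSeries Kbar}
    (hx : x ∈ h81u_PI A) :
    (HahnSeries.single (n : ℤ) (1 : Kbar) * x).coeff 0 = 0 := by
  rw [h81u_coeff_zero_mul (h81u_single_mem n) hx, HahnSeries.coeff_single, if_neg, zero_mul]
  have : (0 : ℤ) < n := by exact_mod_cast hn
  omega

/-- an integral power series all of whose coefficients are divisible by `c`. -/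
theorem h81u_exists_C_mul {c : Kbar} (hc : c ≠ 0) {x : LaurentSeries Kbar}
    (hx : x ∈ h81u_PI A) (hdiv : ∀ n : ℤ, c⁻¹ * x.coeff n ∈ A) :
    ∃ y ∈ h81u_PI A, x = HahnSeries.C c * y := by
  refine ⟨HahnSeries.C c⁻¹ * x, ?_, ?_⟩
  · rw [h81u_mem_PI_iff]
    refine ⟨fun n => ?_, fun n hn => ?_⟩
    · rw [HahnSeries.C_mul_eq_smul, HahnSeries.coeff_smul, smul_eq_mul]
      exact hdiv n
    · rw [HahnSeries.C_mul_eq_smul, HahnSeries.coeff_smul, smul_eq_mul,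
        ((h81u_mem_PI_iff A x).mp hx).2 n hn, mul_zero]
  · rw [← mul_assoc, ← map_mul, mul_inv_cancel₀ hc, map_one, one_mul]

/-! ### Twists and substitutions -/

theorem h81u_twist_mem {ω : Kbar} (hω : ω ∈ A) {x : LaurentSeries Kbar}
    (hx : x ∈ h81u_PI A) : twistK ω x ∈ h81u_PI A := by
  rw [h81u_mem_PI_iff] at hx ⊢
  refine ⟨fun n => ?_, fun n hn => ?_⟩
  · rw [Fermat.Agent.Red.Kron.coeff_twistK]
    rcases lt_or_ge n 0 with hn | hn
    · rw [hx.2 n hn, zero_mul]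
      exact A.zero_mem
    · obtain ⟨m, rfl⟩ := Int.eq_ofNat_of_zero_le hn
      rw [zpow_natCast]
      exact A.mul_mem _ _ (hx.1 _) (pow_mem hω m)
  · rw [Fermat.Agent.Red.Kron.coeff_twistK, hx.2 n hn, zero_mul]

theorem h81u_twist_coeff_zero (ω : Kbar) (x : LaurentSeries Kbar) :
    (twistK ω x).coeff 0 = x.coeff 0 := by
  rw [Fermat.Agent.Red.Kron.coeff_twistK, zpow_zero, mul_one]

theorem h81u_pu_twist {ω : Kbar} (hω : ω ∈ A) {x : LaurentSeries Kbar}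
    (hx : h81u_PU A x) : h81u_PU A (twistK ω x) := by
  rw [h81u_pu_iff] at hx ⊢
  refine ⟨h81u_twist_mem hω hx.1, ?_, ?_⟩
  · rw [h81u_twist_coeff_zero]; exact hx.2.1
  · rw [h81u_twist_coeff_zero]; exact hx.2.2

/-- `x(ζ t) - x(t)` is divisible by `ζ - 1`. -/
theorem h81u_twist_sub {ζ : Kbar} (hζ : ζ ∈ A) (hζ1 : ζ ≠ 1) {x : LaurentSeries Kbar}
    (hx : x ∈ h81u_PI A) :
    ∃ y ∈ h81u_PI A, y.coeff 0 = 0 ∧ twistK ζ x = x + HahnSeries.C (ζ - 1) * y := by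
  have hc : ζ - 1 ≠ 0 := sub_ne_zero.mpr hζ1
  have hmem : twistK ζ x - x ∈ h81u_PI A := sub_mem (h81u_twist_mem hζ hx) hx
  have hcoeff : ∀ n : ℤ, (twistK ζ x - x).coeff n = x.coeff n * (ζ ^ n - 1) := by
    intro n
    rw [HahnSeries.coeff_sub, Fermat.Agent.Red.Kron.coeff_twistK]
    ring
  obtain ⟨y, hy, hxy⟩ := h81u_exists_C_mul hc hmem (by
    intro n
    rw [hcoeff]
    rcases lt_or_ge n 0 with hn | hn
    · rw [((h81u_mem_PI_iff A x).mp hx).2 n hn, zero_mul, mul_zero]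
      exact A.zero_mem
    · obtain ⟨m, rfl⟩ := Int.eq_ofNat_of_zero_le hn
      rw [zpow_natCast]
      have h1 : (ζ - 1)⁻¹ * (x.coeff (m : ℤ) * (ζ ^ m - 1)) =
          x.coeff (m : ℤ) * ∑ i ∈ Finset.range m, ζ ^ i := by
        rw [← mul_geom_sum ζ m]
        field_simp
      rw [h1]
      exact A.mul_mem _ _ (((h81u_mem_PI_iff A x).mp hx).1 _)
        (sum_mem fun i _ => pow_mem hζ i))
  refine ⟨y, hy, ?_, ?_⟩
  · have h0 : (twistK ζ x - x).coeff 0 = (HahnSeries.C (ζ - 1) * y).coeff 0 := by rw [hxy]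
    rw [hcoeff, zpow_zero, sub_self, mul_zero, HahnSeries.C_mul_eq_smul, HahnSeries.coeff_smul,
      smul_eq_mul] at h0
    rcases mul_eq_zero.mp h0.symm with h | h
    · exact absurd h hc
    · exact h
  · rw [← hxy]
    ring

theorem h81u_qExpand_mem (n : ℕ) [NeZero n] {x : LaurentSeries Kbar}
    (hx : x ∈ h81u_PI A) : qExpand Kbar n x ∈ h81u_PI A := by
  rw [h81u_mem_PI_iff] at hx ⊢
  have hcases : ∀ k : ℤ, (qExpand Kbar n x).coeff k = 0 ∨
      ∃ m : ℤ, k = (n : ℤ) * m ∧ (qExpand Kbar n x).coeff k = x.coeff m := by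
    intro k
    by_cases hk : (n : ℤ) ∣ k
    · obtain ⟨m, rfl⟩ := hk
      exact Or.inr ⟨m, rfl, qExpand_coeff_mul n x m⟩
    · exact Or.inl (qExpand_coeff_of_not_dvd n x hk)
  have hnpos : (0 : ℤ) < n := by exact_mod_cast Nat.pos_of_ne_zero (NeZero.ne n)
  refine ⟨fun k => ?_, fun k hk => ?_⟩
  · rcases hcases k with h | ⟨m, -, h⟩
    · rw [h]; exact A.zero_mem
    · rw [h]; exact hx.1 m
  · rcases hcases k with h | ⟨m, hm, h⟩
    · exact h
    · rw [h]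
      apply hx.2
      by_contra hm0
      rw [not_lt] at hm0
      have := mul_nonneg hnpos.le hm0
      omega

theorem h81u_qExpand_coeff_zero (n : ℕ) [NeZero n] (x : LaurentSeries Kbar) :
    (qExpand Kbar n x).coeff 0 = x.coeff 0 := by
  have h := qExpand_coeff_mul n x 0
  rwa [mul_zero] at h

theorem h81u_pu_qExpand (n : ℕ) [NeZero n] {x : LaurentSeries Kbar}
    (hx : h81u_PU A x) : h81u_PU A (qExpand Kbar n x) := by
  rw [h81u_pu_iff] at hx ⊢
  refine ⟨h81u_qExpand_mem n hx.1, ?_, ?_⟩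
  · rw [h81u_qExpand_coeff_zero]; exact hx.2.1
  · rw [h81u_qExpand_coeff_zero]; exact hx.2.2

/-! ### Congruence to `1` -/

variable (A) in
/-- `x = 1 + c · y` with `y ∈ t A⟦t⟧`. -/
def h81u_PU1 (c : Kbar) (x : LaurentSeries Kbar) : Prop :=
  ∃ y ∈ h81u_PI A, y.coeff 0 = 0 ∧ x = 1 + HahnSeries.C c * y

theorem h81u_pu1_mem {c : Kbar} (hc : c ∈ A) {x : LaurentSeries Kbar}
    (hx : h81u_PU1 A c x) : x ∈ h81u_PI A := by
  obtain ⟨y, hy, -, rfl⟩ := hx
  exact add_mem (h81u_PI A).one_mem (mul_mem (h81u_C_mem hc) hy)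

theorem h81u_pu1_coeff_zero {c : Kbar} (hc : c ∈ A) {x : LaurentSeries Kbar}
    (hx : h81u_PU1 A c x) : x.coeff 0 = 1 := by
  obtain ⟨y, hy, hy0, rfl⟩ := hx
  rw [HahnSeries.coeff_add, h81u_coeff_zero_mul (h81u_C_mem hc) hy, hy0, mul_zero, add_zero,
    HahnSeries.coeff_one, if_pos rfl]

theorem h81u_pu1_pu {c : Kbar} (hc : c ∈ A) {x : LaurentSeries Kbar}
    (hx : h81u_PU1 A c x) : h81u_PU A x :=
  h81u_pu_of_coeff_one (h81u_pu1_mem hc hx) (h81u_pu1_coeff_zero hc hx)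

theorem h81u_pu1_one (c : Kbar) : h81u_PU1 A c 1 :=
  ⟨0, (h81u_PI A).zero_mem, HahnSeries.coeff_zero, by rw [mul_zero, add_zero]⟩

theorem h81u_pu1_mul {c : Kbar} (hc : c ∈ A) {x y : LaurentSeries Kbar}
    (hx : h81u_PU1 A c x) (hy : h81u_PU1 A c y) : h81u_PU1 A c (x * y) := by
  obtain ⟨a, ha, ha0, rfl⟩ := hx
  obtain ⟨b, hb, hb0, rfl⟩ := hy
  refine ⟨a + b + HahnSeries.C c * (a * b), ?_, ?_, by ring⟩
  · exact add_mem (add_mem ha hb) (mul_mem (h81u_C_mem hc) (mul_mem ha hb))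
  · rw [HahnSeries.coeff_add, HahnSeries.coeff_add, ha0, hb0,
      h81u_coeff_zero_mul (h81u_C_mem hc) (mul_mem ha hb), h81u_coeff_zero_mul ha hb, ha0,
      zero_mul, mul_zero, add_zero, add_zero]

theorem h81u_pu1_inv {c : Kbar} (hc : c ∈ A) {x : LaurentSeries Kbar}
    (hx : h81u_PU1 A c x) : h81u_PU1 A c x⁻¹ := by
  have hpu := h81u_pu1_pu hc hx
  have hne := h81u_pu_ne_zero hpu
  have hinv := h81u_pu_mem (h81u_pu_inv hpu)
  obtain ⟨a, ha, ha0, hxa⟩ := hx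
  refine ⟨-(a * x⁻¹), neg_mem (mul_mem ha hinv), ?_, ?_⟩
  · rw [HahnSeries.coeff_neg, h81u_coeff_zero_mul ha hinv, ha0, zero_mul, neg_zero]
  · have h1 : x⁻¹ * x = 1 := inv_mul_cancel₀ hne
    have h2 : HahnSeries.C c * a = x - 1 := by rw [hxa]; ring
    calc x⁻¹ = x⁻¹ * x - x⁻¹ * (x - 1) := by ring
      _ = 1 + HahnSeries.C c * -(a * x⁻¹) := by rw [h1, ← h2]; ring

theorem h81u_pu1_pow {c : Kbar} (hc : c ∈ A) {x : LaurentSeries Kbar}
    (hx : h81u_PU1 A c x) (n : ℕ) : h81u_PU1 A c (x ^ n) := by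
  induction n with
  | zero => rw [pow_zero]; exact h81u_pu1_one c
  | succ n ih => rw [pow_succ]; exact h81u_pu1_mul hc ih hx

/-- `PU1 (c · a) ⊆ PU1 c` for `a ∈ A`. -/
theorem h81u_pu1_mono {c a : Kbar} (ha : a ∈ A) {x : LaurentSeries Kbar}
    (hx : h81u_PU1 A (c * a) x) : h81u_PU1 A c x := by
  obtain ⟨y, hy, hy0, rfl⟩ := hx
  refine ⟨HahnSeries.C a * y, mul_mem (h81u_C_mem ha) hy, ?_, ?_⟩
  · rw [h81u_coeff_zero_mul (h81u_C_mem ha) hy, hy0, mul_zero]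
  · rw [map_mul]; ring

/-- two integral power series with constant term `1` which differ by a multiple of `c`. -/
theorem h81u_pu1_of_sub {c : Kbar} (hc : c ≠ 0) {x : LaurentSeries Kbar}
    (hx : x ∈ h81u_PI A) (hx0 : x.coeff 0 = 1) (hdiv : ∀ n : ℤ, c⁻¹ * (x - 1).coeff n ∈ A) :
    h81u_PU1 A c x := by
  obtain ⟨y, hy, hxy⟩ := h81u_exists_C_mul hc (sub_mem hx (h81u_PI A).one_mem) hdiv
  refine ⟨y, hy, ?_, by rw [← hxy]; ring⟩
  have h0 : (x - 1).coeff 0 = (HahnSeries.C c * y).coeff 0 := by rw [hxy]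
  rw [HahnSeries.coeff_sub, hx0, HahnSeries.coeff_one, if_pos rfl, sub_self,
    HahnSeries.C_mul_eq_smul, HahnSeries.coeff_smul, smul_eq_mul] at h0
  rcases mul_eq_zero.mp h0.symm with h | h
  · exact absurd h hc
  · exact h

/-- `x(ζ t) / x(t) ≡ 1` modulo `ζ - 1` for a unit `x` of `A⟦t⟧`. -/
theorem h81u_pu1_twist_div {ζ : Kbar} (hζ : ζ ∈ A) (hζ1 : ζ ≠ 1) {x : LaurentSeries Kbar}
    (hx : h81u_PU A x) : h81u_PU1 A (ζ - 1) (twistK ζ x * x⁻¹) := by
  obtain ⟨y, hy, hy0, hxy⟩ := h81u_twist_sub hζ hζ1 (h81u_pu_mem hx)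
  have hinv := h81u_pu_mem (h81u_pu_inv hx)
  refine ⟨y * x⁻¹, mul_mem hy hinv, ?_, ?_⟩
  · rw [h81u_coeff_zero_mul hy hinv, hy0, zero_mul]
  · rw [hxy, add_mul, mul_inv_cancel₀ (h81u_pu_ne_zero hx)]
    ring

end Fermat.Agent.S36
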