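/-
S36 (Carayol), block REG, leaf R-CUSP-UNIT11 (helper81): the `q`-expansions of the certificate.

Level `M q²`, `j₀ = j(t)`, `j₁ = j(t^q)`, `j₂ = j(t^(q²))` (standard expansions),
`v = j₁ / (j₀^(q-1) j₂)`, `S = σ (v - 1)` with a multiplier `σ` which is a unit power series at
the three embeddings.  In the vocabulary of `S36/H81PU.lean` (units of `A⟦t⟧`):

* `E20 (v - 1)`, `E02 (v - 1)` are units of `A⟦t⟧` with constant term `-1`;
* `E11^ζ (v - 1) = (ζ - 1) · w`, `w` a unit of `A⟦t⟧` with constant term `1`, for EVERY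
  primitive `q`-th root of unity `ζ`;
* hence `E11 (S ^ (q-1) / q)` is a unit of the Gauss ring (conjunct 2 of `H18cUnit11`).
-/
import Mathlib
import Fermat.Agent.S36.H81PU
import Fermat.Agent.S36.H81Cyc
import Fermat.Agent.S36.H18CuspIface
import Fermat.Agent.Red.ESTF.FrobSeries
import Fermat.Agent.LGC.Cusp21Y
import Fermat.Agent.S36.H59CuspBeta
import Fermat.Agent.S36.H20U11Norm

set_option autoImplicit false
set_option linter.unusedSectionVars false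

open AlgebraicCurve ModularCurve

noncomputable section

namespace Fermat.Agent.S36

open Fermat.Agent.S37 (Kbar GQ FF cst gal jB auxLevel)
open Fermat.Agent.Red.Kron (kFricke twistK)

/-! ### Frobenius congruence for integral series -/

/-- all coefficients of `x ^ q - x(t^q)` are divisible by `q`, for a series `x` over `ℤ`. -/
theorem h81u_frob_int (q : ℕ) (hq : q.Prime) (x : LaurentSeries ℤ) (n : ℤ) :
    haveI : NeZero q := ⟨hq.ne_zero⟩
    (q : ℤ) ∣ (x ^ q - qExpand ℤ q x).coeff n := by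
  have : NeZero q := ⟨hq.ne_zero⟩
  have : Fact q.Prime := ⟨hq⟩
  have h := Fermat.Agent.Red.ESTF.h76_pow_char_eq_qExpand (R := ZMod q) q
    (coeffMap (Int.castRingHom (ZMod q)) x)
  rw [ZMod.frobenius_zmod] at h
  have h1 : coeffMap (RingHom.id (ZMod q)) (coeffMap (Int.castRingHom (ZMod q)) x) =
      coeffMap (Int.castRingHom (ZMod q)) x := by
    ext k
    rw [coeffMap_coeff]
    rfl
  rw [h1] at h
  have h2 : coeffMap (Int.castRingHom (ZMod q)) (x ^ q - qExpand ℤ q x) = 0 := by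
    rw [map_sub, map_pow, ModularCurve.coeffMap_qExpand, h, sub_self]
  have h3 := congrArg (fun s : LaurentSeries (ZMod q) => s.coeff n) h2
  simp only [coeffMap_coeff, HahnSeries.coeff_zero] at h3
  exact (ZMod.intCast_zmod_eq_zero_iff_dvd _ q).mp h3

variable (A : ValuationSubring Kbar)

/-- the numerator `J = t · j(t)` of the `j`-function as an element of `ℚ̄((t))`. -/
def h81u_J : LaurentSeries Kbar :=
  HahnSeries.ofPowerSeries ℤ Kbar (jNum.map (Int.castRingHom Kbar))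

theorem h81u_J_eq :
    h81u_J = coeffMap (Int.castRingHom Kbar) (HahnSeries.ofPowerSeries ℤ ℤ jNum) := by
  rw [h81u_J, coeffMap_ofPowerSeries]

theorem h81u_jq_eq : jqModC Kbar = HahnSeries.single (-1 : ℤ) (1 : Kbar) * h81u_J := rfl

theorem h81u_intCast_mem (n : ℤ) : ((n : ℤ) : Kbar) ∈ A := by
  exact intCast_mem A n

theorem h81u_J_mem : h81u_J ∈ h81u_PI A := by
  rw [h81u_mem_PI_iff]
  refine ⟨fun n => ?_, fun n hn => ?_⟩
  · rw [h81u_J_eq, coeffMap_coeff]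
    exact h81u_intCast_mem A _
  · rw [h81u_J]
    exact ofPowerSeries_coeff_of_neg _ hn

theorem h81u_J_coeff_zero : h81u_J.coeff 0 = 1 := by
  have h := HahnSeries.ofPowerSeries_apply_coeff (Γ := ℤ) (R := Kbar)
    (jNum.map (Int.castRingHom Kbar)) 0
  rw [h81u_J]
  rw [Nat.cast_zero] at h
  rw [h, PowerSeries.coeff_map, PowerSeries.coeff_zero_eq_constantCoeff_apply,
    constantCoeff_jNum, map_one]

theorem h81u_J_pu : h81u_PU A h81u_J :=
  h81u_pu_of_coeff_one (h81u_J_mem A) h81u_J_coeff_zero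

/-- **Frobenius.**  `J(t^q) / J(t)^q ≡ 1` modulo `q`. -/
theorem h81u_J_frob (q : ℕ) (hq : q.Prime) :
    haveI : NeZero q := ⟨hq.ne_zero⟩
    h81u_PU1 A ((q : ℕ) : Kbar) (qExpand Kbar q h81u_J * (h81u_J ^ q)⁻¹) := by
  have : NeZero q := ⟨hq.ne_zero⟩
  have hq0 : ((q : ℕ) : Kbar) ≠ 0 := Nat.cast_ne_zero.mpr hq.ne_zero
  have hJ := h81u_J_pu A
  have hJq := h81u_pu_pow hJ q
  have hJqi := h81u_pu_mem (h81u_pu_inv hJq)
  have hne := h81u_pu_ne_zero hJq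
  have hmem : qExpand Kbar q h81u_J - h81u_J ^ q ∈ h81u_PI A :=
    sub_mem (h81u_qExpand_mem q (h81u_J_mem A)) (h81u_pu_mem hJq)
  obtain ⟨y, hy, hxy⟩ := h81u_exists_C_mul hq0 hmem (by
    intro n
    set Jz : LaurentSeries ℤ := HahnSeries.ofPowerSeries ℤ ℤ jNum with hJz
    have h1 : qExpand Kbar q h81u_J - h81u_J ^ q =
        coeffMap (Int.castRingHom Kbar) (-(Jz ^ q - qExpand ℤ q Jz)) := by
      rw [h81u_J_eq, map_neg, map_sub, map_pow, ModularCurve.coeffMap_qExpand]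
      ring
    obtain ⟨c, hc⟩ := h81u_frob_int q hq Jz n
    rw [h1, coeffMap_coeff, HahnSeries.coeff_neg, hc]
    have h2 : (Int.castRingHom Kbar) (-((q : ℤ) * c)) = ((q : ℕ) : Kbar) * ((-c : ℤ) : Kbar) := by
      simp
    rw [h2, ← mul_assoc, inv_mul_cancel₀ hq0, one_mul]
    exact h81u_intCast_mem A _)
  refine ⟨y * (h81u_J ^ q)⁻¹, mul_mem hy hJqi, ?_, ?_⟩
  · have h0 : (qExpand Kbar q h81u_J - h81u_J ^ q).coeff 0 =
        (HahnSeries.C ((q : ℕ) : Kbar) * y).coeff 0 := by rw [hxy]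
    rw [HahnSeries.coeff_sub, h81u_qExpand_coeff_zero, h81u_J_coeff_zero,
      HahnSeries.C_mul_eq_smul, HahnSeries.coeff_smul, smul_eq_mul] at h0
    have hpow0 : (h81u_J ^ q).coeff 0 = 1 := by
      have : ∀ m : ℕ, (h81u_J ^ m).coeff 0 = 1 := by
        intro m
        induction m with
        | zero => rw [pow_zero, HahnSeries.coeff_one, if_pos rfl]
        | succ m ih =>
          rw [pow_succ, h81u_coeff_zero_mul (h81u_pu_mem (h81u_pu_pow hJ m)) (h81u_J_mem A), ih,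
            h81u_J_coeff_zero, one_mul]
      exact this q
    rw [hpow0, sub_self] at h0
    have hy0 : y.coeff 0 = 0 := by
      rcases mul_eq_zero.mp h0.symm with h | h
      · exact absurd h hq0
      · exact h
    rw [h81u_coeff_zero_mul hy hJqi, hy0, zero_mul]
  · have h3 : qExpand Kbar q h81u_J = h81u_J ^ q + HahnSeries.C ((q : ℕ) : Kbar) * y := by
      rw [← hxy]; ring
    rw [h3, add_mul, mul_inv_cancel₀ hne]
    ring

/-! ### The three series -/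

/-- the variable `t`. -/
def h81u_T : LaurentSeries Kbar := HahnSeries.single (1 : ℤ) (1 : Kbar)

theorem h81u_T_ne_zero : h81u_T ≠ 0 := HahnSeries.single_ne_zero one_ne_zero

theorem h81u_T_pow (n : ℕ) : h81u_T ^ n = HahnSeries.single (n : ℤ) (1 : Kbar) := by
  rw [h81u_T, HahnSeries.single_pow, one_pow]
  simp

theorem h81u_jq_eq' : jqModC Kbar = h81u_T⁻¹ * h81u_J := by
  rw [h81u_jq_eq]
  congr 1
  symm
  apply inv_eq_of_mul_eq_one_right
  rw [h81u_T, HahnSeries.single_mul_single]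
  simp

theorem h81u_qExpand_T (n : ℕ) [NeZero n] : qExpand Kbar n h81u_T = h81u_T ^ n := by
  rw [h81u_T_pow, h81u_T, qExpand_single, mul_one]

theorem h81u_twist_T (ζ : Kbar) : twistK ζ h81u_T = HahnSeries.C ζ * h81u_T := by
  rw [h81u_T, Fermat.Agent.Red.Kron.twistK_single, HahnSeries.C_mul_eq_smul]
  ext n
  rw [HahnSeries.coeff_smul, HahnSeries.coeff_single, HahnSeries.coeff_single]
  by_cases h : n = 1
  · rw [if_pos h, if_pos h, zpow_one, one_mul, smul_eq_mul, mul_one]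
  · rw [if_neg h, if_neg h, smul_zero]

theorem h81u_T_pow_mul_mem (k : ℕ) {x : LaurentSeries Kbar} (hx : x ∈ h81u_PI A) :
    h81u_T ^ k * x ∈ h81u_PI A := by
  rw [h81u_T_pow]
  exact mul_mem (h81u_single_mem k) hx

theorem h81u_T_pow_mul_coeff {k : ℕ} (hk : 0 < k) {x : LaurentSeries Kbar}
    (hx : x ∈ h81u_PI A) : (h81u_T ^ k * x).coeff 0 = 0 := by
  rw [h81u_T_pow]
  exact h81u_single_mul_coeff_zero hk hx

section Expr

variable (q : ℕ) [NeZero q]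

/-- the expansion of `v = j₁ / (j₀^(q-1) j₂)` at `E20`. -/
def h81u_V20 : LaurentSeries Kbar :=
  qExpand Kbar q (jqModC Kbar) * ((jqModC Kbar)⁻¹) ^ (q - 1) *
    (qExpand Kbar q (qExpand Kbar q (jqModC Kbar)))⁻¹

/-- the expansion of `v` at `E02`. -/
def h81u_V02 : LaurentSeries Kbar :=
  qExpand Kbar q (jqModC Kbar) * ((qExpand Kbar q (qExpand Kbar q (jqModC Kbar)))⁻¹) ^ (q - 1) *
    (jqModC Kbar)⁻¹

/-- the expansion of `v` at `E11^ζ`. -/
def h81u_V11 (ζ : Kbar) : LaurentSeries Kbar :=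
  qExpand Kbar q (jqModC Kbar) * ((jqModC Kbar)⁻¹) ^ (q - 1) * (twistK ζ (jqModC Kbar))⁻¹

theorem h81u_qExpand_jq :
    qExpand Kbar q (jqModC Kbar) = (h81u_T ^ q)⁻¹ * qExpand Kbar q h81u_J := by
  rw [h81u_jq_eq', map_mul, map_inv₀, h81u_qExpand_T]

theorem h81u_qExpand_qExpand_jq :
    qExpand Kbar q (qExpand Kbar q (jqModC Kbar)) =
      ((h81u_T ^ q) ^ q)⁻¹ * qExpand Kbar q (qExpand Kbar q h81u_J) := by
  rw [h81u_qExpand_jq, map_mul, map_inv₀, map_pow, h81u_qExpand_T]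

theorem h81u_twist_jq {ζ : Kbar} (hζ : ζ ≠ 0) :
    twistK ζ (jqModC Kbar) = (HahnSeries.C ζ * h81u_T)⁻¹ * twistK ζ h81u_J := by
  rw [h81u_jq_eq', Fermat.Agent.Red.Kron.twistK_mul hζ, ← h81u_twist_T,
    ← Fermat.Agent.Red.Kron.twistHom_apply ζ hζ, ← Fermat.Agent.Red.Kron.twistHom_apply ζ hζ,
    map_inv₀]
  rfl

theorem h81u_V20_eq {m : ℕ} (hm : q = m + 1) :
    h81u_V20 q = h81u_T ^ (m * (m + 2)) *
      (qExpand Kbar q h81u_J * (h81u_J⁻¹) ^ m * (qExpand Kbar q (qExpand Kbar q h81u_J))⁻¹) := by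
  have hT := h81u_T_ne_zero
  have hJ : h81u_J ≠ 0 := by
    intro h
    have := h81u_J_coeff_zero
    rw [h, HahnSeries.coeff_zero] at this
    exact zero_ne_one this
  have hJ2 : qExpand Kbar q (qExpand Kbar q h81u_J) ≠ 0 := by
    intro h
    exact hJ ((qExpand Kbar q).injective.eq_iff' (map_zero _) |>.mp
      ((qExpand Kbar q).injective.eq_iff' (map_zero _) |>.mp h))
  rw [h81u_V20, h81u_qExpand_qExpand_jq, h81u_qExpand_jq, h81u_jq_eq']
  have hqm : q - 1 = m := by omega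
  rw [hqm]
  generalize qExpand Kbar q (qExpand Kbar q h81u_J) = J2 at *
  generalize qExpand Kbar q h81u_J = J1 at *
  subst hm
  simp only [inv_pow, mul_inv, inv_inv, mul_pow]
  field_simp
  ring

theorem h81u_V02_eq {m : ℕ} (hm : q = m + 1) :
    h81u_V02 q = h81u_T ^ (m * m * (m + 2)) *
      (qExpand Kbar q h81u_J * ((qExpand Kbar q (qExpand Kbar q h81u_J))⁻¹) ^ m * h81u_J⁻¹) := by
  have hT := h81u_T_ne_zero
  have hJ : h81u_J ≠ 0 := by
    intro h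
    have := h81u_J_coeff_zero
    rw [h, HahnSeries.coeff_zero] at this
    exact zero_ne_one this
  have hJ2 : qExpand Kbar q (qExpand Kbar q h81u_J) ≠ 0 := by
    intro h
    exact hJ ((qExpand Kbar q).injective.eq_iff' (map_zero _) |>.mp
      ((qExpand Kbar q).injective.eq_iff' (map_zero _) |>.mp h))
  rw [h81u_V02, h81u_qExpand_qExpand_jq, h81u_qExpand_jq, h81u_jq_eq']
  have hqm : q - 1 = m := by omega
  rw [hqm]
  generalize qExpand Kbar q (qExpand Kbar q h81u_J) = J2 at *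
  generalize qExpand Kbar q h81u_J = J1 at *
  subst hm
  simp only [inv_pow, mul_inv, inv_inv, mul_pow]
  field_simp
  ring

theorem h81u_V11_eq {ζ : Kbar} (hζ : ζ ≠ 0) :
    h81u_V11 q ζ = HahnSeries.C ζ *
      ((qExpand Kbar q h81u_J * (h81u_J ^ q)⁻¹) * (twistK ζ h81u_J * h81u_J⁻¹)⁻¹) := by
  have hT := h81u_T_ne_zero
  have hJ : h81u_J ≠ 0 := by
    intro h
    have := h81u_J_coeff_zero
    rw [h, HahnSeries.coeff_zero] at this
    exact zero_ne_one this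
  have hJz : twistK ζ h81u_J ≠ 0 := by
    intro h
    apply hJ
    apply Fermat.Agent.Red.Kron.twistK_injective hζ
    rw [h, Fermat.Agent.Red.Kron.twistK_zero]
  have hC : (HahnSeries.C ζ : LaurentSeries Kbar) ≠ 0 := by
    intro h
    apply hζ
    have := h81u_C_coeff_zero ζ
    rw [h, HahnSeries.coeff_zero] at this
    exact this.symm
  obtain ⟨m, hm⟩ : ∃ m, q = m + 1 := ⟨q - 1, (Nat.sub_add_cancel (Nat.pos_of_ne_zero
    (NeZero.ne q))).symm⟩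
  rw [h81u_V11, h81u_qExpand_jq, h81u_twist_jq hζ, h81u_jq_eq']
  have hqm : q - 1 = m := by omega
  rw [hqm]
  generalize qExpand Kbar q h81u_J = J1 at *
  generalize twistK ζ h81u_J = Jz at *
  subst hm
  simp only [inv_pow, mul_inv, inv_inv, mul_pow]
  field_simp
  ring

/-- `x - 1` is a unit of `A⟦t⟧` when `x ∈ t A⟦t⟧`. -/
theorem h81u_sub_one_pu {x : LaurentSeries Kbar} (hx : x ∈ h81u_PI A) (h0 : x.coeff 0 = 0) :
    h81u_PU A (x - 1) := by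
  have h1 : x - 1 = -(1 - x) := by ring
  rw [h1]
  apply h81u_pu_neg
  refine h81u_pu_of_coeff_one (sub_mem (h81u_PI A).one_mem hx) ?_
  rw [HahnSeries.coeff_sub, h0, HahnSeries.coeff_one, if_pos rfl, sub_zero]

theorem h81u_V20_mem (hq : q.Prime) :
    h81u_V20 q ∈ h81u_PI A ∧ (h81u_V20 q).coeff 0 = 0 := by
  obtain ⟨m, hm⟩ : ∃ m, q = m + 1 := ⟨q - 1, (Nat.sub_add_cancel hq.pos).symm⟩
  have hm1 : 1 ≤ m := by have := hq.two_le; omega
  have hJ := h81u_J_pu A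
  have hu : qExpand Kbar q h81u_J * (h81u_J⁻¹) ^ m *
      (qExpand Kbar q (qExpand Kbar q h81u_J))⁻¹ ∈ h81u_PI A :=
    h81u_pu_mem (h81u_pu_mul (h81u_pu_mul (h81u_pu_qExpand q hJ)
      (h81u_pu_pow (h81u_pu_inv hJ) m)) (h81u_pu_inv (h81u_pu_qExpand q (h81u_pu_qExpand q hJ))))
  rw [h81u_V20_eq q hm]
  exact ⟨h81u_T_pow_mul_mem A _ hu, h81u_T_pow_mul_coeff A (by positivity) hu⟩

theorem h81u_V02_mem (hq : q.Prime) :
    h81u_V02 q ∈ h81u_PI A ∧ (h81u_V02 q).coeff 0 = 0 := by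
  obtain ⟨m, hm⟩ : ∃ m, q = m + 1 := ⟨q - 1, (Nat.sub_add_cancel hq.pos).symm⟩
  have hm1 : 1 ≤ m := by have := hq.two_le; omega
  have hJ := h81u_J_pu A
  have hu : qExpand Kbar q h81u_J * ((qExpand Kbar q (qExpand Kbar q h81u_J))⁻¹) ^ m *
      h81u_J⁻¹ ∈ h81u_PI A :=
    h81u_pu_mem (h81u_pu_mul (h81u_pu_mul (h81u_pu_qExpand q hJ)
      (h81u_pu_pow (h81u_pu_inv (h81u_pu_qExpand q (h81u_pu_qExpand q hJ))) m))
      (h81u_pu_inv hJ))
  rw [h81u_V02_eq q hm]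
  exact ⟨h81u_T_pow_mul_mem A _ hu, h81u_T_pow_mul_coeff A (by positivity) hu⟩

/-- `(ζ - 1) ∣ q` in `A`. -/
theorem h81u_q_div_mem (hq : q.Prime) {ζ : Kbar} (hζ : IsPrimitiveRoot ζ q) :
    (ζ - 1)⁻¹ * ((q : ℕ) : Kbar) ∈ A := by
  have hζA : ζ ∈ A := h81c_mem_of_pow_eq_one hq.pos hζ.pow_eq_one
  have h1 : (1 : Kbar) - ζ ∈ A := sub_mem A.one_mem hζA
  have hv1 : A.valuation (1 - ζ) ≤ 1 := (A.valuation_le_one_iff _).mpr h1
  have hne : (1 : Kbar) - ζ ≠ 0 := h81c_one_sub_ne_zero hq hζ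
  have hv0 : A.valuation (1 - ζ) ≠ 0 := (Valuation.ne_zero_iff _).mpr hne
  have hneg : ζ - 1 = -(1 - ζ) := by ring
  rw [← A.valuation_le_one_iff, map_mul, map_inv₀, hneg, Valuation.map_neg,
    h81c_valuation_q hq hζ]
  obtain ⟨m, hm⟩ : ∃ m, q = m + 2 := ⟨q - 2, by have := hq.two_le; omega⟩
  have hq1 : q - 1 = m + 1 := by omega
  rw [hq1, pow_succ, ← mul_assoc, inv_mul_eq_div]
  calc A.valuation (1 - ζ) ^ m / A.valuation (1 - ζ) * A.valuation (1 - ζ)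
      = A.valuation (1 - ζ) ^ m := by rw [div_mul_cancel₀ _ hv0]
    _ ≤ 1 := pow_le_one₀ zero_le hv1

/-- the expansion of `v` at `E11^ζ`: `v = ζ · u`, `u ≡ 1` modulo `ζ - 1`. -/
theorem h81u_V11_pu1 (hq : q.Prime) {ζ : Kbar} (hζ : IsPrimitiveRoot ζ q) :
    ∃ u, h81u_PU1 A (ζ - 1) u ∧ h81u_V11 q ζ = HahnSeries.C ζ * u := by
  have hζA : ζ ∈ A := h81c_mem_of_pow_eq_one hq.pos hζ.pow_eq_one
  have hζ0 : ζ ≠ 0 := hζ.ne_zero hq.ne_zero
  have hζ1 : ζ ≠ 1 := hζ.ne_one hq.one_lt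
  have hc : ζ - 1 ∈ A := sub_mem hζA A.one_mem
  have hc0 : ζ - 1 ≠ 0 := sub_ne_zero.mpr hζ1
  refine ⟨_, ?_, h81u_V11_eq q hζ0⟩
  refine h81u_pu1_mul hc ?_ (h81u_pu1_inv hc (h81u_pu1_twist_div hζA hζ1 (h81u_J_pu A)))
  have h1 := h81u_J_frob A q hq
  have h2 : ((q : ℕ) : Kbar) = (ζ - 1) * ((ζ - 1)⁻¹ * ((q : ℕ) : Kbar)) := by
    rw [← mul_assoc, mul_inv_cancel₀ hc0, one_mul]
  rw [h2] at h1
  exact h81u_pu1_mono (h81u_q_div_mem A q hq hζ) h1

/-- the expansion of `v - 1` at `E11^ζ`: `v - 1 = (ζ - 1) · w`, `w` a unit of `A⟦t⟧` with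
constant term `1`. -/
theorem h81u_V11_sub_one (hq : q.Prime) {ζ : Kbar} (hζ : IsPrimitiveRoot ζ q) :
    ∃ w, h81u_PU1 A ζ w ∧ h81u_V11 q ζ - 1 = HahnSeries.C (ζ - 1) * w := by
  obtain ⟨u, ⟨y, hy, hy0, hu⟩, hV⟩ := h81u_V11_pu1 A q hq hζ
  refine ⟨1 + HahnSeries.C ζ * y, ⟨y, hy, hy0, rfl⟩, ?_⟩
  rw [hV, hu, map_sub, map_one]
  ring

end Expr

/-! ### The functions of level `M q²` -/

section Level

variable (M q : ℕ) [NeZero M] [NeZero q]

/-- `v = y₁ j₀ / j₂`, `y₁ = α (h21c_y)`, `j₀ = j`, `j₂ = ββ j`. -/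
def h81u_v : FF (M * q * q) :=
  heckeAlphaBar Kbar (M * q) q (Fermat.Agent.LGC.h21c_y M q) * jB (M * q * q) /
    h18c_bb M q (jB M)

/-- the certificate `S = σ (v - 1)`. -/
def h81u_S (σ : FF (M * q * q)) : FF (M * q * q) := σ * (h81u_v M q - 1)

theorem h81u_jq_ne_zero : jqModC Kbar ≠ 0 := by
  rw [h81u_jq_eq']
  refine mul_ne_zero (inv_ne_zero h81u_T_ne_zero) ?_
  intro h
  have := h81u_J_coeff_zero
  rw [h, HahnSeries.coeff_zero] at this
  exact zero_ne_one this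

theorem h81u_coe_jB (N : ℕ) [NeZero N] : ((jB N : FF N) : LaurentSeries Kbar) = jqModC Kbar :=
  Fermat.Agent.Red.GV.coe_jB N

theorem h81u_coe_y :
    ((Fermat.Agent.LGC.h21c_y M q : FF (M * q)) : LaurentSeries Kbar) =
      qExpand Kbar q (jqModC Kbar) * ((jqModC Kbar)⁻¹) ^ q := by
  rw [Fermat.Agent.LGC.h21c_y, Fermat.Agent.LGC.h21c_t]
  push_cast
  rw [coe_heckeBetaBar, h81u_coe_jB, h81u_coe_jB]

theorem h81u_coe_fricke_y (hq : q.Prime) (hqM : ¬ q ∣ M) :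
    ((kFricke M q hq hqM (Fermat.Agent.LGC.h21c_y M q) : FF (M * q)) : LaurentSeries Kbar) =
      jqModC Kbar * ((qExpand Kbar q (jqModC Kbar))⁻¹) ^ q := by
  have hj : jB (M * q) = heckeAlphaBar Kbar M q (jB M) :=
    (Fermat.Agent.Red.HKMod.heckeAlphaBar_jBar M q).symm
  rw [Fermat.Agent.LGC.h21c_y, Fermat.Agent.LGC.h21c_t, map_mul, map_pow, map_inv₀,
    Fermat.Agent.Red.Kron.kFricke_beta, hj, Fermat.Agent.Red.Kron.kFricke_alpha]
  push_cast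
  rw [coe_heckeAlphaBar, coe_heckeBetaBar, h81u_coe_jB]

theorem h81u_jB_eq_alpha : jB (M * q * q) = heckeAlphaBar Kbar (M * q) q (jB (M * q)) :=
  (Fermat.Agent.Red.HKMod.heckeAlphaBar_jBar (M * q) q).symm

theorem h81u_fricke_jB (hq : q.Prime) (hqM : ¬ q ∣ M) :
    ((kFricke M q hq hqM (jB (M * q)) : FF (M * q)) : LaurentSeries Kbar) =
      qExpand Kbar q (jqModC Kbar) := by
  have hj : jB (M * q) = heckeAlphaBar Kbar M q (jB M) :=
    (Fermat.Agent.Red.HKMod.heckeAlphaBar_jBar M q).symm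
  rw [hj, Fermat.Agent.Red.Kron.kFricke_alpha, coe_heckeBetaBar, h81u_coe_jB]

theorem h81u_fricke_beta_jB (hq : q.Prime) (hqM : ¬ q ∣ M) :
    ((kFricke M q hq hqM (heckeBetaBar Kbar M q (jB M)) : FF (M * q)) : LaurentSeries Kbar) =
      jqModC Kbar := by
  rw [Fermat.Agent.Red.Kron.kFricke_beta, coe_heckeAlphaBar, h81u_coe_jB]

/-! #### the values of `j₀`, `v` at the three embeddings -/

theorem h81u_E20_j0 : h20n_E20 M q (jB (M * q * q)) = jqModC Kbar :=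
  h81u_coe_jB (M * q * q)

theorem h81u_E11_j0 (hq : q.Prime) (hqM : ¬ q ∣ M) (ζ : Kbar)
    (E : FF (M * q * q) →+* LaurentSeries Kbar) (hE : h20n_IsE11 M q hq hqM ζ E) :
    E (jB (M * q * q)) = jqModC Kbar := by
  rw [h81u_jB_eq_alpha, hE.1, h81u_coe_jB]

theorem h81u_E02_j0 (hq : q.Prime) (hqM : ¬ q ∣ M)
    (E : FF (M * q * q) →+* LaurentSeries Kbar) (hE : h20n_IsE02 M q hq hqM E) :
    E (jB (M * q * q)) = qExpand Kbar q (qExpand Kbar q (jqModC Kbar)) := by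
  rw [h81u_jB_eq_alpha, hE.1, h81u_fricke_jB]

theorem h81u_E20_v : h20n_E20 M q (h81u_v M q) = h81u_V20 q := by
  have h0 := h81u_jq_ne_zero
  rw [h81u_v, map_div₀, map_mul, h81u_E20_j0, h81u_V20]
  have h1 : h20n_E20 M q (heckeAlphaBar Kbar (M * q) q (Fermat.Agent.LGC.h21c_y M q)) =
      qExpand Kbar q (jqModC Kbar) * ((jqModC Kbar)⁻¹) ^ q := by
    rw [← h81u_coe_y M q]
    exact coe_heckeAlphaBar (M * q) q (Fermat.Agent.LGC.h21c_y M q)
  have h2 : h20n_E20 M q (h18c_bb M q (jB M)) =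
      qExpand Kbar q (qExpand Kbar q (jqModC Kbar)) := by
    show ((h18c_bb M q (jB M) : FF (M * q * q)) : LaurentSeries Kbar) = _
    rw [h18c_bb, RingHom.comp_apply]
    show ((heckeBetaBar Kbar (M * q) q (heckeBetaBar Kbar M q (jB M)) : FF (M * q * q)) :
      LaurentSeries Kbar) = _
    rw [coe_heckeBetaBar, coe_heckeBetaBar, h81u_coe_jB]
  rw [h1, h2]
  obtain ⟨m, hm⟩ : ∃ m, q = m + 1 := ⟨q - 1, (Nat.sub_add_cancel (Nat.pos_of_ne_zero
    (NeZero.ne q))).symm⟩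
  have hqm : q - 1 = m := by omega
  rw [hqm]
  generalize qExpand Kbar q (qExpand Kbar q (jqModC Kbar)) = a2
  generalize qExpand Kbar q (jqModC Kbar) = a1
  subst hm
  rw [pow_succ]
  field_simp

theorem h81u_E11_v (hq : q.Prime) (hqM : ¬ q ∣ M) (ζ : Kbar)
    (E : FF (M * q * q) →+* LaurentSeries Kbar) (hE : h20n_IsE11 M q hq hqM ζ E) :
    E (h81u_v M q) = h81u_V11 q ζ := by
  have h0 := h81u_jq_ne_zero
  rw [h81u_v, map_div₀, map_mul, h81u_E11_j0 M q hq hqM ζ E hE, h81u_V11, hE.1, h81u_coe_y]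
  have h2 : E (h18c_bb M q (jB M)) = twistK ζ (jqModC Kbar) := by
    rw [h18c_bb, RingHom.comp_apply]
    show E (heckeBetaBar Kbar (M * q) q (heckeBetaBar Kbar M q (jB M))) = _
    rw [hE.2, h81u_fricke_beta_jB]
  rw [h2]
  obtain ⟨m, hm⟩ : ∃ m, q = m + 1 := ⟨q - 1, (Nat.sub_add_cancel (Nat.pos_of_ne_zero
    (NeZero.ne q))).symm⟩
  have hqm : q - 1 = m := by omega
  rw [hqm]
  generalize twistK ζ (jqModC Kbar) = a2
  generalize qExpand Kbar q (jqModC Kbar) = a1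
  subst hm
  rw [pow_succ]
  field_simp

theorem h81u_E02_v (hq : q.Prime) (hqM : ¬ q ∣ M)
    (E : FF (M * q * q) →+* LaurentSeries Kbar) (hE : h20n_IsE02 M q hq hqM E) :
    E (h81u_v M q) = h81u_V02 q := by
  have h0 := h81u_jq_ne_zero
  have h1 : qExpand Kbar q (jqModC Kbar) ≠ 0 := by
    intro h
    exact h0 ((qExpand Kbar q).injective.eq_iff' (map_zero _) |>.mp h)
  have h1' : qExpand Kbar q (qExpand Kbar q (jqModC Kbar)) ≠ 0 := by
    intro h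
    exact h1 ((qExpand Kbar q).injective.eq_iff' (map_zero _) |>.mp h)
  rw [h81u_v, map_div₀, map_mul, h81u_E02_j0 M q hq hqM E hE, h81u_V02, hE.1,
    h81u_coe_fricke_y, map_mul, map_pow, map_inv₀]
  have h2 : E (h18c_bb M q (jB M)) = jqModC Kbar := by
    rw [h18c_bb, RingHom.comp_apply]
    show E (heckeBetaBar Kbar (M * q) q (heckeBetaBar Kbar M q (jB M))) = _
    rw [hE.2, h81u_fricke_beta_jB]
  rw [h2]
  obtain ⟨m, hm⟩ : ∃ m, q = m + 1 := ⟨q - 1, (Nat.sub_add_cancel (Nat.pos_of_ne_zero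
    (NeZero.ne q))).symm⟩
  have hqm : q - 1 = m := by omega
  rw [hqm]
  generalize qExpand Kbar q (qExpand Kbar q (jqModC Kbar)) = a2 at *
  generalize qExpand Kbar q (jqModC Kbar) = a1 at *
  subst hm
  rw [pow_succ]
  field_simp

/-! #### the multiplier `σ = s(1/j)` -/

theorem h81u_E20_cst (c : Kbar) : h20n_E20 M q (cst (M * q * q) c) = HahnSeries.C c :=
  Fermat.Agent.Red.GV.Soft.soft_coe_cst (M * q * q) c

theorem h81u_E11_cst (hq : q.Prime) (hqM : ¬ q ∣ M) (ζ : Kbar)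
    (E : FF (M * q * q) →+* LaurentSeries Kbar) (hE : h20n_IsE11 M q hq hqM ζ E) (c : Kbar) :
    E (cst (M * q * q) c) = HahnSeries.C c := by
  have h1 : cst (M * q * q) c = heckeAlphaBar Kbar (M * q) q (cst (M * q) c) :=
    ((heckeAlphaBar Kbar (M * q) q).commutes c).symm
  rw [h1, hE.1]
  exact Fermat.Agent.Red.GV.Soft.soft_coe_cst (M * q) c

theorem h81u_E02_cst (hq : q.Prime) (hqM : ¬ q ∣ M)
    (E : FF (M * q * q) →+* LaurentSeries Kbar) (hE : h20n_IsE02 M q hq hqM E) (c : Kbar) :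
    E (cst (M * q * q) c) = HahnSeries.C c := by
  have h1 : cst (M * q * q) c = heckeBetaBar Kbar (M * q) q (cst (M * q) c) :=
    ((heckeBetaBar Kbar (M * q) q).commutes c).symm
  rw [h1, hE.2, Fermat.Agent.Red.Kron.kFricke_cst]
  exact Fermat.Agent.Red.GV.Soft.soft_coe_cst (M * q) c

/-- a polynomial in `τ` with coefficients in `A₀` expands to an integral power series. -/
theorem h81u_eval_mem (N : ℕ) [NeZero N] (E : FF N →+* LaurentSeries Kbar)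
    (hEc : ∀ c : Kbar, E (cst N c) = HahnSeries.C c) (τ : FF N) (hτ : E τ ∈ h81u_PI A)
    (s : Polynomial (h59bA0 A)) :
    E (Polynomial.eval₂ (h59nPsi N A) τ s) ∈ h81u_PI A := by
  induction s using Polynomial.induction_on' with
  | add p r hp hr =>
    rw [Polynomial.eval₂_add, map_add]
    exact add_mem hp hr
  | monomial n a =>
    rw [Polynomial.eval₂_monomial, map_mul, map_pow, h59nPsi_apply, hEc]
    exact mul_mem (h81u_C_mem a.2) (pow_mem hτ n)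

/-- a polynomial in `τ` with constant term `1` expands to a unit of `A⟦t⟧`, if `τ ∈ t A⟦t⟧`. -/
theorem h81u_eval_pu (N : ℕ) [NeZero N] (E : FF N →+* LaurentSeries Kbar)
    (hEc : ∀ c : Kbar, E (cst N c) = HahnSeries.C c) (τ : FF N) (hτ : E τ ∈ h81u_PI A)
    (hτ0 : (E τ).coeff 0 = 0)
    (s : Polynomial (h59bA0 A)) (hs0 : s.coeff 0 = 1) :
    h81u_PU A (E (Polynomial.eval₂ (h59nPsi N A) τ s)) := by
  refine h81u_pu_of_coeff_one (h81u_eval_mem A N E hEc τ hτ s) ?_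
  have h1 : s = s.divX * Polynomial.X + 1 := by
    conv_lhs => rw [← Polynomial.divX_mul_X_add s, hs0]
    rw [Polynomial.C_1]
  rw [h1, Polynomial.eval₂_add, Polynomial.eval₂_mul, Polynomial.eval₂_X, Polynomial.eval₂_one,
    map_add, map_mul, map_one, HahnSeries.coeff_add,
    h81u_coeff_zero_mul (h81u_eval_mem A N E hEc τ hτ _) hτ, hτ0, mul_zero, zero_add,
    HahnSeries.coeff_one, if_pos rfl]

theorem h81u_jq_inv_mem :
    (jqModC Kbar)⁻¹ ∈ h81u_PI A ∧ ((jqModC Kbar)⁻¹).coeff 0 = 0 := by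
  have h1 : (jqModC Kbar)⁻¹ = h81u_T ^ 1 * h81u_J⁻¹ := by
    rw [h81u_jq_eq', mul_inv, inv_inv, pow_one]
  have hJ := h81u_pu_mem (h81u_pu_inv (h81u_J_pu A))
  rw [h1]
  exact ⟨h81u_T_pow_mul_mem A 1 hJ, h81u_T_pow_mul_coeff A one_pos hJ⟩

theorem h81u_jq2_inv_mem :
    (qExpand Kbar q (qExpand Kbar q (jqModC Kbar)))⁻¹ ∈ h81u_PI A ∧
      ((qExpand Kbar q (qExpand Kbar q (jqModC Kbar)))⁻¹).coeff 0 = 0 := by
  have h1 : (qExpand Kbar q (qExpand Kbar q (jqModC Kbar)))⁻¹ =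
      h81u_T ^ (q * q) * (qExpand Kbar q (qExpand Kbar q h81u_J))⁻¹ := by
    rw [h81u_qExpand_qExpand_jq, mul_inv, inv_inv, ← pow_mul]
  have hJ := h81u_pu_mem (h81u_pu_inv (h81u_pu_qExpand q (h81u_pu_qExpand q (h81u_J_pu A))))
  have hq : 0 < q * q := Nat.mul_pos (Nat.pos_of_ne_zero (NeZero.ne q))
    (Nat.pos_of_ne_zero (NeZero.ne q))
  rw [h1]
  exact ⟨h81u_T_pow_mul_mem A _ hJ, h81u_T_pow_mul_coeff A hq hJ⟩

theorem h81u_sigma_E20 (s : Polynomial (h59bA0 A)) (hs0 : s.coeff 0 = 1) :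
    h81u_PU A (h20n_E20 M q ((h59wEvB (M * q * q) A s : h62rChart A (M * q * q)
      (jB (M * q * q))⁻¹) : FF (M * q * q))) := by
  rw [h59w_coe_evB]
  have hτ : h20n_E20 M q (jB (M * q * q))⁻¹ = (jqModC Kbar)⁻¹ := by
    rw [map_inv₀, h81u_E20_j0]
  refine h81u_eval_pu A (M * q * q) (h20n_E20 M q) (h81u_E20_cst M q) _ ?_ ?_ s hs0
  · rw [hτ]; exact (h81u_jq_inv_mem A).1
  · rw [hτ]; exact (h81u_jq_inv_mem A).2

theorem h81u_sigma_E11 (hq : q.Prime) (hqM : ¬ q ∣ M) (ζ : Kbar)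
    (E : FF (M * q * q) →+* LaurentSeries Kbar) (hE : h20n_IsE11 M q hq hqM ζ E)
    (s : Polynomial (h59bA0 A)) (hs0 : s.coeff 0 = 1) :
    h81u_PU A (E ((h59wEvB (M * q * q) A s : h62rChart A (M * q * q)
      (jB (M * q * q))⁻¹) : FF (M * q * q))) := by
  rw [h59w_coe_evB]
  have hτ : E (jB (M * q * q))⁻¹ = (jqModC Kbar)⁻¹ := by
    rw [map_inv₀, h81u_E11_j0 M q hq hqM ζ E hE]
  refine h81u_eval_pu A (M * q * q) E (h81u_E11_cst M q hq hqM ζ E hE) _ ?_ ?_ s hs0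
  · rw [hτ]; exact (h81u_jq_inv_mem A).1
  · rw [hτ]; exact (h81u_jq_inv_mem A).2

theorem h81u_sigma_E02 (hq : q.Prime) (hqM : ¬ q ∣ M)
    (E : FF (M * q * q) →+* LaurentSeries Kbar) (hE : h20n_IsE02 M q hq hqM E)
    (s : Polynomial (h59bA0 A)) (hs0 : s.coeff 0 = 1) :
    h81u_PU A (E ((h59wEvB (M * q * q) A s : h62rChart A (M * q * q)
      (jB (M * q * q))⁻¹) : FF (M * q * q))) := by
  rw [h59w_coe_evB]
  have hτ : E (jB (M * q * q))⁻¹ = (qExpand Kbar q (qExpand Kbar q (jqModC Kbar)))⁻¹ := by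
    rw [map_inv₀, h81u_E02_j0 M q hq hqM E hE]
  refine h81u_eval_pu A (M * q * q) E (h81u_E02_cst M q hq hqM E hE) _ ?_ ?_ s hs0
  · rw [hτ]; exact (h81u_jq2_inv_mem A q).1
  · rw [hτ]; exact (h81u_jq2_inv_mem A q).2

/-! #### the certificate `S = σ (v - 1)` -/

/-- the two vocabularies agree. -/
theorem h81u_pu_iff_ups (x : LaurentSeries Kbar) : h81u_PU A x ↔ h20u_UPS A x :=
  ⟨fun ⟨f, hf, h⟩ => ⟨f, hf, h⟩, fun ⟨f, hf, h⟩ => ⟨f, hf, h⟩⟩

/-- **(X20)** `E20 S` is a unit of `A⟦t⟧`. -/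
theorem h81u_S_E20 (hq : q.Prime) (σ : FF (M * q * q))
    (hσ : h81u_PU A (h20n_E20 M q σ)) : h81u_PU A (h20n_E20 M q (h81u_S M q σ)) := by
  rw [h81u_S, map_mul, map_sub, map_one, h81u_E20_v]
  exact h81u_pu_mul hσ (h81u_sub_one_pu A (h81u_V20_mem A q hq).1 (h81u_V20_mem A q hq).2)

/-- **(X02)** `E02 S` is a unit of `A⟦t⟧`. -/
theorem h81u_S_E02 (hq : q.Prime) (hqM : ¬ q ∣ M)
    (E : FF (M * q * q) →+* LaurentSeries Kbar) (hE : h20n_IsE02 M q hq hqM E)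
    (σ : FF (M * q * q)) (hσ : h81u_PU A (E σ)) : h81u_PU A (E (h81u_S M q σ)) := by
  rw [h81u_S, map_mul, map_sub, map_one, h81u_E02_v M q hq hqM E hE]
  exact h81u_pu_mul hσ (h81u_sub_one_pu A (h81u_V02_mem A q hq).1 (h81u_V02_mem A q hq).2)

/-- **(X11)** `E11^ζ S = (ζ - 1) · w`, `w` a unit of `A⟦t⟧`. -/
theorem h81u_S_E11 (hq : q.Prime) (hqM : ¬ q ∣ M) (ζ : Kbar) (hζ : IsPrimitiveRoot ζ q)
    (E : FF (M * q * q) →+* LaurentSeries Kbar) (hE : h20n_IsE11 M q hq hqM ζ E)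
    (σ : FF (M * q * q)) (hσ : h81u_PU A (E σ)) :
    ∃ w, h81u_PU A w ∧ E (h81u_S M q σ) = HahnSeries.C (ζ - 1) * w := by
  have hζA : ζ ∈ A := h81c_mem_of_pow_eq_one hq.pos hζ.pow_eq_one
  obtain ⟨w, hw, hV⟩ := h81u_V11_sub_one A q hq hζ
  refine ⟨E σ * w, h81u_pu_mul hσ (h81u_pu1_pu hζA hw), ?_⟩
  rw [h81u_S, map_mul, map_sub, map_one, h81u_E11_v M q hq hqM ζ E hE, hV]
  ring

/-- **(X11), sign `1 - ζ`.** -/
theorem h81u_S_E11' (hq : q.Prime) (hqM : ¬ q ∣ M) (ζ : Kbar) (hζ : IsPrimitiveRoot ζ q)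
    (E : FF (M * q * q) →+* LaurentSeries Kbar) (hE : h20n_IsE11 M q hq hqM ζ E)
    (σ : FF (M * q * q)) (hσ : h81u_PU A (E σ)) :
    ∃ w, h81u_PU A w ∧ E (h81u_S M q σ) = HahnSeries.C (1 - ζ) * w := by
  obtain ⟨w, hw, h⟩ := h81u_S_E11 A M q hq hqM ζ hζ E hE σ hσ
  refine ⟨-w, h81u_pu_neg hw, ?_⟩
  rw [h, show (1 : Kbar) - ζ = -(ζ - 1) by ring, map_neg]
  ring

/-- `(ζ - 1)^(q-1) / q` is a unit of `A`. -/
theorem h81u_cyc_unit (hq : q.Prime) {ζ : Kbar} (hζ : IsPrimitiveRoot ζ q) :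
    (ζ - 1) ^ (q - 1) * (((q : ℕ) : Kbar))⁻¹ ∈ A ∧
      ((ζ - 1) ^ (q - 1) * (((q : ℕ) : Kbar))⁻¹)⁻¹ ∈ A ∧
      (ζ - 1) ^ (q - 1) * (((q : ℕ) : Kbar))⁻¹ ≠ 0 := by
  have hq0 : ((q : ℕ) : Kbar) ≠ 0 := Nat.cast_ne_zero.mpr hq.ne_zero
  have hne : ζ - 1 ≠ 0 := sub_ne_zero.mpr (hζ.ne_one hq.one_lt)
  have hneg : ζ - 1 = -(1 - ζ) := by ring
  have hv : A.valuation ((ζ - 1) ^ (q - 1) * (((q : ℕ) : Kbar))⁻¹) = 1 := by
    rw [map_mul, map_inv₀, map_pow, hneg, Valuation.map_neg, ← h81c_valuation_q hq hζ]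
    exact mul_inv_cancel₀ ((Valuation.ne_zero_iff _).mpr hq0)
  obtain ⟨h1, h2⟩ := h81c_unit_of_valuation hv
  exact ⟨h1, h2, mul_ne_zero (pow_ne_zero _ hne) (inv_ne_zero hq0)⟩

/-- **conjunct 2 of `H18cUnit11`**: `E11 (S ^ (q-1) / q)` is a unit of the Gauss ring. -/
theorem h81u_S_unit11 (hq : q.Prime) (hqM : ¬ q ∣ M) (ζ : Kbar) (hζ : IsPrimitiveRoot ζ q)
    (E : FF (M * q * q) →+* LaurentSeries Kbar) (hE : h20n_IsE11 M q hq hqM ζ E)
    (σ : FF (M * q * q)) (hσ : h81u_PU A (E σ)) :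
    h20v_Unit A (E (h81u_S M q σ ^ (q - 1) * ((q : ℕ) : FF (M * q * q))⁻¹)) := by
  obtain ⟨w, hw, h⟩ := h81u_S_E11 A M q hq hqM ζ hζ E hE σ hσ
  obtain ⟨h1, h2, h3⟩ := h81u_cyc_unit A q hq hζ
  have hC : (((q : ℕ) : LaurentSeries Kbar)) = HahnSeries.C ((q : ℕ) : Kbar) :=
    (map_natCast (HahnSeries.C : Kbar →+* LaurentSeries Kbar) q).symm
  have h4 : E (h81u_S M q σ ^ (q - 1) * ((q : ℕ) : FF (M * q * q))⁻¹) =
      HahnSeries.C ((ζ - 1) ^ (q - 1) * (((q : ℕ) : Kbar))⁻¹) * w ^ (q - 1) := by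
    rw [map_mul, map_pow, map_inv₀, map_natCast, h, hC, mul_pow, map_mul, map_pow, map_inv₀]
    ring
  rw [h4]
  exact h81u_pu_unit (h81u_pu_mul (h81u_pu_C h1 h2 h3) (h81u_pu_pow hw _))

end Level

/-! ### The certificate with `σ = s(1/j)`, in the vocabulary of `S36/H20U11Norm.lean` -/

section Cert

variable (A : ValuationSubring Kbar) (M q : ℕ) [NeZero M] [NeZero q]

/-- the certificate `S_s = s(1/j) · (v - 1)`, `s ∈ A₀[X]`. -/
def h81u_Ss (s : Polynomial (h59bA0 A)) : FF (M * q * q) :=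
  h81u_S M q ((h59wEvB (M * q * q) A s : h62rChart A (M * q * q) (jB (M * q * q))⁻¹) :
    FF (M * q * q))

theorem h81u_Ss_eq (s : Polynomial (h59bA0 A)) :
    h81u_Ss A M q s =
      ((h59wEvB (M * q * q) A s : h62rChart A (M * q * q) (jB (M * q * q))⁻¹) :
        FF (M * q * q)) *
      (heckeAlphaBar Kbar (M * q) q (Fermat.Agent.LGC.h21c_y M q) * jB (M * q * q) /
        h18c_bb M q (jB M) - 1) := rfl

theorem h81u_cert20 (hq : q.Prime) (s : Polynomial (h59bA0 A)) (hs0 : s.coeff 0 = 1) :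
    h20u_UPS A ((h81u_Ss A M q s : FF (M * q * q)) : LaurentSeries Kbar) :=
  (h81u_pu_iff_ups A _).mp (h81u_S_E20 A M q hq _ (h81u_sigma_E20 A M q s hs0))

theorem h81u_cert02 (hq : q.Prime) (hqM : ¬ q ∣ M)
    (E : FF (M * q * q) →+* LaurentSeries Kbar) (hE : h20n_IsE02 M q hq hqM E)
    (s : Polynomial (h59bA0 A)) (hs0 : s.coeff 0 = 1) :
    h20u_UPS A (E (h81u_Ss A M q s)) :=
  (h81u_pu_iff_ups A _).mp
    (h81u_S_E02 A M q hq hqM E hE _ (h81u_sigma_E02 A M q hq hqM E hE s hs0))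

theorem h81u_cert11 (hq : q.Prime) (hqM : ¬ q ∣ M) (ζ : Kbar) (hζ : IsPrimitiveRoot ζ q)
    (E : FF (M * q * q) →+* LaurentSeries Kbar) (hE : h20n_IsE11 M q hq hqM ζ E)
    (s : Polynomial (h59bA0 A)) (hs0 : s.coeff 0 = 1) :
    ∃ w, h20u_UPS A w ∧ E (h81u_Ss A M q s) = HahnSeries.C (1 - ζ) * w := by
  obtain ⟨w, hw, h⟩ := h81u_S_E11' A M q hq hqM ζ hζ E hE _
    (h81u_sigma_E11 A M q hq hqM ζ E hE s hs0)
  exact ⟨w, (h81u_pu_iff_ups A _).mp hw, h⟩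

theorem h81u_certUnit11 (hq : q.Prime) (hqM : ¬ q ∣ M) (ζ : Kbar) (hζ : IsPrimitiveRoot ζ q)
    (E : FF (M * q * q) →+* LaurentSeries Kbar) (hE : h20n_IsE11 M q hq hqM ζ E)
    (s : Polynomial (h59bA0 A)) (hs0 : s.coeff 0 = 1) :
    h20v_Unit A (E (h81u_Ss A M q s ^ (q - 1) * ((q : ℕ) : FF (M * q * q))⁻¹)) :=
  h81u_S_unit11 A M q hq hqM ζ hζ E hE _ (h81u_sigma_E11 A M q hq hqM ζ E hE s hs0)

end Cert

end Fermat.Agent.S36
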