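import Mathlib
import Fermat.Agent.S37.Defs

/-!
# S36, block (D) descent — no-regret leaf (helper82): Hilbert 90 for the function field

`h82f_h90`: let `H` be ANY subgroup of `G_ℚ` (inertia, decomposition group, `G_L`, ...) acting on
the function field `FF N` of `X₀(N)` over `ℚ̄` coefficientwise (`gal N σ`).  A `1`-cocycle
`x : H → (FF N)ˣ` which is continuous (right-invariant under `H ∩ G_F` for a number field `F`)
is a coboundary: `x σ = σ a / a`.

Noether's argument with the finitely many restrictions `σ|_F`, `σ ∈ H`, and Dedekind's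
independence of characters; the Poincaré series uses CONSTANTS only
(`∑_ι x(σ_ι) · ι(z)`, `z ∈ F`).

Consumer: an `H`-invariant divisor class has an `H`-invariant divisor (normalise the functions
`g_σ`, `div g_σ = σ D - D`, by the leading coefficient of the `q`-expansion; then `g` is a
continuous cocycle).
-/

set_option autoImplicit false

open scoped Classical

open AlgebraicCurve ModularCurve

noncomputable section

namespace Fermat.Agent.S36

open Fermat.Agent.S37 (Kbar GQ FF cst gal)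

/-- the Galois action on constants. -/
theorem h82f_gal_cst (N : ℕ) (σ : GQ) (a : Kbar) : gal N σ • cst N a = cst N (σ a) :=
  SemilinearAut.smul_algebraMap (gal N σ) a

/-- `ι` is the restriction to `F` of an element of `H`. -/
def h82f_IsRes (H : Subgroup GQ) (F : IntermediateField ℚ Kbar) (ι : F →ₐ[ℚ] Kbar) : Prop :=
  ∃ σ ∈ H, ∀ y : F, σ (y : Kbar) = ι y

/-- a chosen lift in `H` of a restriction. -/
def h82f_lift (H : Subgroup GQ) (F : IntermediateField ℚ Kbar) (ι : F →ₐ[ℚ] Kbar) : GQ :=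
  if h : h82f_IsRes H F ι then h.choose else 1

theorem h82f_lift_mem (H : Subgroup GQ) (F : IntermediateField ℚ Kbar) (ι : F →ₐ[ℚ] Kbar) :
    h82f_lift H F ι ∈ H := by
  unfold h82f_lift
  split_ifs with h
  · exact h.choose_spec.1
  · exact H.one_mem

theorem h82f_lift_apply {H : Subgroup GQ} {F : IntermediateField ℚ Kbar} {ι : F →ₐ[ℚ] Kbar}
    (h : h82f_IsRes H F ι) (y : F) : h82f_lift H F ι (y : Kbar) = ι y := by
  unfold h82f_lift
  rw [dif_pos h]
  exact h.choose_spec.2 y

/-- composition of an embedding with an automorphism. -/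
def h82f_comp (F : IntermediateField ℚ Kbar) (h : GQ) (ι : F →ₐ[ℚ] Kbar) : F →ₐ[ℚ] Kbar :=
  (h : Kbar →ₐ[ℚ] Kbar).comp ι

theorem h82f_comp_apply (F : IntermediateField ℚ Kbar) (h : GQ) (ι : F →ₐ[ℚ] Kbar) (y : F) :
    h82f_comp F h ι y = h (ι y) := rfl

theorem h82f_comp_isRes {H : Subgroup GQ} {F : IntermediateField ℚ Kbar} {h : GQ} (hh : h ∈ H)
    {ι : F →ₐ[ℚ] Kbar} (hι : h82f_IsRes H F ι) : h82f_IsRes H F (h82f_comp F h ι) := by
  obtain ⟨σ, hσ, hσι⟩ := hι
  refine ⟨h * σ, H.mul_mem hh hσ, fun y => ?_⟩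
  rw [h82f_comp_apply, ← hσι y]
  rfl

theorem h82f_val_isRes (H : Subgroup GQ) (F : IntermediateField ℚ Kbar) :
    h82f_IsRes H F F.val :=
  ⟨1, H.one_mem, fun _ => rfl⟩

/-- two automorphisms with the same restriction to `F` differ by an element of `G_F`. -/
theorem h82f_inv_mul_mem (F : IntermediateField ℚ Kbar) {g g' : GQ}
    (h : ∀ y : F, g (y : Kbar) = g' (y : Kbar)) : g⁻¹ * g' ∈ F.fixingSubgroup := by
  rw [IntermediateField.mem_fixingSubgroup_iff]
  intro y hy
  have := h ⟨y, hy⟩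
  change g⁻¹ (g' y) = y
  rw [← this]
  exact g.symm_apply_apply y

/-- **Hilbert 90** for the coefficientwise action of a subgroup `H ≤ G_ℚ` on `FF N`. -/
theorem h82f_h90 (N : ℕ) (H : Subgroup GQ) (x : GQ → FF N) (hx : ∀ σ ∈ H, x σ ≠ 0)
    (hcoc : ∀ σ ∈ H, ∀ τ ∈ H, x (σ * τ) = (gal N σ • x τ) * x σ)
    (hcont : ∃ F : IntermediateField ℚ Kbar, FiniteDimensional ℚ F ∧
      ∀ σ ∈ H, ∀ τ ∈ H, τ ∈ F.fixingSubgroup → x (σ * τ) = x σ) :
    ∃ a : FF N, a ≠ 0 ∧ ∀ σ ∈ H, x σ * a = gal N σ • a := by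
  obtain ⟨F, hFfin, hinv⟩ := hcont
  have : FiniteDimensional ℚ F := hFfin
  set c : (F →ₐ[ℚ] Kbar) → FF N := fun ι => x (h82f_lift H F ι) with hc
  set S : Finset (F →ₐ[ℚ] Kbar) := Finset.univ.filter (fun ι => h82f_IsRes H F ι) with hS
  have hmemS : ∀ ι, ι ∈ S ↔ h82f_IsRes H F ι := fun ι => by simp [hS]
  -- the transformation rule of the coefficients
  have hrule : ∀ h ∈ H, ∀ ι, h82f_IsRes H F ι →
      c (h82f_comp F h ι) = (gal N h • c ι) * x h := by
    intro h hh ι hι
    have h1 : h82f_lift H F ι ∈ H := h82f_lift_mem H F ι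
    have h2 : h * h82f_lift H F ι ∈ H := H.mul_mem hh h1
    have h1' : h82f_lift H F (h82f_comp F h ι) ∈ H := h82f_lift_mem H F _
    have h3 : (h * h82f_lift H F ι)⁻¹ * h82f_lift H F (h82f_comp F h ι) ∈ F.fixingSubgroup := by
      apply h82f_inv_mul_mem
      intro y
      rw [h82f_lift_apply (h82f_comp_isRes hh hι), h82f_comp_apply]
      change h (h82f_lift H F ι y) = _
      rw [h82f_lift_apply hι]
    have h3' : (h * h82f_lift H F ι)⁻¹ * h82f_lift H F (h82f_comp F h ι) ∈ H :=
      H.mul_mem (H.inv_mem h2) h1'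
    have h4 := hinv _ h2 _ h3' h3
    rw [mul_inv_cancel_left] at h4
    simp only [hc]
    rw [h4, hcoc h hh _ h1]
  -- Dedekind independence
  have hli : LinearIndependent (FF N)
      (fun ι : F →ₐ[ℚ] Kbar => (fun y : F => cst N (ι y))) := by
    have h0 := linearIndependent_monoidHom F (FF N)
    have h1 := LinearIndependent.comp (ι' := F →ₐ[ℚ] Kbar) h0
      (fun ι => ((algebraMap Kbar (FF N) : Kbar →* FF N).comp (ι : F →* Kbar)))
      (fun a b h => by
        ext y
        have h2 := DFunLike.congr_fun h y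
        exact (algebraMap Kbar (FF N)).injective h2)
    exact h1
  obtain ⟨z, hz⟩ : ∃ z : F, ∑ ι ∈ S, c ι * cst N (ι z) ≠ 0 := by
    by_contra hcon
    have hall : ∀ z : F, ∑ ι ∈ S, c ι * cst N (ι z) = 0 := by
      intro z
      by_contra hne
      exact hcon ⟨z, hne⟩
    have h0 := Fintype.linearIndependent_iff.1 hli (fun ι => if ι ∈ S then c ι else 0) (by
      funext z
      simp only [Finset.sum_apply, Pi.smul_apply, smul_eq_mul, Pi.zero_apply, ite_mul, zero_mul]
      rw [← Finset.sum_filter]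
      have : Finset.univ.filter (fun ι => ι ∈ S) = S := by
        ext ι; simp
      rw [this]
      exact hall z) F.val
    rw [if_pos ((hmemS _).2 (h82f_val_isRes H F))] at h0
    exact hx _ (h82f_lift_mem H F _) h0
  refine ⟨(∑ ι ∈ S, c ι * cst N (ι z))⁻¹, inv_ne_zero hz, fun h hh => ?_⟩
  -- the sum is an eigenvector
  have hsum : (gal N h • (∑ ι ∈ S, c ι * cst N (ι z))) * x h = ∑ ι ∈ S, c ι * cst N (ι z) := by
    rw [Finset.smul_sum, Finset.sum_mul]
    have hinvmem : h⁻¹ ∈ H := H.inv_mem hh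
    refine Finset.sum_bij' (fun ι _ => h82f_comp F h ι) (fun ι _ => h82f_comp F h⁻¹ ι)
      ?_ ?_ ?_ ?_ ?_
    · intro ι hι
      exact (hmemS _).2 (h82f_comp_isRes hh ((hmemS _).1 hι))
    · intro ι hι
      exact (hmemS _).2 (h82f_comp_isRes hinvmem ((hmemS _).1 hι))
    · intro ι _
      ext y
      simp [h82f_comp_apply]
    · intro ι _
      ext y
      simp [h82f_comp_apply]
    · intro ι hι
      rw [hrule h hh ι ((hmemS _).1 hι), h82f_comp_apply, smul_mul', h82f_gal_cst]
      ring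
  have hne : gal N h • (∑ ι ∈ S, c ι * cst N (ι z)) ≠ 0 := by
    intro h0
    rw [h0, zero_mul] at hsum
    exact hz hsum.symm
  generalize (∑ ι ∈ S, c ι * cst N (ι z)) = B at hsum hne hz ⊢
  rw [smul_inv'']
  field_simp
  rw [mul_comm]
  exact hsum.symm ▸ rfl

end Fermat.Agent.S36
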