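import Mathlib

/-!
# S36, glue G1: the orbit-polynomial lemma (Mathlib only)

Author: helper83.

`h83o_orbit`: let `R` be a subring of a field `F` with a ring homomorphism `red : R → κ`,
`q = 0` in `κ` (`q` prime), `S` a set of ring endomorphisms of `F` permuting a finite set `O`,
`x₀ ∈ O`, `x₀ ≠ 0`, such that `z / x₀ ∈ R` and `red (z / x₀) = 1` for every `z ∈ O`
("all conjugates of `x₀` have the same reduction").  Then there are `a : ℕ` and `y` FIXED by
`S` with `y / x₀ ^ (q ^ a) ∈ R` and `red (y / x₀ ^ (q ^ a)) = 1`.  Moreover `y` lies in any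
subring `T` containing `O`.

Proof: `#O = q ^ a r'`, `q ∤ r'`; the coefficient of `X ^ (#O - q ^ a)` of `∏_{z ∈ O} (X - z)`
is `S`-invariant, and after division by `x₀ ^ (q ^ a)` it reduces to
`± binom(#O, q ^ a) ≡ ± r' mod q` (Lucas), a unit modulo `q`.

This replaces the computation of residue fields of the inertia field in the descent of the
toric data: the residue field extension is purely inseparable and the `q`-power is harmless
for `m`-th power classes, `q ∤ m`.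
-/

set_option autoImplicit false

open Polynomial

namespace Fermat.Agent.S36

/-- Lucas: `q ∤ binom (q ^ a r') (q ^ a)` for `q ∤ r'`. -/
theorem h83o_choose_modEq (q : ℕ) (hq : q.Prime) (a r' : ℕ) :
    Nat.choose (q ^ a * r') (q ^ a) ≡ r' [MOD q] := by
  have : Fact q.Prime := ⟨hq⟩
  induction a with
  | zero =>
    rw [pow_zero, one_mul, Nat.choose_one_right]
  | succ a ih =>
    have h := Choose.choose_modEq_choose_mod_mul_choose_div_nat
      (n := q ^ (a + 1) * r') (k := q ^ (a + 1)) (p := q)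
    have e1 : q ^ (a + 1) * r' = q * (q ^ a * r') := by ring
    have e2 : q ^ (a + 1) = q * q ^ a := by ring
    have h1 : q ^ (a + 1) * r' % q = 0 := by rw [e1]; exact Nat.mul_mod_right _ _
    have h2 : q ^ (a + 1) % q = 0 := by rw [e2]; exact Nat.mul_mod_right _ _
    have h3 : q ^ (a + 1) * r' / q = q ^ a * r' := by
      rw [e1]; exact Nat.mul_div_cancel_left _ hq.pos
    have h4 : q ^ (a + 1) / q = q ^ a := by
      rw [e2]; exact Nat.mul_div_cancel_left _ hq.pos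
    rw [h1, h2, h3, h4, Nat.choose_zero_right, one_mul] at h
    exact h.trans ih

theorem h83o_choose_not_dvd (q : ℕ) (hq : q.Prime) (a r' : ℕ) (hr : ¬ q ∣ r') :
    ¬ q ∣ Nat.choose (q ^ a * r') (q ^ a) := by
  intro hdvd
  have h1 : Nat.choose (q ^ a * r') (q ^ a) ≡ 0 [MOD q] := (Nat.modEq_zero_iff_dvd).2 hdvd
  exact hr ((Nat.modEq_zero_iff_dvd).1 ((h83o_choose_modEq q hq a r').symm.trans h1))

/-- an integer `n₀` prime to `q` is invertible in a ring where `q = 0`. -/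
theorem h83o_exists_inv {κ : Type*} [CommRing κ] (q : ℕ) (hq : q.Prime) (hκ : (q : κ) = 0)
    (n₀ : ℕ) (hn : ¬ q ∣ n₀) : ∃ b : ℕ, (n₀ : κ) * (b : κ) = 1 := by
  have hcop : Nat.Coprime n₀ q := ((Nat.Prime.coprime_iff_not_dvd hq).2 hn).symm
  obtain ⟨b, -, hb⟩ := Nat.exists_mul_mod_eq_one_of_coprime hcop hq.one_lt
  refine ⟨b, ?_⟩
  have h1 : n₀ * b = q * (n₀ * b / q) + 1 := by
    have := Nat.div_add_mod (n₀ * b) q
    rw [hb] at this
    exact this.symm
  have h2 : ((n₀ * b : ℕ) : κ) = ((q * (n₀ * b / q) + 1 : ℕ) : κ) := congrArg _ h1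
  push_cast at h2
  rw [h2, hκ, zero_mul, zero_add]

/-- **the orbit-polynomial lemma.** -/
theorem h83o_orbit {F κ : Type*} [Field F] [CommRing κ] (q : ℕ) (hq : q.Prime)
    (hκ : (q : κ) = 0) (R : Subring F) (red : R →+* κ) (T : Subring F)
    (S : Set (F →+* F)) (O : Finset F) (x₀ : F) (hx₀ : x₀ ∈ O) (hx₀0 : x₀ ≠ 0)
    (hOT : ∀ z ∈ O, z ∈ T) (hperm : ∀ g ∈ S, ∀ z ∈ O, g z ∈ O)
    (hOR : ∀ z ∈ O, ∃ h : z / x₀ ∈ R, red ⟨z / x₀, h⟩ = 1) :
    ∃ (a : ℕ) (y : F), y ∈ T ∧ (∀ g ∈ S, g y = y) ∧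
      ∃ h : y / x₀ ^ (q ^ a) ∈ R, red ⟨y / x₀ ^ (q ^ a), h⟩ = 1 := by
  classical
  have hr0 : O.card ≠ 0 := Finset.card_ne_zero.2 ⟨x₀, hx₀⟩
  obtain ⟨a, r', hr', hr⟩ := Nat.exists_eq_pow_mul_and_not_dvd hr0 q hq.ne_one
  have hle : q ^ a ≤ O.card := by
    rw [hr]
    exact Nat.le_mul_of_pos_right _ (Nat.pos_of_ne_zero (fun h0 => hr' (h0 ▸ dvd_zero q)))
  -- the polynomials
  set P : F[X] := ∏ z ∈ O, (X - C z) with hP
  set P' : F[X] := ∏ z ∈ O, (X - C (z / x₀)) with hP'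
  -- coefficients of `P` are in `T`
  have hPT : ∀ n, P.coeff n ∈ T := by
    have h1 : P = (∏ z ∈ O.attach, (X - C (⟨z.1, hOT z.1 z.2⟩ : T))).map T.subtype := by
      rw [Polynomial.map_prod, hP, ← Finset.prod_attach O]
      refine Finset.prod_congr rfl (fun z _ => ?_)
      rw [Polynomial.map_sub, Polynomial.map_X, Polynomial.map_C]
      rfl
    intro n
    rw [h1, Polynomial.coeff_map]
    exact Subtype.coe_prop _
  -- coefficients of `P` are `S`-invariant
  have hPS : ∀ g ∈ S, ∀ n, g (P.coeff n) = P.coeff n := by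
    intro g hg n
    have hinj : Function.Injective g := g.injective
    have himg : O.image g = O := by
      apply Finset.eq_of_subset_of_card_le
      · intro w hw
        obtain ⟨z, hz, rfl⟩ := Finset.mem_image.1 hw
        exact hperm g hg z hz
      · rw [Finset.card_image_of_injective O hinj]
    have h1 : P.map g = P := by
      rw [hP, Polynomial.map_prod]
      have h2 : ∏ z ∈ O, (X - C z).map g = ∏ z ∈ O, (X - C (g z)) := by
        refine Finset.prod_congr rfl (fun z _ => ?_)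
        rw [Polynomial.map_sub, Polynomial.map_X, Polynomial.map_C]
      rw [h2]
      have h3 : ∏ z ∈ O.image g, (X - C z) = ∏ z ∈ O, (X - C (g z)) :=
        Finset.prod_image (fun x _ y _ h => hinj h)
      rw [← h3, himg]
    rw [← Polynomial.coeff_map, h1]
  -- scaling
  have hscale : ∀ n, P.coeff n * x₀ ^ n = x₀ ^ O.card * P'.coeff n := by
    intro n
    have h1 : P.comp (C x₀ * X) = C (x₀ ^ O.card) * P' := by
      rw [hP, hP', Polynomial.prod_comp, map_pow, ← Finset.prod_const, ← Finset.prod_mul_distrib]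
      refine Finset.prod_congr rfl (fun z _ => ?_)
      rw [Polynomial.sub_comp, Polynomial.X_comp, Polynomial.C_comp, mul_sub, ← C_mul,
        mul_div_cancel₀ _ hx₀0]
    have h2 := congrArg (fun p : F[X] => p.coeff n) h1
    simp only [Polynomial.comp_C_mul_X_coeff, Polynomial.coeff_C_mul] at h2
    exact h2
  -- coefficients of `P'` are in `R` and their reductions
  have hP'R : ∀ n, ∃ h : P'.coeff n ∈ R,
      red ⟨P'.coeff n, h⟩ = ((X + C (-1 : κ)) ^ O.card).coeff n := by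
    let PR : R[X] := ∏ z ∈ O.attach, (X - C (⟨z.1 / x₀, (hOR z.1 z.2).1⟩ : R))
    have h1 : P' = PR.map R.subtype := by
      rw [Polynomial.map_prod, hP', ← Finset.prod_attach O]
      refine Finset.prod_congr rfl (fun z _ => ?_)
      rw [Polynomial.map_sub, Polynomial.map_X, Polynomial.map_C]
      rfl
    have h2 : PR.map red = (X + C (-1 : κ)) ^ O.card := by
      rw [Polynomial.map_prod]
      have h3 : ∀ z ∈ O.attach, (X - C (⟨z.1 / x₀, (hOR z.1 z.2).1⟩ : R)).map red =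
          X + C (-1 : κ) := by
        intro z _
        rw [Polynomial.map_sub, Polynomial.map_X, Polynomial.map_C, (hOR z.1 z.2).2, C_neg,
          sub_eq_add_neg]
      rw [Finset.prod_congr rfl h3, Finset.prod_const, Finset.card_attach]
    intro n
    have h4 : P'.coeff n = ((PR.coeff n : R) : F) := by
      rw [h1, Polynomial.coeff_map]
      rfl
    refine ⟨h4 ▸ (PR.coeff n).2, ?_⟩
    have h5 : (⟨P'.coeff n, h4 ▸ (PR.coeff n).2⟩ : R) = PR.coeff n := Subtype.ext h4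
    rw [h5, ← Polynomial.coeff_map, h2]
  -- the binomial coefficient
  set n₀ : ℕ := Nat.choose O.card (O.card - q ^ a) with hn₀
  have hn₀' : ¬ q ∣ n₀ := by
    rw [hn₀, Nat.choose_symm hle, hr]
    exact h83o_choose_not_dvd q hq a r' hr'
  obtain ⟨b, hb⟩ := h83o_exists_inv q hq hκ n₀ hn₀'
  -- the element
  set k : ℕ := O.card - q ^ a with hk
  have hkr : O.card - k = q ^ a := Nat.sub_sub_self hle
  refine ⟨a, ((-1 : F) ^ (q ^ a) * (b : F)) * P.coeff k, ?_, ?_, ?_⟩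
  · refine T.mul_mem (T.mul_mem (T.pow_mem (T.neg_mem T.one_mem) _) (natCast_mem T b)) (hPT k)
  · intro g hg
    rw [map_mul, map_mul, map_pow, map_neg, map_one, map_natCast, hPS g hg k]
  · obtain ⟨hmem, hred⟩ := hP'R k
    have hx₀k : x₀ ^ k ≠ 0 := pow_ne_zero _ hx₀0
    have hx₀a : x₀ ^ q ^ a ≠ 0 := pow_ne_zero _ hx₀0
    have hcoef : P.coeff k / x₀ ^ (q ^ a) = P'.coeff k := by
      have h1 := hscale k
      have h2 : x₀ ^ O.card = x₀ ^ k * x₀ ^ (q ^ a) := by
        rw [← pow_add, hk, Nat.sub_add_cancel hle]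
      rw [h2] at h1
      rw [div_eq_iff hx₀a]
      have h3 : P.coeff k * x₀ ^ k = (P'.coeff k * x₀ ^ q ^ a) * x₀ ^ k := by
        rw [h1]; ring
      exact mul_right_cancel₀ hx₀k h3
    have hy : ((-1 : F) ^ (q ^ a) * (b : F)) * P.coeff k / x₀ ^ (q ^ a) =
        ((-1 : F) ^ (q ^ a) * (b : F)) * P'.coeff k := by
      rw [mul_div_assoc, hcoef]
    have hmem2 : ((-1 : F) ^ (q ^ a) * (b : F)) * P'.coeff k ∈ R :=
      R.mul_mem (R.mul_mem (R.pow_mem (R.neg_mem R.one_mem) _) (natCast_mem R b)) hmem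
    refine ⟨hy ▸ hmem2, ?_⟩
    have h6 : (⟨((-1 : F) ^ (q ^ a) * (b : F)) * P.coeff k / x₀ ^ (q ^ a), hy ▸ hmem2⟩ : R) =
        ((-1 : R) ^ (q ^ a) * (b : R)) * ⟨P'.coeff k, hmem⟩ := by
      apply Subtype.ext
      show (-1 : F) ^ (q ^ a) * (b : F) * P.coeff k / x₀ ^ (q ^ a) =
        (((-1 : R) ^ (q ^ a) * (b : R) * ⟨P'.coeff k, hmem⟩ : R) : F)
      rw [hy]
      push_cast
      rfl
    rw [h6, map_mul, map_mul, map_pow, map_neg, map_one, map_natCast, hred,
      Polynomial.coeff_X_add_C_pow, hkr, ← hn₀]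
    calc (-1 : κ) ^ q ^ a * (b : κ) * ((-1) ^ q ^ a * (n₀ : κ))
        = ((-1 : κ) ^ q ^ a * (-1) ^ q ^ a) * ((n₀ : κ) * (b : κ)) := by ring
      _ = 1 := by
        rw [hb, mul_one, ← mul_pow]
        norm_num

/-! ### Four identities in a field (bookkeeping for the descent of toric data) -/

theorem h83o_alg1 {F : Type*} [Field F] (C U H P : F) (m : ℕ) (hP : P ≠ 0) (hH : H ≠ 0) :
    (C * P ^ m) * U * ((P * H) ^ m)⁻¹ = C * U * (H ^ m)⁻¹ := by
  field_simp
  ring

theorem h83o_alg2 {F : Type*} [Field F] (C U H Y : F) (m Q : ℕ) (hH : H ≠ 0) (hY : Y ≠ 0) :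
    C ^ Q * (U ^ Q * (Y ^ m)⁻¹) = (C * U * (H ^ m)⁻¹) ^ Q * ((Y / H ^ Q) ^ m)⁻¹ := by
  field_simp
  ring

theorem h83o_alg3 {F : Type*} [Field F] (D D₁ Z : F) (Q' : ℕ) (hD : D₁ ≠ 0) :
    D * Z ^ Q' = (D / D₁ ^ Q') * (D₁ * Z) ^ Q' := by
  field_simp
  ring

theorem h83o_alg4 {F : Type*} [Field F] (D U Y : F) (m Q Q' b n : ℕ)
    (h : Q * (Q' * b) = n * m + 1) :
    D ^ b * U * ((Y ^ (Q' * b) * (U ^ n)⁻¹) ^ m)⁻¹ = (D * (U ^ Q * (Y ^ m)⁻¹) ^ Q') ^ b := by
  have hupow : U ^ (Q * (Q' * b)) = U * (U ^ n) ^ m := by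
    rw [h, pow_succ, pow_mul, mul_comm]
  have hR : (D * (U ^ Q * (Y ^ m)⁻¹) ^ Q') ^ b =
      D ^ b * U ^ (Q * (Q' * b)) * ((Y ^ (Q' * b)) ^ m)⁻¹ := by
    simp only [← inv_pow]
    ring
  rw [hR, hupow, mul_pow, mul_inv, inv_pow, inv_inv]
  ring

end Fermat.Agent.S36
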