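/-
S36 (wave 4), block (V), leaf V-K1 (helper85), part 1: the abstract core (Mathlib only).

`A` a valuation subring of a field `K`, `q` a prime with `q ∈ 𝔪_A`, `ζ ∈ K` a primitive `q`-th
root of unity, `π = 1 - ζ`:

* `h85k_val_q` : `v(q) = v(π) ^ (q - 1)`;
* `h85k_val_pi_lt_one`, `h85k_val_pi_ne_zero` : `0 < v(π) < 1`;
* `h85k_val_sum` : if the valuations of the nonzero `c i` are integral powers of `v(q)`, then the
  valuation of `∑_{i < q - 1} c i π ^ i ≠ 0` is an integral power of `v(π)` (Eisenstein);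
* `h85k_val_adjoin` : if `k ⊆ K` is a subfield on which the value group is `v(q) ^ ℤ`, then the
  value group on `k(ζ)` is `v(π) ^ ℤ`;
* `h85k_unit_of_val`, `h85k_val_of_unit` : translation `v x = v π ^ n ↔ x / π ^ n` is a unit
  of `A`.
-/
import Mathlib

set_option autoImplicit false

open Polynomial

namespace Fermat.Agent.S36

section Core

variable {K : Type*} [Field K] (A : ValuationSubring K)

/-- roots of unity have valuation `1`. -/
theorem h85k_val_root {ζ : K} {n : ℕ} (hn : n ≠ 0) (h : ζ ^ n = 1) : A.valuation ζ = 1 := by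
  have h1 : A.valuation ζ ^ n = 1 := by rw [← map_pow, h, map_one]
  exact (pow_eq_one_iff.mp h1).resolve_right hn

theorem h85k_val_one_sub_pow_le {ζ : K} {q : ℕ} (hq0 : q ≠ 0) (hζ : ζ ^ q = 1) (i : ℕ) :
    A.valuation (1 - ζ ^ i) ≤ A.valuation (1 - ζ) := by
  have h1 : (1 - ζ ^ i) = (1 - ζ) * ∑ j ∈ Finset.range i, ζ ^ j := by
    rw [mul_comm, geom_sum_mul_neg]
  rw [h1, map_mul]
  have h2 : A.valuation (∑ j ∈ Finset.range i, ζ ^ j) ≤ 1 := by
    apply Valuation.map_sum_le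
    intro j _
    rw [map_pow, h85k_val_root A hq0 hζ, one_pow]
  exact mul_le_of_le_one_right' h2

theorem h85k_val_one_sub_pow_eq {ζ : K} {q : ℕ} (hq : q.Prime) (hζ : ζ ^ q = 1) {i : ℕ}
    (hi0 : 0 < i) (hiq : i < q) :
    A.valuation (1 - ζ ^ i) = A.valuation (1 - ζ) := by
  refine le_antisymm (h85k_val_one_sub_pow_le A hq.ne_zero hζ i) ?_
  have hcop : Nat.Coprime i q :=
    Nat.Coprime.symm ((Nat.Prime.coprime_iff_not_dvd hq).mpr (Nat.not_dvd_of_pos_of_lt hi0 hiq))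
  obtain ⟨j, -, hj⟩ := Nat.exists_mul_mod_eq_one_of_coprime hcop hq.one_lt
  have h1 : (ζ ^ i) ^ j = ζ := by
    rw [← pow_mul, pow_eq_pow_mod (i * j) hζ, hj, pow_one]
  have h2 : (ζ ^ i) ^ q = 1 := by rw [← pow_mul, mul_comm, pow_mul, hζ, one_pow]
  have h3 := h85k_val_one_sub_pow_le A hq.ne_zero h2 j
  rwa [h1] at h3

/-- `v(q) = v(1 - ζ)^(q-1)`. -/
theorem h85k_val_q {ζ : K} {q : ℕ} (hq : q.Prime) (hζ : IsPrimitiveRoot ζ q) :
    A.valuation (q : K) = A.valuation (1 - ζ) ^ (q - 1) := by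
  obtain ⟨n, rfl⟩ : ∃ n, q = n + 1 := ⟨q - 1, by have := hq.pos; omega⟩
  have h := hζ.prod_one_sub_pow_eq_order
  have h2 : ((n + 1 : ℕ) : K) = ∏ k ∈ Finset.range n, (1 - ζ ^ (k + 1)) := by
    rw [h]; push_cast; rfl
  rw [h2, map_prod, Nat.add_sub_cancel]
  rw [Finset.prod_congr rfl (fun k hk => h85k_val_one_sub_pow_eq A hq hζ.pow_eq_one
    (Nat.succ_pos k) (by have := Finset.mem_range.mp hk; omega))]
  rw [Finset.prod_const, Finset.card_range]

theorem h85k_val_pi_ne_zero {ζ : K} {q : ℕ} (hq : q.Prime) (hζ : IsPrimitiveRoot ζ q) :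
    A.valuation (1 - ζ) ≠ 0 := by
  rw [ne_eq, map_eq_zero, sub_eq_zero]
  exact fun h => hζ.ne_one hq.one_lt h.symm

theorem h85k_val_pi_lt_one {ζ : K} {q : ℕ} (hq : q.Prime) (hζ : IsPrimitiveRoot ζ q)
    (hqA : (q : K) ∈ A.nonunits) : A.valuation (1 - ζ) < 1 := by
  have h1 : A.valuation (1 - ζ) ≤ 1 := by
    have := h85k_val_one_sub_pow_le A hq.ne_zero hζ.pow_eq_one 1
    have h2 : A.valuation (1 - ζ) ≤ max (A.valuation 1) (A.valuation ζ) := Valuation.map_sub _ _ _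
    rw [map_one, h85k_val_root A hq.ne_zero hζ.pow_eq_one, max_self] at h2
    exact h2
  rcases h1.lt_or_eq with h | h
  · exact h
  · exfalso
    have h3 := h85k_val_q A hq hζ
    rw [h, one_pow] at h3
    have h4 := (ValuationSubring.mem_nonunits_iff (A := A)).mp hqA
    rw [h3] at h4
    exact lt_irrefl _ h4

theorem h85k_exp_inj {d : ℕ} {i j : ℕ} (hi : i < d) (hj : j < d) {a b : ℤ}
    (h : (d : ℤ) * a + i = (d : ℤ) * b + j) : i = j := by
  have h1 : (i : ℤ) - j = d * (b - a) := by linarith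
  rcases lt_trichotomy (b - a) 0 with h2 | h2 | h2
  · have : (d : ℤ) * (b - a) ≤ -d := by nlinarith
    omega
  · rw [h2, mul_zero] at h1; omega
  · have : (d : ℤ) ≤ d * (b - a) := by nlinarith
    omega

theorem h85k_val_sum {q : ℕ} (hq : q.Prime) (hqA : (q : K) ∈ A.nonunits)
    {ζ : K} (hζ : IsPrimitiveRoot ζ q) (c : ℕ → K)
    (hc : ∀ i, c i ≠ 0 → ∃ n : ℤ, A.valuation (c i) = A.valuation (q : K) ^ n)
    (hne : ∑ i ∈ Finset.range (q - 1), c i * (1 - ζ) ^ i ≠ 0) :
    ∃ n : ℤ, A.valuation (∑ i ∈ Finset.range (q - 1), c i * (1 - ζ) ^ i) =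
      A.valuation (1 - ζ) ^ n := by
  classical
  set π : K := 1 - ζ with hπ
  have hπ0 : A.valuation π ≠ 0 := h85k_val_pi_ne_zero A hq hζ
  have hπ1 : A.valuation π < 1 := h85k_val_pi_lt_one A hq hζ hqA
  have hπpos : 0 < A.valuation π := zero_lt_iff.mpr hπ0
  have hvq : A.valuation (q : K) = A.valuation π ^ (q - 1) := h85k_val_q A hq hζ
  -- the valuation of a nonzero term
  have hterm : ∀ i, c i ≠ 0 → ∃ n : ℤ,
      A.valuation (c i * π ^ i) = A.valuation π ^ (((q - 1 : ℕ) : ℤ) * n + i) := by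
    intro i hi
    obtain ⟨n, hn⟩ := hc i hi
    refine ⟨n, ?_⟩
    rw [map_mul, map_pow, hn, hvq, zpow_add₀ hπ0, zpow_mul, zpow_natCast, zpow_natCast]
  have hne' : (Finset.range (q - 1)).Nonempty := by
    rw [Finset.nonempty_range_iff]
    have := hq.two_le
    omega
  obtain ⟨j, hj, hmax⟩ := Finset.exists_max_image (Finset.range (q - 1))
    (fun i => A.valuation (c i * π ^ i)) hne'
  have hπpow : ∀ i : ℕ, π ^ i ≠ 0 := fun i => pow_ne_zero _ (by
    intro h; rw [h, map_zero] at hπ0; exact hπ0 rfl)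
  have hfj : c j ≠ 0 := by
    intro h0
    apply hne
    apply Finset.sum_eq_zero
    intro i hi
    have h1 := hmax i hi
    simp only [h0, zero_mul, map_zero] at h1
    exact (map_eq_zero _).mp (le_antisymm h1 zero_le)
  obtain ⟨nj, hnj⟩ := hterm j hfj
  refine ⟨((q - 1 : ℕ) : ℤ) * nj + j, ?_⟩
  rw [← hnj]
  apply Valuation.map_sum_eq_of_lt _ hj
  intro i hi
  rw [Finset.mem_sdiff, Finset.mem_singleton] at hi
  refine lt_of_le_of_ne (hmax i hi.1) ?_
  intro heq
  by_cases hci : c i = 0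
  · rw [hci, zero_mul, map_zero] at heq
    have := (map_eq_zero (A.valuation)).mp heq.symm
    exact mul_ne_zero hfj (hπpow j) this
  · obtain ⟨ni, hni⟩ := hterm i hci
    rw [hni, hnj] at heq
    have hinj := zpow_right_injective₀ hπpos hπ1.ne heq
    exact hi.2 (h85k_exp_inj (Finset.mem_range.mp hi.1) (Finset.mem_range.mp hj) hinj)

theorem h85k_val_aeval {k : Type*} [Field k] [Algebra k K] {q : ℕ} (hq : q.Prime)
    (hqA : (q : K) ∈ A.nonunits) {ζ : K} (hζ : IsPrimitiveRoot ζ q)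
    (hk : ∀ a : k, a ≠ 0 → ∃ n : ℤ, A.valuation (algebraMap k K a) = A.valuation (q : K) ^ n)
    (p : k[X]) (hp : aeval ζ p ≠ 0) :
    ∃ n : ℤ, A.valuation (aeval ζ p) = A.valuation (1 - ζ) ^ n := by
  have hΦm : (cyclotomic q k).Monic := cyclotomic.monic q k
  have hΦd : (cyclotomic q k).natDegree = q - 1 := by
    rw [natDegree_cyclotomic, Nat.totient_prime hq]
  have hΦ1 : cyclotomic q k ≠ 1 := by
    intro h
    have h2 := hΦd
    rw [h, natDegree_one] at h2
    have := hq.two_le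
    omega
  have hΦr : aeval ζ (cyclotomic q k) = 0 := by
    rw [aeval_def, eval₂_eq_eval_map, map_cyclotomic]
    exact hζ.isRoot_cyclotomic hq.pos
  set r := p %ₘ cyclotomic q k with hr
  have hr1 : aeval ζ r = aeval ζ p := aeval_modByMonic_eq_self_of_root hΦr
  have hr2 : r.natDegree < q - 1 := by
    rw [← hΦd]
    exact natDegree_modByMonic_lt p hΦm hΦ1
  set r' := r.comp (C 1 - X) with hr'
  have hr3 : aeval (1 - ζ) r' = aeval ζ r := by
    rw [hr', aeval_comp]
    simp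
  have hr4 : r'.natDegree < q - 1 := by
    refine lt_of_le_of_lt ?_ hr2
    refine natDegree_comp_le.trans ?_
    have h1 : (C (1 : k) - X).natDegree ≤ 1 := by
      refine (natDegree_sub_le _ _).trans ?_
      simp
    calc r.natDegree * (C (1 : k) - X).natDegree ≤ r.natDegree * 1 :=
          Nat.mul_le_mul_left _ h1
      _ = r.natDegree := mul_one _
  have hsum : aeval ζ p = ∑ i ∈ Finset.range (q - 1),
      algebraMap k K (r'.coeff i) * (1 - ζ) ^ i := by
    rw [← hr1, ← hr3, aeval_eq_sum_range' hr4]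
    simp only [Algebra.smul_def]
  rw [hsum] at hp ⊢
  refine h85k_val_sum A hq hqA hζ (fun i => algebraMap k K (r'.coeff i)) ?_ hp
  intro i hi
  exact hk _ (fun h0 => hi (by simp only [h0, map_zero]))

theorem h85k_val_adjoin {k : Type*} [Field k] [Algebra k K] {q : ℕ} (hq : q.Prime)
    (hqA : (q : K) ∈ A.nonunits) {ζ : K} (hζ : IsPrimitiveRoot ζ q)
    (hk : ∀ a : k, a ≠ 0 → ∃ n : ℤ, A.valuation (algebraMap k K a) = A.valuation (q : K) ^ n)
    {x : K} (hx : x ∈ IntermediateField.adjoin k {ζ}) (hx0 : x ≠ 0) :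
    ∃ n : ℤ, A.valuation x = A.valuation (1 - ζ) ^ n := by
  have hint : IsIntegral k ζ :=
    IsIntegral.of_pow hq.pos (by rw [hζ.pow_eq_one]; exact isIntegral_one)
  have h1 : x ∈ (IntermediateField.adjoin k {ζ}).toSubalgebra := hx
  rw [IntermediateField.adjoin_simple_toSubalgebra_of_isAlgebraic hint.isAlgebraic,
    Algebra.adjoin_singleton_eq_range_aeval] at h1
  obtain ⟨p, rfl⟩ := h1
  exact h85k_val_aeval A hq hqA hζ hk p hx0

/-- valuation `= v(π)^n` in the membership form. -/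
theorem h85k_unit_of_val {π x : K} (hπ : π ≠ 0) {n : ℤ}
    (h : A.valuation x = A.valuation π ^ n) :
    x / π ^ n ∈ A ∧ (x / π ^ n)⁻¹ ∈ A := by
  have hv : A.valuation (x / π ^ n) = 1 := by
    rw [map_div₀, map_zpow₀, h]
    exact div_self (zpow_ne_zero _ ((_root_.map_ne_zero _).mpr hπ))
  constructor
  · rw [← ValuationSubring.valuation_le_one_iff, hv]
  · rw [← ValuationSubring.valuation_le_one_iff, map_inv₀, hv, inv_one]

theorem h85k_val_of_unit {π x : K} (hπ : π ≠ 0) (hx : x ≠ 0) {n : ℤ}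
    (h1 : x / π ^ n ∈ A) (h2 : (x / π ^ n)⁻¹ ∈ A) :
    A.valuation x = A.valuation π ^ n := by
  have hπn : π ^ n ≠ 0 := zpow_ne_zero _ hπ
  have hy : x / π ^ n ≠ 0 := div_ne_zero hx hπn
  have hv0 : A.valuation (x / π ^ n) ≠ 0 := (_root_.map_ne_zero _).mpr hy
  rw [← ValuationSubring.valuation_le_one_iff] at h1 h2
  rw [map_inv₀] at h2
  have h3 : 1 ≤ A.valuation (x / π ^ n) := (inv_le_one₀ (zero_lt_iff.mpr hv0)).mp h2
  have hv : A.valuation (x / π ^ n) = 1 := le_antisymm h1 h3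
  rw [map_div₀, map_zpow₀] at hv
  exact (div_eq_one_iff_eq (zpow_ne_zero _ ((_root_.map_ne_zero _).mpr hπ))).mp hv

end Core

end Fermat.Agent.S36
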