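import Fermat.Agent.S36.H62RegIface
import Fermat.Agent.LGC.Fin71Final
import Fermat.Agent.LGC.Res44
import Fermat.Agent.LGC.H57Teich
import Fermat.Agent.Red.BC.Main
import Fermat.Agent.Red.Kron.FrickeGal
import Fermat.Agent.S36.V28Fix

/-!
# S36, block REG, row R-REDISO (helper99): the chart over the inertia ring has the same
special fibre as the chart over `A`

`q` a prime, `A` a valuation subring of `ℚ̄` over `q`, `B = modelAt N A t` a chart of level `N`,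
`B₀ = h62rChart A N t = B ∩ F₀` the functions of `B` fixed by the inertia group of `A`.

* `h99r_InMax A N t x` : `x ∈ 𝔪_A · B` in elementwise form (`x = cst a * x₁`, `a ∈ 𝔪_A`,
  `x₁ ∈ B`; no sums are needed because `A` is a valuation ring), `h99r_inMax_iff_mem_map`.
* `h99r_congr_of_bc` : **(a)** from base change `BCAt N A t`: every `x ∈ B` is congruent modulo
  `𝔪_A · B` to an element of `B₀` (`B = B₀ + 𝔪_A B`).
* `h99r_div_of_soft` : **(b)**, abstract form.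
* `h99r_congr_M_fin/_inf`, `h99r_congr_Mq_fin/_inf` : (a) at the levels `M` and `M q`
  (`q ∤ M`) for the charts `t = j`, `j⁻¹`.
* `h99r_div_M_fin/_inf`, `h99r_div_Mq_fin/_inf` : **(b)** `𝔪_A B ∩ B₀ = q B₀` at the levels
  `M` and `M q`: an element of `B₀` which lies in `𝔪_A · B` is `q * y₁` with `y₁ ∈ B₀`.
-/

set_option autoImplicit false
set_option linter.unusedSectionVars false
set_option linter.style.haveILetI false

open AlgebraicCurve ModularCurve IsLocalRing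

noncomputable section

namespace Fermat.Agent.S36

open Fermat.Agent.S37 Fermat.Agent.Red Fermat.Agent.Red.GG Fermat.Agent.Red.GV
  Fermat.Agent.Red.GV.Soft Fermat.Agent.Red.Kron Fermat.Agent.LGC

/-! ## `𝔪_A · B`, elementwise -/

section InMax

variable (A : ValuationSubring Kbar) (N : ℕ) (t : FF N)

/-- `x ∈ 𝔪_A · modelAt N A t`, elementwise. -/
def h99r_InMax (x : FF N) : Prop :=
  ∃ a : Kbar, a ∈ A.nonunits ∧ ∃ x₁ : FF N, x₁ ∈ modelAt N A t ∧ x = cst N a * x₁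

variable {A N t}

theorem h99r_inMax_zero : h99r_InMax A N t 0 :=
  ⟨0, by rw [ValuationSubring.mem_nonunits_iff_exists_mem_maximalIdeal]
         exact ⟨A.zero_mem, Ideal.zero_mem _⟩, 0, zero_mem _, by rw [mul_zero]⟩

theorem h99r_inMax_mem {x : FF N} (h : h99r_InMax A N t x) : x ∈ modelAt N A t := by
  obtain ⟨a, ha, x₁, hx₁, rfl⟩ := h
  exact mul_mem (ModelO.h85_cst_mem_modelAt N A t (A.nonunits_le ha)) hx₁

theorem h99r_inMax_mul_left {x z : FF N} (hz : z ∈ modelAt N A t) (h : h99r_InMax A N t x) :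
    h99r_InMax A N t (z * x) := by
  obtain ⟨a, ha, x₁, hx₁, rfl⟩ := h
  exact ⟨a, ha, z * x₁, mul_mem hz hx₁, by ring⟩

theorem h99r_inMax_mul_right {x z : FF N} (hz : z ∈ modelAt N A t) (h : h99r_InMax A N t x) :
    h99r_InMax A N t (x * z) := by
  rw [mul_comm]
  exact h99r_inMax_mul_left hz h

theorem h99r_inMax_neg {x : FF N} (h : h99r_InMax A N t x) : h99r_InMax A N t (-x) := by
  obtain ⟨a, ha, x₁, hx₁, rfl⟩ := h
  exact ⟨a, ha, -x₁, neg_mem hx₁, by ring⟩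

theorem h99r_inMax_cst {a : Kbar} (ha : a ∈ A.nonunits) : h99r_InMax A N t (cst N a) :=
  ⟨a, ha, 1, one_mem _, by rw [mul_one]⟩

/-- sums: `A` is a valuation ring. -/
theorem h99r_inMax_add {x y : FF N} (hx : h99r_InMax A N t x) (hy : h99r_InMax A N t y) :
    h99r_InMax A N t (x + y) := by
  obtain ⟨a, ha, x₁, hx₁, rfl⟩ := hx
  obtain ⟨b, hb, y₁, hy₁, rfl⟩ := hy
  have key : ∀ (a b : Kbar) (x₁ y₁ : FF N), a ∈ A.nonunits → b ∈ A.nonunits →
      x₁ ∈ modelAt N A t → y₁ ∈ modelAt N A t → a ≠ 0 → b / a ∈ A →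
      h99r_InMax A N t (cst N a * x₁ + cst N b * y₁) := by
    intro a b x₁ y₁ ha _ hx₁ hy₁ ha0 hba
    refine ⟨a, ha, x₁ + cst N (b / a) * y₁,
      add_mem hx₁ (mul_mem (ModelO.h85_cst_mem_modelAt N A t hba) hy₁), ?_⟩
    have e : cst N b = cst N a * cst N (b / a) := by
      rw [← map_mul]
      congr 1
      field_simp
    rw [e]
    ring
  by_cases ha0 : a = 0
  · subst ha0
    refine ⟨b, hb, y₁, hy₁, ?_⟩
    have h0 : cst N (0 : Kbar) = 0 := map_zero _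
    rw [h0, zero_mul, zero_add]
  by_cases hb0 : b = 0
  · subst hb0
    refine ⟨a, ha, x₁, hx₁, ?_⟩
    have h0 : cst N (0 : Kbar) = 0 := map_zero _
    rw [h0, zero_mul, add_zero]
  rcases A.mem_or_inv_mem (b / a) with h | h
  · exact key a b x₁ y₁ ha hb hx₁ hy₁ ha0 h
  · have h' : a / b ∈ A := by
      have e : a / b = (b / a)⁻¹ := by rw [inv_div]
      rw [e]
      exact h
    have := key b a y₁ x₁ hb ha hy₁ hx₁ hb0 h'
    rwa [add_comm] at this

theorem h99r_inMax_sub {x y : FF N} (hx : h99r_InMax A N t x) (hy : h99r_InMax A N t y) :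
    h99r_InMax A N t (x - y) := by
  rw [sub_eq_add_neg]
  exact h99r_inMax_add hx (h99r_inMax_neg hy)

/-- the elementwise form is membership in the ideal `𝔪_A · B` of the chart. -/
theorem h99r_inMax_iff_mem_map (x : chart N A t) :
    x ∈ (maximalIdeal A).map (algebraMap A (chart N A t)) ↔ h99r_InMax A N t (x : FF N) := by
  constructor
  · intro hx
    rw [Ideal.map] at hx
    induction hx using Submodule.span_induction with
    | mem y hy =>
      obtain ⟨a, ha, rfl⟩ := hy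
      have ha' : (a : Kbar) ∈ A.nonunits := ValuationSubring.coe_mem_nonunits_iff.mpr ha
      exact h99r_inMax_cst ha'
    | zero => exact h99r_inMax_zero
    | add y z _ _ hy hz => exact h99r_inMax_add hy hz
    | smul r y _ hy => exact h99r_inMax_mul_left r.2 hy
  · rintro ⟨a, ha, x₁, hx₁, hxx⟩
    have haA : a ∈ A := A.nonunits_le ha
    have h1 : x = algebraMap A (chart N A t) ⟨a, haA⟩ * ⟨x₁, hx₁⟩ := Subtype.ext hxx
    rw [h1]
    refine Ideal.mul_mem_right _ _ (Ideal.mem_map_of_mem _ ?_)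
    exact (ValuationSubring.coe_mem_nonunits_iff (A := A) (a := ⟨a, haA⟩)).1 ha

end InMax

/-! ## (a) `B = B₀ + 𝔪_A · B` from base change -/

section Congr

variable {A : ValuationSubring Kbar} {N : ℕ} {t : FF N}

/-- **R-REDISO (a), from base change.**  Every element of the chart over `A` is congruent
modulo `𝔪_A · B` to an element of the chart over the inertia ring. -/
theorem h99r_congr_of_bc {q : ℕ} (hq : q.Prime) (hA : A.LiesOverPrime q) (hBC : BCAt N A t)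
    (x : FF N) (hx : x ∈ modelAt N A t) :
    ∃ y : FF N, y ∈ h62rChart A N t ∧ h99r_InMax A N t (x - y) := by
  have key : ∀ f ∈ Subring.closure
      ((fun a : Kbar => cst N a) '' (A : Set Kbar) ∪ {f | IsRat f ∧ f ∈ modelAt N A t}),
      ∃ y : FF N, y ∈ h62rChart A N t ∧ h99r_InMax A N t (f - y) := by
    intro f hf
    induction hf using Subring.closure_induction with
    | mem y hy =>
      rcases hy with ⟨a, ha, rfl⟩ | ⟨hrat, hy⟩
      · obtain ⟨a', ha', hfix, hcong⟩ := Fermat.Agent.LGC.h57_exists_inertia_fixed (k := ℚ)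
          (fun x => Fermat.Agent.LGC.h57_isAlgebraic_int x) A hq hA ha
        refine ⟨cst N a', ⟨ModelO.h85_cst_mem_modelAt N A t ha', fun σ hσ => ?_⟩, ?_⟩
        · rw [GalI.gal_smul_cst, hfix σ hσ]
        · have e : cst N a - cst N a' = cst N (a - a') :=
            (map_sub (algebraMap Kbar (FF N)) a a').symm
          rw [e]
          exact h99r_inMax_cst hcong
      · refine ⟨y, ⟨hy, fun σ _ => GalI.gal_smul_of_isRat σ hrat⟩, ?_⟩
        rw [sub_self]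
        exact h99r_inMax_zero
    | zero => exact ⟨0, zero_mem _, by rw [sub_self]; exact h99r_inMax_zero⟩
    | one => exact ⟨1, one_mem _, by rw [sub_self]; exact h99r_inMax_zero⟩
    | add y z _ _ ihy ihz =>
      obtain ⟨y₀, hy₀, h₁⟩ := ihy
      obtain ⟨z₀, hz₀, h₂⟩ := ihz
      refine ⟨y₀ + z₀, add_mem hy₀ hz₀, ?_⟩
      have e : y + z - (y₀ + z₀) = (y - y₀) + (z - z₀) := by ring
      rw [e]
      exact h99r_inMax_add h₁ h₂
    | neg y _ ihy =>
      obtain ⟨y₀, hy₀, h₁⟩ := ihy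
      refine ⟨-y₀, neg_mem hy₀, ?_⟩
      have e : -y - -y₀ = -(y - y₀) := by ring
      rw [e]
      exact h99r_inMax_neg h₁
    | mul y z _ _ ihy ihz =>
      obtain ⟨y₀, hy₀, h₁⟩ := ihy
      obtain ⟨z₀, hz₀, h₂⟩ := ihz
      refine ⟨y₀ * z₀, mul_mem hy₀ hz₀, ?_⟩
      have e : y * z - y₀ * z₀ = (y - y₀) * (z - z₀) + (y₀ * (z - z₀) + (y - y₀) * z₀) := by
        ring
      rw [e]
      exact h99r_inMax_add (h99r_inMax_mul_left (h99r_inMax_mem h₁) h₂)
        (h99r_inMax_add (h99r_inMax_mul_left hy₀.1 h₂) (h99r_inMax_mul_right hz₀.1 h₁))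
  exact key x (hBC hx)

end Congr

/-! ## (b) `𝔪_A · B ∩ B₀ = q · B₀` -/

section Div

variable {A : ValuationSubring Kbar}

/-- a product `cst a * x₁` with `a ∈ 𝔪_A` and `x₁` Gauss-integral has zero reduction. -/
theorem h99r_softR_cst_mul (N : ℕ) {a : Kbar} (ha : a ∈ A.nonunits) {x₁ : FF N}
    (hx₁ : x₁ ∈ softV A N) (h : cst N a * x₁ ∈ softV A N) :
    softR A N ⟨cst N a * x₁, h⟩ = 0 := by
  have hc : cst N a ∈ softV A N := (cst_mem_softV_iff A N a).mpr (A.nonunits_le ha)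
  have e : (⟨cst N a * x₁, h⟩ : softV A N) = ⟨cst N a, hc⟩ * ⟨x₁, hx₁⟩ := rfl
  rw [e, map_mul, softR_cst_of_nonunit A N a ha hc, zero_mul]

/-- **discreteness**: a function fixed by inertia which lies in `𝔪_A · W∞` is divisible by `q`
in the Gauss ring `W∞ = softV` (any level). -/
theorem h99r_div_mem_softV (N : ℕ) {q : ℕ} (hq : q.Prime) (hA : A.LiesOverPrime q)
    {x : FF N} (hfix : ∀ σ ∈ A.inertiaSubgroupIn ℚ, gal N σ • x = x)
    {a : Kbar} (ha : a ∈ A.nonunits) {x₁ : FF N} (hx₁ : x₁ ∈ softV A N)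
    (hx : x = cst N a * x₁) :
    cst N (((q : ℕ) : Kbar))⁻¹ * x ∈ softV A N := by
  have hc : cst N a ∈ softV A N := (cst_mem_softV_iff A N a).mpr (A.nonunits_le ha)
  have hxs : x ∈ softV A N := by rw [hx]; exact mul_mem hc hx₁
  have hred : softR A N ⟨x, hxs⟩ = 0 := by
    subst hx
    exact h99r_softR_cst_mul N ha hx₁ hxs
  exact Fermat.Agent.S36.V28.h28v_div_mem_softV A N hq hA x hfix hxs hred

/-- `q⁻¹ x` is fixed by inertia if `x` is. -/
theorem h99r_fixed_div (N : ℕ) (q : ℕ) {x : FF N}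
    (hfix : ∀ σ ∈ A.inertiaSubgroupIn ℚ, gal N σ • x = x) :
    ∀ σ ∈ A.inertiaSubgroupIn ℚ,
      gal N σ • (cst N (((q : ℕ) : Kbar))⁻¹ * x) = cst N (((q : ℕ) : Kbar))⁻¹ * x := by
  intro σ hσ
  rw [smul_mul', hfix σ hσ, GalI.gal_smul_cst, map_inv₀, map_natCast]

theorem h99r_q_mul_div (N : ℕ) {q : ℕ} (hq : q.Prime) (x : FF N) :
    x = (q : FF N) * (cst N (((q : ℕ) : Kbar))⁻¹ * x) := by
  have hq0 : ((q : ℕ) : Kbar) ≠ 0 := Nat.cast_ne_zero.mpr hq.ne_zero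
  have hc : (q : FF N) = cst N ((q : ℕ) : Kbar) := (map_natCast (algebraMap Kbar (FF N)) q).symm
  rw [hc, ← mul_assoc, ← map_mul, mul_inv_cancel₀ hq0, map_one, one_mul]

theorem h99r_cst_q_mul_div (N : ℕ) {q : ℕ} (hq : q.Prime) (x : FF N) :
    cst N ((q : ℕ) : Kbar) * (cst N (((q : ℕ) : Kbar))⁻¹ * x) = x := by
  have hq0 : ((q : ℕ) : Kbar) ≠ 0 := Nat.cast_ne_zero.mpr hq.ne_zero
  rw [← mul_assoc, ← map_mul, mul_inv_cancel₀ hq0, map_one, one_mul]

/-! ### the level `M`, `q ∤ M` -/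

section LevelM

variable {M : ℕ} [NeZero M] {q : ℕ}

/-- **R-REDISO (b), level `M`, finite chart.** -/
theorem h99r_div_M_fin (hq : q.Prime) (hM : ¬ q ∣ M) (hA : A.LiesOverPrime q)
    (x : FF M) (hx : x ∈ h62rChart A M (jB M)) (hmax : h99r_InMax A M (jB M) x) :
    ∃ y₁ : FF M, y₁ ∈ h62rChart A M (jB M) ∧ x = (q : FF M) * y₁ := by
  obtain ⟨a, ha, x₁, hx₁, hxx⟩ := hmax
  have hx₁s : x₁ ∈ softV A M := gaussV_le_softV A M (modelFin_le_gaussV A M hq hM hA hx₁)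
  have h1 : cst M (((q : ℕ) : Kbar))⁻¹ * x ∈ softV A M :=
    h99r_div_mem_softV M hq hA hx.2 ha hx₁s hxx
  have h2 : cst M (((q : ℕ) : Kbar))⁻¹ * x ∈ gaussV A M := softV_le_gaussV A M hq hM hA h1
  have hq0 : ((q : ℕ) : Kbar) ≠ 0 := Nat.cast_ne_zero.mpr hq.ne_zero
  have h3 : cst M (((q : ℕ) : Kbar))⁻¹ * x ∈ modelFin M A := by
    refine mem_modelFin_of_cst_mul A M hq hM hA _ h2 ((q : ℕ) : Kbar) (natCast_mem A q) hq0 ?_
    rw [h99r_cst_q_mul_div M hq x]
    exact hx.1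
  exact ⟨_, ⟨h3, h99r_fixed_div M q hx.2⟩, h99r_q_mul_div M hq x⟩

/-- **R-REDISO (b), level `M`, chart at infinity.** -/
theorem h99r_div_M_inf (hq : q.Prime) (hM : ¬ q ∣ M) (hA : A.LiesOverPrime q)
    (x : FF M) (hx : x ∈ h62rChart A M (jB M)⁻¹) (hmax : h99r_InMax A M (jB M)⁻¹ x) :
    ∃ y₁ : FF M, y₁ ∈ h62rChart A M (jB M)⁻¹ ∧ x = (q : FF M) * y₁ := by
  obtain ⟨a, ha, x₁, hx₁, hxx⟩ := hmax
  have hx₁s : x₁ ∈ softV A M := gaussV_le_softV A M (modelInf_le_gaussV A M hq hM hA hx₁)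
  have h1 : cst M (((q : ℕ) : Kbar))⁻¹ * x ∈ softV A M :=
    h99r_div_mem_softV M hq hA hx.2 ha hx₁s hxx
  have h2 : cst M (((q : ℕ) : Kbar))⁻¹ * x ∈ gaussV A M := softV_le_gaussV A M hq hM hA h1
  have hq0 : ((q : ℕ) : Kbar) ≠ 0 := Nat.cast_ne_zero.mpr hq.ne_zero
  have h3 : cst M (((q : ℕ) : Kbar))⁻¹ * x ∈ modelInf M A := by
    refine mem_modelInf_of_cst_mul A M hq hM hA _ h2 ((q : ℕ) : Kbar) (natCast_mem A q) hq0 ?_
    rw [h99r_cst_q_mul_div M hq x]
    exact hx.1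
  exact ⟨_, ⟨h3, h99r_fixed_div M q hx.2⟩, h99r_q_mul_div M hq x⟩

/-- **R-REDISO (a), level `M`, finite chart.** -/
theorem h99r_congr_M_fin (hq : q.Prime) (hM : ¬ q ∣ M) (hA : A.LiesOverPrime q)
    (x : FF M) (hx : x ∈ modelAt M A (jB M)) :
    ∃ y : FF M, y ∈ h62rChart A M (jB M) ∧ h99r_InMax A M (jB M) (x - y) :=
  h99r_congr_of_bc hq hA (Fermat.Agent.Red.BC.ifaceBaseChange M q hq hM A hA).1 x hx

/-- **R-REDISO (a), level `M`, chart at infinity.** -/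
theorem h99r_congr_M_inf (hq : q.Prime) (hM : ¬ q ∣ M) (hA : A.LiesOverPrime q)
    (x : FF M) (hx : x ∈ modelAt M A (jB M)⁻¹) :
    ∃ y : FF M, y ∈ h62rChart A M (jB M)⁻¹ ∧ h99r_InMax A M (jB M)⁻¹ (x - y) :=
  h99r_congr_of_bc hq hA (Fermat.Agent.Red.BC.ifaceBaseChange M q hq hM A hA).2 x hx

end LevelM

/-! ### the level `M q`, `q ∤ M` -/

section LevelMq

variable {M q : ℕ} [NeZero M] [NeZero q]

/-- **(b), level `M q`, abstract form**: for a chart contained in the semistable Gauss ring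
`ssV` and with QEP for the modulus `q`. -/
theorem h99r_div_Mq_of (hq : q.Prime) (hM : ¬ q ∣ M) (hA : A.LiesOverPrime q)
    (t : FF (M * q)) (hBV : ∀ x ∈ modelAt (M * q) A t, x ∈ ssV A M q)
    (hQ : H71QEP A M q t)
    (x : FF (M * q)) (hx : x ∈ h62rChart A (M * q) t) (hmax : h99r_InMax A (M * q) t x) :
    ∃ y₁ : FF (M * q), y₁ ∈ h62rChart A (M * q) t ∧ x = (q : FF (M * q)) * y₁ := by
  obtain ⟨a, ha, x₁, hx₁, hxx⟩ := hmax
  have hx₁V : x₁ ∈ ssV A M q := hBV x₁ hx₁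
  have hx₁s : x₁ ∈ softV A (M * q) := h44r_ssV_le_softV A M q hq hA hx₁V
  have hx₁w : kFricke M q hq hM x₁ ∈ softV A (M * q) :=
    h44r_kFricke_ssV_le_softV A M q hq hM hA hx₁V
  -- `x / q ∈ W∞`
  have h1 : cst (M * q) (((q : ℕ) : Kbar))⁻¹ * x ∈ softV A (M * q) :=
    h99r_div_mem_softV (M * q) hq hA hx.2 ha hx₁s hxx
  -- `w (x / q) ∈ W∞`
  have hwfix : ∀ σ ∈ A.inertiaSubgroupIn ℚ,
      gal (M * q) σ • kFricke M q hq hM x = kFricke M q hq hM x := by
    intro σ hσ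
    have h := kFricke_gal M q hq hM σ x
    rw [← h]
    congr 1
    exact hx.2 σ hσ
  have hwx : kFricke M q hq hM x = cst (M * q) a * kFricke M q hq hM x₁ := by
    rw [hxx, map_mul, kFricke_cst]
  have h2 : cst (M * q) (((q : ℕ) : Kbar))⁻¹ * kFricke M q hq hM x ∈ softV A (M * q) :=
    h99r_div_mem_softV (M * q) hq hA hwfix ha hx₁w hwx
  have h2' : kFricke M q hq hM (cst (M * q) (((q : ℕ) : Kbar))⁻¹ * x) ∈ softV A (M * q) := by
    rw [map_mul, kFricke_cst]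
    exact h2
  -- `x / q ∈ ssV`
  have h3 : cst (M * q) (((q : ℕ) : Kbar))⁻¹ * x ∈ ssV A M q := by
    refine h44v_mem_ssV_of_isFrac A M q hq hM hA _ ?_ ?_
    · obtain ⟨u, v, hv, huv⟩ := h1
      exact ⟨u, v, hv, huv⟩
    · obtain ⟨u, v, hv, huv⟩ := h2'
      exact ⟨u, v, hv, huv⟩
  -- QEP
  have h4 : cst (M * q) (((q : ℕ) : Kbar))⁻¹ * x ∈ modelAt (M * q) A t := by
    refine hQ _ h3 ?_
    rw [h99r_cst_q_mul_div (M * q) hq x]
    exact hx.1
  exact ⟨_, ⟨h4, h99r_fixed_div (M * q) q hx.2⟩, h99r_q_mul_div (M * q) hq x⟩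

/-- **R-REDISO (b), level `M q`, finite chart.** -/
theorem h99r_div_Mq_fin (hq : q.Prime) (hM : ¬ q ∣ M) (hA : A.LiesOverPrime q)
    (x : FF (M * q)) (hx : x ∈ h62rChart A (M * q) (jB (M * q)))
    (hmax : h99r_InMax A (M * q) (jB (M * q)) x) :
    ∃ y₁ : FF (M * q), y₁ ∈ h62rChart A (M * q) (jB (M * q)) ∧ x = (q : FF (M * q)) * y₁ := by
  have hBV := h44v_hBV_fin A M q hq hM hA
  have hQ := h71_qep_fin (A := A) hq hM hA
  rw [h71i_jSS_eq] at hBV hQ
  exact h99r_div_Mq_of hq hM hA _ hBV hQ x hx hmax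

/-- **R-REDISO (b), level `M q`, chart at infinity.** -/
theorem h99r_div_Mq_inf (hq : q.Prime) (hM : ¬ q ∣ M) (hA : A.LiesOverPrime q)
    (x : FF (M * q)) (hx : x ∈ h62rChart A (M * q) (jB (M * q))⁻¹)
    (hmax : h99r_InMax A (M * q) (jB (M * q))⁻¹ x) :
    ∃ y₁ : FF (M * q), y₁ ∈ h62rChart A (M * q) (jB (M * q))⁻¹ ∧
      x = (q : FF (M * q)) * y₁ := by
  have hBV := h44v_hBV_inf A M q hq hM hA
  have hQ := h71_qep_inf (A := A) hq hM hA
  rw [h71i_jSS_eq] at hBV hQ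
  exact h99r_div_Mq_of hq hM hA _ hBV hQ x hx hmax

/-- **R-REDISO (a), level `M q`, finite chart.** -/
theorem h99r_congr_Mq_fin (hq : q.Prime) (hM : ¬ q ∣ M) (hA : A.LiesOverPrime q)
    (x : FF (M * q)) (hx : x ∈ modelAt (M * q) A (jB (M * q))) :
    ∃ y : FF (M * q), y ∈ h62rChart A (M * q) (jB (M * q)) ∧
      h99r_InMax A (M * q) (jB (M * q)) (x - y) := by
  have hBC := h71_bcAt_fin (A := A) hq hM hA
  rw [h71i_jSS_eq] at hBC
  exact h99r_congr_of_bc hq hA hBC x hx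

/-- **R-REDISO (a), level `M q`, chart at infinity.** -/
theorem h99r_congr_Mq_inf (hq : q.Prime) (hM : ¬ q ∣ M) (hA : A.LiesOverPrime q)
    (x : FF (M * q)) (hx : x ∈ modelAt (M * q) A (jB (M * q))⁻¹) :
    ∃ y : FF (M * q), y ∈ h62rChart A (M * q) (jB (M * q))⁻¹ ∧
      h99r_InMax A (M * q) (jB (M * q))⁻¹ (x - y) := by
  have hBC := h71_bcAt_inf (A := A) hq hM hA
  rw [h71i_jSS_eq] at hBC
  exact h99r_congr_of_bc hq hA hBC x hx

end LevelMq

end Div

end Fermat.Agent.S36
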