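import Fermat.Agent.S36.H11TorSkel
import Fermat.Agent.S36.H62FinIface
import Fermat.Agent.S36.H95Cusp
import Fermat.Agent.S36.H99RedIso
import Fermat.Agent.S36.H59Base0
import Fermat.Agent.S36.H44FrickeChart2
import Fermat.Agent.LGC.H71Frob
import Fermat.Agent.LGC.FrickeChart

/-!
# S36, row T-PT (helper85, prefix `h85n_` / `H85Fin`): nodes under the supersingular points

Target: `H11TorPt` (`S36/H11TorSkel.lean`, helper11), a leaf of `H11LocTor`.

`B₁ = ` chart `j` of level `M q`, `B₂ = ` chart `j` of level `M q q` (over the inertia ring),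
`α₂, β₂ : B₁ → B₂`.  For a closed point `𝔫 ∋ q` of `B₂` which is NOT a one-branch point the
contractions `α₂⁻¹ 𝔫`, `β₂⁻¹ 𝔫` are closed points of `B₁` through which both components
`C_∞` (`h11t_Einf`) and `C_0` (`h11t_Ezero`) pass.

## Inputs

* `H62L1` (R-L1): the trichotomy node / smooth on `C_∞` / smooth on `C_0` at level `M q`;
* `H62FinContr` (R-BASE2): `α₂⁻¹ 𝔫` is maximal;
* `H85FinInfOne`, `H85FinZeroOne` (**the strong form of R-ORD**): over a smooth point of level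
  `M q` the points of level `M q q` have the ONE-BRANCH datum `h95s_OneDatum` (the second
  disjunct of `H62Datum`; the frozen `H62FinInf`, `H62FinZero` only give the disjunction, which
  does not bound the number of branches).

## Proof

* `h85n_div_of_small` : (QEP at level `M q`) a function of `B₁` which is Gauss-small at both
  `C_∞` and `C_0` is divisible by `q` in `B₁` (discreteness `h28v_div_mem_softV` on `F₀`,
  `ssV = W_∞ ∩ W_0`, `h71_qep_fin`).
* `h85n_centred_of_node` : at a node `(X, Y)`, `(Y - X^q)(Y^q - X) = - q ρ`, `ρ ∉ 𝔫₁`: if `b` is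
  small on `C_∞` then `b (Y^q - X)` is small on both components, so `b (Y^q - X) = q c`, hence
  `(Y^q - X)(b ρ + (Y - X^q) c) = 0` and `b ρ ∈ 𝔫₁`.
* `h85n_alpha` : the statement for `α₂` (trichotomy at `α₂⁻¹ 𝔫`).
* `h85n_beta` : the statement for `β₂` from the one for `α₂` at the point `w₂⁻¹ 𝔫`
  (`w₂` the Fricke involution of level `M q q`, `w₂ α₂ = β₂ w₁`).
* `h85n_torPt : H62L1 → H62FinContr → H85FinInfOne → H85FinZeroOne → H11TorPt`.

Every declaration is a definition, an interface `Prop` or a proved theorem; nothing is assumed.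
-/

set_option autoImplicit false
set_option linter.unusedSectionVars false
set_option linter.style.haveILetI false

open AlgebraicCurve ModularCurve IsLocalRing

noncomputable section

namespace Fermat.Agent.S36

open Fermat.Agent.S37 Fermat.Agent.Red Fermat.Agent.Red.GG Fermat.Agent.Red.GV
  Fermat.Agent.Red.GV.Soft Fermat.Agent.Red.Kron Fermat.Agent.LGC

/-! ## Calculus of Gauss-small functions -/

section Small

variable {A : ValuationSubring Kbar} {N : ℕ}

/-- small at the standard embedding = Gauss-integral with zero reduction. -/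
theorem h85n_small_coe_iff (x : FF N) :
    h11l_Small A (algebraMap (FF N) (LaurentSeries Kbar)) x ↔
      ∃ h : x ∈ softV A N, softR A N ⟨x, h⟩ = 0 :=
  Iff.rfl

theorem h85n_small_mul_left {E : FF N →+* LaurentSeries Kbar} {x y : FF N}
    (hy : E y ∈ softOT A (residue A)) (hx : h11l_Small A E x) : h11l_Small A E (y * x) := by
  obtain ⟨h, h0⟩ := hx
  have hm : E (y * x) ∈ softOT A (residue A) := by
    rw [map_mul]
    exact mul_mem hy h
  refine ⟨hm, ?_⟩
  have e : (⟨E (y * x), hm⟩ : softOT A (residue A)) = ⟨E y, hy⟩ * ⟨E x, h⟩ :=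
    Subtype.ext (map_mul E y x)
  rw [e, map_mul, h0, mul_zero]

theorem h85n_small_mul_right {E : FF N →+* LaurentSeries Kbar} {x y : FF N}
    (hx : h11l_Small A E x) (hy : E y ∈ softOT A (residue A)) : h11l_Small A E (x * y) := by
  rw [mul_comm]
  exact h85n_small_mul_left hy hx

theorem h85n_small_neg {E : FF N →+* LaurentSeries Kbar} {x : FF N}
    (hx : h11l_Small A E x) : h11l_Small A E (-x) := by
  have h1 : E (-1 : FF N) ∈ softOT A (residue A) := by
    rw [map_neg, map_one]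
    exact neg_mem (one_mem _)
  have h2 := h85n_small_mul_left h1 hx
  rwa [neg_one_mul] at h2

end Small

/-! ## The level `M q`: QEP and the nodes -/

section LevelMq

variable {A : ValuationSubring Kbar} {M q : ℕ} [NeZero M] [NeZero q]

theorem h85n_Einf_apply (x : FF (M * q)) :
    h11t_Einf M q x = algebraMap (FF (M * q)) (LaurentSeries Kbar) x := rfl

theorem h85n_Ezero_apply (hq : q.Prime) (hM : ¬ q ∣ M) (x : FF (M * q)) :
    h11t_Ezero M q hq hM x =
      algebraMap (FF (M * q)) (LaurentSeries Kbar) (kFricke M q hq hM x) := rfl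

/-- small on `C_∞`. -/
theorem h85n_small_inf_iff (x : FF (M * q)) :
    h11l_Small A (h11t_Einf M q) x ↔
      ∃ h : x ∈ softV A (M * q), softR A (M * q) ⟨x, h⟩ = 0 :=
  Iff.rfl

/-- small on `C_0`. -/
theorem h85n_small_zero_iff (hq : q.Prime) (hM : ¬ q ∣ M) (x : FF (M * q)) :
    h11l_Small A (h11t_Ezero M q hq hM) x ↔
      ∃ h : kFricke M q hq hM x ∈ softV A (M * q),
        softR A (M * q) ⟨kFricke M q hq hM x, h⟩ = 0 :=
  Iff.rfl

/-- the elements of the chart are Gauss-integral on `C_∞`. -/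
theorem h85n_chart_int_inf (hq : q.Prime) (hM : ¬ q ∣ M) (hA : A.LiesOverPrime q)
    {x : FF (M * q)} (hx : x ∈ h62rChart A (M * q) (jSS M q)) :
    h11t_Einf M q x ∈ softOT A (residue A) :=
  h44r_ssV_le_softV A M q hq hA (h44v_hBV_fin A M q hq hM hA x hx.1)

/-- the elements of the chart are Gauss-integral on `C_0`. -/
theorem h85n_chart_int_zero (hq : q.Prime) (hM : ¬ q ∣ M) (hA : A.LiesOverPrime q)
    {x : FF (M * q)} (hx : x ∈ h62rChart A (M * q) (jSS M q)) :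
    h11t_Ezero M q hq hM x ∈ softOT A (residue A) :=
  h44r_kFricke_ssV_le_softV A M q hq hM hA (h44v_hBV_fin A M q hq hM hA x hx.1)

/-- **QEP at the level `M q`**: a function of the chart which is Gauss-small on both components
is divisible by `q` in the chart. -/
theorem h85n_div_of_small (hq : q.Prime) (hM : ¬ q ∣ M) (hA : A.LiesOverPrime q)
    (x : FF (M * q)) (hx : x ∈ h62rChart A (M * q) (jSS M q))
    (h₁ : h11l_Small A (h11t_Einf M q) x) (h₂ : h11l_Small A (h11t_Ezero M q hq hM) x) :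
    ∃ y₁ : FF (M * q), y₁ ∈ h62rChart A (M * q) (jSS M q) ∧ x = (q : FF (M * q)) * y₁ := by
  obtain ⟨hxs, hred⟩ := (h85n_small_inf_iff x).mp h₁
  obtain ⟨hws, hwred⟩ := (h85n_small_zero_iff hq hM x).mp h₂
  have h1 : cst (M * q) (((q : ℕ) : Kbar))⁻¹ * x ∈ softV A (M * q) :=
    Fermat.Agent.S36.V28.h28v_div_mem_softV A (M * q) hq hA x hx.2 hxs hred
  have hwfix : ∀ σ ∈ A.inertiaSubgroupIn ℚ,
      gal (M * q) σ • kFricke M q hq hM x = kFricke M q hq hM x := by
    intro σ hσ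
    have h := kFricke_gal M q hq hM σ x
    rw [← h]
    congr 1
    exact hx.2 σ hσ
  have h2 : cst (M * q) (((q : ℕ) : Kbar))⁻¹ * kFricke M q hq hM x ∈ softV A (M * q) :=
    Fermat.Agent.S36.V28.h28v_div_mem_softV A (M * q) hq hA _ hwfix hws hwred
  have h2' : kFricke M q hq hM (cst (M * q) (((q : ℕ) : Kbar))⁻¹ * x) ∈ softV A (M * q) := by
    rw [map_mul, kFricke_cst]
    exact h2
  have h3 : cst (M * q) (((q : ℕ) : Kbar))⁻¹ * x ∈ ssV A M q := by
    refine h44v_mem_ssV_of_isFrac A M q hq hM hA _ ?_ ?_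
    · obtain ⟨u, v, hv, huv⟩ := h1
      exact ⟨u, v, hv, huv⟩
    · obtain ⟨u, v, hv, huv⟩ := h2'
      exact ⟨u, v, hv, huv⟩
  have hQ := h71_qep_fin (A := A) hq hM hA
  have h4 : cst (M * q) (((q : ℕ) : Kbar))⁻¹ * x ∈ modelAt (M * q) A (jSS M q) := by
    refine hQ _ h3 ?_
    rw [h99r_cst_q_mul_div (M * q) hq x]
    exact hx.1
  exact ⟨_, ⟨h4, h99r_fixed_div (M * q) q hx.2⟩, h99r_q_mul_div (M * q) hq x⟩

/-- the Frobenius congruence on `C_∞`: `β u - (α u)^q` is small on `C_∞`. -/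
theorem h85n_frob_inf (hq : q.Prime) (hM : ¬ q ∣ M) (hA : A.LiesOverPrime q)
    (u : FF M) (hrat : IsRat u) (hu : u ∈ h62rChart A M (jB M)) :
    h11l_Small A (h11t_Einf M q)
      (heckeBetaBar Kbar M q u - (heckeAlphaBar Kbar M q u) ^ q) :=
  (h85n_small_inf_iff _).mpr (h71r_frob_alpha_modelFin A M q hq hM hA u hrat hu.1)

/-- the Frobenius congruence on `C_0`: `(β u)^q - α u` is small on `C_0`. -/
theorem h85n_frob_zero (hq : q.Prime) (hM : ¬ q ∣ M) (hA : A.LiesOverPrime q)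
    (u : FF M) (hrat : IsRat u) (hu : u ∈ h62rChart A M (jB M)) :
    h11l_Small A (h11t_Ezero M q hq hM)
      ((heckeBetaBar Kbar M q u) ^ q - heckeAlphaBar Kbar M q u) := by
  have h1 : h11l_Small A (h11t_Ezero M q hq hM)
      (heckeAlphaBar Kbar M q u - (heckeBetaBar Kbar M q u) ^ q) :=
    (h85n_small_zero_iff hq hM _).mpr (h71r_frob_beta_modelFin A M q hq hM hA u hrat hu.1)
  have h2 := h85n_small_neg h1
  rwa [neg_sub] at h2

theorem h85n_natCast_ne_zero (N : ℕ) {q : ℕ} (hq : q.Prime) : ((q : ℕ) : FF N) ≠ 0 := by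
  have hc : ((q : ℕ) : FF N) = cst N ((q : ℕ) : Kbar) :=
    (map_natCast (algebraMap Kbar (FF N)) q).symm
  rw [hc, cst, Ne, map_eq_zero_iff _ (algebraMap Kbar (FF N)).injective]
  exact Nat.cast_ne_zero.mpr hq.ne_zero

/-- **at a node both components pass through the point.** -/
theorem h85n_centred_of_node (hq : q.Prime) (hM : ¬ q ∣ M) (hA : A.LiesOverPrime q)
    (𝔫₁ : Ideal (h62rChart A (M * q) (jSS M q))) (h𝔫 : 𝔫₁.IsPrime)
    (hnode : H62NodeDatum A M hq hM hA 𝔫₁) :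
    (∀ b : h62rChart A (M * q) (jSS M q),
      h11l_Small A (h11t_Einf M q) (b : FF (M * q)) → b ∈ 𝔫₁) ∧
    (∀ b : h62rChart A (M * q) (jSS M q),
      h11l_Small A (h11t_Ezero M q hq hM) (b : FF (M * q)) → b ∈ 𝔫₁) := by
  obtain ⟨u, hrat, hx, hy, ⟨ρ, hρ, hrel⟩, -⟩ := hnode
  set X := h62rAlpha A M (q := q) u with hX
  set Y := h62rBeta A M hq hM hA u with hY
  have hq0 : ((q : ℕ) : h62rChart A (M * q) (jSS M q)) ≠ 0 := by
    intro h0
    have h1 := congrArg (Subtype.val) h0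
    exact h85n_natCast_ne_zero (M * q) hq h1
  have hρ0 : ρ ≠ 0 := fun h => hρ (h ▸ 𝔫₁.zero_mem)
  have hprod : (Y - X ^ q) * (Y ^ q - X) =
      - ((q : h62rChart A (M * q) (jSS M q)) * ρ) := eq_neg_of_add_eq_zero_left hrel
  have hne : (Y - X ^ q) * (Y ^ q - X) ≠ 0 := by
    rw [hprod]
    exact neg_ne_zero.mpr (mul_ne_zero hq0 hρ0)
  have hf₁ : Y - X ^ q ≠ 0 := left_ne_zero_of_mul hne
  have hf₂ : Y ^ q - X ≠ 0 := right_ne_zero_of_mul hne
  have hf₁mem : Y - X ^ q ∈ 𝔫₁ := sub_mem hy (Ideal.pow_mem_of_mem _ hx q hq.pos)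
  have hf₂mem : Y ^ q - X ∈ 𝔫₁ := sub_mem (Ideal.pow_mem_of_mem _ hy q hq.pos) hx
  have hc₁ : ((Y - X ^ q : h62rChart A (M * q) (jSS M q)) : FF (M * q)) =
      heckeBetaBar Kbar M q (u : FF M) - (heckeAlphaBar Kbar M q (u : FF M)) ^ q := rfl
  have hc₂ : ((Y ^ q - X : h62rChart A (M * q) (jSS M q)) : FF (M * q)) =
      (heckeBetaBar Kbar M q (u : FF M)) ^ q - heckeAlphaBar Kbar M q (u : FF M) := rfl
  have hs₁ : h11l_Small A (h11t_Einf M q)
      ((Y - X ^ q : h62rChart A (M * q) (jSS M q)) : FF (M * q)) := by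
    rw [hc₁]
    exact h85n_frob_inf hq hM hA _ hrat u.2
  have hs₂ : h11l_Small A (h11t_Ezero M q hq hM)
      ((Y ^ q - X : h62rChart A (M * q) (jSS M q)) : FF (M * q)) := by
    rw [hc₂]
    exact h85n_frob_zero hq hM hA _ hrat u.2
  constructor
  · intro b hb
    have h1 : h11l_Small A (h11t_Einf M q)
        ((b : FF (M * q)) * ((Y ^ q - X : h62rChart A (M * q) (jSS M q)) : FF (M * q))) :=
      h85n_small_mul_right hb (h85n_chart_int_inf hq hM hA (Y ^ q - X).2)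
    have h2 : h11l_Small A (h11t_Ezero M q hq hM)
        ((b : FF (M * q)) * ((Y ^ q - X : h62rChart A (M * q) (jSS M q)) : FF (M * q))) :=
      h85n_small_mul_left (h85n_chart_int_zero hq hM hA b.2) hs₂
    obtain ⟨c, hc, hbc⟩ := h85n_div_of_small hq hM hA _ (mul_mem b.2 (Y ^ q - X).2) h1 h2
    have e : b * (Y ^ q - X) =
        (q : h62rChart A (M * q) (jSS M q)) * (⟨c, hc⟩ : h62rChart A (M * q) (jSS M q)) :=
      Subtype.ext hbc
    have e2 : (Y ^ q - X) * (b * ρ + (Y - X ^ q) * ⟨c, hc⟩) = 0 := by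
      linear_combination ρ * e + (⟨c, hc⟩ : h62rChart A (M * q) (jSS M q)) * hprod
    have e3 : b * ρ + (Y - X ^ q) * ⟨c, hc⟩ = 0 := (mul_eq_zero.mp e2).resolve_left hf₂
    have e4 : b * ρ ∈ 𝔫₁ := by
      rw [eq_neg_of_add_eq_zero_left e3]
      exact neg_mem (Ideal.mul_mem_right _ _ hf₁mem)
    exact (h𝔫.mem_or_mem e4).resolve_right hρ
  · intro b hb
    have h1 : h11l_Small A (h11t_Einf M q)
        ((b : FF (M * q)) * ((Y - X ^ q : h62rChart A (M * q) (jSS M q)) : FF (M * q))) :=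
      h85n_small_mul_left (h85n_chart_int_inf hq hM hA b.2) hs₁
    have h2 : h11l_Small A (h11t_Ezero M q hq hM)
        ((b : FF (M * q)) * ((Y - X ^ q : h62rChart A (M * q) (jSS M q)) : FF (M * q))) :=
      h85n_small_mul_right hb (h85n_chart_int_zero hq hM hA (Y - X ^ q).2)
    obtain ⟨c, hc, hbc⟩ := h85n_div_of_small hq hM hA _ (mul_mem b.2 (Y - X ^ q).2) h1 h2
    have e : b * (Y - X ^ q) =
        (q : h62rChart A (M * q) (jSS M q)) * (⟨c, hc⟩ : h62rChart A (M * q) (jSS M q)) :=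
      Subtype.ext hbc
    have e2 : (Y - X ^ q) * (b * ρ + (Y ^ q - X) * ⟨c, hc⟩) = 0 := by
      linear_combination ρ * e + (⟨c, hc⟩ : h62rChart A (M * q) (jSS M q)) * hprod
    have e3 : b * ρ + (Y ^ q - X) * ⟨c, hc⟩ = 0 := (mul_eq_zero.mp e2).resolve_left hf₁
    have e4 : b * ρ ∈ 𝔫₁ := by
      rw [eq_neg_of_add_eq_zero_left e3]
      exact neg_mem (Ideal.mul_mem_right _ _ hf₂mem)
    exact (h𝔫.mem_or_mem e4).resolve_right hρ

end LevelMq

/-! ## The strong form of R-ORD -/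

/-- **R-ORD (∞), strong form**: over a smooth point of `C_∞` of the level `M q` the closed
points of the level `M q q` have the one-branch datum. -/
def H85FinInfOne : Prop :=
  ∀ (q : ℕ) (hq : q.Prime) (M : ℕ) [NeZero M] (hM : ¬ q ∣ M), auxLevel q ∣ M →
    haveI : NeZero q := ⟨hq.ne_zero⟩
    ∀ (A : ValuationSubring Kbar) (hA : A.LiesOverPrime q),
      ∀ 𝔫₂ : Ideal (h62rChart A (M * q * q) (jB (M * q * q))), 𝔫₂.IsMaximal →
        (q : h62rChart A (M * q * q) (jB (M * q * q))) ∈ 𝔫₂ →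
        H62InfDatum A M hq hM hA (𝔫₂.comap (h62rA2 A M)) →
          h95s_OneDatum 𝔫₂ (q : h62rChart A (M * q * q) (jB (M * q * q)))

/-- **R-ORD (0), strong form**: over a smooth point of `C_0` of the level `M q` the closed
points of the level `M q q` have the one-branch datum. -/
def H85FinZeroOne : Prop :=
  ∀ (q : ℕ) (hq : q.Prime) (M : ℕ) [NeZero M] (hM : ¬ q ∣ M), auxLevel q ∣ M →
    haveI : NeZero q := ⟨hq.ne_zero⟩
    ∀ (A : ValuationSubring Kbar) (hA : A.LiesOverPrime q),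
      ∀ 𝔫₂ : Ideal (h62rChart A (M * q * q) (jB (M * q * q))), 𝔫₂.IsMaximal →
        (q : h62rChart A (M * q * q) (jB (M * q * q))) ∈ 𝔫₂ →
        H62ZeroDatum A M hq hM hA (𝔫₂.comap (h62rA2 A M)) →
          h95s_OneDatum 𝔫₂ (q : h62rChart A (M * q * q) (jB (M * q * q)))

/-- the strong form gives the frozen leaf `H62FinInf`. -/
theorem h85n_finInf_of (h : H85FinInfOne) : H62FinInf := by
  intro q hq M _ hM haux
  haveI : NeZero q := ⟨hq.ne_zero⟩
  intro A hA 𝔫₂ h𝔫₂ hq𝔫₂ hd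
  exact h95s_datum_of_one 𝔫₂ q (h q hq M hM haux A hA 𝔫₂ h𝔫₂ hq𝔫₂ hd)

/-- the strong form gives the frozen leaf `H62FinZero`. -/
theorem h85n_finZero_of (h : H85FinZeroOne) : H62FinZero := by
  intro q hq M _ hM haux
  haveI : NeZero q := ⟨hq.ne_zero⟩
  intro A hA 𝔫₂ h𝔫₂ hq𝔫₂ hd
  exact h95s_datum_of_one 𝔫₂ q (h q hq M hM haux A hA 𝔫₂ h𝔫₂ hq𝔫₂ hd)

/-! ## The nodes under a point which is not a one-branch point -/

section Pt

variable {A : ValuationSubring Kbar} {M q : ℕ} [NeZero M] [NeZero q]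

/-- the conclusion of `H11TorPt` for one map `φ`, for arbitrary subrings `B₁`, `B₂` in the place
of the two charts (so that the two spellings `h92c_Chart`, `h62rChart` of the charts can be
exchanged by a substitution). -/
def h85n_Gen (A : ValuationSubring Kbar) (M q : ℕ) [NeZero M] [NeZero q] (hq : q.Prime)
    (hqM : ¬ q ∣ M) (φ : FF (M * q) →+* FF (M * q * q))
    (B₁ : Subring (FF (M * q))) (B₂ : Subring (FF (M * q * q))) (𝔫 : Ideal B₂) : Prop :=
  ∃ 𝔫' : Ideal B₁, 𝔫'.IsMaximal ∧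
    (∀ b' : B₁, b' ∈ 𝔫' ↔
      ∃ b : B₂, b ∈ 𝔫 ∧ (b : FF (M * q * q)) = φ (b' : FF (M * q))) ∧
    (∀ b : B₁, h11l_Small A (h11t_Einf M q) (b : FF (M * q)) → b ∈ 𝔫') ∧
    (∀ b : B₁, h11l_Small A (h11t_Ezero M q hq hqM) (b : FF (M * q)) → b ∈ 𝔫')

theorem h85n_chart_eq (A : ValuationSubring Kbar) (N : ℕ) (t : FF N) :
    h92c_Chart A N t = h62rChart A N t := rfl

theorem h85n_chart_eq_ss (A : ValuationSubring Kbar) (M q : ℕ) [NeZero M] [NeZero q] :
    h92c_Chart A (M * q) (jB (M * q)) = h62rChart A (M * q) (jSS M q) := by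
  rw [h71i_jSS_eq M q]
  rfl

/-- **T-PT for `α₂`** (vocabulary `h62rChart`). -/
theorem h85n_alpha (h1 : H62L1) (hc : H62FinContr) (hi : H85FinInfOne) (hz : H85FinZeroOne)
    (hq : q.Prime) (hM : ¬ q ∣ M) (haux : auxLevel q ∣ M) (hA : A.LiesOverPrime q)
    (𝔫 : Ideal (h62rChart A (M * q * q) (jB (M * q * q)))) (h𝔫 : 𝔫.IsMaximal)
    (hq𝔫 : ((q : ℕ) : h62rChart A (M * q * q) (jB (M * q * q))) ∈ 𝔫)
    (hnot : ¬ h11l_OneBranch ((q : ℕ) : h62rChart A (M * q * q) (jB (M * q * q))) 𝔫) :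
    h85n_Gen A M q hq hM (heckeAlphaBar Kbar (M * q) q : FF (M * q) →+* FF (M * q * q))
      (h62rChart A (M * q) (jSS M q)) (h62rChart A (M * q * q) (jB (M * q * q))) 𝔫 := by
  have hmax : (Ideal.comap (h62rA2 A M (q := q)) 𝔫).IsMaximal :=
    hc q hq M hM haux A hA 𝔫 h𝔫 hq𝔫
  have hq₁ : (q : h62rChart A (M * q) (jSS M q)) ∈ Ideal.comap (h62rA2 A M (q := q)) 𝔫 := by
    rw [Ideal.mem_comap, map_natCast]
    exact hq𝔫
  haveI : IsNoetherianRing (h62rChart A (M * q * q) (jB (M * q * q))) :=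
    (h59z_leafNoeth q hq M hM haux A hA).1
  haveI : 𝔫.IsPrime := h𝔫.isPrime
  have hco : ∀ b' : h62rChart A (M * q) (jSS M q),
      ((h62rA2 A M (q := q) b' : h62rChart A (M * q * q) (jB (M * q * q))) : FF (M * q * q)) =
        (heckeAlphaBar Kbar (M * q) q : FF (M * q) →+* FF (M * q * q)) (b' : FF (M * q)) :=
    fun b' => (h62r_coe_A2 A M b').trans (congrFun (RingHom.coe_coe _) _).symm
  refine ⟨Ideal.comap (h62rA2 A M (q := q)) 𝔫, hmax, ?_, ?_⟩
  · intro b'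
    constructor
    · intro hb'
      exact ⟨h62rA2 A M b', Ideal.mem_comap.mp hb', hco b'⟩
    · rintro ⟨b, hb, hbb⟩
      have e : h62rA2 A M b' = b := Subtype.ext ((hco b').trans hbb.symm)
      apply Ideal.mem_comap.mpr
      rw [e]
      exact hb
  · rcases h1 q hq M hM haux A hA _ hmax hq₁ with hn | hn | hn
    · exact h85n_centred_of_node hq hM hA _ hmax.isPrime hn
    · exact absurd (h95s_oneBranch_of_datum 𝔫 _ (hi q hq M hM haux A hA 𝔫 h𝔫 hq𝔫 hn)) hnot
    · exact absurd (h95s_oneBranch_of_datum 𝔫 _ (hz q hq M hM haux A hA 𝔫 h𝔫 hq𝔫 hn)) hnot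

/-- **T-PT for `α₂`**, for any spelling of the charts. -/
theorem h85n_alpha_gen (h1 : H62L1) (hc : H62FinContr) (hi : H85FinInfOne)
    (hz : H85FinZeroOne) (hq : q.Prime) (hM : ¬ q ∣ M) (haux : auxLevel q ∣ M)
    (hA : A.LiesOverPrime q) (B₁ : Subring (FF (M * q))) (B₂ : Subring (FF (M * q * q)))
    (e₁ : B₁ = h62rChart A (M * q) (jSS M q))
    (e₂ : B₂ = h62rChart A (M * q * q) (jB (M * q * q)))
    (𝔫 : Ideal B₂) (h𝔫 : 𝔫.IsMaximal) (hq𝔫 : ((q : ℕ) : B₂) ∈ 𝔫)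
    (hnot : ¬ h11l_OneBranch ((q : ℕ) : B₂) 𝔫) :
    h85n_Gen A M q hq hM (heckeAlphaBar Kbar (M * q) q : FF (M * q) →+* FF (M * q * q))
      B₁ B₂ 𝔫 := by
  subst e₁ e₂
  exact h85n_alpha h1 hc hi hz hq hM haux hA 𝔫 h𝔫 hq𝔫 hnot

/-- **T-PT, the half for `α₂`**, in the frozen vocabulary. -/
theorem h85n_torPt_alpha (h1 : H62L1) (hc : H62FinContr) (hi : H85FinInfOne)
    (hz : H85FinZeroOne) (hq : q.Prime) (hM : ¬ q ∣ M) (haux : auxLevel q ∣ M)
    (hA : A.LiesOverPrime q) (𝔫 : Ideal (h92c_Chart A (M * q * q) (jB (M * q * q))))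
    (hSS : h11t_IsSS A M q 𝔫) :
    ∃ 𝔫a, h11t_NodeUnder A M q hq hM (heckeAlphaBar Kbar (M * q) q) 𝔫a 𝔫 :=
  h85n_alpha_gen h1 hc hi hz hq hM haux hA _ _ (h85n_chart_eq_ss A M q)
    (h85n_chart_eq A _ _) 𝔫 hSS.1 hSS.2.1 hSS.2.2

end Pt

/-! ## The Fricke involutions on the charts -/

section Fricke

variable {A : ValuationSubring Kbar} {M q : ℕ} [NeZero M] [NeZero q]

theorem h85n_small_congr {N N' : ℕ} {E : FF N →+* LaurentSeries Kbar}
    {E' : FF N' →+* LaurentSeries Kbar} {x : FF N} {x' : FF N'} (h : E x = E' x')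
    (hx : h11l_Small A E x) : h11l_Small A E' x' := by
  obtain ⟨hm, hr⟩ := hx
  have hm' : E' x' ∈ softOT A (residue A) := h ▸ hm
  refine ⟨hm', ?_⟩
  have e : (⟨E' x', hm'⟩ : softOT A (residue A)) = ⟨E x, hm⟩ := Subtype.ext h.symm
  rw [e, hr]

/-- the Fricke involution `w₁` on the chart of level `M q`. -/
def h85nW1 (hq : q.Prime) (hM : ¬ q ∣ M) (hA : A.LiesOverPrime q) :
    h62rChart A (M * q) (jB (M * q)) →+* h62rChart A (M * q) (jB (M * q)) where
  toFun x := ⟨kFricke M q hq hM (x : FF (M * q)),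
    ⟨h44g_kFricke_mem_modelFin M q hq hM A hA x.2.1, fun σ hσ => by
      have h := kFricke_gal M q hq hM σ (x : FF (M * q))
      rw [← h]
      congr 1
      exact x.2.2 σ hσ⟩⟩
  map_one' := Subtype.ext (map_one _)
  map_mul' _ _ := Subtype.ext (map_mul _ _ _)
  map_zero' := Subtype.ext (map_zero _)
  map_add' _ _ := Subtype.ext (map_add _ _ _)

theorem h85n_coe_W1 (hq : q.Prime) (hM : ¬ q ∣ M) (hA : A.LiesOverPrime q)
    (x : h62rChart A (M * q) (jB (M * q))) :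
    ((h85nW1 hq hM hA x : h62rChart A (M * q) (jB (M * q))) : FF (M * q)) =
      kFricke M q hq hM (x : FF (M * q)) := rfl

theorem h85n_W1_W1 (hq : q.Prime) (hM : ¬ q ∣ M) (hA : A.LiesOverPrime q)
    (x : h62rChart A (M * q) (jB (M * q))) : h85nW1 hq hM hA (h85nW1 hq hM hA x) = x :=
  Subtype.ext (by rw [h85n_coe_W1, h85n_coe_W1, kFricke_kFricke])

theorem h85n_W1_surjective (hq : q.Prime) (hM : ¬ q ∣ M) (hA : A.LiesOverPrime q) :
    Function.Surjective (h85nW1 (A := A) hq hM hA) :=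
  fun x => ⟨h85nW1 hq hM hA x, h85n_W1_W1 hq hM hA x⟩

/-- the Fricke involution `w₂` on the chart of level `M q q`. -/
def h85nW2 (hq : q.Prime) (hM : ¬ q ∣ M) (hA : A.LiesOverPrime q) :
    h62rChart A (M * q * q) (jB (M * q * q)) →+* h62rChart A (M * q * q) (jB (M * q * q)) where
  toFun x := ⟨h44s_fricke2 M q hq hM (x : FF (M * q * q)),
    ⟨h44s_fricke2_mem_modelFin M q hq hM A hA x.2.1, fun σ hσ =>
      h44s_fricke2_fixed M q hq hM σ (x.2.2 σ hσ)⟩⟩
  map_one' := Subtype.ext (map_one _)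
  map_mul' _ _ := Subtype.ext (map_mul _ _ _)
  map_zero' := Subtype.ext (map_zero _)
  map_add' _ _ := Subtype.ext (map_add _ _ _)

theorem h85n_coe_W2 (hq : q.Prime) (hM : ¬ q ∣ M) (hA : A.LiesOverPrime q)
    (x : h62rChart A (M * q * q) (jB (M * q * q))) :
    ((h85nW2 hq hM hA x : h62rChart A (M * q * q) (jB (M * q * q))) : FF (M * q * q)) =
      h44s_fricke2 M q hq hM (x : FF (M * q * q)) := rfl

theorem h85n_W2_W2 (hq : q.Prime) (hM : ¬ q ∣ M) (hA : A.LiesOverPrime q)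
    (x : h62rChart A (M * q * q) (jB (M * q * q))) :
    h85nW2 hq hM hA (h85nW2 hq hM hA x) = x :=
  Subtype.ext (by rw [h85n_coe_W2, h85n_coe_W2, h44s_fricke2_fricke2])

theorem h85n_W2_surjective (hq : q.Prime) (hM : ¬ q ∣ M) (hA : A.LiesOverPrime q) :
    Function.Surjective (h85nW2 (A := A) hq hM hA) :=
  fun x => ⟨h85nW2 hq hM hA x, h85n_W2_W2 hq hM hA x⟩

/-- one-branch points are preserved by a surjective endomorphism fixing `π`. -/
theorem h85n_oneBranch_comap {R : Type*} [CommRing R] (W : R →+* R)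
    (hW : Function.Surjective W) (π : R) (hπ : W π = π) (𝔫 : Ideal R)
    (h : h11l_OneBranch π (Ideal.comap W 𝔫)) : h11l_OneBranch π 𝔫 := by
  intro P P' hP hP' hπP hπP' hle hle' hne hne'
  have hinj := Ideal.comap_injective_of_surjective W hW
  apply hinj
  haveI := hP
  haveI := hP'
  refine h (Ideal.comap W P) (Ideal.comap W P') (Ideal.comap_isPrime W P)
    (Ideal.comap_isPrime W P') ?_ ?_ (Ideal.comap_mono hle) (Ideal.comap_mono hle')
    (fun e => hne (hinj e)) (fun e => hne' (hinj e))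
  · rw [Ideal.mem_comap, hπ]
    exact hπP
  · rw [Ideal.mem_comap, hπ]
    exact hπP'

/-- **T-PT for `β₂`** from the statement for `α₂` at the point `w₂⁻¹ 𝔫`. -/
theorem h85n_beta (hq : q.Prime) (hM : ¬ q ∣ M) (hA : A.LiesOverPrime q)
    (hα : ∀ 𝔫' : Ideal (h62rChart A (M * q * q) (jB (M * q * q))), 𝔫'.IsMaximal →
      ((q : ℕ) : h62rChart A (M * q * q) (jB (M * q * q))) ∈ 𝔫' →
      ¬ h11l_OneBranch ((q : ℕ) : h62rChart A (M * q * q) (jB (M * q * q))) 𝔫' →
      h85n_Gen A M q hq hM (heckeAlphaBar Kbar (M * q) q : FF (M * q) →+* FF (M * q * q))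
        (h62rChart A (M * q) (jB (M * q))) (h62rChart A (M * q * q) (jB (M * q * q))) 𝔫')
    (𝔫 : Ideal (h62rChart A (M * q * q) (jB (M * q * q)))) (h𝔫 : 𝔫.IsMaximal)
    (hq𝔫 : ((q : ℕ) : h62rChart A (M * q * q) (jB (M * q * q))) ∈ 𝔫)
    (hnot : ¬ h11l_OneBranch ((q : ℕ) : h62rChart A (M * q * q) (jB (M * q * q))) 𝔫) :
    h85n_Gen A M q hq hM (heckeBetaBar Kbar (M * q) q : FF (M * q) →+* FF (M * q * q))
      (h62rChart A (M * q) (jB (M * q))) (h62rChart A (M * q * q) (jB (M * q * q))) 𝔫 := by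
  haveI := h𝔫
  have hmax' : (Ideal.comap (h85nW2 (A := A) hq hM hA) 𝔫).IsMaximal :=
    Ideal.comap_isMaximal_of_surjective _ (h85n_W2_surjective hq hM hA)
  have hq' : ((q : ℕ) : h62rChart A (M * q * q) (jB (M * q * q))) ∈
      Ideal.comap (h85nW2 (A := A) hq hM hA) 𝔫 := by
    rw [Ideal.mem_comap, map_natCast]
    exact hq𝔫
  have hnot' : ¬ h11l_OneBranch ((q : ℕ) : h62rChart A (M * q * q) (jB (M * q * q)))
      (Ideal.comap (h85nW2 (A := A) hq hM hA) 𝔫) := fun h =>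
    hnot (h85n_oneBranch_comap _ (h85n_W2_surjective hq hM hA) _ (map_natCast _ q) 𝔫 h)
  obtain ⟨𝔫a, hmaxa, hund, hc₁, hc₂⟩ := hα _ hmax' hq' hnot'
  haveI := hmaxa
  have hαco : ∀ y : FF (M * q),
      (heckeAlphaBar Kbar (M * q) q : FF (M * q) →+* FF (M * q * q)) y =
        heckeAlphaBar Kbar (M * q) q y := fun y => congrFun (RingHom.coe_coe _) y
  have hβco : ∀ y : FF (M * q),
      (heckeBetaBar Kbar (M * q) q : FF (M * q) →+* FF (M * q * q)) y =
        heckeBetaBar Kbar (M * q) q y := fun y => congrFun (RingHom.coe_coe _) y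
  refine ⟨Ideal.comap (h85nW1 (A := A) hq hM hA) 𝔫a,
    Ideal.comap_isMaximal_of_surjective _ (h85n_W1_surjective hq hM hA), ?_, ?_, ?_⟩
  · intro b'
    constructor
    · intro hb'
      obtain ⟨b, hb, hbb⟩ := (hund (h85nW1 hq hM hA b')).mp (Ideal.mem_comap.mp hb')
      refine ⟨h85nW2 hq hM hA b, Ideal.mem_comap.mp hb, ?_⟩
      rw [h85n_coe_W2, hbb, hαco, h85n_coe_W1, h44s_fricke2_alpha, kFricke_kFricke, hβco]
    · rintro ⟨c, hc, hcb⟩
      apply Ideal.mem_comap.mpr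
      refine (hund (h85nW1 hq hM hA b')).mpr ⟨h85nW2 hq hM hA c, ?_, ?_⟩
      · apply Ideal.mem_comap.mpr
        rw [h85n_W2_W2]
        exact hc
      · rw [h85n_coe_W2, hcb, hβco, h44s_fricke2_beta, hαco, h85n_coe_W1]
  · intro b' hb'
    apply Ideal.mem_comap.mpr
    refine hc₂ _ (h85n_small_congr ?_ hb')
    rw [h85n_Ezero_apply, h85n_coe_W1, kFricke_kFricke]
    rfl
  · intro b' hb'
    apply Ideal.mem_comap.mpr
    refine hc₁ _ (h85n_small_congr ?_ hb')
    rw [h85n_Ezero_apply, h85n_coe_W1]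
    rfl

/-- **T-PT for `β₂`**, for any spelling of the charts. -/
theorem h85n_beta_gen (h1 : H62L1) (hc : H62FinContr) (hi : H85FinInfOne)
    (hz : H85FinZeroOne) (hq : q.Prime) (hM : ¬ q ∣ M) (haux : auxLevel q ∣ M)
    (hA : A.LiesOverPrime q) (B₁ : Subring (FF (M * q))) (B₂ : Subring (FF (M * q * q)))
    (e₁ : B₁ = h62rChart A (M * q) (jB (M * q)))
    (e₂ : B₂ = h62rChart A (M * q * q) (jB (M * q * q)))
    (𝔫 : Ideal B₂) (h𝔫 : 𝔫.IsMaximal) (hq𝔫 : ((q : ℕ) : B₂) ∈ 𝔫)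
    (hnot : ¬ h11l_OneBranch ((q : ℕ) : B₂) 𝔫) :
    h85n_Gen A M q hq hM (heckeBetaBar Kbar (M * q) q : FF (M * q) →+* FF (M * q * q))
      B₁ B₂ 𝔫 := by
  subst e₁ e₂
  refine h85n_beta hq hM hA (fun 𝔫' h1' h2' h3' => ?_) 𝔫 h𝔫 hq𝔫 hnot
  exact h85n_alpha_gen h1 hc hi hz hq hM haux hA _ _
    (by rw [h71i_jSS_eq M q]) rfl 𝔫' h1' h2' h3'

/-- **T-PT, the half for `β₂`**, in the frozen vocabulary. -/
theorem h85n_torPt_beta (h1 : H62L1) (hc : H62FinContr) (hi : H85FinInfOne)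
    (hz : H85FinZeroOne) (hq : q.Prime) (hM : ¬ q ∣ M) (haux : auxLevel q ∣ M)
    (hA : A.LiesOverPrime q) (𝔫 : Ideal (h92c_Chart A (M * q * q) (jB (M * q * q))))
    (hSS : h11t_IsSS A M q 𝔫) :
    ∃ 𝔫b, h11t_NodeUnder A M q hq hM (heckeBetaBar Kbar (M * q) q) 𝔫b 𝔫 :=
  h85n_beta_gen h1 hc hi hz hq hM haux hA _ _ (h85n_chart_eq A _ _)
    (h85n_chart_eq A _ _) 𝔫 hSS.1 hSS.2.1 hSS.2.2

end Fricke

/-! ## The leaf -/

/-- **T-PT** (`H11TorPt`) from R-L1, R-BASE2 and the strong form of R-ORD. -/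
theorem h85n_torPt (h1 : H62L1) (hc : H62FinContr) (hi : H85FinInfOne)
    (hz : H85FinZeroOne) : H11TorPt := by
  intro q hq M _ hqM haux
  haveI : NeZero q := ⟨hq.ne_zero⟩
  intro A hA 𝔫 hSS
  exact ⟨h85n_torPt_alpha h1 hc hi hz hq hqM haux hA 𝔫 hSS,
    h85n_torPt_beta h1 hc hi hz hq hqM haux hA 𝔫 hSS⟩

end Fermat.Agent.S36
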