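import Fermat.Agent.S36.H85TorPt
import Fermat.Agent.S36.H62Strong
import Fermat.Agent.S36.H60L1Final
import Fermat.Agent.S36.H62FinGeo

/-!
# S36, row T-PT (helper85): wiring of `h85n_torPt` on the canonical strong form of R-ORD

* `h85n_torPt_of_strong : H31FinInfOne → H31FinZeroOne → H11TorPt`
  (`H31FinInfOne`, `H31FinZeroOne` of `S36/H31SSNode.lean` are the Props `H85FinInfOne`,
  `H85FinZeroOne` of `S36/H85TorPt.lean` verbatim; `H62L1 = h60r_H62L1`,
  `H62FinContr = h62g_finContr` are landed).
* `h85n_torPt_of_geo : H62GeoZeroOne → H62Ord11One → H11TorPt`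
  (the two frozen targets of R-ORD, `S36/H62Strong.lean`).
-/

set_option autoImplicit false

namespace Fermat.Agent.S36

/-- **T-PT** from the canonical strong form of R-ORD. -/
theorem h85n_torPt_of_strong (hi : H31FinInfOne) (hz : H31FinZeroOne) : H11TorPt :=
  h85n_torPt h60r_H62L1 h62g_finContr hi hz

/-- **T-PT** from the two frozen targets of R-ORD. -/
theorem h85n_torPt_of_geo (hz : H62GeoZeroOne) (h11 : H62Ord11One) : H11TorPt :=
  h85n_torPt_of_strong (h62u_finInfOne_of hz h11) (h62u_finZeroOne_of hz)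

end Fermat.Agent.S36
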