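import Fermat.Agent.S36.H86CentreAbs
import Fermat.Agent.S36.H11LocSkel
import Fermat.Agent.S36.H81TorGlob
import Fermat.Agent.S36.H84VQep
import Fermat.Agent.S36.H3Hex
import Fermat.Agent.S36.H44Surj
import Fermat.Agent.S36.V28Disc

/-!
# S36, the common centre dictionary (helper86, prefix `h86c_`): the centres `P_E`

`N = M q²`, `B = h92c_Chart A N t` (`t = j` or `j⁻¹`), `E` a vertical embedding
(`h11l_IsVE`: `E20`, `E11^ζ`, `E02`), `k` the residue field of `A`.

## General (any level, any chart Gauss-integral at `E`)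

* `h86cRho A t E hInt : B →+* k((T))` : the reduction of the chart along `E`;
  `h86cRho_eq_iff` : `ρ b = τ ↔ h44s_Red A (E b) τ`.
* `h86cP A t E hInt : Ideal B` : **the centre** `P_E = ker ρ = {b | h11l_Small A E b}`
  (`h86c_mem_P_iff`); it is prime (`h86c_P_isPrime`), contains `q` (`h86c_natCast_mem_P`);
  `b ∉ P_E` ⟹ `E b` is a Gauss unit (`h86c_unit_of_notMem`);
  `h86c_centred_iff` : `h11l_Centred A t 𝔫 E ↔ P_E ≤ 𝔫`.
* `h86c_P_not_isMaximal_of` : `P_E` is NOT maximal as soon as `E` is constant on the constants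
  and the reduction of `E t` is transcendental over `k`.

## The vertical embeddings of level `M q²`

* `h86c_int` : both charts are Gauss-integral at every vertical embedding;
* `h86c_cst` : `E (cst c) = C c`;
* `h86c_red_jB`, `h86c_red_jB_inv` : the reduction of `E j` (`E j⁻¹`) is transcendental;
* `h86c_P_not_isMaximal_fin`, `h86c_P_not_isMaximal_inf` : **`P_E` is not a closed point.**
-/

set_option autoImplicit false
set_option linter.unusedSectionVars false
set_option linter.style.haveILetI false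

open AlgebraicCurve ModularCurve IsLocalRing Polynomial

noncomputable section

namespace Fermat.Agent.S36

open Fermat.Agent.S37 Fermat.Agent.Red Fermat.Agent.Red.GV Fermat.Agent.Red.GV.Soft
  Fermat.Agent.Red.Kron

/-! ## General -/

theorem h86c_algebraMap_eq_C (k : Type*) [Field k] (c : k) :
    algebraMap k (LaurentSeries k) c = HahnSeries.C c := by
  have h1 : algebraMap k (PowerSeries k) c = PowerSeries.C c := by simp
  rw [HahnSeries.algebraMap_apply', h1, HahnSeries.ofPowerSeries_C]

section Gen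

variable (A : ValuationSubring Kbar) {N : ℕ} (t : FF N) (E : FF N →+* LaurentSeries Kbar)
  (hInt : ∀ b ∈ h92c_Chart A N t, E b ∈ softOT A (IsLocalRing.residue A))

/-- the reduction of the chart along `E`. -/
def h86cRho : h92c_Chart A N t →+* LaurentSeries (IsLocalRing.ResidueField A) :=
  (softRedT A (IsLocalRing.residue A)).comp
    ((E.comp (h92c_Chart A N t).subtype).codRestrict (softOT A (IsLocalRing.residue A))
      (fun b => hInt b b.2))

theorem h86cRho_apply (b : h92c_Chart A N t) :
    h86cRho A t E hInt b = softRedT A (IsLocalRing.residue A) ⟨E b, hInt b b.2⟩ := rfl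

theorem h86cRho_eq_iff (b : h92c_Chart A N t)
    (τ : LaurentSeries (IsLocalRing.ResidueField A)) :
    h86cRho A t E hInt b = τ ↔ h44s_Red A (E (b : FF N)) τ := by
  rw [h86cRho_apply]
  constructor
  · intro h
    exact ⟨hInt b b.2, h⟩
  · intro h
    exact h.eq _

/-- **the centre** of the vertical embedding `E` on the chart. -/
def h86cP : Ideal (h92c_Chart A N t) := RingHom.ker (h86cRho A t E hInt)

theorem h86c_mem_P_iff (b : h92c_Chart A N t) :
    b ∈ h86cP A t E hInt ↔ h11l_Small A E (b : FF N) := by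
  unfold h86cP
  rw [RingHom.mem_ker, h86cRho_apply]
  constructor
  · intro h
    exact ⟨hInt b b.2, h⟩
  · rintro ⟨h, h0⟩
    exact h0

instance h86c_P_isPrime : (h86cP A t E hInt).IsPrime :=
  RingHom.ker_isPrime _

theorem h86c_natCast_mem_P {q : ℕ} (hq : q.Prime) (hA : A.LiesOverPrime q) :
    ((q : ℕ) : h92c_Chart A N t) ∈ h86cP A t E hInt := by
  haveI := h1g_charP_laurent q hq A hA
  unfold h86cP
  rw [RingHom.mem_ker, map_natCast]
  exact CharP.cast_eq_zero _ q

/-- outside the centre the functions of the chart are Gauss units at `E`. -/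
theorem h86c_unit_of_notMem {b : h92c_Chart A N t} (hb : b ∉ h86cP A t E hInt) :
    E (b : FF N) ≠ 0 ∧ (E (b : FF N))⁻¹ ∈ softOT A (IsLocalRing.residue A) := by
  unfold h86cP at hb
  rw [RingHom.mem_ker, h86cRho_apply] at hb
  exact (softRedT_ne_zero_iff _).mp hb

theorem h86c_centred_iff (𝔫 : Ideal (h92c_Chart A N t)) :
    h11l_Centred A t 𝔫 E ↔ h86cP A t E hInt ≤ 𝔫 := by
  constructor
  · intro h b hb
    exact h b ((h86c_mem_P_iff A t E hInt b).mp hb)
  · intro h b hb
    exact h ((h86c_mem_P_iff A t E hInt b).mpr hb)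

/-- the inverse of a Gauss-integral series with nonzero reduction. -/
theorem h86c_red_inv {s : LaurentSeries Kbar}
    {τ : LaurentSeries (IsLocalRing.ResidueField A)} (h : h44s_Red A s τ) (hτ : τ ≠ 0) :
    h44s_Red A s⁻¹ τ⁻¹ := by
  obtain ⟨hs, rfl⟩ := h
  obtain ⟨hs0, hsinv⟩ := (softRedT_ne_zero_iff _).mp hτ
  refine ⟨hsinv, ?_⟩
  have h1 : (⟨s, hs⟩ : softOT A (IsLocalRing.residue A)) * ⟨s⁻¹, hsinv⟩ = 1 :=
    Subtype.ext (mul_inv_cancel₀ hs0)
  have h2 := congrArg (softRedT A (IsLocalRing.residue A)) h1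
  rw [map_mul, map_one] at h2
  exact eq_inv_of_mul_eq_one_right h2

/-- **`P_E` is not a closed point**, as soon as `E` is constant on the constants and the
reduction of `E t` is transcendental over the residue field. -/
theorem h86c_P_not_isMaximal_of {q : ℕ} (hq : q.Prime) (hA : A.LiesOverPrime q)
    (ht : ∀ σ ∈ A.inertiaSubgroupIn ℚ, gal N σ • t = t)
    (hcst : ∀ c : Kbar, E (cst N c) = HahnSeries.C c)
    (τ : LaurentSeries (IsLocalRing.ResidueField A)) (hτ : h44s_Red A (E t) τ)
    (htr : Transcendental (IsLocalRing.ResidueField A) τ) :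
    ¬ (h86cP A t E hInt).IsMaximal := by
  refine h86c_ker_not_isMaximal (O := h59bA0 A) (k := IsLocalRing.ResidueField A)
    ((q : ℕ) : h59bA0 A) (h59b_maximalIdeal A hq hA) (h3kEv N t ht) (h3kEv_isIntegral N t ht)
    (h86cRho A t E hInt) ((IsLocalRing.residue A).comp (h59bIncl A)) (fun a => ?_) ?_
  · rw [h86cRho_eq_iff]
    have h1 : E ((h3kEv N t ht (C a) : h92c_Chart A N t) : FF N) =
        HahnSeries.C (((h59bIncl A a : A)) : Kbar) := by
      rw [h3kEv_coe, h59nEv_C, hcst]
      rfl
    rw [h1]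
    refine (h44s_red_C (h59bIncl A a)).congr rfl ?_
    rw [RingHom.comp_apply, h86c_algebraMap_eq_C]
  · have h1 : h86cRho A t E hInt (h3kEv N t ht X) = τ := by
      rw [h86cRho_eq_iff]
      have h2 : ((h3kEv N t ht X : h92c_Chart A N t) : FF N) = t := by
        rw [h3kEv_coe, h59nEv_X]
      rw [h2]
      exact hτ
    rw [h1]
    exact htr

end Gen

/-! ## The vertical embeddings of level `M q²` -/

section Vert

variable {A : ValuationSubring Kbar} {M q : ℕ} [NeZero M] [NeZero q]
  {hq : q.Prime} {hqM : ¬ q ∣ M} {E : FF (M * q * q) →+* LaurentSeries Kbar}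

/-- `V` is Gauss-integral at every vertical embedding. -/
theorem h86c_int_V (hA : A.LiesOverPrime q) (hE : h11l_IsVE M q hq hqM E)
    {y : FF (M * q * q)} (hy : y ∈ h92c_V A M q) :
    E y ∈ softOT A (IsLocalRing.residue A) := by
  rcases hE with rfl | ⟨ζ, hζ, hE⟩ | hE
  · exact h81t_V_int20 hq hA hy
  · exact h81t_V_int11 hq hqM hA hζ.pow_eq_one E hE hy
  · exact h81t_V_int02 hq hqM hA E hE hy

/-- the finite chart is Gauss-integral at every vertical embedding. -/
theorem h86c_int_fin (hA : A.LiesOverPrime q) (hE : h11l_IsVE M q hq hqM E) :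
    ∀ b ∈ h92c_Chart A (M * q * q) (jB (M * q * q)),
      E b ∈ softOT A (IsLocalRing.residue A) :=
  fun _ hb => h86c_int_V hA hE (h84q_chart_le_V0_fin A M q hq hqM hA hb).1

/-- the chart at infinity is Gauss-integral at every vertical embedding. -/
theorem h86c_int_inf (hA : A.LiesOverPrime q) (hE : h11l_IsVE M q hq hqM E) :
    ∀ b ∈ h92c_Chart A (M * q * q) (jB (M * q * q))⁻¹,
      E b ∈ softOT A (IsLocalRing.residue A) :=
  fun _ hb => h86c_int_V hA hE (h84q_chart_le_V0_inf A M q hq hqM hA hb).1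

/-- a vertical embedding is constant on the constants. -/
theorem h86c_cst (hE : h11l_IsVE M q hq hqM E) (c : Kbar) :
    E (cst (M * q * q) c) = HahnSeries.C c := by
  rcases hE with rfl | ⟨ζ, -, hE⟩ | hE
  · exact soft_coe_cst (M * q * q) c
  · exact Fermat.Agent.S36.V28.h28d_E11_cst hq hqM ζ E hE c
  · exact Fermat.Agent.S36.V28.h28d_E02_cst hq hqM E hE c

/-- the reduction of `E j` is transcendental over the residue field. -/
theorem h86c_red_jB (hA : A.LiesOverPrime q) (hE : h11l_IsVE M q hq hqM E) :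
    ∃ τ : LaurentSeries (IsLocalRing.ResidueField A),
      h44s_Red A (E (jB (M * q * q))) τ ∧ Transcendental (IsLocalRing.ResidueField A) τ := by
  rcases hE with rfl | ⟨ζ, -, hE⟩ | hE
  · exact ⟨jqModC (IsLocalRing.ResidueField A), h44s_red_J (M := M * q * q),
      h36_transcendental_jK (IsLocalRing.ResidueField A)⟩
  · refine ⟨jqModC (IsLocalRing.ResidueField A), ?_,
      h36_transcendental_jK (IsLocalRing.ResidueField A)⟩
    rw [← h44s_aa_jB, h44s_E11_aa hE]
    exact h44s_red_J (M := M)
  · refine ⟨qExpand (IsLocalRing.ResidueField A) (q * q)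
      (jqModC (IsLocalRing.ResidueField A)), ?_, ?_⟩
    · rw [← h44s_aa_jB, h44s_E02_eq hq hqM E hE, h44s_fricke2_aa, h44s_coe_bb]
      exact (h44s_red_J (M := M)).qExpand (q * q)
    · rw [h44s_jq_qq (A := A) (q := q) hq hA]
      exact (h36_transcendental_jK (IsLocalRing.ResidueField A)).pow
        (pow_pos hq.pos 2)

/-- the reduction of `E j⁻¹` is transcendental over the residue field. -/
theorem h86c_red_jB_inv (hA : A.LiesOverPrime q) (hE : h11l_IsVE M q hq hqM E) :
    ∃ τ : LaurentSeries (IsLocalRing.ResidueField A),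
      h44s_Red A (E (jB (M * q * q))⁻¹) τ ∧ Transcendental (IsLocalRing.ResidueField A) τ := by
  obtain ⟨τ, hτ, htr⟩ := h86c_red_jB hA hE
  have hτ0 : τ ≠ 0 := fun h => htr (h ▸ isAlgebraic_zero)
  refine ⟨τ⁻¹, ?_, fun h => htr (IsAlgebraic.inv_iff.mp h)⟩
  rw [map_inv₀]
  exact h86c_red_inv A hτ hτ0

/-- **the centre of a vertical embedding on the finite chart is not a closed point.** -/
theorem h86c_P_not_isMaximal_fin (hA : A.LiesOverPrime q) (hE : h11l_IsVE M q hq hqM E) :
    ¬ (h86cP A (jB (M * q * q)) E (h86c_int_fin hA hE)).IsMaximal := by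
  obtain ⟨τ, hτ, htr⟩ := h86c_red_jB hA hE
  exact h86c_P_not_isMaximal_of A _ E _ hq hA
    (fun σ _ => Fermat.Agent.S37.GalI.gal_smul_jB σ) (h86c_cst hE) τ hτ htr

/-- **the centre of a vertical embedding on the chart at infinity is not a closed point.** -/
theorem h86c_P_not_isMaximal_inf (hA : A.LiesOverPrime q) (hE : h11l_IsVE M q hq hqM E) :
    ¬ (h86cP A (jB (M * q * q))⁻¹ E (h86c_int_inf hA hE)).IsMaximal := by
  obtain ⟨τ, hτ, htr⟩ := h86c_red_jB_inv hA hE
  exact h86c_P_not_isMaximal_of A _ E _ hq hA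
    (fun σ _ => Fermat.Agent.S37.GalI.gal_smul_jB_inv σ) (h86c_cst hE) τ hτ htr

end Vert

end Fermat.Agent.S36
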