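import Mathlib

/-!
# S36, the centre dictionary (helper86, prefix `h86c_`): abstract part, Mathlib only

* `h86c_span_C_not_isMaximal` : `(π)` is not maximal in `O[X]` for a non-unit `π`.
* `h86c_ker_not_isMaximal` : **the centre of a vertical valuation is not a closed point.**
  `O` a local ring with maximal ideal `(π)`, `S` integral over `O[X]` (via `f`), `ρ : S → L` a
  ring homomorphism to a `k`-algebra `L` which is constant on `O` (`ρ (f (C a)) = φ a`) and
  maps `X` to an element transcendental over `k`.  Then `ker ρ` is not a maximal ideal of `S`.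
-/

set_option autoImplicit false

open Polynomial IsLocalRing

namespace Fermat.Agent.S36

/-- `(π)` is not a maximal ideal of `O[X]` for a non-unit `π`. -/
theorem h86c_span_C_not_isMaximal {O : Type*} [CommRing O] [Nontrivial O] (π : O)
    (hπ : ¬ IsUnit π) : ¬ (Ideal.span {(C π : O[X])}).IsMaximal := by
  intro hmax
  have hXp : (X : O[X]) ∉ Ideal.span {(C π : O[X])} := by
    intro hX
    rw [Ideal.mem_span_singleton] at hX
    obtain ⟨g, hg⟩ := hX
    have h1 := congrArg (fun r : O[X] => r.coeff 1) hg
    simp only [coeff_X_one, coeff_C_mul] at h1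
    exact hπ (IsUnit.of_mul_eq_one _ h1.symm)
  obtain ⟨y, i, hi, hyi⟩ := hmax.exists_inv hXp
  rw [Ideal.mem_span_singleton] at hi
  obtain ⟨h, rfl⟩ := hi
  have h2 := congrArg (Polynomial.eval 0) hyi
  simp only [eval_add, eval_mul, eval_X, mul_zero, zero_add, eval_C, eval_one] at h2
  exact hπ (IsUnit.of_mul_eq_one _ h2)

/-- **the centre of a vertical valuation is not a closed point** (abstract form). -/
theorem h86c_ker_not_isMaximal {O S k L : Type*} [CommRing O] [IsLocalRing O] [CommRing S]
    [Field k] [CommRing L] [Algebra k L] [Nontrivial L]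
    (π : O) (hπ : maximalIdeal O = Ideal.span {π})
    (f : O[X] →+* S) (hf : f.IsIntegral) (ρ : S →+* L) (φ : O →+* k)
    (hC : ∀ a : O, ρ (f (C a)) = algebraMap k L (φ a))
    (hX : Transcendental k (ρ (f X))) : ¬ (RingHom.ker ρ).IsMaximal := by
  intro hmax
  letI : Algebra O[X] S := f.toAlgebra
  haveI : Algebra.IsIntegral O[X] S := ⟨hf⟩
  have hπu : ¬ IsUnit π := by
    intro hu
    have h1 : π ∈ maximalIdeal O := by rw [hπ]; exact Ideal.mem_span_singleton_self π
    exact (mem_maximalIdeal π).mp h1 hu
  have hmax' : ((RingHom.ker ρ).comap (algebraMap O[X] S)).IsMaximal :=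
    Ideal.isMaximal_comap_of_isIntegral_of_isMaximal (R := O[X]) (RingHom.ker ρ)
  have hle : (RingHom.ker ρ).comap (algebraMap O[X] S) ≤ Ideal.span {(C π : O[X])} := by
    intro p hp
    rw [Ideal.mem_comap, RingHom.mem_ker] at hp
    have h1 : ρ (algebraMap O[X] S p) = aeval (ρ (f X)) (p.map φ) := by
      have e1 : ρ (algebraMap O[X] S p) = (ρ.comp f) (p.eval₂ C X) := by
        rw [eval₂_C_X]; rfl
      rw [e1, Polynomial.hom_eval₂, aeval_def, eval₂_map]
      congr 1
      ext a
      exact hC a
    rw [h1] at hp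
    have h2 : p.map φ = 0 := by
      by_contra hne
      exact hX ⟨p.map φ, hne, hp⟩
    rw [Ideal.mem_span_singleton, Polynomial.C_dvd_iff_dvd_coeff]
    intro i
    have h3 : φ (p.coeff i) = 0 := by
      have := congrArg (fun r : k[X] => r.coeff i) h2
      simpa using this
    have h4 : p.coeff i ∈ maximalIdeal O := by
      rw [mem_maximalIdeal, mem_nonunits_iff]
      intro hu
      have h5 : IsUnit (φ (p.coeff i)) := hu.map φ
      rw [h3] at h5
      exact not_isUnit_zero h5
    rw [hπ, Ideal.mem_span_singleton] at h4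
    exact h4
  have hne : Ideal.span {(C π : O[X])} ≠ ⊤ := by
    intro h
    rw [Ideal.span_singleton_eq_top] at h
    exact hπu (Polynomial.isUnit_C.mp h)
  have heq := hmax'.eq_of_le hne hle
  exact h86c_span_C_not_isMaximal π hπu (heq ▸ hmax')

end Fermat.Agent.S36
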