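import Fermat.Agent.S36.H86Iface
import Fermat.Agent.S36.H79Desc
import Fermat.Agent.Jac.CanCore
import Fermat.Agent.S36.H17Desc

/-!
# S36, row GATE36: the two outer assembly steps (helper86, prefix `h86g_`)

* `h86g_gateOfFixed : H86GateOfFixed` — D-glue: the gate for `I`-fixed functions gives
  `InertiaGate` (landed descent core `h79d_descent`).
* `h86g_gateAssembly : H86GateAssembly` — normal form + core ⟹ gate for `I`-fixed functions.
-/

set_option autoImplicit false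

open AlgebraicCurve ModularCurve

noncomputable section

namespace Fermat.Agent.S36

open Fermat.Agent.S37 (Kbar GQ FF cst gal auxLevel)
open Fermat.Agent.Red.KR (normAlong)

/-- field algebra for the D-glue. -/
theorem h86g_field_root1 {F : Type*} [Field F] {m t : ℕ} {c e u g h : F} (hc : c ≠ 0)
    (hg : g ≠ 0) (he : c = e ^ m) (hh : h ^ m = (c * u * g ^ m) ^ t) :
    (h * (e ^ t)⁻¹ * (g ^ t)⁻¹) ^ m = u ^ t := by
  have h5 : (e ^ t) ^ m = c ^ t := by rw [he, pow_right_comm]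
  have h6 : (g ^ t) ^ m = (g ^ m) ^ t := pow_right_comm g t m
  have h7 : c ^ t ≠ 0 := pow_ne_zero _ hc
  have h8 : (g ^ m) ^ t ≠ 0 := pow_ne_zero _ (pow_ne_zero _ hg)
  rw [mul_pow, mul_pow, hh, inv_pow, inv_pow, h5, h6, mul_pow, mul_pow]
  field_simp

/-- field algebra for the assembly. -/
theorem h86g_field_root2 {F : Type*} [Field F] {m t1 t2 : ℕ} {c c' e e2 u g h : F}
    (hc : c ≠ 0) (hg : g ≠ 0) (he : c' = e ^ m) (he2 : c = e2 ^ m)
    (hh : (c * u ^ t1 * g ^ m) ^ t2 = c' * h ^ m) :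
    (e * h * (e2 ^ t2)⁻¹ * (g ^ t2)⁻¹) ^ m = u ^ (t1 * t2) := by
  have h5 : (e2 ^ t2) ^ m = c ^ t2 := by rw [he2, pow_right_comm]
  have h6 : (g ^ t2) ^ m = (g ^ m) ^ t2 := pow_right_comm g t2 m
  have h7 : c ^ t2 ≠ 0 := pow_ne_zero _ hc
  have h8 : (g ^ m) ^ t2 ≠ 0 := pow_ne_zero _ (pow_ne_zero _ hg)
  rw [mul_pow, mul_pow, mul_pow, inv_pow, inv_pow, h5, h6, ← he, ← hh, mul_pow, mul_pow,
    ← pow_mul]
  field_simp

section Aux

variable {N : ℕ}

/-- `m ∣ div u ⟹ m ∣ div (c u^t g^m)`. -/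
theorem h86g_dvd_ord_twist (m t : ℕ) {c : Kbar} (hc : c ≠ 0) (u g : FF N)
    (hdiv : ∀ v : Place Kbar (FF N), (m : ℤ) ∣ v.ord u) (v : Place Kbar (FF N)) :
    (m : ℤ) ∣ v.ord (cst N c * u ^ t * g ^ m) := by
  rw [mul_assoc, Fermat.Agent.Jac.CanCore.h4c_ord_const_mul v hc]
  rcases eq_or_ne (u ^ t) 0 with h0 | h0
  · rw [h0, zero_mul]; simp
  rcases eq_or_ne (g ^ m) 0 with h1 | h1
  · rw [h1, mul_zero]; simp
  rw [v.ord_mul h0 h1, Fermat.Agent.Jac.CanCore.h4c_ord_pow,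
    Fermat.Agent.Jac.CanCore.h4c_ord_pow]
  exact dvd_add (Dvd.dvd.mul_left (hdiv v) _) (dvd_mul_right _ _)

/-- the norm of `c u^t g^m` is an `m`-th power if the norm of `u` is. -/
theorem h86g_norm_twist {N' : ℕ} (φ : FF N' →ₐ[Kbar] FF N) {m : ℕ} (hm : m ≠ 0) (t : ℕ)
    (c : Kbar) (u g : FF N) (h : ∃ h : FF N', normAlong φ u = h ^ m) :
    ∃ h : FF N', normAlong φ (cst N c * u ^ t * g ^ m) = h ^ m := by
  obtain ⟨h, hh⟩ := h
  obtain ⟨d, hd⟩ := IsAlgClosed.exists_pow_nat_eq (c ^ finrankAlong Kbar φ) (Nat.pos_of_ne_zero hm)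
  have h1 : cst N c = φ (cst N' c) := (φ.commutes c).symm
  have hpow : ∀ (y : FF N) (n : ℕ), normAlong φ (y ^ n) = normAlong φ y ^ n := by
    intro y n
    letI := algebraAlong φ
    exact map_pow (Algebra.norm (FF N')) y n
  refine ⟨cst N' d * h ^ t * normAlong φ g, ?_⟩
  have hd' : cst N' d ^ m = cst N' c ^ finrankAlong Kbar φ := by
    show algebraMap Kbar (FF N') d ^ m = algebraMap Kbar (FF N') c ^ finrankAlong Kbar φ
    rw [← map_pow, ← map_pow, hd]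
  rw [Fermat.Agent.Red.KR.normAlong_mul, Fermat.Agent.Red.KR.normAlong_mul, h1,
    Fermat.Agent.Red.KR.normAlong_map, hpow, hpow, hh, mul_pow, mul_pow, hd',
    pow_right_comm h m t]

/-- constants are `m`-th powers. -/
theorem h86g_cst_pow {m : ℕ} (hm : m ≠ 0) (c : Kbar) : ∃ e : Kbar, cst N c = cst N e ^ m := by
  obtain ⟨e, he⟩ := IsAlgClosed.exists_pow_nat_eq c (Nat.pos_of_ne_zero hm)
  refine ⟨e, ?_⟩
  show algebraMap Kbar (FF N) c = algebraMap Kbar (FF N) e ^ m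
  rw [← map_pow, he]

end Aux

/-- **D-glue.** -/
theorem h86g_gateOfFixed : H86GateOfFixed := by
  intro hF q hq M _ hqM haux
  haveI : NeZero q := ⟨hq.ne_zero⟩
  intro A hA
  obtain ⟨t, ht, hcore⟩ := hF q hq M hqM haux A hA
  refine ⟨t, ht, fun m hm u hu hdiv hcls hNa hNb => ?_⟩
  have hm0 : m ≠ 0 := by
    rintro rfl
    exact hm (dvd_zero q)
  obtain ⟨c, g, hc, hg, hfix⟩ := h79d_descent (M * q * q) (A.inertiaSubgroupIn ℚ) m u hu
    (fun σ hσ => by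
      obtain ⟨h, hh⟩ := hcls σ hσ
      refine ⟨1, h, one_ne_zero, ?_, ?_⟩
      · rintro rfl
        rw [zero_pow hm0, zero_mul] at hh
        exact h17d_gal_ne_zero σ hu hh
      · rw [hh, show cst (M * q * q) 1 = 1 from map_one _, one_mul]
        exact mul_comm _ _)
  have hcst : cst (M * q * q) c ≠ 0 := by
    rwa [Ne, map_eq_zero_iff _ (algebraMap Kbar (FF (M * q * q))).injective]
  have hgm : g ^ m ≠ 0 := pow_ne_zero _ hg
  have hu' : cst (M * q * q) c * u * g ^ m ≠ 0 := mul_ne_zero (mul_ne_zero hcst hu) hgm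
  have e1 : cst (M * q * q) c * u * g ^ m = cst (M * q * q) c * u ^ 1 * g ^ m := by
    rw [pow_one]
  obtain ⟨h, hh⟩ := hcore m hm _ hu'
    (fun v => by rw [e1]; exact h86g_dvd_ord_twist m 1 hc u g hdiv v) hfix
    (by rw [e1]; exact h86g_norm_twist _ hm0 1 c u g hNa)
    (by rw [e1]; exact h86g_norm_twist _ hm0 1 c u g hNb)
  obtain ⟨e, he⟩ := h86g_cst_pow (N := M * q * q) hm0 c
  exact ⟨_, h86g_field_root1 hcst hg he hh⟩

/-- **GATE36-ASM.** -/
theorem h86g_gateAssembly : H86GateAssembly := by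
  intro hNF hCore q hq M _ hqM haux
  haveI : NeZero q := ⟨hq.ne_zero⟩
  intro A hA
  obtain ⟨t1, ht1, hnf⟩ := hNF q hq M hqM haux A hA
  obtain ⟨t2, ht2, hcore⟩ := hCore q hq M hqM haux A hA
  refine ⟨t1 * t2, Nat.mul_pos ht1 ht2, fun m hm u hu hdiv hfix hNa hNb => ?_⟩
  have hm0 : m ≠ 0 := by
    rintro rfl
    exact hm (dvd_zero q)
  obtain ⟨c, g, hc, hg, hwfix, hcong⟩ := hnf m hm u hu hdiv hfix hNa hNb
  have hcst : cst (M * q * q) c ≠ 0 := by
    rwa [Ne, map_eq_zero_iff _ (algebraMap Kbar (FF (M * q * q))).injective]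
  have hw : cst (M * q * q) c * u ^ t1 * g ^ m ≠ 0 :=
    mul_ne_zero (mul_ne_zero hcst (pow_ne_zero _ hu)) (pow_ne_zero _ hg)
  obtain ⟨c', h, hh⟩ := hcore m hm _ hw (fun v => h86g_dvd_ord_twist m t1 hc u g hdiv v) hwfix
    hcong (h86g_norm_twist _ hm0 t1 c u g hNa) (h86g_norm_twist _ hm0 t1 c u g hNb)
  obtain ⟨e, he⟩ := h86g_cst_pow (N := M * q * q) hm0 c'
  obtain ⟨e2, he2⟩ := h86g_cst_pow (N := M * q * q) hm0 c
  exact ⟨_, h86g_field_root2 hcst hg he he2 hh⟩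

end Fermat.Agent.S36
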