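import Fermat.Agent.S36.Skeleton
import Fermat.Agent.S36.H20NormSkel

/-!
# S36, row GATE36 (`InertiaGate`): frozen interfaces of the assembly (helper86, prefix `h86g_`)

Every declaration is a definition or a frozen interface `Prop`; nothing is assumed.

The chain (all at the good levels `q ∤ M`, `auxLevel q ∣ M`, level `M q²`, `I = I_A`):

* `H86GateOfFixed` (D-glue): `H86GateFixed → InertiaGate`.  The landed descent core
  (`h79d_descent`) replaces a function whose CLASS is `I`-invariant by an `I`-invariant function.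
* `H86NormalForm` (block NF = blueprint steps N1 + N2): an `I`-fixed NEW function `u` has a
  bounded power which, up to a constant and an `m`-th power, is `I`-fixed and `≡ 1` at the three
  vertical valuations `W20`, `W02`, `W11` (`h86g_CongAll`; the valuations are the pull-backs of
  the Gauss valuation under the embeddings `E20`, `E02`, `E11^ζ` of `H20NormSkel`).
* `H86GateCore` (blocks V + R + T + G): an `I`-fixed NEW function `w ≡ 1` at the three vertical
  valuations with `m ∣ div w` has a bounded power in `ℚ̄ˣ · Fˣᵐ`.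
* `H86GateAssembly`: `H86NormalForm → H86GateCore → H86GateFixed`.
-/

set_option autoImplicit false

open AlgebraicCurve ModularCurve

noncomputable section

namespace Fermat.Agent.S36

open Fermat.Agent.S37 (Kbar GQ FF cst gal auxLevel)
open Fermat.Agent.Red.KR (normAlong)

/-- `w ≡ 1` at the three vertical valuations `W20`, `W02`, `W11` of `FF (M q²)`: the three
`q`-expansions of `w` are Gauss-congruent to `1`. -/
def h86g_CongAll (M q : ℕ) [NeZero M] [NeZero q] (hq : q.Prime) (hqM : ¬ q ∣ M)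
    (A : ValuationSubring Kbar) (w : FF (M * q * q)) : Prop :=
  h20n_CongOneS A (h20n_E20 M q w) ∧
  (∀ E0 : FF (M * q * q) →+* LaurentSeries Kbar, h20n_IsE02 M q hq hqM E0 →
    h20n_CongOneS A (E0 w)) ∧
  (∀ (ζ : Kbar) (E : FF (M * q * q) →+* LaurentSeries Kbar), IsPrimitiveRoot ζ q →
    h20n_IsE11 M q hq hqM ζ E → h20n_CongOneS A (E w))

/-- **the inertia gate for `I`-fixed functions.**  `InertiaGate` with the hypothesis
"the class of `u` is fixed by `I`" replaced by "`u` is fixed by `I`". -/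
def H86GateFixed : Prop :=
  ∀ (q : ℕ) (hq : q.Prime) (M : ℕ) [NeZero M], ¬ q ∣ M → auxLevel q ∣ M →
    haveI : NeZero q := ⟨hq.ne_zero⟩
    ∀ A : ValuationSubring Kbar, A.LiesOverPrime q →
    ∃ t : ℕ, 0 < t ∧ ∀ m : ℕ, ¬ q ∣ m → ∀ u : FF (M * q * q), u ≠ 0 →
      (∀ v : Place Kbar (FF (M * q * q)), (m : ℤ) ∣ v.ord u) →
      (∀ σ ∈ A.inertiaSubgroupIn ℚ, gal (M * q * q) σ • u = u) →
      (∃ h : FF (M * q), normAlong (heckeAlphaBar Kbar (M * q) q) u = h ^ m) →
      (∃ h : FF (M * q), normAlong (heckeBetaBar Kbar (M * q) q) u = h ^ m) →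
        ∃ h : FF (M * q * q), h ^ m = u ^ t

/-- **D-glue.**  From `I`-fixed functions to `I`-fixed classes (landed descent core). -/
def H86GateOfFixed : Prop := H86GateFixed → InertiaGate

/-- **block NF (normal form; blueprint N1 + N2).**  For an `I`-fixed new function `u` there are
a constant `c` and a function `g` such that `w = c u^t g^m` is `I`-fixed and `≡ 1` at the three
vertical valuations; the exponent `t` depends only on `(q, M, A)`. -/
def H86NormalForm : Prop :=
  ∀ (q : ℕ) (hq : q.Prime) (M : ℕ) [NeZero M] (hqM : ¬ q ∣ M), auxLevel q ∣ M →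
    haveI : NeZero q := ⟨hq.ne_zero⟩
    ∀ A : ValuationSubring Kbar, A.LiesOverPrime q →
    ∃ t : ℕ, 0 < t ∧ ∀ m : ℕ, ¬ q ∣ m → ∀ u : FF (M * q * q), u ≠ 0 →
      (∀ v : Place Kbar (FF (M * q * q)), (m : ℤ) ∣ v.ord u) →
      (∀ σ ∈ A.inertiaSubgroupIn ℚ, gal (M * q * q) σ • u = u) →
      (∃ h : FF (M * q), normAlong (heckeAlphaBar Kbar (M * q) q) u = h ^ m) →
      (∃ h : FF (M * q), normAlong (heckeBetaBar Kbar (M * q) q) u = h ^ m) →
      ∃ (c : Kbar) (g : FF (M * q * q)), c ≠ 0 ∧ g ≠ 0 ∧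
        (∀ σ ∈ A.inertiaSubgroupIn ℚ,
          gal (M * q * q) σ • (cst (M * q * q) c * u ^ t * g ^ m) =
            cst (M * q * q) c * u ^ t * g ^ m) ∧
        h86g_CongAll M q hq hqM A (cst (M * q * q) c * u ^ t * g ^ m)

/-- **the core of the gate (blocks V + R + T + G).**  An `I`-fixed new function `w` with
`m ∣ div w` which is `≡ 1` at the three vertical valuations has a bounded power in
`ℚ̄ˣ · Fˣᵐ`; the exponent `t` depends only on `(q, M, A)`. -/
def H86GateCore : Prop :=
  ∀ (q : ℕ) (hq : q.Prime) (M : ℕ) [NeZero M] (hqM : ¬ q ∣ M), auxLevel q ∣ M →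
    haveI : NeZero q := ⟨hq.ne_zero⟩
    ∀ A : ValuationSubring Kbar, A.LiesOverPrime q →
    ∃ t : ℕ, 0 < t ∧ ∀ m : ℕ, ¬ q ∣ m → ∀ w : FF (M * q * q), w ≠ 0 →
      (∀ v : Place Kbar (FF (M * q * q)), (m : ℤ) ∣ v.ord w) →
      (∀ σ ∈ A.inertiaSubgroupIn ℚ, gal (M * q * q) σ • w = w) →
      h86g_CongAll M q hq hqM A w →
      (∃ h : FF (M * q), normAlong (heckeAlphaBar Kbar (M * q) q) w = h ^ m) →
      (∃ h : FF (M * q), normAlong (heckeBetaBar Kbar (M * q) q) w = h ^ m) →
        ∃ (c : Kbar) (h : FF (M * q * q)), w ^ t = cst (M * q * q) c * h ^ m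

/-- **GATE36-ASM.**  Assembly of the gate for `I`-fixed functions. -/
def H86GateAssembly : Prop := H86NormalForm → H86GateCore → H86GateFixed

end Fermat.Agent.S36
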