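import Fermat.Agent.S36.H86LocIface

/-!
# S36, block `H92Loc`: assembly from the one-branch and the multi-branch points
(helper86, prefix `h86l_`)

`h86l_locAssembly : H86LocOne → H86LocMulti → H92Loc`.
-/

set_option autoImplicit false

open AlgebraicCurve ModularCurve

noncomputable section

namespace Fermat.Agent.S36

open Fermat.Agent.S37 (Kbar GQ FF cst jB gal modelAt degen auxLevel)

/-- **LOC-ASM.** -/
theorem h86l_locAssembly : H86LocAssembly := by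
  intro hOne hMulti q hq M _ hqM haux
  haveI : NeZero q := ⟨hq.ne_zero⟩
  intro A hA
  obtain ⟨t, ht, hM⟩ := hMulti q hq M hqM haux A hA
  obtain ⟨hO₀, hO₁⟩ := hOne q hq M hqM haux A hA
  refine ⟨t, ht, fun m hm w hwF hwU hnew => ?_⟩
  obtain ⟨f, hfF, hf, hU, hm₀, hm₁⟩ := hM m hm w hwF hwU hnew
  have hw0 : w ≠ 0 := hnew.1
  have hw'0 : w ^ t * f ^ m ≠ 0 := mul_ne_zero (pow_ne_zero _ hw0) (pow_ne_zero _ hf)
  have hw'F : w ^ t * f ^ m ∈ h92c_F0 A (M * q * q) :=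
    mul_mem (pow_mem hwF _) (pow_mem hfF _)
  have hw'ord : ∀ v : Place Kbar (FF (M * q * q)), (m : ℤ) ∣ v.ord (w ^ t * f ^ m) := by
    intro v
    rw [v.ord_mul (pow_ne_zero _ hw0) (pow_ne_zero _ hf), h92c_ord_pow, h92c_ord_pow]
    exact dvd_add (Dvd.dvd.mul_left (hnew.2.1 v) _) (dvd_mul_right _ _)
  refine ⟨f, hfF, hf, hU, ?_, ?_⟩
  · intro 𝔫 h𝔫 hq𝔫
    by_cases hmulti : h86l_IsMulti 𝔫 ((q : ℕ) : h92c_Chart A (M * q * q) (jB (M * q * q)))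
    · exact hm₀ 𝔫 h𝔫 hq𝔫 hmulti
    · exact hO₀ m hm _ hw'0 hw'F hU hw'ord 𝔫 h𝔫 hq𝔫 hmulti
  · intro 𝔫 h𝔫 hq𝔫
    by_cases hmulti : h86l_IsMulti 𝔫 ((q : ℕ) : h92c_Chart A (M * q * q) (jB (M * q * q))⁻¹)
    · exact hm₁ 𝔫 h𝔫 hq𝔫 hmulti
    · exact hO₁ m hm _ hw'0 hw'F hU hw'ord 𝔫 h𝔫 hq𝔫 hmulti

end Fermat.Agent.S36
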