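import Fermat.Agent.S36.H92Chain

/-!
# S36, block `H92Loc` (R + T): the split into one-branch and multi-branch points
(helper86, prefix `h86l_`)

Every declaration is a definition or a frozen interface `Prop`; nothing is assumed.
Contract objects of `S36/H92Chain.lean`: `h92c_Chart`, `h92c_F0`, `h92c_V0`, `h92c_U`,
`h92c_LocalDatum`, `h92c_New`.

* `h86l_DatumAt A M q t m w 𝔫` : the semi-local datum of `h92c_LocalDatum` at ONE closed
  point `𝔫` of the chart `B₀(t)`.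
* `h86l_IsMulti 𝔫 π` : at least two vertical primes (components of the fibre `π = 0`) pass
  through the closed point `𝔫` (supersingular points).
* `H86LocOne` : the datum at the closed points `𝔫 ∋ q` of both charts with at most one
  vertical prime through `𝔫` (ordinary points of `C₂₀`, `C₁₁`, `C₀₂`, all cusps), for EVERY
  `w ∈ F₀ ∩ (1 + q V₀)` with `m ∣ div w`: no newness, no exponent.
  (REG: `two_gen` ⟹ factorial ⟹ `w = ε g₀ ^ m`; Lemma A with one branch ⟹ `η`.)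
* `H86LocMulti` : for a new `w ∈ F₀ ∩ (1 + q V₀)` there are `t` (uniform) and `f ∈ F₀` such that
  `w' = w ^ t f ^ m ∈ 1 + q V₀` has the datum at every closed point `𝔫 ∋ q` of both charts with
  at least two vertical primes through `𝔫` (TOR: the twist makes the branch values equal).
* `H86LocAssembly` : `H86LocOne → H86LocMulti → H92Loc`.
-/

set_option autoImplicit false

open AlgebraicCurve ModularCurve

noncomputable section

namespace Fermat.Agent.S36

open Fermat.Agent.S37 (Kbar GQ FF cst jB gal modelAt degen auxLevel)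

/-- the semi-local datum of the gate for `w` at the closed point `𝔫` of the chart `B₀(t)`. -/
def h86l_DatumAt (A : ValuationSubring Kbar) (M q : ℕ) [NeZero M] [NeZero q]
    (t : FF (M * q * q)) (m : ℕ) (w : FF (M * q * q))
    (𝔫 : Ideal (h92c_Chart A (M * q * q) t)) : Prop :=
  ∃ g : FF (M * q * q), g ∈ h92c_F0 A (M * q * q) ∧ g ≠ 0 ∧
    ∃ s : h92c_Chart A (M * q * q) t, s ∉ 𝔫 ∧
      (∃ y ∈ h92c_V0 A M q, (s : FF (M * q * q)) * (g - 1) = (q : FF (M * q * q)) * y) ∧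
      (s : FF (M * q * q)) * (w * (g ^ m)⁻¹) ∈ h92c_Chart A (M * q * q) t ∧
      (s : FF (M * q * q)) * (g ^ m * w⁻¹) ∈ h92c_Chart A (M * q * q) t

theorem h86l_localDatum_iff (A : ValuationSubring Kbar) (M q : ℕ) [NeZero M] [NeZero q]
    (t : FF (M * q * q)) (m : ℕ) (w : FF (M * q * q)) :
    h92c_LocalDatum A M q t m w ↔
      ∀ 𝔫 : Ideal (h92c_Chart A (M * q * q) t), 𝔫.IsMaximal →
        ((q : ℕ) : h92c_Chart A (M * q * q) t) ∈ 𝔫 → h86l_DatumAt A M q t m w 𝔫 :=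
  Iff.rfl

/-- at least two vertical primes pass through the closed point `𝔫` of the fibre `π = 0`. -/
def h86l_IsMulti {B : Type*} [CommRing B] (𝔫 : Ideal B) (π : B) : Prop :=
  ∃ P P' : Ideal B, P.IsPrime ∧ P'.IsPrime ∧ π ∈ P ∧ π ∈ P' ∧ P ≤ 𝔫 ∧ P' ≤ 𝔫 ∧
    P ≠ 𝔫 ∧ P' ≠ 𝔫 ∧ P ≠ P'

/-- **LOC-ONE at the chart `t`.** -/
def H86LocOneAt (A : ValuationSubring Kbar) (M q : ℕ) [NeZero M] [NeZero q]
    (t : FF (M * q * q)) : Prop :=
  ∀ m : ℕ, ¬ q ∣ m → ∀ w : FF (M * q * q), w ≠ 0 → w ∈ h92c_F0 A (M * q * q) →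
    w ∈ h92c_U A M q → (∀ v : Place Kbar (FF (M * q * q)), (m : ℤ) ∣ v.ord w) →
    ∀ 𝔫 : Ideal (h92c_Chart A (M * q * q) t), 𝔫.IsMaximal →
      ((q : ℕ) : h92c_Chart A (M * q * q) t) ∈ 𝔫 →
      ¬ h86l_IsMulti 𝔫 ((q : ℕ) : h92c_Chart A (M * q * q) t) →
      h86l_DatumAt A M q t m w 𝔫

/-- **LOC-ONE.**  The semi-local datum at the one-branch closed points of the special fibre of
both charts, for every `w ∈ F₀ ∩ (1 + q V₀)` with `m ∣ div w`. -/
def H86LocOne : Prop :=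
  ∀ (q : ℕ) (hq : q.Prime) (M : ℕ) [NeZero M], ¬ q ∣ M → auxLevel q ∣ M →
    haveI : NeZero q := ⟨hq.ne_zero⟩
    ∀ A : ValuationSubring Kbar, A.LiesOverPrime q →
      H86LocOneAt A M q (jB (M * q * q)) ∧ H86LocOneAt A M q (jB (M * q * q))⁻¹

/-- the datum at the multi-branch closed points of the chart `t`. -/
def h86l_MultiDatum (A : ValuationSubring Kbar) (M q : ℕ) [NeZero M] [NeZero q]
    (t : FF (M * q * q)) (m : ℕ) (w : FF (M * q * q)) : Prop :=
  ∀ 𝔫 : Ideal (h92c_Chart A (M * q * q) t), 𝔫.IsMaximal →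
    ((q : ℕ) : h92c_Chart A (M * q * q) t) ∈ 𝔫 →
    h86l_IsMulti 𝔫 ((q : ℕ) : h92c_Chart A (M * q * q) t) →
    h86l_DatumAt A M q t m w 𝔫

/-- **LOC-MULTI (TOR).**  For a new `w ∈ F₀ ∩ (1 + q V₀)` a bounded power, twisted by the
`m`-th power of a function of `F₀`, stays in `1 + q V₀` and has the semi-local datum at every
multi-branch closed point of the special fibre of both charts. -/
def H86LocMulti : Prop :=
  ∀ (q : ℕ) (hq : q.Prime) (M : ℕ) [NeZero M], ¬ q ∣ M → auxLevel q ∣ M →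
    haveI : NeZero q := ⟨hq.ne_zero⟩
    ∀ A : ValuationSubring Kbar, A.LiesOverPrime q →
    ∃ t : ℕ, 0 < t ∧ ∀ m : ℕ, ¬ q ∣ m → ∀ w : FF (M * q * q),
      w ∈ h92c_F0 A (M * q * q) → w ∈ h92c_U A M q → h92c_New M q m w →
        ∃ f : FF (M * q * q), f ∈ h92c_F0 A (M * q * q) ∧ f ≠ 0 ∧
          w ^ t * f ^ m ∈ h92c_U A M q ∧
          h86l_MultiDatum A M q (jB (M * q * q)) m (w ^ t * f ^ m) ∧
          h86l_MultiDatum A M q (jB (M * q * q))⁻¹ m (w ^ t * f ^ m)

/-- **LOC-ASM.** -/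
def H86LocAssembly : Prop := H86LocOne → H86LocMulti → H92Loc

end Fermat.Agent.S36
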