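import Fermat.Agent.S36.H86LocOneIface
import Fermat.Agent.S36.H16Factorial

/-!
# S36, LOC: the local ring `O = B_𝔫` of a chart inside the ambient field (helper86)

`B : Subring F`, `𝔫` a prime of `B`, `O = h66sO B 𝔫` (`S36/H66ChartSub.lean`).

* `h86l_incl : B →+* O`, `h86l_isLocalization` : `O` is the localisation of `B` at `𝔫`;
* `h86l_isNoetherianRing` : `O` is noetherian if `B` is;
* `h86l_max_eq_span` : `𝔪_O = (x, y)` from `𝔫 = (x, y)` locally (`H62RegAt.two_gen`);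
* `h86lPO P` : the ideal `P O = {z | ∃ s ∉ 𝔫, s z ∈ P}` of `O` for a prime `P ≤ 𝔫` of `B`; it is
  prime, `b ∈ P O ↔ b ∈ P` for `b ∈ B`, `P O ≠ 𝔪_O` if `P ≠ 𝔫`;
* `h86l_PO_principal` : `P O` is generated by a prime element of `O` (`P ≠ 𝔫`, `P ≠ ⊥`,
  `𝔪_O = (x, y)`);
* `h86l_ufd` : `O` is a unique factorisation domain as soon as `𝔪_O = (x, y)` and there is a
  prime `⊥ ≠ P < 𝔫`.

Mathlib + `H66ChartSub` + `H16Factorial`.
-/

set_option autoImplicit false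

open IsLocalRing

namespace Fermat.Agent.S36

section LocO

variable {F : Type*} [Field F] (B : Subring F) (𝔫 : Ideal B) [h𝔫 : 𝔫.IsPrime]

/-- the inclusion `B → B_𝔫`. -/
def h86l_incl : B →+* h66sO B 𝔫 :=
  Subring.inclusion (fun _ hx => h66s_B_le_O hx)

@[simp]
theorem h86l_incl_coe (b : B) : ((h86l_incl B 𝔫 b : h66sO B 𝔫) : F) = (b : F) := rfl

theorem h86l_incl_injective : Function.Injective (h86l_incl B 𝔫) :=
  Subring.inclusion_injective _

/-- units: the functions outside `𝔫`. -/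
theorem h86l_isUnit_incl {s : B} (hs : s ∉ 𝔫) : IsUnit (h86l_incl B 𝔫 s) := by
  rw [h66s_isUnit_iff]
  exact ⟨1, s, (Ideal.ne_top_iff_one 𝔫).mp h𝔫.ne_top, hs, by simp⟩

/-- every element of `O` is a fraction `b / s`, `s ∉ 𝔫`. -/
theorem h86l_exists_frac (z : h66sO B 𝔫) :
    ∃ s b : B, s ∉ 𝔫 ∧ h86l_incl B 𝔫 s * z = h86l_incl B 𝔫 b := by
  obtain ⟨s, hs, hsz⟩ := z.2
  exact ⟨s, ⟨_, hsz⟩, hs, Subtype.ext rfl⟩

/-- `O` is the localisation of `B` at `𝔫`. -/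
theorem h86l_isLocalization :
    @IsLocalization B _ 𝔫.primeCompl (h66sO B 𝔫) _ (h86l_incl B 𝔫).toAlgebra := by
  letI : Algebra B (h66sO B 𝔫) := (h86l_incl B 𝔫).toAlgebra
  rw [isLocalization_iff]
  refine ⟨fun y => h86l_isUnit_incl B 𝔫 y.2, fun z => ?_, fun {x y} h => ?_⟩
  · obtain ⟨s, b, hs, h⟩ := h86l_exists_frac B 𝔫 z
    refine ⟨(b, ⟨s, hs⟩), ?_⟩
    rw [mul_comm]
    exact h
  · exact ⟨1, by rw [h86l_incl_injective B 𝔫 h]⟩

theorem h86l_isNoetherianRing [hB : IsNoetherianRing B] : IsNoetherianRing (h66sO B 𝔫) := by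
  letI : Algebra B (h66sO B 𝔫) := (h86l_incl B 𝔫).toAlgebra
  haveI := h86l_isLocalization B 𝔫
  exact IsLocalization.isNoetherianRing 𝔫.primeCompl (h66sO B 𝔫) hB

/-- `b ∈ 𝔪_O ↔ b ∈ 𝔫` for `b ∈ B`. -/
theorem h86l_incl_mem_max (b : B) : h86l_incl B 𝔫 b ∈ maximalIdeal (h66sO B 𝔫) ↔ b ∈ 𝔫 := by
  rw [h66s_mem_maximalIdeal_iff]
  constructor
  · rintro ⟨s, c, hs, hc, h⟩
    have h1 : s * b = c := Subtype.ext (by push_cast; exact h)
    have h2 : s * b ∈ 𝔫 := h1 ▸ hc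
    exact (h𝔫.mem_or_mem h2).resolve_left hs
  · intro hb
    exact ⟨1, b, (Ideal.ne_top_iff_one 𝔫).mp h𝔫.ne_top, hb, by simp⟩

/-- `𝔪_O = (x, y)` if `𝔫 = (x, y)` locally. -/
theorem h86l_max_eq_span (x y : B) (hx : x ∈ 𝔫) (hy : y ∈ 𝔫)
    (hgen : ∀ z ∈ 𝔫, ∃ s, s ∉ 𝔫 ∧ s * z ∈ Ideal.span {x, y}) :
    maximalIdeal (h66sO B 𝔫) = Ideal.span {h86l_incl B 𝔫 x, h86l_incl B 𝔫 y} := by
  apply le_antisymm
  · intro z hz
    obtain ⟨s, b, hs, hb, h⟩ := (h66s_mem_maximalIdeal_iff z).mp hz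
    obtain ⟨s', hs', hsb⟩ := hgen b hb
    obtain ⟨c, d, hcd⟩ := Ideal.mem_span_pair.mp hsb
    obtain ⟨u, hu⟩ := (h86l_isUnit_incl B 𝔫 (s := s' * s)
      (fun h => (h𝔫.mem_or_mem h).elim hs' hs)).exists_left_inv
    have h1 : h86l_incl B 𝔫 (s' * s) * z =
        h86l_incl B 𝔫 c * h86l_incl B 𝔫 x + h86l_incl B 𝔫 d * h86l_incl B 𝔫 y := by
      apply Subtype.ext
      have h2 := congrArg (Subtype.val : B → F) hcd
      simp only [Subring.coe_mul, Subring.coe_add, h86l_incl_coe] at h2 ⊢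
      rw [h2, ← h]
      ring
    have h3 : z = u * (h86l_incl B 𝔫 (s' * s) * z) := by
      rw [← mul_assoc, hu, one_mul]
    rw [h3, h1]
    refine Ideal.mul_mem_left _ _ (Ideal.add_mem _ ?_ ?_)
    · exact Ideal.mul_mem_left _ _ (Ideal.subset_span (by simp))
    · exact Ideal.mul_mem_left _ _ (Ideal.subset_span (by simp))
  · rw [Ideal.span_le]
    intro z hz
    rcases hz with rfl | rfl
    · exact (h86l_incl_mem_max B 𝔫 x).mpr hx
    · exact (h86l_incl_mem_max B 𝔫 y).mpr hy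

/-- a prime `P ≤ 𝔫`, `P ≠ 𝔫`, `P ≠ ⊥` of `B` is cut out in `O` by a prime element, as soon as
`𝔪_O = (x, y)`. -/
theorem h86l_PO_principal [IsNoetherianRing B] (x y : h66sO B 𝔫)
    (hmax : maximalIdeal (h66sO B 𝔫) = Ideal.span {x, y})
    (P : Ideal B) (hP : P.IsPrime) (hle : P ≤ 𝔫) (hne : P ≠ 𝔫) (hP0 : P ≠ ⊥) :
    ∃ f : h66sO B 𝔫, Prime f ∧ ∀ b : B, f ∣ h86l_incl B 𝔫 b ↔ b ∈ P := by
  letI : Algebra B (h66sO B 𝔫) := (h86l_incl B 𝔫).toAlgebra
  haveI := h86l_isLocalization B 𝔫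
  haveI : IsNoetherianRing (h66sO B 𝔫) := h86l_isNoetherianRing B 𝔫
  have halg : algebraMap B (h66sO B 𝔫) = h86l_incl B 𝔫 := rfl
  have hdisj : Disjoint (𝔫.primeCompl : Set B) (P : Set B) := by
    rw [Set.disjoint_left]
    intro b hb hb'
    exact hb (hle hb')
  have hPprime : (P.map (algebraMap B (h66sO B 𝔫))).IsPrime :=
    IsLocalization.isPrime_of_isPrime_disjoint 𝔫.primeCompl (h66sO B 𝔫) P hP hdisj
  have hcomap : (P.map (algebraMap B (h66sO B 𝔫))).comap (algebraMap B (h66sO B 𝔫)) = P :=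
    IsLocalization.under_map_of_isPrime_disjoint 𝔫.primeCompl (h66sO B 𝔫) hP hdisj
  have hmem : ∀ b : B, h86l_incl B 𝔫 b ∈ P.map (algebraMap B (h66sO B 𝔫)) ↔ b ∈ P := by
    intro b
    rw [← halg, ← Ideal.mem_comap, hcomap]
  -- one of the two generators is not in `P O`
  have hxy : x ∉ P.map (algebraMap B (h66sO B 𝔫)) ∨ y ∉ P.map (algebraMap B (h66sO B 𝔫)) := by
    by_contra hcon
    rw [not_or, not_not, not_not] at hcon
    apply hne
    refine le_antisymm hle fun b hb => ?_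
    rw [← hmem]
    have h1 : h86l_incl B 𝔫 b ∈ maximalIdeal (h66sO B 𝔫) := (h86l_incl_mem_max B 𝔫 b).mpr hb
    rw [hmax] at h1
    have h2 : Ideal.span {x, y} ≤ P.map (algebraMap B (h66sO B 𝔫)) := by
      rw [Ideal.span_le]
      intro z hz
      rcases hz with rfl | rfl
      · exact hcon.1
      · exact hcon.2
    exact h2 h1
  obtain ⟨f, hf, hPf⟩ : ∃ f ∈ P.map (algebraMap B (h66sO B 𝔫)),
      P.map (algebraMap B (h66sO B 𝔫)) = Ideal.span {f} := by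
    rcases hxy with h | h
    · exact h16r_prime_principal x y hmax _ h
    · exact h16r_prime_principal y x (by rw [hmax, Set.pair_comm]) _ h
  have hf0 : f ≠ 0 := by
    rintro rfl
    apply hP0
    rw [eq_bot_iff]
    intro b hb
    have h1 : h86l_incl B 𝔫 b ∈ Ideal.span {(0 : h66sO B 𝔫)} := by
      rw [← hPf]
      exact (hmem b).mpr hb
    rw [Ideal.mem_span_singleton, zero_dvd_iff] at h1
    have h2 : b = 0 := h86l_incl_injective B 𝔫 (by rw [h1, map_zero])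
    rw [h2]
    exact Ideal.zero_mem _
  refine ⟨f, ?_, fun b => ?_⟩
  · rw [← Ideal.span_singleton_prime hf0, ← hPf]
    exact hPprime
  · rw [← hmem, hPf, Ideal.mem_span_singleton]

/-- `O` is a unique factorisation domain as soon as `𝔪_O = (x, y)` and there is a prime
`⊥ ≠ P < 𝔫` of `B`. -/
theorem h86l_ufd [IsNoetherianRing B] (x y : h66sO B 𝔫)
    (hmax : maximalIdeal (h66sO B 𝔫) = Ideal.span {x, y})
    (P : Ideal B) (hP : P.IsPrime) (hle : P ≤ 𝔫) (hne : P ≠ 𝔫) (hP0 : P ≠ ⊥) :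
    UniqueFactorizationMonoid (h66sO B 𝔫) := by
  haveI : IsNoetherianRing (h66sO B 𝔫) := h86l_isNoetherianRing B 𝔫
  refine UniqueFactorizationMonoid.iff_exists_prime_mem_of_isPrime.mpr fun I hI hIp => ?_
  by_cases hIm : x ∈ I ∧ y ∈ I
  · -- `I = 𝔪_O`
    obtain ⟨f, hf, hfP⟩ := h86l_PO_principal B 𝔫 x y hmax P hP hle hne hP0
    refine ⟨f, ?_, hf⟩
    have hfm : f ∈ maximalIdeal (h66sO B 𝔫) := by
      rw [mem_maximalIdeal, mem_nonunits_iff]
      exact hf.not_isUnit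
    rw [hmax] at hfm
    have h2 : Ideal.span {x, y} ≤ I := by
      rw [Ideal.span_le]
      intro z hz
      rcases hz with rfl | rfl
      · exact hIm.1
      · exact hIm.2
    exact h2 hfm
  · have hxy : x ∉ I ∨ y ∉ I := by
      by_contra hcon
      rw [not_or, not_not, not_not] at hcon
      exact hIm hcon
    obtain ⟨f, hf, hIf⟩ : ∃ f ∈ I, I = Ideal.span {f} := by
      rcases hxy with h | h
      · exact h16r_prime_principal x y hmax I h
      · exact h16r_prime_principal y x (by rw [hmax, Set.pair_comm]) I h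
    have hf0 : f ≠ 0 := by
      rintro rfl
      apply hI
      rw [hIf]
      simp
    refine ⟨f, hf, ?_⟩
    rw [← Ideal.span_singleton_prime hf0, ← hIf]
    exact hIp

/-- the contraction of the prime `(p)` of `O` to `B`. -/
theorem h86l_comap_prime (p : h66sO B 𝔫) (hp : Prime p) :
    ∃ 𝔭 : Ideal B, 𝔭.IsPrime ∧ 𝔭 ≤ 𝔫 ∧ 𝔭 ≠ ⊥ ∧ ∀ b : B, b ∈ 𝔭 ↔ p ∣ h86l_incl B 𝔫 b := by
  have hpp : (Ideal.span {p}).IsPrime := (Ideal.span_singleton_prime hp.ne_zero).mpr hp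
  refine ⟨(Ideal.span {p}).comap (h86l_incl B 𝔫), Ideal.comap_isPrime _ _, ?_, ?_, ?_⟩
  · intro b hb
    rw [Ideal.mem_comap, Ideal.mem_span_singleton] at hb
    rw [← h86l_incl_mem_max B 𝔫 b, mem_maximalIdeal, mem_nonunits_iff]
    exact fun hu => hp.not_isUnit (isUnit_of_dvd_unit hb hu)
  · intro h0
    obtain ⟨s, b, hs, hsb⟩ := h86l_exists_frac B 𝔫 p
    have hb : b ∈ (Ideal.span {p}).comap (h86l_incl B 𝔫) := by
      rw [Ideal.mem_comap, Ideal.mem_span_singleton, ← hsb]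
      exact dvd_mul_left p _
    rw [h0, Ideal.mem_bot] at hb
    rw [hb, map_zero] at hsb
    rcases mul_eq_zero.mp hsb with h | h
    · exact (h86l_isUnit_incl B 𝔫 hs).ne_zero h
    · exact hp.ne_zero h
  · intro b
    rw [Ideal.mem_comap, Ideal.mem_span_singleton]

end LocO

end Fermat.Agent.S36
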