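import Fermat.Agent.S36.H86LocOneAsm
import Fermat.Agent.S36.H86LocFact
import Fermat.Agent.S36.H16RegSub
import Fermat.Agent.S36.H40LocFrac
import Fermat.Agent.S36.H11LocSkel

/-!
# S36, rows LOC-ONE and L-ORD: wiring (helper86, prefix `h86l_`)

The abstract leaves of LOC-ONE are theorems (`h16s_locRegData`, `h86l_locFactAbs`,
`h40f_locFrac`); what remains are REG (`H62RegStatement`), LOC-VCOMP and LOC-HOR.

* `h86l_locOne_of : H62RegStatement → H86LocVComp → H86LocHor → H86LocOne`;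
* `h86l_locOrd_of_locOne : H86LocOne → H11LocOrd` (the leaf L-ORD of `S36/H11LocSkel.lean` is
  LOC-ONE);
* `h86l_locOrd_of : H62RegStatement → H86LocVComp → H86LocHor → H11LocOrd`.
-/

set_option autoImplicit false

open AlgebraicCurve ModularCurve

noncomputable section

namespace Fermat.Agent.S36

open Fermat.Agent.S37 (Kbar GQ FF cst jB gal modelAt degen auxLevel)

/-- **LOC-ONE** from REG, LOC-VCOMP and LOC-HOR. -/
theorem h86l_locOne_of (hR : H62RegStatement) (hV : H86LocVComp) (hH : H86LocHor) :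
    H86LocOne :=
  h86l_locOneAssembly h16s_locRegData h86l_locFactAbs hR hV hH h40f_locFrac

/-- a one-branch point is not a multi-branch point. -/
theorem h86l_not_isMulti_of_oneBranch {R : Type*} [CommRing R] (π : R) (𝔫 : Ideal R)
    (h : h11l_OneBranch π 𝔫) : ¬ h86l_IsMulti 𝔫 π := by
  rintro ⟨P, P', hP, hP', h1, h2, h3, h4, h5, h6, h7⟩
  exact h7 (h P P' hP hP' h1 h2 h3 h4 h5 h6)

/-- **L-ORD is LOC-ONE.** -/
theorem h86l_locOrd_of_locOne (h : H86LocOne) : H11LocOrd := by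
  intro q hq M _ hqM haux
  haveI : NeZero q := ⟨hq.ne_zero⟩
  intro A hA t ht m hm w hw0 hwF hwU hdiv 𝔫 h𝔫 hq𝔫 hone
  obtain ⟨h1, h2⟩ := h q hq M hqM haux A hA
  rcases ht with rfl | rfl
  · exact h1 m hm w hw0 hwF hwU hdiv 𝔫 h𝔫 hq𝔫 (h86l_not_isMulti_of_oneBranch _ _ hone)
  · exact h2 m hm w hw0 hwF hwU hdiv 𝔫 h𝔫 hq𝔫 (h86l_not_isMulti_of_oneBranch _ _ hone)

/-- **L-ORD** from REG, LOC-VCOMP and LOC-HOR. -/
theorem h86l_locOrd_of (hR : H62RegStatement) (hV : H86LocVComp) (hH : H86LocHor) :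
    H11LocOrd :=
  h86l_locOrd_of_locOne (h86l_locOne_of hR hV hH)

end Fermat.Agent.S36
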