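import Fermat.Agent.S36.H86Centre
import Fermat.Agent.S36.H16TorRoot

/-!
# S36, row T-ROOT-CEN: `H16TorCentre` (helper86, prefix `h86c_`)

`h86c_torCentre : H16TorCentre` (exact frozen Prop of `S36/H16TorRoot.lean`): no maximal ideal
`𝔫 ∋ q` of the chart `j` of level `M q²` consists of functions which are Gauss-small at a
vertical embedding `E`.  Indeed the centre `P_E` of `E` is a prime which is not maximal
(`h86c_P_not_isMaximal_fin`, `S36/H86Centre.lean`).  Also the twin for the chart at infinity.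
-/

set_option autoImplicit false

open AlgebraicCurve ModularCurve

noncomputable section

namespace Fermat.Agent.S36

open Fermat.Agent.S37 (Kbar GQ FF cst jB gal modelAt degen auxLevel)

/-- a closed point is not contained in the centre of a vertical embedding (finite chart). -/
theorem h86c_exists_not_small_fin {A : ValuationSubring Kbar} {M q : ℕ} [NeZero M] [NeZero q]
    {hq : q.Prime} {hqM : ¬ q ∣ M} {E : FF (M * q * q) →+* LaurentSeries Kbar}
    (hA : A.LiesOverPrime q) (hE : h11l_IsVE M q hq hqM E)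
    (𝔫 : Ideal (h92c_Chart A (M * q * q) (jB (M * q * q)))) (h𝔫 : 𝔫.IsMaximal) :
    ∃ b : h92c_Chart A (M * q * q) (jB (M * q * q)), b ∈ 𝔫 ∧
      ¬ h11l_Small A E (b : FF (M * q * q)) := by
  by_contra hcon
  have hall : ∀ b : h92c_Chart A (M * q * q) (jB (M * q * q)), b ∈ 𝔫 →
      h11l_Small A E (b : FF (M * q * q)) := by
    intro b hb
    by_contra hs
    exact hcon ⟨b, hb, hs⟩
  have hle : 𝔫 ≤ h86cP A (jB (M * q * q)) E (h86c_int_fin hA hE) :=
    fun b hb => (h86c_mem_P_iff A _ E _ b).mpr (hall b hb)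
  have hne : h86cP A (jB (M * q * q)) E (h86c_int_fin hA hE) ≠ ⊤ :=
    (h86c_P_isPrime A _ E _).ne_top
  have heq := h𝔫.eq_of_le hne hle
  exact h86c_P_not_isMaximal_fin hA hE (heq ▸ h𝔫)

/-- a closed point is not contained in the centre of a vertical embedding (chart at
infinity). -/
theorem h86c_exists_not_small_inf {A : ValuationSubring Kbar} {M q : ℕ} [NeZero M] [NeZero q]
    {hq : q.Prime} {hqM : ¬ q ∣ M} {E : FF (M * q * q) →+* LaurentSeries Kbar}
    (hA : A.LiesOverPrime q) (hE : h11l_IsVE M q hq hqM E)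
    (𝔫 : Ideal (h92c_Chart A (M * q * q) (jB (M * q * q))⁻¹)) (h𝔫 : 𝔫.IsMaximal) :
    ∃ b : h92c_Chart A (M * q * q) (jB (M * q * q))⁻¹, b ∈ 𝔫 ∧
      ¬ h11l_Small A E (b : FF (M * q * q)) := by
  by_contra hcon
  have hall : ∀ b : h92c_Chart A (M * q * q) (jB (M * q * q))⁻¹, b ∈ 𝔫 →
      h11l_Small A E (b : FF (M * q * q)) := by
    intro b hb
    by_contra hs
    exact hcon ⟨b, hb, hs⟩
  have hle : 𝔫 ≤ h86cP A (jB (M * q * q))⁻¹ E (h86c_int_inf hA hE) :=
    fun b hb => (h86c_mem_P_iff A _ E _ b).mpr (hall b hb)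
  have hne : h86cP A (jB (M * q * q))⁻¹ E (h86c_int_inf hA hE) ≠ ⊤ :=
    (h86c_P_isPrime A _ E _).ne_top
  have heq := h𝔫.eq_of_le hne hle
  exact h86c_P_not_isMaximal_inf hA hE (heq ▸ h𝔫)

/-- **T-ROOT-CEN.** -/
theorem h86c_torCentre : H16TorCentre := by
  intro q hq M _ hqM _
  haveI : NeZero q := ⟨hq.ne_zero⟩
  intro A hA E hE 𝔫 h𝔫 _
  exact h86c_exists_not_small_fin hA hE 𝔫 h𝔫

end Fermat.Agent.S36
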