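import Fermat.Agent.S36.H88VInt
import Fermat.Agent.S36.H58ConjChar
import Fermat.Agent.Red.GV.SoftBar
import Fermat.Agent.Red.Kron.CharpolyAbs

/-!
# S36, block (V), row V-EXACT (helper88, second seat): no fourth vertical valuation

`h88v_exact : H88VExact`: a function `x` of level `M q q` which is Gauss-integral at `E20`, at
every `E11^ζ` and at `E02` is integral over `α₂ (ssV A M q)`.

Proof.  The coefficients `c_m` of the characteristic polynomial of `x` over `α₂ (F_{Mq})`
satisfy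
* `c_m (t)` is a coefficient of `∏ (X - conj_c x)` (`h58c_charpolyAlong_alpha`, helper58),
* `(w c_m)(t^q)` is a coefficient of `∏_{b<q} (X - (E02 x)(ζ^b t))` (`h88v_charpoly_zero`),
hence `c_m` and `w c_m` are Gauss-integral, i.e. `c_m ∈ W_∞ ∩ W_0 = ssV A M q`
(`h44v_mem_ssV_of_isFrac`).
-/

set_option autoImplicit false
set_option linter.unusedSectionVars false
set_option linter.style.haveILetI false
set_option synthInstance.maxHeartbeats 400000

open AlgebraicCurve ModularCurve Polynomial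

noncomputable section

namespace Fermat.Agent.S36

open Fermat.Agent.S37 (Kbar GQ FF cst gal jB)
open Fermat.Agent.S24 (jBar)
open Fermat.Agent.S28 Fermat.Agent.Red.GV Fermat.Agent.Red.GV.Asm
open Fermat.Agent.Red.GV.Soft (softOT softV IsSoft IsWit mem_softOT mem_softV_iff exists_scale_FF)
open Fermat.Agent.Red.Kron (kFricke twistK twistHom kFricke_kFricke twistK_qExpand coeff_twistK)
open Fermat.Agent.Red.TRK (charpolyAlong charpolyAlong_monic)
open Fermat.Agent.LGC (ssV)

/-! ## Generic lemmas -/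

/-- coefficients of a product of linear factors with roots in a subring. -/
theorem h88v_coeff_prod_mem {R : Type*} [CommRing R] (S : Subring R) (c : ℕ → R) (n : ℕ)
    (h : ∀ b, b < n → c b ∈ S) (m : ℕ) :
    (∏ b ∈ Finset.range n, (X - C (c b))).coeff m ∈ S := by
  have hX : (X : R[X]) ∈ liftsRing S.subtype :=
    (lifts_iff_liftsRing S.subtype _).1 (X_mem_lifts _)
  have hC : ∀ r ∈ S, (C r : R[X]) ∈ liftsRing S.subtype := fun r hr =>
    (lifts_iff_liftsRing S.subtype _).1 (C'_mem_lifts ⟨⟨r, hr⟩, rfl⟩)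
  have key : (∏ b ∈ Finset.range n, (X - C (c b))) ∈ liftsRing S.subtype :=
    prod_mem fun b hb => sub_mem hX (hC _ (h b (Finset.mem_range.mp hb)))
  obtain ⟨y, hy⟩ := (lifts_iff_coeff_lifts _).1 ((lifts_iff_liftsRing S.subtype _).2 key) m
  rw [← hy]
  exact y.2

section Descent

variable (A : ValuationSubring Kbar) {ℓ : ℕ} (N : ℕ) [NeZero N]

/-- **descent along `t ↦ t^e`**: a function whose expansion in `t^e` is Gauss-integral is
Gauss-integral. -/
theorem h88v_mem_softV_of_qExpand (hℓ : ℓ.Prime) (hA : A.LiesOverPrime ℓ) (e : ℕ) [NeZero e]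
    (y : FF N)
    (h : qExpand Kbar e (y : LaurentSeries Kbar) ∈ softOT A (IsLocalRing.residue A)) :
    y ∈ softV A N := by
  rw [mem_softV_iff]
  by_cases hy0 : y = 0
  · rw [hy0]
    exact (softOT A (IsLocalRing.residue A)).zero_mem
  obtain ⟨c, a, b, hc, ha, hb, hab⟩ := exists_scale_FF A N hℓ hA y hy0
  have hcoe : ((cst N c * y : FF N) : LaurentSeries Kbar) =
      HahnSeries.C c * (y : LaurentSeries Kbar) := by
    show ((cst N c : FF N) : LaurentSeries Kbar) * (y : LaurentSeries Kbar) = _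
    rw [Fermat.Agent.Red.GV.Soft.soft_coe_cst]
  rw [hcoe] at hab
  obtain ⟨a', b', hb', hab'⟩ := h
  have hker := (isResidueMap_residue A ℓ hA).ker_eq
  by_cases hcn : c⁻¹ ∈ A
  · -- `y = c⁻¹ a / b`
    refine ⟨HahnSeries.C (⟨c⁻¹, hcn⟩ : A) * a, b, hb, ?_⟩
    rw [embA_C_mul, hab]
    have hCc : (HahnSeries.C c⁻¹ : LaurentSeries Kbar) * HahnSeries.C c = 1 := by
      rw [← map_mul, inv_mul_cancel₀ hc, map_one]
    calc HahnSeries.C ((⟨c⁻¹, hcn⟩ : A) : Kbar) *
          (HahnSeries.C c * (y : LaurentSeries Kbar) * embA A b)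
        = (HahnSeries.C c⁻¹ * HahnSeries.C c) * ((y : LaurentSeries Kbar) * embA A b) := by
          ring
      _ = (y : LaurentSeries Kbar) * embA A b := by rw [hCc, one_mul]
  · exfalso
    have hnu := inv_mem_nonunits_of_notMem A c⁻¹ hcn
    rw [inv_inv] at hnu
    have hcA : c ∈ A := mem_of_mem_nonunits A c hnu
    have h1 : qExpand A e a * b' = HahnSeries.C (⟨c, hcA⟩ : A) * (a' * qExpand A e b) := by
      apply embA_injective A
      have h2 : embA A (qExpand A e a) = qExpand Kbar e (embA A a) := by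
        rw [embA, ModularCurve.coeffMap_qExpand]
      have h3 : embA A (qExpand A e b) = qExpand Kbar e (embA A b) := by
        rw [embA, ModularCurve.coeffMap_qExpand]
      rw [map_mul, embA_C_mul, map_mul, h2, h3, hab, hab', map_mul, map_mul, qExpand_C]
      ring
    have h2 := congrArg (redA (IsLocalRing.residue A)) h1
    rw [redA_C_mul_of_nonunit (IsLocalRing.residue A) hker _ hnu, map_mul] at h2
    rcases mul_eq_zero.mp h2 with h3 | h3
    · apply ha
      apply qExpand_injective (R := IsLocalRing.ResidueField A) e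
      rw [map_zero, ← h3, redA, ModularCurve.coeffMap_qExpand]
    · exact hb' h3

end Descent

/-! ## The conjugates at the cusp `0` -/

section Zero

variable (M q : ℕ) [NeZero M] [NeZero q]

/-- the base embedding at the cusp `0`: `y ↦ (w y)(t^q)`. -/
def h88v_iota0 (hq : q.Prime) (hqM : ¬ q ∣ M) : FF (M * q) →+* LaurentSeries Kbar :=
  (qExpand Kbar q).comp ((algebraMap (FF (M * q)) (LaurentSeries Kbar)).comp
    (kFricke M q hq hqM : FF (M * q) →+* FF (M * q)))

theorem h88v_iota0_apply (hq : q.Prime) (hqM : ¬ q ∣ M) (y : FF (M * q)) :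
    h88v_iota0 M q hq hqM y =
      qExpand Kbar q ((kFricke M q hq hqM y : FF (M * q)) : LaurentSeries Kbar) := rfl

/-- the family of conjugates at the cusp `0`: `u ↦ (E02 u)(ζ^b t)`. -/
def h88v_fam0 (ζ : Kbar) (hζ0 : ζ ≠ 0) (E0 : FF (M * q * q) →+* LaurentSeries Kbar) (b : ℕ) :
    FF (M * q * q) →+* LaurentSeries Kbar :=
  (twistHom (ζ ^ b) (pow_ne_zero b hζ0)).comp E0

theorem h88v_fam0_apply (ζ : Kbar) (hζ0 : ζ ≠ 0)
    (E0 : FF (M * q * q) →+* LaurentSeries Kbar) (b : ℕ) (u : FF (M * q * q)) :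
    h88v_fam0 M q ζ hζ0 E0 b u = twistK (ζ ^ b) (E0 u) := rfl

theorem h88v_fam0_alpha (hq : q.Prime) (hqM : ¬ q ∣ M) (ζ : Kbar) (hζ0 : ζ ≠ 0)
    (hζq : ζ ^ q = 1) (E0 : FF (M * q * q) →+* LaurentSeries Kbar)
    (hE0 : h20n_IsE02 M q hq hqM E0) (b : ℕ) (y : FF (M * q)) :
    h88v_fam0 M q ζ hζ0 E0 b (heckeAlphaBar Kbar (M * q) q y) = h88v_iota0 M q hq hqM y := by
  rw [h88v_fam0_apply, hE0.1, h88v_iota0_apply]
  exact twistK_qExpand q (by rw [← pow_mul, mul_comm, pow_mul, hζq, one_pow]) _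

/-- the test element `β (w j)`. -/
def h88v_test (hq : q.Prime) (hqM : ¬ q ∣ M) : FF (M * q * q) :=
  heckeBetaBar Kbar (M * q) q (kFricke M q hq hqM (jBar (M * q)))

theorem h88v_fam0_test (hq : q.Prime) (hqM : ¬ q ∣ M) (ζ : Kbar) (hζ0 : ζ ≠ 0)
    (E0 : FF (M * q * q) →+* LaurentSeries Kbar)
    (hE0 : h20n_IsE02 M q hq hqM E0) (b : ℕ) :
    (h88v_fam0 M q ζ hζ0 E0 b (h88v_test M q hq hqM)).coeff (-1) = (ζ ^ b)⁻¹ := by
  rw [h88v_fam0_apply, h88v_test, hE0.2, kFricke_kFricke, coeff_twistK,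
    h58c_coeff_jBar_neg_one, zpow_neg_one, one_mul]

theorem h88v_fam0_injective (hq : q.Prime) (hqM : ¬ q ∣ M) (ζ : Kbar)
    (hζ : IsPrimitiveRoot ζ q) (E0 : FF (M * q * q) →+* LaurentSeries Kbar)
    (hE0 : h20n_IsE02 M q hq hqM E0) :
    Function.Injective
      (fun b : Fin q => h88v_fam0 M q ζ (hζ.ne_zero (NeZero.ne q)) E0 (b : ℕ)) := by
  intro a b hab
  have h1 := congrArg (fun e : FF (M * q * q) →+* LaurentSeries Kbar =>
      (e (h88v_test M q hq hqM)).coeff (-1)) hab
  simp only [h88v_fam0_test M q hq hqM ζ _ E0 hE0] at h1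
  exact Fin.ext (hζ.pow_inj a.2 b.2 (inv_injective h1))

/-- **the characteristic polynomial over `α₂ (F_{Mq})` at the cusp `0`**:
`(w c)(t^q)` for the coefficients `c` of the characteristic polynomial of `u` are the
coefficients of `∏_{b<q} (X - (E02 u)(ζ^b t))`. -/
theorem h88v_charpoly_zero (hq : q.Prime) (hqM : ¬ q ∣ M) (ζ : Kbar)
    (hζ : IsPrimitiveRoot ζ q) (E0 : FF (M * q * q) →+* LaurentSeries Kbar)
    (hE0 : h20n_IsE02 M q hq hqM E0)
    (hfin : FiniteAlong Kbar (heckeAlphaBar Kbar (M * q) q)) (u : FF (M * q * q)) :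
    (charpolyAlong (heckeAlphaBar Kbar (M * q) q) hfin u).map (h88v_iota0 M q hq hqM) =
      ∏ b ∈ Finset.range q, (X - C (twistK (ζ ^ b) (E0 u))) := by
  letI := algebraAlong (heckeAlphaBar Kbar (M * q) q)
  haveI : FiniteDimensional (FF (M * q)) (FF (M * q * q)) :=
    Fermat.Agent.Red.HKMod.finiteAlong_heckeAlphaBar (M * q) q
  haveI : Algebra.IsSeparable (FF (M * q)) (FF (M * q * q)) := inferInstance
  haveI : Infinite (FF (M * q)) := inferInstance
  have key := Fermat.Agent.Red.Kron.charpoly_map_eq_prod_of_embeddings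
    (K := FF (M * q)) (L := FF (M * q * q)) (h88v_iota0 M q hq hqM)
    (fun i : Fin q => h88v_fam0 M q ζ (hζ.ne_zero (NeZero.ne q)) E0 (i : ℕ))
    (h88v_fam0_injective M q hq hqM ζ hζ E0 hE0)
    (fun i y => h88v_fam0_alpha M q hq hqM ζ _ hζ.pow_eq_one E0 hE0 (i : ℕ) y)
    (by rw [Fintype.card_fin]; exact (h58c_finrank_alpha (M * q) q hq (dvd_mul_left q M)).symm)
    u
  show (LinearMap.mulLeft (FF (M * q)) u).charpoly.map (h88v_iota0 M q hq hqM) = _
  rw [key]
  exact Fin.prod_univ_eq_prod_range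
    (fun c : ℕ => (X - C (twistK (ζ ^ c) (E0 u)) : Polynomial (LaurentSeries Kbar))) q

end Zero

/-! ## V-EXACT -/

set_option maxHeartbeats 1000000 in
/-- **V-EXACT (forward direction)**: no fourth vertical valuation at the level `M q q`. -/
theorem h88v_exact : H88VExact := by
  intro q hq M _ hqM
  haveI : NeZero q := ⟨hq.ne_zero⟩
  intro A hA x hx20 hx11 hx02
  have hfin : FiniteAlong Kbar (heckeAlphaBar Kbar (M * q) q) :=
    Fermat.Agent.Red.HKMod.finiteAlong_heckeAlphaBar (M * q) q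
  haveI : Fact q.Prime := ⟨hq⟩
  haveI : NeZero ((q : ℕ) : Kbar) := ⟨by exact_mod_cast NeZero.ne q⟩
  obtain ⟨ζ, hζ⟩ := HasEnoughRootsOfUnity.exists_primitiveRoot Kbar q
  obtain ⟨E0, hE0⟩ := h20n_exists_E02 M q hq hqM
  have hcoeff : ∀ m, (charpolyAlong (heckeAlphaBar Kbar (M * q) q) hfin x).coeff m ∈
      ssV A M q := by
    intro m
    apply Fermat.Agent.LGC.h44v_mem_ssV_of_isFrac A M q hq hqM hA
    · -- at the cusp `∞`
      have key := h58c_charpolyAlong_alpha M q hq hqM ζ hζ hfin x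
      have hc := congrArg (fun p : Polynomial (LaurentSeries Kbar) => p.coeff m) key
      simp only [Polynomial.coeff_map] at hc
      have hmem := h88v_coeff_prod_mem (softOT A (IsLocalRing.residue A))
        (fun c => h58c_conj M q hq hqM ζ hζ c x) q (fun c _ => by
          by_cases hd : q ∣ c
          · rw [h58c_conj_of_dvd M q hq hqM ζ hζ hd]
            exact hx20
          · rw [h58c_conj_of_not_dvd M q hq hqM ζ hζ hd]
            exact hx11 _ _
              (hζ.pow_of_coprime c ((Nat.Prime.coprime_iff_not_dvd hq).mpr hd).symm)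
              ⟨h58c_emb_alpha M q hq hqM _ _, h58c_emb_beta M q hq hqM _ _⟩) m
      rw [← hc] at hmem
      obtain ⟨a, b, hb, hab⟩ := hmem
      exact ⟨a, b, hb, hab⟩
    · -- at the cusp `0`
      have key := h88v_charpoly_zero M q hq hqM ζ hζ E0 hE0 hfin x
      have hc := congrArg (fun p : Polynomial (LaurentSeries Kbar) => p.coeff m) key
      simp only [Polynomial.coeff_map] at hc
      have hmem := h88v_coeff_prod_mem (softOT A (IsLocalRing.residue A))
        (fun b => twistK (ζ ^ b) (E0 x)) q (fun b _ => by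
          obtain ⟨u, hu⟩ := Fermat.Agent.LGC.h44g_exists_unit_of_pow_eq_one A (NeZero.ne q)
            (show (ζ ^ b) ^ q = 1 by rw [← pow_mul, mul_comm, pow_mul, hζ.pow_eq_one, one_pow])
          obtain ⟨a, b', hb', hab⟩ := hx02 E0 hE0
          have h1 := Fermat.Agent.LGC.h44g_isFrac_twistK (π := IsLocalRing.residue A) u
            (s := E0 x) ⟨a, b', hb', hab⟩
          rw [hu] at h1
          obtain ⟨a₂, b₂, hb₂, hab₂⟩ := h1
          exact ⟨a₂, b₂, hb₂, hab₂⟩) m
      rw [← hc, h88v_iota0_apply] at hmem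
      have h2 := h88v_mem_softV_of_qExpand A (M * q) hq hA q _ hmem
      obtain ⟨a, b, hb, hab⟩ := (mem_softV_iff A (M * q) _).mp h2
      exact ⟨a, b, hb, hab⟩
  have hmem : charpolyAlong (heckeAlphaBar Kbar (M * q) q) hfin x ∈
      Polynomial.lifts (ssV A M q).subtype := by
    rw [Polynomial.lifts_iff_coeff_lifts]
    intro m
    exact ⟨⟨_, hcoeff m⟩, rfl⟩
  obtain ⟨p, hp, -, hpm⟩ := Polynomial.lifts_and_degree_eq_and_monic hmem
    (charpolyAlong_monic _ hfin x)
  refine ⟨p, hpm, ?_⟩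
  rw [← Polynomial.eval₂_map, hp]
  exact Fermat.Agent.LGC.h44g_eval₂_charpolyAlong (heckeAlphaBar Kbar (M * q) q) hfin x

end Fermat.Agent.S36
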