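import Mathlib
import Fermat.Agent.S36.H11TorAbs

/-!
# S36, block TOR (helper8): branch values on a chart

`B` a chart (a subalgebra of the function field `F` over the base ring `A`), `𝔫` a closed point
of its special fibre, `W` a vertical valuation of `F` centred at `𝔫` (a component of the special
fibre through `𝔫`: `𝔭_W ∩ B ⊆ 𝔫`, `B ⊆ 𝒪_W`).

* `h8b_BV B 𝔫 W x c` : "the reduction of `x` on the component `W` is regular at `𝔫` and its
  value at `𝔫` is the value of `c ∈ B`": there are `b, t ∈ B`, `t ∉ 𝔫`, with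
  `W (t x - b) < 1` and `b - c t ∈ 𝔫`.  (This is the branch condition of the GATE socket, finding
  #1038 (LOC), and the branch value `res_{W,P}` of the blueprint, finding #1021.)
* calculus: `h8b_bv_of_mem`, `h8b_bv_mul`, `h8b_bv_inv`, `h8b_bv_pow`, `h8b_bv_congr`,
  `h8b_bv_val_congr`, `h8b_bv_unique`, `h8b_bv_of_local`, `h8b_bv_val_one`.
* `h8b_U` : the subgroup of `Fˣ` of the functions having a nonzero branch value.
* `h8b_branch` : the abstract branch (`H11Branch`, `S36/H11TorAbs.lean`) of `(B, 𝔫, W)` with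
  values in the residue field of the local base ring `A`;
  `h8b_local` : the units of `B_𝔫` as an `H11Local` (at a rational closed point).
* `h8b_local_root` : `h ^ m ∈ B_𝔫^× ⟹ h ∈ B_𝔫^×` for a root closed chart (`hnormal` of
  `h11t_branch_const`).

Mathlib + `H11TorAbs` only.
-/

set_option autoImplicit false
set_option linter.unusedSectionVars false

namespace Fermat.Agent.S36

variable {A : Type*} [CommRing A] {F : Type*} [Field F] [Algebra A F]
  {Γ₀ : Type*} [LinearOrderedCommGroupWithZero Γ₀]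

/-- **branch value**: the reduction of `x` on the component `W` has the value of `c` at `𝔫`. -/
def h8b_BV (B : Subalgebra A F) (𝔫 : Ideal B) (W : Valuation F Γ₀) (x : F) (c : B) : Prop :=
  ∃ b t : B, t ∉ 𝔫 ∧ W ((t : F) * x - (b : F)) < 1 ∧ b - c * t ∈ 𝔫

theorem h8b_lt_mul_le {a b : Γ₀} (ha : a < 1) (hb : b ≤ 1) : a * b < 1 :=
  lt_of_le_of_lt (mul_le_of_le_one_right' hb) ha

theorem h8b_le_mul_lt {a b : Γ₀} (ha : a ≤ 1) (hb : b < 1) : a * b < 1 :=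
  lt_of_le_of_lt (mul_le_of_le_one_left' ha) hb

variable {B : Subalgebra A F} {𝔫 : Ideal B} {W : Valuation F Γ₀}

theorem h8b_bv_of_mem [h𝔫 : 𝔫.IsPrime] (b : B) : h8b_BV B 𝔫 W (b : F) b :=
  ⟨b, 1, (Ideal.ne_top_iff_one 𝔫).mp h𝔫.ne_top, by simp, by simp⟩

theorem h8b_bv_one [h𝔫 : 𝔫.IsPrime] : h8b_BV B 𝔫 W (1 : F) 1 := by
  simpa using h8b_bv_of_mem (B := B) (𝔫 := 𝔫) (W := W) (1 : B)

/-- the value may be changed modulo `𝔫`. -/
theorem h8b_bv_val_congr {x : F} {c c' : B} (h : h8b_BV B 𝔫 W x c) (hc : c - c' ∈ 𝔫) :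
    h8b_BV B 𝔫 W x c' := by
  obtain ⟨b, t, ht, hW, hb⟩ := h
  refine ⟨b, t, ht, hW, ?_⟩
  have e : b - c' * t = (b - c * t) + (c - c') * t := by ring
  rw [e]
  exact 𝔫.add_mem hb (𝔫.mul_mem_right _ hc)

/-- a function which has a branch value is integral at `W` up to a denominator outside `𝔫`. -/
theorem h8b_bv_int (hBW : ∀ b : B, W (b : F) ≤ 1) {x : F} {c : B} (h : h8b_BV B 𝔫 W x c) :
    ∃ t : B, t ∉ 𝔫 ∧ W ((t : F) * x) ≤ 1 := by
  obtain ⟨b, t, ht, hW, -⟩ := h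
  refine ⟨t, ht, ?_⟩
  have e : (t : F) * x = ((t : F) * x - b) + b := by ring
  rw [e]
  exact (W.map_add _ _).trans (max_le hW.le (hBW b))

/-- elements of `B` outside `𝔫` are units at a valuation centred at `𝔫`. -/
theorem h8b_val_eq_one (hBW : ∀ b : B, W (b : F) ≤ 1) (hcen : ∀ b : B, W (b : F) < 1 → b ∈ 𝔫)
    {t : B} (ht : t ∉ 𝔫) : W (t : F) = 1 :=
  le_antisymm (hBW t) (not_lt.mp fun h => ht (hcen t h))

/-- **multiplicativity.** -/
theorem h8b_bv_mul [h𝔫 : 𝔫.IsPrime] (hBW : ∀ b : B, W (b : F) ≤ 1) {x y : F} {c d : B}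
    (hx : h8b_BV B 𝔫 W x c) (hy : h8b_BV B 𝔫 W y d) : h8b_BV B 𝔫 W (x * y) (c * d) := by
  obtain ⟨b, t, ht, hW, hb⟩ := hx
  obtain ⟨b', t', ht', hW', hb'⟩ := hy
  refine ⟨b * b', t * t', fun h => (h𝔫.mem_or_mem h).elim ht ht', ?_, ?_⟩
  · have e : ((t * t' : B) : F) * (x * y) - ((b * b' : B) : F)
        = ((t : F) * x - b) * ((t' : F) * y) + (b : F) * ((t' : F) * y - b') := by
      push_cast; ring
    rw [e]
    have h1 : W ((t' : F) * y) ≤ 1 := by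
      have e1 : (t' : F) * y = ((t' : F) * y - b') + b' := by ring
      rw [e1]
      exact (W.map_add _ _).trans (max_le hW'.le (hBW b'))
    have h2 : W (((t : F) * x - b) * ((t' : F) * y)) < 1 := by
      rw [map_mul]
      exact h8b_lt_mul_le hW h1
    have h3 : W ((b : F) * ((t' : F) * y - b')) < 1 := by
      rw [map_mul]
      exact h8b_le_mul_lt (hBW b) hW'
    exact lt_of_le_of_lt (W.map_add _ _) (max_lt h2 h3)
  · have e : b * b' - c * d * (t * t') = (b - c * t) * b' + c * t * (b' - d * t') := by ring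
    rw [e]
    exact 𝔫.add_mem (𝔫.mul_mem_right _ hb) (𝔫.mul_mem_left _ hb')

theorem h8b_bv_pow [h𝔫 : 𝔫.IsPrime] (hBW : ∀ b : B, W (b : F) ≤ 1) {x : F} {c : B}
    (hx : h8b_BV B 𝔫 W x c) (n : ℕ) : h8b_BV B 𝔫 W (x ^ n) (c ^ n) := by
  induction n with
  | zero => simpa using h8b_bv_one (B := B) (𝔫 := 𝔫) (W := W)
  | succ n ih => rw [pow_succ, pow_succ]; exact h8b_bv_mul hBW ih hx

/-- **uniqueness** of the branch value modulo `𝔫`. -/
theorem h8b_bv_unique [h𝔫 : 𝔫.IsPrime] (hcen : ∀ b : B, W (b : F) < 1 → b ∈ 𝔫)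
    (hBW : ∀ b : B, W (b : F) ≤ 1) {x : F} {c d : B}
    (hx : h8b_BV B 𝔫 W x c) (hy : h8b_BV B 𝔫 W x d) : c - d ∈ 𝔫 := by
  obtain ⟨b, t, ht, hW, hb⟩ := hx
  obtain ⟨b', t', ht', hW', hb'⟩ := hy
  have h1 : t * b' - t' * b ∈ 𝔫 := by
    apply hcen
    have e : ((t * b' - t' * b : B) : F)
        = (t' : F) * ((t : F) * x - b) - (t : F) * ((t' : F) * x - b') := by
      push_cast; ring
    rw [e]
    have h2 : W ((t' : F) * ((t : F) * x - b)) < 1 := by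
      rw [map_mul]; exact h8b_le_mul_lt (hBW t') hW
    have h3 : W ((t : F) * ((t' : F) * x - b')) < 1 := by
      rw [map_mul]; exact h8b_le_mul_lt (hBW t) hW'
    exact lt_of_le_of_lt (W.map_sub _ _) (max_lt h2 h3)
  have h4 : (c - d) * (t * t') ∈ 𝔫 := by
    have e : (c - d) * (t * t') = -(t * b' - t' * b) + t * (b' - d * t') - t' * (b - c * t) := by
      ring
    rw [e]
    exact 𝔫.sub_mem (𝔫.add_mem (𝔫.neg_mem h1) (𝔫.mul_mem_left _ hb')) (𝔫.mul_mem_left _ hb)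
  rcases h𝔫.mem_or_mem h4 with h | h
  · exact h
  · exact absurd h fun h' => (h𝔫.mem_or_mem h').elim ht ht'

/-- a function with a nonzero branch value is a unit at `W`. -/
theorem h8b_bv_val_one [h𝔫 : 𝔫.IsPrime] (hcen : ∀ b : B, W (b : F) < 1 → b ∈ 𝔫)
    (hBW : ∀ b : B, W (b : F) ≤ 1) {x : F} {c : B}
    (hx : h8b_BV B 𝔫 W x c) (hc : c ∉ 𝔫) : W x = 1 := by
  obtain ⟨b, t, ht, hW, hb⟩ := hx
  have hbn : b ∉ 𝔫 := by
    intro h
    have : c * t ∈ 𝔫 := by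
      have e : c * t = b - (b - c * t) := by ring
      rw [e]; exact 𝔫.sub_mem h hb
    exact (h𝔫.mem_or_mem this).elim hc ht
  have hb1 : W (b : F) = 1 := h8b_val_eq_one hBW hcen hbn
  have ht1 : W (t : F) = 1 := h8b_val_eq_one hBW hcen ht
  have h1 : W ((t : F) * x) = 1 := by
    have e : (t : F) * x = (b : F) + ((t : F) * x - b) := by ring
    rw [e, W.map_add_eq_of_lt_left (by rw [hb1]; exact hW), hb1]
  rwa [map_mul, ht1, one_mul] at h1

/-- **inverses.** -/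
theorem h8b_bv_inv [h𝔫 : 𝔫.IsPrime] (hcen : ∀ b : B, W (b : F) < 1 → b ∈ 𝔫)
    (hBW : ∀ b : B, W (b : F) ≤ 1) {x : F} {c c' : B}
    (hx : h8b_BV B 𝔫 W x c) (hcc : c * c' - 1 ∈ 𝔫) : h8b_BV B 𝔫 W x⁻¹ c' := by
  have hc : c ∉ 𝔫 := by
    intro h
    have : (1 : B) ∈ 𝔫 := by
      have e : (1 : B) = c * c' - (c * c' - 1) := by ring
      rw [e]; exact 𝔫.sub_mem (𝔫.mul_mem_right _ h) hcc
    exact (Ideal.ne_top_iff_one 𝔫).mp h𝔫.ne_top this
  have hx1 : W x = 1 := h8b_bv_val_one hcen hBW hx hc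
  have hx0 : x ≠ 0 := by
    intro h; rw [h, map_zero] at hx1; exact zero_ne_one hx1
  obtain ⟨b, t, ht, hW, hb⟩ := hx
  have hbn : b ∉ 𝔫 := by
    intro h
    have : c * t ∈ 𝔫 := by
      have e : c * t = b - (b - c * t) := by ring
      rw [e]; exact 𝔫.sub_mem h hb
    exact (h𝔫.mem_or_mem this).elim hc ht
  refine ⟨t, b, hbn, ?_, ?_⟩
  · have e : (b : F) * x⁻¹ - (t : F) = -(((t : F) * x - b) * x⁻¹) := by
      field_simp
      ring
    rw [e, Valuation.map_neg, map_mul, map_inv₀, hx1, inv_one, mul_one]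
    exact hW
  · have e : t - c' * b = -(c' * (b - c * t)) - (c * c' - 1) * t := by ring
    rw [e]
    exact 𝔫.sub_mem (𝔫.neg_mem (𝔫.mul_mem_left _ hb)) (𝔫.mul_mem_right _ hcc)

/-- **congruence**: `x ≡ y` modulo the maximal ideal of `W`. -/
theorem h8b_bv_congr (hBW : ∀ b : B, W (b : F) ≤ 1) {x y : F} {c : B}
    (hy : h8b_BV B 𝔫 W y c) (hxy : W (x - y) < 1) : h8b_BV B 𝔫 W x c := by
  obtain ⟨b, t, ht, hW, hb⟩ := hy
  refine ⟨b, t, ht, ?_, hb⟩
  have e : (t : F) * x - b = (t : F) * (x - y) + ((t : F) * y - b) := by ring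
  rw [e]
  have h2 : W ((t : F) * (x - y)) < 1 := by
    rw [map_mul]; exact h8b_le_mul_lt (hBW t) hxy
  exact lt_of_le_of_lt (W.map_add _ _) (max_lt h2 hW)

/-- **local functions**: a function which is regular at `𝔫` (`s x = b ∈ B`, `s ∉ 𝔫`) has, on
every branch, the branch value `b / s`. -/
theorem h8b_bv_of_local {x : F} (s b c : B) (hs : s ∉ 𝔫) (hsx : (s : F) * x = b)
    (hc : b - c * s ∈ 𝔫) : h8b_BV B 𝔫 W x c :=
  ⟨b, s, hs, by rw [hsx, sub_self, map_zero]; exact zero_lt_one, hc⟩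

/-- constants. -/
theorem h8b_bv_algebraMap [h𝔫 : 𝔫.IsPrime] (a : A) :
    h8b_BV B 𝔫 W (algebraMap A F a) (algebraMap A B a) :=
  h8b_bv_of_mem (algebraMap A B a)

/-! ## The group of functions with a nonzero branch value -/

section Group

variable (B 𝔫 W)

/-- the subgroup of `Fˣ` of the functions with a nonzero branch value on the branch `W` at the
closed point `𝔫`. -/
def h8b_U [h𝔫 : 𝔫.IsMaximal] (hcen : ∀ b : B, W (b : F) < 1 → b ∈ 𝔫)
    (hBW : ∀ b : B, W (b : F) ≤ 1) : Subgroup Fˣ where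
  carrier := {x | ∃ c : B, c ∉ 𝔫 ∧ h8b_BV B 𝔫 W (x : F) c}
  one_mem' := ⟨1, (Ideal.ne_top_iff_one 𝔫).mp h𝔫.ne_top, by
    have := h𝔫.isPrime
    simpa using h8b_bv_one (B := B) (𝔫 := 𝔫) (W := W)⟩
  mul_mem' := by
    have := h𝔫.isPrime
    rintro x y ⟨c, hc, hx⟩ ⟨d, hd, hy⟩
    exact ⟨c * d, fun h => (h𝔫.isPrime.mem_or_mem h).elim hc hd, by
      simpa using h8b_bv_mul hBW hx hy⟩
  inv_mem' := by
    have := h𝔫.isPrime
    rintro x ⟨c, hc, hx⟩
    obtain ⟨c', i, hi, hci⟩ := Ideal.IsMaximal.exists_inv h𝔫 hc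
    have hcc : c * c' - 1 ∈ 𝔫 := by
      have e : c * c' - 1 = -i := by
        have : c' * c + i = 1 := hci
        linear_combination this
      rw [e]; exact 𝔫.neg_mem hi
    refine ⟨c', fun h => ?_, by simpa using h8b_bv_inv hcen hBW hx hcc⟩
    have : (1 : B) ∈ 𝔫 := by
      have e : (1 : B) = c * c' - (c * c' - 1) := by ring
      rw [e]; exact 𝔫.sub_mem (𝔫.mul_mem_left _ h) hcc
    exact (Ideal.ne_top_iff_one 𝔫).mp h𝔫.ne_top this

end Group

/-! ## The abstract branch and the local units -/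

section Abstract

open IsLocalRing

variable [IsLocalRing A]

/-- the images of the units of `A` are outside `𝔫`. -/
theorem h8b_algebraMap_notMem [h𝔫 : 𝔫.IsPrime] {a : A} (ha : residue A a ≠ 0) :
    algebraMap A B a ∉ 𝔫 := by
  intro h
  have hu : IsUnit a := by
    by_contra hn
    exact ha ((residue_eq_zero_iff a).mpr ((mem_maximalIdeal a).mpr hn))
  exact h𝔫.ne_top (Ideal.eq_top_of_isUnit_mem 𝔫 h (hu.map (algebraMap A B)))

variable (B 𝔫 W)

/-- **the abstract branch** of the chart `B` at the closed point `𝔫` along the vertical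
valuation `W`, with values in the residue field of `A`. -/
def h8b_branch [h𝔫 : 𝔫.IsPrime] (hcen : ∀ b : B, W (b : F) < 1 → b ∈ 𝔫)
    (hBW : ∀ b : B, W (b : F) ≤ 1) : H11Branch F (ResidueField A) where
  rel x c := ∃ a : A, residue A a = c ∧ c ≠ 0 ∧ h8b_BV B 𝔫 W x (algebraMap A B a)
  mul := by
    rintro x y c d ⟨a, rfl, hc, hx⟩ ⟨a', rfl, hd, hy⟩
    refine ⟨a * a', map_mul _ _ _, mul_ne_zero hc hd, ?_⟩
    rw [map_mul]
    exact h8b_bv_mul hBW hx hy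
  inv := by
    rintro x c ⟨a, rfl, hc, hx⟩
    have hu : IsUnit a := by
      by_contra hn
      exact hc ((residue_eq_zero_iff a).mpr ((mem_maximalIdeal a).mpr hn))
    obtain ⟨u, rfl⟩ := hu
    refine ⟨((u⁻¹ : Aˣ) : A), ?_, inv_ne_zero hc, ?_⟩
    · exact eq_inv_of_mul_eq_one_left (by rw [← map_mul, Units.inv_mul, map_one])
    · refine h8b_bv_inv hcen hBW hx ?_
      rw [← map_mul, Units.mul_inv, map_one, sub_self]
      exact 𝔫.zero_mem
  ne_zero := by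
    rintro x c ⟨a, rfl, hc, -⟩
    exact hc
  ne_zero' := by
    rintro x c ⟨a, rfl, hc, hx⟩ h0
    have h1 := h8b_bv_val_one hcen hBW hx (h8b_algebraMap_notMem hc)
    rw [h0, map_zero] at h1
    exact zero_ne_one h1
  uniq := by
    rintro x c c' ⟨a, rfl, hc, hx⟩ ⟨a', rfl, hc', hx'⟩
    have h1 := h8b_bv_unique hcen hBW hx hx'
    rw [← map_sub] at h1
    have h2 : a - a' ∈ maximalIdeal A := by
      rw [mem_maximalIdeal, mem_nonunits_iff]
      intro hu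
      exact h𝔫.ne_top (Ideal.eq_top_of_isUnit_mem 𝔫 h1 (hu.map (algebraMap A B)))
    have h3 := (residue_eq_zero_iff (a - a')).mpr h2
    rw [map_sub, sub_eq_zero] at h3
    exact h3

theorem h8b_branch_rel [h𝔫 : 𝔫.IsPrime] (hcen : ∀ b : B, W (b : F) < 1 → b ∈ 𝔫)
    (hBW : ∀ b : B, W (b : F) ≤ 1) (x : F) (c : ResidueField A) :
    (h8b_branch B 𝔫 W hcen hBW).rel x c ↔
      ∃ a : A, residue A a = c ∧ c ≠ 0 ∧ h8b_BV B 𝔫 W x (algebraMap A B a) :=
  Iff.rfl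

variable {W}

/-- `x` is a unit of the local ring `B_𝔫`. -/
def h8b_IsLocalUnit (x : F) : Prop :=
  x ≠ 0 ∧ ∃ s : B, s ∉ 𝔫 ∧ (s : F) * x ∈ B ∧ (s : F) * x⁻¹ ∈ B

variable {B 𝔫}

theorem h8b_isLocalUnit_mul [h𝔫 : 𝔫.IsPrime] {x y : F} (hx : h8b_IsLocalUnit B 𝔫 x)
    (hy : h8b_IsLocalUnit B 𝔫 y) : h8b_IsLocalUnit B 𝔫 (x * y) := by
  obtain ⟨hx0, s, hs, h1, h2⟩ := hx
  obtain ⟨hy0, s', hs', h1', h2'⟩ := hy
  refine ⟨mul_ne_zero hx0 hy0, s * s', fun h => (h𝔫.mem_or_mem h).elim hs hs', ?_, ?_⟩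
  · have e : ((s * s' : B) : F) * (x * y) = ((s : F) * x) * ((s' : F) * y) := by
      push_cast; ring
    rw [e]; exact B.mul_mem h1 h1'
  · have e : ((s * s' : B) : F) * (x * y)⁻¹ = ((s : F) * x⁻¹) * ((s' : F) * y⁻¹) := by
      push_cast; rw [mul_inv]; ring
    rw [e]; exact B.mul_mem h2 h2'

theorem h8b_isLocalUnit_inv {x : F} (hx : h8b_IsLocalUnit B 𝔫 x) :
    h8b_IsLocalUnit B 𝔫 x⁻¹ := by
  obtain ⟨hx0, s, hs, h1, h2⟩ := hx
  exact ⟨inv_ne_zero hx0, s, hs, h2, by rwa [inv_inv]⟩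

/-- a unit of `B_𝔫` is `b / s` with `b, s ∈ B ∖ 𝔫`. -/
theorem h8b_isLocalUnit_num [h𝔫 : 𝔫.IsPrime] {x : F} (hx : h8b_IsLocalUnit B 𝔫 x) :
    ∃ s b : B, s ∉ 𝔫 ∧ b ∉ 𝔫 ∧ (s : F) * x = b := by
  obtain ⟨hx0, s, hs, h1, h2⟩ := hx
  refine ⟨s, ⟨_, h1⟩, hs, ?_, rfl⟩
  intro hb
  have h3 : (⟨_, h1⟩ : B) * ⟨_, h2⟩ = s * s := by
    apply Subtype.ext
    push_cast
    field_simp
  have h4 : s * s ∈ 𝔫 := by rw [← h3]; exact 𝔫.mul_mem_right _ hb
  exact (h𝔫.mem_or_mem h4).elim hs hs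

/-- elements of `B` outside `𝔫` are units of `B_𝔫`. -/
theorem h8b_isLocalUnit_of_notMem {s : B} (hs : s ∉ 𝔫) : h8b_IsLocalUnit B 𝔫 (s : F) := by
  have hs0 : (s : F) ≠ 0 := by
    intro h
    apply hs
    have : s = 0 := Subtype.ext h
    rw [this]; exact 𝔫.zero_mem
  refine ⟨hs0, s, hs, B.mul_mem s.2 s.2, ?_⟩
  rw [mul_inv_cancel₀ hs0]
  exact B.one_mem

/-- **root closedness of the local ring**: if `B` is root closed (`x ^ m ∈ B → x ∈ B`, e.g. `B`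
normal) then `h ^ m ∈ B_𝔫^× → h ∈ B_𝔫^×`. -/
theorem h8b_local_root (m : ℕ) (hm : 0 < m)
    (hroot : ∀ x : F, x ^ m ∈ B → x ∈ B) {h : F} (hh : h8b_IsLocalUnit B 𝔫 (h ^ m)) :
    h8b_IsLocalUnit B 𝔫 h := by
  obtain ⟨hh0, s, hs, h1, h2⟩ := hh
  have h0 : h ≠ 0 := fun e => hh0 (by rw [e, zero_pow hm.ne'])
  obtain ⟨n, rfl⟩ : ∃ n, m = n + 1 := ⟨m - 1, by omega⟩
  refine ⟨h0, s, hs, hroot _ ?_, hroot _ ?_⟩
  · have e : ((s : F) * h) ^ (n + 1) = (s : F) ^ n * ((s : F) * h ^ (n + 1)) := by ring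
    rw [e]; exact B.mul_mem (B.pow_mem s.2 n) h1
  · have e : ((s : F) * h⁻¹) ^ (n + 1) = (s : F) ^ n * ((s : F) * (h ^ (n + 1))⁻¹) := by
      rw [← inv_pow]; ring
    rw [e]; exact B.mul_mem (B.pow_mem s.2 n) h2

variable (B 𝔫)

/-- **the local units** of the chart `B` at a rational closed point `𝔫` of the special fibre
through which the branches `W i` pass. -/
def h8b_local [h𝔫 : 𝔫.IsPrime] {ι : Type*} (W : ι → Valuation F Γ₀)
    (hcen : ∀ i, ∀ b : B, W i (b : F) < 1 → b ∈ 𝔫)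
    (hBW : ∀ i, ∀ b : B, W i (b : F) ≤ 1)
    (h𝔫A : ∀ a ∈ maximalIdeal A, algebraMap A B a ∈ 𝔫)
    (hrat : ∀ b : B, ∃ a : A, b - algebraMap A B a ∈ 𝔫) :
    H11Local F (ResidueField A) ι (fun i => h8b_branch B 𝔫 (W i) (hcen i) (hBW i)) where
  unit x := h8b_IsLocalUnit B 𝔫 x
  mul := h8b_isLocalUnit_mul
  inv := h8b_isLocalUnit_inv
  val := by
    intro x hx
    obtain ⟨s, b, hs, hb, hsx⟩ := h8b_isLocalUnit_num hx
    obtain ⟨as, has⟩ := hrat s
    obtain ⟨ab, hab⟩ := hrat b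
    have key : ∀ (t : B) (at' : A), t ∉ 𝔫 → t - algebraMap A B at' ∈ 𝔫 → IsUnit at' := by
      intro t at' ht hat
      by_contra hn
      have h1 : algebraMap A B at' ∈ 𝔫 := h𝔫A _ ((mem_maximalIdeal at').mpr hn)
      apply ht
      have e : t = (t - algebraMap A B at') + algebraMap A B at' := by ring
      rw [e]; exact 𝔫.add_mem hat h1
    obtain ⟨us, rfl⟩ := key s as hs has
    obtain ⟨ub, rfl⟩ := key b ab hb hab
    have hres : residue A ((ub * us⁻¹ : Aˣ) : A) ≠ 0 := by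
      intro h
      have := (residue_eq_zero_iff _).mp h
      rw [mem_maximalIdeal, mem_nonunits_iff] at this
      exact this (Units.isUnit _)
    refine ⟨residue A ((ub * us⁻¹ : Aˣ) : A), fun i => ⟨_, rfl, hres, ?_⟩⟩
    refine h8b_bv_of_local s b _ hs hsx ?_
    have e : b - algebraMap A B ((ub * us⁻¹ : Aˣ) : A) * s
        = (b - algebraMap A B (ub : A))
          - algebraMap A B ((ub * us⁻¹ : Aˣ) : A) * (s - algebraMap A B (us : A)) := by
      have h1 : algebraMap A B ((ub * us⁻¹ : Aˣ) : A) * algebraMap A B (us : A)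
          = algebraMap A B (ub : A) := by
        rw [← map_mul]
        congr 1
        rw [← Units.val_mul, inv_mul_cancel_right]
      linear_combination -h1
    rw [e]
    exact 𝔫.sub_mem hab (𝔫.mul_mem_left _ has)

variable {B 𝔫}

/-- the branch value of a unit constant. -/
theorem h8b_branch_const [h𝔫 : 𝔫.IsPrime] (hcen : ∀ b : B, W (b : F) < 1 → b ∈ 𝔫)
    (hBW : ∀ b : B, W (b : F) ≤ 1) {a : A} (ha : residue A a ≠ 0) :
    (h8b_branch B 𝔫 W hcen hBW).rel (algebraMap A F a) (residue A a) :=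
  ⟨a, rfl, ha, h8b_bv_algebraMap a⟩

/-- **functions with constant reduction on the component**: if `x ≡ a` modulo the maximal ideal
of `W` (`a` a unit of `A`), then `x` has the branch value `ā` at every closed point of the
component. -/
theorem h8b_branch_of_cong [h𝔫 : 𝔫.IsPrime] (hcen : ∀ b : B, W (b : F) < 1 → b ∈ 𝔫)
    (hBW : ∀ b : B, W (b : F) ≤ 1) {a : A} (ha : residue A a ≠ 0) {x : F}
    (hx : W (x - algebraMap A F a) < 1) :
    (h8b_branch B 𝔫 W hcen hBW).rel x (residue A a) :=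
  ⟨a, rfl, ha, h8b_bv_congr hBW (h8b_bv_algebraMap a) hx⟩

/-- functions `≡ 1` on the component have the branch value `1`. -/
theorem h8b_branch_of_cong_one [h𝔫 : 𝔫.IsPrime] (hcen : ∀ b : B, W (b : F) < 1 → b ∈ 𝔫)
    (hBW : ∀ b : B, W (b : F) ≤ 1) {x : F} (hx : W (x - 1) < 1) :
    (h8b_branch B 𝔫 W hcen hBW).rel x 1 := by
  have h := h8b_branch_of_cong (B := B) (𝔫 := 𝔫) (W := W) hcen hBW (a := 1)
    (by rw [map_one]; exact one_ne_zero) (x := x) (by rwa [map_one])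
  rwa [map_one] at h

/-- **adapter to the GATE socket** (finding #1038, (LOC), second line): equal branch values on
the branches `W i` give one `c ∈ B ∖ 𝔫` with `t G - b ∈ 𝔪_{W i}`, `b - c t ∈ 𝔫` on every
branch. -/
theorem h8b_loc_of_equal [h𝔫 : 𝔫.IsPrime] {ι : Type*} (W : ι → Valuation F Γ₀)
    (hcen : ∀ i, ∀ b : B, W i (b : F) < 1 → b ∈ 𝔫)
    (hBW : ∀ i, ∀ b : B, W i (b : F) ≤ 1)
    (h𝔫A : ∀ a ∈ maximalIdeal A, algebraMap A B a ∈ 𝔫) [Nonempty ι] (G : F)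
    (z : ResidueField A)
    (h : ∀ i, (h8b_branch B 𝔫 (W i) (hcen i) (hBW i)).rel G z) :
    ∃ c : B, c ∉ 𝔫 ∧ ∀ i, ∃ b t : B, t ∉ 𝔫 ∧ W i ((t : F) * G - (b : F)) < 1 ∧
      b - c * t ∈ 𝔫 := by
  obtain ⟨i₀⟩ := ‹Nonempty ι›
  obtain ⟨a₀, ha₀, hz, -⟩ := h i₀
  refine ⟨algebraMap A B a₀, h8b_algebraMap_notMem (ha₀ ▸ hz), fun i => ?_⟩
  obtain ⟨a, ha, -, b, t, ht, hW, hb⟩ := h i
  refine ⟨b, t, ht, hW, ?_⟩
  have h1 : a - a₀ ∈ maximalIdeal A := by
    rw [← residue_eq_zero_iff, map_sub, ha, ha₀, sub_self]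
  have h2 : algebraMap A B (a - a₀) ∈ 𝔫 := h𝔫A _ h1
  have e : b - algebraMap A B a₀ * t = (b - algebraMap A B a * t) + algebraMap A B (a - a₀) * t := by
    rw [map_sub]; ring
  rw [e]
  exact 𝔫.add_mem hb (𝔫.mul_mem_right _ h2)

end Abstract

end Fermat.Agent.S36
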