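import Mathlib
import Fermat.Prelude.Def_GaloisRep_LocalConditions

/-!
# S36, ALG: the two-dimensional Kolchin lemma (helper8)

A multiplicatively closed set of endomorphisms of a free module of rank `2` over a domain all of
whose elements have characteristic polynomial `(X - 1) ^ 2` has a common nonzero fixed vector.

* `h8k_matrix_fixed`  : matrix form.
* `h8k_exists_fixed`  : endomorphisms of a free module of rank two.
* `h8k_not_unipotent` : contrapositive form: if no nonzero vector is fixed by all the `f i`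
  (`i ∈ s`, `f` multiplicative on the subgroup `s`), then some `f i` has characteristic polynomial
  different from `(X - 1) ^ 2`.
-/

set_option autoImplicit false

open Polynomial Matrix

namespace Fermat.Agent.S36

variable {R : Type*} [CommRing R]

/-- `N h N = tr (N h) N - det N · adj h` for `2 × 2` matrices. -/
theorem h8k_mul_mul (N h : Matrix (Fin 2) (Fin 2) R) :
    N * h * N = (N * h).trace • N - N.det • h.adjugate := by
  ext i j
  fin_cases i <;> fin_cases j <;>
    simp [Matrix.mul_apply, Fin.sum_univ_two, Matrix.trace, Matrix.det_fin_two,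
      Matrix.adjugate_fin_two] <;> ring

/-- `det (g - 1) = det g - tr g + 1` for `2 × 2` matrices. -/
theorem h8k_det_sub_one (g : Matrix (Fin 2) (Fin 2) R) :
    (g - 1).det = g.det - g.trace + 1 := by
  simp [Matrix.det_fin_two, Matrix.trace, Fin.sum_univ_two]
  ring

/-- trace and determinant of a matrix with characteristic polynomial `(X - 1) ^ 2`. -/
theorem h8k_trace_det [Nontrivial R] (g : Matrix (Fin 2) (Fin 2) R)
    (hg : g.charpoly = (X - 1) ^ 2) : g.trace = 2 ∧ g.det = 1 := by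
  rw [Matrix.charpoly_fin_two] at hg
  have h1 := congrArg (fun f : R[X] => f.coeff 1) hg
  have h0 := congrArg (fun f : R[X] => f.coeff 0) hg
  have e : ((X : R[X]) - 1) ^ 2 = X ^ 2 - C (2 : R) * X + C (1 : R) := by
    simp only [map_ofNat, map_one]
    ring
  rw [e] at h1 h0
  simp only [coeff_add, coeff_sub, coeff_X_pow, coeff_C_mul, coeff_X, coeff_C] at h1 h0
  norm_num at h1 h0
  exact ⟨h1, h0⟩

/-- `(g - 1) ^ 2 = 0` for a `2 × 2` matrix with trace `2` and determinant `1`. -/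
theorem h8k_sq_zero (g : Matrix (Fin 2) (Fin 2) R) (ht : g.trace = 2) (hd : g.det = 1) :
    (g - 1) * (g - 1) = 0 := by
  have h := h8k_mul_mul (g - 1) 1
  rw [mul_one, h8k_det_sub_one, hd, ht] at h
  have e : (g - 1).trace = 0 := by
    rw [Matrix.trace_sub, ht, Matrix.trace_one]
    simp
  have e' : (1 : R) - 2 + 1 = 0 := by ring
  rw [e, zero_smul, e', zero_smul, sub_zero] at h
  exact h

variable [IsDomain R]

/-- two vectors in the kernel of a nonzero `2 × 2` matrix over a domain are parallel. -/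
theorem h8k_parallel (N : Matrix (Fin 2) (Fin 2) R) (hN : N ≠ 0) (v y : Fin 2 → R)
    (hv : N *ᵥ v = 0) (hy : N *ᵥ y = 0) : v 0 * y 1 = v 1 * y 0 := by
  obtain ⟨i, j, hij⟩ : ∃ i j, N i j ≠ 0 := by
    by_contra hcon
    push Not at hcon
    apply hN
    ext i j
    exact hcon i j
  have h1 := congrFun hv i
  have h2 := congrFun hy i
  simp only [Matrix.mulVec, dotProduct, Fin.sum_univ_two, Pi.zero_apply] at h1 h2
  have key : N i j * (v 0 * y 1 - v 1 * y 0) = 0 := by
    fin_cases j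
    · show N i 0 * (v 0 * y 1 - v 1 * y 0) = 0
      linear_combination y 1 * h1 - v 1 * h2
    · show N i 1 * (v 0 * y 1 - v 1 * y 0) = 0
      linear_combination v 0 * h2 - y 0 * h1
  rcases mul_eq_zero.mp key with h | h
  · exact absurd h hij
  · exact sub_eq_zero.mp h

/-- **Kolchin in dimension two, matrix form.** -/
theorem h8k_matrix_fixed (G : Set (Matrix (Fin 2) (Fin 2) R))
    (hmul : ∀ g ∈ G, ∀ h ∈ G, g * h ∈ G)
    (hG : ∀ g ∈ G, g.trace = 2 ∧ g.det = 1) :
    ∃ v : Fin 2 → R, v ≠ 0 ∧ ∀ g ∈ G, g *ᵥ v = v := by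
  by_cases hall : ∀ g ∈ G, g = 1
  · refine ⟨fun _ => 1, ?_, fun g hg => ?_⟩
    · intro h
      have := congrFun h 0
      simp at this
    · rw [hall g hg, Matrix.one_mulVec]
  push Not at hall
  obtain ⟨g₀, hg₀, hne⟩ := hall
  have hN₀ : g₀ - 1 ≠ 0 := sub_ne_zero.mpr hne
  have hsq₀ : (g₀ - 1) * (g₀ - 1) = 0 := h8k_sq_zero g₀ (hG g₀ hg₀).1 (hG g₀ hg₀).2
  have hdet₀ : (g₀ - 1).det = 0 := by
    rw [h8k_det_sub_one, (hG g₀ hg₀).1, (hG g₀ hg₀).2]
    norm_num
  -- a nonzero column of `N₀`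
  obtain ⟨j, hj⟩ : ∃ j, (g₀ - 1) *ᵥ (Pi.single j 1) ≠ 0 := by
    by_contra hcon
    push Not at hcon
    apply hN₀
    ext i j
    have := congrFun (hcon j) i
    simpa using this
  refine ⟨(g₀ - 1) *ᵥ (Pi.single j 1), hj, fun h hh => ?_⟩
  have hv0 : (g₀ - 1) *ᵥ ((g₀ - 1) *ᵥ (Pi.single j 1)) = 0 := by
    rw [Matrix.mulVec_mulVec, hsq₀, Matrix.zero_mulVec]
  -- `N₀ h N₀ = 0`
  have htr : ((g₀ - 1) * h).trace = 0 := by
    have h1 := (hG (g₀ * h) (hmul g₀ hg₀ h hh)).1
    have h2 := (hG h hh).1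
    rw [sub_mul, one_mul, Matrix.trace_sub, h1, h2, sub_self]
  have hNhN : (g₀ - 1) * h * (g₀ - 1) = 0 := by
    rw [h8k_mul_mul, htr, hdet₀, zero_smul, zero_smul, sub_zero]
  have hNh : (g₀ - 1) * (h - 1) * (g₀ - 1) = 0 := by
    have e : (g₀ - 1) * (h - 1) * (g₀ - 1) =
        (g₀ - 1) * h * (g₀ - 1) - (g₀ - 1) * (g₀ - 1) := by noncomm_ring
    rw [e, hNhN, hsq₀, sub_zero]
  have hy0 : (g₀ - 1) *ᵥ ((h - 1) *ᵥ ((g₀ - 1) *ᵥ (Pi.single j 1))) = 0 := by
    rw [Matrix.mulVec_mulVec, Matrix.mulVec_mulVec, hNh, Matrix.zero_mulVec]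
  have hsqh : (h - 1) * (h - 1) = 0 := h8k_sq_zero h (hG h hh).1 (hG h hh).2
  have hyy : (h - 1) *ᵥ ((h - 1) *ᵥ ((g₀ - 1) *ᵥ (Pi.single j 1))) = 0 := by
    rw [Matrix.mulVec_mulVec, hsqh, Matrix.zero_mulVec]
  -- notation
  obtain ⟨v, hv⟩ : ∃ v : Fin 2 → R, v = (g₀ - 1) *ᵥ (Pi.single j 1) := ⟨_, rfl⟩
  obtain ⟨y, hy⟩ : ∃ y : Fin 2 → R, y = (h - 1) *ᵥ v := ⟨_, rfl⟩
  rw [← hv] at hv0 hy0 hyy hj ⊢
  rw [← hy] at hy0 hyy
  have hpar := h8k_parallel (g₀ - 1) hN₀ v y hv0 hy0
  -- `y i • v = v i • y`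
  have e0 : y 0 • v = v 0 • y := by
    ext i
    fin_cases i
    · show y 0 * v 0 = v 0 * y 0
      ring
    · show y 0 * v 1 = v 0 * y 1
      linear_combination -hpar
  have e1 : y 1 • v = v 1 • y := by
    ext i
    fin_cases i
    · show y 1 * v 0 = v 1 * y 0
      linear_combination hpar
    · show y 1 * v 1 = v 1 * y 1
      ring
  have f0 : y 0 • y = 0 := by
    have := congrArg (fun w => (h - 1) *ᵥ w) e0
    simp only [Matrix.mulVec_smul] at this
    rw [← hy, hyy, smul_zero] at this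
    exact this
  have f1 : y 1 • y = 0 := by
    have := congrArg (fun w => (h - 1) *ᵥ w) e1
    simp only [Matrix.mulVec_smul] at this
    rw [← hy, hyy, smul_zero] at this
    exact this
  have hy00 : y 0 = 0 := by
    have := congrFun f0 0
    simpa using this
  have hy10 : y 1 = 0 := by
    have := congrFun f1 1
    simpa using this
  have hyz : y = 0 := by
    ext i
    fin_cases i
    · exact hy00
    · exact hy10
  have : (h - 1) *ᵥ v = 0 := by rw [← hy]; exact hyz
  rw [Matrix.sub_mulVec, Matrix.one_mulVec, sub_eq_zero] at this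
  exact this

/-- **Kolchin in dimension two**: a multiplicatively closed set of endomorphisms of a free module
of rank two over a domain, all with characteristic polynomial `(X - 1) ^ 2`, has a common nonzero
fixed vector. -/
theorem h8k_exists_fixed {V : Type*} [AddCommGroup V] [Module R V] [Module.Free R V]
    [Module.Finite R V] (hV : Module.finrank R V = 2) (G : Set (Module.End R V))
    (hmul : ∀ g ∈ G, ∀ h ∈ G, g * h ∈ G)
    (hG : ∀ g ∈ G, LinearMap.charpoly g = (X - 1) ^ 2) :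
    ∃ v : V, v ≠ 0 ∧ ∀ g ∈ G, g v = v := by
  classical
  obtain ⟨b⟩ : Nonempty (Module.Basis (Fin 2) R V) := ⟨Module.finBasisOfFinrankEq R V hV⟩
  obtain ⟨v', hv', hfix⟩ := h8k_matrix_fixed (R := R)
    ((fun g : Module.End R V => LinearMap.toMatrix b b g) '' G)
    (by
      rintro _ ⟨g, hg, rfl⟩ _ ⟨h, hh, rfl⟩
      refine ⟨g * h, hmul g hg h hh, ?_⟩
      exact LinearMap.toMatrix_mul b g h)
    (by
      rintro _ ⟨g, hg, rfl⟩
      apply h8k_trace_det
      rw [LinearMap.charpoly_toMatrix]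
      exact hG g hg)
  refine ⟨b.equivFun.symm v', ?_, fun g hg => ?_⟩
  · intro h
    apply hv'
    have h1 := congrArg b.equivFun h
    rw [LinearEquiv.apply_symm_apply, map_zero] at h1
    exact h1
  · have h1 := hfix _ ⟨g, hg, rfl⟩
    have h2 := LinearMap.toMatrix_mulVec_repr b b g (b.equivFun.symm v')
    have h3 : (b.repr (b.equivFun.symm v') : Fin 2 → R) = v' := by
      have := b.equivFun.apply_symm_apply v'
      exact this
    rw [h3, h1] at h2
    apply b.repr.injective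
    apply DFunLike.coe_injective
    rw [← h2, h3]

/-- **Consumer form for S36.** If no nonzero vector of a `2`-dimensional Galois representation
over a domain is fixed by the inertia group at `P` (over `q`), the representation is not unipotent
on inertia at `q`. -/
theorem h8k_not_unipotent {A : Type} [CommRing A] [IsLocalRing A] [IsDomain A]
    (ρ : GaloisRepAdic A) (q : ℕ) (P : ValuationSubring (AlgebraicClosure ℚ))
    (hP : P.LiesOverPrime q)
    (hinv : ∀ v : ρ.V, (∀ σ ∈ P.inertiaSubgroupIn ℚ, ρ.ρ σ v = v) → v = 0) :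
    ¬ ρ.IsUnipotentOnInertiaAt q := by
  intro hu
  obtain ⟨v, hv, hfix⟩ := h8k_exists_fixed (R := A) ρ.finrank_eq
    {g | ∃ σ ∈ P.inertiaSubgroupIn ℚ, ρ.ρ σ = g}
    (by
      rintro _ ⟨σ, hσ, rfl⟩ _ ⟨τ, hτ, rfl⟩
      exact ⟨σ * τ, mul_mem hσ hτ, map_mul ρ.ρ σ τ⟩)
    (by
      rintro _ ⟨σ, hσ, rfl⟩
      exact hu P hP σ hσ)
  exact hv (hinv v fun σ hσ => hfix _ ⟨σ, hσ, rfl⟩)

end Fermat.Agent.S36
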