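import Fermat.Agent.S36.H11LocSkel
import Fermat.Agent.S36.H86LocIface

/-!
# S36, row H92LOC: the two skeletons of `H92Loc` are one tree (helper8)

* helper86: `H86LocOne → H86LocMulti → H92Loc` (`S36/H86LocAsm.lean`);
* helper11: `H11LocOrd → H11LocCusp → H11LocTransfer → H11LocGlue → H11LocTor → H92Loc`
  (`S36/H11LocSkel.lean`).

`h11l_OneBranch q 𝔫` is the negation of `h86l_IsMulti 𝔫 q`, so the one-branch leaves are
equivalent, and the multi-branch leaf of helper86 follows from `H92Loc`: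

* `h8x_oneBranch_iff` : `h11l_OneBranch π 𝔫 ↔ ¬ h86l_IsMulti 𝔫 π`;
* `h8x_locOrd_of_locOne : H86LocOne → H11LocOrd`, `h8x_locOne_of_locOrd : H11LocOrd → H86LocOne`;
* `h8x_locMulti_of_loc : H92Loc → H86LocMulti`;
* `h8x_locMulti_of : H11LocOrd → H11LocCusp → H11LocTransfer → H11LocGlue → H11LocTor →
  H86LocMulti`.
-/

set_option autoImplicit false
set_option linter.style.haveILetI false

open AlgebraicCurve ModularCurve

noncomputable section

namespace Fermat.Agent.S36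

open Fermat.Agent.S37 (Kbar GQ FF cst jB gal modelAt degen auxLevel)

theorem h8x_oneBranch_iff {R : Type*} [CommRing R] (π : R) (𝔫 : Ideal R) :
    h11l_OneBranch π 𝔫 ↔ ¬ h86l_IsMulti 𝔫 π := by
  constructor
  · rintro h ⟨P, P', hP, hP', h1, h2, h3, h4, h5, h6, h7⟩
    exact h7 (h P P' hP hP' h1 h2 h3 h4 h5 h6)
  · intro h P P' hP hP' h1 h2 h3 h4 h5 h6
    by_contra h7
    exact h ⟨P, P', hP, hP', h1, h2, h3, h4, h5, h6, h7⟩

/-- the one-branch leaf of helper86 gives the one-branch leaf of helper11. -/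
theorem h8x_locOrd_of_locOne (h : H86LocOne) : H11LocOrd := by
  intro q hq M _ hqM haux
  haveI : NeZero q := ⟨hq.ne_zero⟩
  intro A hA t ht m hm w hw0 hwF hwU hord 𝔫 h𝔫 hq𝔫 hone
  obtain ⟨h0, h1⟩ := h q hq M hqM haux A hA
  rcases ht with rfl | rfl
  · exact h0 m hm w hw0 hwF hwU hord 𝔫 h𝔫 hq𝔫 ((h8x_oneBranch_iff _ _).mp hone)
  · exact h1 m hm w hw0 hwF hwU hord 𝔫 h𝔫 hq𝔫 ((h8x_oneBranch_iff _ _).mp hone)

/-- the one-branch leaf of helper11 gives the one-branch leaf of helper86. -/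
theorem h8x_locOne_of_locOrd (h : H11LocOrd) : H86LocOne := by
  intro q hq M _ hqM haux
  haveI : NeZero q := ⟨hq.ne_zero⟩
  intro A hA
  refine ⟨?_, ?_⟩
  · intro m hm w hw0 hwF hwU hord 𝔫 h𝔫 hq𝔫 hone
    exact h q hq M hqM haux A hA _ (Or.inl rfl) m hm w hw0 hwF hwU hord 𝔫 h𝔫 hq𝔫
      ((h8x_oneBranch_iff _ _).mpr hone)
  · intro m hm w hw0 hwF hwU hord 𝔫 h𝔫 hq𝔫 hone
    exact h q hq M hqM haux A hA _ (Or.inr rfl) m hm w hw0 hwF hwU hord 𝔫 h𝔫 hq𝔫
      ((h8x_oneBranch_iff _ _).mpr hone)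

/-- the multi-branch leaf of helper86 is a special case of `H92Loc`. -/
theorem h8x_locMulti_of_loc (h : H92Loc) : H86LocMulti := by
  intro q hq M _ hqM haux
  haveI : NeZero q := ⟨hq.ne_zero⟩
  intro A hA
  obtain ⟨t, ht, h'⟩ := h q hq M hqM haux A hA
  refine ⟨t, ht, fun m hm w hwF hwU hnew => ?_⟩
  obtain ⟨f, hfF, hf, hU, h0, h1⟩ := h' m hm w hwF hwU hnew
  exact ⟨f, hfF, hf, hU, fun 𝔫 h𝔫 hq𝔫 _ => h0 𝔫 h𝔫 hq𝔫, fun 𝔫 h𝔫 hq𝔫 _ => h1 𝔫 h𝔫 hq𝔫⟩

/-- the multi-branch leaf of helper86 from the leaves of helper11. -/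
theorem h8x_locMulti_of (hO : H11LocOrd) (hC : H11LocCusp) (hX : H11LocTransfer)
    (hG : H11LocGlue) (hT : H11LocTor) : H86LocMulti :=
  h8x_locMulti_of_loc (h11l_loc_of hO hC hX hG hT)

/-- `H92Loc` from the one-branch leaf of helper86 and the multi-branch leaves of helper11. -/
theorem h8x_loc_of (hO : H86LocOne) (hC : H11LocCusp) (hX : H11LocTransfer)
    (hG : H11LocGlue) (hT : H11LocTor) : H92Loc :=
  h11l_loc_of (h8x_locOrd_of_locOne hO) hC hX hG hT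

end Fermat.Agent.S36
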