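import Mathlib
import Fermat.Agent.S36.H11TorAbs
import Fermat.Agent.S36.H11TorNorm

/-!
# S36, block TOR (helper8): assembly of the branch-data theorem in the language `(O, res, V, M)`

Language of `H11TorNorm.lean` / `H66LemmaA.lean`: at a supersingular point `P`: `O P ≤ V ≤ F`
(`O P` the local ring of the chart at `P`, `V` the semi-local ring of the three components,
independent of `P`), `res P : O P → k`, and the three branches `M i ≤ F` (`i : Fin 3`,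
`0 = W₂₀`, `1 = W₁₁`, `2 = W₀₂`; `M i = f_i V`).  Level `q M'`: `O' P ≤ V' ≤ F'`, `res' P`,
`M' j` (`j : Fin 2`, `0 = W_∞`, `1 = W_0`).  `α` maps the node `P` to `P`, `β` maps `frob P`
to `P`.

* `h8t_branch` : the `H11Branch` of `(O, res, V, M)`:
  `rel z c ↔ z ∈ Vˣ ∧ c ≠ 0 ∧ h11t_BVal O res M z c`;
* `h8t_local` : the `H11Local` of the units of `O`;
* `h8t_hNa`, `h8t_hNb` : the branch norm formulas (`hNa`, `hNb` of `h11t_branch_const`) from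
  (TN0) norms of units of `V` are units of `V'`, (TN1) the norm formulas in congruence form,
  (TN2) branch generation, (TN3) `res ∘ ι = res'`;
* `h8t_branch_const` : **TOR**: the `(q² - 1)`-th powers of the branch data of a new function
  are independent of the supersingular point;
* `h8t_twist` : the twisted function has equal branch values;
* `h8t_hcomp` : equal branch values give the hypothesis `hcomp` of Lemma A
  (`h66a_glue_field`).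

Mathlib + `H11TorAbs` + `H11TorNorm` only.
-/

set_option autoImplicit false
set_option linter.unusedSectionVars false

namespace Fermat.Agent.S36

section Branch

variable {F : Type*} [Field F] {k : Type*} [Field k]

/-- the abstract branch of `(O, res, V, M)`: `z` is a unit of `V` with branch value `c ≠ 0`. -/
def h8t_branch (O : Subring F) (res : O →+* k) (V : Subring F) (hOV : O ≤ V)
    (M : AddSubgroup F) (hVM : ∀ v ∈ V, ∀ x ∈ M, v * x ∈ M)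
    (hM : ∀ a : O, (a : F) ∈ M → res a = 0)
    (hloc : ∀ a : O, res a ≠ 0 → ∃ a' : O, a * a' = 1) : H11Branch F k where
  rel z c := z ∈ V ∧ z⁻¹ ∈ V ∧ c ≠ 0 ∧ h11t_BVal O res M z c
  mul := by
    rintro x y c d ⟨hx, hx', hc, hxc⟩ ⟨hy, hy', hd, hyd⟩
    refine ⟨V.mul_mem hx hy, ?_, mul_ne_zero hc hd, h11t_bval_mul O res V hOV M hVM hx hxc hyd⟩
    rw [mul_inv]
    exact V.mul_mem hx' hy'
  inv := by
    rintro x c ⟨hx, hx', hc, a, rfl, hxa⟩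
    have hx0 : x ≠ 0 := by
      rintro rfl
      apply hc
      apply hM
      have : (a : F) = -(0 - (a : F)) := by ring
      rw [this]
      exact M.neg_mem hxa
    obtain ⟨a', haa'⟩ := hloc a hc
    have haa'F : (a : F) * (a' : F) = 1 := by
      have := congrArg (Subtype.val : O → F) haa'
      simpa using this
    refine ⟨hx', by rwa [inv_inv], inv_ne_zero hc, a', ?_, ?_⟩
    · refine eq_inv_of_mul_eq_one_left ?_
      rw [mul_comm, ← map_mul, haa', map_one]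
    · have e : x⁻¹ - (a' : F) = (-(x⁻¹ * (a' : F))) * (x - (a : F)) := by
        have h1 : x⁻¹ * x = 1 := inv_mul_cancel₀ hx0
        calc x⁻¹ - (a' : F) = x⁻¹ * ((a : F) * (a' : F)) - (x⁻¹ * x) * (a' : F) := by
              rw [haa'F, h1]; ring
          _ = _ := by ring
      rw [e]
      exact hVM _ (V.neg_mem (V.mul_mem hx' (hOV a'.2))) _ hxa
  ne_zero := by
    rintro x c ⟨-, -, hc, -⟩
    exact hc
  ne_zero' := by
    rintro x c ⟨-, -, hc, a, rfl, hxa⟩ rfl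
    apply hc
    apply hM
    have : (a : F) = -(0 - (a : F)) := by ring
    rw [this]
    exact M.neg_mem hxa
  uniq := by
    rintro x c c' ⟨-, -, -, h⟩ ⟨-, -, -, h'⟩
    exact h11t_bval_uniq O res M hM h h'

theorem h8t_branch_rel (O : Subring F) (res : O →+* k) (V : Subring F) (hOV : O ≤ V)
    (M : AddSubgroup F) (hVM : ∀ v ∈ V, ∀ x ∈ M, v * x ∈ M)
    (hM : ∀ a : O, (a : F) ∈ M → res a = 0)
    (hloc : ∀ a : O, res a ≠ 0 → ∃ a' : O, a * a' = 1) (z : F) (c : k) :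
    (h8t_branch O res V hOV M hVM hM hloc).rel z c ↔
      z ∈ V ∧ z⁻¹ ∈ V ∧ c ≠ 0 ∧ h11t_BVal O res M z c :=
  Iff.rfl

/-- the units of the local ring `O`, as an `H11Local`. -/
def h8t_local {ι : Type*} (O : Subring F) (res : O →+* k) (V : Subring F) (hOV : O ≤ V)
    (M : ι → AddSubgroup F) (hVM : ∀ i, ∀ v ∈ V, ∀ x ∈ M i, v * x ∈ M i)
    (hM : ∀ i, ∀ a : O, (a : F) ∈ M i → res a = 0)
    (hloc : ∀ a : O, res a ≠ 0 → ∃ a' : O, a * a' = 1) :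
    H11Local F k ι (fun i => h8t_branch O res V hOV (M i) (hVM i) (hM i) hloc) where
  unit x := x ∈ O ∧ x⁻¹ ∈ O ∧ x ≠ 0
  mul := by
    rintro x y ⟨hx, hx', hx0⟩ ⟨hy, hy', hy0⟩
    refine ⟨O.mul_mem hx hy, ?_, mul_ne_zero hx0 hy0⟩
    rw [mul_inv]
    exact O.mul_mem hx' hy'
  inv := by
    rintro x ⟨hx, hx', hx0⟩
    exact ⟨hx', by rwa [inv_inv], inv_ne_zero hx0⟩
  val := by
    rintro x ⟨hx, hx', hx0⟩
    have h1 : res ⟨x, hx⟩ * res ⟨x⁻¹, hx'⟩ = 1 := by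
      rw [← map_mul]
      have : (⟨x, hx⟩ : O) * ⟨x⁻¹, hx'⟩ = 1 := Subtype.ext (mul_inv_cancel₀ hx0)
      rw [this, map_one]
    refine ⟨res ⟨x, hx⟩, fun i => ⟨hOV hx, hOV hx', left_ne_zero_of_mul_eq_one h1, ?_⟩⟩
    exact h11t_bval_of_mem O res (M i) ⟨x, hx⟩

end Branch

section Main

variable {F F' : Type*} [Field F] [Field F'] {k : Type*} [Field k] {S : Type*}

/-- **the branch norm formula for `α`** (`hNa` of `h11t_branch_const`) at one point. -/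
theorem h8t_hNa
    (O : Subring F) (res : O →+* k) (V : Subring F) (hOV : O ≤ V)
    (M : Fin 3 → AddSubgroup F) (hVM : ∀ i, ∀ v ∈ V, ∀ x ∈ M i, v * x ∈ M i)
    (hM : ∀ i, ∀ a : O, (a : F) ∈ M i → res a = 0)
    (hloc : ∀ a : O, res a ≠ 0 → ∃ a' : O, a * a' = 1)
    (O' : Subring F') (res' : O' →+* k) (V' : Subring F') (hOV' : O' ≤ V')
    (M' : Fin 2 → AddSubgroup F') (hVM' : ∀ j, ∀ v ∈ V', ∀ x ∈ M' j, v * x ∈ M' j)
    (hM' : ∀ j, ∀ a : O', (a : F') ∈ M' j → res' a = 0)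
    (hloc' : ∀ a : O', res' a ≠ 0 → ∃ a' : O', a * a' = 1)
    (ι : F' →+* F) (hι : ∀ a' : O', ι (a' : F') ∈ O)
    (hres : ∀ a' : O', res ⟨ι (a' : F'), hι a'⟩ = res' a')
    (Nm : F →* F') (r : ℕ)
    (TN0 : ∀ x ∈ V, x⁻¹ ∈ V → Nm x ∈ V')
    (TN1s : ∀ (z : F) (y₀ y₁ : O'), res' y₀ ≠ 0 → res' y₁ ≠ 0 →
      z - ι (y₀ : F') ∈ M 0 → z - ι (y₁ : F') ∈ M 1 →
      Nm z - (y₀ : F') * (y₁ : F') ^ r ∈ M' 0)
    (TN1i : ∀ (z : F) (y : O'), res' y ≠ 0 → z ^ (r + 1) - ι (y : F') ∈ M 2 →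
      Nm z - (y : F') ∈ M' 1)
    (TN2₀ : ∀ a : O, ∃ a' : O', (a : F) - ι (a' : F') ∈ M 0)
    (TN2₁ : ∀ a : O, ∃ a' : O', (a : F) - ι (a' : F') ∈ M 1)
    (TN2₂ : ∀ a : O, ∃ a' : O', (a : F) ^ (r + 1) - ι (a' : F') ∈ M 2)
    (x : F) (c0 c1 c2 : k)
    (h0 : (h8t_branch O res V hOV (M 0) (hVM 0) (hM 0) hloc).rel x c0)
    (h1 : (h8t_branch O res V hOV (M 1) (hVM 1) (hM 1) hloc).rel x c1)
    (h2 : (h8t_branch O res V hOV (M 2) (hVM 2) (hM 2) hloc).rel x c2) :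
    (h8t_branch O' res' V' hOV' (M' 0) (hVM' 0) (hM' 0) hloc').rel (Nm x) (c0 * c1 ^ r) ∧
    (h8t_branch O' res' V' hOV' (M' 1) (hVM' 1) (hM' 1) hloc').rel (Nm x) (c2 ^ (r + 1)) := by
  have hx0 : x ≠ 0 := (h8t_branch O res V hOV (M 0) (hVM 0) (hM 0) hloc).ne_zero' h0
  obtain ⟨hxV, hxV', hc0, hb0⟩ := h0
  obtain ⟨-, -, hc1, hb1⟩ := h1
  obtain ⟨-, -, hc2, hb2⟩ := h2
  have hN : Nm x ∈ V' := TN0 x hxV hxV'
  have hN' : (Nm x)⁻¹ ∈ V' := by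
    have e : Nm x⁻¹ = (Nm x)⁻¹ := by
      refine eq_inv_of_mul_eq_one_right ?_
      rw [← map_mul, mul_inv_cancel₀ hx0, map_one]
    rw [← e]
    exact TN0 x⁻¹ hxV' (by rwa [inv_inv])
  refine ⟨⟨hN, hN', mul_ne_zero hc0 (pow_ne_zero r hc1), ?_⟩,
    ⟨hN, hN', pow_ne_zero _ hc2, ?_⟩⟩
  · exact h11t_bnorm_sep O res (M 0) (M 1) O' res' (M' 0) ι hι hres (hM 0) (hM 1) Nm r
      TN1s TN2₀ TN2₁ x c0 c1 hc0 hc1 hb0 hb1
  · exact h11t_bnorm_insep O res V hOV (M 2) (hVM 2) O' res' (M' 1) ι hι hres (hM 2) Nm (r + 1)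
      TN1i TN2₂ x hxV c2 hc2 hb2

/-- **the branch norm formula for `β`** (`hNb` of `h11t_branch_const`) at one point. -/
theorem h8t_hNb
    (O : Subring F) (res : O →+* k) (V : Subring F) (hOV : O ≤ V)
    (M : Fin 3 → AddSubgroup F) (hVM : ∀ i, ∀ v ∈ V, ∀ x ∈ M i, v * x ∈ M i)
    (hM : ∀ i, ∀ a : O, (a : F) ∈ M i → res a = 0)
    (hloc : ∀ a : O, res a ≠ 0 → ∃ a' : O, a * a' = 1)
    (O' : Subring F') (res' : O' →+* k) (V' : Subring F') (hOV' : O' ≤ V')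
    (M' : Fin 2 → AddSubgroup F') (hVM' : ∀ j, ∀ v ∈ V', ∀ x ∈ M' j, v * x ∈ M' j)
    (hM' : ∀ j, ∀ a : O', (a : F') ∈ M' j → res' a = 0)
    (hloc' : ∀ a : O', res' a ≠ 0 → ∃ a' : O', a * a' = 1)
    (ι : F' →+* F) (hι : ∀ a' : O', ι (a' : F') ∈ O)
    (hres : ∀ a' : O', res ⟨ι (a' : F'), hι a'⟩ = res' a')
    (Nm : F →* F') (r : ℕ)
    (TN0 : ∀ x ∈ V, x⁻¹ ∈ V → Nm x ∈ V')
    (TN1i : ∀ (z : F) (y : O'), res' y ≠ 0 → z ^ (r + 1) - ι (y : F') ∈ M 0 →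
      Nm z - (y : F') ∈ M' 0)
    (TN1s : ∀ (z : F) (y₂ y₁ : O'), res' y₂ ≠ 0 → res' y₁ ≠ 0 →
      z - ι (y₂ : F') ∈ M 2 → z - ι (y₁ : F') ∈ M 1 →
      Nm z - (y₂ : F') * (y₁ : F') ^ r ∈ M' 1)
    (TN2₀ : ∀ a : O, ∃ a' : O', (a : F) ^ (r + 1) - ι (a' : F') ∈ M 0)
    (TN2₁ : ∀ a : O, ∃ a' : O', (a : F) - ι (a' : F') ∈ M 1)
    (TN2₂ : ∀ a : O, ∃ a' : O', (a : F) - ι (a' : F') ∈ M 2)
    (x : F) (c0 c1 c2 : k)
    (h0 : (h8t_branch O res V hOV (M 0) (hVM 0) (hM 0) hloc).rel x c0)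
    (h1 : (h8t_branch O res V hOV (M 1) (hVM 1) (hM 1) hloc).rel x c1)
    (h2 : (h8t_branch O res V hOV (M 2) (hVM 2) (hM 2) hloc).rel x c2) :
    (h8t_branch O' res' V' hOV' (M' 0) (hVM' 0) (hM' 0) hloc').rel (Nm x) (c0 ^ (r + 1)) ∧
    (h8t_branch O' res' V' hOV' (M' 1) (hVM' 1) (hM' 1) hloc').rel (Nm x) (c1 ^ r * c2) := by
  have hx0 : x ≠ 0 := (h8t_branch O res V hOV (M 0) (hVM 0) (hM 0) hloc).ne_zero' h0
  obtain ⟨hxV, hxV', hc0, hb0⟩ := h0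
  obtain ⟨-, -, hc1, hb1⟩ := h1
  obtain ⟨-, -, hc2, hb2⟩ := h2
  have hN : Nm x ∈ V' := TN0 x hxV hxV'
  have hN' : (Nm x)⁻¹ ∈ V' := by
    have e : Nm x⁻¹ = (Nm x)⁻¹ := by
      refine eq_inv_of_mul_eq_one_right ?_
      rw [← map_mul, mul_inv_cancel₀ hx0, map_one]
    rw [← e]
    exact TN0 x⁻¹ hxV' (by rwa [inv_inv])
  refine ⟨⟨hN, hN', pow_ne_zero _ hc0, ?_⟩,
    ⟨hN, hN', mul_ne_zero (pow_ne_zero r hc1) hc2, ?_⟩⟩
  · exact h11t_bnorm_insep O res V hOV (M 0) (hVM 0) O' res' (M' 0) ι hι hres (hM 0) Nm (r + 1)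
      TN1i TN2₀ x hxV c0 hc0 hb0
  · rw [mul_comm]
    exact h11t_bnorm_sep O res (M 2) (M 1) O' res' (M' 1) ι hι hres (hM 2) (hM 1) Nm r
      TN1s TN2₂ TN2₁ x c2 c1 hc2 hc1 hb2 hb1

/-- `x` is a unit of the subring `O`. -/
def h8t_IsUnit (O : Subring F) (x : F) : Prop := x ∈ O ∧ x⁻¹ ∈ O ∧ x ≠ 0

/-- **TOR (assembled, language `(O, res, V, M)`).**  `q = r + 1`.  Under (TN0)-(TN4), for a
function `w` whose norms are `Na w = c g ^ m`, `Nb w = c' g' ^ m` with `c, c'` units at the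
nodes and `g, g'` of node-independent branch values, the branch values `z₀, z₁, z₂` of the
root `f` of any local factorisation `w = u f ^ m` at any supersingular point `P` satisfy
`(z₁ / z₀) ^ (q² - 1) = A`, `(z₂ / z₀) ^ (q² - 1) = B` with `A`, `B` independent of `P`. -/
theorem h8t_branch_const
    (V : Subring F) (M : Fin 3 → AddSubgroup F) (hVM : ∀ i, ∀ v ∈ V, ∀ x ∈ M i, v * x ∈ M i)
    (V' : Subring F') (M' : Fin 2 → AddSubgroup F')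
    (hVM' : ∀ j, ∀ v ∈ V', ∀ x ∈ M' j, v * x ∈ M' j)
    (O : S → Subring F) (res : ∀ P, O P →+* k) (hOV : ∀ P, O P ≤ V)
    (hM : ∀ P i, ∀ a : O P, (a : F) ∈ M i → res P a = 0)
    (hloc : ∀ P, ∀ a : O P, res P a ≠ 0 → ∃ a' : O P, a * a' = 1)
    (O' : S → Subring F') (res' : ∀ P, O' P →+* k) (hOV' : ∀ P, O' P ≤ V')
    (hM' : ∀ P j, ∀ a : O' P, (a : F') ∈ M' j → res' P a = 0)
    (hloc' : ∀ P, ∀ a : O' P, res' P a ≠ 0 → ∃ a' : O' P, a * a' = 1)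
    (ια ιβ : F' →+* F) (frob : S → S)
    (hια : ∀ P, ∀ a' : O' P, ια (a' : F') ∈ O P)
    (hresα : ∀ P, ∀ a' : O' P, res P ⟨ια (a' : F'), hια P a'⟩ = res' P a')
    (hιβ : ∀ P, ∀ a' : O' (frob P), ιβ (a' : F') ∈ O P)
    (hresβ : ∀ P, ∀ a' : O' (frob P), res P ⟨ιβ (a' : F'), hιβ P a'⟩ = res' (frob P) a')
    (Na Nb : F →* F') (m r : ℕ)
    -- (TN0) norms of units of `V`
    (TN0a : ∀ x ∈ V, x⁻¹ ∈ V → Na x ∈ V') (TN0b : ∀ x ∈ V, x⁻¹ ∈ V → Nb x ∈ V')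
    -- (TN1) norm formulas in congruence form
    (TN1as : ∀ P, ∀ (z : F) (y₀ y₁ : O' P), res' P y₀ ≠ 0 → res' P y₁ ≠ 0 →
      z - ια (y₀ : F') ∈ M 0 → z - ια (y₁ : F') ∈ M 1 →
      Na z - (y₀ : F') * (y₁ : F') ^ r ∈ M' 0)
    (TN1ai : ∀ P, ∀ (z : F) (y : O' P), res' P y ≠ 0 → z ^ (r + 1) - ια (y : F') ∈ M 2 →
      Na z - (y : F') ∈ M' 1)
    (TN1bi : ∀ P, ∀ (z : F) (y : O' (frob P)), res' (frob P) y ≠ 0 →
      z ^ (r + 1) - ιβ (y : F') ∈ M 0 → Nb z - (y : F') ∈ M' 0)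
    (TN1bs : ∀ P, ∀ (z : F) (y₂ y₁ : O' (frob P)), res' (frob P) y₂ ≠ 0 →
      res' (frob P) y₁ ≠ 0 → z - ιβ (y₂ : F') ∈ M 2 → z - ιβ (y₁ : F') ∈ M 1 →
      Nb z - (y₂ : F') * (y₁ : F') ^ r ∈ M' 1)
    -- (TN2) branch generation
    (TN2a₀ : ∀ P, ∀ a : O P, ∃ a' : O' P, (a : F) - ια (a' : F') ∈ M 0)
    (TN2a₁ : ∀ P, ∀ a : O P, ∃ a' : O' P, (a : F) - ια (a' : F') ∈ M 1)
    (TN2a₂ : ∀ P, ∀ a : O P, ∃ a' : O' P, (a : F) ^ (r + 1) - ια (a' : F') ∈ M 2)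
    (TN2b₀ : ∀ P, ∀ a : O P, ∃ a' : O' (frob P), (a : F) ^ (r + 1) - ιβ (a' : F') ∈ M 0)
    (TN2b₁ : ∀ P, ∀ a : O P, ∃ a' : O' (frob P), (a : F) - ιβ (a' : F') ∈ M 1)
    (TN2b₂ : ∀ P, ∀ a : O P, ∃ a' : O' (frob P), (a : F) - ιβ (a' : F') ∈ M 2)
    -- (TN4) the nodes
    (hnormal : ∀ P (h : F'), h ≠ 0 → h8t_IsUnit (O' P) (h ^ m) → h8t_IsUnit (O' P) h)
    (hNaL : ∀ P u, h8t_IsUnit (O P) u → h8t_IsUnit (O' P) (Na u))
    (hNbL : ∀ P u, h8t_IsUnit (O P) u → h8t_IsUnit (O' (frob P)) (Nb u))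
    -- the function and its norms
    (w : F)
    (c g : F') (hc : ∀ P, h8t_IsUnit (O' P) c) (d0 d1 : k)
    (hg : ∀ P,
      (h8t_branch (O' P) (res' P) V' (hOV' P) (M' 0) (hVM' 0) (hM' P 0) (hloc' P)).rel g d0 ∧
      (h8t_branch (O' P) (res' P) V' (hOV' P) (M' 1) (hVM' 1) (hM' P 1) (hloc' P)).rel g d1)
    (hwa : Na w = c * g ^ m)
    (c' g' : F') (hc' : ∀ P, h8t_IsUnit (O' P) c') (d0' d1' : k)
    (hg' : ∀ P,
      (h8t_branch (O' P) (res' P) V' (hOV' P) (M' 0) (hVM' 0) (hM' P 0) (hloc' P)).rel g' d0' ∧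
      (h8t_branch (O' P) (res' P) V' (hOV' P) (M' 1) (hVM' 1) (hM' P 1) (hloc' P)).rel g' d1')
    (hwb : Nb w = c' * g' ^ m)
    -- a local factorisation at `P`
    (P : S) (u f : F) (z0 z1 z2 : k) (hu : h8t_IsUnit (O P) u) (hwf : w = u * f ^ m)
    (hf0 : (h8t_branch (O P) (res P) V (hOV P) (M 0) (hVM 0) (hM P 0) (hloc P)).rel f z0)
    (hf1 : (h8t_branch (O P) (res P) V (hOV P) (M 1) (hVM 1) (hM P 1) (hloc P)).rel f z1)
    (hf2 : (h8t_branch (O P) (res P) V (hOV P) (M 2) (hVM 2) (hM P 2) (hloc P)).rel f z2) :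
    (z1 / z0) ^ (r * (r + 2)) = (d1' / d0') ^ (r + 1) / (d1 / d0) ∧
    (z2 / z0) ^ (r * (r + 2)) = ((d1 / d0) * (d1' / d0')) ^ r := by
  refine h11t_branch_const
    (fun P i => h8t_branch (O P) (res P) V (hOV P) (M i) (hVM i) (hM P i) (hloc P))
    (fun P j => h8t_branch (O' P) (res' P) V' (hOV' P) (M' j) (hVM' j) (hM' P j) (hloc' P))
    (fun P => h8t_local (O P) (res P) V (hOV P) M hVM (hM P) (hloc P))
    (fun P => h8t_local (O' P) (res' P) V' (hOV' P) M' hVM' (hM' P) (hloc' P))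
    m r hnormal Na Nb frob hNaL hNbL ?_ ?_ w c g hc d0 d1 hg hwa c' g' hc' d0' d1' hg' hwb
    P u f z0 z1 z2 hu hwf hf0 hf1 hf2
  · intro P x c0 c1 c2 h0 h1 h2
    exact h8t_hNa (O P) (res P) V (hOV P) M hVM (hM P) (hloc P) (O' P) (res' P) V' (hOV' P)
      M' hVM' (hM' P) (hloc' P) ια (hια P) (hresα P) Na r TN0a (TN1as P) (TN1ai P)
      (TN2a₀ P) (TN2a₁ P) (TN2a₂ P) x c0 c1 c2 h0 h1 h2
  · intro P x c0 c1 c2 h0 h1 h2
    exact h8t_hNb (O P) (res P) V (hOV P) M hVM (hM P) (hloc P) (O' (frob P)) (res' (frob P))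
      V' (hOV' (frob P)) M' hVM' (hM' (frob P)) (hloc' (frob P)) ιβ (hιβ P) (hresβ P) Nb r
      TN0b (TN1bi P) (TN1bs P) (TN2b₀ P) (TN2b₁ P) (TN2b₂ P) x c0 c1 c2 h0 h1 h2

/-- **the twist** in the language `(O, res, V, M)`: if the `n`-th powers of the branch data of
the local root `f` are `A`, `B` and `h` has the branch values `e₀, e₁, e₂` with
`(e₁ / e₀) ^ q A = 1`, `(e₂ / e₀) ^ q B = 1`, then `w ^ n (h ^ q) ^ m = u ^ n g₀ ^ m` with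
`g₀ = f ^ n h ^ q` a unit of `V` having the same branch value on the three branches. -/
theorem h8t_twist
    (O : Subring F) (res : O →+* k) (V : Subring F) (hOV : O ≤ V)
    (M : Fin 3 → AddSubgroup F) (hVM : ∀ i, ∀ v ∈ V, ∀ x ∈ M i, v * x ∈ M i)
    (hM : ∀ i, ∀ a : O, (a : F) ∈ M i → res a = 0)
    (hloc : ∀ a : O, res a ≠ 0 → ∃ a' : O, a * a' = 1)
    (m n q : ℕ) (A B : k) (h : F) (e0 e1 e2 : k)
    (hh0 : (h8t_branch O res V hOV (M 0) (hVM 0) (hM 0) hloc).rel h e0)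
    (hh1 : (h8t_branch O res V hOV (M 1) (hVM 1) (hM 1) hloc).rel h e1)
    (hh2 : (h8t_branch O res V hOV (M 2) (hVM 2) (hM 2) hloc).rel h e2)
    (he1 : (e1 / e0) ^ q * A = 1) (he2 : (e2 / e0) ^ q * B = 1)
    (w u f : F) (z0 z1 z2 : k) (hwf : w = u * f ^ m)
    (hf0 : (h8t_branch O res V hOV (M 0) (hVM 0) (hM 0) hloc).rel f z0)
    (hf1 : (h8t_branch O res V hOV (M 1) (hVM 1) (hM 1) hloc).rel f z1)
    (hf2 : (h8t_branch O res V hOV (M 2) (hVM 2) (hM 2) hloc).rel f z2)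
    (hA : (z1 / z0) ^ n = A) (hB : (z2 / z0) ^ n = B) :
    w ^ n * (h ^ q) ^ m = u ^ n * (f ^ n * h ^ q) ^ m ∧
    f ^ n * h ^ q ∈ V ∧ (f ^ n * h ^ q)⁻¹ ∈ V ∧
    ∀ i, h11t_BVal O res (M i) (f ^ n * h ^ q) (z0 ^ n * e0 ^ q) := by
  obtain ⟨h1, h2⟩ := h11t_twist
    (fun i => h8t_branch O res V hOV (M i) (hVM i) (hM i) hloc) m n q A B h e0 e1 e2
    hh0 hh1 hh2 he1 he2 w u f z0 z1 z2 hwf hf0 hf1 hf2 hA hB
  exact ⟨h1, (h2 0).1, (h2 0).2.1, fun i => (h2 i).2.2.2⟩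

/-- **adapter to Lemma A** (`h66a_glue_field`, hypothesis `hcomp`): if `z` has the same branch
value on all branches `M i = (f i) V`, then any branch representatives `a i ∈ O` of `z` are
congruent modulo the maximal ideal `ker res`. -/
theorem h8t_hcomp {ι : Type*} (O : Subring F) (res : O →+* k) (V : Subring F)
    (M : ι → AddSubgroup F) (hM : ∀ i, ∀ a : O, (a : F) ∈ M i → res a = 0)
    (fI : ι → O) (hMf : ∀ i, ∀ y ∈ V, (fI i : F) * y ∈ M i)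
    (z : F) (c : k) (hz : ∀ i, h11t_BVal O res (M i) z c)
    (a : ι → O) (ha : ∀ i, ∃ y ∈ V, z = (a i : F) + (fI i : F) * y) (i j : ι) :
    res (a i - a j) = 0 := by
  have key : ∀ i, res (a i) = c := by
    intro i
    obtain ⟨y, hy, hzy⟩ := ha i
    have h1 : h11t_BVal O res (M i) z (res (a i)) := by
      refine ⟨a i, rfl, ?_⟩
      have : z - (a i : F) = (fI i : F) * y := by rw [hzy]; ring
      rw [this]
      exact hMf i y hy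
    exact h11t_bval_uniq O res (M i) (hM i) h1 (hz i)
  rw [map_sub, key i, key j, sub_self]

end Main

end Fermat.Agent.S36
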