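import Mathlib
import Fermat.Agent.S36.H8TorAsm

/-!
# S36, block TOR (helper8): the final abstract statement

Language `(O, res, V, M)` of `H8TorAsm.lean`.  `q = r + 1` prime, `n = q² - 1 = r (r + 2)`.

* `h8f_exists_root` : twist constants: in a field, `A ^ m = 1`, `gcd (q, m) = 1` give `e` with
  `e ^ m = 1`, `e ^ q * A = 1`;
* `h8f_oneq_mul`, `h8f_oneq_pow` : `1 + q V` is closed under products;
* `h8f_pow_q` : `x ∈ ⋂ M i`, `x ^ q ∈ q V` ⟹ `(1 + x) ^ q ∈ 1 + q V`;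
* `h8f_root_pow_eq` : the `m`-th powers of the branch values of the local root of a function
  `w ∈ 1 + q V` are equal (to `(res u)⁻¹`);
* `h8f_final` : **TOR, final abstract form.**  For `w ∈ 1 + q V` with local factorisations
  `w = u f ^ m` at all supersingular points and both norms trivial with node-independent branch
  values, there is a unit `h` of `V` such that `w' = w ^ (q² - 1) * (h ^ q) ^ m ∈ 1 + q V` and at
  every supersingular point `w' = u' g₀ ^ m` with `u'` a local unit and `g₀` a unit of `V`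
  having the SAME value on the three branches.

Mathlib + `H11TorAbs` + `H11TorNorm` + `H8TorAsm` only.
-/

set_option autoImplicit false
set_option linter.unusedSectionVars false

namespace Fermat.Agent.S36

/-! ## Twist constants -/

/-- in a field: `A ^ m = 1` and `gcd (q, m) = 1` give `e` with `e ^ m = 1` and
`e ^ q * A = 1`. -/
theorem h8f_exists_root {k : Type*} [Field k] (m q : ℕ) (hm : 0 < m) (hqm : Nat.Coprime q m)
    (A : k) (hA : A ^ m = 1) : ∃ e : k, e ^ m = 1 ∧ e ^ q * A = 1 := by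
  have hA0 : A ≠ 0 := by
    rintro rfl
    rw [zero_pow hm.ne'] at hA
    exact zero_ne_one hA
  rcases Nat.eq_or_lt_of_le hm with h1 | h1
  · -- `m = 1`
    have h2 : m = 1 := h1.symm
    subst h2
    rw [pow_one] at hA
    exact ⟨1, one_pow _, by rw [one_pow, one_mul, hA]⟩
  -- `q * q' = 1 + m * j`
  obtain ⟨q', -, hq'⟩ := Nat.exists_mul_mod_eq_one_of_coprime hqm h1
  have hq'' : q * q' = 1 + m * (q * q' / m) := by
    have := Nat.div_add_mod (q * q') m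
    rw [hq'] at this
    omega
  refine ⟨(A ^ q')⁻¹, ?_, ?_⟩
  · rw [inv_pow, ← pow_mul, mul_comm, pow_mul, hA, one_pow, inv_one]
  · rw [inv_pow, ← pow_mul, mul_comm q' q, hq'', pow_add, pow_one, pow_mul, hA, one_pow,
      mul_one]
    exact inv_mul_cancel₀ hA0

/-! ## `1 + q V` -/

section OneQ

variable {F : Type*} [Field F]

/-- `x ∈ 1 + c V`. -/
def h8f_OneQ (V : Subring F) (c : F) (x : F) : Prop := ∃ y ∈ V, x = 1 + c * y

theorem h8f_oneq_one (V : Subring F) (c : F) : h8f_OneQ V c 1 :=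
  ⟨0, V.zero_mem, by ring⟩

theorem h8f_oneq_mul (V : Subring F) (c : F) (hc : c ∈ V) {x x' : F}
    (hx : h8f_OneQ V c x) (hx' : h8f_OneQ V c x') : h8f_OneQ V c (x * x') := by
  obtain ⟨y, hy, rfl⟩ := hx
  obtain ⟨y', hy', rfl⟩ := hx'
  exact ⟨y + y' + c * y * y',
    V.add_mem (V.add_mem hy hy') (V.mul_mem (V.mul_mem hc hy) hy'), by ring⟩

theorem h8f_oneq_pow (V : Subring F) (c : F) (hc : c ∈ V) {x : F}
    (hx : h8f_OneQ V c x) (n : ℕ) : h8f_OneQ V c (x ^ n) := by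
  induction n with
  | zero => rw [pow_zero]; exact h8f_oneq_one V c
  | succ n ih => rw [pow_succ]; exact h8f_oneq_mul V c hc ih hx

/-- `(1 + x) ^ q ∈ 1 + q V` if `x ∈ V` and `x ^ q ∈ q V` (`q` prime). -/
theorem h8f_pow_q (V : Subring F) (q : ℕ) (hq : q.Prime) {x : F} (hx : x ∈ V)
    (hxq : ∃ y ∈ V, x ^ q = (q : F) * y) : h8f_OneQ V (q : F) ((1 + x) ^ q) := by
  obtain ⟨y, hy, hxy⟩ := hxq
  obtain ⟨r, hr⟩ := exists_add_pow_prime_eq hq (1 : V) ⟨x, hx⟩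
  have hr' := congrArg (Subtype.val : V → F) hr
  push_cast at hr'
  refine ⟨y + x * (r : F), V.add_mem hy (V.mul_mem hx r.2), ?_⟩
  rw [hr', one_pow, hxy]
  ring

end OneQ

/-! ## The roots of a function of `1 + q V` -/

section Root

variable {F : Type*} [Field F] {k : Type*} [Field k]

/-- the `m`-th power of the branch value of the root `f` of a local factorisation
`w = u f ^ m` of a function `w ≡ 1` on the branch is `(res u)⁻¹`. -/
theorem h8f_root_pow_eq (O : Subring F) (res : O →+* k) (V : Subring F) (hOV : O ≤ V)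
    (M : AddSubgroup F) (hVM : ∀ v ∈ V, ∀ x ∈ M, v * x ∈ M)
    (hM : ∀ a : O, (a : F) ∈ M → res a = 0)
    (hloc : ∀ a : O, res a ≠ 0 → ∃ a' : O, a * a' = 1)
    (m : ℕ) (w u f : F) (z : k) (hw1 : w - 1 ∈ M) (hu : h8t_IsUnit O u)
    (hwf : w = u * f ^ m)
    (hf : (h8t_branch O res V hOV M hVM hM hloc).rel f z) :
    res ⟨u, hu.1⟩ * z ^ m = 1 := by
  set br := h8t_branch O res V hOV M hVM hM hloc with hbr
  have h1 : h11t_BVal O res M w 1 := ⟨1, map_one res, by simpa using hw1⟩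
  have hu' : h11t_BVal O res M u (res ⟨u, hu.1⟩) := h11t_bval_of_mem O res M ⟨u, hu.1⟩
  have h2 : h11t_BVal O res M (u * f ^ m) (res ⟨u, hu.1⟩ * z ^ m) :=
    h11t_bval_mul O res V hOV M hVM (hOV hu.1) hu' (br.pow hf m).2.2.2
  rw [← hwf] at h2
  exact h11t_bval_uniq O res M hM h2 h1

theorem h8f_isUnit_pow (O : Subring F) {u : F} (hu : h8t_IsUnit O u) (n : ℕ) :
    h8t_IsUnit O (u ^ n) :=
  ⟨O.pow_mem hu.1 n, by rw [← inv_pow]; exact O.pow_mem hu.2.1 n, pow_ne_zero n hu.2.2⟩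

/-- `h ≡ c` modulo `M` gives `h ^ m ≡ c ^ m` modulo `M` (`M` an ideal of `V`). -/
theorem h8f_pow_sub_pow_mem (V : Subring F) (M : AddSubgroup F)
    (hVM : ∀ v ∈ V, ∀ x ∈ M, v * x ∈ M) {h c : F} (hh : h ∈ V) (hc : c ∈ V)
    (hhc : h - c ∈ M) (m : ℕ) : h ^ m - c ^ m ∈ M := by
  have h1 := (Commute.all h c).mul_geom_sum₂ m
  rw [← h1, mul_comm]
  refine hVM _ ?_ _ hhc
  exact Subring.sum_mem V fun i _ => V.mul_mem (V.pow_mem hh _) (V.pow_mem hc _)

end Root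

/-! ## The final statement -/

section Final

variable {F : Type*} [Field F] {k : Type*} [Field k] {S : Type*}

/-- **TOR, final abstract form.**  `q = r + 1` prime, `m` prime to `q`, `n = q² - 1`.
Let `w ∈ 1 + q V` have local factorisations `w = u f ^ m` at every supersingular point, the
`n`-th powers of the branch data `z₁ / z₀`, `z₂ / z₀` of the roots being independent of the point
(`hconst` = the conclusion of `h8t_branch_const`).  Then there is a unit `h` of `V` such that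
`w' = w ^ n * (h ^ q) ^ m ∈ 1 + q V` and at every supersingular point `w' = u' g₀ ^ m` with
`u'` a local unit and `g₀` a unit of `V` with the same value on the three branches. -/
theorem h8f_final
    (V : Subring F) (M : Fin 3 → AddSubgroup F) (hVM : ∀ i, ∀ v ∈ V, ∀ x ∈ M i, v * x ∈ M i)
    (O : S → Subring F) (res : ∀ P, O P →+* k) (hOV : ∀ P, O P ≤ V)
    (hM : ∀ P i, ∀ a : O P, (a : F) ∈ M i → res P a = 0)
    (hloc : ∀ P, ∀ a : O P, res P a ≠ 0 → ∃ a' : O P, a * a' = 1)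
    -- the constants
    {A₀ : Type*} [CommRing A₀] (cst : A₀ →+* F) (rk : A₀ →+* k)
    (hrk : Function.Surjective rk) (hcstV : ∀ a, cst a ∈ V)
    (hcstO : ∀ P a, cst a ∈ O P) (hcstres : ∀ P a, res P ⟨cst a, hcstO P a⟩ = rk a)
    (hcstM : ∀ a, rk a = 0 → ∀ i, cst a ∈ M i)
    -- the prime `q = r + 1`
    (m r : ℕ) (hm : 0 < m) (hq : (r + 1).Prime) (hqm : Nat.Coprime (r + 1) m)
    (hqM : ∀ i, ∀ y ∈ V, ((r + 1 : ℕ) : F) * y ∈ M i)
    (hrad : ∀ x ∈ V, (∀ i, x ∈ M i) → ∃ y ∈ V, x ^ (r + 1) = ((r + 1 : ℕ) : F) * y)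
    -- (TN5) weak approximation with constant residues
    (TN5 : ∀ a : Fin 3 → A₀, (∀ i, rk (a i) ≠ 0) →
      ∃ h ∈ V, h⁻¹ ∈ V ∧ ∀ i, h - cst (a i) ∈ M i)
    -- the function
    (w : F) (hw : h8f_OneQ V ((r + 1 : ℕ) : F) w)
    (hfact : ∀ P, ∃ (u f : F) (z0 z1 z2 : k), h8t_IsUnit (O P) u ∧ w = u * f ^ m ∧
      (h8t_branch (O P) (res P) V (hOV P) (M 0) (hVM 0) (hM P 0) (hloc P)).rel f z0 ∧
      (h8t_branch (O P) (res P) V (hOV P) (M 1) (hVM 1) (hM P 1) (hloc P)).rel f z1 ∧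
      (h8t_branch (O P) (res P) V (hOV P) (M 2) (hVM 2) (hM P 2) (hloc P)).rel f z2)
    (A B : k)
    (hconst : ∀ P (u f : F) (z0 z1 z2 : k), h8t_IsUnit (O P) u → w = u * f ^ m →
      (h8t_branch (O P) (res P) V (hOV P) (M 0) (hVM 0) (hM P 0) (hloc P)).rel f z0 →
      (h8t_branch (O P) (res P) V (hOV P) (M 1) (hVM 1) (hM P 1) (hloc P)).rel f z1 →
      (h8t_branch (O P) (res P) V (hOV P) (M 2) (hVM 2) (hM P 2) (hloc P)).rel f z2 →
      (z1 / z0) ^ (r * (r + 2)) = A ∧ (z2 / z0) ^ (r * (r + 2)) = B) :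
    ∃ h : F, h ∈ V ∧ h⁻¹ ∈ V ∧
      h8f_OneQ V ((r + 1 : ℕ) : F) (w ^ (r * (r + 2)) * (h ^ (r + 1)) ^ m) ∧
      ∀ P, ∃ (u' g₀ : F) (c : k), h8t_IsUnit (O P) u' ∧
        w ^ (r * (r + 2)) * (h ^ (r + 1)) ^ m = u' * g₀ ^ m ∧ g₀ ∈ V ∧ g₀⁻¹ ∈ V ∧
        ∀ i, h11t_BVal (O P) (res P) (M i) g₀ c := by
  have hqV : ((r + 1 : ℕ) : F) ∈ V := natCast_mem V (r + 1)
  rcases isEmpty_or_nonempty S with hS | ⟨⟨P₀⟩⟩
  · refine ⟨1, V.one_mem, by rw [inv_one]; exact V.one_mem, ?_, fun P => (hS.false P).elim⟩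
    rw [one_pow, one_pow, mul_one]
    exact h8f_oneq_pow V _ hqV hw _
  -- `w ≡ 1` on every branch
  have hw1 : ∀ i, w - 1 ∈ M i := by
    intro i
    obtain ⟨y, hy, rfl⟩ := hw
    have : (1 + ((r + 1 : ℕ) : F) * y) - 1 = ((r + 1 : ℕ) : F) * y := by ring
    rw [this]
    exact hqM i y hy
  -- `A ^ m = 1`, `B ^ m = 1`
  obtain ⟨u₀, f₀, z0, z1, z2, hu₀, hwf₀, h0, h1, h2⟩ := hfact P₀
  obtain ⟨hA, hB⟩ := hconst P₀ u₀ f₀ z0 z1 z2 hu₀ hwf₀ h0 h1 h2
  have hz0 : z0 ≠ 0 := h0.2.2.1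
  have e0 := h8f_root_pow_eq (O P₀) (res P₀) V (hOV P₀) (M 0) (hVM 0) (hM P₀ 0) (hloc P₀) m w u₀
    f₀ z0 (hw1 0) hu₀ hwf₀ h0
  have e1 := h8f_root_pow_eq (O P₀) (res P₀) V (hOV P₀) (M 1) (hVM 1) (hM P₀ 1) (hloc P₀) m w u₀
    f₀ z1 (hw1 1) hu₀ hwf₀ h1
  have e2 := h8f_root_pow_eq (O P₀) (res P₀) V (hOV P₀) (M 2) (hVM 2) (hM P₀ 2) (hloc P₀) m w u₀
    f₀ z2 (hw1 2) hu₀ hwf₀ h2
  have hu0 : res P₀ ⟨u₀, hu₀.1⟩ ≠ 0 := left_ne_zero_of_mul_eq_one e0
  have hz10 : (z1 / z0) ^ m = 1 := by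
    rw [div_pow, div_eq_one_iff_eq (pow_ne_zero m hz0)]
    exact mul_left_cancel₀ hu0 (e1.trans e0.symm)
  have hz20 : (z2 / z0) ^ m = 1 := by
    rw [div_pow, div_eq_one_iff_eq (pow_ne_zero m hz0)]
    exact mul_left_cancel₀ hu0 (e2.trans e0.symm)
  have hAm : A ^ m = 1 := by rw [← hA, ← pow_mul, mul_comm, pow_mul, hz10, one_pow]
  have hBm : B ^ m = 1 := by rw [← hB, ← pow_mul, mul_comm, pow_mul, hz20, one_pow]
  -- the twist constants
  obtain ⟨ε1, hε1m, hε1⟩ := h8f_exists_root m (r + 1) hm hqm A hAm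
  obtain ⟨ε2, hε2m, hε2⟩ := h8f_exists_root m (r + 1) hm hqm B hBm
  obtain ⟨a1, ha1⟩ := hrk ε1
  obtain ⟨a2, ha2⟩ := hrk ε2
  set a : Fin 3 → A₀ := ![1, a1, a2] with ha
  have hrka0 : rk (a 0) = 1 := by simp [ha]
  have hrka1 : rk (a 1) = ε1 := by simp [ha, ha1]
  have hrka2 : rk (a 2) = ε2 := by simp [ha, ha2]
  have hε1ne : ε1 ≠ 0 := by
    rintro rfl
    rw [zero_pow hm.ne'] at hε1m
    exact zero_ne_one hε1m
  have hε2ne : ε2 ≠ 0 := by
    rintro rfl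
    rw [zero_pow hm.ne'] at hε2m
    exact zero_ne_one hε2m
  have hrkm : ∀ i, rk (a i) ^ m = 1 := by
    intro i
    fin_cases i
    · show rk (a 0) ^ m = 1
      rw [hrka0, one_pow]
    · show rk (a 1) ^ m = 1
      rw [hrka1, hε1m]
    · show rk (a 2) ^ m = 1
      rw [hrka2, hε2m]
  have hrkne : ∀ i, rk (a i) ≠ 0 := by
    intro i h0
    have := hrkm i
    rw [h0, zero_pow hm.ne'] at this
    exact zero_ne_one this
  obtain ⟨h, hhV, hhV', hh⟩ := TN5 a hrkne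
  -- the branch values of `h`
  have hrel : ∀ P i, (h8t_branch (O P) (res P) V (hOV P) (M i) (hVM i) (hM P i) (hloc P)).rel h
      (rk (a i)) := fun P i =>
    ⟨hhV, hhV', hrkne i, ⟨cst (a i), hcstO P (a i)⟩, hcstres P (a i), hh i⟩
  refine ⟨h, hhV, hhV', ?_, ?_⟩
  · -- `w' ∈ 1 + q V`
    refine h8f_oneq_mul V _ hqV (h8f_oneq_pow V _ hqV hw _) ?_
    have hx : h ^ m - 1 ∈ V := V.sub_mem (V.pow_mem hhV m) V.one_mem
    have hxM : ∀ i, h ^ m - 1 ∈ M i := by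
      intro i
      have h3 : h ^ m - cst (a i) ^ m ∈ M i :=
        h8f_pow_sub_pow_mem V (M i) (hVM i) hhV (hcstV _) (hh i) m
      have h4 : cst (a i ^ m - 1) ∈ M i := by
        refine hcstM _ ?_ i
        rw [map_sub, map_pow, map_one, hrkm i, sub_self]
      have e : h ^ m - 1 = (h ^ m - cst (a i) ^ m) + cst (a i ^ m - 1) := by
        rw [map_sub, map_pow, map_one]; ring
      rw [e]
      exact (M i).add_mem h3 h4
    have h5 := h8f_pow_q V (r + 1) hq hx (hrad _ hx hxM)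
    have e : (h ^ (r + 1)) ^ m = (1 + (h ^ m - 1)) ^ (r + 1) := by
      rw [← pow_mul, mul_comm, pow_mul]; congr 1; ring
    rw [e]
    exact h5
  · intro P
    obtain ⟨u, f, y0, y1, y2, hu, hwf, g0, g1, g2⟩ := hfact P
    obtain ⟨hA', hB'⟩ := hconst P u f y0 y1 y2 hu hwf g0 g1 g2
    obtain ⟨t1, t2, t3, t4⟩ := h8t_twist (O P) (res P) V (hOV P) M hVM (hM P) (hloc P) m
      (r * (r + 2)) (r + 1) A B h (rk (a 0)) (rk (a 1)) (rk (a 2)) (hrel P 0) (hrel P 1)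
      (hrel P 2) (by rw [hrka0, hrka1, div_one]; exact hε1)
      (by rw [hrka0, hrka2, div_one]; exact hε2) w u f y0 y1 y2 hwf g0 g1 g2 hA' hB'
    exact ⟨u ^ (r * (r + 2)), f ^ (r * (r + 2)) * h ^ (r + 1), _,
      h8f_isUnit_pow (O P) hu _, t1, t2, t3, t4⟩

end Final

end Fermat.Agent.S36
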