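import Mathlib
import Fermat.Agent.S36.H8TorFinal
import Fermat.Agent.S36.H11TorConst

/-!
# S36, block TOR (helper8): the abstract statement with the local rings below as preimages

Language `(O, res, V, M)` of `H8TorAsm.lean` / `H8TorFinal.lean`.  The local rings of the level
`q M'` at the images of a supersingular point `P` under `α` and `β` are taken to be the
PREIMAGES `O'_α = α⁻¹ (O P)`, `O'_β = β⁻¹ (O P)` with the residue maps `res ∘ α`, `res ∘ β`.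
Then (TN3) `res ∘ ι = res'`, the locality of `O'` and `M' ∩ O' ⊆ ker res'` are automatic, and
no chart of the level `q M'` and no Frobenius on the set of points is needed.

* `h8c_O`, `h8c_res` : the preimage ring and its residue map;
* `h8c_hM`, `h8c_hM'`, `h8c_hloc'` : the automatic hypotheses;
* `h8c_branch_const_pt` : the `(q² - 1)`-th powers of the branch data at one point;
* `h8c_multi` : **TOR, abstract final form with preimage rings.**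

Mathlib + `H11TorAbs`, `H11TorNorm`, `H11TorConst`, `H8TorAsm`, `H8TorFinal` only.
-/

set_option autoImplicit false
set_option linter.unusedSectionVars false
set_option linter.unusedVariables false

namespace Fermat.Agent.S36

section Comap

variable {F F' : Type*} [Field F] [Field F'] {k : Type*} [Field k]

/-- the local ring below: the preimage of `O` under `ι`. -/
def h8c_O (O : Subring F) (ι : F' →+* F) : Subring F' := O.comap ι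

theorem h8c_mem_O (O : Subring F) (ι : F' →+* F) (y : F') : y ∈ h8c_O O ι ↔ ι y ∈ O :=
  Iff.rfl

/-- the residue map of the preimage ring. -/
def h8c_res (O : Subring F) (res : O →+* k) (ι : F' →+* F) : h8c_O O ι →+* k :=
  res.comp (ι.restrict (h8c_O O ι) O (fun _ hx => hx))

theorem h8c_res_apply (O : Subring F) (res : O →+* k) (ι : F' →+* F) (a : h8c_O O ι) :
    h8c_res O res ι a = res ⟨ι (a : F'), a.2⟩ := rfl

/-- `M ∩ O ⊆ ker res` for a local ring `O ≤ V` and a proper `V`-submodule `M`. -/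
theorem h8c_hM (O : Subring F) (res : O →+* k) (V : Subring F) (hOV : O ≤ V)
    (M : AddSubgroup F) (hVM : ∀ v ∈ V, ∀ x ∈ M, v * x ∈ M) (h1M : (1 : F) ∉ M)
    (hloc : ∀ a : O, res a ≠ 0 → ∃ a' : O, a * a' = 1) :
    ∀ a : O, (a : F) ∈ M → res a = 0 := by
  intro a ha
  by_contra h
  obtain ⟨a', haa'⟩ := hloc a h
  have h1 : (a' : F) * (a : F) = 1 := by
    have := congrArg (Subtype.val : O → F) haa'
    rw [mul_comm]
    simpa using this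
  apply h1M
  rw [← h1]
  exact hVM _ (hOV a'.2) _ ha

/-- the preimage ring is local. -/
theorem h8c_hloc' (O : Subring F) (res : O →+* k) (ι : F' →+* F)
    (hloc : ∀ a : O, res a ≠ 0 → ∃ a' : O, a * a' = 1) :
    ∀ a : h8c_O O ι, h8c_res O res ι a ≠ 0 → ∃ a' : h8c_O O ι, a * a' = 1 := by
  intro a ha
  obtain ⟨b, hb⟩ := hloc ⟨ι (a : F'), a.2⟩ ha
  have hb' : ι (a : F') * (b : F) = 1 := by
    have := congrArg (Subtype.val : O → F) hb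
    simpa using this
  have ha0 : (a : F') ≠ 0 := by
    intro h
    rw [h, map_zero, zero_mul] at hb'
    exact zero_ne_one hb'
  have hinv : ι ((a : F')⁻¹) = (b : F) := by
    rw [map_inv₀]
    exact (eq_inv_of_mul_eq_one_right hb').symm
  refine ⟨⟨(a : F')⁻¹, ?_⟩, Subtype.ext (mul_inv_cancel₀ ha0)⟩
  show ι ((a : F')⁻¹) ∈ O
  rw [hinv]
  exact b.2

/-- `M' ∩ O' ⊆ ker res'` for the preimage ring. -/
theorem h8c_hM' (O : Subring F) (res : O →+* k) (ι : F' →+* F)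
    (hloc : ∀ a : O, res a ≠ 0 → ∃ a' : O, a * a' = 1)
    (V' : Subring F') (hιV : ∀ y : F', ι y ∈ O → y ∈ V')
    (M' : AddSubgroup F') (hVM' : ∀ v ∈ V', ∀ x ∈ M', v * x ∈ M') (h1M' : (1 : F') ∉ M') :
    ∀ a : h8c_O O ι, (a : F') ∈ M' → h8c_res O res ι a = 0 :=
  h8c_hM (h8c_O O ι) (h8c_res O res ι) V' (fun y hy => hιV y hy) M' hVM' h1M'
    (h8c_hloc' O res ι hloc)

/-- the inverse of a function of the preimage ring with nonzero residue. -/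
theorem h8c_inv_mem (O : Subring F) (res : O →+* k) (ι : F' →+* F)
    (hloc : ∀ a : O, res a ≠ 0 → ∃ a' : O, a * a' = 1)
    (a : h8c_O O ι) (ha : h8c_res O res ι a ≠ 0) : (a : F')⁻¹ ∈ h8c_O O ι := by
  obtain ⟨a', haa'⟩ := h8c_hloc' O res ι hloc a ha
  have h1 : (a : F') * (a' : F') = 1 := by
    have := congrArg (Subtype.val : h8c_O O ι → F') haa'
    simpa using this
  rw [← eq_inv_of_mul_eq_one_right h1]
  exact a'.2

theorem h8c_monoidHom_inv {G G' : Type*} [Field G] [Field G'] (N : G →* G') {u : G}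
    (hu : u ≠ 0) : N u⁻¹ = (N u)⁻¹ := by
  refine eq_inv_of_mul_eq_one_right ?_
  rw [← map_mul, mul_inv_cancel₀ hu, map_one]

theorem h8c_monoidHom_ne_zero {G G' : Type*} [Field G] [Field G'] (N : G →* G') {u : G}
    (hu : u ≠ 0) : N u ≠ 0 := by
  intro h
  have h1 : N u * N u⁻¹ = 1 := by rw [← map_mul, mul_inv_cancel₀ hu, map_one]
  rw [h, zero_mul] at h1
  exact zero_ne_one h1

end Comap

section Point

variable {F F' : Type*} [Field F] [Field F'] {k : Type*} [Field k]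

/-- **the branch relation for one degeneracy map, preimage form.**  `a`, `b` are the branch
norm formulas (`hN`). -/
theorem h8c_branch_rel
    (V : Subring F) (M : Fin 3 → AddSubgroup F) (hVM : ∀ i, ∀ v ∈ V, ∀ x ∈ M i, v * x ∈ M i)
    (V' : Subring F') (M' : Fin 2 → AddSubgroup F')
    (hVM' : ∀ j, ∀ v ∈ V', ∀ x ∈ M' j, v * x ∈ M' j)
    (O : Subring F) (res : O →+* k) (hOV : O ≤ V)
    (hM : ∀ i, ∀ a : O, (a : F) ∈ M i → res a = 0)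
    (hloc : ∀ a : O, res a ≠ 0 → ∃ a' : O, a * a' = 1)
    (ι : F' →+* F) (hιV : ∀ y : F', ι y ∈ O → y ∈ V')
    (hM' : ∀ j, ∀ a : h8c_O O ι, (a : F') ∈ M' j → h8c_res O res ι a = 0)
    (Nm : F →* F') (m : ℕ)
    (hroot : ∀ x : F, x ^ m ∈ O → x ∈ O)
    (hNL : ∀ u : F, u ∈ O → u⁻¹ ∈ O → ι (Nm u) ∈ O)
    (a b : k → k → k → k)
    (hN : ∀ x c0 c1 c2,
      (h8t_branch O res V hOV (M 0) (hVM 0) (hM 0) hloc).rel x c0 →
      (h8t_branch O res V hOV (M 1) (hVM 1) (hM 1) hloc).rel x c1 →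
      (h8t_branch O res V hOV (M 2) (hVM 2) (hM 2) hloc).rel x c2 →
      (h8t_branch (h8c_O O ι) (h8c_res O res ι) V' (fun y hy => hιV y hy) (M' 0) (hVM' 0)
        (hM' 0) (h8c_hloc' O res ι hloc)).rel (Nm x) (a c0 c1 c2) ∧
      (h8t_branch (h8c_O O ι) (h8c_res O res ι) V' (fun y hy => hιV y hy) (M' 1) (hVM' 1)
        (hM' 1) (h8c_hloc' O res ι hloc)).rel (Nm x) (b c0 c1 c2))
    (w : F) (g : F') (d0 d1 : k)
    (hg0 : (h8t_branch (h8c_O O ι) (h8c_res O res ι) V' (fun y hy => hιV y hy) (M' 0) (hVM' 0)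
        (hM' 0) (h8c_hloc' O res ι hloc)).rel g d0)
    (hg1 : (h8t_branch (h8c_O O ι) (h8c_res O res ι) V' (fun y hy => hιV y hy) (M' 1) (hVM' 1)
        (hM' 1) (h8c_hloc' O res ι hloc)).rel g d1)
    (hw : Nm w = g ^ m)
    (u f : F) (z0 z1 z2 : k) (hu : h8t_IsUnit O u) (hwf : w = u * f ^ m)
    (hf0 : (h8t_branch O res V hOV (M 0) (hVM 0) (hM 0) hloc).rel f z0)
    (hf1 : (h8t_branch O res V hOV (M 1) (hVM 1) (hM 1) hloc).rel f z1)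
    (hf2 : (h8t_branch O res V hOV (M 2) (hVM 2) (hM 2) hloc).rel f z2) :
    b z0 z1 z2 * d0 = a z0 z1 z2 * d1 := by
  refine h11t_branch_rel
    (fun i => h8t_branch O res V hOV (M i) (hVM i) (hM i) hloc)
    (fun j => h8t_branch (h8c_O O ι) (h8c_res O res ι) V' (fun y hy => hιV y hy) (M' j)
      (hVM' j) (hM' j) (h8c_hloc' O res ι hloc))
    (h8t_local O res V hOV M hVM hM hloc)
    (h8t_local (h8c_O O ι) (h8c_res O res ι) V' (fun y hy => hιV y hy) M' hVM' hM'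
      (h8c_hloc' O res ι hloc))
    m ?_ Nm ?_ a b hN w 1 g ?_ d0 d1 hg0 hg1 (by rw [one_mul]; exact hw) u f z0 z1 z2 hu hwf
    hf0 hf1 hf2
  · -- normality
    rintro h hh0 ⟨h1, h2, -⟩
    refine ⟨?_, ?_, hh0⟩
    · show ι h ∈ O
      refine hroot _ ?_
      rw [← map_pow]
      exact h1
    · show ι h⁻¹ ∈ O
      refine hroot _ ?_
      rw [← map_pow, inv_pow]
      exact h2
  · -- norms of local units
    rintro x ⟨hx, hx', hx0⟩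
    refine ⟨hNL x hx hx', ?_, h8c_monoidHom_ne_zero Nm hx0⟩
    show ι (Nm x)⁻¹ ∈ O
    rw [← h8c_monoidHom_inv Nm hx0]
    exact hNL x⁻¹ hx' (by rwa [inv_inv])
  · -- `1` is a unit
    refine ⟨?_, ?_, one_ne_zero⟩
    · exact (h8c_O O ι).one_mem
    · rw [inv_one]
      exact (h8c_O O ι).one_mem

/-- **the branch norm formula for `α`, preimage form**, from the node-independent norm
congruences (TN1) and the branch generation (TN2). -/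
theorem h8c_hNa
    (V : Subring F) (M : Fin 3 → AddSubgroup F) (hVM : ∀ i, ∀ v ∈ V, ∀ x ∈ M i, v * x ∈ M i)
    (V' : Subring F') (M' : Fin 2 → AddSubgroup F')
    (hVM' : ∀ j, ∀ v ∈ V', ∀ x ∈ M' j, v * x ∈ M' j)
    (O : Subring F) (res : O →+* k) (hOV : O ≤ V)
    (hM : ∀ i, ∀ a : O, (a : F) ∈ M i → res a = 0)
    (hloc : ∀ a : O, res a ≠ 0 → ∃ a' : O, a * a' = 1)
    (ι : F' →+* F) (hιV : ∀ y : F', ι y ∈ O → y ∈ V')
    (hM' : ∀ j, ∀ a : h8c_O O ι, (a : F') ∈ M' j → h8c_res O res ι a = 0)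
    (Nm : F →* F') (r : ℕ)
    (TN0 : ∀ x ∈ V, x⁻¹ ∈ V → Nm x ∈ V')
    (TN1s : ∀ (z : F) (y₀ y₁ : F'), y₀ ∈ V' → y₀⁻¹ ∈ V' → y₁ ∈ V' → y₁⁻¹ ∈ V' →
      z - ι y₀ ∈ M 0 → z - ι y₁ ∈ M 1 → Nm z - y₀ * y₁ ^ r ∈ M' 0)
    (TN1i : ∀ (z : F) (y : F'), y ∈ V' → y⁻¹ ∈ V' → z ^ (r + 1) - ι y ∈ M 2 →
      Nm z - y ∈ M' 1)
    (TN2₀ : ∀ a : O, ∃ a' : F', ι a' ∈ O ∧ (a : F) - ι a' ∈ M 0)
    (TN2₁ : ∀ a : O, ∃ a' : F', ι a' ∈ O ∧ (a : F) - ι a' ∈ M 1)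
    (TN2₂ : ∀ a : O, ∃ a' : F', ι a' ∈ O ∧ (a : F) ^ (r + 1) - ι a' ∈ M 2)
    (x : F) (c0 c1 c2 : k)
    (h0 : (h8t_branch O res V hOV (M 0) (hVM 0) (hM 0) hloc).rel x c0)
    (h1 : (h8t_branch O res V hOV (M 1) (hVM 1) (hM 1) hloc).rel x c1)
    (h2 : (h8t_branch O res V hOV (M 2) (hVM 2) (hM 2) hloc).rel x c2) :
    (h8t_branch (h8c_O O ι) (h8c_res O res ι) V' (fun y hy => hιV y hy) (M' 0) (hVM' 0)
      (hM' 0) (h8c_hloc' O res ι hloc)).rel (Nm x) (c0 * c1 ^ r) ∧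
    (h8t_branch (h8c_O O ι) (h8c_res O res ι) V' (fun y hy => hιV y hy) (M' 1) (hVM' 1)
      (hM' 1) (h8c_hloc' O res ι hloc)).rel (Nm x) (c2 ^ (r + 1)) := by
  refine h8t_hNa O res V hOV M hVM hM hloc (h8c_O O ι) (h8c_res O res ι) V'
    (fun y hy => hιV y hy) M' hVM' hM' (h8c_hloc' O res ι hloc) ι (fun a' => a'.2)
    (fun a' => rfl) Nm r TN0 ?_ ?_ ?_ ?_ ?_ x c0 c1 c2 h0 h1 h2
  · intro z y₀ y₁ hy₀ hy₁ hz₀ hz₁
    exact TN1s z y₀ y₁ (hιV _ y₀.2) (hιV _ (h8c_inv_mem O res ι hloc y₀ hy₀)) (hιV _ y₁.2)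
      (hιV _ (h8c_inv_mem O res ι hloc y₁ hy₁)) hz₀ hz₁
  · intro z y hy hz
    exact TN1i z y (hιV _ y.2) (hιV _ (h8c_inv_mem O res ι hloc y hy)) hz
  · intro a
    obtain ⟨a', ha', h⟩ := TN2₀ a
    exact ⟨⟨a', ha'⟩, h⟩
  · intro a
    obtain ⟨a', ha', h⟩ := TN2₁ a
    exact ⟨⟨a', ha'⟩, h⟩
  · intro a
    obtain ⟨a', ha', h⟩ := TN2₂ a
    exact ⟨⟨a', ha'⟩, h⟩

/-- **the branch norm formula for `β`, preimage form.** -/
theorem h8c_hNb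
    (V : Subring F) (M : Fin 3 → AddSubgroup F) (hVM : ∀ i, ∀ v ∈ V, ∀ x ∈ M i, v * x ∈ M i)
    (V' : Subring F') (M' : Fin 2 → AddSubgroup F')
    (hVM' : ∀ j, ∀ v ∈ V', ∀ x ∈ M' j, v * x ∈ M' j)
    (O : Subring F) (res : O →+* k) (hOV : O ≤ V)
    (hM : ∀ i, ∀ a : O, (a : F) ∈ M i → res a = 0)
    (hloc : ∀ a : O, res a ≠ 0 → ∃ a' : O, a * a' = 1)
    (ι : F' →+* F) (hιV : ∀ y : F', ι y ∈ O → y ∈ V')
    (hM' : ∀ j, ∀ a : h8c_O O ι, (a : F') ∈ M' j → h8c_res O res ι a = 0)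
    (Nm : F →* F') (r : ℕ)
    (TN0 : ∀ x ∈ V, x⁻¹ ∈ V → Nm x ∈ V')
    (TN1i : ∀ (z : F) (y : F'), y ∈ V' → y⁻¹ ∈ V' → z ^ (r + 1) - ι y ∈ M 0 →
      Nm z - y ∈ M' 0)
    (TN1s : ∀ (z : F) (y₂ y₁ : F'), y₂ ∈ V' → y₂⁻¹ ∈ V' → y₁ ∈ V' → y₁⁻¹ ∈ V' →
      z - ι y₂ ∈ M 2 → z - ι y₁ ∈ M 1 → Nm z - y₂ * y₁ ^ r ∈ M' 1)
    (TN2₀ : ∀ a : O, ∃ a' : F', ι a' ∈ O ∧ (a : F) ^ (r + 1) - ι a' ∈ M 0)
    (TN2₁ : ∀ a : O, ∃ a' : F', ι a' ∈ O ∧ (a : F) - ι a' ∈ M 1)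
    (TN2₂ : ∀ a : O, ∃ a' : F', ι a' ∈ O ∧ (a : F) - ι a' ∈ M 2)
    (x : F) (c0 c1 c2 : k)
    (h0 : (h8t_branch O res V hOV (M 0) (hVM 0) (hM 0) hloc).rel x c0)
    (h1 : (h8t_branch O res V hOV (M 1) (hVM 1) (hM 1) hloc).rel x c1)
    (h2 : (h8t_branch O res V hOV (M 2) (hVM 2) (hM 2) hloc).rel x c2) :
    (h8t_branch (h8c_O O ι) (h8c_res O res ι) V' (fun y hy => hιV y hy) (M' 0) (hVM' 0)
      (hM' 0) (h8c_hloc' O res ι hloc)).rel (Nm x) (c0 ^ (r + 1)) ∧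
    (h8t_branch (h8c_O O ι) (h8c_res O res ι) V' (fun y hy => hιV y hy) (M' 1) (hVM' 1)
      (hM' 1) (h8c_hloc' O res ι hloc)).rel (Nm x) (c1 ^ r * c2) := by
  refine h8t_hNb O res V hOV M hVM hM hloc (h8c_O O ι) (h8c_res O res ι) V'
    (fun y hy => hιV y hy) M' hVM' hM' (h8c_hloc' O res ι hloc) ι (fun a' => a'.2)
    (fun a' => rfl) Nm r TN0 ?_ ?_ ?_ ?_ ?_ x c0 c1 c2 h0 h1 h2
  · intro z y hy hz
    exact TN1i z y (hιV _ y.2) (hιV _ (h8c_inv_mem O res ι hloc y hy)) hz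
  · intro z y₂ y₁ hy₂ hy₁ hz₂ hz₁
    exact TN1s z y₂ y₁ (hιV _ y₂.2) (hιV _ (h8c_inv_mem O res ι hloc y₂ hy₂)) (hιV _ y₁.2)
      (hιV _ (h8c_inv_mem O res ι hloc y₁ hy₁)) hz₂ hz₁
  · intro a
    obtain ⟨a', ha', h⟩ := TN2₀ a
    exact ⟨⟨a', ha'⟩, h⟩
  · intro a
    obtain ⟨a', ha', h⟩ := TN2₁ a
    exact ⟨⟨a', ha'⟩, h⟩
  · intro a
    obtain ⟨a', ha', h⟩ := TN2₂ a
    exact ⟨⟨a', ha'⟩, h⟩

end Point

section Multi

variable {F F' : Type*} [Field F] [Field F'] {k : Type*} [Field k] {S : Type*}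

/-- a local root `f` of `w ≡ 1` with a branch representative `a` has a nonzero branch value. -/
theorem h8c_root_rel (O : Subring F) (res : O →+* k) (V : Subring F) (hOV : O ≤ V)
    (M : AddSubgroup F) (hVM : ∀ v ∈ V, ∀ x ∈ M, v * x ∈ M)
    (hM : ∀ a : O, (a : F) ∈ M → res a = 0)
    (hloc : ∀ a : O, res a ≠ 0 → ∃ a' : O, a * a' = 1)
    (m : ℕ) (hm : 0 < m) (w u f : F) (hw1 : w - 1 ∈ M) (hu : h8t_IsUnit O u)
    (hwf : w = u * f ^ m) (hfV : f ∈ V) (hfV' : f⁻¹ ∈ V) (a : O) (ha : f - (a : F) ∈ M) :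
    (h8t_branch O res V hOV M hVM hM hloc).rel f (res a) := by
  refine ⟨hfV, hfV', ?_, a, rfl, ha⟩
  have h1 : f ^ m - (a : F) ^ m ∈ M := h8f_pow_sub_pow_mem V M hVM hfV (hOV a.2) ha m
  have h2 : u * (f ^ m - (a : F) ^ m) ∈ M := hVM _ (hOV hu.1) _ h1
  have h3 : u * (a : F) ^ m - 1 ∈ M := by
    have e : u * (a : F) ^ m - 1 = (w - 1) - u * (f ^ m - (a : F) ^ m) := by
      rw [hwf]; ring
    rw [e]
    exact M.sub_mem hw1 h2
  have h4 : res ((⟨u, hu.1⟩ : O) * a ^ m - 1) = 0 := hM _ (by simpa using h3)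
  rw [map_sub, map_mul, map_pow, map_one, sub_eq_zero] at h4
  intro h0
  rw [h0, zero_pow hm.ne', mul_zero] at h4
  exact zero_ne_one h4

/-- **TOR, abstract final form with preimage rings.**  `q = r + 1` prime, `m` prime to `q`.
`w ∈ 1 + q V` a unit of `V` whose norms along `α` and `β` are `m`-th powers, with a local
factorisation `w = u f ^ m` at every point `P` (the root having a representative in `O P`
along each of the three branches).  Then there is a unit `h` of `V` such that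
`w' = w ^ (q² - 1) * (h ^ q) ^ m ∈ 1 + q V` and at every point `w' = u' g₀ ^ m` with `u'` a local
unit and `g₀` a unit of `V` with the same value on the three branches. -/
theorem h8c_multi
    (ια ιβ : F' →+* F) (Na Nb : F →* F')
    (V : Subring F) (M : Fin 3 → AddSubgroup F) (hVM : ∀ i, ∀ v ∈ V, ∀ x ∈ M i, v * x ∈ M i)
    (h1M : ∀ i, (1 : F) ∉ M i)
    (V' : Subring F') (M' : Fin 2 → AddSubgroup F')
    (hVM' : ∀ j, ∀ v ∈ V', ∀ x ∈ M' j, v * x ∈ M' j) (h1M' : ∀ j, (1 : F') ∉ M' j)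
    (hprime' : ∀ j, ∀ x ∈ V', ∀ y ∈ V', x * y ∈ M' j → x ∈ M' j ∨ y ∈ M' j)
    (O : S → Subring F) (res : ∀ P, O P →+* k) (hOV : ∀ P, O P ≤ V)
    (hloc : ∀ P, ∀ a : O P, res P a ≠ 0 → ∃ a' : O P, a * a' = 1)
    (hαV : ∀ P, ∀ y : F', ια y ∈ O P → y ∈ V') (hβV : ∀ P, ∀ y : F', ιβ y ∈ O P → y ∈ V')
    (m r : ℕ) (hm : 0 < m) (hq : (r + 1).Prime) (hqm : Nat.Coprime (r + 1) m)
    (hroot : ∀ P, ∀ x : F, x ^ m ∈ O P → x ∈ O P)
    (hNaL : ∀ P, ∀ u : F, u ∈ O P → u⁻¹ ∈ O P → ια (Na u) ∈ O P)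
    (hNbL : ∀ P, ∀ u : F, u ∈ O P → u⁻¹ ∈ O P → ιβ (Nb u) ∈ O P)
    -- the constants
    {A₀ : Type*} [CommRing A₀] (cst : A₀ →+* F) (cst' : A₀ →+* F')
    (hcα : ∀ a, ια (cst' a) = cst a) (hcβ : ∀ a, ιβ (cst' a) = cst a)
    (rk : A₀ →+* k) (hrk : Function.Surjective rk) (hcstV : ∀ a, cst a ∈ V)
    (hcstO : ∀ P a, cst a ∈ O P) (hcstres : ∀ P a, res P ⟨cst a, hcstO P a⟩ = rk a)
    (hcstM : ∀ a, rk a = 0 → ∀ i, cst a ∈ M i)
    (hmu : ∀ ξ : F', ξ ^ m = 1 → ∃ a : A₀, cst' a = ξ)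
    (ζ : F') (hζ : IsPrimitiveRoot ζ m)
    (hqM : ∀ i, ∀ y ∈ V, ((r + 1 : ℕ) : F) * y ∈ M i)
    (hrad : ∀ x ∈ V, (∀ i, x ∈ M i) → ∃ y ∈ V, x ^ (r + 1) = ((r + 1 : ℕ) : F) * y)
    (TN5 : ∀ a : Fin 3 → A₀, (∀ i, rk (a i) ≠ 0) →
      ∃ h ∈ V, h⁻¹ ∈ V ∧ ∀ i, h - cst (a i) ∈ M i)
    (hVroot : ∀ x : F, x ^ m ∈ V → x ∈ V) (hVroot' : ∀ x : F', x ^ m ∈ V' → x ∈ V')
    -- the norms
    (TN0a : ∀ x ∈ V, x⁻¹ ∈ V → Na x ∈ V') (TN0b : ∀ x ∈ V, x⁻¹ ∈ V → Nb x ∈ V')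
    (TN1as : ∀ (z : F) (y₀ y₁ : F'), y₀ ∈ V' → y₀⁻¹ ∈ V' → y₁ ∈ V' → y₁⁻¹ ∈ V' →
      z - ια y₀ ∈ M 0 → z - ια y₁ ∈ M 1 → Na z - y₀ * y₁ ^ r ∈ M' 0)
    (TN1ai : ∀ (z : F) (y : F'), y ∈ V' → y⁻¹ ∈ V' → z ^ (r + 1) - ια y ∈ M 2 →
      Na z - y ∈ M' 1)
    (TN1bi : ∀ (z : F) (y : F'), y ∈ V' → y⁻¹ ∈ V' → z ^ (r + 1) - ιβ y ∈ M 0 →
      Nb z - y ∈ M' 0)
    (TN1bs : ∀ (z : F) (y₂ y₁ : F'), y₂ ∈ V' → y₂⁻¹ ∈ V' → y₁ ∈ V' → y₁⁻¹ ∈ V' →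
      z - ιβ y₂ ∈ M 2 → z - ιβ y₁ ∈ M 1 → Nb z - y₂ * y₁ ^ r ∈ M' 1)
    (TN2a₀ : ∀ P, ∀ a : O P, ∃ a' : F', ια a' ∈ O P ∧ (a : F) - ια a' ∈ M 0)
    (TN2a₁ : ∀ P, ∀ a : O P, ∃ a' : F', ια a' ∈ O P ∧ (a : F) - ια a' ∈ M 1)
    (TN2a₂ : ∀ P, ∀ a : O P, ∃ a' : F', ια a' ∈ O P ∧ (a : F) ^ (r + 1) - ια a' ∈ M 2)
    (TN2b₀ : ∀ P, ∀ a : O P, ∃ a' : F', ιβ a' ∈ O P ∧ (a : F) ^ (r + 1) - ιβ a' ∈ M 0)
    (TN2b₁ : ∀ P, ∀ a : O P, ∃ a' : F', ιβ a' ∈ O P ∧ (a : F) - ιβ a' ∈ M 1)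
    (TN2b₂ : ∀ P, ∀ a : O P, ∃ a' : F', ιβ a' ∈ O P ∧ (a : F) - ιβ a' ∈ M 2)
    -- the function
    (w : F) (hw : h8f_OneQ V ((r + 1 : ℕ) : F) w) (hwinv : w⁻¹ ∈ V)
    (g g' : F') (hwa : Na w = g ^ m) (hwb : Nb w = g' ^ m)
    (hfact : ∀ P, ∃ u f : F, h8t_IsUnit (O P) u ∧ w = u * f ^ m ∧
      ∀ i, ∃ a : O P, f - (a : F) ∈ M i) :
    ∃ h : F, h ∈ V ∧ h⁻¹ ∈ V ∧
      h8f_OneQ V ((r + 1 : ℕ) : F) (w ^ (r * (r + 2)) * (h ^ (r + 1)) ^ m) ∧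
      ∀ P, ∃ (u' g₀ : F) (c : k), h8t_IsUnit (O P) u' ∧
        w ^ (r * (r + 2)) * (h ^ (r + 1)) ^ m = u' * g₀ ^ m ∧ g₀ ∈ V ∧ g₀⁻¹ ∈ V ∧
        ∀ i, h11t_BVal (O P) (res P) (M i) g₀ c := by
  have hqV : ((r + 1 : ℕ) : F) ∈ V := natCast_mem V (r + 1)
  rcases isEmpty_or_nonempty S with hS | ⟨⟨P₀⟩⟩
  · refine ⟨1, V.one_mem, by rw [inv_one]; exact V.one_mem, ?_, fun P => (hS.false P).elim⟩
    rw [one_pow, one_pow, mul_one]
    exact h8f_oneq_pow V _ hqV hw _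
  -- automatic hypotheses
  have hM : ∀ P i, ∀ a : O P, (a : F) ∈ M i → res P a = 0 := fun P i =>
    h8c_hM (O P) (res P) V (hOV P) (M i) (hVM i) (h1M i) (hloc P)
  have hMa : ∀ P j, ∀ a : h8c_O (O P) ια, (a : F') ∈ M' j → h8c_res (O P) (res P) ια a = 0 :=
    fun P j => h8c_hM' (O P) (res P) ια (hloc P) V' (hαV P) (M' j) (hVM' j) (h1M' j)
  have hMb : ∀ P j, ∀ a : h8c_O (O P) ιβ, (a : F') ∈ M' j → h8c_res (O P) (res P) ιβ a = 0 :=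
    fun P j => h8c_hM' (O P) (res P) ιβ (hloc P) V' (hβV P) (M' j) (hVM' j) (h1M' j)
  -- `w`
  have hw1 : ∀ i, w - 1 ∈ M i := by
    intro i
    obtain ⟨y, hy, rfl⟩ := hw
    have : (1 + ((r + 1 : ℕ) : F) * y) - 1 = ((r + 1 : ℕ) : F) * y := by ring
    rw [this]
    exact hqM i y hy
  have hwV : w ∈ V := by
    obtain ⟨y, hy, rfl⟩ := hw
    exact V.add_mem V.one_mem (V.mul_mem hqV hy)
  have hw0 : w ≠ 0 := by
    rintro rfl
    apply h1M 0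
    have h := hw1 0
    have e : (1 : F) = -((0 : F) - 1) := by ring
    rw [e]
    exact (M 0).neg_mem h
  have hwq : ∀ i, w ^ (r + 1) - 1 ∈ M i := by
    intro i
    have := h8f_pow_sub_pow_mem V (M i) (hVM i) hwV V.one_mem (hw1 i) (r + 1)
    rwa [one_pow] at this
  -- constants of level `q M'`
  have hcstV' : ∀ a, cst' a ∈ V' := fun a =>
    hαV P₀ (cst' a) (by rw [hcα]; exact hcstO P₀ a)
  have hroots : ∀ ξ : F', ξ ^ m = 1 → ξ ∈ V' := by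
    intro ξ hξ
    obtain ⟨a, rfl⟩ := hmu ξ hξ
    exact hcstV' a
  have hrk1 : ∀ a : A₀, cst' a ^ m = 1 → rk a ^ m = 1 := by
    intro a ha
    have h1 : (⟨cst (a ^ m), hcstO P₀ (a ^ m)⟩ : O P₀) = 1 := by
      refine Subtype.ext ?_
      show cst (a ^ m) = 1
      rw [← hcα, map_pow, ha, map_one]
    rw [← map_pow, ← hcstres P₀ (a ^ m), h1, map_one]
  have hrkne : ∀ a : A₀, cst' a ^ m = 1 → rk a ≠ 0 := by
    intro a ha h0
    have := hrk1 a ha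
    rw [h0, zero_pow hm.ne'] at this
    exact zero_ne_one this
  -- the roots of the norms are units of `V'`, congruent to constants
  have key : ∀ (Nm : F →* F') (TN0 : ∀ x ∈ V, x⁻¹ ∈ V → Nm x ∈ V') (g : F')
      (hg : Nm w = g ^ m) (j : Fin 2) (hj : Nm w - 1 ∈ M' j),
      g ∈ V' ∧ g⁻¹ ∈ V' ∧ ∃ a : A₀, cst' a ^ m = 1 ∧ g - cst' a ∈ M' j := by
    intro Nm TN0 g hg j hj
    have hgV : g ∈ V' := hVroot' g (by rw [← hg]; exact TN0 w hwV hwinv)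
    have hgV' : g⁻¹ ∈ V' := by
      refine hVroot' _ ?_
      rw [inv_pow, ← hg, ← h8c_monoidHom_inv Nm hw0]
      exact TN0 w⁻¹ hwinv (by rwa [inv_inv])
    refine ⟨hgV, hgV', ?_⟩
    obtain ⟨ξ, hξ, hgξ⟩ := h11t_const_of_pow V' (M' j) (hVM' j) (hprime' j) (h1M' j) m hm ζ hζ
      hroots 1 g 1 V'.one_mem hgV V'.one_mem (by rw [one_mul, ← hg]; exact hj)
      (by rw [one_pow, one_mul, sub_self]; exact (M' j).zero_mem)
    obtain ⟨a, rfl⟩ := hmu ξ hξ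
    exact ⟨a, hξ, by rwa [mul_one] at hgξ⟩
  have hNa0 : Na w - 1 ∈ M' 0 := by
    have := TN1as w 1 1 V'.one_mem (by rw [inv_one]; exact V'.one_mem) V'.one_mem
      (by rw [inv_one]; exact V'.one_mem) (by rw [map_one]; exact hw1 0)
      (by rw [map_one]; exact hw1 1)
    rwa [one_pow, mul_one] at this
  have hNa1 : Na w - 1 ∈ M' 1 :=
    TN1ai w 1 V'.one_mem (by rw [inv_one]; exact V'.one_mem) (by rw [map_one]; exact hwq 2)
  have hNb0 : Nb w - 1 ∈ M' 0 :=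
    TN1bi w 1 V'.one_mem (by rw [inv_one]; exact V'.one_mem) (by rw [map_one]; exact hwq 0)
  have hNb1 : Nb w - 1 ∈ M' 1 := by
    have := TN1bs w 1 1 V'.one_mem (by rw [inv_one]; exact V'.one_mem) V'.one_mem
      (by rw [inv_one]; exact V'.one_mem) (by rw [map_one]; exact hw1 2)
      (by rw [map_one]; exact hw1 1)
    rwa [one_pow, mul_one] at this
  obtain ⟨hgV, hgV', a0, ha0, hga0⟩ := key Na TN0a g hwa 0 hNa0
  obtain ⟨-, -, a1, ha1, hga1⟩ := key Na TN0a g hwa 1 hNa1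
  obtain ⟨hgV₂, hgV₂', b0, hb0, hgb0⟩ := key Nb TN0b g' hwb 0 hNb0
  obtain ⟨-, -, b1, hb1, hgb1⟩ := key Nb TN0b g' hwb 1 hNb1
  -- the branch values of the roots of the norms at every point
  have hrel : ∀ (ι : F' →+* F) (hc : ∀ a, ι (cst' a) = cst a)
      (hιV : ∀ P, ∀ y : F', ι y ∈ O P → y ∈ V')
      (hM' : ∀ P j, ∀ a : h8c_O (O P) ι, (a : F') ∈ M' j → h8c_res (O P) (res P) ι a = 0)
      (g : F') (hgV : g ∈ V') (hgV' : g⁻¹ ∈ V') (j : Fin 2) (a : A₀) (ha : cst' a ^ m = 1)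
      (hga : g - cst' a ∈ M' j) (P : S),
      (h8t_branch (h8c_O (O P) ι) (h8c_res (O P) (res P) ι) V' (fun y hy => hιV P y hy) (M' j)
        (hVM' j) (hM' P j) (h8c_hloc' (O P) (res P) ι (hloc P))).rel g (rk a) := by
    intro ι hc hιV hM' g hgV hgV' j a ha hga P
    have hmem : ι (cst' a) ∈ O P := by rw [hc]; exact hcstO P a
    refine ⟨hgV, hgV', hrkne a ha, ⟨cst' a, hmem⟩, ?_, hga⟩
    rw [h8c_res_apply, ← hcstres P a]
    congr 1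
    exact Subtype.ext (hc a)
  -- apply the final statement
  refine h8f_final V M hVM O res hOV hM hloc cst rk hrk hcstV hcstO hcstres hcstM m r hm hq hqm
    hqM hrad TN5 w hw ?_ ((rk b1 / rk b0) ^ (r + 1) / (rk a1 / rk a0))
    (((rk a1 / rk a0) * (rk b1 / rk b0)) ^ r) ?_
  · -- the local factorisations
    intro P
    obtain ⟨u, f, hu, hwf, ha⟩ := hfact P
    have hu0 : u ≠ 0 := hu.2.2
    have hfm : f ^ m = u⁻¹ * w := by
      rw [hwf, ← mul_assoc, inv_mul_cancel₀ hu0, one_mul]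
    have hfV : f ∈ V := hVroot f (by rw [hfm]; exact V.mul_mem (hOV P hu.2.1) hwV)
    have hfV' : f⁻¹ ∈ V := by
      refine hVroot _ ?_
      rw [inv_pow, hfm, mul_inv, inv_inv]
      exact V.mul_mem (hOV P hu.1) hwinv
    obtain ⟨b0', hb0'⟩ := ha 0
    obtain ⟨b1', hb1'⟩ := ha 1
    obtain ⟨b2', hb2'⟩ := ha 2
    exact ⟨u, f, res P b0', res P b1', res P b2', hu, hwf,
      h8c_root_rel (O P) (res P) V (hOV P) (M 0) (hVM 0) (hM P 0) (hloc P) m hm w u f (hw1 0)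
        hu hwf hfV hfV' b0' hb0',
      h8c_root_rel (O P) (res P) V (hOV P) (M 1) (hVM 1) (hM P 1) (hloc P) m hm w u f (hw1 1)
        hu hwf hfV hfV' b1' hb1',
      h8c_root_rel (O P) (res P) V (hOV P) (M 2) (hVM 2) (hM P 2) (hloc P) m hm w u f (hw1 2)
        hu hwf hfV hfV' b2' hb2'⟩
  · -- the branch data are independent of the point
    intro P u f z0 z1 z2 hu hwf hf0 hf1 hf2
    have hα := h8c_branch_rel V M hVM V' M' hVM' (O P) (res P) (hOV P) (hM P) (hloc P) ια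
      (hαV P) (hMa P) Na m (hroot P) (hNaL P) (fun c0 c1 _ => c0 * c1 ^ r)
      (fun _ _ c2 => c2 ^ (r + 1))
      (h8c_hNa V M hVM V' M' hVM' (O P) (res P) (hOV P) (hM P) (hloc P) ια (hαV P) (hMa P) Na r
        TN0a TN1as TN1ai (TN2a₀ P) (TN2a₁ P) (TN2a₂ P))
      w g (rk a0) (rk a1)
      (hrel ια hcα hαV hMa g hgV hgV' 0 a0 ha0 hga0 P)
      (hrel ια hcα hαV hMa g hgV hgV' 1 a1 ha1 hga1 P)
      hwa u f z0 z1 z2 hu hwf hf0 hf1 hf2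
    have hβ := h8c_branch_rel V M hVM V' M' hVM' (O P) (res P) (hOV P) (hM P) (hloc P) ιβ
      (hβV P) (hMb P) Nb m (hroot P) (hNbL P) (fun c0 _ _ => c0 ^ (r + 1))
      (fun _ c1 c2 => c1 ^ r * c2)
      (h8c_hNb V M hVM V' M' hVM' (O P) (res P) (hOV P) (hM P) (hloc P) ιβ (hβV P) (hMb P) Nb r
        TN0b TN1bi TN1bs (TN2b₀ P) (TN2b₁ P) (TN2b₂ P))
      w g' (rk b0) (rk b1)
      (hrel ιβ hcβ hβV hMb g' hgV₂ hgV₂' 0 b0 hb0 hgb0 P)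
      (hrel ιβ hcβ hβV hMb g' hgV₂ hgV₂' 1 b1 hb1 hgb1 P)
      hwb u f z0 z1 z2 hu hwf hf0 hf1 hf2
    exact h11t_graph r z0 z1 z2 (rk a0) (rk a1) (rk b0) (rk b1) hf0.2.2.1 hf1.2.2.1 hf2.2.2.1
      (hrkne a0 ha0) (hrkne a1 ha1) (hrkne b0 hb0) (hrkne b1 hb1) hα hβ

end Multi

end Fermat.Agent.S36
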