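import Mathlib
import Fermat.Agent.S36.H8TorFinal
import Fermat.Agent.S36.H66LemmaA

/-!
# S36, block TOR → GATE (helper8): from equal branch values to the unit `η` of Lemma A

`h8e_eta` : at a closed point of the special fibre with the data of Lemma A
(`h66a_glue_field`: `O ≤ V`, `O` local, components `f i` with multiplicities `e i`,
`π ~ ∏ f i ^ e i`, `π ∣ q`), a local factorisation `w' = u' g₀ ^ m` of a function
`w' ∈ 1 + π V` whose root `g₀ ∈ V` has the same branch value on all branches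
`M i ⊇ (f i) V` (the output of `h8f_final`) gives a unit `η` of `O` with
`g₀ η ∈ 1 + π V`.  This is the input `η` of `h13g_semi_datum` (`S36/H13LocSemi.lean`).

Mathlib + `H8TorFinal` + `H66LemmaA`.
-/

set_option autoImplicit false

namespace Fermat.Agent.S36

open IsLocalRing

/-- **TOR ⟹ η.** -/
theorem h8e_eta {F : Type*} [Field F] {k : Type*} [Field k] (O V : Subring F) [IsLocalRing O]
    (hOV : O ≤ V) (res : O →+* k) (hker : ∀ a : O, res a = 0 → a ∈ maximalIdeal O)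
    (q : ℕ) (hq : q.Prime) (π : O) (hπq : π ∣ (q : O))
    {ι : Type*} [Fintype ι] (f : ι → O) (e : ι → ℕ) (he : ∀ i, e i ≠ 0)
    (hprime : ∀ i, Prime (f i)) (hna : ∀ i j, i ≠ j → ¬ f i ∣ f j)
    (hπ : Associated π (∏ i, f i ^ e i))
    (hpair : ∀ i j, i ≠ j → ∃ n, maximalIdeal O ^ n ≤ Ideal.span {f i, f j})
    (hval : ∀ i, ∀ x y : O, (∃ t, f i ∣ y - x * t) ∨ (∃ t, f i ∣ x - y * t))
    (hden : ∀ v ∈ V, ∃ s : O, (∀ j, ¬ f j ∣ s) ∧ (s : F) * v ∈ O)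
    (hinv : ∀ s : O, (∀ j, ¬ f j ∣ s) → ((s : F))⁻¹ ∈ V)
    (M : ι → AddSubgroup F) (hM : ∀ i, ∀ a : O, (a : F) ∈ M i → res a = 0)
    (hMf : ∀ i, ∀ y ∈ V, (f i : F) * y ∈ M i)
    (m : ℕ) (hm : m.Coprime q)
    (w' u' g₀ : F) (hu' : h8t_IsUnit O u') (hw' : h8f_OneQ V (π : F) w')
    (hfac : w' = u' * g₀ ^ m) (hg₀V : g₀ ∈ V) (c : k)
    (hbv : ∀ i, h11t_BVal O res (M i) g₀ c) :
    ∃ η : Oˣ, ∃ y ∈ V, g₀ * ((η : O) : F) = 1 + (π : F) * y := by
  -- the unit `ε = u'`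
  let ε : Oˣ :=
    { val := ⟨u', hu'.1⟩
      inv := ⟨u'⁻¹, hu'.2.1⟩
      val_inv := Subtype.ext (mul_inv_cancel₀ hu'.2.2)
      inv_val := Subtype.ext (inv_mul_cancel₀ hu'.2.2) }
  have hε : ((ε : O) : F) = u' := rfl
  refine h66a_glue_field O V hOV q hq π hπq f e he hprime hna hπ hpair hval hden hinv m hm
    g₀ hg₀V ε ?_ ?_
  · obtain ⟨y, hy, hwy⟩ := hw'
    refine ⟨y, hy, ?_⟩
    rw [hε, mul_comm, ← hfac, hwy]
  · intro a ha i j
    exact hker _ (h8t_hcomp O res V M hM f hMf g₀ c hbv a ha i j)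

end Fermat.Agent.S36
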