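import Fermat.Agent.S36.H92Chain
import Fermat.Agent.S36.H79Desc

/-!
# S36, chain block (D): `H92Desc` (helper90)

`h90c_desc : H92Desc` (frozen Prop of `S36/H92Chain.lean`), with exponent `t = 1`: wiring of the
landed descent `h79d_descent` (helper79).  If `σ u = h_σ ^ m u` for all `σ` in the inertia group
`I`, there are `c ≠ 0`, `g ≠ 0` with `u₀ = c u g ^ m` fixed by `I`; as `ℚ̄` is algebraically
closed, `c⁻¹ = d ^ m`, and `u = u₀ (d g⁻¹) ^ m`.
-/

set_option autoImplicit false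
set_option linter.style.haveILetI false

open AlgebraicCurve ModularCurve

noncomputable section

namespace Fermat.Agent.S36

open Fermat.Agent.S37 (Kbar GQ FF cst gal auxLevel)

/-- **(D) of the chain**, exponent `1`. -/
theorem h90c_desc : H92Desc := by
  intro q hq M _ hqM _
  haveI : NeZero q := ⟨hq.ne_zero⟩
  intro A _
  refine ⟨1, one_pos, ?_⟩
  intro m hm u hu _ hinv
  have hm0 : m ≠ 0 := by
    rintro rfl
    exact hm (dvd_zero q)
  -- the hypothesis of the landed descent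
  have hinv' : ∀ σ ∈ A.inertiaSubgroupIn ℚ, ∃ (c : Kbar) (h : FF (M * q * q)), c ≠ 0 ∧ h ≠ 0 ∧
      gal (M * q * q) σ • u = cst (M * q * q) c * u * h ^ m := by
    intro σ hσ
    obtain ⟨h, hh⟩ := hinv σ hσ
    have hh0 : h ≠ 0 := by
      rintro rfl
      rw [zero_pow hm0, zero_mul] at hh
      have h1 : u = 0 := by
        have h2 := congrArg (fun x => gal (M * q * q) σ⁻¹ • x) hh
        simpa using h2
      exact hu h1
    refine ⟨1, h, one_ne_zero, hh0, ?_⟩
    rw [hh, h79d_cst_one, one_mul]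
    exact mul_comm _ _
  obtain ⟨c, g, hc, hg, hfix⟩ :=
    h79d_descent (M * q * q) (A.inertiaSubgroupIn ℚ) m u hu hinv'
  -- an `m`-th root of `c⁻¹`
  obtain ⟨d, hd⟩ := IsAlgClosed.exists_pow_nat_eq (c⁻¹ : Kbar) (Nat.pos_of_ne_zero hm0)
  have hd0 : d ≠ 0 := by
    rintro rfl
    rw [zero_pow hm0] at hd
    exact inv_ne_zero hc hd.symm
  refine ⟨cst (M * q * q) c * u * g ^ m, cst (M * q * q) d * g⁻¹, hfix, ?_, ?_⟩
  · exact mul_ne_zero (h79d_cst_ne_zero hd0) (inv_ne_zero hg)
  · have hcc : cst (M * q * q) c ≠ 0 := h79d_cst_ne_zero hc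
    rw [pow_one, mul_pow, ← h79d_cst_pow, hd, h79d_cst_inv, inv_pow]
    field_simp

end Fermat.Agent.S36
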