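import Fermat.Agent.S36.H90CuspPU
import Fermat.Agent.S36.H58C11Fam
import Fermat.Agent.S36.H17CompGroup

/-!
# S36, R-CUSP-UNIT11 (helper90): the norm to the level one from the conjugate expansions

`h90u_norm_red`: let `S₂ ∈ FF (1 · q · q)` have expansions
* `E20 S₂` a Gauss unit with reduction a unit of `k[[t]]` (`h90u_PU`),
* `E11^(ζ^b) S₂ = (1 - ζ^b) · s_b`, `s_b` such a unit, `0 < b < q`,
* `E02 S₂` such a unit.
Then `Nm_{FF(q²)/FF(1)} S₂ = q · z` with `z` Gauss-integral of level `1` and the reduction of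
`z` has a nonzero constant coefficient.  (helper58's product formula `h58k_norm` +
`∏ (1 - ζ^b) = q`.)
-/

set_option autoImplicit false
set_option linter.unusedVariables false
set_option linter.style.haveILetI false
set_option synthInstance.maxHeartbeats 400000

open AlgebraicCurve ModularCurve

noncomputable section

namespace Fermat.Agent.S36

open Fermat.Agent.S37 (Kbar GQ FF cst gal)
open Fermat.Agent.Red.GV.Soft (softOT softRedT softV softR)
open Fermat.Agent.Red.Kron (twistK)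
open Fermat.Agent.Red.KR (normAlong)

theorem h90u_range_eq (q : ℕ) (hq : 0 < q) :
    Finset.range q = insert 0 (Finset.Ioo 0 q) := by
  ext x
  simp only [Finset.mem_range, Finset.mem_insert, Finset.mem_Ioo]
  omega

theorem h90u_C_mul_inv {K : Type*} [Field K] (x : LaurentSeries K) {c : K} (hc : c ≠ 0) :
    x = HahnSeries.C c * (x * HahnSeries.C c⁻¹) := by
  rw [mul_comm x, ← mul_assoc, ← map_mul, mul_inv_cancel₀ hc, map_one, one_mul]

theorem h90u_C_ne_zero {K : Type*} [Field K] {c : K} (hc : c ≠ 0) :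
    (HahnSeries.C c : LaurentSeries K) ≠ 0 := by
  intro h
  exact hc (HahnSeries.C_injective (by rw [h, map_zero]))

theorem h90u_C_inv_mul {K : Type*} [Field K] (x : LaurentSeries K) {c : K} (hc : c ≠ 0) :
    HahnSeries.C c⁻¹ * (HahnSeries.C c * x) = x := by
  rw [← mul_assoc, ← map_mul, inv_mul_cancel₀ hc, map_one, one_mul]

theorem h90u_cst_mul_inv {F : Type*} [Field F] [Algebra Kbar F] (x : F) {c : Kbar}
    (hc : c ≠ 0) : x = algebraMap Kbar F c * (algebraMap Kbar F c⁻¹ * x) := by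
  rw [← mul_assoc, ← map_mul, mul_inv_cancel₀ hc, map_one, one_mul]

/-- the series identity behind the norm: the product over the `q² + q` conjugates. -/
theorem h90u_prod_conj {K : Type} [Field K] (n q : ℕ) [NeZero n] (ζ : K)
    (hone : ∀ b : ℕ, 0 < b → b < q → (1 - ζ ^ b) ≠ 0) (hq : 0 < q)
    (hprod : ∏ b ∈ Finset.Ioo 0 q, (1 - ζ ^ b) = ((q : ℕ) : K))
    (f : ℕ → LaurentSeries K) (T : LaurentSeries K) :
    (∏ c ∈ Finset.range q, qExpand K n (f c)) * T =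
      HahnSeries.C ((q : ℕ) : K) *
        (qExpand K n (f 0) *
          (∏ c ∈ Finset.Ioo 0 q, qExpand K n (f c * HahnSeries.C (1 - ζ ^ c)⁻¹)) * T) := by
  have h1 : ∀ c ∈ Finset.Ioo 0 q, qExpand K n (f c) =
      HahnSeries.C (1 - ζ ^ c) * qExpand K n (f c * HahnSeries.C (1 - ζ ^ c)⁻¹) := by
    intro c hc
    obtain ⟨hc0, hcq⟩ := Finset.mem_Ioo.mp hc
    conv_lhs => rw [h90u_C_mul_inv (f c) (hone c hc0 hcq)]
    rw [map_mul, qExpand_C]
  rw [h90u_range_eq q hq, Finset.prod_insert (by simp), Finset.prod_congr rfl h1,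
    Finset.prod_mul_distrib, ← map_prod, hprod]
  ring

/-- descent of Gauss-integrality along `t ↦ t^(q²)` at the level `1`. -/
theorem h90u_descend {q : ℕ} [NeZero q] (hq : q.Prime)
    (A : ValuationSubring Kbar) (hA : A.LiesOverPrime q) (z : FF 1)
    (hZ : h90u_PU A (qExpand Kbar (q * q) ((z : FF 1) : LaurentSeries Kbar))) :
    ∃ hzV : z ∈ softV A 1, (softR A 1 ⟨z, hzV⟩).coeff 0 ≠ 0 := by
  haveI : NeZero (q * q) := ⟨mul_ne_zero hq.ne_zero hq.ne_zero⟩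
  have hcoe : ((heckeBetaBar Kbar (1 * q) q (heckeBetaBar Kbar 1 q z) : FF (1 * q * q)) :
      LaurentSeries Kbar) = qExpand Kbar (q * q) ((z : FF 1) : LaurentSeries Kbar) := by
    rw [coe_heckeBetaBar, coe_heckeBetaBar, qExpand_qExpand]
  have h2 : heckeBetaBar Kbar (1 * q) q (heckeBetaBar Kbar 1 q z) ∈ softV A (1 * q * q) := by
    rw [Fermat.Agent.Red.GV.Soft.mem_softV_iff]
    have := hZ.1
    rw [← hcoe] at this
    exact this
  have h1 : heckeBetaBar Kbar 1 q z ∈ softV A (1 * q) :=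
    (Fermat.Agent.Red.GV.Soft.beta_mem_softV_iff A hq hA q _).mp h2
  have h0 : z ∈ softV A 1 :=
    (Fermat.Agent.Red.GV.Soft.beta_mem_softV_iff A hq hA q _).mp h1
  refine ⟨h0, ?_⟩
  have e1 := Fermat.Agent.Red.GV.Soft.softR_beta A q ⟨_, h1⟩ h2
  have e0 := Fermat.Agent.Red.GV.Soft.softR_beta A q ⟨z, h0⟩ h1
  rw [e0, qExpand_qExpand] at e1
  have e2 : softR A (1 * q * q) ⟨_, h2⟩ =
      h20g_res A (qExpand Kbar (q * q) ((z : FF 1) : LaurentSeries Kbar)) := by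
    rw [h20g_res_of_mem hZ.1]
    show softRedT A _ (Fermat.Agent.Red.GV.Soft.softIncl A (1 * q * q) ⟨_, h2⟩) = _
    congr 1
    exact Subtype.ext hcoe
  have h3 := h90u_PU_coeff hZ
  rw [← e2, e1] at h3
  have h4 := qExpand_coeff_mul (R := IsLocalRing.ResidueField A) (q * q)
    (softR A 1 ⟨z, h0⟩) 0
  rw [mul_zero] at h4
  rwa [h4] at h3

/-- **the norm to the level one from the conjugate expansions.** -/
theorem h90u_norm_red {q : ℕ} [NeZero q] (hq : q.Prime) (hq1 : ¬ q ∣ 1)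
    (A : ValuationSubring Kbar) (hA : A.LiesOverPrime q)
    (ζ : Kbar) (hζ : IsPrimitiveRoot ζ q)
    (E : ℕ → (FF (1 * q * q) →+* LaurentSeries Kbar))
    (hE : ∀ b : ℕ, 0 < b → b < q → h20n_IsE11 1 q hq hq1 (ζ ^ b) (E b))
    (E0 : FF (1 * q * q) →+* LaurentSeries Kbar) (hE0 : h20n_IsE02 1 q hq hq1 E0)
    (S₂ : FF (1 * q * q))
    (h20 : h90u_PU A ((S₂ : FF (1 * q * q)) : LaurentSeries Kbar))
    (h11 : ∀ b : ℕ, 0 < b → b < q →
      ∃ s : LaurentSeries Kbar, E b S₂ = HahnSeries.C (1 - ζ ^ b) * s ∧ h90u_PU A s)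
    (h02 : h90u_PU A (E0 S₂)) :
    ∃ z : FF 1, normAlong (h58k_inc 1 q) S₂ = cst 1 ((q : ℕ) : Kbar) * z ∧
      ∃ hzV : z ∈ softV A 1, (softR A 1 ⟨z, hzV⟩).coeff 0 ≠ 0 := by
  haveI : NeZero (q * q) := ⟨mul_ne_zero hq.ne_zero hq.ne_zero⟩
  haveI : NeZero (((q * q : ℕ)) : Kbar) := ⟨by exact_mod_cast NeZero.ne (q * q)⟩
  obtain ⟨ξ, hξ⟩ := HasEnoughRootsOfUnity.exists_primitiveRoot Kbar (q * q)
  have hξ0 : ξ ≠ 0 := hξ.ne_zero (NeZero.ne (q * q))
  have hq0 : ((q : ℕ) : Kbar) ≠ 0 := Nat.cast_ne_zero.mpr hq.ne_zero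
  have hone : ∀ b : ℕ, 0 < b → b < q → (1 - ζ ^ b) ≠ 0 := by
    intro b hb hbq h0
    have h1 : ζ ^ b = 1 := (sub_eq_zero.mp h0).symm
    have := hζ.dvd_of_pow_eq_one b h1
    exact absurd (Nat.le_of_dvd hb this) (not_le.mpr hbq)
  obtain ⟨f, hf⟩ : ∃ f : ℕ → LaurentSeries Kbar, f = fun c => h40naFam 1 q E c S₂ := ⟨_, rfl⟩
  obtain ⟨T, hT⟩ : ∃ T : LaurentSeries Kbar,
      T = ∏ b ∈ Finset.range (q * q), twistK (ξ ^ b) (E0 S₂) := ⟨_, rfl⟩
  have hN : qExpand Kbar (q * q)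
      ((normAlong (h58k_inc 1 q) S₂ : FF 1) : LaurentSeries Kbar) =
      (∏ c ∈ Finset.range q, qExpand Kbar (q * q) (f c)) * T := by
    rw [h58k_norm 1 q hq hq1 ζ hζ E hE E0 hE0 ξ hξ S₂, h58k_prod_split, hf, hT]
  rw [h90u_prod_conj (q * q) q ζ hone hq.pos (h17c_prod_one_sub hq hζ) f T] at hN
  have hf0 : f 0 = ((S₂ : FF (1 * q * q)) : LaurentSeries Kbar) := by
    rw [hf]
    show h40naFam 1 q E 0 S₂ = _
    rw [h40naFam_zero]
    rfl
  have hfc : ∀ c : ℕ, 0 < c → c < q → h90u_PU A (f c * HahnSeries.C (1 - ζ ^ c)⁻¹) := by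
    intro c hc hcq
    obtain ⟨s', hs', hPU⟩ := h11 c hc hcq
    have e1 : f c = E c S₂ := by
      rw [hf]
      show h40naFam 1 q E c S₂ = _
      rw [h40naFam_pos 1 q E hc]
    have e : f c * HahnSeries.C (1 - ζ ^ c)⁻¹ = s' := by
      have h1 := h90u_C_mul_inv (f c) (hone c hc hcq)
      rw [e1] at h1 ⊢
      exact mul_left_cancel₀ (h90u_C_ne_zero (hone c hc hcq)) (h1.symm.trans hs')
    rw [e]
    exact hPU
  have hZPU : h90u_PU A (qExpand Kbar (q * q) (f 0) *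
      (∏ c ∈ Finset.Ioo 0 q, qExpand Kbar (q * q) (f c * HahnSeries.C (1 - ζ ^ c)⁻¹)) * T) := by
    refine h90u_PU_mul (h90u_PU_mul (h90u_PU_qExpand (q * q) (by rw [hf0]; exact h20)) ?_) ?_
    · exact h90u_PU_prod _ _ (fun c hc =>
        h90u_PU_qExpand (q * q) (hfc c (Finset.mem_Ioo.mp hc).1 (Finset.mem_Ioo.mp hc).2))
    · rw [hT]
      refine h90u_PU_prod _ _ (fun b _ => ?_)
      refine h90u_PU_twist (n := q * q) (NeZero.ne (q * q)) ?_ h02
      rw [← pow_mul, mul_comm, pow_mul, hξ.pow_eq_one, one_pow]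
  obtain ⟨Z, hZ⟩ : ∃ Z : LaurentSeries Kbar, Z = qExpand Kbar (q * q) (f 0) *
      (∏ c ∈ Finset.Ioo 0 q, qExpand Kbar (q * q) (f c * HahnSeries.C (1 - ζ ^ c)⁻¹)) * T :=
    ⟨_, rfl⟩
  rw [← hZ] at hN hZPU
  refine ⟨cst 1 ((q : ℕ) : Kbar)⁻¹ * normAlong (h58k_inc 1 q) S₂, ?_, ?_⟩
  · exact h90u_cst_mul_inv _ hq0
  · apply h90u_descend hq A hA
    have e : qExpand Kbar (q * q)
        ((cst 1 ((q : ℕ) : Kbar)⁻¹ * normAlong (h58k_inc 1 q) S₂ : FF 1) : LaurentSeries Kbar)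
        = Z := by
      have h1 : ((cst 1 ((q : ℕ) : Kbar)⁻¹ * normAlong (h58k_inc 1 q) S₂ : FF 1) :
          LaurentSeries Kbar) = HahnSeries.C ((q : ℕ) : Kbar)⁻¹ *
            ((normAlong (h58k_inc 1 q) S₂ : FF 1) : LaurentSeries Kbar) := by
        show ((cst 1 ((q : ℕ) : Kbar)⁻¹ : FF 1) : LaurentSeries Kbar) * _ = _
        rw [Fermat.Agent.Red.GV.coe_cst]
      rw [h1, map_mul, qExpand_C, hN]
      exact h90u_C_inv_mul Z hq0
    rw [e]
    exact hZPU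

end Fermat.Agent.S36
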