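import Fermat.Agent.S36.H20Gauss
import Fermat.Agent.S35.H58Norm

/-!
# S36, R-CUSP-UNIT11 (helper90): Gauss units whose reduction is a unit of `k[[t]]`

`h90u_PU A s` : `s` lies in the Gauss ring, its reduction is nonzero of order `0` (a unit of
`k[[t]]`).  Stable under products, `t ↦ t^n`, twists by roots of unity; contains the unit
constants.
-/

set_option autoImplicit false
set_option linter.unusedVariables false
set_option linter.style.haveILetI false

open AlgebraicCurve ModularCurve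

noncomputable section

namespace Fermat.Agent.S36

open Fermat.Agent.S37 (Kbar GQ FF cst gal)
open Fermat.Agent.Red.GV.Soft (softOT softRedT)
open Fermat.Agent.Red.Kron (twistK)

theorem h90u_coeff_order_ne_zero {R : Type*} [Zero R] {x : LaurentSeries R} (hx : x ≠ 0) :
    x.coeff x.order ≠ 0 := fun h => hx (HahnSeries.coeff_order_eq_zero.mp h)

/-- the order of `s(t^n)`. -/
theorem h90u_order_qExpand {k : Type*} [Field k] (n : ℕ) [NeZero n] (s : LaurentSeries k) :
    (qExpand k n s).order = (n : ℤ) * s.order := by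
  by_cases hs : s = 0
  · subst hs
    rw [map_zero, HahnSeries.order_zero, mul_zero]
  · have he : (0 : ℤ) < n := by exact_mod_cast Nat.pos_of_ne_zero (NeZero.ne n)
    have hne : qExpand k n s ≠ 0 := fun h => hs ((qExpand k n).injective (by rw [h, map_zero]))
    refine le_antisymm (HahnSeries.order_le_of_coeff_ne_zero ?_) ?_
    · rw [qExpand_coeff_mul]
      exact h90u_coeff_order_ne_zero hs
    · by_contra hlt
      rw [not_le] at hlt
      have h0 : (qExpand k n s).coeff (qExpand k n s).order = 0 := by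
        by_cases hdvd : (n : ℤ) ∣ (qExpand k n s).order
        · obtain ⟨m, hm⟩ := hdvd
          rw [hm, qExpand_coeff_mul]
          apply HahnSeries.coeff_eq_zero_of_lt_order
          rw [hm] at hlt
          exact lt_of_mul_lt_mul_left hlt he.le
        · exact qExpand_coeff_of_not_dvd n s hdvd
      exact h90u_coeff_order_ne_zero hne h0

variable {A : ValuationSubring Kbar}

/-- `s` is a Gauss unit whose reduction is a unit of `k[[t]]`. -/
def h90u_PU (A : ValuationSubring Kbar) (s : LaurentSeries Kbar) : Prop :=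
  s ∈ h20v_G A ∧ h20g_res A s ≠ 0 ∧ (h20g_res A s).order = 0

theorem h90u_PU_unit {s : LaurentSeries Kbar} (h : h90u_PU A s) : h20v_Unit A s :=
  (h20g_unit_iff s).mpr ⟨h.1, h.2.1⟩

theorem h90u_PU_coeff {s : LaurentSeries Kbar} (h : h90u_PU A s) :
    (h20g_res A s).coeff 0 ≠ 0 := by
  have := h90u_coeff_order_ne_zero h.2.1
  rwa [h.2.2] at this

theorem h90u_PU_one : h90u_PU A (1 : LaurentSeries Kbar) := by
  refine ⟨one_mem _, ?_, ?_⟩
  · rw [h20g_res_one]; exact one_ne_zero
  · rw [h20g_res_one]; exact HahnSeries.order_one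

theorem h90u_PU_mul {s t : LaurentSeries Kbar} (hs : h90u_PU A s) (ht : h90u_PU A t) :
    h90u_PU A (s * t) := by
  refine ⟨Subring.mul_mem _ hs.1 ht.1, ?_, ?_⟩
  · rw [h20g_res_mul hs.1 ht.1]
    exact mul_ne_zero hs.2.1 ht.2.1
  · rw [h20g_res_mul hs.1 ht.1, HahnSeries.order_mul hs.2.1 ht.2.1, hs.2.2, ht.2.2, add_zero]

theorem h90u_PU_prod {ι : Type*} (S : Finset ι) (f : ι → LaurentSeries Kbar)
    (h : ∀ i ∈ S, h90u_PU A (f i)) : h90u_PU A (∏ i ∈ S, f i) := by
  classical
  induction S using Finset.induction_on with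
  | empty => rw [Finset.prod_empty]; exact h90u_PU_one
  | insert a S ha ih =>
    rw [Finset.prod_insert ha]
    exact h90u_PU_mul (h a (Finset.mem_insert_self a S))
      (ih (fun i hi => h i (Finset.mem_insert_of_mem hi)))

theorem h90u_PU_pow {s : LaurentSeries Kbar} (hs : h90u_PU A s) (n : ℕ) :
    h90u_PU A (s ^ n) := by
  induction n with
  | zero => rw [pow_zero]; exact h90u_PU_one
  | succ n ih => rw [pow_succ]; exact h90u_PU_mul ih hs

theorem h90u_PU_C {c : Kbar} (hc0 : c ≠ 0) (hc : c ∈ A) (hci : c⁻¹ ∈ A) :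
    h90u_PU A (HahnSeries.C c : LaurentSeries Kbar) := by
  have hu := h20g_unit_C (A := A) hc0 hc hci
  obtain ⟨hm, hr⟩ := (h20g_unit_iff _).mp hu
  refine ⟨hm, hr, ?_⟩
  rw [h20g_res_C hc] at hr ⊢
  have : IsLocalRing.residue A ⟨c, hc⟩ ≠ 0 := by
    intro h0
    apply hr
    rw [h0, map_zero]
  exact HahnSeries.order_C

theorem h90u_PU_qExpand (n : ℕ) [NeZero n] {s : LaurentSeries Kbar} (hs : h90u_PU A s) :
    h90u_PU A (qExpand Kbar n s) := by
  have hm : qExpand Kbar n s ∈ h20v_G A :=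
    Fermat.Agent.Red.GV.Soft.mem_softOT_qExpand A _ n hs.1
  have hr : h20g_res A (qExpand Kbar n s) =
      qExpand (IsLocalRing.ResidueField A) n (h20g_res A s) := by
    rw [h20g_res_of_mem hm, h20g_res_of_mem hs.1]
    exact Fermat.Agent.Red.GV.Soft.softRedT_qExpand A (IsLocalRing.residue A) n ⟨s, hs.1⟩ hm
  refine ⟨hm, ?_, ?_⟩
  · rw [hr]
    intro h0
    exact hs.2.1 ((qExpand _ n).injective (by rw [h0, map_zero]))
  · rw [hr, h90u_order_qExpand, hs.2.2, mul_zero]

theorem h90u_PU_twist {n : ℕ} (hn : n ≠ 0) {ω : Kbar} (hω : ω ^ n = 1)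
    {s : LaurentSeries Kbar} (hs : h90u_PU A s) : h90u_PU A (twistK ω s) := by
  obtain ⟨u, hu⟩ := Fermat.Agent.LGC.h44g_exists_unit_of_pow_eq_one A hn hω
  have hm : twistK (((u : A) : Kbar)) s ∈ h20v_G A :=
    Fermat.Agent.LGC.h44r_twistK_mem_softOT u hs.1
  have hr := Fermat.Agent.S35.h58n_softRedT_twistK (π := IsLocalRing.residue A) u ⟨s, hs.1⟩ hm
  have hπu : IsLocalRing.residue A (u : A) ≠ 0 :=
    (u.map (IsLocalRing.residue A).toMonoidHom).ne_zero
  rw [← hu]
  refine ⟨hm, ?_, ?_⟩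
  · rw [h20g_res_of_mem hm, hr]
    intro h0
    apply hs.2.1
    rw [h20g_res_of_mem hs.1]
    exact Fermat.Agent.Red.Kron.twistK_injective hπu
      (by rw [h0, Fermat.Agent.Red.Kron.twistK_zero])
  · rw [h20g_res_of_mem hm, hr, Fermat.Agent.Red.Kron.order_twistK hπu, ← h20g_res_of_mem hs.1]
    exact hs.2.2

end Fermat.Agent.S36
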