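import Fermat.Agent.S36.H90CuspNorm
import Fermat.Agent.S36.H90CuspCert
import Fermat.Agent.S36.H23K1
import Fermat.Agent.S36.H20Emb

/-!
# S36, R-CUSP-UNIT11 (helper90): `H18cUnit11` from the expansions of one function of level `q²`

`H90U11Data` (frozen): a function `S₂ ∈ FF (1 · q · q)` in the chart at infinity over the
inertia ring, whose expansions are
* at `E20` and at `E02` (level `1`): Gauss units with a reduction which is a unit of `k[[t]]`;
* at every `E11^ζ` (every level `M`, `ζ` primitive): `(1 - ζ)` times such a unit.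

`h90u_unit11_of : H90U11Data → H18cUnit11` (exact frozen leaf of `S36/H18CuspIface.lean`):
the norm to the level `1` is `q · z` (`h90u_norm_red`), `z` is a unit at all cusps of all
levels and `S ∣ q z` in the chart (`h90u_certificate`).
-/

set_option autoImplicit false
set_option linter.unusedVariables false
set_option linter.style.haveILetI false
set_option synthInstance.maxHeartbeats 400000

open AlgebraicCurve ModularCurve

noncomputable section

namespace Fermat.Agent.S36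

open Fermat.Agent.S37 (Kbar GQ FF cst gal jB auxLevel modelAt degen coe_degen)
open Fermat.Agent.Red.GV.Soft (softOT softRedT softV softR)
open Fermat.Agent.Red.Kron (twistK)
open Fermat.Agent.Red.KR (normAlong)

theorem h90u_dvd (M q : ℕ) : 1 * q * q ∣ M * q * q :=
  Nat.mul_dvd_mul (Nat.mul_dvd_mul (one_dvd M) dvd_rfl) dvd_rfl

/-- **UNIT11, the remaining data**: one function of level `q²` with the right expansions. -/
def H90U11Data : Prop :=
  ∀ (q : ℕ) (hq : q.Prime) (hq1 : ¬ q ∣ 1),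
    haveI : NeZero q := ⟨hq.ne_zero⟩
    ∀ A : ValuationSubring Kbar, A.LiesOverPrime q →
    ∃ S₂ : FF (1 * q * q),
      S₂ ∈ h62rChart A (1 * q * q) (jB (1 * q * q))⁻¹ ∧
      h90u_PU A ((S₂ : FF (1 * q * q)) : LaurentSeries Kbar) ∧
      (∀ (M : ℕ) [NeZero M] (hqM : ¬ q ∣ M) (ζ : Kbar), IsPrimitiveRoot ζ q →
        ∀ E : FF (M * q * q) →+* LaurentSeries Kbar, h20n_IsE11 M q hq hqM ζ E →
        ∃ s : LaurentSeries Kbar,
          E (degen (h90u_dvd M q) S₂) = HahnSeries.C (1 - ζ) * s ∧ h90u_PU A s) ∧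
      (∀ E0 : FF (1 * q * q) →+* LaurentSeries Kbar, h20n_IsE02 1 q hq hq1 E0 →
        h90u_PU A (E0 S₂))

theorem h90u_degen_self {N : ℕ} [NeZero N] (h : N ∣ N) (x : FF N) : degen h x = x :=
  Subtype.ext (coe_degen h x)

/-- the Gauss unit `((1 - ζ) s)^(q-1) / q`. -/
theorem h90u_unit_pow {q : ℕ} (hq : q.Prime) (A : ValuationSubring Kbar)
    (hA : A.LiesOverPrime q) {ζ : Kbar} (hζ : IsPrimitiveRoot ζ q) {s : LaurentSeries Kbar}
    (hs : h90u_PU A s) :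
    h20v_Unit A ((HahnSeries.C (1 - ζ) * s) ^ (q - 1) *
      (HahnSeries.C ((q : ℕ) : Kbar))⁻¹) := by
  obtain ⟨h1, h2⟩ := h23t_H74Zeta q hq A hA ζ hζ
  have hq0 : ((q : ℕ) : Kbar) ≠ 0 := Nat.cast_ne_zero.mpr hq.ne_zero
  have hz0 : (1 - ζ : Kbar) ≠ 0 := sub_ne_zero.mpr (hζ.ne_one hq.one_lt).symm
  have hp0 : (1 - ζ : Kbar) ^ (q - 1) ≠ 0 := pow_ne_zero _ hz0
  set c : Kbar := (((q : ℕ) : Kbar) * ((1 - ζ) ^ (q - 1))⁻¹)⁻¹ with hc
  have hc0 : c ≠ 0 := inv_ne_zero (mul_ne_zero hq0 (inv_ne_zero hp0))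
  have hcu : h20v_Unit A (HahnSeries.C c : LaurentSeries Kbar) :=
    h20g_unit_C hc0 h2 (by rw [hc, inv_inv]; exact h1)
  have e : (HahnSeries.C (1 - ζ) * s) ^ (q - 1) * (HahnSeries.C ((q : ℕ) : Kbar))⁻¹ =
      HahnSeries.C c * s ^ (q - 1) := by
    have hc' : c = (1 - ζ) ^ (q - 1) * (((q : ℕ) : Kbar))⁻¹ := by
      rw [hc, mul_inv, inv_inv, mul_comm]
    rw [hc', map_mul, map_pow, map_inv₀, mul_pow]
    ring
  rw [e]
  exact h17c_unit_mul A hcu (h90u_PU_unit (h90u_PU_pow hs (q - 1)))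

/-- **UNIT11 from the data.** -/
theorem h90u_unit11_of (hD : H90U11Data) : H18cUnit11 := by
  intro q hq M _ hqM haux
  haveI : NeZero q := ⟨hq.ne_zero⟩
  intro A hA ζ E11 E02 hT
  have hq1 : ¬ q ∣ 1 := fun h => hq.one_lt.ne' (Nat.dvd_one.mp h)
  obtain ⟨S₂, hS₂, h20, h11, h02⟩ := hD q hq hq1 A hA
  have hζ : IsPrimitiveRoot ζ q := hT.prim
  -- the embeddings of the level `1`
  obtain ⟨hex11, E0, hE0⟩ := h20n_embExists q hq 1 hq1
  have hprim : ∀ b : ℕ, 0 < b → b < q → IsPrimitiveRoot (ζ ^ b) q := fun b hb hbq =>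
    hζ.pow_of_coprime b (Nat.coprime_comm.mp
      ((Nat.Prime.coprime_iff_not_dvd hq).mpr (Nat.not_dvd_of_pos_of_lt hb hbq)))
  have hexE : ∀ b : ℕ, ∃ E : FF (1 * q * q) →+* LaurentSeries Kbar,
      (0 < b → b < q → h20n_IsE11 1 q hq hq1 (ζ ^ b) E) := by
    intro b
    by_cases h : 0 < b ∧ b < q
    · obtain ⟨E, hE⟩ := hex11 (ζ ^ b) (hprim b h.1 h.2).pow_eq_one
        ((hprim b h.1 h.2).ne_one hq.one_lt)
      exact ⟨E, fun _ _ => hE⟩
    · exact ⟨algebraMap _ _, fun h1 h2 => absurd ⟨h1, h2⟩ h⟩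
  choose E hE using hexE
  have h11' : ∀ b : ℕ, 0 < b → b < q →
      ∃ s : LaurentSeries Kbar, E b S₂ = HahnSeries.C (1 - ζ ^ b) * s ∧ h90u_PU A s := by
    intro b hb hbq
    obtain ⟨s, hs, hPU⟩ := h11 1 hq1 (ζ ^ b) (hprim b hb hbq) (E b) (hE b hb hbq)
    rw [h90u_degen_self] at hs
    exact ⟨s, hs, hPU⟩
  obtain ⟨z, hνz, hzV, hz0⟩ :=
    h90u_norm_red hq hq1 A hA ζ hζ E hE E0 hE0 S₂ h20 h11' (h02 E0 hE0)
  obtain ⟨S, S', p, hS, hSS', hp⟩ := h90u_certificate hq A hA M (h58k_inc 1 q)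
    (h58k_coe_inc 1 q) S₂ hS₂ z hνz hzV hz0
  refine ⟨S, S', p, hSS', ?_, hp⟩
  obtain ⟨s, hs, hPU⟩ := h11 M hqM ζ hζ E11 hT.e11
  have e : E11 ((S : FF (M * q * q)) ^ (q - 1) * ((q : ℕ) : FF (M * q * q))⁻¹) =
      (HahnSeries.C (1 - ζ) * s) ^ (q - 1) * (HahnSeries.C ((q : ℕ) : Kbar))⁻¹ := by
    rw [map_mul, map_pow, map_inv₀, hS, hs, map_natCast, ← map_natCast
      (HahnSeries.C : Kbar →+* LaurentSeries Kbar) q]
  rw [e]
  exact h90u_unit_pow hq A hA hζ hPU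

end Fermat.Agent.S36
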