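import Mathlib

/-!
# S36, step (D) descent, abstract form (helper91): Hilbert 90 for a group acting with finite orbits

Mathlib only.  `G` a group acting on a field `F` by field automorphisms (in the application
`G` = an inertia group acting on the function field `FF N` through the coefficients of the
`q`-expansions).

* `h91d_hilbert90` : **Hilbert 90 (Noether's form).**  A `1`-cocycle `f : G → Fˣ` which is
  trivial on a normal subgroup `U` of finite index, such that `G ⧸ U` acts faithfully on the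
  `U`-invariants, is a coboundary: `σ • h = (f σ)⁻¹ * h` for some `h ≠ 0`.
* `h91d_descent` : **descent of Kummer functions.**  `N` a `G`-stable multiplicative group of
  "normalised" functions without `m`-torsion (leading coefficient `1`), `u ≠ 0` with finite
  `G`-orbit such that `σ • u = g ^ m * u` with `g ∈ N` for every `σ` (the class of `u` modulo
  `m`-th powers is `G`-invariant).  Then `u * h ^ m` is `G`-invariant for some `h ≠ 0`.
* `h91d_descent_const` : the same when the class is invariant only up to constants: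
  `σ • u = c * g ^ m * u`; the leading-coefficient map `lc` splits off the constants.
-/

set_option autoImplicit false
set_option linter.style.haveILetI false
set_option linter.unusedVariables false

namespace Fermat.Agent.S36

section H90

variable {G F : Type*} [Group G] [Field F] [MulSemiringAction G F]

/-- the elements of `F` fixed by the subgroup `U`, as a multiplicative submonoid. -/
def h91d_fix (U : Subgroup G) : Submonoid F where
  carrier := {a | ∀ υ ∈ U, υ • a = a}
  mul_mem' := fun {a b} ha hb υ hυ => by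
    show υ • (a * b) = a * b
    rw [smul_mul', ha υ hυ, hb υ hυ]
  one_mem' := fun υ _ => smul_one υ

theorem h91d_mem_fix {U : Subgroup G} {a : F} :
    a ∈ h91d_fix (F := F) U ↔ ∀ υ ∈ U, υ • a = a := Iff.rfl

/-- the character `a ↦ τ • a` of the monoid of `U`-invariants. -/
def h91d_chi (U : Subgroup G) (τ : G) : h91d_fix (F := F) U →* F where
  toFun a := τ • (a : F)
  map_one' := smul_one τ
  map_mul' a b := smul_mul' τ (a : F) (b : F)

@[simp]
theorem h91d_chi_apply (U : Subgroup G) (τ : G) (a : h91d_fix (F := F) U) :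
    h91d_chi U τ a = τ • (a : F) := rfl

theorem h91d_chi_mul_right (U : Subgroup G) (τ υ : G) (hυ : υ ∈ U) :
    h91d_chi (F := F) U (τ * υ) = h91d_chi U τ := by
  ext a
  show (τ * υ) • (a : F) = τ • (a : F)
  rw [mul_smul, a.2 υ hυ]

/-- **Hilbert 90**, Noether's form, for a group acting through a finite quotient. -/
theorem h91d_hilbert90 (f : G → F) (hf0 : ∀ σ, f σ ≠ 0)
    (hcoc : ∀ σ τ, f (σ * τ) = f σ * σ • f τ)
    (U : Subgroup G) [hUn : U.Normal] [hUf : U.FiniteIndex]
    (hU : ∀ υ ∈ U, f υ = 1)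
    (hfaith : ∀ σ : G, σ ∉ U → ∃ a : F, (∀ υ ∈ U, υ • a = a) ∧ σ • a ≠ a) :
    ∃ h : F, h ≠ 0 ∧ ∀ σ, σ • h = (f σ)⁻¹ * h := by
  classical
  haveI : Finite (G ⧸ U) := Subgroup.finite_quotient_of_finiteIndex
  haveI : Fintype (G ⧸ U) := Fintype.ofFinite _
  -- `f` and `χ` are functions of the cosets
  have hfU : ∀ τ υ : G, υ ∈ U → f (τ * υ) = f τ := fun τ υ hυ => by
    rw [hcoc, hU υ hυ, smul_one, mul_one]
  have hrel : ∀ a b : G, QuotientGroup.leftRel U a b → ∃ υ ∈ U, b = a * υ := fun a b hab =>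
    ⟨a⁻¹ * b, QuotientGroup.leftRel_apply.mp hab, by group⟩
  let fbar : G ⧸ U → F := fun c => Quotient.liftOn' c f (fun a b hab => by
    obtain ⟨υ, hυ, rfl⟩ := hrel a b hab
    exact (hfU a υ hυ).symm)
  let chibar : G ⧸ U → (h91d_fix (F := F) U →* F) := fun c =>
    Quotient.liftOn' c (h91d_chi U) (fun a b hab => by
      obtain ⟨υ, hυ, rfl⟩ := hrel a b hab
      exact (h91d_chi_mul_right U a υ hυ).symm)
  have hfbar : ∀ τ : G, fbar (τ : G ⧸ U) = f τ := fun τ => rfl
  have hchibar : ∀ τ : G, chibar (τ : G ⧸ U) = h91d_chi U τ := fun τ => rfl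
  -- the characters of distinct cosets are distinct
  have hinj : Function.Injective chibar := by
    intro c c'
    induction c using Quotient.inductionOn' with
    | h τ =>
      induction c' using Quotient.inductionOn' with
      | h τ' =>
        intro h
        have h1 : h91d_chi (F := F) U τ = h91d_chi U τ' := h
        apply Quotient.sound'
        rw [QuotientGroup.leftRel_apply]
        by_contra hn
        obtain ⟨a, haU, ha⟩ := hfaith (τ⁻¹ * τ') hn
        apply ha
        have h2 : τ • a = τ' • a := DFunLike.congr_fun h1 ⟨a, haU⟩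
        rw [mul_smul, ← h2, inv_smul_smul]
  -- Dedekind: some Poincaré series is nonzero
  have hli : LinearIndependent F (fun c : G ⧸ U => (chibar c : h91d_fix (F := F) U → F)) :=
    (linearIndependent_monoidHom (h91d_fix (F := F) U) F).comp chibar hinj
  have hex : ∃ a : h91d_fix (F := F) U, ∑ c : G ⧸ U, fbar c * chibar c a ≠ 0 := by
    by_contra hcon
    push Not at hcon
    have h0 : ∑ c : G ⧸ U, fbar c • (chibar c : h91d_fix (F := F) U → F) = 0 := by
      funext a
      rw [Finset.sum_apply]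
      simpa using hcon a
    have h1 := Fintype.linearIndependent_iff.mp hli fbar h0 ((1 : G) : G ⧸ U)
    exact hf0 1 h1
  obtain ⟨a, ha⟩ := hex
  refine ⟨∑ c : G ⧸ U, fbar c * chibar c a, ha, fun σ => ?_⟩
  rw [Finset.smul_sum, Finset.mul_sum]
  -- termwise: `σ • (f τ * τ a) = (f σ)⁻¹ * (f (σ τ) * (σ τ) a)`
  have hterm : ∀ c : G ⧸ U, σ • (fbar c * chibar c a) =
      (f σ)⁻¹ * (fbar (σ • c) * chibar (σ • c) a) := by
    intro c
    induction c using Quotient.inductionOn' with
    | h τ =>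
      show σ • (f τ * τ • (a : F)) = (f σ)⁻¹ * (f (σ * τ) * (σ * τ) • (a : F))
      rw [smul_mul', hcoc σ τ, mul_smul]
      have := hf0 σ
      field_simp
  rw [Finset.sum_congr rfl fun c _ => hterm c]
  exact Equiv.sum_comp (MulAction.toPerm σ : Equiv.Perm (G ⧸ U))
    (fun c => (f σ)⁻¹ * (fbar c * chibar c a))

end H90

section Descent

variable {G F : Type*} [Group G] [Field F] [MulSemiringAction G F]

/-- **Descent of Kummer functions** (normalised form). -/
theorem h91d_descent (N : Set F) (hN0 : ∀ x ∈ N, x ≠ 0)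
    (hNmul : ∀ x ∈ N, ∀ y ∈ N, x * y ∈ N) (hNinv : ∀ x ∈ N, x⁻¹ ∈ N)
    (hNG : ∀ σ : G, ∀ x ∈ N, σ • x ∈ N)
    (m : ℕ) (hNm : ∀ ζ ∈ N, ζ ^ m = 1 → ζ = 1)
    (u : F) (hu : u ≠ 0) (horb : (Set.range fun σ : G => σ • u).Finite)
    (hinv : ∀ σ : G, ∃ g ∈ N, σ • u = g ^ m * u) :
    ∃ h : F, h ≠ 0 ∧ ∀ σ : G, σ • (u * h ^ m) = u * h ^ m := by
  classical
  choose f hfN hf using hinv
  have hf0 : ∀ σ, f σ ≠ 0 := fun σ => hN0 _ (hfN σ)
  -- uniqueness in `N` of `m`-th roots
  have huniq : ∀ x ∈ N, ∀ y ∈ N, x ^ m = y ^ m → x = y := by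
    intro x hx y hy hxy
    have hy0 := hN0 y hy
    have h1 : (x * y⁻¹) ^ m = 1 := by
      rw [mul_pow, inv_pow, hxy, mul_inv_cancel₀ (pow_ne_zero _ hy0)]
    have h2 := hNm _ (hNmul x hx _ (hNinv y hy)) h1
    field_simp at h2
    exact h2
  -- the cocycle relation
  have hcoc : ∀ σ τ, f (σ * τ) = f σ * σ • f τ := by
    intro σ τ
    apply huniq _ (hfN _) _ (hNmul _ (hfN σ) _ (hNG σ _ (hfN τ)))
    have h1 : (σ * τ) • u = f (σ * τ) ^ m * u := hf (σ * τ)
    have h2 : (σ * τ) • u = (f σ * σ • f τ) ^ m * u := by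
      rw [mul_smul, hf τ, smul_mul', smul_pow', hf σ]
      ring
    exact mul_right_cancel₀ hu (h1.symm.trans h2)
  -- the kernel of the action on the orbit
  haveI : Finite (MulAction.orbit G u) := horb.to_subtype
  let φ : G →* Equiv.Perm (MulAction.orbit G u) := MulAction.toPermHom G (MulAction.orbit G u)
  have hker : ∀ σ : G, σ ∈ φ.ker ↔ ∀ τ : G, σ • τ • u = τ • u := by
    intro σ
    rw [MonoidHom.mem_ker]
    constructor
    · intro h τ
      have h1 := DFunLike.congr_fun h (⟨τ • u, MulAction.mem_orbit u τ⟩ : MulAction.orbit G u)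
      exact congrArg Subtype.val h1
    · intro h
      ext ⟨x, τ, rfl⟩
      exact h τ
  have hU : ∀ υ ∈ φ.ker, f υ = 1 := by
    intro υ hυ
    have h1 : υ • u = u := by
      have := (hker υ).mp hυ 1
      rwa [one_smul] at this
    have h2 : f υ ^ m * u = u := (hf υ).symm.trans h1
    have h3 : f υ ^ m = 1 := by
      have h4 : f υ ^ m * u = 1 * u := by rw [h2, one_mul]
      exact mul_right_cancel₀ hu h4
    exact hNm _ (hfN υ) h3
  have hfaith : ∀ σ : G, σ ∉ φ.ker → ∃ a : F, (∀ υ ∈ φ.ker, υ • a = a) ∧ σ • a ≠ a := by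
    intro σ hσ
    rw [hker] at hσ
    push Not at hσ
    obtain ⟨τ, hτ⟩ := hσ
    exact ⟨τ • u, fun υ hυ => (hker υ).mp hυ τ, hτ⟩
  obtain ⟨h, hh0, hh⟩ := h91d_hilbert90 f hf0 hcoc φ.ker hU hfaith
  refine ⟨h, hh0, fun σ => ?_⟩
  rw [smul_mul', smul_pow', hf σ, hh σ, mul_pow, inv_pow]
  have := pow_ne_zero m (hf0 σ)
  field_simp

/-- **Descent of Kummer functions**, with constants.  `lc : F → F` is a multiplicative,
`G`-equivariant "leading coefficient" with values in the constants `C` and `lc c = c` on `C`;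
the `m`-th roots of unity of `F` are constants.  If the class of `u` modulo constants and
`m`-th powers is `G`-invariant, then `(lc u)⁻¹ * u * h ^ m` is `G`-invariant for some
`h ≠ 0`. -/
theorem h91d_descent_const (C : Set F) (lc : F →*₀ F)
    (hlcC : ∀ x : F, x ≠ 0 → lc x ∈ C) (hlc_id : ∀ c ∈ C, lc c = c)
    (hlcG : ∀ (σ : G) (x : F), lc (σ • x) = σ • lc x)
    (m : ℕ) (hroot : ∀ ζ : F, ζ ^ m = 1 → ζ ∈ C)
    (u : F) (hu : u ≠ 0) (horb : (Set.range fun σ : G => σ • u).Finite)
    (hinv : ∀ σ : G, ∃ c ∈ C, ∃ g : F, g ≠ 0 ∧ σ • u = c * g ^ m * u) :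
    ∃ h : F, h ≠ 0 ∧ ∀ σ : G, σ • ((lc u)⁻¹ * u * h ^ m) = (lc u)⁻¹ * u * h ^ m := by
  have hlc0 : ∀ x : F, x ≠ 0 → lc x ≠ 0 := fun x hx => (map_ne_zero lc).mpr hx
  have hlclc : ∀ x : F, x ≠ 0 → lc (lc x) = lc x := fun x hx => hlc_id _ (hlcC x hx)
  have hnorm : ∀ x : F, x ≠ 0 → lc ((lc x)⁻¹ * x) = 1 := fun x hx => by
    rw [map_mul, map_inv₀, hlclc x hx, inv_mul_cancel₀ (hlc0 x hx)]
  have hsmul0 : ∀ (σ : G) (x : F), x ≠ 0 → σ • x ≠ 0 := fun σ x hx h0 => by
    apply hx
    have := congrArg (fun y => σ⁻¹ • y) h0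
    simpa using this
  have hu' : (lc u)⁻¹ * u ≠ 0 := mul_ne_zero (inv_ne_zero (hlc0 u hu)) hu
  refine h91d_descent {x | x ≠ 0 ∧ lc x = 1} (fun x hx => hx.1)
    (fun x hx y hy => ⟨mul_ne_zero hx.1 hy.1, by rw [map_mul, hx.2, hy.2, mul_one]⟩)
    (fun x hx => ⟨inv_ne_zero hx.1, by rw [map_inv₀, hx.2, inv_one]⟩)
    (fun σ x hx => ⟨hsmul0 σ x hx.1, by rw [hlcG, hx.2, smul_one]⟩)
    m ?_ ((lc u)⁻¹ * u) hu' ?_ ?_
  · -- no `m`-torsion among the normalised functions
    intro ζ hζ hζm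
    rw [← hlc_id ζ (hroot ζ hζm)]
    exact hζ.2
  · -- the orbit is finite
    refine (horb.image fun x => (lc x)⁻¹ * x).subset ?_
    rintro _ ⟨σ, rfl⟩
    refine ⟨σ • u, ⟨σ, rfl⟩, ?_⟩
    show (lc (σ • u))⁻¹ * σ • u = σ • ((lc u)⁻¹ * u)
    rw [smul_mul', smul_inv'', hlcG]
  · intro σ
    obtain ⟨c, hc, g, hg0, hσ⟩ := hinv σ
    have hlcg := hlc0 g hg0
    have hlcu := hlc0 u hu
    have hσu0 : σ • u ≠ 0 := hsmul0 σ u hu
    have hc0 : c ≠ 0 := by
      rintro rfl
      rw [zero_mul, zero_mul] at hσ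
      exact hσu0 hσ
    -- the constant is `lc (σ u) / (lc g ^ m * lc u)`
    have h1 : lc (σ • u) = c * lc g ^ m * lc u := by
      rw [hσ, map_mul, map_mul, map_pow, hlc_id c hc]
    refine ⟨(lc g)⁻¹ * g, ⟨mul_ne_zero (inv_ne_zero hlcg) hg0, hnorm g hg0⟩, ?_⟩
    rw [smul_mul', smul_inv'', ← hlcG, h1, hσ, mul_pow, inv_pow]
    have := pow_ne_zero m hlcg
    field_simp

end Descent

end Fermat.Agent.S36
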