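import Fermat.Agent.S36.H62RegIface
import Fermat.Agent.S36.H59ChartInt
import Fermat.Agent.S36.H64InertiaVal
import Fermat.Agent.Red.ModelO.Mid
import Fermat.Agent.S37.Inertia

/-!
# S36, block REG, row R-OVERLAP (helper91): the chart facts for the overlap of the two charts

`B₀ = h62rChart A N t`, `B₁ = h62rChart A N t⁻¹` for an inertia-fixed `t ≠ 0` of `FF N`
(in use: `t = jB N`), `A` a valuation subring of `ℚ̄` over the prime `q`.

* `h91o_self_mem`, `h91o_cst_mem` : `t ∈ B₀`, the constants of `A₀` are in `B₀`;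
* `h91o_scale` : `y ∈ h62rChart A N t⁻¹ → ∃ n, t ^ n * y ∈ h62rChart A N t` (both directions by
  `inv_inv`);
* `h91o_unit_of_integral` : abstract (Mathlib only): `c` integral over `R`, `c * s ≡ 1` modulo
  `𝔫`, `s` from `R` ⟹ `1 + s * r ≡ 0` modulo `𝔫` for some `r` from `R`;
* `h91o_inv_mod` : **`t` is invertible modulo the contraction**: for a maximal ideal `𝔫` of
  `B₁` with `q ∈ 𝔫`, `t⁻¹ ∉ 𝔫` there are `c ∈ B₀` and `k` with `t⁻¹ ^ k * (t * c - 1) ∈ 𝔫`;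
* `h91o_inv_mod_jB` : the same for `t = jB N`.
-/

set_option autoImplicit false
set_option linter.unusedSectionVars false
set_option linter.style.haveILetI false

open Polynomial AlgebraicCurve ModularCurve

noncomputable section

namespace Fermat.Agent.S36

open Fermat.Agent.S37 (Kbar GQ FF cst gal jB modelAt)
open Fermat.Agent.Red.ModelO

/-! ## Abstract lemma -/

/-- if `c` is integral over (the image of) `R`, `s` comes from `R` and `c * s ≡ 1` modulo `𝔫`,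
then `1 + s * r ≡ 0` modulo `𝔫` for some `r` from `R`. -/
theorem h91o_unit_of_integral {R B : Type*} [CommRing R] [CommRing B] (ι : R →+* B)
    (𝔫 : Ideal B) (s' : R) (c : B) (hc : c * ι s' - 1 ∈ 𝔫) (P : R[X]) (hP : P.Monic)
    (hroot : eval₂ ι c P = 0) :
    ∃ r : R, 1 + ι s' * ι r ∈ 𝔫 := by
  classical
  set φ := Ideal.Quotient.mk 𝔫 with hφ
  set i : R →+* B ⧸ 𝔫 := φ.comp ι with hi
  have hxy : φ c * i s' = 1 := by
    have h1 : φ (c * ι s' - 1) = 0 := Ideal.Quotient.eq_zero_iff_mem.mpr hc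
    rw [map_sub, map_mul, map_one, sub_eq_zero] at h1
    exact h1
  have h0 : eval₂ i (φ c) P = 0 := by
    rw [hi, ← Polynomial.hom_eval₂, hroot, map_zero]
  letI : Invertible (φ c) := ⟨i s', by rw [mul_comm]; exact hxy, hxy⟩
  have h1 := Polynomial.eval₂_reverse_mul_pow i (φ c) P
  have hinv : ⅟(φ c) = i s' := rfl
  rw [h0, hinv] at h1
  have h2 : eval₂ i (i s') P.reverse = 0 := by
    have h3 : eval₂ i (i s') P.reverse * (φ c ^ P.natDegree * i s' ^ P.natDegree) = 0 := by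
      rw [← mul_assoc, h1, zero_mul]
    rwa [← mul_pow, hxy, one_pow, mul_one] at h3
  have h4 : P.reverse = divX P.reverse * X + C 1 := by
    have h5 := divX_mul_X_add P.reverse
    rw [coeff_zero_reverse, hP.leadingCoeff] at h5
    exact h5.symm
  refine ⟨eval s' (divX P.reverse), ?_⟩
  rw [← Ideal.Quotient.eq_zero_iff_mem, map_add, map_mul, map_one]
  have h6 : φ (ι (eval s' (divX P.reverse))) = eval₂ i (i s') (divX P.reverse) := by
    rw [Polynomial.eval₂_at_apply]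
    rfl
  rw [h6]
  rw [h4, eval₂_add, eval₂_mul, eval₂_X, eval₂_C, map_one] at h2
  have : φ (ι s') = i s' := rfl
  rw [this]
  linear_combination h2

/-! ## The base ring `A₀` and the evaluation `A₀[X] → FF N` -/

/-- `A₀ = A ∩ ℚ̄^I` as a subring of `ℚ̄`. -/
def h91oA0 (A : ValuationSubring Kbar) : Subring Kbar where
  carrier := h59cA0 A
  mul_mem' := by
    rintro a b ⟨ha, ha'⟩ ⟨hb, hb'⟩
    exact ⟨A.mul_mem _ _ ha hb, fun τ hτ => by rw [map_mul, ha' τ hτ, hb' τ hτ]⟩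
  one_mem' := ⟨A.one_mem, fun τ _ => map_one τ⟩
  add_mem' := by
    rintro a b ⟨ha, ha'⟩ ⟨hb, hb'⟩
    exact ⟨A.add_mem _ _ ha hb, fun τ hτ => by rw [map_add, ha' τ hτ, hb' τ hτ]⟩
  zero_mem' := ⟨A.zero_mem, fun τ _ => map_zero τ⟩
  neg_mem' := by
    rintro a ⟨ha, ha'⟩
    exact ⟨A.neg_mem _ ha, fun τ hτ => by rw [map_neg, ha' τ hτ]⟩

theorem h91o_mem_A0 {A : ValuationSubring Kbar} {a : Kbar} :
    a ∈ h91oA0 A ↔ a ∈ A ∧ ∀ τ ∈ A.inertiaSubgroupIn ℚ, τ a = a := Iff.rfl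

/-- the constants of `A₀` as a ring homomorphism `A₀ → FF N`. -/
def h91oCst (N : ℕ) (A : ValuationSubring Kbar) : h91oA0 A →+* FF N :=
  (algebraMap Kbar (FF N)).comp (h91oA0 A).subtype

theorem h91oCst_apply (N : ℕ) (A : ValuationSubring Kbar) (a : h91oA0 A) :
    h91oCst N A a = cst N (a : Kbar) := rfl

/-- evaluation `A₀[X] → FF N`, `X ↦ x`. -/
def h91oEv (N : ℕ) (A : ValuationSubring Kbar) (x : FF N) : (h91oA0 A)[X] →+* FF N :=
  eval₂RingHom (h91oCst N A) x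

theorem h91oEv_apply (N : ℕ) (A : ValuationSubring Kbar) (x : FF N) (p : (h91oA0 A)[X]) :
    h91oEv N A x p = eval₂ (h91oCst N A) x p := rfl

theorem h91oEv_C (N : ℕ) (A : ValuationSubring Kbar) (x : FF N) (a : h91oA0 A) :
    h91oEv N A x (C a) = cst N (a : Kbar) := by
  rw [h91oEv_apply, eval₂_C]; rfl

theorem h91oEv_X (N : ℕ) (A : ValuationSubring Kbar) (x : FF N) :
    h91oEv N A x X = x := by
  rw [h91oEv_apply, eval₂_X]

/-! ## Membership in the chart over `A₀` -/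

section Chart

variable {N : ℕ} {A : ValuationSubring Kbar}

theorem h91o_cst_mem (t : FF N) (a : h91oA0 A) : cst N (a : Kbar) ∈ h62rChart A N t := by
  refine ⟨h85_cst_mem_modelAt N A t a.2.1, ?_⟩
  intro σ hσ
  show gal N σ • cst N (a : Kbar) = cst N (a : Kbar)
  rw [SemilinearAut.smul_algebraMap, baseAut_arithmeticGalois]
  show cst N (σ (a : Kbar)) = cst N (a : Kbar)
  rw [a.2.2 σ hσ]

theorem h91o_self_mem {t : FF N}
    (hfix : ∀ σ ∈ A.inertiaSubgroupIn ℚ, gal N σ • t = t) : t ∈ h62rChart A N t :=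
  ⟨h85_self_mem_modelAt N A t, hfix⟩

theorem h91o_fix_inv {t : FF N}
    (hfix : ∀ σ ∈ A.inertiaSubgroupIn ℚ, gal N σ • t = t) :
    ∀ σ ∈ A.inertiaSubgroupIn ℚ, gal N σ • t⁻¹ = t⁻¹ := by
  intro σ hσ
  rw [smul_inv'', hfix σ hσ]

/-- the values of the polynomials over `A₀` at an inertia-fixed `x` are in the chart of `x`. -/
theorem h91o_ev_mem {x : FF N}
    (hfix : ∀ σ ∈ A.inertiaSubgroupIn ℚ, gal N σ • x = x) (p : (h91oA0 A)[X]) :
    h91oEv N A x p ∈ h62rChart A N x := by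
  induction p using Polynomial.induction_on' with
  | add p q hp hq =>
    rw [map_add]
    exact add_mem hp hq
  | monomial n a =>
    rw [← C_mul_X_pow_eq_monomial, map_mul, map_pow, h91oEv_C, h91oEv_X]
    exact mul_mem (h91o_cst_mem x a) (pow_mem (h91o_self_mem hfix) n)

/-- `A₀[x]` is the image of the evaluation. -/
theorem h91o_adj0_le_range (x : FF N) :
    h59cRingAdj0 N A x ≤ (h91oEv N A x).range := by
  unfold h59cRingAdj0 h59cAdj
  rw [Subring.closure_le]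
  rintro y (⟨a, ha, rfl⟩ | hy)
  · exact ⟨C ⟨a, ha⟩, h91oEv_C N A x _⟩
  · rw [Set.mem_singleton_iff] at hy
    subst hy
    exact ⟨X, h91oEv_X N A _⟩

theorem h91o_adj0_le_chart {x : FF N}
    (hfix : ∀ σ ∈ A.inertiaSubgroupIn ℚ, gal N σ • x = x) :
    h59cRingAdj0 N A x ≤ h62rChart A N x := by
  intro y hy
  obtain ⟨p, rfl⟩ := h91o_adj0_le_range x hy
  exact h91o_ev_mem hfix p

/-- **scaling**: `y` in the chart of `t⁻¹` ⟹ `t ^ n * y` in the chart of `t` for some `n`. -/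
theorem h91o_scale {t : FF N} (ht : t ≠ 0)
    (hfix : ∀ σ ∈ A.inertiaSubgroupIn ℚ, gal N σ • t = t) {y : FF N}
    (hy : y ∈ h62rChart A N t⁻¹) : ∃ n : ℕ, t ^ n * y ∈ h62rChart A N t := by
  obtain ⟨n, hn⟩ := h85_exists_pow_mul_mem_modelAt N A ht hy.1
  refine ⟨n, hn, ?_⟩
  intro σ hσ
  show gal N σ • (t ^ n * y) = t ^ n * y
  rw [smul_mul', smul_pow', hfix σ hσ, hy.2 σ hσ]

/-- **scaling**, the other direction. -/
theorem h91o_scale_inv {t : FF N} (ht : t ≠ 0)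
    (hfix : ∀ σ ∈ A.inertiaSubgroupIn ℚ, gal N σ • t = t) {y : FF N}
    (hy : y ∈ h62rChart A N t) : ∃ n : ℕ, t⁻¹ ^ n * y ∈ h62rChart A N t⁻¹ := by
  have hy' : y ∈ h62rChart A N (t⁻¹)⁻¹ := by rw [inv_inv]; exact hy
  exact h91o_scale (inv_ne_zero ht) (h91o_fix_inv hfix) hy'

/-- scaling of the values of polynomials: `t ^ m * p(t⁻¹) ∈ A₀[t]` for `deg p ≤ m`. -/
theorem h91o_pow_mul_ev_mem {t : FF N} (ht : t ≠ 0)
    (hfix : ∀ σ ∈ A.inertiaSubgroupIn ℚ, gal N σ • t = t) (p : (h91oA0 A)[X]) {m : ℕ}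
    (hm : p.natDegree ≤ m) : t ^ m * h91oEv N A t⁻¹ p ∈ h62rChart A N t := by
  letI : Invertible t⁻¹ := ⟨t, mul_inv_cancel₀ ht, inv_mul_cancel₀ ht⟩
  have hinv : ⅟(t⁻¹) = t := rfl
  have h1 := Polynomial.eval₂_reflect_mul_pow (h91oCst N A) (t⁻¹) m p hm
  rw [hinv] at h1
  have h2 : t ^ m * h91oEv N A t⁻¹ p = h91oEv N A t (reflect m p) := by
    rw [h91oEv_apply, h91oEv_apply, ← h1]
    have h3 : t ^ m * t⁻¹ ^ m = 1 := by rw [← mul_pow, mul_inv_cancel₀ ht, one_pow]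
    calc t ^ m * (eval₂ (h91oCst N A) t (reflect m p) * t⁻¹ ^ m)
        = eval₂ (h91oCst N A) t (reflect m p) * (t ^ m * t⁻¹ ^ m) := by ring
      _ = _ := by rw [h3, mul_one]
  rw [h2]
  exact h91o_ev_mem hfix _

end Chart

/-! ## Units and non-units of `A₀` -/

/-- an element of `A₀` is a unit of `A₀` or is divisible by `q` in `A₀`. -/
theorem h91o_unit_or_dvd {A : ValuationSubring Kbar} {q : ℕ} (hq : q.Prime)
    (hA : A.LiesOverPrime q) (u : h91oA0 A) :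
    (∃ u' : h91oA0 A, u * u' = 1) ∨ ∃ a' : h91oA0 A, u = (q : h91oA0 A) * a' := by
  by_cases hu : (u : Kbar) ∈ A.nonunits
  · right
    have h1 := h64s_div_mem A hq hA hu u.2.2
    have hqQ : (q : Kbar) ≠ 0 := by exact_mod_cast hq.ne_zero
    refine ⟨⟨(u : Kbar) / (q : Kbar), h1, ?_⟩, ?_⟩
    · intro τ hτ
      rw [map_div₀, map_natCast, u.2.2 τ hτ]
    · apply Subtype.ext
      show (u : Kbar) = ((q : h91oA0 A) : Kbar) * ((u : Kbar) / (q : Kbar))
      have : ((q : h91oA0 A) : Kbar) = (q : Kbar) := by simp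
      rw [this]
      field_simp
  · left
    rw [ValuationSubring.mem_nonunits_iff_or, not_or, not_not] at hu
    obtain ⟨hu0, huinv⟩ := hu
    refine ⟨⟨(u : Kbar)⁻¹, huinv, ?_⟩, ?_⟩
    · intro τ hτ
      rw [map_inv₀, u.2.2 τ hτ]
    · apply Subtype.ext
      show (u : Kbar) * (u : Kbar)⁻¹ = 1
      exact mul_inv_cancel₀ hu0

/-! ## `t` is invertible modulo the contraction -/

section Inv

variable {N : ℕ} {A : ValuationSubring Kbar}

theorem h91o_mem_of_eq {F : Type*} [Field F] {B : Subring F} {I : Ideal B} {x : F} (y : B)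
    (hy : y ∈ I) (hxy : x = (y : F)) : ∃ h : x ∈ B, (⟨x, h⟩ : B) ∈ I := by
  subst hxy
  exact ⟨y.2, hy⟩

/-- peeling from the top: a polynomial `G` over `A₀` with constant term `1` and
`G(t⁻¹) ∈ 𝔫` gives an inverse of `t` modulo the contraction of `𝔫`. -/
theorem h91o_peel {q : ℕ} (hq : q.Prime) (hA : A.LiesOverPrime q) {t : FF N} (ht : t ≠ 0)
    (hfix : ∀ σ ∈ A.inertiaSubgroupIn ℚ, gal N σ • t = t)
    (𝔫 : Ideal (h62rChart A N t⁻¹)) (h𝔫 : 𝔫 ≠ ⊤) (hq𝔫 : (q : h62rChart A N t⁻¹) ∈ 𝔫) :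
    ∀ (n : ℕ) (G : (h91oA0 A)[X]), G.natDegree ≤ n → G.coeff 0 = 1 →
      (⟨h91oEv N A t⁻¹ G, h91o_ev_mem (h91o_fix_inv hfix) G⟩ : h62rChart A N t⁻¹) ∈ 𝔫 →
      ∃ c : FF N, c ∈ h62rChart A N t ∧ ∃ k : ℕ,
        ∃ h : t⁻¹ ^ k * (t * c - 1) ∈ h62rChart A N t⁻¹,
          (⟨t⁻¹ ^ k * (t * c - 1), h⟩ : h62rChart A N t⁻¹) ∈ 𝔫 := by
  intro n
  induction n with
  | zero =>
    intro G hdeg h0 hG
    exfalso
    have hG1 : G = 1 := by
      rw [Polynomial.eq_C_of_natDegree_le_zero hdeg, h0, C_1]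
    apply h𝔫
    rw [Ideal.eq_top_iff_one]
    have h1 : (⟨h91oEv N A t⁻¹ G, h91o_ev_mem (h91o_fix_inv hfix) G⟩ : h62rChart A N t⁻¹) = 1 := by
      apply Subtype.ext
      show h91oEv N A t⁻¹ G = 1
      rw [hG1, map_one]
    rwa [h1] at hG
  | succ n ih =>
    intro G hdeg h0 hG
    by_cases hlt : G.natDegree ≤ n
    · exact ih G hlt h0 hG
    have hdeg' : G.natDegree = n + 1 := by omega
    have hsplit : G = G.eraseLead + C G.leadingCoeff * X ^ (n + 1) := by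
      rw [← hdeg']; exact (eraseLead_add_C_mul_X_pow G).symm
    have hel : G.eraseLead.natDegree ≤ n := by
      have := eraseLead_natDegree_le G; omega
    have hev : h91oEv N A t⁻¹ G =
        h91oEv N A t⁻¹ G.eraseLead + cst N (G.leadingCoeff : Kbar) * t⁻¹ ^ (n + 1) := by
      conv_lhs => rw [hsplit]
      rw [map_add, map_mul, map_pow, h91oEv_C, h91oEv_X]
    have hsfix := h91o_fix_inv hfix
    rcases h91o_unit_or_dvd hq hA G.leadingCoeff with ⟨u', hu'⟩ | ⟨a', ha'⟩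
    · -- the leading coefficient is a unit
      refine ⟨-cst N (u' : Kbar) * (t ^ n * h91oEv N A t⁻¹ G.eraseLead),
        mul_mem (neg_mem (h91o_cst_mem t u')) (h91o_pow_mul_ev_mem ht hfix _ hel), n + 1, ?_⟩
      have hu1 : cst N (G.leadingCoeff : Kbar) * cst N (u' : Kbar) = 1 := by
        have h1 : ((G.leadingCoeff * u' : h91oA0 A) : Kbar) = 1 := by rw [hu']; rfl
        rw [← map_mul]
        have h2 : (G.leadingCoeff : Kbar) * (u' : Kbar) = 1 := h1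
        rw [h2, map_one]
      have h3 : t⁻¹ ^ (n + 1) * t ^ (n + 1) = 1 := by
        rw [← mul_pow, inv_mul_cancel₀ ht, one_pow]
      have hkey : t⁻¹ ^ (n + 1) *
          (t * (-cst N (u' : Kbar) * (t ^ n * h91oEv N A t⁻¹ G.eraseLead)) - 1) =
          -cst N (u' : Kbar) * h91oEv N A t⁻¹ G := by
        rw [hev]
        linear_combination (-cst N (u' : Kbar) * h91oEv N A t⁻¹ G.eraseLead) * h3 +
          t⁻¹ ^ (n + 1) * hu1
      refine h91o_mem_of_eq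
        (-(⟨cst N (u' : Kbar), h91o_cst_mem t⁻¹ u'⟩ : h62rChart A N t⁻¹) *
          ⟨h91oEv N A t⁻¹ G, h91o_ev_mem hsfix G⟩) (𝔫.mul_mem_left _ hG) ?_
      rw [hkey]
      rfl
    · -- the leading coefficient is divisible by `q`
      apply ih G.eraseLead hel
      · rw [eraseLead_coeff_of_ne _ (by omega : (0 : ℕ) ≠ G.natDegree)]
        exact h0
      · have h1 : (⟨h91oEv N A t⁻¹ G.eraseLead, h91o_ev_mem hsfix G.eraseLead⟩ :
            h62rChart A N t⁻¹) =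
            ⟨h91oEv N A t⁻¹ G, h91o_ev_mem hsfix G⟩ -
              (q : h62rChart A N t⁻¹) * (⟨cst N (a' : Kbar), h91o_cst_mem t⁻¹ a'⟩ *
                (⟨t⁻¹, h91o_self_mem hsfix⟩ : h62rChart A N t⁻¹) ^ (n + 1)) := by
          apply Subtype.ext
          show h91oEv N A t⁻¹ G.eraseLead = h91oEv N A t⁻¹ G -
            ((q : h62rChart A N t⁻¹) : FF N) * (cst N (a' : Kbar) * t⁻¹ ^ (n + 1))
          have h2 : ((q : h62rChart A N t⁻¹) : FF N) = (q : FF N) := by simp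
          have h3 : cst N (G.leadingCoeff : Kbar) = (q : FF N) * cst N (a' : Kbar) := by
            rw [ha']
            have h4 : (((q : h91oA0 A) * a' : h91oA0 A) : Kbar) = (q : Kbar) * (a' : Kbar) := by
              simp
            rw [h4]
            exact (map_mul (algebraMap Kbar (FF N)) _ _).trans
              (by rw [map_natCast])
          rw [h2, hev, h3]
          ring
        rw [h1]
        exact 𝔫.sub_mem hG (𝔫.mul_mem_right _ hq𝔫)

set_option synthInstance.maxHeartbeats 400000 in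
/-- **`t` is invertible modulo the contraction.**  For a maximal ideal `𝔫 ∋ q` of the chart of
`t⁻¹` over `A₀` with `t⁻¹ ∉ 𝔫` there are `c` in the chart of `t` and `k` with
`t⁻¹ ^ k * (t * c - 1) ∈ 𝔫`. -/
theorem h91o_inv_mod {q : ℕ} (hq : q.Prime) (hA : A.LiesOverPrime q) {t : FF N} (ht : t ≠ 0)
    (hfix : ∀ σ ∈ A.inertiaSubgroupIn ℚ, gal N σ • t = t)
    (𝔫 : Ideal (h62rChart A N t⁻¹)) (h𝔫 : 𝔫.IsMaximal) (hq𝔫 : (q : h62rChart A N t⁻¹) ∈ 𝔫)
    (hs : (⟨t⁻¹, h91o_self_mem (h91o_fix_inv hfix)⟩ : h62rChart A N t⁻¹) ∉ 𝔫) :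
    ∃ c : FF N, c ∈ h62rChart A N t ∧ ∃ k : ℕ,
      ∃ h : t⁻¹ ^ k * (t * c - 1) ∈ h62rChart A N t⁻¹,
        (⟨t⁻¹ ^ k * (t * c - 1), h⟩ : h62rChart A N t⁻¹) ∈ 𝔫 := by
  classical
  have hsfix := h91o_fix_inv hfix
  obtain ⟨c₁, i, hi, hci⟩ := h𝔫.exists_inv hs
  have hc₁ : c₁ * (⟨t⁻¹, h91o_self_mem hsfix⟩ : h62rChart A N t⁻¹) - 1 ∈ 𝔫 := by
    have : c₁ * (⟨t⁻¹, h91o_self_mem hsfix⟩ : h62rChart A N t⁻¹) - 1 = -i := by
      rw [← hci]; ring
    rw [this]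
    exact 𝔫.neg_mem hi
  -- integrality of `c₁` over `A₀[t⁻¹]`
  have hint : IsIntegral (h59cRingAdj0 N A t⁻¹) (c₁ : FF N) :=
    (h59c_mem_modelAt_iff N A t⁻¹ (c₁ : FF N)).1 c₁.2.1
  obtain ⟨P, hP, hroot⟩ := hint
  set ι : h59cRingAdj0 N A t⁻¹ →+* h62rChart A N t⁻¹ :=
    Subring.inclusion (h91o_adj0_le_chart hsfix) with hι
  have hroot' : eval₂ ι c₁ P = 0 := by
    apply Subtype.val_injective
    have h1 := Polynomial.hom_eval₂ P ι (h62rChart A N t⁻¹).subtype c₁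
    have h2 : ((h62rChart A N t⁻¹).subtype.comp ι) =
        algebraMap (h59cRingAdj0 N A t⁻¹) (FF N) := rfl
    rw [h2] at h1
    show (h62rChart A N t⁻¹).subtype (eval₂ ι c₁ P) = (h62rChart A N t⁻¹).subtype 0
    rw [h1, map_zero]
    exact hroot
  obtain ⟨r, hr⟩ := h91o_unit_of_integral ι 𝔫 ⟨t⁻¹, h59c_self_mem_adj _ _⟩ c₁ hc₁ P hP hroot'
  obtain ⟨p, hp⟩ := h91o_adj0_le_range (A := A) t⁻¹ r.2
  have hp' : h91oEv N A t⁻¹ p = (r : FF N) := hp
  refine h91o_peel hq hA ht hfix 𝔫 h𝔫.ne_top hq𝔫 (1 + X * p).natDegree (1 + X * p) le_rfl ?_ ?_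
  · rw [coeff_add, coeff_one_zero, mul_coeff_zero, coeff_X_zero, zero_mul, add_zero]
  · have h1 : (⟨h91oEv N A t⁻¹ (1 + X * p), h91o_ev_mem hsfix (1 + X * p)⟩ :
        h62rChart A N t⁻¹) = 1 + ι ⟨t⁻¹, h59c_self_mem_adj _ _⟩ * ι r := by
      apply Subtype.ext
      show h91oEv N A t⁻¹ (1 + X * p) = 1 + t⁻¹ * (r : FF N)
      rw [map_add, map_mul, map_one, h91oEv_X, hp']
    rw [h1]
    exact hr

/-- `j` is invertible modulo the contraction of a maximal ideal `𝔫 ∋ q`, `1/j ∉ 𝔫`, of the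
chart at infinity over `A₀`. -/
theorem h91o_inv_mod_jB [NeZero N] {q : ℕ} (hq : q.Prime) (hA : A.LiesOverPrime q)
    (𝔫 : Ideal (h62rChart A N (jB N)⁻¹)) (h𝔫 : 𝔫.IsMaximal)
    (hq𝔫 : (q : h62rChart A N (jB N)⁻¹) ∈ 𝔫)
    (hs : (⟨(jB N)⁻¹, h91o_self_mem (h91o_fix_inv
      (fun σ _ => Fermat.Agent.S37.GalI.gal_smul_jB σ))⟩ : h62rChart A N (jB N)⁻¹) ∉ 𝔫) :
    ∃ c : FF N, c ∈ h62rChart A N (jB N) ∧ ∃ k : ℕ,
      ∃ h : (jB N)⁻¹ ^ k * (jB N * c - 1) ∈ h62rChart A N (jB N)⁻¹,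
        (⟨(jB N)⁻¹ ^ k * (jB N * c - 1), h⟩ : h62rChart A N (jB N)⁻¹) ∈ 𝔫 :=
  h91o_inv_mod hq hA (h85_jB_ne_zero N) (fun σ _ => Fermat.Agent.S37.GalI.gal_smul_jB σ)
    𝔫 h𝔫 hq𝔫 hs

end Inv

end Fermat.Agent.S36
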