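import Fermat.Agent.S36.H91OverlapAbs
import Fermat.Agent.S36.H91OverlapInst

/-!
# S36, block REG, row R-OVERLAP (helper91): `H62RegAt` on the overlap of the two charts

`A` a valuation subring of `ℚ̄` over the prime `q`, any level `N`.

* `h91o_regAt_inv_gen` : for an inertia-fixed `t ≠ 0`: if `H62RegAt 𝔫₀ q` holds at every maximal
  ideal `𝔫₀ ∋ q` of `h62rChart A N t`, then `H62RegAt 𝔫 q` holds at every maximal ideal `𝔫 ∋ q`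
  of `h62rChart A N t⁻¹` with `t⁻¹ ∉ 𝔫`;
* `h91o_regAt_inv_jB` : the case `t = jB N` (chart at infinity, points with `1/j ∉ 𝔫`);
* `h91o_regChart_inv` : **the glue** `H62RegChart A N q (jB N)` + noetherian + the cusp case
  (`1/j ∈ 𝔫`) ⟹ `H62RegChart A N q (jB N)⁻¹`.
-/

set_option autoImplicit false

open AlgebraicCurve ModularCurve

noncomputable section

namespace Fermat.Agent.S36

open Fermat.Agent.S37 (Kbar GQ FF cst gal jB modelAt)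
open Fermat.Agent.Red.ModelO

variable {N : ℕ} {A : ValuationSubring Kbar}

/-- **R-OVERLAP**, any inertia-fixed `t ≠ 0`. -/
theorem h91o_regAt_inv_gen {q : ℕ} (hq : q.Prime) (hA : A.LiesOverPrime q) {t : FF N}
    (ht : t ≠ 0) (hfix : ∀ σ ∈ A.inertiaSubgroupIn ℚ, gal N σ • t = t)
    (hreg : ∀ 𝔫₀ : Ideal (h62rChart A N t), 𝔫₀.IsMaximal → (q : h62rChart A N t) ∈ 𝔫₀ →
      H62RegAt 𝔫₀ (q : h62rChart A N t))
    (𝔫 : Ideal (h62rChart A N t⁻¹)) (h𝔫 : 𝔫.IsMaximal) (hq𝔫 : (q : h62rChart A N t⁻¹) ∈ 𝔫)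
    (hs : (⟨t⁻¹, h91o_self_mem (h91o_fix_inv hfix)⟩ : h62rChart A N t⁻¹) ∉ 𝔫) :
    H62RegAt 𝔫 (q : h62rChart A N t⁻¹) :=
  h91a_regAt_transfer ht (h91o_self_mem hfix) (h91o_self_mem (h91o_fix_inv hfix))
    (fun _ hy => h91o_scale ht hfix hy) (fun _ hy => h91o_scale_inv ht hfix hy)
    (q : h62rChart A N t) (q : h62rChart A N t⁻¹) (by simp) 𝔫 h𝔫 hq𝔫 hs
    (h91o_inv_mod hq hA ht hfix 𝔫 h𝔫 hq𝔫 hs) hreg

theorem h91o_jB_inv_mem [NeZero N] : (jB N)⁻¹ ∈ h62rChart A N (jB N)⁻¹ :=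
  h91o_self_mem (h91o_fix_inv (fun σ _ => Fermat.Agent.S37.GalI.gal_smul_jB σ))

/-- **R-OVERLAP** for the chart at infinity: `H62RegAt` at the maximal ideals `𝔫 ∋ q` with
`1/j ∉ 𝔫`, from `H62RegAt` on the finite chart. -/
theorem h91o_regAt_inv_jB [NeZero N] {q : ℕ} (hq : q.Prime) (hA : A.LiesOverPrime q)
    (hreg : ∀ 𝔫₀ : Ideal (h62rChart A N (jB N)), 𝔫₀.IsMaximal →
      (q : h62rChart A N (jB N)) ∈ 𝔫₀ → H62RegAt 𝔫₀ (q : h62rChart A N (jB N)))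
    (𝔫 : Ideal (h62rChart A N (jB N)⁻¹)) (h𝔫 : 𝔫.IsMaximal)
    (hq𝔫 : (q : h62rChart A N (jB N)⁻¹) ∈ 𝔫)
    (hs : (⟨(jB N)⁻¹, h91o_jB_inv_mem⟩ : h62rChart A N (jB N)⁻¹) ∉ 𝔫) :
    H62RegAt 𝔫 (q : h62rChart A N (jB N)⁻¹) :=
  h91o_regAt_inv_gen hq hA (h85_jB_ne_zero N)
    (fun σ _ => Fermat.Agent.S37.GalI.gal_smul_jB σ) hreg 𝔫 h𝔫 hq𝔫 hs

/-- **the glue for the chart at infinity**: `H62RegChart` for `1/j` from `H62RegChart` for `j`,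
noetherianity and the cusp case (`1/j ∈ 𝔫`). -/
theorem h91o_regChart_inv [NeZero N] {q : ℕ} (hq : q.Prime) (hA : A.LiesOverPrime q)
    (hfin : H62RegChart A N q (jB N))
    (hnoeth : IsNoetherianRing (h62rChart A N (jB N)⁻¹))
    (hcusp : ∀ 𝔫 : Ideal (h62rChart A N (jB N)⁻¹), 𝔫.IsMaximal →
      (q : h62rChart A N (jB N)⁻¹) ∈ 𝔫 →
      (⟨(jB N)⁻¹, h91o_jB_inv_mem⟩ : h62rChart A N (jB N)⁻¹) ∈ 𝔫 →
      H62RegAt 𝔫 (q : h62rChart A N (jB N)⁻¹)) :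
    H62RegChart A N q (jB N)⁻¹ := by
  refine ⟨hnoeth, fun 𝔫 h𝔫 hq𝔫 => ?_⟩
  by_cases hs : (⟨(jB N)⁻¹, h91o_jB_inv_mem⟩ : h62rChart A N (jB N)⁻¹) ∈ 𝔫
  · exact hcusp 𝔫 h𝔫 hq𝔫 hs
  · exact h91o_regAt_inv_jB hq hA hfin.2 𝔫 h𝔫 hq𝔫 hs

end Fermat.Agent.S36
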