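import Fermat.Agent.S36.H11LocSkel
import Fermat.Agent.S36.H91Overlap
import Fermat.Agent.S36.H3Gate92V

/-!
# S36, row L-TRANSFER (helper91): `H11LocTransfer`

The datum `h11l_DatumAt` passes from the chart `j` to the chart `j⁻¹` at the closed points
`𝔫 ∋ q` with `j⁻¹ ∉ 𝔫`: the contraction `𝔫₀` of `𝔫` to the chart `j` (`S36/H91OverlapAbs.lean`) is
a maximal ideal over `q` (`h91o_inv_mod_jB`), and the witness `s₀ ∉ 𝔫₀` of the datum at `𝔫₀`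
scales to `s = j⁻¹ ^ k * s₀ ∉ 𝔫` (`j⁻¹ ∈ V₀`).

* `h91t_locTransfer : H11LocTransfer` (exact frozen `Prop` of `S36/H11LocSkel.lean`).
-/

set_option autoImplicit false
set_option linter.unusedSectionVars false
set_option linter.style.haveILetI false

open AlgebraicCurve ModularCurve

noncomputable section

namespace Fermat.Agent.S36

open Fermat.Agent.S37 (Kbar GQ FF cst jB gal modelAt degen auxLevel)
open Fermat.Agent.Red.ModelO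

theorem h91t_scale_mono {F : Type*} [Field F] {B₁ : Subring F} {t : F} (ht₁ : t⁻¹ ∈ B₁)
    {y : F} {n m : ℕ} (hnm : n ≤ m) (h : t⁻¹ ^ n * y ∈ B₁) : t⁻¹ ^ m * y ∈ B₁ := by
  have h1 : t⁻¹ ^ m * y = t⁻¹ ^ (m - n) * (t⁻¹ ^ n * y) := by
    rw [← mul_assoc, ← pow_add, Nat.sub_add_cancel hnm]
  rw [h1]
  exact B₁.mul_mem (B₁.pow_mem ht₁ _) h

/-- **L-TRANSFER**, in the vocabulary of `h62rChart`. -/
theorem h91t_transfer_aux {q : ℕ} (hq : q.Prime) {M : ℕ} [NeZero M] [NeZero q] (hqM : ¬ q ∣ M)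
    {A : ValuationSubring Kbar} (hA : A.LiesOverPrime q) (m : ℕ) (w : FF (M * q * q))
    (hdat : ∀ 𝔫₀ : Ideal (h62rChart A (M * q * q) (jB (M * q * q))), 𝔫₀.IsMaximal →
      ((q : ℕ) : h62rChart A (M * q * q) (jB (M * q * q))) ∈ 𝔫₀ →
      ∃ g : FF (M * q * q), g ∈ h92c_F0 A (M * q * q) ∧ g ≠ 0 ∧
        ∃ s : h62rChart A (M * q * q) (jB (M * q * q)), s ∉ 𝔫₀ ∧
          (∃ y ∈ h92c_V0 A M q, (s : FF (M * q * q)) * (g - 1) = (q : FF (M * q * q)) * y) ∧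
          (s : FF (M * q * q)) * (w * (g ^ m)⁻¹) ∈ h62rChart A (M * q * q) (jB (M * q * q)) ∧
          (s : FF (M * q * q)) * (g ^ m * w⁻¹) ∈ h62rChart A (M * q * q) (jB (M * q * q)))
    (𝔫 : Ideal (h62rChart A (M * q * q) (jB (M * q * q))⁻¹)) (h𝔫 : 𝔫.IsMaximal)
    (hq𝔫 : ((q : ℕ) : h62rChart A (M * q * q) (jB (M * q * q))⁻¹) ∈ 𝔫)
    (hb : ∃ b : h62rChart A (M * q * q) (jB (M * q * q))⁻¹,
      (b : FF (M * q * q)) = (jB (M * q * q))⁻¹ ∧ b ∉ 𝔫) :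
    ∃ g : FF (M * q * q), g ∈ h92c_F0 A (M * q * q) ∧ g ≠ 0 ∧
      ∃ s : h62rChart A (M * q * q) (jB (M * q * q))⁻¹, s ∉ 𝔫 ∧
        (∃ y ∈ h92c_V0 A M q, (s : FF (M * q * q)) * (g - 1) = (q : FF (M * q * q)) * y) ∧
        (s : FF (M * q * q)) * (w * (g ^ m)⁻¹) ∈ h62rChart A (M * q * q) (jB (M * q * q))⁻¹ ∧
        (s : FF (M * q * q)) * (g ^ m * w⁻¹) ∈ h62rChart A (M * q * q) (jB (M * q * q))⁻¹ := by
  classical
  obtain ⟨b, hb, hb𝔫⟩ := hb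
  have hfix : ∀ σ ∈ A.inertiaSubgroupIn ℚ,
      gal (M * q * q) σ • jB (M * q * q) = jB (M * q * q) :=
    fun σ _ => Fermat.Agent.S37.GalI.gal_smul_jB σ
  have ht : jB (M * q * q) ≠ 0 := h85_jB_ne_zero (M * q * q)
  have ht₀ : jB (M * q * q) ∈ h62rChart A (M * q * q) (jB (M * q * q)) := h91o_self_mem hfix
  have ht₁ : (jB (M * q * q))⁻¹ ∈ h62rChart A (M * q * q) (jB (M * q * q))⁻¹ :=
    h91o_jB_inv_mem
  have hs₀ : ∀ y ∈ h62rChart A (M * q * q) (jB (M * q * q))⁻¹,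
      ∃ n : ℕ, jB (M * q * q) ^ n * y ∈ h62rChart A (M * q * q) (jB (M * q * q)) :=
    fun _ hy => h91o_scale ht hfix hy
  have hs₁ : ∀ y ∈ h62rChart A (M * q * q) (jB (M * q * q)),
      ∃ n : ℕ, (jB (M * q * q))⁻¹ ^ n * y ∈ h62rChart A (M * q * q) (jB (M * q * q))⁻¹ :=
    fun _ hy => h91o_scale_inv ht hfix hy
  have hs : (⟨(jB (M * q * q))⁻¹, ht₁⟩ : h62rChart A (M * q * q) (jB (M * q * q))⁻¹) ∉ 𝔫 := by
    intro h
    apply hb𝔫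
    have : b = ⟨(jB (M * q * q))⁻¹, ht₁⟩ := Subtype.ext hb
    rw [this]
    exact h
  have htn' : ¬ h91aIn (h62rChart A (M * q * q) (jB (M * q * q))⁻¹) 𝔫 (jB (M * q * q))⁻¹ :=
    fun h => hs h.2
  haveI : 𝔫.IsMaximal := h𝔫
  have hmax₀ : (h91aContr (h62rChart A (M * q * q) (jB (M * q * q)))
      (h62rChart A (M * q * q) (jB (M * q * q))⁻¹) (jB (M * q * q)) ht₁ hs₁ 𝔫).IsMaximal :=
    h91a_contr_isMaximal ht ht₀ ht₁ hs₀ hs₁ 𝔫 htn' (h91o_inv_mod_jB hq hA 𝔫 h𝔫 hq𝔫 hs)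
  have hq₀ : ((q : ℕ) : h62rChart A (M * q * q) (jB (M * q * q))) ∈
      h91aContr (h62rChart A (M * q * q) (jB (M * q * q)))
        (h62rChart A (M * q * q) (jB (M * q * q))⁻¹) (jB (M * q * q)) ht₁ hs₁ 𝔫 := by
    refine ⟨0, ?_⟩
    have h1 : (jB (M * q * q))⁻¹ ^ 0 *
        (((q : ℕ) : h62rChart A (M * q * q) (jB (M * q * q))) : FF (M * q * q)) =
        (((q : ℕ) : h62rChart A (M * q * q) (jB (M * q * q))⁻¹) : FF (M * q * q)) := by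
      simp
    rw [h1, h91aIn_coe]
    exact hq𝔫
  obtain ⟨g, hgF, hg0, s₀, hs₀𝔫, ⟨y, hy, hyeq⟩, h1, h2⟩ := hdat _ hmax₀ hq₀
  obtain ⟨k₁, hk₁⟩ := hs₁ (s₀ : FF (M * q * q)) s₀.2
  obtain ⟨k₂, hk₂⟩ := hs₁ _ h1
  obtain ⟨k₃, hk₃⟩ := hs₁ _ h2
  set k := k₁ + k₂ + k₃ with hk
  have hsk : (jB (M * q * q))⁻¹ ^ k * (s₀ : FF (M * q * q)) ∈
      h62rChart A (M * q * q) (jB (M * q * q))⁻¹ := h91t_scale_mono ht₁ (by omega) hk₁
  have htV : (jB (M * q * q))⁻¹ ∈ h92c_V0 A M q :=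
    (h3w_chartInv_le_V0 (A := A) (M := M) (q := q) hq hqM hA :
      h92c_Chart A (M * q * q) (jB (M * q * q))⁻¹ ≤ h92c_V0 A M q) ht₁
  refine ⟨g, hgF, hg0, ⟨(jB (M * q * q))⁻¹ ^ k * (s₀ : FF (M * q * q)), hsk⟩, ?_, ?_, ?_, ?_⟩
  · intro h
    exact hs₀𝔫 ⟨k, hsk, h⟩
  · refine ⟨(jB (M * q * q))⁻¹ ^ k * y, mul_mem (pow_mem htV k) hy, ?_⟩
    show (jB (M * q * q))⁻¹ ^ k * (s₀ : FF (M * q * q)) * (g - 1) =
      (q : FF (M * q * q)) * ((jB (M * q * q))⁻¹ ^ k * y)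
    rw [mul_assoc ((jB (M * q * q))⁻¹ ^ k) (s₀ : FF (M * q * q)) (g - 1), hyeq]
    ring
  · show (jB (M * q * q))⁻¹ ^ k * (s₀ : FF (M * q * q)) * (w * (g ^ m)⁻¹) ∈
      h62rChart A (M * q * q) (jB (M * q * q))⁻¹
    rw [mul_assoc ((jB (M * q * q))⁻¹ ^ k) (s₀ : FF (M * q * q)) (w * (g ^ m)⁻¹)]
    exact h91t_scale_mono ht₁ (by omega) hk₂
  · show (jB (M * q * q))⁻¹ ^ k * (s₀ : FF (M * q * q)) * (g ^ m * w⁻¹) ∈
      h62rChart A (M * q * q) (jB (M * q * q))⁻¹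
    rw [mul_assoc ((jB (M * q * q))⁻¹ ^ k) (s₀ : FF (M * q * q)) (g ^ m * w⁻¹)]
    exact h91t_scale_mono ht₁ (by omega) hk₃

/-- **L-TRANSFER.** -/
theorem h91t_locTransfer : H11LocTransfer := by
  intro q hq M _ hqM _haux
  haveI : NeZero q := ⟨hq.ne_zero⟩
  intro A hA m w hdat 𝔫 h𝔫 hq𝔫 hb
  exact h91t_transfer_aux hq hqM hA m w hdat 𝔫 h𝔫 hq𝔫 hb

end Fermat.Agent.S36
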