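import Mathlib
import Fermat.Agent.S36.H62RegIface

/-!
# S36, block REG, row R-OVERLAP (helper91): transfer of `H62RegAt` through the overlap

Two charts `B₀ ∋ t`, `B₁ ∋ t⁻¹` (subrings of a field `F`) with the same overlap
(`B₀[1/t] = B₁[t]`, in the form of the two scaling properties).  For a maximal ideal `𝔫` of `B₁`
with `t⁻¹ ∉ 𝔫` such that `t` is invertible modulo the contraction `𝔫₀` of `𝔫` to `B₀`: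
`𝔫₀` is maximal, the local rings coincide, and `H62RegAt 𝔫₀ π` gives `H62RegAt 𝔫 π`.

(Subring version of the contraction of `LGC/H31OverlapAbs.lean` (helper31), with the three
clauses `two_gen`, `branch`, `transversal` of `H62RegAt`.)

* `h91aContr` : the contraction of an ideal of `B₁` to `B₀`;
* `h91a_contr_isPrime`, `h91a_contr_isMaximal`, `h91a_contr_inj`;
* `h91a_gen_transfer` : transfer of local generation;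
* `h91a_regAt_transfer` : **the transfer of `H62RegAt`**.

Mathlib + `S36/H62RegIface.lean` only.
-/

set_option autoImplicit false
set_option linter.unusedSectionVars false
set_option linter.style.haveILetI false

namespace Fermat.Agent.S36

section In

variable {F : Type*} [Field F]

/-- membership in an ideal of a subring, as a predicate on the ambient field. -/
def h91aIn (B : Subring F) (I : Ideal B) (x : F) : Prop :=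
  ∃ h : x ∈ B, (⟨x, h⟩ : B) ∈ I

theorem h91aIn_coe {B : Subring F} {I : Ideal B} (x : B) :
    h91aIn B I (x : F) ↔ x ∈ I :=
  ⟨fun ⟨_, h⟩ => h, fun h => ⟨x.2, h⟩⟩

theorem h91aIn_mk {B : Subring F} {I : Ideal B} {x : F} (hx : x ∈ B) :
    h91aIn B I x ↔ (⟨x, hx⟩ : B) ∈ I :=
  ⟨fun ⟨_, h⟩ => h, fun h => ⟨hx, h⟩⟩

theorem h91aIn.mem {B : Subring F} {I : Ideal B} {x : F} (h : h91aIn B I x) : x ∈ B :=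
  h.1

theorem h91aIn_zero {B : Subring F} {I : Ideal B} : h91aIn B I 0 :=
  ⟨B.zero_mem, I.zero_mem⟩

theorem h91aIn.add {B : Subring F} {I : Ideal B} {x y : F} (hx : h91aIn B I x)
    (hy : h91aIn B I y) : h91aIn B I (x + y) := by
  obtain ⟨hx, hx'⟩ := hx
  obtain ⟨hy, hy'⟩ := hy
  exact ⟨B.add_mem hx hy, I.add_mem hx' hy'⟩

theorem h91aIn.neg {B : Subring F} {I : Ideal B} {x : F} (hx : h91aIn B I x) :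
    h91aIn B I (-x) := by
  obtain ⟨hx, hx'⟩ := hx
  exact ⟨B.neg_mem hx, I.neg_mem hx'⟩

theorem h91aIn.mul_left {B : Subring F} {I : Ideal B} {r x : F} (hr : r ∈ B)
    (hx : h91aIn B I x) : h91aIn B I (r * x) := by
  obtain ⟨hx, hx'⟩ := hx
  exact ⟨B.mul_mem hr hx, I.mul_mem_left ⟨r, hr⟩ hx'⟩

theorem h91aIn.mono {B : Subring F} {I J : Ideal B} (hIJ : I ≤ J) {x : F}
    (hx : h91aIn B I x) : h91aIn B J x := by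
  obtain ⟨hx, hx'⟩ := hx
  exact ⟨hx, hIJ hx'⟩

theorem h91aIn_of_mul {B : Subring F} {I : Ideal B} [hI : I.IsPrime] {r x : F}
    (hr : r ∈ B) (hrI : ¬ h91aIn B I r) (hx : x ∈ B) (h : h91aIn B I (r * x)) :
    h91aIn B I x := by
  obtain ⟨h1, h2⟩ := h
  have h3 : (⟨r, hr⟩ : B) * ⟨x, hx⟩ ∈ I := h2
  rcases hI.mem_or_mem h3 with h4 | h4
  · exact absurd ⟨hr, h4⟩ hrI
  · exact ⟨hx, h4⟩

theorem h91a_not_In_pow {B : Subring F} {I : Ideal B} [hI : I.IsPrime] {r : F}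
    (hr : r ∈ B) (hrI : ¬ h91aIn B I r) (n : ℕ) : ¬ h91aIn B I (r ^ n) := by
  rintro ⟨h1, h2⟩
  have h3 : (⟨r, hr⟩ : B) ^ n ∈ I := h2
  exact hrI ⟨hr, hI.mem_of_pow_mem n h3⟩

end In

section Contr

variable {F : Type*} [Field F] (B₀ B₁ : Subring F) (t : F)

/-- the contraction of an ideal of `B₁` to `B₀` through the overlap. -/
def h91aContr (ht₁ : t⁻¹ ∈ B₁) (hs₁ : ∀ y ∈ B₀, ∃ n : ℕ, t⁻¹ ^ n * y ∈ B₁) (I : Ideal B₁) :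
    Ideal B₀ where
  carrier := {b | ∃ n : ℕ, h91aIn B₁ I (t⁻¹ ^ n * (b : F))}
  add_mem' := by
    rintro a b ⟨m, hm⟩ ⟨n, hn⟩
    refine ⟨m + n, ?_⟩
    have h1 : t⁻¹ ^ (m + n) * ((a + b : B₀) : F) =
        t⁻¹ ^ n * (t⁻¹ ^ m * (a : F)) + t⁻¹ ^ m * (t⁻¹ ^ n * (b : F)) := by
      push_cast; ring
    rw [h1]
    exact (hm.mul_left (B₁.pow_mem ht₁ n)).add (hn.mul_left (B₁.pow_mem ht₁ m))
  zero_mem' := ⟨0, by simpa using h91aIn_zero⟩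
  smul_mem' := by
    rintro r b ⟨n, hn⟩
    obtain ⟨k, hk⟩ := hs₁ r r.2
    refine ⟨k + n, ?_⟩
    have h1 : t⁻¹ ^ (k + n) * ((r • b : B₀) : F) = (t⁻¹ ^ k * (r : F)) * (t⁻¹ ^ n * (b : F)) := by
      rw [smul_eq_mul]; push_cast; ring
    rw [h1]
    exact hn.mul_left hk

variable {B₀ B₁ t}

theorem h91a_mem_contr {ht₁ : t⁻¹ ∈ B₁} {hs₁ : ∀ y ∈ B₀, ∃ n : ℕ, t⁻¹ ^ n * y ∈ B₁}
    {I : Ideal B₁} {b : B₀} :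
    b ∈ h91aContr B₀ B₁ t ht₁ hs₁ I ↔ ∃ n : ℕ, h91aIn B₁ I (t⁻¹ ^ n * (b : F)) :=
  Iff.rfl

/-- the key lemma: membership in the contraction can be tested with any admissible exponent. -/
theorem h91a_mem_contr_iff {ht₁ : t⁻¹ ∈ B₁} {hs₁ : ∀ y ∈ B₀, ∃ n : ℕ, t⁻¹ ^ n * y ∈ B₁}
    {I : Ideal B₁} [hI : I.IsPrime] (htI : ¬ h91aIn B₁ I t⁻¹) {b : B₀} {n : ℕ}
    (h : t⁻¹ ^ n * (b : F) ∈ B₁) :
    b ∈ h91aContr B₀ B₁ t ht₁ hs₁ I ↔ h91aIn B₁ I (t⁻¹ ^ n * (b : F)) := by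
  constructor
  · rintro ⟨m, hm⟩
    have h1 : h91aIn B₁ I (t⁻¹ ^ m * (t⁻¹ ^ n * (b : F))) := by
      have h2 : t⁻¹ ^ m * (t⁻¹ ^ n * (b : F)) = t⁻¹ ^ n * (t⁻¹ ^ m * (b : F)) := by ring
      rw [h2]
      exact hm.mul_left (B₁.pow_mem ht₁ n)
    exact h91aIn_of_mul (B₁.pow_mem ht₁ m) (h91a_not_In_pow ht₁ htI m) h h1
  · intro h1
    exact ⟨n, h1⟩

theorem h91a_one_not_mem_contr {ht₁ : t⁻¹ ∈ B₁} {hs₁ : ∀ y ∈ B₀, ∃ n : ℕ, t⁻¹ ^ n * y ∈ B₁}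
    {I : Ideal B₁} [hI : I.IsPrime] (htI : ¬ h91aIn B₁ I t⁻¹) :
    (1 : B₀) ∉ h91aContr B₀ B₁ t ht₁ hs₁ I := by
  intro h
  have h0 : t⁻¹ ^ 0 * ((1 : B₀) : F) ∈ B₁ := by
    rw [pow_zero, one_mul]; exact B₁.one_mem
  have h1 := (h91a_mem_contr_iff htI h0).1 h
  obtain ⟨h2, h3⟩ := h1
  apply hI.ne_top
  rw [Ideal.eq_top_iff_one]
  have h4 : (⟨t⁻¹ ^ 0 * ((1 : B₀) : F), h2⟩ : B₁) = 1 := by
    apply Subtype.ext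
    simp
  rwa [h4] at h3

theorem h91a_contr_isPrime {ht₁ : t⁻¹ ∈ B₁} {hs₁ : ∀ y ∈ B₀, ∃ n : ℕ, t⁻¹ ^ n * y ∈ B₁}
    {I : Ideal B₁} [hI : I.IsPrime] (htI : ¬ h91aIn B₁ I t⁻¹) :
    (h91aContr B₀ B₁ t ht₁ hs₁ I).IsPrime := by
  refine ⟨fun h => h91a_one_not_mem_contr htI ((Ideal.eq_top_iff_one _).1 h), ?_⟩
  intro x y hxy
  obtain ⟨n, hn⟩ := hs₁ x x.2
  obtain ⟨m, hm⟩ := hs₁ y y.2
  have h1 : t⁻¹ ^ (n + m) * ((x * y : B₀) : F) = (t⁻¹ ^ n * (x : F)) * (t⁻¹ ^ m * (y : F)) := by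
    push_cast; ring
  have h2 : t⁻¹ ^ (n + m) * ((x * y : B₀) : F) ∈ B₁ := by
    rw [h1]; exact B₁.mul_mem hn hm
  have h3 := (h91a_mem_contr_iff htI h2).1 hxy
  obtain ⟨h4, h5⟩ := h3
  have h6 : (⟨t⁻¹ ^ (n + m) * ((x * y : B₀) : F), h4⟩ : B₁) =
      (⟨t⁻¹ ^ n * (x : F), hn⟩ : B₁) * ⟨t⁻¹ ^ m * (y : F), hm⟩ := Subtype.ext h1
  rw [h6] at h5
  rcases hI.mem_or_mem h5 with h7 | h7
  · exact Or.inl ⟨n, hn, h7⟩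
  · exact Or.inr ⟨m, hm, h7⟩

theorem h91a_contr_mono {ht₁ : t⁻¹ ∈ B₁} {hs₁ : ∀ y ∈ B₀, ∃ n : ℕ, t⁻¹ ^ n * y ∈ B₁}
    {I J : Ideal B₁} (hIJ : I ≤ J) :
    h91aContr B₀ B₁ t ht₁ hs₁ I ≤ h91aContr B₀ B₁ t ht₁ hs₁ J := by
  rintro b ⟨n, hn⟩
  exact ⟨n, hn.mono hIJ⟩

theorem h91a_inv_pow_mul_pow (ht : t ≠ 0) (m : ℕ) : t⁻¹ ^ m * t ^ m = 1 := by
  rw [← mul_pow, inv_mul_cancel₀ ht, one_pow]

/-- an ideal of `B₁` is determined below by its contraction. -/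
theorem h91a_le_of_contr_le (ht : t ≠ 0) {ht₁ : t⁻¹ ∈ B₁}
    (hs₀ : ∀ y ∈ B₁, ∃ n : ℕ, t ^ n * y ∈ B₀)
    {hs₁ : ∀ y ∈ B₀, ∃ n : ℕ, t⁻¹ ^ n * y ∈ B₁}
    {I J : Ideal B₁} [hJ : J.IsPrime] (htJ : ¬ h91aIn B₁ J t⁻¹)
    (h : h91aContr B₀ B₁ t ht₁ hs₁ I ≤ h91aContr B₀ B₁ t ht₁ hs₁ J) : I ≤ J := by
  intro z hz
  obtain ⟨m, hm⟩ := hs₀ z z.2
  have h1 : t⁻¹ ^ m * ((⟨t ^ m * (z : F), hm⟩ : B₀) : F) = (z : F) := by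
    change t⁻¹ ^ m * (t ^ m * (z : F)) = (z : F)
    rw [← mul_assoc, h91a_inv_pow_mul_pow ht, one_mul]
  have hz₀ : (⟨t ^ m * (z : F), hm⟩ : B₀) ∈ h91aContr B₀ B₁ t ht₁ hs₁ I := by
    refine ⟨m, ?_⟩
    rw [h1, h91aIn_coe]
    exact hz
  have h2 := h hz₀
  have h3 : t⁻¹ ^ m * ((⟨t ^ m * (z : F), hm⟩ : B₀) : F) ∈ B₁ := by
    rw [h1]; exact z.2
  have h4 := (h91a_mem_contr_iff htJ h3).1 h2
  rw [h1, h91aIn_coe] at h4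
  exact h4

/-- the contraction is injective on the prime ideals which do not contain `t⁻¹`. -/
theorem h91a_contr_inj (ht : t ≠ 0) {ht₁ : t⁻¹ ∈ B₁}
    (hs₀ : ∀ y ∈ B₁, ∃ n : ℕ, t ^ n * y ∈ B₀)
    {hs₁ : ∀ y ∈ B₀, ∃ n : ℕ, t⁻¹ ^ n * y ∈ B₁}
    {I J : Ideal B₁} [hI : I.IsPrime] [hJ : J.IsPrime] (htI : ¬ h91aIn B₁ I t⁻¹)
    (htJ : ¬ h91aIn B₁ J t⁻¹)
    (h : h91aContr B₀ B₁ t ht₁ hs₁ I = h91aContr B₀ B₁ t ht₁ hs₁ J) : I = J :=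
  le_antisymm (h91a_le_of_contr_le ht hs₀ htJ h.le) (h91a_le_of_contr_le ht hs₀ htI h.ge)

/-- the contraction of a maximal ideal `𝔫 ∌ t⁻¹` is maximal as soon as `t` is invertible
modulo the contraction. -/
theorem h91a_contr_isMaximal (ht : t ≠ 0) (ht₀ : t ∈ B₀) (ht₁ : t⁻¹ ∈ B₁)
    (hs₀ : ∀ y ∈ B₁, ∃ n : ℕ, t ^ n * y ∈ B₀)
    (hs₁ : ∀ y ∈ B₀, ∃ n : ℕ, t⁻¹ ^ n * y ∈ B₁)
    (𝔫 : Ideal B₁) [h𝔫 : 𝔫.IsMaximal] (htn : ¬ h91aIn B₁ 𝔫 t⁻¹)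
    (hinv : ∃ c : F, c ∈ B₀ ∧ ∃ k : ℕ, h91aIn B₁ 𝔫 (t⁻¹ ^ k * (t * c - 1))) :
    (h91aContr B₀ B₁ t ht₁ hs₁ 𝔫).IsMaximal := by
  classical
  have : 𝔫.IsPrime := h𝔫.isPrime
  obtain ⟨c, hc, k₀, hk₀⟩ := hinv
  have ht' : (⟨t, ht₀⟩ : B₀) * ⟨c, hc⟩ - 1 ∈ h91aContr B₀ B₁ t ht₁ hs₁ 𝔫 := ⟨k₀, hk₀⟩
  rw [Ideal.isMaximal_iff]
  refine ⟨h91a_one_not_mem_contr htn, ?_⟩
  intro J x hJ hx hxJ
  obtain ⟨k, hk⟩ := hs₁ x x.2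
  have hx₁ : ¬ h91aIn B₁ 𝔫 (t⁻¹ ^ k * (x : F)) := fun h =>
    hx ((h91a_mem_contr_iff htn hk).2 h)
  have hx₁' : (⟨t⁻¹ ^ k * (x : F), hk⟩ : B₁) ∉ 𝔫 := fun h => hx₁ ⟨hk, h⟩
  obtain ⟨c', i, hi, hci⟩ := h𝔫.exists_inv hx₁'
  obtain ⟨m, hm'⟩ := hs₀ c' c'.2
  have hci' : (c' : F) * (t⁻¹ ^ k * (x : F)) + (i : F) = 1 := by
    have := congrArg (fun b : B₁ => (b : F)) hci
    simpa using this
  have hmem : x * (⟨t ^ m * (c' : F), hm'⟩ : B₀) - (⟨t, ht₀⟩ : B₀) ^ (m + k) ∈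
      h91aContr B₀ B₁ t ht₁ hs₁ 𝔫 := by
    refine ⟨m + k, ?_⟩
    have h1 : t⁻¹ ^ (m + k) *
        ((x * (⟨t ^ m * (c' : F), hm'⟩ : B₀) - (⟨t, ht₀⟩ : B₀) ^ (m + k) : B₀) : F) =
        -(i : F) := by
      push_cast
      have h2 := h91a_inv_pow_mul_pow ht (m + k)
      have h3 := h91a_inv_pow_mul_pow ht m
      have h4 : t⁻¹ ^ (m + k) * ((x : F) * (t ^ m * (c' : F)) - t ^ (m + k)) =
          (t⁻¹ ^ m * t ^ m) * ((c' : F) * (t⁻¹ ^ k * (x : F))) - t⁻¹ ^ (m + k) * t ^ (m + k) := by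
        ring
      rw [h4, h2, h3, one_mul]
      linear_combination hci'
    rw [h1]
    exact ((h91aIn_coe i).2 hi).neg
  have htJ : (⟨t, ht₀⟩ : B₀) ^ (m + k) ∈ J := by
    have h1 := J.sub_mem (J.mul_mem_right (⟨t ^ m * (c' : F), hm'⟩ : B₀) hxJ) (hJ hmem)
    simpa using h1
  have h1 : (Ideal.Quotient.mk J (⟨t, ht₀⟩ : B₀)) * Ideal.Quotient.mk J ⟨c, hc⟩ = 1 := by
    rw [← map_mul, ← map_one (Ideal.Quotient.mk J), ← sub_eq_zero, ← map_sub,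
      Ideal.Quotient.eq_zero_iff_mem]
    exact hJ ht'
  have h2 : (Ideal.Quotient.mk J (⟨t, ht₀⟩ : B₀)) ^ (m + k) = 0 := by
    rw [← map_pow, Ideal.Quotient.eq_zero_iff_mem]
    exact htJ
  have h3 : (1 : B₀ ⧸ J) = 0 := by
    calc (1 : B₀ ⧸ J)
        = ((Ideal.Quotient.mk J (⟨t, ht₀⟩ : B₀)) * Ideal.Quotient.mk J ⟨c, hc⟩) ^ (m + k) := by
          rw [h1, one_pow]
      _ = 0 := by rw [mul_pow, h2, zero_mul]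
  rw [← map_one (Ideal.Quotient.mk J), Ideal.Quotient.eq_zero_iff_mem] at h3
  exact h3

/-- transfer of local generation from the contraction `𝔫₀` to `𝔫`. -/
theorem h91a_gen_transfer (ht : t ≠ 0) (ht₁ : t⁻¹ ∈ B₁)
    (hs₀ : ∀ y ∈ B₁, ∃ n : ℕ, t ^ n * y ∈ B₀)
    (hs₁ : ∀ y ∈ B₀, ∃ n : ℕ, t⁻¹ ^ n * y ∈ B₁)
    (𝔫 : Ideal B₁) [h𝔫 : 𝔫.IsPrime] (htn : ¬ h91aIn B₁ 𝔫 t⁻¹)
    (S₀ : Set B₀) (I₁ : Ideal B₁)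
    (hS : ∀ g ∈ S₀, ∃ n : ℕ, h91aIn B₁ I₁ (t⁻¹ ^ n * (g : F)))
    (hgen : ∀ z ∈ h91aContr B₀ B₁ t ht₁ hs₁ 𝔫, ∃ s, s ∉ h91aContr B₀ B₁ t ht₁ hs₁ 𝔫 ∧
      s * z ∈ Ideal.span S₀) :
    ∀ z ∈ 𝔫, ∃ s, s ∉ 𝔫 ∧ s * z ∈ I₁ := by
  intro z hz
  obtain ⟨m, hm⟩ := hs₀ z z.2
  have hz₀ : (⟨t ^ m * (z : F), hm⟩ : B₀) ∈ h91aContr B₀ B₁ t ht₁ hs₁ 𝔫 := by
    refine ⟨m, ?_⟩
    have h1 : t⁻¹ ^ m * ((⟨t ^ m * (z : F), hm⟩ : B₀) : F) = (z : F) := by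
      change t⁻¹ ^ m * (t ^ m * (z : F)) = (z : F)
      rw [← mul_assoc, h91a_inv_pow_mul_pow ht, one_mul]
    rw [h1, h91aIn_coe]
    exact hz
  obtain ⟨s₀, hs₀n, hs₀z⟩ := hgen _ hz₀
  have hle : Ideal.span S₀ ≤ h91aContr B₀ B₁ t ht₁ hs₁ I₁ := Ideal.span_le.2 fun g hg => hS g hg
  obtain ⟨n, hn⟩ := hle hs₀z
  obtain ⟨k, hk⟩ := hs₁ s₀ s₀.2
  have hs₁n : ¬ h91aIn B₁ 𝔫 (t⁻¹ ^ k * (s₀ : F)) := fun h =>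
    hs₀n ((h91a_mem_contr_iff htn hk).2 h)
  have hsmem : t⁻¹ ^ n * (t⁻¹ ^ k * (s₀ : F)) ∈ B₁ := B₁.mul_mem (B₁.pow_mem ht₁ n) hk
  refine ⟨⟨t⁻¹ ^ n * (t⁻¹ ^ k * (s₀ : F)), hsmem⟩, ?_, ?_⟩
  · intro h
    have h1 : h91aIn B₁ 𝔫 (t⁻¹ ^ n * (t⁻¹ ^ k * (s₀ : F))) := ⟨hsmem, h⟩
    exact hs₁n (h91aIn_of_mul (B₁.pow_mem ht₁ n) (h91a_not_In_pow ht₁ htn n) hk h1)
  · have h1 : (((⟨t⁻¹ ^ n * (t⁻¹ ^ k * (s₀ : F)), hsmem⟩ : B₁) * z : B₁) : F) =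
        t⁻¹ ^ (k + m) * (t⁻¹ ^ n * ((s₀ * (⟨t ^ m * (z : F), hm⟩ : B₀) : B₀) : F)) := by
      push_cast
      have h3 := h91a_inv_pow_mul_pow ht m
      have h4 : t⁻¹ ^ (k + m) * (t⁻¹ ^ n * ((s₀ : F) * (t ^ m * (z : F)))) =
          (t⁻¹ ^ m * t ^ m) * (t⁻¹ ^ n * (t⁻¹ ^ k * (s₀ : F)) * (z : F)) := by ring
      rw [h4, h3, one_mul]
    have h2 := hn.mul_left (B₁.pow_mem ht₁ (k + m))
    rw [← h1, h91aIn_coe] at h2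
    exact h2

end Contr

section Main

variable {F : Type*} [Field F] {B₀ B₁ : Subring F} {t : F}

/-- **Overlap transfer of `H62RegAt`.**  `B₀ ∋ t`, `B₁ ∋ t⁻¹` with the two scaling properties,
`𝔫` a maximal ideal of `B₁` with `t⁻¹ ∉ 𝔫` such that `t` is invertible modulo the contraction;
`π₀ ∈ B₀`, `π₁ ∈ B₁` the same element of `F`.  If `H62RegAt 𝔫₀ π₀` holds at every maximal ideal
`𝔫₀ ∋ π₀` of `B₀`, then `H62RegAt 𝔫 π₁`. -/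
theorem h91a_regAt_transfer (ht : t ≠ 0) (ht₀ : t ∈ B₀) (ht₁ : t⁻¹ ∈ B₁)
    (hs₀ : ∀ y ∈ B₁, ∃ n : ℕ, t ^ n * y ∈ B₀)
    (hs₁ : ∀ y ∈ B₀, ∃ n : ℕ, t⁻¹ ^ n * y ∈ B₁)
    (π₀ : B₀) (π₁ : B₁) (hπ : (π₀ : F) = (π₁ : F))
    (𝔫 : Ideal B₁) (h𝔫 : 𝔫.IsMaximal) (hπ𝔫 : π₁ ∈ 𝔫) (htn : (⟨t⁻¹, ht₁⟩ : B₁) ∉ 𝔫)
    (hinv : ∃ c : F, c ∈ B₀ ∧ ∃ k : ℕ,
      ∃ h : t⁻¹ ^ k * (t * c - 1) ∈ B₁, (⟨t⁻¹ ^ k * (t * c - 1), h⟩ : B₁) ∈ 𝔫)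
    (hreg : ∀ 𝔫₀ : Ideal B₀, 𝔫₀.IsMaximal → π₀ ∈ 𝔫₀ → H62RegAt 𝔫₀ π₀) :
    H62RegAt 𝔫 π₁ := by
  classical
  have hprime : 𝔫.IsPrime := h𝔫.isPrime
  have htn' : ¬ h91aIn B₁ 𝔫 t⁻¹ := fun h => htn h.2
  set 𝔫₀ := h91aContr B₀ B₁ t ht₁ hs₁ 𝔫 with h𝔫₀
  have hmax₀ : 𝔫₀.IsMaximal := h91a_contr_isMaximal ht ht₀ ht₁ hs₀ hs₁ 𝔫 htn' hinv
  -- `π₀` scales to `π₁`
  have hπscale : ∀ I : Ideal B₁, π₁ ∈ I → π₀ ∈ h91aContr B₀ B₁ t ht₁ hs₁ I := by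
    intro I hI
    refine ⟨0, ?_⟩
    rw [pow_zero, one_mul, hπ, h91aIn_coe]
    exact hI
  have hπ₀ : π₀ ∈ 𝔫₀ := hπscale 𝔫 hπ𝔫
  have hR := hreg 𝔫₀ hmax₀ hπ₀
  -- the primes below `𝔫`
  have hbelow : ∀ P : Ideal B₁, P ≤ 𝔫 → ¬ h91aIn B₁ P t⁻¹ := fun P hP h => htn' (h.mono hP)
  have hne : ∀ P : Ideal B₁, P.IsPrime → P ≤ 𝔫 → P ≠ 𝔫 →
      h91aContr B₀ B₁ t ht₁ hs₁ P ≠ 𝔫₀ := by
    intro P hP hle hne h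
    haveI := hP
    exact hne (h91a_contr_inj ht hs₀ (hbelow P hle) htn' h)
  -- transfer of membership in a contraction
  have hmemP : ∀ (P : Ideal B₁) (I₁ : Ideal B₁), P ≤ I₁ →
      ∀ g ∈ ((h91aContr B₀ B₁ t ht₁ hs₁ P : Ideal B₀) : Set B₀),
        ∃ n : ℕ, h91aIn B₁ I₁ (t⁻¹ ^ n * (g : F)) := by
    intro P I₁ hle g hg
    obtain ⟨n, hn⟩ := hg
    exact ⟨n, hn.mono hle⟩
  refine ⟨?_, ?_, ?_⟩
  · -- two generators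
    obtain ⟨x, hx, y, hy, hgen⟩ := hR.two_gen
    obtain ⟨k₁, hk₁⟩ := hs₁ x x.2
    obtain ⟨k₂, hk₂⟩ := hs₁ y y.2
    have hx' : (⟨t⁻¹ ^ k₁ * (x : F), hk₁⟩ : B₁) ∈ 𝔫 := ((h91a_mem_contr_iff htn' hk₁).1 hx).2
    have hy' : (⟨t⁻¹ ^ k₂ * (y : F), hk₂⟩ : B₁) ∈ 𝔫 := ((h91a_mem_contr_iff htn' hk₂).1 hy).2
    refine ⟨⟨t⁻¹ ^ k₁ * (x : F), hk₁⟩, hx', ⟨t⁻¹ ^ k₂ * (y : F), hk₂⟩, hy', ?_⟩
    refine h91a_gen_transfer ht ht₁ hs₀ hs₁ 𝔫 htn' {x, y} _ ?_ hgen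
    rintro g (hg | hg)
    · subst hg
      exact ⟨k₁, hk₁, Ideal.subset_span (Set.mem_insert _ _)⟩
    · rw [Set.mem_singleton_iff] at hg
      subst hg
      exact ⟨k₂, hk₂, Ideal.subset_span (Set.mem_insert_of_mem _ rfl)⟩
  · -- branches
    intro P hP hπP hle hPne
    haveI := hP
    have hP₀ : (h91aContr B₀ B₁ t ht₁ hs₁ P).IsPrime := h91a_contr_isPrime (hbelow P hle)
    obtain ⟨t₀, ht₀𝔫, hgen⟩ := hR.branch (h91aContr B₀ B₁ t ht₁ hs₁ P) hP₀ (hπscale P hπP)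
      (h91a_contr_mono hle) (hne P hP hle hPne)
    obtain ⟨k, hk⟩ := hs₁ t₀ t₀.2
    have ht₀' : (⟨t⁻¹ ^ k * (t₀ : F), hk⟩ : B₁) ∈ 𝔫 :=
      ((h91a_mem_contr_iff htn' hk).1 ht₀𝔫).2
    refine ⟨⟨t⁻¹ ^ k * (t₀ : F), hk⟩, ht₀', ?_⟩
    refine h91a_gen_transfer ht ht₁ hs₀ hs₁ 𝔫 htn'
      (((h91aContr B₀ B₁ t ht₁ hs₁ P : Ideal B₀) : Set B₀) ∪ {t₀}) _ ?_ ?_
    · rintro g (hg | hg)
      · exact hmemP P _ le_sup_left g hg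
      · rw [Set.mem_singleton_iff] at hg
        subst hg
        exact ⟨k, hk, Ideal.mem_sup_right (Ideal.subset_span rfl)⟩
    · intro z hz
      obtain ⟨s, hs, hsz⟩ := hgen z hz
      refine ⟨s, hs, ?_⟩
      rw [Ideal.span_union, Ideal.span_eq]
      exact hsz
  · -- transversality
    intro P P' hP hP' hπP hπP' hle hle' hPne hPne' hPP' 
    haveI := hP
    haveI := hP'
    have hP₀ : (h91aContr B₀ B₁ t ht₁ hs₁ P).IsPrime := h91a_contr_isPrime (hbelow P hle)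
    have hP₀' : (h91aContr B₀ B₁ t ht₁ hs₁ P').IsPrime := h91a_contr_isPrime (hbelow P' hle')
    have hdiff : h91aContr B₀ B₁ t ht₁ hs₁ P ≠ h91aContr B₀ B₁ t ht₁ hs₁ P' := fun h =>
      hPP' (h91a_contr_inj ht hs₀ (hbelow P hle) (hbelow P' hle') h)
    have hgen := hR.transversal _ _ hP₀ hP₀' (hπscale P hπP) (hπscale P' hπP')
      (h91a_contr_mono hle) (h91a_contr_mono hle') (hne P hP hle hPne) (hne P' hP' hle' hPne')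
      hdiff
    refine h91a_gen_transfer ht ht₁ hs₀ hs₁ 𝔫 htn'
      (((h91aContr B₀ B₁ t ht₁ hs₁ P : Ideal B₀) : Set B₀) ∪
        ((h91aContr B₀ B₁ t ht₁ hs₁ P' : Ideal B₀) : Set B₀)) _ ?_ ?_
    · rintro g (hg | hg)
      · exact hmemP P _ le_sup_left g hg
      · exact hmemP P' _ le_sup_right g hg
    · intro z hz
      obtain ⟨s, hs, hsz⟩ := hgen z hz
      refine ⟨s, hs, ?_⟩
      rw [Ideal.span_union, Ideal.span_eq, Ideal.span_eq]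
      exact hsz

end Main

end Fermat.Agent.S36
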