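import Fermat.Agent.S36.H92Chain
import Fermat.Agent.S36.H86Iface

/-!
# S36, GEOM36: the bridge between the two landed contracts (helper92)

Two chains to `InertiaGate` are landed:

* `S36/H86Iface.lean` + `S36/H86GateAsm.lean` (helper86):
  `H86NormalForm → H86GateCore → H86GateFixed → InertiaGate`, in the vocabulary of the
  `q`-expansions (`h86g_CongAll`: Gauss congruences modulo `𝔪_A` of the expansions `E20`, `E02`,
  `E11^ζ`);
* `S36/H92Chain.lean`: `H92Desc → H92Vert → H92Loc → H92Gate → InertiaGate`, in the vocabulary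
  of the normal model over `A₀` (`h92c_U = 1 + q V₀`, charts, semi-local datum).

`H92Bridge` is the passage from the first vocabulary to the second: an `I`-fixed function which
is Gauss-congruent to `1` at the three vertical valuations is, up to the `m`-th power of an
`I`-fixed function, in `1 + q V₀`.  (At `W₂₀`, `W₀₂`: `K₀` is unramified, so a congruence modulo
`𝔪_A` of `K₀`-rational expansions is a congruence modulo `q`.  At `W₁₁` (`e = q - 1`): the
group `(1 + J) / (1 + q V₀)` is uniquely `m`-divisible.  The expansions detect `V`: V-EXACT.)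

* `h92c_vert_of : H86NormalForm → H92Bridge → H92Vert`;
* `h92c_core_of : H92Bridge → H92Loc → H92Gate → H86GateCore`.

So the open leaves of GEOM36 are exactly: `H86NormalForm` (row NF), `H92Bridge` (row BRIDGE),
`H92Loc` (row H92LOC), `H92Gate` (row H92GATE).
-/

set_option autoImplicit false

open AlgebraicCurve ModularCurve

noncomputable section

namespace Fermat.Agent.S36

open Fermat.Agent.S37 (Kbar GQ FF cst jB gal modelAt degen auxLevel)
open Fermat.Agent.Red.KR (normAlong)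

/-- **BRIDGE.**  An `I`-fixed function which is Gauss-congruent to `1` at the three vertical
valuations is, up to the `m`-th power of an `I`-fixed function, in `1 + q V₀`. -/
def H92Bridge : Prop :=
  ∀ (q : ℕ) (hq : q.Prime) (M : ℕ) [NeZero M] (hqM : ¬ q ∣ M), auxLevel q ∣ M →
    haveI : NeZero q := ⟨hq.ne_zero⟩
    ∀ A : ValuationSubring Kbar, A.LiesOverPrime q →
    ∀ m : ℕ, ¬ q ∣ m → ∀ w : FF (M * q * q), w ≠ 0 → w ∈ h92c_F0 A (M * q * q) →
      h86g_CongAll M q hq hqM A w →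
        ∃ g : FF (M * q * q), g ≠ 0 ∧ g ∈ h92c_F0 A (M * q * q) ∧ w * g ^ m ∈ h92c_U A M q

/-- `H92Vert` from the normal form and the bridge. -/
theorem h92c_vert_of (hNF : H86NormalForm) (hB : H92Bridge) : H92Vert := by
  intro q hq M _ hqM haux
  haveI : NeZero q := ⟨hq.ne_zero⟩
  intro A hA
  obtain ⟨t, ht, hNF'⟩ := hNF q hq M hqM haux A hA
  refine ⟨t, ht, ?_⟩
  intro m hm u huF hnew
  have hm0 : 0 < m := Nat.pos_of_ne_zero (fun h => hm (h ▸ dvd_zero q))
  obtain ⟨c, g, hc, hg, hfix, hcong⟩ :=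
    hNF' m hm u hnew.1 hnew.2.1 (fun σ hσ => huF σ hσ) hnew.2.2.1 hnew.2.2.2
  have hw0 : cst (M * q * q) c * u ^ t * g ^ m ≠ 0 :=
    mul_ne_zero (mul_ne_zero (by simpa using hc) (pow_ne_zero _ hnew.1)) (pow_ne_zero _ hg)
  obtain ⟨g', hg', hg'F, hU⟩ := hB q hq M hqM haux A hA m hm _ hw0 (fun σ hσ => hfix σ hσ) hcong
  obtain ⟨c', hc'⟩ := IsAlgClosed.exists_pow_nat_eq c hm0
  have hc'0 : c' ≠ 0 := by
    rintro rfl
    rw [zero_pow hm0.ne'] at hc'
    exact hc hc'.symm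
  have hcst : cst (M * q * q) c' ≠ 0 := by simpa using hc'0
  have hcc : cst (M * q * q) c = cst (M * q * q) c' ^ m := by
    rw [← hc']
    exact map_pow (algebraMap Kbar (FF (M * q * q))) c' m
  refine ⟨(cst (M * q * q) c' * g * g')⁻¹, cst (M * q * q) c * u ^ t * g ^ m * g' ^ m,
    inv_ne_zero (mul_ne_zero (mul_ne_zero hcst hg) hg'),
    mul_mem (fun σ hσ => hfix σ hσ) (pow_mem hg'F _), hU, ?_⟩
  rw [hcc, inv_pow, mul_pow, mul_pow]
  have h1 : cst (M * q * q) c' ^ m ≠ 0 := pow_ne_zero _ hcst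
  have h2 : g ^ m ≠ 0 := pow_ne_zero _ hg
  have h3 : g' ^ m ≠ 0 := pow_ne_zero _ hg'
  field_simp

/-- the composite of `H92Loc` and `H92Gate`. -/
theorem h92c_locGate (hL : H92Loc) (hG : H92Gate)
    (q : ℕ) (hq : q.Prime) (M : ℕ) [NeZero M] (hqM : ¬ q ∣ M) (haux : auxLevel q ∣ M)
    (A : ValuationSubring Kbar) (hA : A.LiesOverPrime q) :
    haveI : NeZero q := ⟨hq.ne_zero⟩
    ∃ t : ℕ, 0 < t ∧ ∀ m : ℕ, ¬ q ∣ m → ∀ w : FF (M * q * q),
      w ∈ h92c_F0 A (M * q * q) → w ∈ h92c_U A M q → h92c_New M q m w →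
        ∃ h : FF (M * q * q), h ^ m = w ^ t := by
  haveI : NeZero q := ⟨hq.ne_zero⟩
  obtain ⟨t, ht, hL'⟩ := hL q hq M hqM haux A hA
  refine ⟨t, ht, ?_⟩
  intro m hm w hwF hwU hnew
  obtain ⟨f, hfF, hf, hw'U, hloc₀, hloc₁⟩ := hL' m hm w hwF hwU hnew
  have hw0 : w ≠ 0 := hnew.1
  have hw'0 : w ^ t * f ^ m ≠ 0 := mul_ne_zero (pow_ne_zero _ hw0) (pow_ne_zero _ hf)
  have hw'F : w ^ t * f ^ m ∈ h92c_F0 A (M * q * q) :=
    mul_mem (pow_mem hwF _) (pow_mem hfF _)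
  have hw'ord : ∀ v : Place Kbar (FF (M * q * q)), (m : ℤ) ∣ v.ord (w ^ t * f ^ m) := by
    intro v
    rw [v.ord_mul (pow_ne_zero _ hw0) (pow_ne_zero _ hf), h92c_ord_pow, h92c_ord_pow]
    exact dvd_add (Dvd.dvd.mul_left (hnew.2.1 v) _) (dvd_mul_right _ _)
  obtain ⟨h, hh⟩ := hG q hq M hqM haux A hA m hm _ hw'0 hw'F hw'U hw'ord hloc₀ hloc₁
  refine ⟨h * f⁻¹, ?_⟩
  rw [mul_pow, hh, inv_pow]
  exact mul_inv_cancel_right₀ (pow_ne_zero m hf) _

/-- `H86GateCore` from the bridge, `H92Loc` and `H92Gate`. -/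
theorem h92c_core_of (hB : H92Bridge) (hL : H92Loc) (hG : H92Gate) : H86GateCore := by
  intro q hq M _ hqM haux
  haveI : NeZero q := ⟨hq.ne_zero⟩
  intro A hA
  obtain ⟨t, ht, hLG⟩ := h92c_locGate hL hG q hq M hqM haux A hA
  refine ⟨t, ht, ?_⟩
  intro m hm w hw hord hfix hcong hα hβ
  obtain ⟨g, hg, hgF, hU⟩ := hB q hq M hqM haux A hA m hm w hw (fun σ hσ => hfix σ hσ) hcong
  have hw₁0 : w * g ^ m ≠ 0 := mul_ne_zero hw (pow_ne_zero _ hg)
  have hw₁F : w * g ^ m ∈ h92c_F0 A (M * q * q) :=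
    mul_mem (fun σ hσ => hfix σ hσ) (pow_mem hgF _)
  have e : w ^ 1 = w * g ^ m * (g⁻¹) ^ m := by
    rw [pow_one, inv_pow]
    exact (mul_inv_cancel_right₀ (pow_ne_zero m hg) _).symm
  have hnew : h92c_New M q m (w * g ^ m) :=
    h92c_new_of_eq hw₁0 (inv_ne_zero hg) e ⟨hw, hord, hα, hβ⟩
  obtain ⟨h, hh⟩ := hLG m hm _ hw₁F hU hnew
  refine ⟨1, h * (g ^ t)⁻¹, ?_⟩
  have h1 : cst (M * q * q) 1 = 1 := map_one (algebraMap Kbar (FF (M * q * q)))
  rw [h1, one_mul, mul_pow, hh, mul_pow, inv_pow, ← pow_mul, ← pow_mul, mul_comm t m]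
  exact (mul_inv_cancel_right₀ (pow_ne_zero _ hg) _).symm

end Fermat.Agent.S36
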