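import Fermat.Agent.S36.H11LocSkel
import Fermat.Agent.S36.H86LocIface

/-!
# S36, row H92LOC: the two landed skeletons of `H92Loc` are wired together (helper92)

* `S36/H11LocSkel.lean` (helper11): `h11l_loc_of : H11LocOrd → H11LocCusp → H11LocTransfer →
  H11LocGlue → H11LocTor → H92Loc`;
* `S36/H86LocIface.lean`, `S36/H86LocOneIface.lean` (helper86): `H86LocOne` (one-branch points
  of both charts) with its six leaves `LOC-*`.

`H11LocOrd` and `H86LocOne` are the same statement (`h11l_OneBranch ↔ ¬ h86l_IsMulti`, the two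
`DatumAt` are definitionally equal): `h92l_ord_of_one`.  Hence

`h92l_loc_of : H86LocOne → H11LocCusp → H11LocTransfer → H11LocGlue → H11LocTor → H92Loc`.
-/

set_option autoImplicit false

open AlgebraicCurve ModularCurve

noncomputable section

namespace Fermat.Agent.S36

open Fermat.Agent.S37 (Kbar GQ FF cst jB gal modelAt degen auxLevel)

theorem h92l_not_multi_of_oneBranch {R : Type*} [CommRing R] {π : R} {𝔫 : Ideal R}
    (h : h11l_OneBranch π 𝔫) : ¬ h86l_IsMulti 𝔫 π := by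
  rintro ⟨P, P', hP, hP', hπP, hπP', hP𝔫, hP'𝔫, hne, hne', hPP'⟩
  exact hPP' (h P P' hP hP' hπP hπP' hP𝔫 hP'𝔫 hne hne')

theorem h92l_oneBranch_of_not_multi {R : Type*} [CommRing R] {π : R} {𝔫 : Ideal R}
    (h : ¬ h86l_IsMulti 𝔫 π) : h11l_OneBranch π 𝔫 := by
  intro P P' hP hP' hπP hπP' hP𝔫 hP'𝔫 hne hne'
  by_contra hPP'
  exact h ⟨P, P', hP, hP', hπP, hπP', hP𝔫, hP'𝔫, hne, hne', hPP'⟩

/-- `H11LocOrd` (helper11) from `H86LocOne` (helper86). -/
theorem h92l_ord_of_one (h : H86LocOne) : H11LocOrd := by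
  intro q hq M _ hqM haux
  haveI : NeZero q := ⟨hq.ne_zero⟩
  intro A hA t ht m hm w hw hwF hwU hord 𝔫 h𝔫 hq𝔫 h1
  obtain ⟨h0, hinf⟩ := h q hq M hqM haux A hA
  rcases ht with rfl | rfl
  · exact h0 m hm w hw hwF hwU hord 𝔫 h𝔫 hq𝔫 (h92l_not_multi_of_oneBranch h1)
  · exact hinf m hm w hw hwF hwU hord 𝔫 h𝔫 hq𝔫 (h92l_not_multi_of_oneBranch h1)

/-- `H86LocOne` (helper86) from `H11LocOrd` (helper11). -/
theorem h92l_one_of_ord (h : H11LocOrd) : H86LocOne := by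
  intro q hq M _ hqM haux
  haveI : NeZero q := ⟨hq.ne_zero⟩
  intro A hA
  refine ⟨?_, ?_⟩
  · intro m hm w hw hwF hwU hord 𝔫 h𝔫 hq𝔫 h1
    exact h q hq M hqM haux A hA _ (Or.inl rfl) m hm w hw hwF hwU hord 𝔫 h𝔫 hq𝔫
      (h92l_oneBranch_of_not_multi h1)
  · intro m hm w hw hwF hwU hord 𝔫 h𝔫 hq𝔫 h1
    exact h q hq M hqM haux A hA _ (Or.inr rfl) m hm w hw hwF hwU hord 𝔫 h𝔫 hq𝔫
      (h92l_oneBranch_of_not_multi h1)

/-- **H92LOC.**  `H92Loc` from `H86LocOne` and the four leaves `L-CUSP`, `L-TRANSFER`,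
`L-GLUE`, `L-TOR`. -/
theorem h92l_loc_of (hO : H86LocOne) (hC : H11LocCusp) (hX : H11LocTransfer)
    (hG : H11LocGlue) (hT : H11LocTor) : H92Loc :=
  h11l_loc_of (h92l_ord_of_one hO) hC hX hG hT

end Fermat.Agent.S36
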