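import Fermat.Agent.S36.H11TorSkel
import Fermat.Agent.S36.H6VInt
import Fermat.Agent.S36.V28Val
import Fermat.Agent.S36.H85VK1
import Fermat.Agent.S36.H20Emb

/-!
# S36, block (T), row T-UQ (helper99): `(1 + y) ^ q ∈ 1 + q V₀`

`h99u_torUQ : H11TorUQ` (the frozen leaf of `S36/H11TorSkel.lean`), unconditional.

`y ∈ F₀` Gauss-small at the vertical embeddings `E20`, `E11^ζ`, `E02` of `FF (M q q)`.
The valuations of `y` are integral (landed `V28.h28f_H20Val`): `π ^ n · y` is a Gauss unit at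
`E`, with the uniformiser `π = q` at `E20`, `E02` and `π = 1 - ζ` at `E11`; smallness gives
`n < 0`, hence `y ^ q / q = (π ^ (-n q) / q) · unit ^ q` is Gauss-integral
(`(1 - ζ) ^ (q - 1) / q ∈ A`: landed `h85k_H74Zeta`).  By the binomial theorem
`((1 + y) ^ q - 1) / q = y ^ q / q + y · r` is Gauss-integral at the three embeddings; it is
fixed by inertia, so it lies in `V₀` (landed `h6v_h20VComplete`).

* `h99u_neg_of_small`, `h99u_core`, `h99u_binom` : the Gauss ring part (any series).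
* `h99u_int_at` : integrality of `((1 + y) ^ q - 1) / q` at one embedding.
* `h99u_torUQ` : the leaf.
-/

set_option autoImplicit false
set_option linter.unusedSectionVars false
set_option linter.style.haveILetI false

open AlgebraicCurve ModularCurve

noncomputable section

namespace Fermat.Agent.S36

open Fermat.Agent.S37 (Kbar GQ FF cst jB gal auxLevel)
open Fermat.Agent.Red.GV.Soft

/-! ## The Gauss ring -/

section Gauss

variable (A : ValuationSubring Kbar)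

/-- if `π ^ n · s` is a Gauss unit for a small series `s` and `π ∈ A`, then `n < 0`. -/
theorem h99u_neg_of_small {s : LaurentSeries Kbar} (hs : s ∈ h20v_G A)
    (hred : softRedT A (IsLocalRing.residue A) ⟨s, hs⟩ = 0) {π : Kbar} (hπA : π ∈ A) {n : ℤ}
    (hU : h20v_Unit A (HahnSeries.C (π ^ n) * s)) : n < 0 := by
  by_contra hn
  have hn0 : 0 ≤ n := not_lt.mp hn
  obtain ⟨k, rfl⟩ := Int.eq_ofNat_of_zero_le hn0
  have hc : π ^ (k : ℤ) ∈ A := by
    rw [zpow_natCast]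
    exact pow_mem hπA k
  have hC : (HahnSeries.C (π ^ (k : ℤ)) : LaurentSeries Kbar) ∈ h20v_G A :=
    C_mem_softOT A _ ⟨_, hc⟩
  have hmem : HahnSeries.C (π ^ (k : ℤ)) * s ∈ h20v_G A := mul_mem hC hs
  have h0 : softRedT A (IsLocalRing.residue A) ⟨_, hmem⟩ = 0 := by
    have e : (⟨_, hmem⟩ : softOT A (IsLocalRing.residue A)) = ⟨_, hC⟩ * ⟨s, hs⟩ := rfl
    rw [e, map_mul, hred, mul_zero]
  rcases (softRedT_eq_zero_iff _).mp h0 with h | h
  · exact hU.1 h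
  · exact h hU.2.2

/-- **discreteness ⟹ `s ^ q / q` is Gauss-integral**: `s` small, `π ^ n · s` a Gauss unit,
`π ^ e / q ∈ A` for some `e ≤ q`. -/
theorem h99u_core {q : ℕ} {s : LaurentSeries Kbar} (hs : s ∈ h20v_G A)
    (hred : softRedT A (IsLocalRing.residue A) ⟨s, hs⟩ = 0) {π : Kbar} (hπA : π ∈ A)
    (hπ0 : π ≠ 0) {e : ℕ} (he : e ≤ q) (hc : π ^ e * ((q : ℕ) : Kbar)⁻¹ ∈ A) {n : ℤ}
    (hU : h20v_Unit A (HahnSeries.C (π ^ n) * s)) :
    s ^ q * ((q : ℕ) : LaurentSeries Kbar)⁻¹ ∈ h20v_G A := by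
  have hn := h99u_neg_of_small A hs hred hπA hU
  obtain ⟨k, hk⟩ : ∃ k : ℕ, n = -((k : ℤ) + 1) := ⟨(-n - 1).toNat, by omega⟩
  subst hk
  have hs_eq : s = HahnSeries.C (π ^ (k + 1)) *
      (HahnSeries.C (π ^ (-((k : ℤ) + 1))) * s) := by
    rw [← mul_assoc, ← map_mul]
    have e1 : π ^ (k + 1) * π ^ (-((k : ℤ) + 1)) = 1 := by
      rw [zpow_neg, ← zpow_natCast]
      push_cast
      exact mul_inv_cancel₀ (zpow_ne_zero _ hπ0)
    rw [e1, map_one, one_mul]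
  have hqC : ((q : ℕ) : LaurentSeries Kbar) = HahnSeries.C ((q : ℕ) : Kbar) :=
    (map_natCast (HahnSeries.C : Kbar →+* LaurentSeries Kbar) q).symm
  have hle : e ≤ (k + 1) * q := le_trans he (Nat.le_mul_of_pos_left q (Nat.succ_pos k))
  have e2 : s ^ q * ((q : ℕ) : LaurentSeries Kbar)⁻¹ =
      HahnSeries.C (π ^ ((k + 1) * q - e) * (π ^ e * ((q : ℕ) : Kbar)⁻¹)) *
        (HahnSeries.C (π ^ (-((k : ℤ) + 1))) * s) ^ q := by
    have e3 : π ^ ((k + 1) * q - e) * (π ^ e * ((q : ℕ) : Kbar)⁻¹) =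
        (π ^ (k + 1)) ^ q * ((q : ℕ) : Kbar)⁻¹ := by
      rw [← mul_assoc, ← pow_add, Nat.sub_add_cancel hle, pow_mul]
    rw [e3, map_mul, map_pow, map_inv₀, ← hqC]
    conv_lhs => rw [hs_eq]
    ring
  rw [e2]
  exact mul_mem (C_mem_softOT A _ ⟨_, mul_mem (pow_mem hπA _) hc⟩) (pow_mem hU.2.1 q)

/-- **binomial theorem**: `((1 + s) ^ q - 1) / q = s ^ q / q + s · r`. -/
theorem h99u_binom {q : ℕ} (hq : q.Prime) {s : LaurentSeries Kbar} (hs : s ∈ h20v_G A)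
    (h : s ^ q * ((q : ℕ) : LaurentSeries Kbar)⁻¹ ∈ h20v_G A) :
    ((1 + s) ^ q - 1) * ((q : ℕ) : LaurentSeries Kbar)⁻¹ ∈ h20v_G A := by
  obtain ⟨r, hr⟩ := exists_add_pow_prime_eq hq (1 : h20v_G A) ⟨s, hs⟩
  have hr' : (1 + s) ^ q = 1 + s ^ q + (q : LaurentSeries Kbar) * s * (r : LaurentSeries Kbar) := by
    have h1 := congrArg (fun x : h20v_G A => (x : LaurentSeries Kbar)) hr
    simpa using h1
  have hq0 : ((q : ℕ) : LaurentSeries Kbar) ≠ 0 := by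
    have hqC : ((q : ℕ) : LaurentSeries Kbar) = HahnSeries.C ((q : ℕ) : Kbar) :=
      (map_natCast (HahnSeries.C : Kbar →+* LaurentSeries Kbar) q).symm
    rw [hqC]
    intro h0
    have h2 : ((q : ℕ) : Kbar) = 0 := HahnSeries.C_injective (by rw [h0, map_zero])
    exact hq.ne_zero (Nat.cast_eq_zero.mp h2)
  have e : ((1 + s) ^ q - 1) * ((q : ℕ) : LaurentSeries Kbar)⁻¹ =
      s ^ q * ((q : ℕ) : LaurentSeries Kbar)⁻¹ + s * (r : LaurentSeries Kbar) := by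
    rw [hr']
    field_simp
    ring
  rw [e]
  exact add_mem h (mul_mem hs r.2)

/-- a root of unity lies in `A`. -/
theorem h99u_root_mem {n : ℕ} (hn : n ≠ 0) {ω : Kbar} (hω : ω ^ n = 1) : ω ∈ A := by
  rcases A.mem_or_inv_mem ω with h | h
  · exact h
  · have hω0 : ω ≠ 0 := by
      rintro rfl
      rw [zero_pow hn] at hω
      exact zero_ne_one hω
    have h1 : ω = (ω⁻¹) ^ (n - 1) := by
      have h2 : ω ^ (n - 1) * ω = 1 := by
        rw [← pow_succ, Nat.sub_add_cancel (Nat.pos_of_ne_zero hn), hω]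
      rw [inv_pow]
      exact eq_inv_of_mul_eq_one_right h2
    rw [h1]
    exact pow_mem h _

end Gauss

/-! ## One embedding -/

section Cst

variable {M q : ℕ} [NeZero M] [NeZero q]

/-- an embedding of type `E11` is the identity on the constants. -/
theorem h99u_E11_cst (hq : q.Prime) (hqM : ¬ q ∣ M) (ζ : Kbar)
    (E : FF (M * q * q) →+* LaurentSeries Kbar) (hE : h20n_IsE11 M q hq hqM ζ E) (c : Kbar) :
    E (cst (M * q * q) c) = HahnSeries.C c := by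
  have h1 : cst (M * q * q) c = heckeAlphaBar Kbar (M * q) q (cst (M * q) c) :=
    ((heckeAlphaBar Kbar (M * q) q).commutes c).symm
  rw [h1, hE.1]
  exact soft_coe_cst (M * q) c

/-- an embedding of type `E02` is the identity on the constants. -/
theorem h99u_E02_cst (hq : q.Prime) (hqM : ¬ q ∣ M)
    (E : FF (M * q * q) →+* LaurentSeries Kbar) (hE : h20n_IsE02 M q hq hqM E) (c : Kbar) :
    E (cst (M * q * q) c) = HahnSeries.C c := by
  have h1 : cst (M * q * q) c = heckeBetaBar Kbar (M * q) q (cst (M * q) c) :=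
    ((heckeBetaBar Kbar (M * q) q).commutes c).symm
  rw [h1, hE.2, Fermat.Agent.Red.Kron.kFricke_cst]
  exact soft_coe_cst (M * q) c

end Cst

section One

variable {N : ℕ}

/-- `((1 + y) ^ q - 1) / q` is Gauss-integral at an embedding `E` at which `y` is small with
integral valuation. -/
theorem h99u_int_at (A : ValuationSubring Kbar) {q : ℕ} (hq : q.Prime)
    (E : FF N →+* LaurentSeries Kbar) (hEc : ∀ c : Kbar, E (cst N c) = HahnSeries.C c)
    {y : FF N} (hsm : h11l_Small A E y) {π : Kbar} (hπA : π ∈ A) (hπ0 : π ≠ 0) {e : ℕ}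
    (he : e ≤ q) (hc : π ^ e * ((q : ℕ) : Kbar)⁻¹ ∈ A) {n : ℤ}
    (hU : h20v_Unit A (E (cst N (π ^ n) * y))) :
    E (((1 + y) ^ q - 1) * ((q : ℕ) : FF N)⁻¹) ∈ h20v_G A := by
  obtain ⟨hs, hred⟩ := hsm
  rw [map_mul, hEc] at hU
  have h1 := h99u_core A hs hred hπA hπ0 he hc hU
  have h2 := h99u_binom A hq hs h1
  have e1 : E (((1 + y) ^ q - 1) * ((q : ℕ) : FF N)⁻¹) =
      ((1 + E y) ^ q - 1) * ((q : ℕ) : LaurentSeries Kbar)⁻¹ := by
    rw [map_mul, map_sub, map_pow, map_add, map_one, map_inv₀, map_natCast]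
  rw [e1]
  exact h2

end One

/-! ## The leaf -/

/-- **T-UQ** (exact frozen Prop `H11TorUQ` of `S36/H11TorSkel.lean`). -/
theorem h99u_torUQ : H11TorUQ := by
  intro q hq M _ hqM haux
  haveI : NeZero q := ⟨hq.ne_zero⟩
  intro A hA y hy hsmall
  haveI : Fact q.Prime := ⟨hq⟩
  haveI : NeZero ((q : ℕ) : Kbar) := ⟨by exact_mod_cast hq.ne_zero⟩
  obtain ⟨ζ, hζ⟩ := HasEnoughRootsOfUnity.exists_primitiveRoot Kbar q
  obtain ⟨hex11, E02, hE02⟩ := h20n_embExists q hq M hqM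
  obtain ⟨E11, hE11⟩ := hex11 ζ hζ.pow_eq_one (hζ.ne_one hq.one_lt)
  have hT : h20v_Triple M q hq hqM ζ E11 E02 := ⟨hζ, hE11, hE02⟩
  have hqK0 : ((q : ℕ) : Kbar) ≠ 0 := Nat.cast_ne_zero.mpr hq.ne_zero
  have hq0 : ((q : ℕ) : FF (M * q * q)) ≠ 0 := by
    have hc : ((q : ℕ) : FF (M * q * q)) = cst (M * q * q) ((q : ℕ) : Kbar) :=
      (map_natCast (algebraMap Kbar (FF (M * q * q))) q).symm
    rw [hc, Ne, map_eq_zero_iff _ (algebraMap Kbar (FF (M * q * q))).injective]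
    exact hqK0
  have heq : (1 + y) ^ q = 1 + ((q : ℕ) : FF (M * q * q)) *
      (((1 + y) ^ q - 1) * ((q : ℕ) : FF (M * q * q))⁻¹) := by
    field_simp
    ring
  have hyF0 : ((1 + y) ^ q - 1) * ((q : ℕ) : FF (M * q * q))⁻¹ ∈ h92c_F0 A (M * q * q) :=
    mul_mem (sub_mem (pow_mem (add_mem (one_mem _) hy) q) (one_mem _))
      (inv_mem (natCast_mem _ q))
  by_cases hy0 : y = 0
  · refine ⟨0, zero_mem _, ?_⟩
    rw [hy0, add_zero, one_pow, mul_zero, add_zero]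
  obtain ⟨n₂₀, n₁₁, n₀₂, h20, h11, h02⟩ :=
    V28.h28f_H20Val q hq M hqM haux A hA ζ E11 E02 hT y hy hy0
  -- the uniformisers
  have hqA : ((q : ℕ) : Kbar) ∈ A := natCast_mem A q
  have hq1 : ((q : ℕ) : Kbar) ^ 1 * ((q : ℕ) : Kbar)⁻¹ ∈ A := by
    rw [pow_one, mul_inv_cancel₀ hqK0]
    exact A.one_mem
  have hζA : (1 : Kbar) - ζ ∈ A :=
    A.sub_mem A.one_mem (h99u_root_mem A hq.ne_zero hζ.pow_eq_one)
  have hζ0 : (1 : Kbar) - ζ ≠ 0 := by
    intro h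
    exact hζ.ne_one hq.one_lt (sub_eq_zero.mp h).symm
  have hζq : ((1 : Kbar) - ζ) ^ (q - 1) * ((q : ℕ) : Kbar)⁻¹ ∈ A := by
    have h := (h85k_H74Zeta q hq A hA ζ hζ).2
    have e : ((1 : Kbar) - ζ) ^ (q - 1) * ((q : ℕ) : Kbar)⁻¹ =
        (((q : ℕ) : Kbar) * (((1 : Kbar) - ζ) ^ (q - 1))⁻¹)⁻¹ := by
      rw [mul_inv, inv_inv, mul_comm]
    rw [e]
    exact h
  -- the three embeddings
  have hI20 : h20n_E20 M q (((1 + y) ^ q - 1) * ((q : ℕ) : FF (M * q * q))⁻¹) ∈ h20v_G A :=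
    h99u_int_at A hq (h20n_E20 M q) (fun c => soft_coe_cst (M * q * q) c)
      (hsmall _ (Or.inl rfl)) hqA hqK0 hq.one_lt.le hq1 h20
  have hI11 : E11 (((1 + y) ^ q - 1) * ((q : ℕ) : FF (M * q * q))⁻¹) ∈ h20v_G A :=
    h99u_int_at A hq E11 (h99u_E11_cst hq hqM ζ E11 hE11)
      (hsmall _ (Or.inr (Or.inl ⟨ζ, hζ, hE11⟩))) hζA hζ0 (Nat.sub_le q 1) hζq h11
  have hI02 : E02 (((1 + y) ^ q - 1) * ((q : ℕ) : FF (M * q * q))⁻¹) ∈ h20v_G A :=
    h99u_int_at A hq E02 (h99u_E02_cst hq hqM E02 hE02)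
      (hsmall _ (Or.inr (Or.inr hE02))) hqA hqK0 hq.one_lt.le hq1 h02
  have hV := h6v_h20VComplete q hq M hqM haux A hA ζ E11 E02 hT _ hyF0 ⟨hI20, hI11, hI02⟩
  exact ⟨_, ⟨hV, hyF0⟩, heq⟩

end Fermat.Agent.S36
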