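import Fermat.Agent.S36.Top4
import Fermat.Agent.S36.H55VertWire
import Fermat.Agent.S36.H63Gate92
import Fermat.Agent.S36.H31Desc36
import Fermat.Agent.S36.H92LocWire
import Fermat.Agent.S36.H86LocOneWire
import Fermat.Agent.S36.H37LocHor
import Fermat.Agent.S36.H95Cusp
import Fermat.Agent.S36.H49LocTransfer
import Fermat.Agent.S36.H25Glue
import Fermat.Agent.S36.H11TorAsm
import Fermat.Agent.S36.V28TorBasic
import Fermat.Agent.S36.H36TNormal
import Fermat.Agent.S36.H81TorGlob
import Fermat.Agent.S36.H27TorTwist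
import Fermat.Agent.S36.H99TorUQ
import Fermat.Agent.S36.H62FinIface
import Fermat.Agent.S36.H62LeafNoeth
import Fermat.Agent.S36.H60L1Final
import Fermat.Agent.S36.H59Base2
import Fermat.Agent.S36.H31RegOverlap

/-!
# S36, chain of GEOM36 (helper92): the final wiring from the open leaves

Everything that is landed and unconditional is plugged in; what remains are the frozen leaf
statements of the blocks REG / LOC / TOR that are still open:

* REG : `H62FinNode` (R-TOWER-SS), `H62FinInf`, `H62FinZero` (R-ORD), `H95CuspOne` (R-CUSP, strong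
  form),
* LOC : `H86LocVComp` (LOC-VCOMP), `H25GlueDict` (L-GLUE-DICT),
* TOR : `H11TorRoot`, `H11TorPt`, `H11TorNormA`, `H11TorNormB`, `H11TorUnit`.

* `h92f_finContr` : `H62FinContr` (R-BASE2, from helper59's `h59y_comap_a2`).
* `h92f_reg_of`   : `H62RegStatement` from the four open leaves of REG.
* `h92f_tor_of`   : `H11LocTor` from the five open leaves of TOR.
* `h92f_loc_of`   : `H92Loc` from the eleven open leaves.
* `h92f_s36_of`   : the frozen statement of S36 from the eleven open leaves.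
-/

set_option autoImplicit false

open AlgebraicCurve ModularCurve Polynomial

noncomputable section

namespace Fermat.Agent.S36

open Fermat.Agent.S37 (Kbar GQ FF cst jB gal modelAt degen auxLevel)

/-- the two presentations of `α₂` on the charts over `A₀` agree. -/
theorem h92f_A2_eq (A : ValuationSubring Kbar) (M : ℕ) {q : ℕ} [NeZero M] [NeZero q] :
    h62rA2 A M (q := q) = h59y_a2 A M (q := q) :=
  RingHom.ext fun _ => Subtype.ext rfl

/-- **R-BASE2 (contraction)**, exact frozen Prop. -/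
theorem h92f_finContr : H62FinContr := by
  intro q hq M _ hqM haux
  have : NeZero q := ⟨hq.ne_zero⟩
  intro A hA 𝔫₂ h𝔫₂ hq𝔫₂
  rw [h92f_A2_eq]
  exact (h59y_comap_a2 A M 𝔫₂ h𝔫₂ hq𝔫₂).1

/-- **REG** from its open leaves. -/
theorem h92f_reg_of (hn : H62FinNode) (hi : H62FinInf) (hz : H62FinZero) (hc : H95CuspOne) :
    H62RegStatement :=
  h62r_regStatement_of' (h62r_leafFin_of h60r_H62L1 h92f_finContr hn hi hz)
    (h95s_leafCusp_of hc) h31v_leafOverlap

/-- **TOR** from its open leaves. -/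
theorem h92f_tor_of (hR : H11TorRoot) (hP : H11TorPt) (hNA : H11TorNormA) (hNB : H11TorNormB)
    (hU : H11TorUnit) : H11LocTor :=
  h11t_locTor_of V28.h28t_torBasic hR hP hNA hNB hU h36tn_torNormal h81t_torGlob h27t_torTwist
    h99u_torUQ

/-- **`H92Loc`** from the open leaves of REG, LOC, TOR. -/
theorem h92f_loc_of (hn : H62FinNode) (hi : H62FinInf) (hz : H62FinZero) (hc : H95CuspOne)
    (hV : H86LocVComp) (hD : H25GlueDict)
    (hR : H11TorRoot) (hP : H11TorPt) (hNA : H11TorNormA) (hNB : H11TorNormB)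
    (hU : H11TorUnit) : H92Loc :=
  have hReg : H62RegStatement := h92f_reg_of hn hi hz hc
  h92l_loc_of (h86l_locOne_of hReg hV h37w_locHor) (h95s_locCusp_of_reg hReg hc)
    h49t_locTransfer (h25g_glue hReg hV hD) (h92f_tor_of hR hP hNA hNB hU)

/-- **S36** (the frozen statement without its unused hypotheses) from the open leaves. -/
theorem h92f_s36_of (hn : H62FinNode) (hi : H62FinInf) (hz : H62FinZero) (hc : H95CuspOne)
    (hV : H86LocVComp) (hD : H25GlueDict)
    (hR : H11TorRoot) (hP : H11TorPt) (hNA : H11TorNormA) (hNB : H11TorNormB)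
    (hU : H11TorUnit)
    {M : ℕ} [NeZero M] {g : CuspForm (CongruenceSubgroup.Gamma0 M) 2} (hg : g.IsNewform)
    (lam : ℕ) [Fact lam.Prime]
    (S : Finset ℕ)
    (O' : Type) [CommRing O'] [IsDomain O'] [IsDiscreteValuationRing O']
    [IsAdicComplete (IsLocalRing.maximalIdeal O') O'] [Finite (IsLocalRing.ResidueField O')]
    [CharZero O'] (hlamO' : (lam : O') ∈ IsLocalRing.maximalIdeal O')
    (chig : CuspForm.heckeAlgebra M 2 (↑S : Set ℕ) →+* ℂ)
    (hchig : ∀ (ℓ : ℕ) (hℓ : ℓ.Prime) (hℓM : ¬ ℓ ∣ M) (hℓS : ℓ ∉ (↑S : Set ℕ)),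
      chig (CuspForm.heckeAlgebra.T hℓ hℓM hℓS) = ModularFormClass.qCoeff g ℓ)
    (iota : chig.range →+* O')
    (hlamS : lam ∈ S) (hMS : ∀ q : ℕ, q.Prime → q ∣ M → q ∈ S) :
    ∃ (O'' : Type) (_ : CommRing O'') (_ : IsDomain O'') (_ : IsDiscreteValuationRing O'')
      (_ : IsAdicComplete (IsLocalRing.maximalIdeal O'') O'') (_ : Finite (IsLocalRing.ResidueField O''))
      (_ : CharZero O'') (_ : Algebra O' O'') (_ : Module.Finite O' O'') (_ : IsLocalHom (algebraMap O' O'')),
      Function.Injective (algebraMap O' O'') ∧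
      ∃ ρ : GaloisRepAdic O'',
        (∀ (ℓ : ℕ) (hℓ : ℓ.Prime) (hℓM : ¬ ℓ ∣ M) (hℓS : ℓ ∉ (↑S : Set ℕ)),
          ∀ A : ValuationSubring (AlgebraicClosure ℚ), A.LiesOverPrime ℓ →
            ∀ σ : AlgebraicClosure ℚ ≃ₐ[ℚ] AlgebraicClosure ℚ, A.IsFrobeniusAt σ ℓ →
              LinearMap.charpoly (ρ.ρ σ) =
                X ^ 2 - C (algebraMap O' O'' ((iota.comp chig.rangeRestrict) (CuspForm.heckeAlgebra.T hℓ hℓM hℓS))) * X
                  + C ((ℓ : O''))) ∧
        (∀ q : ℕ, q.Prime → q ≠ lam → M.factorization q = 2 → ¬ ρ.IsUnipotentOnInertiaAt q) :=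
  h37u_s36_of_chain h55x_vert (h92f_loc_of hn hi hz hc hV hD hR hP hNA hNB hU) h63i_h92Gate
    h31g_inertiaGateDescent hg lam S O' hlamO' chig hchig iota hlamS hMS

end Fermat.Agent.S36

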