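import Fermat.Agent.S36.H18CuspIface
import Fermat.Agent.S36.H84VQep
import Fermat.Agent.S36.H6VConv
import Fermat.Agent.S36.H88VInt

/-!
# S36, block REG, row R-CUSP-INT (helper99, second seat): `H18cInt`

`h99c_cuspInt : H18cInt` (frozen leaf of `S36/H18CuspIface.lean`), unconditional: the chart at
infinity `B₀ = h62rChart A (M q q) j⁻¹` is Gauss-integral at the three vertical embeddings
`E20`, `E11`, `E02`.

Proof: `B₀ ⊆ modelAt (M q q) A j⁻¹ ⊆ V = h92c_V A M q` (landed `h84q_hBV_inf`), i.e. every `x` of
the chart is integral over the Gauss ring of level `M` (along `α ∘ α`), a fortiori over the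
semistable Gauss ring `ssV A M q` of level `M q` (along `α`); the converse of V-EXACT (landed
`h6v_conv`) gives the Gauss-integrality at the three embeddings.
-/

set_option autoImplicit false
set_option linter.unusedSectionVars false
set_option linter.style.haveILetI false

open AlgebraicCurve ModularCurve

noncomputable section

namespace Fermat.Agent.S36

open Fermat.Agent.S37 (Kbar GQ FF cst gal jB auxLevel degen modelAt)
open Fermat.Agent.Red.GV (gaussV)
open Fermat.Agent.Red.GV.Soft (softOT softV)
open Fermat.Agent.LGC (ssV gaussVImage)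

section Level

variable (A : ValuationSubring Kbar) (M q : ℕ) [NeZero M] [NeZero q]

/-- `α` maps the Gauss ring of level `M` into the semistable Gauss ring of level `M q`. -/
theorem h99c_alpha_mem_ssV (y : gaussV A M) :
    heckeAlphaBar Kbar M q (y : FF M) ∈ ssV A M q := by
  rw [Fermat.Agent.LGC.mem_ssV_iff]
  have h1 : heckeAlphaBar Kbar M q (y : FF M) ∈ gaussVImage A M q :=
    Subring.mem_map.mpr ⟨y.1, y.2, rfl⟩
  exact isIntegral_algebraMap (R := gaussVImage A M q) (x := ⟨_, h1⟩)

/-- integral over the Gauss ring of level `M` (along `α ∘ α`) ⟹ integral over the semistable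
Gauss ring of level `M q` (along `α`). -/
theorem h99c_isIntegralElem_ssV (x : FF (M * q * q))
    (hx : ((h74w_aa M q).comp (gaussV A M).subtype).IsIntegralElem x) :
    ((heckeAlphaBar Kbar (M * q) q).toRingHom.comp (ssV A M q).subtype).IsIntegralElem x := by
  obtain ⟨P, hP, hPx⟩ := hx
  let g : gaussV A M →+* ssV A M q :=
    ((heckeAlphaBar Kbar M q).toRingHom.comp (gaussV A M).subtype).codRestrict (ssV A M q)
      (h99c_alpha_mem_ssV A M q)
  refine ⟨P.map g, hP.map _, ?_⟩
  rw [Polynomial.eval₂_map]
  have hcomp : ((heckeAlphaBar Kbar (M * q) q).toRingHom.comp (ssV A M q).subtype).comp g =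
      (h74w_aa M q).comp (gaussV A M).subtype := RingHom.ext fun _ => rfl
  rw [hcomp]
  exact hPx

end Level

/-- **R-CUSP-INT** (exact frozen Prop `H18cInt` of `S36/H18CuspIface.lean`). -/
theorem h99c_cuspInt : H18cInt := by
  intro q hq M _ hqM _
  haveI : NeZero q := ⟨hq.ne_zero⟩
  intro A hA ζ E11 E02 hT x hx
  have hV : x ∈ h92c_V A M q := h84q_hBV_inf A M q hq hqM hA hx.1
  have h1 := (h84q_mem_V_iff A (degen (h92c_dvd M q)) x).mp hV
  have h2 : ((h74w_aa M q).comp (gaussV A M).subtype).IsIntegralElem x := by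
    have e := h88v_degen_eq_aa M q
    unfold h84q_f at h1
    rw [e] at h1
    exact h1
  obtain ⟨h20, h11, h02⟩ := h6v_conv hq hqM A hA x (h99c_isIntegralElem_ssV A M q x h2)
  exact ⟨h20, h11 ζ E11 hT.prim.pow_eq_one hT.e11, h02 E02 hT.e02⟩

end Fermat.Agent.S36
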