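import Fermat.Agent.S36.H92Final
import Fermat.Agent.S36.H62OrdGlue
import Fermat.Agent.S36.H80FinZero
import Fermat.Agent.S36.H18CuspAsm
import Fermat.Agent.S36.H3CuspWire
import Fermat.Agent.S36.H99CuspInt
import Fermat.Agent.S36.H27CuspPart
import Fermat.Agent.S36.H44CuspRes
import Fermat.Agent.S36.H3CuspLPM
import Fermat.Agent.S36.H59CuspBeta
import Fermat.Agent.S36.H20Emb
import Fermat.Agent.S36.H55VVal
import Fermat.Agent.S36.H88VFinal
import Fermat.Agent.S36.H23VCompInst
import Fermat.Agent.S36.H25GlueDict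
import Fermat.Agent.S36.H16TorRootWire
import Fermat.Agent.S36.H86TorCen
import Fermat.Agent.S36.H70TorRat
import Fermat.Agent.S36.H85TorPtWire
import Fermat.Agent.S36.H71TorNormFinal
import Fermat.Agent.S36.H12TorUniq

/-!
# S36, chain of GEOM36 (helper92): the final wiring from the five remaining atoms

After the landings of 05:00Z–05:10Z the only open frozen statements are

* the outputs of the tower theorem `h67t_tower` at `ι = h62rA2`:
  `H62FinNode` (R-TOWER-SS), `H12TowerUniq` (→ T-UNIT), `H71TowerGen` (→ T-NORM-α/β),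
* `H80OrdC11` (R-ORD at the ordinary points of `C₁₁`),
* `H18cUnit11` (R-CUSP, the certificate at the middle cusps).

* `h92g_cuspOne_of` : `H18cUnit11 → H95CuspOne`.
* `h92g_reg_of`     : `H62RegStatement` from `H62FinNode`, `H80OrdC11`, `H18cUnit11`.
* `h92g_tor_of`     : `H11LocTor` from the five atoms.
* `h92g_loc_of`     : `H92Loc` from the five atoms.
* `h92g_s36_of`     : the frozen statement of S36 from the five atoms.
-/

set_option autoImplicit false

open AlgebraicCurve ModularCurve Polynomial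

noncomputable section

namespace Fermat.Agent.S36

open Fermat.Agent.S37 (Kbar GQ FF cst jB gal modelAt degen auxLevel)

/-- **R-CUSP (strong form)** from the certificate at the middle cusps. -/
theorem h92g_cuspOne_of (hU11 : H18cUnit11) : H95CuspOne :=
  h3l_cuspOne_of
    (h18c_cuspAssembly h20n_embExists h55vv_val h88v_vcomplete_final h99c_cuspInt h27p_cuspPart
      h44s_cuspRes20 h44s_cuspRes11 h44s_cuspRes02 hU11 h3l_lpm h59w_cuspBeta)

/-- **REG** from the three atoms of block R. -/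
theorem h92g_reg_of (hn : H62FinNode) (h11 : H80OrdC11) (hU11 : H18cUnit11) :
    H62RegStatement :=
  h62v_regStatement_of hn h80z_finZeroOne h11 (h95s_leafCusp_of (h92g_cuspOne_of hU11))

/-- **TOR** from the five atoms. -/
theorem h92g_tor_of (hn : H62FinNode) (hu : H12TowerUniq) (hg : H71TowerGen)
    (h11 : H80OrdC11) (hU11 : H18cUnit11) : H11LocTor :=
  h92f_tor_of
    (h16t_torRoot_wired (h92g_reg_of hn h11 hU11) h23i_locVComp h86c_torCentre h70r_torRat)
    (h85n_torPt_of_strong (h62v_h31_inf_of h80z_finZeroOne h11)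
      (h62v_h31_zero_of h80z_finZeroOne))
    (h71z_torNormA_of_tower hg) (h71z_torNormB_of_tower hg)
    (h12w_torUnit_of h60r_H62L1 hu)

/-- **`H92Loc`** from the five atoms. -/
theorem h92g_loc_of (hn : H62FinNode) (hu : H12TowerUniq) (hg : H71TowerGen)
    (h11 : H80OrdC11) (hU11 : H18cUnit11) : H92Loc :=
  have hReg : H62RegStatement := h92g_reg_of hn h11 hU11
  h92l_loc_of (h86l_locOne_of hReg h23i_locVComp h37w_locHor)
    (h95s_locCusp_of_reg hReg (h92g_cuspOne_of hU11))
    h49t_locTransfer (h25g_glue hReg h23i_locVComp h25d_glueDict)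
    (h92g_tor_of hn hu hg h11 hU11)

/-- **S36** (the frozen statement without its unused hypotheses) from the five atoms. -/
theorem h92g_s36_of (hn : H62FinNode) (hu : H12TowerUniq) (hg : H71TowerGen)
    (h11 : H80OrdC11) (hU11 : H18cUnit11)
    {M : ℕ} [NeZero M] {g : CuspForm (CongruenceSubgroup.Gamma0 M) 2} (hg' : g.IsNewform)
    (lam : ℕ) [Fact lam.Prime]
    (S : Finset ℕ)
    (O' : Type) [CommRing O'] [IsDomain O'] [IsDiscreteValuationRing O']
    [IsAdicComplete (IsLocalRing.maximalIdeal O') O'] [Finite (IsLocalRing.ResidueField O')]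
    [CharZero O'] (hlamO' : (lam : O') ∈ IsLocalRing.maximalIdeal O')
    (chig : CuspForm.heckeAlgebra M 2 (↑S : Set ℕ) →+* ℂ)
    (hchig : ∀ (ℓ : ℕ) (hℓ : ℓ.Prime) (hℓM : ¬ ℓ ∣ M) (hℓS : ℓ ∉ (↑S : Set ℕ)),
      chig (CuspForm.heckeAlgebra.T hℓ hℓM hℓS) = ModularFormClass.qCoeff g ℓ)
    (iota : chig.range →+* O')
    (hlamS : lam ∈ S) (hMS : ∀ q : ℕ, q.Prime → q ∣ M → q ∈ S) :
    ∃ (O'' : Type) (_ : CommRing O'') (_ : IsDomain O'') (_ : IsDiscreteValuationRing O'')
      (_ : IsAdicComplete (IsLocalRing.maximalIdeal O'') O'') (_ : Finite (IsLocalRing.ResidueField O''))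
      (_ : CharZero O'') (_ : Algebra O' O'') (_ : Module.Finite O' O'') (_ : IsLocalHom (algebraMap O' O'')),
      Function.Injective (algebraMap O' O'') ∧
      ∃ ρ : GaloisRepAdic O'',
        (∀ (ℓ : ℕ) (hℓ : ℓ.Prime) (hℓM : ¬ ℓ ∣ M) (hℓS : ℓ ∉ (↑S : Set ℕ)),
          ∀ A : ValuationSubring (AlgebraicClosure ℚ), A.LiesOverPrime ℓ →
            ∀ σ : AlgebraicClosure ℚ ≃ₐ[ℚ] AlgebraicClosure ℚ, A.IsFrobeniusAt σ ℓ →
              LinearMap.charpoly (ρ.ρ σ) =
                X ^ 2 - C (algebraMap O' O'' ((iota.comp chig.rangeRestrict) (CuspForm.heckeAlgebra.T hℓ hℓM hℓS))) * X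
                  + C ((ℓ : O''))) ∧
        (∀ q : ℕ, q.Prime → q ≠ lam → M.factorization q = 2 → ¬ ρ.IsUnipotentOnInertiaAt q) :=
  h37u_s36_of_chain h55x_vert (h92g_loc_of hn hu hg h11 hU11) h63i_h92Gate
    h31g_inertiaGateDescent hg' lam S O' hlamO' chig hchig iota hlamS hMS

end Fermat.Agent.S36
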