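import Fermat.Agent.S36.H92Final2
import Fermat.Agent.S36.H40Tower
import Fermat.Agent.S36.H71TowerDone
import Fermat.Agent.S36.H71TowerUniq

/-!
# S36, chain of GEOM36 (helper92): the final wiring from the two remaining atoms

With the tower atoms closed (`h40t_finNode`, `h71z_towerUniq`, `h71z_towerGen`) the only open
frozen statements are

* `H80OrdC11` (R-ORD at the ordinary points of `C₁₁`),
* `H18cUnit11` (R-CUSP, the certificate at the middle cusps).

* `h92h_reg_of` : `H80OrdC11 → H18cUnit11 → H62RegStatement`.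
* `h92h_loc_of` : `H80OrdC11 → H18cUnit11 → H92Loc`.
* `h92h_s36_of` : `H80OrdC11 → H18cUnit11 →` the frozen statement of S36.
-/

set_option autoImplicit false

open AlgebraicCurve ModularCurve Polynomial

noncomputable section

namespace Fermat.Agent.S36

/-- **REG** from the two atoms. -/
theorem h92h_reg_of (h11 : H80OrdC11) (hU11 : H18cUnit11) : H62RegStatement :=
  h92g_reg_of h40t_finNode h11 hU11

/-- **`H92Loc`** from the two atoms. -/
theorem h92h_loc_of (h11 : H80OrdC11) (hU11 : H18cUnit11) : H92Loc :=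
  h92g_loc_of h40t_finNode h71z_towerUniq h71z_towerGen h11 hU11

/-- **S36** (the frozen statement without its unused hypotheses) from the two atoms. -/
theorem h92h_s36_of (h11 : H80OrdC11) (hU11 : H18cUnit11)
    {M : ℕ} [NeZero M] {g : CuspForm (CongruenceSubgroup.Gamma0 M) 2} (hg : g.IsNewform)
    (lam : ℕ) [Fact lam.Prime]
    (S : Finset ℕ)
    (O' : Type) [CommRing O'] [IsDomain O'] [IsDiscreteValuationRing O']
    [IsAdicComplete (IsLocalRing.maximalIdeal O') O'] [Finite (IsLocalRing.ResidueField O')]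
    [CharZero O'] (hlamO' : (lam : O') ∈ IsLocalRing.maximalIdeal O')
    (chig : CuspForm.heckeAlgebra M 2 (↑S : Set ℕ) →+* ℂ)
    (hchig : ∀ (ℓ : ℕ) (hℓ : ℓ.Prime) (hℓM : ¬ ℓ ∣ M) (hℓS : ℓ ∉ (↑S : Set ℕ)),
      chig (CuspForm.heckeAlgebra.T hℓ hℓM hℓS) = ModularFormClass.qCoeff g ℓ)
    (iota : chig.range →+* O')
    (hlamS : lam ∈ S) (hMS : ∀ q : ℕ, q.Prime → q ∣ M → q ∈ S) :
    ∃ (O'' : Type) (_ : CommRing O'') (_ : IsDomain O'') (_ : IsDiscreteValuationRing O'')
      (_ : IsAdicComplete (IsLocalRing.maximalIdeal O'') O'') (_ : Finite (IsLocalRing.ResidueField O''))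
      (_ : CharZero O'') (_ : Algebra O' O'') (_ : Module.Finite O' O'') (_ : IsLocalHom (algebraMap O' O'')),
      Function.Injective (algebraMap O' O'') ∧
      ∃ ρ : GaloisRepAdic O'',
        (∀ (ℓ : ℕ) (hℓ : ℓ.Prime) (hℓM : ¬ ℓ ∣ M) (hℓS : ℓ ∉ (↑S : Set ℕ)),
          ∀ A : ValuationSubring (AlgebraicClosure ℚ), A.LiesOverPrime ℓ →
            ∀ σ : AlgebraicClosure ℚ ≃ₐ[ℚ] AlgebraicClosure ℚ, A.IsFrobeniusAt σ ℓ →
              LinearMap.charpoly (ρ.ρ σ) =
                X ^ 2 - C (algebraMap O' O'' ((iota.comp chig.rangeRestrict) (CuspForm.heckeAlgebra.T hℓ hℓM hℓS))) * X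
                  + C ((ℓ : O''))) ∧
        (∀ q : ℕ, q.Prime → q ≠ lam → M.factorization q = 2 → ¬ ρ.IsUnipotentOnInertiaAt q) :=
  h92g_s36_of h40t_finNode h71z_towerUniq h71z_towerGen h11 hU11
    hg lam S O' hlamO' chig hchig iota hlamS hMS

end Fermat.Agent.S36
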