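import Fermat.Agent.S36.H62FinIface
import Fermat.Agent.S36.H59Base2
import Fermat.Agent.S36.H44FrickeChart2

/-!
# S36, block REG, row R-ORD (helper94): the Fricke mirror on the charts over `A₀`

`Λ₀ = h62rChart A M (jB M)`, `B₁ = h62rChart A (M q) (jSS M q)`,
`B₂ = h62rChart A (M q q) (jB (M q q))`.

* `h94fW1 : B₁ →+* B₁`, `h94fW2 : B₂ →+* B₂` : the Fricke involutions `w₁`, `w₂` on the charts
  over the inertia ring; `w₁ ∘ α = β`, `w₁ ∘ β = α`, `w₂ ∘ α₂ = β₂ ∘ w₁`, `w₂ ∘ β₂ = α₂ ∘ w₁`,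
  `w₁² = 1`, `w₂² = 1`.
* `h94f_zero_of_inf`, `h94f_inf_of_zero` : `w₁` exchanges `H62InfDatum` and `H62ZeroDatum`.
* `h94fOne 𝔫 π` : the one-branch datum (the second disjunct of `H62Datum`, verbatim);
  `h94f_one_comap` : it is transported by `w₂`.
* `H94FinZeroOne`, `H94FinInfOne` : the STRONG forms of `H62FinZero`, `H62FinInf` (conclusion: the
  one-branch datum).
* `h94f_mirror` : **the points of `C₂₀`**: under `H94FinZeroOne`, a closed point `𝔫₂ ∋ q` of
  `B₂` whose contraction along `β₂` carries `H62InfDatum` has the one-branch datum.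
  (No exceptional points, no degree hypothesis, no different.)
* `h94f_mirror_zero` : the mirror image of a statement about the contraction along `α₂`
  being a smooth point of `C_∞`.

Every declaration is a definition or a proved theorem; nothing is assumed.
-/

set_option autoImplicit false
set_option linter.unusedSectionVars false
set_option linter.style.haveILetI false

open AlgebraicCurve ModularCurve IsLocalRing

noncomputable section

namespace Fermat.Agent.S36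

open Fermat.Agent.S37 Fermat.Agent.Red.GG Fermat.Agent.LGC Fermat.Agent.Red.Kron

/-! ## The one-branch datum -/

/-- the one-branch datum at the point `𝔫` of the fibre `π = 0` (second disjunct of `H62Datum`):
`𝔫 = (z, t)` locally and `s z ^ e = c π` with `s ∉ 𝔫`. -/
def h94fOne {B : Type*} [CommRing B] (𝔫 : Ideal B) (π : B) : Prop :=
  ∃ z t : B, z ∈ 𝔫 ∧ t ∈ 𝔫 ∧
    (∀ w ∈ 𝔫, ∃ s, s ∉ 𝔫 ∧ s * w ∈ Ideal.span {z, t}) ∧
    ∃ (e : ℕ) (s c : B), s ∉ 𝔫 ∧ s * z ^ e = c * π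

theorem h94f_datum_of_one {B : Type*} [CommRing B] (𝔫 : Ideal B) (q : ℕ)
    (h : h94fOne 𝔫 (q : B)) : H62Datum 𝔫 q := Or.inr h

/-- transport of the one-branch datum along an involution. -/
theorem h94f_one_comap {B : Type*} [CommRing B] (w : B →+* B) (hw : ∀ x, w (w x) = x)
    (𝔫 : Ideal B) (π : B) (hπ : w π = π) (h : h94fOne (𝔫.comap w) π) : h94fOne 𝔫 π := by
  obtain ⟨z, t, hz, ht, hgen, e, s, c, hs, hsz⟩ := h
  refine ⟨w z, w t, Ideal.mem_comap.mp hz, Ideal.mem_comap.mp ht, ?_, e, w s, w c,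
    fun h => hs (Ideal.mem_comap.mpr h), ?_⟩
  · intro x hx
    have hx' : w x ∈ 𝔫.comap w := by
      rw [Ideal.mem_comap, hw]; exact hx
    obtain ⟨s', hs', hsx⟩ := hgen (w x) hx'
    refine ⟨w s', fun h => hs' (Ideal.mem_comap.mpr h), ?_⟩
    obtain ⟨a, b, hab⟩ := Ideal.mem_span_pair.mp hsx
    rw [Ideal.mem_span_pair]
    refine ⟨w a, w b, ?_⟩
    have := congrArg w hab
    rw [map_add, map_mul, map_mul, map_mul, hw] at this
    exact this
  · have := congrArg w hsz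
    rw [map_mul, map_pow, map_mul, hπ] at this
    exact this

/-! ## The Fricke involutions on the charts over `A₀` -/

section Maps

variable (A : ValuationSubring Kbar) (M : ℕ) {q : ℕ} [NeZero M] [NeZero q]
  (hq : q.Prime) (hM : ¬ q ∣ M)

theorem h94f_kFricke_fixed (σ : GQ) {x : FF (M * q)}
    (hx : gal (M * q) σ • x = x) :
    gal (M * q) σ • kFricke M q hq hM x = kFricke M q hq hM x := by
  have h := kFricke_gal M q hq hM σ x
  have hx' : arithmeticGalois (modularFunctionFieldFull (M * q)) σ • x = x := hx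
  rw [hx'] at h
  exact h.symm

theorem h94f_W1_mem (hA : A.LiesOverPrime q) {x : FF (M * q)}
    (hx : x ∈ h62rChart A (M * q) (jSS M q)) :
    (kFricke M q hq hM : FF (M * q) →+* FF (M * q)) x ∈ h62rChart A (M * q) (jSS M q) := by
  obtain ⟨h1, h2⟩ := h62r_mem_chart.mp hx
  refine h62r_mem_chart.mpr ⟨?_, fun σ hσ => h94f_kFricke_fixed M hq hM σ (h2 σ hσ)⟩
  rw [h85s_jSS_eq] at h1 ⊢
  exact h44g_kFricke_mem_modelFin M q hq hM A hA h1

theorem h94f_W2_mem (hA : A.LiesOverPrime q) {x : FF (M * q * q)}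
    (hx : x ∈ h62rChart A (M * q * q) (jB (M * q * q))) :
    (h44s_fricke2 M q hq hM : FF (M * q * q) →+* FF (M * q * q)) x ∈
      h62rChart A (M * q * q) (jB (M * q * q)) := by
  obtain ⟨h1, h2⟩ := h62r_mem_chart.mp hx
  exact h62r_mem_chart.mpr ⟨h44s_fricke2_mem_modelFin M q hq hM A hA h1,
    fun σ hσ => h44s_fricke2_fixed M q hq hM σ (h2 σ hσ)⟩

variable (hA : A.LiesOverPrime q)

/-- the Fricke involution `w₁` on the finite chart of level `M q` over `A₀`. -/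
def h94fW1 : h62rChart A (M * q) (jSS M q) →+* h62rChart A (M * q) (jSS M q) :=
  h59yMap A (kFricke M q hq hM : FF (M * q) →+* FF (M * q)) _ _
    (fun _ hx => h94f_W1_mem A M hq hM hA hx)

/-- the Fricke involution `w₂` on the finite chart of level `M q q` over `A₀`. -/
def h94fW2 : h62rChart A (M * q * q) (jB (M * q * q)) →+*
    h62rChart A (M * q * q) (jB (M * q * q)) :=
  h59yMap A (h44s_fricke2 M q hq hM : FF (M * q * q) →+* FF (M * q * q)) _ _
    (fun _ hx => h94f_W2_mem A M hq hM hA hx)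

@[simp]
theorem h94f_coe_W1 (x : h62rChart A (M * q) (jSS M q)) :
    ((h94fW1 A M hq hM hA x : h62rChart A (M * q) (jSS M q)) : FF (M * q)) =
      kFricke M q hq hM (x : FF (M * q)) := rfl

@[simp]
theorem h94f_coe_W2 (x : h62rChart A (M * q * q) (jB (M * q * q))) :
    ((h94fW2 A M hq hM hA x : h62rChart A (M * q * q) (jB (M * q * q))) : FF (M * q * q)) =
      h44s_fricke2 M q hq hM (x : FF (M * q * q)) := rfl

theorem h94f_W1_W1 (x : h62rChart A (M * q) (jSS M q)) :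
    h94fW1 A M hq hM hA (h94fW1 A M hq hM hA x) = x :=
  Subtype.ext (kFricke_kFricke M q hq hM _)

theorem h94f_W2_W2 (x : h62rChart A (M * q * q) (jB (M * q * q))) :
    h94fW2 A M hq hM hA (h94fW2 A M hq hM hA x) = x :=
  Subtype.ext (h44s_fricke2_fricke2 M q hq hM _)

theorem h94f_W1_alpha (x : h62rChart A M (jB M)) :
    h94fW1 A M hq hM hA (h62rAlpha A M x) = h62rBeta A M hq hM hA x :=
  Subtype.ext (kFricke_alpha M q hq hM _)

theorem h94f_W1_beta (x : h62rChart A M (jB M)) :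
    h94fW1 A M hq hM hA (h62rBeta A M hq hM hA x) = h62rAlpha A M x :=
  Subtype.ext (kFricke_beta M q hq hM _)

theorem h94f_W2_a2 (y : h62rChart A (M * q) (jSS M q)) :
    h94fW2 A M hq hM hA (h62rA2 A M y) = h59y_b2 A M hq hM hA (h94fW1 A M hq hM hA y) :=
  Subtype.ext (h44s_fricke2_alpha M q hq hM _)

theorem h94f_W2_b2 (y : h62rChart A (M * q) (jSS M q)) :
    h94fW2 A M hq hM hA (h59y_b2 A M hq hM hA y) = h62rA2 A M (h94fW1 A M hq hM hA y) :=
  Subtype.ext (h44s_fricke2_beta M q hq hM _)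

theorem h94f_W1_natCast (n : ℕ) :
    h94fW1 A M hq hM hA (n : h62rChart A (M * q) (jSS M q)) = n := map_natCast _ n

theorem h94f_W2_natCast (n : ℕ) :
    h94fW2 A M hq hM hA (n : h62rChart A (M * q * q) (jB (M * q * q))) = n := map_natCast _ n

theorem h94f_W2_surjective : Function.Surjective (h94fW2 A M hq hM hA) := fun x =>
  ⟨h94fW2 A M hq hM hA x, h94f_W2_W2 A M hq hM hA x⟩

theorem h94f_W1_surjective : Function.Surjective (h94fW1 A M hq hM hA) := fun x =>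
  ⟨h94fW1 A M hq hM hA x, h94f_W1_W1 A M hq hM hA x⟩

/-- `x ∈ w⁻¹ 𝔫 ↔ w x ∈ 𝔫`, and `w x ∈ w⁻¹ 𝔫 ↔ x ∈ 𝔫`. -/
theorem h94f_W1_mem_comap (𝔫 : Ideal (h62rChart A (M * q) (jSS M q)))
    (x : h62rChart A (M * q) (jSS M q)) :
    h94fW1 A M hq hM hA x ∈ 𝔫.comap (h94fW1 A M hq hM hA) ↔ x ∈ 𝔫 := by
  rw [Ideal.mem_comap, h94f_W1_W1]

/-! ## `w₁` exchanges the smooth data -/

/-- transport of "locally generated by `q` and `t`" along `w₁`. -/
theorem h94f_locGen_comap (𝔫 : Ideal (h62rChart A (M * q) (jSS M q)))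
    (t t' : h62rChart A (M * q) (jSS M q)) (ht : h94fW1 A M hq hM hA t = t')
    (h : h62rLocGen 𝔫 (Ideal.span {(q : h62rChart A (M * q) (jSS M q)), t})) :
    h62rLocGen (𝔫.comap (h94fW1 A M hq hM hA))
      (Ideal.span {(q : h62rChart A (M * q) (jSS M q)), t'}) := by
  intro z hz
  obtain ⟨s, hs, hsz⟩ := h (h94fW1 A M hq hM hA z) (Ideal.mem_comap.mp hz)
  refine ⟨h94fW1 A M hq hM hA s, fun h' => hs ((h94f_W1_mem_comap A M hq hM hA 𝔫 s).mp h'), ?_⟩
  obtain ⟨a, b, hab⟩ := Ideal.mem_span_pair.mp hsz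
  rw [Ideal.mem_span_pair]
  refine ⟨h94fW1 A M hq hM hA a, h94fW1 A M hq hM hA b, ?_⟩
  have := congrArg (h94fW1 A M hq hM hA) hab
  rw [map_add, map_mul, map_mul, map_mul, h94f_W1_W1, h94f_W1_natCast, ht] at this
  exact this

theorem h94f_comap_beta_comap (𝔫 : Ideal (h62rChart A (M * q) (jSS M q))) :
    (𝔫.comap (h94fW1 A M hq hM hA)).comap (h62rBeta A M hq hM hA) =
      𝔫.comap (h62rAlpha A M) := by
  ext x
  rw [Ideal.mem_comap, Ideal.mem_comap, Ideal.mem_comap, h94f_W1_beta]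

theorem h94f_comap_alpha_comap (𝔫 : Ideal (h62rChart A (M * q) (jSS M q))) :
    (𝔫.comap (h94fW1 A M hq hM hA)).comap (h62rAlpha A M) =
      𝔫.comap (h62rBeta A M hq hM hA) := by
  ext x
  rw [Ideal.mem_comap, Ideal.mem_comap, Ideal.mem_comap, h94f_W1_alpha]

/-- `w₁` maps a smooth point of `C_∞` to a smooth point of `C_0`. -/
theorem h94f_zero_of_inf (𝔫 : Ideal (h62rChart A (M * q) (jSS M q)))
    (h : H62InfDatum A M hq hM hA 𝔫) :
    H62ZeroDatum A M hq hM hA (𝔫.comap (h94fW1 A M hq hM hA)) := by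
  obtain ⟨h1, h2⟩ := h
  refine ⟨fun u hu => ?_, fun t ht hgen => ?_⟩
  · obtain ⟨s, hs, hsu⟩ := h1 u hu
    refine ⟨h94fW1 A M hq hM hA s,
      fun h' => hs ((h94f_W1_mem_comap A M hq hM hA 𝔫 s).mp h'), ?_⟩
    obtain ⟨w, hw⟩ := Ideal.mem_span_singleton'.mp hsu
    rw [Ideal.mem_span_singleton']
    refine ⟨h94fW1 A M hq hM hA w, ?_⟩
    have := congrArg (h94fW1 A M hq hM hA) hw
    rw [map_mul, map_mul, map_sub, map_pow, h94f_W1_natCast, h94f_W1_beta, h94f_W1_alpha]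
      at this
    exact this
  · rw [h94f_comap_beta_comap] at ht hgen
    exact h94f_locGen_comap A M hq hM hA 𝔫 _ _ (h94f_W1_alpha A M hq hM hA t) (h2 t ht hgen)

/-- `w₁` maps a smooth point of `C_0` to a smooth point of `C_∞`. -/
theorem h94f_inf_of_zero (𝔫 : Ideal (h62rChart A (M * q) (jSS M q)))
    (h : H62ZeroDatum A M hq hM hA 𝔫) :
    H62InfDatum A M hq hM hA (𝔫.comap (h94fW1 A M hq hM hA)) := by
  obtain ⟨h1, h2⟩ := h
  refine ⟨fun u hu => ?_, fun t ht hgen => ?_⟩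
  · obtain ⟨s, hs, hsu⟩ := h1 u hu
    refine ⟨h94fW1 A M hq hM hA s,
      fun h' => hs ((h94f_W1_mem_comap A M hq hM hA 𝔫 s).mp h'), ?_⟩
    obtain ⟨w, hw⟩ := Ideal.mem_span_singleton'.mp hsu
    rw [Ideal.mem_span_singleton']
    refine ⟨h94fW1 A M hq hM hA w, ?_⟩
    have := congrArg (h94fW1 A M hq hM hA) hw
    rw [map_mul, map_mul, map_sub, map_pow, h94f_W1_natCast, h94f_W1_beta, h94f_W1_alpha]
      at this
    exact this
  · rw [h94f_comap_alpha_comap] at ht hgen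
    exact h94f_locGen_comap A M hq hM hA 𝔫 _ _ (h94f_W1_beta A M hq hM hA t) (h2 t ht hgen)

/-- the contraction along `α₂` of the mirror point is the mirror of the contraction along
`β₂`. -/
theorem h94f_comap_a2_comap (𝔫₂ : Ideal (h62rChart A (M * q * q) (jB (M * q * q)))) :
    (𝔫₂.comap (h94fW2 A M hq hM hA)).comap (h62rA2 A M) =
      (𝔫₂.comap (h59y_b2 A M hq hM hA)).comap (h94fW1 A M hq hM hA) := by
  ext x
  rw [Ideal.mem_comap, Ideal.mem_comap, Ideal.mem_comap, Ideal.mem_comap, h94f_W2_a2]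

theorem h94f_comap_b2_comap (𝔫₂ : Ideal (h62rChart A (M * q * q) (jB (M * q * q)))) :
    (𝔫₂.comap (h94fW2 A M hq hM hA)).comap (h59y_b2 A M hq hM hA) =
      (𝔫₂.comap (h62rA2 A M)).comap (h94fW1 A M hq hM hA) := by
  ext x
  rw [Ideal.mem_comap, Ideal.mem_comap, Ideal.mem_comap, Ideal.mem_comap, h94f_W2_b2]

end Maps

/-! ## The strong forms and the mirror -/

/-- **R-ORD (0), strong form**: the closed points over a smooth point of `C_0` carry the
one-branch datum. -/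
def H94FinZeroOne : Prop :=
  ∀ (q : ℕ) (hq : q.Prime) (M : ℕ) [NeZero M] (hM : ¬ q ∣ M), auxLevel q ∣ M →
    haveI : NeZero q := ⟨hq.ne_zero⟩
    ∀ (A : ValuationSubring Kbar) (hA : A.LiesOverPrime q),
      ∀ 𝔫₂ : Ideal (h62rChart A (M * q * q) (jB (M * q * q))), 𝔫₂.IsMaximal →
        (q : h62rChart A (M * q * q) (jB (M * q * q))) ∈ 𝔫₂ →
        H62ZeroDatum A M hq hM hA (𝔫₂.comap (h62rA2 A M)) →
          h94fOne 𝔫₂ (q : h62rChart A (M * q * q) (jB (M * q * q)))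

/-- **R-ORD (∞), strong form**: the closed points over a smooth point of `C_∞` carry the
one-branch datum. -/
def H94FinInfOne : Prop :=
  ∀ (q : ℕ) (hq : q.Prime) (M : ℕ) [NeZero M] (hM : ¬ q ∣ M), auxLevel q ∣ M →
    haveI : NeZero q := ⟨hq.ne_zero⟩
    ∀ (A : ValuationSubring Kbar) (hA : A.LiesOverPrime q),
      ∀ 𝔫₂ : Ideal (h62rChart A (M * q * q) (jB (M * q * q))), 𝔫₂.IsMaximal →
        (q : h62rChart A (M * q * q) (jB (M * q * q))) ∈ 𝔫₂ →
        H62InfDatum A M hq hM hA (𝔫₂.comap (h62rA2 A M)) →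
          h94fOne 𝔫₂ (q : h62rChart A (M * q * q) (jB (M * q * q)))

theorem h94f_finZero_of (h : H94FinZeroOne) : H62FinZero := by
  intro q hq M _ hM haux
  haveI : NeZero q := ⟨hq.ne_zero⟩
  intro A hA 𝔫₂ h𝔫₂ hq𝔫₂ hz
  exact Or.inr (h q hq M hM haux A hA 𝔫₂ h𝔫₂ hq𝔫₂ hz)

theorem h94f_finInf_of (h : H94FinInfOne) : H62FinInf := by
  intro q hq M _ hM haux
  haveI : NeZero q := ⟨hq.ne_zero⟩
  intro A hA 𝔫₂ h𝔫₂ hq𝔫₂ hz
  exact Or.inr (h q hq M hM haux A hA 𝔫₂ h𝔫₂ hq𝔫₂ hz)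

/-- **The points of `C₂₀` (Fricke mirror of R-ORD (0)).**  A closed point `𝔫₂ ∋ q` of the
finite chart of level `M q q` whose contraction along `β₂` is a smooth point of `C_∞` carries
the one-branch datum. -/
theorem h94f_mirror (h : H94FinZeroOne)
    (q : ℕ) (hq : q.Prime) (M : ℕ) [NeZero M] (hM : ¬ q ∣ M) (haux : auxLevel q ∣ M) :
    haveI : NeZero q := ⟨hq.ne_zero⟩
    ∀ (A : ValuationSubring Kbar) (hA : A.LiesOverPrime q),
      ∀ 𝔫₂ : Ideal (h62rChart A (M * q * q) (jB (M * q * q))), 𝔫₂.IsMaximal →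
        (q : h62rChart A (M * q * q) (jB (M * q * q))) ∈ 𝔫₂ →
        H62InfDatum A M hq hM hA (𝔫₂.comap (h59y_b2 A M hq hM hA)) →
          h94fOne 𝔫₂ (q : h62rChart A (M * q * q) (jB (M * q * q))) := by
  haveI : NeZero q := ⟨hq.ne_zero⟩
  intro A hA 𝔫₂ h𝔫₂ hq𝔫₂ hinf
  have hmax : (𝔫₂.comap (h94fW2 A M hq hM hA)).IsMaximal :=
    Ideal.comap_isMaximal_of_surjective _ (h94f_W2_surjective A M hq hM hA)
  have hq' : (q : h62rChart A (M * q * q) (jB (M * q * q))) ∈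
      𝔫₂.comap (h94fW2 A M hq hM hA) := by
    rw [Ideal.mem_comap, h94f_W2_natCast]; exact hq𝔫₂
  have hz : H62ZeroDatum A M hq hM hA
      ((𝔫₂.comap (h94fW2 A M hq hM hA)).comap (h62rA2 A M)) := by
    rw [h94f_comap_a2_comap]
    exact h94f_zero_of_inf A M hq hM hA _ hinf
  have h1 := h q hq M hM haux A hA _ hmax hq' hz
  exact h94f_one_comap (h94fW2 A M hq hM hA) (h94f_W2_W2 A M hq hM hA) 𝔫₂ _
    (h94f_W2_natCast A M hq hM hA q) h1

/-- the mirror of a statement on the points whose contraction along `α₂` is a smooth point of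
`C_∞`: the points whose contraction along `β₂` is a smooth point of `C_0`. -/
theorem h94f_mirror_inf (h : H94FinInfOne)
    (q : ℕ) (hq : q.Prime) (M : ℕ) [NeZero M] (hM : ¬ q ∣ M) (haux : auxLevel q ∣ M) :
    haveI : NeZero q := ⟨hq.ne_zero⟩
    ∀ (A : ValuationSubring Kbar) (hA : A.LiesOverPrime q),
      ∀ 𝔫₂ : Ideal (h62rChart A (M * q * q) (jB (M * q * q))), 𝔫₂.IsMaximal →
        (q : h62rChart A (M * q * q) (jB (M * q * q))) ∈ 𝔫₂ →
        H62ZeroDatum A M hq hM hA (𝔫₂.comap (h59y_b2 A M hq hM hA)) →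
          h94fOne 𝔫₂ (q : h62rChart A (M * q * q) (jB (M * q * q))) := by
  haveI : NeZero q := ⟨hq.ne_zero⟩
  intro A hA 𝔫₂ h𝔫₂ hq𝔫₂ hzero
  have hmax : (𝔫₂.comap (h94fW2 A M hq hM hA)).IsMaximal :=
    Ideal.comap_isMaximal_of_surjective _ (h94f_W2_surjective A M hq hM hA)
  have hq' : (q : h62rChart A (M * q * q) (jB (M * q * q))) ∈
      𝔫₂.comap (h94fW2 A M hq hM hA) := by
    rw [Ideal.mem_comap, h94f_W2_natCast]; exact hq𝔫₂
  have hz : H62InfDatum A M hq hM hA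
      ((𝔫₂.comap (h94fW2 A M hq hM hA)).comap (h62rA2 A M)) := by
    rw [h94f_comap_a2_comap]
    exact h94f_inf_of_zero A M hq hM hA _ hzero
  have h1 := h q hq M hM haux A hA _ hmax hq' hz
  exact h94f_one_comap (h94fW2 A M hq hM hA) (h94f_W2_W2 A M hq hM hA) 𝔫₂ _
    (h94f_W2_natCast A M hq hM hA q) h1

end Fermat.Agent.S36
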