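import Mathlib
import Fermat.Agent.S36.H40Gen
import Fermat.Agent.S36.H50ExcIface

/-!
# S36, block REG, row R-ORD (helper94): generation of the level `M q²` by a general coordinate

Proof of the frozen leaf `H50eGen` (`S36/H50ExcIface.lean`, helper50).

`B₁ = h62rChart A (M q) (jSS M q)`, `B₂ = h62rChart A (M q²) (jB (M q²))` (charts over the
inertia ring `A₀`), `α₂ = h62rA2`, `β₂ = h59y_b2 : B₁ →+* B₂`.

* `h94n_gen_of` : for `Ψ ∈ B₂` outside `α₂ (F_{Mq})`: no nonzero polynomial of degree `< q` over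
  `B₁` kills `Ψ`, and every element of `B₂` is a fraction `Q(Ψ) / α₂ t`
  (landed R-GEN `h40g_gen`, `h40g_exists_unique` of helper40, which hold for ANY generator).
* `h94n_exists_notMem` : if `Z ∉ α₂ (F_{Mq})` then `Z + E` or `Z + (1 + q) E` is not in
  `α₂ (F_{Mq})`.
* `h94n_gen : H50eGen` : for non-constant `u` and any `ε ∈ B₁`, `δ = 1` or `δ = 1 + q` works for
  `Ψ = β₂ (β u + δ ε)`.

Every declaration is a proved theorem; nothing is assumed.
-/

set_option autoImplicit false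
set_option linter.style.haveILetI false
set_option linter.unusedSectionVars false

open AlgebraicCurve ModularCurve Polynomial

noncomputable section

namespace Fermat.Agent.S36

open Fermat.Agent.S37 Fermat.Agent.Red.GG Fermat.Agent.LGC

section Gen

variable (A : ValuationSubring Kbar) (M : ℕ) {q : ℕ} [NeZero M] [NeZero q]

/-- evaluation in the chart and in the function field. -/
theorem h94n_coe_eval₂ (Ψ : h62rChart A (M * q * q) (jB (M * q * q)))
    (P : Polynomial (h62rChart A (M * q) (jSS M q))) :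
    ((eval₂ (h62rA2 A M) Ψ P : h62rChart A (M * q * q) (jB (M * q * q))) : FF (M * q * q)) =
      eval₂ (h40gA (M * q) q) (Ψ : FF (M * q * q))
        (P.map (h62rChart A (M * q) (jSS M q)).subtype) := by
  have h2 : (h62rChart A (M * q * q) (jB (M * q * q))).subtype
        (eval₂ (h62rA2 A M) Ψ P) =
      eval₂ ((h62rChart A (M * q * q) (jB (M * q * q))).subtype.comp (h62rA2 A M))
        ((h62rChart A (M * q * q) (jB (M * q * q))).subtype Ψ) P :=
    hom_eval₂ _ _ _ _
  have h3 : (h62rChart A (M * q * q) (jB (M * q * q))).subtype.comp (h62rA2 A M) =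
      (h40gA (M * q) q).comp (h62rChart A (M * q) (jSS M q)).subtype := by
    ext x
    rfl
  show (h62rChart A (M * q * q) (jB (M * q * q))).subtype (eval₂ (h62rA2 A M) Ψ P) = _
  rw [h2, h3, eval₂_map]
  rfl

/-- **the degree hypothesis** for a coordinate outside `α₂ (F_{Mq})`. -/
theorem h94n_hmin (hq : q.Prime)
    (Ψ : h62rChart A (M * q * q) (jB (M * q * q)))
    (hΨ : (Ψ : FF (M * q * q)) ∉ Set.range (heckeAlphaBar Kbar (M * q) q))
    (P : Polynomial (h62rChart A (M * q) (jSS M q))) (hP0 : P ≠ 0)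
    (hP : P.eval₂ (h62rA2 A M) Ψ = 0) : q ≤ P.natDegree := by
  by_contra hlt
  rw [not_le] at hlt
  apply hP0
  have huniq := (h40g_exists_unique (M * q) q hq (dvd_mul_left q M) (Ψ : FF (M * q * q)) hΨ).2
  have h1 : eval₂ (h40gA (M * q) q) (Ψ : FF (M * q * q))
      (P.map (h62rChart A (M * q) (jSS M q)).subtype) = 0 := by
    rw [← h94n_coe_eval₂, hP]
    rfl
  have h2 : P.map (h62rChart A (M * q) (jSS M q)).subtype = 0 := by
    refine huniq _ 0 (lt_of_le_of_lt natDegree_map_le hlt) ?_ ?_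
    · rw [natDegree_zero]; exact hq.pos
    · rw [h1, eval₂_zero]
  exact (Polynomial.map_eq_zero_iff Subtype.val_injective).mp h2

/-- **R-GEN** for a coordinate outside `α₂ (F_{Mq})`. -/
theorem h94n_hfrac (hq : q.Prime)
    (Ψ : h62rChart A (M * q * q) (jB (M * q * q)))
    (hΨ : (Ψ : FF (M * q * q)) ∉ Set.range (heckeAlphaBar Kbar (M * q) q))
    (x : h62rChart A (M * q * q) (jB (M * q * q))) :
    ∃ (Q : Polynomial (h62rChart A (M * q) (jSS M q)))
      (t : h62rChart A (M * q) (jSS M q)), t ≠ 0 ∧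
      h62rA2 A M t * x = Q.eval₂ (h62rA2 A M) Ψ := by
  obtain ⟨P, s, hs0, hs, hP, -, hrel⟩ := h40g_gen A (M * q) q hq (dvd_mul_left q M)
    (jB (M * q)) (Fermat.Agent.Red.SM.HAlg.h81a_halg_jB (M * q))
    (fun σ _ => Fermat.Agent.S37.GalI.gal_smul_jB (N := M * q) σ)
    (Ψ : FF (M * q * q)) (h62r_mem_chart.mp Ψ.2).2 hΨ
    (x : FF (M * q * q)) (h62r_mem_chart.mp x.2).2
  have hEq : h62rChart A (M * q) (jB (M * q)) = h62rChart A (M * q) (jSS M q) := by
    rw [h71i_jSS_eq]
  rw [hEq] at hs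
  have hP' : (↑P.coeffs : Set (FF (M * q))) ⊆ h62rChart A (M * q) (jSS M q) := by
    intro c hc
    obtain ⟨i, -, rfl⟩ := Polynomial.mem_coeffs_iff.mp hc
    have := hP i
    rw [hEq] at this
    exact this
  refine ⟨P.toSubring _ hP', ⟨s, hs⟩, ?_, ?_⟩
  · intro h
    exact hs0 (congrArg Subtype.val h)
  · apply Subtype.ext
    rw [h94n_coe_eval₂, Polynomial.map_toSubring]
    exact hrel

/-- both statements together. -/
theorem h94n_gen_of (hq : q.Prime)
    (Ψ : h62rChart A (M * q * q) (jB (M * q * q)))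
    (hΨ : (Ψ : FF (M * q * q)) ∉ Set.range (heckeAlphaBar Kbar (M * q) q)) :
    (∀ P : Polynomial (h62rChart A (M * q) (jSS M q)), P ≠ 0 →
      P.eval₂ (h62rA2 A M) Ψ = 0 → q ≤ P.natDegree) ∧
    (∀ x : h62rChart A (M * q * q) (jB (M * q * q)),
      ∃ (Q : Polynomial (h62rChart A (M * q) (jSS M q)))
        (t : h62rChart A (M * q) (jSS M q)), t ≠ 0 ∧
        h62rA2 A M t * x = Q.eval₂ (h62rA2 A M) Ψ) :=
  ⟨fun P hP0 hP => h94n_hmin A M hq Ψ hΨ P hP0 hP, fun x => h94n_hfrac A M hq Ψ hΨ x⟩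

end Gen

section Choice

variable (M : ℕ) {q : ℕ} [NeZero M] [NeZero q]

/-- if `Z ∉ α₂ (F_{Mq})` then `Z + E` or `Z + (1 + q) E` is not in `α₂ (F_{Mq})`. -/
theorem h94n_exists_notMem (hq : q.Prime) (Z E : FF (M * q * q))
    (hZ : Z ∉ Set.range (heckeAlphaBar Kbar (M * q) q)) :
    Z + E ∉ Set.range (heckeAlphaBar Kbar (M * q) q) ∨
      Z + (1 + ((q : ℕ) : FF (M * q * q))) * E ∉ Set.range (heckeAlphaBar Kbar (M * q) q) := by
  by_contra hcon
  push Not at hcon
  obtain ⟨⟨x, hx⟩, ⟨y, hy⟩⟩ := hcon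
  apply hZ
  have hq0 : ((q : ℕ) : FF (M * q)) ≠ 0 := Nat.cast_ne_zero.mpr hq.ne_zero
  have hq0' : ((q : ℕ) : FF (M * q * q)) ≠ 0 := Nat.cast_ne_zero.mpr hq.ne_zero
  refine ⟨x - (y - x) / ((q : ℕ) : FF (M * q)), ?_⟩
  rw [map_sub, map_div₀, map_sub, hx, hy, map_natCast]
  field_simp
  ring

end Choice

/-- **the leaf `H50eGen`.** -/
theorem h94n_gen : H50eGen := by
  intro q hq M _ hM _
  haveI : NeZero q := ⟨hq.ne_zero⟩
  intro A hA u hu ε
  have hZ := h40g_Z_not_mem_range M q hq hM (u : FF M) hu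
  have hcoe : ∀ δ : h62rChart A (M * q) (jSS M q),
      ((h59y_b2 A M hq hM hA (h62rBeta A M hq hM hA u + δ * ε) :
        h62rChart A (M * q * q) (jB (M * q * q))) : FF (M * q * q)) =
      h40gZ M q (u : FF M) + heckeBetaBar Kbar (M * q) q (δ : FF (M * q)) *
        heckeBetaBar Kbar (M * q) q (ε : FF (M * q)) := by
    intro δ
    rw [h59y_coe_b2]
    show heckeBetaBar Kbar (M * q) q
      (heckeBetaBar Kbar M q (u : FF M) + (δ : FF (M * q)) * (ε : FF (M * q))) = _
    rw [map_add, map_mul]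
    rfl
  rcases h94n_exists_notMem M hq (h40gZ M q (u : FF M))
      (heckeBetaBar Kbar (M * q) q (ε : FF (M * q))) hZ with h | h
  · refine ⟨1, ?_, ?_⟩
    · rw [sub_self]; exact Ideal.zero_mem _
    · refine h94n_gen_of A M hq _ ?_
      rw [hcoe]
      have h1 : heckeBetaBar Kbar (M * q) q
          (((1 : h62rChart A (M * q) (jSS M q)) : FF (M * q))) = 1 := map_one _
      rw [h1, one_mul]
      exact h
  · refine ⟨1 + ((q : ℕ) : h62rChart A (M * q) (jSS M q)), ?_, ?_⟩
    · rw [add_sub_cancel_left]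
      exact Ideal.subset_span (Set.mem_singleton _)
    · refine h94n_gen_of A M hq _ ?_
      rw [hcoe]
      have h1 : heckeBetaBar Kbar (M * q) q
          (((1 + ((q : ℕ) : h62rChart A (M * q) (jSS M q)) :
            h62rChart A (M * q) (jSS M q)) : FF (M * q))) =
          1 + ((q : ℕ) : FF (M * q * q)) := by
        have h2 : (((1 + ((q : ℕ) : h62rChart A (M * q) (jSS M q)) :
            h62rChart A (M * q) (jSS M q)) : FF (M * q))) = 1 + ((q : ℕ) : FF (M * q)) := by
          simp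
        rw [h2, map_add, map_one, map_natCast]
      rw [h1]
      exact h

end Fermat.Agent.S36
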