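import Mathlib
import Fermat.Agent.S36.H80RegOrd

/-!
# S36, block REG, row R-ORD (helper94): the points of multiplicity one over an ordinary point

Abstract commutative algebra (Mathlib + helper80's `H80Ufd`, `H80RegExt`, `H80RegOrd`).
Companion of `h80o_regular` (the point of `Z₁₁`, multiplicity `q - 1`) at the OTHER point
over the same ordinary point of the level `q M'`.

Setting: `B` a noetherian local domain with maximal ideal `(q₀, t₁)` (`q₀ ≠ 0`,
`t₁ ^ n ∉ (q₀)`), `R = B[T]` a domain, `T` integral over `B`, with a relation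

  `e * T = q₀ * w`,   `e ∉ 𝔐 := 𝔪_B R + (T)`

(in the application `T = S + c`, `e = S ^ k`, `w = -(S η + κ)` for the relation
`S ^ k (S + c) + q₀ (S η + κ) = 0` of `h80o_regular`), and `φ : R → B ⧸ (q₀)` the restriction to
the component `T = 0`.

* `h94o_regular20` : `L = R_𝔐` is a noetherian local domain with `𝔪_L = (q₀, t₁)`, `q₀` is a
  prime element, `L` is a UFD and integrally closed.
* `h94o_two_gen20` : the same in the "locally" form: `∀ z ∈ 𝔐, ∃ s ∉ 𝔐, s * z ∈ (q₀, t₁)`.
* `h94o_mem_or_mem` : every prime of `R` containing `q₀` contains `S` or `S + c`.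
* `h94o_shift_gen` : `B[S + c] = B[S]`.
* `h94o_eq_or_eq` : the only maximal ideals of `R` are `𝔪_B R + (S)` and `𝔪_B R + (S + c)`.
* `h94o_ne` : they are distinct if `c` is a unit.
-/

set_option autoImplicit false
set_option linter.unusedSectionVars false
set_option linter.unnecessarySimpa false

open IsLocalRing Polynomial

namespace Fermat.Agent.S36

section Ord20

variable {B : Type*} [CommRing B] [IsDomain B] [IsNoetherianRing B] [IsLocalRing B]
  {R : Type*} [CommRing R] [IsDomain R] [Algebra B R]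

/-- the "locally" form at the point of multiplicity one: `𝔐 = (q₀, t₁)` locally. -/
theorem h94o_two_gen20 (q₀ t₁ : B) (hmaxB : maximalIdeal B = Ideal.span {q₀, t₁})
    (T : R) (e w : R) (he : e ∉ h80rI B T) (hroot : e * T = algebraMap B R q₀ * w) :
    ∀ z ∈ h80rI B T, ∃ s, s ∉ h80rI B T ∧
      s * z ∈ Ideal.span {algebraMap B R q₀, algebraMap B R t₁} := by
  intro z hz
  refine ⟨e, he, ?_⟩
  have hq : algebraMap B R q₀ ∈ Ideal.span {algebraMap B R q₀, algebraMap B R t₁} :=
    Ideal.subset_span (by simp)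
  have ht : algebraMap B R t₁ ∈ Ideal.span {algebraMap B R q₀, algebraMap B R t₁} :=
    Ideal.subset_span (by simp)
  have h1 : (maximalIdeal B).map (algebraMap B R) ≤
      Ideal.span {algebraMap B R q₀, algebraMap B R t₁} := by
    rw [hmaxB, Ideal.map_span, Ideal.span_le]
    rintro _ ⟨b, hb, rfl⟩
    rcases hb with rfl | hb
    · exact hq
    · rw [Set.mem_singleton_iff] at hb
      rw [hb]; exact ht
  unfold h80rI at hz
  obtain ⟨a, ha, b, hb, rfl⟩ := Submodule.mem_sup.mp hz
  obtain ⟨r, rfl⟩ := Ideal.mem_span_singleton'.mp hb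
  rw [mul_add]
  refine Ideal.add_mem _ (Ideal.mul_mem_left _ _ (h1 ha)) ?_
  have h2 : e * (r * T) = r * w * algebraMap B R q₀ := by
    calc e * (r * T) = r * (e * T) := by ring
      _ = r * (algebraMap B R q₀ * w) := by rw [hroot]
      _ = r * w * algebraMap B R q₀ := by ring
  rw [h2]
  exact Ideal.mul_mem_left _ _ hq

/-- **REG at the point of multiplicity one (abstract).**  `L = R_𝔐`, `𝔐 = 𝔪_B R + (T)`, is a
noetherian local domain with maximal ideal `(q₀, t₁)`, `q₀` is prime in `L`, `L` is a UFD and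
integrally closed. -/
theorem h94o_regular20
    (hinj : Function.Injective (algebraMap B R))
    (q₀ t₁ : B) (hq0 : q₀ ≠ 0) (hmaxB : maximalIdeal B = Ideal.span {q₀, t₁})
    (hnil : ∀ n : ℕ, t₁ ^ n ∉ Ideal.span {q₀})
    (T : R) (hint : IsIntegral B T) (hgen : Algebra.adjoin B {T} = ⊤)
    (e w : R) (he : e ∉ h80rI B T) (hroot : e * T = algebraMap B R q₀ * w)
    (φ : R →+* B ⧸ Ideal.span {q₀}) (hφT : φ T = 0)
    (hφ : ∀ b : B, φ (algebraMap B R b) = Ideal.Quotient.mk _ b)
    (𝔐 : Ideal R) [h𝔐 : 𝔐.IsPrime] (h𝔐eq : 𝔐 = h80rI B T)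
    (L : Type*) [CommRing L] [Algebra R L] [IsLocalization.AtPrime L 𝔐] :
    ∃ (_ : IsLocalRing L) (_ : IsDomain L), IsNoetherianRing L ∧
      maximalIdeal L = Ideal.span {algebraMap R L (algebraMap B R q₀),
        algebraMap R L (algebraMap B R t₁)} ∧
      Prime (algebraMap R L (algebraMap B R q₀)) ∧
      UniqueFactorizationMonoid L ∧ IsIntegrallyClosed L := by
  classical
  have hq : q₀ ∈ maximalIdeal B := by
    rw [hmaxB]; exact Ideal.subset_span (by simp)
  have ht : t₁ ∈ maximalIdeal B := by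
    rw [hmaxB]; exact Ideal.subset_span (by simp)
  obtain ⟨G, hG, hGroot⟩ := hint
  have hnoeR : IsNoetherianRing R :=
    h80r_isNoetherianRing T hgen G hG (by rw [aeval_def]; exact hGroot)
  have hlocL : IsLocalRing L := IsLocalization.AtPrime.isLocalRing L 𝔐
  have hle : 𝔐.primeCompl ≤ nonZeroDivisors R := by
    intro x hx
    rw [mem_nonZeroDivisors_iff_ne_zero]
    rintro rfl
    exact hx 𝔐.zero_mem
  have hdomL : IsDomain L :=
    IsLocalization.isDomain_of_le_nonZeroDivisors (R := R) (M := 𝔐.primeCompl) (S := L) hle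
  have hnoeL : IsNoetherianRing L := IsLocalization.isNoetherianRing 𝔐.primeCompl L hnoeR
  have hinjL : Function.Injective (algebraMap R L) := IsLocalization.injective L hle
  refine ⟨hlocL, hdomL, hnoeL, ?_⟩
  have hunit : ∀ x : R, x ∉ 𝔐 → IsUnit (algebraMap R L x) := fun x hx =>
    IsLocalization.map_units L (⟨x, hx⟩ : 𝔐.primeCompl)
  have hTmem : T ∈ 𝔐 := by
    rw [h𝔐eq]; exact Ideal.mem_sup_right (Ideal.subset_span (Set.mem_singleton T))
  have he' : e ∉ 𝔐 := by rw [h𝔐eq]; exact he
  obtain ⟨u, hu⟩ := hunit e he'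
  -- `T = u⁻¹ q₀ w` in `L`
  have hTL : algebraMap R L T =
      ((u⁻¹ : Lˣ) : L) * algebraMap R L w * algebraMap R L (algebraMap B R q₀) := by
    have e1 := congrArg (algebraMap R L) hroot
    rw [map_mul, map_mul, ← hu] at e1
    calc algebraMap R L T = ((u⁻¹ : Lˣ) : L) * ((u : L) * algebraMap R L T) := by
          rw [← mul_assoc, Units.inv_mul, one_mul]
      _ = ((u⁻¹ : Lˣ) : L) * (algebraMap R L (algebraMap B R q₀) * algebraMap R L w) := by
          rw [e1]
      _ = _ := by ring
  have hmaxL : maximalIdeal L = 𝔐.map (algebraMap R L) :=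
    (IsLocalization.AtPrime.map_eq_maximalIdeal 𝔐 L).symm
  have hqL : algebraMap R L (algebraMap B R q₀) ∈ Ideal.span
      {algebraMap R L (algebraMap B R q₀), algebraMap R L (algebraMap B R t₁)} :=
    Ideal.subset_span (by simp)
  have htL : algebraMap R L (algebraMap B R t₁) ∈ Ideal.span
      {algebraMap R L (algebraMap B R q₀), algebraMap R L (algebraMap B R t₁)} :=
    Ideal.subset_span (by simp)
  have hmax2 : maximalIdeal L = Ideal.span
      {algebraMap R L (algebraMap B R q₀), algebraMap R L (algebraMap B R t₁)} := by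
    apply le_antisymm
    · rw [hmaxL, Ideal.map_le_iff_le_comap, h𝔐eq]
      refine sup_le ?_ ?_
      · rw [hmaxB, Ideal.map_span, Ideal.span_le]
        rintro _ ⟨b, hb, rfl⟩
        rw [SetLike.mem_coe, Ideal.mem_comap]
        rcases hb with rfl | hb
        · exact hqL
        · rw [Set.mem_singleton_iff] at hb
          rw [hb]; exact htL
      · rw [Ideal.span_le]
        intro x hx
        rw [Set.mem_singleton_iff] at hx
        rw [hx, SetLike.mem_coe, Ideal.mem_comap, hTL]
        exact Ideal.mul_mem_left _ _ hqL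
    · rw [Ideal.span_le, hmaxL]
      rintro x (rfl | hx)
      · refine Ideal.mem_map_of_mem _ ?_
        rw [h𝔐eq]
        exact Ideal.mem_sup_left (Ideal.mem_map_of_mem _ hq)
      · rw [Set.mem_singleton_iff] at hx
        rw [hx]
        refine Ideal.mem_map_of_mem _ ?_
        rw [h𝔐eq]
        exact Ideal.mem_sup_left (Ideal.mem_map_of_mem _ ht)
  have hq0R : algebraMap B R q₀ ≠ 0 := fun h => hq0 (hinj (by rw [h, map_zero]))
  have hq0L : algebraMap R L (algebraMap B R q₀) ≠ 0 :=
    fun h => hq0R (hinjL (by rw [h, map_zero]))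
  -- non-nilpotency of `t₁` modulo `q₀`
  have hnilL : ∀ n : ℕ, algebraMap R L (algebraMap B R t₁) ^ n ∉
      Ideal.span {algebraMap R L (algebraMap B R q₀)} := by
    intro n hn
    obtain ⟨x, hx⟩ := Ideal.mem_span_singleton'.mp hn
    obtain ⟨⟨r, s⟩, hrs⟩ := IsLocalization.mk'_surjective 𝔐.primeCompl x
    have e1 : algebraMap R L ((s : R) * algebraMap B R t₁ ^ n) =
        algebraMap R L (algebraMap B R q₀ * r) := by
      rw [map_mul, map_mul, map_pow, ← hx, ← hrs]
      have := IsLocalization.mk'_spec L r s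
      calc algebraMap R L (s : R) *
            (IsLocalization.mk' L r s * algebraMap R L (algebraMap B R q₀))
          = (IsLocalization.mk' L r s * algebraMap R L (s : R)) *
              algebraMap R L (algebraMap B R q₀) := by ring
        _ = algebraMap R L r * algebraMap R L (algebraMap B R q₀) := by rw [this]
        _ = algebraMap R L (algebraMap B R q₀) * algebraMap R L r := by ring
    have e2 : (s : R) * algebraMap B R t₁ ^ n = algebraMap B R q₀ * r := hinjL e1
    have e3 := congrArg φ e2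
    have hφq : φ (algebraMap B R q₀) = 0 := by
      rw [hφ, Ideal.Quotient.eq_zero_iff_mem]
      exact Ideal.mem_span_singleton_self q₀
    rw [map_mul, map_mul, hφq, zero_mul, map_pow, hφ] at e3
    obtain ⟨b, c', hbc⟩ := h80r_exists_const T hgen (s : R)
    have hb : b ∉ maximalIdeal B := by
      intro h
      have := (h80o_not_mem_iff q₀ hq T φ hφT hφ b c').mpr h
      rw [← hbc, ← h𝔐eq] at this
      exact s.2 this
    have hbu : IsUnit b := by
      by_contra h
      exact hb ((IsLocalRing.mem_maximalIdeal b).mpr h)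
    have hφs : φ (s : R) = Ideal.Quotient.mk _ b := by
      rw [hbc, map_add, map_mul, hφT, zero_mul, add_zero, hφ]
    rw [hφs, ← map_pow, ← map_mul, Ideal.Quotient.eq_zero_iff_mem] at e3
    obtain ⟨v, hv⟩ := hbu.exists_left_inv
    have e4 : t₁ ^ n ∈ Ideal.span {q₀} := by
      have : t₁ ^ n = v * (b * t₁ ^ n) := by rw [← mul_assoc, hv, one_mul]
      rw [this]
      exact Ideal.mul_mem_left _ _ e3
    exact hnil n e4
  have hufd := h80u_ufd_of_two_gen (algebraMap R L (algebraMap B R q₀))
    (algebraMap R L (algebraMap B R t₁)) hq0L hmax2 hnilL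
  have hpr := (h80u_prime_of_two_gen (algebraMap R L (algebraMap B R q₀))
    (algebraMap R L (algebraMap B R t₁)) hq0L hmax2 hnilL).1
  exact ⟨hmax2, hpr, hufd, inferInstance⟩

/-- every prime ideal of `R` containing `q₀` contains `S` or `S + c`. -/
theorem h94o_mem_or_mem (q₀ : B) (S : R) (k : ℕ) (c κ : B) (η : R)
    (hroot : S ^ k * (S + algebraMap B R c) + algebraMap B R q₀ * (S * η + algebraMap B R κ) = 0)
    (P : Ideal R) [hP : P.IsPrime] (hq : algebraMap B R q₀ ∈ P) :
    S ∈ P ∨ S + algebraMap B R c ∈ P := by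
  have h1 : S ^ k * (S + algebraMap B R c) ∈ P := by
    have h2 : S ^ k * (S + algebraMap B R c) =
        -(algebraMap B R q₀ * (S * η + algebraMap B R κ)) := by linear_combination hroot
    rw [h2]
    exact P.neg_mem (P.mul_mem_right _ hq)
  rcases hP.mem_or_mem h1 with h | h
  · exact Or.inl (hP.mem_of_pow_mem _ h)
  · exact Or.inr h

/-- `B[S + c] = B[S]`. -/
theorem h94o_shift_gen (S : R) (c : B) (hgen : Algebra.adjoin B {S} = ⊤) :
    Algebra.adjoin B {S + algebraMap B R c} = ⊤ := by
  rw [eq_top_iff, ← hgen]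
  refine Algebra.adjoin_le ?_
  intro x hx
  rw [Set.mem_singleton_iff] at hx
  rw [hx]
  have h2 : S + algebraMap B R c - algebraMap B R c ∈
      Algebra.adjoin B {S + algebraMap B R c} :=
    Subalgebra.sub_mem _ (Algebra.subset_adjoin (Set.mem_singleton _))
      (Subalgebra.algebraMap_mem _ c)
  simpa using h2

/-- `S + c` is integral if `S` is. -/
theorem h94o_shift_integral (S : R) (c : B) (hint : IsIntegral B S) :
    IsIntegral B (S + algebraMap B R c) :=
  hint.add isIntegral_algebraMap

/-- the relation of `h80o_regular` in the shape `e * T = q₀ * w` with `T = S + c`,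
`e = S ^ k`. -/
theorem h94o_root_shift (q₀ : B) (S : R) (k : ℕ) (c κ : B) (η : R)
    (hroot : S ^ k * (S + algebraMap B R c) + algebraMap B R q₀ * (S * η + algebraMap B R κ) = 0) :
    S ^ k * (S + algebraMap B R c) = algebraMap B R q₀ * (-(S * η + algebraMap B R κ)) := by
  linear_combination hroot

/-- if `c` is a unit, `S` and `S + c` do not lie in a common proper ideal. -/
theorem h94o_not_both (S : R) (c : B) (hc : IsUnit c) (P : Ideal R) (hP : P ≠ ⊤)
    (h1 : S ∈ P) (h2 : S + algebraMap B R c ∈ P) : False := by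
  apply hP
  have h3 : algebraMap B R c ∈ P := by
    have := P.sub_mem h2 h1
    simpa using this
  exact Ideal.eq_top_of_isUnit_mem _ h3 (hc.map (algebraMap B R))

/-- every maximal ideal of `R = B[S]` is `𝔪_B R + (S)` or `𝔪_B R + (S + c)`. -/
theorem h94o_eq_or_eq (q₀ : B) (hq : q₀ ∈ maximalIdeal B)
    (S : R) (hint : IsIntegral B S) (hgen : Algebra.adjoin B {S} = ⊤)
    (k : ℕ) (c κ : B) (η : R)
    (hroot : S ^ k * (S + algebraMap B R c) + algebraMap B R q₀ * (S * η + algebraMap B R κ) = 0)
    (M : Ideal R) (hM : M.IsMaximal) :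
    M = h80rI B S ∨ M = h80rI B (S + algebraMap B R c) := by
  obtain ⟨G, hG, hGroot⟩ := hint
  have hintR : Algebra.IsIntegral B R :=
    h80r_isIntegral S hgen G hG (by rw [aeval_def]; exact hGroot)
  have hcm : (M.comap (algebraMap B R)).IsMaximal :=
    Ideal.isMaximal_comap_of_isIntegral_of_isMaximal M
  have hcm' : M.comap (algebraMap B R) = maximalIdeal B := IsLocalRing.eq_maximalIdeal hcm
  have hle1 : (maximalIdeal B).map (algebraMap B R) ≤ M := by
    rw [Ideal.map_le_iff_le_comap, hcm']
  have hqM : algebraMap B R q₀ ∈ M := hle1 (Ideal.mem_map_of_mem _ hq)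
  have hMp := hM.isPrime
  -- an element `T ∈ M` generating `R` over `B` gives `M = 𝔪_B R + (T)`
  have key : ∀ T : R, Algebra.adjoin B {T} = ⊤ → T ∈ M → M = h80rI B T := by
    intro T hT hTM
    have hle : h80rI B T ≤ M := by
      refine sup_le hle1 ?_
      rw [Ideal.span_le]
      intro x hx
      rw [Set.mem_singleton_iff] at hx
      rw [hx]; exact hTM
    apply le_antisymm
    · intro x hx
      obtain ⟨b, c', rfl⟩ := h80r_exists_const T hT x
      have hTc : T * c' ∈ h80rI B T :=
        Ideal.mul_mem_right _ _ (Ideal.mem_sup_right (Ideal.subset_span (Set.mem_singleton T)))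
      have hb : algebraMap B R b ∈ M := by
        have := M.sub_mem hx (hle hTc)
        simpa using this
      have hb' : b ∈ maximalIdeal B := by
        rw [← hcm']; exact hb
      exact Ideal.add_mem _ (Ideal.mem_sup_left (Ideal.mem_map_of_mem _ hb')) hTc
    · exact hle
  rcases h94o_mem_or_mem q₀ S k c κ η hroot M hqM with h | h
  · exact Or.inl (key S hgen h)
  · exact Or.inr (key _ (h94o_shift_gen S c hgen) h)

/-- **REG at the point of multiplicity one, in the coordinates of `h80o_regular`.**  With the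
relation `S ^ k (S + c) + q₀ (S η + κ) = 0`, `c` a unit, and `φ` the restriction to the
component `S + c = 0`: the localisation of `R = B[S]` at `𝔐' = 𝔪_B R + (S + c)` is regular with
parameters `(q₀, t₁)`. -/
theorem h94o_regular20'
    (hinj : Function.Injective (algebraMap B R))
    (q₀ t₁ : B) (hq0 : q₀ ≠ 0) (hmaxB : maximalIdeal B = Ideal.span {q₀, t₁})
    (hnil : ∀ n : ℕ, t₁ ^ n ∉ Ideal.span {q₀})
    (S : R) (hint : IsIntegral B S) (hgen : Algebra.adjoin B {S} = ⊤)
    (k : ℕ) (c κ : B) (hc : IsUnit c) (η : R)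
    (hroot : S ^ k * (S + algebraMap B R c) + algebraMap B R q₀ * (S * η + algebraMap B R κ) = 0)
    (φ : R →+* B ⧸ Ideal.span {q₀}) (hφS : φ (S + algebraMap B R c) = 0)
    (hφ : ∀ b : B, φ (algebraMap B R b) = Ideal.Quotient.mk _ b)
    (𝔐 : Ideal R) [h𝔐 : 𝔐.IsPrime] (h𝔐eq : 𝔐 = h80rI B (S + algebraMap B R c))
    (L : Type*) [CommRing L] [Algebra R L] [IsLocalization.AtPrime L 𝔐] :
    ∃ (_ : IsLocalRing L) (_ : IsDomain L), IsNoetherianRing L ∧
      maximalIdeal L = Ideal.span {algebraMap R L (algebraMap B R q₀),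
        algebraMap R L (algebraMap B R t₁)} ∧
      Prime (algebraMap R L (algebraMap B R q₀)) ∧
      UniqueFactorizationMonoid L ∧ IsIntegrallyClosed L := by
  have hTmem : S + algebraMap B R c ∈ 𝔐 := by
    rw [h𝔐eq]; exact Ideal.mem_sup_right (Ideal.subset_span (Set.mem_singleton _))
  have hS : S ∉ 𝔐 := fun h => h94o_not_both S c hc 𝔐 h𝔐.ne_top h hTmem
  have he : S ^ k ∉ h80rI B (S + algebraMap B R c) := by
    rw [← h𝔐eq]
    exact fun h => hS (h𝔐.mem_of_pow_mem _ h)
  exact h94o_regular20 hinj q₀ t₁ hq0 hmaxB hnil (S + algebraMap B R c)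
    (h94o_shift_integral S c hint) (h94o_shift_gen S c hgen) (S ^ k)
    (-(S * η + algebraMap B R κ)) he (h94o_root_shift q₀ S k c κ η hroot) φ hφS hφ 𝔐 h𝔐eq L

/-- the "locally" form in the coordinates of `h80o_regular`: `𝔐' = (q₀, t₁)` locally. -/
theorem h94o_two_gen20' (q₀ t₁ : B) (hmaxB : maximalIdeal B = Ideal.span {q₀, t₁})
    (S : R) (k : ℕ) (c κ : B) (hc : IsUnit c) (η : R)
    (hroot : S ^ k * (S + algebraMap B R c) + algebraMap B R q₀ * (S * η + algebraMap B R κ) = 0)
    (hprime : (h80rI B (S + algebraMap B R c)).IsPrime) :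
    ∀ z ∈ h80rI B (S + algebraMap B R c), ∃ s, s ∉ h80rI B (S + algebraMap B R c) ∧
      s * z ∈ Ideal.span {algebraMap B R q₀, algebraMap B R t₁} := by
  have hTmem : S + algebraMap B R c ∈ h80rI B (S + algebraMap B R c) :=
    Ideal.mem_sup_right (Ideal.subset_span (Set.mem_singleton _))
  have hS : S ∉ h80rI B (S + algebraMap B R c) :=
    fun h => h94o_not_both S c hc _ hprime.ne_top h hTmem
  have he : S ^ k ∉ h80rI B (S + algebraMap B R c) :=
    fun h => hS (hprime.mem_of_pow_mem _ h)
  exact h94o_two_gen20 q₀ t₁ hmaxB (S + algebraMap B R c) (S ^ k)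
    (-(S * η + algebraMap B R κ)) he (h94o_root_shift q₀ S k c κ η hroot)

end Ord20

end Fermat.Agent.S36
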