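import Mathlib

/-!
# S36, block REG, row R-ORD (helper94): the Eisenstein-type relation from two roots

Mathlib only.  Consumer: `h80o_regular` (helper80) and `h94o_regular20'` (`S36/H94Ord.lean`),
in the coordinates `X, Y, Z` of helper67's `h67i_relations` as well as in helper50's
`ψ`-coordinates (finding #1052) at the exceptional ordinary points.

* `h94p_pow_expand` : `(ξ + S) ^ q = ξ ^ q + q ξ ^ (q - 1) S + q S ^ 2 m + S ^ q`, `q` prime.
* `h94p_relation` : if `ξ` and `ξ + S`, `S ≠ 0`, are roots of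
  `F = (T - b) (T ^ q - a) + q r(T)` and `F'(ξ) = q κ`, then
  `S ^ (q - 1) (S + (ξ - b)) + q (S η + κ) = 0` for some `η`
  (the shape of the hypothesis `hroot` of `h80o_regular`, with `k = q - 1`, `c = ξ - b`).
-/

set_option autoImplicit false

open Polynomial

namespace Fermat.Agent.S36

section H94Psi

variable {R : Type*} [CommRing R]

/-- the binomial expansion of a `q`-th power modulo `q`: the middle terms are divisible by `q`
and, apart from the linear one, by `S ^ 2`. -/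
theorem h94p_pow_expand (q : ℕ) (hq : q.Prime) (ξ S : R) :
    ∃ m : R, (ξ + S) ^ q = ξ ^ q + q * ξ ^ (q - 1) * S + q * S ^ 2 * m + S ^ q := by
  classical
  have h2 : 2 ≤ q := hq.two_le
  have h := add_pow_prime_eq hq S ξ
  have hI : Finset.Ioo 0 q = Finset.Ico 1 q := by
    ext k
    simp only [Finset.mem_Ioo, Finset.mem_Ico]
    omega
  rw [hI, Finset.sum_eq_sum_Ico_succ_bot (by omega : 1 < q)] at h
  refine ⟨ξ * ∑ k ∈ Finset.Ico 2 q, S ^ (k - 2) * ξ ^ (q - k - 1) * ((q.choose k / q : ℕ) : R), ?_⟩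
  have h3 : ∑ k ∈ Finset.Ico (1 + 1) q, S ^ (k - 1) * ξ ^ (q - k - 1) * ((q.choose k / q : ℕ) : R)
      = S * ∑ k ∈ Finset.Ico 2 q, S ^ (k - 2) * ξ ^ (q - k - 1) * ((q.choose k / q : ℕ) : R) := by
    rw [Finset.mul_sum]
    refine Finset.sum_congr rfl ?_
    intro k hk
    have hk2 : 2 ≤ k := (Finset.mem_Ico.mp hk).1
    have : k - 1 = (k - 2) + 1 := by omega
    rw [this, pow_succ]
    ring
  have h4 : (q.choose 1 / q : ℕ) = 1 := by
    rw [Nat.choose_one_right, Nat.div_self hq.pos]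
  have h5 : ξ * ξ ^ (q - 1 - 1) = ξ ^ (q - 1) := by
    have : q - 1 = (q - 1 - 1) + 1 := by omega
    conv_rhs => rw [this, pow_succ]
    ring
  rw [h3, h4] at h
  rw [add_comm ξ S, h]
  simp only [Nat.sub_self, pow_zero, Nat.cast_one, mul_one, one_mul]
  linear_combination (q : R) * S * h5

/-- **the Eisenstein-type relation from two roots of a Kronecker-type polynomial.**
If `ξ` and `ξ + S` (`S ≠ 0`) are roots of `F = (T - b)(T ^ q - a) + q r(T)` and
`F'(ξ) = q κ`, then `S ^ (q - 1) (S + (ξ - b)) + q (S η + κ) = 0` for some `η`. -/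
theorem h94p_relation [IsDomain R] (q : ℕ) (hq : q.Prime) (a b ξ S κ : R) (r : R[X])
    (hS : S ≠ 0)
    (hF0 : (ξ - b) * (ξ ^ q - a) + q * r.eval ξ = 0)
    (hF2 : (ξ + S - b) * ((ξ + S) ^ q - a) + q * r.eval (ξ + S) = 0)
    (hκ : (ξ ^ q - a) + (ξ - b) * (q * ξ ^ (q - 1)) + q * (derivative r).eval ξ = q * κ) :
    ∃ η : R, S ^ (q - 1) * (S + (ξ - b)) + q * (S * η + κ) = 0 := by
  obtain ⟨m, hm⟩ := h94p_pow_expand q hq ξ S
  obtain ⟨ρ, hρ⟩ := Polynomial.binomExpansion r ξ S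
  have hP : S ^ q = S * S ^ (q - 1) := by
    have : q = (q - 1) + 1 := by have := hq.two_le; omega
    conv_lhs => rw [this, pow_succ]
    ring
  refine ⟨(ξ - b) * m + ξ ^ (q - 1) + S * m + ρ, ?_⟩
  apply mul_left_cancel₀ hS
  rw [mul_zero]
  linear_combination hF2 - hF0 - (ξ + S - b) * hm - (q : R) * hρ - S * hκ - (ξ + S - b) * hP

end H94Psi

end Fermat.Agent.S36
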