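import Mathlib

/-
helper94 -- S36, block (R) REG: the abstract lemma TAME-REG (Mathlib only).

Setting: `D` a discrete valuation ring, `C` a commutative `D`-algebra that is finite and
free as a `D`-module (rank `d`, basis `b`), such that
  * all maximal ideals of `C` lie in a finite set `ns` with `ns.card ≤ r`,
  * every maximal ideal of `C` has the same residue field as `D` (`hres`; automatic when
    the residue field of `D` is algebraically closed, `h94r_hres_of_isAlgClosed`),
  * the discriminant of `b` is not in the `(d - r + 1)`-st power of the maximal ideal.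
Conclusion (`h94r_tameReg`): every maximal ideal `n` of `C` is locally principal, i.e.
there is `f ∈ n` with: for all `x ∈ n` there are `s ∉ n` and `c` with `s * x = c * f`.

Proof: linear algebra over `D`.  `J` = Jacobson radical of `C`.
  (1) `J ^ M ≤ m_D C` and `trace J ≤ m_D` (`h94r_jacobson_pow_le`, `h94r_trace_mem`);
  (2) a change of basis `P` such that all but `≤ r` new basis vectors lie in `J`
      (`h94r_adapted`);
  (3) the discriminant bound then forces the trace pairing `J × C → m_D` to be perfect: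
      there are `z l ∈ J` with `trace (z l * b j) = ϖ δ_{lj}` (`h94r_dualElts`);
  (4) hence `c J ≤ ϖ J` implies `c ∈ ϖ C` (`h94r_key`), i.e. `(J : J) = C`;
  (5) a socle element `c` at `n` (`h94r_socle`) then yields the generator.
-/

namespace Fermat.Agent.S36

open IsLocalRing

attribute [local instance] Ideal.Quotient.field

section H94TameReg

variable {D C : Type*} [CommRing D] [IsDomain D] [IsDiscreteValuationRing D]
  [CommRing C] [Algebra D C] [Module.Free D C] [Module.Finite D C]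

/-- Every maximal ideal of a finite algebra over a local ring contains the image of the
maximal ideal of the base. -/
theorem h94r_map_le_of_isMaximal (n : Ideal C) [hn : n.IsMaximal] :
    (maximalIdeal D).map (algebraMap D C) ≤ n := by
  haveI : Algebra.IsIntegral D C := Algebra.IsIntegral.of_finite D C
  have h1 : (n.comap (algebraMap D C)).IsMaximal :=
    Ideal.isMaximal_comap_of_isIntegral_of_isMaximal n
  have h2 : n.comap (algebraMap D C) = maximalIdeal D := IsLocalRing.eq_maximalIdeal h1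
  rw [Ideal.map_le_iff_le_comap, h2]

theorem h94r_map_le_jacobson :
    (maximalIdeal D).map (algebraMap D C) ≤ Ideal.jacobson (⊥ : Ideal C) := by
  unfold Ideal.jacobson
  refine le_sInf ?_
  rintro n ⟨-, hn⟩
  haveI := hn
  exact h94r_map_le_of_isMaximal n

theorem h94r_mem_jacobson_iff (x : C) :
    x ∈ Ideal.jacobson (⊥ : Ideal C) ↔ ∀ n : Ideal C, n.IsMaximal → x ∈ n := by
  unfold Ideal.jacobson
  rw [Ideal.mem_sInf]
  constructor
  · intro h n hn
    exact h ⟨bot_le, hn⟩
  · rintro h n ⟨-, hn⟩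
    exact h n hn

/-- The Jacobson radical is nilpotent modulo the maximal ideal of the base. -/
theorem h94r_jacobson_pow_le :
    ∃ M : ℕ, (Ideal.jacobson (⊥ : Ideal C)) ^ M ≤ (maximalIdeal D).map (algebraMap D C) := by
  set pC := (maximalIdeal D).map (algebraMap D C) with hpC
  haveI : Module.Finite (D ⧸ maximalIdeal D) (C ⧸ pC) :=
    Module.Finite.of_restrictScalars_finite D _ _
  haveI : IsArtinianRing (C ⧸ pC) := IsArtinianRing.of_finite (D ⧸ maximalIdeal D) (C ⧸ pC)
  obtain ⟨M, hM⟩ := IsArtinianRing.isNilpotent_jacobson_bot (R := C ⧸ pC)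
  refine ⟨M, ?_⟩
  have hsurj : Function.Surjective (Ideal.Quotient.mk pC) := Ideal.Quotient.mk_surjective
  have h1 : (Ideal.jacobson (⊥ : Ideal C)).map (Ideal.Quotient.mk pC)
      ≤ Ideal.jacobson (⊥ : Ideal (C ⧸ pC)) := by
    have h2 := Ideal.map_jacobson_of_surjective (I := pC) hsurj (by rw [Ideal.mk_ker])
    have h3 : pC.map (Ideal.Quotient.mk pC) = ⊥ := by
      rw [Ideal.map_eq_bot_iff_le_ker, Ideal.mk_ker]
    rw [h3] at h2
    rw [← h2]
    exact Ideal.map_mono (Ideal.jacobson_mono bot_le)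
  have h4 : ((Ideal.jacobson (⊥ : Ideal C)) ^ M).map (Ideal.Quotient.mk pC) = ⊥ := by
    rw [Ideal.map_pow, eq_bot_iff]
    calc ((Ideal.jacobson (⊥ : Ideal C)).map (Ideal.Quotient.mk pC)) ^ M
        ≤ (Ideal.jacobson (⊥ : Ideal (C ⧸ pC))) ^ M := Ideal.pow_right_mono h1 M
      _ = ⊥ := hM
  rw [Ideal.map_eq_bot_iff_le_ker, Ideal.mk_ker] at h4
  exact h4

/-- Elements of the Jacobson radical have trace in the maximal ideal. -/
theorem h94r_trace_mem (x : C) (hx : x ∈ Ideal.jacobson (⊥ : Ideal C)) :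
    Algebra.trace D C x ∈ maximalIdeal D := by
  obtain ⟨M, hM⟩ := h94r_jacobson_pow_le (D := D) (C := C)
  set pC := (maximalIdeal D).map (algebraMap D C) with hpC
  have h1 : x ^ M ∈ pC := hM (Ideal.pow_mem_pow hx M)
  have h2 : IsNilpotent (Ideal.Quotient.mk pC x) := by
    refine ⟨M, ?_⟩
    rw [← map_pow, Ideal.Quotient.eq_zero_iff_mem]
    exact h1
  have h3 := Algebra.isNilpotent_trace_of_isNilpotent (R := D ⧸ maximalIdeal D) h2
  have h4 := h3.eq_zero
  rw [Algebra.trace_quotient_mk, Ideal.Quotient.eq_zero_iff_mem] at h4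
  exact h4

/-- Adapted change of basis: all but at most `ns.card` of the new basis vectors lie in the
Jacobson radical. -/
theorem h94r_adapted {ι : Type*} [Fintype ι] [DecidableEq ι] (b : Module.Basis ι D C)
    (ns : Finset (Ideal C)) (hns : ∀ n : Ideal C, n.IsMaximal → n ∈ ns)
    (hres : ∀ n ∈ ns, ∀ x : C, ∃ a : D, x - algebraMap D C a ∈ n) :
    ∃ (P : Matrix ι ι D) (ι₂ : Finset ι), IsUnit P.det ∧ ι₂.card ≤ ns.card ∧
      ∀ i, i ∉ ι₂ → ∑ j, P i j • b j ∈ Ideal.jacobson (⊥ : Ideal C) := by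
  classical
  choose lam hlam using fun (n : ↥ns) (x : C) => hres n.1 n.2 x
  let L : Matrix ↥ns ι (D ⧸ maximalIdeal D) :=
    fun n j => Ideal.Quotient.mk _ (lam n (b j))
  let Φ : (ι → (D ⧸ maximalIdeal D)) →ₗ[D ⧸ maximalIdeal D] (↥ns → (D ⧸ maximalIdeal D)) :=
    Matrix.mulVecLin L
  obtain ⟨W', hW'⟩ := Submodule.exists_isCompl (LinearMap.ker Φ)
  let bW := Module.finBasis (D ⧸ maximalIdeal D) (LinearMap.ker Φ)
  let bW' := Module.finBasis (D ⧸ maximalIdeal D) W'
  let B0 := (bW.prod bW').map (Submodule.prodEquivOfIsCompl (LinearMap.ker Φ) W' hW')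
  let e := B0.indexEquiv (Pi.basisFun (D ⧸ maximalIdeal D) ι)
  let B := B0.reindex e
  -- dimension count
  have hdim : Module.finrank (D ⧸ maximalIdeal D) W' ≤ ns.card := by
    have h1 := Submodule.finrank_add_eq_of_isCompl hW'
    have h2 := LinearMap.finrank_range_add_finrank_ker Φ
    have h3 : Module.finrank (D ⧸ maximalIdeal D) (LinearMap.range Φ)
        ≤ Module.finrank (D ⧸ maximalIdeal D) (↥ns → (D ⧸ maximalIdeal D)) :=
      Submodule.finrank_le _
    rw [Module.finrank_fintype_fun_eq_card, Fintype.card_coe] at h3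
    omega
  -- lift of the matrix
  have hsurj : Function.Surjective (Ideal.Quotient.mk (maximalIdeal D)) :=
    Ideal.Quotient.mk_surjective
  choose Pf hPf using fun (i j : ι) => hsurj (B i j)
  let P : Matrix ι ι D := Matrix.of Pf
  have hPmap : P.map (Ideal.Quotient.mk (maximalIdeal D)) = Matrix.of (fun i j => B i j) := by
    ext i j
    simp [P, hPf]
  have hunitbar : IsUnit (Matrix.of (fun i j => B i j) : Matrix ι ι (D ⧸ maximalIdeal D)) := by
    rw [← Matrix.linearIndependent_rows_iff_isUnit]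
    have : (Matrix.of (fun i j => B i j) : Matrix ι ι (D ⧸ maximalIdeal D)).row = ⇑B := by
      ext i j
      rfl
    rw [this]
    exact B.linearIndependent
  have hdet : IsUnit P.det := by
    have h1 : IsUnit (Matrix.of (fun i j => B i j) : Matrix ι ι (D ⧸ maximalIdeal D)).det :=
      (Matrix.isUnit_iff_isUnit_det _).mp hunitbar
    have hmd := RingHom.map_det (Ideal.Quotient.mk (maximalIdeal D)) P
    rw [RingHom.mapMatrix_apply] at hmd
    rw [← hPmap, ← hmd] at h1
    by_contra hcon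
    have h2 : P.det ∈ maximalIdeal D := (IsLocalRing.mem_maximalIdeal _).mpr hcon
    have h3 : Ideal.Quotient.mk (maximalIdeal D) P.det = 0 :=
      Ideal.Quotient.eq_zero_iff_mem.mpr h2
    rw [h3] at h1
    exact not_isUnit_zero h1
  refine ⟨P, Finset.univ.image (fun c => e (Sum.inr c)), hdet, ?_, ?_⟩
  · refine le_trans Finset.card_image_le ?_
    rw [Finset.card_univ, Fintype.card_fin]
    exact hdim
  · intro i hi
    -- `B i` lies in the kernel
    have hBi : B i ∈ LinearMap.ker Φ := by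
      rcases h : e.symm i with a | c
      · have h1 : B i = B0 (Sum.inl a) := by
          simp only [B, Module.Basis.reindex_apply, h]
        rw [h1]
        simp only [B0, Module.Basis.map_apply, Submodule.coe_prodEquivOfIsCompl',
          Module.Basis.prod_apply_inl_fst, Module.Basis.prod_apply_inl_snd]
        simp
      · exfalso
        apply hi
        rw [Finset.mem_image]
        refine ⟨c, Finset.mem_univ _, ?_⟩
        rw [← h]
        simp
    rw [h94r_mem_jacobson_iff]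
    intro n hn
    haveI := hn
    have hn' : n ∈ ns := hns n hn
    have h1 : Φ (B i) ⟨n, hn'⟩ = 0 := by
      rw [LinearMap.mem_ker] at hBi
      rw [hBi]
      rfl
    have h2 : Ideal.Quotient.mk (maximalIdeal D) (∑ j, lam ⟨n, hn'⟩ (b j) * P i j) = 0 := by
      rw [← h1]
      simp only [Φ, Matrix.mulVecLin_apply, Matrix.mulVec, dotProduct, L, map_sum, map_mul]
      refine Finset.sum_congr rfl ?_
      intro j _
      rw [← hPf i j]
      rfl
    have h3 : (∑ j, lam ⟨n, hn'⟩ (b j) * P i j) ∈ maximalIdeal D :=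
      Ideal.Quotient.eq_zero_iff_mem.mp h2
    have h4 : algebraMap D C (∑ j, lam ⟨n, hn'⟩ (b j) * P i j) ∈ n :=
      h94r_map_le_of_isMaximal n (Ideal.mem_map_of_mem _ h3)
    have h5 : ∑ j, P i j • b j
        = ∑ j, algebraMap D C (P i j) * (b j - algebraMap D C (lam ⟨n, hn'⟩ (b j)))
          + algebraMap D C (∑ j, lam ⟨n, hn'⟩ (b j) * P i j) := by
      rw [map_sum, ← Finset.sum_add_distrib]
      refine Finset.sum_congr rfl ?_
      intro j _
      rw [Algebra.smul_def, map_mul]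
      ring
    rw [h5]
    refine n.add_mem (n.sum_mem ?_) h4
    intro j _
    exact n.mul_mem_left _ (hlam ⟨n, hn'⟩ (b j))

/-- Dual elements: under the discriminant bound there are elements `z l` of the Jacobson
radical with `trace (z l * b j) = ϖ * δ_{lj}`. -/
theorem h94r_dualElts {ι : Type*} [Fintype ι] [DecidableEq ι] (b : Module.Basis ι D C)
    (ns : Finset (Ideal C)) (hns : ∀ n : Ideal C, n.IsMaximal → n ∈ ns)
    (hres : ∀ n ∈ ns, ∀ x : C, ∃ a : D, x - algebraMap D C a ∈ n)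
    (r : ℕ) (hr : ns.card ≤ r)
    (hdisc : Algebra.discr D b ∉ (maximalIdeal D) ^ (Fintype.card ι - r + 1))
    (ϖ : D) (hϖ : Irreducible ϖ) :
    ∃ z : ι → C, (∀ l, z l ∈ Ideal.jacobson (⊥ : Ideal C)) ∧
      ∀ l j, Algebra.trace D C (z l * b j) = if l = j then ϖ else 0 := by
  classical
  obtain ⟨P, ι₂, hPdet, hcard, hP⟩ := h94r_adapted b ns hns hres
  have hmax : maximalIdeal D = Ideal.span {ϖ} := hϖ.maximalIdeal_eq
  -- the matrix N = P * traceMatrix
  set N : Matrix ι ι D := P * Algebra.traceMatrix D b with hN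
  have hNapp : ∀ i l, N i l = Algebra.trace D C ((∑ j, P i j • b j) * b l) := by
    intro i l
    simp only [hN, Matrix.mul_apply, Algebra.traceMatrix_apply, Algebra.traceForm_apply,
      Finset.sum_mul, map_sum, smul_mul_assoc, map_smul, smul_eq_mul]
  -- divisibility of the adapted rows
  have hdiv : ∀ i l, ∃ x : D, N i l = (if i ∈ ι₂ᶜ then ϖ else 1) * x := by
    intro i l
    by_cases hi : i ∈ ι₂ᶜ
    · have hi' : i ∉ ι₂ := Finset.mem_compl.mp hi
      have h1 : N i l ∈ maximalIdeal D := by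
        rw [hNapp]
        exact h94r_trace_mem _ (Ideal.mul_mem_right _ _ (hP i hi'))
      rw [hmax, Ideal.mem_span_singleton'] at h1
      obtain ⟨x, hx⟩ := h1
      exact ⟨x, by rw [if_pos hi, ← hx, mul_comm]⟩
    · exact ⟨N i l, by rw [if_neg hi, one_mul]⟩
  choose N' hN' using hdiv
  have hNeq : N = Matrix.diagonal (fun i => if i ∈ ι₂ᶜ then ϖ else 1) * Matrix.of N' := by
    ext i l
    rw [Matrix.diagonal_mul, hN' i l]
    rfl
  have hprod : (∏ i : ι, (if i ∈ ι₂ᶜ then ϖ else (1 : D))) = ϖ ^ (Fintype.card ι - ι₂.card) := by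
    rw [Finset.prod_ite_mem, Finset.univ_inter, Finset.prod_const, Finset.card_compl]
  have hdetN : P.det * Algebra.discr D b = ϖ ^ (Fintype.card ι - ι₂.card) * (Matrix.of N').det := by
    rw [Algebra.discr_def, ← Matrix.det_mul, ← hN, hNeq, Matrix.det_mul, Matrix.det_diagonal, hprod]
  have hunit : IsUnit (Matrix.of N').det := by
    by_contra hcon
    have h1 : (Matrix.of N').det ∈ maximalIdeal D := (IsLocalRing.mem_maximalIdeal _).mpr hcon
    have h2 : ϖ ^ (Fintype.card ι - ι₂.card) * (Matrix.of N').det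
        ∈ (maximalIdeal D) ^ (Fintype.card ι - ι₂.card + 1) := by
      rw [pow_succ]
      refine Ideal.mul_mem_mul (Ideal.pow_mem_pow ?_ _) h1
      rw [hmax]
      exact Ideal.mem_span_singleton_self ϖ
    rw [← hdetN] at h2
    have h3 : Algebra.discr D b ∈ (maximalIdeal D) ^ (Fintype.card ι - ι₂.card + 1) := by
      obtain ⟨u, hu⟩ := hPdet
      have : Algebra.discr D b = ((u⁻¹ : Dˣ) : D) * (P.det * Algebra.discr D b) := by
        rw [← hu, ← mul_assoc, Units.inv_mul, one_mul]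
      rw [this]
      exact Ideal.mul_mem_left _ _ h2
    apply hdisc
    refine Ideal.pow_le_pow_right ?_ h3
    omega
  -- the dual elements
  refine ⟨fun l => ∑ i, ((Matrix.of N')⁻¹ l i * (if i ∈ ι₂ᶜ then 1 else ϖ)) • (∑ j, P i j • b j),
    ?_, ?_⟩
  · intro l
    refine Ideal.sum_mem _ ?_
    intro i _
    by_cases hi : i ∈ ι₂ᶜ
    · have hi' : i ∉ ι₂ := Finset.mem_compl.mp hi
      rw [Algebra.smul_def]
      exact Ideal.mul_mem_left _ _ (hP i hi')
    · rw [if_neg hi, Algebra.smul_def]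
      refine Ideal.mul_mem_right _ _ (h94r_map_le_jacobson (D := D) (Ideal.mem_map_of_mem _ ?_))
      rw [hmax]
      exact Ideal.mul_mem_left _ _ (Ideal.mem_span_singleton_self ϖ)
  · intro l j
    have h1 : Algebra.trace D C ((∑ i, ((Matrix.of N')⁻¹ l i * (if i ∈ ι₂ᶜ then 1 else ϖ)) •
        (∑ j, P i j • b j)) * b j)
        = ∑ i, ((Matrix.of N')⁻¹ l i * (if i ∈ ι₂ᶜ then 1 else ϖ)) * N i j := by
      rw [Finset.sum_mul, map_sum]
      refine Finset.sum_congr rfl ?_
      intro i _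
      rw [smul_mul_assoc, map_smul, smul_eq_mul, hNapp]
    have h2 : ∀ i, ((Matrix.of N')⁻¹ l i * (if i ∈ ι₂ᶜ then 1 else ϖ)) * N i j
        = ϖ * ((Matrix.of N')⁻¹ l i * Matrix.of N' i j) := by
      intro i
      rw [hN' i j]
      by_cases hi : i ∈ ι₂ᶜ
      · rw [if_pos hi, if_pos hi]
        simp only [Matrix.of_apply]
        ring
      · rw [if_neg hi, if_neg hi]
        simp only [Matrix.of_apply]
        ring
    rw [h1, Finset.sum_congr rfl (fun i _ => h2 i), ← Finset.mul_sum, ← Matrix.mul_apply,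
      Matrix.nonsing_inv_mul _ hunit, Matrix.one_apply]
    split_ifs <;> simp

/-- Key claim: an element `c` with `c * J ⊆ ϖ J` is divisible by `ϖ`
(`J` the Jacobson radical). -/
theorem h94r_key {ι : Type*} [Fintype ι] [DecidableEq ι] (b : Module.Basis ι D C)
    (ns : Finset (Ideal C)) (hns : ∀ n : Ideal C, n.IsMaximal → n ∈ ns)
    (hres : ∀ n ∈ ns, ∀ x : C, ∃ a : D, x - algebraMap D C a ∈ n)
    (r : ℕ) (hr : ns.card ≤ r)
    (hdisc : Algebra.discr D b ∉ (maximalIdeal D) ^ (Fintype.card ι - r + 1))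
    (ϖ : D) (hϖ : Irreducible ϖ) (c : C)
    (hc : ∀ x ∈ Ideal.jacobson (⊥ : Ideal C),
      ∃ y ∈ Ideal.jacobson (⊥ : Ideal C), c * x = ϖ • y) :
    ∃ c' : C, c = ϖ • c' := by
  classical
  obtain ⟨z, hzJ, hz⟩ := h94r_dualElts b ns hns hres r hr hdisc ϖ hϖ
  have hmax : maximalIdeal D = Ideal.span {ϖ} := hϖ.maximalIdeal_eq
  have hϖ0 : ϖ ≠ 0 := hϖ.ne_zero
  have hcoef : ∀ l, ∃ t : D, b.repr c l = ϖ * t := by
    intro l
    obtain ⟨y, hyJ, hy⟩ := hc (z l) (hzJ l)
    have h1 : Algebra.trace D C (c * z l) = ϖ * b.repr c l := by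
      conv_lhs => rw [← b.sum_repr c]
      rw [Finset.sum_mul, map_sum]
      have : ∀ j, Algebra.trace D C (b.repr c j • b j * z l)
          = b.repr c j * (if l = j then ϖ else 0) := by
        intro j
        rw [smul_mul_assoc, map_smul, smul_eq_mul, mul_comm (b j) (z l), hz]
      rw [Finset.sum_congr rfl (fun j _ => this j)]
      simp [mul_comm]
    have h2 : Algebra.trace D C y ∈ maximalIdeal D := h94r_trace_mem y hyJ
    rw [hmax, Ideal.mem_span_singleton'] at h2
    obtain ⟨t, ht⟩ := h2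
    refine ⟨t, ?_⟩
    have h3 : ϖ * b.repr c l = ϖ * (ϖ * t) := by
      rw [← h1, hy, map_smul, smul_eq_mul, ← ht, mul_comm t ϖ]
    exact mul_left_cancel₀ hϖ0 h3
  choose t ht using hcoef
  refine ⟨∑ l, t l • b l, ?_⟩
  conv_lhs => rw [← b.sum_repr c]
  rw [Finset.smul_sum]
  refine Finset.sum_congr rfl ?_
  intro l _
  rw [ht l, mul_smul]

/-- An element outside `n` multiplying `n` into the Jacobson radical. -/
theorem h94r_exists_s0 (ns : Finset (Ideal C)) (hns : ∀ n : Ideal C, n.IsMaximal → n ∈ ns)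
    (n : Ideal C) [hnmax : n.IsMaximal] :
    ∃ s0 : C, s0 ∉ n ∧ ∀ x ∈ n, s0 * x ∈ Ideal.jacobson (⊥ : Ideal C) := by
  classical
  have h : ∀ n' : Ideal C, ∃ s : C, s ∉ n ∧ (n'.IsMaximal → n' ≠ n → s ∈ n') := by
    intro n'
    by_cases h1 : n'.IsMaximal ∧ n' ≠ n
    · have h2 : ¬ n' ≤ n := fun hle => h1.2 (h1.1.eq_of_le hnmax.ne_top hle)
      obtain ⟨s, hs, hsn⟩ := Set.not_subset.mp h2
      exact ⟨s, hsn, fun _ _ => hs⟩
    · exact ⟨1, (Ideal.ne_top_iff_one n).mp hnmax.ne_top, fun a b => absurd ⟨a, b⟩ h1⟩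
  choose s hs1 hs2 using h
  refine ⟨∏ n' ∈ ns, s n', ?_, ?_⟩
  · intro hmem
    obtain ⟨n', _, hn'⟩ := Ideal.IsPrime.prod_mem_iff.mp hmem
    exact hs1 n' hn'
  · intro x hx
    rw [h94r_mem_jacobson_iff]
    intro n' hn'
    by_cases h : n' = n
    · rw [h]
      exact Ideal.mul_mem_left _ _ hx
    · have hdvd : s n' ∣ ∏ n' ∈ ns, s n' := Finset.dvd_prod_of_mem _ (hns n' hn')
      exact Ideal.mul_mem_right _ _ (Ideal.mem_of_dvd _ hdvd (hs2 n' hn' h))

/-- A socle element at `n` modulo the maximal ideal of the base. -/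
theorem h94r_socle (ns : Finset (Ideal C)) (hns : ∀ n : Ideal C, n.IsMaximal → n ∈ ns)
    (n : Ideal C) [hnmax : n.IsMaximal] :
    ∃ c : C, c ∉ (maximalIdeal D).map (algebraMap D C) ∧
      ∀ x ∈ n, c * x ∈ (maximalIdeal D).map (algebraMap D C) := by
  classical
  obtain ⟨M, hM⟩ := h94r_jacobson_pow_le (D := D) (C := C)
  obtain ⟨s0, hs0, hs0J⟩ := h94r_exists_s0 ns hns n
  have hpn : (maximalIdeal D).map (algebraMap D C) ≤ n := h94r_map_le_of_isMaximal n
  have hQM : ∀ y ∈ n ^ M, s0 ^ M * y ∈ (maximalIdeal D).map (algebraMap D C) := by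
    intro y hy
    apply hM
    have h1 : Ideal.span {s0} * n ≤ Ideal.jacobson (⊥ : Ideal C) := by
      rw [Ideal.span_singleton_mul_le_iff]
      intro x hx
      exact hs0J x hx
    have h2 : s0 ^ M * y ∈ (Ideal.span {s0} * n) ^ M := by
      rw [mul_pow]
      exact Ideal.mul_mem_mul (Ideal.pow_mem_pow (Ideal.mem_span_singleton_self s0) M) hy
    exact Ideal.pow_right_mono h1 M h2
  have hQ0 : ¬ ∀ y ∈ n ^ 0, s0 ^ M * y ∈ (maximalIdeal D).map (algebraMap D C) := by
    intro h
    have h1 := h 1 (by simp)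
    rw [mul_one] at h1
    exact hs0 (Ideal.IsPrime.mem_of_pow_mem hnmax.isPrime M (hpn h1))
  have hex : ∃ i, ∀ y ∈ n ^ i, s0 ^ M * y ∈ (maximalIdeal D).map (algebraMap D C) := ⟨M, hQM⟩
  have hi0 := Nat.find_spec hex
  have hi0pos : Nat.find hex ≠ 0 := fun h => hQ0 (h ▸ hi0)
  obtain ⟨i1, hi1⟩ := Nat.exists_eq_succ_of_ne_zero hi0pos
  have hnot : ¬ ∀ y ∈ n ^ i1, s0 ^ M * y ∈ (maximalIdeal D).map (algebraMap D C) :=
    Nat.find_min hex (by omega)
  push Not at hnot
  obtain ⟨y, hy, hyc⟩ := hnot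
  refine ⟨s0 ^ M * y, hyc, ?_⟩
  intro x hx
  have h1 : y * x ∈ n ^ (Nat.find hex) := by
    rw [hi1, pow_succ]
    exact Ideal.mul_mem_mul hy hx
  have h2 := hi0 _ h1
  rwa [← mul_assoc] at h2

theorem h94r_mem_map_iff (ϖ : D) (hϖ : Irreducible ϖ) (x : C) :
    x ∈ (maximalIdeal D).map (algebraMap D C) ↔ ∃ y : C, x = ϖ • y := by
  rw [hϖ.maximalIdeal_eq, Ideal.map_span, Set.image_singleton, Ideal.mem_span_singleton']
  constructor
  · rintro ⟨y, hy⟩
    exact ⟨y, by rw [← hy, Algebra.smul_def, mul_comm]⟩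
  · rintro ⟨y, hy⟩
    exact ⟨y, by rw [hy, Algebra.smul_def, mul_comm]⟩

/-- **TAME-REG.**  Let `D` be a discrete valuation ring and `C` a finite free `D`-algebra of
rank `d` whose maximal ideals all have residue field equal to the residue field of `D`
(`hres`), with at most `r` maximal ideals (`hns`, `hr`), and whose discriminant is not
divisible by the `(d - r + 1)`-st power of the uniformiser.  Then every maximal ideal `n`
of `C` is locally principal, generated by an element of the Jacobson radical. -/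
theorem h94r_tameReg_jac {ι : Type*} [Fintype ι] [DecidableEq ι] (b : Module.Basis ι D C)
    (ns : Finset (Ideal C)) (hns : ∀ n : Ideal C, n.IsMaximal → n ∈ ns)
    (hres : ∀ n : Ideal C, n.IsMaximal → ∀ x : C, ∃ a : D, x - algebraMap D C a ∈ n)
    (r : ℕ) (hr : ns.card ≤ r)
    (hdisc : Algebra.discr D b ∉ (maximalIdeal D) ^ (Fintype.card ι - r + 1))
    (n : Ideal C) [hnmax : n.IsMaximal] :
    ∃ f ∈ Ideal.jacobson (⊥ : Ideal C), f ∈ n ∧
      ∀ x ∈ n, ∃ s, s ∉ n ∧ ∃ c, s * x = c * f := by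
  classical
  obtain ⟨ϖ, hϖ⟩ := IsDiscreteValuationRing.exists_irreducible D
  have hϖ0 : ϖ ≠ 0 := hϖ.ne_zero
  have hcancel : ∀ x y : C, ϖ • x = ϖ • y → x = y := fun x y h =>
    smul_right_injective C hϖ0 h
  -- restrict to the maximal ideals in `ns`
  set ns' : Finset (Ideal C) := ns.filter (fun n => n.IsMaximal) with hns'def
  have hns' : ∀ n : Ideal C, n.IsMaximal → n ∈ ns' := fun n hn =>
    Finset.mem_filter.mpr ⟨hns n hn, hn⟩
  have hres' : ∀ n ∈ ns', ∀ x : C, ∃ a : D, x - algebraMap D C a ∈ n := fun n hn =>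
    hres n (Finset.mem_filter.mp hn).2
  have hr' : ns'.card ≤ r := le_trans (Finset.card_filter_le _ _) hr
  have hJn : Ideal.jacobson (⊥ : Ideal C) ≤ n := fun x hx =>
    (h94r_mem_jacobson_iff x).mp hx n hnmax
  obtain ⟨c, hc1, hc2⟩ := h94r_socle (D := D) ns hns n
  obtain ⟨s0, hs0, hs0J⟩ := h94r_exists_s0 ns hns n
  -- the main claim
  have hclaim : ∃ j ∈ Ideal.jacobson (⊥ : Ideal C), ∃ u, u ∉ n ∧ c * j = ϖ • u := by
    by_contra hcon
    push Not at hcon
    apply hc1
    rw [h94r_mem_map_iff ϖ hϖ]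
    refine h94r_key b ns' hns' hres' r hr' hdisc ϖ hϖ c ?_
    intro x hx
    obtain ⟨e, he⟩ := (h94r_mem_map_iff ϖ hϖ _).mp (hc2 x (hJn hx))
    refine ⟨e, ?_, he⟩
    rw [h94r_mem_jacobson_iff]
    intro n' hn'
    by_cases hnn : n' = n
    · rw [hnn]
      by_contra hen
      exact hcon x hx e hen he
    · have h2 : ¬ n ≤ n' := fun hle => hnn (hnmax.eq_of_le hn'.ne_top hle).symm
      obtain ⟨s', hs'n, hs'n'⟩ := Set.not_subset.mp h2
      obtain ⟨c'', hc''⟩ := (h94r_mem_map_iff ϖ hϖ _).mp (hc2 s' hs'n)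
      have h3 : s' * e = c'' * x := by
        apply hcancel
        rw [← mul_smul_comm, ← he, ← smul_mul_assoc, ← hc'']
        ring
      have h4 : s' * e ∈ n' := by
        rw [h3]
        exact Ideal.mul_mem_left _ _ ((h94r_mem_jacobson_iff x).mp hx n' hn')
      exact (hn'.isPrime.mem_or_mem h4).resolve_left hs'n'
  obtain ⟨j, hjJ, u, hu, hcj⟩ := hclaim
  refine ⟨j, hjJ, hJn hjJ, ?_⟩
  intro x hx
  obtain ⟨e, he⟩ := (h94r_mem_map_iff ϖ hϖ _).mp (hc2 (s0 * x) (hJn (hs0J x hx)))
  refine ⟨u * s0, ?_, e, ?_⟩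
  · intro hmem
    rcases hnmax.isPrime.mem_or_mem hmem with h | h
    · exact hu h
    · exact hs0 h
  · apply hcancel
    rw [← smul_mul_assoc, ← smul_mul_assoc, ← hcj, ← smul_mul_assoc, ← he]
    ring

/-- **TAME-REG**, short form: every maximal ideal of `C` is locally principal. -/
theorem h94r_tameReg {ι : Type*} [Fintype ι] [DecidableEq ι] (b : Module.Basis ι D C)
    (ns : Finset (Ideal C)) (hns : ∀ n : Ideal C, n.IsMaximal → n ∈ ns)
    (hres : ∀ n : Ideal C, n.IsMaximal → ∀ x : C, ∃ a : D, x - algebraMap D C a ∈ n)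
    (r : ℕ) (hr : ns.card ≤ r)
    (hdisc : Algebra.discr D b ∉ (maximalIdeal D) ^ (Fintype.card ι - r + 1))
    (n : Ideal C) [hnmax : n.IsMaximal] :
    ∃ f ∈ n, ∀ x ∈ n, ∃ s, s ∉ n ∧ ∃ c, s * x = c * f := by
  obtain ⟨f, -, hf, h⟩ := h94r_tameReg_jac b ns hns hres r hr hdisc n
  exact ⟨f, hf, h⟩

/-- The residue condition `hres` holds when the residue field of `D` is algebraically
closed. -/
theorem h94r_hres_of_isAlgClosed [IsAlgClosed (IsLocalRing.ResidueField D)]
    (n : Ideal C) (hn : n.IsMaximal) (x : C) : ∃ a : D, x - algebraMap D C a ∈ n := by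
  haveI := hn
  haveI : IsAlgClosed (D ⧸ maximalIdeal D) := ‹IsAlgClosed (IsLocalRing.ResidueField D)›
  haveI : Algebra.IsIntegral D C := Algebra.IsIntegral.of_finite D C
  have h1 : (n.comap (algebraMap D C)).IsMaximal :=
    Ideal.isMaximal_comap_of_isIntegral_of_isMaximal n
  have h2 : n.comap (algebraMap D C) = maximalIdeal D := IsLocalRing.eq_maximalIdeal h1
  haveI : n.LiesOver (maximalIdeal D) := ⟨h2.symm⟩
  haveI : IsDomain (C ⧸ n) := (Ideal.Quotient.isDomain_iff_prime n).mpr hn.isPrime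
  obtain ⟨a, ha⟩ := (IsAlgClosed.algebraMap_bijective_of_isIntegral
    (k := D ⧸ maximalIdeal D) (K := C ⧸ n)).2 (Ideal.Quotient.mk n x)
  obtain ⟨a', rfl⟩ := Ideal.Quotient.mk_surjective a
  refine ⟨a', ?_⟩
  rw [← Ideal.Quotient.eq, ← ha]
  rfl

/-- **TAME-REG** over a discrete valuation ring with algebraically closed residue field. -/
theorem h94r_tameReg_algClosed [IsAlgClosed (IsLocalRing.ResidueField D)]
    {ι : Type*} [Fintype ι] [DecidableEq ι] (b : Module.Basis ι D C)
    (ns : Finset (Ideal C)) (hns : ∀ n : Ideal C, n.IsMaximal → n ∈ ns)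
    (r : ℕ) (hr : ns.card ≤ r)
    (hdisc : Algebra.discr D b ∉ (maximalIdeal D) ^ (Fintype.card ι - r + 1))
    (n : Ideal C) [hnmax : n.IsMaximal] :
    ∃ f ∈ n, ∀ x ∈ n, ∃ s, s ∉ n ∧ ∃ c, s * x = c * f :=
  h94r_tameReg b ns hns (fun n hn x => h94r_hres_of_isAlgClosed n hn x) r hr hdisc n

end H94TameReg

end Fermat.Agent.S36
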