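import Fermat.Agent.S36.H94TameReg

/-
helper94 -- S36, block (R) REG: variants of TAME-REG (`S36/H94TameReg.lean`).

* `h94r_isTorsionFree`, `h94r_free_of_torsionFree`: a finite module over a discrete
  valuation ring without `ϖ`-torsion is free (so `Module.Free D C` in TAME-REG can be
  replaced by "`ϖ` is a nonzerodivisor on `C`").
* `h94r_discr_basis_notMem`: the discriminant bound for ANY family `x` of `d = rank`
  elements of `C` implies the bound for every basis (the discriminant of a sublattice is
  divisible by the discriminant of the lattice).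
* `h94r_tameReg_family`: TAME-REG with the discriminant of an arbitrary family
  (e.g. the powers `1, Z, …, Z ^ (d - 1)` of one element).
* `h94r_tameReg_family'`: the same with `ϖ`-torsion-freeness in place of freeness.
-/

namespace Fermat.Agent.S36

open IsLocalRing

section H94TameReg2

variable {D C : Type*} [CommRing D] [IsDomain D] [IsDiscreteValuationRing D]
  [CommRing C] [Algebra D C]

/-- A module over a discrete valuation ring without `ϖ`-torsion is torsion-free. -/
theorem h94r_isTorsionFree {M : Type*} [AddCommGroup M] [Module D M] (ϖ : D)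
    (hϖ : Irreducible ϖ) (h : ∀ c : M, ϖ • c = 0 → c = 0) : Module.IsTorsionFree D M := by
  have hpow : ∀ (n : ℕ) (c : M), ϖ ^ n • c = 0 → c = 0 := by
    intro n
    induction n with
    | zero =>
      intro c hc
      simpa using hc
    | succ n ih =>
      intro c hc
      rw [pow_succ, mul_smul] at hc
      exact h c (ih _ hc)
  have key : ∀ (a : D), a ≠ 0 → ∀ c : M, a • c = 0 → c = 0 := by
    intro a ha c hc
    obtain ⟨n, u, hu⟩ := IsDiscreteValuationRing.eq_unit_mul_pow_irreducible ha hϖ
    rw [hu, mul_smul] at hc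
    have h1 : ϖ ^ n • c = 0 := by
      have h2 := congrArg (fun z => ((u⁻¹ : Dˣ) : D) • z) hc
      simpa [smul_smul] using h2
    exact hpow n c h1
  refine ⟨fun a ha => ?_⟩
  have ha0 : a ≠ 0 := ha.ne_zero
  intro x y hxy
  have h1 : a • (x - y) = 0 := by
    rw [smul_sub]
    exact sub_eq_zero.mpr hxy
  exact sub_eq_zero.mp (key a ha0 _ h1)

/-- A finite module over a discrete valuation ring without `ϖ`-torsion is free. -/
theorem h94r_free_of_torsionFree {M : Type*} [AddCommGroup M] [Module D M] [Module.Finite D M]
    (ϖ : D) (hϖ : Irreducible ϖ) (h : ∀ c : M, ϖ • c = 0 → c = 0) : Module.Free D M := by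
  haveI := h94r_isTorsionFree ϖ hϖ h
  exact Module.free_of_finite_type_torsion_free'

/-- The discriminant of any family divides... : if the discriminant of a family `x` is not in
`I`, then neither is the discriminant of a basis. -/
theorem h94r_discr_basis_notMem {ι : Type*} [Fintype ι] [DecidableEq ι]
    (b : Module.Basis ι D C) (x : ι → C) (I : Ideal D) (hx : Algebra.discr D x ∉ I) :
    Algebra.discr D b ∉ I := by
  intro hb
  apply hx
  have h1 : x = Matrix.mulVec ((Matrix.of fun i j => b.repr (x i) j).map (algebraMap D C))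
      (b : ι → C) := by
    ext i
    simp only [Matrix.mulVec, dotProduct, Matrix.map_apply, Matrix.of_apply]
    conv_lhs => rw [← b.sum_repr (x i)]
    refine Finset.sum_congr rfl ?_
    intro j _
    rw [Algebra.smul_def]
  rw [h1, Algebra.discr_of_matrix_mulVec]
  exact Ideal.mul_mem_left _ _ hb

/-- **TAME-REG for the discriminant of an arbitrary family** of `rank` elements. -/
theorem h94r_tameReg_family [Module.Free D C] [Module.Finite D C]
    {ι : Type*} [Fintype ι] [DecidableEq ι] (x : ι → C)
    (hcard : Fintype.card ι = Module.finrank D C)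
    (ns : Finset (Ideal C)) (hns : ∀ n : Ideal C, n.IsMaximal → n ∈ ns)
    (hres : ∀ n : Ideal C, n.IsMaximal → ∀ x : C, ∃ a : D, x - algebraMap D C a ∈ n)
    (r : ℕ) (hr : ns.card ≤ r)
    (hdisc : Algebra.discr D x ∉ (maximalIdeal D) ^ (Fintype.card ι - r + 1))
    (n : Ideal C) [hnmax : n.IsMaximal] :
    ∃ f ∈ n, ∀ x ∈ n, ∃ s, s ∉ n ∧ ∃ c, s * x = c * f := by
  classical
  have hc : Fintype.card (Module.Free.ChooseBasisIndex D C) = Fintype.card ι := by
    rw [hcard, Module.finrank_eq_card_chooseBasisIndex]
  let e : Module.Free.ChooseBasisIndex D C ≃ ι := Fintype.equivOfCardEq hc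
  let b : Module.Basis ι D C := (Module.Free.chooseBasis D C).reindex e
  exact h94r_tameReg b ns hns hres r hr (h94r_discr_basis_notMem b x _ hdisc) n

/-- **TAME-REG for a family, with `ϖ`-torsion-freeness in place of freeness.** -/
theorem h94r_tameReg_family' [Module.Finite D C]
    (ϖ : D) (hϖ : Irreducible ϖ) (htf : ∀ c : C, ϖ • c = 0 → c = 0)
    {ι : Type*} [Fintype ι] [DecidableEq ι] (x : ι → C)
    (hcard : Fintype.card ι = Module.finrank D C)
    (ns : Finset (Ideal C)) (hns : ∀ n : Ideal C, n.IsMaximal → n ∈ ns)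
    (hres : ∀ n : Ideal C, n.IsMaximal → ∀ x : C, ∃ a : D, x - algebraMap D C a ∈ n)
    (r : ℕ) (hr : ns.card ≤ r)
    (hdisc : Algebra.discr D x ∉ (maximalIdeal D) ^ (Fintype.card ι - r + 1))
    (n : Ideal C) [hnmax : n.IsMaximal] :
    ∃ f ∈ n, ∀ x ∈ n, ∃ s, s ∉ n ∧ ∃ c, s * x = c * f := by
  haveI : Module.Free D C := h94r_free_of_torsionFree ϖ hϖ htf
  exact h94r_tameReg_family x hcard ns hns hres r hr hdisc n

end H94TameReg2

end Fermat.Agent.S36
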