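import Fermat.Agent.S36.H18CuspAsm
import Fermat.Agent.S36.H3CuspWire
import Fermat.Agent.S36.H20Emb
import Fermat.Agent.S36.H55VVal
import Fermat.Agent.S36.H95BridgeFinal
import Fermat.Agent.S36.H44CuspRes
import Fermat.Agent.S36.H27CuspPart
import Fermat.Agent.S36.H3CuspLPM
import Fermat.Agent.S36.H59CuspBeta

/-!
# S36, R-CUSP / L-CUSP: everything except CUSP-UNIT11 is plugged in (helper95)

The cusp case of REG (`H18cCusp`), its strong form `H95CuspOne` (the leaf of
`h92f_s36_of`), helper62's leaf `H62LeafCusp` and the leaf `H11LocCusp` of the local skeleton,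
each from the single remaining open leaf `H18cUnit11` of `S36/H18CuspIface.lean`: all the other
leaves of helper18's assembly `h18c_cuspAssembly` are landed theorems and are plugged in here.

* `h95p_cusp_of_unit11      : H18cUnit11 → H18cCusp`
* `h95p_cuspOne_of_unit11   : H18cUnit11 → H95CuspOne`
* `h95p_leafCusp_of_unit11  : H18cUnit11 → H62LeafCusp`
* `h95p_locCusp_of_unit11   : H18cUnit11 → H11LocCusp`
-/

set_option autoImplicit false

noncomputable section

namespace Fermat.Agent.S36

/-- **R-CUSP from CUSP-UNIT11**: the one-branch datum at every cusp. -/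
theorem h95p_cusp_of_unit11 (hUnit : H18cUnit11) : H18cCusp :=
  h18c_cuspAssembly h20n_embExists h55vv_val h95v_vComplete h44s_cuspInt h27p_cuspPart
    h44s_cuspRes20 h44s_cuspRes11 h44s_cuspRes02 hUnit h3l_lpm h59w_cuspBeta

/-- **the strong cusp leaf of `h92f_s36_of` from CUSP-UNIT11.** -/
theorem h95p_cuspOne_of_unit11 (hUnit : H18cUnit11) : H95CuspOne :=
  h3l_cuspOne_of (h95p_cusp_of_unit11 hUnit)

/-- **helper62's cusp leaf of REG from CUSP-UNIT11.** -/
theorem h95p_leafCusp_of_unit11 (hUnit : H18cUnit11) : H62LeafCusp :=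
  h3l_leafCusp_of (h95p_cusp_of_unit11 hUnit)

/-- **L-CUSP from CUSP-UNIT11.** -/
theorem h95p_locCusp_of_unit11 (hUnit : H18cUnit11) : H11LocCusp :=
  h3l_locCusp_of (h95p_cusp_of_unit11 hUnit)

end Fermat.Agent.S36
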