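import Fermat.Agent.S36.H18CuspIface
import Fermat.Agent.S36.H44Surj
import Fermat.Agent.S36.H25RedIsoInst

/-!
# S36, block REG, rows R-CUSP-RES20 / -RES11 / -RES02 (helper95, prefix `h95c_`)

The three leaves `H18cRes20`, `H18cRes11`, `H18cRes02` of `S36/H18CuspIface.lean` (helper18):
residue degree one of the three vertical valuations on the chart at infinity over the inertia
ring, `B₀ = h62rChart A (M q²) (1/j)`, `Λ₀ = h62rChart A M (1/j)`:

  for `b ∈ B₀` there is `l ∈ Λ₀` with `E20 (b - αα l)`, resp. `E11 (b - αα l)`,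
  resp. `E02 (b - ββ l)` Gauss-small.

Proof: the statement over `A` is landed (`h44s_surj20_inf`, `h44s_surj11_inf`,
`h44s_surj02_inf_E`, helper44: `l ∈ modelInf M A`); the descent to `A₀` is R-REDISO at the
level `M` (`h25i_redIsoStatement`, helper25): `l = l₀ + m`, `l₀ ∈ Λ₀`, `m ∈ 𝔪_A · chart`, and
the expansion of `m` is Gauss-small.  (The multiplier `u` of the frozen statements is not
needed: the leaves hold for every `b ∈ B₀`, in particular for `b = u x`.)

* `h95c_small_iff` : `h18c_Small A s ↔ h44s_Red A s 0`;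
* `h95c_red_of_mem_M` : the expansion of an element of `𝔪_A · chart` is Gauss-small;
* `h95c_res20 : H18cRes20`, `h95c_res11 : H18cRes11`, `h95c_res02 : H18cRes02`.
-/

set_option autoImplicit false
set_option linter.unusedSectionVars false
set_option linter.unusedVariables false

open AlgebraicCurve ModularCurve IsLocalRing

noncomputable section

namespace Fermat.Agent.S36

open Fermat.Agent.S37 Fermat.Agent.Red Fermat.Agent.Red.GV Fermat.Agent.Red.GV.Soft
  Fermat.Agent.Red.Kron Fermat.Agent.Red.GG Fermat.Agent.LGC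

/-- Gauss-small series are the Gauss-integral series with reduction `0`. -/
theorem h95c_small_iff (A : ValuationSubring Kbar) (s : LaurentSeries Kbar) :
    h18c_Small A s ↔ h44s_Red A s 0 := by
  constructor
  · rintro ⟨hs, h⟩
    exact ⟨hs, (softRedT_eq_zero_iff ⟨s, hs⟩).mpr h⟩
  · rintro ⟨hs, h⟩
    exact ⟨hs, (softRedT_eq_zero_iff ⟨s, hs⟩).mp h⟩

section Level

variable {A : ValuationSubring Kbar} {M q : ℕ} [NeZero M] [NeZero q]

/-- the expansion of an element of `𝔪_A · chart` (chart at infinity of the good level `M`) is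
Gauss-small. -/
theorem h95c_red_of_mem_M (hq : q.Prime) (hM : ¬ q ∣ M) (hA : A.LiesOverPrime q)
    (m : chart M A (jB M)⁻¹) (hm : m ∈ h62rM A M (jB M)⁻¹) :
    h44s_Red A (((m : FF M)) : LaurentSeries Kbar) 0 := by
  unfold h62rM Ideal.map at hm
  induction hm using Submodule.span_induction with
  | mem x hx =>
    obtain ⟨a, ha, rfl⟩ := hx
    have e : (((algebraMap A (chart M A (jB M)⁻¹) a : chart M A (jB M)⁻¹) : FF M)) =
        cst M (a : Kbar) := rfl
    rw [e, soft_coe_cst]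
    have h := h44s_red_C (A := A) a
    have h0 : IsLocalRing.residue A a = 0 := (IsLocalRing.residue_eq_zero_iff a).mpr ha
    rw [h0, map_zero] at h
    exact h
  | zero => exact h44s_red_zero
  | add x y _ _ hx hy =>
    have h := hx.add hy
    rw [add_zero] at h
    exact h
  | smul c x _ hx =>
    have hc : h44s_Red A (((c : FF M)) : LaurentSeries Kbar) _ :=
      h44s_red_of_softV (c : FF M) (h44s_inf_le A M q hq hM hA c.2)
    have h := hc.mul hx
    rw [mul_zero] at h
    exact h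

/-- the descent of a witness of level `M` from `A` to `A₀`. -/
theorem h95c_descend (hq : q.Prime) (hM : ¬ q ∣ M) (haux : auxLevel q ∣ M)
    (hA : A.LiesOverPrime q) (l : FF M) (hl : l ∈ modelInf M A) :
    ∃ l₀ : FF M, l₀ ∈ h62rChart A M (jB M)⁻¹ ∧
      h44s_Red A (((l - l₀ : FF M)) : LaurentSeries Kbar) 0 := by
  have hR : H62RedIso A M (jB M)⁻¹ q := (h25i_redIsoStatement q hq M hM haux A hA).2.1
  have hl' : l ∈ chart M A (jB M)⁻¹ := hl
  obtain ⟨l₀, hl₀⟩ := hR.1 ⟨l, hl'⟩
  refine ⟨(l₀ : FF M), l₀.2, ?_⟩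
  have h := h95c_red_of_mem_M hq hM hA _ hl₀
  have e : (((⟨l, hl'⟩ - h62rIncl A M (jB M)⁻¹ l₀ : chart M A (jB M)⁻¹) : FF M)) =
      l - (l₀ : FF M) := by
    rw [AddSubgroupClass.coe_sub, h62r_coe_incl]
  rw [e] at h
  exact h

theorem h95c_coe_add (N : ℕ) (x y : FF N) :
    (((x + y : FF N)) : LaurentSeries Kbar) = (x : LaurentSeries Kbar) + (y : LaurentSeries Kbar) :=
  map_add (algebraMap (FF N) (LaurentSeries Kbar)) x y

theorem h95c_coe_sub (N : ℕ) (x y : FF N) :
    (((x - y : FF N)) : LaurentSeries Kbar) = (x : LaurentSeries Kbar) - (y : LaurentSeries Kbar) :=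
  map_sub (algebraMap (FF N) (LaurentSeries Kbar)) x y

end Level

/-- **CUSP-RES20.** -/
theorem h95c_res20 : H18cRes20 := by
  intro q hq M _ hqM haux
  haveI : NeZero q := ⟨hq.ne_zero⟩
  intro A hA ζ E11 E02 hT x u hx hu _ _
  have hb : u * x ∈ modelInf (M * q * q) A :=
    mul_mem (h62r_mem_chart.mp hu).1 (h62r_mem_chart.mp hx).1
  obtain ⟨l, hl, h, h0⟩ := h44s_surj20_inf hq hqM haux hA (u * x) hb
  obtain ⟨l₀, hl₀, hm⟩ := h95c_descend hq hqM haux hA l hl
  refine ⟨l₀, hl₀, (h95c_small_iff A _).mpr ?_⟩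
  have h1 : h44s_Red A (((u * x - h44s_aa M q l : FF (M * q * q))) : LaurentSeries Kbar) 0 :=
    (h44s_red_of_softV _ h).congr rfl h0
  have e : h20n_E20 M q (u * x - h18c_aa M q l₀) =
      (((u * x - h44s_aa M q l : FF (M * q * q))) : LaurentSeries Kbar) +
        (((l - l₀ : FF M)) : LaurentSeries Kbar) := by
    have e2 : u * x - h44s_aa M q l₀ = (u * x - h44s_aa M q l) + h44s_aa M q (l - l₀) := by
      rw [map_sub]
      ring
    show (((u * x - h44s_aa M q l₀ : FF (M * q * q))) : LaurentSeries Kbar) = _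
    rw [e2, h95c_coe_add, h44s_coe_aa]
  rw [e]
  have h2 := h1.add hm
  rw [add_zero] at h2
  exact h2

/-- **CUSP-RES11.** -/
theorem h95c_res11 : H18cRes11 := by
  intro q hq M _ hqM haux
  haveI : NeZero q := ⟨hq.ne_zero⟩
  intro A hA ζ E11 E02 hT x u hx hu _ _
  have hb : u * x ∈ modelInf (M * q * q) A :=
    mul_mem (h62r_mem_chart.mp hu).1 (h62r_mem_chart.mp hx).1
  have hfix : ∀ σ ∈ A.inertiaSubgroupIn ℚ, gal (M * q * q) σ • (u * x) = u * x := by
    intro σ hσ
    rw [smul_mul', (h62r_mem_chart.mp hu).2 σ hσ, (h62r_mem_chart.mp hx).2 σ hσ]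
  obtain ⟨l, hl, h, h0⟩ := h44s_surj11_inf hq hqM haux hA ζ hT.prim E11 hT.e11 (u * x) hb hfix
  obtain ⟨l₀, hl₀, hm⟩ := h95c_descend hq hqM haux hA l hl
  refine ⟨l₀, hl₀, (h95c_small_iff A _).mpr ?_⟩
  have h1 : h44s_Red A (E11 (u * x - h44s_aa M q l)) 0 := ⟨h, h0⟩
  have e : E11 (u * x - h18c_aa M q l₀) =
      E11 (u * x - h44s_aa M q l) + (((l - l₀ : FF M)) : LaurentSeries Kbar) := by
    have e2 : u * x - h44s_aa M q l₀ = (u * x - h44s_aa M q l) + h44s_aa M q (l - l₀) := by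
      rw [map_sub]
      ring
    show E11 (u * x - h44s_aa M q l₀) = _
    rw [e2, map_add, h44s_E11_aa hT.e11]
  rw [e]
  have h2 := h1.add hm
  rw [add_zero] at h2
  exact h2

/-- **CUSP-RES02.** -/
theorem h95c_res02 : H18cRes02 := by
  intro q hq M _ hqM haux
  haveI : NeZero q := ⟨hq.ne_zero⟩
  intro A hA ζ E11 E02 hT x u hx hu _ _
  have hb : u * x ∈ modelInf (M * q * q) A :=
    mul_mem (h62r_mem_chart.mp hu).1 (h62r_mem_chart.mp hx).1
  obtain ⟨l, hl, h, h0⟩ := h44s_surj02_inf_E hq hqM haux hA E02 hT.e02 (u * x) hb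
  obtain ⟨l₀, hl₀, hm⟩ := h95c_descend hq hqM haux hA l hl
  refine ⟨l₀, hl₀, (h95c_small_iff A _).mpr ?_⟩
  have h1 : h44s_Red A (E02 (u * x - h44s_bb M q l)) 0 := ⟨h, h0⟩
  have e : E02 (u * x - h18c_bb M q l₀) =
      E02 (u * x - h44s_bb M q l) + (((l - l₀ : FF M)) : LaurentSeries Kbar) := by
    have e1 : E02 (h44s_bb M q (l - l₀)) = (((l - l₀ : FF M)) : LaurentSeries Kbar) := by
      rw [h44s_E02_eq hq hqM E02 hT.e02, h44s_fricke2_bb, h44s_coe_aa]
    have e2 : u * x - h44s_bb M q l₀ = (u * x - h44s_bb M q l) + h44s_bb M q (l - l₀) := by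
      rw [map_sub]
      ring
    show E02 (u * x - h44s_bb M q l₀) = _
    rw [e2, map_add, e1]
  rw [e]
  have h2 := h1.add hm
  rw [add_zero] at h2
  exact h2

end Fermat.Agent.S36
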