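import Fermat.Agent.S36.H20U11Norm

/-!
# S36, REG, row R-CUSP-UNIT11 (helper95): the Gauss unit `S^(q-1) / q` at `E11`

The second conclusion of the frozen leaf `H18cUnit11` (`S36/H18CuspIface.lean`) from the shape of
the expansion of `S` at `E11`: if `E S = C a · w` with `w` a unit of `A⟦t⟧` and `a ^ (q-1) / q` a
unit of `A` (e.g. `a = 1 - ζ^c` or `a = ζ^c - 1`, `ζ` a primitive `q`-th root of unity, `q ∤ c`),
then `E (S ^ (q-1) · q⁻¹)` is a unit of the Gauss ring.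

* `h95u_cyclo_ratio_mem` : `(1 - ζ^b) / (1 - ζ^c) ∈ A` for `q ∤ c`.
* `h95u_cyclo_unit`      : `(1 - ζ^c) ^ (q-1) / q` and its inverse lie in `A`.
* `h95u_cyclo_unit'`     : the same for `ζ^c - 1`.
* `h95u_ups_C`           : a constant `C a`, `a` a unit of `A`, is a unit of `A⟦t⟧`.
* `h95u_unit_of_exp`     : the general statement.
* `h95u_unit11`, `h95u_unit11'` : the two instances.
-/

set_option autoImplicit false
set_option linter.unusedVariables false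

open AlgebraicCurve ModularCurve

noncomputable section

namespace Fermat.Agent.S36

open Fermat.Agent.S37 (Kbar FF)

variable (A : ValuationSubring Kbar)

/-- `ζ^c ≠ 1` for `q ∤ c`. -/
theorem h95u_pow_ne_one {q : ℕ} {ζ : Kbar} (hζ : IsPrimitiveRoot ζ q) {c : ℕ} (hc : ¬ q ∣ c) :
    ζ ^ c ≠ 1 := fun h => hc ((hζ.pow_eq_one_iff_dvd c).mp h)

/-- `(1 - x^k) / (1 - x) ∈ A` for `x ∈ A`. -/
theorem h95u_geom_mem {x : Kbar} (hx : x ∈ A) (k : ℕ) : (1 - x ^ k) / (1 - x) ∈ A := by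
  by_cases h1 : x = 1
  · subst h1
    simp only [one_pow, sub_self, div_zero]
    exact A.zero_mem
  · have h2 : (1 : Kbar) - x ≠ 0 := sub_ne_zero.mpr (Ne.symm h1)
    have h3 : (1 - x ^ k) / (1 - x) = ∑ i ∈ Finset.range k, x ^ i := by
      rw [div_eq_iff h2]
      have := geom_sum_mul_neg x k
      linear_combination -this
    rw [h3]
    exact sum_mem (fun i _ => pow_mem hx i)

/-- the cyclotomic ratios are integral. -/
theorem h95u_cyclo_ratio_mem {q : ℕ} (hq : q.Prime) {ζ : Kbar} (hζ : IsPrimitiveRoot ζ q)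
    (b : ℕ) {c : ℕ} (hc : ¬ q ∣ c) : (1 - ζ ^ b) / (1 - ζ ^ c) ∈ A := by
  have : NeZero q := ⟨hq.ne_zero⟩
  have hζA : ζ ∈ A := h20u_root_mem hq.pos hζ.pow_eq_one
  have hcop : Nat.Coprime c q := ((Nat.Prime.coprime_iff_not_dvd hq).mpr hc).symm
  have hprim : IsPrimitiveRoot (ζ ^ c) q := hζ.pow_of_coprime c hcop
  have hb : (ζ ^ b) ^ q = 1 := by rw [← pow_mul, mul_comm, pow_mul, hζ.pow_eq_one, one_pow]
  obtain ⟨i, -, hi⟩ := hprim.eq_pow_of_pow_eq_one hb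
  rw [← hi]
  exact h95u_geom_mem A (pow_mem hζA c) i

/-- `q = ∏_{0 < b < q} (1 - ζ^b)`. -/
theorem h95u_prod_eq {q : ℕ} (hq : q.Prime) {ζ : Kbar} (hζ : IsPrimitiveRoot ζ q) :
    ∏ b ∈ Finset.range (q - 1), (1 - ζ ^ (b + 1)) = (q : Kbar) := by
  obtain ⟨n, rfl⟩ : ∃ n, q = n + 1 := ⟨q - 1, (Nat.sub_add_cancel hq.pos).symm⟩
  have h2 := hζ.prod_one_sub_pow_eq_order
  rw [Nat.add_sub_cancel, h2]
  push_cast
  rfl

/-- **the cyclotomic unit**: `(1 - ζ^c)^(q-1) / q` and its inverse are integral. -/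
theorem h95u_cyclo_unit {q : ℕ} (hq : q.Prime) {ζ : Kbar} (hζ : IsPrimitiveRoot ζ q)
    {c : ℕ} (hc : ¬ q ∣ c) :
    (1 - ζ ^ c) ^ (q - 1) / (q : Kbar) ∈ A ∧ (q : Kbar) / (1 - ζ ^ c) ^ (q - 1) ∈ A := by
  have hq0 : (q : Kbar) ≠ 0 := by exact_mod_cast hq.ne_zero
  have hne : ∀ b ∈ Finset.range (q - 1), (1 : Kbar) - ζ ^ (b + 1) ≠ 0 := by
    intro b hb
    have hb' : ¬ q ∣ b + 1 := by
      intro h
      have := Nat.le_of_dvd (Nat.succ_pos b) h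
      have := Finset.mem_range.mp hb
      omega
    exact sub_ne_zero.mpr (Ne.symm (h95u_pow_ne_one hζ hb'))
  have hc0 : (1 : Kbar) - ζ ^ c ≠ 0 := sub_ne_zero.mpr (Ne.symm (h95u_pow_ne_one hζ hc))
  have hP := h95u_prod_eq hq hζ
  constructor
  · have h1 : (1 - ζ ^ c) ^ (q - 1) / (q : Kbar) =
        ∏ b ∈ Finset.range (q - 1), ((1 - ζ ^ c) / (1 - ζ ^ (b + 1))) := by
      rw [Finset.prod_div_distrib, Finset.prod_const, Finset.card_range, hP]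
    rw [h1]
    refine prod_mem (fun b hb => ?_)
    have hb' : ¬ q ∣ b + 1 := by
      intro h
      have := Nat.le_of_dvd (Nat.succ_pos b) h
      have := Finset.mem_range.mp hb
      omega
    exact h95u_cyclo_ratio_mem A hq hζ c hb'
  · have h1 : (q : Kbar) / (1 - ζ ^ c) ^ (q - 1) =
        ∏ b ∈ Finset.range (q - 1), ((1 - ζ ^ (b + 1)) / (1 - ζ ^ c)) := by
      rw [Finset.prod_div_distrib, Finset.prod_const, Finset.card_range, hP]
    rw [h1]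
    exact prod_mem (fun b _ => h95u_cyclo_ratio_mem A hq hζ (b + 1) hc)

/-- the same for `ζ^c - 1`. -/
theorem h95u_cyclo_unit' {q : ℕ} (hq : q.Prime) {ζ : Kbar} (hζ : IsPrimitiveRoot ζ q)
    {c : ℕ} (hc : ¬ q ∣ c) :
    (ζ ^ c - 1) ^ (q - 1) / (q : Kbar) ∈ A ∧ (q : Kbar) / (ζ ^ c - 1) ^ (q - 1) ∈ A := by
  obtain ⟨h1, h2⟩ := h95u_cyclo_unit A hq hζ hc
  have hs : (ζ ^ c - 1) ^ (q - 1) = (-1) ^ (q - 1) * (1 - ζ ^ c) ^ (q - 1) := by
    rw [← mul_pow]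
    congr 1
    ring
  have hm : ((-1 : Kbar)) ^ (q - 1) ∈ A := pow_mem (A.neg_mem _ A.one_mem) _
  have hsq : ((-1 : Kbar)) ^ (q - 1) * (-1) ^ (q - 1) = 1 := by
    rw [← mul_pow]
    simp
  have hm0 : ((-1 : Kbar)) ^ (q - 1) ≠ 0 := pow_ne_zero _ (by norm_num)
  constructor
  · rw [hs, mul_div_assoc]
    exact A.mul_mem _ _ hm h1
  · have hinv : ((-1 : Kbar) ^ (q - 1))⁻¹ = (-1) ^ (q - 1) :=
      inv_eq_of_mul_eq_one_right hsq
    have : (q : Kbar) / ((-1) ^ (q - 1) * (1 - ζ ^ c) ^ (q - 1)) =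
        (-1) ^ (q - 1) * ((q : Kbar) / (1 - ζ ^ c) ^ (q - 1)) := by
      rw [div_eq_mul_inv, mul_inv, hinv, div_eq_mul_inv]
      ring
    rw [hs, this]
    exact A.mul_mem _ _ hm h2

/-- a unit constant is a unit of `A⟦t⟧`. -/
theorem h95u_ups_C {a : Kbar} (ha : a ∈ A) (hai : a⁻¹ ∈ A) (ha0 : a ≠ 0) :
    h20u_UPS A (HahnSeries.C a : LaurentSeries Kbar) := by
  rw [h20u_ups_iff]
  refine ⟨fun n => ?_, fun n hn => ?_, ?_, ?_⟩
  · rw [HahnSeries.C_apply, HahnSeries.coeff_single]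
    split_ifs
    · exact ha
    · exact A.zero_mem
  · rw [HahnSeries.C_apply, HahnSeries.coeff_single, if_neg hn.ne]
  · rw [HahnSeries.C_apply, HahnSeries.coeff_single, if_pos rfl]
    exact ha0
  · rw [HahnSeries.C_apply, HahnSeries.coeff_single, if_pos rfl]
    exact hai

/-- **the general statement**: `E S = C a · w`, `w` a unit of `A⟦t⟧`, `a^(q-1) / q` a unit of
`A` ⟹ `E (S^(q-1) · q⁻¹)` is a unit of the Gauss ring. -/
theorem h95u_unit_of_exp {F : Type*} [Field F] (E : F →+* LaurentSeries Kbar) (q : ℕ)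
    (hq : q ≠ 0) {a : Kbar} (ha : a ^ (q - 1) / (q : Kbar) ∈ A)
    (hai : (q : Kbar) / a ^ (q - 1) ∈ A) (ha0 : a ≠ 0)
    {S : F} {w : LaurentSeries Kbar} (hw : h20u_UPS A w) (hE : E S = HahnSeries.C a * w) :
    h20v_Unit A (E (S ^ (q - 1) * ((q : ℕ) : F)⁻¹)) := by
  have hq0 : (q : Kbar) ≠ 0 := by exact_mod_cast hq
  have hqC : ((q : ℕ) : LaurentSeries Kbar) = HahnSeries.C (q : Kbar) := by
    rw [← map_natCast (HahnSeries.C : Kbar →+* LaurentSeries Kbar)]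
  have h1 : E (S ^ (q - 1) * ((q : ℕ) : F)⁻¹) =
      HahnSeries.C (a ^ (q - 1) / (q : Kbar)) * w ^ (q - 1) := by
    rw [map_mul, map_pow, map_inv₀, map_natCast, hE, mul_pow, hqC, ← map_pow, ← map_inv₀,
      div_eq_mul_inv, map_mul]
    ring
  rw [h1]
  refine h20u_ups_unit (h20u_ups_mul (h95u_ups_C A ha ?_ ?_) (h20u_ups_pow hw _))
  · rw [inv_div]
    exact hai
  · exact div_ne_zero (pow_ne_zero _ ha0) hq0

/-- **CUSP-UNIT11, second conclusion**, for `E S = C (1 - ζ^c) · w`. -/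
theorem h95u_unit11 {F : Type*} [Field F] (E : F →+* LaurentSeries Kbar) {q : ℕ}
    (hq : q.Prime) {ζ : Kbar} (hζ : IsPrimitiveRoot ζ q) {c : ℕ} (hc : ¬ q ∣ c)
    {S : F} {w : LaurentSeries Kbar} (hw : h20u_UPS A w)
    (hE : E S = HahnSeries.C (1 - ζ ^ c) * w) :
    h20v_Unit A (E (S ^ (q - 1) * ((q : ℕ) : F)⁻¹)) :=
  h95u_unit_of_exp A E q hq.ne_zero (h95u_cyclo_unit A hq hζ hc).1 (h95u_cyclo_unit A hq hζ hc).2
    (sub_ne_zero.mpr (Ne.symm (h95u_pow_ne_one hζ hc))) hw hE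

/-- **CUSP-UNIT11, second conclusion**, for `E S = C (ζ^c - 1) · w`. -/
theorem h95u_unit11' {F : Type*} [Field F] (E : F →+* LaurentSeries Kbar) {q : ℕ}
    (hq : q.Prime) {ζ : Kbar} (hζ : IsPrimitiveRoot ζ q) {c : ℕ} (hc : ¬ q ∣ c)
    {S : F} {w : LaurentSeries Kbar} (hw : h20u_UPS A w)
    (hE : E S = HahnSeries.C (ζ ^ c - 1) * w) :
    h20v_Unit A (E (S ^ (q - 1) * ((q : ℕ) : F)⁻¹)) :=
  h95u_unit_of_exp A E q hq.ne_zero (h95u_cyclo_unit' A hq hζ hc).1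
    (h95u_cyclo_unit' A hq hζ hc).2 (sub_ne_zero.mpr (h95u_pow_ne_one hζ hc)) hw hE

end Fermat.Agent.S36
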