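import Mathlib
import Fermat.Agent.S36.H84WeakApprox
import Fermat.Agent.S36.H90WeakApprox

/-!
# S36, block VERT (helper95): the abstract core of `VertStatement`

Mathlib only (+ the landed weak approximation leaves `H84WeakApprox`, `H90WeakApprox`).

Setting: a field `F` (in use: the field `F₀` of inertia-invariant functions of level `M q²`),
finitely many pairwise independent discrete valuations `v i : Valuation F ℤᵐ⁰` (in use: the three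
vertical valuations `W₂₀`, `W₁₁`, `W₀₂`), a prime `q` with `v i q = exp (-(e i))`, `1 ≤ e i`,
`e i * f i = q - 1` (in use: `e = (1, q - 1, 1)`).

* `h95v_vert_abs` : let `u ≠ 0` such that
  (N1) the valuation vector of `u ^ t₁` lies in `ℤ · e + m · ℤ^ι`
       (component group, blueprint step N1: `t₁ = q + 1`);
  (N2) for every `i` the function `u ^ T` is, at `v i`, congruent to `q ^ k · y ^ m`
       (toric datum with data in `F`).
  Then `u ^ (t₁ * T * (q - 1) * q) = q ^ j * g ^ m * w` with `w ≡ 1` modulo `q` at every `v i`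
  (`v i (w - 1) ≤ v i q`).
* `h95v_arith` : the arithmetic of (N1) for `e = (1, q - 1, 1)` in the form consumed by
  `h95v_vert_abs`.
-/

set_option autoImplicit false

open WithZero

namespace Fermat.Agent.S36

section Basic

/-- in `ℤᵐ⁰`, `x < 1` means `x ≤ exp (-1)`. -/
theorem h95v_le_exp_of_lt_one {x : ℤᵐ⁰} (hx : x < 1) : x ≤ exp (-1 : ℤ) := by
  rcases eq_or_ne x 0 with rfl | h0
  · exact zero_le
  · obtain ⟨a, rfl⟩ : ∃ a : ℤ, x = exp a := ⟨log x, (exp_log h0).symm⟩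
    rw [← exp_zero, exp_lt_exp] at hx
    rw [exp_le_exp]
    omega

variable {F : Type*} [Field F]

theorem h95v_exp_log (w : Valuation F ℤᵐ⁰) {x : F} (hx : x ≠ 0) : exp (log (w x)) = w x :=
  exp_log ((Valuation.ne_zero_iff w).mpr hx)

theorem h95v_log_mul (w : Valuation F ℤᵐ⁰) {x y : F} (hx : x ≠ 0) (hy : y ≠ 0) :
    log (w (x * y)) = log (w x) + log (w y) := by
  rw [map_mul]
  exact log_mul ((Valuation.ne_zero_iff w).mpr hx) ((Valuation.ne_zero_iff w).mpr hy)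

theorem h95v_log_pow (w : Valuation F ℤᵐ⁰) (x : F) (n : ℕ) :
    log (w (x ^ n)) = n * log (w x) := by
  rw [map_pow, log_pow, nsmul_eq_mul]

theorem h95v_log_inv (w : Valuation F ℤᵐ⁰) (x : F) : log (w x⁻¹) = - log (w x) := by
  rw [map_inv₀, log_inv]

theorem h95v_log_zpow (w : Valuation F ℤᵐ⁰) (x : F) (n : ℤ) :
    log (w (x ^ n)) = n * log (w x) := by
  rw [map_zpow₀, log_zpow, smul_eq_mul]

theorem h95v_eq_one_of_log (w : Valuation F ℤᵐ⁰) {x : F} (hx : x ≠ 0) (h : log (w x) = 0) :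
    w x = 1 := by
  rw [← h95v_exp_log w hx, h, exp_zero]

/-- an element congruent to `1` has valuation `1`. -/
theorem h95v_val_of_sub_one_lt (w : Valuation F ℤᵐ⁰) {x : F} (h : w (x - 1) < 1) : w x = 1 := by
  have h1 : w (x - 1) < w (1 : F) := by rw [map_one]; exact h
  have := Valuation.map_eq_of_sub_lt w h1
  rw [map_one] at this
  exact this

/-- products of elements congruent to `1`. -/
theorem h95v_mul_sub_one_lt (w : Valuation F ℤᵐ⁰) {x y : F} (hx : w (x - 1) < 1)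
    (hy : w (y - 1) < 1) : w (x * y - 1) < 1 := by
  have e : x * y - 1 = (x - 1) * y + (y - 1) := by ring
  rw [e]
  refine lt_of_le_of_lt (Valuation.map_add w _ _) (max_lt ?_ hy)
  rw [map_mul, h95v_val_of_sub_one_lt w hy, mul_one]
  exact hx

/-- powers of elements congruent to `1`. -/
theorem h95v_pow_sub_one_lt (w : Valuation F ℤᵐ⁰) {x : F} (hx : w (x - 1) < 1) (n : ℕ) :
    w (x ^ n - 1) < 1 := by
  induction n with
  | zero => simp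
  | succ n ih =>
    rw [pow_succ]
    exact h95v_mul_sub_one_lt w ih hx

/-- inverses of elements congruent to `1`. -/
theorem h95v_inv_sub_one_lt (w : Valuation F ℤᵐ⁰) {x : F} (hx : w (x - 1) < 1) :
    w (x⁻¹ - 1) < 1 := by
  have h1 := h95v_val_of_sub_one_lt w hx
  have hx0 : x ≠ 0 := by
    intro h0
    rw [h0, map_zero] at h1
    exact zero_ne_one h1
  have e : x⁻¹ - 1 = -(x - 1) * x⁻¹ := by
    field_simp
    ring
  rw [e, map_mul, Valuation.map_neg, map_inv₀, h1, inv_one, mul_one]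
  exact hx

end Basic

/-- **the arithmetic of the component group** (blueprint N1) for `e = (1, q - 1, 1)`: from the
two norm relations, `(q + 1) n = a e + m b`. -/
theorem h95v_arith (q m n₂₀ n₁₁ n₀₂ : ℤ) (h1 : m ∣ n₂₀ + n₁₁ - q * n₀₂)
    (h2 : m ∣ q * n₂₀ - (n₁₁ + n₀₂)) :
    ∃ a b₂₀ b₁₁ b₀₂ : ℤ, (q + 1) * n₂₀ = a * 1 + m * b₂₀ ∧
      (q + 1) * n₁₁ = a * (q - 1) + m * b₁₁ ∧ (q + 1) * n₀₂ = a * 1 + m * b₀₂ := by
  obtain ⟨c, hc⟩ := h1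
  obtain ⟨d, hd⟩ := h2
  refine ⟨(q + 1) * n₂₀, 0, c - q * d, -(c + d), ?_, ?_, ?_⟩
  · ring
  · have e1 : n₁₁ = q * n₂₀ - n₀₂ - m * d := by linarith
    have e2 : (q + 1) * (n₂₀ - n₀₂) = m * (c + d) := by linarith
    have e3 : (q + 1) * n₁₁ - (q + 1) * n₂₀ * (q - 1) = (q + 1) * (n₂₀ - n₀₂) - (q + 1) * (m * d) := by
      rw [e1]; ring
    have e4 : (q + 1) * n₁₁ = (q + 1) * n₂₀ * (q - 1) + (m * (c + d) - (q + 1) * (m * d)) := by
      linarith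
    rw [e4]; ring
  · have e2 : (q + 1) * (n₂₀ - n₀₂) = m * (c + d) := by linarith
    linarith

section Identities

variable {F : Type*} [Field F]

/-- the identity behind (N2): `u₁ ^ T = D ^ t₁ * q ^ (-K) * Y ^ m`. -/
theorem h95v_key_identity (Q u g₁ y : F) (hQ0 : Q ≠ 0) (hy0 : y ≠ 0)
    (a k : ℤ) (m T t₁ : ℕ) :
    (u ^ t₁ * Q ^ (-a) * (g₁ ^ m)⁻¹) ^ T =
      (Q ^ k * u ^ T * (y ^ m)⁻¹) ^ t₁ * Q ^ (-(k * t₁ + a * T)) * (y ^ t₁ * (g₁ ^ T)⁻¹) ^ m := by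
  have hqk : Q ^ (-(k * (t₁ : ℤ) + a * T)) = ((Q ^ k)⁻¹) ^ t₁ * (Q ^ (-a)) ^ T := by
    rw [neg_add, zpow_add₀ hQ0, ← zpow_natCast ((Q ^ k)⁻¹) t₁, ← zpow_natCast (Q ^ (-a)) T,
      ← zpow_neg, ← zpow_mul, ← zpow_mul]
    congr 2 <;> ring
  rw [hqk]
  have hQk0 : Q ^ k ≠ 0 := zpow_ne_zero _ hQ0
  generalize Q ^ k = P at hQk0 ⊢
  generalize Q ^ (-a) = R
  have h1 : (P * u ^ T * (y ^ m)⁻¹) ^ t₁ * (P⁻¹ ^ t₁ * R ^ T) * (y ^ t₁ * (g₁ ^ T)⁻¹) ^ m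
      = (P * P⁻¹) ^ t₁ * (y * y⁻¹) ^ (m * t₁) * ((u ^ t₁ * R * (g₁ ^ m)⁻¹) ^ T) := by
    ring
  rw [h1, mul_inv_cancel₀ hQk0, mul_inv_cancel₀ hy0, one_pow, one_pow, one_mul, one_mul]

/-- the identity behind the local roots: `Z ^ m = (q ^ (-K) * Y ^ m) ^ n`. -/
theorem h95v_root_identity (Q Y : F) (c K : ℤ) (m n : ℕ) (h : c * (m : ℤ) = -K * n) :
    (Q ^ c * Y ^ n) ^ m = (Q ^ (-K) * Y ^ m) ^ n := by
  rw [mul_pow, mul_pow, ← zpow_natCast (Q ^ c) m, ← zpow_mul, ← zpow_natCast (Q ^ (-K)) n,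
    ← zpow_mul, ← pow_mul, ← pow_mul, mul_comm n m, h]

end Identities

section Core

variable {F : Type*} [Field F] {ι : Type*} [Finite ι] [Nonempty ι]

/-- **the abstract core of VERT.** -/
theorem h95v_vert_abs (v : ι → Valuation F ℤᵐ⁰)
    (hind : ∀ i k, i ≠ k → ∃ x : F, v i x < 1 ∧ 1 ≤ v k x)
    (hunif : ∀ i, ∃ π : F, v i π = exp (-1 : ℤ))
    (q : ℕ) (hq : q.Prime) (e f : ι → ℤ) (he : ∀ i, 1 ≤ e i) (hef : ∀ i, e i * f i = (q : ℤ) - 1)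
    (hqv : ∀ i, v i (q : F) = exp (-(e i)))
    (m T t₁ : ℕ) (u : F) (hu : u ≠ 0)
    (hN1 : ∃ a : ℤ, ∀ i, ∃ b : ℤ, (t₁ : ℤ) * log (v i u) = -(a * e i + (m : ℤ) * b))
    (hT : ∀ i, ∃ (k : ℤ) (y : F), y ≠ 0 ∧ v i ((q : F) ^ k * u ^ T * (y ^ m)⁻¹ - 1) < 1) :
    ∃ (j : ℤ) (g w : F), g ≠ 0 ∧ w ≠ 0 ∧
      u ^ (t₁ * T * (q - 1) * q) = (q : F) ^ j * g ^ m * w ∧
      ∀ i, v i (w - 1) ≤ v i (q : F) := by
  classical
  have hq0 : (q : F) ≠ 0 := by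
    obtain ⟨i⟩ := ‹Nonempty ι›
    intro h0
    have := hqv i
    rw [h0, map_zero] at this
    exact exp_ne_zero this.symm
  have hlogq : ∀ i, log (v i (q : F)) = -(e i) := fun i => by rw [hqv i, log_exp]
  have hq1 : 1 ≤ q := hq.one_lt.le
  have hqcast : ((q - 1 : ℕ) : ℤ) = (q : ℤ) - 1 := by
    rw [Nat.cast_sub hq1]; simp
  obtain ⟨a, hab⟩ := hN1
  choose b hb using hab
  -- (N1): kill the component group
  obtain ⟨g₁, hg₁0, hg₁⟩ := h90w_exists_exp v hunif hind (fun i => -(b i))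
  have hlogg₁ : ∀ i, log (v i g₁) = -(b i) := fun i => by rw [hg₁ i, log_exp]
  obtain ⟨u₁, hu₁⟩ : ∃ u₁ : F, u₁ = u ^ t₁ * (q : F) ^ (-a) * (g₁ ^ m)⁻¹ := ⟨_, rfl⟩
  have hu₁0 : u₁ ≠ 0 := by
    rw [hu₁]
    exact mul_ne_zero (mul_ne_zero (pow_ne_zero _ hu) (zpow_ne_zero _ hq0))
      (inv_ne_zero (pow_ne_zero _ hg₁0))
  have hlogu₁ : ∀ i, log (v i u₁) = 0 := by
    intro i
    rw [hu₁, h95v_log_mul (v i) (mul_ne_zero (pow_ne_zero _ hu) (zpow_ne_zero _ hq0))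
      (inv_ne_zero (pow_ne_zero _ hg₁0)),
      h95v_log_mul (v i) (pow_ne_zero _ hu) (zpow_ne_zero _ hq0), h95v_log_pow, h95v_log_zpow,
      h95v_log_inv, h95v_log_pow, hlogq, hlogg₁, hb i]
    ring
  -- (N2): local `m`-th roots
  have hZ : ∀ i, ∃ Z : F, Z ≠ 0 ∧ v i (u₁ ^ (T * (q - 1)) * (Z ^ m)⁻¹ - 1) < 1 := by
    intro i
    obtain ⟨k, y, hy0, hD⟩ := hT i
    obtain ⟨D, hDdef⟩ : ∃ D : F, D = (q : F) ^ k * u ^ T * (y ^ m)⁻¹ := ⟨_, rfl⟩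
    rw [← hDdef] at hD
    have hD1 : v i D = 1 := h95v_val_of_sub_one_lt (v i) hD
    have hD0 : D ≠ 0 := by
      intro h0
      rw [h0, map_zero] at hD1
      exact zero_ne_one hD1
    obtain ⟨Y, hYdef⟩ : ∃ Y : F, Y = y ^ t₁ * (g₁ ^ T)⁻¹ := ⟨_, rfl⟩
    have hY0 : Y ≠ 0 := by
      rw [hYdef]
      exact mul_ne_zero (pow_ne_zero _ hy0) (inv_ne_zero (pow_ne_zero _ hg₁0))
    obtain ⟨K, hKdef⟩ : ∃ K : ℤ, K = k * t₁ + a * T := ⟨_, rfl⟩
    -- `u₁ ^ T = D ^ t₁ * q ^ (-K) * Y ^ m`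
    have hkey : u₁ ^ T = D ^ t₁ * (q : F) ^ (-K) * Y ^ m := by
      rw [hu₁, hDdef, hYdef, hKdef]
      exact h95v_key_identity (q : F) u g₁ y hq0 hy0 a k m T t₁
    have hlogY : (m : ℤ) * log (v i Y) = -(K * e i) := by
      have h1 : log (v i (u₁ ^ T)) = 0 := by rw [h95v_log_pow, hlogu₁]; ring
      rw [hkey, h95v_log_mul (v i) (mul_ne_zero (pow_ne_zero _ hD0) (zpow_ne_zero _ hq0))
        (pow_ne_zero _ hY0), h95v_log_mul (v i) (pow_ne_zero _ hD0) (zpow_ne_zero _ hq0),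
        h95v_log_pow, h95v_log_zpow, h95v_log_pow, hlogq, hD1, log_one] at h1
      linarith
    obtain ⟨Z, hZdef⟩ : ∃ Z : F, Z = (q : F) ^ (f i * log (v i Y)) * Y ^ (q - 1) := ⟨_, rfl⟩
    have hZ0 : Z ≠ 0 := by
      rw [hZdef]
      exact mul_ne_zero (zpow_ne_zero _ hq0) (pow_ne_zero _ hY0)
    refine ⟨Z, hZ0, ?_⟩
    have hZm : Z ^ m = ((q : F) ^ (-K) * Y ^ m) ^ (q - 1) := by
      rw [hZdef]
      refine h95v_root_identity (q : F) Y _ K m (q - 1) ?_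
      rw [hqcast, ← hef i]
      have : f i * log (v i Y) * (m : ℤ) = f i * ((m : ℤ) * log (v i Y)) := by ring
      rw [this, hlogY]
      ring
    have hfin : u₁ ^ (T * (q - 1)) * (Z ^ m)⁻¹ = D ^ (t₁ * (q - 1)) := by
      have h0 : ((q : F) ^ (-K) * Y ^ m) ≠ 0 :=
        mul_ne_zero (zpow_ne_zero _ hq0) (pow_ne_zero _ hY0)
      rw [hZm, pow_mul, hkey, mul_assoc, mul_pow, ← pow_mul, mul_assoc,
        mul_inv_cancel₀ (pow_ne_zero _ h0), mul_one]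
    rw [hfin]
    exact h95v_pow_sub_one_lt (v i) hD _
  choose Z hZ0 hZ using hZ
  -- glue the local roots
  obtain ⟨g₂, hg₂0, hg₂⟩ := h90w_exists_mul_approx v
    (fun i => by
      obtain ⟨π, hπ⟩ := hunif i
      refine ⟨π, ?_, ?_⟩
      · rw [hπ]; exact exp_ne_zero
      · rw [hπ, ← exp_zero, Ne, exp_inj]; norm_num)
    hind Z hZ0 (fun _ => 1) (fun _ => one_ne_zero) (fun _ => le_rfl)
  obtain ⟨w₁, hw₁⟩ : ∃ w₁ : F, w₁ = u₁ ^ (T * (q - 1)) * (g₂ ^ m)⁻¹ := ⟨_, rfl⟩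
  have hw₁0 : w₁ ≠ 0 := by
    rw [hw₁]
    exact mul_ne_zero (pow_ne_zero _ hu₁0) (inv_ne_zero (pow_ne_zero _ hg₂0))
  have hw₁1 : ∀ i, v i (w₁ - 1) < 1 := by
    intro i
    have h1 : v i ((g₂ / Z i)⁻¹ - 1) < 1 := h95v_inv_sub_one_lt (v i) (hg₂ i)
    have h2 : v i (((g₂ / Z i)⁻¹) ^ m - 1) < 1 := h95v_pow_sub_one_lt (v i) h1 m
    have h3 := h95v_mul_sub_one_lt (v i) (hZ i) h2
    have e : w₁ = u₁ ^ (T * (q - 1)) * (Z i ^ m)⁻¹ * ((g₂ / Z i)⁻¹) ^ m := by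
      rw [hw₁, inv_div, div_pow, mul_assoc]
      congr 1
      have h5 : Z i ^ m ≠ 0 := pow_ne_zero _ (hZ0 i)
      have h6 : g₂ ^ m ≠ 0 := pow_ne_zero _ hg₂0
      field_simp
    rw [e]
    exact h3
  -- (N3)
  refine ⟨a * ((T * (q - 1) * q : ℕ) : ℤ), g₁ ^ (T * (q - 1) * q) * g₂ ^ q, w₁ ^ q,
    mul_ne_zero (pow_ne_zero _ hg₁0) (pow_ne_zero _ hg₂0), pow_ne_zero _ hw₁0, ?_, ?_⟩
  · have h1 : u ^ t₁ = u₁ * (q : F) ^ a * g₁ ^ m := by
      rw [hu₁]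
      have hg0' : g₁ ^ m ≠ 0 := pow_ne_zero _ hg₁0
      rw [zpow_neg]
      have hqa : (q : F) ^ a ≠ 0 := zpow_ne_zero _ hq0
      field_simp
    have h2 : u₁ ^ (T * (q - 1)) = w₁ * g₂ ^ m := by
      rw [hw₁]
      have hg0' : g₂ ^ m ≠ 0 := pow_ne_zero _ hg₂0
      field_simp
    have h3 : u ^ (t₁ * T * (q - 1) * q) = (u ^ t₁) ^ (T * (q - 1) * q) := by
      rw [← pow_mul]; congr 1; ring
    rw [h3, h1, mul_pow, mul_pow, ← zpow_natCast ((q : F) ^ a) (T * (q - 1) * q), ← zpow_mul,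
      pow_mul u₁ (T * (q - 1)) q, h2, mul_pow w₁]
    ring
  · intro i
    have hei : ∃ n : ℕ, (n : ℤ) = e i ∧ n ≤ q := by
      have h1 : 0 ≤ e i := by linarith [he i]
      obtain ⟨n, hn⟩ := Int.eq_ofNat_of_zero_le h1
      refine ⟨n, hn.symm, ?_⟩
      have hf : 1 ≤ f i := by
        by_contra hcon
        have h2 : f i ≤ 0 := by omega
        have h3 : e i * f i ≤ 0 := mul_nonpos_of_nonneg_of_nonpos h1 h2
        have h4 : (1 : ℤ) < q := by exact_mod_cast hq.one_lt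
        rw [hef i] at h3
        omega
      have h5 : e i ≤ e i * f i := by nlinarith [he i]
      rw [hef i] at h5
      have : (n : ℤ) ≤ q := by rw [← hn]; omega
      exact_mod_cast this
    obtain ⟨n, hn, hnq⟩ := hei
    exact h84w_pow_prime_sub_one' (v i) hq hnq (by rw [hqv i, hn])
      (Fermat.Agent.S36.h95v_le_exp_of_lt_one (hw₁1 i))

end Core

end Fermat.Agent.S36
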