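import Fermat.Agent.S36.H95BridgeFinal
import Fermat.Agent.S36.H27VertAsm
import Fermat.Agent.S36.H93ApproxRes
import Fermat.Agent.S36.H71Roots
import Fermat.Agent.S36.V28Val
import Fermat.Agent.S36.H90ApproxVal
import Fermat.Agent.S36.H57VDisc

/-!
# S36, row H92VERT: wiring of `H92Vert` (helper95)

`H92Vert` (`S36/H92Chain.lean`) from the landed leaves of `S36/H20VertSkel.lean`:

* `h27a_vertAssembly : H20VertAssembly` (helper27), `h20n_embExists` (helper20),
  `h95v_vComplete` (L1), `h28f_H20Val` (L2, helper28), `h71x_roots` (L5, helper71),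
  `h93a_approxRes` (L6, helper93), `h75u_unip` (L7, helper75),
  `h90v_approxVal : H74Val → H74Unif11 → H20ApproxVal` (L4, helper90), `h57v_unif11` (helper57).

Open inputs: `H74Val` (row V-VAL) and `H20CompGroup` (L3).

* `h95v_approxVal_of : H74Val → H20ApproxVal`;
* `h95v_vert_of_val_comp : H74Val → H20CompGroup → H92Vert`.
-/

set_option autoImplicit false

open AlgebraicCurve ModularCurve

noncomputable section

namespace Fermat.Agent.S36

/-- **(L4) WA-VAL** from the packaged valuations. -/
theorem h95v_approxVal_of (hVal : H74Val) : H20ApproxVal :=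
  h90v_approxVal hVal h57v_unif11

/-- **H92VERT** from the packaged valuations and the component group. -/
theorem h95v_vert_of_val_comp (hVal : H74Val) (hCG : H20CompGroup) : H92Vert :=
  h27a_vertAssembly h20n_embExists h95v_vComplete V28.h28f_H20Val hCG
    (h95v_approxVal_of hVal) h71x_roots h93a_approxRes h75u_unip

end Fermat.Agent.S36
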