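import Mathlib

/-!
# S36, no-regret leaf WEAK-APPROX (helper96): weak approximation for finitely many
inequivalent discrete valuations

`F` a field, `v : ι → Valuation F ℤᵐ⁰` a finite family of nontrivial, pairwise inequivalent
valuations (for S36: `W20`, `W11`, `W02` on `F0`; no Dedekind or integral-closure hypothesis).

* `h96w_exists_sep` : for every `i` there is `a` with `1 < v i a` and `v j a < 1` for `j ≠ i`.
* `h96w_exists_idem` : for every `i` and every bound `ε ≠ 0` there is `e` with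
  `v i (e - 1) < ε` and `v j e < ε` for `j ≠ i` ("approximate idempotents").
* `h96w_approx` : for all targets `t i` and bounds `ε i ≠ 0` there is `x` with
  `v i (x - t i) < ε i` for all `i`.
* `h96w_exists_val_eq` : for nonzero targets there is `x ≠ 0` with `v i (x / t i - 1) < ε i`
  (hence `v i x = v i (t i)`).
-/

set_option autoImplicit false

open WithZero

namespace Fermat.Agent.S36

section Arch

/-- **Archimedean property of `ℤᵐ⁰`.** -/
theorem h96w_arch {γ : ℤᵐ⁰} (hγ : γ < 1) (δ : ℤᵐ⁰) {ε : ℤᵐ⁰} (hε : ε ≠ 0) :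
    ∃ N : ℕ, ∀ n, N ≤ n → γ ^ n * δ < ε := by
  have hεpos : 0 < ε := zero_lt_iff.mpr hε
  by_cases hγ0 : γ = 0
  · refine ⟨1, fun n hn => ?_⟩
    have : n ≠ 0 := by omega
    rw [hγ0, zero_pow this, zero_mul]
    exact hεpos
  by_cases hδ0 : δ = 0
  · refine ⟨0, fun n _ => ?_⟩
    rw [hδ0, mul_zero]
    exact hεpos
  -- `γ = exp g`, `g < 0`
  have hg : log γ < 0 := by
    rw [log_lt_iff_lt_exp hγ0, exp_zero]
    exact hγ
  refine ⟨(log δ - log ε).toNat + 1, fun n hn => ?_⟩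
  have hγn : γ ^ n ≠ 0 := pow_ne_zero _ hγ0
  have hne : γ ^ n * δ ≠ 0 := mul_ne_zero hγn hδ0
  rw [← log_lt_log hne hε, log_mul hγn hδ0, log_pow]
  have h1 : (n : ℤ) * log γ ≤ -(n : ℤ) := by nlinarith
  have h2 : ((log δ - log ε).toNat : ℤ) + 1 ≤ n := by exact_mod_cast hn
  have h3 : log δ - log ε ≤ ((log δ - log ε).toNat : ℤ) := Int.self_le_toNat _
  have h4 : n • log γ = (n : ℤ) * log γ := by simp
  rw [h4]
  omega

end Arch

section Abv

variable {F : Type*} [Field F]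

/-- the real absolute value `x ↦ 2 ^ log (v x)` attached to a `ℤᵐ⁰`-valued valuation. -/
noncomputable def h96w_abv (v : Valuation F ℤᵐ⁰) : AbsoluteValue F ℝ where
  toFun x := (WithZeroMulInt.toNNReal (e := 2) two_ne_zero (v x) : ℝ)
  map_mul' x y := by
    rw [map_mul, map_mul, NNReal.coe_mul]
  nonneg' x := NNReal.coe_nonneg _
  eq_zero' x := by
    rw [NNReal.coe_eq_zero, map_eq_zero, map_eq_zero]
  add_le' x y := by
    have hmono := (WithZeroMulInt.toNNReal_strictMono (e := 2) one_lt_two).monotone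
    have h1 : v (x + y) ≤ max (v x) (v y) := v.map_add x y
    rcases le_max_iff.mp h1 with h | h
    · calc ((WithZeroMulInt.toNNReal (e := 2) two_ne_zero (v (x + y)) : NNReal) : ℝ)
          ≤ (WithZeroMulInt.toNNReal (e := 2) two_ne_zero (v x) : NNReal) :=
            NNReal.coe_le_coe.mpr (hmono h)
        _ ≤ _ := le_add_of_nonneg_right (NNReal.coe_nonneg _)
    · calc ((WithZeroMulInt.toNNReal (e := 2) two_ne_zero (v (x + y)) : NNReal) : ℝ)
          ≤ (WithZeroMulInt.toNNReal (e := 2) two_ne_zero (v y) : NNReal) :=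
            NNReal.coe_le_coe.mpr (hmono h)
        _ ≤ _ := le_add_of_nonneg_left (NNReal.coe_nonneg _)

theorem h96w_abv_apply (v : Valuation F ℤᵐ⁰) (x : F) :
    h96w_abv v x = (WithZeroMulInt.toNNReal (e := 2) two_ne_zero (v x) : ℝ) := rfl

theorem h96w_abv_le_iff (v : Valuation F ℤᵐ⁰) (x y : F) :
    h96w_abv v x ≤ h96w_abv v y ↔ v x ≤ v y := by
  rw [h96w_abv_apply, h96w_abv_apply, NNReal.coe_le_coe]
  exact (WithZeroMulInt.toNNReal_strictMono (e := 2) one_lt_two).le_iff_le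

theorem h96w_abv_lt_iff (v : Valuation F ℤᵐ⁰) (x y : F) :
    h96w_abv v x < h96w_abv v y ↔ v x < v y := by
  rw [h96w_abv_apply, h96w_abv_apply, NNReal.coe_lt_coe]
  exact (WithZeroMulInt.toNNReal_strictMono (e := 2) one_lt_two).lt_iff_lt

theorem h96w_abv_lt_one_iff (v : Valuation F ℤᵐ⁰) (x : F) :
    h96w_abv v x < 1 ↔ v x < 1 := by
  have := h96w_abv_lt_iff v x 1
  rwa [map_one, map_one] at this

theorem h96w_abv_one_lt_iff (v : Valuation F ℤᵐ⁰) (x : F) :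
    1 < h96w_abv v x ↔ 1 < v x := by
  have := h96w_abv_lt_iff v 1 x
  rwa [map_one, map_one] at this

theorem h96w_abv_isEquiv_iff (v w : Valuation F ℤᵐ⁰) :
    (h96w_abv v).IsEquiv (h96w_abv w) ↔ v.IsEquiv w := by
  constructor
  · intro h x y
    rw [← h96w_abv_le_iff, ← h96w_abv_le_iff]
    exact h x y
  · intro h x y
    rw [h96w_abv_le_iff, h96w_abv_le_iff]
    exact h x y

theorem h96w_abv_isNontrivial (v : Valuation F ℤᵐ⁰) (h : ∃ x : F, x ≠ 0 ∧ v x ≠ 1) :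
    (h96w_abv v).IsNontrivial := by
  obtain ⟨x, hx0, hx1⟩ := h
  refine ⟨x, hx0, fun h1 => hx1 ?_⟩
  have h2 : h96w_abv v x = h96w_abv v 1 := by rw [h1, map_one]
  have h3 : v x = v 1 :=
    le_antisymm ((h96w_abv_le_iff v x 1).mp h2.le) ((h96w_abv_le_iff v 1 x).mp h2.ge)
  rw [h3, map_one]

end Abv

section Sep

variable {F : Type*} [Field F] {ι : Type*} [Finite ι]

/-- **Separating elements.** -/
theorem h96w_exists_sep (v : ι → Valuation F ℤᵐ⁰)
    (hnt : ∀ i, ∃ x : F, x ≠ 0 ∧ v i x ≠ 1)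
    (hne : ∀ i j, i ≠ j → ¬ (v i).IsEquiv (v j)) (i : ι) :
    ∃ a : F, 1 < v i a ∧ ∀ j, j ≠ i → v j a < 1 := by
  obtain ⟨a, ha, haj⟩ := AbsoluteValue.exists_one_lt_lt_one_pi_of_not_isEquiv
    (v := fun i => h96w_abv (v i)) (fun i => h96w_abv_isNontrivial (v i) (hnt i))
    (fun i j hij h => hne i j hij ((h96w_abv_isEquiv_iff _ _).mp h)) i
  exact ⟨a, (h96w_abv_one_lt_iff _ _).mp ha, fun j hj => (h96w_abv_lt_one_iff _ _).mp (haj j hj)⟩

/-- valuation of `1 + b` for `v b < 1`. -/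
theorem h96w_val_one_add_of_lt (v : Valuation F ℤᵐ⁰) {b : F} (hb : v b < 1) :
    v (1 + b) = 1 := by
  have h := Valuation.map_add_eq_of_lt_left v (x := 1) (y := b) (by rwa [map_one])
  rw [h, map_one]

/-- valuation of `1 + b` for `1 < v b`. -/
theorem h96w_val_one_add_of_gt (v : Valuation F ℤᵐ⁰) {b : F} (hb : 1 < v b) :
    v (1 + b) = v b :=
  Valuation.map_add_eq_of_lt_right v (x := 1) (y := b) (by rwa [map_one])

/-- **Approximate idempotents.** -/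
theorem h96w_exists_idem (v : ι → Valuation F ℤᵐ⁰)
    (hnt : ∀ i, ∃ x : F, x ≠ 0 ∧ v i x ≠ 1)
    (hne : ∀ i j, i ≠ j → ¬ (v i).IsEquiv (v j)) (i : ι) (δ : ι → ℤᵐ⁰)
    (ε : ι → ℤᵐ⁰) (hε : ∀ j, ε j ≠ 0) :
    ∃ e : F, v i (e - 1) * δ i < ε i ∧ ∀ j, j ≠ i → v j e * δ j < ε j := by
  classical
  have := Fintype.ofFinite ι
  obtain ⟨a, hai, haj⟩ := h96w_exists_sep v hnt hne i
  have hinv : (v i a)⁻¹ < 1 := by
    have h0 : (0 : ℤᵐ⁰) < v i a := lt_trans zero_lt_one hai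
    rw [inv_lt_one₀ h0]
    exact hai
  -- the exponents
  have hN : ∀ j, ∃ N : ℕ, ∀ n, N ≤ n →
      (if j = i then (v i a)⁻¹ else v j a) ^ n * δ j < ε j := by
    intro j
    by_cases hj : j = i
    · subst hj
      simpa using h96w_arch hinv (δ j) (hε j)
    · simpa [hj] using h96w_arch (haj j hj) (δ j) (hε j)
  choose N hN using hN
  set n : ℕ := Finset.univ.sup N with hn
  have hNn : ∀ j, N j ≤ n := fun j => Finset.le_sup (Finset.mem_univ j)
  have hva : v i (a ^ n) = (v i a) ^ n := map_pow _ _ _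
  have hone : (1 : ℤᵐ⁰) ≤ (v i a) ^ n := one_le_pow₀ hai.le
  by_cases hn0 : n = 0
  · -- then all bounds hold with exponent `0`; take `e` from exponent `1` instead
    -- (`n = 0` forces `δ j < ε j` for all `j`)
    have hδ : ∀ j, δ j < ε j := by
      intro j
      have := hN j 0 (by rw [← hn0]; exact hNn j)
      simpa using this
    -- use `n = 1`
    have hden : (1 : F) + a ≠ 0 := by
      intro h0
      have := h96w_val_one_add_of_gt (v i) hai
      rw [h0, map_zero] at this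
      exact absurd this.symm (ne_of_gt (lt_trans zero_lt_one hai))
    refine ⟨a / (1 + a), ?_, ?_⟩
    · have h1 : a / (1 + a) - 1 = -(1 + a)⁻¹ := by
        field_simp
        ring
      rw [h1, Valuation.map_neg, map_inv₀, h96w_val_one_add_of_gt (v i) hai]
      calc (v i a)⁻¹ * δ i ≤ 1 * δ i := mul_le_mul_left hinv.le _
        _ = δ i := one_mul _
        _ < ε i := hδ i
    · intro j hj
      rw [map_div₀, h96w_val_one_add_of_lt (v j) (haj j hj), div_one]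
      calc v j a * δ j ≤ 1 * δ j := mul_le_mul_left (haj j hj).le _
        _ = δ j := one_mul _
        _ < ε j := hδ j
  have hgt : 1 < v i (a ^ n) := by
    rw [hva]
    exact one_lt_pow₀ hai hn0
  have hden : (1 : F) + a ^ n ≠ 0 := by
    intro h0
    have := h96w_val_one_add_of_gt (v i) hgt
    rw [h0, map_zero] at this
    exact absurd this.symm (ne_of_gt (lt_trans zero_lt_one hgt))
  refine ⟨a ^ n / (1 + a ^ n), ?_, ?_⟩
  · have h1 : a ^ n / (1 + a ^ n) - 1 = -(1 + a ^ n)⁻¹ := by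
      field_simp
      ring
    rw [h1, Valuation.map_neg, map_inv₀, h96w_val_one_add_of_gt (v i) hgt, hva, ← inv_pow]
    simpa using hN i n (hNn i)
  · intro j hj
    have hlt : v j (a ^ n) < 1 := by
      rw [map_pow]
      exact pow_lt_one₀ zero_le (haj j hj) hn0
    rw [map_div₀, h96w_val_one_add_of_lt (v j) hlt, div_one, map_pow]
    simpa [hj] using hN j n (hNn j)

/-- **Weak approximation** (with precision). -/
theorem h96w_approx (v : ι → Valuation F ℤᵐ⁰)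
    (hnt : ∀ i, ∃ x : F, x ≠ 0 ∧ v i x ≠ 1)
    (hne : ∀ i j, i ≠ j → ¬ (v i).IsEquiv (v j))
    (t : ι → F) (ε : ι → ℤᵐ⁰) (hε : ∀ i, ε i ≠ 0) :
    ∃ x : F, ∀ i, v i (x - t i) < ε i := by
  classical
  have := Fintype.ofFinite ι
  choose e he1 he2 using fun i =>
    h96w_exists_idem v hnt hne i (fun j => v j (t i)) ε hε
  refine ⟨∑ i, e i * t i, fun k => ?_⟩
  have h1 : (∑ i, e i * t i) - t k = ∑ i, (e i - if i = k then 1 else 0) * t i := by
    simp only [sub_mul, Finset.sum_sub_distrib, ite_mul, one_mul, zero_mul,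
      Finset.sum_ite_eq', Finset.mem_univ, if_true]
  rw [h1]
  refine Valuation.map_sum_lt (v k) (hε k) (fun i _ => ?_)
  by_cases hik : i = k
  · subst hik
    rw [if_pos rfl, map_mul]
    exact he1 i
  · rw [if_neg hik, sub_zero, map_mul]
    exact he2 i k (fun h => hik h.symm)

/-- **Weak approximation, multiplicative form**: prescribed "leading terms". -/
theorem h96w_exists_val_eq (v : ι → Valuation F ℤᵐ⁰)
    (hnt : ∀ i, ∃ x : F, x ≠ 0 ∧ v i x ≠ 1)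
    (hne : ∀ i j, i ≠ j → ¬ (v i).IsEquiv (v j))
    (t : ι → F) (ht : ∀ i, t i ≠ 0) (ε : ι → ℤᵐ⁰) (hε : ∀ i, ε i ≠ 0) :
    ∃ x : F, x ≠ 0 ∧ ∀ i, v i (x / t i - 1) < ε i ∧ (ε i ≤ 1 → v i x = v i (t i)) := by
  classical
  have hvt : ∀ i, v i (t i) ≠ 0 := fun i => (Valuation.ne_zero_iff _).mpr (ht i)
  obtain ⟨x, hx⟩ := h96w_approx v hnt hne t (fun i => min (ε i) 1 * v i (t i))
    (fun i => mul_ne_zero (by
      rcases min_choice (ε i) 1 with h | h
      · rw [h]; exact hε i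
      · rw [h]; exact one_ne_zero) (hvt i))
  have key : ∀ i, v i (x / t i - 1) < min (ε i) 1 := by
    intro i
    have h1 : x / t i - 1 = (x - t i) / t i := by
      field_simp [ht i]
    rw [h1, map_div₀, div_lt_iff₀ (zero_lt_iff.mpr (hvt i))]
    exact hx i
  have hval : ∀ i, v i x = v i (t i) := by
    intro i
    have h1 : v i (x / t i - 1) < 1 := lt_of_lt_of_le (key i) (min_le_right _ _)
    have h2 : v i (x / t i) = 1 := by
      have h3 : x / t i = 1 + (x / t i - 1) := by ring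
      rw [h3]
      exact h96w_val_one_add_of_lt (v i) h1
    rw [map_div₀, div_eq_one_iff_eq (hvt i)] at h2
    exact h2
  rcases isEmpty_or_nonempty ι with hι | ⟨⟨i₀⟩⟩
  · exact ⟨1, one_ne_zero, fun i => (hι.false i).elim⟩
  · refine ⟨x, ?_, fun i => ⟨lt_of_lt_of_le (key i) (min_le_left _ _), fun _ => hval i⟩⟩
    intro h0
    have := hval i₀
    rw [h0, map_zero] at this
    exact hvt i₀ this.symm

/-- **Prescribed valuations.** -/
theorem h96w_exists_val (v : ι → Valuation F ℤᵐ⁰)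
    (hnt : ∀ i, ∃ x : F, x ≠ 0 ∧ v i x ≠ 1)
    (hne : ∀ i j, i ≠ j → ¬ (v i).IsEquiv (v j))
    (t : ι → F) (ht : ∀ i, t i ≠ 0) :
    ∃ x : F, x ≠ 0 ∧ ∀ i, v i x = v i (t i) := by
  obtain ⟨x, hx0, hx⟩ := h96w_exists_val_eq v hnt hne t ht (fun _ => 1) (fun _ => one_ne_zero)
  exact ⟨x, hx0, fun i => (hx i).2 le_rfl⟩

end Sep

section Three

variable {F : Type*} [Field F]

theorem h96w_not_isEquiv_of_le_lt {v w : Valuation F ℤᵐ⁰} (x : F) (h1 : v x ≤ 1)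
    (h2 : 1 < w x) : ¬ v.IsEquiv w := fun h =>
  absurd (Valuation.isEquiv_iff_val_le_one.mp h |>.mp h1) (not_le.mpr h2)

theorem h96w_not_isEquiv_of_lt_le {v w : Valuation F ℤᵐ⁰} (x : F) (h1 : v x < 1)
    (h2 : 1 ≤ w x) : ¬ v.IsEquiv w := fun h =>
  absurd (Valuation.isEquiv_iff_val_lt_one.mp h |>.mp h1) (not_lt.mpr h2)

theorem h96w_not_isEquiv_of_eq_ne {v w : Valuation F ℤᵐ⁰} (x : F) (h1 : v x = 1)
    (h2 : w x ≠ 1) : ¬ v.IsEquiv w := fun h =>
  h2 (Valuation.isEquiv_iff_val_eq_one.mp h |>.mp h1)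

/-- the hypotheses of the approximation theorems for three valuations. -/
theorem h96w_three_hyp (v₁ v₂ v₃ : Valuation F ℤᵐ⁰)
    (h₁ : ∃ x : F, x ≠ 0 ∧ v₁ x ≠ 1) (h₂ : ∃ x : F, x ≠ 0 ∧ v₂ x ≠ 1)
    (h₃ : ∃ x : F, x ≠ 0 ∧ v₃ x ≠ 1)
    (h12 : ¬ v₁.IsEquiv v₂) (h13 : ¬ v₁.IsEquiv v₃) (h23 : ¬ v₂.IsEquiv v₃) :
    (∀ i : Fin 3, ∃ x : F, x ≠ 0 ∧ (![v₁, v₂, v₃] i) x ≠ 1) ∧
    (∀ i j : Fin 3, i ≠ j → ¬ (![v₁, v₂, v₃] i).IsEquiv (![v₁, v₂, v₃] j)) := by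
  refine ⟨fun i => ?_, fun i j hij => ?_⟩
  · fin_cases i
    · exact h₁
    · exact h₂
    · exact h₃
  · fin_cases i <;> fin_cases j
    · exact absurd rfl hij
    · exact h12
    · exact h13
    · exact fun h => h12 h.symm
    · exact absurd rfl hij
    · exact h23
    · exact fun h => h13 h.symm
    · exact fun h => h23 h.symm
    · exact absurd rfl hij

/-- **Weak approximation for three valuations.** -/
theorem h96w_approx3 (v₁ v₂ v₃ : Valuation F ℤᵐ⁰)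
    (h₁ : ∃ x : F, x ≠ 0 ∧ v₁ x ≠ 1) (h₂ : ∃ x : F, x ≠ 0 ∧ v₂ x ≠ 1)
    (h₃ : ∃ x : F, x ≠ 0 ∧ v₃ x ≠ 1)
    (h12 : ¬ v₁.IsEquiv v₂) (h13 : ¬ v₁.IsEquiv v₃) (h23 : ¬ v₂.IsEquiv v₃)
    (t₁ t₂ t₃ : F) {ε₁ ε₂ ε₃ : ℤᵐ⁰} (hε₁ : ε₁ ≠ 0) (hε₂ : ε₂ ≠ 0) (hε₃ : ε₃ ≠ 0) :
    ∃ x : F, v₁ (x - t₁) < ε₁ ∧ v₂ (x - t₂) < ε₂ ∧ v₃ (x - t₃) < ε₃ := by
  obtain ⟨hnt, hne⟩ := h96w_three_hyp v₁ v₂ v₃ h₁ h₂ h₃ h12 h13 h23
  obtain ⟨x, hx⟩ := h96w_approx ![v₁, v₂, v₃] hnt hne ![t₁, t₂, t₃] ![ε₁, ε₂, ε₃]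
    (fun i => by fin_cases i <;> assumption)
  exact ⟨x, hx 0, hx 1, hx 2⟩

/-- **Weak approximation for three valuations, multiplicative form.** -/
theorem h96w_exists_val_eq3 (v₁ v₂ v₃ : Valuation F ℤᵐ⁰)
    (h₁ : ∃ x : F, x ≠ 0 ∧ v₁ x ≠ 1) (h₂ : ∃ x : F, x ≠ 0 ∧ v₂ x ≠ 1)
    (h₃ : ∃ x : F, x ≠ 0 ∧ v₃ x ≠ 1)
    (h12 : ¬ v₁.IsEquiv v₂) (h13 : ¬ v₁.IsEquiv v₃) (h23 : ¬ v₂.IsEquiv v₃)
    (t₁ t₂ t₃ : F) (ht₁ : t₁ ≠ 0) (ht₂ : t₂ ≠ 0) (ht₃ : t₃ ≠ 0)
    {ε₁ ε₂ ε₃ : ℤᵐ⁰} (hε₁ : ε₁ ≠ 0) (hε₂ : ε₂ ≠ 0) (hε₃ : ε₃ ≠ 0) :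
    ∃ x : F, x ≠ 0 ∧ v₁ (x / t₁ - 1) < ε₁ ∧ v₂ (x / t₂ - 1) < ε₂ ∧ v₃ (x / t₃ - 1) < ε₃ ∧
      (ε₁ ≤ 1 → v₁ x = v₁ t₁) ∧ (ε₂ ≤ 1 → v₂ x = v₂ t₂) ∧ (ε₃ ≤ 1 → v₃ x = v₃ t₃) := by
  obtain ⟨hnt, hne⟩ := h96w_three_hyp v₁ v₂ v₃ h₁ h₂ h₃ h12 h13 h23
  obtain ⟨x, hx0, hx⟩ := h96w_exists_val_eq ![v₁, v₂, v₃] hnt hne ![t₁, t₂, t₃]
    (fun i => by fin_cases i <;> assumption) ![ε₁, ε₂, ε₃]
    (fun i => by fin_cases i <;> assumption)
  exact ⟨x, hx0, (hx 0).1, (hx 1).1, (hx 2).1, (hx 0).2, (hx 1).2, (hx 2).2⟩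

end Three

section SemiLocal

variable {F : Type*} [Field F] {ι : Type*}

/-- the ring `V = ⋂ O_{v i}` of functions integral at all `v i`. -/
def h96wV (v : ι → Valuation F ℤᵐ⁰) : Subring F where
  carrier := {x | ∀ i, v i x ≤ 1}
  mul_mem' {a b} ha hb i := by
    rw [map_mul]
    exact mul_le_one' (ha i) (hb i)
  one_mem' i := by rw [map_one]
  add_mem' {a b} ha hb i := le_trans ((v i).map_add a b) (max_le (ha i) (hb i))
  zero_mem' i := by rw [map_zero]; exact zero_le_one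
  neg_mem' {a} ha i := by rw [Valuation.map_neg]; exact ha i

theorem h96wV_mem {v : ι → Valuation F ℤᵐ⁰} {x : F} : x ∈ h96wV v ↔ ∀ i, v i x ≤ 1 :=
  Iff.rfl

theorem h96wV_inv_mem {v : ι → Valuation F ℤᵐ⁰} {x : F} (hx : ∀ i, v i x = 1) :
    x⁻¹ ∈ h96wV v := fun i => by
  rw [map_inv₀, hx i, inv_one]

/-- `1 + 𝔪 V ⊆ V^×`. -/
theorem h96wV_one_add_inv_mem {v : ι → Valuation F ℤᵐ⁰} {π : F} (hπ : ∀ i, v i π < 1)
    {x : F} (hx : x ∈ h96wV v) : (1 + π * x)⁻¹ ∈ h96wV v := by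
  refine h96wV_inv_mem (fun i => h96w_val_one_add_of_lt (v i) ?_)
  rw [map_mul]
  calc v i π * v i x ≤ v i π * 1 := mul_le_mul_right (hx i) _
    _ = v i π := mul_one _
    _ < 1 := hπ i

/-- `π V = {x | v i x ≤ v i π}`. -/
theorem h96wV_mem_smul_iff {v : ι → Valuation F ℤᵐ⁰} {π : F} (hπ : π ≠ 0) {x : F} :
    (∃ y ∈ h96wV v, x = π * y) ↔ ∀ i, v i x ≤ v i π := by
  constructor
  · rintro ⟨y, hy, rfl⟩ i
    rw [map_mul]
    calc v i π * v i y ≤ v i π * 1 := mul_le_mul_right (hy i) _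
      _ = v i π := mul_one _
  · intro h
    refine ⟨x / π, fun i => ?_, by field_simp⟩
    rw [map_div₀]
    exact div_le_one_of_le₀ (h i) zero_le

variable [Finite ι]

/-- **Lifting residues**: elements of `V` with prescribed residues (with precision). -/
theorem h96wV_exists_lift (v : ι → Valuation F ℤᵐ⁰)
    (hnt : ∀ i, ∃ x : F, x ≠ 0 ∧ v i x ≠ 1)
    (hne : ∀ i j, i ≠ j → ¬ (v i).IsEquiv (v j))
    (t : ι → F) (ht : ∀ i, v i (t i) ≤ 1) (ε : ι → ℤᵐ⁰) (hε : ∀ i, ε i ≠ 0) :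
    ∃ x ∈ h96wV v, ∀ i, v i (x - t i) < ε i := by
  obtain ⟨x, hx⟩ := h96w_approx v hnt hne t (fun i => min (ε i) 1) (fun i => by
    rcases min_choice (ε i) 1 with h | h
    · rw [h]; exact hε i
    · rw [h]; exact one_ne_zero)
  refine ⟨x, fun i => ?_, fun i => lt_of_lt_of_le (hx i) (min_le_left _ _)⟩
  have h1 : x = (x - t i) + t i := by ring
  rw [h1]
  exact le_trans ((v i).map_add _ _)
    (max_le (le_trans (hx i).le (min_le_right _ _)) (ht i))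

/-- **Units of `V` with prescribed residues.** -/
theorem h96wV_exists_unit_lift (v : ι → Valuation F ℤᵐ⁰)
    (hnt : ∀ i, ∃ x : F, x ≠ 0 ∧ v i x ≠ 1)
    (hne : ∀ i j, i ≠ j → ¬ (v i).IsEquiv (v j))
    (t : ι → F) (ht : ∀ i, v i (t i) = 1) (ε : ι → ℤᵐ⁰) (hε : ∀ i, ε i ≠ 0) :
    ∃ x : F, x ∈ h96wV v ∧ x⁻¹ ∈ h96wV v ∧ (∀ i, v i x = 1) ∧ ∀ i, v i (x - t i) < ε i := by
  have ht0 : ∀ i, t i ≠ 0 := fun i h0 => by
    have := ht i
    rw [h0, map_zero] at this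
    exact zero_ne_one this
  obtain ⟨x, -, hx⟩ := h96w_exists_val_eq v hnt hne t ht0 (fun i => min (ε i) 1) (fun i => by
    rcases min_choice (ε i) 1 with h | h
    · rw [h]; exact hε i
    · rw [h]; exact one_ne_zero)
  have hv : ∀ i, v i x = 1 := fun i => by rw [(hx i).2 (min_le_right _ _), ht i]
  refine ⟨x, fun i => (hv i).le, h96wV_inv_mem hv, hv, fun i => ?_⟩
  have h1 : x - t i = (x / t i - 1) * t i := by
    field_simp [ht0 i]
  rw [h1, map_mul, ht i, mul_one]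
  exact lt_of_lt_of_le (hx i).1 (min_le_left _ _)

/-- every element of `F` is a quotient of elements of `V`. -/
theorem h96wV_exists_div (v : ι → Valuation F ℤᵐ⁰)
    (hnt : ∀ i, ∃ x : F, x ≠ 0 ∧ v i x ≠ 1)
    (hne : ∀ i j, i ≠ j → ¬ (v i).IsEquiv (v j)) (x : F) :
    ∃ a ∈ h96wV v, ∃ b ∈ h96wV v, b ≠ 0 ∧ x = a / b := by
  classical
  -- choose `b ≠ 0` with `v i b ≤ 1` and `v i b ≤ (v i x)⁻¹`
  have hex : ∀ i, ∃ s : F, s ≠ 0 ∧ v i s ≤ 1 ∧ v i s * v i x ≤ 1 := by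
    intro i
    by_cases hx : v i x ≤ 1
    · exact ⟨1, one_ne_zero, by rw [map_one], by rw [map_one, one_mul]; exact hx⟩
    · have hx' : 1 < v i x := not_le.mp hx
      have hx0 : x ≠ 0 := fun h0 => by
        rw [h0, map_zero] at hx'
        exact absurd hx' (not_lt.mpr zero_le_one)
      refine ⟨x⁻¹, inv_ne_zero hx0, ?_, ?_⟩
      · rw [map_inv₀]
        exact inv_le_one_of_one_le₀ hx'.le
      · rw [map_inv₀, inv_mul_cancel₀ ((Valuation.ne_zero_iff _).mpr hx0)]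
  choose s hs0 hs1 hs2 using hex
  obtain ⟨b, hb0, hb⟩ := h96w_exists_val v hnt hne s hs0
  refine ⟨x * b, fun i => ?_, b, fun i => ?_, hb0, by field_simp⟩
  · rw [map_mul, hb i, mul_comm]
    exact hs2 i
  · rw [hb i]
    exact hs1 i

omit [Finite ι] in
/-- an element of maximal valuation in a nonzero ideal of `V`. -/
theorem h96wV_exists_max (v : ι → Valuation F ℤᵐ⁰) (I : Ideal (h96wV v))
    (x₀ : h96wV v) (hx₀ : x₀ ∈ I) (hx₀0 : x₀ ≠ 0) (i : ι) :
    ∃ x : h96wV v, x ∈ I ∧ x ≠ 0 ∧ ∀ y ∈ I, v i (y : F) ≤ v i (x : F) := by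
  classical
  have hval0 : ∀ y : h96wV v, y ≠ 0 → v i (y : F) ≠ 0 := fun y hy =>
    (Valuation.ne_zero_iff _).mpr (fun h => hy (Subtype.ext h))
  -- the set of the `log (v i y)`
  obtain ⟨n, ⟨x, hxI, hx0, hxn⟩, hmax⟩ := Int.exists_greatest_of_bdd
    (P := fun n : ℤ => ∃ y : h96wV v, y ∈ I ∧ y ≠ 0 ∧ log (v i (y : F)) = n)
    ⟨0, by
      rintro z ⟨y, -, hy0, rfl⟩
      rw [log_le_iff_le_exp (hval0 y hy0), exp_zero]
      exact y.2 i⟩
    ⟨_, x₀, hx₀, hx₀0, rfl⟩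
  refine ⟨x, hxI, hx0, fun y hy => ?_⟩
  by_cases hy0 : y = 0
  · rw [hy0]
    simp
  · rw [← log_le_log (hval0 y hy0) (hval0 x hx0), hxn]
    exact hmax _ ⟨y, hy, hy0, rfl⟩

/-- **`V` is a principal ideal ring.** -/
theorem h96wV_exists_span_eq (v : ι → Valuation F ℤᵐ⁰)
    (hnt : ∀ i, ∃ x : F, x ≠ 0 ∧ v i x ≠ 1)
    (hne : ∀ i j, i ≠ j → ¬ (v i).IsEquiv (v j)) (I : Ideal (h96wV v)) :
    ∃ g : h96wV v, I = Ideal.span {g} := by
  classical
  have := Fintype.ofFinite ι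
  by_cases hI : I = ⊥
  · exact ⟨0, by rw [hI]; simp⟩
  obtain ⟨x₀, hx₀, hx₀0⟩ := Submodule.exists_mem_ne_zero_of_ne_bot hI
  have hx₀F : (x₀ : F) ≠ 0 := fun h => hx₀0 (Subtype.ext h)
  rcases isEmpty_or_nonempty ι with hι | hι
  · -- `V = F`
    refine ⟨x₀, le_antisymm (fun y hy => ?_) ((Ideal.span_singleton_le_iff_mem I).mpr hx₀)⟩
    rw [Ideal.mem_span_singleton']
    refine ⟨⟨(y : F) / x₀, fun i => (hι.false i).elim⟩, Subtype.ext ?_⟩
    show (y : F) / x₀ * x₀ = y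
    field_simp
  choose x hxI hx0 hxmax using fun i => h96wV_exists_max v I x₀ hx₀ hx₀0 i
  have hxF : ∀ i, (x i : F) ≠ 0 := fun i h => hx0 i (Subtype.ext h)
  obtain ⟨g, hg0, hg⟩ := h96w_exists_val v hnt hne (fun i => (x i : F)) hxF
  have hgV : g ∈ h96wV v := fun i => by rw [hg i]; exact (x i).2 i
  -- `I ≤ (g)`
  have hle : ∀ y ∈ I, ∃ c : h96wV v, c * ⟨g, hgV⟩ = y := by
    intro y hy
    refine ⟨⟨(y : F) / g, fun i => ?_⟩, Subtype.ext ?_⟩
    · rw [map_div₀, hg i]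
      exact div_le_one_of_le₀ (hxmax i y hy) zero_le
    · show (y : F) / g * g = y
      field_simp
  -- `g ∈ I`
  have hδ : ∀ i k, 1 ≤ v k (g / (x i : F)) := by
    intro i k
    rw [map_div₀, hg k, one_le_div₀ (zero_lt_iff.mpr ((Valuation.ne_zero_iff _).mpr (hxF i)))]
    exact hxmax k (x i) (hxI i)
  choose e he1 he2 using fun i =>
    h96w_exists_idem v hnt hne i (fun k => v k (g / (x i : F))) (fun _ => 1)
      (fun _ => one_ne_zero)
  have hei : ∀ i, v i (e i - 1) < 1 := by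
    intro i
    have h1 := he1 i
    have h2 : v i (g / (x i : F)) = 1 := by
      rw [map_div₀, hg i, div_self ((Valuation.ne_zero_iff _).mpr (hxF i))]
    rwa [h2, mul_one] at h1
  have hek : ∀ i k, k ≠ i → v k (e i) < 1 := by
    intro i k hk
    calc v k (e i) = v k (e i) * 1 := (mul_one _).symm
      _ ≤ v k (e i) * v k (g / (x i : F)) := mul_le_mul_right (hδ i k) _
      _ < 1 := he2 i k hk
  have hcV : ∀ i, e i * (g / (x i : F)) ∈ h96wV v := by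
    intro i k
    rw [map_mul]
    by_cases hk : k = i
    · subst hk
      have h2 : v k (g / (x k : F)) = 1 := by
        rw [map_div₀, hg k, div_self ((Valuation.ne_zero_iff _).mpr (hxF k))]
      have h3 : v k (e k) = 1 := by
        have h4 : e k = 1 + (e k - 1) := by ring
        rw [h4]
        exact h96w_val_one_add_of_lt (v k) (hei k)
      rw [h2, h3, one_mul]
    · exact (he2 i k hk).le
  set u : F := ∑ i, e i with hu
  have hu1 : ∀ k, v k (u - 1) < 1 := by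
    intro k
    have h1 : u - 1 = ∑ i, (e i - if i = k then 1 else 0) := by
      rw [hu, Finset.sum_sub_distrib]
      simp
    rw [h1]
    refine Valuation.map_sum_lt (v k) one_ne_zero (fun i _ => ?_)
    by_cases hik : i = k
    · subst hik
      rw [if_pos rfl]
      exact hei i
    · rw [if_neg hik, sub_zero]
      exact hek i k (fun h => hik h.symm)
  have huv : ∀ k, v k u = 1 := by
    intro k
    have h4 : u = 1 + (u - 1) := by ring
    rw [h4]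
    exact h96w_val_one_add_of_lt (v k) (hu1 k)
  have hu0 : u ≠ 0 := by
    obtain ⟨k⟩ := hι
    intro h0
    have := huv k
    rw [h0, map_zero] at this
    exact zero_ne_one this
  have huinv : u⁻¹ ∈ h96wV v := h96wV_inv_mem huv
  have hsum : (∑ i, (⟨e i * (g / (x i : F)), hcV i⟩ : h96wV v) * x i) ∈ I :=
    I.sum_mem (fun i _ => I.mul_mem_left _ (hxI i))
  have hgI : (⟨g, hgV⟩ : h96wV v) ∈ I := by
    have h1 : (⟨g, hgV⟩ : h96wV v) =
        ⟨u⁻¹, huinv⟩ * ∑ i, (⟨e i * (g / (x i : F)), hcV i⟩ : h96wV v) * x i := by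
      apply Subtype.ext
      rw [Subring.coe_mul, AddSubmonoidClass.coe_finsetSum]
      simp only [Subring.coe_mul]
      have h2 : ∀ i, e i * (g / (x i : F)) * (x i : F) = e i * g := by
        intro i
        have := hxF i
        field_simp
      rw [Finset.sum_congr rfl (fun i _ => h2 i), ← Finset.sum_mul, ← hu,
        ← mul_assoc, inv_mul_cancel₀ hu0, one_mul]
    rw [h1]
    exact I.mul_mem_left _ hsum
  refine ⟨⟨g, hgV⟩, le_antisymm (fun y hy => ?_) ((Ideal.span_singleton_le_iff_mem I).mpr hgI)⟩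
  rw [Ideal.mem_span_singleton']
  exact hle y hy

/-- **`V` is a principal ideal ring** (instance form). -/
theorem h96wV_isPrincipalIdealRing (v : ι → Valuation F ℤᵐ⁰)
    (hnt : ∀ i, ∃ x : F, x ≠ 0 ∧ v i x ≠ 1)
    (hne : ∀ i j, i ≠ j → ¬ (v i).IsEquiv (v j)) :
    IsPrincipalIdealRing (h96wV v) :=
  ⟨fun I => by
    obtain ⟨g, hg⟩ := h96wV_exists_span_eq v hnt hne I
    exact ⟨⟨g, hg⟩⟩⟩

end SemiLocal

end Fermat.Agent.S36
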