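import Fermat.Agent.S36.H99NormRed

/-!
# S36, block (N) (helper99): corollaries of the abstract norm lemma — Mathlib only

* `h99s_norm_eq_of_pow_eq` : `k` of characteristic `q`, `κ` a `k`-algebra of dimension `q ^ j`,
  `y ^ (q ^ j) = c ∈ k`  ⟹  `Nm_{κ/k}(y) = c` (purely inseparable residue extension).
* `h99s_norm_mod_of_dedekind_of_sub_mem` : in the setting of `h99s_norm_mod_of_dedekind`, if
  `u ≡ r i mod Q i` with `r i ∈ R`, then `Nm_{S/R}(u) ≡ ∏ i, r i ^ (e i * f i) mod p`.
-/

set_option autoImplicit false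
set_option linter.unusedSectionVars false
set_option linter.style.haveILetI false

open Module

namespace Fermat.Agent.S36

section Insep

variable {k : Type*} [Field k] {κ : Type*} [CommRing κ] [Algebra k κ]

/-- **norm for a purely inseparable extension**: if `k` has characteristic `q`,
`dim_k κ = q ^ j` and `y ^ (q ^ j) = c ∈ k`, then `Nm_{κ/k}(y) = c`. -/
theorem h99s_norm_eq_of_pow_eq (q : ℕ) [hq : Fact q.Prime] [CharP k q] (j : ℕ)
    (hfr : finrank k κ = q ^ j) (y : κ) (c : k) (hy : y ^ (q ^ j) = algebraMap k κ c) :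
    Algebra.norm k y = c := by
  have h1 : (Algebra.norm k y) ^ (q ^ j) = c ^ (q ^ j) := by
    rw [← map_pow, hy, Algebra.norm_algebraMap, hfr]
  have hinj : Function.Injective (fun x : k => x ^ (q ^ j)) := by
    have := (frobenius_inj k q).iterate j
    intro a b hab
    apply this
    simpa [iterate_frobenius] using hab
  exact hinj h1

end Insep

section DegreeOne

open IsLocalRing

attribute [local instance] Ideal.Quotient.field

variable {R S : Type*} [CommRing R] [CommRing S] [Algebra R S] [IsLocalRing R]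
  [Module.Free R S] [Module.Finite R S]

/-- **NORM LEMMA, rational residues.**  If moreover `u ≡ r i mod Q i` with `r i ∈ R`, then
`Nm_{S/R}(u) ≡ ∏ i, r i ^ (e i * f i) mod p`, `f i = [S/Q i : R/p]`. -/
theorem h99s_norm_mod_of_dedekind_of_sub_mem [IsDedekindDomain S] {ι : Type*} [Fintype ι]
    (Q : ι → Ideal S)
    [hQmax : ∀ i, (Q i).IsMaximal] [hQlo : ∀ i, (Q i).LiesOver (maximalIdeal R)]
    (hQ : Function.Injective Q) (hQ0 : ∀ i, Q i ≠ ⊥) (e : ι → ℕ)
    (hfac : (maximalIdeal R).map (algebraMap R S) = ⨅ i, Q i ^ e i) (u : S) (r : ι → R)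
    (hr : ∀ i, u - algebraMap R S (r i) ∈ Q i) :
    Algebra.norm R u - ∏ i, r i ^ (e i * finrank (R ⧸ maximalIdeal R) (S ⧸ Q i)) ∈
      maximalIdeal R := by
  rw [← Ideal.Quotient.eq, h99s_norm_mod_of_dedekind Q hQ hQ0 e hfac u, map_prod]
  refine Finset.prod_congr rfl (fun i _ => ?_)
  have h1 : Ideal.Quotient.mk (Q i) u =
      algebraMap (R ⧸ maximalIdeal R) (S ⧸ Q i) (Ideal.Quotient.mk (maximalIdeal R) (r i)) := by
    rw [Ideal.Quotient.algebraMap_mk_of_liesOver]
    exact (Ideal.Quotient.mk_eq_mk_iff_sub_mem _ _).mpr (hr i)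
  rw [h1, Algebra.norm_algebraMap, map_pow, ← pow_mul, mul_comm]

end DegreeOne

end Fermat.Agent.S36
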