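import Mathlib

/-!
# S36, block (N) (helper99): reduction of a norm modulo a prime — abstract algebra, Mathlib only

The norm of an element of a finite free algebra, reduced modulo a maximal ideal, is the product of
the norms of its residues, with multiplicities (`Nm(u) mod p = ∏ Nm_{κ(Q)/κ(p)}(u mod Q) ^ e(Q)`).

## Layer 1 : modules over an algebra over a field

`k` a field, `B` a commutative `k`-algebra, `Q` a maximal ideal of `B`, `M` a `B`-module of finite
`k`-dimension killed by a power of `Q`.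

* `h99s_mulEnd M u` : multiplication by `u : B` on `M`, as a `k`-linear endomorphism.
* `h99s_det_mulEnd` : `det_k (u | M) = Nm_{(B/Q)/k} (u mod Q) ^ d` and
  `dim_k M = d * dim_k (B/Q)` for some `d`.
* `h99s_det_mulEnd_of_finrank` : the same for every `d` with `dim_k M = d * dim_k (B/Q)`.

## Layer 2 : finite-dimensional algebras

* `h99s_det_mulEnd_iInf` : `det_k (u | B ⧸ ⨅ i ∈ s, I i) = ∏ i ∈ s, det_k (u | B ⧸ I i)` for
  pairwise coprime ideals.
* `h99s_norm_eq_prod_of_iInf` : if `⨅ i, 𝔮 i ^ e i = ⊥` for pairwise distinct maximal ideals `𝔮 i`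
  then `Nm_{B/k} u = ∏ i, Nm_{(B/𝔮 i)/k} (u mod 𝔮 i) ^ d i`, where
  `dim_k (B ⧸ 𝔮 i ^ e i) = d i * dim_k (B ⧸ 𝔮 i)`.

## Layer 3 : dimension of `B ⧸ 𝔮 ^ e`

* `h99s_finrank_quot_pow_succ`, `h99s_finrank_quot_pow` : `dim_k (B ⧸ 𝔮 ^ e) = e * dim_k (B ⧸ 𝔮)` if
  each `𝔮 ^ j / 𝔮 ^ (j+1)`, `j < e`, is generated by one element with annihilator `𝔮`.

## Layer 4 : local base ring, Dedekind extension

* `h99s_norm_quotient_mk` : `Nm_{(S/pS)/(R/p)} (x mod pS) = Nm_{S/R} (x) mod p`.
* `h99s_norm_mod_of_dedekind` : **the norm lemma**: `R` local with maximal ideal `p`, `S` a finite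
  free `R`-algebra and a Dedekind domain, `p S = ⨅ i, Q i ^ e i` with pairwise distinct nonzero
  maximal ideals `Q i` over `p`:
  `Nm_{S/R}(u) mod p = ∏ i, Nm_{(S/Q i)/(R/p)} (u mod Q i) ^ e i`.
-/

set_option autoImplicit false
set_option linter.unusedSectionVars false
set_option linter.style.haveILetI false

open Module

namespace Fermat.Agent.S36

universe uk uB v v'

section Layer1

variable {k : Type uk} [Field k] {B : Type uB} [CommRing B] [Algebra k B]

/-- multiplication by `u : B` on a `B`-module `M`, as a `k`-linear endomorphism. -/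
noncomputable abbrev h99s_mulEnd (M : Type v) [AddCommGroup M] [Module B M] [Module k M]
    [IsScalarTower k B M] (u : B) : M →ₗ[k] M :=
  Algebra.lsmul k k M u

/-- in a module killed by a power of `Q`, every nonzero element has a nonzero multiple killed by
`Q`. -/
theorem h99s_exists_socle (Q : Ideal B) {M : Type v} [AddCommGroup M] [Module B M] :
    ∀ (n : ℕ) (x : M), x ≠ 0 → (∀ b ∈ Q ^ n, b • x = 0) →
      ∃ v : M, v ≠ 0 ∧ ∀ a ∈ Q, a • v = 0 := by
  intro n
  induction n with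
  | zero =>
    intro x hx h
    exact absurd (by simpa using h 1 (by simp)) hx
  | succ n ih =>
    intro x hx h
    by_cases hq : ∀ a ∈ Q, a • x = 0
    · exact ⟨x, hx, hq⟩
    · simp only [not_forall] at hq
      obtain ⟨a, ha, hax⟩ := hq
      refine ih (a • x) hax (fun b hb => ?_)
      rw [smul_smul]
      exact h _ (by rw [pow_succ]; exact Ideal.mul_mem_mul hb ha)

/-- **the determinant of a multiplication on a `Q`-primary module.**  `M` a `B`-module of finite
dimension over `k`, killed by `Q ^ n`, `Q` maximal.  Then `dim_k M = d * dim_k (B ⧸ Q)` and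
`det_k (u | M) = Nm_{(B/Q)/k} (u mod Q) ^ d`. -/
theorem h99s_det_mulEnd (Q : Ideal B) [hQ : Q.IsMaximal] (u : B) (n : ℕ) :
    ∀ (m : ℕ) (M : Type v) [AddCommGroup M] [Module B M] [Module k M] [IsScalarTower k B M]
      [Module.Finite k M], finrank k M = m → (∀ b ∈ Q ^ n, ∀ x : M, b • x = 0) →
      ∃ d : ℕ, finrank k M = d * finrank k (B ⧸ Q) ∧
        LinearMap.det (h99s_mulEnd (k := k) M u) =
          (Algebra.norm k (Ideal.Quotient.mk Q u)) ^ d := by
  intro m
  induction m using Nat.strong_induction_on with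
  | _ m ih =>
    intro M _ _ _ _ _ hm hn
    by_cases hM : Subsingleton M
    · refine ⟨0, ?_, ?_⟩
      · rw [zero_mul]; exact Module.finrank_zero_of_subsingleton
      · rw [pow_zero]; exact LinearMap.det_eq_one_of_subsingleton _
    · rw [not_subsingleton_iff_nontrivial] at hM
      obtain ⟨x, hx⟩ := exists_ne (0 : M)
      obtain ⟨v, hv, hQv⟩ := h99s_exists_socle Q n x hx (fun b hb => hn b hb x)
      set f : B →ₗ[B] M := LinearMap.toSpanSingleton B M v with hf
      have hker : LinearMap.ker f = Q := by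
        symm
        apply hQ.eq_of_le
        · intro h
          have : (1 : B) ∈ LinearMap.ker f := h ▸ Submodule.mem_top
          rw [LinearMap.mem_ker, LinearMap.toSpanSingleton_apply, one_smul] at this
          exact hv this
        · intro a ha
          rw [LinearMap.mem_ker, LinearMap.toSpanSingleton_apply]
          exact hQv a ha
      set N : Submodule B M := LinearMap.range f with hN
      let e₁ : (B ⧸ Q) ≃ₗ[B] N :=
        (Submodule.quotEquivOfEq _ _ hker.symm).trans f.quotKerEquivRange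
      let W : Submodule k M := N.restrictScalars k
      let e₁k : (B ⧸ Q) ≃ₗ[k] W := e₁.restrictScalars k
      have he : W ≤ W.comap (h99s_mulEnd (k := k) M u) := by
        intro w hw
        exact N.smul_mem u hw
      have hdet := LinearMap.det_eq_det_mul_det W (h99s_mulEnd (k := k) M u) he
      -- the restriction
      have h1 : LinearMap.det ((h99s_mulEnd (k := k) M u).restrict he) =
          Algebra.norm k (Ideal.Quotient.mk Q u) := by
        rw [Algebra.norm_apply, ← LinearMap.det_conj _ e₁k]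
        congr 1
        ext w
        obtain ⟨y, rfl⟩ := e₁k.surjective w
        simp only [LinearMap.coe_comp, LinearEquiv.coe_coe, Function.comp_apply,
          LinearEquiv.symm_apply_apply]
        have h2 : (Ideal.Quotient.mk Q u) * y = u • y := by
          rw [Algebra.smul_def, Ideal.Quotient.algebraMap_eq]
        change u • ((e₁ y : N) : M) = ((e₁ ((Ideal.Quotient.mk Q u) * y) : N) : M)
        rw [h2, map_smul]
        rfl
      -- the quotient
      let e₂ : (M ⧸ W) ≃ₗ[k] (M ⧸ N) := Submodule.Quotient.restrictScalarsEquiv k N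
      have h3 : LinearMap.det (W.mapQ W (h99s_mulEnd (k := k) M u) he) =
          LinearMap.det (h99s_mulEnd (k := k) (M ⧸ N) u) := by
        rw [← LinearMap.det_conj _ e₂.symm]
        congr 1
        ext w
        rfl
      have hfr : finrank k (M ⧸ N) + finrank k N = finrank k M := by
        have := Submodule.finrank_quotient_add_finrank (R := k) W
        rw [e₂.finrank_eq] at this
        exact this
      have hNQ : finrank k N = finrank k (B ⧸ Q) := e₁k.finrank_eq.symm
      have : Module.Finite k (B ⧸ Q) := Module.Finite.equiv e₁k.symm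
      have hpos : 0 < finrank k (B ⧸ Q) := Module.finrank_pos
      have hlt : finrank k (M ⧸ N) < m := by omega
      have hn' : ∀ b ∈ Q ^ n, ∀ x : M ⧸ N, b • x = 0 := by
        intro b hb x
        obtain ⟨x, rfl⟩ := Submodule.Quotient.mk_surjective _ x
        rw [← Submodule.Quotient.mk_smul, hn b hb x, Submodule.Quotient.mk_zero]
      obtain ⟨d, hd1, hd2⟩ := ih _ hlt (M ⧸ N) rfl hn'
      refine ⟨d + 1, ?_, ?_⟩
      · rw [← hfr, hd1, hNQ]; ring
      · rw [hdet, h1, h3, hd2, pow_succ, mul_comm]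

/-- **the determinant of a multiplication on a `Q`-primary module**, with a prescribed exponent:
for every `d` with `dim_k M = d * dim_k (B ⧸ Q)`, `det_k (u | M) = Nm_{(B/Q)/k} (u mod Q) ^ d`. -/
theorem h99s_det_mulEnd_of_finrank (Q : Ideal B) [hQ : Q.IsMaximal] (u : B) (n : ℕ)
    (M : Type v) [AddCommGroup M] [Module B M] [Module k M] [IsScalarTower k B M]
    [Module.Finite k M] (hn : ∀ b ∈ Q ^ n, ∀ x : M, b • x = 0) (d : ℕ)
    (hd : finrank k M = d * finrank k (B ⧸ Q)) :
    LinearMap.det (h99s_mulEnd (k := k) M u) =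
      (Algebra.norm k (Ideal.Quotient.mk Q u)) ^ d := by
  obtain ⟨d', hd', hdet⟩ := h99s_det_mulEnd (k := k) Q u n _ M rfl hn
  rcases Nat.eq_zero_or_pos (finrank k (B ⧸ Q)) with h0 | hpos
  · -- `B ⧸ Q` is not finite over `k`, so its norm is trivial; and `M = 0`
    have hfin : ¬ Module.Finite k (B ⧸ Q) := by
      intro h
      have : 0 < finrank k (B ⧸ Q) := Module.finrank_pos
      omega
    rw [hdet, Algebra.norm_eq_one_of_not_module_finite hfin, one_pow, one_pow]
  · have : d = d' := by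
      have h := hd.symm.trans hd'
      exact Nat.eq_of_mul_eq_mul_right hpos h
    rw [this, hdet]

theorem h99s_det_mulEnd_congr {M : Type v} {M' : Type v'} [AddCommGroup M] [Module B M]
    [Module k M] [IsScalarTower k B M] [AddCommGroup M'] [Module B M'] [Module k M']
    [IsScalarTower k B M'] (e : M ≃ₗ[B] M') (u : B) :
    LinearMap.det (h99s_mulEnd (k := k) M u) = LinearMap.det (h99s_mulEnd (k := k) M' u) := by
  rw [← LinearMap.det_conj (h99s_mulEnd (k := k) M u) (e.restrictScalars k)]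
  congr 1
  ext x
  simp

theorem h99s_det_mulEnd_prod (M : Type v) (M' : Type v') [AddCommGroup M] [Module B M]
    [Module k M] [IsScalarTower k B M] [AddCommGroup M'] [Module B M'] [Module k M']
    [IsScalarTower k B M'] [Module.Finite k M] [Module.Finite k M'] (u : B) :
    LinearMap.det (h99s_mulEnd (k := k) (M × M') u) =
      LinearMap.det (h99s_mulEnd (k := k) M u) * LinearMap.det (h99s_mulEnd (k := k) M' u) := by
  rw [← LinearMap.det_prodMap]
  congr 1

theorem h99s_det_mulEnd_quot_congr {I I' : Ideal B} (h : I = I') (u : B) :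
    LinearMap.det (h99s_mulEnd (k := k) (B ⧸ I) u) =
      LinearMap.det (h99s_mulEnd (k := k) (B ⧸ I') u) := by
  subst h; rfl

end Layer1

section Layer2

variable {k : Type uk} [Field k] {B : Type uB} [CommRing B] [Algebra k B]

/-- the Chinese remainder theorem for two coprime ideals, as a `B`-linear equivalence. -/
noncomputable def h99s_crt2 (I J : Ideal B) (h : IsCoprime I J) :
    (B ⧸ I ⊓ J) ≃ₗ[B] (B ⧸ I) × (B ⧸ J) :=
  { (Ideal.quotientInfEquivQuotientProd I J h).toAddEquiv with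
    map_smul' := fun b x => by
      obtain ⟨x, rfl⟩ := Ideal.Quotient.mk_surjective x
      rfl }

/-- the determinant of a multiplication on `B ⧸ ⨅ I i`, for pairwise coprime ideals. -/
theorem h99s_det_mulEnd_iInf [Module.Finite k B] {ι : Type*} (s : Finset ι) (I : ι → Ideal B)
    (hI : (s : Set ι).Pairwise (Function.onFun IsCoprime I)) (u : B) :
    LinearMap.det (h99s_mulEnd (k := k) (B ⧸ ⨅ i ∈ s, I i) u) =
      ∏ i ∈ s, LinearMap.det (h99s_mulEnd (k := k) (B ⧸ I i) u) := by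
  classical
  induction s using Finset.induction_on with
  | empty =>
    rw [Finset.prod_empty]
    have : Subsingleton (B ⧸ ⨅ i ∈ (∅ : Finset ι), I i) := by
      rw [Ideal.Quotient.subsingleton_iff]; simp
    exact LinearMap.det_eq_one_of_subsingleton _
  | insert a t hat ih =>
    rw [Finset.prod_insert hat, h99s_det_mulEnd_quot_congr (Finset.iInf_insert a t I) u]
    have hcop : IsCoprime (I a) (⨅ i ∈ t, I i) := by
      apply Ideal.isCoprime_biInf
      intro j hj
      exact hI (by simp) (by simp [hj]) (fun h => hat (h ▸ hj))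
    rw [h99s_det_mulEnd_congr (h99s_crt2 (I a) (⨅ i ∈ t, I i) hcop) u, h99s_det_mulEnd_prod,
      ih (hI.mono (by simp))]

/-- **the norm on a finite-dimensional algebra**: if `⨅ i, 𝔮 i ^ e i = ⊥` for pairwise distinct
maximal ideals `𝔮 i`, then `Nm_{B/k} u = ∏ i, Nm_{(B/𝔮 i)/k} (u mod 𝔮 i) ^ d i`, where
`dim_k (B ⧸ 𝔮 i ^ e i) = d i * dim_k (B ⧸ 𝔮 i)`. -/
theorem h99s_norm_eq_prod_of_iInf [Module.Finite k B] {ι : Type*} [Fintype ι]
    (𝔮 : ι → Ideal B) [h𝔮max : ∀ i, (𝔮 i).IsMaximal] (h𝔮 : Function.Injective 𝔮) (e d : ι → ℕ)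
    (hinf : ⨅ i, 𝔮 i ^ e i = ⊥)
    (hd : ∀ i, finrank k (B ⧸ 𝔮 i ^ e i) = d i * finrank k (B ⧸ 𝔮 i)) (u : B) :
    Algebra.norm k u = ∏ i, (Algebra.norm k (Ideal.Quotient.mk (𝔮 i) u)) ^ d i := by
  classical
  have h0 : Algebra.norm k u = LinearMap.det (h99s_mulEnd (k := k) B u) := by
    rw [Algebra.norm_apply]
    congr 1
  have h1 : (⊥ : Ideal B) = ⨅ i ∈ (Finset.univ : Finset ι), 𝔮 i ^ e i := by
    rw [← hinf]; simp
  have hcop : ((Finset.univ : Finset ι) : Set ι).Pairwise
      (Function.onFun IsCoprime (fun i => 𝔮 i ^ e i)) := by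
    intro i _ j _ hij
    have : IsCoprime (𝔮 i) (𝔮 j) :=
      Ideal.isCoprime_of_isMaximal (fun h => hij (h𝔮 h))
    exact this.pow
  rw [h0, h99s_det_mulEnd_congr (Submodule.quotEquivOfEqBot (⊥ : Ideal B) rfl).symm u,
    h99s_det_mulEnd_quot_congr h1 u, h99s_det_mulEnd_iInf _ _ hcop u]
  refine Finset.prod_congr rfl (fun i _ => ?_)
  refine h99s_det_mulEnd_of_finrank (𝔮 i) u (e i) _ ?_ (d i) (hd i)
  intro b hb x
  obtain ⟨x, rfl⟩ := Ideal.Quotient.mk_surjective x
  rw [Algebra.smul_def, Ideal.Quotient.algebraMap_eq, ← map_mul]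
  exact Ideal.Quotient.eq_zero_iff_mem.mpr (Ideal.mul_mem_right _ _ hb)

end Layer2

section Layer3

variable {k : Type uk} [Field k] {B : Type uB} [CommRing B] [Algebra k B]

/-- **dimension step**: if `𝔮 ^ j / 𝔮 ^ (j+1)` is generated by one element `a` with annihilator
`𝔮`, then `dim (B ⧸ 𝔮 ^ (j+1)) = dim (B ⧸ 𝔮 ^ j) + dim (B ⧸ 𝔮)`. -/
theorem h99s_finrank_quot_pow_succ [Module.Finite k B] (𝔮 : Ideal B) (j : ℕ) (a : B)
    (ha : a ∈ 𝔮 ^ j) (hsurj : ∀ y ∈ 𝔮 ^ j, ∃ x, y - a * x ∈ 𝔮 ^ (j + 1))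
    (hinj : ∀ x, a * x ∈ 𝔮 ^ (j + 1) → x ∈ 𝔮) :
    finrank k (B ⧸ 𝔮 ^ (j + 1)) = finrank k (B ⧸ 𝔮 ^ j) + finrank k (B ⧸ 𝔮) := by
  have hle : 𝔮 ^ (j + 1) ≤ 𝔮 ^ j := Ideal.pow_le_pow_right (Nat.le_succ j)
  let ψ : (B ⧸ 𝔮 ^ (j + 1)) →ₗ[k] (B ⧸ 𝔮 ^ j) := (Ideal.Quotient.factorₐ k hle).toLinearMap
  have hψ : Function.Surjective ψ := Ideal.Quotient.factor_surjective hle
  have hmap : 𝔮 ≤ Submodule.comap (LinearMap.mulLeft B a) (𝔮 ^ (j + 1)) := by
    intro x hx
    show a * x ∈ 𝔮 ^ (j + 1)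
    rw [pow_succ]
    exact Ideal.mul_mem_mul ha hx
  let φB : (B ⧸ 𝔮) →ₗ[B] (B ⧸ 𝔮 ^ (j + 1)) :=
    Submodule.mapQ 𝔮 (𝔮 ^ (j + 1)) (LinearMap.mulLeft B a) hmap
  let φ : (B ⧸ 𝔮) →ₗ[k] (B ⧸ 𝔮 ^ (j + 1)) := φB.restrictScalars k
  have hφmk : ∀ x : B, φ (Ideal.Quotient.mk 𝔮 x) = Ideal.Quotient.mk (𝔮 ^ (j + 1)) (a * x) :=
    fun x => rfl
  have hφ : Function.Injective φ := by
    rw [injective_iff_map_eq_zero]
    intro x hx
    obtain ⟨x, rfl⟩ := Ideal.Quotient.mk_surjective x
    rw [hφmk, Ideal.Quotient.eq_zero_iff_mem] at hx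
    exact Ideal.Quotient.eq_zero_iff_mem.mpr (hinj x hx)
  have hrange : LinearMap.range φ = LinearMap.ker ψ := by
    ext y
    constructor
    · rintro ⟨x, rfl⟩
      obtain ⟨x, rfl⟩ := Ideal.Quotient.mk_surjective x
      rw [hφmk, LinearMap.mem_ker]
      show Ideal.Quotient.factor hle (Ideal.Quotient.mk _ (a * x)) = 0
      rw [Ideal.Quotient.factor_mk, Ideal.Quotient.eq_zero_iff_mem]
      exact Ideal.mul_mem_right _ _ ha
    · intro hy
      obtain ⟨y, rfl⟩ := Ideal.Quotient.mk_surjective y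
      rw [LinearMap.mem_ker] at hy
      have hy' : y ∈ 𝔮 ^ j := by
        have : Ideal.Quotient.factor hle (Ideal.Quotient.mk _ y) = 0 := hy
        rwa [Ideal.Quotient.factor_mk, Ideal.Quotient.eq_zero_iff_mem] at this
      obtain ⟨x, hx⟩ := hsurj y hy'
      refine ⟨Ideal.Quotient.mk 𝔮 x, ?_⟩
      rw [hφmk]
      exact ((Ideal.Quotient.mk_eq_mk_iff_sub_mem _ _).mpr hx).symm
  have h1 := LinearMap.finrank_range_add_finrank_ker ψ
  rw [← hrange, LinearMap.finrank_range_of_inj hφ, LinearMap.range_eq_top.mpr hψ,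
    finrank_top] at h1
  exact h1.symm

/-- **dimension of `B ⧸ 𝔮 ^ e`**: if for every `j < e` the quotient `𝔮 ^ j / 𝔮 ^ (j+1)` is generated
by one element with annihilator `𝔮`, then `dim (B ⧸ 𝔮 ^ e) = e * dim (B ⧸ 𝔮)`. -/
theorem h99s_finrank_quot_pow [Module.Finite k B] (𝔮 : Ideal B) (e : ℕ)
    (hstep : ∀ j < e, ∃ a ∈ 𝔮 ^ j, (∀ y ∈ 𝔮 ^ j, ∃ x, y - a * x ∈ 𝔮 ^ (j + 1)) ∧
      ∀ x, a * x ∈ 𝔮 ^ (j + 1) → x ∈ 𝔮) :
    finrank k (B ⧸ 𝔮 ^ e) = e * finrank k (B ⧸ 𝔮) := by
  induction e with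
  | zero =>
    have : Subsingleton (B ⧸ 𝔮 ^ 0) := by
      rw [Ideal.Quotient.subsingleton_iff]; simp
    rw [zero_mul]
    exact Module.finrank_zero_of_subsingleton
  | succ e ih =>
    obtain ⟨a, ha, h1, h2⟩ := hstep e (Nat.lt_succ_self e)
    rw [h99s_finrank_quot_pow_succ 𝔮 e a ha h1 h2,
      ih (fun j hj => hstep j (Nat.lt_succ_of_lt hj))]
    ring

end Layer3

section Layer4

open IsLocalRing

attribute [local instance] Ideal.Quotient.field

variable {R S : Type*} [CommRing R] [CommRing S] [Algebra R S] [IsLocalRing R]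
  [Module.Free R S] [Module.Finite R S]

theorem h99s_finite_quot :
    Module.Finite (R ⧸ maximalIdeal R) (S ⧸ (maximalIdeal R).map (algebraMap R S)) :=
  Module.Finite.of_basis (basisQuotient (Module.Free.chooseBasis R S))

/-- **the norm commutes with reduction modulo the maximal ideal.** -/
theorem h99s_norm_quotient_mk (x : S) :
    Algebra.norm (R ⧸ maximalIdeal R)
        (Ideal.Quotient.mk ((maximalIdeal R).map (algebraMap R S)) x) =
      Ideal.Quotient.mk (maximalIdeal R) (Algebra.norm R x) := by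
  classical
  let ι := Module.Free.ChooseBasisIndex R S
  let b : Module.Basis ι R S := Module.Free.chooseBasis R S
  rw [Algebra.norm_eq_matrix_det b, Algebra.norm_eq_matrix_det (basisQuotient b),
    RingHom.map_det]
  congr 1
  ext i j
  simp only [Algebra.leftMulMatrix_apply, Algebra.coe_lmul_eq_mul, LinearMap.toMatrix_apply,
    basisQuotient_apply, LinearMap.mul_apply', RingHom.mapMatrix_apply, Matrix.map_apply,
    ← map_mul, basisQuotient_repr]

/-- membership in the image of an ideal containing `pS`. -/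
theorem h99s_mem_map_mk_iff {I J : Ideal S} (h : I ≤ J) (x : S) :
    Ideal.Quotient.mk I x ∈ J.map (Ideal.Quotient.mk I) ↔ x ∈ J := by
  rw [Ideal.mem_quotient_iff_mem_sup, sup_eq_left.mpr h]

/-- **NORM LEMMA, Dedekind form.**  `R` a local ring with maximal ideal `p`, `S` a finite free
`R`-algebra which is a Dedekind domain, `Q i` pairwise distinct nonzero maximal ideals of `S` over
`p` with `p S = ⨅ i, Q i ^ e i`.  Then for every `u : S`
`Nm_{S/R}(u) mod p = ∏ i, Nm_{(S/Q i)/(R/p)} (u mod Q i) ^ e i`. -/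
theorem h99s_norm_mod_of_dedekind [IsDedekindDomain S] {ι : Type*} [Fintype ι] (Q : ι → Ideal S)
    [hQmax : ∀ i, (Q i).IsMaximal] [hQlo : ∀ i, (Q i).LiesOver (maximalIdeal R)]
    (hQ : Function.Injective Q) (hQ0 : ∀ i, Q i ≠ ⊥) (e : ι → ℕ)
    (hfac : (maximalIdeal R).map (algebraMap R S) = ⨅ i, Q i ^ e i) (u : S) :
    Ideal.Quotient.mk (maximalIdeal R) (Algebra.norm R u) =
      ∏ i, (Algebra.norm (R ⧸ maximalIdeal R) (Ideal.Quotient.mk (Q i) u)) ^ e i := by
  classical
  set pS : Ideal S := (maximalIdeal R).map (algebraMap R S) with hpS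
  have hpQ : ∀ i, pS ≤ Q i ^ e i := fun i => by rw [hfac]; exact iInf_le _ i
  have hpQ1 : ∀ i, pS ≤ Q i := fun i => by
    rw [hpS, Ideal.map_le_iff_le_comap]
    exact ((hQlo i).over).le
  haveI : Module.Finite (R ⧸ maximalIdeal R) (S ⧸ pS) := h99s_finite_quot
  let 𝔮 : ι → Ideal (S ⧸ pS) := fun i => (Q i).map (Ideal.Quotient.mk pS)
  have hmem : ∀ i (x : S), Ideal.Quotient.mk pS x ∈ 𝔮 i ↔ x ∈ Q i :=
    fun i x => h99s_mem_map_mk_iff (hpQ1 i) x
  have hpow : ∀ i (n : ℕ), 𝔮 i ^ n = (Q i ^ n).map (Ideal.Quotient.mk pS) :=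
    fun i n => (Ideal.map_pow _ _ _).symm
  have hmempow : ∀ i (n : ℕ), n ≤ e i → ∀ x : S,
      Ideal.Quotient.mk pS x ∈ 𝔮 i ^ n ↔ x ∈ Q i ^ n := by
    intro i n hn x
    rw [hpow]
    exact h99s_mem_map_mk_iff ((hpQ i).trans (Ideal.pow_le_pow_right hn)) x
  haveI h𝔮max : ∀ i, (𝔮 i).IsMaximal := by
    intro i
    rcases Ideal.map_eq_top_or_isMaximal_of_surjective (Ideal.Quotient.mk pS)
      Ideal.Quotient.mk_surjective (hQmax i) with h | h
    · exfalso
      have h1 : Ideal.Quotient.mk pS (1 : S) ∈ 𝔮 i := by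
        show _ ∈ (Q i).map (Ideal.Quotient.mk pS)
        rw [h]; exact Submodule.mem_top
      exact (hQmax i).ne_top ((Ideal.eq_top_iff_one _).mpr ((hmem i 1).mp h1))
    · exact h
  have h𝔮inj : Function.Injective 𝔮 := by
    intro i j hij
    apply hQ
    ext x
    rw [← hmem i x, ← hmem j x, hij]
  have hinf : ⨅ i, 𝔮 i ^ e i = ⊥ := by
    rw [eq_bot_iff]
    intro y hy
    obtain ⟨x, rfl⟩ := Ideal.Quotient.mk_surjective y
    rw [Ideal.mem_iInf] at hy
    have hx : x ∈ pS := by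
      rw [hfac, Ideal.mem_iInf]
      exact fun i => (hmempow i (e i) le_rfl x).mp (hy i)
    exact (Ideal.mem_bot).mpr (Ideal.Quotient.eq_zero_iff_mem.mpr hx)
  have hd : ∀ i, finrank (R ⧸ maximalIdeal R) ((S ⧸ pS) ⧸ 𝔮 i ^ e i) =
      e i * finrank (R ⧸ maximalIdeal R) ((S ⧸ pS) ⧸ 𝔮 i) := by
    intro i
    apply h99s_finrank_quot_pow
    intro j hj
    obtain ⟨a, ha1, ha2⟩ := SetLike.exists_of_lt (Ideal.pow_succ_lt_pow (hQ0 i) j)
    refine ⟨Ideal.Quotient.mk pS a, (hmempow i j hj.le a).mpr ha1, ?_, ?_⟩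
    · intro y hy
      obtain ⟨y, rfl⟩ := Ideal.Quotient.mk_surjective y
      have hy' := (hmempow i j hj.le y).mp hy
      obtain ⟨d, c, hc, hdc⟩ := Ideal.exists_mul_add_mem_pow_succ (hQ0 i) a y ha1 ha2 hy'
      refine ⟨Ideal.Quotient.mk pS d, ?_⟩
      rw [← map_mul, ← map_sub, hmempow i (j + 1) hj]
      have : y - a * d = c := by rw [← hdc]; ring
      rw [this]; exact hc
    · intro x hx
      obtain ⟨x, rfl⟩ := Ideal.Quotient.mk_surjective x
      rw [← map_mul, hmempow i (j + 1) hj] at hx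
      rw [hmem]
      rcases Ideal.IsPrime.mem_pow_mul (Q i) hx with h | h
      · exact absurd h ha2
      · exact h
  rw [← h99s_norm_quotient_mk, h99s_norm_eq_prod_of_iInf 𝔮 h𝔮inj e e hinf hd]
  refine Finset.prod_congr rfl (fun i _ => ?_)
  congr 1
  let e₂ : ((S ⧸ pS) ⧸ 𝔮 i) ≃+* (S ⧸ Q i) := DoubleQuot.quotQuotEquivQuotOfLE (hpQ1 i)
  have hcomm : (algebraMap (R ⧸ maximalIdeal R) (S ⧸ Q i)).comp
      (RingEquiv.refl (R ⧸ maximalIdeal R) : (R ⧸ maximalIdeal R) →+* (R ⧸ maximalIdeal R)) =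
      (e₂ : ((S ⧸ pS) ⧸ 𝔮 i) →+* (S ⧸ Q i)).comp
        (algebraMap (R ⧸ maximalIdeal R) ((S ⧸ pS) ⧸ 𝔮 i)) := by
    apply Ideal.Quotient.ringHom_ext
    ext r
    rfl
  have := Algebra.norm_eq_of_equiv_equiv (RingEquiv.refl (R ⧸ maximalIdeal R)) e₂ hcomm
    (Ideal.Quotient.mk (𝔮 i) (Ideal.Quotient.mk pS u))
  rw [this]
  rfl

end Layer4

end Fermat.Agent.S36
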