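import Fermat.Agent.S36.Skeleton
import Fermat.Agent.S35.H87NewQuartic

/-!
# S36, row INV-ASM (helper37): `InertiaNewAssembly`

From GEOM36 (`InertiaNewTorsion`), HECKE-a (`PushHeckeComm`, also for `q ∣ M`), HECKE-c
(`ConvKey`), the commutativity of the Hecke operators on `J₀` and with the Galois action: for
`q² ∥ N`, `q ≠ p` and a Hecke polynomial `P` killing the forms of level `N / q`, the point
`P • x` is killed by a bounded exponent for every `p`-power torsion point `x` of `J₀(N)` fixed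
by the inertia group at `A`.

* `h37u_factorization_two` : `N.factorization q = 2` gives `N = M * q`, `q ∣ M`, `¬ q² ∣ M`.
* `h37u_inertiaNewAssembly : InertiaNewAssembly`.
-/

set_option autoImplicit false

open AlgebraicCurve ModularCurve

namespace Fermat.Agent.S36

open Fermat.Agent.S37 (Kbar GQ FF)
open Fermat.Agent.S35 (pushAlpha pushBeta KillsOld PushHeckeComm ConvKey h87q_push_eval)

/-- `v_q(N) = 2` : `N = M * q` with `q ∥ M`. -/
theorem h37u_factorization_two {N q : ℕ} (hq : q.Prime) (h : N.factorization q = 2) :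
    ∃ M : ℕ, N = M * q ∧ q ∣ M ∧ ¬ q ^ 2 ∣ M := by
  have hN0 : N ≠ 0 := by
    rintro rfl
    simp at h
  have h2 : q ^ 2 ∣ N := (hq.pow_dvd_iff_le_factorization hN0).mpr (le_of_eq h.symm)
  have h3 : ¬ q ^ 3 ∣ N := fun hd => by
    have := (hq.pow_dvd_iff_le_factorization hN0).mp hd
    omega
  obtain ⟨c, hc⟩ := h2
  refine ⟨q * c, by rw [hc]; ring, Dvd.intro c rfl, ?_⟩
  rintro ⟨d, hd⟩
  apply h3
  refine ⟨d, ?_⟩
  have hq0 : 0 < q := hq.pos
  have h4 : c = q * d := by
    have : q * c = q * (q * d) := by rw [hd]; ring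
    exact Nat.eq_of_mul_eq_mul_left hq0 this
  rw [hc, h4]
  ring

/-- **ASM36-A.**  Assembly of `InertiaNewStatement`. -/
theorem h37u_inertiaNewAssembly : InertiaNewAssembly := by
  intro hGeom hPush hConv hComm hHG N p _ hp q hq hqp hfac A hA P hPvars hKill
  obtain ⟨M, hN, hqM, hq2M⟩ := h37u_factorization_two hq hfac
  subst hN
  have : NeZero q := ⟨hq.ne_zero⟩
  have : NeZero M := ⟨fun h0 => by
    have := NeZero.ne (M * q)
    rw [h0, Nat.zero_mul] at this
    exact this rfl⟩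
  have hcN : HeckeOperatorsCommuteBar (M * q) := hComm (M * q)
  have hcM : HeckeOperatorsCommuteBar M := hComm M
  obtain ⟨tc, htc, hconv⟩ := hConv M
  obtain ⟨tg, htg, hgeom⟩ := hGeom M q p hq hqM hq2M hp (Ne.symm hqp) A hA
  refine ⟨tg * tc, Nat.mul_pos htg htc, ?_⟩
  intro k x hx hinv
  -- the good primes
  have hvarsMq : (↑P.vars : Set Nat.Primes) ⊆ {r : Nat.Primes | ¬ (r : ℕ) ∣ M * q} := by
    intro ℓ hℓ hdvd
    exact hPvars ℓ (Finset.mem_coe.1 hℓ) (Dvd.dvd.mul_right hdvd p)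
  have hvarsMp : ∀ ℓ ∈ P.vars, ¬ (ℓ : ℕ) ∣ M * p ^ k := by
    intro ℓ hℓ hdvd
    rcases (Nat.Prime.dvd_mul ℓ.2).1 hdvd with h | h
    · exact hPvars ℓ hℓ (Dvd.dvd.mul_right (Dvd.dvd.mul_right h q) p)
    · exact hPvars ℓ hℓ (Dvd.dvd.mul_left (ℓ.2.dvd_of_dvd_pow h) (M * q))
  have hkill : ((MvPolynomial.aeval (R := ℤ) (Fermat.Agent.S30.heckeTAll M) P :
      CuspForm.heckeAlgebra M 2 (∅ : Set ℕ)) :
      Module.End ℂ (CuspForm (CongruenceSubgroup.Gamma0 M) 2)) = 0 := hKill M rfl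
  have hconv' := hconv (p ^ k) P (pow_pos hp.pos k) hvarsMp hkill
  -- the point `z = P • x`
  rw [heckeModuleBar_smul_def hcN P x]
  set z : JZero (M * q) := heckeEvalBar hcN P x with hz
  have hpz : p ^ k • z = 0 := by
    rw [hz, ← map_nsmul, hx, map_zero]
  -- the two push-forwards kill `tc • z`
  have hpush : ∀ f : JZero (M * q) →+ JZero M,
      (∀ r : Nat.Primes, ¬ (r : ℕ) ∣ M * q → ∀ x : JZero (M * q),
        f (heckeOperatorBar (M * q) r x) = heckeOperatorBar M r (f x)) →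
      f (tc • z) = 0 := by
    intro f hf
    have h1 : f z = heckeEvalBar hcM P (f x) :=
      h87q_push_eval hcN hcM f _ (fun r hr => hf r hr) P hvarsMq x
    have h2 : p ^ k • f x = 0 := by rw [← map_nsmul, hx, map_zero]
    have h3 := hconv' (f x) h2
    rw [heckeModuleBar_smul_def hcM, map_mul, heckeEvalBar_C, Module.End.mul_apply,
      Module.End.intCast_apply, ← h1] at h3
    rw [map_nsmul, ← natCast_zsmul]
    exact h3
  have hα : pushAlpha M q (tc • z) = 0 :=
    hpush (pushAlpha M q) (fun r hr x => (hPush M q hq r hr x).1)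
  have hβ : pushBeta M q (tc • z) = 0 :=
    hpush (pushBeta M q) (fun r hr x => (hPush M q hq r hr x).2)
  -- `z` is fixed by inertia
  have hσn : ∀ (σ : GQ) (n : ℕ) (w : JZero (M * q)), σ • (n • w) = n • (σ • w) := fun σ n w =>
    map_nsmul (DistribSMul.toAddMonoidHom (JZero (M * q)) σ) n w
  have hzinv : ∀ σ ∈ A.inertiaSubgroupIn ℚ, σ • z = z := by
    intro σ hσ
    have h1 : (DistribSMul.toAddMonoidHom (JZero (M * q)) σ) z
        = heckeEvalBar hcN P ((DistribSMul.toAddMonoidHom (JZero (M * q)) σ) x) :=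
      h87q_push_eval hcN hcN (DistribSMul.toAddMonoidHom (JZero (M * q)) σ) Set.univ
        (fun r _ y => ((hHG (M * q)).2 r σ y).symm) P (Set.subset_univ _) x
    have h2 : (DistribSMul.toAddMonoidHom (JZero (M * q)) σ) x = x := hinv σ hσ
    rw [h2] at h1
    exact h1
  have hyinv : ∀ σ ∈ A.inertiaSubgroupIn ℚ, σ • (tc • z) = tc • z := by
    intro σ hσ
    rw [hσn, hzinv σ hσ]
  have hpy : p ^ k • (tc • z) = 0 := by
    rw [← mul_nsmul', Nat.mul_comm (p ^ k) tc, mul_nsmul', hpz, nsmul_zero]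
  have hfin := hgeom k (tc • z) hpy hyinv hα hβ
  rw [mul_nsmul']
  exact hfin

end Fermat.Agent.S36
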