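import Fermat.Agent.S35.Skeleton
import Fermat.Agent.S35.GeomSkeleton
import Fermat.Prelude.Def_GaloisRep_LocalConditions

/-!
# S36 (Carayol: `q² ∥ M` ⟹ not unipotent on inertia at `q`): frozen interface skeleton

Architect: helper37.  Every declaration is a definition or a frozen interface `Prop`; nothing is
assumed.  Board: table `s36_tasks`; blueprint: findings stmt='S36' kind='blueprint'.

## The route (no `hres`, no `lam ≠ 2`)

Let `g` be a newform of level `N`, `q² ∥ N`, `q ≠ p`, `N = M * q`, `M = M' * q`, `q ∤ M'`,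
`A` a valuation subring of `ℚ̄` over `q`, `I = I_A` its inertia group.

* GEOM36 (`InertiaNewTorsion`): the `p`-power torsion points of `J₀(M q)` which are fixed by `I`
  and killed by both push-forwards `α_*, β_* : J₀(M q) → J₀(M)` are killed by a bounded `t`.
  Function form at the good levels: `InertiaGate`.
* HECKE: `PushHeckeComm M q` for `q ∣ M` (landed: `h41g_pushHeckeComm`), `ConvKey` (landed),
  `OldKillAllStatement` (= `OldKillStatement` without `¬ q² ∣ N`).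
* `InertiaNewStatement` (INV-NEW): for a Hecke polynomial `P` killing `S₂(Γ₀(N / q))`, the points
  `P • x`, `x` fixed by `I`, `p ^ k • x = 0`, are killed by a bounded `t`.
* ALG36: on the eigenlattice `Λ` of `χ_g` there is no nonzero `I`-fixed vector; the
  representation `ρ'` of S30 (`QuadRepOdd`) has `charpoly ρ'(σ) = X² - b(σ) X + d(σ)` where
  `ρ_Λ(σ)² - b(σ) ρ_Λ(σ) + d(σ) = 0`; if `ρ'` were unipotent on `I` then `(ρ_Λ(σ) - 1)² = 0` for
  all `σ ∈ I`, hence (`N_σ N_τ N_υ = 0`, Kolchin) `Λ` has a nonzero `I`-fixed vector.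
-/

set_option autoImplicit false

open AlgebraicCurve ModularCurve Polynomial

noncomputable section

namespace Fermat.Agent.S36

open Fermat.Agent.S37 (Kbar GQ FF cst gal auxLevel)
open Fermat.Agent.S35 (pushAlpha pushBeta KillsOld PushHeckeComm ConvKey)
open Fermat.Agent.S29 (HeckeGaloisCommute)
open Fermat.Agent.S30.PackageAdic (GoodPrime evS)
open Fermat.Agent.Red.HKMod
open Fermat.Agent.Red.KR (normAlong)

/-! ## GEOM36: torsion form -/

/-- **GEOM36 (target).**  For `q ∥ M`, `p ≠ q`: the `p`-power torsion points of `J₀(M q)` which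
are fixed by the inertia group at `A` and lie in the kernel of both push-forwards to `J₀(M)` are
killed by a bounded exponent `t`. -/
def InertiaNewTorsion (M q p : ℕ) [NeZero M] [NeZero q] : Prop :=
  q.Prime → q ∣ M → ¬ q ^ 2 ∣ M → p.Prime → p ≠ q →
    ∀ A : ValuationSubring Kbar, A.LiesOverPrime q →
      ∃ t : ℕ, 0 < t ∧ ∀ (k : ℕ) (x : JZero (M * q)), p ^ k • x = 0 →
        (∀ σ ∈ A.inertiaSubgroupIn ℚ, σ • x = x) →
        pushAlpha M q x = 0 → pushBeta M q x = 0 → t • x = 0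

/-! ## GEOM36: function form -/

/-- **the inertia gate at the good levels** (function form of GEOM36): `q ∤ M`,
`auxLevel q ∣ M`, level `M q²`.  If `m ∣ div u`, the class of `u` is fixed by inertia
(`σ u / u` is an `m`-th power for all `σ ∈ I_A`) and both norms to the level `M q` are `m`-th
powers, then `u ^ t` is an `m`-th power. -/
def InertiaGate : Prop :=
  ∀ (q : ℕ) (hq : q.Prime) (M : ℕ) [NeZero M], ¬ q ∣ M → auxLevel q ∣ M →
    haveI : NeZero q := ⟨hq.ne_zero⟩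
    ∀ A : ValuationSubring Kbar, A.LiesOverPrime q →
    ∃ t : ℕ, 0 < t ∧ ∀ m : ℕ, ¬ q ∣ m → ∀ u : FF (M * q * q), u ≠ 0 →
      (∀ v : Place Kbar (FF (M * q * q)), (m : ℤ) ∣ v.ord u) →
      (∀ σ ∈ A.inertiaSubgroupIn ℚ,
        ∃ h : FF (M * q * q), gal (M * q * q) σ • u = h ^ m * u) →
      (∃ h : FF (M * q), normAlong (heckeAlphaBar Kbar (M * q) q) u = h ^ m) →
      (∃ h : FF (M * q), normAlong (heckeBetaBar Kbar (M * q) q) u = h ^ m) →
        ∃ h : FF (M * q * q), h ^ m = u ^ t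

/-- **the inertia gate at all levels** `M q²`, `q ∤ M`. -/
def InertiaGateAll : Prop :=
  ∀ (q : ℕ) (hq : q.Prime) (M : ℕ) [NeZero M], ¬ q ∣ M →
    haveI : NeZero q := ⟨hq.ne_zero⟩
    ∀ A : ValuationSubring Kbar, A.LiesOverPrime q →
    ∃ t : ℕ, 0 < t ∧ ∀ m : ℕ, ¬ q ∣ m → ∀ u : FF (M * q * q), u ≠ 0 →
      (∀ v : Place Kbar (FF (M * q * q)), (m : ℤ) ∣ v.ord u) →
      (∀ σ ∈ A.inertiaSubgroupIn ℚ,
        ∃ h : FF (M * q * q), gal (M * q * q) σ • u = h ^ m * u) →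
      (∃ h : FF (M * q), normAlong (heckeAlphaBar Kbar (M * q) q) u = h ^ m) →
      (∃ h : FF (M * q), normAlong (heckeBetaBar Kbar (M * q) q) u = h ^ m) →
        ∃ h : FF (M * q * q), h ^ m = u ^ t

/-- **G36-DESC.**  From the good levels to all levels (pull back to the level
`lcm M (auxLevel q) * q * q`, apply the gate, take the norm). -/
def InertiaGateDescent : Prop := InertiaGate → InertiaGateAll

/-- **G36-TORS.**  From functions to divisor classes. -/
def InertiaTorsionOfGate : Prop :=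
  InertiaGateAll → ∀ (M q p : ℕ) [NeZero M] [NeZero q], InertiaNewTorsion M q p

/-! ## HECKE -/

/-- **HECKE-b at all bad primes (OldKillAll).**  For a newform `g` of level `N` and a prime
`q ∣ N` there is a Hecke polynomial `e` (in the `T_r`, `r ∉ S`) with `χ_g(e) ≠ 0` which kills
`S₂(Γ₀(N / q))`.  (`Fermat.Agent.S35.OldKillStatement` without the hypothesis `¬ q² ∣ N`.) -/
def OldKillAllStatement : Prop :=
  ∀ (N : ℕ) [NeZero N] (g : CuspForm (CongruenceSubgroup.Gamma0 N) 2), g.IsNewform →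
    ∀ (S : Finset ℕ) (chig : CuspForm.heckeAlgebra N 2 (↑S : Set ℕ) →+* ℂ),
      (∀ (ℓ : ℕ) (hℓ : ℓ.Prime) (hℓN : ¬ ℓ ∣ N) (hℓS : ℓ ∉ (↑S : Set ℕ)),
        chig (CuspForm.heckeAlgebra.T hℓ hℓN hℓS) = ModularFormClass.qCoeff g ℓ) →
      (∀ q : ℕ, q.Prime → q ∣ N → q ∈ S) →
      ∀ q : ℕ, q.Prime → q ∣ N →
        ∃ e : MvPolynomial (GoodPrime N S) ℤ,
          chig (evS S e) ≠ 0 ∧ KillsOld N q (MvPolynomial.rename Subtype.val e)

/-! ## The interface between geometry and algebra -/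

/-- **INV-NEW (assembled from GEOM36, HECKE-a, HECKE-c).**  For `q² ∥ N`, `q ≠ p` and a Hecke
polynomial `P` (in the `T_ℓ`, `ℓ ∤ N p`) killing `S₂(Γ₀(N / q))`: `P • x` is killed by a bounded
exponent for every `p`-power torsion point `x` of `J₀(N)` fixed by the inertia group at `A`. -/
def InertiaNewStatement (N p : ℕ) [NeZero N] : Prop :=
  ∀ q : ℕ, q.Prime → q ≠ p → N.factorization q = 2 →
    ∀ A : ValuationSubring Kbar, A.LiesOverPrime q →
      ∀ P : MvPolynomial Nat.Primes ℤ, (∀ ℓ ∈ P.vars, ¬ (ℓ : ℕ) ∣ N * p) → KillsOld N q P →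
        ∃ t : ℕ, 0 < t ∧
          (letI := ModularCurve.heckeModuleBar N
            ∀ (k : ℕ) (x : JZero N), p ^ k • x = 0 →
              (∀ σ ∈ A.inertiaSubgroupIn ℚ, σ • x = x) → t • (P • x) = 0)

/-- **ASM36-A.**  Assembly of `InertiaNewStatement`. -/
def InertiaNewAssembly : Prop :=
  (∀ (M q p : ℕ) [NeZero M] [NeZero q], InertiaNewTorsion M q p) →
  (∀ (M q : ℕ) [NeZero M] [NeZero q], q.Prime → PushHeckeComm M q) →
  (∀ (M : ℕ) [NeZero M], ConvKey M) →
  (∀ (N : ℕ) [NeZero N], ModularCurve.HeckeOperatorsCommuteBar N) →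
  (∀ (N : ℕ) [NeZero N], HeckeGaloisCommute N) →
    ∀ (N p : ℕ) [NeZero N], p.Prime → InertiaNewStatement N p

/-! ## ALG36 -/

/-- The conclusion of S36 with `𝒪'' = 𝒪'`. -/
def GalRepNotUnipConclusion (p N : ℕ) [NeZero N] (S : Finset ℕ)
    (𝒪 : Type) [CommRing 𝒪] [IsLocalRing 𝒪]
    (χ : CuspForm.heckeAlgebra N 2 (↑S : Set ℕ) →+* 𝒪) : Prop :=
  ∃ ρ : GaloisRepAdic 𝒪,
    (∀ (ℓ : ℕ) (hℓ : ℓ.Prime) (hℓN : ¬ ℓ ∣ N) (hℓS : ℓ ∉ (↑S : Set ℕ)),
      ∀ A : ValuationSubring (AlgebraicClosure ℚ), A.LiesOverPrime ℓ →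
        ∀ σ : GQ, A.IsFrobeniusAt σ ℓ →
          LinearMap.charpoly (ρ.ρ σ) =
            X ^ 2 - C (χ (CuspForm.heckeAlgebra.T hℓ hℓN hℓS)) * X + C ((ℓ : 𝒪))) ∧
    (∀ q : ℕ, q.Prime → q ≠ p → N.factorization q = 2 → ¬ ρ.IsUnipotentOnInertiaAt q)

/-- **S36 from its two open inputs** (ALG36; everything else is landed). -/
def S36Assembly : Prop :=
  (∀ (N p : ℕ) [NeZero N], p.Prime → InertiaNewStatement N p) → OldKillAllStatement →
  ∀ {M : ℕ} [NeZero M] {g : CuspForm (CongruenceSubgroup.Gamma0 M) 2} (_ : g.IsNewform)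
    (lam : ℕ) [Fact lam.Prime] (S : Finset ℕ)
    (O' : Type) [CommRing O'] [IsDomain O'] [IsDiscreteValuationRing O']
    [IsAdicComplete (IsLocalRing.maximalIdeal O') O'] [Finite (IsLocalRing.ResidueField O')]
    [CharZero O'] (_ : (lam : O') ∈ IsLocalRing.maximalIdeal O')
    (chig : CuspForm.heckeAlgebra M 2 (↑S : Set ℕ) →+* ℂ)
    (_ : ∀ (ℓ : ℕ) (hℓ : ℓ.Prime) (hℓM : ¬ ℓ ∣ M) (hℓS : ℓ ∉ (↑S : Set ℕ)),
      chig (CuspForm.heckeAlgebra.T hℓ hℓM hℓS) = ModularFormClass.qCoeff g ℓ)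
    (iota : chig.range →+* O')
    (_ : lam ∈ S) (_ : ∀ q : ℕ, q.Prime → q ∣ M → q ∈ S),
    GalRepNotUnipConclusion lam M S O' (iota.comp chig.rangeRestrict)

end Fermat.Agent.S36
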