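import Fermat.Agent.S36.Top
import Fermat.Agent.S36.InvAsm
import Fermat.Agent.S36.H73OldKill
import Fermat.Agent.S35.HK.H41PushCommAll
import Fermat.Agent.S35.HK.FinalC
import Fermat.Agent.Red.HKComm.Main

/-!
# S36: the top assembly, conditional on the four open leaves

`h37u_s36_of_leaves` : the frozen statement of S36 from

* ALG36: `S36Assembly`;
* GEOM36: `InertiaGate`, `InertiaGateDescent`, `InertiaTorsionOfGate`.

Landed and wired here: `h37u_inertiaNewAssembly`, `h41g_pushHeckeComm`, `convKey`,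
`heckeGaloisCommute`, `h73k_oldKill_all`.

Author: helper37.
-/

set_option autoImplicit false

open AlgebraicCurve ModularCurve Polynomial

noncomputable section

namespace Fermat.Agent.S36

/-- `OldKillAllStatement`, from helper73's `h73k_oldKill_all`. -/
theorem h37u_oldKillAll : OldKillAllStatement :=
  fun N _ g hg S chig hchig hS q hq hqN => h73k_oldKill_all N g hg S chig hchig hS q hq hqN

/-- GEOM36 in torsion form from the three geometric leaves. -/
theorem h37u_inertiaNewTorsion_of (hGate : InertiaGate) (hDesc : InertiaGateDescent)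
    (hTors : InertiaTorsionOfGate) (M q p : ℕ) [NeZero M] [NeZero q] :
    InertiaNewTorsion M q p :=
  hTors (hDesc hGate) M q p

/-- `InertiaNewStatement` at all levels from the three geometric leaves. -/
theorem h37u_inertiaNewStatement_of (hGate : InertiaGate) (hDesc : InertiaGateDescent)
    (hTors : InertiaTorsionOfGate) (N p : ℕ) [NeZero N] (hp : p.Prime) :
    InertiaNewStatement N p :=
  h37u_inertiaNewAssembly
    (fun M q p _ _ => h37u_inertiaNewTorsion_of hGate hDesc hTors M q p)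
    (fun M q _ _ hq => Fermat.Agent.S35.h41g_pushHeckeComm M q hq)
    (fun M _ => Fermat.Agent.S35.convKey M)
    (fun N _ => (Fermat.Agent.Red.HKComm.heckeGaloisCommute N).1)
    (fun N _ => Fermat.Agent.Red.HKComm.heckeGaloisCommute N) N p hp

/-- **S36 from the four open leaves.** -/
theorem h37u_s36_of_leaves (hAsm : S36Assembly) (hGate : InertiaGate)
    (hDesc : InertiaGateDescent) (hTors : InertiaTorsionOfGate)
    {M : ℕ} [NeZero M] {g : CuspForm (CongruenceSubgroup.Gamma0 M) 2} (hg : g.IsNewform)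
    (lam : ℕ) [Fact lam.Prime]
    (S : Finset ℕ)
    (O' : Type) [CommRing O'] [IsDomain O'] [IsDiscreteValuationRing O']
    [IsAdicComplete (IsLocalRing.maximalIdeal O') O'] [Finite (IsLocalRing.ResidueField O')]
    [CharZero O'] (hlamO' : (lam : O') ∈ IsLocalRing.maximalIdeal O')
    (chig : CuspForm.heckeAlgebra M 2 (↑S : Set ℕ) →+* ℂ)
    (hchig : ∀ (ℓ : ℕ) (hℓ : ℓ.Prime) (hℓM : ¬ ℓ ∣ M) (hℓS : ℓ ∉ (↑S : Set ℕ)),
      chig (CuspForm.heckeAlgebra.T hℓ hℓM hℓS) = ModularFormClass.qCoeff g ℓ)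
    (iota : chig.range →+* O')
    (hlamS : lam ∈ S) (hMS : ∀ q : ℕ, q.Prime → q ∣ M → q ∈ S) :
    ∃ (O'' : Type) (_ : CommRing O'') (_ : IsDomain O'') (_ : IsDiscreteValuationRing O'')
      (_ : IsAdicComplete (IsLocalRing.maximalIdeal O'') O'') (_ : Finite (IsLocalRing.ResidueField O''))
      (_ : CharZero O'') (_ : Algebra O' O'') (_ : Module.Finite O' O'') (_ : IsLocalHom (algebraMap O' O'')),
      Function.Injective (algebraMap O' O'') ∧
      ∃ ρ : GaloisRepAdic O'',
        (∀ (ℓ : ℕ) (hℓ : ℓ.Prime) (hℓM : ¬ ℓ ∣ M) (hℓS : ℓ ∉ (↑S : Set ℕ)),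
          ∀ A : ValuationSubring (AlgebraicClosure ℚ), A.LiesOverPrime ℓ →
            ∀ σ : AlgebraicClosure ℚ ≃ₐ[ℚ] AlgebraicClosure ℚ, A.IsFrobeniusAt σ ℓ →
              LinearMap.charpoly (ρ.ρ σ) =
                X ^ 2 - C (algebraMap O' O'' ((iota.comp chig.rangeRestrict) (CuspForm.heckeAlgebra.T hℓ hℓM hℓS))) * X
                  + C ((ℓ : O''))) ∧
        (∀ q : ℕ, q.Prime → q ≠ lam → M.factorization q = 2 → ¬ ρ.IsUnipotentOnInertiaAt q) :=
  h37u_s36_of hAsm (fun N p _ hp => h37u_inertiaNewStatement_of hGate hDesc hTors N p hp)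
    h37u_oldKillAll hg lam S O' hlamO' chig hchig iota hlamS hMS

end Fermat.Agent.S36
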