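import Fermat.Agent.S36.Top3
import Fermat.Agent.S36.H92Chain
import Fermat.Agent.S36.H33Desc92

/-!
# S36: the top assembly, conditional on the open blocks of the chain of GEOM36

`h37u_s36_of_chain` : the frozen statement of S36 from the three open blocks `H92Vert`, `H92Loc`,
`H92Gate` of helper92's chain (`S36/H92Chain.lean`) and `InertiaGateDescent`.  Landed and wired
here: `h92c_inertiaGate_of` (helper92), `h33d_h92Desc` (helper33), `h37u_s36_of_gate_desc`.

Author: helper37.
-/

set_option autoImplicit false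

open AlgebraicCurve ModularCurve Polynomial

noncomputable section

namespace Fermat.Agent.S36

/-- `InertiaGate` from the three open blocks of the chain. -/
theorem h37u_inertiaGate_of_chain (hV : H92Vert) (hL : H92Loc) (hG : H92Gate) : InertiaGate :=
  h92c_inertiaGate_of h33d_h92Desc hV hL hG

/-- **S36 from the open blocks of the chain and the descent to all levels.** -/
theorem h37u_s36_of_chain (hV : H92Vert) (hL : H92Loc) (hG : H92Gate)
    (hDesc : InertiaGateDescent)
    {M : ℕ} [NeZero M] {g : CuspForm (CongruenceSubgroup.Gamma0 M) 2} (hg : g.IsNewform)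
    (lam : ℕ) [Fact lam.Prime]
    (S : Finset ℕ)
    (O' : Type) [CommRing O'] [IsDomain O'] [IsDiscreteValuationRing O']
    [IsAdicComplete (IsLocalRing.maximalIdeal O') O'] [Finite (IsLocalRing.ResidueField O')]
    [CharZero O'] (hlamO' : (lam : O') ∈ IsLocalRing.maximalIdeal O')
    (chig : CuspForm.heckeAlgebra M 2 (↑S : Set ℕ) →+* ℂ)
    (hchig : ∀ (ℓ : ℕ) (hℓ : ℓ.Prime) (hℓM : ¬ ℓ ∣ M) (hℓS : ℓ ∉ (↑S : Set ℕ)),
      chig (CuspForm.heckeAlgebra.T hℓ hℓM hℓS) = ModularFormClass.qCoeff g ℓ)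
    (iota : chig.range →+* O')
    (hlamS : lam ∈ S) (hMS : ∀ q : ℕ, q.Prime → q ∣ M → q ∈ S) :
    ∃ (O'' : Type) (_ : CommRing O'') (_ : IsDomain O'') (_ : IsDiscreteValuationRing O'')
      (_ : IsAdicComplete (IsLocalRing.maximalIdeal O'') O'') (_ : Finite (IsLocalRing.ResidueField O''))
      (_ : CharZero O'') (_ : Algebra O' O'') (_ : Module.Finite O' O'') (_ : IsLocalHom (algebraMap O' O'')),
      Function.Injective (algebraMap O' O'') ∧
      ∃ ρ : GaloisRepAdic O'',
        (∀ (ℓ : ℕ) (hℓ : ℓ.Prime) (hℓM : ¬ ℓ ∣ M) (hℓS : ℓ ∉ (↑S : Set ℕ)),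
          ∀ A : ValuationSubring (AlgebraicClosure ℚ), A.LiesOverPrime ℓ →
            ∀ σ : AlgebraicClosure ℚ ≃ₐ[ℚ] AlgebraicClosure ℚ, A.IsFrobeniusAt σ ℓ →
              LinearMap.charpoly (ρ.ρ σ) =
                X ^ 2 - C (algebraMap O' O'' ((iota.comp chig.rangeRestrict) (CuspForm.heckeAlgebra.T hℓ hℓM hℓS))) * X
                  + C ((ℓ : O''))) ∧
        (∀ q : ℕ, q.Prime → q ≠ lam → M.factorization q = 2 → ¬ ρ.IsUnipotentOnInertiaAt q) :=
  h37u_s36_of_gate_desc (h37u_inertiaGate_of_chain hV hL hG) hDesc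
    hg lam S O' hlamO' chig hchig iota hlamS hMS

end Fermat.Agent.S36
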