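import Fermat.Agent.S36.V28Fix
import Fermat.Agent.S36.V28Cyc

/-!
# S36 (V), part 3: discreteness of a Gauss valuation along an embedding with coefficients in
a subfield (for the middle valuation `W₁₁`)

`A` a valuation subring of `ℚ̄` over `ℓ`, `K₁ ⊆ ℚ̄` a subfield (e.g. `K₀(ζ_q)`), `π ∈ ℚ̄` a
"uniformiser of `K₁`": every nonzero `c ∈ K₁` is `π ^ n` times a unit of `A`.

* `h28m_T K₁` : the subfield of `ℚ̄((t))` of fractions of discrete series with coefficients
  in `K₁`.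
* `h28m_exists_scale` : a nonzero `y ∈ T` is `c⁻¹ · a / b`, `c ∈ K₁`, `a, b ∈ A((t))` with
  nonzero reduction.
* `h28m_exists_zpow` : a nonzero `y ∈ T` is `π ^ n` times a unit of the Gauss ring `softOT`.
* `h28m_map_mem_T` : a ring homomorphism `ι : FF N → ℚ̄((t))` which is the identity on the
  constants of `K₀` and maps the generators `j(q ^ d)`, `d ∣ N`, into `T` maps all functions
  fixed by inertia into `T`.
* `h28m_iota_exists_zpow` : hence `W := softOT.comap ι` is DISCRETE on the fixed functions.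
* `h28m_mid_exists_zpow` : the case `K₁ = K₀(ζ_q)`, `π = 1 - ζ`.
-/

set_option autoImplicit false
set_option linter.unusedSectionVars false
set_option linter.style.haveILetI false

open ModularCurve AlgebraicCurve

noncomputable section

namespace Fermat.Agent.S36.V28

open Fermat.Agent.S05 Fermat.Agent.S37 Fermat.Agent.Red.GV Fermat.Agent.Red.GV.Soft
open Fermat.Agent.S36 (h23u_K0 h23u_A0 h23u_mem_K0_iff h23u_exists_zpow)

variable (A : ValuationSubring Kbar) (K₁ : IntermediateField ℚ Kbar)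

/-- the valuation ring `A ∩ K₁`. -/
def h28m_A1 : ValuationSubring K₁ :=
  A.comap (algebraMap K₁ Kbar)

/-- the inclusion `A ∩ K₁ → A`. -/
def h28m_incl : h28m_A1 A K₁ →+* A where
  toFun a := ⟨((a : K₁) : Kbar), a.2⟩
  map_one' := rfl
  map_mul' _ _ := rfl
  map_zero' := rfl
  map_add' _ _ := rfl

/-- the residue map of `A ∩ K₁` with values in the residue field of `A`. -/
def h28m_res1 : h28m_A1 A K₁ →+* IsLocalRing.ResidueField A :=
  (IsLocalRing.residue A).comp (h28m_incl A K₁)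

/-- base change of series from `K₁` to `ℚ̄`. -/
abbrev h28m_bc : LaurentSeries K₁ →+* LaurentSeries Kbar :=
  coeffMap (algebraMap K₁ Kbar)

theorem h28m_bc_injective : Function.Injective (h28m_bc K₁) :=
  (h28m_bc K₁).injective

theorem h28m_isAlgebraic_int :
    @Algebra.IsAlgebraic ℤ K₁ _ _ (Ring.toIntAlgebra _) := by
  refine @Algebra.IsAlgebraic.mk ℤ K₁ _ _ (Ring.toIntAlgebra _) (fun c => ?_)
  have h1 : IsAlgebraic ℤ ((c : K₁) : Kbar) :=
    (RO.isAlgebraic_int_Qbar).isAlgebraic _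
  obtain ⟨P, hP0, hP⟩ := h1
  refine ⟨P, hP0, ?_⟩
  apply (algebraMap K₁ Kbar).injective
  rw [map_zero, ← hP, Polynomial.aeval_def, Polynomial.aeval_def, Polynomial.hom_eval₂]
  congr 1

theorem h28m_mem_nonunits_A1_iff (c : K₁) :
    c ∈ (h28m_A1 A K₁).nonunits ↔ (c : Kbar) ∈ A.nonunits := by
  rw [h28v_mem_nonunits_iff_aux, h28v_mem_nonunits_iff_aux]
  show (c = 0 ∨ ((c⁻¹ : K₁) : Kbar) ∉ A) ↔ _
  simp

/-- the subfield of `ℚ̄((t))` of fractions of discrete series with coefficients in `K₁`. -/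
def h28m_T : Subfield (LaurentSeries Kbar) :=
  (dfField (K := K₁)).map (h28m_bc K₁)

theorem h28m_mem_T_iff (y : LaurentSeries Kbar) :
    y ∈ h28m_T K₁ ↔ ∃ g ∈ dfField (K := K₁), h28m_bc K₁ g = y :=
  Iff.rfl

theorem h28m_C_mem_T (c : Kbar) (hc : c ∈ K₁) : (HahnSeries.C c : LaurentSeries Kbar) ∈ h28m_T K₁ := by
  refine ⟨HahnSeries.C (⟨c, hc⟩ : K₁), C_mem_dfField _, ?_⟩
  exact coeffMap_single _ 0 _

/-- a discrete series with coefficients in `K₁` lies in `T`. -/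
theorem h28m_mem_T_of_isDisc (g : LaurentSeries K₁) (hg : IsDisc g) :
    h28m_bc K₁ g ∈ h28m_T K₁ :=
  ⟨g, isDF_of_isDisc hg, rfl⟩

/-- series with integer coefficients lie in `T`. -/
theorem h28m_coeffMap_int_mem_T (y : LaurentSeries ℤ) :
    coeffMap (Int.castRingHom Kbar) y ∈ h28m_T K₁ := by
  refine ⟨coeffMap (Int.castRingHom K₁) y, coeffMap_int_mem_dfField y, ?_⟩
  rw [h28m_bc, coeffMap_coeffMap]
  exact coeffMap_congr (RingHom.ext fun r => by simp) y

variable {ℓ : ℕ}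

/-- **Scaling over `K₁`.** -/
theorem h28m_exists_scale (hℓ : ℓ.Prime) (hA : A.LiesOverPrime ℓ) (y : LaurentSeries Kbar)
    (hy : y ∈ h28m_T K₁) (hy0 : y ≠ 0) :
    ∃ (c : Kbar) (a b : LaurentSeries A), c ∈ K₁ ∧ c ≠ 0 ∧
      redA (IsLocalRing.residue A) a ≠ 0 ∧ redA (IsLocalRing.residue A) b ≠ 0 ∧
      embA A a = (HahnSeries.C c * y) * embA A b := by
  obtain ⟨g, hdf, hgy⟩ := hy
  have : Algebra.IsAlgebraic ℚ Kbar := AlgebraicClosure.isAlgebraic ℚ
  have : Algebra.IsAlgebraic ℚ K₁ := IntermediateField.isAlgebraic_tower_bot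
  have hA0 : ((ℓ : ℕ) : K₁) ∈ (h28m_A1 A K₁).nonunits := by
    rw [h28m_mem_nonunits_A1_iff]
    exact hA
  obtain ⟨ord, hord⟩ :=
    @RO.exists_isOrd _ _ (h28m_A1 A K₁) _ (h28m_isAlgebraic_int K₁) ℓ hℓ hA0
  have hg0 : g ≠ 0 := by
    rintro rfl
    apply hy0
    rw [← hgy, map_zero]
  obtain ⟨c, a, b, hc, ha, hb, hab⟩ := exists_scale (h28m_res1 A K₁) hord hℓ hdf hg0
  have hemb : ∀ z : LaurentSeries (h28m_A1 A K₁),
      embA A (coeffMap (h28m_incl A K₁) z) = h28m_bc K₁ (embA (h28m_A1 A K₁) z) :=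
    soft_embA_coeffMap (algebraMap K₁ Kbar) (h28m_incl A K₁) (fun _ => rfl)
  have hred : ∀ z : LaurentSeries (h28m_A1 A K₁),
      redA (IsLocalRing.residue A) (coeffMap (h28m_incl A K₁) z) =
        redA (h28m_res1 A K₁) z := by
    intro z
    have h1 := soft_redA_coeffMap (π := h28m_res1 A K₁) (π' := IsLocalRing.residue A)
      (h28m_incl A K₁) (RingHom.id _) (fun _ => rfl) z
    rw [h1, coeffMap_id]
  refine ⟨(c : Kbar), coeffMap (h28m_incl A K₁) a, coeffMap (h28m_incl A K₁) b, c.2,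
    ?_, ?_, ?_, ?_⟩
  · intro h0
    exact hc (Subtype.ext h0)
  · rw [hred]; exact ha
  · rw [hred]; exact hb
  · rw [hemb, hemb, hab, map_mul, map_mul, hgy]
    congr 2
    exact coeffMap_single _ 0 c

/-- **Discreteness.**  If every nonzero element of `K₁` is `π ^ n` times a unit of `A`, then
every nonzero element of `T` is `π ^ n` times a unit of the Gauss ring. -/
theorem h28m_exists_zpow (hℓ : ℓ.Prime) (hA : A.LiesOverPrime ℓ) (π : Kbar) (hπ0 : π ≠ 0)
    (hval : ∀ c ∈ K₁, c ≠ 0 → ∃ n : ℤ, c / π ^ n ∈ A ∧ (c / π ^ n)⁻¹ ∈ A)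
    (y : LaurentSeries Kbar) (hy : y ∈ h28m_T K₁) (hy0 : y ≠ 0) :
    ∃ n : ℤ, HahnSeries.C (π ^ n) * y ∈ softOT A (IsLocalRing.residue A) ∧
      (HahnSeries.C (π ^ n) * y)⁻¹ ∈ softOT A (IsLocalRing.residue A) := by
  obtain ⟨c, a, b, hcK, hc, ha, hb, hab⟩ := h28m_exists_scale A K₁ hℓ hA y hy hy0
  have hw : IsWit A (IsLocalRing.residue A) (HahnSeries.C c * y) a b := ⟨hb, hab⟩
  have hu : HahnSeries.C c * y ∈ softOT A (IsLocalRing.residue A) := ⟨a, b, hw⟩
  have hui : (HahnSeries.C c * y)⁻¹ ∈ softOT A (IsLocalRing.residue A) := ⟨b, a, hw.inv ha⟩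
  obtain ⟨n, hn1, hn2⟩ := hval c hcK hc
  have hz0 : π ^ n ≠ 0 := zpow_ne_zero _ hπ0
  have e : (HahnSeries.C (π ^ n) : LaurentSeries Kbar) * y =
      HahnSeries.C ((c / π ^ n)⁻¹) * (HahnSeries.C c * y) := by
    rw [← mul_assoc, ← map_mul]
    congr 2
    field_simp
  refine ⟨n, ?_, ?_⟩
  · rw [e]
    exact mul_mem (C_mem_softOT A _ ⟨_, hn2⟩) hu
  · have e' : ((HahnSeries.C (π ^ n) : LaurentSeries Kbar) * y)⁻¹ =
        HahnSeries.C (c / π ^ n) * (HahnSeries.C c * y)⁻¹ := by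
      rw [e, mul_inv, ← map_inv₀, inv_inv]
    rw [e']
    exact mul_mem (C_mem_softOT A _ ⟨_, hn1⟩) hui

/-! ### Embeddings of the function field -/

section Iota

variable {A K₁}
variable {N : ℕ} (ι : FF N →+* LaurentSeries Kbar)

/-- **Step A.**  If `ι` maps the generators `j(q ^ d)`, `d ∣ N`, into `T` then it maps the
rational function field into `T`. -/
theorem h28m_map_rat_mem_T
    (hcst : ∀ c : Kbar, ι (cst N c) = HahnSeries.C c)
    (hgen : ∀ (d : ℕ) (_ : NeZero d) (_ : d ∣ N)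
      (h : coeffEmb Kbar (qExpand ℚ d jq) ∈ modularFunctionFieldBar N),
      ι ⟨coeffEmb Kbar (qExpand ℚ d jq), h⟩ ∈ h28m_T K₁)
    (f : LaurentSeries ℚ) (hf : f ∈ modularFunctionFieldFull N)
    (h : coeffEmb Kbar f ∈ modularFunctionFieldBar N) :
    ι ⟨coeffEmb Kbar f, h⟩ ∈ h28m_T K₁ := by
  have key : ∀ f (hf : f ∈ modularFunctionFieldFull N),
      ι ⟨coeffEmb Kbar f, coeffEmb_mem_laurentBaseChange Kbar hf⟩ ∈ h28m_T K₁ := by
    intro f hf
    induction hf using IntermediateField.adjoin_induction with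
    | mem x hx =>
      obtain ⟨d, hd0, hd, rfl⟩ := hx
      exact hgen d hd0 hd _
    | algebraMap r =>
      have h1 : (⟨coeffEmb Kbar (algebraMap ℚ (LaurentSeries ℚ) r),
          coeffEmb_mem_laurentBaseChange Kbar (IntermediateField.algebraMap_mem _ r)⟩ : FF N) =
          cst N (algebraMap ℚ Kbar r) := by
        apply Subtype.ext
        show coeffEmb Kbar (algebraMap ℚ (LaurentSeries ℚ) r) =
          algebraMap Kbar (LaurentSeries Kbar) (algebraMap ℚ Kbar r)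
        rw [algebraMap_laurentSeries_eq_single, algebraMap_laurentSeries_eq_single,
          coeffEmb, coeffMap_single]
      rw [h1, hcst]
      exact h28m_C_mem_T K₁ _ (K₁.algebraMap_mem r)
    | add x y hx hy ihx ihy =>
      have h1 : (⟨coeffEmb Kbar (x + y),
          coeffEmb_mem_laurentBaseChange Kbar (add_mem hx hy)⟩ : FF N) =
          ⟨coeffEmb Kbar x, coeffEmb_mem_laurentBaseChange Kbar hx⟩ +
            ⟨coeffEmb Kbar y, coeffEmb_mem_laurentBaseChange Kbar hy⟩ :=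
        Subtype.ext (map_add _ _ _)
      rw [h1, map_add]
      exact add_mem ihx ihy
    | inv x hx ihx =>
      have h1 : (⟨coeffEmb Kbar x⁻¹,
          coeffEmb_mem_laurentBaseChange Kbar (inv_mem hx)⟩ : FF N) =
          (⟨coeffEmb Kbar x, coeffEmb_mem_laurentBaseChange Kbar hx⟩ : FF N)⁻¹ :=
        Subtype.ext (map_inv₀ _ _)
      rw [h1, map_inv₀]
      exact inv_mem ihx
    | mul x y hx hy ihx ihy =>
      have h1 : (⟨coeffEmb Kbar (x * y),
          coeffEmb_mem_laurentBaseChange Kbar (mul_mem hx hy)⟩ : FF N) =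
          ⟨coeffEmb Kbar x, coeffEmb_mem_laurentBaseChange Kbar hx⟩ *
            ⟨coeffEmb Kbar y, coeffEmb_mem_laurentBaseChange Kbar hy⟩ :=
        Subtype.ext (map_mul _ _ _)
      rw [h1, map_mul]
      exact mul_mem ihx ihy
  exact key f hf

/-- **Step B.**  If `ι` is the identity on constants and maps the generators `j(q ^ d)`,
`d ∣ N`, into `T`, and `K₀ ≤ K₁`, then `ι` maps every function fixed by inertia into `T`. -/
theorem h28m_map_mem_T (hK : h23u_K0 A ≤ K₁)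
    (hcst : ∀ c : Kbar, ι (cst N c) = HahnSeries.C c)
    (hgen : ∀ (d : ℕ) (_ : NeZero d) (_ : d ∣ N)
      (h : coeffEmb Kbar (qExpand ℚ d jq) ∈ modularFunctionFieldBar N),
      ι ⟨coeffEmb Kbar (qExpand ℚ d jq), h⟩ ∈ h28m_T K₁)
    (u : FF N) (hu : h28v_IFixed A N u) : ι u ∈ h28m_T K₁ := by
  obtain ⟨g, hg, hgu⟩ := h28v_exists_series A N u hu
  have key : ∀ g (hg : g ∈ h28v_FK0 A N),
      ι ⟨h28v_bc A g, h28v_bc_mem A N g hg⟩ ∈ h28m_T K₁ := by
    intro g hg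
    induction hg using IntermediateField.adjoin_induction with
    | mem x hx =>
      obtain ⟨f, hf, rfl⟩ := hx
      have h1 : (⟨h28v_bc A (coeffEmb (h28v_K0 A) f), h28v_bc_mem A N _
          (IntermediateField.subset_adjoin _ _ ⟨f, hf, rfl⟩)⟩ : FF N) =
          ⟨coeffEmb Kbar f, coeffEmb_mem_laurentBaseChange Kbar hf⟩ :=
        Subtype.ext (h28v_bc_coeffEmb A f)
      rw [h1]
      exact h28m_map_rat_mem_T ι hcst hgen f hf _
    | algebraMap c =>
      have h1 : (⟨h28v_bc A (algebraMap (h28v_K0 A) (LaurentSeries (h28v_K0 A)) c),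
          h28v_bc_mem A N _ (IntermediateField.algebraMap_mem _ c)⟩ : FF N) =
          cst N (c : Kbar) := by
        apply Subtype.ext
        show h28v_bc A (algebraMap (h28v_K0 A) (LaurentSeries (h28v_K0 A)) c) =
          algebraMap Kbar (LaurentSeries Kbar) (c : Kbar)
        rw [algebraMap_laurentSeries_eq_single, algebraMap_laurentSeries_eq_single, h28v_bc,
          coeffMap_single]
        rfl
      rw [h1, hcst]
      exact h28m_C_mem_T K₁ _ (hK c.2)
    | add x y hx hy ihx ihy =>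
      have h1 : (⟨h28v_bc A (x + y), h28v_bc_mem A N _ (add_mem hx hy)⟩ : FF N) =
          ⟨h28v_bc A x, h28v_bc_mem A N _ hx⟩ + ⟨h28v_bc A y, h28v_bc_mem A N _ hy⟩ :=
        Subtype.ext (map_add _ _ _)
      rw [h1, map_add]
      exact add_mem ihx ihy
    | inv x hx ihx =>
      have h1 : (⟨h28v_bc A x⁻¹, h28v_bc_mem A N _ (inv_mem hx)⟩ : FF N) =
          (⟨h28v_bc A x, h28v_bc_mem A N _ hx⟩ : FF N)⁻¹ :=
        Subtype.ext (map_inv₀ _ _)
      rw [h1, map_inv₀]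
      exact inv_mem ihx
    | mul x y hx hy ihx ihy =>
      have h1 : (⟨h28v_bc A (x * y), h28v_bc_mem A N _ (mul_mem hx hy)⟩ : FF N) =
          ⟨h28v_bc A x, h28v_bc_mem A N _ hx⟩ * ⟨h28v_bc A y, h28v_bc_mem A N _ hy⟩ :=
        Subtype.ext (map_mul _ _ _)
      rw [h1, map_mul]
      exact mul_mem ihx ihy
  have h2 : u = ⟨h28v_bc A g, h28v_bc_mem A N g hg⟩ := Subtype.ext hgu.symm
  rw [h2]
  exact key g hg

variable {ℓ : ℕ}

/-- **Discreteness of `W = softOT.comap ι` on the functions fixed by inertia.** -/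
theorem h28m_iota_exists_zpow (hℓ : ℓ.Prime) (hA : A.LiesOverPrime ℓ)
    (hK : h23u_K0 A ≤ K₁) (π : Kbar) (hπ0 : π ≠ 0)
    (hval : ∀ c ∈ K₁, c ≠ 0 → ∃ n : ℤ, c / π ^ n ∈ A ∧ (c / π ^ n)⁻¹ ∈ A)
    (hcst : ∀ c : Kbar, ι (cst N c) = HahnSeries.C c)
    (hgen : ∀ (d : ℕ) (_ : NeZero d) (_ : d ∣ N)
      (h : coeffEmb Kbar (qExpand ℚ d jq) ∈ modularFunctionFieldBar N),
      ι ⟨coeffEmb Kbar (qExpand ℚ d jq), h⟩ ∈ h28m_T K₁)
    (u : FF N) (hu : h28v_IFixed A N u) (hu0 : u ≠ 0) :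
    ∃ n : ℤ, ι (cst N (π ^ n) * u) ∈ softOT A (IsLocalRing.residue A) ∧
      (ι (cst N (π ^ n) * u))⁻¹ ∈ softOT A (IsLocalRing.residue A) := by
  have h1 := h28m_map_mem_T ι hK hcst hgen u hu
  have h2 : ι u ≠ 0 := (map_ne_zero_iff ι ι.injective).mpr hu0
  obtain ⟨n, hn1, hn2⟩ := h28m_exists_zpow A K₁ hℓ hA π hπ0 hval (ι u) h1 h2
  refine ⟨n, ?_, ?_⟩
  · rw [map_mul, hcst]; exact hn1
  · rw [map_mul, hcst]; exact hn2

end Iota

/-! ### The middle valuation: `K₁ = K₀(ζ_q)`, `π = 1 - ζ` -/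

section Mid

variable {A}
variable {q : ℕ} (ζ : Kbar)

/-- the field `K₀(ζ)` as a subfield of `ℚ̄` over `ℚ`. -/
def h28m_K1 : IntermediateField ℚ Kbar :=
  (IntermediateField.adjoin (h23u_K0 A) {ζ}).restrictScalars ℚ

theorem h28m_mem_K1_iff (c : Kbar) :
    c ∈ h28m_K1 (A := A) ζ ↔ c ∈ IntermediateField.adjoin (h23u_K0 A) {ζ} :=
  Iff.rfl

theorem h28m_K0_le_K1 : h23u_K0 A ≤ h28m_K1 (A := A) ζ := by
  intro c hc
  rw [h28m_mem_K1_iff]
  exact (IntermediateField.adjoin (h23u_K0 A) {ζ}).algebraMap_mem ⟨c, hc⟩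

theorem h28m_zeta_mem_K1 : ζ ∈ h28m_K1 (A := A) ζ :=
  IntermediateField.mem_adjoin_simple_self _ ζ

/-- **Discreteness of the middle valuation.**  For a primitive `q`-th root of unity `ζ` and an
embedding `ι` of `FF N` which is the identity on constants and maps the generators into
fractions of discrete series with coefficients in `K₀(ζ)`: every nonzero function `u` fixed
by inertia is `(1 - ζ) ^ n` times a unit of `W = softOT.comap ι`. -/
theorem h28m_mid_exists_zpow {N : ℕ} (ι : FF N →+* LaurentSeries Kbar)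
    (hq : q.Prime) (hA : A.LiesOverPrime q) (hζ : IsPrimitiveRoot ζ q)
    (hcst : ∀ c : Kbar, ι (cst N c) = HahnSeries.C c)
    (hgen : ∀ (d : ℕ) (_ : NeZero d) (_ : d ∣ N)
      (h : coeffEmb Kbar (qExpand ℚ d jq) ∈ modularFunctionFieldBar N),
      ι ⟨coeffEmb Kbar (qExpand ℚ d jq), h⟩ ∈ h28m_T (h28m_K1 (A := A) ζ))
    (u : FF N) (hu : h28v_IFixed A N u) (hu0 : u ≠ 0) :
    ∃ n : ℤ, ι (cst N ((1 - ζ) ^ n) * u) ∈ softOT A (IsLocalRing.residue A) ∧
      (ι (cst N ((1 - ζ) ^ n) * u))⁻¹ ∈ softOT A (IsLocalRing.residue A) :=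
  h28m_iota_exists_zpow ι hq hA (h28m_K0_le_K1 ζ) (1 - ζ)
    (sub_ne_zero.mpr (hζ.ne_one hq.one_lt).symm)
    (fun _ hc hc0 => h28c_exists_zpow hq hA hζ hc hc0) hcst hgen u hu hu0

end Mid

end Fermat.Agent.S36.V28
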